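import Mathlib
import Fermat.Agent.Pack.LT3.E21L3
import Fermat.Agent.Pack.LT3.E5L2
import Fermat.Agent.Pack.LT3.E3L1
import Fermat.Agent.Pack.LT3.E2L3
import Fermat.Agent.Pack.LT3.E6L2
import Fermat.Agent.Pack.LT3.E5L0
import Fermat.Agent.Pack.LT3.E5L1
import Fermat.Agent.Pack.LT3.E5L3
import Fermat.Agent.Pack.LT3.E22L3
import Fermat.Agent.Pack.LT2.E6L2
import Fermat.Agent.Pack.LT3.E21L0
import Fermat.Agent.Pack.LT3.E22L0
import Fermat.Agent.Pack.LT3.E4L1
import Fermat.Agent.Pack.LT3.E11L3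
import Fermat.Agent.Pack.LT3.E3L3
import Fermat.Agent.Pack.LT3.E13L2
import Fermat.Agent.Pack.LT2.E2L3
import Fermat.Agent.Pack.LT3.E22L2
import Fermat.Agent.Pack.LT3.E22L1
import Fermat.Agent.Pack.LT3.E21L2
import Fermat.Agent.Pack.LT3.E2L1
import Fermat.Agent.Pack.LT3.E19L3
import Fermat.Agent.Pack.LT3.E21L1
import Fermat.Agent.Pack.LT2.E7L1

set_option linter.all false

-- ===== PACK-BEGIN LT/T6/H855/HypClosed.lean
section












/-!
# Row LT, tower T6, registry row 1260 = T6.25 `ArchHyp` (helper855): CLOSED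

OFF-MAIN.  `hypMatchC_closed855 : H626.HypMatchC626` (= T6.20d of the cut of helper626, VERBATIM),
UNCONDITIONAL: `hypMatchC855` applied to the Iwasawa integration formulas of T6.23
(helper189 `iwaOfRC189`, helper972 `rightInvRC972`, helper569 `iwaHomeoRC569`,
helper79 `circleMeasC_79`, helper848 `iwaOfCC848`, helper8 `rightInvCC_h8`,
helper905 `iwaHomeoCC905`, helper965 `u2CompactC965`, helper216 `u2HaarOf216`;
byte copies of origin/helper189@82225c074).
-/

set_option autoImplicit false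

namespace Fermat.Agent.LT.T6.H855

open Fermat.Agent.LT.T6

/-- The Iwasawa integration formula on `GL₂(ℝ)⁺` (T6.23), unconditional. -/
theorem iwasawaRC_closed855 : H189.IwasawaRC :=
  H189.iwaOfRC189 H972.rightInvRC972 H569.iwaHomeoRC569 H79.circleMeasC_79

/-- The Haar probability measure of `U(2)` (T6.23), unconditional. -/
theorem u2HaarC_closed855 : H189.U2HaarC :=
  H216.u2HaarOf216 H965.u2CompactC965

/-- The Iwasawa integration formula on `GL₂(ℂ)` (T6.23), unconditional. -/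
theorem iwasawaCC_closed855 : H189.IwasawaCC :=
  H848.iwaOfCC848 H8.rightInvCC_h8 H905.iwaHomeoCC905 H965.u2CompactC965

/-- **T6.25 = T6.20d `HypMatchC626`, UNCONDITIONAL.** -/
theorem hypMatchC_closed855 : H626.HypMatchC626 :=
  hypMatchC855 iwasawaRC_closed855 u2HaarC_closed855 iwasawaCC_closed855

end Fermat.Agent.LT.T6.H855

end
-- ===== PACK-END LT/T6/H855/HypClosed.lean

-- ===== PACK-BEGIN LT/T7/H616/ClassModelSpec.lean
section


/-!
# Row LT, tower T7, node T7.L2.2.N.1 `ClassModelC` (deputy sub-architect helper616): THE CUT, v0.1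

OFF-MAIN.  Definitions, frozen Props, PROVED top.  No hole, nothing assumed.  ADDITIVE:
`T7/H736/NonVan.lean` (helper736, sha256 083ede40) is imported as it is.

    classModelC_of616 : FinDimC616 K K' → NontrivC616 K K' → StabGC616 K K' → StabSC616 K K'
        → CommGIC616 K K' → LocCommC616 K K' → LocMoveC616 K K' → PowC616 K K'
        → SimpleC616 K K' → MulGC616 K K' → DictC616 K K' → SU736.ClassModelC K K'

## The model (CONCRETE, proof-free definitions)

* `cls616 Dt ℓ Φ`  = the span of the invariant eigenfunctions with data `eigOf Φ` at the base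
  level (`IsEigFn 𝔑₀ r ℓ o ψ (eigOf Φ)`), a submodule of `G K' → ℂ`; `V = ↥(cls616 Dt ℓ Φ)`;
* `restr616 p f`   = the restriction of the linear map `f` to `p` when `f` preserves `p`
  (and `0` otherwise);
* `𝒢 = gSet616`    = the restrictions of `cosetLin616 Hg = [U g U]`, `g` bad,
  `IsDblCosetSystem 𝔑₀ g Hg`;
* `ℐ j = iSet616 j` = the restrictions of ALL the sums of right translates `cosetLin616 H`,
  `H` a finite set of elements supported at `o j`, which preserve the class space (this contains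
  the Iwahori--Hecke operators `[I x I]` at `o j`; a bigger set makes `hirr` WEAKER);
* `S = R(σ)`, `Sinv = R(σ)⁻¹` (`ψ ↦ ψ ∘ σ`) restricted to the class space.

## The leaves (all in elementary form: functions on `GL₂(𝔸_{K'})`, no operator algebra)

Context of every leaf: `Ctx616 K K' ℓ Φ Dt` = the hypotheses of `ClassModelC`.

| leaf | name | statement |
|---|---|---|
| CM.01 | `FinDimC616`  | the class space is finite dimensional (T2: Hilbert--Schmidt bound) |
| CM.02 | `NontrivC616` | there is a non-zero eigenfunction with data `eigOf Φ` (the form of `Φ`) |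
| CM.03 | `StabGC616`   | `[U g U]` (`g` bad) maps eigenfunctions to eigenfunctions |
| CM.04 | `StabSC616`   | `R(σ)` and `R(σ)⁻¹` map eigenfunctions to eigenfunctions |
| CM.05 | `CommGIC616`  | `[U g U]` commutes with the sums of translates supported at `o j` |
| CM.06 | `LocCommC616` | elements supported at `o i`, `o j` (`i ≠ j < ℓ`) commute |
| CM.07 | `LocMoveC616` | `σ⁻¹` moves the elements supported at `o (j+1)` to `o j`, `o 0` to `o (ℓ-1)` |
| CM.08 | `PowC616`     | `σ⁻ℓ = 1` on `GL₂(𝔸_{K'})` |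
| CM.09 | `SimpleC616`  | multiplicity one in module form (helper963) |
| CM.10 | `MulGC616`    | `[U g U][U g' U] = ∑ c_i [U g_i U]`, `g_i` bad |
| CM.11 | `DictC616`    | twisted trace in an orthonormal class basis = trace on the model |
-/

set_option autoImplicit false

open AutomorphicForm IsDedekindDomain NumberField MeasureTheory
open scoped ComplexConjugate

noncomputable section

namespace Fermat.Agent.LT.T7.CM616

open Fermat.Agent.LT.H556 Fermat.Agent.LT.H556.A0 Fermat.Agent.LT.T7 Fermat.Agent.LT.T7.SU736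

attribute [local instance] Fermat.Agent.LT.T5.instMeasurableSpaceG

/-! ## 1. Operators as linear maps -/

section Ops

variable {K : Type} [Field K] [NumberField K]

/-- `cosetOp H` as a linear map. -/
def cosetLin616 (H : Finset (G K)) : (G K → ℂ) →ₗ[ℂ] (G K → ℂ) where
  toFun ψ := cosetOp H ψ
  map_add' ψ ψ' := by
    funext x
    simp only [cosetOp, Pi.add_apply, Finset.sum_add_distrib]
  map_smul' c ψ := by
    funext x
    simp only [cosetOp, Pi.smul_apply, smul_eq_mul, RingHom.id_apply, Finset.mul_sum]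

/-- `R(σ)` (`T5.Rsig s`) as a linear map. -/
def rsigLin616 (s : T5.AdelicAut K) : (G K → ℂ) →ₗ[ℂ] (G K → ℂ) where
  toFun ψ := T5.Rsig s ψ
  map_add' _ _ := rfl
  map_smul' _ _ := rfl

/-- `R(σ)⁻¹ : ψ ↦ ψ ∘ σ` as a linear map. -/
def rsigInvLin616 (s : T5.AdelicAut K) : (G K → ℂ) →ₗ[ℂ] (G K → ℂ) where
  toFun ψ := fun x => ψ (s.onG x)
  map_add' _ _ := rfl
  map_smul' _ _ := rfl

/-- The span of the invariant eigenfunctions with data `C`. -/
def classSp616 (𝔫 : Ideal (𝓞 K)) (r : G K) (l : ℕ) (o : ℕ → HeightOneSpectrum (𝓞 K))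
    (C : EigData K) : Submodule ℂ (G K → ℂ) :=
  Submodule.span ℂ {ψ | IsEigFn 𝔫 r l o ψ C}

/-- The restriction of `f` to `p` when `f` preserves `p`, and `0` otherwise. -/
def restr616 {M : Type} [AddCommGroup M] [Module ℂ M] (p : Submodule ℂ M) (f : M →ₗ[ℂ] M) :
    Module.End ℂ p :=
  open Classical in if h : ∀ x ∈ p, f x ∈ p then f.restrict h else 0

/-- `ψ` is right invariant under the level group `U(𝔫)`. -/
def IsLevelInv616 (𝔫 : Ideal (𝓞 K)) (ψ : G K → ℂ) : Prop :=
  ∀ u : G K, InLevelGroup 𝔫 u → ∀ x : G K, ψ (x * u) = ψ x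

end Ops

/-! ## 2. The model -/

section Model

variable {K K' : Type} [Field K] [NumberField K] [Field K'] [NumberField K'] [Algebra K K']

/-- The class space of `Φ` at the base level. -/
def cls616 (Dt : L2Data K K') (ℓ : ℕ) (Φ : HeckeEigensystem K' ℂ) : Submodule ℂ (G K' → ℂ) :=
  classSp616 Dt.𝔑₀ Dt.R'.r ℓ Dt.o (eigOf Φ)

/-- The double coset operators of the bad elements on the class space. -/
def gSet616 (Dt : L2Data K K') (ℓ : ℕ) (Φ : HeckeEigensystem K' ℂ) :
    Set (Module.End ℂ (cls616 Dt ℓ Φ)) :=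
  {T | ∃ (g : G K') (Hg : Finset (G K')), Dt.IsBad g ∧ IsDblCosetSystem Dt.𝔑₀ g Hg ∧
    T = restr616 (cls616 Dt ℓ Φ) (cosetLin616 Hg)}

/-- The sums of right translates supported at `o j` which preserve the class space. -/
def iSet616 (Dt : L2Data K K') (ℓ : ℕ) (Φ : HeckeEigensystem K' ℂ) (j : ℕ) :
    Set (Module.End ℂ (cls616 Dt ℓ Φ)) :=
  {T | ∃ H : Finset (G K'), (∀ h ∈ H, IsLocalAtFin (Dt.o j) h) ∧
    (∀ ψ ∈ cls616 Dt ℓ Φ, cosetLin616 H ψ ∈ cls616 Dt ℓ Φ) ∧
    T = restr616 (cls616 Dt ℓ Φ) (cosetLin616 H)}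

/-- `R(σ)` on the class space. -/
def sOp616 (Dt : L2Data K K') (ℓ : ℕ) (Φ : HeckeEigensystem K' ℂ) :
    Module.End ℂ (cls616 Dt ℓ Φ) :=
  restr616 (cls616 Dt ℓ Φ) (rsigLin616 Dt.s)

/-- `R(σ)⁻¹` on the class space. -/
def sInvOp616 (Dt : L2Data K K') (ℓ : ℕ) (Φ : HeckeEigensystem K' ℂ) :
    Module.End ℂ (cls616 Dt ℓ Φ) :=
  restr616 (cls616 Dt ℓ Φ) (rsigInvLin616 Dt.s)

end Model

/-! ## 3. The context and the leaves -/

section Leaves

variable (K K' : Type) [Field K] [NumberField K] [Field K'] [NumberField K'] [Algebra K K']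

/-- The hypotheses of `SU736.ClassModelC`. -/
structure Ctx616 (ℓ : ℕ) (Φ : HeckeEigensystem K' ℂ) (Dt : L2Data K K') : Prop where
  cyc : IsCycExt K K' ℓ
  odd : ℓ ≠ 2
  cplx : TotCplx K
  cusp : A0.IsCuspAdelicSph0 K' Φ
  const : ConstOnFibres K Φ
  data : IsL2Data ℓ Φ Dt
  stable : BaseStable Dt

/-- **LEAF CM.01 = FIN-DIM.**  The class space is finite dimensional. -/
def FinDimC616 : Prop :=
  ∀ (ℓ : ℕ) (Φ : HeckeEigensystem K' ℂ) (Dt : L2Data K K'), Ctx616 K K' ℓ Φ Dt →
    FiniteDimensional ℂ (cls616 Dt ℓ Φ)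

/-- **LEAF CM.02 = NON-TRIVIAL.**  There is a non-zero invariant eigenfunction with the data of
`Φ` at the base level (the form of `Φ`). -/
def NontrivC616 : Prop :=
  ∀ (ℓ : ℕ) (Φ : HeckeEigensystem K' ℂ) (Dt : L2Data K K'), Ctx616 K K' ℓ Φ Dt →
    ∃ ψ : G K' → ℂ, IsEigFn Dt.𝔑₀ Dt.R'.r ℓ Dt.o ψ (eigOf Φ) ∧ ∃ x : G K', ψ x ≠ 0

/-- **LEAF CM.03 = STAB-G.**  The double coset operator of a bad element maps the invariant
eigenfunctions with the data of `Φ` to such functions. -/
def StabGC616 : Prop :=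
  ∀ (ℓ : ℕ) (Φ : HeckeEigensystem K' ℂ) (Dt : L2Data K K'), Ctx616 K K' ℓ Φ Dt →
    ∀ (g : G K') (Hg : Finset (G K')), Dt.IsBad g → IsDblCosetSystem Dt.𝔑₀ g Hg →
      ∀ ψ : G K' → ℂ, IsEigFn Dt.𝔑₀ Dt.R'.r ℓ Dt.o ψ (eigOf Φ) →
        IsEigFn Dt.𝔑₀ Dt.R'.r ℓ Dt.o (cosetOp Hg ψ) (eigOf Φ)

/-- **LEAF CM.04 = STAB-S.**  `R(σ)` and `R(σ)⁻¹` map the invariant eigenfunctions with the data
of `Φ` to such functions (`BaseStable`, `IsL2Data.const`). -/
def StabSC616 : Prop :=
  ∀ (ℓ : ℕ) (Φ : HeckeEigensystem K' ℂ) (Dt : L2Data K K'), Ctx616 K K' ℓ Φ Dt →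
    ∀ ψ : G K' → ℂ, IsEigFn Dt.𝔑₀ Dt.R'.r ℓ Dt.o ψ (eigOf Φ) →
      IsEigFn Dt.𝔑₀ Dt.R'.r ℓ Dt.o (T5.Rsig Dt.s ψ) (eigOf Φ) ∧
        IsEigFn Dt.𝔑₀ Dt.R'.r ℓ Dt.o (fun x => ψ (Dt.s.onG x)) (eigOf Φ)

/-- **LEAF CM.05 = COMM-GI.**  On the functions `ψ` such that `ψ` and `cosetOp H ψ` are right
invariant under `U(𝔑₀)`, the double coset operator of a bad element commutes with the sum of the
right translates by a finite set `H` of elements supported at `o j`. -/
def CommGIC616 : Prop :=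
  ∀ (ℓ : ℕ) (Φ : HeckeEigensystem K' ℂ) (Dt : L2Data K K'), Ctx616 K K' ℓ Φ Dt →
    ∀ (g : G K') (Hg : Finset (G K')), Dt.IsBad g → IsDblCosetSystem Dt.𝔑₀ g Hg →
      ∀ j < ℓ, ∀ H : Finset (G K'), (∀ h ∈ H, IsLocalAtFin (Dt.o j) h) →
        ∀ ψ : G K' → ℂ, IsLevelInv616 Dt.𝔑₀ ψ → IsLevelInv616 Dt.𝔑₀ (cosetOp H ψ) →
          ∀ x : G K', cosetOp Hg (cosetOp H ψ) x = cosetOp H (cosetOp Hg ψ) x

/-- **LEAF CM.06 = LOC-COMM.**  Elements supported at two different places of the orbit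
commute. -/
def LocCommC616 : Prop :=
  ∀ (ℓ : ℕ) (Φ : HeckeEigensystem K' ℂ) (Dt : L2Data K K'), Ctx616 K K' ℓ Φ Dt →
    ∀ i < ℓ, ∀ j < ℓ, i ≠ j → ∀ h h' : G K',
      IsLocalAtFin (Dt.o i) h → IsLocalAtFin (Dt.o j) h' → h * h' = h' * h

/-- **LEAF CM.07 = LOC-MOVE.**  `σ⁻¹` maps the elements supported at `o (j+1)` to elements
supported at `o j`, and the elements supported at `o 0` to elements supported at `o (ℓ-1)`. -/
def LocMoveC616 : Prop :=
  ∀ (ℓ : ℕ) (Φ : HeckeEigensystem K' ℂ) (Dt : L2Data K K'), Ctx616 K K' ℓ Φ Dt →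
    (∀ j : ℕ, j + 1 < ℓ → ∀ h : G K', IsLocalAtFin (Dt.o (j + 1)) h →
      IsLocalAtFin (Dt.o j) (Dt.s.onGinv h)) ∧
    ∀ h : G K', IsLocalAtFin (Dt.o 0) h → IsLocalAtFin (Dt.o (ℓ - 1)) (Dt.s.onGinv h)

/-- **LEAF CM.08 = POW.**  `σ⁻ℓ = 1` on `GL₂(𝔸_{K'})`. -/
def PowC616 : Prop :=
  ∀ (ℓ : ℕ) (Φ : HeckeEigensystem K' ℂ) (Dt : L2Data K K'), Ctx616 K K' ℓ Φ Dt →
    ∀ x : G K', (⇑Dt.s.onGinv)^[ℓ] x = x

/-- **LEAF CM.09 = SIMPLE** (multiplicity one in module form).  A subspace of the class space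
which is stable under the double coset operators of the bad elements and under the sums of right
translates supported at the places of the orbit (those which preserve the class space) is `0` or
the class space. -/
def SimpleC616 : Prop :=
  ∀ (ℓ : ℕ) (Φ : HeckeEigensystem K' ℂ) (Dt : L2Data K K'), Ctx616 K K' ℓ Φ Dt →
    ∀ W : Submodule ℂ (G K' → ℂ), W ≤ cls616 Dt ℓ Φ →
      (∀ (g : G K') (Hg : Finset (G K')), Dt.IsBad g → IsDblCosetSystem Dt.𝔑₀ g Hg →
        ∀ ψ ∈ W, cosetOp Hg ψ ∈ W) →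
      (∀ j < ℓ, ∀ H : Finset (G K'), (∀ h ∈ H, IsLocalAtFin (Dt.o j) h) →
        (∀ ψ ∈ cls616 Dt ℓ Φ, cosetOp H ψ ∈ cls616 Dt ℓ Φ) → ∀ ψ ∈ W, cosetOp H ψ ∈ W) →
      W = ⊥ ∨ W = cls616 Dt ℓ Φ

/-- **LEAF CM.10 = MUL-G.**  On the functions which are right invariant under `U(𝔑₀)` the
product of two double coset operators of bad elements is a linear combination of double coset
operators of bad elements. -/
def MulGC616 : Prop :=
  ∀ (ℓ : ℕ) (Φ : HeckeEigensystem K' ℂ) (Dt : L2Data K K'), Ctx616 K K' ℓ Φ Dt →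
    ∀ (g g' : G K') (Hg Hg' : Finset (G K')), Dt.IsBad g → IsDblCosetSystem Dt.𝔑₀ g Hg →
      Dt.IsBad g' → IsDblCosetSystem Dt.𝔑₀ g' Hg' →
      ∃ (n : ℕ) (c : Fin n → ℂ) (g'' : Fin n → G K') (H'' : Fin n → Finset (G K')),
        (∀ i, Dt.IsBad (g'' i) ∧ IsDblCosetSystem Dt.𝔑₀ (g'' i) (H'' i)) ∧
        ∀ ψ : G K' → ℂ, IsLevelInv616 Dt.𝔑₀ ψ →
          ∀ x : G K', cosetOp Hg (cosetOp Hg' ψ) x = ∑ i, c i * cosetOp (H'' i) ψ x

/-- **LEAF CM.11 = DICT.**  For every finite orthonormal basis of the class space the twisted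
trace of `[U g U] R(σ)` is the trace of the operator of the model. -/
def DictC616 : Prop :=
  ∀ (ℓ : ℕ) (Φ : HeckeEigensystem K' ℂ) (Dt : L2Data K K'), Ctx616 K K' ℓ Φ Dt →
    ∀ (g : G K') (Hg : Finset (G K')), Dt.IsBad g → IsDblCosetSystem Dt.𝔑₀ g Hg →
      ∀ (q : ℕ → G K' → ℂ) (J : Finset ℕ),
        IsClassBasisOn Dt.𝔑₀ Dt.R' ℓ Dt.o (eigOf Φ) q J →
          twTrace Dt.s Dt.R' Hg q J
            = LinearMap.trace ℂ (cls616 Dt ℓ Φ)
                (restr616 (cls616 Dt ℓ Φ) (cosetLin616 Hg) * sOp616 Dt ℓ Φ)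

end Leaves

/-! ## Appendix (v0.1, additive): the equation lemmas of the definitions are realised HERE

Same device as the appendices of `T7/Comparison.lean` v0.1 (helper797) and `T7/H736/SpecUp.lean`
v0.1 (helper736): the equation lemmas of a definition are generated in the module which first
unfolds it; citing them here generates them once, upstream of every user.  No statement of this
file is changed. -/

theorem eqns_realised_classModel616 : True := by
  have _a0 := @cosetLin616.eq_1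
  have _b0 := @cosetLin616.eq_def
  have _c0 := @cosetLin616.eq_unfold
  have _a1 := @rsigLin616.eq_1
  have _b1 := @rsigLin616.eq_def
  have _c1 := @rsigLin616.eq_unfold
  have _a2 := @rsigInvLin616.eq_1
  have _b2 := @rsigInvLin616.eq_def
  have _c2 := @rsigInvLin616.eq_unfold
  have _a3 := @classSp616.eq_1
  have _b3 := @classSp616.eq_def
  have _c3 := @classSp616.eq_unfold
  have _a4 := @restr616.eq_1
  have _b4 := @restr616.eq_def
  have _c4 := @restr616.eq_unfold
  have _a5 := @IsLevelInv616.eq_1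
  have _b5 := @IsLevelInv616.eq_def
  have _c5 := @IsLevelInv616.eq_unfold
  have _a6 := @cls616.eq_1
  have _b6 := @cls616.eq_def
  have _c6 := @cls616.eq_unfold
  have _a7 := @gSet616.eq_1
  have _b7 := @gSet616.eq_def
  have _c7 := @gSet616.eq_unfold
  have _a8 := @iSet616.eq_1
  have _b8 := @iSet616.eq_def
  have _c8 := @iSet616.eq_unfold
  have _a9 := @sOp616.eq_1
  have _b9 := @sOp616.eq_def
  have _c9 := @sOp616.eq_unfold
  have _a10 := @sInvOp616.eq_1
  have _b10 := @sInvOp616.eq_def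
  have _c10 := @sInvOp616.eq_unfold
  have _a11 := @FinDimC616.eq_1
  have _b11 := @FinDimC616.eq_def
  have _c11 := @FinDimC616.eq_unfold
  have _a12 := @NontrivC616.eq_1
  have _b12 := @NontrivC616.eq_def
  have _c12 := @NontrivC616.eq_unfold
  have _a13 := @StabGC616.eq_1
  have _b13 := @StabGC616.eq_def
  have _c13 := @StabGC616.eq_unfold
  have _a14 := @StabSC616.eq_1
  have _b14 := @StabSC616.eq_def
  have _c14 := @StabSC616.eq_unfold
  have _a15 := @CommGIC616.eq_1
  have _b15 := @CommGIC616.eq_def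
  have _c15 := @CommGIC616.eq_unfold
  have _a16 := @LocCommC616.eq_1
  have _b16 := @LocCommC616.eq_def
  have _c16 := @LocCommC616.eq_unfold
  have _a17 := @LocMoveC616.eq_1
  have _b17 := @LocMoveC616.eq_def
  have _c17 := @LocMoveC616.eq_unfold
  have _a18 := @PowC616.eq_1
  have _b18 := @PowC616.eq_def
  have _c18 := @PowC616.eq_unfold
  have _a19 := @SimpleC616.eq_1
  have _b19 := @SimpleC616.eq_def
  have _c19 := @SimpleC616.eq_unfold
  have _a20 := @MulGC616.eq_1
  have _b20 := @MulGC616.eq_def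
  have _c20 := @MulGC616.eq_unfold
  have _a21 := @DictC616.eq_1
  have _b21 := @DictC616.eq_def
  have _c21 := @DictC616.eq_unfold
  trivial

end Fermat.Agent.LT.T7.CM616

end

end
-- ===== PACK-END LT/T7/H616/ClassModelSpec.lean

-- ===== PACK-BEGIN LT/T7/H894/NatAdjEK.lean
section



/-!
# Row LT, tower T7, leaf T7.L2.1.N05 `NatAdjEKC` (registry 2202) -- helper894, OFF-MAIN

`natAdjEKC894 : H193.NatAdjEKC K`, VERBATIM vs `LT/T7/H193/KillSpec.lean`
(helper193@4a1c7c2bb, sha256 2cb0a205bd364545, byte-identical copy of the spec closure).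

The adjoint of `φ♮` is Eisenstein-killing if the adjoint of `φ` is:
`(φ♮)* (y) = vol(D)⁻¹ ∫_D φ*(y a(t)) dt` (`a t` is central), so
`R((φ♮)*) Ψ (x) = vol(D)⁻¹ ∫_D ∫ φ*(y a(t)) Ψ(x y) dy dt` (Fubini for continuous functions of
compact support, after inserting a continuous cut-off in `t` which is `1` on `D`)
`= vol(D)⁻¹ ∫_D R(φ*) (Ψ(· a(t)⁻¹)) (x) dt = 0` (right invariance of `μ`;
`Ψ(· a(t)⁻¹)` is Borel-invariant).  `T1.T1Out` is not used.
-/

set_option autoImplicit false

open IsDedekindDomain NumberField MeasureTheory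
open scoped ComplexConjugate

noncomputable section

namespace Fermat.Agent.LT.T7.H894

open Fermat.Agent.LT.H556 Fermat.Agent.LT.H556.A0 Fermat.Agent.LT Fermat.Agent.LT.T7.H193

attribute [local instance] Fermat.Agent.LT.T5.instMeasurableSpaceG

variable {K : Type} [Field K] [NumberField K]

/-- The translate `Ψ(· z⁻¹)` of a Borel-invariant function by a central element commuting with
everything is Borel-invariant. -/
theorem borelInv_translate894 {Ψ : G K → ℂ} (hΨ : T5.IsBorelInvariantFn Ψ) (z : G K)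
    (hz : ∀ g : G K, z * g = g * z) : T5.IsBorelInvariantFn fun g => Ψ (g * z⁻¹) := by
  refine ⟨hΨ.cont.comp (continuous_id.mul continuous_const), ?_, ?_, ?_⟩
  · intro n x hn g
    show Ψ (n * g * z⁻¹) = Ψ (g * z⁻¹)
    rw [mul_assoc]
    exact hΨ.unip n x hn _
  · intro t a b ht g
    show Ψ (T5.ratG t * g * z⁻¹) = Ψ (g * z⁻¹)
    rw [mul_assoc]
    exact hΨ.torus t a b ht _
  · obtain ⟨r₀, hr₀, hinv⟩ := hΨ.ray
    refine ⟨r₀, hr₀, fun g => ?_⟩
    show Ψ (g * r₀ * z⁻¹) = Ψ (g * z⁻¹)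
    have hc : r₀ * z⁻¹ = z⁻¹ * r₀ := by
      have h := hz r₀
      calc r₀ * z⁻¹ = z⁻¹ * (z * r₀) * z⁻¹ := by group
        _ = z⁻¹ * (r₀ * z) * z⁻¹ := by rw [h]
        _ = z⁻¹ * r₀ := by group
    rw [mul_assoc, hc, ← mul_assoc]
    exact hinv _

/-- The formula for the adjoint of `φ♮`. -/
theorem adjoint_nat894 {𝔑 : Ideal (𝓞 K)} {r : G K} {a : (InfinitePlace K → ℝ) → G K}
    {D : Set (InfinitePlace K → ℝ)} (hD : IsTorusData 𝔑 r a D) (φ : G K → ℂ) (y : G K) :
    T5.adjointFn (nat193 a D φ) y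
      = (((volume D).toReal : ℝ) : ℂ)⁻¹ * ∫ t in D, T5.adjointFn φ (y * a t) := by
  unfold T5.adjointFn nat193
  rw [map_mul, map_inv₀, Complex.conj_ofReal, ← integral_conj]
  congr 1
  refine integral_congr_ae (Filter.Eventually.of_forall fun t => ?_)
  show conj (φ (y⁻¹ * (a t)⁻¹)) = conj (φ (y * a t)⁻¹)
  rw [← hD.central t y, mul_inv_rev]

/-- Right invariance of the measure of a frame. -/
theorem integral_mul_right894 {μ : Measure (G K)} {F : Set (G K)} (hF : T5.IsFrame μ F)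
    (f : G K → ℂ) (g : G K) : ∫ y, f (y * g) ∂μ = ∫ y, f y ∂μ := by
  have : BorelSpace (G K) := ⟨rfl⟩
  have hm : Measurable fun y : G K => y * g :=
    (continuous_id.mul continuous_const).measurable
  have hmp : MeasurePreserving (fun y : G K => y * g) μ μ := by
    refine ⟨hm, ?_⟩
    ext A hA
    rw [Measure.map_apply hm hA]
    exact hF.right_inv g A hA
  exact hmp.integral_comp (Homeomorph.mulRight g).measurableEmbedding f

/-- **LEAF T7.L2.1.N05 = NAT-ADJ-EK.** -/
theorem natAdjEKC894 : NatAdjEKC K := by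
  intro _hT1 R hR 𝔑 r a D hD φ hφc hφs hEK Ψ hΨ x
  have : BorelSpace (G K) := ⟨rfl⟩
  have : R.μ.IsHaarMeasure := hR.frame.haar
  -- the compact closure of `D` and a cut-off
  have hDc : IsCompact (closure D) :=
    Metric.isCompact_of_isClosed_isBounded isClosed_closure hD.bdd.closure
  obtain ⟨χ, hχ1, -, hχs, -⟩ :=
    exists_continuous_one_zero_of_isCompact hDc isClosed_empty (Set.disjoint_empty _)
  have hχD : ∀ t ∈ D, χ t = 1 := fun t ht => hχ1 (subset_closure ht)
  -- the vanishing of the inner integrals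
  have hinner : ∀ t : InfinitePlace K → ℝ,
      ∫ y, T5.adjointFn φ (y * a t) * Ψ (x * y) ∂(R.μ) = 0 := by
    intro t
    have h1 := integral_mul_right894 hR.frame
      (fun y => T5.adjointFn φ y * Ψ (x * (y * (a t)⁻¹))) (a t)
    have h2 : (fun y : G K => T5.adjointFn φ (y * a t) * Ψ (x * (y * a t * (a t)⁻¹)))
        = fun y => T5.adjointFn φ (y * a t) * Ψ (x * y) := by
      funext y
      rw [mul_inv_cancel_right]
    rw [h2] at h1
    rw [h1]
    have h3 := hEK (fun g => Ψ (g * (a t)⁻¹)) (borelInv_translate894 hΨ (a t) (hD.central t)) x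
    unfold T5.Rconv at h3
    rw [← h3]
    refine integral_congr_ae (Filter.Eventually.of_forall fun y => ?_)
    show T5.adjointFn φ y * Ψ (x * (y * (a t)⁻¹)) = T5.adjointFn φ y * Ψ (x * y * (a t)⁻¹)
    rw [mul_assoc]
  -- the function on the product
  set Fc : G K → (InfinitePlace K → ℝ) → ℂ :=
    fun y t => ((χ t : ℝ) : ℂ) * (T5.adjointFn φ (y * a t) * Ψ (x * y)) with hFc
  have hcont : Continuous Fc.uncurry := by
    have h1 : Continuous fun p : G K × (InfinitePlace K → ℝ) => ((χ p.2 : ℝ) : ℂ) :=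
      Complex.continuous_ofReal.comp (χ.continuous.comp continuous_snd)
    have h2 : Continuous fun p : G K × (InfinitePlace K → ℝ) => T5.adjointFn φ (p.1 * a p.2) := by
      unfold T5.adjointFn
      exact Complex.continuous_conj.comp (hφc.comp
        (continuous_fst.mul (hD.cont.comp continuous_snd)).inv)
    have h3 : Continuous fun p : G K × (InfinitePlace K → ℝ) => Ψ (x * p.1) :=
      hΨ.cont.comp (continuous_const.mul continuous_fst)
    exact h1.mul (h2.mul h3)
  have hsupp : HasCompactSupport Fc.uncurry := by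
    have hK : IsCompact ((fun p : G K × (InfinitePlace K → ℝ) => p.1⁻¹ * (a p.2)⁻¹) ''
        (tsupport φ ×ˢ tsupport χ)) := by
      refine (hφs.isCompact.prod hχs.isCompact).image ?_
      exact continuous_fst.inv.mul (hD.cont.comp continuous_snd).inv
    refine HasCompactSupport.intro (hK.prod hχs.isCompact) ?_
    rintro ⟨y, t⟩ hyt
    show ((χ t : ℝ) : ℂ) * (T5.adjointFn φ (y * a t) * Ψ (x * y)) = 0
    by_contra hne
    apply hyt
    have hχt : χ t ≠ 0 := by
      intro h0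
      apply hne
      rw [h0, Complex.ofReal_zero, zero_mul]
    have hφt : φ (y * a t)⁻¹ ≠ 0 := by
      intro h0
      apply hne
      unfold T5.adjointFn
      rw [h0, map_zero, zero_mul, mul_zero]
    have ht : t ∈ tsupport χ := subset_tsupport _ hχt
    refine ⟨⟨((y * a t)⁻¹, t), ⟨subset_tsupport _ hφt, ht⟩, ?_⟩, ht⟩
    show ((y * a t)⁻¹)⁻¹ * (a t)⁻¹ = y
    rw [inv_inv, mul_inv_cancel_right]
  have : IsFiniteMeasure (volume.restrict D : Measure (InfinitePlace K → ℝ)) :=
    ⟨by rw [Measure.restrict_apply_univ]; exact hD.bdd.measure_lt_top⟩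
  have hswap := integral_integral_swap_of_hasCompactSupport hcont hsupp
    (μ := R.μ) (ν := (volume.restrict D : Measure (InfinitePlace K → ℝ)))
  -- assembly
  unfold T5.Rconv
  have hint : (fun y : G K => T5.adjointFn (nat193 a D φ) y * Ψ (x * y))
      = fun y => (((volume D).toReal : ℝ) : ℂ)⁻¹ * ∫ t in D, Fc y t := by
    funext y
    rw [adjoint_nat894 hD φ y, mul_assoc, ← integral_mul_const]
    congr 1
    refine setIntegral_congr_fun hD.meas fun t ht => ?_
    show T5.adjointFn φ (y * a t) * Ψ (x * y)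
      = ((χ t : ℝ) : ℂ) * (T5.adjointFn φ (y * a t) * Ψ (x * y))
    rw [hχD t ht, Complex.ofReal_one, one_mul]
  rw [hint, integral_const_mul, hswap]
  have hz : (fun t : InfinitePlace K → ℝ => ∫ y, Fc y t ∂(R.μ)) = fun _ => (0 : ℂ) := by
    funext t
    show ∫ y, ((χ t : ℝ) : ℂ) * (T5.adjointFn φ (y * a t) * Ψ (x * y)) ∂(R.μ) = 0
    rw [integral_const_mul, hinner t, mul_zero]
  rw [hz, integral_zero, mul_zero]

end Fermat.Agent.LT.T7.H894

end

end
-- ===== PACK-END LT/T7/H894/NatAdjEK.lean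

-- ===== PACK-BEGIN LT/T7/H953/NatConv.lean
section


/-!
# Row LT, tower T7, node T7.L2.1 `SupplyC`, sub-station NATURAL, leaf `T7.L2.1.N06 NatConvC`
# (helper953, registry row 2203), OFF-MAIN

`natConvC953 (K) : H193.NatConvC K`, VERBATIM against `LT/T7/H193/KillSpec.lean`
(helper193@4a1c7c2bb, sha256 2cb0a205…, byte-identical copy).

`♮` commutes with the convolution on either side:
`φ₁♮ ⋆ φ₂ = (φ₁ ⋆ φ₂)♮ = φ₁ ⋆ φ₂♮`, where `φ♮ (g) = vol(D)⁻¹ ∫_D φ(g a(t)⁻¹) dt`.

* `fubini_cpt953` : Fubini on `G × D` for a bounded continuous integrand supported, in the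
  first variable, in a compact set (`μ` finite on compact sets, `D` of finite volume; no
  `σ`-finiteness of `μ` is needed: both measures are restricted to sets of finite measure).
* right side: Fubini only;
* left side: Fubini, the right invariance of `μ` (`IsFrame.right_inv`, `y ↦ y a(t)`) and the
  centrality of `a t`.

The hypothesis `T1.T1Out K` is not used.
-/

set_option autoImplicit false
set_option linter.unusedSectionVars false
set_option linter.style.haveILetI false
set_option linter.unusedVariables false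

open IsDedekindDomain NumberField MeasureTheory
open scoped ComplexConjugate

noncomputable section

namespace Fermat.Agent.LT.T7.H953

open Fermat.Agent.LT.H556 Fermat.Agent.LT.H556.A0 Fermat.Agent.LT Fermat.Agent.LT.T7.H193

attribute [local instance] Fermat.Agent.LT.T5.instMeasurableSpaceG

variable {K : Type} [Field K] [NumberField K]

/-- The Borel structure of `GL₂(𝔸_K)` (the measurable space is `borel` by definition). -/
theorem borelSpaceG953 : BorelSpace (G K) := ⟨rfl⟩

/-- **Fubini** on `G × D` for a bounded continuous integrand with compact support in the first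
variable. -/
theorem fubini_cpt953 (μ : Measure (G K)) [IsFiniteMeasureOnCompacts μ]
    (D : Set (InfinitePlace K → ℝ)) (hDfin : volume D < ⊤)
    (F : G K → (InfinitePlace K → ℝ) → ℂ) (hF : Continuous (Function.uncurry F))
    (C : Set (G K)) (hC : IsCompact C) (hsupp : ∀ y, y ∉ C → ∀ t, F y t = 0)
    (M : ℝ) (hM : ∀ y t, ‖F y t‖ ≤ M) :
    ∫ y, (∫ t in D, F y t) ∂μ = ∫ t in D, (∫ y, F y t ∂μ) := by
  haveI : BorelSpace (G K) := borelSpaceG953
  have hμC : μ C < ⊤ := hC.measure_lt_top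
  haveI : Fact (μ C < ⊤) := ⟨hμC⟩
  haveI : Fact (volume D < ⊤) := ⟨hDfin⟩
  have h1 : ∫ y, (∫ t in D, F y t) ∂μ = ∫ y in C, (∫ t in D, F y t) ∂μ := by
    symm
    apply setIntegral_eq_integral_of_forall_compl_eq_zero
    intro y hy
    have : (fun t => F y t) = fun _ => (0 : ℂ) := funext fun t => hsupp y hy t
    rw [this, integral_zero]
  have h2 : (fun t => ∫ y, F y t ∂μ) = fun t => ∫ y in C, F y t ∂μ := by
    funext t
    symm
    exact setIntegral_eq_integral_of_forall_compl_eq_zero (fun y hy => hsupp y hy t)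
  rw [h1, h2]
  apply integral_integral_swap
  refine Integrable.mono' (integrable_const M) hF.aestronglyMeasurable
    (Filter.Eventually.of_forall fun p => hM p.1 p.2)

/-- **Leaf `T7.L2.1.N06 NatConvC`.** -/
theorem natConvC953 (K : Type) [Field K] [NumberField K] : NatConvC K := by
  intro _hT1 R hR 𝔑 r a D hD φ₁ φ₂ hφ₁ hφ₁c hφ₂ hφ₂c
  haveI : BorelSpace (G K) := borelSpaceG953
  haveI : R.μ.IsHaarMeasure := hR.frame.haar
  haveI : R.μ.IsMulRightInvariant := ⟨fun g => by
    ext A hA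
    rw [Measure.map_apply (measurable_mul_const g) hA]
    exact hR.frame.right_inv g A hA⟩
  have hDfin : volume D < ⊤ := hD.bdd.measure_lt_top
  obtain ⟨M₁, hM₁⟩ := hφ₁.bounded_above_of_compact_support hφ₁c
  obtain ⟨M₂, hM₂⟩ := hφ₂.bounded_above_of_compact_support hφ₂c
  have hM₁0 : 0 ≤ M₁ := le_trans (norm_nonneg _) (hM₁ 1)
  have hainv : Continuous fun t : InfinitePlace K → ℝ => (a t)⁻¹ := hD.cont.inv
  have hbound : ∀ x y : G K, ‖φ₁ x * φ₂ y‖ ≤ M₁ * M₂ := fun x y => by
    rw [norm_mul]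
    exact mul_le_mul (hM₁ x) (hM₂ y) (norm_nonneg _) hM₁0
  have hcen : ∀ (t : InfinitePlace K → ℝ) (x : G K), (a t)⁻¹ * x = x * (a t)⁻¹ := by
    intro t x
    have h := hD.central t x
    calc (a t)⁻¹ * x = (a t)⁻¹ * (x * a t) * (a t)⁻¹ := by group
      _ = (a t)⁻¹ * (a t * x) * (a t)⁻¹ := by rw [h]
      _ = x * (a t)⁻¹ := by group
  constructor
  · intro g
    show ∫ y, nat193 a D φ₁ y * φ₂ (y⁻¹ * g) ∂(R.μ) = nat193 a D (T5.conv R.μ φ₁ φ₂) g
    unfold nat193 T5.conv
    have e1 : (fun y : G K => ((((volume D).toReal : ℝ) : ℂ)⁻¹ *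
          ∫ t in D, φ₁ (y * (a t)⁻¹)) * φ₂ (y⁻¹ * g)) =
        fun y => (((volume D).toReal : ℝ) : ℂ)⁻¹ *
          ∫ t in D, φ₁ (y * (a t)⁻¹) * φ₂ (y⁻¹ * g) := by
      funext y
      rw [mul_assoc, ← integral_mul_const]
    rw [e1, integral_const_mul]
    congr 1
    rw [fubini_cpt953 R.μ D hDfin (fun y t => φ₁ (y * (a t)⁻¹) * φ₂ (y⁻¹ * g)) ?_
      ((fun y : G K => g * y⁻¹) '' tsupport φ₂) ?_ ?_ (M₁ * M₂) (fun y t => hbound _ _)]
    · refine setIntegral_congr_fun hD.meas fun t _ => ?_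
      show ∫ y, φ₁ (y * (a t)⁻¹) * φ₂ (y⁻¹ * g) ∂(R.μ)
        = ∫ y, φ₁ y * φ₂ (y⁻¹ * (g * (a t)⁻¹)) ∂(R.μ)
      rw [← integral_mul_right_eq_self (fun y => φ₁ (y * (a t)⁻¹) * φ₂ (y⁻¹ * g)) (a t)]
      refine integral_congr_ae (Filter.Eventually.of_forall fun y => ?_)
      show φ₁ (y * a t * (a t)⁻¹) * φ₂ ((y * a t)⁻¹ * g) = φ₁ y * φ₂ (y⁻¹ * (g * (a t)⁻¹))
      rw [mul_inv_cancel_right, mul_inv_rev, mul_assoc, hcen t (y⁻¹ * g), mul_assoc]
    · show Continuous fun p : G K × (InfinitePlace K → ℝ) =>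
        φ₁ (p.1 * (a p.2)⁻¹) * φ₂ (p.1⁻¹ * g)
      exact (hφ₁.comp (continuous_fst.mul (hainv.comp continuous_snd))).mul
        (hφ₂.comp (continuous_fst.inv.mul continuous_const))
    · exact hφ₂c.isCompact.image (continuous_const.mul continuous_inv)
    · intro y hy t
      have h0 : φ₂ (y⁻¹ * g) = 0 := by
        by_contra hne
        apply hy
        refine ⟨y⁻¹ * g, subset_tsupport _ hne, ?_⟩
        show g * (y⁻¹ * g)⁻¹ = y
        group
      show φ₁ (y * (a t)⁻¹) * φ₂ (y⁻¹ * g) = 0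
      rw [h0, mul_zero]
  · intro g
    show ∫ y, φ₁ y * nat193 a D φ₂ (y⁻¹ * g) ∂(R.μ) = nat193 a D (T5.conv R.μ φ₁ φ₂) g
    unfold nat193 T5.conv
    have e1 : (fun y : G K => φ₁ y * ((((volume D).toReal : ℝ) : ℂ)⁻¹ *
          ∫ t in D, φ₂ (y⁻¹ * g * (a t)⁻¹))) =
        fun y => (((volume D).toReal : ℝ) : ℂ)⁻¹ *
          ∫ t in D, φ₁ y * φ₂ (y⁻¹ * g * (a t)⁻¹) := by
      funext y
      rw [mul_left_comm, ← integral_const_mul]
    rw [e1, integral_const_mul]
    congr 1
    rw [fubini_cpt953 R.μ D hDfin (fun y t => φ₁ y * φ₂ (y⁻¹ * g * (a t)⁻¹)) ?_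
      (tsupport φ₁) hφ₁c.isCompact ?_ (M₁ * M₂) (fun y t => hbound _ _)]
    · refine setIntegral_congr_fun hD.meas fun t _ => ?_
      show ∫ y, φ₁ y * φ₂ (y⁻¹ * g * (a t)⁻¹) ∂(R.μ)
        = ∫ y, φ₁ y * φ₂ (y⁻¹ * (g * (a t)⁻¹)) ∂(R.μ)
      refine integral_congr_ae (Filter.Eventually.of_forall fun y => ?_)
      show φ₁ y * φ₂ (y⁻¹ * g * (a t)⁻¹) = φ₁ y * φ₂ (y⁻¹ * (g * (a t)⁻¹))
      rw [mul_assoc]
    · show Continuous fun p : G K × (InfinitePlace K → ℝ) =>
        φ₁ p.1 * φ₂ (p.1⁻¹ * g * (a p.2)⁻¹)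
      exact (hφ₁.comp continuous_fst).mul
        (hφ₂.comp ((continuous_fst.inv.mul continuous_const).mul (hainv.comp continuous_snd)))
    · intro y hy t
      show φ₁ y * φ₂ (y⁻¹ * g * (a t)⁻¹) = 0
      rw [image_eq_zero_of_notMem_tsupport hy, zero_mul]

end Fermat.Agent.LT.T7.H953

end

end
-- ===== PACK-END LT/T7/H953/NatConv.lean

-- ===== PACK-BEGIN LT/T7/H193/NatMatchSpec.lean
section





/-!
# Row LT, tower T7, node T7.L2.1 `SupplyC`: sub-station NAT-MATCH (sub-architect helper193)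

OFF-MAIN.  Definitions and frozen leaf Props only (the proved tops are in `NatMatchTop.lean`).
No hole, nothing assumed.  ADDITIVE (new names only, suffix `193`).  Vocabulary: `T5/Spec.lean`
(bytes of record, helper17), `T5/H29/TwSpec.lean` (helper29, closed), `T7/Matching.lean`,
`T7/H193/ProjSpec.lean`, `T7/H193/KillSpec.lean`, byte-identical copies.

## The gap which this station closes

The fields `up2_kill` / `dn2_kill` of the pre-data (`H893.IsL2PreOp`) force the second base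
functions to be ARCHIMEDEAN TORUS MEANS, `φ₂ = nat193 a' D' φ₀'` upstairs and `f₂ = nat193 a D f₀`
downstairs (`KillSpec.lean`; a pure tensor cannot kill the cusp functions with a non-trivial
character of the compact torus `A_∞ / ⟨r⟩ Λ` when `K` has more than one infinite place).  The
matching theorem (`H305.GlobMatchC305`) is a statement on PURE TENSORS.  Translates of matched
pure tensors by positive scalars at infinity are matched pure tensors, in the form

    φ'(· a'(t')⁻¹)  ↔  f(· a(N t')⁻¹),      (N t')_v = ∑_{w ∣ v} t'_w     (sum over the fibre)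

(the archimedean component downstairs is the convolution of the components upstairs over the
fibre, and the translation by a central element commutes with the convolution).  Hence
`nat193 a' D' φ'` is matched with the mean of `f(· a(N t')⁻¹)` over `t' ∈ D'`, and this is
`nat193 a D f` if and only if the normalised Lebesgue measure of `D'` is mapped by `N` to the
normalised Lebesgue measure of `D`.  This is FALSE for the sets hidden in `TorusDataC`
(the image of the uniform measure of a parallelepiped under a linear map is not uniform).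

## The two sub-stations

* **REL-TORUS** (`RelTorusC`): COMPATIBLE torus data exist.  `D` = the fundamental parallelepiped
  of `ℓ • b`, `b` a basis of periods downstairs (`DirichletC`); `D'` = the fundamental
  parallelepiped of the basis `(lift (b i))_i ∪ (log |ε'_j|)_j` of `ℝ^{P'}`, `ε'_j` units of `K'`
  whose log vectors form a basis of `ker N` (`KerUnitsC`).  Leaves: `KerUnitsC`, `FibCardC`
  (number theory), `TorusParC`, `PushParC` (Mathlib only), `RelTorusAsmC` (assembly).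
* **NAT-MATCH** (`natMatch193`, proved in the top file from the leaves `FlatNatC`, `JointIntC`):
  if the translates are matched and regular, the torus means are matched:

      IsRelTorus … → (∀ t' ∈ D', IsGlobMatch Dd (trl193 (a' t') φ') (trl193 (a (N t')) f))
        → IsGlobMatch Dd (nat193 a' D' φ') (nat193 a D f).

  Proof: `twTerm (nat φ) = mean of twTerm (translates)` (`FlatNatC`: the sum over the ray is
  finite, uniformly on `D`), Fubini on `Fδ × D'` (`JointIntC`: the uniform bound `TwBoundC` of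
  helper29 for the union of the supports), the hypothesis, `push`, and back.

The case of the quadratic step `F/ℚ` (one real place under one complex place, `N = 2 ·`) is NOT
covered by `fibSum193` (no weights): there `D' = [0, c')`, `D = [0, 2 c')`.
-/

set_option autoImplicit false

open IsDedekindDomain NumberField MeasureTheory
open scoped ComplexConjugate

noncomputable section

namespace Fermat.Agent.LT.T7.H193

open Fermat.Agent.LT.H556 Fermat.Agent.LT.H556.A0 Fermat.Agent.LT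

attribute [local instance] Fermat.Agent.LT.T5.instMeasurableSpaceG

/-! ## 1. Vocabulary -/

section Vocab

variable {K : Type} [Field K] [NumberField K]

/-- The right translate `φ(· z⁻¹)`; `nat193 a D φ g = vol(D)⁻¹ ∫_D trl193 (a t) φ g dt`. -/
def trl193 (z : G K) (φ : G K → ℂ) : G K → ℂ := fun g => φ (g * z⁻¹)

/-- The vector `(log |ε|_w)_w` of a unit. -/
def logVec193 (ε : (𝓞 K)ˣ) : InfinitePlace K → ℝ :=
  fun w => Real.log (w (((ε : 𝓞 K)) : K))

variable (K) in
/-- `p` is a PERIOD for the level `𝔑`, the ray generator `r` and the positive scalars `a`: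
every automorphic function of level `𝔑` is right invariant under `a p`. -/
def IsPeriod193 (𝔑 : Ideal (𝓞 K)) (r : G K) (a : (InfinitePlace K → ℝ) → G K)
    (p : InfinitePlace K → ℝ) : Prop :=
  ∀ e : G K → ℂ, T5.IsAutomorphicFn 𝔑 T5.trivType r e → ∀ g : G K, e (g * a p) = e g

variable {K' : Type} [Field K'] [NumberField K'] [Algebra K K']

open Classical in
/-- `N`: the sum over the fibres of `InfinitePlace K' → InfinitePlace K`. -/
def fibSum193 (t' : InfinitePlace K' → ℝ) : InfinitePlace K → ℝ :=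
  fun v => ∑ w : InfinitePlace K', if w.comap (algebraMap K K') = v then t' w else 0

/-- The lift of a vector: constant on the fibres. -/
def liftVec193 (t : InfinitePlace K → ℝ) : InfinitePlace K' → ℝ :=
  fun w => t (w.comap (algebraMap K K'))

/-- **COMPATIBLE TORUS DATA** for the level `𝔫` of `K` and the level `𝔫 𝒪_{K'}` of `K'`: torus
data downstairs and upstairs such that `N` maps `D'` onto `D` and the normalised Lebesgue measure
of `D'` to the normalised Lebesgue measure of `D`. -/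
structure IsRelTorus (𝔫 : Ideal (𝓞 K)) (r : G K) (r' : G K')
    (a : (InfinitePlace K → ℝ) → G K) (D : Set (InfinitePlace K → ℝ))
    (a' : (InfinitePlace K' → ℝ) → G K') (D' : Set (InfinitePlace K' → ℝ)) : Prop where
  down : IsTorusData 𝔫 r a D
  up : IsTorusData (Ideal.map (algebraMap (𝓞 K) (𝓞 K')) 𝔫) r' a' D'
  maps : ∀ t' ∈ D', fibSum193 (K := K) t' ∈ D
  onto : ∀ t ∈ D, ∃ t' ∈ D', fibSum193 (K := K) t' = t
  push : ∀ h : (InfinitePlace K → ℝ) → ℂ, IntegrableOn h D volume →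
    (((volume D').toReal : ℝ) : ℂ)⁻¹ * ∫ t' in D', h (fibSum193 (K := K) t')
      = (((volume D).toReal : ℝ) : ℂ)⁻¹ * ∫ t in D, h t

end Vocab

/-! ## 2. The leaves of REL-TORUS -/

section RelTorus

variable (K K' : Type) [Field K] [NumberField K] [Field K'] [NumberField K'] [Algebra K K']

/-- **LEAF RT.1 = KER-UNITS (number theory).**  `K'/K` Galois of prime degree `ℓ`, `K` totally
complex, `𝔫 ≠ 0`: there are finitely many units `ε'_j ≡ 1 mod 𝔫 𝒪_{K'}` of `K'` whose log vectors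
form a basis of `ker N`.
Proof.  Galois action on the infinite places (Mathlib `InfinitePlace.comap` of an automorphism,
`exists_smul_eq_of_comap_eq`): `σ` permutes every fibre, so `x - σ x ∈ ker N`; every fibre is ONE
orbit and (the places of `K` being complex, hence unramified) has `ℓ` elements, so
`ℓ x - lift (N x) = ∑_{j < ℓ} (x - σ^j x)`; the log vectors of the units `≡ 1 mod 𝔫 𝒪_{K'}` and
one constant vector span `ℝ^{P'}` (`DirichletC K'`), `𝔫 𝒪_{K'}` is Galois-stable and
`logVec (σ ε') = (logVec ε') ∘ σ`; hence the vectors `logVec (ε' / σ^j ε')` span `ker N`; a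
spanning family contains a basis.  (Or with the relative norm: `ε'^ℓ / N_{K'/K} ε'`.) -/
def KerUnitsC : Prop :=
  ∀ ℓ : ℕ, IsCycExt K K' ℓ → TotCplx K → ∀ 𝔫 : Ideal (𝓞 K), 𝔫 ≠ ⊥ →
    ∃ (J : Type) (_ : Fintype J) (ε : J → (𝓞 K')ˣ),
      (∀ j, ((ε j : (𝓞 K')ˣ) : 𝓞 K') - 1 ∈ Ideal.map (algebraMap (𝓞 K) (𝓞 K')) 𝔫) ∧
      (∀ j, fibSum193 (K := K) (logVec193 (ε j)) = 0) ∧
      LinearIndependent ℝ (fun j => logVec193 (ε j)) ∧
      ∀ x : InfinitePlace K' → ℝ, fibSum193 (K := K) x = 0 →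
        x ∈ Submodule.span ℝ (Set.range fun j => logVec193 (ε j))

/-- **LEAF RT.2 = FIB-CARD.**  Every infinite place of `K` (complex, hence unramified in `K'`)
has exactly `ℓ = [K' : K]` places of `K'` over it.  (Mathlib:
`NumberField.InfinitePlace.card_stabilizer`, `IsUnramified`, orbit-stabiliser.) -/
def FibCardC : Prop :=
  ∀ ℓ : ℕ, IsCycExt K K' ℓ → TotCplx K → ∀ v : InfinitePlace K,
    Nat.card {w : InfinitePlace K' // w.comap (algebraMap K K') = v} = ℓ

/-- **LEAF RT.3 = TORUS-PAR (Mathlib only).**  The explicit form of `TorusMeanC`, for a basis with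
an arbitrary index type: the fundamental parallelepiped is measurable, bounded, of positive
volume, and the integral over it of a function with the periods `B i` is invariant under
translation.  (The proof of helper563, `T7/H563/TorusMeanCore.lean`, verbatim.) -/
def TorusParC : Prop :=
  ∀ (ι ι' : Type) [Fintype ι] [Fintype ι'] (B : Module.Basis ι ℝ (ι' → ℝ)),
    MeasurableSet (ZSpan.fundamentalDomain B) ∧
      Bornology.IsBounded (ZSpan.fundamentalDomain B) ∧
      0 < volume (ZSpan.fundamentalDomain B) ∧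
      ∀ f : (ι' → ℝ) → ℂ, (∀ (i : ι) (t : ι' → ℝ), f (t + B i) = f t) →
        ∀ s : ι' → ℝ, ∫ t in ZSpan.fundamentalDomain B, f (t + s)
          = ∫ t in ZSpan.fundamentalDomain B, f t

/-- **LEAF RT.4 = PUSH-PAR (Mathlib only).**  `N` linear, `b` a basis of `ℝ^ι`, `B` a basis of
`ℝ^{ι'}` indexed by `ι ⊕ J` with `N (B (inl i)) = b i`, `N (B (inr j)) = 0`.  Then `N` maps the
fundamental parallelepiped of `B` ONTO the one of `b`, and the normalised Lebesgue measure to the
normalised Lebesgue measure.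
Proof.  In the coordinates of `B` (a linear isomorphism scales the Lebesgue measure by a
constant, which cancels against the normalisation) the parallelepiped is `[0,1)^{ι ⊕ J}`, `N` is
`(x, y) ↦ ∑ x_i b_i`, and `∫_{[0,1)^ι × [0,1)^J} g(x) dx dy = ∫_{[0,1)^ι} g(x) dx`. -/
def PushParC : Prop :=
  ∀ (ι ι' J : Type) [Fintype ι] [Fintype ι'] [Fintype J]
    (N : (ι' → ℝ) →ₗ[ℝ] (ι → ℝ)) (b : Module.Basis ι ℝ (ι → ℝ))
    (B : Module.Basis (ι ⊕ J) ℝ (ι' → ℝ)),
    (∀ i, N (B (Sum.inl i)) = b i) → (∀ j, N (B (Sum.inr j)) = 0) →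
    (∀ t' ∈ ZSpan.fundamentalDomain B, N t' ∈ ZSpan.fundamentalDomain b) ∧
    (∀ t ∈ ZSpan.fundamentalDomain b, ∃ t' ∈ ZSpan.fundamentalDomain B, N t' = t) ∧
    ∀ h : (ι → ℝ) → ℂ, IntegrableOn h (ZSpan.fundamentalDomain b) volume →
      (((volume (ZSpan.fundamentalDomain B)).toReal : ℝ) : ℂ)⁻¹
          * ∫ t' in ZSpan.fundamentalDomain B, h (N t')
        = (((volume (ZSpan.fundamentalDomain b)).toReal : ℝ) : ℂ)⁻¹
          * ∫ t in ZSpan.fundamentalDomain b, h t

/-- **REL-TORUS**: compatible torus data exist. -/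
def RelTorusC : Prop :=
  ∀ ℓ : ℕ, IsCycExt K K' ℓ → TotCplx K → ∀ 𝔫 : Ideal (𝓞 K), 𝔫 ≠ ⊥ →
    ∀ (r : G K) (r' : G K'), T5.IsRayGen r → T5.IsRayGen r' →
    ∃ (a : (InfinitePlace K → ℝ) → G K) (D : Set (InfinitePlace K → ℝ))
      (a' : (InfinitePlace K' → ℝ) → G K') (D' : Set (InfinitePlace K' → ℝ)),
      IsRelTorus 𝔫 r r' a D a' D'

/-- **LEAF RT.5 = REL-TORUS-ASM (assembly).**  `a`, `a'` from `PosScalC`; `r = a (fun _ => c)`,
`c = log t₀`, `r' = a' (fun _ => c')`, `c = ℓ c'` (`[K' : ℚ] = ℓ [K : ℚ]`); `b₀` from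
`DirichletC K 𝔫 c`, `b = ℓ • b₀`, `D` = the fundamental parallelepiped of `b`; `(J, ε')` from
`KerUnitsC`; `B (inl i) = liftVec193 (b₀ i)`, `B (inr j) = logVec193 (ε' j)` is a basis of
`ℝ^{P'}` (apply `N`: `N (lift x) = ℓ x` by `FibCardC`), `D'` = its fundamental parallelepiped.
Periods: `a (ℓ b₀ i) = (a (b₀ i))^ℓ` with `a (b₀ i) = r` or `|ε|_∞` (`UnitInvC K`);
`a' (lift (fun _ => c)) = r'^ℓ`, `a' (lift (logVec ε)) = |ε|_∞` for the unit `ε` of `K` in `K'`
(`w (algebraMap ε) = (w.comap _) ε`; `ε - 1 ∈ 𝔫 𝒪_{K'}`), `a' (logVec ε'_j)` (`UnitInvC K'`).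
`mean` from `TorusParC`, `maps`, `onto`, `push` from `PushParC` with `N = fibSum193`. -/
def RelTorusAsmC : Prop :=
  PosScalC K → PosScalC K' → UnitInvC K → UnitInvC K' → DirichletC K → KerUnitsC K K' →
    FibCardC K K' → TorusParC → PushParC → RelTorusC K K'

end RelTorus

/-! ## 3. The leaves of NAT-MATCH (one field) -/

section NatMatch

variable (K : Type) [Field K] [NumberField K]

/-- **LEAF NM.1 = FLAT-NAT.**  The summand of the twisted kernel of a torus mean is the mean of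
the summands of the translates.
Proof.  `twTerm r s ψ δ x = ∑'_m ψ(y r^m)`, `y = x⁻¹ δ σ(x)`.  The set of the `m` with
`φ(y r^m a(t)⁻¹) ≠ 0` for some `t ∈ D` is finite: `‖det‖_𝔸` is continuous and multiplicative
(`T1.AdNormC`), bounded and bounded away from `0` on the compact support of `φ` and on the
relatively compact set `a(D)`, and `‖det r‖_𝔸 = 2`.  So both sides are finite sums over the
same set of `m`, and the finite sum commutes with the integral over `D` (continuous integrands,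
`D` bounded and measurable). -/
def FlatNatC : Prop :=
  T1.T1Out K → ∀ (s : T5.AdelicAut K) (r : G K), T5.IsRayGen r →
    ∀ (a : (InfinitePlace K → ℝ) → G K) (D : Set (InfinitePlace K → ℝ)),
      Continuous a → MeasurableSet D → Bornology.IsBounded D →
    ∀ φ : G K → ℂ, Continuous φ → HasCompactSupport φ →
    ∀ (δ : GL (Fin 2) K) (x : G K),
      T5.twTerm r s (nat193 a D φ) δ x
        = (((volume D).toReal : ℝ) : ℂ)⁻¹ * ∫ t in D, T5.twTerm r s (trl193 (a t) φ) δ x

/-- **LEAF NM.2 = JOINT-INT.**  If all the translates `trl193 (a t) φ`, `t ∈ D`, of a continuous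
function of compact support are `σ`-regular, then `(x, t) ↦ twTerm (trl193 (a t) φ) δ x` is
integrable on `Fδ × D`.
Proof (the proof of T5.07 by helper29, `T5/H29/TwFinite.lean`, `leafTwFinite_of_twBound`, with a
parameter).  `Θ` = the indicator function of `{g : ∃ t ∈ D, φ(g a(t)⁻¹) ≠ 0}` has compact support
(contained in `supp φ · a(closure D)`) and is `σ`-regular; `TwBoundC` for `Θ` gives a finite set
`S` and `M` which serve for ALL the translates; on `Fδ × D` the function is the finite sum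
`∑_{|m| ≤ M} φ(x⁻¹ δ σ(x) r^m a(t)⁻¹)`, jointly continuous (`GL₂(𝔸_K)` is second countable:
`T1.LocCompC`); for every `t ∈ D`: `∫_{Fδ} ‖…‖ ≤ #S (2M+1) sup ‖φ‖ · μ(F)` by the orbit unfolding
(`H29.lintegral_enorm_orbit_unfold29`); Tonelli. -/
def JointIntC : Prop :=
  T1.T1Out K → T5.H29.RaySlabC K →
    ∀ (s : T5.AdelicAut K) (l : ℕ) (k : Subfield K) (𝔫 : Ideal (𝓞 K)),
      T5.H29.TwBoundC s l k 𝔫 → T5.IsCyclicOfDegree s l k →
    ∀ (μ : Measure (G K)) (F : Set (G K)) (r : G K), T5.IsFrame μ F → T5.IsRayGen r →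
      T5.AutPreserves s 𝔫 μ r →
    ∀ (a : (InfinitePlace K → ℝ) → G K) (D : Set (InfinitePlace K → ℝ)),
      Continuous a → MeasurableSet D → Bornology.IsBounded D →
    ∀ φ : G K → ℂ, Continuous φ → HasCompactSupport φ →
      (∀ t ∈ D, T5.IsTwRegular s l k (trl193 (a t) φ)) →
    ∀ (δ : GL (Fin 2) K) (Fδ : Set (G K)), T5.IsTwDomain s δ Fδ →
      Integrable
        (fun p : G K × (InfinitePlace K → ℝ) => T5.twTerm r s (trl193 (a p.2) φ) δ p.1)
        ((μ.restrict Fδ).prod (volume.restrict D))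

end NatMatch

end Fermat.Agent.LT.T7.H193

end

end
-- ===== PACK-END LT/T7/H193/NatMatchSpec.lean

-- ===== PACK-BEGIN LT/T7/H228/SchurSeqTop.lean
section




/-!
# Row LT, tower T7, leaf T7.L2.3.5.5 `SD534.SchurSeqC` (registry 2183): PROVED (helper228)

OFF-MAIN.  `schurSeqC228 : SD534.SchurSeqC` VERBATIM vs helper534@b2ea72787
`LT/T7/H534/DownBasisSpec.lean` (sha256 b2d5929f5cd243f8), from the Mathlib-only core
`schurSeqC_core228` (`SchurSeq.lean`, `SchurAbs.lean`): simultaneous Schur form of the commuting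
operators `Zk 1`, `Zk (-1)`, `U`, `B` on every finite dimensional class space (common eigenvector
of the adjoints, invariant orthogonal complement, induction on the dimension), multiplicativity
of the diagonal coefficients, joint eigenvalues by Fitting's lemma, Parseval regrouped class by
class.
-/

set_option autoImplicit false

noncomputable section

namespace Fermat.Agent.LT.T7.H228

theorem clsSpan_eq228 {M A : Type} [AddCommGroup M] [Module ℂ M] (w : ℕ → M) (J : Set ℕ)
    (cl : ℕ → A) (a : A) :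
    Fermat.Agent.LT.T7.SD534.clsSpan w J cl a = clsSpan228 w J cl a := rfl

/-- **T7.L2.3.5.5** `SD534.SchurSeqC`, VERBATIM. -/
theorem schurSeqC228 : Fermat.Agent.LT.T7.SD534.SchurSeqC := by
  intro M _ _ form Wm A w J cl Zk U B hadd hsmul hconj hnn hdef hwm hw1 hw0 hpars hfin hladd
    hlsmul hpres hcomm hgrp
  exact schurSeqC_core228 M form Wm A w J cl Zk U B hadd hsmul hconj hnn hdef hwm hw1 hw0 hpars
    hfin hladd hlsmul hpres hcomm hgrp

end Fermat.Agent.LT.T7.H228

end
end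
-- ===== PACK-END LT/T7/H228/SchurSeqTop.lean

-- ===== PACK-BEGIN LT/T7/H863/WSub.lean
section




/-!
# Row LT, tower T7, leaf T7.L2.3.5.2 (`SD534.WSubC`) -- helper863, OFF-MAIN

The frozen Prop `Fermat.Agent.LT.T7.SD534.WSubC K` (VERBATIM, from
`Fermat/Agent/LT/T7/H534/DownBasisSpec.lean`): `V` (cusp functions of T5), `W` (invariant cusp
functions, `T7.IsWFn`) and the eigen-classes (`T7.IsEigFn`) are closed under `+` and scalar
multiplication, and `0 ∈ W`.

Every condition is linear.  The two analytic points: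
* the constant term (`A0.IsCuspidalFn`): a bounded continuous function is integrable on every
  fundamental domain of `K` in `𝔸_K` (finite measure) -- asset `T2/H886/CuspAlg.lean`
  (`isCuspidalFn_add886`, helper886, byte-identical copy);
* the sphere means (`T7.MeanEig`): the parametrisation `(α, β) ↦ Y α β` of a sphere is continuous
  -- asset `T2/H314/CommCore.lean` (`continuous_sphere314`, helper314, byte-identical copy).

Every proof is complete.
-/

set_option autoImplicit false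
set_option linter.unusedSectionVars false

open AutomorphicForm IsDedekindDomain NumberField MeasureTheory

noncomputable section

namespace Fermat.Agent.LT.T7.H863

open Fermat.Agent.LT Fermat.Agent.LT.H556 Fermat.Agent.LT.H556.A0 Fermat.Agent.LT.T7
open Fermat.Agent.LT.T7.SD534

variable {K : Type} [Field K] [NumberField K]

/-! ## 1. Automorphic functions -/

theorem isAutomorphicFn_zero_863 (𝔫 : Ideal (𝓞 K)) (τ : G K → ℂ) (r : G K) :
    T5.IsAutomorphicFn 𝔫 τ r (0 : G K → ℂ) where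
  left_inv := fun _ _ => rfl
  level_inv := fun _ _ _ => rfl
  arch_compact := fun _ _ _ _ => by simp only [Pi.zero_apply, mul_zero]
  ray := fun _ => rfl

theorem isAutomorphicFn_add_863 {𝔫 : Ideal (𝓞 K)} {τ : G K → ℂ} {r : G K} {f f' : G K → ℂ}
    (h : T5.IsAutomorphicFn 𝔫 τ r f) (h' : T5.IsAutomorphicFn 𝔫 τ r f') :
    T5.IsAutomorphicFn 𝔫 τ r (f + f') where
  left_inv := fun γ g => by
    simp only [Pi.add_apply, h.left_inv γ g, h'.left_inv γ g]
  level_inv := fun u hu g => by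
    simp only [Pi.add_apply, h.level_inv u hu g, h'.level_inv u hu g]
  arch_compact := fun w k hk g => by
    simp only [Pi.add_apply, h.arch_compact w k hk g, h'.arch_compact w k hk g, mul_add]
  ray := fun g => by
    simp only [Pi.add_apply, h.ray g, h'.ray g]

theorem isAutomorphicFn_smul_863 {𝔫 : Ideal (𝓞 K)} {τ : G K → ℂ} {r : G K} {f : G K → ℂ}
    (a : ℂ) (h : T5.IsAutomorphicFn 𝔫 τ r f) :
    T5.IsAutomorphicFn 𝔫 τ r (a • f) where
  left_inv := fun γ g => by
    simp only [Pi.smul_apply, h.left_inv γ g]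
  level_inv := fun u hu g => by
    simp only [Pi.smul_apply, h.level_inv u hu g]
  arch_compact := fun w k hk g => by
    simp only [Pi.smul_apply, smul_eq_mul, h.arch_compact w k hk g]
    ring
  ray := fun g => by
    simp only [Pi.smul_apply, h.ray g]

/-! ## 2. Cusp functions (`V`) -/

theorem isCuspFn_zero_863 (𝔫 : Ideal (𝓞 K)) (τ : G K → ℂ) (r : G K) :
    T5.IsCuspFn 𝔫 τ r (0 : G K → ℂ) where
  cont := continuous_const
  bdd := ⟨0, fun g => by simp only [Pi.zero_apply, norm_zero, le_refl]⟩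
  aut := isAutomorphicFn_zero_863 𝔫 τ r
  cuspidal := T2.H886.isCuspidalFn_zero886

theorem isCuspFn_add_863 {𝔫 : Ideal (𝓞 K)} {τ : G K → ℂ} {r : G K} {f f' : G K → ℂ}
    (h : T5.IsCuspFn 𝔫 τ r f) (h' : T5.IsCuspFn 𝔫 τ r f') :
    T5.IsCuspFn 𝔫 τ r (f + f') where
  cont := h.cont.add h'.cont
  bdd := by
    obtain ⟨C, hC⟩ := h.bdd
    obtain ⟨C', hC'⟩ := h'.bdd
    exact ⟨C + C', fun g => (norm_add_le _ _).trans (add_le_add (hC g) (hC' g))⟩
  aut := isAutomorphicFn_add_863 h.aut h'.aut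
  cuspidal := by
    obtain ⟨C, hC⟩ := h.bdd
    obtain ⟨C', hC'⟩ := h'.bdd
    exact T2.H886.isCuspidalFn_add886 h.cont hC h'.cont hC' h.cuspidal h'.cuspidal

theorem isCuspFn_smul_863 {𝔫 : Ideal (𝓞 K)} {τ : G K → ℂ} {r : G K} {f : G K → ℂ}
    (a : ℂ) (h : T5.IsCuspFn 𝔫 τ r f) :
    T5.IsCuspFn 𝔫 τ r (a • f) where
  cont := h.cont.const_smul a
  bdd := by
    obtain ⟨C, hC⟩ := h.bdd
    refine ⟨‖a‖ * C, fun g => ?_⟩
    rw [Pi.smul_apply, norm_smul]
    exact mul_le_mul_of_nonneg_left (hC g) (norm_nonneg a)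
  aut := isAutomorphicFn_smul_863 a h.aut
  cuspidal := T2.H886.isCuspidalFn_const_mul886 a h.cuspidal

/-! ## 3. Invariant cusp functions (`W`) -/

theorem isWFn_zero_863 (𝔫 : Ideal (𝓞 K)) (r : G K) (l : ℕ)
    (o : ℕ → HeightOneSpectrum (𝓞 K)) : IsWFn 𝔫 r l o (0 : G K → ℂ) where
  cusp := isCuspFn_zero_863 𝔫 T5.trivType r
  arch_scalar := fun _ _ _ _ => rfl
  iw := fun _ _ _ _ _ => rfl

theorem isWFn_add_863 {𝔫 : Ideal (𝓞 K)} {r : G K} {l : ℕ} {o : ℕ → HeightOneSpectrum (𝓞 K)}
    {f f' : G K → ℂ} (h : IsWFn 𝔫 r l o f) (h' : IsWFn 𝔫 r l o f') :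
    IsWFn 𝔫 r l o (f + f') where
  cusp := isCuspFn_add_863 h.cusp h'.cusp
  arch_scalar := fun w z hz g => by
    simp only [Pi.add_apply, h.arch_scalar w z hz g, h'.arch_scalar w z hz g]
  iw := fun y h1 h2 h3 x => by
    simp only [Pi.add_apply, h.iw y h1 h2 h3 x, h'.iw y h1 h2 h3 x]

theorem isWFn_smul_863 {𝔫 : Ideal (𝓞 K)} {r : G K} {l : ℕ} {o : ℕ → HeightOneSpectrum (𝓞 K)}
    {f : G K → ℂ} (a : ℂ) (h : IsWFn 𝔫 r l o f) :
    IsWFn 𝔫 r l o (a • f) where
  cusp := isCuspFn_smul_863 a h.cusp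
  arch_scalar := fun w z hz g => by
    simp only [Pi.smul_apply, h.arch_scalar w z hz g]
  iw := fun y h1 h2 h3 x => by
    simp only [Pi.smul_apply, h.iw y h1 h2 h3 x]

/-! ## 4. Hecke eigenfunctions -/

theorem isHeckeEigenAt_add_863 {f f' : G K → ℂ} {v : HeightOneSpectrum (𝓞 K)} {a b : ℂ}
    (h : IsHeckeEigenAt f v a b) (h' : IsHeckeEigenAt f' v a b) :
    IsHeckeEigenAt (f + f') v a b := by
  refine ⟨fun H hH g => ?_, fun z hz g => ?_⟩
  · simp only [Pi.add_apply, Finset.sum_add_distrib, h.1 H hH g, h'.1 H hH g, mul_add]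
  · simp only [Pi.add_apply, h.2 z hz g, h'.2 z hz g, mul_add]

theorem isHeckeEigenAt_smul_863 {f : G K → ℂ} {v : HeightOneSpectrum (𝓞 K)} {a b : ℂ}
    (c : ℂ) (h : IsHeckeEigenAt f v a b) :
    IsHeckeEigenAt (c • f) v a b := by
  refine ⟨fun H hH g => ?_, fun z hz g => ?_⟩
  · simp only [Pi.smul_apply, smul_eq_mul, ← Finset.mul_sum, h.1 H hH g]
    ring
  · simp only [Pi.smul_apply, smul_eq_mul, h.2 z hz g]
    ring

/-! ## 5. Sphere means -/

theorem continuous_sphere_integrand_863 {w : InfinitePlace K} {d : ℝ} {Y : ℝ → ℝ → G K}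
    (hY : ∀ α β : ℝ, IsLocalAtInf w (Y α β) ∧ infComp w (Y α β) = rotZ α * rotY β * torus d)
    {φ : G K → ℂ} (hφ : Continuous φ) (g : G K) :
    Continuous fun p : ℝ × ℝ => φ (g * Y p.1 p.2) * ((Real.sin p.2 : ℝ) : ℂ) := by
  have hYc := T2.H314.continuous_sphere314 hY
  have h1 : Continuous fun p : ℝ × ℝ => φ (g * Y p.1 p.2) :=
    hφ.comp (continuous_const.mul hYc)
  have h2 : Continuous fun p : ℝ × ℝ => ((Real.sin p.2 : ℝ) : ℂ) :=
    Complex.continuous_ofReal.comp (Real.continuous_sin.comp continuous_snd)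
  exact h1.mul h2

theorem continuous_sphere_inner_863 {w : InfinitePlace K} {d : ℝ} {Y : ℝ → ℝ → G K}
    (hY : ∀ α β : ℝ, IsLocalAtInf w (Y α β) ∧ infComp w (Y α β) = rotZ α * rotY β * torus d)
    {φ : G K → ℂ} (hφ : Continuous φ) (g : G K) (α : ℝ) :
    Continuous fun β : ℝ => φ (g * Y α β) * ((Real.sin β : ℝ) : ℂ) := by
  have hYα : Continuous fun β : ℝ => Y α β :=
    (T2.H314.continuous_sphere314 hY).comp (Continuous.prodMk_right α)
  have h1 : Continuous fun β : ℝ => φ (g * Y α β) :=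
    hφ.comp (continuous_const.mul hYα)
  have h2 : Continuous fun β : ℝ => ((Real.sin β : ℝ) : ℂ) :=
    Complex.continuous_ofReal.comp Real.continuous_sin
  exact h1.mul h2

theorem continuous_sphere_outer_863 {w : InfinitePlace K} {d : ℝ} {Y : ℝ → ℝ → G K}
    (hY : ∀ α β : ℝ, IsLocalAtInf w (Y α β) ∧ infComp w (Y α β) = rotZ α * rotY β * torus d)
    {φ : G K → ℂ} (hφ : Continuous φ) (g : G K) :
    Continuous fun α : ℝ => ∫ β in (0 : ℝ)..Real.pi,
      φ (g * Y α β) * ((Real.sin β : ℝ) : ℂ) := by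
  have hu : Continuous (Function.uncurry fun α β : ℝ =>
      φ (g * Y α β) * ((Real.sin β : ℝ) : ℂ)) := continuous_sphere_integrand_863 hY hφ g
  exact intervalIntegral.continuous_parametric_intervalIntegral_of_continuous' hu 0 Real.pi

theorem meanEig_add_863 {f f' : G K → ℂ} (hf : Continuous f) (hf' : Continuous f')
    {w : InfinitePlace K} {m : ℝ → ℂ} (h : MeanEig f w m) (h' : MeanEig f' w m) :
    MeanEig (f + f') w m := by
  intro d hd Y hY g
  have e1 : ∀ α β : ℝ, (f + f') (g * Y α β) * ((Real.sin β : ℝ) : ℂ)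
      = f (g * Y α β) * ((Real.sin β : ℝ) : ℂ) + f' (g * Y α β) * ((Real.sin β : ℝ) : ℂ) :=
    fun α β => by rw [Pi.add_apply, add_mul]
  simp only [e1]
  have e2 : ∀ α : ℝ, (∫ β in (0 : ℝ)..Real.pi,
      (f (g * Y α β) * ((Real.sin β : ℝ) : ℂ) + f' (g * Y α β) * ((Real.sin β : ℝ) : ℂ)))
      = (∫ β in (0 : ℝ)..Real.pi, f (g * Y α β) * ((Real.sin β : ℝ) : ℂ))
        + ∫ β in (0 : ℝ)..Real.pi, f' (g * Y α β) * ((Real.sin β : ℝ) : ℂ) :=
    fun α => intervalIntegral.integral_add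
      ((continuous_sphere_inner_863 hY hf g α).intervalIntegrable _ _)
      ((continuous_sphere_inner_863 hY hf' g α).intervalIntegrable _ _)
  simp only [e2]
  rw [intervalIntegral.integral_add
      ((continuous_sphere_outer_863 hY hf g).intervalIntegrable _ _)
      ((continuous_sphere_outer_863 hY hf' g).intervalIntegrable _ _),
    h d hd Y hY g, h' d hd Y hY g, Pi.add_apply, mul_add]

theorem meanEig_smul_863 {f : G K → ℂ} {w : InfinitePlace K} {m : ℝ → ℂ} (a : ℂ)
    (h : MeanEig f w m) : MeanEig (a • f) w m := by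
  intro d hd Y hY g
  have e1 : ∀ α β : ℝ, (a • f) (g * Y α β) * ((Real.sin β : ℝ) : ℂ)
      = a * (f (g * Y α β) * ((Real.sin β : ℝ) : ℂ)) :=
    fun α β => by rw [Pi.smul_apply, smul_eq_mul, mul_assoc]
  simp only [e1]
  simp only [intervalIntegral.integral_const_mul]
  rw [h d hd Y hY g, Pi.smul_apply, smul_eq_mul]
  ring

/-! ## 6. The eigen-classes -/

theorem isEigFn_add_863 {𝔫 : Ideal (𝓞 K)} {r : G K} {l : ℕ} {o : ℕ → HeightOneSpectrum (𝓞 K)}
    {c : EigData K} {f f' : G K → ℂ} (h : IsEigFn 𝔫 r l o f c) (h' : IsEigFn 𝔫 r l o f' c) :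
    IsEigFn 𝔫 r l o (f + f') c where
  inv := isWFn_add_863 h.inv h'.inv
  hecke := fun v hv => isHeckeEigenAt_add_863 (h.hecke v hv) (h'.hecke v hv)
  mean := fun w => meanEig_add_863 h.inv.cusp.cont h'.inv.cusp.cont (h.mean w) (h'.mean w)

theorem isEigFn_smul_863 {𝔫 : Ideal (𝓞 K)} {r : G K} {l : ℕ} {o : ℕ → HeightOneSpectrum (𝓞 K)}
    {c : EigData K} {f : G K → ℂ} (a : ℂ) (h : IsEigFn 𝔫 r l o f c) :
    IsEigFn 𝔫 r l o (a • f) c where
  inv := isWFn_smul_863 a h.inv
  hecke := fun v hv => isHeckeEigenAt_smul_863 a (h.hecke v hv)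
  mean := fun w => meanEig_smul_863 a (h.mean w)

/-! ## 7. The leaf -/

/-- **T7.L2.3.5.2** (`SD534.WSubC`): `V`, `W` and the eigen-classes are linear subspaces. -/
theorem wSubC_863 (K : Type) [Field K] [NumberField K] : WSubC K := fun 𝔫 r u =>
  { zeroW := isWFn_zero_863 𝔫 r 1 (fun _ => u)
    addV := fun _ _ h h' => isCuspFn_add_863 h h'
    smulV := fun a _ h => isCuspFn_smul_863 a h
    addW := fun _ _ h h' => isWFn_add_863 h h'
    smulW := fun a _ h => isWFn_smul_863 a h
    addC := fun _ _ _ h h' => isEigFn_add_863 h h'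
    smulC := fun _ a _ h => isEigFn_smul_863 a h }

end Fermat.Agent.LT.T7.H863

end

end
-- ===== PACK-END LT/T7/H863/WSub.lean

-- ===== PACK-BEGIN LT/T7/H468/IwPerm.lean
section





/-!
# Row LT, tower T7, leaf T7.L2.3.5.3 `SD534.OpsClassC` (helper468): Iwahori coset systems

OFF-MAIN.  An Iwahori coset system `H` at `u` (`T7.IsIwCosetSystem`) is a FULL system of
representatives of `I t I / I` (`iw_complete468`: invariant `M₀₁ / M₁₁ mod 𝔭`, pigeonhole), hence
left multiplication by an element of `I` supported at `u` permutes `H` modulo `I`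
(`iw_perm_sum468`).
-/

set_option autoImplicit false
set_option linter.unusedSectionVars false
set_option linter.style.haveILetI false

open AutomorphicForm IsDedekindDomain NumberField MeasureTheory Matrix
open scoped ComplexConjugate

noncomputable section

namespace Fermat.Agent.LT.T7.H468

open Fermat.Agent.LT.H556 Fermat.Agent.LT.H556.A0 Fermat.Agent.LT.T7
open Fermat.Agent.LT.T8.H864

variable {K : Type} [Field K] [NumberField K]

/-! ## The invariant -/

/-- The invariant `M₀₁ / M₁₁ mod 𝔭`. -/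
def lamL468 (v : HeightOneSpectrum (𝓞 K)) (M : GL (Fin 2) (v.adicCompletion K)) :
    IsLocalRing.ResidueField (v.adicCompletionIntegers K) :=
  if h : Valued.v ((M : Matrix (Fin 2) (Fin 2) (v.adicCompletion K)) 0 1
      / (M : Matrix (Fin 2) (Fin 2) (v.adicCompletion K)) 1 1) ≤ 1 then
    IsLocalRing.residue (v.adicCompletionIntegers K)
      ⟨(M : Matrix (Fin 2) (Fin 2) (v.adicCompletion K)) 0 1
        / (M : Matrix (Fin 2) (Fin 2) (v.adicCompletion K)) 1 1, h⟩
  else 0

theorem val_of_lamL_eq468 {v : HeightOneSpectrum (𝓞 K)} {M M' : GL (Fin 2) (v.adicCompletion K)}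
    (hM : StdL468 v M) (hM' : StdL468 v M') (h : lamL468 v M = lamL468 v M') :
    Valued.v ((M : Matrix (Fin 2) (Fin 2) (v.adicCompletion K)) 1 1
        * (M' : Matrix (Fin 2) (Fin 2) (v.adicCompletion K)) 0 1
      - (M : Matrix (Fin 2) (Fin 2) (v.adicCompletion K)) 0 1
        * (M' : Matrix (Fin 2) (Fin 2) (v.adicCompletion K)) 1 1) < 1 := by
  obtain ⟨m1, -, -, m11, -⟩ := hM
  obtain ⟨n1, -, -, n11, -⟩ := hM'
  have hm0 : (M : Matrix (Fin 2) (Fin 2) (v.adicCompletion K)) 1 1 ≠ 0 := by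
    intro h0
    rw [h0, map_zero] at m11
    exact zero_ne_one m11
  have hn0 : (M' : Matrix (Fin 2) (Fin 2) (v.adicCompletion K)) 1 1 ≠ 0 := by
    intro h0
    rw [h0, map_zero] at n11
    exact zero_ne_one n11
  have ha : Valued.v ((M : Matrix (Fin 2) (Fin 2) (v.adicCompletion K)) 0 1
      / (M : Matrix (Fin 2) (Fin 2) (v.adicCompletion K)) 1 1) ≤ 1 := by
    rw [map_div₀, m11, div_one]
    exact m1 0 1
  have ha' : Valued.v ((M' : Matrix (Fin 2) (Fin 2) (v.adicCompletion K)) 0 1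
      / (M' : Matrix (Fin 2) (Fin 2) (v.adicCompletion K)) 1 1) ≤ 1 := by
    rw [map_div₀, n11, div_one]
    exact n1 0 1
  unfold lamL468 at h
  rw [dif_pos ha, dif_pos ha'] at h
  have h2 := sub_eq_zero.2 h.symm
  rw [← map_sub, Fermat.Agent.LT.H129.residue_eq_zero_iff_valued129] at h2
  have h3 : Valued.v ((M' : Matrix (Fin 2) (Fin 2) (v.adicCompletion K)) 0 1
        / (M' : Matrix (Fin 2) (Fin 2) (v.adicCompletion K)) 1 1
      - (M : Matrix (Fin 2) (Fin 2) (v.adicCompletion K)) 0 1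
        / (M : Matrix (Fin 2) (Fin 2) (v.adicCompletion K)) 1 1) < 1 := h2
  have e : (M : Matrix (Fin 2) (Fin 2) (v.adicCompletion K)) 1 1
        * (M' : Matrix (Fin 2) (Fin 2) (v.adicCompletion K)) 0 1
      - (M : Matrix (Fin 2) (Fin 2) (v.adicCompletion K)) 0 1
        * (M' : Matrix (Fin 2) (Fin 2) (v.adicCompletion K)) 1 1
      = (M : Matrix (Fin 2) (Fin 2) (v.adicCompletion K)) 1 1
        * (M' : Matrix (Fin 2) (Fin 2) (v.adicCompletion K)) 1 1
        * ((M' : Matrix (Fin 2) (Fin 2) (v.adicCompletion K)) 0 1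
            / (M' : Matrix (Fin 2) (Fin 2) (v.adicCompletion K)) 1 1
          - (M : Matrix (Fin 2) (Fin 2) (v.adicCompletion K)) 0 1
            / (M : Matrix (Fin 2) (Fin 2) (v.adicCompletion K)) 1 1) := by
    field_simp
  rw [e, map_mul, map_mul, m11, n11, one_mul, one_mul]
  exact h3

/-! ## Adelic and local predicates -/

theorem inIwahori_iff468 (u : HeightOneSpectrum (𝓞 K)) (g : G K) :
    T5.InIwahori u g ↔ IwL468 u (finCompHom u g) := by
  unfold T5.InIwahori IwL468 IsIntegralAt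
  rw [← map_inv]
  rfl

theorem inIwahori_mul468 {u : HeightOneSpectrum (𝓞 K)} {g g' : G K} (hg : T5.InIwahori u g)
    (hg' : T5.InIwahori u g') : T5.InIwahori u (g * g') := by
  rw [inIwahori_iff468] at hg hg' ⊢
  rw [map_mul]
  exact hg.mul hg'

theorem inIwahori_inv468 {u : HeightOneSpectrum (𝓞 K)} {g : G K} (hg : T5.InIwahori u g) :
    T5.InIwahori u g⁻¹ := by
  rw [inIwahori_iff468] at hg ⊢
  rw [map_inv]
  exact hg.inv

theorem stdL_of_coset468 {u : HeightOneSpectrum (𝓞 K)} {h : G K}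
    (hh : T5.InIwahoriCoset u 1 h) : StdL468 u (finCompHom u h) := by
  obtain ⟨k₁, k₂, t, c, hk₁, hk₂, hc, ht, hfc⟩ := hh
  have e : finCompHom u h = finCompHom u k₁ * finCompHom u t * finCompHom u k₂ := by
    rw [← map_mul, ← map_mul]
    exact Units.ext hfc
  rw [e]
  refine StdL468.mul_iw (StdL468.iw_mul ((inIwahori_iff468 u k₁).1 hk₁) ?_)
    ((inIwahori_iff468 u k₂).1 hk₂)
  refine StdL468.diag (c := c) ?_ ht
  rw [hc]
  simp

/-! ## Completeness -/

/-- **An Iwahori coset system is complete.** -/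
theorem iw_complete468 {u : HeightOneSpectrum (𝓞 K)} {H : Finset (G K)}
    (hH : IsIwCosetSystem u H) {g : G K} (hg : StdL468 u (finCompHom u g)) :
    ∃ h ∈ H, T5.InIwahori u (h⁻¹ * g) := by
  classical
  obtain ⟨hcard, hmem, hne⟩ := hH
  haveI : Finite (IsLocalRing.ResidueField (u.adicCompletionIntegers K)) :=
    Fermat.Agent.LT.H129.finite_residueField129 K u
  letI : Fintype (IsLocalRing.ResidueField (u.adicCompletionIntegers K)) := Fintype.ofFinite _
  have hstd : ∀ h ∈ H, StdL468 u (finCompHom u h) := fun h hh => stdL_of_coset468 (hmem h hh).2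
  have key : ∀ a b : G K, StdL468 u (finCompHom u a) → StdL468 u (finCompHom u b) →
      lamL468 u (finCompHom u a) = lamL468 u (finCompHom u b) → T5.InIwahori u (a⁻¹ * b) := by
    intro a b ha hb hab
    rw [inIwahori_iff468, map_mul, map_inv]
    exact iwL_inv_mul468 ha hb (val_of_lamL_eq468 ha hb hab)
  let ι : {h // h ∈ H} → IsLocalRing.ResidueField (u.adicCompletionIntegers K) :=
    fun h => lamL468 u (finCompHom u h.1)
  have hinj : Function.Injective ι := by
    intro h h' e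
    by_contra hcon
    have hne' : h.1 ≠ h'.1 := fun hh => hcon (Subtype.ext hh)
    exact hne h.1 h.2 h'.1 h'.2 hne' (key h.1 h'.1 (hstd h.1 h.2) (hstd h'.1 h'.2) e)
  have hcard' : Fintype.card {h // h ∈ H}
      = Fintype.card (IsLocalRing.ResidueField (u.adicCompletionIntegers K)) := by
    rw [Fintype.card_coe, hcard, ← Nat.card_eq_fintype_card,
      Fermat.Agent.LT.H129.card_residueField129 K u]
  have hbij : Function.Bijective ι :=
    (Fintype.bijective_iff_injective_and_card ι).mpr ⟨hinj, hcard'⟩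
  obtain ⟨⟨h, hhH⟩, hh⟩ := hbij.2 (lamL468 u (finCompHom u g))
  exact ⟨h, hhH, key h g (hstd h hhH) hg hh⟩

/-! ## Elements supported at `u` -/

theorem isLocalAtFin_mul468 {u : HeightOneSpectrum (𝓞 K)} {g g' : G K}
    (hg : IsLocalAtFin u g) (hg' : IsLocalAtFin u g') : IsLocalAtFin u (g * g') := by
  refine ⟨fun w => ?_, fun v hv => ?_⟩
  · rw [trivAtInf_iff_hom, map_mul, (trivAtInf_iff_hom w g).1 (hg.1 w),
      (trivAtInf_iff_hom w g').1 (hg'.1 w), one_mul]
  · rw [trivAtFin_iff_hom, map_mul, (trivAtFin_iff_hom v g).1 (hg.2 v hv),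
      (trivAtFin_iff_hom v g').1 (hg'.2 v hv), one_mul]

theorem isLocalAtFin_inv468 {u : HeightOneSpectrum (𝓞 K)} {g : G K}
    (hg : IsLocalAtFin u g) : IsLocalAtFin u g⁻¹ := by
  refine ⟨fun w => ?_, fun v hv => ?_⟩
  · rw [trivAtInf_iff_hom, map_inv, (trivAtInf_iff_hom w g).1 (hg.1 w), inv_one]
  · rw [trivAtFin_iff_hom, map_inv, (trivAtFin_iff_hom v g).1 (hg.2 v hv), inv_one]

/-- Invariance under the Iwahori subgroup at `u`, in the form used below. -/
theorem iwInv_apply468 {u : HeightOneSpectrum (𝓞 K)} {ψ : G K → ℂ}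
    (hψ : IsIwInv 1 (fun _ => u) ψ) {κ : G K} (hκ : IsLocalAtFin u κ)
    (hκI : T5.InIwahori u κ) (x : G K) : ψ (x * κ) = ψ x :=
  hψ κ hκ.1 (fun v hv => hκ.2 v (hv 0 Nat.zero_lt_one)) (fun _ _ => hκI) x

/-- **The permutation of the coset system.** -/
theorem iw_perm_sum468 {u : HeightOneSpectrum (𝓞 K)} {H : Finset (G K)}
    (hH : IsIwCosetSystem u H) {ψ : G K → ℂ} (hψ : IsIwInv 1 (fun _ => u) ψ) {i : G K}
    (hi : IsLocalAtFin u i) (hiI : T5.InIwahori u i) (x : G K) :
    ∑ h ∈ H, ψ (x * (i * h)) = ∑ h ∈ H, ψ (x * h) := by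
  classical
  have hstd : ∀ h ∈ H, StdL468 u (finCompHom u (i * h)) := by
    intro h hh
    rw [map_mul]
    exact StdL468.iw_mul ((inIwahori_iff468 u i).1 hiI) (stdL_of_coset468 (hH.2.1 h hh).2)
  have hex : ∀ h : {h // h ∈ H}, ∃ h' ∈ H, T5.InIwahori u (h'⁻¹ * (i * h.1)) :=
    fun h => iw_complete468 hH (hstd h.1 h.2)
  choose σ hσH hσ using hex
  have hval : ∀ h : {h // h ∈ H}, ψ (x * (i * h.1)) = ψ (x * σ h) := by
    intro h
    have e : x * (i * h.1) = x * σ h * ((σ h)⁻¹ * (i * h.1)) := by group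
    rw [e]
    exact iwInv_apply468 hψ
      (isLocalAtFin_mul468 (isLocalAtFin_inv468 (hH.2.1 _ (hσH h)).1)
        (isLocalAtFin_mul468 hi (hH.2.1 h.1 h.2).1)) (hσ h) _
  have hinj : ∀ a b : {h // h ∈ H}, σ a = σ b → a = b := by
    intro a b hab
    by_contra hcon
    have hne' : a.1 ≠ b.1 := fun hh => hcon (Subtype.ext hh)
    apply hH.2.2 a.1 a.2 b.1 b.2 hne'
    have e : a.1⁻¹ * b.1 = ((σ a)⁻¹ * (i * a.1))⁻¹ * ((σ b)⁻¹ * (i * b.1)) := by
      rw [hab]; group
    rw [e]
    exact inIwahori_mul468 (inIwahori_inv468 (hσ a)) (hσ b)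
  rw [← Finset.sum_coe_sort H (fun h => ψ (x * (i * h))),
    ← Finset.sum_coe_sort H (fun h => ψ (x * h))]
  let τ : {h // h ∈ H} → {h // h ∈ H} := fun h => ⟨σ h, hσH h⟩
  have hτinj : Function.Injective τ := fun a b hab => hinj a b (congrArg Subtype.val hab)
  have hτbij : Function.Bijective τ := Finite.injective_iff_bijective.1 hτinj
  calc ∑ h : {h // h ∈ H}, ψ (x * (i * h.1))
      = ∑ h : {h // h ∈ H}, ψ (x * (τ h).1) := Finset.sum_congr rfl (fun h _ => hval h)
    _ = ∑ h : {h // h ∈ H}, ψ (x * h.1) :=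
        Function.Bijective.sum_comp hτbij (fun h : {h // h ∈ H} => ψ (x * h.1))

end Fermat.Agent.LT.T7.H468

end

end
-- ===== PACK-END LT/T7/H468/IwPerm.lean

-- ===== PACK-BEGIN LT/T7/H305/MatchCutTop.lean
section



/-!
# Row LT, tower T7, node C2.7 `CutIntC305` (helper305): SECOND CUT -- the proved top

OFF-MAIN.  Complete proof, nothing assumed.

    cutIntC_of305 : T6.T6Out → GoodSetC305 K K' → UnitMatchC305 K K' → PureExtC305 K →
        PureExtC305 K' → LocMeasC305 → LocCutC305 → ArchMeasC305 → TorSplitC305 K →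
        FactDownC305 K → FactUpC305 K K' → LocVanC305 → NonNormLocC305 K K' → CutIntC305 K K'

The constant of the node is `κ = c'_G / c_G` (`FactUpC305`, `FactDownC305`).
-/

set_option autoImplicit false
set_option linter.unusedSectionVars false

open AutomorphicForm IsDedekindDomain NumberField MeasureTheory
open scoped ComplexConjugate

noncomputable section

namespace Fermat.Agent.LT.T7.H305

open Fermat.Agent.LT.H556 Fermat.Agent.LT.H556.A0 Fermat.Agent.LT.T7

attribute [local instance] Fermat.Agent.LT.T5.instMeasurableSpaceG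

section Lemmas

/-- The twisted norm of length one. -/
theorem twNorm_one305 {R : Type} [CommRing R] (s : R ≃+* R) (δ : GL (Fin 2) R) :
    T6.twNorm s 1 δ = δ := by
  change δ * T6.glAut s 1 = δ
  rw [map_one, mul_one]

/-- The discriminant commutes with ring homomorphisms. -/
theorem disc_map305 {R R' : Type} [CommRing R] [CommRing R'] (f : R →+* R')
    (γ : GL (Fin 2) R) :
    T6.disc (Matrix.GeneralLinearGroup.map f γ) = f (T6.disc γ) := by
  have h1 : ((Matrix.GeneralLinearGroup.map f γ : GL (Fin 2) R') : Matrix (Fin 2) (Fin 2) R')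
      = (γ : Matrix (Fin 2) (Fin 2) R).map f := rfl
  unfold T6.disc
  rw [h1]
  have h2 : ((γ : Matrix (Fin 2) (Fin 2) R).map f).trace
      = f (γ : Matrix (Fin 2) (Fin 2) R).trace := by
    simp [Matrix.trace, Matrix.diag]
  have h3 : ((γ : Matrix (Fin 2) (Fin 2) R).map f).det
      = f (γ : Matrix (Fin 2) (Fin 2) R).det := by
    simp [Matrix.det_fin_two]
  rw [h2, h3, map_sub, map_pow, map_mul]
  congr 2
  exact (map_ofNat f 4).symm

theorem isReg_map305 {R R' : Type} [CommRing R] [CommRing R'] (f : R →+* R')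
    {γ : GL (Fin 2) R} (h : T6.IsReg γ) : T6.IsReg (Matrix.GeneralLinearGroup.map f γ) := by
  unfold T6.IsReg at h ⊢
  rw [disc_map305]
  exact h.map f

variable {K : Type} [Field K] [NumberField K]

theorem isReg_locG305 {γ : GL (Fin 2) K} (h : T6.IsEll γ) (v : HeightOneSpectrum (𝓞 K)) :
    T6.IsReg (locG305 v γ) := isReg_map305 _ h.1

theorem isReg_archG305 {γ : GL (Fin 2) K} (h : T6.IsEll γ) (w : InfinitePlace K) :
    T6.IsReg (archG305 w γ) := by
  have h1 : archG305 w γ
      = Matrix.GeneralLinearGroup.map ((T5.infHom w).comp (algebraMap K (Adl K))) γ := by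
    apply Units.ext
    ext a b
    rfl
  rw [h1]
  exact isReg_map305 _ h.1

/-- **LOCAL DATA EXIST.** -/
theorem exists_locData305 (hT6 : T6.T6Out) (hmeas : LocMeasC305) (hcut : LocCutC305)
    (harch : ArchMeasC305) (m : HeightOneSpectrum (𝓞 K) → ℕ) {γ : GL (Fin 2) K}
    (hell : T6.IsEll γ) : ∃ L : LocData305 K γ, IsLocData305 m L := by
  have hloc : T6.InstLocalC := hT6.2.2.2.2.2.1
  have hreg : ∀ v : HeightOneSpectrum (𝓞 K),
      T6.IsReg (T6.twNorm (RingEquiv.refl (v.adicCompletion K)) 1 (locG305 v γ)) := fun v => by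
    rw [twNorm_one305]; exact isReg_locG305 hell v
  have h1 : ∀ v : HeightOneSpectrum (𝓞 K),
      ∃ μ : @Measure (GL (Fin 2) (v.adicCompletion K)) (borel _), IsLocHaar305 (m v) μ :=
    fun v => (hmeas (v.adicCompletion K) _ (hloc K v)).1 (m v)
  have h2 : ∀ v : HeightOneSpectrum (𝓞 K),
      ∃ μT : @Measure (T6.twCentSub (T6.glAut (RingEquiv.refl (v.adicCompletion K)))
          (locG305 v γ)) (borel _),
        IsLocTor305 (RingEquiv.refl (v.adicCompletion K)) (locG305 v γ) μT :=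
    fun v => (hmeas (v.adicCompletion K) _ (hloc K v)).2 1 (RingEquiv.refl _)
      (fun _ => rfl) Nat.one_pos (fun _ => rfl) (locG305 v γ) (hreg v)
  choose μv hμv using h1
  choose μt hμt using h2
  have h3 : ∀ v : HeightOneSpectrum (𝓞 K), ∃ β : GL (Fin 2) (v.adicCompletion K) → ℝ,
      IsLocCut305 (RingEquiv.refl (v.adicCompletion K)) (locG305 v γ) (μt v) β :=
    fun v => hcut (v.adicCompletion K) _ (hloc K v) 1 (RingEquiv.refl _)
      (fun _ => rfl) Nat.one_pos (fun _ => rfl) (locG305 v γ) (hreg v) (μt v) (hμt v).1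
  choose βv hβv using h3
  have h4 : ∀ w : InfinitePlace K, ∃ μT : @Measure (cent305 (archG305 w γ)) (borel _),
      @Measure.IsHaarMeasure _ _ _ (borel _) μT :=
    fun w => (harch (archG305 w γ) (isReg_archG305 hell w)).1
  choose μtc hμtc using h4
  have h5 : ∀ w : InfinitePlace K, ∃ β : GL (Fin 2) ℂ → ℝ,
      IsCut305 (archG305 w γ) (μtc w) β :=
    fun w => (harch (archG305 w γ) (isReg_archG305 hell w)).2 (μtc w) (hμtc w)
  choose βc hβc using h5
  exact ⟨⟨μv, μt, βv, μtc, βc⟩, ⟨hμv, hμt, hβv, hμtc, hβc⟩⟩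

theorem pure_ext_fun305 (hp : PureExtC305 K) {T S : Finset (HeightOneSpectrum (𝓞 K))}
    (hTS : T ⊆ S)
    (f₀ : ∀ v : HeightOneSpectrum (𝓞 K), GL (Fin 2) (v.adicCompletion K) → ℂ)
    (F : InfinitePlace K → GL (Fin 2) ℂ → ℂ) :
    pure305 S (ext305 T f₀) F = pure305 T f₀ F :=
  funext fun h => hp T S hTS f₀ F h

end Lemmas

variable {K K' : Type} [Field K] [NumberField K] [Field K'] [NumberField K'] [Algebra K K']

/-- The places over `T` are among the places over `S ⊇ T`. -/
theorem over_mono305 {T S : Finset (HeightOneSpectrum (𝓞 K))}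
    {T' S' : Finset (HeightOneSpectrum (𝓞 K'))} (hTS : T ⊆ S) (hT : IsOver305 T T')
    (hS : IsOver305 S S') : T' ⊆ S' := by
  intro w hw
  obtain ⟨v, hv, hvw⟩ := (hT w).1 hw
  exact (hS w).2 ⟨v, hTS hv, hvw⟩

/-- **THE TOP OF THE SECOND CUT.** -/
theorem cutIntC_of305 (hT6 : T6.T6Out) (hgood : GoodSetC305 K K')
    (hunit : UnitMatchC305 K K') (hpure : PureExtC305 K) (hpure' : PureExtC305 K')
    (hmeas : LocMeasC305) (hcut : LocCutC305) (harch : ArchMeasC305)
    (htor : TorSplitC305 K) (hdown : FactDownC305 K) (hup : FactUpC305 K K')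
    (hvan : LocVanC305) (hnn : NonNormLocC305 K K') : CutIntC305 K K' := by
  classical
  intro D hD hcyc hl2 htc ι hι μc hμc T₀ hun n m hlev
  obtain ⟨cG, hcG, hdn⟩ := hdown htc D.R hD.frame μc hμc T₀ m hlev.1
  obtain ⟨cG', hcG', hupp⟩ := hup hT6 D hD hcyc hl2 htc ι hι μc hμc T₀ hun n m hlev
  have hloc : T6.InstLocalC := hT6.2.2.2.2.2.1
  refine ⟨((cG' / cG : ℝ) : ℂ), ?_, ?_⟩
  · exact_mod_cast (div_pos hcG' hcG).ne'
  intro T T' hT₀T hTT' φ₀ Φ f₀ F hlocT
  constructor
  · -- the norms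
    intro δ γ hell hN μT μT' hμT hμT' hlink
    obtain ⟨S, S', hTS, hSS', hgγ, hiδ⟩ := hgood γ δ hell T
    have hlocS := hunit hT6 D hD hcyc hl2 htc μc hμc T₀ hun n m hlev T S T' S' hT₀T hTS hTT'
      hSS' φ₀ Φ f₀ F hlocT
    obtain ⟨L, hL⟩ := exists_locData305 hT6 hmeas hcut harch m hell
    obtain ⟨cT, hcT, hTC⟩ := htor htc γ hell μT hμT L hL.tor hL.torc
    obtain ⟨hβ, hval⟩ := hdn S (hT₀T.trans hTS) (ext305 T f₀) F hlocS.inv_down
      (fun w => ⟨(hlocS.arch_down w).1, (hlocS.arch_down w).2.1⟩) γ hell hgγ μT hμT L cT hL hcT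
      hTC
    obtain ⟨β', hβ', hval'⟩ := hupp S S' (hT₀T.trans hTS) hSS' (ext305 T' φ₀) Φ (ext305 T f₀) F
      hlocS δ γ hell hN hgγ hiδ μT μT' hμT hμT' hlink L cT hL hcT hTC
    rw [pure_ext_fun305 hpure hTS] at hβ hval
    rw [pure_ext_fun305 hpure' (over_mono305 hTS hTT' hSS')] at hβ' hval'
    refine ⟨β', prodCut305 S cT L, hβ', hβ, ?_⟩
    have h1 : cG ≠ 0 := hcG.ne'
    have h2 : cT ≠ 0 := hcT.ne'
    have h3 : cG' / cT = cG' / cG * (cG / cT) := by field_simp
    rw [hval', hval, ← mul_assoc, ← Complex.ofReal_mul, ← h3]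
  · -- the elements which are not norms
    intro γ hell hnot μT hμT
    obtain ⟨v, w, e, i, sw, hvw, huniq, hi, hsw, hext, hnorm⟩ :=
      hnn hT6 D hD hcyc hl2 htc γ hell hnot
    obtain ⟨S, S', hTS, hSS', hgγ, -⟩ := hgood γ 1 hell (insert v T)
    have hTS' : T ⊆ S := (Finset.subset_insert v T).trans hTS
    have hvS : v ∈ S := hTS (Finset.mem_insert_self v T)
    have hlocS := hunit hT6 D hD hcyc hl2 htc μc hμc T₀ hun n m hlev T S T' S' hT₀T hTS' hTT'
      hSS' φ₀ Φ f₀ F hlocT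
    obtain ⟨L, hL⟩ := exists_locData305 hT6 hmeas hcut harch m hell
    obtain ⟨cT, hcT, hTC⟩ := htor htc γ hell μT hμT L hL.tor hL.torc
    obtain ⟨hβ, hval⟩ := hdn S (hT₀T.trans hTS') (ext305 T f₀) F hlocS.inv_down
      (fun w => ⟨(hlocS.arch_down w).1, (hlocS.arch_down w).2.1⟩) γ hell hgγ μT hμT L cT hL hcT
      hTC
    rw [pure_ext_fun305 hpure hTS'] at hβ hval
    refine ⟨prodCut305 S cT L, hβ, ?_⟩
    rw [hval]
    have hzero : locInt305 (L.μv v) (L.βv v) (ext305 T f₀ v) (locG305 v γ) = 0 := by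
      refine hvan hT6 (v.adicCompletion K) _ (hloc K v) (m v) (ext305 T f₀ v)
        (hlocS.inv_down v hvS).1 (hlocS.inv_down v hvS).2 (locG305 v γ) (isReg_locG305 hell v)
        ?_ (L.μv v) (hL.haar v) (L.μt v) (hL.tor v) (L.βv v) (hL.cut v)
      intro c' hc'
      exact ((hlocS.inert v hvS w hvw huniq e i sw hi hsw hext).2 (locG305 v γ) c'
        (isReg_locG305 hell v) hnorm hc')
    have hfact : factVal305 D.R.r S L (ext305 T f₀) μc F = 0 := by
      unfold factVal305
      rw [Finset.prod_eq_zero hvS hzero]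
      simp
    rw [hfact, mul_zero]

end Fermat.Agent.LT.T7.H305

end

end
-- ===== PACK-END LT/T7/H305/MatchCutTop.lean

-- ===== PACK-BEGIN LT/T7/H298/MatchQCut.lean
section




/-!
# Row LT, tower T7, node Q2.7 `CutIntQC298` (registry row 2605, owner helper298):
# SECOND CUT over `ℚ` -- Spec

OFF-MAIN.  Definitions and frozen Props only (the proved top is `MatchQCutTop.lean`).  No hole,
nothing assumed.  ADDITIVE (new names only, suffix `298`, namespace
`Fermat.Agent.LT.T7.MQ298`).  MIRROR of the second cut of the cubic node `CutIntC305`,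
`T7/H305/MatchCut.lean` (helper305@56ddcdc02, sha256 0f302b81), which is imported AS IT IS.

    cutIntQC_of298 : HasSqrtNegThree F → T6.T6Out → GoodSetC305 ℚ F → UnitMatchQC298 F →
        PureExtC305 ℚ → PureExtC305 F → LocMeasC305 → LocCutC305 → ArchMeasRC298 →
        TorSplitQC298 → FactDownQC298 → FactUpQC298 F → LocVanC305 → ArchVanQC298 →
        NonNormLocQC298 F → CutIntQC298 F

## REUSED VERBATIM from the cubic cut (closed or in work on the branches)

`GoodSetC305 ℚ F` (helper861/877/165), `PureExtC305 ℚ`, `PureExtC305 F` (helper82),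
`LocMeasC305`, `LocCutC305` (abstract local fields), `LocVanC305` (helper385), and the ASSET
`SuppDownC305 ℚ` (no hypothesis on the infinite places).

## NEW (the real place of `ℚ`)

* `LocDataQ298 γ`, `IsLocDataQ298 m L` : local data over `ℚ`; at the real place a Haar measure
  `μtr` of the centraliser of `γ_∞` in `GL₂(ℝ)` and a cut-off function `βr` on `GL₂(ℝ)`.
* `compSQ298`, `IsTorConstQ298`, `prodCutQ298`, `factValQ298` : as in the cubic cut, the
  archimedean factor is `∫ Fr(y⁻¹ (γ r^j)_∞ y) βr(y) dμr(y)` on `GL₂(ℝ)`.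
* LEAVES `ArchMeasRC298` [S] (`ArchMeasC305` for `GL₂(ℝ)`), `HaarSplitQC298` [L, ASSET]
  (`HaarSplitC305` for `ℚ`), `TorSplitQC298` [L] (`TorSplitC305` for `ℚ`), `UnitMatchQC298 F`
  [M] (`UnitMatchC305` for `LocHypQ298`), `ArchVanQC298` [M] (vanishing at the real place along
  the ray), `NonNormLocQC298 F` [L] (`NonNormLocC305` for `F/ℚ`: a finite place with one place
  over it OR the real place; `T6.NormImageQC`).
* NODES `FactDownQC298` [XL], `FactUpQC298 F` [XL].

FALSITY CHECKS (helper298).  (1) `IsRayGen` for `ℚ`: `t² = 2`, the real component of `r^j` is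
the positive scalar `t^j`; `(γ r^j)_∞ = t^j γ_∞` has the centraliser of `γ_∞` and is a norm from
`GL₂(ℂ)` iff `γ_∞` is (`t^j = N(t^{j/2})`): `ArchVanQC298`.  (2) Upstairs `t'⁴ = 2`,
`N(r') = r'² = ι(r)`: the sums over the ray correspond term by term, `FactUpQC298` has the SAME
`factValQ298` as `FactDownQC298`.  (3) `T6.IsArchMatch` quantifies over all cut-off data of the
centraliser of the regular element `(γ r^j)_∞`: it applies to the local datum of `γ_∞`.
(4) `HasSqrtNegThree F` is needed for `T6.NormImageQC` only (`NonNormLocQC298`).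
-/

set_option autoImplicit false

open AutomorphicForm IsDedekindDomain NumberField MeasureTheory
open scoped ComplexConjugate

noncomputable section

namespace Fermat.Agent.LT.T7.MQ298

open Fermat.Agent.LT.H556 Fermat.Agent.LT.H556.A0 Fermat.Agent.LT.T7 Fermat.Agent.LT.T7.H305

attribute [local instance] Fermat.Agent.LT.T5.instMeasurableSpaceG

/-! ## 1. Local data over `ℚ`, the torus constant, the product cut-off, the factorised value -/

/-- The components of `y ∈ GL₂(𝔸_ℚ)` at the places of `S` and at the real place. -/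
def compSQ298 (S : Finset (HeightOneSpectrum (𝓞 ℚ))) (y : G ℚ) :
    (∀ v : S, GL (Fin 2) ((v : HeightOneSpectrum (𝓞 ℚ)).adicCompletion ℚ)) × GL (Fin 2) ℝ :=
  (fun v => finGL305 v.1 y, reGLQ298 y)

/-- **LOCAL DATA over `ℚ`** for the elliptic element `γ`: local Haar measures, Haar measures of
the local tori, local cut-off functions, at all finite places; a Haar measure of the centraliser
of `γ_∞` in `GL₂(ℝ)` and a cut-off function at the real place. -/
structure LocDataQ298 (γ : GL (Fin 2) ℚ) where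
  /-- the Haar measure of `GL₂(ℚ_v)` -/
  μv : ∀ v : HeightOneSpectrum (𝓞 ℚ), @Measure (GL (Fin 2) (v.adicCompletion ℚ)) (borel _)
  /-- the Haar measure of the centraliser of `γ` in `GL₂(ℚ_v)` -/
  μt : ∀ v : HeightOneSpectrum (𝓞 ℚ),
    @Measure (T6.twCentSub (T6.glAut (RingEquiv.refl (v.adicCompletion ℚ))) (locG305 v γ))
      (borel _)
  /-- the cut-off function at `v` -/
  βv : ∀ v : HeightOneSpectrum (𝓞 ℚ), GL (Fin 2) (v.adicCompletion ℚ) → ℝ
  /-- the Haar measure of the centraliser of `γ` in `GL₂(ℝ)` -/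
  μtr : @Measure (cent305 (reGLQ298 (T5.ratG γ))) (borel _)
  /-- the cut-off function at the real place -/
  βr : GL (Fin 2) ℝ → ℝ

/-- The properties of the local data over `ℚ` (levels `m`). -/
structure IsLocDataQ298 (m : HeightOneSpectrum (𝓞 ℚ) → ℕ) {γ : GL (Fin 2) ℚ}
    (L : LocDataQ298 γ) : Prop where
  haar : ∀ v : HeightOneSpectrum (𝓞 ℚ), IsLocHaar305 (m v) (L.μv v)
  tor : ∀ v : HeightOneSpectrum (𝓞 ℚ),
    IsLocTor305 (RingEquiv.refl (v.adicCompletion ℚ)) (locG305 v γ) (L.μt v)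
  cut : ∀ v : HeightOneSpectrum (𝓞 ℚ),
    IsLocCut305 (RingEquiv.refl (v.adicCompletion ℚ)) (locG305 v γ) (L.μt v) (L.βv v)
  torr : @Measure.IsHaarMeasure _ _ _ (borel _) L.μtr
  cutr : IsCut305 (reGLQ298 (T5.ratG γ)) L.μtr L.βr

/-- `cT` is THE TORUS CONSTANT of the Haar measure `μT` of `T_𝔸(γ)` against the local torus
measures of `L` (mirror of `H305.IsTorConst305`; the real place in `GL₂(ℝ)`). -/
def IsTorConstQ298 (γ : GL (Fin 2) ℚ)
    (μT : @Measure (tA305 (T5.AdelicAut.id ℚ) γ) (borel _)) (L : LocDataQ298 γ) (cT : ℝ) :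
    Prop :=
  letI : MeasurableSpace (tA305 (T5.AdelicAut.id ℚ) γ) := borel _
  letI : ∀ v : HeightOneSpectrum (𝓞 ℚ), MeasurableSpace (GL (Fin 2) (v.adicCompletion ℚ)) :=
    fun _ => borel _
  letI : MeasurableSpace (GL (Fin 2) ℝ) := borel _
  letI : ∀ v : HeightOneSpectrum (𝓞 ℚ), MeasurableSpace
      (T6.twCentSub (T6.glAut (RingEquiv.refl (v.adicCompletion ℚ))) (locG305 v γ)) :=
    fun _ => borel _
  letI : MeasurableSpace (cent305 (reGLQ298 (T5.ratG γ))) := borel _
  ∀ S : Finset (HeightOneSpectrum (𝓞 ℚ)), GoodOut305 S γ →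
    Measure.map (fun t : tA305 (T5.AdelicAut.id ℚ) γ => compSQ298 S (t : G ℚ))
        (μT.restrict {t | OutT305 S (t : G ℚ)})
      = ENNReal.ofReal cT •
        ((Measure.pi fun v : S => Measure.map Subtype.val (L.μt v.1)).prod
          (Measure.map Subtype.val L.μtr))

open Classical in
/-- THE PRODUCT CUT-OFF over `ℚ`: `β = c_T⁻¹ 1_{Out_S} ∏_{v ∈ S} β_v · β_r`. -/
def prodCutQ298 (S : Finset (HeightOneSpectrum (𝓞 ℚ))) (cT : ℝ) {γ : GL (Fin 2) ℚ}
    (L : LocDataQ298 γ) (y : G ℚ) : ℝ :=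
  if OutT305 S y then
    cT⁻¹ * (∏ v ∈ S, L.βv v (finGL305 v y)) * L.βr (reGLQ298 y)
  else 0

/-- THE FACTORISED VALUE over `ℚ`: `∑_j ∏_{v ∈ S} I_v · I_∞(j)`,
`I_∞(j) = ∫ Fr(y⁻¹ (γ r^j)_∞ y) β_r(y) dμr(y)`. -/
def factValQ298 (r : G ℚ) (S : Finset (HeightOneSpectrum (𝓞 ℚ))) {γ : GL (Fin 2) ℚ}
    (L : LocDataQ298 γ)
    (f₀ : ∀ v : HeightOneSpectrum (𝓞 ℚ), GL (Fin 2) (v.adicCompletion ℚ) → ℂ)
    (μr : @Measure (GL (Fin 2) ℝ) (borel _)) (Fr : GL (Fin 2) ℝ → ℂ) : ℂ :=
  ∑' j : ℤ, (∏ v ∈ S, locInt305 (L.μv v) (L.βv v) (f₀ v) (locG305 v γ)) *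
    locInt305 μr L.βr Fr (reGLQ298 (T5.ratG γ * r ^ j))

/-! ## 2. Leaves and the node downstairs (one field: `ℚ`) -/

/-- **LEAF Q2.7.3 = ARCH-MEAS (`GL₂(ℝ)`).**  Mirror of `H305.ArchMeasC305`: the centraliser of a
regular element of `GL₂(ℝ)` has a Haar measure, and for every Haar measure of it there is a
continuous cut-off function.
Proof.  As for `GL₂(ℂ)`: `GL₂(ℝ)` is a locally compact, `σ`-compact group, the centraliser is a
closed commutative subgroup (helper159 `comm_of_inTwCent159`: the centraliser of a regular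
element is commutative, any field), `exists_cutoff584` (helper584, `T7/H584/Cutoff.lean`). -/
def ArchMeasRC298 : Prop :=
  ∀ γ : GL (Fin 2) ℝ, T6.IsReg γ →
    (∃ μT : @Measure (cent305 γ) (borel _), @Measure.IsHaarMeasure _ _ _ (borel _) μT) ∧
    ∀ μT : @Measure (cent305 γ) (borel _), @Measure.IsHaarMeasure _ _ _ (borel _) μT →
      ∃ β : GL (Fin 2) ℝ → ℝ, IsCut305 γ μT β

/-- **ASSET LEAF Q2.7.4 = HAAR-SPLIT over `ℚ`.**  Mirror of `H305.HaarSplitC305`: `μ` a Haar
measure of `GL₂(𝔸_ℚ)`, `μr` one of `GL₂(ℝ)`, levels `m` (`0` outside `T₀`).  There is a constant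
`c > 0` such that for EVERY finite `S ⊇ T₀` and local Haar measures `μ_v` with
`μ_v(U(m_v)) = 1`: the image of `μ` restricted to `{y : y_v ∈ GL₂(ℤ_v), v ∉ S}` under
`y ↦ ((y_v)_{v ∈ S}, y_∞)` is `c` times the product measure.
Proof.  As `HaarSplitC305` (helper159 `T7/H159/RestrGL.lean` for the totally complex case): the
map is a continuous surjective homomorphism of `Out_S` with compact kernel
`∏_{v ∉ S} GL₂(ℤ_v)`; uniqueness of the Haar measure; the constant does not depend on `S`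
(evaluate on `∏ U(m_v) × B`). -/
def HaarSplitQC298 : Prop :=
  ∀ μ : Measure (G ℚ), μ.IsHaarMeasure →
    ∀ μr : @Measure (GL (Fin 2) ℝ) (borel _), @Measure.IsHaarMeasure _ _ _ (borel _) μr →
    ∀ (T₀ : Finset (HeightOneSpectrum (𝓞 ℚ))) (m : HeightOneSpectrum (𝓞 ℚ) → ℕ),
      (∀ v : HeightOneSpectrum (𝓞 ℚ), v ∉ T₀ → m v = 0) →
    ∃ c : ℝ, 0 < c ∧
      ∀ S : Finset (HeightOneSpectrum (𝓞 ℚ)), T₀ ⊆ S →
      ∀ μv : ∀ v : HeightOneSpectrum (𝓞 ℚ), @Measure (GL (Fin 2) (v.adicCompletion ℚ)) (borel _),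
        (∀ v : HeightOneSpectrum (𝓞 ℚ), IsLocHaar305 (m v) (μv v)) →
        letI : ∀ v : HeightOneSpectrum (𝓞 ℚ),
            MeasurableSpace (GL (Fin 2) (v.adicCompletion ℚ)) := fun _ => borel _
        letI : MeasurableSpace (GL (Fin 2) ℝ) := borel _
        Measure.map (compSQ298 S) (μ.restrict {y | OutT305 S y})
          = ENNReal.ofReal c • ((Measure.pi fun v : S => μv v.1).prod μr)

/-- **LEAF Q2.7.5 = TOR-SPLIT over `ℚ`** (the torus constant exists).  Mirror of
`H305.TorSplitC305`: `γ` elliptic, `μT` a Haar measure of `T_𝔸(γ)`, local torus measures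
(normalised at the finite places, an arbitrary Haar measure at the real place): there is a torus
constant `c_T > 0`. -/
def TorSplitQC298 : Prop :=
  ∀ γ : GL (Fin 2) ℚ, T6.IsEll γ →
    ∀ μT : @Measure (tA305 (T5.AdelicAut.id ℚ) γ) (borel _),
      @Measure.IsHaarMeasure _ _ _ (borel _) μT →
    ∀ L : LocDataQ298 γ,
      (∀ v : HeightOneSpectrum (𝓞 ℚ),
        IsLocTor305 (RingEquiv.refl (v.adicCompletion ℚ)) (locG305 v γ) (L.μt v)) →
      @Measure.IsHaarMeasure _ _ _ (borel _) L.μtr →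
      ∃ cT : ℝ, 0 < cT ∧ IsTorConstQ298 γ μT L cT

/-- **NODE Q2.7.7 = FACT-DOWN over `ℚ`** (the factorisation downstairs).  Mirror of
`H305.FactDownC305`: for the product cut-off `β = c_T⁻¹ 1_{Out_S} ∏ β_v · β_r`,

    ∫ f♭(y⁻¹ γ y) β(y) dμ(y) = (c_G / c_T) ∑_j ∏_{v ∈ S} I_v · I_∞(j),

`f` the pure tensor with real archimedean component `Fr` (continuous, compact support).  The
constant `c_G` depends on `μ`, `μr`, `T₀`, `m` only.
Proof.  As `FactDownC305`, with `HaarSplitQC298`, `SuppDownC305 ℚ`, `IsTorConstQ298`. -/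
def FactDownQC298 : Prop :=
  ∀ R : Frame5 ℚ, IsFrame5 R →
    ∀ μr : @Measure (GL (Fin 2) ℝ) (borel _), @Measure.IsHaarMeasure _ _ _ (borel _) μr →
    ∀ (T₀ : Finset (HeightOneSpectrum (𝓞 ℚ))) (m : HeightOneSpectrum (𝓞 ℚ) → ℕ),
      (∀ v : HeightOneSpectrum (𝓞 ℚ), v ∉ T₀ → m v = 0) →
    ∃ cG : ℝ, 0 < cG ∧
      ∀ S : Finset (HeightOneSpectrum (𝓞 ℚ)), T₀ ⊆ S →
      ∀ (f₀ : ∀ v : HeightOneSpectrum (𝓞 ℚ), GL (Fin 2) (v.adicCompletion ℚ) → ℂ)
        (Fr : GL (Fin 2) ℝ → ℂ),
        (∀ v ∈ S, T6.IsBiInv (T6.InU (m v)) (f₀ v) ∧ T6.HasFinSupp (T6.InU (m v)) (f₀ v)) →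
        Continuous Fr → HasCompactSupport Fr →
      ∀ γ : GL (Fin 2) ℚ, T6.IsEll γ → GoodOut305 S γ →
      ∀ μT : @Measure (tA305 (T5.AdelicAut.id ℚ) γ) (borel _),
        @Measure.IsHaarMeasure _ _ _ (borel _) μT →
      ∀ (L : LocDataQ298 γ) (cT : ℝ), IsLocDataQ298 m L → 0 < cT → IsTorConstQ298 γ μT L cT →
        IsCutOn305 (T5.AdelicAut.id ℚ) γ μT (prodCutQ298 S cT L)
            {x | T5.twTerm R.r (T5.AdelicAut.id ℚ) (pureQ298 S f₀ Fr) γ x ≠ 0} ∧
          cutInt305 R.r (T5.AdelicAut.id ℚ) (pureQ298 S f₀ Fr) γ R.μ (prodCutQ298 S cT L)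
            = ((cG / cT : ℝ) : ℂ) * factValQ298 R.r S L f₀ μr Fr

/-- **LEAF Q2.7.9r = ARCH-VAN (vanishing at the real place along the ray).**  If `γ_∞` is not a
norm from `GL₂(ℂ)` and `f` is matched with some `Φ` (`T6.IsArchMatch`), then for every cut-off
datum `(μtr, βr)` of the centraliser of `γ_∞` and every `j`:
`∫ f(y⁻¹ (γ r^j)_∞ y) βr(y) dμr(y) = 0`.
Proof.  `IsRayGen`: the real component of `r` is the scalar `t > 0` (`t² = 2`; the component of
`T5.infComp` in `ℂ` is the image of the real component), so `(γ r^j)_∞ = t^j γ_∞`: regular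
(`disc (c γ) = c² disc γ`), with the same centraliser (transport `μtr` along the equality of the
subgroups), not a norm (if `δ δ̄ ∼ t^j γ_∞` then `δ' = t^{-j/2} δ` has `δ' δ̄' ∼ γ_∞`).  Second
clause of `T6.IsArchMatch`. -/
def ArchVanQC298 : Prop :=
  ∀ R : Frame5 ℚ, IsFrame5 R →
    ∀ (μr : @Measure (GL (Fin 2) ℝ) (borel _)) (μc : @Measure (GL (Fin 2) ℂ) (borel _))
      (Φ : GL (Fin 2) ℂ → ℂ) (f : GL (Fin 2) ℝ → ℂ), T6.IsArchMatch μr μc Φ f →
    ∀ γ : GL (Fin 2) ℚ, T6.IsEll γ →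
      ¬ T6.IsNormFrom 2 (algebraMap ℝ ℂ) (starRingAut : ℂ ≃+* ℂ) (reGLQ298 (T5.ratG γ)) →
    ∀ (μtr : @Measure (cent305 (reGLQ298 (T5.ratG γ))) (borel _)) (βr : GL (Fin 2) ℝ → ℝ),
      @Measure.IsHaarMeasure _ _ _ (borel _) μtr → IsCut305 (reGLQ298 (T5.ratG γ)) μtr βr →
      ∀ j : ℤ, locInt305 μr βr f (reGLQ298 (T5.ratG γ * R.r ^ j)) = 0

/-! ## 3. Two fields: `F/ℚ` -/

section TwoFieldsCutQ

variable (F : Type) [Field F] [NumberField F]

/-- **LEAF Q2.7.11 = UNIT-MATCH over `ℚ`** (the fundamental lemma for the unit element).  Mirror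
of `H305.UnitMatchC305` for `LocHypQ298`: if `T₀ ⊆ T ⊆ S`, the places outside `T₀` are unramified
and the levels are `0` there, the local hypotheses for `T` give the local hypotheses for `S`
with unit components at the new places.  (The archimedean clauses do not change.) -/
def UnitMatchQC298 : Prop :=
  T6.T6Out → IsImagQuad F →
  ∀ D : CompData ℚ F, IsCompData D → IsCycExt ℚ F D.l → D.l = 2 →
    ∀ μr : @Measure (GL (Fin 2) ℝ) (borel _), @Measure.IsHaarMeasure _ _ _ (borel _) μr →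
    ∀ μc : @Measure (GL (Fin 2) ℂ) (borel _), @Measure.IsHaarMeasure _ _ _ (borel _) μc →
    ∀ (T₀ : Finset (HeightOneSpectrum (𝓞 ℚ))), UnramOut305 (K' := F) T₀ →
    ∀ (n : HeightOneSpectrum (𝓞 F) → ℕ) (m : HeightOneSpectrum (𝓞 ℚ) → ℕ),
      IsLevelAt305 T₀ n m →
    ∀ (T S : Finset (HeightOneSpectrum (𝓞 ℚ))) (T' S' : Finset (HeightOneSpectrum (𝓞 F))),
      T₀ ⊆ T → T ⊆ S → IsOver305 T T' → IsOver305 S S' →
    ∀ (φ₀ : ∀ w : HeightOneSpectrum (𝓞 F), GL (Fin 2) (w.adicCompletion F) → ℂ)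
      (Φ : InfinitePlace F → GL (Fin 2) ℂ → ℂ)
      (f₀ : ∀ v : HeightOneSpectrum (𝓞 ℚ), GL (Fin 2) (v.adicCompletion ℚ) → ℂ)
      (F0 F1 : GL (Fin 2) ℝ → ℂ),
      LocHypQ298 D μr μc T n m φ₀ Φ f₀ F0 F1 →
      LocHypQ298 D μr μc S n m (ext305 T' φ₀) Φ (ext305 T f₀) F0 F1

/-- **LEAF Q2.7.12 = NON-NORM-LOC over `ℚ`.**  `F = ℚ(√-3)`.  An elliptic `γ ∈ GL₂(ℚ)` which is
not a norm is not a local norm at a finite place `v` with ONE place `w` above it (for some local
extension datum `(e, i, s_w)`), OR is not a norm from `GL₂(ℂ)` at the real place.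
Proof.  `T6.NormImageQC` (contrapositive): `γ` is not a norm in `GL₂(F ⊗ ℚ_v)` for a finite
place `v`, or not in `GL₂(F ⊗ ℝ)`.  Finite `v`: as in `H305.NonNormLocC305` (closed: helper584,
helper857).  Real place: `F ⊗_ℚ ℝ ≅ ℂ` (one infinite place, complex), `σ ⊗ 1` is the complex
conjugation. -/
def NonNormLocQC298 : Prop :=
  T6.T6Out → IsImagQuad F → HasSqrtNegThree F →
  ∀ D : CompData ℚ F, IsCompData D → IsCycExt ℚ F D.l → D.l = 2 →
    ∀ γ : GL (Fin 2) ℚ, T6.IsEll γ → (¬ ∃ δ : GL (Fin 2) F, IsNormOf D δ γ) →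
      (∃ (v : HeightOneSpectrum (𝓞 ℚ)) (w : HeightOneSpectrum (𝓞 F)) (e : ℕ)
        (i : v.adicCompletion ℚ →+* w.adicCompletion F)
        (sw : w.adicCompletion F ≃+* w.adicCompletion F),
        PlaceOver ℚ F v w ∧
        (∀ w' : HeightOneSpectrum (𝓞 F), PlaceOver ℚ F v w' → w' = w) ∧
        (∀ x : ℚ, i (algebraMap ℚ (v.adicCompletion ℚ) x)
          = algebraMap F (w.adicCompletion F) (algebraMap ℚ F x)) ∧
        (∀ y : F, sw (algebraMap F (w.adicCompletion F) y)
          = algebraMap F (w.adicCompletion F) (D.s.σ y)) ∧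
        T6.IsLocalExt (v.adicCompletion ℚ) (w.adicCompletion F) D.l e i sw ∧
        ¬ T6.IsNormFrom D.l i sw (locG305 v γ)) ∨
      ¬ T6.IsNormFrom 2 (algebraMap ℝ ℂ) (starRingAut : ℂ ≃+* ℂ) (reGLQ298 (T5.ratG γ))

/-- **NODE Q2.7.13 = FACT-UP over `ℚ`** (the factorisation upstairs, with local matching).
Mirror of `H305.FactUpC305`: for a suitable cut-off `β'` upstairs and linked torus measures,

    ∫ φ'♭(y⁻¹ δ σ(y)) β'(y) dμ'(y) = (c'_G / c_T) ∑_j ∏_{v ∈ S} I_v · I_∞(j)

with THE SAME local integrals downstairs (`factValQ298` for `Fr = F0 + F1`).  The constant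
`c'_G` depends on `D`, `ι`, `μr`, `μc`, `T₀`, `n`, `m` only.
Proof.  As `FactUpC305`; at the infinite place: `F` has ONE infinite place `w`, complex, the
conjugation of `F` is the complex conjugation in the coordinate of `w`; `N(δ r'^j) = γ ι(r)^j`
(`t'⁴ = 2`, `t'² = t`); `β'_∞` a continuous cut-off function on `GL₂(ℂ)` for the image of the
centraliser of `γ_∞` with the image of `μtr` (exists: `H305.ArchMeasC305` form,
`exists_cutoff584`); FIRST clause of `LocHypQ298.arch` (`T6.IsArchMatch`) for `(γ r^j)_∞`,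
`(δ r'^j)_w` and the cut-off data transported to the centraliser of `(γ r^j)_∞` (the same
subgroup). -/
def FactUpQC298 : Prop :=
  T6.T6Out → IsImagQuad F →
  ∀ D : CompData ℚ F, IsCompData D → IsCycExt ℚ F D.l → D.l = 2 →
    ∀ ι : Adl ℚ →+* Adl F, IsAdeleBase305 D.s D.l ι →
    ∀ μr : @Measure (GL (Fin 2) ℝ) (borel _), @Measure.IsHaarMeasure _ _ _ (borel _) μr →
    ∀ μc : @Measure (GL (Fin 2) ℂ) (borel _), @Measure.IsHaarMeasure _ _ _ (borel _) μc →
    ∀ (T₀ : Finset (HeightOneSpectrum (𝓞 ℚ))), UnramOut305 (K' := F) T₀ →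
    ∀ (n : HeightOneSpectrum (𝓞 F) → ℕ) (m : HeightOneSpectrum (𝓞 ℚ) → ℕ),
      IsLevelAt305 T₀ n m →
    ∃ cG' : ℝ, 0 < cG' ∧
      ∀ (S : Finset (HeightOneSpectrum (𝓞 ℚ))) (S' : Finset (HeightOneSpectrum (𝓞 F))),
        T₀ ⊆ S → IsOver305 S S' →
      ∀ (φ₀ : ∀ w : HeightOneSpectrum (𝓞 F), GL (Fin 2) (w.adicCompletion F) → ℂ)
        (Φ : InfinitePlace F → GL (Fin 2) ℂ → ℂ)
        (f₀ : ∀ v : HeightOneSpectrum (𝓞 ℚ), GL (Fin 2) (v.adicCompletion ℚ) → ℂ)
        (F0 F1 : GL (Fin 2) ℝ → ℂ),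
        LocHypQ298 D μr μc S n m φ₀ Φ f₀ F0 F1 →
      ∀ (δ : GL (Fin 2) F) (γ : GL (Fin 2) ℚ), T6.IsEll γ →
        D.s.normUpTo D.l δ = Matrix.GeneralLinearGroup.map (algebraMap ℚ F) γ →
        GoodOut305 S γ → IntOut305 S' δ →
      ∀ (μT : @Measure (tA305 (T5.AdelicAut.id ℚ) γ) (borel _))
        (μT' : @Measure (tA305 D.s δ) (borel _)),
        @Measure.IsHaarMeasure _ _ _ (borel _) μT →
        @Measure.IsHaarMeasure _ _ _ (borel _) μT' →
        IsTorLinked305 ι D.s δ γ μT μT' →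
      ∀ (L : LocDataQ298 γ) (cT : ℝ), IsLocDataQ298 m L → 0 < cT → IsTorConstQ298 γ μT L cT →
        ∃ β' : G F → ℝ,
          IsCutOn305 D.s δ μT' β'
              {x | T5.twTerm D.R'.r D.s (pure305 S' φ₀ Φ) δ x ≠ 0} ∧
            cutInt305 D.R'.r D.s (pure305 S' φ₀ Φ) δ D.R'.μ β'
              = ((cG' / cT : ℝ) : ℂ) *
                factValQ298 D.R.r S L f₀ μr (fun g => F0 g + F1 g)

end TwoFieldsCutQ

/-! ## Appendix: the equation lemmas of the definitions of this file are realised HERE -/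

theorem eqns_realised_matchQCut298 : True := by
  have _h0 := @compSQ298.eq_1
  have _h1 := @IsTorConstQ298.eq_1
  have _h2 := @prodCutQ298.eq_1
  have _h3 := @factValQ298.eq_1
  have _h4 := @ArchMeasRC298.eq_1
  have _h5 := @HaarSplitQC298.eq_1
  have _h6 := @TorSplitQC298.eq_1
  have _h7 := @FactDownQC298.eq_1
  have _h8 := @ArchVanQC298.eq_1
  have _h9 := @UnitMatchQC298.eq_1
  have _h10 := @NonNormLocQC298.eq_1
  have _h11 := @FactUpQC298.eq_1
  have _g0 := @compSQ298.eq_def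
  have _g1 := @IsTorConstQ298.eq_def
  have _g2 := @prodCutQ298.eq_def
  have _g3 := @factValQ298.eq_def
  have _g4 := @ArchMeasRC298.eq_def
  have _g5 := @HaarSplitQC298.eq_def
  have _g6 := @TorSplitQC298.eq_def
  have _g7 := @FactDownQC298.eq_def
  have _g8 := @ArchVanQC298.eq_def
  have _g9 := @UnitMatchQC298.eq_def
  have _g10 := @NonNormLocQC298.eq_def
  have _g11 := @FactUpQC298.eq_def
  trivial

end Fermat.Agent.LT.T7.MQ298

end

end
-- ===== PACK-END LT/T7/H298/MatchQCut.lean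

-- ===== PACK-BEGIN LT/T7/H298/MatchQSpec2.lean
section



/-!
# Row LT, tower T7, node T7.L2Q.1.H1 (registry rows 2464 / 2605, owner helper298):
# THE MATCHING THEOREM OVER `ℚ` -- Spec, v2 (split clause for ONE enumeration)

OFF-MAIN.  Definitions and frozen Props only.  No hole, nothing assumed.  ADDITIVE:
`MatchQSpec.lean` (v1, sha256 53f6570a) is unchanged and imported; the names of v2 end in
`298b`.

## WHY v2

`LocHypQ298.split` (copied from `H305.LocHyp305.split`) asks `f₀ v = φ₀ (w 0) * φ₀ (w 1)` for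
EVERY enumeration of the two places over a split place `v`, i.e. for both orders of the product.
At a BAD split place the components upstairs are double coset functions of an arbitrary element
and do not commute (audit helper248; helper893 `T7/H893/SupplyConstrSpec2.lean`, v2 of the fifth
cut of the cubic step): the families of the construction cannot satisfy `LocHypQ298`.  The
matching theorem needs ONE enumeration only (`T6.SplitMatchC`, the split integral identity).

`LocHypQ298b` = `LocHypQ298` with the split clause for SOME enumeration (the form of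
`H893.LocHyp893`); `CutIntQC298b`, `IsMatchConstQ298b`, `GlobMatchQC298b` = the nodes of v1 for
`LocHypQ298b`.  The leaves of the first cut (`UnfoldGC298`, `IotaQC298`, `TorMeasQC298`,
`TorCompQC298`) do not mention the local hypotheses: UNCHANGED.
-/

set_option autoImplicit false

open AutomorphicForm IsDedekindDomain NumberField MeasureTheory
open scoped ComplexConjugate

noncomputable section

namespace Fermat.Agent.LT.T7.MQ298

open Fermat.Agent.LT.H556 Fermat.Agent.LT.H556.A0 Fermat.Agent.LT.T7 Fermat.Agent.LT.T7.H305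

attribute [local instance] Fermat.Agent.LT.T5.instMeasurableSpaceG

section TwoFields2

variable {F : Type} [Field F] [NumberField F]

/-- **THE LOCAL HYPOTHESES over `ℚ`, v2** (local matching in the form of T6).  The clauses are
those of `LocHypQ298` (verbatim) except `split`: at a place `v ∈ T` with two places over it there
is ONE enumeration `w 0, w 1` of the places over `v` (`w j = σ(w (j+1))`) and identifications
`i j : ℚ_v ≃ F_{w j}` such that the levels agree and `f₀ v = φ₀ (w 0) * φ₀ (w 1)` (the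
hypothesis of `T6.SplitMatchC`; the form of `H893.LocHyp893`, helper893).  Archimedean clauses: `Φ w` is a bi-`U(2)`-invariant test function on `GL₂(ℂ)`, `F0` a
test function of weight `0` and `F1` a test function of weight `-1` on `GL₂(ℝ)`, and `F0 + F1`
is matched with `Φ w` for the Haar measures `μr`, `μc` (`T6.IsArchMatch`). -/
structure LocHypQ298b (D : CompData ℚ F) (μr : @Measure (GL (Fin 2) ℝ) (borel _))
    (μc : @Measure (GL (Fin 2) ℂ) (borel _))
    (T : Finset (HeightOneSpectrum (𝓞 ℚ)))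
    (n : HeightOneSpectrum (𝓞 F) → ℕ) (m : HeightOneSpectrum (𝓞 ℚ) → ℕ)
    (φ₀ : ∀ w : HeightOneSpectrum (𝓞 F), GL (Fin 2) (w.adicCompletion F) → ℂ)
    (Φ : InfinitePlace F → GL (Fin 2) ℂ → ℂ)
    (f₀ : ∀ v : HeightOneSpectrum (𝓞 ℚ), GL (Fin 2) (v.adicCompletion ℚ) → ℂ)
    (F0 F1 : GL (Fin 2) ℝ → ℂ) : Prop where
  inv_up : ∀ v ∈ T, ∀ w : HeightOneSpectrum (𝓞 F), PlaceOver ℚ F v w →
    T6.IsBiInv (T6.InU (n w)) (φ₀ w) ∧ T6.HasFinSupp (T6.InU (n w)) (φ₀ w)
  inv_down : ∀ v ∈ T, T6.IsBiInv (T6.InU (m v)) (f₀ v) ∧ T6.HasFinSupp (T6.InU (m v)) (f₀ v)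
  arch_up : ∀ w : InfinitePlace F, T6.IsArchTestC (Φ w)
  arch_down0 : T6.IsArchTestR 0 F0
  arch_down1 : T6.IsArchTestR (-1) F1
  inert : ∀ v ∈ T, ∀ w : HeightOneSpectrum (𝓞 F), PlaceOver ℚ F v w →
    (∀ w' : HeightOneSpectrum (𝓞 F), PlaceOver ℚ F v w' → w' = w) →
    ∀ (e : ℕ) (i : v.adicCompletion ℚ →+* w.adicCompletion F)
      (sw : w.adicCompletion F ≃+* w.adicCompletion F),
      (∀ x : ℚ, i (algebraMap ℚ (v.adicCompletion ℚ) x)
        = algebraMap F (w.adicCompletion F) (algebraMap ℚ F x)) →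
      (∀ y : F, sw (algebraMap F (w.adicCompletion F) y)
        = algebraMap F (w.adicCompletion F) (D.s.σ y)) →
      T6.IsLocalExt (v.adicCompletion ℚ) (w.adicCompletion F) D.l e i sw →
      (∀ (δ : GL (Fin 2) (w.adicCompletion F)) (γ : GL (Fin 2) (v.adicCompletion ℚ))
          (c c' : ℂ), T6.IsReg γ →
          IsConj (T6.twNorm sw D.l δ) (Matrix.GeneralLinearGroup.map i γ) →
          T6.IsTwOrbSum sw (n w) (φ₀ w) δ c → T6.IsOrbSum (m v) (f₀ v) γ c' → c = c') ∧
        ∀ (γ : GL (Fin 2) (v.adicCompletion ℚ)) (c' : ℂ), T6.IsReg γ →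
          ¬ T6.IsNormFrom D.l i sw γ → T6.IsOrbSum (m v) (f₀ v) γ c' → c' = 0
  split : ∀ v ∈ T, (∃ w₁ w₂ : HeightOneSpectrum (𝓞 F),
      PlaceOver ℚ F v w₁ ∧ PlaceOver ℚ F v w₂ ∧ w₁ ≠ w₂) →
    ∃ (w : ℕ → HeightOneSpectrum (𝓞 F))
      (i : ∀ j : ℕ, v.adicCompletion ℚ ≃+* (w j).adicCompletion F),
      (∀ j : ℕ, PlaceOver ℚ F v (w j)) ∧ (∀ j : ℕ, T5.PlaceRel D.s (w (j + 1)) (w j)) ∧
      (∀ j : ℕ, 0 < j → j < D.l → w j ≠ w 0) ∧
      (∀ (j : ℕ) (x : ℚ), i j (algebraMap ℚ (v.adicCompletion ℚ) x)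
        = algebraMap F ((w j).adicCompletion F) (algebraMap ℚ F x)) ∧
      (∀ (j : ℕ) (x : v.adicCompletion ℚ), Valued.v (i j x) = Valued.v x) ∧
      (∀ j : ℕ, n (w j) = m v) ∧
        T6.IsConvProd (T6.InU (m v)) D.l
          (fun j g => φ₀ (w j)
            (Matrix.GeneralLinearGroup.map ((i j : v.adicCompletion ℚ ≃+* _) :
              v.adicCompletion ℚ →+* (w j).adicCompletion F) g))
          (f₀ v)
  arch : ∀ w : InfinitePlace F, T6.IsArchMatch μr μc (Φ w) (fun g => F0 g + F1 g)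

variable (F)

/-- **NODE Q2.7, v2 = CUT-INT over `ℚ` (the core)**, for `LocHypQ298b`.  Mirror of `H305.CutIntC305`: for locally
matched pure tensors and linked torus measures there are cut-off functions upstairs and
downstairs for which the cut-off integrals agree up to the constant `κ`; downstairs the cut-off
integral vanishes (for a suitable cut-off) if `γ` is not a norm.  The member downstairs is the
pure tensor with archimedean component `F0 + F1`. -/
def CutIntQC298b : Prop :=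
  IsImagQuad F →
    ∀ D : CompData ℚ F, IsCompData D → IsCycExt ℚ F D.l → D.l = 2 →
    ∀ ι : Adl ℚ →+* Adl F, IsAdeleBase305 D.s D.l ι →
    ∀ μr : @Measure (GL (Fin 2) ℝ) (borel _), @Measure.IsHaarMeasure _ _ _ (borel _) μr →
    ∀ μc : @Measure (GL (Fin 2) ℂ) (borel _), @Measure.IsHaarMeasure _ _ _ (borel _) μc →
    ∀ (T₀ : Finset (HeightOneSpectrum (𝓞 ℚ))), UnramOut305 (K' := F) T₀ →
    ∀ (n : HeightOneSpectrum (𝓞 F) → ℕ) (m : HeightOneSpectrum (𝓞 ℚ) → ℕ),
      IsLevelAt305 T₀ n m →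
    ∃ κ : ℂ, κ ≠ 0 ∧
      ∀ (T : Finset (HeightOneSpectrum (𝓞 ℚ))) (T' : Finset (HeightOneSpectrum (𝓞 F))),
        T₀ ⊆ T → IsOver305 T T' →
      ∀ (φ₀ : ∀ w : HeightOneSpectrum (𝓞 F), GL (Fin 2) (w.adicCompletion F) → ℂ)
        (Φ : InfinitePlace F → GL (Fin 2) ℂ → ℂ)
        (f₀ : ∀ v : HeightOneSpectrum (𝓞 ℚ), GL (Fin 2) (v.adicCompletion ℚ) → ℂ)
        (F0 F1 : GL (Fin 2) ℝ → ℂ),
        LocHypQ298b D μr μc T n m φ₀ Φ f₀ F0 F1 →
        (∀ (δ : GL (Fin 2) F) (γ : GL (Fin 2) ℚ), T6.IsEll γ →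
          D.s.normUpTo D.l δ = Matrix.GeneralLinearGroup.map (algebraMap ℚ F) γ →
          ∀ (μT : @Measure (tA305 (T5.AdelicAut.id ℚ) γ) (borel _))
            (μT' : @Measure (tA305 D.s δ) (borel _)),
            @Measure.IsHaarMeasure _ _ _ (borel _) μT →
            @Measure.IsHaarMeasure _ _ _ (borel _) μT' →
            IsTorLinked305 ι D.s δ γ μT μT' →
            ∃ β' : G F → ℝ, ∃ β : G ℚ → ℝ,
              IsCutOn305 D.s δ μT' β'
                {x | T5.twTerm D.R'.r D.s (pure305 T' φ₀ Φ) δ x ≠ 0} ∧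
              IsCutOn305 (T5.AdelicAut.id ℚ) γ μT β
                {x | T5.twTerm D.R.r (T5.AdelicAut.id ℚ)
                  (pureQ298 T f₀ (fun g => F0 g + F1 g)) γ x ≠ 0} ∧
              cutInt305 D.R'.r D.s (pure305 T' φ₀ Φ) δ D.R'.μ β'
                = κ * cutInt305 D.R.r (T5.AdelicAut.id ℚ)
                    (pureQ298 T f₀ (fun g => F0 g + F1 g)) γ D.R.μ β) ∧
        ∀ γ : GL (Fin 2) ℚ, T6.IsEll γ → (¬ ∃ δ : GL (Fin 2) F, IsNormOf D δ γ) →
          ∀ μT : @Measure (tA305 (T5.AdelicAut.id ℚ) γ) (borel _),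
            @Measure.IsHaarMeasure _ _ _ (borel _) μT →
            ∃ β : G ℚ → ℝ,
              IsCutOn305 (T5.AdelicAut.id ℚ) γ μT β
                {x | T5.twTerm D.R.r (T5.AdelicAut.id ℚ)
                  (pureQ298 T f₀ (fun g => F0 g + F1 g)) γ x ≠ 0} ∧
              cutInt305 D.R.r (T5.AdelicAut.id ℚ)
                (pureQ298 T f₀ (fun g => F0 g + F1 g)) γ D.R.μ β = 0

/-- **`κ` IS A MATCHING CONSTANT, v2** (for `LocHypQ298b`) for the data `(D, μr, μc, T₀, n, m)`: for all `T ⊇ T₀` and all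
locally matched components, the pure tensor upstairs is matched (`T7.IsGlobMatch D`) with the SUM
of `κ` times the two pure tensors downstairs (weights `0` and `-1`), as soon as the three
functions are continuous with compact support. -/
def IsMatchConstQ298b (D : CompData ℚ F) (μr : @Measure (GL (Fin 2) ℝ) (borel _))
    (μc : @Measure (GL (Fin 2) ℂ) (borel _)) (T₀ : Finset (HeightOneSpectrum (𝓞 ℚ)))
    (n : HeightOneSpectrum (𝓞 F) → ℕ) (m : HeightOneSpectrum (𝓞 ℚ) → ℕ) (κ : ℂ) : Prop :=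
  ∀ (T : Finset (HeightOneSpectrum (𝓞 ℚ))) (T' : Finset (HeightOneSpectrum (𝓞 F))),
    T₀ ⊆ T → IsOver305 T T' →
  ∀ (φ₀ : ∀ w : HeightOneSpectrum (𝓞 F), GL (Fin 2) (w.adicCompletion F) → ℂ)
    (Φ : InfinitePlace F → GL (Fin 2) ℂ → ℂ)
    (f₀ : ∀ v : HeightOneSpectrum (𝓞 ℚ), GL (Fin 2) (v.adicCompletion ℚ) → ℂ)
    (F0 F1 : GL (Fin 2) ℝ → ℂ),
    LocHypQ298b D μr μc T n m φ₀ Φ f₀ F0 F1 →
    ∀ (φ' : G F → ℂ) (f0 f1 : G ℚ → ℂ),
      (∀ h : G F, φ' h = pure305 T' φ₀ Φ h) →
      (∀ h : G ℚ, f0 h = κ * pureQ298 T f₀ F0 h) →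
      (∀ h : G ℚ, f1 h = κ * pureQ298 T f₀ F1 h) →
      T5.IsTestFn D.𝔑 T5.trivType φ' →
      Continuous f0 → HasCompactSupport f0 → Continuous f1 → HasCompactSupport f1 →
      IsGlobMatch D φ' (fun x => f0 x + f1 x)

/-- **THE NODE Q2, v2 = GLOBAL MATCHING FROM LOCAL MATCHING over `ℚ`** (for `LocHypQ298b`).  For the data of the
comparison `F/ℚ`, Haar measures `μr` of `GL₂(ℝ)` and `μc` of `GL₂(ℂ)`, a base set `T₀` outside
which `F/ℚ` is unramified and the levels are `0`: there is a matching constant `κ ≠ 0`. -/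
def GlobMatchQC298b : Prop :=
  IsImagQuad F →
    ∀ D : CompData ℚ F, IsCompData D → IsCycExt ℚ F D.l → D.l = 2 →
    ∀ μr : @Measure (GL (Fin 2) ℝ) (borel _), @Measure.IsHaarMeasure _ _ _ (borel _) μr →
    ∀ μc : @Measure (GL (Fin 2) ℂ) (borel _), @Measure.IsHaarMeasure _ _ _ (borel _) μc →
    ∀ (T₀ : Finset (HeightOneSpectrum (𝓞 ℚ))), UnramOut305 (K' := F) T₀ →
    ∀ (n : HeightOneSpectrum (𝓞 F) → ℕ) (m : HeightOneSpectrum (𝓞 ℚ) → ℕ),
      IsLevelAt305 T₀ n m →
    ∃ κ : ℂ, κ ≠ 0 ∧ IsMatchConstQ298b F D μr μc T₀ n m κ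

end TwoFields2

/-! ## Appendix: the equation lemmas of the definitions of this file are realised HERE -/

theorem eqns_realised_matchQSpec298b : True := by
  have _h7 := @CutIntQC298b.eq_1
  have _h8 := @IsMatchConstQ298b.eq_1
  have _h9 := @GlobMatchQC298b.eq_1
  have _g7 := @CutIntQC298b.eq_def
  have _g8 := @IsMatchConstQ298b.eq_def
  have _g9 := @GlobMatchQC298b.eq_def
  have _u7 := @CutIntQC298b.eq_unfold
  have _u8 := @IsMatchConstQ298b.eq_unfold
  have _u9 := @GlobMatchQC298b.eq_unfold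
  trivial

end Fermat.Agent.LT.T7.MQ298

end

end
-- ===== PACK-END LT/T7/H298/MatchQSpec2.lean

-- ===== PACK-BEGIN LT/T7/H60/SupplyQTop.lean
section



/-!
# Row LT, tower T7, node T7.L2Q.1 `SupplyQC` (sub-architect helper60): FIRST CUT -- proved top

OFF-MAIN.  No hole, nothing assumed.  ADDITIVE.

    supplyQSC_of60 : SetupQC F → H893.ProjC F → H893.ProjC ℚ → ProjW1C → FamQC P F
                       → SupplyQSC P F
    supplyQC_of60  : (the same) → L2Q.SupplyQC P F                 (target VERBATIM)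
-/

set_option autoImplicit false

open AutomorphicForm IsDedekindDomain NumberField MeasureTheory
open scoped ComplexConjugate

noncomputable section

namespace Fermat.Agent.LT.T7.L2Q.H60

open Fermat.Agent.LT.H556 Fermat.Agent.LT.H556.A0 Fermat.Agent.LT.T7 Fermat.Agent.LT.T7.L2Q

attribute [local instance] Fermat.Agent.LT.T5.instMeasurableSpaceG

section Top

variable {P : EKCond}
variable {F : Type} [Field F] [NumberField F]

/-- The extension of a nonzero ideal is nonzero. -/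
theorem upQ_ne_bot60 {𝔫 : Ideal (𝓞 ℚ)} (h : 𝔫 ≠ ⊥) : upQ (F := F) 𝔫 ≠ ⊥ := by
  unfold upQ
  intro h0
  rw [Ideal.map_eq_bot_iff_of_injective (FaithfulSMul.algebraMap_injective (𝓞 ℚ) (𝓞 F))] at h0
  exact h h0

/-- The invariant cusp functions of type `w0` over `ℚ` are the invariant cusp functions of
`T7/Level2.lean` (trivial type, one place). -/
theorem isWFnQ_w0_iff60 {𝔫 : Ideal (𝓞 ℚ)} {r : G ℚ} {u : HeightOneSpectrum (𝓞 ℚ)}
    {ψ : G ℚ → ℂ} : IsWFnQ QWt.w0 𝔫 r u ψ ↔ IsWFn 𝔫 r 1 (fun _ => u) ψ :=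
  ⟨fun h => ⟨h.cusp, h.arch_scalar, h.iw⟩, fun h => ⟨h.cusp, h.arch_scalar, h.iw⟩⟩

/-- The invariant cusp functions of type `w1` over `ℚ` are the invariant cusp functions of type
`wtOne` (one place). -/
theorem isWFnQ_w1_iff60 {𝔫 : Ideal (𝓞 ℚ)} {r : G ℚ} {u : HeightOneSpectrum (𝓞 ℚ)}
    {ψ : G ℚ → ℂ} : IsWFnQ QWt.w1 𝔫 r u ψ ↔ IsWFnT wtOne 𝔫 r 1 (fun _ => u) ψ :=
  ⟨fun h => ⟨h.cusp, h.arch_scalar, h.iw⟩, fun h => ⟨h.cusp, h.arch_scalar, h.iw⟩⟩

/-- The invariant cusp functions of trivial type. -/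
theorem isWFnT_triv_iff60 {K : Type} [Field K] [NumberField K] {𝔫 : Ideal (𝓞 K)} {r : G K}
    {l : ℕ} {o : ℕ → HeightOneSpectrum (𝓞 K)} {ψ : G K → ℂ} :
    IsWFnT T5.trivType 𝔫 r l o ψ ↔ IsWFn 𝔫 r l o ψ :=
  ⟨fun h => ⟨h.cusp, h.arch_scalar, h.iw⟩, fun h => ⟨h.cusp, h.arch_scalar, h.iw⟩⟩

/-- The typed projection for the trivial type is the projection of helper893. -/
theorem projTC_triv_of60 {K : Type} [Field K] [NumberField K] (h : H893.ProjC K) :
    ProjTC K T5.trivType := by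
  intro _ R hR 𝔫₀ 𝔫 h𝔫 hle l o ho ψ hψ
  obtain ⟨ψ₁, h₁, h₂⟩ := h R hR 𝔫₀ 𝔫 h𝔫 hle l o ho ψ hψ
  exact ⟨ψ₁, isWFnT_triv_iff60.2 h₁, fun χ hχ => h₂ χ (isWFnT_triv_iff60.1 hχ)⟩

/-- The typed projection for the trivial type gives the projection of helper893. -/
theorem projC_of_projTC60 {K : Type} [Field K] [NumberField K] (h : ProjTC K T5.trivType) :
    H893.ProjC K := by
  intro R hR 𝔫₀ 𝔫 h𝔫 hle l o ho ψ hψ
  obtain ⟨ψ₁, h₁, h₂⟩ := h T5.isKType_triv R hR 𝔫₀ 𝔫 h𝔫 hle l o ho ψ hψ
  exact ⟨ψ₁, isWFnT_triv_iff60.1 h₁, fun χ hχ => h₂ χ (isWFnT_triv_iff60.2 hχ)⟩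

/-- The leaf `ProjW1C` from the typed projection and the leaf `WtOneKTypeC`. -/
theorem projW1C_of60 (hk : WtOneKTypeC) (h : ProjTC ℚ wtOne) : ProjW1C :=
  fun R hR 𝔫₀ 𝔫 h𝔫 hle l o ho ψ hψ => h hk R hR 𝔫₀ 𝔫 h𝔫 hle l o ho ψ hψ

/-- The data of the comparison are good for every nonzero level. -/
theorem isCompData_comp60 {Φ : HeckeEigensystem F ℂ} {B : L2QBase F}
    (hB : IsL2QBase Φ B) {𝔫 : Ideal (𝓞 ℚ)} (h : 𝔫 ≠ ⊥) : IsCompData (B.comp 𝔫) where
  cyc := hB.cyc
  base := hB.base
  level_ne := h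
  level := rfl
  frame := hB.frame
  frame' := hB.frame'
  aut := hB.aut 𝔫

/-- The orthogonal projection downstairs, per type. -/
theorem proj_down60 (hP0 : H893.ProjC ℚ) (hP1 : ProjW1C) (n : QWt) (R : Frame5 ℚ)
    (hR : IsFrame5 R) (𝔫 : Ideal (𝓞 ℚ)) (h𝔫 : 𝔫 ≠ ⊥) (u : HeightOneSpectrum (𝓞 ℚ))
    (hu : u.asIdeal ∣ 𝔫) (ψ : G ℚ → ℂ) (hψ : T5.IsCuspFn 𝔫 n.type R.r ψ) :
    ∃ ψ₁ : G ℚ → ℂ, IsWFnQ n 𝔫 R.r u ψ₁ ∧
      ∀ χ : G ℚ → ℂ, IsWFnQ n 𝔫 R.r u χ →
        T5.innerD R.μ R.F (fun x => ψ x - ψ₁ x) χ = 0 := by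
  cases n with
  | w0 =>
    obtain ⟨ψ₁, h₁, h₂⟩ := hP0 R hR 𝔫 𝔫 h𝔫 le_rfl 1 (fun _ => u) (fun _ => hu) ψ hψ
    exact ⟨ψ₁, isWFnQ_w0_iff60.2 h₁, fun χ hχ => h₂ χ (isWFnQ_w0_iff60.1 hχ)⟩
  | w1 =>
    obtain ⟨ψ₁, h₁, h₂⟩ := hP1 R hR 𝔫 𝔫 h𝔫 le_rfl 1 (fun _ => u) (fun _ => hu) ψ hψ
    exact ⟨ψ₁, isWFnQ_w1_iff60.2 h₁, fun χ hχ => h₂ χ (isWFnQ_w1_iff60.1 hχ)⟩

/-- **The assembly of an `L2QData`** from a common part and `g`-parts at the bad elements. -/
theorem isL2QData_toData60 {Φ : HeckeEigensystem F ℂ} {B : L2QBase F}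
    (hB : IsL2QBase Φ B) (hP' : H893.ProjC F) (hP0 : H893.ProjC ℚ) (hP1 : ProjW1C)
    (Fm : G F → L2QFam F) (hFm : ∀ g : G F, B.IsBad g → IsL2QFam Φ B g (Fm g)) :
    IsL2QData Φ (B.toData Fm) where
  comp := fun g hg => isCompData_comp60 hB (hFm g hg).level_ne
  level_le := hB.level_le
  level_g := fun g hg => (hFm g hg).level_g
  mem_S' := hB.mem_S'
  mem_S'_g := fun g hg => (hFm g hg).mem_S'_g
  under := hB.under
  const := hB.const
  orbit_rel := hB.orbit_rel
  orbit_ne := hB.orbit_ne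
  orbit_over := hB.orbit_over
  orbit_level := hB.orbit_level
  orbit_good := hB.orbit_good
  u_level := fun g hg => (hFm g hg).u_level
  ekprod_up := fun g X k m hg hX => (hFm g hg).ekprod_up X k m hX
  ekprod_down := fun n g X k m hg hX => (hFm g hg).ekprod_down n X k m hX
  reg_up := fun g X k m hg hX hm => (hFm g hg).reg_up X k m hX hm
  reg_down := fun n g X k m hg hX hm => (hFm g hg).reg_down n X k m hX hm
  matched := fun g X k m hg hX hm => (hFm g hg).matched X k m hX hm
  base_ne := fun g hg => (hFm g hg).base_ne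
  op_up := fun g X k m hg hX => (hFm g hg).op_up X k m hX
  kill_up := fun g X k m hg hX => (hFm g hg).kill_up X k m hX
  proj_up := fun g hg ψ hψ =>
    hP' B.R' hB.frame' B.𝔑₀ (upQ (F := F) (Fm g).𝔫) (upQ_ne_bot60 (hFm g hg).level_ne)
      (hFm g hg).level_g 2 B.o (fun j => (hB.mem_S' (B.o j)).1 (hB.orbit_level j)) ψ hψ
  op_down := fun n g X k m hg hX => (hFm g hg).op_down n X k m hX
  class_down := fun n g hg => (hFm g hg).class_down n
  comm_down := fun n g hg => (hFm g hg).comm_down n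
  kill_down := fun n g X k m hg hX => (hFm g hg).kill_down n X k m hX
  proj_down := fun n g hg ψ hψ =>
    proj_down60 hP0 hP1 n B.R hB.frame (Fm g).𝔫 (hFm g hg).level_ne B.u (hFm g hg).u_level ψ hψ

/-- The data assembled from a common part are stable. -/
theorem isStableQ_toData60 {Φ : HeckeEigensystem F ℂ} {B : L2QBase F}
    (hB : IsL2QBase Φ B) (Fm : G F → L2QFam F) : IsStableQ (B.toData Fm) := by
  obtain ⟨𝔫₀, h0, h1, -, -⟩ := hB.base_level
  exact ⟨𝔫₀, h0, h1⟩

/-- **THE TOP OF THE FIRST CUT of T7.L2Q.1, stable form**: the supply from the setup, the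
orthogonal projections (over `F`; over `ℚ` for the two types), and the families for one bad
element. -/
theorem supplyQSC_of60 (hS : SetupQC F) (hP' : H893.ProjC F) (hP0 : H893.ProjC ℚ)
    (hP1 : ProjW1C) (hF : FamQC P F) : SupplyQSC P F := by
  intro h3 hquad Φ hΦ hconst hPΦ
  obtain ⟨B, hB⟩ := hS h3 hquad Φ hΦ hconst
  have hex : ∀ g : G F, ∃ Fm : L2QFam F, B.IsBad g → IsL2QFam Φ B g Fm := by
    intro g
    by_cases hg : B.IsBad g
    · obtain ⟨Fm, h⟩ := hF h3 hquad Φ hΦ hconst hPΦ B hB g hg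
      exact ⟨Fm, fun _ => h⟩
    · exact ⟨⟨⊥, fun _ => 0, fun _ _ _ _ => 0, fun _ _ _ _ _ => 0, fun _ => 0⟩,
        fun h => absurd h hg⟩
  choose Fm hFm using hex
  exact ⟨B.toData Fm, isL2QData_toData60 hB hP' hP0 hP1 Fm hFm, isStableQ_toData60 hB Fm⟩

/-- **THE TOP OF THE FIRST CUT of T7.L2Q.1** (target `L2Q.SupplyQC P F`, VERBATIM). -/
theorem supplyQC_of60 (hS : SetupQC F) (hP' : H893.ProjC F) (hP0 : H893.ProjC ℚ)
    (hP1 : ProjW1C) (hF : FamQC P F) : SupplyQC P F :=
  fun h3 hquad Φ hΦ hconst hPΦ =>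
    let ⟨Dt, hDt, _⟩ := supplyQSC_of60 hS hP' hP0 hP1 hF h3 hquad Φ hΦ hconst hPΦ
    ⟨Dt, hDt⟩

end Top

end Fermat.Agent.LT.T7.L2Q.H60

end

end
-- ===== PACK-END LT/T7/H60/SupplyQTop.lean

-- ===== PACK-BEGIN LT/T7/H517/IotaNorm.lean
section



/-!
# Row LT, tower T7, leaf T7.L2.1.C2.4.3 `IotaNormC943` (registry 2522, helper517), OFF-MAIN.

`iotaNormC517 (K K') : H943.IotaNormC943 K K'` VERBATIM vs `T7/H943/IotaSpec.lean`
(sha256 7da0d68c26cea449, helper943@64e398e16); imports = Mathlib + the spec closure.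

THE NORM OF THE BASE CHANGE OF AN IDELE, for an ARBITRARY extension `L / K` of number fields:

    adNorm_bcAdele517 : T5.adNorm (bcAdele743 K L x) = T5.adNorm x ^ [L : K]    (x an idele of K)

* infinite part: the completion maps are isometries (`norm_infLoc517`) and
  `∑_{u ∣ v} mult u = mult v · [L : K]` (`sum_mult_fiber517`, from Mathlib
  `InfinitePlace.sum_inertiaDeg_eq_finrank`, `mult_mul_finrank`);
* finite part: `‖i_w c‖_w = ‖c‖_v ^ (e_w f_w)` (`norm_finLoc517`, from `valued_finLoc743` and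
  `N w = (N v) ^ f_w`), `∑_{w ∣ v} e_w f_w = [L : K]` (`sum_ram_res_fiber517`, from Mathlib
  `Ideal.sum_ramification_inertia`), regrouping of the finite product by the fibres.
-/

set_option autoImplicit false
set_option linter.style.haveILetI false
set_option linter.unusedSectionVars false
set_option linter.deprecated false

open NumberField IsDedekindDomain

noncomputable section

namespace Fermat.Agent.LT.T7.H517

open Fermat.Agent.LT.A2.H743 Fermat.Agent.LT.H556.A0 Fermat.Agent.LT.T7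

variable (K L : Type) [Field K] [NumberField K] [Field L] [NumberField L] [Algebra K L]

/-! ## 1. The infinite places -/

/-- The completion maps at the infinite places are isometries. -/
theorem norm_infLoc517 (u : InfinitePlace L) (c : (infUnder743 K L u).Completion) :
    ‖infLoc743 K L u c‖ = ‖c‖ := by
  have hiso := (InfinitePlace.LiesOver.isometry_algebraMap u (infUnder743 K L u)).completion_map
  have h0 : UniformSpace.Completion.map
      (algebraMap (WithAbs (infUnder743 K L u).1) (WithAbs u.1)) 0 = 0 :=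
    (UniformSpace.Completion.mapRingHom
      (algebraMap (WithAbs (infUnder743 K L u).1) (WithAbs u.1))
      (InfinitePlace.LiesOver.isometry_algebraMap u (infUnder743 K L u)).continuous).map_zero
  have h1 : ∀ y : (infUnder743 K L u).1.Completion,
      ‖UniformSpace.Completion.map
        (algebraMap (WithAbs (infUnder743 K L u).1) (WithAbs u.1)) y‖ = ‖y‖ := by
    intro y
    have := hiso.dist_eq y 0
    rw [h0, dist_zero_right, dist_zero_right] at this
    exact this
  exact h1 c.toCompletion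

open scoped Classical in
/-- `∑_{u ∣ v} mult u = mult v · [L : K]`. -/
theorem sum_mult_fiber517 (v : InfinitePlace K) :
    ∑ u ∈ Finset.univ.filter (fun u : InfinitePlace L => infUnder743 K L u = v), u.mult
      = v.mult * Module.finrank K L := by
  have hset : Finset.univ.filter (fun u : InfinitePlace L => infUnder743 K L u = v)
      = (InfinitePlace.placesOver L v).toFinset := by
    ext u
    simp only [Finset.mem_filter, Finset.mem_univ, true_and, Set.mem_toFinset]
    constructor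
    · rintro rfl
      exact infUnder_liesOver743 K L u
    · intro h
      have : u.LiesOver v := h
      exact InfinitePlace.LiesOver.comap_eq u v
  rw [hset, ← InfinitePlace.sum_inertiaDeg_eq_finrank K L v, Finset.mul_sum]
  refine Finset.sum_congr rfl fun u hu => ?_
  have hmem : u ∈ InfinitePlace.placesOver L v := Set.mem_toFinset.1 hu
  have : u.LiesOver v := hmem
  rw [InfinitePlace.inertiaDeg_eq_finrank v u, InfinitePlace.mult_mul_finrank v u]

/-- The infinite part of the norm. -/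
theorem infPart517 (x : Adl K) :
    ∏ u : InfinitePlace L, ‖(bcAdele743 K L x).1 u‖ ^ u.mult
      = (∏ v : InfinitePlace K, ‖x.1 v‖ ^ v.mult) ^ Module.finrank K L := by
  classical
  have h1 : ∀ u : InfinitePlace L,
      ‖(bcAdele743 K L x).1 u‖ ^ u.mult = ‖x.1 (infUnder743 K L u)‖ ^ u.mult := by
    intro u
    rw [bcAdele_fst743, norm_infLoc517]
  simp only [h1]
  rw [← Finset.prod_fiberwise_of_maps_to (s := (Finset.univ : Finset (InfinitePlace L)))
    (t := (Finset.univ : Finset (InfinitePlace K))) (g := infUnder743 K L)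
    (fun _ _ => Finset.mem_univ _), ← Finset.prod_pow]
  refine Finset.prod_congr rfl fun v _ => ?_
  have h2 : ∀ u ∈ Finset.univ.filter (fun u : InfinitePlace L => infUnder743 K L u = v),
      ‖x.1 (infUnder743 K L u)‖ ^ u.mult = ‖x.1 v‖ ^ u.mult := by
    intro u hu
    rw [(Finset.mem_filter.1 hu).2]
  rw [Finset.prod_congr rfl h2, Finset.prod_pow_eq_pow_sum, sum_mult_fiber517, pow_mul]

/-! ## 2. The finite places: local part -/

/-- The residue degree of `w` over the place under it. -/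
def resDeg517 (w : HeightOneSpectrum (𝓞 L)) : ℕ :=
  (finUnder743 K L w).asIdeal.inertiaDeg' w.asIdeal

theorem absNorm_eq_pow517 (w : HeightOneSpectrum (𝓞 L)) :
    Ideal.absNorm w.asIdeal = Ideal.absNorm (finUnder743 K L w).asIdeal ^ resDeg517 K L w := by
  haveI : (finUnder743 K L w).asIdeal.IsMaximal := (finUnder743 K L w).isMaximal
  letI := Ideal.Quotient.field (finUnder743 K L w).asIdeal
  rw [Ideal.absNorm_apply, Submodule.cardQuot_apply, Ideal.absNorm_apply, Submodule.cardQuot_apply,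
    resDeg517, Ideal.inertiaDeg'_algebraMap]
  exact Module.natCard_eq_pow_finrank

theorem resDeg_pos517 (w : HeightOneSpectrum (𝓞 L)) : 0 < resDeg517 K L w := by
  haveI : (finUnder743 K L w).asIdeal.IsMaximal := (finUnder743 K L w).isMaximal
  exact Ideal.inertiaDeg'_pos _ _

/-- `‖i_w c‖_w = ‖c‖_v ^ (e_w f_w)`. -/
theorem norm_finLoc517 (w : HeightOneSpectrum (𝓞 L))
    (c : (finUnder743 K L w).adicCompletion K) :
    ‖finLoc743 K L w c‖ = ‖c‖ ^ (ramIdx743 K L w * resDeg517 K L w) := by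
  rw [FinitePlace.norm_def, FinitePlace.norm_def, valued_finLoc743, map_pow, pow_mul']
  norm_cast
  congr 1
  by_cases hz : Valued.v c = 0
  · rw [WithZeroMulInt.toNNReal_pos_apply _ hz, WithZeroMulInt.toNNReal_pos_apply _ hz,
      zero_pow (resDeg_pos517 K L w).ne']
  · rw [WithZeroMulInt.toNNReal_neg_apply _ hz, WithZeroMulInt.toNNReal_neg_apply _ hz,
      absNorm_eq_pow517 K L w]
    push_cast
    rw [← zpow_natCast, ← zpow_natCast, ← zpow_mul, ← zpow_mul, mul_comm]

/-! ## 3. The finite places: the fibres -/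

/-- The fibre of `finUnder743` over `v`, as a finset. -/
def fiber517 (v : HeightOneSpectrum (𝓞 K)) : Finset (HeightOneSpectrum (𝓞 L)) :=
  (finite_fiber_finUnder743 K L v).toFinset

theorem mem_fiber517 {v : HeightOneSpectrum (𝓞 K)} {w : HeightOneSpectrum (𝓞 L)} :
    w ∈ fiber517 K L v ↔ finUnder743 K L w = v := by
  simp only [fiber517, Set.Finite.mem_toFinset, Set.mem_preimage, Set.mem_singleton_iff]

/-- `∑_{w ∣ v} e_w f_w = [L : K]`. -/
theorem sum_ram_res_fiber517 (v : HeightOneSpectrum (𝓞 K)) :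
    ∑ w ∈ fiber517 K L v, ramIdx743 K L w * resDeg517 K L w = Module.finrank K L := by
  classical
  haveI : v.asIdeal.IsMaximal := v.isMaximal
  rw [← Ideal.sum_ramification_inertia (𝓞 L) K L (p := v.asIdeal) v.ne_bot]
  refine Finset.sum_nbij (fun w => w.asIdeal) ?_ ?_ ?_ ?_
  · intro w hw
    have hv := mem_fiber517 K L |>.1 hw
    rw [IsDedekindDomain.mem_primesOverFinset_iff v.ne_bot]
    refine ⟨w.isPrime, ⟨?_⟩⟩
    rw [← hv]
    rfl
  · intro w₁ _ w₂ _ h
    exact HeightOneSpectrum.ext h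
  · intro P hP
    rw [Finset.mem_coe, IsDedekindDomain.mem_primesOverFinset_iff v.ne_bot] at hP
    obtain ⟨hPp, hPo⟩ := hP
    have hne : P ≠ ⊥ := by
      haveI := hPo
      exact Ideal.ne_bot_of_liesOver_of_ne_bot v.ne_bot P
    refine ⟨⟨P, hPp, hne⟩, ?_, rfl⟩
    rw [Finset.mem_coe, mem_fiber517]
    apply HeightOneSpectrum.ext
    show P.under (𝓞 K) = v.asIdeal
    exact hPo.over.symm
  · intro w hw
    have hv := mem_fiber517 K L |>.1 hw
    subst hv
    rfl

/-! ## 4. The finite part of the norm -/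

/-- The local norms of an idele are `1` at almost all places. -/
theorem finite_mulSupport_idele517 (x : (Adl K)ˣ) :
    (Function.mulSupport fun v : HeightOneSpectrum (𝓞 K) => ‖(x : Adl K).2 v‖).Finite := by
  have h1 := RestrictedProduct.eventually _ _ (x : Adl K).2
  have h2 := RestrictedProduct.eventually _ _ ((x⁻¹ : (Adl K)ˣ) : Adl K).2
  have h3 : ∀ᶠ v : HeightOneSpectrum (𝓞 K) in Filter.cofinite, ‖(x : Adl K).2 v‖ = 1 := by
    filter_upwards [h1, h2] with v hv1 hv2
    have hmul : (x : Adl K).2 v * ((x⁻¹ : (Adl K)ˣ) : Adl K).2 v = 1 := by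
      have h := congrArg (fun a : Adl K => a.2 v) (Units.mul_inv x)
      exact h
    have hn : ‖(x : Adl K).2 v‖ * ‖((x⁻¹ : (Adl K)ˣ) : Adl K).2 v‖ = 1 := by
      rw [← norm_mul, hmul, norm_one]
    have ha : ‖(x : Adl K).2 v‖ ≤ 1 := Valued.toNormedField.norm_le_one_iff.2 hv1
    have hb : ‖((x⁻¹ : (Adl K)ˣ) : Adl K).2 v‖ ≤ 1 := Valued.toNormedField.norm_le_one_iff.2 hv2
    have ha0 : 0 ≤ ‖(x : Adl K).2 v‖ := norm_nonneg _
    have hb0 : 0 ≤ ‖((x⁻¹ : (Adl K)ˣ) : Adl K).2 v‖ := norm_nonneg _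
    nlinarith
  exact h3

/-- The finite part of the norm. -/
theorem finPart517 (x : (Adl K)ˣ) :
    ∏ᶠ w : HeightOneSpectrum (𝓞 L), ‖(bcAdele743 K L (x : Adl K)).2 w‖
      = (∏ᶠ v : HeightOneSpectrum (𝓞 K), ‖(x : Adl K).2 v‖) ^ Module.finrank K L := by
  classical
  set g : HeightOneSpectrum (𝓞 K) → ℝ := fun v => ‖(x : Adl K).2 v‖ with hg
  have hfin := finite_mulSupport_idele517 K x
  set S : Finset (HeightOneSpectrum (𝓞 K)) := hfin.toFinset with hS
  set S' : Finset (HeightOneSpectrum (𝓞 L)) := S.biUnion (fiber517 K L) with hS'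
  have hG : ∀ w : HeightOneSpectrum (𝓞 L), ‖(bcAdele743 K L (x : Adl K)).2 w‖
      = g (finUnder743 K L w) ^ (ramIdx743 K L w * resDeg517 K L w) := by
    intro w
    rw [bcAdele_snd743, norm_finLoc517]
  simp only [hG]
  have hsupp : Function.mulSupport
      (fun w : HeightOneSpectrum (𝓞 L) =>
        g (finUnder743 K L w) ^ (ramIdx743 K L w * resDeg517 K L w)) ⊆ ↑S' := by
    intro w hw
    rw [Function.mem_mulSupport] at hw
    rw [Finset.mem_coe, hS', Finset.mem_biUnion]
    refine ⟨finUnder743 K L w, ?_, (mem_fiber517 K L).2 rfl⟩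
    rw [hS, Set.Finite.mem_toFinset, Function.mem_mulSupport]
    intro h1
    apply hw
    have h2 : g (finUnder743 K L w) = 1 := h1
    rw [h2, one_pow]
  rw [finprod_eq_prod_of_mulSupport_subset _ hsupp,
    finprod_eq_prod_of_mulSupport_subset g (s := S) (by rw [hS, Set.Finite.coe_toFinset]),
    ← Finset.prod_pow]
  have hmaps : ∀ w ∈ S', finUnder743 K L w ∈ S := by
    intro w hw
    rw [hS', Finset.mem_biUnion] at hw
    obtain ⟨v, hv, hwv⟩ := hw
    rw [(mem_fiber517 K L).1 hwv]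
    exact hv
  rw [← Finset.prod_fiberwise_of_maps_to hmaps]
  refine Finset.prod_congr rfl fun v hv => ?_
  have hfilter : S'.filter (fun w => finUnder743 K L w = v) = fiber517 K L v := by
    ext w
    rw [Finset.mem_filter, mem_fiber517]
    constructor
    · exact fun h => h.2
    · intro h
      refine ⟨?_, h⟩
      rw [hS', Finset.mem_biUnion]
      exact ⟨v, hv, (mem_fiber517 K L).2 h⟩
  rw [hfilter]
  have h2 : ∀ w ∈ fiber517 K L v,
      g (finUnder743 K L w) ^ (ramIdx743 K L w * resDeg517 K L w)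
        = g v ^ (ramIdx743 K L w * resDeg517 K L w) := by
    intro w hw
    rw [(mem_fiber517 K L).1 hw]
  rw [Finset.prod_congr rfl h2, Finset.prod_pow_eq_pow_sum, sum_ram_res_fiber517]

/-! ## 5. The norm of the base change -/

/-- **The norm of the base change of an idele**, for an arbitrary extension of number
fields. -/
theorem adNorm_bcAdele517 (x : (Adl K)ˣ) :
    T5.adNorm (bcAdele743 K L (x : Adl K)) = T5.adNorm (x : Adl K) ^ Module.finrank K L := by
  unfold T5.adNorm
  rw [mul_pow, ← infPart517 K L (x : Adl K), ← finPart517 K L x]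

/-- **LEAF I.3 = IOTA-NORM** (registry 2522), VERBATIM. -/
theorem iotaNormC517 (K K' : Type) [Field K] [NumberField K] [Field K'] [NumberField K']
    [Algebra K K'] : H943.IotaNormC943 K K' := by
  intro ℓ hcyc _ x
  rw [H943.iota943_def, adNorm_bcAdele517 K K' x, hcyc.degree]

end Fermat.Agent.LT.T7.H517

end

end
-- ===== PACK-END LT/T7/H517/IotaNorm.lean

-- ===== PACK-BEGIN LT/T7/H37/IotaEmb.lean
section


/-!
# Row LT, tower T7, leaf T7.L2.1.C2.4.6 `H943.IotaEmbC943` (helper37, registry row 2527)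

OFF-MAIN.  The base change of adeles `ι = bcAdele743 : 𝔸_K → 𝔸_L` of helper743 is a topological
embedding, for EVERY extension `L / K` of number fields.

    iotaEmbC37 K K' : H943.IotaEmbC943 K K'          (VERBATIM, unconditional)

Proof.  `ι = ι_∞ × ι_f`.
* `ι_∞ a u = infLoc u (a (u ∩ K))`: the local maps are isometries (`isometry_infLoc37`), the
  restriction of places is surjective, and a product of inducing maps along a surjection of the
  index sets is inducing (`isInducing_piComp37`).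
* `ι_f`: additive homomorphism of topological groups, so it is enough to compare the
  neighbourhoods of `0`.  The neighbourhoods of `0` of a restricted product are the images of the
  neighbourhoods of `0` of `∏ 𝒪_v` (Mathlib `RestrictedProduct.nhds_zero_eq_map_structureMap`);
  `|i_w x|_w = |x|_v ^ e(w | v)` (`valued_finLoc743` of helper743), so `i_w⁻¹ 𝒪_w = 𝒪_v` and the
  preimage of the ball of radius `g ^ e` is the ball of radius `g`; every place of `K` has a
  place of `L` over it and the fibres are finite.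
-/

set_option autoImplicit false
set_option linter.unusedSectionVars false

open IsDedekindDomain NumberField Filter Topology

noncomputable section

namespace Fermat.Agent.LT.T7.H37

open Fermat.Agent.LT.A2.H743

/-! ## 1. General topology: reindexed products -/

theorem isInducing_piComp37 {ι κ : Type*} {X : ι → Type*} {Y : κ → Type*}
    [∀ i, TopologicalSpace (X i)] [∀ j, TopologicalSpace (Y j)] (π : κ → ι)
    (hπ : Function.Surjective π) (φ : ∀ j, X (π j) → Y j)
    (hφ : ∀ j, IsInducing (φ j)) :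
    IsInducing (fun (a : ∀ i, X i) (j : κ) => φ j (a (π j))) := by
  constructor
  simp only [Pi.topologicalSpace, induced_iInf, induced_compose]
  apply le_antisymm
  · refine le_iInf fun j => ?_
    have h : ((fun b : ∀ j, Y j => b j) ∘ fun (a : ∀ i, X i) (j : κ) => φ j (a (π j)))
        = φ j ∘ (fun a : ∀ i, X i => a (π j)) := rfl
    rw [h, ← induced_compose, ← (hφ j).eq_induced]
    exact iInf_le _ (π j)
  · refine le_iInf fun i => ?_
    obtain ⟨j, rfl⟩ := hπ i
    refine (iInf_le _ j).trans ?_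
    have h : ((fun b : ∀ j, Y j => b j) ∘ fun (a : ∀ i, X i) (j : κ) => φ j (a (π j)))
        = φ j ∘ (fun a : ∀ i, X i => a (π j)) := rfl
    rw [h, ← induced_compose, ← (hφ j).eq_induced]

theorem injective_piComp37 {ι κ : Type*} {X : ι → Type*} {Y : κ → Type*} (π : κ → ι)
    (hπ : Function.Surjective π) (φ : ∀ j, X (π j) → Y j)
    (hφ : ∀ j, Function.Injective (φ j)) :
    Function.Injective (fun (a : ∀ i, X i) (j : κ) => φ j (a (π j))) := by
  intro a b h
  funext i
  obtain ⟨j, rfl⟩ := hπ i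
  exact hφ j (congrFun h j)

/-! ## 2. The infinite part -/

variable (K L : Type) [Field K] [NumberField K] [Field L] [NumberField L] [Algebra K L]

theorem isometry_infLoc37 (u : InfinitePlace L) : Isometry (infLoc743 K L u) := by
  have h1 : Isometry (InfinitePlace.Completion.toCompletion (v := infUnder743 K L u)) :=
    InfinitePlace.Completion.isometry_toCompletion _
  have h2 := (InfinitePlace.LiesOver.isometry_algebraMap u (infUnder743 K L u)).isometry_mapRingHom
  have h3 : Isometry (InfinitePlace.Completion.ofCompletion (v := u)) :=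
    (InfinitePlace.Completion.isometryEquivCompletion u).symm.isometry
  exact h3.comp (h2.comp h1)

theorem infUnder_surjective37 : Function.Surjective (infUnder743 K L) := by
  intro v
  exact InfinitePlace.comap_surjective v

theorem isEmbedding_infBC37 : IsEmbedding (infBC743 K L) := by
  refine ⟨?_, ?_⟩
  · exact isInducing_piComp37 (infUnder743 K L) (infUnder_surjective37 K L)
      (fun u => infLoc743 K L u) (fun u => (isometry_infLoc37 K L u).isEmbedding.isInducing)
  · exact injective_piComp37 (infUnder743 K L) (infUnder_surjective37 K L)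
      (fun u => infLoc743 K L u) (fun u => (infLoc743 K L u).injective)


/-! ## 3. The finite part -/


theorem finUnder_surjective37 : Function.Surjective (finUnder743 K L) := by
  intro v
  obtain ⟨Q, hQ, hQv⟩ := Ideal.exists_maximal_ideal_liesOver_of_isIntegral (S := 𝓞 L) v.asIdeal
  have hne : Q ≠ ⊥ := Ideal.ne_bot_of_liesOver_of_ne_bot v.ne_bot Q
  refine ⟨⟨Q, hQ.isPrime, hne⟩, ?_⟩
  apply HeightOneSpectrum.ext
  show Q.under (𝓞 K) = v.asIdeal
  exact (Ideal.over_def Q v.asIdeal).symm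

section Local

variable {K}
variable (v : HeightOneSpectrum (𝓞 K))

/-- Every neighbourhood of `0` in `K_v` contains a ball `{x | v x < g}`, `g ≠ 0`. -/
theorem exists_ball_subset37 {s : Set (v.adicCompletion K)} (hs : s ∈ 𝓝 (0 : v.adicCompletion K)) :
    ∃ g : WithZero (Multiplicative ℤ), g ≠ 0 ∧
      {x : v.adicCompletion K | Valued.v x < g} ⊆ s := by
  obtain ⟨γ, hγ⟩ := Valued.mem_nhds_zero.mp hs
  refine ⟨MonoidWithZeroHom.ValueGroup₀.embedding γ.1,
    MonoidWithZeroHom.ValueGroup₀.embedding_unit_ne_zero γ, fun x hx => hγ ?_⟩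
  exact (Valuation.restrict_lt_iff_lt_embedding _).mpr hx

open WithZeroTopology in
/-- The balls `{x | v x < g}`, `g ≠ 0`, are neighbourhoods of `0` in `K_v`. -/
theorem ball_mem_nhds37 {g : WithZero (Multiplicative ℤ)} (hg : g ≠ 0) :
    {x : v.adicCompletion K | Valued.v x < g} ∈ 𝓝 (0 : v.adicCompletion K) := by
  have hc : Continuous (Valued.v : v.adicCompletion K → WithZero (Multiplicative ℤ)) :=
    Valued.continuous_valuation_of_surjective (HeightOneSpectrum.valuedAdicCompletion_surjective K v)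
  have ho : IsOpen {x : v.adicCompletion K | Valued.v x < g} :=
    WithZeroTopology.isOpen_Iio.preimage hc
  refine ho.mem_nhds ?_
  show Valued.v (0 : v.adicCompletion K) < g
  rw [map_zero]
  exact zero_lt_iff.mpr hg

end Local

theorem isInducing_finLoc37 (w : HeightOneSpectrum (𝓞 L)) : IsInducing (finLoc743 K L w) := by
  rw [IsTopologicalAddGroup.isInducing_iff_nhds_zero]
  apply le_antisymm
  · exact Filter.map_le_iff_le_comap.mp
      ((continuous_finLoc743 K L w).tendsto' 0 0 (map_zero _))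
  · intro s hs
    obtain ⟨g, hg, hgs⟩ := exists_ball_subset37 (finUnder743 K L w) hs
    refine Filter.mem_comap.mpr ⟨{y : w.adicCompletion L | Valued.v y < g ^ ramIdx743 K L w},
      ball_mem_nhds37 w (pow_ne_zero _ hg), fun x hx => hgs ?_⟩
    have h1 : Valued.v (finLoc743 K L w x) < g ^ ramIdx743 K L w := hx
    rw [valued_finLoc743] at h1
    exact (pow_lt_pow_iff_left₀ zero_le zero_le (ramIdx_ne_zero743 K L w)).mp h1

theorem finLoc_mem_integers_iff37 (w : HeightOneSpectrum (𝓞 L))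
    (x : (finUnder743 K L w).adicCompletion K) :
    finLoc743 K L w x ∈ w.adicCompletionIntegers L ↔
      x ∈ (finUnder743 K L w).adicCompletionIntegers K := by
  rw [HeightOneSpectrum.mem_adicCompletionIntegers, HeightOneSpectrum.mem_adicCompletionIntegers,
    valued_finLoc743]
  exact pow_le_one_iff_of_nonneg zero_le (ramIdx_ne_zero743 K L w)

theorem injective_finBC37 : Function.Injective (finBC743 K L) := by
  intro a b h
  refine FiniteAdeleRing.ext (R := 𝓞 K) (K := K) fun v => ?_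
  obtain ⟨w, rfl⟩ := finUnder_surjective37 K L v
  have h1 : finBC743 K L a w = finBC743 K L b w := by rw [h]
  rw [finBC_apply743, finBC_apply743] at h1
  exact (finLoc743 K L w).injective h1

theorem isInducing_finBC37 : IsInducing (finBC743 K L) := by
  rw [IsTopologicalAddGroup.isInducing_iff_nhds_zero]
  apply le_antisymm
  · exact Filter.map_le_iff_le_comap.mp
      ((continuous_finBC743 K L).tendsto' 0 0 (map_zero _))
  · intro U hU
    have hopenK : ∀ v : HeightOneSpectrum (𝓞 K),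
        IsOpen (v.adicCompletionIntegers K : Set (v.adicCompletion K)) :=
      fun _ => Valued.isOpen_valuationSubring _
    have hopenL : ∀ w : HeightOneSpectrum (𝓞 L),
        IsOpen (w.adicCompletionIntegers L : Set (w.adicCompletion L)) :=
      fun _ => Valued.isOpen_valuationSubring _
    have hK := RestrictedProduct.nhds_zero_eq_map_structureMap
      (R := fun v : HeightOneSpectrum (𝓞 K) => v.adicCompletion K)
      (B := fun v : HeightOneSpectrum (𝓞 K) => v.adicCompletionIntegers K) hopenK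
    have hL := RestrictedProduct.nhds_zero_eq_map_structureMap
      (R := fun w : HeightOneSpectrum (𝓞 L) => w.adicCompletion L)
      (B := fun w : HeightOneSpectrum (𝓞 L) => w.adicCompletionIntegers L) hopenL
    have hU' : U ∈ Filter.map (RestrictedProduct.structureMap
        (fun v : HeightOneSpectrum (𝓞 K) => v.adicCompletion K)
        (fun v : HeightOneSpectrum (𝓞 K) => (v.adicCompletionIntegers K : Set (v.adicCompletion K)))
        cofinite) (𝓝 0) := by
      rw [← hK]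
      exact hU
    have h3 : (RestrictedProduct.structureMap
        (fun v : HeightOneSpectrum (𝓞 K) => v.adicCompletion K)
        (fun v : HeightOneSpectrum (𝓞 K) => (v.adicCompletionIntegers K : Set (v.adicCompletion K)))
        cofinite) ⁻¹' U ∈ 𝓝 (0 : ∀ v : HeightOneSpectrum (𝓞 K), v.adicCompletionIntegers K) := hU'
    rw [nhds_pi, Filter.mem_pi] at h3
    obtain ⟨I, hI, t, ht, hsub⟩ := h3
    -- balls inside the `t v`
    have hball : ∀ v : HeightOneSpectrum (𝓞 K), ∃ g : WithZero (Multiplicative ℤ), g ≠ 0 ∧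
        ∀ x : v.adicCompletionIntegers K, Valued.v (x : v.adicCompletion K) < g → x ∈ t v := by
      intro v
      have h1 := ht v
      rw [mem_nhds_subtype] at h1
      obtain ⟨u, hu, hut⟩ := h1
      obtain ⟨g, hg, hgu⟩ := exists_ball_subset37 v hu
      exact ⟨g, hg, fun x hx => hut (hgu hx)⟩
    choose g hg hgt using hball
    -- the neighbourhood upstairs
    set J : Set (HeightOneSpectrum (𝓞 L)) := finUnder743 K L ⁻¹' I with hJdef
    have hJ : J.Finite := hI.preimage' (fun v _ => finite_fiber_finUnder743 K L v)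
    set T : ∀ w : HeightOneSpectrum (𝓞 L), Set (w.adicCompletionIntegers L) :=
      fun w => {y | Valued.v (y : w.adicCompletion L)
        < g (finUnder743 K L w) ^ ramIdx743 K L w} with hTdef
    have hT : ∀ w, T w ∈ 𝓝 (0 : w.adicCompletionIntegers L) := by
      intro w
      rw [mem_nhds_subtype]
      exact ⟨_, ball_mem_nhds37 w (pow_ne_zero _ (hg _)), fun y hy => hy⟩
    have hV : (RestrictedProduct.structureMap
        (fun w : HeightOneSpectrum (𝓞 L) => w.adicCompletion L)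
        (fun w : HeightOneSpectrum (𝓞 L) => (w.adicCompletionIntegers L : Set (w.adicCompletion L)))
        cofinite) '' (J.pi T) ∈ 𝓝 (0 : FiniteAdeleRing (𝓞 L) L) := by
      have h4 : (RestrictedProduct.structureMap
        (fun w : HeightOneSpectrum (𝓞 L) => w.adicCompletion L)
        (fun w : HeightOneSpectrum (𝓞 L) => (w.adicCompletionIntegers L : Set (w.adicCompletion L)))
        cofinite) '' (J.pi T) ∈ Filter.map (RestrictedProduct.structureMap
        (fun w : HeightOneSpectrum (𝓞 L) => w.adicCompletion L)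
        (fun w : HeightOneSpectrum (𝓞 L) => (w.adicCompletionIntegers L : Set (w.adicCompletion L)))
        cofinite) (𝓝 0) :=
        Filter.image_mem_map (set_pi_mem_nhds hJ (fun w _ => hT w))
      rw [← hL] at h4
      exact h4
    refine Filter.mem_comap.mpr ⟨_, hV, ?_⟩
    rintro x ⟨y, hy, hxy⟩
    have hcomp : ∀ w : HeightOneSpectrum (𝓞 L),
        finLoc743 K L w (x (finUnder743 K L w)) = (y w : w.adicCompletion L) := fun w => by
      have h5 := congrArg (fun z : FiniteAdeleRing (𝓞 L) L => z w) hxy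
      exact h5.symm
    have hint : ∀ v : HeightOneSpectrum (𝓞 K), x v ∈ v.adicCompletionIntegers K := by
      intro v
      obtain ⟨w, rfl⟩ := finUnder_surjective37 K L v
      rw [← finLoc_mem_integers_iff37, hcomp]
      exact (y w).2
    have hx : x = RestrictedProduct.structureMap
        (fun v : HeightOneSpectrum (𝓞 K) => v.adicCompletion K)
        (fun v : HeightOneSpectrum (𝓞 K) => (v.adicCompletionIntegers K : Set (v.adicCompletion K)))
        cofinite (fun v => ⟨x v, hint v⟩) :=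
      FiniteAdeleRing.ext (R := 𝓞 K) (K := K) fun v => rfl
    rw [hx]
    apply hsub
    intro v hv
    apply hgt
    obtain ⟨w, rfl⟩ := finUnder_surjective37 K L v
    have hw : w ∈ J := hv
    have h2 : Valued.v ((y w : w.adicCompletionIntegers L) : w.adicCompletion L)
        < g (finUnder743 K L w) ^ ramIdx743 K L w := hy w hw
    rw [← hcomp, valued_finLoc743] at h2
    exact (pow_lt_pow_iff_left₀ zero_le zero_le (ramIdx_ne_zero743 K L w)).mp h2

theorem isEmbedding_finBC37 : IsEmbedding (finBC743 K L) :=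
  ⟨isInducing_finBC37 K L, injective_finBC37 K L⟩

/-! ## 4. The adeles -/

/-- **The base change of adeles is a topological embedding** (any extension of number fields). -/
theorem isEmbedding_bcAdele37 : IsEmbedding (bcAdele743 K L) :=
  (isEmbedding_infBC37 K L).prodMap (isEmbedding_finBC37 K L)

/-- **LEAF I.6 `IotaEmbC943` of helper943, VERBATIM.** -/
theorem iotaEmbC37 (K K' : Type) [Field K] [NumberField K] [Field K'] [NumberField K']
    [Algebra K K'] : Fermat.Agent.LT.T7.H943.IotaEmbC943 K K' :=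
  isEmbedding_bcAdele37 K K'

end Fermat.Agent.LT.T7.H37

end

end
-- ===== PACK-END LT/T7/H37/IotaEmb.lean

-- ===== PACK-BEGIN LT/T7/H431/Asm.lean
section




/-!
# Row LT, tower T7, leaf T7.L2.2.Z = ASSEMBLY (`AsmC561`), closed (helper431)

OFF-MAIN.  Complete proof, nothing assumed.  ADDITIVE (new names only, all ending in `431`).
Spec: `T7/H561/SpecUpSpec.lean` v0.1 of helper561@fa57d28b6 (sha256 383e6674fcbb8ab0; the Props
are those of v0 = helper561@5fae7bc6d, sha256 dbdc56f47a25fb31, byte-unchanged), VERBATIM.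
No definition of the vocabulary is unfolded by `rw` / `simp` / `unfold` here (no equation lemma is
generated in this module): the proof builds against v0 and against v0.1.

    asmC431 : H561.AsmC561 K K'

i.e. `StfC561 K K' → BlocksC561 K K' → NonVanC561 K K' → ChangeC561 K' → AtomsC561 →
SpecUpCS561 K K'`.

Proof (as in the docstring of `AsmC561`).  `g, k₀, m₀` from `NonVanC561`; `e₀, 𝔅` from
`BlocksC561`; `Q i, t i, b i, l i` from `AtomsC561` on each block; `e'` from `ChangeC561`.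
Atoms: `ι' = Σ i, Fin (n i)`, `C ⟨i, a⟩ = C i`, `y ⟨i, a⟩ = t i a`, `b' = b i a`, `l' = l i a`,
`R = √q`.  The diagonal coefficient of `e' (idx i a)` is `X(C i) (Qᴴ N Q)_{aa}`,
`N = B Z^k 𝒰^m A`, and `0` outside the blocks; the series of the diagonal coefficients is
absolutely summable (`StfC561`); regrouping (`tsum_blocks431`, `tsum_sigma_fin431`) and
`tr (Qᴴ N Q) = tr N = ∑_a t b^k l^m`.  Non-vanishing: `sum_atoms_eq_zero431`.
-/

set_option autoImplicit false

open AutomorphicForm IsDedekindDomain NumberField MeasureTheory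
open scoped ComplexConjugate Matrix

noncomputable section

namespace Fermat.Agent.LT.T7.H431

open Fermat.Agent.LT.H556 Fermat.Agent.LT.H556.A0 Fermat.Agent.LT.T7 Fermat.Agent.LT.T7.H561

attribute [local instance] Fermat.Agent.LT.T5.instMeasurableSpaceG

variable {K K' : Type} [Field K] [NumberField K] [Field K'] [NumberField K'] [Algebra K K']

/-- `AgreeOut` is an equivalence relation: two eigen-data which agree with a third one agree. -/
theorem agreeOut_of_agreeOut431 {S : Finset (HeightOneSpectrum (𝓞 K'))} {D D' E : EigData K'}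
    (h1 : D.AgreeOut S E) (h2 : D'.AgreeOut S E) : D.AgreeOut S D' :=
  ⟨fun w hw => ⟨(h1.1 w hw).1.trans (h2.1 w hw).1.symm, (h1.1 w hw).2.trans (h2.1 w hw).2.symm⟩,
    fun w d hd => (h1.2 w d hd).trans (h2.2 w d hd).symm⟩

/-- The eigenvalue of the empty word is `1` (by definition). -/
theorem wordEv_nil431 (D : EigData K') : wordEv ([] : List (Gen K')) D = 1 := rfl

/-- **LEAF T7.L2.2.Z = ASSEMBLY, closed.** -/
theorem asmC431 : AsmC561 K K' := by
  intro hT hB hN hC hA ℓ hcyc hℓ hcplx Φ hΦ hconst Dt hDt hσ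
  classical
  obtain ⟨g, k₀, m₀, hbad, hnv⟩ := hN ℓ hcyc hℓ hcplx Φ hΦ hconst Dt hDt hσ
  obtain ⟨e₀, 𝔅, hBl⟩ := hB ℓ hcyc hℓ hcplx Φ hΦ hconst Dt hDt hσ g hbad
  have hℓpos : 0 < ℓ := hcyc.prime.pos
  have hq1 : (1 : ℝ) ≤ ((Ideal.absNorm (Dt.o 0).asIdeal : ℕ) : ℝ) := by
    have h0 : Ideal.absNorm (Dt.o 0).asIdeal ≠ 0 := by
      rw [Ne, Ideal.absNorm_eq_zero_iff]
      exact (Dt.o 0).ne_bot
    exact_mod_cast Nat.one_le_iff_ne_zero.2 h0
  have hat := fun i => hA (𝔅.n i) ℓ _ (𝔅.A i) (𝔅.B i) (𝔅.S i) (𝔅.ρ i) hℓpos hq1 (hBl.iw i)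
  choose Q t b l hQ ht hreg htr using hat
  have hcd := hDt.comp g hbad
  obtain ⟨e', he', hout, -, hdiag⟩ :=
    hC Dt.s (Dt.𝔑 g) Dt.R'.μ Dt.R'.F Dt.R'.r hcd.frame'.frame hcd.frame'.ray hcd.aut e₀ hBl.onb
      𝔅.ι 𝔅.n 𝔅.idx hBl.inj
      (fun i a => by simpa using (hBl.basis i).orth a a) Q hQ
  -- the diagonal coefficients inside the blocks
  have hD : ∀ X : List (Gen K'), (∀ x ∈ X, x.Out Dt.S') →
      ∀ (k : ℤ) (m : ℕ) (i : 𝔅.ι) (a : Fin (𝔅.n i)),
      T5.diagCoeff Dt.s Dt.R'.μ Dt.R'.F (Dt.φ' g X k m) (e' (𝔅.idx i a))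
        = wordEv X (𝔅.C i) * ((Q i)ᴴ * (𝔅.B i * (𝔅.ρ i 0 * 𝔅.ρ i 0) ^ k
              * (((Real.sqrt ((Ideal.absNorm (Dt.o 0).asIdeal : ℕ) : ℝ) : ℝ) : ℂ)⁻¹
                  • (𝔅.S i 0 * 𝔅.ρ i 0)) ^ m
              * 𝔅.A i) * Q i) a a := by
    intro X hX k m i a
    rw [hdiag _ (hDt.ekprod_up g X k m hbad hX).1 i a, conj_diag_apply431, Finset.mul_sum]
    refine Finset.sum_congr rfl fun b' _ => ?_
    rw [Finset.mul_sum]
    refine Finset.sum_congr rfl fun c _ => ?_
    rw [hBl.coeff X hX k m i b' c]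
    ring
  -- the diagonal coefficients outside the blocks
  have hoff : ∀ X : List (Gen K'), (∀ x ∈ X, x.Out Dt.S') → ∀ (k : ℤ) (m : ℕ) (j : ℕ),
      (∀ (i : 𝔅.ι) (a : Fin (𝔅.n i)), 𝔅.idx i a ≠ j) →
      T5.diagCoeff Dt.s Dt.R'.μ Dt.R'.F (Dt.φ' g X k m) (e' j) = 0 := by
    intro X hX k m j hj
    rw [hout j hj]
    exact hBl.off X hX k m j hj
  -- absolute summability of the diagonal coefficients
  have hsum : ∀ X : List (Gen K'), (∀ x ∈ X, x.Out Dt.S') → ∀ (k : ℤ) (m : ℕ),
      Summable (fun j => T5.diagCoeff Dt.s Dt.R'.μ Dt.R'.F (Dt.φ' g X k m) (e' j)) := by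
    intro X hX k m
    obtain ⟨-, φ₁, φ₂, h1, h2, h3, h4, h5, h6, hφ⟩ := hDt.ekprod_up g X k m hbad hX
    rw [hφ]
    exact (hT (Dt.comp g) hcd Dt.R'.μ Dt.R'.F Dt.R'.r hcd.frame'.frame hcd.frame'.ray hcd.aut
      e' he' φ₁ φ₂ h1 h2 h3 h4 h5 h6).1
  -- the trace on a block
  have htrace : ∀ X : List (Gen K'), (∀ x ∈ X, x.Out Dt.S') → ∀ (k : ℤ) (m : ℕ) (i : 𝔅.ι),
      (∑ a, T5.diagCoeff Dt.s Dt.R'.μ Dt.R'.F (Dt.φ' g X k m) (e' (𝔅.idx i a)))
        = ∑ a, wordEv X (𝔅.C i) * t i a * b i a ^ k * l i a ^ m := by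
    intro X hX k m i
    rw [Finset.sum_congr rfl fun a _ => hD X hX k m i a, ← Finset.mul_sum]
    have h1 := trace_conj_unitary431 (Q i) (𝔅.B i * (𝔅.ρ i 0 * 𝔅.ρ i 0) ^ k
              * (((Real.sqrt ((Ideal.absNorm (Dt.o 0).asIdeal : ℕ) : ℝ) : ℝ) : ℂ)⁻¹
                  • (𝔅.S i 0 * 𝔅.ρ i 0)) ^ m
              * 𝔅.A i) (hQ i)
    rw [htr i k m] at h1
    rw [Matrix.trace] at h1
    simp only [Matrix.diag_apply] at h1
    rw [h1, Finset.mul_sum]
    refine Finset.sum_congr rfl fun a _ => ?_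
    ring
  -- summability of the coefficients of the atoms
  have hy : Summable (fun p : Σ i, Fin (𝔅.n i) => ‖t p.1 p.2‖) := by
    have h0 := (tsum_blocks431 𝔅.n 𝔅.idx hBl.inj _ (hsum [] (by simp) 0 0)
      (hoff [] (by simp) 0 0)).1
    have h1 := summable_norm_iff.2 h0
    refine Summable.of_nonneg_of_le (fun p => norm_nonneg _) (fun p => ?_) h1
    rcases ht p.1 p.2 with h | h
    · rw [h, norm_zero]
      exact norm_nonneg _
    · rw [h, hD [] (by simp) 0 0 p.1 p.2, wordEv_nil431]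
      simp
  -- summability of the atoms
  have hatoms : ∀ X : List (Gen K'), (∀ x ∈ X, x.Out Dt.S') → ∀ (k : ℤ) (m : ℕ),
      Summable (fun p : Σ i, Fin (𝔅.n i) =>
        wordEv X (𝔅.C p.1) * t p.1 p.2 * b p.1 p.2 ^ k * l p.1 p.2 ^ m) := by
    intro X hX k m
    refine Summable.of_norm_bounded
      (g := fun p : Σ i, Fin (𝔅.n i) => (wordBd X
        * Real.sqrt ((Ideal.absNorm (Dt.o 0).asIdeal : ℕ) : ℝ) ^ m) * ‖t p.1 p.2‖)
      (hy.mul_left _) fun p => ?_
    have h1 := norm_wordEv_le (hBl.unitary p.1) X hX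
    obtain ⟨hb1, hl1, -⟩ := hreg p.1 p.2
    rw [norm_mul, norm_mul, norm_mul, norm_zpow, hb1, one_zpow, mul_one, norm_pow]
    have h2 : ‖l p.1 p.2‖ ^ m ≤ Real.sqrt ((Ideal.absNorm (Dt.o 0).asIdeal : ℕ) : ℝ) ^ m :=
      pow_le_pow_left₀ (norm_nonneg _) hl1 m
    calc ‖wordEv X (𝔅.C p.1)‖ * ‖t p.1 p.2‖ * ‖l p.1 p.2‖ ^ m
        ≤ wordBd X * ‖t p.1 p.2‖ * Real.sqrt ((Ideal.absNorm (Dt.o 0).asIdeal : ℕ) : ℝ) ^ m :=
          mul_le_mul (mul_le_mul_of_nonneg_right h1 (norm_nonneg _)) h2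
            (pow_nonneg (norm_nonneg _) m) (mul_nonneg (wordBd_nonneg X) (norm_nonneg _))
      _ = _ := by ring
  -- the identity
  have hid : ∀ X : List (Gen K'), (∀ x ∈ X, x.Out Dt.S') → ∀ (k : ℤ) (m : ℕ),
      specSide Dt.s Dt.R' e' (Dt.φ' g X k m)
        = ∑' p : Σ i, Fin (𝔅.n i),
            wordEv X (𝔅.C p.1) * t p.1 p.2 * b p.1 p.2 ^ k * l p.1 p.2 ^ m := by
    intro X hX k m
    have h1 := (tsum_blocks431 𝔅.n 𝔅.idx hBl.inj _ (hsum X hX k m) (hoff X hX k m)).2
    rw [tsum_sigma_fin431 𝔅.n _ (hatoms X hX k m)]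
    show (∑' j, T5.diagCoeff Dt.s Dt.R'.μ Dt.R'.F (Dt.φ' g X k m) (e' j)) = _
    rw [h1]
    exact tsum_congr fun i => htrace X hX k m i
  -- non-vanishing
  obtain ⟨i₀, hi₀⟩ := hBl.phi
  have hne : ∃ b₀ l₀ : ℂ,
      (∑' j : {j : {j : Σ i, Fin (𝔅.n i) // b j.1 j.2 = b₀ ∧ l j.1 j.2 = l₀} //
          (𝔅.C j.1.1).AgreeOut Dt.S' (eigOf Φ)}, t j.1.1.1 j.1.1.2) ≠ 0 := by
    by_contra hcon
    push Not at hcon
    have hz : ∀ b₀ l₀ : ℂ, (∑ a, if b i₀ a = b₀ ∧ l i₀ a = l₀ then t i₀ a else 0) = 0 := by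
      intro b₀ l₀
      have h1 := hcon b₀ l₀
      have h2 := tsum_nested_subtype431 (fun p : Σ i, Fin (𝔅.n i) => t p.1 p.2)
        (fun p => b p.1 p.2 = b₀ ∧ l p.1 p.2 = l₀)
        (fun p => (𝔅.C p.1).AgreeOut Dt.S' (eigOf Φ))
      have h3 := tsum_sigma_fibre431 𝔅.n
        (fun p : Σ i, Fin (𝔅.n i) =>
          Set.indicator {p : Σ i, Fin (𝔅.n i) | (b p.1 p.2 = b₀ ∧ l p.1 p.2 = l₀) ∧
            (𝔅.C p.1).AgreeOut Dt.S' (eigOf Φ)} (fun p : Σ i, Fin (𝔅.n i) => t p.1 p.2) p) i₀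
        (by
          intro p hp
          apply Set.indicator_of_notMem
          rintro ⟨-, h4⟩
          exact hp (hBl.distinct _ _ (agreeOut_of_agreeOut431 h4 hi₀)))
      have h5 : (∑ a, if b i₀ a = b₀ ∧ l i₀ a = l₀ then t i₀ a else 0)
          = ∑ a : Fin (𝔅.n i₀), Set.indicator {p : Σ i, Fin (𝔅.n i) |
              (b p.1 p.2 = b₀ ∧ l p.1 p.2 = l₀) ∧ (𝔅.C p.1).AgreeOut Dt.S' (eigOf Φ)}
              (fun p : Σ i, Fin (𝔅.n i) => t p.1 p.2) ⟨i₀, a⟩ := by
        refine Finset.sum_congr rfl fun a _ => ?_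
        by_cases h : b i₀ a = b₀ ∧ l i₀ a = l₀
        · rw [if_pos h, Set.indicator_of_mem]
          exact ⟨h, hi₀⟩
        · rw [if_neg h, Set.indicator_of_notMem]
          exact fun h' => h h'.1
      rw [h5, ← h3, ← h2]
      exact h1
    have h0 := sum_atoms_eq_zero431 (t i₀) (b i₀) (l i₀) k₀ m₀ hz
    rw [← htr i₀ k₀ m₀] at h0
    apply hnv (𝔅.C i₀) (𝔅.n i₀) (fun a => e₀ (𝔅.idx i₀ a)) hi₀ (hBl.basis i₀)
    rw [← h0, Matrix.trace]
    refine Finset.sum_congr rfl fun a _ => ?_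
    rw [hBl.coeff [] (by simp) k₀ m₀ i₀ a a, wordEv_nil431]
    simp
  exact ⟨g, e', Σ i, Fin (𝔅.n i), fun p => 𝔅.C p.1, fun p => b p.1 p.2, fun p => l p.1 p.2,
    Real.sqrt ((Ideal.absNorm (Dt.o 0).asIdeal : ℕ) : ℝ), fun p => t p.1 p.2, hbad, he', hy,
    fun p => hBl.unitary p.1, fun p => hreg p.1 p.2, fun X hX k m _ => hid X hX k m, hne⟩

end Fermat.Agent.LT.T7.H431

end

end
-- ===== PACK-END LT/T7/H431/Asm.lean

-- ===== PACK-BEGIN LT/T7/H49/IwRel.lean
section



/-!
# Row LT, tower T7: the quadratic relation of the Iwahori--Hecke algebra, adelic form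
# (helper49, OFF-MAIN)

`w` a finite place of the number field `K`.  An EXPLICIT system `Hs` of representatives of
`I s I / I` at `w` (`IsSSys49`: `q = N w` elements supported at `w` with components
`[[a, 1], [1, 0]]`, `a` integral, pairwise inequivalent modulo the Iwahori subgroup on the
right) is a complete system of representatives of the residue field (`IsSSys49.complete`,
`IsSSys49.unique`), and on the functions which are right invariant under the Iwahori subgroup
at `w`

    S (S ψ) = (q - 1) S ψ + q ψ,        S = cosetOp Hs            (`sRel49`).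

Complete proofs, nothing assumed; on the assets IW-KIT of helper83 and `LT/H129` of helper129.
-/

set_option autoImplicit false
set_option linter.unusedSectionVars false
set_option linter.unusedSimpArgs false
set_option linter.unusedVariables false
set_option linter.style.haveILetI false

open Matrix
open IsDedekindDomain NumberField IsDedekindDomain.HeightOneSpectrum
open Fermat.Agent.LT.H556 Fermat.Agent.LT.H556.A0 Fermat.Agent.LT.H129
open Fermat.Agent.LT.T7 Fermat.Agent.LT.T7.H83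

noncomputable section

namespace Fermat.Agent.LT.T7.H49

section Local

variable {F : Type*} [Field F] {val : Valuation F (WithZero (Multiplicative ℤ))}

/-- `(n(a) s)⁻¹ n(b) s = [[1, 0], [b - a, 1]]`. -/
theorem coe_sL_inv_mul49 (a b : F) :
    (((sL49 a)⁻¹ * sL49 b : GL (Fin 2) F) : Matrix (Fin 2) (Fin 2) F)
      = !![1, 0; b - a, 1] := by
  rw [sL_inv49, Matrix.GeneralLinearGroup.coe_mul, Matrix.GeneralLinearGroup.coe_mul,
    coe_mkGL129, coe_sL49, coe_sL49]
  ext i j
  fin_cases i <;> fin_cases j <;> simp [Matrix.mul_apply, Fin.sum_univ_two] <;> ring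

/-- `n(a) s` and `n(b) s` are equivalent modulo `I` if `a ≡ b`. -/
theorem iwL_sL_inv_sL49 {a b : F} (h : val (b - a) < 1) :
    IwL val ((sL49 a)⁻¹ * sL49 b) := by
  refine ⟨fun i j => ?_, ?_, ?_⟩
  · rw [coe_sL_inv_mul49]
    fin_cases i <;> fin_cases j
    · simp
    · simp
    · simpa using h.le
    · simp
  · rw [coe_sL_inv_mul49, Matrix.det_fin_two_of]
    simp
  · rw [coe_sL_inv_mul49]
    simpa using h

end Local

section Adelic

variable {K : Type} [Field K] [NumberField K] (w : HeightOneSpectrum (𝓞 K))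

/-- An explicit system of representatives of `I s I / I` at `w`. -/
structure IsSSys49 (Hs : Finset (G K)) : Prop where
  card : Hs.card = Ideal.absNorm w.asIdeal
  loc : ∀ h ∈ Hs, IsLocalAtFin w h
  comp : ∀ h ∈ Hs, ∃ a : w.adicCompletion K,
    a ∈ w.adicCompletionIntegers K ∧ finComp w h = !![a, 1; 1, 0]
  inj : ∀ h ∈ Hs, ∀ h' ∈ Hs, h ≠ h' → ¬ T5.InIwahori w (h⁻¹ * h')

/-- The upper left entry of the component at `w`. -/
def ent49 (h : G K) : w.adicCompletion K := finComp w h 0 0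

variable {w}

theorem IsSSys49.val_le {Hs : Finset (G K)} (hH : IsSSys49 w Hs) {h : G K} (hh : h ∈ Hs) :
    Valued.v (ent49 w h) ≤ 1 := by
  obtain ⟨a, ha, hc⟩ := hH.comp h hh
  have e : ent49 w h = a := by
    unfold ent49
    rw [hc]
    simp
  rw [e]
  exact (mem_adicCompletionIntegers _ _ _).1 ha

theorem IsSSys49.finCompHom_eq {Hs : Finset (G K)} (hH : IsSSys49 w Hs) {h : G K}
    (hh : h ∈ Hs) : finCompHom129 w h = sL49 (ent49 w h) := by
  obtain ⟨a, ha, hc⟩ := hH.comp h hh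
  have e : ent49 w h = a := by
    unfold ent49
    rw [hc]
    simp
  apply ext_mat129
  rw [coe_finCompHom129, hc, e, coe_sL49]

/-- Two members with congruent entries are equal. -/
theorem IsSSys49.unique {Hs : Finset (G K)} (hH : IsSSys49 w Hs) {h h' : G K}
    (hh : h ∈ Hs) (hh' : h' ∈ Hs) (hv : Valued.v (ent49 w h' - ent49 w h) < 1) : h = h' := by
  by_contra hne
  apply hH.inj h hh h' hh' hne
  rw [inIwahori_iff83, map_mul, map_inv, hH.finCompHom_eq hh, hH.finCompHom_eq hh']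
  exact iwL_sL_inv_sL49 hv

/-- **The entries are a complete system of representatives of the residue field.** -/
theorem IsSSys49.complete {Hs : Finset (G K)} (hH : IsSSys49 w Hs) {x : w.adicCompletion K}
    (hx : Valued.v x ≤ 1) : ∃ h ∈ Hs, Valued.v (x - ent49 w h) < 1 := by
  classical
  haveI : Finite (𝓞 K ⧸ w.asIdeal) := finite_quot83 w
  letI : Fintype (𝓞 K ⧸ w.asIdeal) := Fintype.ofFinite _
  -- the class of a member
  have hex : ∀ h : G K, ∃ c : 𝓞 K ⧸ w.asIdeal,
      h ∈ Hs → Valued.v (ent49 w h - rep129 w c) < 1 := by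
    intro h
    by_cases hh : h ∈ Hs
    · obtain ⟨c, hc⟩ := exists_rep83 w (hH.val_le hh)
      exact ⟨c, fun _ => hc⟩
    · exact ⟨0, fun h' => absurd h' hh⟩
  choose f hf using hex
  have hinj : Set.InjOn f (Hs : Set (G K)) := by
    intro h hh h' hh' e
    have h1 := hf h hh
    have h2 := hf h' hh'
    rw [← e] at h2
    apply hH.unique hh hh'
    have e3 : ent49 w h' - ent49 w h
        = (ent49 w h' - rep129 w (f h)) - (ent49 w h - rep129 w (f h)) := by ring
    rw [e3]
    exact val_sub_lt_one83 h2 h1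
  have hcard : (Hs.image f).card = Fintype.card (𝓞 K ⧸ w.asIdeal) := by
    rw [Finset.card_image_of_injOn hinj, hH.card, ← Nat.card_eq_fintype_card,
      Ideal.absNorm_apply, Submodule.cardQuot_apply]
  have huniv : Hs.image f = Finset.univ := Finset.eq_univ_of_card _ hcard
  obtain ⟨c, hc⟩ := exists_rep83 w hx
  have hmem : c ∈ Hs.image f := by
    rw [huniv]
    exact Finset.mem_univ c
  obtain ⟨h, hh, rfl⟩ := Finset.mem_image.1 hmem
  refine ⟨h, hh, ?_⟩
  have e3 : x - ent49 w h = (x - rep129 w (f h)) - (ent49 w h - rep129 w (f h)) := by ring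
  rw [e3]
  exact val_sub_lt_one83 hc (hf h hh)

/-- **`S² = (q - 1) S + q`** on the functions which are Iwahori invariant at `w`. -/
theorem sRel49 {Hs : Finset (G K)} (hH : IsSSys49 w Hs) {ψ : G K → ℂ} (hψ : IsIwInvAt w ψ)
    (x : G K) :
    cosetOp Hs (cosetOp Hs ψ) x
      = (((Ideal.absNorm w.asIdeal : ℕ) : ℂ) - 1) * cosetOp Hs ψ x
        + ((Ideal.absNorm w.asIdeal : ℕ) : ℂ) * ψ x := by
  classical
  -- the member of the class `0`
  obtain ⟨h₀, hh₀, hv₀⟩ := hH.complete (x := 0) (by rw [map_zero]; exact zero_le_one)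
  have hv₀' : Valued.v (ent49 w h₀) < 1 := by
    rw [zero_sub, Valuation.map_neg] at hv₀
    exact hv₀
  -- the term `h' = h₀`
  have hA : ∀ h ∈ Hs, ψ (x * h * h₀) = ψ x := by
    intro h hh
    rw [mul_assoc]
    apply hψ (h * h₀) (isLocalAtFin_mul129 (hH.loc h hh) (hH.loc h₀ hh₀))
    rw [inIwahori_iff83, map_mul, hH.finCompHom_eq hh, hH.finCompHom_eq hh₀]
    exact iwL_sL_mul49 (hH.val_le hh) hv₀'
  -- the terms `h' ≠ h₀`
  have hB : ∀ h' ∈ Hs, h' ≠ h₀ → ∑ h ∈ Hs, ψ (x * h * h') = ∑ h ∈ Hs, ψ (x * h) := by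
    intro h' hh' hne
    have hv' : Valued.v (ent49 w h') = 1 := by
      rcases lt_or_eq_of_le (hH.val_le hh') with hlt | heq
      · exfalso
        apply hne
        exact (hH.unique hh₀ hh' (val_sub_lt_one83 hlt hv₀')).symm
      · exact heq
    have hinv : Valued.v (ent49 w h')⁻¹ = 1 := by rw [map_inv₀, hv', inv_one]
    have hex : ∀ h : G K, ∃ t : G K, h ∈ Hs →
        t ∈ Hs ∧ Valued.v (ent49 w h + (ent49 w h')⁻¹ - ent49 w t) < 1 := by
      intro h
      by_cases hh : h ∈ Hs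
      · obtain ⟨t, ht, hvt⟩ := hH.complete
          (x := ent49 w h + (ent49 w h')⁻¹) (val_add_le_one83 (hH.val_le hh) hinv.le)
        exact ⟨t, fun _ => ⟨ht, hvt⟩⟩
      · exact ⟨h, fun h'' => absurd h'' hh⟩
    choose τ hτ using hex
    have hτinj : Set.InjOn τ (Hs : Set (G K)) := by
      intro h₁ hh₁ h₂ hh₂ e
      have h1 := (hτ h₁ hh₁).2
      have h2 := (hτ h₂ hh₂).2
      rw [← e] at h2
      apply hH.unique hh₁ hh₂
      have e3 : ent49 w h₂ - ent49 w h₁
          = (ent49 w h₂ + (ent49 w h')⁻¹ - ent49 w (τ h₁))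
            - (ent49 w h₁ + (ent49 w h')⁻¹ - ent49 w (τ h₁)) := by ring
      rw [e3]
      exact val_sub_lt_one83 h2 h1
    have himg : Hs.image τ = Hs := by
      apply Finset.eq_of_subset_of_card_le
      · intro t ht
        obtain ⟨h, hh, rfl⟩ := Finset.mem_image.1 ht
        exact (hτ h hh).1
      · rw [Finset.card_image_of_injOn hτinj]
    have hterm : ∀ h ∈ Hs, ψ (x * h * h') = ψ (x * τ h) := by
      intro h hh
      have e : x * h * h' = x * τ h * ((τ h)⁻¹ * (h * h')) := by group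
      rw [e]
      apply hψ ((τ h)⁻¹ * (h * h'))
        (isLocalAtFin_mul129 (isLocalAtFin_inv129 (hH.loc _ (hτ h hh).1))
          (isLocalAtFin_mul129 (hH.loc h hh) (hH.loc h' hh')))
      rw [inIwahori_iff83, map_mul, map_inv, map_mul, hH.finCompHom_eq hh,
        hH.finCompHom_eq hh', hH.finCompHom_eq (hτ h hh).1]
      apply iwL_sL_inv_mul49 hv'
      have e3 : ent49 w (τ h) - ent49 w h - (ent49 w h')⁻¹
          = -(ent49 w h + (ent49 w h')⁻¹ - ent49 w (τ h)) := by ring
      rw [e3, Valuation.map_neg]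
      exact (hτ h hh).2
    rw [Finset.sum_congr rfl hterm]
    conv_rhs => rw [← himg]
    rw [Finset.sum_image hτinj]
  -- the count
  have hq : 1 ≤ Hs.card := Finset.card_pos.2 ⟨h₀, hh₀⟩
  unfold cosetOp
  rw [Finset.sum_comm, ← Finset.add_sum_erase Hs _ hh₀]
  have h1 : ∑ h ∈ Hs, ψ (x * h * h₀) = ((Ideal.absNorm w.asIdeal : ℕ) : ℂ) * ψ x := by
    rw [Finset.sum_congr rfl hA, Finset.sum_const, hH.card, nsmul_eq_mul]
  have h2 : ∑ h' ∈ Hs.erase h₀, ∑ h ∈ Hs, ψ (x * h * h')
      = (((Ideal.absNorm w.asIdeal : ℕ) : ℂ) - 1) * ∑ h ∈ Hs, ψ (x * h) := by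
    rw [Finset.sum_congr rfl (fun h' hh' =>
      hB h' (Finset.mem_of_mem_erase hh') (Finset.ne_of_mem_erase hh')),
      Finset.sum_const, Finset.card_erase_of_mem hh₀, hH.card, nsmul_eq_mul]
    rw [Nat.cast_sub (by rw [← hH.card]; exact hq), Nat.cast_one]
  rw [h1, h2]
  ring

end Adelic

end Fermat.Agent.LT.T7.H49

end

end
-- ===== PACK-END LT/T7/H49/IwRel.lean

-- ===== PACK-BEGIN LT/T7/H510/IwSys.lean
section



/-!
# Row LT, tower T7, leaf T7.L2.3.2 `SD534.IwSysC` (registry 2122) — helper510, OFF-MAIN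

    iwSysC_h510 (K) : Fermat.Agent.LT.T7.SD534.IwSysC K

verbatim against `LT/T7/H534/SpecDownSpec.lean` (helper534@756e78a11, sha256 3f1c4f48) and
`LT/T7/Level2.lean` (15516646); toolbox `LT/H129/HeckeExists.lean` (helper129, 283484f0:
`locFin129`, `rep129`, `stdHecke129`, `exists_scalarUniformizer129`).

At a finite place `u` with uniformiser `π` the `q = N u` elements
`h_a = [[π, a], [0, 1]]` (`a` a system of representatives of `𝒪/u`; at the place `u`, `1`
elsewhere) form an Iwahori coset system: `h_a = n(a) · diag(π, 1) · 1` lies in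
`I diag(π, 1) I`, and `h_a⁻¹ h_b = n((b - a)/π)` is not integral for `a ≠ b`.
-/

set_option autoImplicit false
set_option linter.style.haveILetI false

open AutomorphicForm IsDedekindDomain NumberField MeasureTheory

noncomputable section

namespace Fermat.Agent.LT.T7.H510

open Fermat.Agent.LT.H556 Fermat.Agent.LT.H556.A0 Fermat.Agent.LT.H129 Fermat.Agent.LT

variable {K : Type} [Field K] [NumberField K] (v : HeightOneSpectrum (𝓞 K))

/-- The identity lies in the Iwahori subgroup. -/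
theorem inIwahori_one_h510 : T5.InIwahori v (1 : G K) := by
  have h1 : finComp v (1 : G K) = 1 := by
    rw [← coe_finCompHom129, map_one]
    rfl
  have hint : IsIntegralAt v (1 : G K) := by
    rw [← isInt129_finCompHom_iff, map_one]
    exact isInt129_one _
  refine ⟨hint, ?_, ?_⟩
  · rw [inv_one]
    exact hint
  · rw [h1, Matrix.one_apply_ne (by decide), map_zero]
    exact zero_lt_one

/-- The upper unipotent element with an integral entry lies in the Iwahori subgroup. -/
theorem inIwahori_upper_h510 {a : v.adicCompletion K} (ha : a ∈ v.adicCompletionIntegers K) :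
    T5.InIwahori v (locFin129 v (upperU129 a)) := by
  have hm := isMaxCpt129_upperU (O := v.adicCompletionIntegers K) ha
  refine ⟨?_, ?_, ?_⟩
  · rw [← isInt129_finCompHom_iff, finCompHom129_locFin129]
    exact hm.1
  · rw [← isInt129_finCompHom_iff, map_inv, finCompHom129_locFin129]
    exact hm.2
  · rw [finComp_locFin129]
    have h0 : ((upperU129 a : GL (Fin 2) (v.adicCompletion K)) :
        Matrix (Fin 2) (Fin 2) (v.adicCompletion K)) 1 0 = 0 := by
      unfold upperU129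
      rw [coe_mkGL129]
      rfl
    rw [h0, map_zero]
    exact zero_lt_one

/-- `[[π, a], [0, 1]] = n(a) diag(π, 1)`. -/
theorem mkGL_eq_upper_mul_h510 {F : Type*} [Field F] (π a : F) (hπ : π ≠ 0) :
    mkGL129 π a 0 1 (by simpa using hπ)
      = upperU129 a * mkGL129 π 0 0 1 (by simpa using hπ) := by
  apply ext_mat129
  unfold upperU129
  rw [Matrix.GeneralLinearGroup.coe_mul, coe_mkGL129, coe_mkGL129, coe_mkGL129]
  ext i j
  fin_cases i <;> fin_cases j <;> simp [Matrix.mul_apply, Fin.sum_univ_two]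

/-- The standard representatives lie in `I diag(π, 1) I`. -/
theorem inIwahoriCoset_std_h510 {π : v.adicCompletion K}
    (hπ : Valued.v π = WithZero.exp (-1 : ℤ)) (c : 𝓞 K ⧸ v.asIdeal) :
    T5.InIwahoriCoset v 1 (stdHecke129 v π (unif_ne_zero129 v hπ) (some c)) := by
  have hπ0 := unif_ne_zero129 v hπ
  refine ⟨locFin129 v (upperU129 (rep129 v c)),
    1, locFin129 v (mkGL129 π 0 0 1 (by simpa using hπ0)), π,
    inIwahori_upper_h510 v (rep129_mem v c), inIwahori_one_h510 v, ?_, ?_, ?_⟩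
  · rw [hπ]
    rfl
  · rw [finComp_locFin129, coe_mkGL129]
  · rw [mul_one, ← map_mul, ← mkGL_eq_upper_mul_h510 π (rep129 v c) hπ0]
    rfl

variable (K)

/-- **SD.2**: Iwahori coset systems and scalar uniformisers exist at every finite place. -/
theorem iwSysC_h510 : SD534.IwSysC K := by
  classical
  intro u
  refine ⟨?_, exists_scalarUniformizer129 u⟩
  obtain ⟨π, hπ⟩ := exists_unif129 u
  haveI : Finite (𝓞 K ⧸ u.asIdeal) := by
    apply Nat.finite_of_card_ne_zero
    rw [← Submodule.cardQuot_apply, ← Ideal.absNorm_apply]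
    exact ne_of_gt (lt_trans Nat.zero_lt_one (NumberField.HeightOneSpectrum.one_lt_absNorm u))
  letI : Fintype (𝓞 K ⧸ u.asIdeal) := Fintype.ofFinite _
  have hne : ∀ a b : 𝓞 K ⧸ u.asIdeal, a ≠ b →
      ¬ IsIntegralAt u ((stdHecke129 u π (unif_ne_zero129 u hπ) (some a))⁻¹
        * stdHecke129 u π (unif_ne_zero129 u hπ) (some b)) :=
    fun a b hab => stdHecke129_not_int u hπ (fun e => hab (Option.some.inj e))
  have hinj : Function.Injective
      (fun a : 𝓞 K ⧸ u.asIdeal => stdHecke129 u π (unif_ne_zero129 u hπ) (some a)) := by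
    intro a b hab
    by_contra hcon
    apply hne a b hcon
    have hab' : stdHecke129 u π (unif_ne_zero129 u hπ) (some a)
        = stdHecke129 u π (unif_ne_zero129 u hπ) (some b) := hab
    rw [hab', inv_mul_cancel]
    exact (inIwahori_one_h510 u).1
  refine ⟨Finset.univ.image
    (fun a : 𝓞 K ⧸ u.asIdeal => stdHecke129 u π (unif_ne_zero129 u hπ) (some a)), ?_, ?_, ?_⟩
  · rw [Finset.card_image_of_injective _ hinj, Finset.card_univ, Ideal.absNorm_apply,
      Submodule.cardQuot_apply, Nat.card_eq_fintype_card]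
  · intro h hh
    obtain ⟨a, -, rfl⟩ := Finset.mem_image.mp hh
    exact ⟨(stdHecke129_props u hπ (some a)).1, inIwahoriCoset_std_h510 u hπ a⟩
  · intro h hh h' hh' hneq hI
    obtain ⟨a, -, rfl⟩ := Finset.mem_image.mp hh
    obtain ⟨b, -, rfl⟩ := Finset.mem_image.mp hh'
    exact hne a b (fun e => hneq (by rw [e])) hI.1

end Fermat.Agent.LT.T7.H510

end

end
-- ===== PACK-END LT/T7/H510/IwSys.lean

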