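import Mathlib
import Fermat.Agent.Pack.LT3.E21L3
import Fermat.Agent.Pack.LT3.E16L2
import Fermat.Agent.Pack.LT3.E21L2
import Fermat.Agent.Pack.LT2.E6L1
import Fermat.Agent.Pack.LT2.E7L2
import Fermat.Agent.Pack.LT3.E22L0
import Fermat.Agent.Pack.LT2.E10L0
import Fermat.Agent.Pack.LT3.E21L1
import Fermat.Agent.Pack.LT3.E22L3
import Fermat.Agent.Pack.LT2.E0L2
import Fermat.Agent.Pack.LT2.E2L1
import Fermat.Agent.Pack.LT2.E3L1
import Fermat.Agent.Pack.LT3.E21L0
import Fermat.Agent.Pack.LT3.E22L1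
import Fermat.Agent.Pack.LT3.E1L3
import Fermat.Agent.Pack.LT3.E10L3
import Fermat.Agent.Pack.LT3.E22L2
import Fermat.Agent.Pack.LT2.E16L2
import Fermat.Agent.Pack.LT3.E6L3
import Fermat.Agent.Pack.LT3.E4L2
import Fermat.Agent.Pack.LT3.E1L2
import Fermat.Agent.Pack.LT2.E4L2

set_option linter.all false

-- ===== PACK-BEGIN LT/T6/H855/HypIwa.lean
section




/-!
# Row LT, tower T6, T6.25 = T6.20d (helper855): THE EXPLICIT CONSTANT

OFF-MAIN.  `hypIwaC855 : H820.HypIwaC820` (VERBATIM, UNCONDITIONAL: the Iwasawa identities are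
hypotheses of the statement): for ALL constants `c`, `c'` of the two Iwasawa formulas,
`c' / (8 π c)` is a matching constant on `{disc > 0}`.  With the adapter of helper820:
`hypExplC_of_iwasawa855 : IwasawaRC → U2HaarC → IwasawaCC → H634.HypExplC634`.
-/

set_option autoImplicit false

open scoped Matrix ENNReal
open MeasureTheory

noncomputable section

namespace Fermat.Agent.LT.T6.H855

open Fermat.Agent.LT.T6

section Iwa

local instance borelGLR6_855 : MeasurableSpace (GL (Fin 2) ℝ) := borel _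
local instance borelSpaceGLR6_855 : BorelSpace (GL (Fin 2) ℝ) := ⟨rfl⟩
local instance borelGLC6_855 : MeasurableSpace (GL (Fin 2) ℂ) := borel _
local instance borelSpaceGLC6_855 : BorelSpace (GL (Fin 2) ℂ) := ⟨rfl⟩
local instance borelT6_855 (γ : GL (Fin 2) ℝ) :
    MeasurableSpace (twCentSub (MonoidHom.id (GL (Fin 2) ℝ)) γ) := borel _
local instance borelSpaceT6_855 (γ : GL (Fin 2) ℝ) :
    BorelSpace (twCentSub (MonoidHom.id (GL (Fin 2) ℝ)) γ) := ⟨rfl⟩

/-- **T6.20d with the explicit constant** (= `H820.HypIwaC820`, VERBATIM). -/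
theorem hypIwaC855 : H820.HypIwaC820 := by
  intro μ κ μ' hμ hμ' hκ c c' hc0 hctop hc'0 hc'top hcμ hc'μ
  have : μ.IsHaarMeasure := hμ
  have : μ'.IsHaarMeasure := hμ'
  have hcpos : 0 < c.toReal := ENNReal.toReal_pos hc0 hctop
  have hc'pos : 0 < c'.toReal := ENNReal.toReal_pos hc'0 hc'top
  intro n hn φ f₀ f₁ hφ hf₀ hf₁ hA γ _ hdisc μT hμT β hβ hβ0 hβ1
  have hodd : Odd n := by
    rcases hn with h | h
    · rw [h]; exact odd_one
    · rw [h]; exact Odd.neg odd_one
  obtain ⟨g, a, b, hab, hγ⟩ := exists_diag855 γ hdisc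
  subst hγ
  have : μT.IsHaarMeasure := hμT
  obtain ⟨cT, hcT0, hcT⟩ := exists_torusConst855 g a b hab μT
  -- the function `f₀ + f₁`
  have hfc : Continuous (fun x => f₀ x + f₁ x) := hf₀.cont.add hf₁.cont
  have hfs : HasCompactSupport (fun x => f₀ x + f₁ x) := hf₀.supp.add hf₁.supp
  have hfk : ∀ k x : GL (Fin 2) ℝ, InSO2 k →
      (fun x => f₀ x + f₁ x) (k⁻¹ * x * k) = (fun x => f₀ x + f₁ x) x := by
    intro k x hk
    simp only
    rw [conj_inv_of_weight855 0 f₀ hf₀.left hf₀.right hk,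
      conj_inv_of_weight855 n f₁ hf₁.left hf₁.right hk]
  have hO := orbR855 μ c hctop hcμ g a b hab μT cT hcT (fun x => f₀ x + f₁ x) hfc hfs hfk
    β hβ hβ0 hβ1
  have hsplit : ∫ v : ℝ, (fun x => f₀ x + f₁ x) (dgU855 a b * nU855 v)
      = (∫ v : ℝ, f₀ (dgU855 a b * nU855 v)) + ∫ v : ℝ, f₁ (dgU855 a b * nU855 v) :=
    integral_add (integrable_abel855 volume f₀ hf₀.cont hf₀.supp _)
      (integrable_abel855 volume f₁ hf₁.cont hf₁.supp _)
  rw [hsplit] at hO
  constructor
  · -- matching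
    intro δ hδ β' hβ' hβ'0 hβ'1
    have hδ₀ : twNorm (starRingAut : ℂ ≃+* ℂ) 2 ((iotaC855 g)⁻¹ * δ * iotaC855 g)
        = iotaC855 (dgU855 a b) := by
      rw [twNorm_two855] at hδ ⊢
      rw [map_mul, map_mul, map_inv, glAut_iota855]
      calc (iotaC855 g)⁻¹ * δ * iotaC855 g
            * ((iotaC855 g)⁻¹ * glAut (starRingAut : ℂ ≃+* ℂ) δ * iotaC855 g)
          = (iotaC855 g)⁻¹ * (δ * glAut (starRingAut : ℂ ≃+* ℂ) δ) * iotaC855 g := by group
        _ = (iotaC855 g)⁻¹ * iotaC855 (g * dgU855 a b * g⁻¹) * iotaC855 g := by rw [hδ]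
        _ = iotaC855 (dgU855 a b) := by
            rw [map_mul, map_mul, map_inv]
            group
    obtain ⟨d₁, d₂, hdd, hd₁, hd₂⟩ := delta_diag855 a b hab _ hδ₀
    have hδeq : δ = iotaC855 g * dgU855 d₁ d₂ * (iotaC855 g)⁻¹ := by
      rw [← hdd]
      group
    have ha : 0 < (a : ℝ) := by
      have h1 : (0 : ℝ) ≤ (a : ℝ) := by rw [← hd₁]; exact Complex.normSq_nonneg _
      exact lt_of_le_of_ne h1 (Ne.symm a.ne_zero)
    have hb : 0 < (b : ℝ) := by
      have h1 : (0 : ℝ) ≤ (b : ℝ) := by rw [← hd₂]; exact Complex.normSq_nonneg _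
      exact lt_of_le_of_ne h1 (Ne.symm b.ne_zero)
    obtain ⟨s, t, hsa, htb, hA₀, hA₁⟩ := abelRel_apply855 _ φ f₀ f₁ hA a b ha hb
    have hTO := orbC855 μ' c' hc'top κ hκ hc'μ g a b hab μT cT hcT φ hφ.cont hφ.supp
      hφ.left hφ.right d₁ d₂ hd₁ hd₂ s t hsa htb β' hβ' hβ'0 hβ'1
    rw [← hδeq] at hTO
    refine hO.trans (Eq.trans ?_ hTO.symm)
    rw [hA₀, hA₁]
    push_cast
    have hπ : (Real.pi : ℂ) ≠ 0 := by exact_mod_cast Real.pi_ne_zero
    have hc1 : ((c.toReal : ℝ) : ℂ) ≠ 0 := by exact_mod_cast hcpos.ne'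
    field_simp
    ring
  · -- non-norms
    intro hnn
    rcases lt_or_gt_of_ne (a.ne_zero) with ha | ha
    · rcases lt_or_gt_of_ne (b.ne_zero) with hb | hb
      · -- both eigenvalues negative
        have ha' : 0 < ((-a : ℝˣ) : ℝ) := by simpa using ha
        have hb' : 0 < ((-b : ℝˣ) : ℝ) := by simpa using hb
        obtain ⟨s, t, -, -, hA₀, hA₁⟩ := abelRel_apply855 _ φ f₀ f₁ hA (-a) (-b) ha' hb'
        have hneg : dgU855 a b = negOne855 * dgU855 (-a) (-b) := by
          rw [negOne_mul_dgU855]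
          simp
        have h0 : ∀ v : ℝ, f₀ (dgU855 a b * nU855 v) = f₀ (dgU855 (-a) (-b) * nU855 v) := by
          intro v
          rw [hneg, mul_assoc, even_of_weight_zero855 f₀ hf₀.left]
        have h1 : ∀ v : ℝ, f₁ (dgU855 a b * nU855 v) = -f₁ (dgU855 (-a) (-b) * nU855 v) := by
          intro v
          rw [hneg, mul_assoc, odd_of_weight_odd855 n hodd f₁ hf₁.left]
        simp_rw [h0, h1] at hO
        rw [integral_neg, hA₀, hA₁] at hO
        rw [hO]
        ring
      · -- determinant negative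
        have hdet : (a : ℝ) * (b : ℝ) < 0 := mul_neg_of_neg_of_pos ha hb
        refine (integral_congr_ae (Filter.Eventually.of_forall (fun x => ?_))).trans
          (integral_zero _ _)
        have hz : ∀ f : GL (Fin 2) ℝ → ℂ,
            (∀ y : GL (Fin 2) ℝ, f y ≠ 0 → 0 < (y : Matrix (Fin 2) (Fin 2) ℝ).det) →
            f (x⁻¹ * (g * dgU855 a b * g⁻¹) * x) = 0 := by
          intro f hpos
          by_contra hne
          have := hpos _ hne
          rw [det_conj855, det_conj_dgU855] at this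
          linarith
        simp only [hz f₀ hf₀.pos, hz f₁ hf₁.pos, add_zero, zero_mul]
    · rcases lt_or_gt_of_ne (b.ne_zero) with hb | hb
      · -- determinant negative
        have hdet : (a : ℝ) * (b : ℝ) < 0 := mul_neg_of_pos_of_neg ha hb
        refine (integral_congr_ae (Filter.Eventually.of_forall (fun x => ?_))).trans
          (integral_zero _ _)
        have hz : ∀ f : GL (Fin 2) ℝ → ℂ,
            (∀ y : GL (Fin 2) ℝ, f y ≠ 0 → 0 < (y : Matrix (Fin 2) (Fin 2) ℝ).det) →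
            f (x⁻¹ * (g * dgU855 a b * g⁻¹) * x) = 0 := by
          intro f hpos
          by_contra hne
          have := hpos _ hne
          rw [det_conj855, det_conj_dgU855] at this
          linarith
        simp only [hz f₀ hf₀.pos, hz f₁ hf₁.pos, add_zero, zero_mul]
      · -- both eigenvalues positive: a norm
        exact absurd (isNormFrom_of_pos855 g a b ha hb) hnn


/-- **`H634.HypExplC634` (VERBATIM)** from the Iwasawa integration formulas of T6.23. -/
theorem hypExplC_of_iwasawa855 (hR : H189.IwasawaRC) (hU : H189.U2HaarC)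
    (hC : H189.IwasawaCC) : H634.HypExplC634 :=
  H820.hypExpl_of_iwa820 hR hU hC hypIwaC855

end Iwa

end Fermat.Agent.LT.T6.H855

end

end
-- ===== PACK-END LT/T6/H855/HypIwa.lean

-- ===== PACK-BEGIN LT/T6/H888/DbSmooth0.lean
section



/-!
# Row LT, tower T6, leaf T6.22.B.1 `DbSmoothC683` (helper888, spare): weight `0`

`b0_main888`: for a `C²` jet `(F, F', F'')` on `(0, ∞)` and all `t`, `U ≥ 0`,
`∫ F(ρ(t, U, φ)) dφ = ∫ F(ρ(t, 0, φ)) dφ + gL888 0 (q ↦ ∫ (L F)(ρ(t, q, φ)) dφ) U`.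
-/

set_option autoImplicit false

open MeasureTheory Set

noncomputable section

namespace Fermat.Agent.LT.T6.H888

open Fermat.Agent.LT.T6.H683

/-- The algebraic identity (weight `0`); cofactors by polynomial division. -/
theorem b0_alg888 (C S c sn a b F1 F2 : ℝ) (h1 : S ^ 2 = C ^ 2 - 1) (h2 : sn ^ 2 = 1 - c ^ 2)
    (h4 : b ^ 2 = a ^ 2 - 1) :
    S * (F2 * (a * S + b * C * c) * (a * S + b * C * c) + F1 * (a * C + b * S * c))
      + C * (F1 * (a * S + b * C * c))
    = S * (((a * C + b * S * c) ^ 2 - 1) * F2 + (2 * (a * C + b * S * c)) * F1)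
      + (F2 * (-(b * S * sn)) * (b * sn) + F1 * (b * c)) := by
  linear_combination ((-1)*F1*b*c + F2*S*a^2 + (-1)*F2*S*b^2*c^2) * h1 + (F2*S*b^2) * h2
    + (F2*S) * h4

/-- The integrand. -/
def b0h888 (F : ℝ → ℝ) (t u φ : ℝ) : ℂ := ((F (rho888 t u φ) : ℝ) : ℂ)

/-- First `u`-derivative. -/
def b0h1_888 (F' : ℝ → ℝ) (t u φ : ℝ) : ℂ :=
  ((F' (rho888 t u φ) * rhoU888 t u φ : ℝ) : ℂ)

/-- Second `u`-derivative. -/
def b0h2_888 (F' F'' : ℝ → ℝ) (t u φ : ℝ) : ℂ :=
  ((F'' (rho888 t u φ) * rhoU888 t u φ * rhoU888 t u φ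
    + F' (rho888 t u φ) * rho888 t u φ : ℝ) : ℂ)

/-- The right-hand side. -/
def b0k888 (F' F'' : ℝ → ℝ) (t u φ : ℝ) : ℂ := ((lop683 0 F' F'' (rho888 t u φ) : ℝ) : ℂ)

/-- The `φ`-potential. -/
def b0Psi888 (F' : ℝ → ℝ) (t u φ : ℝ) : ℂ :=
  ((F' (rho888 t u φ) * (Real.sinh t * Real.sin φ) : ℝ) : ℂ)

/-- Its `φ`-derivative. -/
def b0Psi'888 (F' F'' : ℝ → ℝ) (t u φ : ℝ) : ℂ :=
  ((F'' (rho888 t u φ) * rhoP888 t u φ * (Real.sinh t * Real.sin φ)
    + F' (rho888 t u φ) * (Real.sinh t * Real.cos φ) : ℝ) : ℂ)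

section
variable {F F' F'' : ℝ → ℝ} (hF : ∀ x : ℝ, 0 < x → HasDerivAt F (F' x) x)
  (hF' : ∀ x : ℝ, 0 < x → HasDerivAt F' (F'' x) x) (hF'' : ContinuousOn F'' (Ioi 0))
include hF

theorem b0h_hasDerivAt888 (t u φ : ℝ) :
    HasDerivAt (fun u => b0h888 F t u φ) (b0h1_888 F' t u φ) u :=
  ((hF _ (rho_pos888 t u φ)).comp u (rho_hasDerivAt888 t u φ)).ofReal_comp

theorem b0h_cont888 (t : ℝ) : Continuous (Function.uncurry (b0h888 F t)) := by
  have : Function.uncurry (b0h888 F t)
      = fun p : ℝ × ℝ => ((F (rho888 t p.1 p.2) : ℝ) : ℂ) := by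
    funext ⟨u, φ⟩; rfl
  rw [this]
  exact Complex.continuous_ofReal.comp (comp_rho_cont888 (contOn_of_hasDerivAt888 hF) t)

omit hF
include hF'

theorem b0h1_hasDerivAt888 (t u φ : ℝ) :
    HasDerivAt (fun u => b0h1_888 F' t u φ) (b0h2_888 F' F'' t u φ) u :=
  (((hF' _ (rho_pos888 t u φ)).comp u (rho_hasDerivAt888 t u φ)).mul
    (rhoU_hasDerivAt888 t u φ)).ofReal_comp

theorem b0Psi_hasDerivAt888 (t u φ : ℝ) :
    HasDerivAt (fun φ => b0Psi888 F' t u φ) (b0Psi'888 F' F'' t u φ) φ :=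
  (((hF' _ (rho_pos888 t u φ)).comp φ (rho_hasDerivAt_phi888 t u φ)).mul
    ((Real.hasDerivAt_sin φ).const_mul (Real.sinh t))).ofReal_comp

theorem b0h1_cont888 (t : ℝ) : Continuous (Function.uncurry (b0h1_888 F' t)) := by
  have : Function.uncurry (b0h1_888 F' t)
      = fun p : ℝ × ℝ => ((F' (rho888 t p.1 p.2) * rhoU888 t p.1 p.2 : ℝ) : ℂ) := by
    funext ⟨u, φ⟩; rfl
  rw [this]
  exact Complex.continuous_ofReal.comp
    ((comp_rho_cont888 (contOn_of_hasDerivAt888 hF') t).mul (rhoU_cont888 t))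

include hF''

theorem b0h2_cont888 (t : ℝ) : Continuous (Function.uncurry (b0h2_888 F' F'' t)) := by
  have : Function.uncurry (b0h2_888 F' F'' t)
      = fun p : ℝ × ℝ => ((F'' (rho888 t p.1 p.2) * rhoU888 t p.1 p.2 * rhoU888 t p.1 p.2
          + F' (rho888 t p.1 p.2) * rho888 t p.1 p.2 : ℝ) : ℂ) := by
    funext ⟨u, φ⟩; rfl
  rw [this]
  exact Complex.continuous_ofReal.comp
    ((((comp_rho_cont888 hF'' t).mul (rhoU_cont888 t)).mul (rhoU_cont888 t)).add
      ((comp_rho_cont888 (contOn_of_hasDerivAt888 hF') t).mul (rho_cont888 t)))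

theorem b0k_cont888 (t : ℝ) : Continuous (Function.uncurry (b0k888 F' F'' t)) := by
  have : Function.uncurry (b0k888 F' F'' t)
      = fun p : ℝ × ℝ => (((rho888 t p.1 p.2 ^ 2 - 1) * F'' (rho888 t p.1 p.2)
          + (2 * rho888 t p.1 p.2) * F' (rho888 t p.1 p.2) : ℝ) : ℂ) := by
    funext ⟨u, φ⟩
    simp [b0k888, lop683]
  rw [this]
  exact Complex.continuous_ofReal.comp
    (((((rho_cont888 t).pow 2).sub continuous_const).mul (comp_rho_cont888 hF'' t)).add
      ((continuous_const.mul (rho_cont888 t)).mul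
        (comp_rho_cont888 (contOn_of_hasDerivAt888 hF') t)))

theorem b0Psi'_cont888 (t u : ℝ) : Continuous (b0Psi'888 F' F'' t u) := by
  have c1 := comp_rho_cont_phi888 hF'' t u
  have c2 := comp_rho_cont_phi888 (contOn_of_hasDerivAt888 hF') t u
  have c3 : Continuous (fun φ : ℝ => rhoP888 t u φ) := by unfold rhoP888; fun_prop
  unfold b0Psi'888
  exact Complex.continuous_ofReal.comp
    (((c1.mul c3).mul (continuous_const.mul Real.continuous_sin)).add
      (c2.mul (continuous_const.mul Real.continuous_cos)))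

omit hF' hF''

theorem b0_id888 (t u φ : ℝ) :
    ((wtA888 0 u : ℝ) : ℂ) * b0h2_888 F' F'' t u φ + ((wtA'888 0 u : ℝ) : ℂ) * b0h1_888 F' t u φ
      = ((wtA888 0 u : ℝ) : ℂ) * b0k888 F' F'' t u φ + b0Psi'888 F' F'' t u φ := by
  have hA : wtA888 0 u = Real.sinh u := by simp [wtA888]
  have hA' : wtA'888 0 u = Real.cosh u := by simp [wtA'888]
  have r1 : Real.sinh u ^ 2 = Real.cosh u ^ 2 - 1 := by have := Real.cosh_sq u; linarith
  have r2 : Real.sin φ ^ 2 = 1 - Real.cos φ ^ 2 := by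
    have := Real.sin_sq_add_cos_sq φ; linarith
  have r4 : Real.sinh t ^ 2 = Real.cosh t ^ 2 - 1 := by have := Real.cosh_sq t; linarith
  have key := b0_alg888 (Real.cosh u) (Real.sinh u) (Real.cos φ) (Real.sin φ) (Real.cosh t)
    (Real.sinh t) (F' (rho888 t u φ)) (F'' (rho888 t u φ)) r1 r2 r4
  unfold b0h2_888 b0h1_888 b0k888 b0Psi'888
  rw [hA, hA']
  have e : lop683 0 F' F'' (rho888 t u φ)
      = (rho888 t u φ ^ 2 - 1) * F'' (rho888 t u φ)
        + (2 * rho888 t u φ) * F' (rho888 t u φ) := by simp [lop683]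
  rw [e]
  have key' : Real.sinh u * (F'' (rho888 t u φ) * rhoU888 t u φ * rhoU888 t u φ
        + F' (rho888 t u φ) * rho888 t u φ)
      + Real.cosh u * (F' (rho888 t u φ) * rhoU888 t u φ)
      = Real.sinh u * ((rho888 t u φ ^ 2 - 1) * F'' (rho888 t u φ)
        + (2 * rho888 t u φ) * F' (rho888 t u φ))
        + (F'' (rho888 t u φ) * rhoP888 t u φ * (Real.sinh t * Real.sin φ)
          + F' (rho888 t u φ) * (Real.sinh t * Real.cos φ)) := by
    have e1 : rho888 t u φ
        = Real.cosh t * Real.cosh u + Real.sinh t * Real.sinh u * Real.cos φ := rfl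
    have e2 : rhoU888 t u φ
        = Real.cosh t * Real.sinh u + Real.sinh t * Real.cosh u * Real.cos φ := rfl
    have e3 : rhoP888 t u φ = -(Real.sinh t * Real.sinh u * Real.sin φ) := rfl
    generalize F' (rho888 t u φ) = F1 at key ⊢
    generalize F'' (rho888 t u φ) = F2 at key ⊢
    rw [e1, e2, e3]
    linear_combination key
  exact_mod_cast key'

include hF hF' hF''

/-- **The averaged identity, weight `0`.** -/
theorem b0_main888 (t U : ℝ) (hU : 0 ≤ U) :
    (∫ φ in (0:ℝ)..(2 * Real.pi), b0h888 F t U φ)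
      = (∫ φ in (0:ℝ)..(2 * Real.pi), b0h888 F t 0 φ)
        + gL888 0 (fun q => ∫ φ in (0:ℝ)..(2 * Real.pi), b0k888 F' F'' t q φ) U := by
  have hper : ∀ u, b0Psi888 F' t u (2 * Real.pi) = b0Psi888 F' t u 0 := by
    intro u; simp [b0Psi888]
  exact avg_volterra888 0 (h := b0h888 F t) (h1 := b0h1_888 F' t) (h2 := b0h2_888 F' F'' t)
    (k := b0k888 F' F'' t) (Ψ := b0Psi888 F' t) (Ψ' := b0Psi'888 F' F'' t)
    (b0h_hasDerivAt888 hF t) (b0h1_hasDerivAt888 hF' t) (b0h_cont888 hF t)
    (b0h1_cont888 hF' t) (b0h2_cont888 hF' hF'' t) (b0k_cont888 hF' hF'' t)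
    (b0Psi_hasDerivAt888 hF' t) (b0Psi'_cont888 hF' hF'' t) hper (b0_id888 t) U hU

end

end Fermat.Agent.LT.T6.H888

end

end
-- ===== PACK-END LT/T6/H888/DbSmooth0.lean

-- ===== PACK-BEGIN LT/T7/H128/CuspForm.lean
section






/-!
# Row LT, tower T7, leaf T7.L2.3.5.1 `SD534.CuspFormC` (helper128, SPARE of row 2179)

OFF-MAIN.  `cuspFormC128 K : Fermat.Agent.LT.T7.SD534.CuspFormC K`, VERBATIM, unconditional,
every number field `K`.

* linearity, hermitian symmetry, positivity: bounded continuous functions on a finite measure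
  space;
* definiteness: `{f ≠ 0}` is open and invariant under `Γ = GL₂(K) × ℤ` (`(γ, m) • g = γ g rᵐ`),
  `F` is a fundamental domain of `Γ` (`existsUnique_tile128`), so `μ {f ≠ 0} = 0` and `f = 0`;
* linearity of the convolution: a test function is continuous with compact support.
-/

set_option autoImplicit false

open IsDedekindDomain NumberField MeasureTheory
open scoped ComplexConjugate Pointwise
open Fermat.Agent.LT.H556.A0 Fermat.Agent.LT.T5 Fermat.Agent.LT.T5.H277

noncomputable section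

namespace Fermat.Agent.LT.T7.H128

variable {K : Type} [Field K] [NumberField K]

attribute [local instance] Fermat.Agent.LT.T5.instMeasurableSpaceG

/-- The product `f · conj f'` of two bounded continuous functions is integrable on the frame. -/
theorem integrable_mul_conj128 {μ : Measure (G K)} {F : Set (G K)} (hF : IsFrame μ F)
    {f f' : G K → ℂ} (hf : Continuous f) (hf' : Continuous f')
    (hb : ∃ C : ℝ, ∀ g : G K, ‖f g‖ ≤ C) (hb' : ∃ C : ℝ, ∀ g : G K, ‖f' g‖ ≤ C) :
    Integrable (fun x => f x * conj (f' x)) (μ.restrict F) := by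
  have hB : BorelSpace (G K) := borelSpaceG277
  have hfin : IsFiniteMeasure (μ.restrict F) := ⟨by simpa using hF.finite⟩
  obtain ⟨C, hC⟩ := hb
  obtain ⟨C', hC'⟩ := hb'
  refine Integrable.of_bound
    (hf.mul (Complex.continuous_conj.comp hf')).aestronglyMeasurable (C * C')
    (Filter.Eventually.of_forall fun x => ?_)
  rw [norm_mul, RCLike.norm_conj]
  exact mul_le_mul (hC x) (hC' x) (norm_nonneg _) ((norm_nonneg _).trans (hC x))

/-- A continuous function, invariant under `GL₂(K)` on the left and under `r` on the right,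
which vanishes almost everywhere on the frame, vanishes everywhere. -/
theorem eq_zero_of_ae_frame128 {μ : Measure (G K)} {F : Set (G K)} {r : G K}
    (hF : IsFrame μ F) (hr : IsRayGen r) {f : G K → ℂ} (hf : Continuous f)
    (hleft : ∀ (γ : GL (Fin 2) K) (g : G K), f (ratG γ * g) = f g)
    (hright : ∀ g : G K, f (g * r) = f g)
    (h0 : μ ({x | f x ≠ 0} ∩ F) = 0) : f = 0 := by
  have hN : T1.AdNormC K := Fermat.Agent.LT.T1.H309.adNormC309 K
  have hB : BorelSpace (G K) := borelSpaceG277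
  have hH := hF.haar
  let act : MulAction (GL (Fin 2) K × Multiplicative ℤ) (G K) := tileAct128 r
  have hsmul : ∀ (i : GL (Fin 2) K × Multiplicative ℤ) (g : G K),
      i • g = ratG i.1 * g * r ^ (Multiplicative.toAdd i.2) := fun _ _ => rfl
  have hcount : Countable (GL (Fin 2) K × Multiplicative ℤ) := by
    have := countable_GL277 K
    infer_instance
  have hcont : ∀ i : GL (Fin 2) K × Multiplicative ℤ, Continuous fun g : G K => i • g := by
    intro i
    simp only [hsmul]
    exact (continuous_const.mul continuous_id).mul continuous_const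
  have hmeasSMul : MeasurableConstSMul (GL (Fin 2) K × Multiplicative ℤ) (G K) :=
    ⟨fun i => (hcont i).measurable⟩
  have hinv : SMulInvariantMeasure (GL (Fin 2) K × Multiplicative ℤ) (G K) μ := by
    refine ⟨fun i A hA => ?_⟩
    have e : (fun g : G K => i • g) ⁻¹' A
        = (fun g : G K => ratG i.1 * g) ⁻¹'
            ((fun g : G K => g * r ^ (Multiplicative.toAdd i.2)) ⁻¹' A) := by
      ext g
      simp only [Set.mem_preimage, hsmul]
    rw [e]
    rw [measure_preimage_mul μ (ratG i.1)]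
    exact hF.right_inv _ A hA
  have hFD : IsFundamentalDomain (GL (Fin 2) K × Multiplicative ℤ) F μ :=
    IsFundamentalDomain.mk' hF.meas.nullMeasurableSet
      (fun x => existsUnique_tile128 hN hF hr x)
  have hfi : ∀ (i : GL (Fin 2) K × Multiplicative ℤ) (x : G K), f (i • x) = f x := by
    intro i x
    rw [hsmul, inv_zpow128 hright, hleft]
  have hinvset : ∀ i : GL (Fin 2) K × Multiplicative ℤ, i • {x | f x ≠ 0} = {x | f x ≠ 0} := by
    intro i
    ext y
    constructor
    · rintro ⟨x, hx, rfl⟩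
      show f (i • x) ≠ 0
      rw [hfi]
      exact hx
    · intro hy
      refine ⟨i⁻¹ • y, ?_, smul_inv_smul i y⟩
      show f (i⁻¹ • y) ≠ 0
      rw [hfi]
      exact hy
  have hμ0 : μ {x | f x ≠ 0} = 0 := hFD.measure_zero_of_invariant _ hinvset h0
  have hopen : IsOpen {x | f x ≠ 0} := isOpen_ne_fun hf continuous_const
  funext x
  by_contra hx
  have hne : ({x | f x ≠ 0} : Set (G K)).Nonempty := ⟨x, hx⟩
  exact (hopen.measure_pos μ hne).ne' hμ0

variable (K)

/-- **T7.L2.3.5.1.**  `SD534.CuspFormC K`. -/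
theorem cuspFormC128 : Fermat.Agent.LT.T7.SD534.CuspFormC K := by
  intro μ F r 𝔫 _ hF hr
  have hB : BorelSpace (G K) := borelSpaceG277
  have hH := hF.haar
  have hfin : IsFiniteMeasure (μ.restrict F) := ⟨by simpa using hF.finite⟩
  have hI : ∀ f f' : G K → ℂ, T5.IsCuspFn 𝔫 T5.trivType r f → T5.IsCuspFn 𝔫 T5.trivType r f' →
      Integrable (fun x => f x * conj (f' x)) (μ.restrict F) :=
    fun f f' hf hf' => integrable_mul_conj128 hF hf.cont hf'.cont hf.bdd hf'.bdd
  refine ⟨?_, ?_, ?_, ?_, ?_, ?_, ?_⟩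
  · -- add_left
    intro f f' f'' hf hf' hf''
    unfold T5.innerD
    rw [← integral_add (hI f f'' hf hf'') (hI f' f'' hf' hf'')]
    refine integral_congr_ae (Filter.Eventually.of_forall fun x => ?_)
    simp only [Pi.add_apply]
    ring
  · -- smul_left
    intro a f f' _ _
    unfold T5.innerD
    rw [← integral_const_mul]
    refine integral_congr_ae (Filter.Eventually.of_forall fun x => ?_)
    simp only [Pi.smul_apply, smul_eq_mul]
    ring
  · -- conj_symm
    intro f f' _ _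
    unfold T5.innerD
    rw [← integral_conj]
    refine integral_congr_ae (Filter.Eventually.of_forall fun x => ?_)
    simp only [map_mul, Complex.conj_conj]
    ring
  · -- nonneg
    intro f _
    unfold T5.innerD
    have e : (fun x => f x * conj (f x)) = fun x => ((‖f x‖ ^ 2 : ℝ) : ℂ) := by
      funext x
      rw [RCLike.mul_conj]
      norm_cast
    rw [e]
    have e2 : (∫ x in F, ((‖f x‖ ^ 2 : ℝ) : ℂ) ∂μ) = ((∫ x in F, ‖f x‖ ^ 2 ∂μ : ℝ) : ℂ) :=
      integral_ofReal
    rw [e2, Complex.ofReal_re]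
    exact integral_nonneg fun x => by positivity
  · -- definite
    intro f hf h0
    unfold T5.innerD at h0
    have e : (fun x => f x * conj (f x)) = fun x => ((‖f x‖ ^ 2 : ℝ) : ℂ) := by
      funext x
      rw [RCLike.mul_conj]
      norm_cast
    rw [e] at h0
    have e2 : (∫ x in F, ((‖f x‖ ^ 2 : ℝ) : ℂ) ∂μ) = ((∫ x in F, ‖f x‖ ^ 2 ∂μ : ℝ) : ℂ) :=
      integral_ofReal
    rw [e2] at h0
    have h1 : ∫ x in F, ‖f x‖ ^ 2 ∂μ = 0 := by exact_mod_cast h0
    have hint : Integrable (fun x => ‖f x‖ ^ 2) (μ.restrict F) := by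
      obtain ⟨C, hC⟩ := hf.bdd
      refine Integrable.of_bound (hf.cont.norm.pow 2).aestronglyMeasurable (C ^ 2)
        (Filter.Eventually.of_forall fun x => ?_)
      rw [Real.norm_eq_abs, abs_of_nonneg (by positivity)]
      exact pow_le_pow_left₀ (norm_nonneg _) (hC x) 2
    have h2 := (integral_eq_zero_iff_of_nonneg (fun x => by positivity) hint).1 h1
    have h3 : μ ({x | f x ≠ 0} ∩ F) = 0 := by
      have h4 : (μ.restrict F) {x | f x ≠ 0} = 0 := by
        rw [Filter.EventuallyEq, ae_iff] at h2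
        refine measure_mono_null ?_ h2
        intro x hx
        simp only [Set.mem_ofPred_eq, Pi.zero_apply] at hx ⊢
        intro h5
        exact hx (by simpa using h5)
      rwa [Measure.restrict_apply' hF.meas] at h4
    exact eq_zero_of_ae_frame128 hF hr hf.cont hf.aut.left_inv hf.aut.ray h3
  · -- conv_add
    intro φ f f' hφ hf hf'
    funext x
    unfold T5.Rconv
    have hi : ∀ e : G K → ℂ, Continuous e → Integrable (fun y => φ y * e (x * y)) μ := by
      intro e he
      exact (hφ.cont.mul (he.comp (continuous_const.mul continuous_id))).integrable_of_hasCompactSupport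
        hφ.supp.mul_right
    simp only [Pi.add_apply]
    rw [← integral_add (hi f hf.cont) (hi f' hf'.cont)]
    refine integral_congr_ae (Filter.Eventually.of_forall fun y => ?_)
    simp only
    ring
  · -- conv_smul
    intro φ a f _ _
    funext x
    unfold T5.Rconv
    simp only [Pi.smul_apply, smul_eq_mul]
    rw [← integral_const_mul]
    refine integral_congr_ae (Filter.Eventually.of_forall fun y => ?_)
    simp only
    ring

end Fermat.Agent.LT.T7.H128

end
end
-- ===== PACK-END LT/T7/H128/CuspForm.lean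

-- ===== PACK-BEGIN LT/T7/H131/RconvOps.lean
section




/-
LT tower T7, nodes T7.L2.1.F / T7.L2Q.1.F: GENERAL LEMMAS on the operators of left translates
(one field) -- helper131, OFF-MAIN.

`rcRegL_h131 : R(regL w z H k m phi) psi = shiftOp z k ((iwOp w H)^[m] (R(phi) psi))`,
`rcLsum_h131 : R(lsum H phi) psi = cosetOp H (R(phi) psi)`, continuity and compact support of
`ltr`, `lsum`, `iwL`, `regL`.

This file realises NO equation lemma of a definition of another module (definitions are unfolded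
through the `rfl` lemmas `rc..._apply_h131` below only).
-/

set_option autoImplicit false

open AutomorphicForm IsDedekindDomain NumberField MeasureTheory
open scoped ComplexConjugate

noncomputable section

namespace Fermat.Agent.LT.T7.H131

open Fermat.Agent.LT.H556 Fermat.Agent.LT.H556.A0 Fermat.Agent.LT.T7 Fermat.Agent.LT.T7.H893

attribute [local instance] Fermat.Agent.LT.T5.instMeasurableSpaceG

variable {K : Type} [Field K] [NumberField K]

/-! ## Definitional unfoldings -/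

theorem rcLtr_apply_h131 (b : G K) (φ : G K → ℂ) (y : G K) : ltr b φ y = φ (b⁻¹ * y) := rfl

theorem rcLsum_apply_h131 (H : Finset (G K)) (φ : G K → ℂ) (y : G K) :
    lsum H φ y = ∑ h ∈ H, ltr h φ y := rfl

theorem rcIwL_apply_h131 (w : HeightOneSpectrum (𝓞 K)) (H : Finset (G K)) (φ : G K → ℂ)
    (y : G K) :
    iwL w H φ y = ((Real.sqrt (Ideal.absNorm w.asIdeal : ℝ) : ℝ) : ℂ)⁻¹ * lsum H φ y := rfl

theorem rcRegL_eq_h131 (w : HeightOneSpectrum (𝓞 K)) (z : G K) (H : Finset (G K)) (k : ℤ)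
    (m : ℕ) (φ : G K → ℂ) : regL w z H k m φ = ltr (z ^ k) ((iwL w H)^[m] φ) := rfl

theorem rcRconv_apply_h131 (μ : Measure (G K)) (φ e : G K → ℂ) (x : G K) :
    T5.Rconv μ φ e x = ∫ y, φ y * e (x * y) ∂μ := rfl

theorem rcCosetOp_apply_h131 (H : Finset (G K)) (ψ : G K → ℂ) (x : G K) :
    cosetOp H ψ x = ∑ h ∈ H, ψ (x * h) := rfl

theorem rcIwOp_apply_h131 (w : HeightOneSpectrum (𝓞 K)) (H : Finset (G K)) (ψ : G K → ℂ)
    (x : G K) :
    iwOp w H ψ x = ((Real.sqrt (Ideal.absNorm w.asIdeal : ℝ) : ℝ) : ℂ)⁻¹ * ∑ h ∈ H, ψ (x * h) :=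
  rfl

theorem rcShiftOp_apply_h131 (z : G K) (k : ℤ) (ψ : G K → ℂ) (x : G K) :
    shiftOp z k ψ x = ψ (x * z ^ k) := rfl

/-! ## Regularity of the operations -/

theorem rcContinuous_ltr_h131 (b : G K) {φ : G K → ℂ} (hφ : Continuous φ) :
    Continuous (ltr b φ) :=
  hφ.comp (continuous_const_mul b⁻¹)

theorem rcCompact_ltr_h131 (b : G K) {φ : G K → ℂ} (hφ : HasCompactSupport φ) :
    HasCompactSupport (ltr b φ) :=
  hφ.comp_homeomorph (Homeomorph.mulLeft b⁻¹)

theorem rcContinuous_lsum_h131 (H : Finset (G K)) {φ : G K → ℂ} (hφ : Continuous φ) :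
    Continuous (lsum H φ) := by
  have h : lsum H φ = fun y => ∑ h ∈ H, ltr h φ y := rfl
  rw [h]
  exact continuous_finsetSum _ fun h _ => rcContinuous_ltr_h131 h hφ

theorem rcCompact_lsum_h131 (H : Finset (G K)) {φ : G K → ℂ}
    (hφ : HasCompactSupport φ) : HasCompactSupport (lsum H φ) := by
  classical
  have h : ∀ H : Finset (G K), lsum H φ = ∑ h ∈ H, ltr h φ := by
    intro H
    funext y
    rw [rcLsum_apply_h131, Finset.sum_apply]
  rw [h]
  induction H using Finset.induction_on with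
  | empty =>
    rw [Finset.sum_empty]
    exact HasCompactSupport.zero
  | insert a s ha ih =>
    rw [Finset.sum_insert ha]
    exact (rcCompact_ltr_h131 a hφ).add ih

theorem rcIwL_eq_h131 (w : HeightOneSpectrum (𝓞 K)) (H : Finset (G K)) (φ : G K → ℂ) :
    iwL w H φ = fun y => ((Real.sqrt (Ideal.absNorm w.asIdeal : ℝ) : ℝ) : ℂ)⁻¹ * lsum H φ y :=
  rfl

theorem rcContinuous_iwL_h131 (w : HeightOneSpectrum (𝓞 K)) (H : Finset (G K)) {φ : G K → ℂ}
    (hφ : Continuous φ) : Continuous (iwL w H φ) := by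
  rw [rcIwL_eq_h131]
  exact continuous_const.mul (rcContinuous_lsum_h131 H hφ)

theorem rcCompact_iwL_h131 (w : HeightOneSpectrum (𝓞 K)) (H : Finset (G K))
    {φ : G K → ℂ} (hφ : HasCompactSupport φ) : HasCompactSupport (iwL w H φ) := by
  rw [rcIwL_eq_h131]
  exact (rcCompact_lsum_h131 H hφ).mul_left

theorem rcContinuous_iter_h131 (w : HeightOneSpectrum (𝓞 K)) (H : Finset (G K))
    {φ : G K → ℂ} (hφ : Continuous φ) (m : ℕ) : Continuous ((iwL w H)^[m] φ) := by
  induction m with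
  | zero => exact hφ
  | succ n ih =>
    rw [Function.iterate_succ_apply']
    exact rcContinuous_iwL_h131 w H ih

theorem rcCompact_iter_h131 (w : HeightOneSpectrum (𝓞 K)) (H : Finset (G K))
    {φ : G K → ℂ} (hφ : HasCompactSupport φ) (m : ℕ) :
    HasCompactSupport ((iwL w H)^[m] φ) := by
  induction m with
  | zero => exact hφ
  | succ n ih =>
    rw [Function.iterate_succ_apply']
    exact rcCompact_iwL_h131 w H ih

theorem rcContinuous_regL_h131 (w : HeightOneSpectrum (𝓞 K)) (z : G K) (H : Finset (G K))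
    (k : ℤ) (m : ℕ) {φ : G K → ℂ} (hφ : Continuous φ) : Continuous (regL w z H k m φ) :=
  rcContinuous_ltr_h131 _ (rcContinuous_iter_h131 w H hφ m)

theorem rcCompact_regL_h131 (w : HeightOneSpectrum (𝓞 K)) (z : G K)
    (H : Finset (G K)) (k : ℤ) (m : ℕ) {φ : G K → ℂ} (hφ : HasCompactSupport φ) :
    HasCompactSupport (regL w z H k m φ) :=
  rcCompact_ltr_h131 _ (rcCompact_iter_h131 w H hφ m)

theorem rcRegL_zero_h131 (w : HeightOneSpectrum (𝓞 K)) (z : G K) (H : Finset (G K))
    (φ : G K → ℂ) : regL w z H 0 0 φ = φ := by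
  funext y
  rw [rcRegL_eq_h131, rcLtr_apply_h131, zpow_zero, inv_one, one_mul]
  rfl

/-! ## The operators of the translates -/

variable {μ : Measure (G K)} {F : Set (G K)}

/-- `R(ltr b φ) ψ = (R(φ) ψ)(· b)`. -/
theorem rcLtr_h131 (hF : T5.IsFrame μ F) (b : G K) (φ ψ : G K → ℂ) (x : G K) :
    T5.Rconv μ (ltr b φ) ψ x = T5.Rconv μ φ ψ (x * b) := by
  have : BorelSpace (G K) := T5.H277.borelSpaceG277
  have := hF.haar
  rw [rcRconv_apply_h131, rcRconv_apply_h131]
  have h := integral_mul_left_eq_self (μ := μ) (fun y => φ (b⁻¹ * y) * ψ (x * y)) b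
  have e1 : (fun y => ltr b φ y * ψ (x * y)) = fun y => φ (b⁻¹ * y) * ψ (x * y) := rfl
  rw [e1, ← h]
  congr 1
  funext y
  rw [inv_mul_cancel_left, mul_assoc]

theorem rcIntegrable_h131 (hF : T5.IsFrame μ F) {φ ψ : G K → ℂ} (hφc : Continuous φ)
    (hφs : HasCompactSupport φ) (hψ : Continuous ψ) (x : G K) :
    Integrable (fun y => φ y * ψ (x * y)) μ := by
  have : BorelSpace (G K) := T5.H277.borelSpaceG277
  have := hF.haar
  have hc : Continuous fun y => φ y * ψ (x * y) :=
    hφc.mul (hψ.comp (continuous_const_mul x))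
  exact hc.integrable_of_hasCompactSupport hφs.mul_right

/-- `R(lsum H φ) ψ = cosetOp H (R(φ) ψ)`. -/
theorem rcLsum_h131 (hF : T5.IsFrame μ F) (H : Finset (G K)) {φ ψ : G K → ℂ}
    (hφc : Continuous φ) (hφs : HasCompactSupport φ) (hψ : Continuous ψ) (x : G K) :
    T5.Rconv μ (lsum H φ) ψ x = cosetOp H (T5.Rconv μ φ ψ) x := by
  have : BorelSpace (G K) := T5.H277.borelSpaceG277
  have := hF.haar
  rw [rcCosetOp_apply_h131]
  have h1 : ∀ h ∈ H, T5.Rconv μ φ ψ (x * h) = ∫ y, ltr h φ y * ψ (x * y) ∂μ := by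
    intro h _
    rw [← rcLtr_h131 hF, rcRconv_apply_h131]
  rw [Finset.sum_congr rfl h1, rcRconv_apply_h131, ← integral_finsetSum]
  · congr 1
    funext y
    rw [rcLsum_apply_h131, Finset.sum_mul]
  · intro h _
    exact rcIntegrable_h131 hF (rcContinuous_ltr_h131 h hφc) (rcCompact_ltr_h131 h hφs) hψ x

/-- `R(iwL w H φ) ψ = iwOp w H (R(φ) ψ)`. -/
theorem rcIwL_h131 (hF : T5.IsFrame μ F) (w : HeightOneSpectrum (𝓞 K)) (H : Finset (G K))
    {φ ψ : G K → ℂ} (hφc : Continuous φ) (hφs : HasCompactSupport φ) (hψ : Continuous ψ)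
    (x : G K) :
    T5.Rconv μ (iwL w H φ) ψ x = iwOp w H (T5.Rconv μ φ ψ) x := by
  have h := rcLsum_h131 hF H hφc hφs hψ x
  rw [rcCosetOp_apply_h131] at h
  rw [rcIwOp_apply_h131, ← h, rcRconv_apply_h131, rcRconv_apply_h131, ← integral_const_mul]
  congr 1
  funext y
  rw [rcIwL_apply_h131]
  ring

theorem rcIter_h131 (hF : T5.IsFrame μ F) (w : HeightOneSpectrum (𝓞 K))
    (H : Finset (G K)) {φ ψ : G K → ℂ} (hφc : Continuous φ) (hφs : HasCompactSupport φ)
    (hψ : Continuous ψ) (m : ℕ) :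
    T5.Rconv μ ((iwL w H)^[m] φ) ψ = (iwOp w H)^[m] (T5.Rconv μ φ ψ) := by
  induction m with
  | zero => rfl
  | succ n ih =>
    rw [Function.iterate_succ_apply', Function.iterate_succ_apply', ← ih]
    funext x
    exact rcIwL_h131 hF w H (rcContinuous_iter_h131 w H hφc n)
      (rcCompact_iter_h131 w H hφs n) hψ x

/-- `R(regL w z H k m φ) ψ = shiftOp z k ((iwOp w H)^[m] (R(φ) ψ))`. -/
theorem rcRegL_h131 (hF : T5.IsFrame μ F) (w : HeightOneSpectrum (𝓞 K)) (z : G K)
    (H : Finset (G K)) (k : ℤ) (m : ℕ) {φ ψ : G K → ℂ} (hφc : Continuous φ)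
    (hφs : HasCompactSupport φ) (hψ : Continuous ψ) :
    T5.Rconv μ (regL w z H k m φ) ψ = shiftOp z k ((iwOp w H)^[m] (T5.Rconv μ φ ψ)) := by
  funext x
  rw [rcRegL_eq_h131, rcLtr_h131 hF, rcIter_h131 hF w H hφc hφs hψ]
  rfl

theorem rcIwOp_zero_h131 (w : HeightOneSpectrum (𝓞 K)) (H : Finset (G K)) :
    iwOp w H (0 : G K → ℂ) = 0 := by
  funext x
  rw [rcIwOp_apply_h131]
  have h : ∑ h ∈ H, (0 : G K → ℂ) (x * h) = 0 := Finset.sum_eq_zero fun _ _ => rfl
  rw [h, mul_zero]
  rfl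

theorem rcIwOp_iter_zero_h131 (w : HeightOneSpectrum (𝓞 K)) (H : Finset (G K)) (m : ℕ) :
    (iwOp w H)^[m] (0 : G K → ℂ) = 0 := by
  induction m with
  | zero => rfl
  | succ n ih => rw [Function.iterate_succ_apply', ih, rcIwOp_zero_h131]

theorem rcShiftOp_zero_h131 (z : G K) (k : ℤ) : shiftOp z k (0 : G K → ℂ) = 0 := rfl

theorem rcCosetOp_zero_h131 (H : Finset (G K)) : cosetOp H (0 : G K → ℂ) = 0 := by
  funext x
  rw [rcCosetOp_apply_h131]
  exact Finset.sum_eq_zero fun _ _ => rfl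

theorem rcRconv_zero_h131 (φ : G K → ℂ) : T5.Rconv μ φ (0 : G K → ℂ) = 0 := by
  funext x
  rw [rcRconv_apply_h131]
  have h : (fun y => φ y * (0 : G K → ℂ) (x * y)) = fun _ => (0 : ℂ) := by
    funext y
    exact mul_zero _
  rw [h, integral_zero]
  rfl

theorem rcContinuous_iwOp_h131 (w : HeightOneSpectrum (𝓞 K)) (H : Finset (G K))
    {ψ : G K → ℂ} (hψ : Continuous ψ) : Continuous (iwOp w H ψ) := by
  have h : iwOp w H ψ
      = fun x => ((Real.sqrt (Ideal.absNorm w.asIdeal : ℝ) : ℝ) : ℂ)⁻¹ * ∑ h ∈ H, ψ (x * h) :=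
    rfl
  rw [h]
  exact continuous_const.mul
    (continuous_finsetSum _ fun h _ => hψ.comp (continuous_mul_const h))

theorem rcContinuous_shiftOp_h131 (z : G K) (k : ℤ) {ψ : G K → ℂ} (hψ : Continuous ψ) :
    Continuous (shiftOp z k ψ) :=
  hψ.comp (continuous_mul_const (z ^ k))

end Fermat.Agent.LT.T7.H131

end
end
-- ===== PACK-END LT/T7/H131/RconvOps.lean

-- ===== PACK-BEGIN LT/T7/H16/RegParamLeaves.lean
section






/-!
# Row LT, tower T7, node T7.L2.3 `SpecDownC`: the REG-PARAM leaves of the two cuts, VERBATIM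
(helper16)

OFF-MAIN.  Unconditional.

* `regParamFnC16 K : SD534.RegParamFnC K` -- leaf DB.6 of the cut of helper534
  (`LT/T7/H534/DownBasisSpec.lean`, sha256 b2d5929f);
* `shapeC772_16 K : H772.ShapeC772 K` -- leaf T7.L2.3.B of the cut of helper772
  (`LT/T7/H772/SpecDown.lean`, sha256 5a2e47fe).

Both from `isRegParam_of_eig16'` (`PosDef.lean`) and the closed leaf `T1.AdNormC`
(`adNormC309`, helper309).
-/

set_option autoImplicit false

open IsDedekindDomain NumberField MeasureTheory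

noncomputable section

namespace Fermat.Agent.LT.T7.H16

open Fermat.Agent.LT.H556.A0 Fermat.Agent.LT.T5 Fermat.Agent.LT.T7

attribute [local instance] Fermat.Agent.LT.T5.instMeasurableSpaceG

variable (K : Type) [Field K] [NumberField K]

/-- **Leaf DB.6 `RegParamFnC` of helper534, VERBATIM.** -/
theorem regParamFnC16 : SD534.RegParamFnC K := by
  intro μ F r 𝔫 u H z _ hF hr _ hH hz ψ b l hW hne hZ hU
  refine isRegParam_of_eig16' (T1.H309.adNormC309 (K := K)) hF hr (l := 1) (o := fun _ => u)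
    one_pos hW hne hH hz (fun x => ?_) (fun x => ?_)
  · have := congrFun hU x
    simpa using this
  · have := congrFun hZ x
    simpa using this

/-- **Leaf T7.L2.3.B `ShapeC772` of helper772, VERBATIM.** -/
theorem shapeC772_16 : H772.ShapeC772 K := by
  intro 𝔫 _ R hR u _ H z hH hz β l hJ
  obtain ⟨ψ, hW, hne, hZ, hU⟩ := hJ
  exact isRegParam_of_eig16' (T1.H309.adNormC309 (K := K)) hR.frame hR.ray (l := 1)
    (o := fun _ => u) one_pos hW hne hH hz hU hZ

end Fermat.Agent.LT.T7.H16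

end

end
-- ===== PACK-END LT/T7/H16/RegParamLeaves.lean

-- ===== PACK-BEGIN LT/T7/H175/ArchLeaves.lean
section









/-!
# Row LT, tower T7, leaf `ArchProjC` (cut of helper40), the ADELIC leaves -- PROOFS (helper175)

OFF-MAIN.  The frozen Props of `T7/H40/ArchProjSpec.lean` (sha 34d7f842), proved VERBATIM from the
asset ARCH-PERIOD (`T7/H175/PeriodBasis.lean`, `T7/H175/ArchPeriod.lean`):

* `posFamilyC175    : H40.PosFamilyC K`
* `posScalarC175    : H40.PosScalarC K`
* `unitPeriodsC175  : H40.UnitPeriodsC K`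
* `rayLogC175       : H40.RayLogC K`
* `unitPeriodC175   : H40.UnitPeriodC K`
* `periodFamilyC175 : H40.PeriodFamilyC K`   (the node, by `periodFamilyC_of40`)
-/

set_option autoImplicit false
set_option linter.unusedSectionVars false
set_option linter.style.haveILetI false

open IsDedekindDomain NumberField MeasureTheory Module
open Fermat.Agent.LT.H556.A0 Fermat.Agent.LT Fermat.Agent.LT.T2.H627
open scoped Classical

noncomputable section

namespace Fermat.Agent.LT.T7.H175

variable {K : Type} [Field K] [NumberField K]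

/-- The family of positive scalars of the spec is `aInf175`. -/
theorem isPosFamily_aInf175 : H40.IsPosFamily40 (aInf175 (K := K)) where
  cont := continuous_aInf175
  mul := aInf175_add
  central := aInf175_comm
  fin_triv := fun t v => finComp_aInf175 v t
  inf_comp := fun t w => infComp_aInf175 w t

/-- A family of positive scalars is `aInf175` (extensionality in the local components). -/
theorem posFamily_eq_aInf175 {Z : (InfinitePlace K → ℝ) → G K} (hZ : H40.IsPosFamily40 Z) :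
    Z = aInf175 := by
  funext t
  refine G_ext175 (fun w => ?_) (fun v => ?_)
  · rw [hZ.inf_comp t w, infComp_aInf175]
  · rw [finComp_aInf175]
    exact hZ.fin_triv t v

/-- **LEAF POS-FAMILY.** -/
theorem posFamilyC175 (K : Type) [Field K] [NumberField K] : H40.PosFamilyC K :=
  ⟨aInf175, isPosFamily_aInf175⟩

/-- **LEAF POS-SCALAR.** -/
theorem posScalarC175 (K : Type) [Field K] [NumberField K] : H40.PosScalarC K := by
  intro Z hZ
  rw [posFamily_eq_aInf175 hZ]
  refine ⟨fun w z hz => ?_, fun χ hχ t g => inv_aInf175 hχ t g⟩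
  obtain ⟨t, ht⟩ := eq_aInf175_of_isArchPosScalar hz
  exact ⟨_, ht⟩

/-- **LEAF RAY-LOG.** -/
theorem rayLogC175 (K : Type) [Field K] [NumberField K] : H40.RayLogC K := by
  intro Z hZ r hr
  rw [posFamily_eq_aInf175 hZ]
  obtain ⟨c, hc, hrc⟩ := rayGen_eq_aInf175 hr
  exact ⟨c, hc, hrc.symm⟩

/-- **LEAF UNIT-PERIOD.** -/
theorem unitPeriodC175 (K : Type) [Field K] [NumberField K] : H40.UnitPeriodC K := by
  intro Z hZ 𝔑 r ψ hψ ε hε g
  rw [posFamily_eq_aInf175 hZ]
  exact inv_unit175 hψ hε g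

/-- **LEAF UNIT-PERIODS** (Dirichlet's unit theorem). -/
theorem unitPeriodsC175 (K : Type) [Field K] [NumberField K] : H40.UnitPeriodsC K := by
  intro 𝔑 h𝔑 c hc
  obtain ⟨N, hN, hcong⟩ := exists_pow_congr175 h𝔑
  have hcard : Fintype.card (InfinitePlace K)
      = Fintype.card (Option (Fin (NumberField.Units.rank K))) := by
    rw [card_option_rank175 K, Module.finrank_fintype_fun_eq_card]
  let e : InfinitePlace K ≃ Option (Fin (NumberField.Units.rank K)) :=
    Fintype.equivOfCardEq hcard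
  let B : Basis (InfinitePlace K) ℝ (InfinitePlace K → ℝ) :=
    (periodBasis175 K hc hN).reindex e.symm
  refine ⟨B, B.linearIndependent, fun i => ?_⟩
  have hB : B i = periodVec175 K c N (e i) := by
    show ((periodBasis175 K hc hN).reindex e.symm) i = _
    rw [Basis.reindex_apply, Equiv.symm_symm, periodBasis175_apply]
  rw [hB]
  cases h : e i with
  | none => exact Or.inl rfl
  | some j =>
    refine Or.inr ⟨(NumberField.Units.fundSystem K j) ^ N, hcong _, ?_⟩
    show (N : ℝ) • unitLog175 K (NumberField.Units.fundSystem K j) = _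
    rw [← unitLog175_pow]
    rfl

/-- **NODE PERIOD-FAMILY.** -/
theorem periodFamilyC175 (K : Type) [Field K] [NumberField K] : H40.PeriodFamilyC K :=
  H40.periodFamilyC_of40 (posFamilyC175 K) (posScalarC175 K) (unitPeriodsC175 K)
    (rayLogC175 K) (unitPeriodC175 K)

end Fermat.Agent.LT.T7.H175

end

end
-- ===== PACK-END LT/T7/H175/ArchLeaves.lean

-- ===== PACK-BEGIN LT/T7/H905/RconvFinAvg.lean
section


/-!
# Row LT, tower T7, leaf T7.L2.1.K01 `RconvFinAvgC` (helper905, registry 2195)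

OFF-MAIN.  `rconvFinAvgC905 (K) : H193.RconvFinAvgC K`, VERBATIM vs `T7/H193/KillSpec.lean`
(helper193@4a1c7c2bb, sha256 2cb0a205).  Nothing assumed (`T1.T1Out K` is not used).

`∫ φ(y) e(x y h) dy = ∫ φ(y h⁻¹) e(x y) dy = ∫ φ(y) e(x y) dy` for `h = i u ∈ Rep`
(right invariance of `μ`, right `H`-invariance of `φ`), and linearity of the integral (the
integrands are continuous of compact support).
-/

set_option autoImplicit false

open IsDedekindDomain NumberField MeasureTheory
open scoped ComplexConjugate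

noncomputable section

namespace Fermat.Agent.LT.T7.H905

open Fermat.Agent.LT.H556 Fermat.Agent.LT.H556.A0 Fermat.Agent.LT Fermat.Agent.LT.T7
  Fermat.Agent.LT.T7.H193

attribute [local instance] Fermat.Agent.LT.T5.instMeasurableSpaceG

variable {K : Type} [Field K] [NumberField K]

/-- The Borel σ-algebra of `GL₂(𝔸_K)` is the Borel σ-algebra. -/
theorem borelSpaceG905 : @BorelSpace (G K) _ (T5.instMeasurableSpaceG) := ⟨rfl⟩

/-- One term: `∫ φ(y) e(x y h) dy = ∫ φ(y) e(x y) dy` for `φ` right invariant under `h`. -/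
theorem rconv_translate905 {μ : Measure (G K)} (hinv : ∀ (g : G K) (A : Set (G K)),
      MeasurableSet A → μ ((fun x => x * g) ⁻¹' A) = μ A)
    (φ e : G K → ℂ) (h : G K) (hφ : ∀ y : G K, φ (y * h) = φ y) (x : G K) :
    ∫ y, φ y * e (x * (y * h)) ∂μ = ∫ y, φ y * e (x * y) ∂μ := by
  have : BorelSpace (G K) := borelSpaceG905
  have : μ.IsMulRightInvariant := ⟨fun g => Measure.ext fun A hA => by
    rw [Measure.map_apply (measurable_mul_const g) hA]
    exact hinv g A hA⟩
  have h1 : (fun y : G K => φ y * e (x * (y * h)))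
      = fun y => (fun z : G K => φ z * e (x * z)) (y * h) := by
    funext y
    show φ y * e (x * (y * h)) = φ (y * h) * e (x * (y * h))
    rw [hφ]
  rw [h1]
  exact integral_mul_right_eq_self (fun z : G K => φ z * e (x * z)) h

/-- **T7.L2.1.K01 RCONV-FIN-AVG.** -/
theorem rconvFinAvgC905 (K : Type) [Field K] [NumberField K] : RconvFinAvgC K := by
  intro _ R hR 𝔑 𝔑₀ l o Rep hRep φ hφc hφs hφH e hec x
  have : BorelSpace (G K) := borelSpaceG905
  have : R.μ.IsHaarMeasure := hR.frame.haar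
  have hterm : ∀ h ∈ Rep, ∫ y, φ y * e (x * y * h) ∂(R.μ) = ∫ y, φ y * e (x * y) ∂(R.μ) := by
    intro h hh
    obtain ⟨i, u, hi, hu, rfl⟩ := hRep.mem h hh
    have hφh : ∀ y : G K, φ (y * (i * u)) = φ y := by
      intro y
      rw [← mul_assoc, hφH.1 u hu, hφH.2 i hi]
    simp_rw [mul_assoc x]
    exact rconv_translate905 hR.frame.right_inv φ e (i * u) hφh x
  have hint : ∀ h ∈ Rep, Integrable (fun y : G K => φ y * e (x * y * h)) R.μ := by
    intro h _
    have hc : Continuous (fun y : G K => φ y * e (x * y * h)) :=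
      hφc.mul (hec.comp ((continuous_const.mul continuous_id).mul continuous_const))
    exact hc.integrable_of_hasCompactSupport (hφs.mul_right)
  have hcard : (Rep.card : ℂ) ≠ 0 := by
    exact_mod_cast (Finset.card_pos.mpr hRep.nonempty).ne'
  show ∫ y, φ y * finAvg Rep e (x * y) ∂(R.μ) = ∫ y, φ y * e (x * y) ∂(R.μ)
  have h2 : (fun y : G K => φ y * finAvg Rep e (x * y))
      = fun y => ((Rep.card : ℂ))⁻¹ * ∑ h ∈ Rep, φ y * e (x * y * h) := by
    funext y
    unfold finAvg
    rw [Finset.mul_sum, Finset.mul_sum, Finset.mul_sum]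
    refine Finset.sum_congr rfl fun h _ => ?_
    ring
  rw [h2, integral_const_mul, integral_finsetSum Rep hint, Finset.sum_congr rfl hterm,
    Finset.sum_const, nsmul_eq_mul, ← mul_assoc, inv_mul_cancel₀ hcard, one_mul]

end Fermat.Agent.LT.T7.H905

end
end
-- ===== PACK-END LT/T7/H905/RconvFinAvg.lean

-- ===== PACK-BEGIN LT/T7/H392/NatOp.lean
section



/-!
# Row LT, tower T7, node T7.L2.1 `SupplyC`, sub-station NATURAL, leaf NAT.3 `NatOpC` (helper392)

OFF-MAIN.  `natOpC392 K : T7.H193.NatOpC K` VERBATIM (spec `T7/H193/KillSpec.lean`,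
sha256 2cb0a205bd364545, helper193@4a1c7c2bb, byte-identical copy).

`R(φ♮) e = R(φ) (P_∞ e)` for continuous `e` and `φ` continuous of compact support:
Fubini on `G × D` twice and the right invariance of `μ` under `y ↦ y a(t)`.
-/

set_option autoImplicit false
set_option linter.unusedSectionVars false
set_option linter.style.haveILetI false

open IsDedekindDomain NumberField MeasureTheory
open scoped ComplexConjugate

noncomputable section

namespace Fermat.Agent.LT.T7.H392

open Fermat.Agent.LT.H556 Fermat.Agent.LT.H556.A0 Fermat.Agent.LT Fermat.Agent.LT.T7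
  Fermat.Agent.LT.T7.H193

attribute [local instance] Fermat.Agent.LT.T5.instMeasurableSpaceG

section Abstract

variable {X ι : Type} [TopologicalSpace X] [MeasurableSpace X] [BorelSpace X]
  [SecondCountableTopology X] [T2Space X] [Fintype ι]

/-- Fubini on `X × D` for a jointly continuous function which vanishes, for the parameters of
`D`, outside a fixed compact set of `X`. -/
theorem integral_swap_of_compact392 (μ : Measure X) [IsFiniteMeasureOnCompacts μ] [SFinite μ]
    (D : Set (ι → ℝ)) (hDm : MeasurableSet D) (hDb : Bornology.IsBounded D)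
    (F : X → (ι → ℝ) → ℂ) (hF : Continuous (Function.uncurry F))
    (C : Set X) (hC : IsCompact C) (hzero : ∀ y, y ∉ C → ∀ t ∈ D, F y t = 0) :
    ∫ y, (∫ t in D, F y t) ∂μ = ∫ t in D, (∫ y, F y t ∂μ) := by
  have hT : IsCompact (closure D) := hDb.isCompact_closure
  have hint : Integrable (Function.uncurry F) (μ.prod (volume.restrict D)) := by
    have h1 : μ.prod (volume.restrict D)
        = (μ.prod (volume : Measure (ι → ℝ))).restrict (Set.univ ×ˢ D) := by
      rw [← Measure.prod_restrict, Measure.restrict_univ]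
    rw [h1]
    have h2 : IntegrableOn (Function.uncurry F) (C ×ˢ closure D)
        (μ.prod (volume : Measure (ι → ℝ))) :=
      hF.continuousOn.integrableOn_compact (hC.prod hT)
    refine h2.of_forall_sdiff_eq_zero (MeasurableSet.univ.prod hDm) ?_
    rintro ⟨y, t⟩ ⟨⟨-, ht⟩, hn⟩
    have hy : y ∉ C := fun hy => hn ⟨hy, subset_closure ht⟩
    exact hzero y hy t ht
  exact integral_integral_swap hint

end Abstract

section Main

variable {K : Type} [Field K] [NumberField K]

/-- The change of variables `y ↦ y g` for a right invariant measure. -/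
theorem integral_mul_right392 (μ : Measure (G K))
    (hμ : ∀ (g : G K) (A : Set (G K)), MeasurableSet A → μ ((fun x => x * g) ⁻¹' A) = μ A)
    (g : G K) (f : G K → ℂ) : ∫ y, f (y * g) ∂μ = ∫ y, f y ∂μ := by
  haveI : BorelSpace (G K) := ⟨rfl⟩
  have hmap : Measure.map (Homeomorph.mulRight g).toMeasurableEquiv μ = μ := by
    ext A hA
    rw [MeasurableEquiv.map_apply]
    exact hμ g A hA
  calc ∫ y, f (y * g) ∂μ
      = ∫ y, f ((Homeomorph.mulRight g).toMeasurableEquiv y) ∂μ := rfl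
    _ = ∫ y, f y ∂(Measure.map (Homeomorph.mulRight g).toMeasurableEquiv μ) :=
        (integral_map_equiv _ f).symm
    _ = ∫ y, f y ∂μ := by rw [hmap]

/-- **LEAF NAT.3 = NAT-OP** (`T7.H193.NatOpC`, VERBATIM). -/
theorem natOpC392 (K : Type) [Field K] [NumberField K] : NatOpC K := by
  intro hT1 R hR 𝔑 r a D hD φ hφc hφs e hec x
  obtain ⟨-, hlc, ht2, hsc⟩ := hT1.locComp
  haveI := hlc
  haveI := ht2
  haveI := hsc
  haveI : BorelSpace (G K) := ⟨rfl⟩
  haveI : R.μ.IsHaarMeasure := hR.frame.haar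
  have hri := integral_mul_right392 R.μ hR.frame.right_inv
  have ha : Continuous a := hD.cont
  -- the two functions on `G × D`
  set F₁ : G K → (InfinitePlace K → ℝ) → ℂ := fun y t => φ (y * (a t)⁻¹) * e (x * y) with hF₁
  set F₂ : G K → (InfinitePlace K → ℝ) → ℂ := fun y t => φ y * e (x * y * a t) with hF₂
  have hF₁c : Continuous (Function.uncurry F₁) := by
    have h1 : Continuous fun p : G K × (InfinitePlace K → ℝ) => p.1 * (a p.2)⁻¹ :=
      continuous_fst.mul (ha.comp continuous_snd).inv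
    have h2 : Continuous fun p : G K × (InfinitePlace K → ℝ) => x * p.1 :=
      continuous_const.mul continuous_fst
    exact (hφc.comp h1).mul (hec.comp h2)
  have hF₂c : Continuous (Function.uncurry F₂) := by
    have h2 : Continuous fun p : G K × (InfinitePlace K → ℝ) => x * p.1 * a p.2 :=
      (continuous_const.mul continuous_fst).mul (ha.comp continuous_snd)
    exact (hφc.comp continuous_fst).mul (hec.comp h2)
  -- the compact sets
  have hT : IsCompact (closure D) := hD.bdd.isCompact_closure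
  set C₁ : Set (G K) :=
    (fun p : G K × (InfinitePlace K → ℝ) => p.1 * a p.2) '' (tsupport φ ×ˢ closure D) with hC₁
  have hC₁c : IsCompact C₁ :=
    (hφs.isCompact.prod hT).image (continuous_fst.mul (ha.comp continuous_snd))
  have hz₁ : ∀ y, y ∉ C₁ → ∀ t ∈ D, F₁ y t = 0 := by
    intro y hy t ht
    have h0 : φ (y * (a t)⁻¹) = 0 := by
      by_contra hne
      apply hy
      refine ⟨(y * (a t)⁻¹, t), ⟨subset_tsupport φ hne, subset_closure ht⟩, ?_⟩
      simp
    simp only [hF₁, h0, zero_mul]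
  have hz₂ : ∀ y, y ∉ tsupport φ → ∀ t ∈ D, F₂ y t = 0 := by
    intro y hy t _
    simp only [hF₂, image_eq_zero_of_notMem_tsupport hy, zero_mul]
  have hsw₁ := integral_swap_of_compact392 R.μ D hD.meas hD.bdd F₁ hF₁c C₁ hC₁c hz₁
  have hsw₂ := integral_swap_of_compact392 R.μ D hD.meas hD.bdd F₂ hF₂c (tsupport φ)
    hφs.isCompact hz₂
  -- the change of variables
  have hcv : ∀ t : InfinitePlace K → ℝ, ∫ y, F₁ y t ∂(R.μ) = ∫ y, F₂ y t ∂(R.μ) := by
    intro t
    rw [← hri (a t) (fun y => F₁ y t)]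
    refine integral_congr_ae (Filter.Eventually.of_forall fun y => ?_)
    simp only [hF₁, hF₂, mul_assoc, mul_inv_cancel, mul_one]
  -- assembly
  show ∫ y, nat193 a D φ y * e (x * y) ∂(R.μ) = ∫ y, φ y * torAvg a D e (x * y) ∂(R.μ)
  set c : ℂ := (((volume D).toReal : ℝ) : ℂ)⁻¹ with hc
  have hL : ∀ y : G K, nat193 a D φ y * e (x * y) = c * ∫ t in D, F₁ y t := by
    intro y
    show (c * ∫ t in D, φ (y * (a t)⁻¹)) * e (x * y) = c * ∫ t in D, F₁ y t
    rw [mul_assoc, ← integral_mul_const]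
  have hRr : ∀ y : G K, φ y * torAvg a D e (x * y) = c * ∫ t in D, F₂ y t := by
    intro y
    show φ y * (c * ∫ t in D, e (x * y * a t)) = c * ∫ t in D, F₂ y t
    rw [mul_left_comm, ← integral_const_mul]
  simp only [hL, hRr]
  rw [integral_const_mul, integral_const_mul, hsw₁, hsw₂]
  congr 1
  exact integral_congr_ae (Filter.Eventually.of_forall fun t => hcv t)

end Main

end Fermat.Agent.LT.T7.H392

end
end
-- ===== PACK-END LT/T7/H392/NatOp.lean

-- ===== PACK-BEGIN LT/T7/H269/NatHInv.lean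
section



/-!
# Row LT, tower T7, leaf T7.L2.1.N09 `H193.NatHInvC` (helper269)

OFF-MAIN.  ADDITIVE (new names only, all tagged `269`).  No hole, nothing assumed.
Spec: `LT/T7/H193/KillSpec.lean` (helper193@4a1c7c2bb, sha256 2cb0a205), byte-identical.

    natHInvC269 : H193.NatHInvC K

`φ♮ (g) = vol(D)⁻¹ ∫_D φ(g a(t)⁻¹) dt` is right invariant under `H = I_o · U(𝔑₀)` if `φ` is:
`a t` is central (`IsTorusData.central`), so `φ(y h a(t)⁻¹) = φ(y a(t)⁻¹ h) = φ(y a(t)⁻¹)`
pointwise in `t`.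
-/

set_option autoImplicit false
set_option linter.unusedSectionVars false
set_option linter.unusedVariables false

open IsDedekindDomain NumberField MeasureTheory

noncomputable section

namespace Fermat.Agent.LT.T7.H269

open Fermat.Agent.LT.H556 Fermat.Agent.LT.H556.A0 Fermat.Agent.LT Fermat.Agent.LT.T7.H193

variable {K : Type} [Field K] [NumberField K]

/-- The inverse of a central element commutes with everything. -/
theorem mul_inv_central269 {a : G K} (ha : ∀ g : G K, a * g = g * a) (y h : G K) :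
    y * h * a⁻¹ = y * a⁻¹ * h := by
  have h1 : a⁻¹ * h = h * a⁻¹ := by
    have := ha h
    calc a⁻¹ * h = a⁻¹ * (h * a) * a⁻¹ := by rw [mul_assoc, mul_assoc, mul_inv_cancel, mul_one]
      _ = a⁻¹ * (a * h) * a⁻¹ := by rw [this]
      _ = h * a⁻¹ := by rw [← mul_assoc, inv_mul_cancel, one_mul]
  rw [mul_assoc, ← h1, ← mul_assoc]

/-- `φ♮ (y h) = φ♮ (y)` if `φ (· h) = φ` and the `a t` are central. -/
theorem nat269_right_inv {a : (InfinitePlace K → ℝ) → G K} (D : Set (InfinitePlace K → ℝ))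
    (hc : ∀ (t : InfinitePlace K → ℝ) (g : G K), a t * g = g * a t) (φ : G K → ℂ) (h : G K)
    (hφ : ∀ y : G K, φ (y * h) = φ y) (y : G K) :
    nat193 a D φ (y * h) = nat193 a D φ y := by
  have hfun : (fun t => φ (y * h * (a t)⁻¹)) = fun t => φ (y * (a t)⁻¹) := by
    funext t
    rw [mul_inv_central269 (hc t) y h, hφ]
  unfold nat193
  rw [hfun]

/-- **LEAF T7.L2.1.N09** `H193.NatHInvC K`, verbatim. -/
theorem natHInvC269 (K : Type) [Field K] [NumberField K] : NatHInvC K := by
  intro 𝔑 r a D hD 𝔑₀ l o φ hφ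
  exact ⟨fun u hu y => nat269_right_inv D hD.central φ u (hφ.1 u hu) y,
    fun i hi y => nat269_right_inv D hD.central φ i (hφ.2 i hi) y⟩

/-- Type check against the frozen Prop of the spec. -/
example (K : Type) [Field K] [NumberField K] : Fermat.Agent.LT.T7.H193.NatHInvC K :=
  natHInvC269 K

end Fermat.Agent.LT.T7.H269

end
end
-- ===== PACK-END LT/T7/H269/NatHInv.lean

-- ===== PACK-BEGIN LT/T7/H736/UpS.lean
section





/-!
# Row LT, tower T7, node T7.L2.2 `SpecUpC` (sub-architect helper736): THE NODES OF LEVEL 5 IN CORE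
# FORM (over `K'` alone) AND THE ADAPTER TO THE NODE OF RECORD `T7.SpecUpSC`

OFF-MAIN.  Definitions, frozen Props, PROVED tops.  No hole, nothing assumed.  ADDITIVE (new names
only) to `T7/Level2S.lean` (helper797, 01962048), `T7/H29/UpCore.lean` + `UpCore2.lean` (helper29,
c2d817fc + 5e142413: the core nodes `H29.ExpUpCoreC`, `H29.NonVanCoreC`, ruling of helper797 of
15:58Z) and to my cut `T7/H736/{SpecUp, ExpUp, NonVan}.lean` v0.1.

## What the leaf owners prove (ONE proof serves the cyclic step AND the step `F / ℚ`)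

    StfUC K'        the trace identity of T5 (CLOSED: `(T5.tower_closed s l k 𝔑 τ h𝔑 hcyc).stf`)
    UpBasisUC K'    the adapted sequence with finite blocks, on `H29.UpData`     (NODE, level 5)
    ClassModelUC K' the model of the class space of `Φ`, on `H29.UpData`        (NODE, level 5)

## What is PROVED here

    expUpCoreC_of        : StfUC K' → UpBasisUC K' → H29.ExpUpCoreC K'
    nonVanCoreC_of       : ClassModelUC K' → H29.NonVanCoreC K'
    specUpCoreSC_of_nodes: StfUC K' → UpBasisUC K' → ClassModelUC K' → H29.SpecUpCoreSC K'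
    upBasisC_of_U        : UpBasisUC K' → UpBasisC K K'        (the nodes typed on `L2Data`
    classModelC_of_U     : ClassModelUC K' → ClassModelC K K'   follow from the core forms)
    stfUpC_of_U          : StfUC K' → StfUpC K K'
    specUpSC_of736       : StableAutC K K' → SpecUpCS K K' → T7.SpecUpSC K K'
    specUpSC_of_nodes736 : StableAutC K K' → StfUC K' → UpBasisUC K' → ClassModelUC K'
                             → T7.SpecUpSC K K'                 (THE NODE OF RECORD)

`StableAutC K K'` = "a base level extended from `K` is `σ`-stable" (`IsL2Data` + `IsStable` ⇒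
`BaseStable`): leaf of T1 type, owners helper930 (`RsigL2`) / helper732 / helper812.
-/

set_option autoImplicit false

open AutomorphicForm IsDedekindDomain NumberField MeasureTheory
open scoped ComplexConjugate

noncomputable section

namespace Fermat.Agent.LT.T7.SU736

open Fermat.Agent.LT.H556 Fermat.Agent.LT.H556.A0 Fermat.Agent.LT.T7

attribute [local instance] Fermat.Agent.LT.T5.instMeasurableSpaceG

/-! ## 1. The structures, on the upstairs data -/

section CoreDefs

variable {K' : Type} [Field K'] [NumberField K']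

/-- **THE ADAPTED SEQUENCE WITH BLOCKS, core form** (`IsUpBasis` on `H29.UpData`; same fields).
See the header of `T7/H736/ExpUp.lean`. -/
structure IsUpBasisU (U : H29.UpData K') (ℓ : ℕ) (Φ : HeckeEigensystem K' ℂ) (g : G K')
    (e' : ℕ → G K' → ℂ) (I : Set ℕ) (blk : ℕ → Finset ℕ) (C : ℕ → EigData K')
    (b l y : ℕ → ℂ) (R : ℝ) (J : Finset ℕ) : Prop where
  onb : T5.IsCuspONB (U.𝔑 g) T5.trivType U.R'.r U.R'.μ U.R'.F e'
  zero_out : ∀ i, i ∉ I → ∀ (X : List (Gen K')) (k : ℤ) (m : ℕ), (∀ x ∈ X, x.Out U.S') →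
    T5.diagCoeff U.s U.R'.μ U.R'.F (U.φ' g X k m) (e' i) = 0
  y_out : ∀ i, i ∉ I → y i = 0
  mem_blk : ∀ i, i ∈ I → i ∈ blk i
  blk_sub : ∀ i, i ∈ I → ∀ j ∈ blk i, j ∈ I ∧ blk j = blk i
  block : ∀ i, i ∈ I → ∀ (X : List (Gen K')) (k : ℤ) (m : ℕ), (∀ x ∈ X, x.Out U.S') →
    ∑ j ∈ blk i, T5.diagCoeff U.s U.R'.μ U.R'.F (U.φ' g X k m) (e' j)
      = ∑ j ∈ blk i, wordEv X (C j) * y j * b j ^ k * l j ^ m
  summ : Summable fun j => ‖y j‖
  unit : ∀ j, (C j).IsUnitaryOut U.S'
  reg : ∀ j, IsRegParam R (b j) (l j)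
  cls_mem : ∀ j, (C j).AgreeOut U.S' (eigOf Φ) → y j ≠ 0 → j ∈ J
  cls_agree : ∀ j ∈ J, (C j).AgreeOut U.S' (eigOf Φ)
  cls_basis : IsClassBasisOn U.𝔑₀ U.R' ℓ U.o (eigOf Φ) e' J
  cls_trace : ∀ Hg : Finset (G K'), IsDblCosetSystem U.𝔑₀ g Hg →
    ∑ j ∈ J, y j = U.c g (eigOf Φ) * twTrace U.s U.R' Hg e' J

/-- **THE MODEL OF THE CLASS SPACE OF `Φ`, core form** (`IsClassModel` on `H29.UpData`; same
fields).  See the header of `T7/H736/NonVan.lean`. -/
structure IsClassModelU (U : H29.UpData K') (ℓ : ℕ) (Φ : HeckeEigensystem K' ℂ)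
    (V : Type) [AddCommGroup V] [Module ℂ V]
    (𝒢 : Set (Module.End ℂ V)) (ℐ : ℕ → Set (Module.End ℂ V)) (S Sinv : Module.End ℂ V) :
    Prop where
  hS : S * Sinv = 1
  hS' : Sinv * S = 1
  hGI : ∀ j < ℓ, ∀ g ∈ 𝒢, ∀ h ∈ ℐ j, g * h = h * g
  hII : ∀ i < ℓ, ∀ j < ℓ, i ≠ j → ∀ h ∈ ℐ i, ∀ h' ∈ ℐ j, h * h' = h' * h
  hdown : ∀ j, j + 1 < ℓ → ∀ h ∈ ℐ (j + 1), Sinv * h * S ∈ Algebra.adjoin ℂ (ℐ j)
  hwrap : ∀ h ∈ ℐ 0, Sinv * h * S ∈ Algebra.adjoin ℂ (ℐ (ℓ - 1))
  hcent : ∀ h ∈ ℐ 0, S ^ ℓ * h = h * S ^ ℓ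
  hirr : ∀ W : Submodule ℂ V, (∀ g ∈ 𝒢, W ≤ W.comap g) →
    (∀ j < ℓ, ∀ h ∈ ℐ j, W ≤ W.comap h) → W = ⊥ ∨ W = ⊤
  h1 : (1 : Module.End ℂ V) ∈ Submodule.span ℂ 𝒢
  hmul : ∀ x ∈ 𝒢, ∀ y ∈ 𝒢, x * y ∈ Submodule.span ℂ 𝒢
  dict : ∀ T ∈ 𝒢, ∃ (g : G K') (Hg : Finset (G K')), U.IsBad g ∧
    IsDblCosetSystem U.𝔑₀ g Hg ∧
    ∀ (q : ℕ → G K' → ℂ) (J : Finset ℕ),
      IsClassBasisOn U.𝔑₀ U.R' ℓ U.o (eigOf Φ) q J →
        twTrace U.s U.R' Hg q J = LinearMap.trace ℂ V (T * S)

end CoreDefs

/-! ## 2. The nodes of level 5, core form -/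

section CoreNodes

variable (K' : Type) [Field K'] [NumberField K']

/-- **E.1c (tower T5, CLOSED).**  The twisted trace identity of T5 at the trivial `K_∞`-type, for
every cyclic automorphism and every non-zero level: the field `stf` of
`T5.tower_closed s l k 𝔑 T5.trivType h𝔑 hcyc` (helper32). -/
def StfUC : Prop :=
  ∀ (s : T5.AdelicAut K') (l : ℕ) (k : Subfield K') (𝔑 : Ideal (𝓞 K')), 𝔑 ≠ ⊥ →
    T5.IsCyclicOfDegree s l k → T5.STFsigma s 𝔑 T5.trivType

/-- **E.2c = NODE UP-BASIS, core form.**  The adapted sequence with blocks exists for every bad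
`g` (`ℓ` prime, `ℓ = 2` allowed; `K'` totally complex; base-stable upstairs data). -/
def UpBasisUC : Prop :=
  ∀ ℓ : ℕ, ℓ.Prime → TotCplx K' →
    ∀ Φ : HeckeEigensystem K' ℂ, A0.IsCuspAdelicSph0 K' Φ →
      ∀ U : H29.UpData K', H29.IsUpData ℓ Φ U → H29.BaseStableU U → ∀ g : G K', U.IsBad g →
        ∃ (e' : ℕ → G K' → ℂ) (I : Set ℕ) (blk : ℕ → Finset ℕ) (C : ℕ → EigData K')
          (b l y : ℕ → ℂ) (R : ℝ) (J : Finset ℕ), IsUpBasisU U ℓ Φ g e' I blk C b l y R J

/-- **N.1c = NODE CLASS-MODEL, core form.**  The class space of `Φ` at the base level has a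
model as in `IsClassModelU`. -/
def ClassModelUC : Prop :=
  ∀ ℓ : ℕ, ℓ.Prime → TotCplx K' →
    ∀ Φ : HeckeEigensystem K' ℂ, A0.IsCuspAdelicSph0 K' Φ →
      ∀ U : H29.UpData K', H29.IsUpData ℓ Φ U → H29.BaseStableU U →
        ∃ (V : Type) (_ : AddCommGroup V) (_ : Module ℂ V) (_ : FiniteDimensional ℂ V)
          (_ : Nontrivial V) (𝒢 : Set (Module.End ℂ V)) (ℐ : ℕ → Set (Module.End ℂ V))
          (S Sinv : Module.End ℂ V), IsClassModelU U ℓ Φ V 𝒢 ℐ S Sinv

end CoreNodes

/-! ## 3. The tops, core form -/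

section CoreTops

variable {K' : Type} [Field K'] [NumberField K']

/-- **THE TOP OF THE CORE NODE `H29.ExpUpCoreC`.** -/
theorem expUpCoreC_of (hStf : StfUC K') (hB : UpBasisUC K') : H29.ExpUpCoreC K' := by
  classical
  intro ℓ hℓ hcplx Φ hΦ U hU hst g hg
  obtain ⟨e', I, blk, C, b, l, y, R, J, h⟩ := hB ℓ hℓ hcplx Φ hΦ U hU hst g hg
  refine ⟨e', C, b, l, R, y, J, h.onb, h.summ, h.unit, h.reg, ?_, h.cls_mem, h.cls_agree,
    h.cls_basis, h.cls_trace⟩
  intro X hX k m _
  -- summability of the diagonal coefficients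
  have hs1 : Summable fun i =>
      ‖T5.diagCoeff U.s U.R'.μ U.R'.F (U.φ' g X k m) (e' i)‖ := by
    obtain ⟨-, φ₁, φ₂, t₁, t₂, k₁, k₁', k₂, k₂', hconv⟩ := hU.ekprod_up g X k m hg hX
    rw [hconv]
    exact ((hStf U.s U.l U.k (U.𝔑 g) (hU.level_ne g hg) hU.cyc U.R'.μ U.R'.F U.R'.r
      hU.frame'.frame hU.frame'.ray (hU.aut g hg) e' h.onb φ₁ φ₂ t₁ t₂ k₁ k₁' k₂ k₂').1).norm
  have hs2 := summable_atoms736 C b l y R h.summ h.unit h.reg X hX k m
  show (∑' i, T5.diagCoeff U.s U.R'.μ U.R'.F (U.φ' g X k m) (e' i))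
    = ∑' j, wordEv X (C j) * y j * b j ^ k * l j ^ m
  refine tsum_eq_of_blocks736 _ _ hs1 hs2 I blk h.mem_blk h.blk_sub (fun i hi => ⟨?_, ?_⟩)
    (fun i hi => h.block i hi X k m hX)
  · exact h.zero_out i hi X k m hX
  · rw [h.y_out i hi, mul_zero, zero_mul, zero_mul]

/-- **THE TOP OF THE CORE NODE `H29.NonVanCoreC`.** -/
theorem nonVanCoreC_of (h : ClassModelUC K') : H29.NonVanCoreC K' := by
  intro ℓ hℓ hcplx Φ hΦ U hU hst
  obtain ⟨V, i1, i2, i3, i4, 𝒢, ℐ, S, Sinv, hM⟩ := h ℓ hℓ hcplx Φ hΦ U hU hst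
  obtain ⟨T, hT, hne⟩ := H616.exists_gen_twisted_trace_ne_zero616 ℓ hℓ.pos 𝒢 ℐ S Sinv hM.hS
    hM.hS' hM.hGI hM.hII hM.hdown hM.hwrap hM.hcent hM.hirr hM.h1 hM.hmul
  obtain ⟨g, Hg, hg, hHg, hd⟩ := hM.dict T hT
  refine ⟨g, Hg, hg, hHg, fun q J hq => ?_⟩
  rw [hd q J hq]
  exact hne

/-- **SPEC-UP, core form, from the three nodes of level 5.** -/
theorem specUpCoreSC_of_nodes (hStf : StfUC K') (hB : UpBasisUC K') (hM : ClassModelUC K') :
    H29.SpecUpCoreSC K' :=
  H29.specUpCoreSC_of (expUpCoreC_of hStf hB) (nonVanCoreC_of hM)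

end CoreTops

/-! ## 4. The cyclic step: the nodes typed on `L2Data` follow from the core forms -/

section Cyclic

variable {K K' : Type} [Field K] [NumberField K] [Field K'] [NumberField K'] [Algebra K K']

theorem isUpBasis_of_U {Dt : L2Data K K'} {ℓ : ℕ} {Φ : HeckeEigensystem K' ℂ} {g : G K'}
    {e' : ℕ → G K' → ℂ} {I : Set ℕ} {blk : ℕ → Finset ℕ} {C : ℕ → EigData K'}
    {b l y : ℕ → ℂ} {R : ℝ} {J : Finset ℕ}
    (h : IsUpBasisU (H29.upOf Dt) ℓ Φ g e' I blk C b l y R J) :
    IsUpBasis Dt ℓ Φ g e' I blk C b l y R J where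
  onb := h.onb
  zero_out := h.zero_out
  y_out := h.y_out
  mem_blk := h.mem_blk
  blk_sub := h.blk_sub
  block := h.block
  summ := h.summ
  unit := h.unit
  reg := h.reg
  cls_mem := h.cls_mem
  cls_agree := h.cls_agree
  cls_basis := h.cls_basis
  cls_trace := h.cls_trace

theorem isClassModel_of_U {Dt : L2Data K K'} {ℓ : ℕ} {Φ : HeckeEigensystem K' ℂ}
    {V : Type} [AddCommGroup V] [Module ℂ V]
    {𝒢 : Set (Module.End ℂ V)} {ℐ : ℕ → Set (Module.End ℂ V)} {S Sinv : Module.End ℂ V}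
    (h : IsClassModelU (H29.upOf Dt) ℓ Φ V 𝒢 ℐ S Sinv) :
    IsClassModel Dt ℓ Φ V 𝒢 ℐ S Sinv where
  hS := h.hS
  hS' := h.hS'
  hGI := h.hGI
  hII := h.hII
  hdown := h.hdown
  hwrap := h.hwrap
  hcent := h.hcent
  hirr := h.hirr
  h1 := h.h1
  hmul := h.hmul
  dict := h.dict

/-- **`UpBasisC` from the core form.** -/
theorem upBasisC_of_U (hC : UpBasisUC K') : UpBasisC K K' := by
  intro ℓ hcyc _ hcplx Φ hΦ _ Dt hDt hst g hg
  obtain ⟨e', I, blk, C, b, l, y, R, J, h⟩ :=
    hC ℓ hcyc.prime (H29.totCplx_of_base hcplx) Φ hΦ (H29.upOf Dt) (H29.isUpData_upOf hDt)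
      (H29.baseStableU_upOf hst) g hg
  exact ⟨e', I, blk, C, b, l, y, R, J, isUpBasis_of_U h⟩

/-- **`ClassModelC` from the core form.** -/
theorem classModelC_of_U (hC : ClassModelUC K') : ClassModelC K K' := by
  intro ℓ hcyc _ hcplx Φ hΦ _ Dt hDt hst
  obtain ⟨V, i1, i2, i3, i4, 𝒢, ℐ, S, Sinv, hM⟩ :=
    hC ℓ hcyc.prime (H29.totCplx_of_base hcplx) Φ hΦ (H29.upOf Dt) (H29.isUpData_upOf hDt)
      (H29.baseStableU_upOf hst)
  exact ⟨V, i1, i2, i3, i4, 𝒢, ℐ, S, Sinv, isClassModel_of_U hM⟩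

/-- **`StfUpC` from the core form.** -/
theorem stfUpC_of_U (hC : StfUC K') : StfUpC K K' := by
  intro D hD
  refine hC D.s D.l D.k D.𝔑 ?_ hD.cyc
  rw [hD.level, Ne, Ideal.map_eq_bot_iff_of_injective (RingOfIntegers.algebraMap.injective K K')]
  exact hD.level_ne

/-- `SpecUpCS` (my node of level 3) from the three nodes of level 5 in core form. -/
theorem specUpCS_of_nodesU (hStf : StfUC K') (hB : UpBasisUC K') (hM : ClassModelUC K') :
    SpecUpCS K K' :=
  H29.specUpCS_of_core (specUpCoreSC_of_nodes hStf hB hM)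

end Cyclic

/-! ## 5. The adapter to the node of record `T7.SpecUpSC` (`T7/Level2S.lean`) -/

section Adapter

variable (K K' : Type) [Field K] [NumberField K] [Field K'] [NumberField K'] [Algebra K K']

/-- **LEAF STABLE-AUT** (T1 type; owners helper930 / helper732 / helper812): for the data of
level 2, a base level extended from `K` is preserved by `σ`.  Only the field `level` of
`T5.AutPreserves` is new (the others are those of `(IsL2Data.comp 1 _).aut`). -/
def StableAutC : Prop :=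
  ∀ (ℓ : ℕ) (Φ : HeckeEigensystem K' ℂ) (Dt : L2Data K K'), IsL2Data ℓ Φ Dt → Dt.IsStable →
    BaseStable Dt

variable {K K'}

/-- **THE NODE OF RECORD from my node of level 3.** -/
theorem specUpSC_of736 (hA : StableAutC K K') (h : SpecUpCS K K') : T7.SpecUpSC K K' :=
  fun ℓ hcyc hℓ hcplx Φ hΦ hconst Dt hDt hst =>
    h ℓ hcyc hℓ hcplx Φ hΦ hconst Dt hDt (hA ℓ Φ Dt hDt hst)

/-- **THE NODE OF RECORD `T7.SpecUpSC` from the leaf `StableAutC` and the three nodes of level 5
in core form.** -/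
theorem specUpSC_of_nodes736 (hA : StableAutC K K') (hStf : StfUC K') (hB : UpBasisUC K')
    (hM : ClassModelUC K') : T7.SpecUpSC K K' :=
  specUpSC_of736 hA (specUpCS_of_nodesU hStf hB hM)

end Adapter

/-! ## Appendix: the equation lemmas of the definitions of this file are realised HERE -/

theorem eqns_realised_upS736 : True := by
  have _a1 := @StfUC.eq_1
  have _a2 := @StfUC.eq_def
  have _a3 := @StfUC.eq_unfold
  have _b1 := @UpBasisUC.eq_1
  have _b2 := @UpBasisUC.eq_def
  have _b3 := @UpBasisUC.eq_unfold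
  have _c1 := @ClassModelUC.eq_1
  have _c2 := @ClassModelUC.eq_def
  have _c3 := @ClassModelUC.eq_unfold
  have _d1 := @StableAutC.eq_1
  have _d2 := @StableAutC.eq_def
  have _d3 := @StableAutC.eq_unfold
  trivial

end Fermat.Agent.LT.T7.SU736

end

end
-- ===== PACK-END LT/T7/H736/UpS.lean

-- ===== PACK-BEGIN LT/T7/H247/IwProjCore.lean
section







/-!
# Row LT, tower T7 (helper247): THE IWAHORI PROJECTOR, core for every number field and every type

OFF-MAIN.  No hole, nothing assumed.  ADDITIVE (new names only, suffix `247`).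

The operator is the mean `H949.avg949 𝔫 𝒦` of helper949 (`LT/T7/H949/FinProj.lean`) over the
cosets of `U(𝔫)` in a subgroup `𝒦 ≤ GL₂(𝒪̂)` (trivial at infinity).  Here: the facts which
`H949.finProjC949` does not state, for an ARBITRARY `K_∞`-type `τ`:

* `avg_add247`, `avg_smul247`            : the mean is linear on ALL functions;
* `isCuspFn_avg247`                      : it maps cusp functions of level `𝔫` and type `τ` to
  cusp functions of level `𝔫` and type `τ` (if `U(𝔫) ≤ 𝒦`);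
* `stab_avg247`, `isIwInv_avg247`        : the mean is right invariant under `𝒦`;
* `avg_comm_mul247`                      : twisted commutation with the elements commuting with `𝒦`;
* `inner_avg247`                         : `⟨P ψ, χ⟩ = ⟨ψ, χ⟩` for `χ` invariant under `𝒦`;
* `heckeSys_conj247`, `scalarUnif_comm247`, `hecke_avg247` : the mean preserves the Hecke
  eigenfunctions at EVERY finite place (conjugation of a Hecke coset system by an element of
  `GL₂(𝒪̂)` is a Hecke coset system; the scalar uniformisers are central);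
* `mean_avg247`                          : the mean preserves the eigenfunctions of the integral
  means along a continuous family supported at the infinite places.
-/

set_option autoImplicit false
set_option linter.style.haveILetI false
set_option linter.unusedSectionVars false
set_option linter.unusedVariables false

open AutomorphicForm IsDedekindDomain NumberField MeasureTheory
open scoped ComplexConjugate

noncomputable section

namespace Fermat.Agent.LT.T7.H247

open Fermat.Agent.LT.H556 Fermat.Agent.LT.H556.A0 Fermat.Agent.LT.T7 Fermat.Agent.LT.T7.H40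
open Fermat.Agent.LT.T7.H949

attribute [local instance] Fermat.Agent.LT.T5.instMeasurableSpaceG

variable {K : Type} [Field K] [NumberField K]

/-! ## 1. Central elements, conjugation of Hecke coset systems -/

/-- A scalar uniformiser is central. -/
theorem scalarUnif_comm247 {v : HeightOneSpectrum (𝓞 K)} {z : G K}
    (hz : IsScalarUniformizerAt v z) (h : G K) : h * z = z * h := by
  obtain ⟨⟨hz1, hz2⟩, c, -, hc⟩ := hz
  refine G_ext949 (fun w => ?_) (fun v' => ?_)
  · rw [infMat_mul949, infMat_mul949, (trivAtInf_iff949 w z).1 (hz1 w), one_mul, mul_one]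
  · rw [finComp_mul949, finComp_mul949]
    by_cases hv : v' = v
    · subst hv
      rw [hc]
      ext i j
      rw [Matrix.mul_diagonal, Matrix.diagonal_mul, mul_comm]
    · rw [(hz2 v' hv : finComp v' z = 1), one_mul, mul_one]

open Classical in
/-- The conjugate of a Hecke coset system by an element of `GL₂(𝒪̂)` is a Hecke coset system. -/
theorem heckeSys_conj247 {v : HeightOneSpectrum (𝓞 K)} {H : Finset (G K)}
    (hH : IsHeckeCosetSystem v H) {k : G K} (hk : k ∈ K0949 K) :
    IsHeckeCosetSystem v (H.image fun h => k⁻¹ * h * k) := by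
  classical
  obtain ⟨hcard, hloc, hne⟩ := hH
  have hinj : Function.Injective (fun h : G K => k⁻¹ * h * k) := by
    intro a b hab
    exact mul_left_cancel (mul_right_cancel hab)
  refine ⟨by rw [Finset.card_image_of_injective _ hinj, hcard], ?_, ?_⟩
  · intro h' hh'
    obtain ⟨h, hh, rfl⟩ := Finset.mem_image.1 hh'
    obtain ⟨⟨h1, h2⟩, h3, h4⟩ := hloc h hh
    refine ⟨⟨fun w => ?_, fun v' hv' => ?_⟩, ?_, ?_⟩
    · exact trivAtInf_mul949 (trivAtInf_mul949 (trivAtInf_inv949 (hk.1 w)) (h1 w)) (hk.1 w)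
    · show finComp v' _ = 1
      rw [finComp_mul949, finComp_mul949, (h2 v' hv' : finComp v' h = 1), mul_one,
        finComp_inv_mul949]
    · exact isIntegralAt_mul949 (isIntegralAt_mul949 (hk.2 v).2 h3) (hk.2 v).1
    · have e : (finComp v k⁻¹).det * (finComp v k).det = 1 := by
        rw [← Matrix.det_mul, finComp_inv_mul949, Matrix.det_one]
      rw [finComp_mul949, finComp_mul949, Matrix.det_mul, Matrix.det_mul, mul_right_comm, e,
        one_mul]
      exact h4
  · intro a ha b hb hab hint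
    obtain ⟨h, hh, rfl⟩ := Finset.mem_image.1 ha
    obtain ⟨h', hh', rfl⟩ := Finset.mem_image.1 hb
    have hne' : h ≠ h' := fun e => hab (by rw [e])
    apply hne h hh h' hh' hne'
    have e : h⁻¹ * h' = k * ((k⁻¹ * h * k)⁻¹ * (k⁻¹ * h' * k)) * k⁻¹ := by group
    rw [e]
    exact isIntegralAt_mul949 (isIntegralAt_mul949 (hk.2 v).1 hint) (hk.2 v).2

/-! ## 2. The mean -/

section Avg

variable (𝔫 : Ideal (𝓞 K)) (𝒦 : Subgroup (G K)) [Fintype (𝒦 ⧸ (U949 𝔫).subgroupOf 𝒦)]

theorem avg_apply247 (ψ : G K → ℂ) (x : G K) :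
    avg949 𝔫 𝒦 ψ x = ((Fintype.card (𝒦 ⧸ (U949 𝔫).subgroupOf 𝒦) : ℂ))⁻¹
      * ∑ q, ψ (x * rep949 𝔫 𝒦 q) := rfl

/-- The mean is additive. -/
theorem avg_add247 (ψ ψ' : G K → ℂ) :
    avg949 𝔫 𝒦 (ψ + ψ') = avg949 𝔫 𝒦 ψ + avg949 𝔫 𝒦 ψ' := by
  funext x
  rw [Pi.add_apply, avg_apply247, avg_apply247, avg_apply247, ← mul_add,
    ← Finset.sum_add_distrib]
  rfl

/-- The mean is homogeneous. -/
theorem avg_smul247 (a : ℂ) (ψ : G K → ℂ) :
    avg949 𝔫 𝒦 (a • ψ) = a • avg949 𝔫 𝒦 ψ := by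
  funext x
  rw [Pi.smul_apply, smul_eq_mul, avg_apply247, avg_apply247]
  have e : ∀ q : 𝒦 ⧸ (U949 𝔫).subgroupOf 𝒦,
      (a • ψ) (x * rep949 𝔫 𝒦 q) = a * ψ (x * rep949 𝔫 𝒦 q) := fun q => rfl
  rw [Finset.sum_congr rfl (fun q _ => e q), ← Finset.mul_sum]
  ring

/-- Twisted commutation: an element commuting with `𝒦` which multiplies `ψ` by `c` multiplies
the mean by `c`. -/
theorem avg_comm_mul247 {ψ : G K → ℂ} {z : G K} {c : ℂ} (hz : ∀ h ∈ 𝒦, h * z = z * h)
    (hψ : ∀ g, ψ (g * z) = c * ψ g) (x : G K) :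
    avg949 𝔫 𝒦 ψ (x * z) = c * avg949 𝔫 𝒦 ψ x := by
  rw [avg_apply247, avg_apply247]
  have e : ∀ q : 𝒦 ⧸ (U949 𝔫).subgroupOf 𝒦,
      ψ (x * z * rep949 𝔫 𝒦 q) = c * ψ (x * rep949 𝔫 𝒦 q) := by
    intro q
    rw [mul_assoc, ← hz _ (rep_mem949 𝔫 𝒦 q), ← mul_assoc, hψ]
  rw [Finset.sum_congr rfl (fun q _ => e q), ← Finset.mul_sum]
  ring

/-- The mean of a function invariant under `U(𝔫)` is invariant under `𝒦`. -/
theorem stab_avg247 {ψ : G K → ℂ} (hψ : ∀ u : G K, InLevelGroup 𝔫 u → ∀ g : G K, ψ (g * u) = ψ g)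
    {k : G K} (hk : k ∈ 𝒦) (x : G K) : avg949 𝔫 𝒦 ψ (x * k) = avg949 𝔫 𝒦 ψ x :=
  KK_le_stab_avg949 𝔫 𝒦 (fun u hu => hψ u hu) hk x

/-- The mean of a cusp function of level `𝔫` and type `τ` is a cusp function of level `𝔫` and
type `τ`. -/
theorem isCuspFn_avg247 (hT : Fermat.Agent.LT.T1.T1Out K) (h𝒦 : 𝒦 ≤ K0949 K)
    (hU : U949 𝔫 ≤ 𝒦) {τ : G K → ℂ} {r : G K} (hr : T5.IsRayGen r) {ψ : G K → ℂ}
    (hψ : T5.IsCuspFn 𝔫 τ r ψ) : T5.IsCuspFn 𝔫 τ r (avg949 𝔫 𝒦 ψ) := by
  have hcomm : ∀ z : G K, (∀ v : HeightOneSpectrum (𝓞 K), TrivAtFin v z) →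
      ∀ h ∈ 𝒦, h * z = z * h := fun z hz h hh => commute_of_triv949 (h𝒦 hh).1 hz
  refine ⟨continuous_avg949 𝔫 𝒦 hψ.cont, bdd_avg949 𝔫 𝒦 hψ.bdd, ⟨?_, ?_, ?_, ?_⟩, ?_⟩
  · intro γ g
    rw [avg_apply247, avg_apply247]
    congr 1
    refine Finset.sum_congr rfl fun q _ => ?_
    rw [mul_assoc, hψ.aut.left_inv]
  · intro u hu g
    exact stab_avg247 𝔫 𝒦 hψ.aut.level_inv (hU hu) g
  · intro w k hk g
    exact avg_comm_mul247 𝔫 𝒦 (hcomm k hk.1.2) (hψ.aut.arch_compact w k hk) g
  · intro g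
    exact avg_comm949 𝔫 𝒦 (hcomm r hr.1) hψ.aut.ray g
  · intro μ' hμ' D hD n hn g
    have hint := integrableOn_unip949 hT hψ.cont hψ.bdd μ' hμ' D hD n hn
    have e : (fun x => avg949 𝔫 𝒦 ψ (n x * g))
        = fun x => ((Fintype.card (𝒦 ⧸ (U949 𝔫).subgroupOf 𝒦) : ℂ))⁻¹
            * ∑ q, ψ (n x * (g * rep949 𝔫 𝒦 q)) := by
      funext x
      rw [avg_apply247]
      congr 1
      refine Finset.sum_congr rfl fun q _ => ?_
      rw [mul_assoc]
    rw [e, integral_const_mul, integral_finsetSum _ (fun q _ => hint _)]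
    rw [Finset.sum_eq_zero (fun q _ => hψ.cuspidal μ' hμ' D hD n hn _), mul_zero]

/-- The mean is Iwahori invariant along the orbit as soon as `𝒦` contains the Iwahori
elements. -/
theorem isIwInv_avg247 {l : ℕ} {o : ℕ → HeightOneSpectrum (𝓞 K)}
    (hIw : iwSet949 l o ⊆ (𝒦 : Set (G K))) {ψ : G K → ℂ}
    (hψ : ∀ u : G K, InLevelGroup 𝔫 u → ∀ g : G K, ψ (g * u) = ψ g) :
    IsIwInv l o (avg949 𝔫 𝒦 ψ) := by
  intro h ha hb hc x
  exact stab_avg247 𝔫 𝒦 hψ (hIw ⟨ha, hb, hc⟩) x

/-- The mean preserves the invariance under the positive scalars at infinity. -/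
theorem posInv_avg247 (h𝒦 : 𝒦 ≤ K0949 K) {ψ : G K → ℂ}
    (hψ : ∀ (w : InfinitePlace K) (z : G K), IsArchPosScalar w z → ∀ g : G K, ψ (g * z) = ψ g)
    (w : InfinitePlace K) (z : G K) (hz : IsArchPosScalar w z) (g : G K) :
    avg949 𝔫 𝒦 ψ (g * z) = avg949 𝔫 𝒦 ψ g :=
  avg_comm949 𝔫 𝒦 (fun h hh => commute_of_triv949 (h𝒦 hh).1 hz.1.2) (hψ w z hz) g

/-- `⟨P ψ, χ⟩ = ⟨ψ, χ⟩` for `χ` invariant under `𝒦`. -/
theorem inner_avg247 (hTI : TranslInnerC K) {μ : Measure (G K)} {F : Set (G K)} {r : G K}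
    (hFr : T5.IsFrame μ F) (hr : T5.IsRayGen r) {τ τ' : G K → ℂ} {𝔪 𝔪' : Ideal (𝓞 K)}
    {ψ χ : G K → ℂ} (hψ : T5.IsCuspFn 𝔪 τ r ψ) (hχ : T5.IsCuspFn 𝔪' τ' r χ)
    (hχstab : ∀ k ∈ 𝒦, ∀ x, χ (x * k) = χ x) :
    T5.innerD μ F (avg949 𝔫 𝒦 ψ) χ = T5.innerD μ F ψ χ := by
  have : BorelSpace (G K) := ⟨rfl⟩
  have : IsFiniteMeasure (μ.restrict F) := ⟨by simpa using hFr.finite⟩
  obtain ⟨Cψ, hCψ⟩ := hψ.bdd
  obtain ⟨Cχ, hCχ⟩ := hχ.bdd
  have hCψ0 : 0 ≤ Cψ := (norm_nonneg _).trans (hCψ 1)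
  have hint : ∀ h : G K, Integrable (fun x => ψ (x * h) * conj (χ x)) (μ.restrict F) := by
    intro h
    refine Integrable.of_bound (C := Cψ * Cχ) ?_ (Filter.Eventually.of_forall fun x => ?_)
    · exact ((hψ.cont.comp (continuous_mul_const h)).mul
        (Complex.continuous_conj.comp hχ.cont)).aestronglyMeasurable
    · rw [norm_mul, RCLike.norm_conj]
      exact mul_le_mul (hCψ _) (hCχ _) (norm_nonneg _) hCψ0
  have htr : ∀ q : 𝒦 ⧸ (U949 𝔫).subgroupOf 𝒦,
      ∫ x in F, ψ (x * rep949 𝔫 𝒦 q) * conj (χ x) ∂μ = ∫ x in F, ψ x * conj (χ x) ∂μ := by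
    intro q
    have h1 := hTI μ F r hFr hr (fun x => ψ x * conj (χ x))
      (hψ.cont.mul (Complex.continuous_conj.comp hχ.cont))
      ⟨Cψ * Cχ, fun g => by
        rw [norm_mul, RCLike.norm_conj]
        exact mul_le_mul (hCψ _) (hCχ _) (norm_nonneg _) hCψ0⟩
      (fun γ g => by
        show ψ _ * conj (χ _) = _
        rw [hψ.aut.left_inv, hχ.aut.left_inv])
      (fun g => by
        show ψ _ * conj (χ _) = _
        rw [hψ.aut.ray, hχ.aut.ray])
      (rep949 𝔫 𝒦 q)
    rw [← h1]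
    refine integral_congr_ae (Filter.Eventually.of_forall fun x => ?_)
    show ψ _ * conj (χ x) = ψ _ * conj (χ _)
    rw [hχstab _ (rep_mem949 𝔫 𝒦 q) x]
  unfold T5.innerD
  have e : (fun x => avg949 𝔫 𝒦 ψ x * conj (χ x))
      = fun x => ((Fintype.card (𝒦 ⧸ (U949 𝔫).subgroupOf 𝒦) : ℂ))⁻¹
          * ∑ q, ψ (x * rep949 𝔫 𝒦 q) * conj (χ x) := by
    funext x
    rw [avg_apply247, mul_assoc, Finset.sum_mul]
  rw [e, integral_const_mul, integral_finsetSum _ (fun q _ => hint _),
    Finset.sum_congr rfl (fun q _ => htr q), Finset.sum_const, Finset.card_univ,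
    nsmul_eq_mul, ← mul_assoc, inv_mul_cancel₀ (card_ne_zero949 𝔫 𝒦), one_mul]

/-- The mean preserves the Hecke eigenfunctions (any finite place, same eigenvalues). -/
theorem hecke_avg247 (h𝒦 : 𝒦 ≤ K0949 K) {ψ : G K → ℂ} {v : HeightOneSpectrum (𝓞 K)}
    {a b : ℂ} (h : IsHeckeEigenAt ψ v a b) : IsHeckeEigenAt (avg949 𝔫 𝒦 ψ) v a b := by
  classical
  refine ⟨fun H hH g => ?_, fun z hz g => ?_⟩
  · have hq : ∀ q : 𝒦 ⧸ (U949 𝔫).subgroupOf 𝒦,
        ∑ h' ∈ H, ψ (g * h' * rep949 𝔫 𝒦 q)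
          = ((Real.sqrt (Ideal.absNorm v.asIdeal : ℝ) : ℝ) : ℂ) * a * ψ (g * rep949 𝔫 𝒦 q) := by
      intro q
      have hk := h𝒦 (rep_mem949 𝔫 𝒦 q)
      have hinj : Function.Injective (fun h : G K => (rep949 𝔫 𝒦 q)⁻¹ * h * rep949 𝔫 𝒦 q) := by
        intro x y hxy
        exact mul_left_cancel (mul_right_cancel hxy)
      have h1 := h.1 _ (heckeSys_conj247 hH hk) (g * rep949 𝔫 𝒦 q)
      rw [Finset.sum_image (fun x _ y _ hxy => hinj hxy)] at h1
      rw [← h1]
      refine Finset.sum_congr rfl fun h' _ => ?_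
      congr 1
      group
    calc ∑ h' ∈ H, avg949 𝔫 𝒦 ψ (g * h')
        = ((Fintype.card (𝒦 ⧸ (U949 𝔫).subgroupOf 𝒦) : ℂ))⁻¹
            * ∑ q, ∑ h' ∈ H, ψ (g * h' * rep949 𝔫 𝒦 q) := by
          simp only [avg_apply247]
          rw [← Finset.mul_sum, Finset.sum_comm]
      _ = ((Fintype.card (𝒦 ⧸ (U949 𝔫).subgroupOf 𝒦) : ℂ))⁻¹
            * ∑ q, ((Real.sqrt (Ideal.absNorm v.asIdeal : ℝ) : ℝ) : ℂ) * a
                * ψ (g * rep949 𝔫 𝒦 q) := by
          rw [Finset.sum_congr rfl (fun q _ => hq q)]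
      _ = ((Real.sqrt (Ideal.absNorm v.asIdeal : ℝ) : ℝ) : ℂ) * a * avg949 𝔫 𝒦 ψ g := by
          rw [avg_apply247, ← Finset.mul_sum]
          ring
  · exact avg_comm_mul247 𝔫 𝒦 (fun h _ => scalarUnif_comm247 hz h) (h.2 z hz) g

/-- The mean preserves the eigenfunctions of an integral mean along a continuous family of
elements which are trivial at the finite places. -/
theorem mean_avg247 (h𝒦 : 𝒦 ≤ K0949 K) {ψ : G K → ℂ} (hc : Continuous ψ) {Y : ℝ → G K}
    (hYc : Continuous Y) (hYf : ∀ θ (v : HeightOneSpectrum (𝓞 K)), TrivAtFin v (Y θ))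
    {κ : ℝ → ℂ} (hκ : Continuous κ) (a b : ℝ) (m : ℂ)
    (h : ∀ g : G K, (∫ θ in a..b, κ θ * ψ (g * Y θ)) = m * ψ g) (g : G K) :
    (∫ θ in a..b, κ θ * avg949 𝔫 𝒦 ψ (g * Y θ)) = m * avg949 𝔫 𝒦 ψ g := by
  have e : (fun θ => κ θ * avg949 𝔫 𝒦 ψ (g * Y θ))
      = fun θ => ((Fintype.card (𝒦 ⧸ (U949 𝔫).subgroupOf 𝒦) : ℂ))⁻¹
          * ∑ q, κ θ * ψ (g * rep949 𝔫 𝒦 q * Y θ) := by
    funext θ
    rw [avg_apply247]
    have hq : ∀ q : 𝒦 ⧸ (U949 𝔫).subgroupOf 𝒦,
        ψ (g * Y θ * rep949 𝔫 𝒦 q) = ψ (g * rep949 𝔫 𝒦 q * Y θ) := by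
      intro q
      rw [mul_assoc g, mul_assoc g,
        ← commute_of_triv949 (h𝒦 (rep_mem949 𝔫 𝒦 q)).1 (hYf θ)]
    rw [Finset.sum_congr rfl (fun q _ => hq q), ← Finset.mul_sum]
    ring
  have hint : ∀ q : 𝒦 ⧸ (U949 𝔫).subgroupOf 𝒦,
      IntervalIntegrable (fun θ => κ θ * ψ (g * rep949 𝔫 𝒦 q * Y θ)) volume a b := fun q =>
    (hκ.mul (hc.comp (continuous_const.mul hYc))).intervalIntegrable a b
  rw [e, intervalIntegral.integral_const_mul,
    intervalIntegral.integral_finset_sum (fun q _ => hint q),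
    Finset.sum_congr rfl (fun q _ => h (g * rep949 𝔫 𝒦 q)), ← Finset.mul_sum, avg_apply247]
  ring

end Avg

end Fermat.Agent.LT.T7.H247

end

end
-- ===== PACK-END LT/T7/H247/IwProjCore.lean

-- ===== PACK-BEGIN LT/T7/H267/AvgOrth.lean
section


/-!
# Row LT, tower T7, leaf T7.L2.1.P1j `H40.AvgOrthC` (helper267, OFF-MAIN)

`avgOrthC267 K : Fermat.Agent.LT.T7.H40.AvgOrthC K`, verbatim against the byte-identical copy of
`T7/H40/ArchProjSpec.lean` (helper40).

`⟨ψ - mean ψ, χ⟩_F = ∫_F ψ χ̄ - ∫_F (∫_cube ψ(x Y_t) dt) χ̄(x) dμ`; Fubini on `F × cube` (finite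
measures, bounded continuous integrand; the product σ-algebra is the Borel σ-algebra because
`ℝ^ι` is second countable), `χ(x Y_t) = χ(x)`, `TranslInnerC` for `Ψ = ψ χ̄` and `h = Y_t`, and
`vol(cube) = 1`.
-/

set_option autoImplicit false

open AutomorphicForm IsDedekindDomain NumberField MeasureTheory
open scoped ComplexConjugate

noncomputable section

namespace Fermat.Agent.LT.T7.H40.H267

open Fermat.Agent.LT.H556 Fermat.Agent.LT.H556.A0 Fermat.Agent.LT.T7 Fermat.Agent.LT.T7.H40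

attribute [local instance] Fermat.Agent.LT.T5.instMeasurableSpaceG

variable {K : Type} [Field K] [NumberField K]

theorem volume_cube267 : (volume : Measure (InfinitePlace K → ℝ)) (cube40 K) = 1 := by
  unfold cube40
  rw [Real.volume_pi_Ico]
  simp

/-- A bounded continuous function is integrable for a finite measure. -/
theorem integrable_of_cont_bdd267 {X : Type*} [TopologicalSpace X] [MeasurableSpace X]
    [OpensMeasurableSpace X] (ν : Measure X) [IsFiniteMeasure ν] (f : X → ℂ)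
    (hf : Continuous f) (C : ℝ) (hC : ∀ x, ‖f x‖ ≤ C) : Integrable f ν :=
  Integrable.of_bound hf.aestronglyMeasurable C (Filter.Eventually.of_forall hC)

/-- **LEAF AVG-ORTH**, proved. -/
theorem avgOrthC267 (K : Type) [Field K] [NumberField K] : AvgOrthC K := by
  intro hT1 hTI hAC μ F r hFr hr 𝔑 Y hY ψ hψ χ hχ hχinv
  have hB : BorelSpace (G K) := ⟨rfl⟩
  have hfinF : IsFiniteMeasure (μ.restrict F) :=
    ⟨by rw [Measure.restrict_apply_univ]; exact hFr.finite⟩
  have hfinC : IsFiniteMeasure ((volume : Measure (InfinitePlace K → ℝ)).restrict (cube40 K)) :=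
    ⟨by rw [Measure.restrict_apply_univ, volume_cube267]; exact ENNReal.one_lt_top⟩
  obtain ⟨Cψ, hCψ⟩ := hψ.bdd
  obtain ⟨Cχ, hCχ⟩ := hχ.bdd
  have hCψ0 : 0 ≤ Cψ := (norm_nonneg _).trans (hCψ 1)
  -- the mean is a cusp function
  have hA := hAC hT1 𝔑 r Y hY ψ hψ
  obtain ⟨CA, hCA⟩ := hA.bdd
  -- the function `Ψ = ψ χ̄`
  set Ψ : G K → ℂ := fun x => ψ x * conj (χ x) with hΨ
  have hΨcont : Continuous Ψ := hψ.cont.mul (Complex.continuous_conj.comp hχ.cont)
  have hΨbdd : ∀ g : G K, ‖Ψ g‖ ≤ Cψ * Cχ := by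
    intro g
    rw [hΨ]
    simp only
    rw [norm_mul, RCLike.norm_conj]
    exact mul_le_mul (hCψ g) (hCχ g) (norm_nonneg _) hCψ0
  have hΨleft : ∀ (γ : GL (Fin 2) K) (g : G K), Ψ (T5.ratG γ * g) = Ψ g := by
    intro γ g
    rw [hΨ]
    simp only
    rw [hψ.aut.left_inv, hχ.aut.left_inv]
  have hΨray : ∀ g : G K, Ψ (g * r) = Ψ g := by
    intro g
    rw [hΨ]
    simp only
    rw [hψ.aut.ray, hχ.aut.ray]
  have htransl : ∀ t : InfinitePlace K → ℝ,
      ∫ x in F, ψ (x * Y t) * conj (χ x) ∂μ = ∫ x in F, Ψ x ∂μ := by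
    intro t
    rw [← hTI μ F r hFr hr Ψ hΨcont ⟨_, hΨbdd⟩ hΨleft hΨray (Y t)]
    refine integral_congr_ae (Filter.Eventually.of_forall fun x => ?_)
    rw [hΨ]
    simp only
    rw [hY.pos_inv χ hχinv t x]
  -- the integrand on the product
  set f : G K → (InfinitePlace K → ℝ) → ℂ := fun x t => ψ (x * Y t) * conj (χ x) with hf
  have hfcont : Continuous (Function.uncurry f) := by
    rw [hf]
    have h1 : Continuous (fun p : G K × (InfinitePlace K → ℝ) => p.1 * Y p.2) :=
      continuous_fst.mul (hY.cont.comp continuous_snd)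
    exact (hψ.cont.comp h1).mul (Complex.continuous_conj.comp (hχ.cont.comp continuous_fst))
  have hfbdd : ∀ p : G K × (InfinitePlace K → ℝ), ‖Function.uncurry f p‖ ≤ Cψ * Cχ := by
    rintro ⟨x, t⟩
    show ‖ψ (x * Y t) * conj (χ x)‖ ≤ Cψ * Cχ
    rw [norm_mul, RCLike.norm_conj]
    exact mul_le_mul (hCψ _) (hCχ x) (norm_nonneg _) hCψ0
  have hfint : Integrable (Function.uncurry f)
      ((μ.restrict F).prod ((volume : Measure (InfinitePlace K → ℝ)).restrict (cube40 K))) :=
    integrable_of_cont_bdd267 _ _ hfcont _ hfbdd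
  -- the two pieces
  have hint1 : Integrable Ψ (μ.restrict F) := integrable_of_cont_bdd267 _ _ hΨcont _ hΨbdd
  have hint2 : Integrable (fun x => archAvg40 Y ψ x * conj (χ x)) (μ.restrict F) := by
    refine integrable_of_cont_bdd267 _ _
      (hA.cont.mul (Complex.continuous_conj.comp hχ.cont)) (CA * Cχ) fun x => ?_
    rw [norm_mul, RCLike.norm_conj]
    exact mul_le_mul (hCA x) (hCχ x) (norm_nonneg _) ((norm_nonneg _).trans (hCA 1))
  have hmean : ∫ x in F, archAvg40 Y ψ x * conj (χ x) ∂μ = ∫ x in F, Ψ x ∂μ := by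
    have e1 : ∀ x : G K, archAvg40 Y ψ x * conj (χ x) = ∫ t in cube40 K, f x t := by
      intro x
      rw [hf]
      simp only
      unfold archAvg40
      rw [integral_mul_const]
    simp_rw [e1]
    rw [integral_integral_swap hfint]
    simp_rw [hf, htransl]
    rw [setIntegral_const]
    simp [Measure.real, volume_cube267]
  unfold T5.innerD
  have e2 : ∀ x : G K, (ψ x - archAvg40 Y ψ x) * conj (χ x)
      = Ψ x - archAvg40 Y ψ x * conj (χ x) := by
    intro x
    rw [hΨ]
    ring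
  simp_rw [e2]
  rw [integral_sub hint1 hint2, hmean, sub_self]

end Fermat.Agent.LT.T7.H40.H267

end

end
-- ===== PACK-END LT/T7/H267/AvgOrth.lean

-- ===== PACK-BEGIN LT/T7/H543/LocCut.lean
section






/-!
# Row LT, tower T7, leaf C2.7.2 `LocCutC305` (helper543), OFF-MAIN

`locCutC543 : H305.LocCutC305`, VERBATIM the Prop of `LT/T7/H305/MatchCut.lean`
(helper305@56ddcdc02), UNCONDITIONAL.

Proof.  `GL₂(k)` is a locally compact, `σ`-compact Hausdorff group (helper420, `T6/H420/GLTop`),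
the twisted centraliser `T` of `δ` is closed (`continuous_glAut`) and commutative (it commutes with
the regular element `N δ`: helper584 `twCent_mul_twN584`, `commute_of_reg584`), so a Haar measure of
`T` is right invariant; `exists_cutoff584` (helper584, `T7/H584/Cutoff`).
-/

set_option autoImplicit false
set_option linter.style.haveILetI false
set_option linter.unusedSectionVars false

open MeasureTheory

noncomputable section

namespace Fermat.Agent.LT.T7.H543C

open Fermat.Agent.LT Fermat.Agent.LT.T6 Fermat.Agent.LT.T7 Fermat.Agent.LT.T7.H305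

section Local

variable {k : Type} [Field k] [Valued k T6.Γ₀]

/-- `(glAut s)^[m] x` has the entries `(s ^ m)` of the entries of `x`. -/
theorem glAut_iterate_apply543 (s : k ≃+* k) (m : ℕ) (x : GL (Fin 2) k) (i j : Fin 2) :
    (((T6.glAut s)^[m] x : GL (Fin 2) k) : Matrix (Fin 2) (Fin 2) k) i j
      = (s ^ m) ((x : Matrix (Fin 2) (Fin 2) k) i j) := by
  induction m with
  | zero => simp
  | succ m ih =>
    rw [Function.iterate_succ_apply', pow_succ']
    show s ((((T6.glAut s)^[m] x : GL (Fin 2) k) : Matrix (Fin 2) (Fin 2) k) i j) = _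
    rw [ih]
    rfl

theorem glAut_iterate_eq543 (s : k ≃+* k) (l : ℕ) (hsl : ∀ y : k, (s ^ l) y = y)
    (x : GL (Fin 2) k) : (T6.glAut s)^[l] x = x := by
  apply Units.ext
  ext i j
  rw [glAut_iterate_apply543, hsl]

/-- The twisted centraliser of `δ` is commutative if `N δ` is regular. -/
theorem twCent_comm543 (s : k ≃+* k) (l : ℕ) (hsl : ∀ y : k, (s ^ l) y = y)
    (δ : GL (Fin 2) k) (hreg : T6.IsReg (T6.twNorm s l δ))
    (t u : T6.twCentSub (T6.glAut s) δ) : t * u = u * t := by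
  have ht : (t : GL (Fin 2) k) * T6.twNorm s l δ = T6.twNorm s l δ * (t : GL (Fin 2) k) := by
    have h := T6.H584.twCent_mul_twN584 (T6.glAut s) δ (t : GL (Fin 2) k) t.2 l
    rw [glAut_iterate_eq543 s l hsl] at h
    exact h
  have hu : (u : GL (Fin 2) k) * T6.twNorm s l δ = T6.twNorm s l δ * (u : GL (Fin 2) k) := by
    have h := T6.H584.twCent_mul_twN584 (T6.glAut s) δ (u : GL (Fin 2) k) u.2 l
    rw [glAut_iterate_eq543 s l hsl] at h
    exact h
  have hd : ((T6.twNorm s l δ : GL (Fin 2) k) : Matrix (Fin 2) (Fin 2) k).trace ^ 2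
      - 4 * ((T6.twNorm s l δ : GL (Fin 2) k) : Matrix (Fin 2) (Fin 2) k).det ≠ 0 :=
    hreg.ne_zero
  have hm := T6.H584.commute_of_reg584
    ((T6.twNorm s l δ : GL (Fin 2) k) : Matrix (Fin 2) (Fin 2) k)
    ((t : GL (Fin 2) k) : Matrix (Fin 2) (Fin 2) k)
    ((u : GL (Fin 2) k) : Matrix (Fin 2) (Fin 2) k) hd
    (by rw [← Units.val_mul, ← Units.val_mul, ht])
    (by rw [← Units.val_mul, ← Units.val_mul, hu])
  apply Subtype.ext
  apply Units.ext
  rw [Subgroup.coe_mul, Subgroup.coe_mul, Units.val_mul, Units.val_mul]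
  exact hm

/-- The twisted centraliser is closed. -/
theorem isClosed_twCent543 {q : ℕ} (h : T6.IsLocalField k q) (s : k ≃+* k)
    (hs : ∀ y : k, Valued.v (s y) = Valued.v y) (δ : GL (Fin 2) k) :
    IsClosed ((T6.twCentSub (T6.glAut s) δ : Subgroup (GL (Fin 2) k)) : Set (GL (Fin 2) k)) := by
  have hc : Continuous (T6.glAut s) := T6.H420.continuous_glAut h s hs
  have hf : Continuous fun x : GL (Fin 2) k => x⁻¹ * δ * T6.glAut s x :=
    (continuous_inv.mul continuous_const).mul hc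
  exact isClosed_eq hf continuous_const

end Local

/-- **LEAF C2.7.2 `LocCutC305`.** -/
theorem locCutC543 : LocCutC305 := by
  intro k _ _ q h l s hs _ hsl δ hreg μT hμT
  haveI : LocallyCompactSpace (GL (Fin 2) k) := T6.H420.locallyCompactSpace_GL h
  haveI : SigmaCompactSpace (GL (Fin 2) k) := T6.H420.sigmaCompactSpace_GL h
  letI : MeasurableSpace (T6.twCentSub (T6.glAut s) δ) := borel _
  haveI : BorelSpace (T6.twCentSub (T6.glAut s) δ) := ⟨rfl⟩
  haveI : μT.IsHaarMeasure := hμT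
  haveI : μT.IsMulRightInvariant := by
    refine ⟨fun g => ?_⟩
    have e : (fun t : T6.twCentSub (T6.glAut s) δ => t * g) = fun t => g * t := by
      funext t
      exact twCent_comm543 s l hsl δ hreg t g
    rw [e]
    exact map_mul_left_eq_self μT g
  obtain ⟨β, hβc, hβ0, -, hβ1⟩ :=
    H584.exists_cutoff584 (T6.twCentSub (T6.glAut s) δ) μT (isClosed_twCent543 h s hs δ)
  exact ⟨β, hβc, hβ0, hβ1⟩

end Fermat.Agent.LT.T7.H543C

end

end
-- ===== PACK-END LT/T7/H543/LocCut.lean

-- ===== PACK-BEGIN LT/T7/H532/GoodSet.lean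
section



/-!
# Row LT, tower T7, leaf C2.7.10 `GoodSetC305` (registry row 2574) -- helper532

OFF-MAIN.  `goodSetC532 (K K') : H305.GoodSetC305 K K'`, VERBATIM against
`LT/T7/H305/MatchCut.lean` (helper305@56ddcdc02, sha256 0f302b81), unconditional.

Proof.  An element of a number field is integral at almost all finite places
(`HeightOneSpectrum.Support.finite`), a non-zero element is a unit at almost all finite places;
every finite place of `K'` lies over a finite place of `K` (the contraction of the prime ideal),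
and finitely many places of `K'` lie over a given place of `K` (`Ideal.finite_factors`).
-/

set_option autoImplicit false
set_option linter.unusedSectionVars false

open IsDedekindDomain NumberField

namespace Fermat.Agent.LT.T7.H532

open Fermat.Agent.LT Fermat.Agent.LT.T7 Fermat.Agent.LT.T7.H305

section OneField

variable {K : Type} [Field K] [NumberField K]

/-- An element of `K` is integral at almost all finite places. -/
theorem finite_not_integral532 (x : K) :
    {v : HeightOneSpectrum (𝓞 K) |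
      ¬ Valued.v (algebraMap K (v.adicCompletion K) x) ≤ 1}.Finite := by
  refine (HeightOneSpectrum.Support.finite (𝓞 K) x).subset ?_
  intro v hv
  simp only [Set.mem_ofPred_eq, not_le] at hv
  have h := HeightOneSpectrum.valuedAdicCompletion_eq_valuation' v x
  show 1 < v.valuation K x
  rw [← h]
  exact hv

/-- A non-zero element of `K` is a unit at almost all finite places. -/
theorem finite_not_unit532 {x : K} (hx : x ≠ 0) :
    {v : HeightOneSpectrum (𝓞 K) |
      Valued.v (algebraMap K (v.adicCompletion K) x) ≠ 1}.Finite := by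
  refine ((finite_not_integral532 x).union (finite_not_integral532 x⁻¹)).subset ?_
  intro v hv
  simp only [Set.mem_ofPred_eq] at hv
  by_contra hcon
  simp only [Set.mem_union, Set.mem_ofPred_eq, not_or, not_not] at hcon
  obtain ⟨h1, h2⟩ := hcon
  apply hv
  have hx' : algebraMap K (v.adicCompletion K) x ≠ 0 := by
    intro h0
    exact hx ((map_eq_zero _).mp h0)
  have hv0 : Valued.v (algebraMap K (v.adicCompletion K) x) ≠ 0 :=
    (Valuation.ne_zero_iff _).mpr hx'
  rw [map_inv₀, map_inv₀] at h2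
  have h3 : 1 ≤ Valued.v (algebraMap K (v.adicCompletion K) x) := by
    by_contra hlt
    rw [not_le] at hlt
    have : 1 < (Valued.v (algebraMap K (v.adicCompletion K) x))⁻¹ :=
      (one_lt_inv₀ (zero_lt_iff.mpr hv0)).mpr hlt
    exact absurd h2 (not_le.mpr this)
  exact le_antisymm h1 h3

/-- The entries of the image of `γ` in `GL₂(K_v)`. -/
theorem locG_apply532 (v : HeightOneSpectrum (𝓞 K)) (γ : GL (Fin 2) K) (i j : Fin 2) :
    ((locG305 v γ : GL (Fin 2) (v.adicCompletion K)) :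
        Matrix (Fin 2) (Fin 2) (v.adicCompletion K)) i j
      = algebraMap K (v.adicCompletion K) ((γ : Matrix (Fin 2) (Fin 2) K) i j) := rfl

/-- The entries of the inverse of the image of `γ` in `GL₂(K_v)`. -/
theorem locG_inv_apply532 (v : HeightOneSpectrum (𝓞 K)) (γ : GL (Fin 2) K) (i j : Fin 2) :
    (((locG305 v γ)⁻¹ : GL (Fin 2) (v.adicCompletion K)) :
        Matrix (Fin 2) (Fin 2) (v.adicCompletion K)) i j
      = algebraMap K (v.adicCompletion K) (((γ⁻¹ : GL (Fin 2) K) :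
          Matrix (Fin 2) (Fin 2) K) i j) := by
  rw [← map_inv]
  rfl

/-- The discriminant of the image of `γ` is the image of the discriminant. -/
theorem disc_locG532 (v : HeightOneSpectrum (𝓞 K)) (γ : GL (Fin 2) K) :
    T6.disc (locG305 v γ) = algebraMap K (v.adicCompletion K) (T6.disc γ) := by
  unfold T6.disc
  rw [Matrix.trace_fin_two, Matrix.det_fin_two, Matrix.trace_fin_two, Matrix.det_fin_two]
  simp only [locG_apply532, map_sub, map_mul, map_pow, map_add, map_ofNat]

/-- Integral entries (of the matrix and of its inverse) give `InU 0`. -/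
theorem inU_of_integral532 (v : HeightOneSpectrum (𝓞 K)) (γ : GL (Fin 2) K)
    (h : ∀ i j : Fin 2,
      Valued.v (algebraMap K (v.adicCompletion K) ((γ : Matrix (Fin 2) (Fin 2) K) i j)) ≤ 1 ∧
      Valued.v (algebraMap K (v.adicCompletion K)
        (((γ⁻¹ : GL (Fin 2) K) : Matrix (Fin 2) (Fin 2) K) i j)) ≤ 1) :
    T6.InU 0 (locG305 v γ) := by
  have hone : ∀ i j : Fin 2,
      Valued.v ((1 : Matrix (Fin 2) (Fin 2) (v.adicCompletion K)) i j) ≤ 1 := by
    intro i j
    rw [Matrix.one_apply]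
    split_ifs
    · rw [map_one]
    · rw [map_zero]; exact zero_le_one
  intro i j
  have he : WithZero.exp (-((0 : ℕ) : ℤ)) = (1 : T6.Γ₀) := by
    simp
  rw [he]
  refine ⟨?_, ?_⟩
  · rw [locG_apply532]
    exact le_trans (Valuation.map_sub _ _ _) (max_le (h i j).1 (hone i j))
  · rw [locG_inv_apply532]
    exact le_trans (Valuation.map_sub _ _ _) (max_le (h i j).2 (hone i j))

/-- The places where `γ` is not integral form a finite set. -/
theorem finite_not_inU532 (γ : GL (Fin 2) K) :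
    {v : HeightOneSpectrum (𝓞 K) | ¬ T6.InU 0 (locG305 v γ)}.Finite := by
  have hfin : (⋃ i : Fin 2, ⋃ j : Fin 2,
      ({v : HeightOneSpectrum (𝓞 K) | ¬ Valued.v (algebraMap K (v.adicCompletion K)
          ((γ : Matrix (Fin 2) (Fin 2) K) i j)) ≤ 1} ∪
        {v : HeightOneSpectrum (𝓞 K) | ¬ Valued.v (algebraMap K (v.adicCompletion K)
          (((γ⁻¹ : GL (Fin 2) K) : Matrix (Fin 2) (Fin 2) K) i j)) ≤ 1})).Finite :=
    Set.finite_iUnion fun i => Set.finite_iUnion fun j =>
      (finite_not_integral532 _).union (finite_not_integral532 _)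
  refine hfin.subset ?_
  intro v hv
  simp only [Set.mem_ofPred_eq] at hv
  by_contra hcon
  apply hv
  apply inU_of_integral532
  intro i j
  simp only [Set.mem_iUnion, Set.mem_union, Set.mem_ofPred_eq, not_exists, not_or, not_not]
    at hcon
  exact hcon i j

/-- The places where an elliptic `γ` is not good form a finite set. -/
theorem finite_not_good532 (γ : GL (Fin 2) K) (hγ : T6.IsEll γ) :
    {v : HeightOneSpectrum (𝓞 K) |
      ¬ (T6.InU 0 (locG305 v γ) ∧ Valued.v (T6.disc (locG305 v γ)) = 1)}.Finite := by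
  have hd : T6.disc γ ≠ 0 := hγ.1.ne_zero
  refine ((finite_not_inU532 γ).union (finite_not_unit532 hd)).subset ?_
  intro v hv
  simp only [Set.mem_ofPred_eq, not_and_or] at hv
  rcases hv with hv | hv
  · exact Or.inl hv
  · right
    simp only [Set.mem_ofPred_eq]
    rw [← disc_locG532]
    exact hv

end OneField

section TwoFields

variable (K K' : Type) [Field K] [NumberField K] [Field K'] [NumberField K'] [Algebra K K']

omit [NumberField K] [NumberField K'] in
/-- The coercion of the image of an integer of `K` in the integers of `K'`. -/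
theorem coe_algebraMap532 (x : 𝓞 K) :
    ((algebraMap (𝓞 K) (𝓞 K') x : 𝓞 K') : K') = algebraMap K K' (x : K) := rfl

/-- The place of `K` under a place of `K'`. -/
noncomputable def under532 (w : HeightOneSpectrum (𝓞 K')) : HeightOneSpectrum (𝓞 K) where
  asIdeal := w.asIdeal.comap (algebraMap (𝓞 K) (𝓞 K'))
  isPrime := Ideal.comap_isPrime _ _
  ne_bot := fun h => w.ne_bot (Ideal.eq_bot_of_comap_eq_bot h)

/-- The equation lemmas of `under532`, realised in the defining module (kernel-checker collision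
rule of the row). -/
theorem under532_eqns_realised : True := by
  have _h0 := @under532.eq_def
  have _h1 := @under532.eq_1
  trivial

theorem placeOver_under532 (w : HeightOneSpectrum (𝓞 K')) :
    PlaceOver K K' (under532 K K' w) w := by
  intro x y hxy
  have hy : y = algebraMap (𝓞 K) (𝓞 K') x := by
    apply RingOfIntegers.ext
    rw [hxy]
    rfl
  rw [hy]
  exact Ideal.mem_comap

/-- Finitely many places of `K'` lie over a place of `K`. -/
theorem finite_placeOver532 (v : HeightOneSpectrum (𝓞 K)) :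
    {w : HeightOneSpectrum (𝓞 K') | PlaceOver K K' v w}.Finite := by
  have hne : v.asIdeal.map (algebraMap (𝓞 K) (𝓞 K')) ≠ 0 := by
    obtain ⟨x, hx, hx0⟩ := Submodule.exists_mem_ne_zero_of_ne_bot v.ne_bot
    intro h0
    have hmem : algebraMap (𝓞 K) (𝓞 K') x ∈ v.asIdeal.map (algebraMap (𝓞 K) (𝓞 K')) :=
      Ideal.mem_map_of_mem _ hx
    rw [h0] at hmem
    have hz : algebraMap (𝓞 K) (𝓞 K') x = 0 := hmem
    have hz' : algebraMap K K' (x : K) = 0 := by
      rw [← coe_algebraMap532, hz]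
      rfl
    have : (x : K) = 0 := (map_eq_zero _).mp hz'
    exact hx0 (RingOfIntegers.ext this)
  refine (Ideal.finite_factors hne).subset ?_
  intro w hw
  simp only [Set.mem_ofPred_eq] at hw ⊢
  rw [Ideal.dvd_iff_le, Ideal.map_le_iff_le_comap]
  intro x hx
  rw [Ideal.mem_comap]
  exact (hw x (algebraMap (𝓞 K) (𝓞 K') x) (coe_algebraMap532 K K' x)).mp hx

open Classical in
/-- **LEAF C2.7.10 = GOOD-SET** (registry row 2574), VERBATIM. -/
theorem goodSetC532 : GoodSetC305 K K' := by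
  intro γ δ hγ T
  -- the bad places of `γ` and of `δ`
  set Bγ : Finset (HeightOneSpectrum (𝓞 K)) := (finite_not_good532 γ hγ).toFinset with hBγ
  set Bδ : Finset (HeightOneSpectrum (𝓞 K')) := (finite_not_inU532 δ).toFinset with hBδ
  set S : Finset (HeightOneSpectrum (𝓞 K)) := T ∪ Bγ ∪ Bδ.image (under532 K K') with hS
  have hfin : (⋃ v ∈ (S : Set (HeightOneSpectrum (𝓞 K))),
      {w : HeightOneSpectrum (𝓞 K') | PlaceOver K K' v w}).Finite :=
    Set.Finite.biUnion S.finite_toSet fun v _ => finite_placeOver532 K K' v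
  refine ⟨S, hfin.toFinset, ?_, ?_, ?_, ?_⟩
  · intro v hv
    rw [hS]
    exact Finset.mem_union_left _ (Finset.mem_union_left _ hv)
  · intro w
    rw [Set.Finite.mem_toFinset]
    simp only [Set.mem_iUnion, Set.mem_ofPred_eq, Finset.mem_coe, exists_prop]
  · intro v hv
    by_contra hcon
    apply hv
    rw [hS]
    refine Finset.mem_union_left _ (Finset.mem_union_right _ ?_)
    rw [hBγ, Set.Finite.mem_toFinset]
    exact hcon
  · intro w hw
    by_contra hcon
    apply hw
    rw [Set.Finite.mem_toFinset]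
    simp only [Set.mem_iUnion, Set.mem_ofPred_eq, Finset.mem_coe, exists_prop]
    refine ⟨under532 K K' w, ?_, placeOver_under532 K K' w⟩
    rw [hS]
    refine Finset.mem_union_right _ (Finset.mem_image.mpr ⟨w, ?_, rfl⟩)
    rw [hBδ, Set.Finite.mem_toFinset]
    exact hcon

end TwoFields

end Fermat.Agent.LT.T7.H532

end
-- ===== PACK-END LT/T7/H532/GoodSet.lean

-- ===== PACK-BEGIN LT/T7/H729/IotaInf.lean
section




/-!
# Row LT, tower T7, leaf T7.L2.1.C2.4.2 `H943.IotaInfC943` (helper729)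

OFF-MAIN.  PROVED, UNCONDITIONAL (no hole, nothing assumed).  ADDITIVE (new names only).
Spec: `LT/T7/H943/IotaSpec.lean` (helper943@64e398e16, sha256 7da0d68c), byte-identical copy.

    iotaInfC729 K K' : H943.IotaInfC943 K K'

Route: `T5.infHom w' (ι x) = extensionEmbedding w' (completionMap (x.1 v))`,
`v = w'.comap (algebraMap K K')` (definitional), then the Mathlib-only core
`extEmb_completionMap729` (Mathlib `liesOver_extensionEmbedding`,
`liesOver_conjugate_extensionEmbedding`).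
-/

set_option autoImplicit false

open AutomorphicForm IsDedekindDomain NumberField MeasureTheory
open scoped ComplexConjugate

noncomputable section

namespace Fermat.Agent.LT.T7.IotaInf729

open Fermat.Agent.LT.H556 Fermat.Agent.LT.H556.A0 Fermat.Agent.LT.T7

/-- **LEAF T7.L2.1.C2.4.2 `H943.IotaInfC943`** (the field `inf` of the base change of adeles). -/
theorem iotaInfC729 (K K' : Type) [Field K] [NumberField K] [Field K'] [NumberField K']
    [Algebra K K'] : H943.IotaInfC943 K K' := by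
  intro w'
  have : w'.LiesOver (w'.comap (algebraMap K K')) :=
    Fermat.Agent.LT.A2.H743.infUnder_liesOver743 K K' w'
  rcases extEmb_completionMap729 w' (w'.comap (algebraMap K K')) with h | h
  · left
    intro x
    exact h (x.1 (w'.comap (algebraMap K K')))
  · right
    intro x
    exact h (x.1 (w'.comap (algebraMap K K')))

end Fermat.Agent.LT.T7.IotaInf729

end

end
-- ===== PACK-END LT/T7/H729/IotaInf.lean

-- ===== PACK-BEGIN LT/T7/H816/OntoFin.lean
section




/-!
# Row LT, tower T7, leaf C2.4 `IotaC305`, sub-leaf I.4 `OntoFinC816` (registry 2477) -- helper816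

OFF-MAIN.  `ontoFinC816 (K K') : OntoFinC816 K K'`: an adele `y` of `K'` which is fixed by `σ_𝔸`
comes from `K_v` at the places over `v`, for ANY pre-base change `ι`
(`(∏_{w ∣ v} K'_w)^σ = K_v`).

Proof (trace + weak approximation + completeness; no local class field theory, no case
distinction split / non-split).  Let `W` be the finite set of the places over `v`.
* `trace_approx816`: for every `n` there is `t ∈ K` with `|i_w(t) - l y_w|_w ≤ exp(-n)` for all
  `w ∈ W`: choose `ξ ∈ K'` close to `y` at the places of `W` (helper131 `weakApprox_h131`) and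
  `t = Tr ξ = ∑_{k<l} σ^k ξ ∈ K`; `l y_w = ∑_k (σ_𝔸^k y)_w = ∑_k s_{k,w}(y_{σ^{-k} w})`
  (`SigmaLocC305` for the adelic automorphism `σ^k`, `powAut816`) and
  `i_w(t) = ∑_k s_{k,w}(ξ)`; the `s_{k,w}` preserve the valuations.
* `exists_of_approx816`: `K_v` is complete and `|i x| = |x|^e`: a limit of values of `i` is a
  value of `i`.  So `l y_{w₀} = i_{w₀}(a)`; then `i_w(a) = l y_w` for every `w ∈ W` (the same
  approximations `t`), and `x_v = a / l`.
-/

set_option autoImplicit false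
set_option linter.unusedSectionVars false
set_option linter.unusedVariables false

open AutomorphicForm IsDedekindDomain NumberField
open scoped ComplexConjugate
open Fermat.Agent.LT.T2.H131

noncomputable section

namespace Fermat.Agent.LT.T7.H816

open Fermat.Agent.LT.H556 Fermat.Agent.LT.H556.A0 Fermat.Agent.LT.T7
open Fermat.Agent.LT.T7.H305


section Valued

variable {F F' : Type} [Field F] [Field F'] [Valued F (WithZero (Multiplicative ℤ))]
  [Valued F' (WithZero (Multiplicative ℤ))]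

/-- Strict monotonicity of powers, converse. -/
theorem lt_of_pow_lt816 {a b : WithZero (Multiplicative ℤ)} {e : ℕ} (h : a ^ e < b ^ e) :
    a < b := by
  by_contra hab
  exact absurd (pow_le_pow_left₀ zero_le (not_lt.1 hab) e) (not_le.2 h)

/-- A Cauchy criterion in a valued field. -/
theorem cauchy_iff816 {G : Filter F} : Cauchy G ↔ G.NeBot ∧
    ∀ c : F, c ≠ 0 → ∃ M ∈ G, ∀ x ∈ M, ∀ y ∈ M, Valued.v (y - x) < Valued.v c := by
  rw [Valued.cauchy_iff]
  refine and_congr Iff.rfl ⟨fun h c hc => ?_, fun h γ => ?_⟩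
  · have h' : (Valued.v : Valuation F _).restrict c ≠ 0 := by
      rw [Ne, Valuation.restrict_eq_zero_iff]
      simpa using hc
    obtain ⟨M, hM, hM'⟩ := h (Units.mk0 _ h')
    refine ⟨M, hM, fun x hx y hy => ?_⟩
    have := hM' x hx y hy
    rw [Units.val_mk0] at this
    exact (Valuation.restrict_lt_iff _).1 this
  · obtain ⟨c, hc⟩ := MonoidWithZeroHom.ValueGroup₀.restrict₀_surjective
      (f := (MonoidWithZeroHom.ofClass (Valued.v : Valuation F _))) γ.1
    have hc' : (Valued.v : Valuation F _).restrict c = γ.1 := hc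
    have hc0 : c ≠ 0 := by
      rintro rfl
      rw [map_zero] at hc'
      exact γ.ne_zero hc'.symm
    obtain ⟨M, hM, hM'⟩ := h c hc0
    refine ⟨M, hM, fun x hx y hy => ?_⟩
    rw [← hc']
    exact (Valuation.restrict_lt_iff _).2 (hM' x hx y hy)

end Valued




section Lift

variable {K : Type} [Field K] [NumberField K]
variable {F' : Type} [Field F'] [Valued F' (WithZero (Multiplicative ℤ))]

/-- Powers of small elements are small. -/
theorem pow_le_of_le816 {a : WithZero (Multiplicative ℤ)} {n : ℕ}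
    (h : a ≤ WithZero.exp (-(n : ℤ))) {e : ℕ} (he : 0 < e) :
    a ^ e ≤ WithZero.exp (-(n : ℤ)) := by
  refine (pow_le_pow_left₀ zero_le h e).trans ?_
  rw [← WithZero.exp_nsmul, WithZero.exp_le_exp, nsmul_eq_mul]
  have h1 : (1 : ℤ) ≤ (e : ℤ) := by exact_mod_cast he
  have h2 : (0 : ℤ) ≤ (n : ℤ) := Int.natCast_nonneg n
  nlinarith

/-- A ring homomorphism of the completion which multiplies the valuations by `e` is
continuous. -/
theorem continuous_of_val816 (v : HeightOneSpectrum (𝓞 K)) (i : v.adicCompletion K →+* F')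
    (e : ℕ) (he : 0 < e) (hval : ∀ x : v.adicCompletion K, Valued.v (i x) = Valued.v x ^ e) :
    Continuous i := by
  rw [continuous_iff_continuousAt]
  intro a
  rw [ContinuousAt, Filter.tendsto_def]
  intro s hs
  obtain ⟨c', hc', hcs⟩ := exists_ball_subset_h131 (i a) hs
  have hvc' : Valued.v c' ≠ 0 := by simpa using hc'
  obtain ⟨n, hn⟩ := exists_exp_neg_lt_h131 hvc'
  obtain ⟨c, hc0, hc⟩ := exists_valued_eq_exp_h131 (K := K) v (-(n : ℤ))
  refine Filter.mem_of_superset (ball_mem_nhds_h131 a c hc0) ?_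
  intro x hx
  apply hcs
  simp only [Set.mem_ofPred_eq] at hx ⊢
  rw [← map_sub, hval]
  rw [hc] at hx
  exact lt_of_le_of_lt (pow_le_of_le816 hx.le he) hn

/-- **Lifting limits.**  If `z` is a limit of values of `i` then `z` is a value of `i`
(`K_v` is complete). -/
theorem exists_of_approx816 (v : HeightOneSpectrum (𝓞 K)) (i : v.adicCompletion K →+* F')
    (e : ℕ) (he : 0 < e) (hval : ∀ x : v.adicCompletion K, Valued.v (i x) = Valued.v x ^ e)
    (z : F')
    (hz : ∀ n : ℕ, ∃ t : v.adicCompletion K, Valued.v (i t - z) ≤ WithZero.exp (-(n : ℤ))) :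
    ∃ a : v.adicCompletion K, i a = z := by
  have hcont := continuous_of_val816 v i e he hval
  have hz' : ∀ c : F', c ≠ 0 → ∃ t : v.adicCompletion K, Valued.v (i t - z) < Valued.v c := by
    intro c hc
    have hvc : Valued.v c ≠ 0 := by simpa using hc
    obtain ⟨n, hn⟩ := exists_exp_neg_lt_h131 hvc
    obtain ⟨t, ht⟩ := hz n
    exact ⟨t, lt_of_le_of_lt ht hn⟩
  have hne : (Filter.comap i (nhds z)).NeBot := by
    rw [Filter.comap_neBot_iff]
    intro s hs
    obtain ⟨c, hc, hcs⟩ := exists_ball_subset_h131 z hs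
    obtain ⟨t, ht⟩ := hz' c hc
    exact ⟨t, hcs ht⟩
  have hC : Cauchy (Filter.comap i (nhds z)) := by
    rw [cauchy_iff816]
    refine ⟨hne, fun c hc => ?_⟩
    have hic : i c ≠ 0 := by
      intro h
      have := hval c
      rw [h, map_zero] at this
      have hvc : Valued.v c ≠ 0 := by simpa using hc
      exact pow_ne_zero e hvc this.symm
    refine ⟨i ⁻¹' {u | Valued.v (u - z) < Valued.v (i c)},
      Filter.preimage_mem_comap (ball_mem_nhds_h131 z (i c) hic), fun x hx y hy => ?_⟩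
    simp only [Set.mem_preimage, Set.mem_ofPred_eq] at hx hy
    apply lt_of_pow_lt816 (e := e)
    rw [← hval, ← hval, map_sub]
    have : i y - i x = (i y - z) - (i x - z) := by ring
    rw [this]
    exact lt_of_le_of_lt (Valuation.map_sub _ _ _) (max_lt hy hx)
  obtain ⟨a, ha⟩ := CompleteSpace.complete hC
  refine ⟨a, ?_⟩
  have h1 : Filter.Tendsto i (Filter.comap i (nhds z)) (nhds (i a)) :=
    (hcont.tendsto a).mono_left ha
  have h2 : Filter.Tendsto i (Filter.comap i (nhds z)) (nhds z) := Filter.tendsto_comap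
  exact tendsto_nhds_unique h1 h2

end Lift




section Pow

variable {K : Type} [Field K] [NumberField K]

/-- The powers of an adelic automorphism. -/
def powAut816 (s : T5.AdelicAut K) (k : ℕ) : T5.AdelicAut K where
  σ := s.σ ^ k
  σA := s.σA ^ k
  continuous_σA := by
    induction k with
    | zero => exact continuous_id
    | succ n ih =>
      have : ((s.σA ^ (n + 1) : Adl K ≃+* Adl K) : Adl K → Adl K)
          = (s.σA ^ n : Adl K ≃+* Adl K) ∘ s.σA := by
        rw [pow_succ]; rfl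
      rw [this]
      exact ih.comp s.continuous_σA
  continuous_symm := by
    induction k with
    | zero => exact continuous_id
    | succ n ih =>
      have : (((s.σA ^ (n + 1) : Adl K ≃+* Adl K)).symm : Adl K → Adl K)
          = s.σA.symm ∘ (s.σA ^ n : Adl K ≃+* Adl K).symm := by
        rw [pow_succ]; rfl
      rw [this]
      exact s.continuous_symm.comp ih
  compat := by
    induction k with
    | zero => intro x; rfl
    | succ n ih =>
      intro x
      have e1 : (s.σA ^ (n + 1) : Adl K ≃+* Adl K) (algebraMap K (Adl K) x)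
          = (s.σA ^ n : Adl K ≃+* Adl K) (s.σA (algebraMap K (Adl K) x)) := by
        rw [pow_succ]; rfl
      have e2 : (s.σ ^ (n + 1) : K ≃+* K) x = (s.σ ^ n : K ≃+* K) (s.σ x) := by
        rw [pow_succ]; rfl
      rw [e1, e2, s.compat, ih]

theorem powAut_σ816 (s : T5.AdelicAut K) (k : ℕ) : (powAut816 s k).σ = s.σ ^ k := rfl

theorem powAut_σA816 (s : T5.AdelicAut K) (k : ℕ) : (powAut816 s k).σA = s.σA ^ k := rfl

/-- A fixed point of `σ_𝔸` is a fixed point of its powers. -/
theorem fixed_pow816 (s : T5.AdelicAut K) {y : Adl K} (hy : s.σA y = y) (k : ℕ) :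
    (powAut816 s k).σA y = y := by
  rw [powAut_σA816]
  induction k with
  | zero => rfl
  | succ n ih =>
    have e1 : (s.σA ^ (n + 1) : Adl K ≃+* Adl K) y = (s.σA ^ n : Adl K ≃+* Adl K) (s.σA y) := by
      rw [pow_succ]; rfl
    rw [e1, hy, ih]

/-- The place `τ⁻¹ w`. -/
def prePlace816 (τ : K ≃+* K) (w : HeightOneSpectrum (𝓞 K)) : HeightOneSpectrum (𝓞 K) :=
  HeightOneSpectrum.comap ((NumberField.RingOfIntegers.mapRingEquiv τ : 𝓞 K ≃+* 𝓞 K) : 𝓞 K →+* 𝓞 K)
    (NumberField.RingOfIntegers.mapRingEquiv τ).surjective w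

theorem placeRel_prePlace816 (s : T5.AdelicAut K) (w : HeightOneSpectrum (𝓞 K)) :
    T5.PlaceRel s (prePlace816 s.σ w) w := by
  show w.asIdeal = Ideal.map (NumberField.RingOfIntegers.mapRingEquiv s.σ)
    (Ideal.comap (NumberField.RingOfIntegers.mapRingEquiv s.σ) w.asIdeal)
  exact (Ideal.map_comap_of_surjective (NumberField.RingOfIntegers.mapRingEquiv s.σ)
    (NumberField.RingOfIntegers.mapRingEquiv s.σ).surjective w.asIdeal).symm

omit [NumberField K] in
theorem mem_prePlace816 (τ : K ≃+* K) (w : HeightOneSpectrum (𝓞 K)) (y : 𝓞 K) :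
    y ∈ (prePlace816 τ w).asIdeal ↔ NumberField.RingOfIntegers.mapRingEquiv τ y ∈ w.asIdeal :=
  Iff.rfl

end Pow


section Main

variable {K K' : Type} [Field K] [NumberField K] [Field K'] [NumberField K'] [Algebra K K']

/-- `σ` fixes `K`. -/
theorem sigma_alg816 {D : CompData K K'} (hD : IsCompData D) (x : K) :
    D.s.σ (algebraMap K K' x) = algebraMap K K' x :=
  (hD.cyc.fixed _).1 ((hD.base _).2 ⟨x, rfl⟩)

theorem sigma_pow_alg816 {D : CompData K K'} (hD : IsCompData D) (k : ℕ) (x : K) :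
    (D.s.σ ^ k) (algebraMap K K' x) = algebraMap K K' x := by
  induction k with
  | zero => rfl
  | succ n ih =>
    have e2 : (D.s.σ ^ (n + 1) : K' ≃+* K') (algebraMap K K' x)
        = (D.s.σ ^ n : K' ≃+* K') (D.s.σ (algebraMap K K' x)) := by
      rw [pow_succ]; rfl
    rw [e2, sigma_alg816 hD, ih]

/-- The trace is rational. -/
theorem exists_trace816 {D : CompData K K'} (hD : IsCompData D) (ξ : K') :
    ∃ t : K, algebraMap K K' t = ∑ k ∈ Finset.range D.l, (D.s.σ ^ k) ξ := by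
  have hfix : D.s.σ (∑ k ∈ Finset.range D.l, (D.s.σ ^ k) ξ)
      = ∑ k ∈ Finset.range D.l, (D.s.σ ^ k) ξ := by
    rw [map_sum]
    have e1 : ∀ k : ℕ, D.s.σ ((D.s.σ ^ k) ξ) = (D.s.σ ^ (k + 1)) ξ := by
      intro k
      rw [pow_succ']; rfl
    simp only [e1]
    have h1 := Finset.sum_range_succ (fun k => (D.s.σ ^ k) ξ) D.l
    have h2 := Finset.sum_range_succ' (fun k => (D.s.σ ^ k) ξ) D.l
    have h3 : (D.s.σ ^ D.l) ξ = ξ := hD.cyc.pow_eq ξ
    have h4 : (D.s.σ ^ 0) ξ = ξ := rfl
    rw [h1] at h2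
    simp only [h3, h4] at h2
    exact (add_right_cancel h2).symm
  obtain ⟨t, ht⟩ := (hD.base _).1 ((hD.cyc.fixed _).2 hfix)
  exact ⟨t, ht⟩

/-- The places over `v` are permuted by the powers of `σ`. -/
theorem placeOver_prePlace816 {D : CompData K K'} (hD : IsCompData D) (k : ℕ)
    {v : HeightOneSpectrum (𝓞 K)} {w : HeightOneSpectrum (𝓞 K')} (h : PlaceOver K K' v w) :
    PlaceOver K K' v (prePlace816 (D.s.σ ^ k) w) := by
  intro x y hxy
  rw [mem_prePlace816]
  apply h x
  rw [NumberField.RingOfIntegers.mapRingEquiv_apply, hxy, sigma_pow_alg816 hD]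

/-- The set of the places over `v` is finite. -/
theorem finite_over816 (v : HeightOneSpectrum (𝓞 K)) :
    {w : HeightOneSpectrum (𝓞 K') | PlaceOver K K' v w}.Finite := by
  obtain ⟨a, hav, ha0⟩ := Submodule.exists_mem_ne_zero_of_ne_bot v.ne_bot
  set b : 𝓞 K' := algebraMap (𝓞 K) (𝓞 K') a with hb
  have hbK : (b : K') = algebraMap K K' (a : K) := rfl
  have hb0 : b ≠ 0 := by
    intro h
    apply ha0
    have h1 : (b : K') = 0 := by rw [h]; rfl
    rw [hbK] at h1
    have h2 : (a : K) = 0 := (map_eq_zero (algebraMap K K')).1 h1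
    exact Subtype.ext h2
  have hI : Ideal.span {b} ≠ 0 := by
    rw [Ne, Ideal.zero_eq_bot, Ideal.span_singleton_eq_bot]
    exact hb0
  refine (Ideal.finite_factors hI).subset ?_
  intro w hw
  simp only [Set.mem_ofPred_eq] at hw ⊢
  rw [Ideal.dvd_iff_le, Ideal.span_singleton_le_iff_mem]
  exact (hw a b hbK).1 hav

/-- **Approximation of `l y` by traces.** -/
theorem trace_approx816 {D : CompData K K'} (hD : IsCompData D) (hS : SigmaLocC305 K')
    (y : Adl K') (hy : D.s.σA y = y) (v : HeightOneSpectrum (𝓞 K)) (n : ℕ) :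
    ∃ t : K, ∀ w : HeightOneSpectrum (𝓞 K'), PlaceOver K K' v w →
      Valued.v (algebraMap K' (w.adicCompletion K') (algebraMap K K' t)
        - (D.l : w.adicCompletion K') * T5.finHom w y) ≤ WithZero.exp (-(n : ℤ)) := by
  classical
  obtain ⟨ξ, hξ⟩ := weakApprox_h131 (finite_over816 (K' := K') v).toFinset
    (fun w => T5.finHom w y) (fun _ => n)
  obtain ⟨t, ht⟩ := exists_trace816 hD ξ
  refine ⟨t, fun w hw => ?_⟩
  have key : ∀ k : ℕ, Valued.v (algebraMap K' (w.adicCompletion K') ((D.s.σ ^ k) ξ)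
      - T5.finHom w y) ≤ WithZero.exp (-(n : ℤ)) := by
    intro k
    have hrel : T5.PlaceRel (powAut816 D.s k) (prePlace816 (D.s.σ ^ k) w) w :=
      placeRel_prePlace816 (powAut816 D.s k) w
    obtain ⟨sw, hsw1, hsw2, hsw3⟩ := (hS (powAut816 D.s k)).1 _ w hrel
    have hw' : PlaceOver K K' v (prePlace816 (D.s.σ ^ k) w) := placeOver_prePlace816 hD k hw
    have h1 : T5.finHom w y = sw (T5.finHom (prePlace816 (D.s.σ ^ k) w) y) := by
      rw [← hsw3, fixed_pow816 D.s hy k]
    have h2 : algebraMap K' (w.adicCompletion K') ((D.s.σ ^ k) ξ)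
        = sw (algebraMap K' ((prePlace816 (D.s.σ ^ k) w).adicCompletion K') ξ) := (hsw1 ξ).symm
    rw [h1, h2, ← map_sub, hsw2]
    exact hξ _ ((Set.Finite.mem_toFinset _).2 hw')
  have hsum : algebraMap K' (w.adicCompletion K') (algebraMap K K' t)
      - (D.l : w.adicCompletion K') * T5.finHom w y
      = ∑ k ∈ Finset.range D.l,
          (algebraMap K' (w.adicCompletion K') ((D.s.σ ^ k) ξ) - T5.finHom w y) := by
    rw [ht, map_sum, Finset.sum_sub_distrib, Finset.sum_const, Finset.card_range, nsmul_eq_mul]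
  rw [hsum]
  exact Valuation.map_sum_le _ (fun k _ => key k)

/-- Natural numbers are invertible in the completions. -/
theorem natCast_ne_zero816 (w : HeightOneSpectrum (𝓞 K')) {l : ℕ} (hl : 0 < l) :
    (l : w.adicCompletion K') ≠ 0 := by
  have h1 : (l : w.adicCompletion K') = algebraMap K' (w.adicCompletion K') (l : K') := by
    rw [map_natCast]
  rw [h1, Ne, map_eq_zero]
  exact_mod_cast hl.ne'

open scoped Classical in
/-- The adele with component `x` at `v` and `0` elsewhere. -/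
def single816 (v : HeightOneSpectrum (𝓞 K)) (x : v.adicCompletion K) : Adl K :=
  ((0 : InfiniteAdeleRing K),
    (show FiniteAdeleRing (𝓞 K) K from
      RestrictedProduct.single (fun v : HeightOneSpectrum (𝓞 K) => v.adicCompletionIntegers K)
        v x))

theorem finHom_single816 (v : HeightOneSpectrum (𝓞 K)) (x : v.adicCompletion K) :
    T5.finHom v (single816 v x) = x := by
  classical
  exact RestrictedProduct.single_eq_same
    (fun v : HeightOneSpectrum (𝓞 K) => v.adicCompletionIntegers K) v x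

variable (K K')

/-- **LEAF I.4 = ONTO-FIN** (registry 2477). -/
theorem ontoFinC816 : OntoFinC816 K K' := by
  classical
  intro D hD hcyc hT hS ι hι y hy v
  by_cases hW : ∃ w₀ : HeightOneSpectrum (𝓞 K'), PlaceOver K K' v w₀
  swap
  · exact ⟨0, fun w hw => absurd ⟨w, hw⟩ hW⟩
  obtain ⟨w₀, hw₀⟩ := hW
  choose e i he hrat hval hfin using
    fun (w : HeightOneSpectrum (𝓞 K')) (hw : PlaceOver K K' v w) => hι.fin v w hw
  have happ : ∀ n : ℕ, ∃ t : K, ∀ (w : HeightOneSpectrum (𝓞 K')) (hw : PlaceOver K K' v w),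
      Valued.v (i w hw (algebraMap K (v.adicCompletion K) t)
        - (D.l : w.adicCompletion K') * T5.finHom w y) ≤ WithZero.exp (-(n : ℤ)) := by
    intro n
    obtain ⟨t, ht⟩ := trace_approx816 hD hS y hy v n
    exact ⟨t, fun w hw => by rw [hrat w hw]; exact ht w hw⟩
  obtain ⟨a, ha⟩ := exists_of_approx816 v (i w₀ hw₀) (e w₀ hw₀) (he w₀ hw₀) (hval w₀ hw₀)
    ((D.l : w₀.adicCompletion K') * T5.finHom w₀ y)
    (fun n => by
      obtain ⟨t, ht⟩ := happ n
      exact ⟨algebraMap K (v.adicCompletion K) t, ht w₀ hw₀⟩)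
  have hall : ∀ (w : HeightOneSpectrum (𝓞 K')) (hw : PlaceOver K K' v w),
      i w hw a = (D.l : w.adicCompletion K') * T5.finHom w y := by
    intro w hw
    by_contra hne
    have hne' : Valued.v (i w hw a - (D.l : w.adicCompletion K') * T5.finHom w y) ≠ 0 := by
      rw [Ne, map_eq_zero, sub_eq_zero]
      exact hne
    obtain ⟨m, hm⟩ := exists_exp_neg_lt_h131 hne'
    obtain ⟨t, ht⟩ := happ (m * e w₀ hw₀)
    have hexp : WithZero.exp (-((m * e w₀ hw₀ : ℕ) : ℤ))
        = WithZero.exp (-(m : ℤ)) ^ (e w₀ hw₀) := by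
      rw [← WithZero.exp_nsmul, nsmul_eq_mul]
      congr 1
      push_cast
      ring
    have h0 : Valued.v (a - algebraMap K (v.adicCompletion K) t) ^ (e w₀ hw₀)
        ≤ WithZero.exp (-(m : ℤ)) ^ (e w₀ hw₀) := by
      rw [← hexp, ← hval w₀ hw₀, map_sub, ha, ← Valuation.map_neg, neg_sub]
      exact ht w₀ hw₀
    have h1 : Valued.v (a - algebraMap K (v.adicCompletion K) t) ≤ WithZero.exp (-(m : ℤ)) := by
      by_contra hlt
      exact absurd h0 (not_le.2 (pow_lt_pow_left₀ (not_le.1 hlt) zero_le (he w₀ hw₀).ne'))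
    have h2 : Valued.v (i w hw (a - algebraMap K (v.adicCompletion K) t))
        ≤ WithZero.exp (-(m : ℤ)) := by
      rw [hval w hw]
      exact pow_le_of_le816 h1 (he w hw)
    have h3 : Valued.v (i w hw (algebraMap K (v.adicCompletion K) t)
        - (D.l : w.adicCompletion K') * T5.finHom w y) ≤ WithZero.exp (-(m : ℤ)) := by
      refine (ht w hw).trans ?_
      rw [WithZero.exp_le_exp]
      have h5 : (1 : ℤ) ≤ (e w₀ hw₀ : ℤ) := by exact_mod_cast he w₀ hw₀
      have h6 : (0 : ℤ) ≤ (m : ℤ) := Int.natCast_nonneg m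
      push_cast
      nlinarith
    have hsplit : i w hw a - (D.l : w.adicCompletion K') * T5.finHom w y
        = i w hw (a - algebraMap K (v.adicCompletion K) t)
          + (i w hw (algebraMap K (v.adicCompletion K) t)
            - (D.l : w.adicCompletion K') * T5.finHom w y) := by
      rw [map_sub]; ring
    have h4 : Valued.v (i w hw a - (D.l : w.adicCompletion K') * T5.finHom w y)
        ≤ WithZero.exp (-(m : ℤ)) := by
      rw [hsplit]
      exact (Valuation.map_add _ _ _).trans (max_le h2 h3)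
    exact absurd h4 (not_le.2 hm)
  refine ⟨single816 v (a / (D.l : v.adicCompletion K)), fun w hw => ?_⟩
  rw [hfin w hw, finHom_single816, map_div₀, map_natCast, hall w hw,
    mul_div_cancel_left₀ _ (natCast_ne_zero816 w hD.cyc.pos)]

end Main

end Fermat.Agent.LT.T7.H816

end
end
-- ===== PACK-END LT/T7/H816/OntoFin.lean

-- ===== PACK-BEGIN LT/T7/H75/NatShapeArch.lean
section



/-!
# Row LT, tower T7, leaf T7.L2.1.H2a.B.3 `PB57.NatShapeC57` (helper75, registry row 2794):
# archimedean tools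

OFF-MAIN.  No hole, nothing assumed.  ADDITIVE (namespace `Fermat.Agent.LT.T7.H75.NS`).

Right translation `trC z Ψ = Ψ(· z⁻¹)` of a function on `GL₂(ℂ)` by a CENTRAL element `z`:
continuity, compact support, invariance under complex conjugation (`z` real), bi-invariance,
and THE CONVOLUTION: `convL305 μc (fun j => trC (z j) (Ψ j)) k = trC (∏_{j ≤ k} z j)
(convL305 μc Ψ k)` for a left invariant measure `μc`.
-/

set_option autoImplicit false
set_option linter.style.haveILetI false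

open MeasureTheory

noncomputable section

namespace Fermat.Agent.LT.T7.H75.NS

open Fermat.Agent.LT Fermat.Agent.LT.T7.H305

section Gen

variable {H : Type} [Group H]

/-- The right translate `Ψ(· z⁻¹)`. -/
def trC (z : H) (Ψ : H → ℂ) : H → ℂ := fun x => Ψ (x * z⁻¹)

theorem trC_apply (z : H) (Ψ : H → ℂ) (x : H) : trC z Ψ x = Ψ (x * z⁻¹) := rfl

theorem trC_one (Ψ : H → ℂ) : trC 1 Ψ = Ψ := by
  funext x
  rw [trC_apply, inv_one, mul_one]

theorem continuous_trC [TopologicalSpace H] [IsTopologicalGroup H] (z : H) {Ψ : H → ℂ}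
    (h : Continuous Ψ) : Continuous (trC z Ψ) :=
  h.comp (continuous_id.mul continuous_const)

theorem hasCompactSupport_trC [TopologicalSpace H] [IsTopologicalGroup H] (z : H) {Ψ : H → ℂ}
    (h : HasCompactSupport Ψ) : HasCompactSupport (trC z Ψ) :=
  h.comp_homeomorph (Homeomorph.mulRight z⁻¹)

/-- The convolution of two translates by central elements. -/
theorem convInt_trC [MeasurableSpace H] [MeasurableMul H] (μ : Measure H)
    [μ.IsMulLeftInvariant] (z₁ z₂ : H) (hz₁ : ∀ x : H, z₁ * x = x * z₁)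
    (φ ψ : H → ℂ) :
    T6.convInt μ (trC z₁ φ) (trC z₂ ψ) = trC (z₁ * z₂) (T6.convInt μ φ ψ) := by
  funext g
  show ∫ h, trC z₁ φ h * trC z₂ ψ (h⁻¹ * g) ∂μ = ∫ h, φ h * ψ (h⁻¹ * (g * (z₁ * z₂)⁻¹)) ∂μ
  rw [← integral_mul_left_eq_self (fun h => trC z₁ φ h * trC z₂ ψ (h⁻¹ * g)) z₁]
  refine integral_congr_ae (Filter.Eventually.of_forall fun h => ?_)
  show φ (z₁ * h * z₁⁻¹) * ψ ((z₁ * h)⁻¹ * g * z₂⁻¹) = φ h * ψ (h⁻¹ * (g * (z₁ * z₂)⁻¹))
  have e1 : z₁ * h * z₁⁻¹ = h := by rw [hz₁ h, mul_inv_cancel_right]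
  have hz₁' : ∀ x : H, z₁⁻¹ * x = x * z₁⁻¹ := by
    intro x
    have := hz₁ (z₁⁻¹ * x * z₁⁻¹)
    calc z₁⁻¹ * x = z₁⁻¹ * x * z₁⁻¹ * z₁ := by group
      _ = z₁ * (z₁⁻¹ * x * z₁⁻¹) := this.symm
      _ = x * z₁⁻¹ := by group
  have e2 : (z₁ * h)⁻¹ * g * z₂⁻¹ = h⁻¹ * (g * (z₁ * z₂)⁻¹) := by
    calc (z₁ * h)⁻¹ * g * z₂⁻¹ = h⁻¹ * (z₁⁻¹ * g) * z₂⁻¹ := by group
      _ = h⁻¹ * (g * z₁⁻¹) * z₂⁻¹ := by rw [hz₁' g]
      _ = h⁻¹ * (g * (z₁⁻¹ * z₂⁻¹)) := by group
      _ = h⁻¹ * (g * (z₂⁻¹ * z₁⁻¹)) := by rw [hz₁' z₂⁻¹]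
      _ = h⁻¹ * (g * (z₁ * z₂)⁻¹) := by rw [mul_inv_rev]
  rw [e1, e2]

end Gen

/-! ## `GL₂(ℂ)` -/

section GLC

/-- `convL305` by its recursion (definitional). -/
theorem convL_zero75 (μc : @Measure (GL (Fin 2) ℂ) (borel _)) (Ψ : ℕ → GL (Fin 2) ℂ → ℂ) :
    convL305 μc Ψ 0 = Ψ 0 := rfl

theorem convL_succ75 (μc : @Measure (GL (Fin 2) ℂ) (borel _)) (Ψ : ℕ → GL (Fin 2) ℂ → ℂ)
    (j : ℕ) :
    convL305 μc Ψ (j + 1)
      = @T6.convInt _ _ (borel _) μc (convL305 μc Ψ j) (Ψ (j + 1)) := rfl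

/-- **The iterated convolution of translates by central elements** (`P k` = the product of the
`z j`, `j ≤ k`). -/
theorem convL_trC75 (μc : @Measure (GL (Fin 2) ℂ) (borel _))
    (hμ : @Measure.IsHaarMeasure _ _ _ (borel _) μc) (z P : ℕ → GL (Fin 2) ℂ)
    (hP0 : P 0 = z 0) (hPs : ∀ k : ℕ, P (k + 1) = P k * z (k + 1))
    (hP : ∀ (k : ℕ) (x : GL (Fin 2) ℂ), P k * x = x * P k)
    (Ψ : ℕ → GL (Fin 2) ℂ → ℂ) (k : ℕ) :
    convL305 μc (fun j => trC (z j) (Ψ j)) k = trC (P k) (convL305 μc Ψ k) := by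
  letI : MeasurableSpace (GL (Fin 2) ℂ) := borel _
  haveI : BorelSpace (GL (Fin 2) ℂ) := ⟨rfl⟩
  haveI := hμ
  induction k with
  | zero =>
    rw [convL_zero75, convL_zero75, hP0]
  | succ k ih =>
    rw [convL_succ75, convL_succ75, ih, hPs k]
    exact convInt_trC μc _ _ (hP k) _ _

/-- The scalar matrix `exp c` in `GL₂(ℂ)`. -/
def scal75 (c : ℝ) : GL (Fin 2) ℂ :=
  Units.mk (Matrix.diagonal fun _ => ((Real.exp c : ℝ) : ℂ))
    (Matrix.diagonal fun _ => ((Real.exp (-c) : ℝ) : ℂ))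
    (by
      rw [Matrix.diagonal_mul_diagonal, ← Matrix.diagonal_one]
      congr 1
      funext i
      rw [← Complex.ofReal_mul, ← Real.exp_add, add_neg_cancel, Real.exp_zero, Complex.ofReal_one])
    (by
      rw [Matrix.diagonal_mul_diagonal, ← Matrix.diagonal_one]
      congr 1
      funext i
      rw [← Complex.ofReal_mul, ← Real.exp_add, neg_add_cancel, Real.exp_zero, Complex.ofReal_one])

theorem coe_scal75 (c : ℝ) :
    ((scal75 c : GL (Fin 2) ℂ) : Matrix (Fin 2) (Fin 2) ℂ)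
      = Matrix.diagonal fun _ => ((Real.exp c : ℝ) : ℂ) := rfl

theorem scal_add75 (c d : ℝ) : scal75 (c + d) = scal75 c * scal75 d := by
  refine Units.ext ?_
  rw [Units.val_mul, coe_scal75, coe_scal75, coe_scal75, Matrix.diagonal_mul_diagonal]
  congr 1
  funext i
  rw [← Complex.ofReal_mul, ← Real.exp_add]

theorem scal_central75 (c : ℝ) (x : GL (Fin 2) ℂ) : scal75 c * x = x * scal75 c := by
  refine Units.ext ?_
  rw [Units.val_mul, Units.val_mul, coe_scal75]
  have h : (Matrix.diagonal fun _ : Fin 2 => ((Real.exp c : ℝ) : ℂ))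
      = Matrix.scalar (Fin 2) ((Real.exp c : ℝ) : ℂ) := rfl
  rw [h]
  exact (Matrix.scalar_commute _ (fun _ => Commute.all _ _) _).eq

theorem conj_scal75 (c : ℝ) : conjGL305 (scal75 c) = scal75 c := by
  refine Units.ext ?_
  ext i j
  show starRingEnd ℂ (((scal75 c : GL (Fin 2) ℂ) : Matrix (Fin 2) (Fin 2) ℂ) i j) = _
  rw [coe_scal75]
  by_cases h : i = j
  · rw [h, Matrix.diagonal_apply_eq, Complex.conj_ofReal]
  · rw [Matrix.diagonal_apply_ne _ h, map_zero]

/-- The partial sums give the partial products. -/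
theorem scal_sum75 (c : ℕ → ℝ) (k : ℕ) :
    scal75 (∑ j ∈ Finset.range (k + 1 + 1), c j)
      = scal75 (∑ j ∈ Finset.range (k + 1), c j) * scal75 (c (k + 1)) := by
  rw [Finset.sum_range_succ _ (k + 1), scal_add75]

/-- **The iterated convolution of translates by scalars.** -/
theorem convL_scal75 (μc : @Measure (GL (Fin 2) ℂ) (borel _))
    (hμ : @Measure.IsHaarMeasure _ _ _ (borel _) μc) (c : ℕ → ℝ)
    (Ψ : ℕ → GL (Fin 2) ℂ → ℂ) (k : ℕ) :
    convL305 μc (fun j => trC (scal75 (c j)) (Ψ j)) k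
      = trC (scal75 (∑ j ∈ Finset.range (k + 1), c j)) (convL305 μc Ψ k) :=
  convL_trC75 μc hμ (fun j => scal75 (c j)) (fun k => scal75 (∑ j ∈ Finset.range (k + 1), c j))
    (by rw [Finset.sum_range_one]) (scal_sum75 c) (fun k x => scal_central75 _ x) Ψ k

/-- Translates by scalars: the clauses of `LocHyp305.arch_up`. -/
theorem arch_trC75 (c : ℝ) {Ψ : GL (Fin 2) ℂ → ℂ}
    (h : Continuous Ψ ∧ HasCompactSupport Ψ ∧ ∀ g : GL (Fin 2) ℂ, Ψ (conjGL305 g) = Ψ g) :
    Continuous (trC (scal75 c) Ψ) ∧ HasCompactSupport (trC (scal75 c) Ψ) ∧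
      ∀ g : GL (Fin 2) ℂ, trC (scal75 c) Ψ (conjGL305 g) = trC (scal75 c) Ψ g := by
  refine ⟨continuous_trC _ h.1, hasCompactSupport_trC _ h.2.1, fun g => ?_⟩
  rw [trC_apply, trC_apply, ← h.2.2 (g * (scal75 c)⁻¹), map_mul, map_inv, conj_scal75]

/-- Translates by scalars: bi-invariance. -/
theorem biInv_trC75 (c : ℝ) {Ψ : GL (Fin 2) ℂ → ℂ} {P : GL (Fin 2) ℂ → Prop}
    (h : ∀ k₁ k₂ g : GL (Fin 2) ℂ, P k₁ → P k₂ → Ψ (k₁ * g * k₂) = Ψ g)
    (k₁ k₂ g : GL (Fin 2) ℂ) (h₁ : P k₁) (h₂ : P k₂) :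
    trC (scal75 c) Ψ (k₁ * g * k₂) = trC (scal75 c) Ψ g := by
  rw [trC_apply, trC_apply, ← h k₁ k₂ (g * (scal75 c)⁻¹) h₁ h₂]
  congr 1
  have hc : ∀ x : GL (Fin 2) ℂ, (scal75 c)⁻¹ * x = x * (scal75 c)⁻¹ := by
    intro x
    have := scal_central75 c ((scal75 c)⁻¹ * x * (scal75 c)⁻¹)
    calc (scal75 c)⁻¹ * x = (scal75 c)⁻¹ * x * (scal75 c)⁻¹ * scal75 c := by group
      _ = scal75 c * ((scal75 c)⁻¹ * x * (scal75 c)⁻¹) := this.symm
      _ = x * (scal75 c)⁻¹ := by group
  rw [mul_assoc, mul_assoc, mul_assoc, mul_assoc, hc k₂]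

end GLC

end Fermat.Agent.LT.T7.H75.NS

end

end
-- ===== PACK-END LT/T7/H75/NatShapeArch.lean

-- ===== PACK-BEGIN LT/T7/H893/SupplyTop.lean
section



/-!
# Row LT, tower T7, node T7.L2.1 `SupplyC` (sub-architect helper893): FIRST CUT -- proved top

OFF-MAIN.  No `sorry`, nothing assumed.  ADDITIVE.

    supplyC_of893 : SetupC K K' → ProjC K' → ProjC K → FamC P K K' → SupplyC P K K'
-/

set_option autoImplicit false

open AutomorphicForm IsDedekindDomain NumberField MeasureTheory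
open scoped ComplexConjugate

noncomputable section

namespace Fermat.Agent.LT.T7.H893

open Fermat.Agent.LT.H556 Fermat.Agent.LT.H556.A0 Fermat.Agent.LT.T7

attribute [local instance] Fermat.Agent.LT.T5.instMeasurableSpaceG

section Top

variable {P : EKCond}
variable {K K' : Type} [Field K] [NumberField K] [Field K'] [NumberField K'] [Algebra K K']

/-- The extension of a nonzero ideal is nonzero. -/
theorem upI_ne_bot893 {𝔫 : Ideal (𝓞 K)} (h : 𝔫 ≠ ⊥) : upI (K' := K') 𝔫 ≠ ⊥ := by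
  unfold upI
  intro h0
  rw [Ideal.map_eq_bot_iff_of_injective (FaithfulSMul.algebraMap_injective (𝓞 K) (𝓞 K'))] at h0
  exact h h0

/-- The data of the comparison are good for every nonzero level. -/
theorem isCompData_comp893 {ℓ : ℕ} {Φ : HeckeEigensystem K' ℂ} {B : L2Base K K'}
    (hB : IsL2Base ℓ Φ B) {𝔫 : Ideal (𝓞 K)} (h : 𝔫 ≠ ⊥) : IsCompData (B.comp 𝔫) where
  cyc := hB.cyc
  base := hB.base
  level_ne := h
  level := rfl
  frame := hB.frame
  frame' := hB.frame'
  aut := hB.aut 𝔫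

/-- **The assembly of an `L2Data`** from a common part and `g`-parts at the bad elements. -/
theorem isL2Data_toData893 {ℓ : ℕ} {Φ : HeckeEigensystem K' ℂ} {B : L2Base K K'}
    (hB : IsL2Base ℓ Φ B) (hP' : ProjC K') (hP : ProjC K) (Fm : G K' → L2Fam K K')
    (hFm : ∀ g : G K', B.IsBad g → IsL2Fam ℓ Φ B g (Fm g)) :
    IsL2Data ℓ Φ (B.toData Fm) where
  deg := hB.deg
  comp := fun g hg => isCompData_comp893 hB (hFm g hg).level_ne
  level_le := hB.level_le
  level_g := fun g hg => (hFm g hg).level_g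
  mem_S' := hB.mem_S'
  mem_S'_g := fun g hg => (hFm g hg).mem_S'_g
  const := hB.const
  orbit_rel := hB.orbit_rel
  orbit_ne := hB.orbit_ne
  orbit_over := hB.orbit_over
  orbit_level := hB.orbit_level
  orbit_good := hB.orbit_good
  u_level := fun g hg => (hFm g hg).u_level
  ekprod_up := fun g X k m hg hX => (hFm g hg).ekprod_up X k m hX
  ekprod_down := fun g X k m hg hX => (hFm g hg).ekprod_down X k m hX
  reg_up := fun g X k m hg hX hm => (hFm g hg).reg_up X k m hX hm
  reg_down := fun g X k m hg hX hm => (hFm g hg).reg_down X k m hX hm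
  matched := fun g X k m hg hX hm => (hFm g hg).matched X k m hX hm
  base_ne := fun g hg => (hFm g hg).base_ne
  op_up := fun g X k m hg hX => (hFm g hg).op_up X k m hX
  kill_up := fun g X k m hg hX => (hFm g hg).kill_up X k m hX
  proj_up := fun g hg ψ hψ =>
    hP' B.R' hB.frame' B.𝔑₀ (upI (K' := K') (Fm g).𝔫) (upI_ne_bot893 (hFm g hg).level_ne)
      (hFm g hg).level_g ℓ B.o (fun j => (hB.mem_S' (B.o j)).1 (hB.orbit_level j)) ψ hψ
  op_down := fun g X k m hg hX => (hFm g hg).op_down X k m hX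
  class_down := fun g hg => (hFm g hg).class_down
  comm_down := fun g hg => (hFm g hg).comm_down
  kill_down := fun g X k m hg hX => (hFm g hg).kill_down X k m hX
  proj_down := fun g hg ψ hψ =>
    hP B.R hB.frame (Fm g).𝔫 (Fm g).𝔫 (hFm g hg).level_ne le_rfl 1 (fun _ => B.u)
      (fun _ => (hFm g hg).u_level) ψ hψ

/-- **THE TOP OF THE FIRST CUT of T7.L2.1**: the supply from the setup, the orthogonal
projections over the two fields, and the families for one bad element. -/
theorem supplyC_of893 (hS : SetupC K K') (hP' : ProjC K') (hP : ProjC K)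
    (hF : FamC P K K') : SupplyC P K K' := by
  intro ℓ hcyc hℓ hcplx Φ hΦ hconst hPΦ
  obtain ⟨B, hB⟩ := hS ℓ hcyc hℓ hcplx Φ hΦ hconst
  have hex : ∀ g : G K', ∃ Fm : L2Fam K K', B.IsBad g → IsL2Fam ℓ Φ B g Fm := by
    intro g
    by_cases hg : B.IsBad g
    · obtain ⟨Fm, h⟩ := hF ℓ hcyc hℓ hcplx Φ hΦ hconst hPΦ B hB g hg
      exact ⟨Fm, fun _ => h⟩
    · exact ⟨⟨⊥, fun _ => 0, fun _ _ _ _ => 0, fun _ _ _ _ => 0, fun _ => 0⟩,
        fun h => absurd h hg⟩
  choose Fm hFm using hex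
  exact ⟨B.toData Fm, isL2Data_toData893 hB hP' hP Fm hFm⟩

end Top

end Fermat.Agent.LT.T7.H893

end

end
-- ===== PACK-END LT/T7/H893/SupplyTop.lean

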