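import Mathlib
import Fermat.Agent.Pack.LT3.E17L2
import Fermat.Agent.Pack.LT2.E18L0
import Fermat.Agent.Pack.LT3.E21L1
import Fermat.Agent.Pack.LT3.E22L0
import Fermat.Agent.Pack.LT3.E22L1
import Fermat.Agent.Pack.LT3.E22L3
import Fermat.Agent.Pack.LT2.E10L0
import Fermat.Agent.Pack.LT3.E22L2
import Fermat.Agent.Pack.LT3.E10L2
import Fermat.Agent.Pack.LT3.E21L3
import Fermat.Agent.Pack.LT2.E10L3
import Fermat.Agent.Pack.LT2.E12L1
import Fermat.Agent.Pack.LT3.E21L2
import Fermat.Agent.Pack.LT3.E19L2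
import Fermat.Agent.Pack.LT3.E21L0

set_option linter.all false

-- ===== PACK-BEGIN LT/T2/H767/LocalL2.lean
section




/-!
# Row LT, tower T2, leaf T2.03c = `LeafLocalL2` (helper767): CLOSED

OFF-MAIN.  `leafLocalL2_767 K : H386.LeafLocalL2 K` for every number field `K`, verbatim against
`LT/T2/H386/GPSSpec.lean` (fb5aa9e8): the count `leafCount868` (helper868,
`LT/T2/H868/Count.lean`, byte-identical copy of origin/helper868@d29b270f6) and the integration
step `leafInt767` (`LT/T2/H767/Int.lean`).  Nothing assumed.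
-/

set_option autoImplicit false

open IsDedekindDomain NumberField MeasureTheory

noncomputable section

namespace Fermat.Agent.LT.T2.H767

/-- **T2.03c** `LeafLocalL2`: the local `L²` bound from T1. -/
theorem leafLocalL2_767 (K : Type) [Field K] [NumberField K] : H386.LeafLocalL2 K :=
  leafLocalL2_of_leaves (H868.leafCount868 K) (leafInt767 K)

/-- Type check against the frozen Prop of helper386. -/
example (K : Type) [Field K] [NumberField K] :
    T1.T1Out K → ∀ 𝔫 : Ideal (𝓞 K), 𝔫 ≠ ⊥ → H386.LocalL2 K 𝔫 := leafLocalL2_767 K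

end Fermat.Agent.LT.T2.H767

end

end
-- ===== PACK-END LT/T2/H767/LocalL2.lean

-- ===== PACK-BEGIN LT/T7/H893/SupplyPreSpec.lean
section




/-!
# Row LT, tower T7, node T7.L2.1.F0 `PreC` (sub-architect helper893): THIRD CUT -- Spec

OFF-MAIN.  Definitions and frozen Props only (the proved top is `SupplyPreTop.lean`).  No
`sorry`, nothing assumed.  ADDITIVE.  Vocabulary: `SupplyFamSpec.lean` (second cut),
`T5/SpecZ.lean` + `T5/H32/RegConv.lean` (helper32, closed: `HasRegularSupportZ`,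
`IsIwSupported32`, `exists_depth_conv32`), byte-identical copies.

    preC_of893 : PreGeoC P K K' → RegSuppC K' → RegSupp0C K → PreC P K K'

## The cut: REGULARITY is split off

`IsL2Pre` = `IsL2PreOp` (the 31 fields on levels, coset systems, test functions, operators) +
`reg_up`, `reg_down`, `matched`.  The two regularity fields follow from SUPPORT conditions on the
four base functions (`IsL2PreSupp`: Iwahori along the orbit, compact outside the orbit) by the
closed device of T5 (`T5.H32.exists_depth_conv32`, helper32) and two bookkeeping leaves: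

* **`RegSuppC K`** (leaf; ONE field): if `φ` is Iwahori-supported along the orbit in a compact set
  `C`, then the functions `lsum Hg (regL (o 0) z H k m φ)` have regular support up to a scalar at
  `o 0` of depth `m`, in ONE compact set for all `k, m`.
* **`RegSupp0C K`** (leaf; ONE field): the same without the double coset (`regL u z H k m φ`).
* **`PreGeoC P K K'`** (NODE = construction + matching): pre-data with `IsL2PreOp`,
  `IsL2PreSupp` and `matched` from SOME depth on.  The depth of the pre-data is then replaced by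
  the maximum of the three depths (the families do not depend on it).
-/

set_option autoImplicit false

open AutomorphicForm IsDedekindDomain NumberField MeasureTheory
open scoped ComplexConjugate

noncomputable section

namespace Fermat.Agent.LT.T7.H893

open Fermat.Agent.LT.H556 Fermat.Agent.LT.H556.A0 Fermat.Agent.LT.T7

attribute [local instance] Fermat.Agent.LT.T5.instMeasurableSpaceG

section Pre

variable {K K' : Type} [Field K] [NumberField K] [Field K'] [NumberField K'] [Algebra K K']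

/-- **THE OPERATOR PART OF THE PROPERTIES OF THE PRE-DATA**: the fields of `IsL2Pre` except
`reg_up`, `reg_down`, `matched` (same names, same statements). -/
structure IsL2PreOp (ℓ : ℕ) (Φ : HeckeEigensystem K' ℂ) (B : L2Base K K') (g : G K')
    (E : L2Pre K K') : Prop where
  -- levels
  level_ne : E.𝔫 ≠ ⊥
  level_g : upI (K' := K') E.𝔫 ≤ B.𝔑₀
  mem_S'_g : ∀ w : HeightOneSpectrum (𝓞 K'), w ∈ B.S' ↔ w.asIdeal ∣ upI (K' := K') E.𝔫
  u_level : B.u.asIdeal ∣ E.𝔫
  -- coset systems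
  sysg : IsDblCosetSystem B.𝔑₀ g E.Hg
  sys' : IsIwCosetSystem (B.o 0) E.H'
  unif' : IsScalarUniformizerAt (B.o 0) E.z'
  sys : IsIwCosetSystem B.u E.H
  unif : IsScalarUniformizerAt B.u E.z
  -- the first base function upstairs
  up1_test : ∀ X : List (Gen K'), (∀ x ∈ X, x.Out B.S') →
    T5.IsTestFn (upI (K' := K') E.𝔫) T5.trivType (E.Φ₁ X)
  up1_ek : ∀ X : List (Gen K'), (∀ x ∈ X, x.Out B.S') →
    T5.IsEK B.R'.μ (E.Φ₁ X) ∧ T5.IsEK B.R'.μ (T5.adjointFn (E.Φ₁ X))
  /-- the scalar of `Φ₁ X` on the invariant eigenfunctions of the base level -/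
  up1_op : ∀ X : List (Gen K'), (∀ x ∈ X, x.Out B.S') →
    ∀ (χ : G K' → ℂ) (C : EigData K'), IsEigFn B.𝔑₀ B.R'.r ℓ B.o χ C →
      ∀ x : G K', T5.Rconv B.R'.μ (E.Φ₁ X) χ x = wordEv X C * E.c₁ C * χ x
  -- the second base function upstairs
  up2_test : T5.IsTestFn (upI (K' := K') E.𝔫) T5.trivType E.φ₂
  up2_ek : T5.IsEK B.R'.μ E.φ₂ ∧ T5.IsEK B.R'.μ (T5.adjointFn E.φ₂)
  up2_inv : IsUInv B.𝔑₀ ℓ B.o E.φ₂
  /-- the scalar of `φ₂` on the invariant eigenfunctions of the base level -/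
  up2_op : ∀ (ψ : G K' → ℂ) (C : EigData K'), IsEigFn B.𝔑₀ B.R'.r ℓ B.o ψ C →
    ∀ x : G K', T5.Rconv B.R'.μ E.φ₂ ψ x = E.c₂ C * ψ x
  /-- `♮`-KILL upstairs -/
  up2_kill : ∀ ψ : G K' → ℂ, T5.IsCuspFn (upI (K' := K') E.𝔫) T5.trivType B.R'.r ψ →
    (∀ χ : G K' → ℂ, IsWFn B.𝔑₀ B.R'.r ℓ B.o χ → T5.innerD B.R'.μ B.R'.F ψ χ = 0) →
    ∀ x : G K', T5.Rconv B.R'.μ E.φ₂ ψ x = 0
  /-- the scalars do not vanish on the class of `Φ` -/
  up_ne : ∀ C : EigData K', C.AgreeOut B.S' (eigOf Φ) → E.c₁ C ≠ 0 ∧ E.c₂ C ≠ 0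
  -- the first base function downstairs
  dn1_test : ∀ X : List (Gen K'), (∀ x ∈ X, x.Out B.S') →
    T5.IsTestFn E.𝔫 T5.trivType (E.F₁ X)
  dn1_ek : ∀ X : List (Gen K'), (∀ x ∈ X, x.Out B.S') →
    T5.IsEK B.R.μ (E.F₁ X) ∧ T5.IsEK B.R.μ (T5.adjointFn (E.F₁ X))
  /-- the word acts downstairs through the base change of the eigen-data -/
  dn1_op : ∀ X : List (Gen K'), (∀ x ∈ X, x.Out B.S') →
    ∀ (χ : G K → ℂ) (c : EigData K) (C : EigData K'),
      IsEigFn E.𝔫 B.R.r 1 (fun _ => B.u) χ c → IsBCData c C B.S' →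
      ∀ x : G K, T5.Rconv B.R.μ (E.F₁ X) χ x = wordEv X C * T5.Rconv B.R.μ (E.F₁ []) χ x
  /-- `R(F₁ [])` preserves the invariant cusp functions -/
  dn1_wfn : ∀ ψ : G K → ℂ, IsWFn E.𝔫 B.R.r 1 (fun _ => B.u) ψ →
    IsWFn E.𝔫 B.R.r 1 (fun _ => B.u) (T5.Rconv B.R.μ (E.F₁ []) ψ)
  /-- `R(F₁ [])` preserves the eigen-classes -/
  dn1_class : ∀ (ψ : G K → ℂ) (c : EigData K), IsEigFn E.𝔫 B.R.r 1 (fun _ => B.u) ψ c →
    IsEigFn E.𝔫 B.R.r 1 (fun _ => B.u) (T5.Rconv B.R.μ (E.F₁ []) ψ) c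
  /-- `R(F₁ [])` commutes with the operators at `u` -/
  dn1_comm : ∀ ψ : G K → ℂ, IsWFn E.𝔫 B.R.r 1 (fun _ => B.u) ψ →
    ∀ (H : Finset (G K)) (z : G K), IsIwCosetSystem B.u H → IsScalarUniformizerAt B.u z →
      (∀ x : G K, T5.Rconv B.R.μ (E.F₁ []) (iwOp B.u H ψ) x
        = iwOp B.u H (T5.Rconv B.R.μ (E.F₁ []) ψ) x) ∧
      ∀ (k : ℤ) (x : G K), T5.Rconv B.R.μ (E.F₁ []) (shiftOp z k ψ) x
        = shiftOp z k (T5.Rconv B.R.μ (E.F₁ []) ψ) x
  -- the second base function downstairs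
  dn2_test : T5.IsTestFn E.𝔫 T5.trivType E.f₂
  dn2_ek : T5.IsEK B.R.μ E.f₂ ∧ T5.IsEK B.R.μ (T5.adjointFn E.f₂)
  dn2_inv : IsUInv E.𝔫 1 (fun _ => B.u) E.f₂
  dn2_wfn : ∀ ψ : G K → ℂ, IsWFn E.𝔫 B.R.r 1 (fun _ => B.u) ψ →
    IsWFn E.𝔫 B.R.r 1 (fun _ => B.u) (T5.Rconv B.R.μ E.f₂ ψ)
  dn2_class : ∀ (ψ : G K → ℂ) (c : EigData K), IsEigFn E.𝔫 B.R.r 1 (fun _ => B.u) ψ c →
    IsEigFn E.𝔫 B.R.r 1 (fun _ => B.u) (T5.Rconv B.R.μ E.f₂ ψ) c
  dn2_comm : ∀ ψ : G K → ℂ, IsWFn E.𝔫 B.R.r 1 (fun _ => B.u) ψ →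
    ∀ (H : Finset (G K)) (z : G K), IsIwCosetSystem B.u H → IsScalarUniformizerAt B.u z →
      (∀ x : G K, T5.Rconv B.R.μ E.f₂ (iwOp B.u H ψ) x
        = iwOp B.u H (T5.Rconv B.R.μ E.f₂ ψ) x) ∧
      ∀ (k : ℤ) (x : G K), T5.Rconv B.R.μ E.f₂ (shiftOp z k ψ) x
        = shiftOp z k (T5.Rconv B.R.μ E.f₂ ψ) x
  /-- `♮`-KILL downstairs -/
  dn2_kill : ∀ ψ : G K → ℂ, T5.IsCuspFn E.𝔫 T5.trivType B.R.r ψ →
    (∀ χ : G K → ℂ, IsWFn E.𝔫 B.R.r 1 (fun _ => B.u) χ → T5.innerD B.R.μ B.R.F ψ χ = 0) →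
    ∀ x : G K, T5.Rconv B.R.μ E.f₂ ψ x = 0

/-- **THE SUPPORTS OF THE BASE FUNCTIONS**: Iwahori along the orbit, compact outside it. -/
structure IsL2PreSupp (ℓ : ℕ) (B : L2Base K K') (E : L2Pre K K') : Prop where
  up1_supp : ∀ X : List (Gen K'), (∀ x ∈ X, x.Out B.S') →
    ∃ C : Set (G K'), IsCompact C ∧ T5.H32.IsIwSupported32 ℓ B.o C (E.Φ₁ X)
  up2_supp : ∃ C : Set (G K'), IsCompact C ∧ T5.H32.IsIwSupported32 ℓ B.o C E.φ₂
  dn1_supp : ∀ X : List (Gen K'), (∀ x ∈ X, x.Out B.S') →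
    ∃ C : Set (G K), IsCompact C ∧ T5.H32.IsIwSupported32 1 (fun _ => B.u) C (E.F₁ X)
  dn2_supp : ∃ C : Set (G K), IsCompact C ∧ T5.H32.IsIwSupported32 1 (fun _ => B.u) C E.f₂

end Pre

/-! ## The leaves and the node -/

section Leaves

/-- **LEAF T7.L2.1.G1 = REG-SUPP (ONE field).**  Let `o 0, …, o (l-1)` be places dividing the
level `𝔫₀` (`0 < l`), `g` trivial at infinity and along the orbit, `Hg` a system of
representatives of `U(𝔫₀) g U(𝔫₀) / U(𝔫₀)`, `H` an Iwahori coset system and `z` a scalar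
uniformiser at `o 0`, and `φ` Iwahori-supported along the orbit in the compact set `C`.  Then
there is ONE compact set `C'` such that `lsum Hg (regL (o 0) z H k m φ)` has regular support up
to a scalar at `o 0` of depth `m` in `C'`, for all `k` and `m`.
Proof.  A point `y` of the support is `h z^k h₁ ⋯ h_m y₀` with `h ∈ Hg`, `h_i ∈ H`, `y₀` in the
support of `φ`.  At `o 0`: `h` has its component in `U(𝔫₀)_{o 0}`, contained in the Iwahori
subgroup `I` (`o 0 ∣ 𝔫₀`), `h_i ∈ I t I`, `y₀ ∈ I`, and `(I t I)^m = I t^m I`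
(`t = diag(ϖ, 1)`); `z^k` is a scalar.  At `o j`, `0 < j < l`: all factors are in `I`.  Outside
the orbit `y` agrees with `h c`, `c ∈ C`: `C' = Hg · C`.  (Kit: helper340 `T7/H340/IwKit.lean`,
helper32 `T5/H32/RegConv.lean`.) -/
def RegSuppC (K : Type) [Field K] [NumberField K] : Prop :=
  ∀ (𝔫₀ : Ideal (𝓞 K)) (l : ℕ) (o : ℕ → HeightOneSpectrum (𝓞 K)), 0 < l →
    (∀ j : ℕ, (o j).asIdeal ∣ 𝔫₀) →
    ∀ g : G K, (∀ w : InfinitePlace K, TrivAtInf w g) → (∀ j < l, TrivAtFin (o j) g) →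
    ∀ (Hg H : Finset (G K)) (z : G K), IsDblCosetSystem 𝔫₀ g Hg →
      IsIwCosetSystem (o 0) H → IsScalarUniformizerAt (o 0) z →
    ∀ (φ : G K → ℂ) (C : Set (G K)), IsCompact C → T5.H32.IsIwSupported32 l o C φ →
      ∃ C' : Set (G K), IsCompact C' ∧
        ∀ (k : ℤ) (m : ℕ), T5.HasRegularSupportZ l o m C' (lsum Hg (regL (o 0) z H k m φ))

/-- **LEAF T7.L2.1.G2 = REG-SUPP-0 (ONE field, one place, no double coset).**  `H` an Iwahori
coset system and `z` a scalar uniformiser at `u`, `φ` Iwahori-supported at `u` in the compact set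
`C`: `regL u z H k m φ` has regular support up to a scalar at `u` of depth `m` in `C`, for all
`k` and `m`. -/
def RegSupp0C (K : Type) [Field K] [NumberField K] : Prop :=
  ∀ (u : HeightOneSpectrum (𝓞 K)) (H : Finset (G K)) (z : G K),
    IsIwCosetSystem u H → IsScalarUniformizerAt u z →
    ∀ (φ : G K → ℂ) (C : Set (G K)), IsCompact C →
      T5.H32.IsIwSupported32 1 (fun _ => u) C φ →
      ∀ (k : ℤ) (m : ℕ), T5.HasRegularSupportZ 1 (fun _ => u) m C (regL u z H k m φ)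

variable (P : EKCond)
variable (K K' : Type) [Field K] [NumberField K] [Field K'] [NumberField K'] [Algebra K K']

/-- **NODE T7.L2.1.G0 = PRE-GEO (construction + matching).**  For a common part and one bad
element there are pre-data with the operator properties, the supports, and MATCHED families
from some depth on. -/
def PreGeoC : Prop :=
  ∀ ℓ : ℕ, IsCycExt K K' ℓ → ℓ ≠ 2 → TotCplx K →
    ∀ Φ : HeckeEigensystem K' ℂ, A0.IsCuspAdelicSph0 K' Φ → ConstOnFibres K Φ → P K' Φ →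
      ∀ B : L2Base K K', IsL2Base ℓ Φ B → ∀ g : G K', B.IsBad g →
        ∃ E : L2Pre K K', IsL2PreOp ℓ Φ B g E ∧ IsL2PreSupp ℓ B E ∧
          ∃ m₂ : List (Gen K') → ℕ,
            ∀ (X : List (Gen K')) (k : ℤ) (m : ℕ), (∀ x ∈ X, x.Out B.S') → m₂ X ≤ m →
              IsGlobMatch (B.comp E.𝔫) (E.up B X k m) (E.down B X k m)

end Leaves

end Fermat.Agent.LT.T7.H893

end

end
-- ===== PACK-END LT/T7/H893/SupplyPreSpec.lean

-- ===== PACK-BEGIN LT/T7/H561/OpsSpec.lean
section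



/-!
# Row LT, tower T7, node T7.L2.2.B4 = `OpsC561` (helper561): THE CUT

OFF-MAIN.  Definitions, frozen Props of the leaves, PROVED top.  Every proof is complete, nothing
assumed.  ADDITIVE (new names only, all ending in `561`).

    opsC_of561 : IwSysExistsC561 K K' → OpsEigC561 K K' → OpsRelC561 K K' → OpsCommC561 K K'
                   → OpsPerC561 K K' → OpsAdjC561 K K' → OpsSigC561 K K' → OpsLinkC561 K K'
                   → BadOpC561 K K' → OpsC561 K K'

The objects are EXPLICIT (`IsIwSys561`): at the place `w = o j`, `ω j` is supported at `w` with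
component `!![0, 1; ϖ, 0]` (`ϖ` a uniformiser), `Hs j` consists of `q = N w` elements supported
at `w` with components `!![a, 1; 1, 0]` (`a` integral), pairwise inequivalent modulo the Iwahori
subgroup on the right (`a` runs over representatives of the residue field):
`I s I = ⨆_a !![a,1;1,0] I`, `!![a,1;1,0] !![0,1;ϖ,0] = !![ϖ,a;0,1]`, `I t I = ⨆_a !![ϖ,a;0,1] I`.
Every leaf is a statement about the operators `S_j = cosetOp (Hs j)`, `ρ_j = trOp561 (ω j)` on
the invariant cusp functions `W` of the base level, for ANY such system.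
Assets: helper415 `T5/H415/AutT5.lean` (every `AdelicAut` is the canonical one: `valued_onG415`,
`inIwahori_onG415`, `onG_iterate415`, `orbit_closed415`), T2 `OpsAdjT` (translations are
isometries of the inner product on the fundamental domain).
-/

set_option autoImplicit false

open AutomorphicForm IsDedekindDomain NumberField MeasureTheory
open scoped ComplexConjugate Matrix

noncomputable section

namespace Fermat.Agent.LT.T7.H561

open Fermat.Agent.LT.H556 Fermat.Agent.LT.H556.A0 Fermat.Agent.LT.T7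

attribute [local instance] Fermat.Agent.LT.T5.instMeasurableSpaceG

section Ops

variable {K K' : Type} [Field K] [NumberField K] [Field K'] [NumberField K'] [Algebra K K']

/-- The hypotheses of the node `SpecUpC` on the data. -/
structure IsSetup561 (ℓ : ℕ) (Φ : HeckeEigensystem K' ℂ) (Dt : L2Data K K') : Prop where
  cyc : IsCycExt K K' ℓ
  odd : ℓ ≠ 2
  cplx : TotCplx K
  cusp : A0.IsCuspAdelicSph0 K' Φ
  const : ConstOnFibres K Φ
  data : IsL2Data ℓ Φ Dt

/-- **The explicit systems along the orbit.** -/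
structure IsIwSys561 (Dt : L2Data K K') (Hs : ℕ → Finset (G K')) (ω : ℕ → G K') : Prop where
  ω_local : ∀ j, IsLocalAtFin (Dt.o j) (ω j)
  ω_comp : ∀ j, ∃ c : (Dt.o j).adicCompletion K', Valued.v c = WithZero.exp (-1 : ℤ) ∧
    finComp (Dt.o j) (ω j) = !![0, 1; c, 0]
  Hs_card : ∀ j, (Hs j).card = Ideal.absNorm (Dt.o j).asIdeal
  Hs_local : ∀ j, ∀ h ∈ Hs j, IsLocalAtFin (Dt.o j) h
  Hs_comp : ∀ j, ∀ h ∈ Hs j, ∃ a : (Dt.o j).adicCompletion K',
    a ∈ (Dt.o j).adicCompletionIntegers K' ∧ finComp (Dt.o j) h = !![a, 1; 1, 0]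
  Hs_inj : ∀ j, ∀ h ∈ Hs j, ∀ h' ∈ Hs j, h ≠ h' → ¬ T5.InIwahori (Dt.o j) (h⁻¹ * h')

variable (K K')

/-- **LEAF B4.1 = IW-SYS-EXISTS.**  Uniformisers exist, the residue field has `N w` elements
with integral representatives, an adele with one prescribed component (an idele for an
invertible matrix) exists. -/
def IwSysExistsC561 : Prop :=
  ∀ (ℓ : ℕ) (Φ : HeckeEigensystem K' ℂ) (Dt : L2Data K K'), IsSetup561 ℓ Φ Dt →
    ∃ (Hs : ℕ → Finset (G K')) (ω : ℕ → G K'), IsIwSys561 Dt Hs ω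

/-- **LEAF B4.2 = OPS-EIG.**  `S_j` and `ρ_j` preserve the classes.
Proof.  A finite sum of right translations by elements supported at finite places preserves
continuity, boundedness, the left invariance, the vanishing of the constant term, the
`K_∞`-type, the invariance under the ray generator and the positive scalars at infinity; the
elements commute with the Hecke coset systems at `v ∉ S'` (`orbit_level`: `o j ∈ S'`) and with
the spheres at infinity (sums and integrals commute: continuous integrands).  Level `𝔑₀` and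
Iwahori invariance: for `u` in the level group, resp. in the Iwahori subgroups along the orbit,
`u h = h' u'` with `h ↦ h'` a permutation of `Hs j` (`I s I = ⨆ h I`; the level group at `o j` is
contained in `I` and normal in `GL₂(𝒪)`; `ω` normalises `I`). -/
def OpsEigC561 : Prop :=
  ∀ (ℓ : ℕ) (Φ : HeckeEigensystem K' ℂ) (Dt : L2Data K K'), IsSetup561 ℓ Φ Dt →
    ∀ (Hs : ℕ → Finset (G K')) (ω : ℕ → G K'), IsIwSys561 Dt Hs ω →
      ∀ (j : ℕ) (ψ : G K' → ℂ) (C : EigData K'), IsEigFn Dt.𝔑₀ Dt.R'.r ℓ Dt.o ψ C →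
        IsEigFn Dt.𝔑₀ Dt.R'.r ℓ Dt.o (cosetOp (Hs j) ψ) C ∧
        IsEigFn Dt.𝔑₀ Dt.R'.r ℓ Dt.o (trOp561 (ω j) ψ) C

/-- **LEAF B4.3 = OPS-REL.**  `S_j² = (q-1) S_j + q` and `ρ_j² S_j = S_j ρ_j²` on `W`
(`q = N (o 0) = N (o j)`: `orbit_rel`).
Proof.  `!![a,1;1,0] !![b,1;1,0] = !![ab+1, a; b, 1]`: in `I` iff `b ∈ 𝔭`, i.e. for ONE `b`;
otherwise in `!![c,1;1,0] I` with `c = a + b⁻¹`, each `c ≠ a` once.  `ω² = ϖ` is central. -/
def OpsRelC561 : Prop :=
  ∀ (ℓ : ℕ) (Φ : HeckeEigensystem K' ℂ) (Dt : L2Data K K'), IsSetup561 ℓ Φ Dt →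
    ∀ (Hs : ℕ → Finset (G K')) (ω : ℕ → G K'), IsIwSys561 Dt Hs ω →
      ∀ (j : ℕ) (ψ : G K' → ℂ), IsWFn Dt.𝔑₀ Dt.R'.r ℓ Dt.o ψ → ∀ x : G K',
        cosetOp (Hs j) (cosetOp (Hs j) ψ) x
          = (((Ideal.absNorm (Dt.o 0).asIdeal : ℕ) : ℂ) - 1) * cosetOp (Hs j) ψ x
            + ((Ideal.absNorm (Dt.o 0).asIdeal : ℕ) : ℂ) * ψ x ∧
        trOp561 (ω j) (trOp561 (ω j) (cosetOp (Hs j) ψ)) x
          = cosetOp (Hs j) (trOp561 (ω j) (trOp561 (ω j) ψ)) x

/-- **LEAF B4.4 = OPS-COMM.**  The operators at two different places of the orbit commute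
(`o j ≠ o j'` for `j ≠ j' < ℓ`: `orbit_ne`, `orbit_rel`; elements supported at different places
commute). -/
def OpsCommC561 : Prop :=
  ∀ (ℓ : ℕ) (Φ : HeckeEigensystem K' ℂ) (Dt : L2Data K K'), IsSetup561 ℓ Φ Dt →
    ∀ (Hs : ℕ → Finset (G K')) (ω : ℕ → G K'), IsIwSys561 Dt Hs ω →
      ∀ j j' : ℕ, j < ℓ → j' < ℓ → j ≠ j' → ∀ (ψ : G K' → ℂ) (x : G K'),
        cosetOp (Hs j) (cosetOp (Hs j') ψ) x = cosetOp (Hs j') (cosetOp (Hs j) ψ) x ∧
        cosetOp (Hs j) (trOp561 (ω j') ψ) x = trOp561 (ω j') (cosetOp (Hs j) ψ) x ∧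
        trOp561 (ω j) (trOp561 (ω j') ψ) x = trOp561 (ω j') (trOp561 (ω j) ψ) x

/-- **LEAF B4.5 = OPS-PER.**  `o (j + ℓ) = o j` (`σ^ℓ = 1`, asset helper415) and two systems at
the same place define the same operators on `W`. -/
def OpsPerC561 : Prop :=
  ∀ (ℓ : ℕ) (Φ : HeckeEigensystem K' ℂ) (Dt : L2Data K K'), IsSetup561 ℓ Φ Dt →
    ∀ (Hs : ℕ → Finset (G K')) (ω : ℕ → G K'), IsIwSys561 Dt Hs ω →
      ∀ (j : ℕ) (ψ : G K' → ℂ), IsWFn Dt.𝔑₀ Dt.R'.r ℓ Dt.o ψ → ∀ x : G K',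
        cosetOp (Hs (j + ℓ)) ψ x = cosetOp (Hs j) ψ x ∧
        trOp561 (ω (j + ℓ)) ψ x = trOp561 (ω j) ψ x

/-- **LEAF B4.6 = OPS-ADJ.**  `S_j` is symmetric and `ρ_j` is an isometry on `W`.
Proof.  `⟨R(h) ψ, R(h) χ⟩ = ⟨ψ, χ⟩` for automorphic functions invariant under the ray generator
(T2 `OpsAdjT`: `F h` is a fundamental domain of a translate of the slab, cut and move by powers
of `r`).  `⟨R(h_a) ψ, χ⟩ = ⟨ψ, R(h_a⁻¹) χ⟩`, `h_a⁻¹ = s x_{-a}`, `R(h_a⁻¹) χ = R(s) χ` on `W`;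
`⟨ψ, R(s) χ⟩ = ⟨R(x_b⁻¹) ψ, R(s) χ⟩ = ⟨ψ, R(x_b s) χ⟩` for every `b`: `q ⟨ψ, R(s) χ⟩ = ⟨ψ, S χ⟩`. -/
def OpsAdjC561 : Prop :=
  ∀ (ℓ : ℕ) (Φ : HeckeEigensystem K' ℂ) (Dt : L2Data K K'), IsSetup561 ℓ Φ Dt →
    ∀ (Hs : ℕ → Finset (G K')) (ω : ℕ → G K'), IsIwSys561 Dt Hs ω →
      ∀ (j : ℕ) (ψ χ : G K' → ℂ), IsWFn Dt.𝔑₀ Dt.R'.r ℓ Dt.o ψ →
        IsWFn Dt.𝔑₀ Dt.R'.r ℓ Dt.o χ →
        T5.innerD Dt.R'.μ Dt.R'.F (cosetOp (Hs j) ψ) χ
          = T5.innerD Dt.R'.μ Dt.R'.F ψ (cosetOp (Hs j) χ) ∧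
        T5.innerD Dt.R'.μ Dt.R'.F (trOp561 (ω j) ψ) (trOp561 (ω j) χ)
          = T5.innerD Dt.R'.μ Dt.R'.F ψ χ

/-- **LEAF B4.7 = OPS-SIGMA.**  `R(σ) S_j = S_{j+1} R(σ)`, `R(σ) ρ_j = ρ_{j+1} R(σ)` on `W`.
Proof.  `R(σ) R(h) = R(σ h) R(σ)`; `σ (Hs j)`, `σ (ω j)` is a system at `o (j+1)` up to the
Iwahori subgroup (asset helper415: `valued_onG415`, `inIwahori_onG415`, locality); `R(σ) ψ ∈ W`
(`BaseStable561`); two systems at the same place define the same operators on `W`. -/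
def OpsSigC561 : Prop :=
  ∀ (ℓ : ℕ) (Φ : HeckeEigensystem K' ℂ) (Dt : L2Data K K'), IsSetup561 ℓ Φ Dt →
    BaseStable561 Dt →
    ∀ (Hs : ℕ → Finset (G K')) (ω : ℕ → G K'), IsIwSys561 Dt Hs ω →
      ∀ (j : ℕ) (ψ : G K' → ℂ), IsWFn Dt.𝔑₀ Dt.R'.r ℓ Dt.o ψ → ∀ x : G K',
        T5.Rsig Dt.s (cosetOp (Hs j) ψ) x = cosetOp (Hs (j + 1)) (T5.Rsig Dt.s ψ) x ∧
        T5.Rsig Dt.s (trOp561 (ω j) ψ) x = trOp561 (ω (j + 1)) (T5.Rsig Dt.s ψ) x

/-- **LEAF B4.8 = OPS-LINK.**  `!![a,1;1,0] !![0,1;ϖ,0] = !![ϖ,a;0,1] = !![1,a;0,1] !![ϖ,0;0,1]`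
is in `I t I`; `ω² = ϖ`. -/
def OpsLinkC561 : Prop :=
  ∀ (ℓ : ℕ) (Φ : HeckeEigensystem K' ℂ) (Dt : L2Data K K'), IsSetup561 ℓ Φ Dt →
    ∀ (Hs : ℕ → Finset (G K')) (ω : ℕ → G K'), IsIwSys561 Dt Hs ω →
      IsIwCosetSystem (Dt.o 0) ((Hs 0).map (mulRightEmbedding (ω 0))) ∧
      IsScalarUniformizerAt (Dt.o 0) (ω 0 * ω 0)

/-- **LEAF B4.9 = BAD-OP.**  The Hecke operator of a bad element: a finite system of
representatives of `U g U / U` exists (`U = U(𝔑₀)` is compact open in the finite adelic group,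
`g` is trivial at infinity), the operator preserves the classes (as in B4.2: `g` is supported at
the places of `S'` outside the orbit) and commutes with the operators along the orbit
(`u h = h' u'` with `u` in the Iwahori subgroups along the orbit, which normalise the level
group). -/
def BadOpC561 : Prop :=
  ∀ (ℓ : ℕ) (Φ : HeckeEigensystem K' ℂ) (Dt : L2Data K K'), IsSetup561 ℓ Φ Dt →
    ∀ g : G K', Dt.IsBad g →
      ∃ Hg : Finset (G K'), IsDblCosetSystem Dt.𝔑₀ g Hg ∧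
        (∀ (ψ : G K' → ℂ) (C : EigData K'), IsEigFn Dt.𝔑₀ Dt.R'.r ℓ Dt.o ψ C →
          IsEigFn Dt.𝔑₀ Dt.R'.r ℓ Dt.o (cosetOp Hg ψ) C) ∧
        ∀ (Hs : ℕ → Finset (G K')) (ω : ℕ → G K'), IsIwSys561 Dt Hs ω →
          ∀ (j : ℕ) (ψ : G K' → ℂ), IsWFn Dt.𝔑₀ Dt.R'.r ℓ Dt.o ψ → ∀ x : G K',
            cosetOp Hg (cosetOp (Hs j) ψ) x = cosetOp (Hs j) (cosetOp Hg ψ) x ∧
            cosetOp Hg (trOp561 (ω j) ψ) x = trOp561 (ω j) (cosetOp Hg ψ) x

variable {K K'}

/-- **THE TOP OF THE NODE T7.L2.2.B4.** -/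
theorem opsC_of561 (hX : IwSysExistsC561 K K') (hE : OpsEigC561 K K') (hR : OpsRelC561 K K')
    (hM : OpsCommC561 K K') (hP : OpsPerC561 K K') (hA : OpsAdjC561 K K')
    (hS : OpsSigC561 K K') (hL : OpsLinkC561 K K') (hB : BadOpC561 K K') : OpsC561 K K' := by
  intro ℓ hcyc hℓ hcplx Φ hΦ hconst Dt hDt hst g hg
  have hs : IsSetup561 ℓ Φ Dt := ⟨hcyc, hℓ, hcplx, hΦ, hconst, hDt⟩
  obtain ⟨Hs, ω, hsys⟩ := hX ℓ Φ Dt hs
  obtain ⟨Hg, hdbl, hBe, hBc⟩ := hB ℓ Φ Dt hs g hg
  refine ⟨Hs, ω, Hg, ?_⟩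
  exact
    { S_eig := fun j ψ C h => (hE ℓ Φ Dt hs Hs ω hsys j ψ C h).1
      ρ_eig := fun j ψ C h => (hE ℓ Φ Dt hs Hs ω hsys j ψ C h).2
      B_eig := hBe
      S_quad := fun j ψ h x => (hR ℓ Φ Dt hs Hs ω hsys j ψ h x).1
      ρ_central := fun j ψ h x => (hR ℓ Φ Dt hs Hs ω hsys j ψ h x).2
      comm_SS := fun j j' h1 h2 h3 ψ _ x => (hM ℓ Φ Dt hs Hs ω hsys j j' h1 h2 h3 ψ x).1
      comm_Sρ := fun j j' h1 h2 h3 ψ _ x => (hM ℓ Φ Dt hs Hs ω hsys j j' h1 h2 h3 ψ x).2.1
      comm_ρρ := fun j j' h1 h2 h3 ψ _ x => (hM ℓ Φ Dt hs Hs ω hsys j j' h1 h2 h3 ψ x).2.2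
      per_S := fun j ψ h x => (hP ℓ Φ Dt hs Hs ω hsys j ψ h x).1
      per_ρ := fun j ψ h x => (hP ℓ Φ Dt hs Hs ω hsys j ψ h x).2
      B_S := fun j ψ h x => (hBc Hs ω hsys j ψ h x).1
      B_ρ := fun j ψ h x => (hBc Hs ω hsys j ψ h x).2
      S_adj := fun j ψ χ h1 h2 => (hA ℓ Φ Dt hs Hs ω hsys j ψ χ h1 h2).1
      ρ_iso := fun j ψ χ h1 h2 => (hA ℓ Φ Dt hs Hs ω hsys j ψ χ h1 h2).2
      σ_S := fun j ψ h x => (hS ℓ Φ Dt hs hst Hs ω hsys j ψ h x).1
      σ_ρ := fun j ψ h x => (hS ℓ Φ Dt hs hst Hs ω hsys j ψ h x).2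
      dbl := hdbl
      iwsys := (hL ℓ Φ Dt hs Hs ω hsys).1
      unif := (hL ℓ Φ Dt hs Hs ω hsys).2 }

end Ops

/-! ## Appendix: the equation lemmas of the definitions are realised HERE -/

theorem eqns_realisedO561 : True := by
  have _a1 := @IwSysExistsC561.eq_1
  have _a2 := @IwSysExistsC561.eq_def
  have _a3 := @IwSysExistsC561.eq_unfold
  have _b1 := @OpsEigC561.eq_1
  have _b2 := @OpsEigC561.eq_def
  have _b3 := @OpsEigC561.eq_unfold
  have _c1 := @OpsRelC561.eq_1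
  have _c2 := @OpsRelC561.eq_def
  have _c3 := @OpsRelC561.eq_unfold
  have _d1 := @OpsCommC561.eq_1
  have _d2 := @OpsCommC561.eq_def
  have _d3 := @OpsCommC561.eq_unfold
  have _e1 := @OpsPerC561.eq_1
  have _e2 := @OpsPerC561.eq_def
  have _e3 := @OpsPerC561.eq_unfold
  have _f1 := @OpsAdjC561.eq_1
  have _f2 := @OpsAdjC561.eq_def
  have _f3 := @OpsAdjC561.eq_unfold
  have _g1 := @OpsSigC561.eq_1
  have _g2 := @OpsSigC561.eq_def
  have _g3 := @OpsSigC561.eq_unfold
  have _h1 := @OpsLinkC561.eq_1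
  have _h2 := @OpsLinkC561.eq_def
  have _h3 := @OpsLinkC561.eq_unfold
  have _i1 := @BadOpC561.eq_1
  have _i2 := @BadOpC561.eq_def
  have _i3 := @BadOpC561.eq_unfold
  trivial

end Fermat.Agent.LT.T7.H561

end

end
-- ===== PACK-END LT/T7/H561/OpsSpec.lean

-- ===== PACK-BEGIN LT/T7/H496/NatBasic.lean
section



/-!
# Row LT, tower T7, leaf T7.L2.1.N01 `NatBasicC` (helper496), OFF-MAIN

`natBasicC496 K : H193.NatBasicC K`, VERBATIM against `LT/T7/H193/KillSpec.lean`
(helper193@4a1c7c2bb, sha256 `2cb0a205…`), UNCONDITIONAL.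

`φ♮ (g) = vol(D)⁻¹ ∫_D φ(g a(t)⁻¹) dt` is

* continuous: dominated convergence (`continuous_of_dominated`; `GL₂(𝔸_K)` is second countable
  by `T1Out.locComp`, `φ` is bounded, `vol D < ∞`);
* of compact support: `supp φ♮ ⊆ (tsupport φ) · a(closure D)`, the continuous image of a compact
  set;
* bi-invariant: `a t` is central.
-/

set_option autoImplicit false

open IsDedekindDomain NumberField MeasureTheory
open scoped ComplexConjugate

noncomputable section

namespace Fermat.Agent.LT.T7.H496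

open Fermat.Agent.LT.H556 Fermat.Agent.LT.H556.A0 Fermat.Agent.LT Fermat.Agent.LT.T7.H193

variable {K : Type} [Field K] [NumberField K]

/-- The inverse of a central element is central. -/
theorem inv_central496 {z : G K} (hz : ∀ g : G K, z * g = g * z) (g : G K) :
    g * z⁻¹ = z⁻¹ * g := by
  have h := hz (z⁻¹ * g * z⁻¹)
  have h1 : z * (z⁻¹ * g * z⁻¹) = g * z⁻¹ := by group
  have h2 : z⁻¹ * g * z⁻¹ * z = z⁻¹ * g := by group
  rw [h1, h2] at h
  exact h

/-- The integrand of `φ♮` is continuous in `t`. -/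
theorem continuous_natIntegrand496 {a : (InfinitePlace K → ℝ) → G K} (ha : Continuous a)
    {φ : G K → ℂ} (hφ : Continuous φ) (g : G K) :
    Continuous fun t : InfinitePlace K → ℝ => φ (g * (a t)⁻¹) :=
  hφ.comp (continuous_const.mul ha.inv)

/-- `φ♮` is continuous. -/
theorem continuous_nat496 [SecondCountableTopology (G K)]
    {a : (InfinitePlace K → ℝ) → G K} {D : Set (InfinitePlace K → ℝ)}
    (ha : Continuous a) (hDb : Bornology.IsBounded D)
    {φ : G K → ℂ} (hφ : Continuous φ) (hφs : HasCompactSupport φ) :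
    Continuous (nat193 a D φ) := by
  unfold nat193
  refine continuous_const.mul ?_
  obtain ⟨C, hC⟩ := hφ.bounded_above_of_compact_support hφs
  have hvol : volume D < ⊤ := hDb.measure_lt_top
  have : IsFiniteMeasure (volume.restrict D) := ⟨by rw [Measure.restrict_apply_univ]; exact hvol⟩
  refine continuous_of_dominated (bound := fun _ => C) (fun g => ?_) (fun g => ?_)
    (integrable_const C) ?_
  · exact (continuous_natIntegrand496 ha hφ g).aestronglyMeasurable
  · exact Filter.Eventually.of_forall fun t => hC _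
  · exact Filter.Eventually.of_forall fun t => hφ.comp (continuous_id.mul continuous_const)

/-- `φ♮` has compact support. -/
theorem hasCompactSupport_nat496 [T2Space (G K)]
    {a : (InfinitePlace K → ℝ) → G K} {D : Set (InfinitePlace K → ℝ)}
    (ha : Continuous a) (hDb : Bornology.IsBounded D)
    {φ : G K → ℂ} (hφs : HasCompactSupport φ) :
    HasCompactSupport (nat193 a D φ) := by
  have hcl : IsCompact (closure D) := hDb.isCompact_closure
  have hprod : IsCompact ((tsupport φ) ×ˢ (closure D)) := hφs.prod hcl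
  have hcont : Continuous fun p : G K × (InfinitePlace K → ℝ) => p.1 * a p.2 :=
    continuous_fst.mul (ha.comp continuous_snd)
  have hC := hprod.image hcont
  refine HasCompactSupport.intro hC fun g hg => ?_
  unfold nat193
  have hzero : ∀ t ∈ D, φ (g * (a t)⁻¹) = 0 := by
    intro t ht
    by_contra hne
    apply hg
    refine ⟨(g * (a t)⁻¹, t), ⟨subset_tsupport _ hne, subset_closure ht⟩, ?_⟩
    simp
  rw [setIntegral_eq_zero_of_forall_eq_zero hzero, mul_zero]

/-- **T7.L2.1.N01 NAT-BASIC**, verbatim. -/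
theorem natBasicC496 (K : Type) [Field K] [NumberField K] :
    Fermat.Agent.LT.T7.H193.NatBasicC K := by
  intro hT1 𝔑 r a D hD 𝔫 φ hφ
  have : T2Space (G K) := hT1.locComp.2.2.1
  have : SecondCountableTopology (G K) := hT1.locComp.2.2.2
  refine ⟨continuous_nat496 hD.cont hD.bdd hφ.cont hφ.supp,
    hasCompactSupport_nat496 hD.cont hD.bdd hφ.supp, ?_⟩
  have hc : ∀ (t : InfinitePlace K → ℝ) (g : G K), g * (a t)⁻¹ = (a t)⁻¹ * g :=
    fun t g => inv_central496 (hD.central t) g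
  refine ⟨fun u hu g => ?_, fun u hu g => ?_, fun w k hk g => ?_, fun w k hk g => ?_⟩
  · unfold nat193
    congr 1
    refine integral_congr_ae (Filter.Eventually.of_forall fun t => ?_)
    show φ (g * u * (a t)⁻¹) = φ (g * (a t)⁻¹)
    rw [mul_assoc, hc t u, ← mul_assoc]
    exact hφ.inv.level_right u hu _
  · unfold nat193
    congr 1
    refine integral_congr_ae (Filter.Eventually.of_forall fun t => ?_)
    show φ (u * g * (a t)⁻¹) = φ (g * (a t)⁻¹)
    rw [mul_assoc]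
    exact hφ.inv.level_left u hu _
  · have h1 : (T5.trivType k : ℂ)⁻¹ = 1 := by simp [T5.trivType]
    rw [h1, one_mul]
    unfold nat193
    congr 1
    refine integral_congr_ae (Filter.Eventually.of_forall fun t => ?_)
    show φ (g * k * (a t)⁻¹) = φ (g * (a t)⁻¹)
    rw [mul_assoc, hc t k, ← mul_assoc, hφ.inv.arch_right w k hk, h1, one_mul]
  · have h1 : (T5.trivType k : ℂ)⁻¹ = 1 := by simp [T5.trivType]
    rw [h1, one_mul]
    unfold nat193
    congr 1
    refine integral_congr_ae (Filter.Eventually.of_forall fun t => ?_)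
    show φ (k * g * (a t)⁻¹) = φ (g * (a t)⁻¹)
    rw [mul_assoc, hφ.inv.arch_left w k hk, h1, one_mul]

end Fermat.Agent.LT.T7.H496

end

end
-- ===== PACK-END LT/T7/H496/NatBasic.lean

-- ===== PACK-BEGIN LT/T7/H517/NatSmooth.lean
section



/-!
# Row LT, tower T7, node T7.L2.1 `SupplyC`, sub-station NATURAL, leaf NAT.2 `NatSmoothC`
(registry 2199, helper517), OFF-MAIN.

`natSmoothC517 (K) : H193.NatSmoothC K` VERBATIM vs `T7/H193/KillSpec.lean`
(sha256 2cb0a205bd364545, helper193@4a1c7c2bb); imports = Mathlib + the spec closure.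

* `contDiff_setIntegral_param517` (Mathlib only): the integral over a bounded measurable set of a
  finite-dimensional space of a jointly `C^∞` function is `C^∞` in the parameter
  (from `contDiffOn_convolution_right_with_param`).
* `infComp_mul517`, `finComp_mul517`, `trivAtFin_mul517`: the components are multiplicative.
* the proof: `φ♮ (g h(t)) = vol(D)⁻¹ ∫_D φ (g H(t, s)) ds`, `H (t, s) = h(t) a(-s)` is a smooth
  family in `n + #{w ∣ ∞}` parameters supported at the infinite places.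
-/

set_option autoImplicit false

open IsDedekindDomain NumberField MeasureTheory Set Filter Topology
open scoped ContDiff Convolution

noncomputable section

namespace Fermat.Agent.LT.T7.H517

universe uP uG

/-! ## 1. Parametric integrals (Mathlib only) -/

section ParamInt

variable {P : Type uP} {G : Type uG} [NormedAddCommGroup P] [NormedSpace ℝ P]
  [NormedAddCommGroup G] [NormedSpace ℝ G] [FiniteDimensional ℝ G]
  [MeasurableSpace G] [BorelSpace G]

/-- **Parametric integrals over a bounded set.**  The integral over a bounded measurable set `D`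
of a finite-dimensional space of a jointly `C^∞` function is `C^∞` in the parameter. -/
theorem contDiff_setIntegral_param517 {μ : Measure G} [SFinite μ] [μ.IsAddLeftInvariant]
    [IsFiniteMeasureOnCompacts μ] {D : Set G} (hDm : MeasurableSet D)
    (hDb : Bornology.IsBounded D) {Φ : P × G → ℂ} (hΦ : ContDiff ℝ ∞ Φ) :
    ContDiff ℝ ∞ (fun p : P => ∫ s in D, Φ (p, s) ∂μ) := by
  obtain ⟨R, hR⟩ := hDb.subset_closedBall (0 : G)
  set R' : ℝ := max R 0 + 1 with hR'
  have hR'pos : 0 < R' := by positivity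
  have hDR' : D ⊆ Metric.closedBall (0 : G) R' :=
    hR.trans (Metric.closedBall_subset_closedBall (by rw [hR']; linarith [le_max_left R 0]))
  let ψ : ContDiffBump (0 : G) := ⟨R', R' + 1, hR'pos, by linarith⟩
  -- the weight
  let f : G → ℝ := Set.indicator D (fun _ => (1 : ℝ))
  have hμD : μ D < ⊤ :=
    lt_of_le_of_lt (measure_mono hDR') (isCompact_closedBall (0 : G) R').measure_lt_top
  have hf : LocallyIntegrable f μ := by
    apply Integrable.locallyIntegrable
    exact (integrable_indicator_iff hDm).mpr (integrableOn_const (hs := hμD.ne))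
  -- the cut-off, reflected integrand
  let cut : P → G → ℂ := fun p x => (ψ x : ℝ) • Φ (p, -x)
  have hcut0 : ∀ p, ∀ x, p ∈ (univ : Set P) → x ∉ Metric.closedBall (0 : G) (R' + 1) →
      cut p x = 0 := by
    intro p x _ hx
    have : (ψ x : ℝ) = 0 := by
      apply ψ.zero_of_le_dist
      rw [Metric.mem_closedBall, not_le] at hx
      exact hx.le
    simp only [cut, this, zero_smul]
  have hcutS : ContDiffOn ℝ ((⊤ : ℕ∞) : WithTop ℕ∞) ↿cut (univ ×ˢ univ) := by
    have h1 : ContDiff ℝ ∞ (fun q : P × G => (ψ q.2 : ℝ)) :=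
      (ψ.contDiff (n := (⊤ : ℕ∞))).comp contDiff_snd
    have h2 : ContDiff ℝ ∞ (fun q : P × G => Φ (q.1, -q.2)) :=
      hΦ.comp (contDiff_fst.prodMk contDiff_snd.neg)
    exact (h1.smul h2).contDiffOn
  have key : ContDiffOn ℝ ((⊤ : ℕ∞) : WithTop ℕ∞)
      (fun q : P × G =>
        (f ⋆[(ContinuousLinearMap.lsmul ℝ ℝ : ℝ →L[ℝ] ℂ →L[ℝ] ℂ), μ] cut q.1) q.2)
      (univ ×ˢ univ) :=
    contDiffOn_convolution_right_with_param (μ := μ)
      (ContinuousLinearMap.lsmul ℝ ℝ : ℝ →L[ℝ] ℂ →L[ℝ] ℂ) (f := f) (g := cut)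
      (s := univ) (k := Metric.closedBall (0 : G) (R' + 1)) isOpen_univ
      (isCompact_closedBall _ _) hcut0 hf hcutS
  rw [univ_prod_univ] at key
  have key2 := (contDiffOn_univ.mp key).comp
    (contDiff_id.prodMk (contDiff_const (c := (0 : G))) : ContDiff ℝ ∞ fun p : P => (p, (0 : G)))
  have e : (fun p : P => ∫ s in D, Φ (p, s) ∂μ)
      = (fun q : P × G =>
          (f ⋆[(ContinuousLinearMap.lsmul ℝ ℝ : ℝ →L[ℝ] ℂ →L[ℝ] ℂ), μ] cut q.1) q.2)
        ∘ fun p : P => (p, (0 : G)) := by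
    funext p
    simp only [Function.comp_apply]
    rw [MeasureTheory.convolution_def, ← integral_indicator hDm]
    congr 1
    funext t
    by_cases ht : t ∈ D
    · have hχ : (ψ (-t) : ℝ) = 1 := by
        apply ψ.one_of_mem_closedBall
        have := hDR' ht
        rw [Metric.mem_closedBall, dist_zero_right] at this ⊢
        rw [norm_neg]
        exact this
      simp only [f, cut, Set.indicator_of_mem ht, ContinuousLinearMap.lsmul_apply,
        one_smul, zero_sub, neg_neg, hχ]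
    · simp only [f, Set.indicator_of_notMem ht, ContinuousLinearMap.lsmul_apply, zero_smul]
  rw [e]
  exact key2

end ParamInt

/-! ## 2. The components are multiplicative -/

section Comp

open Fermat.Agent.LT.H556 Fermat.Agent.LT.H556.A0 Fermat.Agent.LT

variable {K : Type} [Field K] [NumberField K]

theorem infComp_mul517 (w : InfinitePlace K) (x y : G K) :
    infComp w (x * y) = infComp w x * infComp w y := by
  ext i j
  simp only [infComp, Units.val_mul, Matrix.mul_apply, Fin.sum_univ_two]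
  have h1 : ∀ p q : Adl K, (p + q).1 w = p.1 w + q.1 w := fun _ _ => rfl
  have h2 : ∀ p q : Adl K, (p * q).1 w = p.1 w * q.1 w := fun _ _ => rfl
  rw [h1, h2, h2, map_add, map_mul, map_mul]

theorem finComp_mul517 (v : HeightOneSpectrum (𝓞 K)) (x y : G K) :
    finComp v (x * y) = finComp v x * finComp v y := by
  ext i j
  simp only [finComp, Units.val_mul, Matrix.mul_apply, Fin.sum_univ_two]
  have h1 : ∀ p q : Adl K, (p + q).2 v = p.2 v + q.2 v := fun _ _ => rfl
  have h2 : ∀ p q : Adl K, (p * q).2 v = p.2 v * q.2 v := fun _ _ => rfl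
  rw [h1, h2, h2]

theorem trivAtFin_mul517 {v : HeightOneSpectrum (𝓞 K)} {x y : G K} (hx : TrivAtFin v x)
    (hy : TrivAtFin v y) : TrivAtFin v (x * y) := by
  unfold TrivAtFin at *
  rw [finComp_mul517, hx, hy, mul_one]

end Comp

/-! ## 3. The leaf -/

section Leaf

open Fermat.Agent.LT.H556 Fermat.Agent.LT.H556.A0 Fermat.Agent.LT

attribute [local instance] Fermat.Agent.LT.T5.instMeasurableSpaceG

/-- **LEAF NAT.2 = NAT-SMOOTH** (registry 2199), VERBATIM. -/
theorem natSmoothC517 (K : Type) [Field K] [NumberField K] : H193.NatSmoothC K := by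
  intro _ 𝔑 r a D hD φ _ _ hφ n h hfin hsm g
  -- `(a s)⁻¹ = a (-s)`
  have ha0 : a 0 = 1 := by
    have h0 := hD.mul 0 0
    rw [add_zero] at h0
    exact (mul_eq_left).mp h0.symm
  have hainv : ∀ s, (a s)⁻¹ = a (-s) := by
    intro s
    exact inv_eq_of_mul_eq_one_right (by rw [← hD.mul, add_neg_cancel, ha0])
  -- the joint family
  let m : ℕ := Fintype.card (InfinitePlace K)
  let e : InfinitePlace K ≃ Fin m := Fintype.equivFin (InfinitePlace K)
  let H : (Fin (n + m) → ℝ) → G K := fun u =>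
    h (fun i => u (Fin.castAdd m i)) * a (fun w => - u (Fin.natAdd n (e w)))
  have hHfin : ∀ (u : Fin (n + m) → ℝ) (v : HeightOneSpectrum (𝓞 K)), TrivAtFin v (H u) :=
    fun u v => trivAtFin_mul517 (hfin _ v) (hD.fin _ v)
  have hproj : ContDiff ℝ ∞ (fun u : Fin (n + m) → ℝ => fun i : Fin n => u (Fin.castAdd m i)) :=
    contDiff_pi.2 fun i => contDiff_apply ℝ ℝ (Fin.castAdd m i)
  have hHsm : ∀ (w : InfinitePlace K) (i j : Fin 2),
      ContDiff ℝ ∞ (fun u => infComp w (H u) i j) := by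
    intro w i j
    have hE : (fun u => infComp w (H u) i j)
        = fun u : Fin (n + m) → ℝ => infComp w (h (fun i => u (Fin.castAdd m i))) i j
            * ((Real.exp (- u (Fin.natAdd n (e w))) : ℝ) : ℂ) := by
      funext u
      show infComp w (h _ * a _) i j = _
      rw [infComp_mul517, hD.inf, Matrix.mul_apply, Fin.sum_univ_two]
      fin_cases j <;> simp [Matrix.diagonal]
    rw [hE]
    have h1 : ContDiff ℝ ∞
        (fun u : Fin (n + m) → ℝ => infComp w (h (fun i => u (Fin.castAdd m i))) i j) :=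
      (hsm w i j).comp hproj
    have h2 : ContDiff ℝ ∞
        (fun u : Fin (n + m) → ℝ => ((Real.exp (- u (Fin.natAdd n (e w))) : ℝ) : ℂ)) :=
      Complex.ofRealCLM.contDiff.comp
        (Real.contDiff_exp.comp (contDiff_apply ℝ ℝ (Fin.natAdd n (e w))).neg)
    exact h1.mul h2
  have hjoint := hφ (n + m) H hHfin hHsm g
  -- the reparametrisation
  let Lmap : (Fin n → ℝ) × (InfinitePlace K → ℝ) → (Fin (n + m) → ℝ) := fun q k =>
    Fin.addCases (motive := fun _ => ℝ) (fun i => q.1 i) (fun j => q.2 (e.symm j)) k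
  have hL : ContDiff ℝ ∞ Lmap := by
    refine contDiff_pi.2 fun k => ?_
    refine Fin.addCases (motive := fun k => ContDiff ℝ ∞ fun q => Lmap q k) (fun i => ?_)
      (fun j => ?_) k
    · have : (fun q : (Fin n → ℝ) × (InfinitePlace K → ℝ) => Lmap q (Fin.castAdd m i))
          = fun q => q.1 i := by
        funext q
        simp only [Lmap, Fin.addCases_left]
      rw [this]
      exact (contDiff_apply ℝ ℝ i).comp contDiff_fst
    · have : (fun q : (Fin n → ℝ) × (InfinitePlace K → ℝ) => Lmap q (Fin.natAdd n j))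
          = fun q => q.2 (e.symm j) := by
        funext q
        simp only [Lmap, Fin.addCases_right]
      rw [this]
      exact (contDiff_apply ℝ ℝ (e.symm j)).comp contDiff_snd
  have hΦ : ContDiff ℝ ∞
      (fun q : (Fin n → ℝ) × (InfinitePlace K → ℝ) => φ (g * h q.1 * (a q.2)⁻¹)) := by
    have hc := hjoint.comp hL
    have hE : (fun q : (Fin n → ℝ) × (InfinitePlace K → ℝ) => φ (g * h q.1 * (a q.2)⁻¹))
        = (fun u => φ (g * H u)) ∘ Lmap := by
      funext q
      simp only [Function.comp_apply, H, Lmap, Fin.addCases_left, Fin.addCases_right,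
        Equiv.symm_apply_apply, hainv, mul_assoc]
      rfl
    rw [hE]
    exact hc
  have hint := contDiff_setIntegral_param517 (μ := (volume : Measure (InfinitePlace K → ℝ)))
    hD.meas hD.bdd hΦ
  show ContDiff ℝ ∞ (fun t => H193.nat193 a D φ (g * h t))
  unfold H193.nat193
  exact contDiff_const.mul hint

end Leaf

end Fermat.Agent.LT.T7.H517

end

end
-- ===== PACK-END LT/T7/H517/NatSmooth.lean

-- ===== PACK-BEGIN LT/T7/H887/TorAvgFix.lean
section



/-!
# Row LT, tower T7, node T7.L2.1 `SupplyC`, leaf T7.L2.1.N08 `TorAvgFixC` (helper887) -- OFF-MAIN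

`P_∞ e = e` for a function `e` which is right invariant under the positive scalars at every
infinite place.

Proof: `t = ∑_w Pi.single w (t w)`, `a` is additive, and `a (Pi.single w x)` is a positive scalar
at `w` (`IsTorusData.inf`, `IsTorusData.fin`; the embedding of the completion into `ℂ` is
injective); hence `e (g * a t) = e g` for every `t`, the integrand is constant, and
`0 < vol D < ∞` (`D` is bounded).
-/

set_option autoImplicit false

open IsDedekindDomain NumberField MeasureTheory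

noncomputable section

namespace Fermat.Agent.LT.T7.H887

open Fermat.Agent.LT.H556 Fermat.Agent.LT.H556.A0 Fermat.Agent.LT Fermat.Agent.LT.T7.H193

variable {K : Type} [Field K] [NumberField K]

/-- If the matrix of `z` at `w` (in `ℂ`) is the identity, `z` is trivial at `w`. -/
theorem trivAtInf_of_infComp887 (w : InfinitePlace K) (z : G K) (h : infComp w z = 1) :
    TrivAtInf w z := by
  intro i j
  have hinj : Function.Injective (InfinitePlace.Completion.extensionEmbedding w) :=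
    RingHom.injective _
  apply hinj
  have h1 := congrFun (congrFun h i) j
  simp only [infComp] at h1
  rw [h1]
  by_cases hij : i = j
  · subst hij
    simp
  · simp [hij]

variable {𝔑 : Ideal (𝓞 K)} {r : G K} {a : (InfinitePlace K → ℝ) → G K}
  {D : Set (InfinitePlace K → ℝ)}

/-- `a (Pi.single w x)` is a positive scalar at `w`. -/
theorem isArchPosScalar_single887 [DecidableEq (InfinitePlace K)] (h : IsTorusData 𝔑 r a D)
    (w : InfinitePlace K) (x : ℝ) : IsArchPosScalar w (a (Pi.single w x)) := by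
  refine ⟨⟨fun w' hw' => ?_, fun v => h.fin _ v⟩, Real.exp x, Real.exp_pos x, ?_⟩
  · apply trivAtInf_of_infComp887
    rw [h.inf, Pi.single_eq_of_ne hw', Real.exp_zero]
    ext i j
    by_cases hij : i = j
    · subst hij
      simp
    · simp [hij]
  · rw [h.inf, Pi.single_eq_same]

theorem torus_zero887 (h : IsTorusData 𝔑 r a D) : a 0 = 1 := by
  have h1 := h.mul 0 0
  rw [add_zero] at h1
  have h2 : a 0 * 1 = a 0 * a 0 := by rw [mul_one]; exact h1
  exact (mul_left_cancel h2).symm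

/-- Invariance under `a` of a finite sum of coordinate vectors. -/
theorem inv_sum887 [DecidableEq (InfinitePlace K)] (h : IsTorusData 𝔑 r a D) (e : G K → ℂ)
    (he : ∀ (w : InfinitePlace K) (z : G K), IsArchPosScalar w z → ∀ g : G K, e (g * z) = e g)
    (t : InfinitePlace K → ℝ) (s : Finset (InfinitePlace K)) :
    ∀ g : G K, e (g * a (∑ w ∈ s, Pi.single w (t w))) = e g := by
  induction s using Finset.induction_on with
  | empty =>
    intro g
    rw [Finset.sum_empty, torus_zero887 h, mul_one]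
  | insert w s hw ih =>
    intro g
    rw [Finset.sum_insert hw, h.mul, ← mul_assoc, ih,
      he w _ (isArchPosScalar_single887 h w (t w))]

/-- Invariance under every `a t`. -/
theorem inv_torus887 (h : IsTorusData 𝔑 r a D) (e : G K → ℂ)
    (he : ∀ (w : InfinitePlace K) (z : G K), IsArchPosScalar w z → ∀ g : G K, e (g * z) = e g)
    (t : InfinitePlace K → ℝ) (g : G K) : e (g * a t) = e g := by
  classical
  have h1 := inv_sum887 h e he t Finset.univ g
  rwa [Finset.univ_sum_single] at h1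

/-- **Leaf T7.L2.1.N08 `TorAvgFixC`.** -/
theorem torAvgFixC887 (K : Type) [Field K] [NumberField K] : TorAvgFixC K := by
  intro 𝔑 r a D h e he g
  have hconst : ∀ t : InfinitePlace K → ℝ, e (g * a t) = e g := fun t =>
    inv_torus887 h e he t g
  have hlt : volume D < ⊤ := h.bdd.measure_lt_top
  have hpos : 0 < (volume D).toReal := ENNReal.toReal_pos h.pos.ne' hlt.ne
  have hne : (((volume D).toReal : ℝ) : ℂ) ≠ 0 := by
    exact_mod_cast hpos.ne'
  show (((volume D).toReal : ℝ) : ℂ)⁻¹ * ∫ t in D, e (g * a t) = e g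
  simp only [hconst]
  rw [setIntegral_const]
  simp only [Measure.real, Complex.real_smul]
  rw [← mul_assoc, inv_mul_cancel₀ hne, one_mul]

end Fermat.Agent.LT.T7.H887

end
end
-- ===== PACK-END LT/T7/H887/TorAvgFix.lean

-- ===== PACK-BEGIN LT/T7/H209/LtrEK.lean
section



/-!
# Row LT, tower T7, leaves EKPROD-UP (helper209): left translates of Eisenstein-killing functions

OFF-MAIN, ADDITIVE (all names end in `209`).  Vocabulary: `T5/Spec.lean` v4, `T7/Level2.lean`,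
`T7/H893/SupplyFamSpec.lean` (`ltr`, `lsum`, `iwL`, `regL`).  Nothing assumed.

`IsEKC209 μ φ`: `φ` is continuous with compact support, Eisenstein-killing with
Eisenstein-killing adjoint.  This class is stable under left translation, finite sums and
scalar multiples, hence under `lsum`, `iwL`, the iterates of `iwL` and `regL`.
-/

set_option autoImplicit false

open AutomorphicForm IsDedekindDomain NumberField MeasureTheory
open scoped ComplexConjugate

noncomputable section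

namespace Fermat.Agent.LT.T7.H209

open Fermat.Agent.LT.H556 Fermat.Agent.LT.H556.A0 Fermat.Agent.LT.T7

attribute [local instance] Fermat.Agent.LT.T5.instMeasurableSpaceG

variable {K : Type} [Field K] [NumberField K]

/-! ## The definitions, pointwise (by `rfl`) -/

theorem ltr_apply209 (b : G K) (φ : G K → ℂ) (y : G K) : H893.ltr b φ y = φ (b⁻¹ * y) := rfl

theorem lsum_apply209 (H : Finset (G K)) (φ : G K → ℂ) (y : G K) :
    H893.lsum H φ y = ∑ h ∈ H, φ (h⁻¹ * y) := rfl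

theorem lsum_eq_sum_ltr209 (H : Finset (G K)) (φ : G K → ℂ) :
    H893.lsum H φ = fun y => ∑ h ∈ H, H893.ltr h φ y := rfl

theorem iwL_eq209 (w : HeightOneSpectrum (𝓞 K)) (H : Finset (G K)) (φ : G K → ℂ) :
    H893.iwL w H φ
      = fun y => ((Real.sqrt (Ideal.absNorm w.asIdeal : ℝ) : ℝ) : ℂ)⁻¹ * H893.lsum H φ y := rfl

theorem regL_eq209 (w : HeightOneSpectrum (𝓞 K)) (z : G K) (H : Finset (G K)) (k : ℤ) (m : ℕ)
    (φ : G K → ℂ) : H893.regL w z H k m φ = H893.ltr (z ^ k) ((H893.iwL w H)^[m] φ) := rfl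

theorem Rconv_apply209 (μ : Measure (G K)) (φ e : G K → ℂ) (x : G K) :
    T5.Rconv μ φ e x = ∫ y, φ y * e (x * y) ∂μ := rfl

theorem adjointFn_apply209 (φ : G K → ℂ) (g : G K) : T5.adjointFn φ g = conj (φ g⁻¹) := rfl

/-! ## The class -/

/-- Continuous, compact support, Eisenstein-killing with Eisenstein-killing adjoint. -/
def IsEKC209 (μ : Measure (G K)) (φ : G K → ℂ) : Prop :=
  Continuous φ ∧ HasCompactSupport φ ∧ T5.IsEK μ φ ∧ T5.IsEK μ (T5.adjointFn φ)

variable {μ : Measure (G K)} {F : Set (G K)}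

theorem borelSpaceG209 (K : Type) [Field K] [NumberField K] : BorelSpace (G K) := ⟨rfl⟩

/-- The measure of a frame is right invariant. -/
theorem isMulRightInvariant209 (hF : T5.IsFrame μ F) : μ.IsMulRightInvariant := by
  have : BorelSpace (G K) := borelSpaceG209 K
  refine ⟨fun g => Measure.ext fun A hA => ?_⟩
  rw [Measure.map_apply (measurable_mul_const g) hA]
  exact hF.right_inv g A hA

/-- A right translate of a Borel-invariant function is Borel-invariant. -/
theorem isBorelInvariantFn_rtr209 {Ψ : G K → ℂ} (hΨ : T5.IsBorelInvariantFn Ψ) (b : G K) :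
    T5.IsBorelInvariantFn (fun g => Ψ (g * b)) := by
  refine ⟨hΨ.cont.comp (continuous_id.mul continuous_const), ?_, ?_, ?_⟩
  · intro n x hn g
    show Ψ (n * g * b) = Ψ (g * b)
    rw [mul_assoc, hΨ.unip n x hn]
  · intro t a c ht g
    show Ψ (T5.ratG t * g * b) = Ψ (g * b)
    rw [mul_assoc, hΨ.torus t a c ht]
  · obtain ⟨r, hr, hΨr⟩ := hΨ.ray
    refine ⟨r, hr, fun g => ?_⟩
    show Ψ (g * r * b) = Ψ (g * b)
    rw [mul_assoc, T5.H277.ray_comm277 hr b, ← mul_assoc, hΨr]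

/-! ## Left translates -/

theorem continuous_ltr209 (b : G K) {φ : G K → ℂ} (h : Continuous φ) :
    Continuous (H893.ltr b φ) :=
  h.comp (continuous_const.mul continuous_id)

theorem hasCompactSupport_ltr209 (b : G K) {φ : G K → ℂ} (h : HasCompactSupport φ) :
    HasCompactSupport (H893.ltr b φ) :=
  h.comp_homeomorph (Homeomorph.mulLeft b⁻¹)

theorem isEK_ltr209 (hF : T5.IsFrame μ F) (b : G K) {φ : G K → ℂ} (h : T5.IsEK μ φ) :
    T5.IsEK μ (H893.ltr b φ) := by
  have : BorelSpace (G K) := borelSpaceG209 K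
  have := hF.haar
  intro Ψ hΨ x
  have h1 := h Ψ hΨ (x * b)
  rw [Rconv_apply209] at h1 ⊢
  rw [← h1, ← integral_mul_left_eq_self (μ := μ) (fun y => H893.ltr b φ y * Ψ (x * y)) b]
  congr 1
  funext y
  rw [ltr_apply209, inv_mul_cancel_left, mul_assoc]

theorem adjointFn_ltr209 (b : G K) (φ : G K → ℂ) :
    T5.adjointFn (H893.ltr b φ) = fun g => T5.adjointFn φ (g * b) := by
  funext g
  rw [adjointFn_apply209, adjointFn_apply209, ltr_apply209, mul_inv_rev]

theorem isEK_adjoint_ltr209 (hF : T5.IsFrame μ F) (b : G K) {φ : G K → ℂ}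
    (h : T5.IsEK μ (T5.adjointFn φ)) : T5.IsEK μ (T5.adjointFn (H893.ltr b φ)) := by
  have : BorelSpace (G K) := borelSpaceG209 K
  have := isMulRightInvariant209 hF
  intro Ψ hΨ x
  have h1 := h _ (isBorelInvariantFn_rtr209 hΨ b⁻¹) x
  rw [Rconv_apply209] at h1 ⊢
  rw [← h1, ← integral_mul_right_eq_self (μ := μ)
    (fun y => T5.adjointFn φ y * Ψ (x * y * b⁻¹)) b, adjointFn_ltr209]
  congr 1
  funext y
  rw [← mul_assoc x y b, mul_inv_cancel_right]

theorem isEKC_ltr209 (hF : T5.IsFrame μ F) (b : G K) {φ : G K → ℂ} (h : IsEKC209 μ φ) :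
    IsEKC209 μ (H893.ltr b φ) :=
  ⟨continuous_ltr209 b h.1, hasCompactSupport_ltr209 b h.2.1, isEK_ltr209 hF b h.2.2.1,
    isEK_adjoint_ltr209 hF b h.2.2.2⟩

/-! ## Finite sums and scalar multiples -/

theorem hasCompactSupport_sum209 {ι : Type} (s : Finset ι) (φ : ι → G K → ℂ)
    (h : ∀ i ∈ s, HasCompactSupport (φ i)) :
    HasCompactSupport (fun y => ∑ i ∈ s, φ i y) := by
  classical
  induction s using Finset.induction_on with
  | empty =>
    simp only [Finset.sum_empty]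
    exact HasCompactSupport.zero
  | insert a s ha ih =>
    have h1 : HasCompactSupport (φ a) := h a (Finset.mem_insert_self a s)
    have h2 : HasCompactSupport (fun y => ∑ i ∈ s, φ i y) :=
      ih fun i hi => h i (Finset.mem_insert_of_mem hi)
    have e : (fun y => ∑ i ∈ insert a s, φ i y) = fun y => φ a y + ∑ i ∈ s, φ i y := by
      funext y
      rw [Finset.sum_insert ha]
    rw [e]
    exact h1.add h2

theorem isEK_sum209 (hF : T5.IsFrame μ F) {ι : Type} (s : Finset ι) (φ : ι → G K → ℂ)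
    (hc : ∀ i ∈ s, Continuous (φ i)) (hs : ∀ i ∈ s, HasCompactSupport (φ i))
    (h : ∀ i ∈ s, T5.IsEK μ (φ i)) : T5.IsEK μ (fun y => ∑ i ∈ s, φ i y) := by
  have : BorelSpace (G K) := borelSpaceG209 K
  have := hF.haar
  intro Ψ hΨ x
  rw [Rconv_apply209]
  have e : (fun y => (∑ i ∈ s, φ i y) * Ψ (x * y)) = fun y => ∑ i ∈ s, φ i y * Ψ (x * y) := by
    funext y
    rw [Finset.sum_mul]
  rw [e, integral_finsetSum]
  · refine Finset.sum_eq_zero fun i hi => ?_
    exact h i hi Ψ hΨ x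
  · intro i hi
    have c1 : Continuous fun y => φ i y * Ψ (x * y) :=
      (hc i hi).mul (hΨ.cont.comp (continuous_const.mul continuous_id))
    have c2 : HasCompactSupport fun y => φ i y * Ψ (x * y) := (hs i hi).mul_right
    exact c1.integrable_of_hasCompactSupport c2

theorem adjointFn_sum209 {ι : Type} (s : Finset ι) (φ : ι → G K → ℂ) :
    T5.adjointFn (fun y => ∑ i ∈ s, φ i y) = fun y => ∑ i ∈ s, T5.adjointFn (φ i) y := by
  funext g
  rw [adjointFn_apply209, map_sum]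
  rfl

theorem isEKC_sum209 (hF : T5.IsFrame μ F) {ι : Type} (s : Finset ι) (φ : ι → G K → ℂ)
    (h : ∀ i ∈ s, IsEKC209 μ (φ i)) : IsEKC209 μ (fun y => ∑ i ∈ s, φ i y) := by
  refine ⟨continuous_finsetSum s fun i hi => (h i hi).1,
    hasCompactSupport_sum209 s φ fun i hi => (h i hi).2.1,
    isEK_sum209 hF s φ (fun i hi => (h i hi).1) (fun i hi => (h i hi).2.1)
      (fun i hi => (h i hi).2.2.1), ?_⟩
  rw [adjointFn_sum209]
  exact isEK_sum209 hF s _ (fun i hi => T5.H32.continuous_adjointFn32 (h i hi).1)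
    (fun i hi => T5.H32.hasCompactSupport_adjointFn32 (h i hi).2.1)
    (fun i hi => (h i hi).2.2.2)

theorem isEK_const_mul209 (c : ℂ) {φ : G K → ℂ} (h : T5.IsEK μ φ) :
    T5.IsEK μ (fun y => c * φ y) := by
  intro Ψ hΨ x
  have h1 := h Ψ hΨ x
  rw [Rconv_apply209] at h1 ⊢
  have e : (fun y => c * φ y * Ψ (x * y)) = fun y => c * (φ y * Ψ (x * y)) := by
    funext y
    rw [mul_assoc]
  rw [e, integral_const_mul, h1, mul_zero]

theorem adjointFn_const_mul209 (c : ℂ) (φ : G K → ℂ) :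
    T5.adjointFn (fun y => c * φ y) = fun y => conj c * T5.adjointFn φ y := by
  funext g
  rw [adjointFn_apply209, map_mul]
  rfl

theorem isEKC_const_mul209 (c : ℂ) {φ : G K → ℂ} (h : IsEKC209 μ φ) :
    IsEKC209 μ (fun y => c * φ y) := by
  refine ⟨continuous_const.mul h.1, ?_, isEK_const_mul209 c h.2.2.1, ?_⟩
  · exact h.2.1.mul_left (f := fun _ => c)
  · rw [adjointFn_const_mul209]
    exact isEK_const_mul209 _ h.2.2.2

/-! ## The operations of `SupplyFamSpec` -/

theorem isEKC_lsum209 (hF : T5.IsFrame μ F) (H : Finset (G K)) {φ : G K → ℂ}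
    (h : IsEKC209 μ φ) : IsEKC209 μ (H893.lsum H φ) := by
  rw [lsum_eq_sum_ltr209]
  exact isEKC_sum209 hF H (fun b => H893.ltr b φ) fun b _ => isEKC_ltr209 hF b h

theorem isEKC_iwL209 (hF : T5.IsFrame μ F) (w : HeightOneSpectrum (𝓞 K)) (H : Finset (G K))
    {φ : G K → ℂ} (h : IsEKC209 μ φ) : IsEKC209 μ (H893.iwL w H φ) := by
  rw [iwL_eq209]
  exact isEKC_const_mul209 _ (isEKC_lsum209 hF H h)

theorem isEKC_iwL_iterate209 (hF : T5.IsFrame μ F) (w : HeightOneSpectrum (𝓞 K))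
    (H : Finset (G K)) {φ : G K → ℂ} (h : IsEKC209 μ φ) (m : ℕ) :
    IsEKC209 μ ((H893.iwL w H)^[m] φ) := by
  induction m with
  | zero => exact h
  | succ m ih =>
    rw [Function.iterate_succ_apply']
    exact isEKC_iwL209 hF w H ih

theorem isEKC_regL209 (hF : T5.IsFrame μ F) (w : HeightOneSpectrum (𝓞 K)) (z : G K)
    (H : Finset (G K)) (k : ℤ) (m : ℕ) {φ : G K → ℂ} (h : IsEKC209 μ φ) :
    IsEKC209 μ (H893.regL w z H k m φ) := by
  rw [regL_eq209]
  exact isEKC_ltr209 hF _ (isEKC_iwL_iterate209 hF w H h m)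

end Fermat.Agent.LT.T7.H209

end

end
-- ===== PACK-END LT/T7/H209/LtrEK.lean

-- ===== PACK-BEGIN LT/T7/H277/ROps.lean
section




/-!
# Row LT, tower T7, node T7.L2.1.F `FamC` (cut of helper893): ASSET `ROps` (helper277) -- OFF-MAIN

The operator calculus of the families of `LT/T7/H893/SupplyFamSpec.lean`:

* `ltr`, `lsum`, `iwL`, `regL` preserve continuity and compact support;
* `Rconv_ltr277`   : `R(ltr b φ) ψ = (R(φ) ψ)(· b)`;
* `Rconv_lsum277`  : `R(lsum H φ) ψ = cosetOp H (R(φ) ψ)`;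
* `Rconv_iwL277`   : `R(iwL w H φ) ψ = iwOp w H (R(φ) ψ)`;
* `Rconv_regL277`  : `R(regL w z H k m φ) ψ = shiftOp z k ((iwOp w H)^[m] (R(φ) ψ))`;
* `Rconv_down277`, `Rconv_up277`: the operators of the members of the two families.

No hole, nothing assumed.  Input: `T5.H277.Rconv_Rconv277` (Fubini).
-/

set_option autoImplicit false
open IsDedekindDomain NumberField MeasureTheory
open scoped ComplexConjugate

noncomputable section
namespace Fermat.Agent.LT.T7.H277

open Fermat.Agent.LT Fermat.Agent.LT.H556 Fermat.Agent.LT.H556.A0 Fermat.Agent.LT.T7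
open Fermat.Agent.LT.T7.H893

attribute [local instance] Fermat.Agent.LT.T5.instMeasurableSpaceG

variable {K : Type} [Field K] [NumberField K]
variable {μ : Measure (G K)} {F : Set (G K)}

/-! ## Continuity and compact support -/

theorem continuous_ltr277 (b : G K) {φ : G K → ℂ} (hφ : Continuous φ) :
    Continuous (ltr b φ) :=
  hφ.comp (continuous_const_mul b⁻¹)

theorem hasCompactSupport_ltr277 (b : G K) {φ : G K → ℂ} (hφ : HasCompactSupport φ) :
    HasCompactSupport (ltr b φ) :=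
  hφ.comp_homeomorph (Homeomorph.mulLeft b⁻¹)

theorem lsum_eq_sum277 (H : Finset (G K)) (φ : G K → ℂ) :
    lsum H φ = ∑ h ∈ H, ltr h φ := by
  funext y
  simp only [lsum, ltr, Finset.sum_apply]

theorem continuous_lsum277 (H : Finset (G K)) {φ : G K → ℂ} (hφ : Continuous φ) :
    Continuous (lsum H φ) := by
  unfold lsum
  exact continuous_finsetSum _ fun h _ => hφ.comp (continuous_const_mul h⁻¹)

theorem hasCompactSupport_lsum277 (H : Finset (G K)) {φ : G K → ℂ} (hφ : HasCompactSupport φ) :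
    HasCompactSupport (lsum H φ) := by
  classical
  rw [lsum_eq_sum277]
  induction H using Finset.induction_on with
  | empty =>
    simp only [Finset.sum_empty]
    exact HasCompactSupport.zero
  | insert a s ha ih =>
    rw [Finset.sum_insert ha]
    exact (hasCompactSupport_ltr277 a hφ).add ih

theorem iwL_eq277 (w : HeightOneSpectrum (𝓞 K)) (H : Finset (G K)) (φ : G K → ℂ) :
    iwL w H φ = fun y => ((Real.sqrt (Ideal.absNorm w.asIdeal : ℝ) : ℝ) : ℂ)⁻¹ * lsum H φ y :=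
  rfl

theorem continuous_iwL277 (w : HeightOneSpectrum (𝓞 K)) (H : Finset (G K)) {φ : G K → ℂ}
    (hφ : Continuous φ) : Continuous (iwL w H φ) := by
  rw [iwL_eq277]
  exact continuous_const.mul (continuous_lsum277 H hφ)

theorem hasCompactSupport_iwL277 (w : HeightOneSpectrum (𝓞 K)) (H : Finset (G K))
    {φ : G K → ℂ} (hφ : HasCompactSupport φ) : HasCompactSupport (iwL w H φ) := by
  rw [iwL_eq277]
  exact (hasCompactSupport_lsum277 H hφ).mul_left

theorem continuous_iwL_iter277 (w : HeightOneSpectrum (𝓞 K)) (H : Finset (G K)) (m : ℕ)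
    {φ : G K → ℂ} (hφ : Continuous φ) : Continuous ((iwL w H)^[m] φ) := by
  induction m with
  | zero => simpa using hφ
  | succ n ih =>
    rw [Function.iterate_succ_apply']
    exact continuous_iwL277 w H ih

theorem hasCompactSupport_iwL_iter277 (w : HeightOneSpectrum (𝓞 K)) (H : Finset (G K)) (m : ℕ)
    {φ : G K → ℂ} (hφ : HasCompactSupport φ) : HasCompactSupport ((iwL w H)^[m] φ) := by
  induction m with
  | zero => simpa using hφ
  | succ n ih =>
    rw [Function.iterate_succ_apply']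
    exact hasCompactSupport_iwL277 w H ih

theorem continuous_regL277 (w : HeightOneSpectrum (𝓞 K)) (z : G K) (H : Finset (G K)) (k : ℤ)
    (m : ℕ) {φ : G K → ℂ} (hφ : Continuous φ) : Continuous (regL w z H k m φ) :=
  continuous_ltr277 _ (continuous_iwL_iter277 w H m hφ)

theorem hasCompactSupport_regL277 (w : HeightOneSpectrum (𝓞 K)) (z : G K) (H : Finset (G K))
    (k : ℤ) (m : ℕ) {φ : G K → ℂ} (hφ : HasCompactSupport φ) :
    HasCompactSupport (regL w z H k m φ) :=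
  hasCompactSupport_ltr277 _ (hasCompactSupport_iwL_iter277 w H m hφ)

/-! ## Continuity of the operators on functions -/

theorem continuous_cosetOp277 (H : Finset (G K)) {ψ : G K → ℂ} (hψ : Continuous ψ) :
    Continuous (cosetOp H ψ) := by
  unfold cosetOp
  exact continuous_finsetSum _ fun h _ => hψ.comp (continuous_mul_const h)

theorem continuous_iwOp277 (w : HeightOneSpectrum (𝓞 K)) (H : Finset (G K)) {ψ : G K → ℂ}
    (hψ : Continuous ψ) : Continuous (iwOp w H ψ) := by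
  unfold iwOp
  exact continuous_const.mul
    (continuous_finsetSum _ fun h _ => hψ.comp (continuous_mul_const h))

theorem continuous_iwOp_iter277 (w : HeightOneSpectrum (𝓞 K)) (H : Finset (G K)) (m : ℕ)
    {ψ : G K → ℂ} (hψ : Continuous ψ) : Continuous ((iwOp w H)^[m] ψ) := by
  induction m with
  | zero => simpa using hψ
  | succ n ih =>
    rw [Function.iterate_succ_apply']
    exact continuous_iwOp277 w H ih

theorem continuous_shiftOp277 (z : G K) (k : ℤ) {ψ : G K → ℂ} (hψ : Continuous ψ) :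
    Continuous (shiftOp z k ψ) :=
  hψ.comp (continuous_mul_const (z ^ k))

/-! ## The operators of the translates -/

/-- `R(ltr b φ) ψ = (R(φ) ψ)(· b)`: left invariance of the Haar measure. -/
theorem Rconv_ltr277 (hF : T5.IsFrame μ F) (b : G K) (φ ψ : G K → ℂ) (x : G K) :
    T5.Rconv μ (ltr b φ) ψ x = T5.Rconv μ φ ψ (x * b) := by
  have : BorelSpace (G K) := T5.H277.borelSpaceG277
  have := hF.haar
  unfold T5.Rconv ltr
  have h := integral_mul_left_eq_self (μ := μ) (fun y => φ (b⁻¹ * y) * ψ (x * y)) b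
  rw [← h]
  congr 1
  funext y
  simp only [inv_mul_cancel_left, mul_assoc]

theorem integrable_mul277 (hF : T5.IsFrame μ F) {φ ψ : G K → ℂ} (hφc : Continuous φ)
    (hφs : HasCompactSupport φ) (hψ : Continuous ψ) (x : G K) :
    Integrable (fun y => φ y * ψ (x * y)) μ := by
  have : BorelSpace (G K) := T5.H277.borelSpaceG277
  have := hF.haar
  have hc : Continuous (fun y => φ y * ψ (x * y)) :=
    hφc.mul (hψ.comp (continuous_const_mul x))
  exact hc.integrable_of_hasCompactSupport hφs.mul_right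

/-- `R(lsum H φ) ψ = cosetOp H (R(φ) ψ)`. -/
theorem Rconv_lsum277 (hF : T5.IsFrame μ F) (H : Finset (G K)) {φ ψ : G K → ℂ}
    (hφc : Continuous φ) (hφs : HasCompactSupport φ) (hψ : Continuous ψ) (x : G K) :
    T5.Rconv μ (lsum H φ) ψ x = cosetOp H (T5.Rconv μ φ ψ) x := by
  have : BorelSpace (G K) := T5.H277.borelSpaceG277
  have := hF.haar
  have h1 : T5.Rconv μ (lsum H φ) ψ x = ∫ y, ∑ h ∈ H, ltr h φ y * ψ (x * y) ∂μ := by
    unfold T5.Rconv lsum ltr
    congr 1
    funext y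
    rw [Finset.sum_mul]
  rw [h1, integral_finsetSum]
  · unfold cosetOp
    refine Finset.sum_congr rfl fun h _ => ?_
    exact Rconv_ltr277 hF h φ ψ x
  · intro h _
    exact integrable_mul277 hF (continuous_ltr277 h hφc) (hasCompactSupport_ltr277 h hφs) hψ x

/-- `R(iwL w H φ) ψ = iwOp w H (R(φ) ψ)`. -/
theorem Rconv_iwL277 (hF : T5.IsFrame μ F) (w : HeightOneSpectrum (𝓞 K)) (H : Finset (G K))
    {φ ψ : G K → ℂ} (hφc : Continuous φ) (hφs : HasCompactSupport φ) (hψ : Continuous ψ)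
    (x : G K) :
    T5.Rconv μ (iwL w H φ) ψ x = iwOp w H (T5.Rconv μ φ ψ) x := by
  have h1 : T5.Rconv μ (iwL w H φ) ψ x
      = ((Real.sqrt (Ideal.absNorm w.asIdeal : ℝ) : ℝ) : ℂ)⁻¹ * T5.Rconv μ (lsum H φ) ψ x := by
    unfold T5.Rconv
    rw [← integral_const_mul]
    congr 1
    funext y
    rw [iwL_eq277]
    ring
  rw [h1, Rconv_lsum277 hF H hφc hφs hψ x]
  rfl

/-- `R((iwL w H)^[m] φ) ψ = (iwOp w H)^[m] (R(φ) ψ)`. -/
theorem Rconv_iwL_iter277 (hF : T5.IsFrame μ F) (w : HeightOneSpectrum (𝓞 K))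
    (H : Finset (G K)) {φ ψ : G K → ℂ} (hφc : Continuous φ) (hφs : HasCompactSupport φ)
    (hψ : Continuous ψ) (m : ℕ) :
    T5.Rconv μ ((iwL w H)^[m] φ) ψ = (iwOp w H)^[m] (T5.Rconv μ φ ψ) := by
  induction m with
  | zero => rfl
  | succ n ih =>
    rw [Function.iterate_succ_apply', Function.iterate_succ_apply', ← ih]
    funext x
    exact Rconv_iwL277 hF w H (continuous_iwL_iter277 w H n hφc)
      (hasCompactSupport_iwL_iter277 w H n hφs) hψ x

/-- `R(regL w z H k m φ) ψ = shiftOp z k ((iwOp w H)^[m] (R(φ) ψ))`. -/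
theorem Rconv_regL277 (hF : T5.IsFrame μ F) (w : HeightOneSpectrum (𝓞 K)) (z : G K)
    (H : Finset (G K)) (k : ℤ) (m : ℕ) {φ ψ : G K → ℂ} (hφc : Continuous φ)
    (hφs : HasCompactSupport φ) (hψ : Continuous ψ) :
    T5.Rconv μ (regL w z H k m φ) ψ = shiftOp z k ((iwOp w H)^[m] (T5.Rconv μ φ ψ)) := by
  funext x
  unfold regL
  rw [Rconv_ltr277 hF, Rconv_iwL_iter277 hF w H hφc hφs hψ m]
  rfl

/-- The operator of a product. -/
theorem Rconv_conv277 (hF : T5.IsFrame μ F) {φ₁ φ₂ ψ : G K → ℂ} (h₁c : Continuous φ₁)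
    (h₁s : HasCompactSupport φ₁) (h₂c : Continuous φ₂) (h₂s : HasCompactSupport φ₂)
    (hψ : Continuous ψ) :
    T5.Rconv μ (T5.conv μ φ₁ φ₂) ψ = T5.Rconv μ φ₁ (T5.Rconv μ φ₂ ψ) := by
  funext x
  exact (T5.H277.Rconv_Rconv277 hF h₁c h₁s h₂c h₂s hψ x).symm

/-- The operator of a member of the family downstairs:
`R(F₁ ⋆ regL u z H k m f₂) ψ = R(F₁) (Z^k 𝒰^m (R(f₂) ψ))`. -/
theorem Rconv_down277 (hF : T5.IsFrame μ F) (w : HeightOneSpectrum (𝓞 K)) (z : G K)
    (H : Finset (G K)) (k : ℤ) (m : ℕ) {φ₁ φ₂ ψ : G K → ℂ} (h₁c : Continuous φ₁)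
    (h₁s : HasCompactSupport φ₁) (h₂c : Continuous φ₂) (h₂s : HasCompactSupport φ₂)
    (hψ : Continuous ψ) :
    T5.Rconv μ (T5.conv μ φ₁ (regL w z H k m φ₂)) ψ
      = T5.Rconv μ φ₁ (shiftOp z k ((iwOp w H)^[m] (T5.Rconv μ φ₂ ψ))) := by
  rw [Rconv_conv277 hF h₁c h₁s (continuous_regL277 w z H k m h₂c)
    (hasCompactSupport_regL277 w z H k m h₂s) hψ, Rconv_regL277 hF w z H k m h₂c h₂s hψ]

/-- The operator of a member of the family upstairs:
`R(Φ₁ ⋆ lsum Hg (regL w z H k m φ₂)) ψ = R(Φ₁) ([U g U] Z^k 𝒰^m (R(φ₂) ψ))`. -/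
theorem Rconv_up277 (hF : T5.IsFrame μ F) (Hg : Finset (G K)) (w : HeightOneSpectrum (𝓞 K))
    (z : G K) (H : Finset (G K)) (k : ℤ) (m : ℕ) {φ₁ φ₂ ψ : G K → ℂ} (h₁c : Continuous φ₁)
    (h₁s : HasCompactSupport φ₁) (h₂c : Continuous φ₂) (h₂s : HasCompactSupport φ₂)
    (hψ : Continuous ψ) :
    T5.Rconv μ (T5.conv μ φ₁ (lsum Hg (regL w z H k m φ₂))) ψ
      = T5.Rconv μ φ₁ (cosetOp Hg (shiftOp z k ((iwOp w H)^[m] (T5.Rconv μ φ₂ ψ)))) := by
  have hc := continuous_regL277 w z H k m h₂c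
  have hs := hasCompactSupport_regL277 w z H k m h₂s
  rw [Rconv_conv277 hF h₁c h₁s (continuous_lsum277 Hg hc) (hasCompactSupport_lsum277 Hg hs) hψ]
  congr 1
  funext x
  rw [Rconv_lsum277 hF Hg hc hs hψ x, Rconv_regL277 hF w z H k m h₂c h₂s hψ]

/-! ## Zero -/

theorem Rconv_zero277 (φ : G K → ℂ) : T5.Rconv μ φ (fun _ => 0) = fun _ => 0 := by
  funext x
  simp [T5.Rconv]

theorem iwOp_zero277 (w : HeightOneSpectrum (𝓞 K)) (H : Finset (G K)) :
    iwOp w H (fun _ : G K => (0 : ℂ)) = fun _ => 0 := by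
  funext x
  simp [iwOp]

theorem iwOp_iter_zero277 (w : HeightOneSpectrum (𝓞 K)) (H : Finset (G K)) (m : ℕ) :
    (iwOp w H)^[m] (fun _ : G K => (0 : ℂ)) = fun _ => 0 := by
  induction m with
  | zero => rfl
  | succ n ih => rw [Function.iterate_succ_apply', ih, iwOp_zero277]

theorem shiftOp_zero277 (z : G K) (k : ℤ) :
    shiftOp z k (fun _ : G K => (0 : ℂ)) = fun _ => 0 := rfl

theorem cosetOp_zero277 (H : Finset (G K)) :
    cosetOp H (fun _ : G K => (0 : ℂ)) = fun _ => 0 := by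
  funext x
  simp [cosetOp]

theorem shiftOp_zero_exp277 (z : G K) (ψ : G K → ℂ) : shiftOp z 0 ψ = ψ := by
  funext x
  simp [shiftOp]

end Fermat.Agent.LT.T7.H277
end

end
-- ===== PACK-END LT/T7/H277/ROps.lean

-- ===== PACK-BEGIN LT/T7/H962/SupplyQTop.lean
section



/-!
# Row LT, tower T7, node T7.L2Q.1 `SupplyQC` (quadratic step): FIRST CUT -- proved top
# (helper962, ASSIST; mirror of `T7/H893/SupplyTop.lean`)

OFF-MAIN.  No hole, nothing assumed.  ADDITIVE.

    supplyQC_of962  : SetupQC962 F → H893.ProjC F → ProjQC962 w0 → ProjQC962 w1 → FamQC962 P F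
                        → L2Q.SupplyQC P F
    supplyQC_of962' : SetupQC962 F → H893.ProjC F → H893.ProjC ℚ → ProjQC962 w1 → FamQC962 P F
                        → L2Q.SupplyQC P F
    projQC_w0_of962 : H893.ProjC ℚ → ProjQC962 w0
-/

set_option autoImplicit false

open AutomorphicForm IsDedekindDomain NumberField MeasureTheory
open scoped ComplexConjugate

noncomputable section

namespace Fermat.Agent.LT.T7.H962

open Fermat.Agent.LT.H556 Fermat.Agent.LT.H556.A0 Fermat.Agent.LT.T7 Fermat.Agent.LT.T7.L2Q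
  Fermat.Agent.LT.T7.H893

attribute [local instance] Fermat.Agent.LT.T5.instMeasurableSpaceG

section Proj

/-- An invariant cusp function of the trivial type over `ℚ` in the sense of the cyclic step. -/
theorem isWFn_of_isWFnQ962 {𝔫 : Ideal (𝓞 ℚ)} {r : G ℚ} {u : HeightOneSpectrum (𝓞 ℚ)}
    {ψ : G ℚ → ℂ} (h : IsWFnQ QWt.w0 𝔫 r u ψ) : IsWFn 𝔫 r 1 (fun _ => u) ψ :=
  ⟨h.cusp, h.arch_scalar, h.iw⟩

/-- An invariant cusp function of the cyclic step over `ℚ` is one of the trivial type. -/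
theorem isWFnQ_of_isWFn962 {𝔫 : Ideal (𝓞 ℚ)} {r : G ℚ} {u : HeightOneSpectrum (𝓞 ℚ)}
    {ψ : G ℚ → ℂ} (h : IsWFn 𝔫 r 1 (fun _ => u) ψ) : IsWFnQ QWt.w0 𝔫 r u ψ :=
  ⟨h.cusp, h.arch_scalar, h.iw⟩

/-- **The projection of the trivial type over `ℚ` is the cyclic leaf `H893.ProjC ℚ`.** -/
theorem projQC_w0_of962 (hP : H893.ProjC ℚ) : ProjQC962 QWt.w0 := by
  intro R hR 𝔫₀ 𝔫 h𝔫 hle u hu ψ hψ
  obtain ⟨ψ₁, h₁, horth⟩ := hP R hR 𝔫₀ 𝔫 h𝔫 hle 1 (fun _ => u) (fun _ => hu) ψ hψ
  exact ⟨ψ₁, isWFnQ_of_isWFn962 h₁, fun χ hχ => horth χ (isWFn_of_isWFnQ962 hχ)⟩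

end Proj

section Top

variable {P : EKCond}
variable {F : Type} [Field F] [NumberField F]

/-- The extension of a nonzero ideal of `ℚ` is nonzero. -/
theorem upI_ne_bot962 {𝔫 : Ideal (𝓞 ℚ)} (h : 𝔫 ≠ ⊥) : upI (K' := F) 𝔫 ≠ ⊥ := by
  unfold upI
  intro h0
  rw [Ideal.map_eq_bot_iff_of_injective (FaithfulSMul.algebraMap_injective (𝓞 ℚ) (𝓞 F))] at h0
  exact h h0

/-- The data of the comparison are good for every nonzero level. -/
theorem isCompData_comp962 {Φ : HeckeEigensystem F ℂ} {B : L2QBase962 F}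
    (hB : IsL2QBase962 Φ B) {𝔫 : Ideal (𝓞 ℚ)} (h : 𝔫 ≠ ⊥) : IsCompData (B.comp 𝔫) where
  cyc := hB.cyc
  base := hB.base
  level_ne := h
  level := rfl
  frame := hB.frame
  frame' := hB.frame'
  aut := hB.aut 𝔫

/-- **The assembly of an `L2QData`** from a common part and `g`-parts at the bad elements. -/
theorem isL2QData_toData962 {Φ : HeckeEigensystem F ℂ} {B : L2QBase962 F}
    (hB : IsL2QBase962 Φ B) (hP' : H893.ProjC F) (hPQ : ∀ n : QWt, ProjQC962 n)
    (Fm : G F → L2QFam962 F)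
    (hFm : ∀ g : G F, B.IsBad g → IsL2QFam962 Φ B g (Fm g)) :
    IsL2QData Φ (B.toData Fm) where
  comp := fun g hg => isCompData_comp962 hB (hFm g hg).level_ne
  level_le := hB.level_le
  level_g := fun g hg => (hFm g hg).level_g
  mem_S' := hB.mem_S'
  mem_S'_g := fun g hg => (hFm g hg).mem_S'_g
  under := hB.under
  const := hB.const
  orbit_rel := hB.orbit_rel
  orbit_ne := hB.orbit_ne
  orbit_over := hB.orbit_over
  orbit_level := hB.orbit_level
  orbit_good := hB.orbit_good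
  u_level := fun g hg => (hFm g hg).u_level
  ekprod_up := fun g X k m hg hX => (hFm g hg).ekprod_up X k m hX
  ekprod_down := fun n g X k m hg hX => (hFm g hg).ekprod_down n X k m hX
  reg_up := fun g X k m hg hX hm => (hFm g hg).reg_up X k m hX hm
  reg_down := fun n g X k m hg hX hm => (hFm g hg).reg_down n X k m hX hm
  matched := fun g X k m hg hX hm => (hFm g hg).matched X k m hX hm
  base_ne := fun g hg => (hFm g hg).base_ne
  op_up := fun g X k m hg hX => (hFm g hg).op_up X k m hX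
  kill_up := fun g X k m hg hX => (hFm g hg).kill_up X k m hX
  proj_up := fun g hg ψ hψ =>
    hP' B.R' hB.frame' B.𝔑₀ (upI (K' := F) (Fm g).𝔫) (upI_ne_bot962 (hFm g hg).level_ne)
      (hFm g hg).level_g 2 B.o (fun j => (hB.mem_S' (B.o j)).1 (hB.orbit_level j)) ψ hψ
  op_down := fun n g X k m hg hX => (hFm g hg).op_down n X k m hX
  class_down := fun n g hg => (hFm g hg).class_down n
  comm_down := fun n g hg => (hFm g hg).comm_down n
  kill_down := fun n g X k m hg hX => (hFm g hg).kill_down n X k m hX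
  proj_down := fun n g hg ψ hψ =>
    hPQ n B.R hB.frame (Fm g).𝔫 (Fm g).𝔫 (hFm g hg).level_ne le_rfl B.u
      (hFm g hg).u_level ψ hψ

/-- **THE TOP OF THE FIRST CUT of T7.L2Q.1**: the supply over `ℚ` from the setup, the orthogonal
projections (upstairs: the cyclic leaf over `F`; downstairs: per type) and the families for one
bad element. -/
theorem supplyQC_of962 (hS : SetupQC962 F) (hP' : H893.ProjC F) (hP0 : ProjQC962 QWt.w0)
    (hP1 : ProjQC962 QWt.w1) (hF : FamQC962 P F) : SupplyQC P F := by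
  intro h3 hquad Φ hΦ hconst hPΦ
  obtain ⟨B, hB⟩ := hS h3 hquad Φ hΦ hconst
  have hex : ∀ g : G F, ∃ Fm : L2QFam962 F, B.IsBad g → IsL2QFam962 Φ B g Fm := by
    intro g
    by_cases hg : B.IsBad g
    · obtain ⟨Fm, h⟩ := hF h3 hquad Φ hΦ hconst hPΦ B hB g hg
      exact ⟨Fm, fun _ => h⟩
    · exact ⟨⟨⊥, fun _ => 0, fun _ _ _ _ => 0, fun _ _ _ _ _ => 0, fun _ => 0⟩,
        fun h => absurd h hg⟩
  choose Fm hFm using hex
  have hPQ : ∀ n : QWt, ProjQC962 n := fun n => by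
    cases n
    · exact hP0
    · exact hP1
  exact ⟨B.toData Fm, isL2QData_toData962 hB hP' hPQ Fm hFm⟩

/-- The same with the cyclic leaf `H893.ProjC ℚ` for the trivial type. -/
theorem supplyQC_of962' (hS : SetupQC962 F) (hP' : H893.ProjC F) (hP : H893.ProjC ℚ)
    (hP1 : ProjQC962 QWt.w1) (hF : FamQC962 P F) : SupplyQC P F :=
  supplyQC_of962 hS hP' (projQC_w0_of962 hP) hP1 hF

end Top

end Fermat.Agent.LT.T7.H962

end

end
-- ===== PACK-END LT/T7/H962/SupplyQTop.lean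

-- ===== PACK-BEGIN LT/T7/H385/LocVan.lean
section



/-!
# Row LT, tower T7, node C2.7 `CutIntC305`, leaf C2.7.9 `LocVanC305` (registry 2573)

OFF-MAIN (helper385).  `locVanC385 : H305.LocVanC305`, UNCONDITIONAL, VERBATIM Prop of
`LT/T7/H305/MatchCut.lean` (helper305@56ddcdc02, sha256 0f302b81).

Proof.  `T6.OrbSumExC` for `k' = k`, `l = e = 1`, `i = id`, `s = 1` gives an orbit sum `c`;
`c = 0` by hypothesis; `T6.OrbSumIntC` for `l = 1`, `s = 1`: the cut-off integral is `c`.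
-/

set_option autoImplicit false

open MeasureTheory

noncomputable section

namespace Fermat.Agent.LT.T7.H385

open Fermat.Agent.LT Fermat.Agent.LT.T7 Fermat.Agent.LT.T7.H305

/-- `glAut` of the identity automorphism is the identity. -/
theorem glAut_refl385 {k : Type} [Field k] (x : GL (Fin 2) k) :
    T6.glAut (RingEquiv.refl k) x = x := by
  apply Units.ext
  ext i j
  rfl

/-- The twisted norm of degree `1`. -/
theorem twNorm_one385 {k : Type} [Field k] (s : k ≃+* k) (δ : GL (Fin 2) k) :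
    T6.twNorm s 1 δ = δ := by
  unfold T6.twNorm
  rw [T6.twN, T6.twN, map_one, mul_one]

/-- The trivial cyclic extension `k / k` of degree `1`. -/
theorem isLocalExt_refl385 (k : Type) [Field k] [Valued k T6.Γ₀] :
    T6.IsLocalExt k k 1 1 (RingHom.id k) (RingEquiv.refl k) where
  cyc :=
    { pos := Nat.one_pos
      fix_i := fun _ => rfl
      fixed := fun y _ => ⟨y, rfl⟩
      order := fun _ => rfl
      faithful := fun m hm hm1 => absurd hm1 (by omega) }
  e_pos := Nat.one_pos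
  val_i := fun x => by rw [pow_one]; rfl
  val_s := fun _ => rfl

/-- **Leaf C2.7.9 `LocVanC305`**, unconditional. -/
theorem locVanC385 : LocVanC305 := by
  intro hT6 k _ _ q hk n f hf hfs γ hγ hvan μ hμ μT hμT β hβ
  have hEx : T6.OrbSumExC := hT6.2.2.2.2.2.2.2.2.1
  have hInt : T6.OrbSumIntC := hT6.2.2.2.2.2.2.2.2.2.2.1
  have hk' : T6.IsLocalField k (q ^ (1 / 1)) := by
    have e : q ^ (1 / 1) = q := by norm_num
    rw [e]
    exact hk
  have hreg : T6.IsReg (T6.twNorm (RingEquiv.refl k) 1 γ) := by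
    rw [twNorm_one385]
    exact hγ
  obtain ⟨c, hc⟩ := hEx k k q 1 1 (RingHom.id k) (RingEquiv.refl k) hk hk'
    (isLocalExt_refl385 k) n f hf hfs γ hreg
  have hc0 : c = 0 := hvan c hc
  rw [hc0] at hc
  have h := hInt k q 1 (RingEquiv.refl k) hk (fun _ => rfl) Nat.one_pos (fun _ => rfl)
    n f hf hfs γ 0 hreg hc μ hμ.1 hμ.2 μT hμT.1 hμT.2 β hβ.1 hβ.2.1 hβ.2.2
  have e : (fun y : GL (Fin 2) k => f (y⁻¹ * γ * y) * ((β y : ℝ) : ℂ))
      = fun x : GL (Fin 2) k => f (x⁻¹ * γ * T6.glAut (RingEquiv.refl k) x) * (β x : ℂ) := by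
    funext x
    rw [glAut_refl385]
  unfold locInt305
  rw [e]
  exact h

end Fermat.Agent.LT.T7.H385

end

end
-- ===== PACK-END LT/T7/H385/LocVan.lean

-- ===== PACK-BEGIN LT/T7/H729/LocMeas.lean
section




/-!
# Row LT, tower T7, leaf T7.L2.1.C2.7.1 `H305.LocMeasC305` (helper729)

OFF-MAIN.  PROVED, UNCONDITIONAL (no hole, nothing assumed).  ADDITIVE (new names only).
Spec: `LT/T7/H305/MatchCut.lean` (helper305@56ddcdc02, sha256 0f302b81), byte-identical copy.

    locMeasC729 : H305.LocMeasC305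

Route (docstring of the leaf): `GL₂(k)` is a topological group and `U(n)` is a compact open
subgroup (helper420), so the Haar measure normalised on `U(n)` exists; the twisted centraliser
is a closed subgroup, its elements commute with the norm `N δ` (helper846), and the elements of
the centraliser of the regular element `N δ` with integral trace and unit determinant form a
compact set (`isCompact_cent729`: the entries are bounded), open in the twisted centraliser.
-/

set_option autoImplicit false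

open AutomorphicForm IsDedekindDomain NumberField MeasureTheory

noncomputable section

namespace Fermat.Agent.LT.T7.LocMeas729

open Fermat.Agent.LT.T7

/-- **LEAF T7.L2.1.C2.7.1 `H305.LocMeasC305`**: normalised local Haar measures exist. -/
theorem locMeasC729 : H305.LocMeasC305 := by
  intro k _ _ q h
  refine ⟨fun n => exists_locHaar729 h n, ?_⟩
  intro l s hs _ hl δ hreg
  exact exists_locTor729 h l s hs hl δ hreg

end Fermat.Agent.LT.T7.LocMeas729

end

end
-- ===== PACK-END LT/T7/H729/LocMeas.lean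

-- ===== PACK-BEGIN LT/T7/H82/PureExt.lean
section



/-!
# Row LT, tower T7, LEAF T7.L2.1.C2.7.8 = `PureExtC305` (helper82, registry row 2572)

OFF-MAIN.  Spec: `T7/H305/MatchCut.lean` (helper305, sha256 0f302b815a6f6af4).

    pureExtC82 K : H305.PureExtC305 K          VERBATIM, UNCONDITIONAL

The pure tensor does not change if `T` is enlarged to `S` and the new components are the unit
elements `1_{GL₂(𝒪_v)}`: `T6.InU 0 (h_v)` iff `h_v` and `h_v⁻¹` are integral
(`inU_zero_iff82`), so the product of the new components is `1` if `h` is integral outside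
`T`, and `0` if `h` is integral outside `S` but not outside `T`.
-/

set_option autoImplicit false

open AutomorphicForm IsDedekindDomain NumberField MeasureTheory
open scoped ComplexConjugate

noncomputable section

namespace Fermat.Agent.LT.T7.H82

open Fermat.Agent.LT.H556 Fermat.Agent.LT.H556.A0 Fermat.Agent.LT.T7
open Fermat.Agent.LT.T7.H305

variable {K : Type} [Field K] [NumberField K]

theorem val_one_apply_le82 (v : HeightOneSpectrum (𝓞 K)) (i j : Fin 2) :
    Valued.v ((1 : Matrix (Fin 2) (Fin 2) (v.adicCompletion K)) i j) ≤ 1 := by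
  by_cases h : i = j
  · rw [Matrix.one_apply, if_pos h, map_one]
  · rw [Matrix.one_apply, if_neg h, map_zero]
    exact zero_le_one

theorem finGL_coe82 (v : HeightOneSpectrum (𝓞 K)) (h : G K) :
    ((finGL305 v h : GL (Fin 2) (v.adicCompletion K)) :
      Matrix (Fin 2) (Fin 2) (v.adicCompletion K)) = finComp v h := rfl

theorem finGL_inv_coe82 (v : HeightOneSpectrum (𝓞 K)) (h : G K) :
    (((finGL305 v h)⁻¹ : GL (Fin 2) (v.adicCompletion K)) :
      Matrix (Fin 2) (Fin 2) (v.adicCompletion K)) = finComp v h⁻¹ := by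
  rw [← map_inv]
  rfl

/-- `U(0) = GL₂(𝒪_v)`: integral with integral inverse. -/
theorem inU_zero_iff82 (v : HeightOneSpectrum (𝓞 K)) (h : G K) :
    T6.InU 0 (finGL305 v h) ↔ IsIntegralAt v h ∧ IsIntegralAt v h⁻¹ := by
  have key : ∀ x y : v.adicCompletion K, Valued.v y ≤ 1 →
      (Valued.v (x - y) ≤ 1 ↔ Valued.v x ≤ 1) := by
    intro x y hy
    constructor
    · intro hxy
      have e : x = (x - y) + y := by ring
      rw [e]
      exact (Valuation.map_add _ _ _).trans (max_le hxy hy)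
    · intro hx
      exact (Valuation.map_sub _ _ _).trans (max_le hx hy)
  have h0 : WithZero.exp (-((0 : ℕ) : ℤ)) = (1 : WithZero (Multiplicative ℤ)) := by
    simp
  unfold T6.InU IsIntegralAt
  rw [finGL_coe82, finGL_inv_coe82]
  constructor
  · intro H
    refine ⟨fun i j => ?_, fun i j => ?_⟩
    · rw [HeightOneSpectrum.mem_adicCompletionIntegers]
      have := (H i j).1
      rw [h0] at this
      exact (key _ _ (val_one_apply_le82 v i j)).1 this
    · rw [HeightOneSpectrum.mem_adicCompletionIntegers]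
      have := (H i j).2
      rw [h0] at this
      exact (key _ _ (val_one_apply_le82 v i j)).1 this
  · rintro ⟨H1, H2⟩ i j
    rw [h0]
    refine ⟨(key _ _ (val_one_apply_le82 v i j)).2 ?_, (key _ _ (val_one_apply_le82 v i j)).2 ?_⟩
    · exact (HeightOneSpectrum.mem_adicCompletionIntegers _ _ _).1 (H1 i j)
    · exact (HeightOneSpectrum.mem_adicCompletionIntegers _ _ _).1 (H2 i j)

variable (K)

/-- **LEAF C2.7.8 `PureExtC305`**, VERBATIM and UNCONDITIONAL. -/
theorem pureExtC82 : PureExtC305 K := by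
  classical
  intro T S hTS f₀ F h
  unfold pure305
  by_cases hT : OutT305 T h
  · have hS : OutT305 S h := fun v hv => hT v fun hvT => hv (hTS hvT)
    rw [if_pos hT, if_pos hS]
    congr 1
    rw [← Finset.prod_sdiff hTS]
    have e1 : ∏ v ∈ S \ T, ext305 T f₀ v (finGL305 v h) = 1 := by
      refine Finset.prod_eq_one fun v hv => ?_
      have hvT : v ∉ T := (Finset.mem_sdiff.1 hv).2
      unfold ext305
      rw [if_neg hvT]
      unfold unit305
      rw [if_pos ((inU_zero_iff82 v h).2 (hT v hvT))]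
    have e2 : ∏ v ∈ T, ext305 T f₀ v (finGL305 v h) = ∏ v ∈ T, f₀ v (finGL305 v h) := by
      refine Finset.prod_congr rfl fun v hv => ?_
      unfold ext305
      rw [if_pos hv]
    rw [e1, e2, one_mul]
  · rw [if_neg hT]
    by_cases hS : OutT305 S h
    · rw [if_pos hS]
      -- a place `v ∈ S \ T` where `h` is not in `GL₂(𝒪_v)`
      have hex : ∃ v : HeightOneSpectrum (𝓞 K), v ∉ T ∧
          ¬ (IsIntegralAt v h ∧ IsIntegralAt v h⁻¹) := by
        by_contra hcon
        apply hT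
        intro v hv
        by_contra hv'
        exact hcon ⟨v, hv, hv'⟩
      obtain ⟨v, hvT, hv⟩ := hex
      have hvS : v ∈ S := by
        by_contra hvS
        exact hv (hS v hvS)
      have e0 : ext305 T f₀ v (finGL305 v h) = 0 := by
        unfold ext305
        rw [if_neg hvT]
        unfold unit305
        rw [if_neg fun hU => hv ((inU_zero_iff82 v h).1 hU)]
      rw [Finset.prod_eq_zero hvS e0, zero_mul]
    · rw [if_neg hS]

end Fermat.Agent.LT.T7.H82

end

end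
-- ===== PACK-END LT/T7/H82/PureExt.lean

-- ===== PACK-BEGIN LT/T7/H943/IotaFin.lean
section


/-!
# Row LT, tower T7, leaf T7.L2.1.C2.4.1 `IotaFinC943` (helper943), OFF-MAIN

`iotaFinC943 : IotaFinC943 K K'` VERBATIM, unconditional: the field `fin` of
`H305.IsAdeleBase305` for the base change `iota943 = A2.H743.bcAdele743`.
-/

set_option autoImplicit false
set_option linter.unusedSectionVars false

open AutomorphicForm IsDedekindDomain NumberField

noncomputable section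

namespace Fermat.Agent.LT.T7.H943

open Fermat.Agent.LT.H556 Fermat.Agent.LT.H556.A0 Fermat.Agent.LT.T7 Fermat.Agent.LT.T7.H305
open Fermat.Agent.LT.A2

variable (K K' : Type) [Field K] [NumberField K] [Field K'] [NumberField K'] [Algebra K K']

/-- `PlaceOver K K' v w` says that `v` is the place under `w`. -/
theorem finUnder_eq_of_placeOver943 {v : HeightOneSpectrum (𝓞 K)}
    {w : HeightOneSpectrum (𝓞 K')} (h : PlaceOver K K' v w) : H743.finUnder743 K K' w = v := by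
  apply HeightOneSpectrum.ext
  ext x
  show x ∈ w.asIdeal.under (𝓞 K) ↔ x ∈ v.asIdeal
  rw [Ideal.under_def, Ideal.mem_comap]
  exact (h x (algebraMap (𝓞 K) (𝓞 K') x) rfl).symm

/-- The converse. -/
theorem placeOver_finUnder943 (w : HeightOneSpectrum (𝓞 K')) :
    PlaceOver K K' (H743.finUnder743 K K' w) w := by
  intro x y hxy
  show x ∈ w.asIdeal.under (𝓞 K) ↔ y ∈ w.asIdeal
  rw [Ideal.under_def, Ideal.mem_comap]
  have : algebraMap (𝓞 K) (𝓞 K') x = y := by
    apply Subtype.ext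
    exact hxy.symm
  rw [this]

theorem finHom_iota943 (w : HeightOneSpectrum (𝓞 K')) (x : Adl K) :
    T5.finHom w (iota943 K K' x)
      = H743.finLoc743 K K' w (T5.finHom (H743.finUnder743 K K' w) x) := rfl

/-- **LEAF I.1 = IOTA-FIN**, VERBATIM. -/
theorem iotaFinC943 : IotaFinC943 K K' := by
  intro v w hvw
  have h := finUnder_eq_of_placeOver943 K K' hvw
  subst h
  refine ⟨H743.ramIdx743 K K' w, H743.finLoc743 K K' w,
    Nat.pos_of_ne_zero (H743.ramIdx_ne_zero743 K K' w), ?_, ?_, ?_⟩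
  · intro x
    exact H743.finLoc_coe743 K K' w x
  · intro x
    exact H743.valued_finLoc743 K K' w x
  · intro x
    rfl

end Fermat.Agent.LT.T7.H943

end

end
-- ===== PACK-END LT/T7/H943/IotaFin.lean

-- ===== PACK-BEGIN LT/T7/H776/TorMeasQ.lean
section



/-!
# Row LT, tower T7, leaf T7.L2Q.1.H1.3 `MQ298.TorMeasQC298` (row 2603) -- helper776, OFF-MAIN

`torMeasQC776 F : MQ298.TorMeasQC298 F`, VERBATIM vs `LT/T7/H298/MatchQSpec.lean` (helper298,
sha256 53f6570a), UNCONDITIONAL.  The proof of helper787 (`LT/T7/H787/TorMeas.lean`,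
`torMeasC787`, byte-identical copy) for `K = ℚ`, `K' = F`: it does not use the hypotheses
`IsCycExt`, `TotCplx`.  No hole, nothing assumed.
-/

set_option autoImplicit false
set_option linter.unusedVariables false
set_option linter.style.haveILetI false

open AutomorphicForm IsDedekindDomain NumberField MeasureTheory

noncomputable section

namespace Fermat.Agent.LT.T7.H776Q

open Fermat.Agent.LT.H556 Fermat.Agent.LT.H556.A0 Fermat.Agent.LT.T7 Fermat.Agent.LT.T7.H305
open Fermat.Agent.LT Fermat.Agent.LT.T7.H787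

attribute [local instance] Fermat.Agent.LT.T5.instMeasurableSpaceG

/-- **LEAF Q2.5b = TOR-MEAS over `ℚ`** (`MQ298.TorMeasQC298`). -/
theorem torMeasQC776 (F : Type) [Field F] [NumberField F] : MQ298.TorMeasQC298 F := by
  intro _hF D hD _hcyc _hl ι hι δ γ hγ hN
  have H : TorSetup787 D ι δ γ := ⟨hD, hι, hγ, hN⟩
  haveI : LocallyCompactSpace (G ℚ) :=
    Fermat.Agent.LT.H11.LC.locallyCompactSpace_GL2_adeleRing_h11 ℚ
  haveI : T2Space (G ℚ) := Fermat.Agent.LT.H11.LC.t2Space_GL2_adeleRing_h11 ℚ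
  haveI : T2Space (G F) := Fermat.Agent.LT.H11.LC.t2Space_GL2_adeleRing_h11 F
  have hclosed := isClosed_tA_id787 γ
  haveI : LocallyCompactSpace (tA305 (T5.AdelicAut.id ℚ) γ) :=
    (Topology.IsClosedEmbedding.mk Topology.IsEmbedding.subtypeVal
      (by rw [Subtype.range_coe]; exact hclosed)).locallyCompactSpace
  letI mH : MeasurableSpace (tA305 (T5.AdelicAut.id ℚ) γ) := borel _
  haveI : BorelSpace (tA305 (T5.AdelicAut.id ℚ) γ) := ⟨rfl⟩
  letI mH' : MeasurableSpace (tA305 D.s δ) := borel _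
  haveI : BorelSpace (tA305 D.s δ) := ⟨rfl⟩
  haveI : BorelSpace (G F) := ⟨rfl⟩
  let μT : Measure (tA305 (T5.AdelicAut.id ℚ) γ) := Measure.haar
  have hmeas : Measurable H.torHom := H.continuous_torHom.measurable
  refine ⟨μT, Measure.map H.torHom μT, inferInstance, ?_, ?_⟩
  · exact Measure.isHaarMeasure_map μT H.torHom H.continuous_torHom H.torHom_surjective
      H.isClosedEmbedding_torHom.tendsto_cocompact
  · intro A hA
    have hval : Measurable (Subtype.val : tA305 D.s δ → G F) :=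
      continuous_subtype_val.measurable
    have hS : MeasurableSet {t : tA305 D.s δ | (t : G F) ∈ A} := hval hA
    rw [Measure.map_apply hmeas hS]
    rfl

end Fermat.Agent.LT.T7.H776Q

end

end
-- ===== PACK-END LT/T7/H776/TorMeasQ.lean

-- ===== PACK-BEGIN LT/T7/H379/TorCompQ.lean
section




/-!
# Row LT, tower T7, leaf T7.L2Q.1.H1.4 `MQ298.TorCompQC298` (registry row 2604, helper379)

OFF-MAIN.  No hole, nothing assumed.  Statement = `MQ298.TorCompQC298 F` of
`LT/T7/H298/MatchQSpec.lean` (helper298@d75774dd1, sha256 53f6570a65169f92), VERBATIM.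

    torCompQC379 (F) : MQ298.TorCompQC298 F

`vol(γ) = 2 · vol(δ)` for linked Haar measures on the adelic tori, `F / ℚ` imaginary quadratic.

## Proof
The proof of helper119 (`LT/T7/H119/TorComp.lean`, `torCompC119 : H305.TorCompC305 K K'`, `K`
totally complex) uses the hypothesis `TotCplx K` ONLY for the existence of a central element `ρ`
of `GL₂(𝔸_K)` with module `n(ρ) = c₀`, `c₀ ^ l = 1/2`.

* `torComp_of_central379`: the statement for EVERY extension `K'/K` of number fields, given such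
  a central element (the proof of helper119 word for word, his lemmas are imported and reused
  AS THEY ARE: none of them uses `TotCplx`).
* `rayUnitR379`: for a totally real field the idele with the component `t` at every (real)
  infinite place and `1` at the finite places; `n(scal) = t ^ (2 r₁)`.
* `ℚ` is totally real (`Rat.isReal_infinitePlace`, one infinite place).
-/

set_option autoImplicit false
set_option linter.style.haveILetI false
set_option linter.unusedSectionVars false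
set_option linter.unusedVariables false

open IsDedekindDomain NumberField MeasureTheory
open Fermat.Agent.LT.H556 Fermat.Agent.LT.H556.A0 Fermat.Agent.LT.T7 Fermat.Agent.LT

noncomputable section

namespace Fermat.Agent.LT.T7.H379

open Fermat.Agent.LT.T7.H119

attribute [local instance] Fermat.Agent.LT.T5.instMeasurableSpaceG

/-! ## The central ray of a totally real field -/

section RayR

variable {K : Type} [Field K] [NumberField K]

/-- The adele with the component `t` at every (real) infinite place and `1` at the finite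
places. -/
def rayAdR379 (hK : ∀ w : InfinitePlace K, w.IsReal) (t : ℝ) : Adl K :=
  (fun w => (InfinitePlace.Completion.ringEquivRealOfIsReal (hK w)).symm t, 1)

theorem rayAdR_mul379 (hK : ∀ w : InfinitePlace K, w.IsReal) (s t : ℝ) :
    rayAdR379 hK s * rayAdR379 hK t = rayAdR379 hK (s * t) := by
  refine Prod.ext ?_ (mul_one 1)
  funext w
  show (InfinitePlace.Completion.ringEquivRealOfIsReal (hK w)).symm s
      * (InfinitePlace.Completion.ringEquivRealOfIsReal (hK w)).symm t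
    = (InfinitePlace.Completion.ringEquivRealOfIsReal (hK w)).symm (s * t)
  rw [← map_mul]

theorem rayAdR_one379 (hK : ∀ w : InfinitePlace K, w.IsReal) : rayAdR379 hK 1 = 1 := by
  refine Prod.ext ?_ rfl
  funext w
  show (InfinitePlace.Completion.ringEquivRealOfIsReal (hK w)).symm (1 : ℝ) = 1
  rw [map_one]

/-- The idele of `rayAdR379`. -/
def rayUnitR379 (hK : ∀ w : InfinitePlace K, w.IsReal) (t : ℝ) (ht : t ≠ 0) : (Adl K)ˣ where
  val := rayAdR379 hK t
  inv := rayAdR379 hK t⁻¹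
  val_inv := by rw [rayAdR_mul379, mul_inv_cancel₀ ht, rayAdR_one379]
  inv_val := by rw [rayAdR_mul379, inv_mul_cancel₀ ht, rayAdR_one379]

theorem norm_symmR379 {w : InfinitePlace K} (hw : w.IsReal) (z : ℝ) :
    ‖(InfinitePlace.Completion.ringEquivRealOfIsReal hw).symm z‖ = ‖z‖ := by
  have h1 := (InfinitePlace.Completion.isometry_extensionEmbeddingOfIsReal hw).norm_map_of_map_zero
    (map_zero _) ((InfinitePlace.Completion.ringEquivRealOfIsReal hw).symm z)
  rw [← h1, ← InfinitePlace.Completion.ringEquivRealOfIsReal_apply hw,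
    RingEquiv.apply_symm_apply]

theorem adNorm_rayUnitR379 (hK : ∀ w : InfinitePlace K, w.IsReal) (t : ℝ) (ht : 0 < t) :
    T1.adNorm K ((rayUnitR379 hK t ht.ne' : (Adl K)ˣ) : Adl K)
      = t ^ Fintype.card (InfinitePlace K) := by
  show (∏ w : InfinitePlace K, ‖((rayUnitR379 hK t ht.ne' : (Adl K)ˣ) : Adl K).1 w‖ ^ w.mult)
      * ∏ᶠ v : HeightOneSpectrum (𝓞 K), ‖((rayUnitR379 hK t ht.ne' : (Adl K)ˣ) : Adl K).2 v‖
    = t ^ Fintype.card (InfinitePlace K)
  have h1 : ∀ w : InfinitePlace K,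
      ‖((rayUnitR379 hK t ht.ne' : (Adl K)ˣ) : Adl K).1 w‖ ^ w.mult = t := by
    intro w
    have hm : w.mult = 1 := by
      unfold InfinitePlace.mult
      rw [if_pos (hK w)]
    show ‖(InfinitePlace.Completion.ringEquivRealOfIsReal (hK w)).symm t‖ ^ w.mult = t
    rw [norm_symmR379, hm, pow_one, Real.norm_of_nonneg ht.le]
  have h2 : ∀ v : HeightOneSpectrum (𝓞 K),
      ‖((rayUnitR379 hK t ht.ne' : (Adl K)ˣ) : Adl K).2 v‖ = 1 := by
    intro v
    show ‖(1 : v.adicCompletion K)‖ = 1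
    exact norm_one
  simp only [h1, h2, finprod_one, mul_one, Finset.prod_const, Finset.card_univ]

theorem nrm_scalR379 (hK : ∀ w : InfinitePlace K, w.IsReal) (t : ℝ) (ht : 0 < t) :
    nrm119 (scal119 (rayUnitR379 hK t ht.ne')) = t ^ (2 * Fintype.card (InfinitePlace K)) := by
  rw [nrm_eq119, det_scal119, T1.H309.adNorm_mul309, adNorm_rayUnitR379 hK t ht]
  ring

/-- A totally real field has a central element of every module `c₀` with `c₀ ^ l = 1/2`. -/
theorem exists_central_real379 (hK : ∀ w : InfinitePlace K, w.IsReal) (l : ℕ) (hl : 0 < l) :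
    ∃ (ρ : G K) (c₀ : ℝ), (∀ g : G K, ρ * g = g * ρ) ∧ 0 < c₀ ∧ c₀ ^ l = 1 / 2 ∧
      nrm119 ρ = c₀ := by
  have hc : 0 < Fintype.card (InfinitePlace K) := Fintype.card_pos
  set t₀ : ℝ := (2 : ℝ) ^ (-(1 : ℝ) / ((2 * Fintype.card (InfinitePlace K) * l : ℕ) : ℝ))
    with ht₀def
  have ht₀ : 0 < t₀ := Real.rpow_pos_of_pos (by norm_num) _
  refine ⟨scal119 (rayUnitR379 hK t₀ ht₀.ne'), t₀ ^ (2 * Fintype.card (InfinitePlace K)),
    fun g => scal_comm119 _ g, pow_pos ht₀ _, ?_, nrm_scalR379 hK t₀ ht₀⟩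
  rw [← pow_mul, ← Real.rpow_natCast, ht₀def, ← Real.rpow_mul (by norm_num)]
  have hne : ((2 * Fintype.card (InfinitePlace K) * l : ℕ) : ℝ) ≠ 0 := by
    have : 2 * Fintype.card (InfinitePlace K) * l ≠ 0 := by positivity
    exact_mod_cast this
  rw [div_mul_cancel₀ _ hne, Real.rpow_neg_one]
  norm_num

end RayR

/-! ## The volumes, given a central element -/

section Main

variable {K K' : Type} [Field K] [NumberField K] [Field K'] [NumberField K'] [Algebra K K']

/-- **The comparison of the volumes for every extension of number fields**, given a central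
element `ρ` of `GL₂(𝔸_K)` with `n(ρ) = c₀`, `c₀ ^ l = 1/2` (proof of helper119). -/
theorem torComp_of_central379 (D : CompData K K') (hD : IsCompData D)
    (ρ : G K) (c₀ : ℝ) (hρc : ∀ g : G K, ρ * g = g * ρ) (hc₀ : 0 < c₀)
    (hc₀l : c₀ ^ D.l = 1 / 2) (hρn : nrm119 ρ = c₀)
    (ι : Adl K →+* Adl K') (hι : H305.IsAdeleBase305 D.s D.l ι)
    (δ : GL (Fin 2) K') (γ : GL (Fin 2) K) (hell : T6.IsEll γ)
    (hN : D.s.normUpTo D.l δ = Matrix.GeneralLinearGroup.map (algebraMap K K') γ)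
    (Fδ : Set (G K')) (Fγ : Set (G K)) (hFδ : T5.IsTwDomain D.s δ Fδ)
    (hFγ : T5.IsTwDomain (T5.AdelicAut.id K) γ Fγ)
    (μT : @Measure (H305.tA305 (T5.AdelicAut.id K) γ) (borel _))
    (μT' : @Measure (H305.tA305 D.s δ) (borel _))
    (hμT : @Measure.IsHaarMeasure _ _ _ (borel _) μT)
    (hμT' : @Measure.IsHaarMeasure _ _ _ (borel _) μT')
    (hlink : H305.IsTorLinked305 ι D.s δ γ μT μT') :
    H305.torVol305 (T5.AdelicAut.id K) γ μT Fγ
      = (D.l : ENNReal) * H305.torVol305 D.s δ μT' Fδ := by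
  have hρpow : ∀ (j : ℕ) (g : G K), (ρ ^ j)⁻¹ * g = g * (ρ ^ j)⁻¹ := by
    intro j g
    have h1 : Commute ρ g := hρc g
    exact ((h1.pow_left j).inv_left).eq
  have hc₀1 : c₀ < 1 := lt_one_of_pow119 c₀ D.l hc₀l
  classical
  have hreg : T6.IsReg γ := hell.1
  have hl : 0 < D.l := hD.cyc.pos
  letI mT : MeasurableSpace (H305.tA305 (T5.AdelicAut.id K) γ) := borel _
  haveI : BorelSpace (H305.tA305 (T5.AdelicAut.id K) γ) := ⟨rfl⟩
  haveI : BorelSpace (G K) := ⟨rfl⟩
  haveI : BorelSpace (G K') := ⟨rfl⟩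
  haveI : μT.IsHaarMeasure := hμT
  haveI : Countable (T5.twStab (T5.AdelicAut.id K) γ) := by
    haveI := countable_gl119 K
    infer_instance
  -- the embedding of the rational points
  let e : T5.twStab (T5.AdelicAut.id K) γ →* H305.tA305 (T5.AdelicAut.id K) γ :=
    { toFun := fun g => ⟨T5.ratG (g : GL (Fin 2) K), ratG_mem_tA119 γ g⟩
      map_one' := Subtype.ext (map_one T5.ratG)
      map_mul' := fun a b => Subtype.ext (map_mul T5.ratG _ _) }
  have he : ∀ (g : T5.twStab (T5.AdelicAut.id K) γ) (t : H305.tA305 (T5.AdelicAut.id K) γ),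
      ((e g * t : H305.tA305 (T5.AdelicAut.id K) γ) : G K)
        = T5.ratG (g : GL (Fin 2) K) * (t : G K) := fun _ _ => rfl
  -- the central element (given)
  have hρT : ρ ∈ H305.tA305 (T5.AdelicAut.id K) γ :=
    (mem_tA_id_iff119 γ ρ).mpr (hρc _)
  let ρT : H305.tA305 (T5.AdelicAut.id K) γ := ⟨ρ, hρT⟩
  have hρj : ∀ (j : ℕ) (t : H305.tA305 (T5.AdelicAut.id K) γ),
      (((ρT ^ j)⁻¹ * t : H305.tA305 (T5.AdelicAut.id K) γ) : G K) = (ρ ^ j)⁻¹ * (t : G K) :=
    fun _ _ => rfl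
  have hnρj : ∀ (j : ℕ) (t : H305.tA305 (T5.AdelicAut.id K) γ),
      nrm119 ((ρ ^ j)⁻¹ * (t : G K)) = (c₀ ^ j)⁻¹ * nrm119 (t : G K) := by
    intro j t
    rw [nrm_mul119, nrm_inv119, nrm_pow119, hρn]
  -- the sets
  let S : Set (H305.tA305 (T5.AdelicAut.id K) γ) := {t | ((t : G K))⁻¹ ∈ T5.slab K}
  let E : Set (H305.tA305 (T5.AdelicAut.id K) γ) := {t | ((t : G K))⁻¹ ∈ Fγ}
  let E₁ : Set (H305.tA305 (T5.AdelicAut.id K) γ) :=
    {t | (Matrix.GeneralLinearGroup.map ι (t : G K))⁻¹ ∈ Fδ}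
  let B : ℕ → Set (H305.tA305 (T5.AdelicAut.id K) γ) :=
    fun j => (fun t : H305.tA305 (T5.AdelicAut.id K) γ => (ρT ^ j)⁻¹ * t) ⁻¹' E₁
  -- measurability
  have hEm : MeasurableSet E := by
    have hcont : Continuous fun t : H305.tA305 (T5.AdelicAut.id K) γ => ((t : G K))⁻¹ :=
      continuous_subtype_val.inv
    exact hcont.measurable hFγ.meas
  have hE₁m : MeasurableSet E₁ := by
    have hcont : Continuous fun t : H305.tA305 (T5.AdelicAut.id K) γ =>
        (Matrix.GeneralLinearGroup.map ι (t : G K))⁻¹ :=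
      ((continuous_glMap119 hι.cont).comp continuous_subtype_val).inv
    exact hcont.measurable hFδ.meas
  have hBm : ∀ j, MeasurableSet (B j) := fun j => measurable_const_mul _ hE₁m
  -- the modules
  have hSiff : ∀ t : H305.tA305 (T5.AdelicAut.id K) γ,
      t ∈ S ↔ 1 / 2 < nrm119 (t : G K) ∧ nrm119 (t : G K) ≤ 1 := by
    intro t
    have h := slab_pow_iff119 (1 / 2) 1 (by norm_num) (by norm_num) (by norm_num)
      (nrm119 (t : G K)) (nrm_pos119 _)
    rw [pow_one] at h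
    rw [← h]
    show ((t : G K))⁻¹ ∈ T5.slab K ↔ _
    rw [mem_slab_iff119, nrm_inv119]
  have hupiff : ∀ t : G K, (Matrix.GeneralLinearGroup.map ι t)⁻¹ ∈ T5.slab K' ↔
      c₀ < nrm119 t ∧ nrm119 t ≤ 1 := by
    intro t
    rw [← slab_pow_iff119 c₀ D.l hc₀ hl hc₀l (nrm119 t) (nrm_pos119 _), mem_slab_iff119,
      nrm_inv119, nrm_map119 hι]
  have hBn : ∀ (j : ℕ) (t : H305.tA305 (T5.AdelicAut.id K) γ), t ∈ B j →
      c₀ ^ (j + 1) < nrm119 (t : G K) ∧ nrm119 (t : G K) ≤ c₀ ^ j := by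
    intro j t ht
    have h1 : (Matrix.GeneralLinearGroup.map ι ((ρ ^ j)⁻¹ * (t : G K)))⁻¹ ∈ Fδ := ht
    have h2 := (hupiff _).mp (hFδ.sub h1)
    rw [hnρj] at h2
    have hcj : 0 < c₀ ^ j := pow_pos hc₀ j
    constructor
    · have := h2.1
      rw [lt_inv_mul_iff₀ hcj] at this
      rw [pow_succ']
      linarith [mul_comm (c₀ ^ j) c₀]
    · have := h2.2
      rw [inv_mul_le_iff₀ hcj] at this
      linarith
  have hES : E ⊆ S := fun t ht => hFγ.sub ht
  have hBS : (⋃ j ∈ Finset.range D.l, B j) ⊆ S := by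
    intro t ht
    simp only [Set.mem_iUnion, Finset.mem_range] at ht
    obtain ⟨j, hj, htj⟩ := ht
    obtain ⟨h1, h2⟩ := hBn j t htj
    rw [hSiff]
    constructor
    · have h3 : c₀ ^ D.l ≤ c₀ ^ (j + 1) := pow_le_pow_of_le_one hc₀.le hc₀1.le (by omega)
      rw [hc₀l] at h3
      linarith
    · have h3 : c₀ ^ j ≤ 1 := pow_le_one₀ hc₀.le hc₀1.le
      linarith
  -- the two fundamental domains
  have hAu : ∀ t ∈ S, ∃! g : T5.twStab (T5.AdelicAut.id K) γ, e g * t ∈ E := by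
    intro t ht
    exact exists_unique_down119 γ hreg Fγ hFγ (t : G K) t.2 ht
  have hBu : ∀ t ∈ S, ∃! g : T5.twStab (T5.AdelicAut.id K) γ,
      e g * t ∈ ⋃ j ∈ Finset.range D.l, B j := by
    intro t ht
    obtain ⟨hn1, hn2⟩ := (hSiff t).mp ht
    obtain ⟨j, hj, hj1, hj2⟩ := exists_tile119 c₀ D.l hl hc₀l _ hn1 hn2
    have hcj : 0 < c₀ ^ j := pow_pos hc₀ j
    have hs : (Matrix.GeneralLinearGroup.map ι ((ρ ^ j)⁻¹ * (t : G K)))⁻¹ ∈ T5.slab K' := by
      rw [hupiff, hnρj]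
      constructor
      · rw [lt_inv_mul_iff₀ hcj]
        rw [pow_succ'] at hj1
        linarith [mul_comm (c₀ ^ j) c₀]
      · rw [inv_mul_le_iff₀ hcj]
        linarith
    have hsT : (ρ ^ j)⁻¹ * (t : G K) ∈ H305.tA305 (T5.AdelicAut.id K) γ :=
      ((ρT ^ j)⁻¹ * t).2
    obtain ⟨g, hg, hu⟩ := exists_unique_up119 D hD ι hι δ γ hreg hN Fδ hFδ _ hsT hs
    have hswap : ∀ g' : T5.twStab (T5.AdelicAut.id K) γ,
        (ρ ^ j)⁻¹ * (T5.ratG (g' : GL (Fin 2) K) * (t : G K))
          = T5.ratG (g' : GL (Fin 2) K) * ((ρ ^ j)⁻¹ * (t : G K)) := by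
      intro g'
      rw [← mul_assoc, hρpow, mul_assoc]
    refine ⟨g, ?_, ?_⟩
    · simp only [Set.mem_iUnion, Finset.mem_range]
      refine ⟨j, hj, ?_⟩
      show (Matrix.GeneralLinearGroup.map ι
        ((ρ ^ j)⁻¹ * (T5.ratG (g : GL (Fin 2) K) * (t : G K))))⁻¹ ∈ Fδ
      rw [hswap]
      exact hg
    · intro g' hg'
      simp only [Set.mem_iUnion, Finset.mem_range] at hg'
      obtain ⟨j', hj', hg'j⟩ := hg'
      obtain ⟨h1, h2⟩ := hBn j' _ hg'j
      have hnorm : nrm119 ((e g' * t : H305.tA305 (T5.AdelicAut.id K) γ) : G K)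
          = nrm119 (t : G K) := by
        rw [he, nrm_mul119, nrm_ratG119, one_mul]
      rw [hnorm] at h1 h2
      have hjj : j' = j := tile_unique119 c₀ hc₀ hc₀1 h1 h2 hj1 hj2
      subst hjj
      apply hu
      have h3 : (Matrix.GeneralLinearGroup.map ι
        ((ρ ^ j')⁻¹ * (T5.ratG (g' : GL (Fin 2) K) * (t : G K))))⁻¹ ∈ Fδ := hg'j
      rw [hswap] at h3
      exact h3
  have hmain : μT E = μT (⋃ j ∈ Finset.range D.l, B j) :=
    measure_eq_of_strictFD119 e μT S E _ hEm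
      (Finset.measurableSet_biUnion _ fun j _ => hBm j) hES hBS hAu hBu
  -- the sum over the translates
  have hdisj : ((Finset.range D.l : Finset ℕ) : Set ℕ).PairwiseDisjoint B := by
    intro j _ j' _ hjj'
    show Disjoint (B j) (B j')
    rw [Set.disjoint_left]
    intro t htj htj'
    obtain ⟨h1, h2⟩ := hBn j t htj
    obtain ⟨h1', h2'⟩ := hBn j' t htj'
    exact hjj' (tile_unique119 c₀ hc₀ hc₀1 h1 h2 h1' h2')
  have hsum : μT (⋃ j ∈ Finset.range D.l, B j) = ∑ j ∈ Finset.range D.l, μT (B j) :=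
    measure_biUnion_finset hdisj fun j _ => hBm j
  have hBj : ∀ j, μT (B j) = μT E₁ := fun j => measure_preimage_mul μT _ _
  -- the linked measures
  have hlinkE : μT' {t : H305.tA305 D.s δ | ((t : G K'))⁻¹ ∈ Fδ} = μT E₁ :=
    hlink (Inv.inv ⁻¹' Fδ) (continuous_inv.measurable hFδ.meas)
  show μT E = (D.l : ENNReal) * μT' {t : H305.tA305 D.s δ | ((t : G K'))⁻¹ ∈ Fδ}
  rw [hmain, hsum, Finset.sum_congr rfl (fun j _ => hBj j), Finset.sum_const, Finset.card_range,
    nsmul_eq_mul, hlinkE]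

end Main

/-! ## The leaf over `ℚ` -/

section Leaf

variable (F : Type) [Field F] [NumberField F]

theorem isReal_rat379 : ∀ w : InfinitePlace ℚ, w.IsReal := fun w =>
  Subsingleton.elim Rat.infinitePlace w ▸ Rat.isReal_infinitePlace

/-- **Leaf T7.L2Q.1.H1.4 `TorCompQC298`**, VERBATIM. -/
theorem torCompQC379 : MQ298.TorCompQC298 F := by
  intro _hF D hD _hcyc _hl2 ι hι δ γ hell hN Fδ Fγ hFδ hFγ μT μT' hμT hμT' hlink
  obtain ⟨ρ, c₀, hρc, hc₀, hc₀l, hρn⟩ := exists_central_real379 isReal_rat379 D.l hD.cyc.pos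
  exact torComp_of_central379 D hD ρ c₀ hρc hc₀ hc₀l hρn ι hι δ γ hell hN Fδ Fγ hFδ hFγ
    μT μT' hμT hμT' hlink

end Leaf

end Fermat.Agent.LT.T7.H379

end

end
-- ===== PACK-END LT/T7/H379/TorCompQ.lean

-- ===== PACK-BEGIN LT/T7/H429/FinMultLocal.lean
section




/-!
# Row LT, tower T7, asset `FinMult429` (helper429), part 1: THE LOCAL LEMMA at a complex place

OFF-MAIN.  Mathlib + the local vocabulary of T3 (`AS.IsCplxTest`, `AS.IsCplxSmooth`,
`M.IsLocMean`, `M.ActsByMean`); byte-identical copies of the files of helper96, helper811,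
helper736, helper614, helper203, helper694.

`exists_bump_ne_zero429`: if SOME function `Ψ` on `GL₂(ℂ)` is an eigenfunction of the sphere means
with eigenvalue function `m` (`M.IsLocMean m Ψ`) and `Ψ ≠ 0`, then there is a smooth
bi-`U(2)`-invariant test function `F` on `GL₂(ℂ)` which acts on ALL the eigenfunctions with the
eigenvalue function `m` by ONE scalar `C ≠ 0`.

Proof.  `F_ε(h) = b_ε(chD h - 1) b₁(log |det h|)`, `b` smooth bumps; the support of `F_ε` lies in
the compact region `{chD ≤ 1 + ε, |log |det|| ≤ 1}` (helper811), which shrinks to `{chD ≤ 1}`,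
where `Ψ(y₀ h) = Ψ(y₀)` (Cartan, helper203).  By compactness `|Ψ(y₀ h) - Ψ(y₀)| ≤ |Ψ(y₀)| / 2` on
the support of `F_ε` for `ε` small, so `∫ Ψ(y₀ h) F_ε(h) dμ ≠ 0`; the scalar is the one of
`actsByMean96` (helper96).
-/

set_option autoImplicit false
set_option linter.style.haveILetI false
set_option linter.unusedSectionVars false

open MeasureTheory Set Filter Topology
open Fermat.Agent.LT.H556.A0 Fermat.Agent.LT.T3.AS Fermat.Agent.LT.T3.H614
open Fermat.Agent.LT.T3.H315 Fermat.Agent.LT.T3.H694 Fermat.Agent.LT.T3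
open Fermat.Agent.LT.T3.H811

noncomputable section

namespace Fermat.Agent.LT.T7.H429

open Fermat.Agent.LT.T3.M

/-- The bump of inner radius `ε / 2` and outer radius `ε` on the line. -/
def lineBump429 (ε : ℝ) (hε : 0 < ε) : ContDiffBump (0 : ℝ) where
  rIn := ε / 2
  rOut := ε
  rIn_pos := by positivity
  rIn_lt_rOut := by linarith

/-- The real profile of the test function. -/
def profile429 (ε : ℝ) (hε : 0 < ε) (p : ℝ × ℝ) : ℝ :=
  lineBump429 ε hε (p.1 - 1) * lineBump429 1 one_pos p.2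

/-- THE TEST FUNCTION `F_ε(h) = b_ε(chD h - 1) b₁(log |det h|)`. -/
def bump429 (ε : ℝ) (hε : 0 < ε) (h : GL (Fin 2) ℂ) : ℂ :=
  ((profile429 ε hε (chD614 (h : Matrix (Fin 2) (Fin 2) ℂ),
    Real.log ‖(h : Matrix (Fin 2) (Fin 2) ℂ).det‖) : ℝ) : ℂ)

theorem contDiff_profile429 (ε : ℝ) (hε : 0 < ε) :
    ContDiff ℝ ((⊤ : ℕ∞) : WithTop ℕ∞) (profile429 ε hε) := by
  unfold profile429
  refine ContDiff.mul ?_ ?_
  · exact (lineBump429 ε hε).contDiff.comp (contDiff_fst.sub contDiff_const)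
  · exact (lineBump429 1 one_pos).contDiff.comp contDiff_snd

theorem profile_nonneg429 (ε : ℝ) (hε : 0 < ε) (p : ℝ × ℝ) : 0 ≤ profile429 ε hε p :=
  mul_nonneg (ContDiffBump.nonneg _) (ContDiffBump.nonneg _)

theorem profile_le_one429 (ε : ℝ) (hε : 0 < ε) (p : ℝ × ℝ) : profile429 ε hε p ≤ 1 := by
  unfold profile429
  calc lineBump429 ε hε (p.1 - 1) * lineBump429 1 one_pos p.2 ≤ 1 * 1 :=
        mul_le_mul (ContDiffBump.le_one _) (ContDiffBump.le_one _) (ContDiffBump.nonneg _)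
          zero_le_one
    _ = 1 := one_mul 1

theorem profile_one429 (ε : ℝ) (hε : 0 < ε) : profile429 ε hε (1, 0) = 1 := by
  unfold profile429
  have h1 : lineBump429 ε hε ((1 : ℝ) - 1) = 1 := by
    apply ContDiffBump.one_of_mem_closedBall
    simp only [sub_self, Metric.mem_closedBall, dist_self]
    exact (lineBump429 ε hε).rIn_pos.le
  have h2 : lineBump429 1 one_pos (0 : ℝ) = 1 := by
    apply ContDiffBump.one_of_mem_closedBall
    simp only [Metric.mem_closedBall, dist_self]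
    exact (lineBump429 1 one_pos).rIn_pos.le
  show lineBump429 ε hε ((1 : ℝ) - 1) * lineBump429 1 one_pos (0 : ℝ) = 1
  rw [h1, h2, one_mul]

theorem profile_zero_of429 (ε : ℝ) (hε : 0 < ε) (p : ℝ × ℝ)
    (hp : ¬ (|p.2| ≤ 1 ∧ p.1 ≤ 1 + ε)) : profile429 ε hε p = 0 := by
  unfold profile429
  rcases not_and_or.1 hp with h | h
  · have : lineBump429 1 one_pos p.2 = 0 := by
      apply ContDiffBump.zero_of_le_dist
      rw [Real.dist_eq, sub_zero]
      exact (not_le.1 h).le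
    rw [this, mul_zero]
  · have : lineBump429 ε hε (p.1 - 1) = 0 := by
      apply ContDiffBump.zero_of_le_dist
      rw [Real.dist_eq, sub_zero]
      have h1 : ε < p.1 - 1 := by linarith [not_le.1 h]
      exact h1.le.trans (le_abs_self _)
    rw [this, zero_mul]

theorem bump_one429 (ε : ℝ) (hε : 0 < ε) : bump429 ε hε 1 = 1 := by
  unfold bump429
  have h1 : chD614 ((1 : GL (Fin 2) ℂ) : Matrix (Fin 2) (Fin 2) ℂ) = 1 := by
    unfold chD614 hsq614
    simp
  have h2 : Real.log ‖((1 : GL (Fin 2) ℂ) : Matrix (Fin 2) (Fin 2) ℂ).det‖ = 0 := by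
    simp
  rw [h1, h2, profile_one429]
  simp

theorem continuous_coords429 :
    Continuous fun h : GL (Fin 2) ℂ =>
      (chD614 (h : Matrix (Fin 2) (Fin 2) ℂ),
        Real.log ‖(h : Matrix (Fin 2) (Fin 2) ℂ).det‖) :=
  continuous_chD811.prodMk continuous_logdet811

theorem continuous_bump429 (ε : ℝ) (hε : 0 < ε) : Continuous (bump429 ε hε) :=
  Complex.continuous_ofReal.comp
    ((contDiff_profile429 ε hε).continuous.comp continuous_coords429)

theorem bump_zero_of429 (ε : ℝ) (hε : 0 < ε) (h : GL (Fin 2) ℂ)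
    (hh : h ∉ {h : GL (Fin 2) ℂ | |Real.log ‖(h : Matrix (Fin 2) (Fin 2) ℂ).det‖| ≤ 1 ∧
      chD614 (h : Matrix (Fin 2) (Fin 2) ℂ) ≤ 1 + ε}) : bump429 ε hε h = 0 := by
  unfold bump429
  rw [profile_zero_of429 ε hε (chD614 (h : Matrix (Fin 2) (Fin 2) ℂ),
    Real.log ‖(h : Matrix (Fin 2) (Fin 2) ℂ).det‖) hh]
  simp

theorem hasCompactSupport_bump429 (ε : ℝ) (hε : 0 < ε) : HasCompactSupport (bump429 ε hε) :=
  HasCompactSupport.intro (isCompact_region811 1 (1 + ε)) (bump_zero_of429 ε hε)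

/-- **The test function is a test function.** -/
theorem isCplxTest_bump429 (ε : ℝ) (hε : 0 < ε) : IsCplxTest (bump429 ε hε) where
  cont := continuous_bump429 ε hε
  supp := hasCompactSupport_bump429 ε hε
  bi_inv := fun k k' g hk hk' => by
    have e1 : (k : Matrix (Fin 2) (Fin 2) ℂ) * (k : Matrix (Fin 2) (Fin 2) ℂ).conjTranspose = 1 :=
      hk
    have e2 : (k' : Matrix (Fin 2) (Fin 2) ℂ) * (k' : Matrix (Fin 2) (Fin 2) ℂ).conjTranspose
        = 1 := hk'
    unfold bump429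
    rw [Units.val_mul, Units.val_mul, chD614_mul_unitary_right _ _ e2,
      chD614_mul_unitary_left _ _ e1, Matrix.det_mul, Matrix.det_mul, norm_mul, norm_mul,
      norm_det_of_unitary614 _ e1, norm_det_of_unitary614 _ e2, one_mul, mul_one]

/-- **The test function is smooth.** -/
theorem isCplxSmooth_bump429 (ε : ℝ) (hε : 0 < ε) : IsCplxSmooth (bump429 ε hε) := by
  intro n h hh
  have h1 := (contDiff_profile429 ε hε).comp (coords_family_contDiff736 h hh)
  exact Complex.ofRealCLM.contDiff.comp h1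

section Core

local instance borelGL429 : MeasurableSpace (GL (Fin 2) ℂ) := borel (GL (Fin 2) ℂ)

local instance borelSpaceGL429 : BorelSpace (GL (Fin 2) ℂ) := ⟨rfl⟩

local instance sctGL429 : SecondCountableTopology (GL (Fin 2) ℂ) := secondCountable_GL694

/-- On `{chD ≤ 1}` an eigenfunction of the sphere means is constant along `y · h`. -/
theorem locMean_of_chD_le_one429 {m : ℝ → ℂ} {Ψ : GL (Fin 2) ℂ → ℂ} (hΨ : IsLocMean m Ψ)
    (y h : GL (Fin 2) ℂ) (hh : chD614 (h : Matrix (Fin 2) (Fin 2) ℂ) ≤ 1) :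
    Ψ (y * h) = Ψ y := by
  obtain ⟨k₁, k₂, t, z, d, r, hk₁, hk₂, hd, hr, hch, ht, hz, hdec⟩ := H203.cartanC203 h
  have hd0 : d = 0 := by
    by_contra hne
    have : 1 < Real.cosh d := Real.one_lt_cosh.mpr hne
    rw [hch] at this
    exact absurd hh (not_le.2 this)
  subst hd0
  have ht1 : t = 1 := by
    apply Units.ext
    rw [ht, torus_zero694]; rfl
  subst ht1
  have e1 : y * h = ((y * k₁) * z) * k₂ := by
    rw [hdec]; simp only [mul_assoc, mul_one]
  rw [e1, hΨ.unitary k₂ _ hk₂, hΨ.scalar z r hr hz, hΨ.unitary k₁ _ hk₁]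

/-- **Uniform smallness near `U(2)`.** -/
theorem exists_eps_close429 {m : ℝ → ℂ} {Ψ : GL (Fin 2) ℂ → ℂ} (hΨ : IsLocMean m Ψ)
    (y₀ : GL (Fin 2) ℂ) {δ : ℝ} (hδ : 0 < δ) :
    ∃ ε : ℝ, 0 < ε ∧ ∀ h : GL (Fin 2) ℂ,
      |Real.log ‖(h : Matrix (Fin 2) (Fin 2) ℂ).det‖| ≤ 1 →
      chD614 (h : Matrix (Fin 2) (Fin 2) ℂ) ≤ 1 + ε → ‖Ψ (y₀ * h) - Ψ y₀‖ < δ := by
  by_contra hcon
  push Not at hcon
  set t : ℕ → Set (GL (Fin 2) ℂ) := fun n =>
    {h : GL (Fin 2) ℂ | |Real.log ‖(h : Matrix (Fin 2) (Fin 2) ℂ).det‖| ≤ 1 ∧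
      chD614 (h : Matrix (Fin 2) (Fin 2) ℂ) ≤ 1 + 1 / ((n : ℝ) + 1)} ∩
    {h : GL (Fin 2) ℂ | δ ≤ ‖Ψ (y₀ * h) - Ψ y₀‖} with ht
  have hpos : ∀ n : ℕ, (0 : ℝ) < 1 / ((n : ℝ) + 1) := fun n => by positivity
  have hcl2 : IsClosed {h : GL (Fin 2) ℂ | δ ≤ ‖Ψ (y₀ * h) - Ψ y₀‖} :=
    isClosed_le continuous_const
      (((hΨ.cont.comp (continuous_const.mul continuous_id)).sub continuous_const).norm)
  have hcpt : ∀ n, IsCompact (t n) := fun n =>
    (isCompact_region811 1 (1 + 1 / ((n : ℝ) + 1))).inter_right hcl2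
  have hmono : ∀ n, t (n + 1) ⊆ t n := by
    intro n h hh
    refine ⟨⟨hh.1.1, hh.1.2.trans ?_⟩, hh.2⟩
    have h1 : (1 : ℝ) / (((n + 1 : ℕ) : ℝ) + 1) ≤ 1 / ((n : ℝ) + 1) := by
      apply one_div_le_one_div_of_le (by positivity)
      push_cast
      linarith
    linarith
  have hne : ∀ n, (t n).Nonempty := fun n => by
    obtain ⟨h, h1, h2, h3⟩ := hcon (1 / ((n : ℝ) + 1)) (hpos n)
    exact ⟨h, ⟨h1, h2⟩, h3⟩
  obtain ⟨h, hh⟩ := IsCompact.nonempty_iInter_of_sequence_nonempty_isCompact_isClosed t hmono hne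
    (hcpt 0) (fun n => (hcpt n).isClosed)
  rw [Set.mem_iInter] at hh
  have hch : chD614 (h : Matrix (Fin 2) (Fin 2) ℂ) ≤ 1 := by
    apply le_of_forall_pos_lt_add
    intro η hη
    obtain ⟨n, hn⟩ := exists_nat_one_div_lt hη
    have := (hh n).1.2
    linarith
  have h0 := (hh 0).2
  have h1 : δ ≤ ‖Ψ (y₀ * h) - Ψ y₀‖ := h0
  rw [locMean_of_chD_le_one429 hΨ y₀ h hch, sub_self, norm_zero] at h1
  exact absurd hδ (not_lt.2 h1)

/-- **THE LOCAL LEMMA.**  If the eigenvalue function `m` is realised by a nonzero function, some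
smooth test function acts on all the eigenfunctions with the eigenvalue function `m` by ONE
nonzero scalar. -/
theorem exists_bump_ne_zero429 (μ : Measure (GL (Fin 2) ℂ)) [μ.IsHaarMeasure] {m : ℝ → ℂ}
    {Ψ : GL (Fin 2) ℂ → ℂ} (hΨ : IsLocMean m Ψ) (y₀ : GL (Fin 2) ℂ) (hy : Ψ y₀ ≠ 0) :
    ∃ F : GL (Fin 2) ℂ → ℂ, IsCplxTest F ∧ IsCplxSmooth F ∧
      ∃ C : ℂ, C ≠ 0 ∧ ActsByMean μ F m C := by
  have hδ : 0 < ‖Ψ y₀‖ / 2 := by
    have := norm_pos_iff.2 hy
    positivity
  obtain ⟨ε, hε, hclose⟩ := exists_eps_close429 hΨ y₀ hδ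
  have hT := isCplxTest_bump429 ε hε
  refine ⟨bump429 ε hε, hT, isCplxSmooth_bump429 ε hε, _, ?_,
    H96.actsByMean96 μ (bump429 ε hε) hT m⟩
  intro hC
  have hact := H96.actsByMean96 μ (bump429 ε hε) hT m Ψ hΨ y₀
  rw [hC, zero_mul] at hact
  -- the real profile on the group
  set Fr : GL (Fin 2) ℂ → ℝ := fun h => profile429 ε hε
    (chD614 (h : Matrix (Fin 2) (Fin 2) ℂ), Real.log ‖(h : Matrix (Fin 2) (Fin 2) ℂ).det‖)
    with hFr
  have hFrc : Continuous Fr := (contDiff_profile429 ε hε).continuous.comp continuous_coords429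
  have hFrs : HasCompactSupport Fr :=
    HasCompactSupport.intro (isCompact_region811 1 (1 + ε)) fun h hh =>
      profile_zero_of429 ε hε _ hh
  have hFr0 : ∀ h, 0 ≤ Fr h := fun h => profile_nonneg429 ε hε _
  have hFr1 : Fr 1 ≠ 0 := by
    have := bump_one429 ε hε
    unfold bump429 at this
    intro h0
    rw [show profile429 ε hε (chD614 ((1 : GL (Fin 2) ℂ) : Matrix (Fin 2) (Fin 2) ℂ),
      Real.log ‖((1 : GL (Fin 2) ℂ) : Matrix (Fin 2) (Fin 2) ℂ).det‖) = Fr 1 from rfl, h0] at this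
    simp at this
  have hIpos : 0 < ∫ h, Fr h ∂μ :=
    hFrc.integral_pos_of_hasCompactSupport_nonneg_nonzero hFrs hFr0 hFr1
  have hFri : Integrable Fr μ := hFrc.integrable_of_hasCompactSupport hFrs
  have hbump : ∀ h, bump429 ε hε h = ((Fr h : ℝ) : ℂ) := fun h => rfl
  -- the difference
  have hdc : Continuous fun h : GL (Fin 2) ℂ => (Ψ (y₀ * h) - Ψ y₀) * bump429 ε hε h :=
    ((hΨ.cont.comp (continuous_const.mul continuous_id)).sub continuous_const).mul
      (continuous_bump429 ε hε)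
  have hds : HasCompactSupport fun h : GL (Fin 2) ℂ => (Ψ (y₀ * h) - Ψ y₀) * bump429 ε hε h :=
    (hasCompactSupport_bump429 ε hε).mul_left
  have hdi : Integrable (fun h : GL (Fin 2) ℂ => (Ψ (y₀ * h) - Ψ y₀) * bump429 ε hε h) μ :=
    hdc.integrable_of_hasCompactSupport hds
  have hbi : Integrable (fun h : GL (Fin 2) ℂ => Ψ y₀ * bump429 ε hε h) μ :=
    ((continuous_bump429 ε hε).integrable_of_hasCompactSupport
      (hasCompactSupport_bump429 ε hε)).const_mul _
  have hsplit : ∫ h, Ψ (y₀ * h) * bump429 ε hε h ∂μ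
      = (∫ h, (Ψ (y₀ * h) - Ψ y₀) * bump429 ε hε h ∂μ) + Ψ y₀ * ((∫ h, Fr h ∂μ : ℝ) : ℂ) := by
    rw [← integral_complex_ofReal, ← integral_const_mul, ← integral_add hdi]
    · refine integral_congr_ae (Filter.Eventually.of_forall fun h => ?_)
      show Ψ (y₀ * h) * bump429 ε hε h
        = (Ψ (y₀ * h) - Ψ y₀) * bump429 ε hε h + Ψ y₀ * ((Fr h : ℝ) : ℂ)
      rw [← hbump h]
      ring
    · exact hbi
  have hbound : ‖∫ h, (Ψ (y₀ * h) - Ψ y₀) * bump429 ε hε h ∂μ‖
      ≤ ‖Ψ y₀‖ / 2 * ∫ h, Fr h ∂μ := by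
    calc ‖∫ h, (Ψ (y₀ * h) - Ψ y₀) * bump429 ε hε h ∂μ‖
        ≤ ∫ h, ‖(Ψ (y₀ * h) - Ψ y₀) * bump429 ε hε h‖ ∂μ := norm_integral_le_integral_norm _
      _ ≤ ∫ h, ‖Ψ y₀‖ / 2 * Fr h ∂μ := by
          refine integral_mono_of_nonneg (Filter.Eventually.of_forall fun h => norm_nonneg _)
            (hFri.const_mul _) (Filter.Eventually.of_forall fun h => ?_)
          show ‖(Ψ (y₀ * h) - Ψ y₀) * bump429 ε hε h‖ ≤ ‖Ψ y₀‖ / 2 * Fr h
          rw [norm_mul, hbump h, Complex.norm_real, Real.norm_of_nonneg (hFr0 h)]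
          by_cases hreg : h ∈ {h : GL (Fin 2) ℂ |
              |Real.log ‖(h : Matrix (Fin 2) (Fin 2) ℂ).det‖| ≤ 1 ∧
              chD614 (h : Matrix (Fin 2) (Fin 2) ℂ) ≤ 1 + ε}
          · exact mul_le_mul_of_nonneg_right (hclose h hreg.1 hreg.2).le (hFr0 h)
          · have : Fr h = 0 := profile_zero_of429 ε hε _ hreg
            rw [this, mul_zero, mul_zero]
      _ = ‖Ψ y₀‖ / 2 * ∫ h, Fr h ∂μ := integral_const_mul _ _
  rw [hsplit] at hact
  have hkey : Ψ y₀ * ((∫ h, Fr h ∂μ : ℝ) : ℂ)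
      = -(∫ h, (Ψ (y₀ * h) - Ψ y₀) * bump429 ε hε h ∂μ) := by
    rw [eq_neg_iff_add_eq_zero, add_comm]
    exact hact
  have hn := congrArg norm hkey
  rw [norm_mul, norm_neg, Complex.norm_real, Real.norm_of_nonneg hIpos.le] at hn
  have hΨpos : 0 < ‖Ψ y₀‖ := norm_pos_iff.2 hy
  nlinarith [hbound, hn, mul_pos hΨpos hIpos]

end Core

end Fermat.Agent.LT.T7.H429

end

end
-- ===== PACK-END LT/T7/H429/FinMultLocal.lean

-- ===== PACK-BEGIN LT/T7/H719/Atoms.lean
section



/-!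
# Row LT, tower T7, leaf T7.L2.2.A `H561.AtomsC561` (SPARE, helper719) -- OFF-MAIN

`atomsC719 : H561.AtomsC561`, VERBATIM the Prop of `LT/T7/H561/SpecUpSpec.lean` (helper561),
UNCONDITIONAL, Mathlib + the assets `twistedTraceAtomsMatrix402` (helper402) and
`regParam_of_eigen822` (helper822).

The commuting family: `𝒰_j = S_j ρ_j`, `Z_j = ρ_j²`, `Z_j⁻¹ = (ρ_jᴴ)²` (`j ∈ Fin ℓ`), the shift
`j ↦ j + 1`, `T = B A`.
-/

set_option autoImplicit false

open scoped Matrix

noncomputable section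

namespace Fermat.Agent.LT.T7.H719

open Fermat.Agent.LT.T7 Fermat.Agent.LT.T7.H561 Fermat.Agent.LT.T7.H402

variable {n : ℕ}

/-- The generators `𝒰_j = S_j ρ_j`, `Z_j = ρ_j²`, `Z_j⁻¹ = (ρ_jᴴ)²` along the orbit. -/
def gen719 (S ρ : ℕ → Matrix (Fin n) (Fin n) ℂ) (ℓ : ℕ) :
    Fin ℓ ⊕ (Fin ℓ ⊕ Fin ℓ) → Matrix (Fin n) (Fin n) ℂ :=
  Sum.elim (fun j => S j * ρ j) (Sum.elim (fun j => ρ j * ρ j) (fun j => (ρ j)ᴴ * (ρ j)ᴴ))

/-- The place of a generator. -/
def genIdx719 (ℓ : ℕ) : Fin ℓ ⊕ (Fin ℓ ⊕ Fin ℓ) → Fin ℓ :=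
  Sum.elim id (Sum.elim id id)

/-- The local generators at the place `j`. -/
def locSet719 (S ρ : ℕ → Matrix (Fin n) (Fin n) ℂ) (j : ℕ) : Set (Matrix (Fin n) (Fin n) ℂ) :=
  {X | X = S j ∨ X = ρ j ∨ X = (ρ j)ᴴ}

theorem gen_factor719 (S ρ : ℕ → Matrix (Fin n) (Fin n) ℂ) (ℓ : ℕ) (a : Fin ℓ ⊕ (Fin ℓ ⊕ Fin ℓ)) :
    ∃ X₁ X₂ : Matrix (Fin n) (Fin n) ℂ, X₁ ∈ locSet719 S ρ (genIdx719 ℓ a) ∧
      X₂ ∈ locSet719 S ρ (genIdx719 ℓ a) ∧ gen719 S ρ ℓ a = X₁ * X₂ := by
  rcases a with j | j | j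
  · exact ⟨S j, ρ j, Or.inl rfl, Or.inr (Or.inl rfl), rfl⟩
  · exact ⟨ρ j, ρ j, Or.inr (Or.inl rfl), Or.inr (Or.inl rfl), rfl⟩
  · exact ⟨(ρ j)ᴴ, (ρ j)ᴴ, Or.inr (Or.inr rfl), Or.inr (Or.inr rfl), rfl⟩

theorem commute_prod719 {X₁ X₂ Y₁ Y₂ : Matrix (Fin n) (Fin n) ℂ} (h11 : Commute X₁ Y₁)
    (h12 : Commute X₁ Y₂) (h21 : Commute X₂ Y₁) (h22 : Commute X₂ Y₂) :
    Commute (X₁ * X₂) (Y₁ * Y₂) :=
  (h11.mul_right h12).mul_left (h21.mul_right h22)

section Block

variable {ℓ : ℕ} {q : ℝ} {A B : Matrix (Fin n) (Fin n) ℂ} {S ρ : ℕ → Matrix (Fin n) (Fin n) ℂ}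

/-- Local generators at different places commute. -/
theorem commute_loc719 (h : IsIwBlock561 ℓ q A B S ρ) {j j' : ℕ} (hj : j < ℓ) (hj' : j' < ℓ)
    (hne : j ≠ j') {X Y : Matrix (Fin n) (Fin n) ℂ} (hX : X ∈ locSet719 S ρ j)
    (hY : Y ∈ locSet719 S ρ j') : Commute X Y := by
  have cSS : Commute (S j) (S j') := h.comm_SS j j' hj hj' hne
  have cSρ : Commute (S j) (ρ j') := h.comm_Sρ j j' hj hj' hne
  have cρS : Commute (ρ j) (S j') := (h.comm_Sρ j' j hj' hj (Ne.symm hne)).symm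
  have cρρ : Commute (ρ j) (ρ j') := h.comm_ρρ j j' hj hj' hne
  have cSρH : Commute (S j) (ρ j')ᴴ := commute_conjTranspose719 (h.ρ_unit j') cSρ
  have cρρH : Commute (ρ j) (ρ j')ᴴ := commute_conjTranspose719 (h.ρ_unit j') cρρ
  have cρHS : Commute (ρ j)ᴴ (S j') := (commute_conjTranspose719 (h.ρ_unit j) cρS.symm).symm
  have cρHρ : Commute (ρ j)ᴴ (ρ j') := (commute_conjTranspose719 (h.ρ_unit j) cρρ.symm).symm
  have cρHρH : Commute (ρ j)ᴴ (ρ j')ᴴ := commute_conjTranspose719 (h.ρ_unit j') cρHρ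
  rcases hX with rfl | rfl | rfl <;> rcases hY with rfl | rfl | rfl
  · exact cSS
  · exact cSρ
  · exact cSρH
  · exact cρS
  · exact cρρ
  · exact cρρH
  · exact cρHS
  · exact cρHρ
  · exact cρHρH

/-- `Z_j` commutes with the local generators at `j`. -/
theorem commute_Z_loc719 (h : IsIwBlock561 ℓ q A B S ρ) (j : ℕ)
    {X : Matrix (Fin n) (Fin n) ℂ} (hX : X ∈ locSet719 S ρ j) : Commute (ρ j * ρ j) X := by
  have hρρ : Commute (ρ j) (ρ j) := Commute.refl _
  have hρH : Commute (ρ j) (ρ j)ᴴ := commute_conjTranspose719 (h.ρ_unit j) hρρ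
  rcases hX with rfl | rfl | rfl
  · exact h.ρ_central j
  · exact hρρ.mul_left hρρ
  · exact hρH.mul_left hρH

/-- `Z_j⁻¹` commutes with the local generators at `j`. -/
theorem commute_Zinv_loc719 (h : IsIwBlock561 ℓ q A B S ρ) (j : ℕ)
    {X : Matrix (Fin n) (Fin n) ℂ} (hX : X ∈ locSet719 S ρ j) :
    Commute ((ρ j)ᴴ * (ρ j)ᴴ) X := by
  have hρρ : Commute (ρ j) (ρ j) := Commute.refl _
  have hρH : Commute (ρ j) (ρ j)ᴴ := commute_conjTranspose719 (h.ρ_unit j) hρρ
  have hHH : Commute (ρ j)ᴴ (ρ j)ᴴ := Commute.refl _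
  have hZS : Commute (S j) (ρ j * ρ j) := (h.ρ_central j).symm
  -- `S` commutes with `Z⁻¹ = (Zᴴ)`
  have hZu : (ρ j * ρ j)ᴴ * (ρ j * ρ j) = 1 := by
    rw [Matrix.conjTranspose_mul]
    calc (ρ j)ᴴ * (ρ j)ᴴ * (ρ j * ρ j) = (ρ j)ᴴ * ((ρ j)ᴴ * ρ j) * ρ j := by
          simp only [mul_assoc]
      _ = 1 := by rw [h.ρ_unit j, mul_one, h.ρ_unit j]
  have hSZH : Commute (S j) (ρ j * ρ j)ᴴ := commute_conjTranspose719 hZu hZS
  rw [Matrix.conjTranspose_mul] at hSZH
  rcases hX with rfl | rfl | rfl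
  · exact hSZH.symm
  · exact hρH.symm.mul_left hρH.symm
  · exact hHH.mul_left hHH

/-- The generators commute. -/
theorem commute_gen719 (h : IsIwBlock561 ℓ q A B S ρ) (a b : Fin ℓ ⊕ (Fin ℓ ⊕ Fin ℓ)) :
    gen719 S ρ ℓ a * gen719 S ρ ℓ b = gen719 S ρ ℓ b * gen719 S ρ ℓ a := by
  by_cases hne : ((genIdx719 ℓ a : Fin ℓ) : ℕ) = ((genIdx719 ℓ b : Fin ℓ) : ℕ)
  · -- the same place
    have key : ∀ a b : Fin ℓ ⊕ (Fin ℓ ⊕ Fin ℓ),
        ((genIdx719 ℓ a : Fin ℓ) : ℕ) = ((genIdx719 ℓ b : Fin ℓ) : ℕ) →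
        (∃ j : Fin ℓ, a = Sum.inr (Sum.inl j) ∨ a = Sum.inr (Sum.inr j)) →
        Commute (gen719 S ρ ℓ a) (gen719 S ρ ℓ b) := by
      intro a b hab ha
      obtain ⟨Y₁, Y₂, hY₁, hY₂, hY⟩ := gen_factor719 S ρ ℓ b
      rw [← hab] at hY₁ hY₂
      rw [hY]
      obtain ⟨j, rfl | rfl⟩ := ha
      · exact (commute_Z_loc719 h j hY₁).mul_right (commute_Z_loc719 h j hY₂)
      · exact (commute_Zinv_loc719 h j hY₁).mul_right (commute_Zinv_loc719 h j hY₂)
    rcases a with j | j | j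
    · rcases b with j' | j' | j'
      · have : j = j' := Fin.ext hne
        rw [this]
      · exact ((key _ _ hne.symm ⟨j', Or.inl rfl⟩).symm).eq
      · exact ((key _ _ hne.symm ⟨j', Or.inr rfl⟩).symm).eq
    · exact (key _ _ hne ⟨j, Or.inl rfl⟩).eq
    · exact (key _ _ hne ⟨j, Or.inr rfl⟩).eq
  · obtain ⟨X₁, X₂, hX₁, hX₂, hX⟩ := gen_factor719 S ρ ℓ a
    obtain ⟨Y₁, Y₂, hY₁, hY₂, hY⟩ := gen_factor719 S ρ ℓ b
    rw [hX, hY]
    have c : ∀ {X Y : Matrix (Fin n) (Fin n) ℂ}, X ∈ locSet719 S ρ (genIdx719 ℓ a) →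
        Y ∈ locSet719 S ρ (genIdx719 ℓ b) → Commute X Y :=
      fun hX hY => commute_loc719 h (genIdx719 ℓ a).isLt (genIdx719 ℓ b).isLt hne hX hY
    exact (commute_prod719 (c hX₁ hY₁) (c hX₁ hY₂) (c hX₂ hY₁) (c hX₂ hY₂)).eq

/-- `B` commutes with the local generators. -/
theorem commute_B_loc719 (h : IsIwBlock561 ℓ q A B S ρ) (j : ℕ)
    {X : Matrix (Fin n) (Fin n) ℂ} (hX : X ∈ locSet719 S ρ j) : Commute B X := by
  rcases hX with rfl | rfl | rfl
  · exact h.B_S j
  · exact h.B_ρ j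
  · exact commute_conjTranspose719 (h.ρ_unit j) (h.B_ρ j)

theorem intertwine_mul719 {A X₁ X₂ Y₁ Y₂ : Matrix (Fin n) (Fin n) ℂ} (h1 : A * X₁ = Y₁ * A)
    (h2 : A * X₂ = Y₂ * A) : A * (X₁ * X₂) = (Y₁ * Y₂) * A := by
  rw [← mul_assoc, h1, mul_assoc, h2, mul_assoc]

theorem intertwine_pow719 {A X Y : Matrix (Fin n) (Fin n) ℂ} (h : A * X = Y * A) (m : ℕ) :
    A * X ^ m = Y ^ m * A := by
  induction m with
  | zero => simp
  | succ m ih => rw [pow_succ, pow_succ, ← mul_assoc, ih, mul_assoc, h, mul_assoc]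

/-- `A` moves the generators at `j` to the generators at `j + 1`. -/
theorem A_gen719 (h : IsIwBlock561 ℓ q A B S ρ) (j : ℕ) :
    A * (S j * ρ j) = (S (j + 1) * ρ (j + 1)) * A ∧
    A * (ρ j * ρ j) = (ρ (j + 1) * ρ (j + 1)) * A ∧
    A * ((ρ j)ᴴ * (ρ j)ᴴ) = ((ρ (j + 1))ᴴ * (ρ (j + 1))ᴴ) * A := by
  have hH : A * (ρ j)ᴴ = (ρ (j + 1))ᴴ * A :=
    intertwine_conjTranspose719 (h.ρ_unit j) (h.ρ_unit (j + 1)) (h.A_ρ j)
  exact ⟨intertwine_mul719 (h.A_S j) (h.A_ρ j), intertwine_mul719 (h.A_ρ j) (h.A_ρ j),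
    intertwine_mul719 hH hH⟩

/-- `B` commutes with the generators at `j`. -/
theorem B_gen719 (h : IsIwBlock561 ℓ q A B S ρ) (j : ℕ) :
    Commute B (S j * ρ j) ∧ Commute B (ρ j * ρ j) ∧ Commute B ((ρ j)ᴴ * (ρ j)ᴴ) := by
  have hH : Commute B (ρ j)ᴴ := commute_conjTranspose719 (h.ρ_unit j) (h.B_ρ j)
  have hS : Commute B (S j) := h.B_S j
  have hρ : Commute B (ρ j) := h.B_ρ j
  exact ⟨hS.mul_right hρ, hρ.mul_right hρ, hH.mul_right hH⟩

end Block

section Shift

variable {ℓ' : ℕ} {q : ℝ} {A B : Matrix (Fin n) (Fin n) ℂ} {S ρ : ℕ → Matrix (Fin n) (Fin n) ℂ}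

/-- The shift `j ↦ j + 1` on the generators. -/
def shift719 (ℓ' : ℕ) : Equiv.Perm (Fin (ℓ' + 1) ⊕ (Fin (ℓ' + 1) ⊕ Fin (ℓ' + 1))) :=
  Equiv.sumCongr (finRotate (ℓ' + 1)) (Equiv.sumCongr (finRotate (ℓ' + 1)) (finRotate (ℓ' + 1)))

/-- Periodicity: the matrices at `finRotate j` are the matrices at `j + 1`. -/
theorem per_rotate719 (h : IsIwBlock561 (ℓ' + 1) q A B S ρ) (j : Fin (ℓ' + 1)) :
    S ((finRotate (ℓ' + 1) j : Fin (ℓ' + 1)) : ℕ) = S ((j : ℕ) + 1) ∧
    ρ ((finRotate (ℓ' + 1) j : Fin (ℓ' + 1)) : ℕ) = ρ ((j : ℕ) + 1) := by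
  rw [coe_finRotate]
  by_cases hj : j = Fin.last ℓ'
  · rw [if_pos hj]
    have e : (j : ℕ) + 1 = 0 + (ℓ' + 1) := by
      rw [hj, Fin.val_last, zero_add]
    rw [e, h.per_S 0, h.per_ρ 0]
    exact ⟨rfl, rfl⟩
  · rw [if_neg hj]
    exact ⟨rfl, rfl⟩

/-- The twisting relation `T U_a = U_{σ a} T` for `T = B A`. -/
theorem twist_gen719 (h : IsIwBlock561 (ℓ' + 1) q A B S ρ)
    (a : Fin (ℓ' + 1) ⊕ (Fin (ℓ' + 1) ⊕ Fin (ℓ' + 1))) :
    (B * A) * gen719 S ρ (ℓ' + 1) a = gen719 S ρ (ℓ' + 1) (shift719 ℓ' a) * (B * A) := by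
  have key : ∀ {X Y : Matrix (Fin n) (Fin n) ℂ}, A * X = Y * A → Commute B Y →
      (B * A) * X = Y * (B * A) := by
    intro X Y h1 h2
    rw [mul_assoc, h1, ← mul_assoc, h2.eq, mul_assoc]
  rcases a with j | j | j
  · show (B * A) * (S j * ρ j) = (S ((finRotate (ℓ' + 1) j : Fin (ℓ' + 1)) : ℕ)
        * ρ ((finRotate (ℓ' + 1) j : Fin (ℓ' + 1)) : ℕ)) * (B * A)
    rw [(per_rotate719 h j).1, (per_rotate719 h j).2]
    exact key (A_gen719 h j).1 (B_gen719 h _).1
  · show (B * A) * (ρ j * ρ j) = (ρ ((finRotate (ℓ' + 1) j : Fin (ℓ' + 1)) : ℕ)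
        * ρ ((finRotate (ℓ' + 1) j : Fin (ℓ' + 1)) : ℕ)) * (B * A)
    rw [(per_rotate719 h j).2]
    exact key (A_gen719 h j).2.1 (B_gen719 h _).2.1
  · show (B * A) * ((ρ j)ᴴ * (ρ j)ᴴ) = ((ρ ((finRotate (ℓ' + 1) j : Fin (ℓ' + 1)) : ℕ))ᴴ
        * (ρ ((finRotate (ℓ' + 1) j : Fin (ℓ' + 1)) : ℕ))ᴴ) * (B * A)
    rw [(per_rotate719 h j).2]
    exact key (A_gen719 h j).2.2 (B_gen719 h _).2.2

/-- The generators at the place `0`. -/
theorem gen_zero719 (S ρ : ℕ → Matrix (Fin n) (Fin n) ℂ) (ℓ' : ℕ) :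
    gen719 S ρ (ℓ' + 1) (Sum.inl 0) = S 0 * ρ 0 ∧
    gen719 S ρ (ℓ' + 1) (Sum.inr (Sum.inl 0)) = ρ 0 * ρ 0 ∧
    gen719 S ρ (ℓ' + 1) (Sum.inr (Sum.inr 0)) = (ρ 0)ᴴ * (ρ 0)ᴴ := by
  simp [gen719]

/-- The generators at the last place. -/
theorem gen_last719 (S ρ : ℕ → Matrix (Fin n) (Fin n) ℂ) (ℓ' : ℕ) :
    gen719 S ρ (ℓ' + 1) (Sum.inl (Fin.last ℓ')) = S ℓ' * ρ ℓ' ∧
    gen719 S ρ (ℓ' + 1) (Sum.inr (Sum.inl (Fin.last ℓ'))) = ρ ℓ' * ρ ℓ' ∧
    gen719 S ρ (ℓ' + 1) (Sum.inr (Sum.inr (Fin.last ℓ'))) = (ρ ℓ')ᴴ * (ρ ℓ')ᴴ := by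
  simp [gen719]

theorem shift_last719 (ℓ' : ℕ) :
    shift719 ℓ' (Sum.inl (Fin.last ℓ')) = Sum.inl 0 ∧
    shift719 ℓ' (Sum.inr (Sum.inl (Fin.last ℓ'))) = Sum.inr (Sum.inl 0) ∧
    shift719 ℓ' (Sum.inr (Sum.inr (Fin.last ℓ'))) = Sum.inr (Sum.inr 0) := by
  simp [shift719]

/-- `A` moves the generators at the last place to the generators at the place `0`. -/
theorem A_last719 (h : IsIwBlock561 (ℓ' + 1) q A B S ρ) :
    A * (S ℓ' * ρ ℓ') = (S 0 * ρ 0) * A ∧
    A * (ρ ℓ' * ρ ℓ') = (ρ 0 * ρ 0) * A ∧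
    A * ((ρ ℓ')ᴴ * (ρ ℓ')ᴴ) = ((ρ 0)ᴴ * (ρ 0)ᴴ) * A := by
  have hS : S (ℓ' + 1) = S 0 := by
    have := h.per_S 0
    rwa [zero_add] at this
  have hρ : ρ (ℓ' + 1) = ρ 0 := by
    have := h.per_ρ 0
    rwa [zero_add] at this
  have := A_gen719 h ℓ'
  rwa [hS, hρ] at this

end Shift

/-- **LEAF T7.L2.2.A = ATOMS**, VERBATIM. -/
theorem atomsC719 : AtomsC561 := by
  intro n ℓ q A B S ρ hℓ hq h
  obtain ⟨ℓ', rfl⟩ : ∃ ℓ', ℓ = ℓ' + 1 := ⟨ℓ - 1, by omega⟩
  classical
  obtain ⟨Q, χ, t, hQ, htr, ht, hχ⟩ :=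
    twistedTraceAtomsMatrix402 (shift719 ℓ') (gen719 S ρ (ℓ' + 1)) (commute_gen719 h) (B * A)
      (twist_gen719 h)
  obtain ⟨hu0, hz0, hw0⟩ := gen_zero719 S ρ ℓ'
  obtain ⟨huL, hzL, hwL⟩ := gen_last719 S ρ ℓ'
  obtain ⟨hsu, hsz, hsw⟩ := shift_last719 ℓ'
  obtain ⟨hAu, hAz, hAw⟩ := A_last719 h
  have hsq : (0 : ℝ) < Real.sqrt q := Real.sqrt_pos.2 (by linarith)
  have hsqC : ((Real.sqrt q : ℝ) : ℂ) ≠ 0 := by exact_mod_cast hsq.ne'
  -- the inverse of `Z₀`
  have hZW : (ρ 0 * ρ 0) * ((ρ 0)ᴴ * (ρ 0)ᴴ) = 1 := by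
    have h1 := mul_conjTranspose_of719 (h.ρ_unit 0)
    calc (ρ 0 * ρ 0) * ((ρ 0)ᴴ * (ρ 0)ᴴ) = ρ 0 * (ρ 0 * (ρ 0)ᴴ) * (ρ 0)ᴴ := by
          simp only [mul_assoc]
      _ = 1 := by rw [h1, mul_one, h1]
  have hWZ : ((ρ 0)ᴴ * (ρ 0)ᴴ) * (ρ 0 * ρ 0) = 1 := mul_eq_one_comm.1 hZW
  -- the characters of the atoms with `t ≠ 0`
  have hinv : ∀ a, t a ≠ 0 → χ a (Sum.inr (Sum.inl 0)) * χ a (Sum.inr (Sum.inr 0)) = 1 := by
    intro a ha
    obtain ⟨-, x, hx, hxe⟩ := hχ a ha
    have e1 := hxe (Sum.inr (Sum.inl 0))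
    have e2 := hxe (Sum.inr (Sum.inr 0))
    rw [hz0] at e1
    rw [hw0] at e2
    have e3 : x = (χ a (Sum.inr (Sum.inl 0)) * χ a (Sum.inr (Sum.inr 0))) • x := by
      calc x = (((ρ 0)ᴴ * (ρ 0)ᴴ) * (ρ 0 * ρ 0)) *ᵥ x := by rw [hWZ, Matrix.one_mulVec]
        _ = ((ρ 0)ᴴ * (ρ 0)ᴴ) *ᵥ ((ρ 0 * ρ 0) *ᵥ x) := by rw [Matrix.mulVec_mulVec]
        _ = ((ρ 0)ᴴ * (ρ 0)ᴴ) *ᵥ (χ a (Sum.inr (Sum.inl 0)) • x) := by rw [e1]
        _ = χ a (Sum.inr (Sum.inl 0)) • (((ρ 0)ᴴ * (ρ 0)ᴴ) *ᵥ x) := by rw [Matrix.mulVec_smul]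
        _ = (χ a (Sum.inr (Sum.inl 0)) * χ a (Sum.inr (Sum.inr 0))) • x := by
            rw [e2, smul_smul]
    by_contra hne
    apply hx
    have e4 : ((1 : ℂ) - χ a (Sum.inr (Sum.inl 0)) * χ a (Sum.inr (Sum.inr 0))) • x = 0 := by
      rw [sub_smul, one_smul, ← e3, sub_self]
    rcases smul_eq_zero.1 e4 with h5 | h5
    · exact absurd (sub_eq_zero.1 h5).symm hne
    · exact h5
  refine ⟨Q, t, fun a => if t a = 0 then 1 else χ a (Sum.inr (Sum.inl 0)),
    fun a => if t a = 0 then 1 else χ a (Sum.inl 0) / ((Real.sqrt q : ℝ) : ℂ), hQ, ht, ?_, ?_⟩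
  · intro a
    by_cases h0 : t a = 0
    · simp only [if_pos h0]
      refine ⟨norm_one, ?_, Or.inl norm_one⟩
      rw [norm_one]
      exact Real.one_le_sqrt.2 hq
    · simp only [if_neg h0]
      obtain ⟨-, x, hx, hxe⟩ := hχ a h0
      have e1 := hxe (Sum.inr (Sum.inl 0))
      have e2 := hxe (Sum.inl 0)
      rw [hz0] at e1
      rw [hu0] at e2
      exact regParam_matrix719 (S 0) (ρ 0) q hq (h.S_herm 0) (h.S_quad 0) (h.ρ_unit 0)
        (h.ρ_central 0) hx e1 e2
  · intro k m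
    -- the generator `g` and the exponent `N` with `Z₀ ^ k = G₀ ^ N`
    obtain ⟨gL, g0, N, hgσ, hG0, hAg, hb⟩ : ∃ (gL g0 : Fin (ℓ' + 1) ⊕ (Fin (ℓ' + 1) ⊕ Fin (ℓ' + 1)))
        (N : ℕ), shift719 ℓ' gL = g0 ∧
        (ρ 0 * ρ 0) ^ k = gen719 S ρ (ℓ' + 1) g0 ^ N ∧
        A * gen719 S ρ (ℓ' + 1) gL = gen719 S ρ (ℓ' + 1) g0 * A ∧
        ∀ a, t a ≠ 0 → χ a g0 ^ N = χ a (Sum.inr (Sum.inl 0)) ^ k := by
      have hzp := zpow_eq_of_inv719 hZW k
      by_cases hk : 0 ≤ k
      · refine ⟨Sum.inr (Sum.inl (Fin.last ℓ')), Sum.inr (Sum.inl 0), k.toNat, hsz, ?_, ?_, ?_⟩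
        · rw [hzp, if_pos hk, hz0]
        · rw [hzL, hz0]
          exact hAz
        · intro a _
          conv_rhs => rw [← Int.toNat_of_nonneg hk]
          rw [zpow_natCast]
      · refine ⟨Sum.inr (Sum.inr (Fin.last ℓ')), Sum.inr (Sum.inr 0), (-k).toNat, hsw, ?_, ?_, ?_⟩
        · rw [hzp, if_neg hk, hw0]
        · rw [hwL, hw0]
          exact hAw
        · intro a ha
          have hk' : 0 ≤ -k := by omega
          have e1 : χ a (Sum.inr (Sum.inr 0)) = (χ a (Sum.inr (Sum.inl 0)))⁻¹ :=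
            eq_inv_of_mul_eq_one_right (hinv a ha)
          have e2 : k = -((-k).toNat : ℤ) := by
            rw [Int.toNat_of_nonneg hk', neg_neg]
          conv_rhs => rw [e2]
          rw [zpow_neg, zpow_natCast, e1, inv_pow]
    -- the trace in terms of the word
    have hword : B * (ρ 0 * ρ 0) ^ k * (((Real.sqrt q : ℝ) : ℂ)⁻¹ • (S 0 * ρ 0)) ^ m * A
        = (((Real.sqrt q : ℝ) : ℂ)⁻¹) ^ m • ((B * A) *
            ((List.replicate N gL ++ List.replicate m (Sum.inl (Fin.last ℓ'))).map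
              (gen719 S ρ (ℓ' + 1))).prod) := by
      rw [List.map_append, List.prod_append, List.map_replicate, List.map_replicate,
        List.prod_replicate, List.prod_replicate, huL, hG0, smul_pow]
      have e1 : A * (S ℓ' * ρ ℓ') ^ m = (S 0 * ρ 0) ^ m * A := intertwine_pow719 hAu m
      have e2 : A * gen719 S ρ (ℓ' + 1) gL ^ N = gen719 S ρ (ℓ' + 1) g0 ^ N * A :=
        intertwine_pow719 hAg N
      calc B * gen719 S ρ (ℓ' + 1) g0 ^ N * ((((Real.sqrt q : ℝ) : ℂ)⁻¹) ^ m • (S 0 * ρ 0) ^ m) * A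
          = (((Real.sqrt q : ℝ) : ℂ)⁻¹) ^ m •
              (B * (gen719 S ρ (ℓ' + 1) g0 ^ N * ((S 0 * ρ 0) ^ m * A))) := by
            simp only [Matrix.mul_smul, Matrix.smul_mul, mul_assoc]
        _ = (((Real.sqrt q : ℝ) : ℂ)⁻¹) ^ m •
              (B * (gen719 S ρ (ℓ' + 1) g0 ^ N * (A * (S ℓ' * ρ ℓ') ^ m))) := by rw [e1]
        _ = (((Real.sqrt q : ℝ) : ℂ)⁻¹) ^ m •
              (B * ((gen719 S ρ (ℓ' + 1) g0 ^ N * A) * (S ℓ' * ρ ℓ') ^ m)) := by
            simp only [mul_assoc]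
        _ = (((Real.sqrt q : ℝ) : ℂ)⁻¹) ^ m •
              (B * ((A * gen719 S ρ (ℓ' + 1) gL ^ N) * (S ℓ' * ρ ℓ') ^ m)) := by rw [e2]
        _ = (((Real.sqrt q : ℝ) : ℂ)⁻¹) ^ m •
              ((B * A) * (gen719 S ρ (ℓ' + 1) gL ^ N * (S ℓ' * ρ ℓ') ^ m)) := by
            simp only [mul_assoc]
    rw [hword, Matrix.trace_smul, htr, smul_eq_mul, Finset.mul_sum]
    refine Finset.sum_congr rfl fun a _ => ?_
    by_cases h0 : t a = 0
    · simp only [h0, zero_mul, mul_zero]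
    · simp only [if_neg h0]
      obtain ⟨hinvar, -⟩ := hχ a h0
      rw [List.map_append, List.prod_append, List.map_replicate, List.map_replicate,
        List.prod_replicate, List.prod_replicate]
      have e1 : χ a gL = χ a g0 := by rw [← hgσ, hinvar]
      have e2 : χ a (Sum.inl (Fin.last ℓ')) = χ a (Sum.inl 0) := by rw [← hsu, hinvar]
      rw [e1, e2, hb a h0, div_pow, div_eq_mul_inv, inv_pow]
      ring

example : AtomsC561 := atomsC719

end Fermat.Agent.LT.T7.H719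

end

end
-- ===== PACK-END LT/T7/H719/Atoms.lean

-- ===== PACK-BEGIN LT/T7/H561/SpecUpTop.lean
section




/-!
# Row LT, tower T7, node T7.L2.2 (sub-architect helper561): the top for `SpecUpSC`

OFF-MAIN.  ADDITIVE.  Every proof is complete, nothing assumed.  Target: `T7.SpecUpSC` of
`T7/Level2S.lean` (helper797@f117393a9, sha256 01962048e7c51d57) VERBATIM.

    specUpSC_of561 : StableC561 K K' → AsmC561 K K' → StfC561 K K' → BlocksC561 K K'
                       → NonVanC561 K K' → ChangeC561 K' → AtomsC561 → SpecUpSC K K'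

* **`StableC561`** (LEAF, T1): for data of level 2 with a base level extended from `K`
  (`L2Data.IsStable`) the level group of the base level is stable under the automorphism
  (`BaseStable561`).
-/

set_option autoImplicit false

open AutomorphicForm IsDedekindDomain NumberField MeasureTheory
open scoped ComplexConjugate

noncomputable section

namespace Fermat.Agent.LT.T7.H561

open Fermat.Agent.LT.H556 Fermat.Agent.LT.H556.A0 Fermat.Agent.LT.T7

attribute [local instance] Fermat.Agent.LT.T5.instMeasurableSpaceG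

variable (K K' : Type) [Field K] [NumberField K] [Field K'] [NumberField K'] [Algebra K K']

/-- **LEAF T7.L2.2.S = STABLE (T1).**  If the base level is the extension `𝔫₀ 𝒪_{K'}` of a
non-zero ideal of `K`, the principal congruence subgroup `U(𝔑₀)` is stable under `σ`.
Proof.  `IsL2Data.comp` (for the bad element `1`): `σ` generates the Galois group and fixes the
image of `K` (`cyc.fixed`, `base`); an automorphism of the adele ring which is continuous with
continuous inverse and extends `σ` permutes the places as `σ` does and is the continuous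
extension of `σ` on each completion (the primitive idempotents of the adele ring; density of
`K'` in the completions), hence maps the closure of `𝔫₀ 𝒪_{K'}` at `w` onto the closure at
`σ w`; the condition `InLevelGroup` is a condition on the components.  (Same statement as the
field `level` of `T5.AutPreserves` for the levels `𝔑_g`; asset helper930
`T7/H930/CompDataExists.lean` for the canonical extension.) -/
def StableC561 : Prop :=
  ∀ (ℓ : ℕ) (Φ : HeckeEigensystem K' ℂ) (Dt : L2Data K K'), IsL2Data ℓ Φ Dt → Dt.IsStable →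
    BaseStable561 Dt

variable {K K'}

/-- **THE TOP OF THE NODE T7.L2.2**: `SpecUpSC` from the leaves. -/
theorem specUpSC_of561 (hS : StableC561 K K') (hZ : AsmC561 K K') (hT : StfC561 K K')
    (hB : BlocksC561 K K') (hN : NonVanC561 K K') (hC : ChangeC561 K') (hA : AtomsC561) :
    SpecUpSC K K' := by
  intro ℓ hcyc hℓ hcplx Φ hΦ hconst Dt hDt hst
  exact specUpCS_of561 hZ hT hB hN hC hA ℓ hcyc hℓ hcplx Φ hΦ hconst Dt hDt (hS ℓ Φ Dt hDt hst)

theorem eqns_realisedTop561 : True := by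
  have _a1 := @StableC561.eq_1
  have _a2 := @StableC561.eq_def
  have _a3 := @StableC561.eq_unfold
  trivial

end Fermat.Agent.LT.T7.H561

end

end
-- ===== PACK-END LT/T7/H561/SpecUpTop.lean

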