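import Mathlib
import Fermat.Agent.Pack.LT3.E22L2
import Fermat.Agent.Pack.LT3.E5L3
import Fermat.Agent.Pack.LT3.E10L2
import Fermat.Agent.Pack.LT2.E10L3
import Fermat.Agent.Pack.LT3.E20L2
import Fermat.Agent.Pack.LT2.E2L2
import Fermat.Agent.Pack.LT3.E1L3
import Fermat.Agent.Pack.LT3.E22L0
import Fermat.Agent.Pack.LT3.E21L1
import Fermat.Agent.Pack.LT3.E21L0
import Fermat.Agent.Pack.LT3.E2L2
import Fermat.Agent.Pack.LT2.E10L0
import Fermat.Agent.Pack.LT3.E21L2
import Fermat.Agent.Pack.LT3.E22L1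
import Fermat.Agent.Pack.LT3.E8L1
import Fermat.Agent.Pack.LT2.E4L2
import Fermat.Agent.Pack.LT2.E6L1
import Fermat.Agent.Pack.LT3.E14L2
import Fermat.Agent.Pack.LT3.E11L3
import Fermat.Agent.Pack.LT3.E2L1
import Fermat.Agent.Pack.LT3.E23L0

set_option linter.all false

-- ===== PACK-BEGIN LT/T7/H190/Fixed.lean
section



/-!
# Row LT, tower T7, leaf T7.L2.1.C2.4-I.3 `H816.FixedC816` (helper190, registry row 2471)

OFF-MAIN.  No definitions, nothing assumed.  Spec: `LT/T7/H816/IotaSpec.lean`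
(helper816@e81f893cb, sha256 c16fad08c5fc320c), byte-identical copy.

    fixedC190 (K K') : H816.FixedC816 K K'            (VERBATIM, unconditional)

`σ_𝔸 ∘ ι = ι`, componentwise.
* Finite places: for `w'` a place of `K'`, `w = σ⁻¹ w'`, `v = w ∩ K = w' ∩ K`: `s_w ∘ i_w` and
  `i_{w'}` are ring homomorphisms `K_v → K'_{w'}` which multiply the valuation by a positive
  power, hence are continuous, and agree on the dense subfield `K` (`σ` fixes `K`).
* Infinite places: both sides are `c (x_v)` with `c ∈ {id, conj}`; they agree for `x ∈ K`, and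
  the image of `K` under a complex place is not contained in `ℝ`.
-/

set_option autoImplicit false
set_option linter.unusedSectionVars false
set_option linter.unusedVariables false

open AutomorphicForm IsDedekindDomain NumberField
open scoped ComplexConjugate Topology WithZero

noncomputable section

namespace Fermat.Agent.LT.T7.H190

open Fermat.Agent.LT.H556 Fermat.Agent.LT.H556.A0 Fermat.Agent.LT.T7
open Fermat.Agent.LT.T7.H305 Fermat.Agent.LT.T7.H816

/-! ## Adeles -/

theorem adl_ext190 {K : Type} [Field K] [NumberField K] {x y : Adl K}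
    (h1 : ∀ w : InfinitePlace K, T5.infHom w x = T5.infHom w y)
    (h2 : ∀ v : HeightOneSpectrum (𝓞 K), T5.finHom v x = T5.finHom v y) : x = y := by
  refine Prod.ext ?_ ?_
  · funext w
    exact (InfinitePlace.Completion.extensionEmbedding w).injective (h1 w)
  · exact RestrictedProduct.ext _ _ (fun v => h2 v)

/-! ## Places -/

theorem exists_placeRel_pre190 {K : Type} [Field K] [NumberField K] (s : T5.AdelicAut K)
    (w' : HeightOneSpectrum (𝓞 K)) : ∃ w : HeightOneSpectrum (𝓞 K), T5.PlaceRel s w w' := by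
  have hp := w'.isPrime
  refine ⟨⟨Ideal.map (NumberField.RingOfIntegers.mapRingEquiv s.σ).symm w'.asIdeal,
    Ideal.map_isPrime_of_equiv _, ?_⟩, ?_⟩
  · intro h
    rw [Ideal.map_eq_bot_iff_of_injective
      (NumberField.RingOfIntegers.mapRingEquiv s.σ).symm.injective] at h
    exact w'.ne_bot h
  · show w'.asIdeal = Ideal.map (NumberField.RingOfIntegers.mapRingEquiv s.σ)
      (Ideal.map (NumberField.RingOfIntegers.mapRingEquiv s.σ).symm w'.asIdeal)
    exact (Ideal.map_of_equiv (NumberField.RingOfIntegers.mapRingEquiv s.σ).symm).symm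

theorem placeOver_under190 {K K' : Type} [Field K] [NumberField K] [Field K'] [NumberField K']
    [Algebra K K'] (w : HeightOneSpectrum (𝓞 K')) :
    ∃ v : HeightOneSpectrum (𝓞 K), PlaceOver K K' v w := by
  refine ⟨w.under (𝓞 K), ?_⟩
  intro x y hxy
  have hy : y = algebraMap (𝓞 K) (𝓞 K') x := RingOfIntegers.ext hxy
  subst hy
  rfl

theorem placeOver_of_placeRel190 {K K' : Type} [Field K] [NumberField K] [Field K']
    [NumberField K'] [Algebra K K'] (s : T5.AdelicAut K')
    (hfix : ∀ x : K, s.σ (algebraMap K K' x) = algebraMap K K' x)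
    {w w' : HeightOneSpectrum (𝓞 K')} (hrel : T5.PlaceRel s w w')
    (v : HeightOneSpectrum (𝓞 K)) (hv : PlaceOver K K' v w) : PlaceOver K K' v w' := by
  intro x y hxy
  rw [hv x y hxy]
  have hσy : RingOfIntegers.mapRingEquiv s.σ y = y := by
    apply RingOfIntegers.ext
    rw [RingOfIntegers.mapRingEquiv_apply, hxy, hfix]
  have hrel' : w'.asIdeal = Ideal.map (NumberField.RingOfIntegers.mapRingEquiv s.σ) w.asIdeal :=
    hrel
  rw [hrel', Ideal.mem_map_of_equiv]
  constructor
  · intro hy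
    exact ⟨y, hy, hσy⟩
  · rintro ⟨x', hx', hx'y⟩
    have : x' = y := by
      apply (RingOfIntegers.mapRingEquiv s.σ).injective
      rw [hx'y, hσy]
    rw [← this]
    exact hx'

/-! ## Continuity and density -/

/-- A ring homomorphism of `ℤᵐ⁰`-valued rings which raises the valuation to a positive power is
continuous (the source has an element of small non-zero valuation). -/
theorem continuous_of_val_pow190 {A B : Type*} [Ring A] [Ring B]
    [Valued A ℤᵐ⁰] [Valued B ℤᵐ⁰] (f : A →+* B) (e : ℕ) (he : 0 < e)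
    (hf : ∀ y : A, Valued.v (f y) = Valued.v y ^ e)
    (t : A) (ht0 : Valued.v t ≠ 0) (ht1 : Valued.v t < 1) : Continuous f := by
  apply continuous_of_continuousAt_zero f
  rw [ContinuousAt, map_zero]
  intro s hs
  rw [Valued.mem_nhds_zero] at hs
  obtain ⟨γ', hγ'⟩ := hs
  rw [Filter.mem_map, Valued.mem_nhds_zero]
  obtain ⟨n, hn⟩ := exists_pow_lt₀ ht1
    (Units.map (MonoidWithZeroHom.ValueGroup₀.embedding
      (f := (.ofClass (Valued.v : Valuation B ℤᵐ⁰)))) γ')
  have htn : (Valued.v : Valuation A ℤᵐ⁰).restrict (t ^ n) ≠ 0 :=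
    ((Valuation.restrict_pos_iff _ _).2
      (by rw [map_pow]; exact pow_pos (zero_lt_iff.2 ht0) n)).ne'
  refine ⟨Units.mk0 _ htn, fun y hy => hγ' ?_⟩
  have hy' : (Valued.v : Valuation A ℤᵐ⁰).restrict y
      < (Valued.v : Valuation A ℤᵐ⁰).restrict (t ^ n) := hy
  rw [Valuation.restrict_lt_iff] at hy'
  show (Valued.v : Valuation B ℤᵐ⁰).restrict (f y) < γ'.1
  rw [Valuation.restrict_lt_iff_lt_embedding, hf]
  have hy1 : Valued.v y ≤ (1 : ℤᵐ⁰) :=
    hy'.le.trans (by rw [map_pow]; exact pow_le_one₀ zero_le ht1.le)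
  calc Valued.v y ^ e ≤ Valued.v y := pow_le_of_le_one zero_le hy1 he.ne'
    _ < Valued.v (t ^ n) := hy'
    _ = Valued.v t ^ n := map_pow _ _ _
    _ < _ := hn


/-- Two continuous ring homomorphisms out of a completion `K_v` which agree on `K` are equal. -/
theorem ringHom_ext_of_dense190 {K : Type} [Field K] [NumberField K]
    (v : HeightOneSpectrum (𝓞 K)) {B : Type*} [Ring B] [TopologicalSpace B] [T2Space B]
    (f g : v.adicCompletion K →+* B) (hf : Continuous f) (hg : Continuous g)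
    (h : ∀ x : K, f (algebraMap K (v.adicCompletion K) x)
      = g (algebraMap K (v.adicCompletion K) x)) : f = g := by
  have hd : DenseRange (algebraMap K (v.adicCompletion K)) :=
    HeightOneSpectrum.denseRange_algebraMap K v
  have := hd.equalizer hf hg (funext h)
  exact RingHom.ext (fun x => congrFun this x)

theorem exists_small190 {K : Type} [Field K] [NumberField K]
    (v : HeightOneSpectrum (𝓞 K)) :
    ∃ t : v.adicCompletion K, Valued.v t ≠ 0 ∧ Valued.v t < 1 := by
  obtain ⟨π, hπ⟩ := HeightOneSpectrum.valuation_exists_uniformizer K v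
  have e : Valued.v (algebraMap K (v.adicCompletion K) π) = v.valuation K π :=
    HeightOneSpectrum.valuedAdicCompletion_eq_valuation' v π
  refine ⟨(algebraMap K (v.adicCompletion K) π), ?_, ?_⟩
  · rw [e, hπ]
    exact WithZero.exp_ne_zero
  · rw [e, hπ, ← WithZero.exp_zero, WithZero.exp_lt_exp]
    norm_num

/-! ## The finite places -/

theorem fixed_fin190 {K K' : Type} [Field K] [NumberField K] [Field K'] [NumberField K']
    [Algebra K K'] (s : T5.AdelicAut K')
    (hfix : ∀ x : K, s.σ (algebraMap K K' x) = algebraMap K K' x)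
    (hσ : SigmaLocC305 K') (ι : Adl K →+* Adl K') (hι : IsPreBase816 ι) (x : Adl K)
    (w' : HeightOneSpectrum (𝓞 K')) :
    T5.finHom w' (s.σA (ι x)) = T5.finHom w' (ι x) := by
  obtain ⟨w, hw⟩ := exists_placeRel_pre190 s w'
  obtain ⟨v, hv⟩ := placeOver_under190 (K := K) w
  have hv' := placeOver_of_placeRel190 s hfix hw v hv
  obtain ⟨sw, hsw1, hsw2, hsw3⟩ := (hσ s).1 w w' hw
  obtain ⟨e, i, he, hi1, hi2, hi3⟩ := hι.fin v w hv
  obtain ⟨e', i', he', hi1', hi2', hi3'⟩ := hι.fin v w' hv'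
  rw [hsw3, hi3, hi3']
  obtain ⟨t, ht0, ht1⟩ := exists_small190 v
  have hc1 : Continuous ((sw : w.adicCompletion K' →+* w'.adicCompletion K').comp i) :=
    continuous_of_val_pow190 _ e he (fun y => by
      show Valued.v (sw (i y)) = _
      rw [hsw2, hi2]) t ht0 ht1
  have hc2 : Continuous i' := continuous_of_val_pow190 _ e' he' hi2' t ht0 ht1
  have key := ringHom_ext_of_dense190 v
    ((sw : w.adicCompletion K' →+* w'.adicCompletion K').comp i) i' hc1 hc2 (fun y => by
      show sw (i _) = i' _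
      rw [hi1, hi1', hsw1, hfix])
  exact RingHom.congr_fun key (T5.finHom v x)

/-! ## The infinite places -/

theorem infHom_rat190 {K : Type} [Field K] [NumberField K] (v : InfinitePlace K) (t : K) :
    T5.infHom v (algebraMap K (Adl K) t) = v.embedding t := by
  show InfinitePlace.Completion.extensionEmbedding v ((algebraMap K (Adl K) t).1 v) = _
  exact InfinitePlace.Completion.extensionEmbedding_coe v (WithAbs.toAbs _ t)

theorem exists_not_real190 {K : Type} [Field K] [NumberField K] (v : InfinitePlace K)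
    (hv : v.IsComplex) : ∃ t : K, conj (v.embedding t) ≠ v.embedding t := by
  by_contra h
  refine InfinitePlace.isComplex_iff.1 hv (ComplexEmbedding.isReal_iff.2 ?_)
  refine RingHom.ext (fun t => ?_)
  by_contra ht
  exact h ⟨t, ht⟩

theorem fixed_inf190 {K K' : Type} [Field K] [NumberField K] [Field K'] [NumberField K']
    [Algebra K K'] (s : T5.AdelicAut K')
    (hfix : ∀ x : K, s.σ (algebraMap K K' x) = algebraMap K K' x)
    (hK : TotCplx K)
    (hσ : SigmaLocC305 K') (ι : Adl K →+* Adl K') (hι : IsPreBase816 ι) (x : Adl K)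
    (w' : InfinitePlace K') :
    T5.infHom w' (s.σA (ι x)) = T5.infHom w' (ι x) := by
  have hcomap : (w'.comap (s.σ : K' →+* K')).comap (algebraMap K K')
      = w'.comap (algebraMap K K') := by
    rw [← InfinitePlace.comap_comp]
    congr 1
    exact RingHom.ext (fun t => hfix t)
  -- the rational points
  have hrat : ∀ t : K, T5.infHom w' (s.σA (ι (algebraMap K (Adl K) t)))
      = T5.infHom w' (ι (algebraMap K (Adl K) t)) := by
    intro t
    rw [hι.rat, s.compat, hfix]
  obtain ⟨t, ht⟩ := exists_not_real190 _ (hK (w'.comap (algebraMap K K')))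
  have hz := infHom_rat190 (w'.comap (algebraMap K K')) t
  have hrt := hrat t
  have h2 := hι.inf (w'.comap (s.σ : K' →+* K'))
  rw [hcomap] at h2
  rcases (hσ s).2 w' with h3 | h3 <;> rcases h2 with h2 | h2 <;>
    rcases hι.inf w' with h1 | h1
  · rw [h3, h2, h1]
  · exfalso
    rw [h3, h2, h1, hz] at hrt
    exact ht hrt.symm
  · exfalso
    rw [h3, h2, h1, hz] at hrt
    exact ht hrt
  · rw [h3, h2, h1]
  · exfalso
    rw [h3, h2, h1, hz] at hrt
    exact ht hrt
  · rw [h3, h2, h1]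
  · rw [h3, h2, h1, Complex.conj_conj]
  · exfalso
    rw [h3, h2, h1, Complex.conj_conj, hz] at hrt
    exact ht hrt.symm

/-! ## The leaf -/

/-- **LEAF I.3 = FIXED** (registry row 2471), VERBATIM, unconditional. -/
theorem fixedC190 (K K' : Type) [Field K] [NumberField K] [Field K'] [NumberField K']
    [Algebra K K'] : Fermat.Agent.LT.T7.H816.FixedC816 K K' := by
  intro D hD _hcyc hK hσ ι hι x
  have hfix : ∀ x : K, D.s.σ (algebraMap K K' x) = algebraMap K K' x := fun x =>
    (hD.cyc.fixed _).1 ((hD.base _).2 ⟨x, rfl⟩)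
  exact adl_ext190 (fun w' => fixed_inf190 D.s hfix hK hσ ι hι x w')
    (fun w' => fixed_fin190 D.s hfix hσ ι hι x w')

end Fermat.Agent.LT.T7.H190

end

end
-- ===== PACK-END LT/T7/H190/Fixed.lean

-- ===== PACK-BEGIN LT/T7/H301/NormFin.lean
section



/-!
# Row LT, tower T7, node T7.L2.1 `SupplyC`, leaf C2.4-I.8 `NormFinC816` (helper301)

OFF-MAIN.  Registry row 2475.  Spec: `LT/T7/H816/IotaSpec.lean` (helper816, sha256 c16fad08c5fc320c).

    normFinC301 (K K') : H816.NormFinC816 K K'        VERBATIM, UNCONDITIONAL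

For every ring homomorphism `ι : 𝔸_K → 𝔸_{K'}` with `IsPreBase816 ι` and every idele `x` of `K`:
`∏_w ‖(ι x)_w‖ = (∏_v ‖x_v‖) ^ l`, `l = [K' : K]`.  (The hypothesis `IsCycExt` is used for the
degree only; no Galois property, no continuity of `ι`.)

## Proof

* `PlaceOver K K' v w` is `w.asIdeal.LiesOver v.asIdeal` (`liesOver_of_placeOver301`,
  `placeOver_of_liesOver301`).
* The exponent `e` of a local embedding `i : K_v → K'_w` (`|i x| = |x| ^ e`, `i = (K → K')` on
  `K`) is the ramification index: evaluate at a uniformiser of `K` and use Mathlib's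
  `valuation_liesOver` (`exp_eq_ramificationIdx301`).
* `N w = N v ^ f` (Mathlib `Ideal.absNorm_eq_pow_inertiaDeg'_of_liesOver`), hence
  `‖i a‖ = ‖a‖ ^ (e f)` (`norm_local301`).
* `∑_{w ∣ v} e_w f_w = [K' : K]` (Mathlib `Ideal.sum_ramification_inertia`, `sum_ef301`).
* An idele has norm `1` at almost all places (`finite_support301`); the product over `w` is
  the product over `v` of the products over the places above `v`.

Only Mathlib and the Spec are imported.  Every declaration of this file is in the namespace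
`Fermat.Agent.LT.T7.H301`; no equation lemma of an imported definition is used.
-/

set_option autoImplicit false
set_option linter.unusedSectionVars false
set_option linter.deprecated false

open IsDedekindDomain NumberField
open scoped NNReal

noncomputable section

namespace Fermat.Agent.LT.T7.H301

open Fermat.Agent.LT.H556 Fermat.Agent.LT.H556.A0 Fermat.Agent.LT.T7

variable {K K' : Type} [Field K] [NumberField K] [Field K'] [NumberField K'] [Algebra K K']

theorem liesOver_of_placeOver301 {v : HeightOneSpectrum (𝓞 K)} {w : HeightOneSpectrum (𝓞 K')}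
    (h : PlaceOver K K' v w) : w.asIdeal.LiesOver v.asIdeal := by
  constructor
  ext x
  rw [Ideal.under_def, Ideal.mem_comap]
  exact h x (algebraMap (𝓞 K) (𝓞 K') x) rfl

theorem placeOver_of_liesOver301 {v : HeightOneSpectrum (𝓞 K)} {w : HeightOneSpectrum (𝓞 K')}
    (h : w.asIdeal.LiesOver v.asIdeal) : PlaceOver K K' v w := by
  intro x y hxy
  have hy : y = algebraMap (𝓞 K) (𝓞 K') x := RingOfIntegers.ext hxy
  subst hy
  rw [h.over, Ideal.under_def, Ideal.mem_comap]

/-- The valuation of the image of `x : K` in the completion. -/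
theorem valued_algebraMap301 (v : HeightOneSpectrum (𝓞 K)) (x : K) :
    Valued.v (algebraMap K (v.adicCompletion K) x) = v.valuation K x :=
  HeightOneSpectrum.valuedAdicCompletion_eq_valuation' v x

/-- The exponent of a local embedding is the ramification index. -/
theorem exp_eq_ramificationIdx301 {v : HeightOneSpectrum (𝓞 K)} {w : HeightOneSpectrum (𝓞 K')}
    (h : PlaceOver K K' v w) (e : ℕ) (i : v.adicCompletion K →+* w.adicCompletion K')
    (hi : ∀ x : K, i (algebraMap K (v.adicCompletion K) x)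
        = algebraMap K' (w.adicCompletion K') (algebraMap K K' x))
    (hv : ∀ x : v.adicCompletion K, Valued.v (i x) = Valued.v x ^ e) :
    e = v.asIdeal.ramificationIdx' w.asIdeal := by
  have := liesOver_of_placeOver301 h
  obtain ⟨π, hπ⟩ := HeightOneSpectrum.valuation_exists_uniformizer K v
  have h1 := hv (algebraMap K (v.adicCompletion K) π)
  rw [hi, valued_algebraMap301, valued_algebraMap301,
    ← HeightOneSpectrum.valuation_liesOver K' v w π, hπ] at h1
  rw [← WithZero.exp_nsmul, ← WithZero.exp_nsmul, WithZero.exp_inj] at h1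
  have h2 : ((v.asIdeal.ramificationIdx' w.asIdeal : ℕ) : ℤ) = (e : ℤ) := by
    simpa using h1
  exact_mod_cast h2.symm

theorem toNNReal_pow301 {a b : ℝ≥0} (ha : a ≠ 0) (hb : b ≠ 0) (f : ℕ) (hf : f ≠ 0)
    (hab : b = a ^ f) (γ : WithZero (Multiplicative ℤ)) :
    WithZeroMulInt.toNNReal hb γ = (WithZeroMulInt.toNNReal ha γ) ^ f := by
  by_cases hγ : γ = 0
  · subst hγ; simp [hf]
  · rw [WithZeroMulInt.toNNReal_neg_apply hb hγ, WithZeroMulInt.toNNReal_neg_apply ha hγ]
    subst hab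
    rw [← zpow_natCast, ← zpow_natCast, ← zpow_mul, ← zpow_mul, mul_comm]

theorem inertiaDeg_ne_zero301 {v : HeightOneSpectrum (𝓞 K)} {w : HeightOneSpectrum (𝓞 K')}
    (h : PlaceOver K K' v w) :
    Ideal.absNorm w.asIdeal = Ideal.absNorm v.asIdeal ^ (v.asIdeal.inertiaDeg' w.asIdeal) ∧
      v.asIdeal.inertiaDeg' w.asIdeal ≠ 0 := by
  have := liesOver_of_placeOver301 h
  have h1 : Ideal.absNorm w.asIdeal = Ideal.absNorm v.asIdeal ^ (v.asIdeal.inertiaDeg' w.asIdeal) :=
    Ideal.absNorm_eq_pow_inertiaDeg'_of_liesOver w.asIdeal v.asIdeal v.isPrime v.ne_bot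
  refine ⟨h1, fun h0 => ?_⟩
  rw [h0, pow_zero] at h1
  have := NumberField.HeightOneSpectrum.one_lt_absNorm w
  omega

/-- The local norm relation. -/
theorem norm_local301 {v : HeightOneSpectrum (𝓞 K)} {w : HeightOneSpectrum (𝓞 K')}
    (h : PlaceOver K K' v w) (e : ℕ) (i : v.adicCompletion K →+* w.adicCompletion K')
    (hi : ∀ x : K, i (algebraMap K (v.adicCompletion K) x)
        = algebraMap K' (w.adicCompletion K') (algebraMap K K' x))
    (hv : ∀ x : v.adicCompletion K, Valued.v (i x) = Valued.v x ^ e)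
    (a : v.adicCompletion K) :
    ‖i a‖ = ‖a‖ ^ (v.asIdeal.ramificationIdx' w.asIdeal * v.asIdeal.inertiaDeg' w.asIdeal) := by
  have he := exp_eq_ramificationIdx301 h e i hi hv
  obtain ⟨hN, hf⟩ := inertiaDeg_ne_zero301 h
  rw [NumberField.FinitePlace.norm_def, NumberField.FinitePlace.norm_def, hv, map_pow, ← he]
  have hN' : (Ideal.absNorm w.asIdeal : ℝ≥0)
      = (Ideal.absNorm v.asIdeal : ℝ≥0) ^ (v.asIdeal.inertiaDeg' w.asIdeal) := by
    rw [hN]; push_cast; rfl
  rw [toNNReal_pow301 (NumberField.HeightOneSpectrum.absNorm_ne_zero v)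
    (NumberField.HeightOneSpectrum.absNorm_ne_zero w) _ hf hN' (Valued.v a)]
  push_cast
  rw [← pow_mul, mul_comm]

/-- The places of `K'` over `v`, as a finite set. -/
def placesOver301 (K' : Type) [Field K'] [NumberField K'] [Algebra K K']
    (v : HeightOneSpectrum (𝓞 K)) : Finset (HeightOneSpectrum (𝓞 K')) :=
  (IsDedekindDomain.primesOverFinset v.asIdeal (𝓞 K')).preimage (fun w => w.asIdeal)
    (Function.Injective.injOn (fun _ _ h => HeightOneSpectrum.ext h))

theorem mem_placesOver301 {v : HeightOneSpectrum (𝓞 K)} {w : HeightOneSpectrum (𝓞 K')} :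
    w ∈ placesOver301 K' v ↔ PlaceOver K K' v w := by
  have := v.isMaximal
  rw [placesOver301, Finset.mem_preimage, IsDedekindDomain.mem_primesOverFinset_iff v.ne_bot]
  constructor
  · intro h; exact placeOver_of_liesOver301 h.2
  · intro h; exact ⟨w.isPrime, liesOver_of_placeOver301 h⟩

theorem sum_ef301 (v : HeightOneSpectrum (𝓞 K)) :
    ∑ w ∈ placesOver301 K' v,
        v.asIdeal.ramificationIdx' w.asIdeal * v.asIdeal.inertiaDeg' w.asIdeal
      = Module.finrank K K' := by
  have := v.isMaximal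
  rw [← Ideal.sum_ramification_inertia (𝓞 K') K K' v.ne_bot, placesOver301]
  refine Finset.sum_preimage (fun w : HeightOneSpectrum (𝓞 K') => w.asIdeal) _ _
    (fun P => v.asIdeal.ramificationIdx' P * v.asIdeal.inertiaDeg' P) ?_
  intro P hP hnot
  exfalso; apply hnot
  rw [IsDedekindDomain.mem_primesOverFinset_iff v.ne_bot] at hP
  have := hP.2
  exact ⟨⟨P, hP.1, Ideal.ne_bot_of_liesOver_of_ne_bot v.ne_bot P⟩, rfl⟩

/-- The place of `K` under `w`. -/
def under301 (K : Type) [Field K] [NumberField K] [Algebra K K']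
    (w : HeightOneSpectrum (𝓞 K')) : HeightOneSpectrum (𝓞 K) :=
  ⟨w.asIdeal.under (𝓞 K), inferInstance, Ideal.under_ne_bot (𝓞 K) w.ne_bot⟩

theorem placeOver_under301 (w : HeightOneSpectrum (𝓞 K')) : PlaceOver K K' (under301 K w) w :=
  placeOver_of_liesOver301 ⟨rfl⟩

theorem eq_under301 {v : HeightOneSpectrum (𝓞 K)} {w : HeightOneSpectrum (𝓞 K')}
    (h : PlaceOver K K' v w) : v = under301 K w :=
  HeightOneSpectrum.ext (liesOver_of_placeOver301 h).over

theorem finite_support301 (x : (Adl K)ˣ) :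
    (Function.mulSupport fun v : HeightOneSpectrum (𝓞 K) => ‖(x : Adl K).2 v‖).Finite := by
  have hx := (x : Adl K).2.2
  have hy := ((x⁻¹ : (Adl K)ˣ) : Adl K).2.2
  have hfin := hx.and hy
  rw [Filter.eventually_cofinite] at hfin
  refine hfin.subset ?_
  intro v hv
  simp only [Function.mem_mulSupport] at hv
  rintro ⟨h1, h2⟩
  apply hv
  have hmul : (x : Adl K).2 v * ((x⁻¹ : (Adl K)ˣ) : Adl K).2 v = 1 := by
    have h0 : ((x : Adl K) * ((x⁻¹ : (Adl K)ˣ) : Adl K)) = 1 := x.mul_inv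
    exact congrArg (fun z : Adl K => z.2 v) h0
  have hn := congrArg norm hmul
  rw [norm_mul, norm_one] at hn
  have h1' : ‖(x : Adl K).2 v‖ ≤ 1 :=
    Valued.toNormedField.norm_le_one_iff.2 ((HeightOneSpectrum.mem_adicCompletionIntegers _ _ _).1 h1)
  have h2' : ‖((x⁻¹ : (Adl K)ˣ) : Adl K).2 v‖ ≤ 1 :=
    Valued.toNormedField.norm_le_one_iff.2 ((HeightOneSpectrum.mem_adicCompletionIntegers _ _ _).1 h2)
  nlinarith [norm_nonneg ((x : Adl K).2 v), norm_nonneg (((x⁻¹ : (Adl K)ˣ) : Adl K).2 v)]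

theorem normFinC301 (K K' : Type) [Field K] [NumberField K] [Field K'] [NumberField K']
    [Algebra K K'] : H816.NormFinC816 K K' := by
  classical
  intro l hl ι hι x
  have hloc : ∀ (v : HeightOneSpectrum (𝓞 K)) (w : HeightOneSpectrum (𝓞 K')),
      PlaceOver K K' v w → ‖(ι (x : Adl K)).2 w‖
        = ‖(x : Adl K).2 v‖
            ^ (v.asIdeal.ramificationIdx' w.asIdeal * v.asIdeal.inertiaDeg' w.asIdeal) := by
    intro v w hvw
    obtain ⟨e, i, _, hi, hv, hfin⟩ := hι.fin v w hvw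
    have h1 : (ι (x : Adl K)).2 w = i ((x : Adl K).2 v) := hfin (x : Adl K)
    rw [h1]
    exact norm_local301 hvw e i hi hv _
  have hS := finite_support301 x
  have hsub : (Function.mulSupport fun w : HeightOneSpectrum (𝓞 K') => ‖(ι (x : Adl K)).2 w‖)
      ⊆ ((hS.toFinset.biUnion (placesOver301 K') : Finset (HeightOneSpectrum (𝓞 K'))) :
          Set (HeightOneSpectrum (𝓞 K'))) := by
    intro w hw
    rw [Function.mem_mulSupport] at hw
    rw [Finset.mem_coe, Finset.mem_biUnion]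
    refine ⟨under301 K w, ?_, mem_placesOver301.2 (placeOver_under301 w)⟩
    rw [Set.Finite.mem_toFinset, Function.mem_mulSupport]
    intro h1
    apply hw
    rw [hloc _ _ (placeOver_under301 w), h1, one_pow]
  rw [finprod_eq_prod_of_mulSupport_subset _ hsub,
    finprod_eq_prod_of_mulSupport_subset _ (s := hS.toFinset) (by rw [Set.Finite.coe_toFinset]),
    Finset.prod_biUnion]
  · rw [← Finset.prod_pow]
    refine Finset.prod_congr rfl (fun v _ => ?_)
    rw [Finset.prod_congr rfl (fun w hw => hloc v w (mem_placesOver301.1 hw)),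
      Finset.prod_pow_eq_pow_sum, sum_ef301, hl.degree]
  · intro v₁ _ v₂ _ hne
    rw [Function.onFun, Finset.disjoint_left]
    intro w hw1 hw2
    exact hne ((eq_under301 (mem_placesOver301.1 hw1)).trans
      (eq_under301 (mem_placesOver301.1 hw2)).symm)

end Fermat.Agent.LT.T7.H301

end
end
-- ===== PACK-END LT/T7/H301/NormFin.lean

-- ===== PACK-BEGIN LT/T7/H127/IotaClosed.lean
section



/-!
# Row LT, tower T7, leaf T7.L2.1.C2.4-I.9 `H816.ClosedC816` (registry row 2476) -- helper127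

OFF-MAIN.  Complete proof, nothing assumed.

`closedC127 K K' : H816.ClosedC816 K K'` VERBATIM vs `LT/T7/H816/IotaSpec.lean`
(helper816@e81f893cb, sha256 c16fad08c5fc320c).

Proof: `ι` is injective (every place of `K` has a place of `K'` over it and the local maps are
homomorphisms of fields); its range is the set of the fixed points of `σ_𝔸`, a closed subgroup
of the locally compact Hausdorff group `𝔸_{K'}`, hence a Baire space; `𝔸_K` is σ-compact
(locally compact, second countable): open mapping theorem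
`AddMonoidHom.isOpenMap_of_sigmaCompact`.
-/

set_option autoImplicit false
set_option linter.style.haveILetI false
set_option linter.unusedSectionVars false

open AutomorphicForm IsDedekindDomain NumberField MeasureTheory
open scoped ComplexConjugate

noncomputable section

namespace Fermat.Agent.LT.T7.H127

open Fermat.Agent.LT.H556 Fermat.Agent.LT.H556.A0 Fermat.Agent.LT.T7
open Fermat.Agent.LT.T7.H305 Fermat.Agent.LT.T7.H816

variable {K K' : Type} [Field K] [NumberField K] [Field K'] [NumberField K'] [Algebra K K']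

/-- Every finite place of `K` has a finite place of `K'` over it. -/
theorem exists_placeOver127 (v : HeightOneSpectrum (𝓞 K)) :
    ∃ w : HeightOneSpectrum (𝓞 K'), PlaceOver K K' v w := by
  have : v.asIdeal.IsPrime := v.isPrime
  have hinj : Function.Injective (algebraMap (𝓞 K) (𝓞 K')) :=
    FaithfulSMul.algebraMap_injective (𝓞 K) (𝓞 K')
  obtain ⟨Q, -, hQp, hQ⟩ := Ideal.exists_ideal_over_prime_of_isIntegral v.asIdeal
    (⊥ : Ideal (𝓞 K')) (by
      rw [← RingHom.ker_eq_comap_bot, (RingHom.injective_iff_ker_eq_bot _).1 hinj]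
      exact bot_le)
  have hQne : Q ≠ ⊥ := by
    rintro rfl
    apply v.ne_bot
    rw [← hQ, ← RingHom.ker_eq_comap_bot, (RingHom.injective_iff_ker_eq_bot _).1 hinj]
  refine ⟨⟨Q, hQp, hQne⟩, fun x y hxy => ?_⟩
  have hy : y = algebraMap (𝓞 K) (𝓞 K') x := by
    apply NumberField.RingOfIntegers.ext
    rw [hxy]
    rfl
  show x ∈ v.asIdeal ↔ y ∈ Q
  rw [← hQ, Ideal.mem_comap, hy]

/-- `ι` is injective. -/
theorem injective_of_preBase127 {ι : Adl K →+* Adl K'} (hι : IsPreBase816 ι) :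
    Function.Injective ι := by
  rw [injective_iff_map_eq_zero]
  intro x hx
  have hinf : ∀ v : InfinitePlace K, x.1 v = 0 := by
    intro v
    obtain ⟨w', hw'⟩ := InfinitePlace.comap_surjective (K := K') v
    have h0 : T5.infHom w' (ι x) = 0 := by rw [hx, map_zero]
    have h1 : T5.infHom (w'.comap (algebraMap K K')) x = 0 := by
      rcases hι.inf w' with h | h
      · rw [← h x]; exact h0
      · have := h x
        rw [h0] at this
        have h2 := congrArg conj this
        simpa using h2.symm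
    have hw'' : w'.comap (algebraMap K K') = v := hw'
    rw [hw''] at h1
    have h3 : InfinitePlace.Completion.extensionEmbedding v (x.1 v) = 0 := h1
    exact (map_eq_zero _).1 h3
  have hfin : ∀ v : HeightOneSpectrum (𝓞 K), x.2 v = 0 := by
    intro v
    obtain ⟨w, hw⟩ := exists_placeOver127 (K' := K') v
    obtain ⟨e, i, -, -, -, hi⟩ := hι.fin v w hw
    have h0 : T5.finHom w (ι x) = 0 := by rw [hx, map_zero]
    have h1 : i (T5.finHom v x) = 0 := by rw [← hi x]; exact h0
    have h2 : T5.finHom v x = 0 := (map_eq_zero i).1 h1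
    exact h2
  refine Prod.ext ?_ ?_
  · funext v
    exact hinf v
  · exact RestrictedProduct.ext _ _ fun v => hfin v

/-- **LEAF T7.L2.1.C2.4-I.9 = CLOSED**, VERBATIM. -/
theorem closedC127 (K K' : Type) [Field K] [NumberField K] [Field K'] [NumberField K']
    [Algebra K K'] : ClosedC816 K K' := by
  intro D hD ι hι hfix honto hK hK'
  haveI : LocallyCompactSpace (Adl K) := hK.1.1
  haveI : T2Space (Adl K) := hK.1.2.1
  haveI : SecondCountableTopology (Adl K) := hK.1.2.2
  haveI : LocallyCompactSpace (Adl K') := hK'.1.1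
  haveI : T2Space (Adl K') := hK'.1.2.1
  have hinj : Function.Injective ι := injective_of_preBase127 hι
  -- the range is the closed set of the fixed points
  have hrange : Set.range ι = {y : Adl K' | D.s.σA y = y} := by
    ext y
    constructor
    · rintro ⟨x, rfl⟩
      exact hfix x
    · intro hy
      exact honto y hy
  have hclosed : IsClosed (Set.range ι) := by
    rw [hrange]
    exact isClosed_eq D.s.continuous_σA continuous_id
  -- the open mapping theorem
  let f : Adl K →+ (ι.toAddMonoidHom.range) := ι.toAddMonoidHom.rangeRestrict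
  have hcoe : ((ι.toAddMonoidHom.range : AddSubgroup (Adl K')) : Set (Adl K')) = Set.range ι := by
    ext y
    simp
  have hclosed' : IsClosed ((ι.toAddMonoidHom.range : AddSubgroup (Adl K')) : Set (Adl K')) := by
    rw [hcoe]; exact hclosed
  haveI : LocallyCompactSpace (ι.toAddMonoidHom.range) := hclosed'.locallyCompactSpace
  have hfc : Continuous f := hι.cont.subtype_mk _
  have hfs : Function.Surjective f := ι.toAddMonoidHom.rangeRestrict_surjective
  have hfo : IsOpenMap f := AddMonoidHom.isOpenMap_of_sigmaCompact f hfs hfc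
  have hfi : Function.Injective f := by
    intro a b hab
    apply hinj
    have := congrArg Subtype.val hab
    exact this
  have hfe : Topology.IsEmbedding f :=
    (Topology.IsOpenEmbedding.of_continuous_injective_isOpenMap hfc hfi hfo).isEmbedding
  have hιe : Topology.IsEmbedding ι := by
    have : (ι : Adl K → Adl K') = Subtype.val ∘ f := rfl
    rw [this]
    exact Topology.IsEmbedding.subtypeVal.comp hfe
  exact ⟨hιe, hclosed⟩

end Fermat.Agent.LT.T7.H127

end

end
-- ===== PACK-END LT/T7/H127/IotaClosed.lean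

-- ===== PACK-BEGIN LT/T7/H589/TorSplit.lean
section








/-!
# Row LT, tower T7, leaf C2.7.5 `TorSplitC305` (helper589, registry row 2569)

OFF-MAIN.  `torSplitC589 (K) : Fermat.Agent.LT.T7.H305.TorSplitC305 K`, VERBATIM, UNCONDITIONAL.
Spec: `T7/H305/MatchCut.lean` (helper305, sha256 0f302b81), byte-identical copy with its closure.

## Proof

`T_𝔸 = T_𝔸(γ)` (closed subgroup of `GL₂(𝔸_K)`), `E_S = {t : t_v ∈ GL₂(𝒪_v), v ∉ S}` (open
subgroup: `T3.M.H709.isOpen_outUM709` for the unit ideal), `p_S : T_𝔸 → ∏_{v ∈ S} T_v × ∏_w T_w`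
the components (continuous homomorphism).
* `pS_surj589`: `p_S` maps `E_S` ONTO the product (sections: `T3.H57.finEmb57`, `infEmb57`;
  `K` totally complex).
* `pS_proper589`: `p_S` is proper on `E_S` (compact boxes `T3.H245.boxG245`, a common
  denominator of a compact subset of `K_v`: `exists_denom_compact589`).
* `exists_cS589`: the image of `μT|_{E_S}` is `c_S` times the product of the local Haar measures
  (`T7.H159.isHaarMeasure_map_restrict159` of helper159 + uniqueness of the Haar measure).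
* `cS_unique589`: `c_S` does not depend on the good set `S`: for `S` good the preimage of the
  box `∏_{v ∈ S} T_v^c × B` in `E_S` is `{t : t_v ∈ T_v^c for ALL v, t_∞ ∈ B}`
  (`T7.H159.cent_compact159`: at a good place `T_v ∩ GL₂(𝒪_v) = T_v^c`), and the local measures
  are normalised by `μt_v(T_v^c) = 1`.
* `map_compS589`: the ambient form (`Measure.pi_map_pi`, `Measure.map_prod_map`).
If `γ` has no good set at all the statement is empty.  (`T6.IsEll γ` is not used.)
-/

set_option autoImplicit false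

open IsDedekindDomain NumberField MeasureTheory
open Fermat.Agent.LT.H556.A0
open Fermat.Agent.LT Fermat.Agent.LT.T7 Fermat.Agent.LT.T7.H305

noncomputable section

namespace Fermat.Agent.LT.H589

variable {K : Type} [Field K] [NumberField K]

/-! ## 0. Components -/

theorem finGL305_eq589 (v : HeightOneSpectrum (𝓞 K)) : finGL305 v = T3.AS.finGL K v := rfl

theorem infGL305_eq589 (w : InfinitePlace K) : infGL305 w = T3.AS.infGL K w := rfl

theorem onG_id589 (x : G K) : (T5.AdelicAut.id K).onG x = x := by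
  apply Units.ext
  ext i j
  rfl

theorem mem_tA589 (γ : GL (Fin 2) K) (t : G K) :
    t ∈ tA305 (T5.AdelicAut.id K) γ ↔ t⁻¹ * T5.ratG γ * t = T5.ratG γ := by
  change t⁻¹ * T5.ratG γ * (T5.AdelicAut.id K).onG t = T5.ratG γ ↔ _
  rw [onG_id589]

theorem finGL_ratG589 (v : HeightOneSpectrum (𝓞 K)) (γ : GL (Fin 2) K) :
    finGL305 v (T5.ratG γ) = locG305 v γ := by
  apply Units.ext
  ext i j
  rfl

theorem mem_Tv589 (v : HeightOneSpectrum (𝓞 K)) (γ : GL (Fin 2) K)
    (x : GL (Fin 2) (v.adicCompletion K)) :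
    x ∈ T6.twCentSub (T6.glAut (RingEquiv.refl (v.adicCompletion K))) (locG305 v γ)
      ↔ x⁻¹ * locG305 v γ * x = locG305 v γ := by
  change x⁻¹ * locG305 v γ * T6.glAut (RingEquiv.refl _) x = locG305 v γ ↔ _
  rw [H159.glAut_refl159]

theorem mem_Tw589 (w : InfinitePlace K) (γ : GL (Fin 2) K) (x : GL (Fin 2) ℂ) :
    x ∈ cent305 (archG305 w γ) ↔ x⁻¹ * archG305 w γ * x = archG305 w γ := Iff.rfl

theorem finGL_mem589 (v : HeightOneSpectrum (𝓞 K)) (γ : GL (Fin 2) K) {t : G K}
    (ht : t ∈ tA305 (T5.AdelicAut.id K) γ) :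
    finGL305 v t ∈ T6.twCentSub (T6.glAut (RingEquiv.refl (v.adicCompletion K)))
      (locG305 v γ) := by
  rw [mem_Tv589, ← finGL_ratG589, ← map_inv, ← map_mul, ← map_mul, (mem_tA589 γ t).1 ht]

theorem infGL_mem589 (w : InfinitePlace K) (γ : GL (Fin 2) K) {t : G K}
    (ht : t ∈ tA305 (T5.AdelicAut.id K) γ) :
    infGL305 w t ∈ cent305 (archG305 w γ) := by
  rw [mem_Tw589]
  unfold archG305
  rw [← map_inv, ← map_mul, ← map_mul, (mem_tA589 γ t).1 ht]

/-! ## 1. The groups -/

/-- The adelic torus. -/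
abbrev TA589 (γ : GL (Fin 2) K) : Subgroup (G K) := tA305 (T5.AdelicAut.id K) γ

/-- The local torus at a finite place. -/
abbrev Tv589 (γ : GL (Fin 2) K) (v : HeightOneSpectrum (𝓞 K)) :
    Subgroup (GL (Fin 2) (v.adicCompletion K)) :=
  T6.twCentSub (T6.glAut (RingEquiv.refl (v.adicCompletion K))) (locG305 v γ)

/-- The local torus at an infinite place. -/
abbrev Tw589 (γ : GL (Fin 2) K) (w : InfinitePlace K) : Subgroup (GL (Fin 2) ℂ) :=
  cent305 (archG305 w γ)

/-- The component at `v`. -/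
def locHom589 (γ : GL (Fin 2) K) (v : HeightOneSpectrum (𝓞 K)) : TA589 γ →* Tv589 γ v :=
  ((finGL305 v).comp (TA589 γ).subtype).codRestrict _ fun t => finGL_mem589 v γ t.2

/-- The component at `w`. -/
def archHom589 (γ : GL (Fin 2) K) (w : InfinitePlace K) : TA589 γ →* Tw589 γ w :=
  ((infGL305 w).comp (TA589 γ).subtype).codRestrict _ fun t => infGL_mem589 w γ t.2

@[simp] theorem locHom_coe589 (γ : GL (Fin 2) K) (v : HeightOneSpectrum (𝓞 K)) (t : TA589 γ) :
    ((locHom589 γ v t : Tv589 γ v) : GL (Fin 2) (v.adicCompletion K)) = finGL305 v (t : G K) :=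
  rfl

@[simp] theorem archHom_coe589 (γ : GL (Fin 2) K) (w : InfinitePlace K) (t : TA589 γ) :
    ((archHom589 γ w t : Tw589 γ w) : GL (Fin 2) ℂ) = infGL305 w (t : G K) := rfl

/-- The projection to the places of `S` and the infinite places. -/
def pS589 (γ : GL (Fin 2) K) (S : Finset (HeightOneSpectrum (𝓞 K))) :
    TA589 γ →* ((∀ v : S, Tv589 γ v.1) × (∀ w : InfinitePlace K, Tw589 γ w)) :=
  MonoidHom.prod (MonoidHom.pi fun v : S => locHom589 γ v.1)
    (MonoidHom.pi fun w : InfinitePlace K => archHom589 γ w)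

/-- The subgroup `{y : y_v ∈ GL₂(𝒪_v), v ∉ S}` of `GL₂(𝔸_K)`. -/
def outG589 (S : Finset (HeightOneSpectrum (𝓞 K))) : Subgroup (G K) :=
  T3.M.H709.outUM709 (⊤ : Ideal (𝓞 K)) S

omit [NumberField K] in
theorem not_dvd_top589 (v : HeightOneSpectrum (𝓞 K)) : ¬ v.asIdeal ∣ (⊤ : Ideal (𝓞 K)) := by
  intro h
  have h1 : (⊤ : Ideal (𝓞 K)) ≤ v.asIdeal := Ideal.le_of_dvd h
  exact v.isPrime.ne_top (top_le_iff.1 h1)

theorem isIntGL_iff589 (v : HeightOneSpectrum (𝓞 K)) (y : G K) :
    T3.AS.IsIntGL v (T3.AS.finGL K v y) ↔ IsIntegralAt v y ∧ IsIntegralAt v y⁻¹ := by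
  constructor
  · intro h
    refine ⟨fun i j => (h i j).1, fun i j => ?_⟩
    have := (h i j).2
    rw [← map_inv] at this
    exact this
  · rintro ⟨h1, h2⟩ i j
    refine ⟨h1 i j, ?_⟩
    rw [← map_inv]
    exact h2 i j

theorem mem_outG589 (S : Finset (HeightOneSpectrum (𝓞 K))) (y : G K) :
    y ∈ outG589 S ↔ OutT305 S y := by
  unfold outG589
  rw [T3.M.H709.mem_outUM709, T3.M.H709.outsideUM_iff709]
  constructor
  · intro h v hv
    exact (isIntGL_iff589 v y).1 (T3.H245.isIntGL_of_mem_locU245 (h v hv))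
  · intro h v hv
    exact T3.H245.mem_locU_of_isIntGL245 (not_dvd_top589 v) ((isIntGL_iff589 v y).2 (h v hv))

theorem isOpen_outG589 (S : Finset (HeightOneSpectrum (𝓞 K))) :
    IsOpen (outG589 S : Set (G K)) :=
  T3.M.H709.isOpen_outUM709 (by simp) S

/-- The open subgroup `E_S` of the adelic torus. -/
def ES589 (γ : GL (Fin 2) K) (S : Finset (HeightOneSpectrum (𝓞 K))) : Subgroup (TA589 γ) :=
  (outG589 S).comap (TA589 γ).subtype

theorem mem_ES589 (γ : GL (Fin 2) K) (S : Finset (HeightOneSpectrum (𝓞 K))) (t : TA589 γ) :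
    t ∈ ES589 γ S ↔ OutT305 S (t : G K) :=
  mem_outG589 S _

theorem coe_ES589 (γ : GL (Fin 2) K) (S : Finset (HeightOneSpectrum (𝓞 K))) :
    (ES589 γ S : Set (TA589 γ)) = {t : TA589 γ | OutT305 S (t : G K)} := by
  ext t
  exact mem_ES589 γ S t

theorem isOpen_ES589 (γ : GL (Fin 2) K) (S : Finset (HeightOneSpectrum (𝓞 K))) :
    IsOpen (ES589 γ S : Set (TA589 γ)) :=
  (isOpen_outG589 S).preimage continuous_subtype_val

theorem continuous_finGL589 (v : HeightOneSpectrum (𝓞 K)) : Continuous (finGL305 (K := K) v) :=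
  T3.H245.continuous_finGL245 v

theorem continuous_infGL589 (w : InfinitePlace K) : Continuous (infGL305 (K := K) w) :=
  T3.H245.continuous_infGL245 w

theorem continuous_locHom589 (γ : GL (Fin 2) K) (v : HeightOneSpectrum (𝓞 K)) :
    Continuous (locHom589 γ v) :=
  ((continuous_finGL589 v).comp continuous_subtype_val).subtype_mk _

theorem continuous_archHom589 (γ : GL (Fin 2) K) (w : InfinitePlace K) :
    Continuous (archHom589 γ w) :=
  ((continuous_infGL589 w).comp continuous_subtype_val).subtype_mk _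

theorem continuous_pS589 (γ : GL (Fin 2) K) (S : Finset (HeightOneSpectrum (𝓞 K))) :
    Continuous (pS589 γ S) :=
  (continuous_pi fun v => continuous_locHom589 γ v.1).prodMk
    (continuous_pi fun w => continuous_archHom589 γ w)

/-! ## 2. Sections: the projection is onto -/

theorem G_ext589 {g g' : G K} (hfin : ∀ v, finGL305 v g = finGL305 v g')
    (hinf : ∀ w, infGL305 w g = infGL305 w g') : g = g' := by
  apply Units.ext
  ext i j : 2
  refine T1.H724.adl_ext724 (fun w => ?_) (fun v => ?_)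
  · have h := congrArg (fun x : GL (Fin 2) ℂ => (x : Matrix (Fin 2) (Fin 2) ℂ) i j) (hinf w)
    exact (InfinitePlace.Completion.extensionEmbedding w).injective h
  · exact congrArg
      (fun x : GL (Fin 2) (v.adicCompletion K) =>
        (x : Matrix (Fin 2) (Fin 2) (v.adicCompletion K)) i j) (hfin v)

/-- An element with prescribed components at the places of `S`, trivial elsewhere. -/
theorem exists_fin589 (S : Finset (HeightOneSpectrum (𝓞 K)))
    (f : ∀ v : HeightOneSpectrum (𝓞 K), GL (Fin 2) (v.adicCompletion K)) :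
    ∃ g : G K, (∀ v ∈ S, finGL305 v g = f v) ∧ (∀ v, v ∉ S → finGL305 v g = 1) ∧
      ∀ w, infGL305 w g = 1 := by
  classical
  induction S using Finset.induction_on with
  | empty => exact ⟨1, fun v hv => absurd hv (Finset.notMem_empty v), fun v _ => map_one _,
      fun w => map_one _⟩
  | insert v₀ S hv₀ ih =>
    obtain ⟨g, h1, h2, h3⟩ := ih
    refine ⟨T3.H57.finEmb57 v₀ (f v₀) * g, ?_, ?_, ?_⟩
    · intro v hv
      rw [map_mul]
      rcases Finset.mem_insert.1 hv with rfl | hv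
      · rw [finGL305_eq589, T3.H57.finGL_finEmb57, ← finGL305_eq589, h2 v hv₀, mul_one]
      · have hne : v ≠ v₀ := fun h => hv₀ (h ▸ hv)
        rw [finGL305_eq589, T3.H57.finGL_finEmb_ne57 v₀ _ v hne, ← finGL305_eq589, h1 v hv,
          one_mul]
    · intro v hv
      have hne : v ≠ v₀ := fun h => hv (h ▸ Finset.mem_insert_self _ _)
      have hvS : v ∉ S := fun h => hv (Finset.mem_insert_of_mem h)
      rw [map_mul, finGL305_eq589, T3.H57.finGL_finEmb_ne57 v₀ _ v hne, ← finGL305_eq589,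
        h2 v hvS, one_mul]
    · intro w
      rw [map_mul, infGL305_eq589, T3.H57.infGL_finEmb57, ← infGL305_eq589, h3 w, one_mul]

theorem outT_of_triv589 (S : Finset (HeightOneSpectrum (𝓞 K))) (g : G K)
    (h : ∀ v, v ∉ S → finGL305 v g = 1) : OutT305 S g := by
  intro v hv
  rw [← isIntGL_iff589, ← finGL305_eq589, h v hv]
  exact T3.H245.isIntGL_one245 v

/-- The projection maps `E_S` onto the product of the local tori. -/
theorem pS_surj589 (hK : ∀ w : InfinitePlace K, w.IsComplex) (γ : GL (Fin 2) K)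
    (S : Finset (HeightOneSpectrum (𝓞 K)))
    (h : (∀ v : S, Tv589 γ v.1) × (∀ w : InfinitePlace K, Tw589 γ w)) :
    ∃ e ∈ ES589 γ S, pS589 γ S e = h := by
  classical
  obtain ⟨g₁, h1, h2, h3⟩ := exists_fin589 S
    (fun v => if hv : v ∈ S then ((h.1 ⟨v, hv⟩ : Tv589 γ v) : GL (Fin 2) (v.adicCompletion K))
      else 1)
  set g₂ : G K := T3.H57.infEmb57 hK (fun w => ((h.2 w : Tw589 γ w) : GL (Fin 2) ℂ)) with hg₂
  have hfin : ∀ v, finGL305 v (g₁ * g₂)
      = if hv : v ∈ S then ((h.1 ⟨v, hv⟩ : Tv589 γ v) : GL (Fin 2) (v.adicCompletion K))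
        else 1 := by
    intro v
    rw [map_mul, hg₂, finGL305_eq589, T3.H57.finGL_infEmb57, mul_one, ← finGL305_eq589]
    by_cases hv : v ∈ S
    · rw [h1 v hv]
    · rw [h2 v hv, dif_neg hv]
  have hinf : ∀ w, infGL305 w (g₁ * g₂) = ((h.2 w : Tw589 γ w) : GL (Fin 2) ℂ) := by
    intro w
    rw [map_mul, h3 w, one_mul, hg₂, infGL305_eq589, T3.H57.infGL_infEmb57]
  have hmem : g₁ * g₂ ∈ TA589 γ := by
    rw [mem_tA589]
    refine G_ext589 (fun v => ?_) (fun w => ?_)
    · rw [map_mul, map_mul, map_inv, hfin v, finGL_ratG589]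
      by_cases hv : v ∈ S
      · rw [dif_pos hv]
        exact (mem_Tv589 v γ _).1 (h.1 ⟨v, hv⟩).2
      · rw [dif_neg hv]
        simp
    · rw [map_mul, map_mul, map_inv, hinf w]
      exact (mem_Tw589 w γ _).1 (h.2 w).2
  refine ⟨⟨g₁ * g₂, hmem⟩, ?_, ?_⟩
  · rw [mem_ES589]
    refine outT_of_triv589 S _ fun v hv => ?_
    rw [hfin v, dif_neg hv]
  · refine Prod.ext (funext fun v => Subtype.ext ?_) (funext fun w => Subtype.ext ?_)
    · change finGL305 v.1 (g₁ * g₂) = _
      rw [hfin v.1, dif_pos v.2]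
    · change infGL305 w (g₁ * g₂) = _
      exact hinf w

/-! ## 3. The projection is proper on `E_S` -/

/-- A compact subset of `K_v` has a nonzero global denominator. -/
theorem exists_denom_compact589 (v : HeightOneSpectrum (𝓞 K)) (C : Set (v.adicCompletion K))
    (hC : IsCompact C) :
    ∃ a : 𝓞 K, a ≠ 0 ∧ ∀ x ∈ C, T3.H245.toCompl245 K v a * x ∈ v.adicCompletionIntegers K := by
  classical
  have hO : IsOpen (v.adicCompletionIntegers K : Set (v.adicCompletion K)) :=
    Valued.isOpen_valuationSubring _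
  have hU : ∀ x ∈ C, {y : v.adicCompletion K | y - x ∈ v.adicCompletionIntegers K} ∈ nhds x := by
    intro x _
    have hopen : IsOpen {y : v.adicCompletion K | y - x ∈ v.adicCompletionIntegers K} :=
      hO.preimage (continuous_id.sub continuous_const)
    refine hopen.mem_nhds ?_
    change x - x ∈ v.adicCompletionIntegers K
    rw [sub_self]
    exact zero_mem _
  obtain ⟨t, -, ht⟩ := hC.elim_nhds_subcover
    (fun x => {y : v.adicCompletion K | y - x ∈ v.adicCompletionIntegers K}) hU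
  obtain ⟨a, ha0, ha⟩ := T3.H245.exists_common_denom245 v t
  refine ⟨a, ha0, fun y hy => ?_⟩
  obtain ⟨x, hx, hyx⟩ : ∃ x ∈ t, y - x ∈ v.adicCompletionIntegers K := by
    have := ht hy
    simp only [Set.mem_iUnion] at this
    obtain ⟨x, hx, h⟩ := this
    exact ⟨x, hx, h⟩
  have e : T3.H245.toCompl245 K v a * y
      = T3.H245.toCompl245 K v a * x + T3.H245.toCompl245 K v a * (y - x) := by ring
  rw [e]
  exact add_mem (ha x hx) (mul_mem (T3.H245.toCompl245_mem_integers K v a) hyx)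

/-- A common denominator for compact sets at the places of `S`. -/
theorem exists_denom_S589 (S : Finset (HeightOneSpectrum (𝓞 K)))
    (D : ∀ v : HeightOneSpectrum (𝓞 K), Set (v.adicCompletion K))
    (hD : ∀ v ∈ S, IsCompact (D v)) :
    ∃ a : 𝓞 K, a ≠ 0 ∧ ∀ v ∈ S, ∀ x ∈ D v,
      T3.H245.toCompl245 K v a * x ∈ v.adicCompletionIntegers K := by
  classical
  induction S using Finset.induction_on with
  | empty => exact ⟨1, one_ne_zero, fun v hv => absurd hv (Finset.notMem_empty v)⟩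
  | insert v₀ S _ ih =>
    obtain ⟨a, ha0, ha⟩ := ih fun v hv => hD v (Finset.mem_insert_of_mem hv)
    obtain ⟨b, hb0, hb⟩ := exists_denom_compact589 v₀ (D v₀) (hD v₀ (Finset.mem_insert_self _ _))
    refine ⟨a * b, mul_ne_zero ha0 hb0, ?_⟩
    intro v hv x hx
    rw [T3.H245.toCompl245_mul]
    rcases Finset.mem_insert.1 hv with hv | hv
    · subst hv
      rw [mul_assoc]
      exact mul_mem (T3.H245.toCompl245_mem_integers K v a) (hb x hx)
    · rw [mul_comm (T3.H245.toCompl245 K v a), mul_assoc]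
      exact mul_mem (T3.H245.toCompl245_mem_integers K v b) (ha v hv x hx)

theorem isClosed_TA589 (γ : GL (Fin 2) K) : IsClosed (TA589 γ : Set (G K)) := by
  have := H11.LC.t2Space_GL2_adeleRing_h11 K
  have e : (TA589 γ : Set (G K)) = {t : G K | t⁻¹ * T5.ratG γ * t = T5.ratG γ} := by
    ext t
    exact mem_tA589 γ t
  rw [e]
  exact isClosed_eq ((continuous_inv.mul continuous_const).mul continuous_id) continuous_const

/-- The product of the local tori. -/
abbrev HS589 (γ : GL (Fin 2) K) (S : Finset (HeightOneSpectrum (𝓞 K))) : Type :=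
  (∀ v : S, Tv589 γ v.1) × (∀ w : InfinitePlace K, Tw589 γ w)

/-- The component at `v ∈ S`, in `GL₂(K_v)`. -/
def compV589 (γ : GL (Fin 2) K) (S : Finset (HeightOneSpectrum (𝓞 K)))
    (v : HeightOneSpectrum (𝓞 K)) (hv : v ∈ S) (h : HS589 γ S) :
    GL (Fin 2) (v.adicCompletion K) :=
  ((h.1 ⟨v, hv⟩ : Tv589 γ v) : GL (Fin 2) (v.adicCompletion K))

/-- The component at `w`, in `GL₂(ℂ)`. -/
def compW589 (γ : GL (Fin 2) K) (S : Finset (HeightOneSpectrum (𝓞 K)))
    (w : InfinitePlace K) (h : HS589 γ S) : GL (Fin 2) ℂ :=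
  ((h.2 w : Tw589 γ w) : GL (Fin 2) ℂ)

theorem continuous_compV589 (γ : GL (Fin 2) K) (S : Finset (HeightOneSpectrum (𝓞 K)))
    (v : HeightOneSpectrum (𝓞 K)) (hv : v ∈ S) : Continuous (compV589 γ S v hv) :=
  continuous_subtype_val.comp ((continuous_apply (⟨v, hv⟩ : S)).comp continuous_fst)

theorem continuous_compW589 (γ : GL (Fin 2) K) (S : Finset (HeightOneSpectrum (𝓞 K)))
    (w : InfinitePlace K) : Continuous (compW589 γ S w) :=
  continuous_subtype_val.comp ((continuous_apply w).comp continuous_snd)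

theorem compV_pS589 (γ : GL (Fin 2) K) (S : Finset (HeightOneSpectrum (𝓞 K)))
    (v : HeightOneSpectrum (𝓞 K)) (hv : v ∈ S) (t : TA589 γ) :
    compV589 γ S v hv (pS589 γ S t) = finGL305 v (t : G K) := rfl

theorem compW_pS589 (γ : GL (Fin 2) K) (S : Finset (HeightOneSpectrum (𝓞 K)))
    (w : InfinitePlace K) (t : TA589 γ) :
    compW589 γ S w (pS589 γ S t) = infGL305 w (t : G K) := rfl

open Classical in
/-- The entries of the components at `v` of the elements of a set. -/
def entrySet589 (γ : GL (Fin 2) K) (S : Finset (HeightOneSpectrum (𝓞 K)))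
    (C : Set (HS589 γ S)) (v : HeightOneSpectrum (𝓞 K)) : Set (v.adicCompletion K) :=
  if hv : v ∈ S then
    ⋃ p : Fin 2 × Fin 2,
      ((fun h : HS589 γ S =>
        (compV589 γ S v hv h : Matrix (Fin 2) (Fin 2) (v.adicCompletion K)) p.1 p.2) '' C)
      ∪ ((fun h : HS589 γ S =>
        (((compV589 γ S v hv h)⁻¹ : GL (Fin 2) (v.adicCompletion K)) :
          Matrix (Fin 2) (Fin 2) (v.adicCompletion K)) p.1 p.2) '' C)
  else ∅

theorem isCompact_entrySet589 (γ : GL (Fin 2) K) (S : Finset (HeightOneSpectrum (𝓞 K)))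
    (C : Set (HS589 γ S)) (hC : IsCompact C) (v : HeightOneSpectrum (𝓞 K)) :
    IsCompact (entrySet589 γ S C v) := by
  unfold entrySet589
  split_ifs with hv
  · refine isCompact_iUnion fun p => (hC.image ?_).union (hC.image ?_)
    · exact (Units.continuous_val.comp (continuous_compV589 γ S v hv)).matrix_elem p.1 p.2
    · exact (Units.continuous_val.comp
        (continuous_inv.comp (continuous_compV589 γ S v hv))).matrix_elem p.1 p.2
  · exact isCompact_empty

theorem mem_entrySet589 (γ : GL (Fin 2) K) (S : Finset (HeightOneSpectrum (𝓞 K)))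
    (C : Set (HS589 γ S)) (v : HeightOneSpectrum (𝓞 K)) (hv : v ∈ S) {h : HS589 γ S}
    (hh : h ∈ C) (i j : Fin 2) :
    (compV589 γ S v hv h : Matrix (Fin 2) (Fin 2) (v.adicCompletion K)) i j
        ∈ entrySet589 γ S C v ∧
      (((compV589 γ S v hv h)⁻¹ : GL (Fin 2) (v.adicCompletion K)) :
        Matrix (Fin 2) (Fin 2) (v.adicCompletion K)) i j ∈ entrySet589 γ S C v := by
  unfold entrySet589
  rw [dif_pos hv]
  constructor
  · exact Set.mem_iUnion.2 ⟨(i, j), Or.inl ⟨h, hh, rfl⟩⟩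
  · exact Set.mem_iUnion.2 ⟨(i, j), Or.inr ⟨h, hh, rfl⟩⟩

/-- The archimedean size of an element of the product of the local tori. -/
def archSize589 (γ : GL (Fin 2) K) (S : Finset (HeightOneSpectrum (𝓞 K))) (h : HS589 γ S) : ℝ :=
  ∑ w : InfinitePlace K, ∑ i : Fin 2, ∑ j : Fin 2,
    (‖(compW589 γ S w h : Matrix (Fin 2) (Fin 2) ℂ) i j‖
      + ‖(((compW589 γ S w h)⁻¹ : GL (Fin 2) ℂ) : Matrix (Fin 2) (Fin 2) ℂ) i j‖)

theorem continuous_archSize589 (γ : GL (Fin 2) K) (S : Finset (HeightOneSpectrum (𝓞 K))) :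
    Continuous (archSize589 γ S) := by
  unfold archSize589
  refine continuous_finset_sum _ fun w _ => continuous_finset_sum _ fun i _ =>
    continuous_finset_sum _ fun j _ => ?_
  refine Continuous.add ?_ ?_
  · exact ((Units.continuous_val.comp (continuous_compW589 γ S w)).matrix_elem i j).norm
  · exact ((Units.continuous_val.comp
      (continuous_inv.comp (continuous_compW589 γ S w))).matrix_elem i j).norm

theorem le_archSize589 (γ : GL (Fin 2) K) (S : Finset (HeightOneSpectrum (𝓞 K)))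
    (h : HS589 γ S) (w : InfinitePlace K) (i j : Fin 2) :
    ‖(compW589 γ S w h : Matrix (Fin 2) (Fin 2) ℂ) i j‖ ≤ archSize589 γ S h ∧
      ‖(((compW589 γ S w h)⁻¹ : GL (Fin 2) ℂ) : Matrix (Fin 2) (Fin 2) ℂ) i j‖
        ≤ archSize589 γ S h := by
  have h3 : (‖(compW589 γ S w h : Matrix (Fin 2) (Fin 2) ℂ) i j‖
      + ‖(((compW589 γ S w h)⁻¹ : GL (Fin 2) ℂ) : Matrix (Fin 2) (Fin 2) ℂ) i j‖)
      ≤ archSize589 γ S h := by
    unfold archSize589
    have e1 := Finset.single_le_sum (f := fun j : Fin 2 =>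
      (‖(compW589 γ S w h : Matrix (Fin 2) (Fin 2) ℂ) i j‖
        + ‖(((compW589 γ S w h)⁻¹ : GL (Fin 2) ℂ) : Matrix (Fin 2) (Fin 2) ℂ) i j‖))
      (fun j _ => by positivity) (Finset.mem_univ j)
    have e2 := Finset.single_le_sum (f := fun i : Fin 2 => ∑ j : Fin 2,
      (‖(compW589 γ S w h : Matrix (Fin 2) (Fin 2) ℂ) i j‖
        + ‖(((compW589 γ S w h)⁻¹ : GL (Fin 2) ℂ) : Matrix (Fin 2) (Fin 2) ℂ) i j‖))
      (fun i _ => by positivity) (Finset.mem_univ i)
    have e3 := Finset.single_le_sum (f := fun w : InfinitePlace K => ∑ i : Fin 2, ∑ j : Fin 2,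
      (‖(compW589 γ S w h : Matrix (Fin 2) (Fin 2) ℂ) i j‖
        + ‖(((compW589 γ S w h)⁻¹ : GL (Fin 2) ℂ) : Matrix (Fin 2) (Fin 2) ℂ) i j‖))
      (fun w _ => by positivity) (Finset.mem_univ w)
    exact e1.trans (e2.trans e3)
  constructor
  · exact le_trans (le_add_of_nonneg_right (norm_nonneg _)) h3
  · exact le_trans (le_add_of_nonneg_left (norm_nonneg _)) h3

/-- **The projection is proper on `E_S`.** -/
theorem pS_proper589 (γ : GL (Fin 2) K) (S : Finset (HeightOneSpectrum (𝓞 K)))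
    (C : Set (HS589 γ S)) (hC : IsCompact C) :
    ∃ C' : Set (TA589 γ), IsCompact C' ∧ pS589 γ S ⁻¹' C ∩ (ES589 γ S : Set (TA589 γ)) ⊆ C' := by
  obtain ⟨a, ha0, ha⟩ := exists_denom_S589 S (entrySet589 γ S C)
    (fun v _ => isCompact_entrySet589 γ S C hC v)
  obtain ⟨ρ, hρ⟩ := hC.exists_bound_of_continuousOn (continuous_archSize589 γ S).continuousOn
  have hemb : Topology.IsClosedEmbedding (Subtype.val : TA589 γ → G K) :=
    (isClosed_TA589 γ).isClosedEmbedding_subtypeVal
  refine ⟨Subtype.val ⁻¹' (T3.H245.boxG245 K ρ a),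
    hemb.isCompact_preimage (T3.H245.isCompact_boxG245 ρ a), ?_⟩
  rintro t ⟨htC, htE⟩
  have htC' : pS589 γ S t ∈ C := htC
  have hO : OutT305 S (t : G K) := (mem_ES589 γ S t).1 htE
  have key : ∀ g : G K,
      (∀ (w : InfinitePlace K) (i j : Fin 2),
        ‖((infGL305 w g : GL (Fin 2) ℂ) : Matrix (Fin 2) (Fin 2) ℂ) i j‖ ≤ ρ) →
      (∀ (v : HeightOneSpectrum (𝓞 K)) (i j : Fin 2),
        T3.H245.toCompl245 K v a * ((finGL305 v g : GL (Fin 2) (v.adicCompletion K)) :
          Matrix (Fin 2) (Fin 2) (v.adicCompletion K)) i j ∈ v.adicCompletionIntegers K) →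
      (g : Matrix (Fin 2) (Fin 2) (Adl K)) ∈ T3.H245.boxMat245 K ρ a := by
    intro g h1 h2 i j
    exact ⟨fun w => h1 w i j, T3.H245.mem_boxFin245 ha0 fun v => h2 v i j⟩
  have hsize : archSize589 γ S (pS589 γ S t) ≤ ρ := by
    have h0 := hρ _ htC'
    rw [Real.norm_eq_abs] at h0
    exact (le_abs_self _).trans h0
  refine ⟨key (t : G K) ?_ ?_, key ((t : G K)⁻¹) ?_ ?_⟩
  · intro w i j
    have := (le_archSize589 γ S (pS589 γ S t) w i j).1
    rw [compW_pS589] at this
    exact this.trans hsize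
  · intro v i j
    by_cases hv : v ∈ S
    · have := (mem_entrySet589 γ S C v hv htC' i j).1
      rw [compV_pS589] at this
      exact ha v hv _ this
    · exact mul_mem (T3.H245.toCompl245_mem_integers K v a) ((hO v hv).1 i j)
  · intro w i j
    have := (le_archSize589 γ S (pS589 γ S t) w i j).2
    rw [compW_pS589, ← map_inv] at this
    exact this.trans hsize
  · intro v i j
    by_cases hv : v ∈ S
    · have := (mem_entrySet589 γ S C v hv htC' i j).2
      rw [compV_pS589, ← map_inv] at this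
      exact ha v hv _ this
    · exact mul_mem (T3.H245.toCompl245_mem_integers K v a) ((hO v hv).2 i j)

/-! ## 4. Topological and measurable structures -/

theorem t2_GLv589 (v : HeightOneSpectrum (𝓞 K)) : T2Space (GL (Fin 2) (v.adicCompletion K)) := by
  have := H11.LC.t2Space_matrix_h11 (Fin 2) (v.adicCompletion K)
  infer_instance

theorem sc_GLv589 (v : HeightOneSpectrum (𝓞 K)) :
    SecondCountableTopology (GL (Fin 2) (v.adicCompletion K)) := by
  have := H11.SC.secondCountableTopology_adicCompletion_h11 K v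
  have := H11.SC.secondCountableTopology_matrix_h11 (Fin 2) (v.adicCompletion K)
  exact H11.SC.secondCountableTopology_units_h11 _

theorem isClosed_Tv589 (γ : GL (Fin 2) K) (v : HeightOneSpectrum (𝓞 K)) :
    IsClosed (Tv589 γ v : Set (GL (Fin 2) (v.adicCompletion K))) := by
  have := t2_GLv589 (K := K) v
  have e : (Tv589 γ v : Set (GL (Fin 2) (v.adicCompletion K)))
      = {x | x⁻¹ * locG305 v γ * x = locG305 v γ} := by
    ext x
    exact mem_Tv589 v γ x
  rw [e]
  exact isClosed_eq ((continuous_inv.mul continuous_const).mul continuous_id) continuous_const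

theorem isClosed_Tw589 (γ : GL (Fin 2) K) (w : InfinitePlace K) :
    IsClosed (Tw589 γ w : Set (GL (Fin 2) ℂ)) := by
  have e : (Tw589 γ w : Set (GL (Fin 2) ℂ))
      = {x | x⁻¹ * archG305 w γ * x = archG305 w γ} := by
    ext x
    exact mem_Tw589 w γ x
  rw [e]
  exact isClosed_eq ((continuous_inv.mul continuous_const).mul continuous_id) continuous_const

theorem lc_Tv589 (γ : GL (Fin 2) K) (v : HeightOneSpectrum (𝓞 K)) :
    LocallyCompactSpace (Tv589 γ v) := by
  have := H11.LC.locallyCompactSpace_GL2_adicCompletion_h11 K v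
  exact (isClosed_Tv589 γ v).isClosedEmbedding_subtypeVal.locallyCompactSpace

theorem lc_Tw589 (γ : GL (Fin 2) K) (w : InfinitePlace K) :
    LocallyCompactSpace (Tw589 γ w) := by
  have := T3.H57.locallyCompact_GL2C57
  exact (isClosed_Tw589 γ w).isClosedEmbedding_subtypeVal.locallyCompactSpace

theorem sc_Tv589 (γ : GL (Fin 2) K) (v : HeightOneSpectrum (𝓞 K)) :
    SecondCountableTopology (Tv589 γ v) := by
  have := sc_GLv589 (K := K) v
  exact (Topology.IsEmbedding.subtypeVal (p := fun x => x ∈ Tv589 γ v)).secondCountableTopology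

theorem sc_Tw589 (γ : GL (Fin 2) K) (w : InfinitePlace K) :
    SecondCountableTopology (Tw589 γ w) := by
  have := T3.H57.secondCountable_GL2C57
  exact (Topology.IsEmbedding.subtypeVal (p := fun x => x ∈ Tw589 γ w)).secondCountableTopology

theorem sc_TA589 (γ : GL (Fin 2) K) : SecondCountableTopology (TA589 γ) := by
  have := H11.SC.secondCountableTopology_GL2_adeleRing_h11 K
  exact (Topology.IsEmbedding.subtypeVal (p := fun x => x ∈ TA589 γ)).secondCountableTopology

section Meas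

/-- Borel structures (the instances of the statement). -/
local instance instMSTA589 (γ : GL (Fin 2) K) : MeasurableSpace (TA589 γ) := borel _

local instance instBSTA589 (γ : GL (Fin 2) K) : BorelSpace (TA589 γ) := ⟨rfl⟩

local instance instMSGv589 (v : HeightOneSpectrum (𝓞 K)) :
    MeasurableSpace (GL (Fin 2) (v.adicCompletion K)) := borel _

local instance instBSGv589 (v : HeightOneSpectrum (𝓞 K)) :
    BorelSpace (GL (Fin 2) (v.adicCompletion K)) := ⟨rfl⟩

local instance instMSGC589 : MeasurableSpace (GL (Fin 2) ℂ) := borel _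

local instance instBSGC589 : BorelSpace (GL (Fin 2) ℂ) := ⟨rfl⟩

local instance (priority := high) instMSTv589 (γ : GL (Fin 2) K)
    (v : HeightOneSpectrum (𝓞 K)) : MeasurableSpace (Tv589 γ v) := borel _

local instance (priority := high) instBSTv589 (γ : GL (Fin 2) K)
    (v : HeightOneSpectrum (𝓞 K)) : BorelSpace (Tv589 γ v) := ⟨rfl⟩

local instance (priority := high) instMSTw589 (γ : GL (Fin 2) K) (w : InfinitePlace K) :
    MeasurableSpace (Tw589 γ w) := borel _

local instance (priority := high) instBSTw589 (γ : GL (Fin 2) K) (w : InfinitePlace K) :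
    BorelSpace (Tw589 γ w) := ⟨rfl⟩

local instance instLCTv589 (γ : GL (Fin 2) K) (v : HeightOneSpectrum (𝓞 K)) :
    LocallyCompactSpace (Tv589 γ v) := lc_Tv589 γ v

local instance instLCTw589 (γ : GL (Fin 2) K) (w : InfinitePlace K) :
    LocallyCompactSpace (Tw589 γ w) := lc_Tw589 γ w

local instance instSCTv589 (γ : GL (Fin 2) K) (v : HeightOneSpectrum (𝓞 K)) :
    SecondCountableTopology (Tv589 γ v) := sc_Tv589 γ v

local instance instSCTw589 (γ : GL (Fin 2) K) (w : InfinitePlace K) :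
    SecondCountableTopology (Tw589 γ w) := sc_Tw589 γ w

/-- **The image of `μT|_{E_S}` is a positive multiple of the product of the local measures.** -/
theorem exists_cS589 (hK : ∀ w : InfinitePlace K, w.IsComplex) (γ : GL (Fin 2) K)
    (μT : Measure (TA589 γ)) [μT.IsHaarMeasure] (S : Finset (HeightOneSpectrum (𝓞 K)))
    (μ₁ : ∀ v : S, Measure (Tv589 γ v.1)) [∀ v, (μ₁ v).IsHaarMeasure]
    (μ₂ : ∀ w : InfinitePlace K, Measure (Tw589 γ w)) [∀ w, (μ₂ w).IsHaarMeasure] :
    ∃ c : NNReal, 0 < c ∧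
      Measure.map (pS589 γ S) (μT.restrict (ES589 γ S : Set (TA589 γ)))
        = c • ((Measure.pi μ₁).prod (Measure.pi μ₂)) :=
  exists_smul_prod589 μT (ES589 γ S) (isOpen_ES589 γ S) (pS589 γ S) (continuous_pS589 γ S)
    (pS_surj589 hK γ S) (fun C hC _ => pS_proper589 γ S C hC) μ₁ μ₂

end Meas

/-! ## 5. The boxes: the constant does not depend on `S` -/

theorem inU_iff589 (v : HeightOneSpectrum (𝓞 K)) (y : G K) :
    T6.InU 0 (finGL305 v y) ↔ IsIntegralAt v y ∧ IsIntegralAt v y⁻¹ := by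
  constructor
  · intro h
    refine ⟨fun i j => ?_, fun i j => ?_⟩
    · rw [HeightOneSpectrum.mem_adicCompletionIntegers]
      exact T6.H687.entry_le_one_of_inU_h687 h i j
    · have := T6.H687.entry_inv_le_one_of_inU_h687 h i j
      rw [← map_inv] at this
      rw [HeightOneSpectrum.mem_adicCompletionIntegers]
      exact this
  · rintro ⟨h1, h2⟩
    refine T6.H288.H546.inU_zero_of_integral_h546 _ (fun i j => ?_) (fun i j => ?_)
    · have := h1 i j
      rw [HeightOneSpectrum.mem_adicCompletionIntegers] at this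
      exact this
    · rw [← map_inv]
      have := h2 i j
      rw [HeightOneSpectrum.mem_adicCompletionIntegers] at this
      exact this

/-- The maximal compact subgroup of the local torus (the set of `IsLocTor305`). -/
def Tc589 (γ : GL (Fin 2) K) (v : HeightOneSpectrum (𝓞 K)) : Set (Tv589 γ v) :=
  {t | Valued.v ((t : GL (Fin 2) (v.adicCompletion K)) :
      Matrix (Fin 2) (Fin 2) (v.adicCompletion K)).trace ≤ 1 ∧
    Valued.v ((t : GL (Fin 2) (v.adicCompletion K)) :
      Matrix (Fin 2) (Fin 2) (v.adicCompletion K)).det = 1}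

/-- At a good place, for an element of the adelic torus: compact part = integral. -/
theorem tc_iff_int589 (γ : GL (Fin 2) K) (v : HeightOneSpectrum (𝓞 K))
    (hg : T6.InU 0 (locG305 v γ) ∧ Valued.v (T6.disc (locG305 v γ)) = 1) (t : TA589 γ) :
    locHom589 γ v t ∈ Tc589 γ v ↔ IsIntegralAt v (t : G K) ∧ IsIntegralAt v (t : G K)⁻¹ := by
  rw [← inU_iff589]
  constructor
  · rintro ⟨h1, h2⟩
    have hc : (finGL305 v (t : G K))⁻¹ * locG305 v γ * finGL305 v (t : G K) = locG305 v γ :=
      (mem_Tv589 v γ _).1 (finGL_mem589 v γ t.2)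
    have hcomm : finGL305 v (t : G K) * locG305 v γ = locG305 v γ * finGL305 v (t : G K) := by
      have := congrArg (fun x => finGL305 v (t : G K) * x) hc
      simp only [mul_assoc, mul_inv_cancel_left] at this
      exact this.symm
    exact H159.cent_compact159 (locG305 v γ) (finGL305 v (t : G K)) hg.1 hg.2 hcomm.symm.symm
      h1 h2
  · intro h
    refine ⟨?_, T6.H687.v_det_eq_one_of_inU_h687 h⟩
    change Valued.v ((finGL305 v (t : G K) : GL (Fin 2) (v.adicCompletion K)) :
      Matrix (Fin 2) (Fin 2) (v.adicCompletion K)).trace ≤ 1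
    rw [Matrix.trace_fin_two]
    exact (Valuation.map_add _ _ _).trans
      (max_le (T6.H687.entry_le_one_of_inU_h687 h 0 0) (T6.H687.entry_le_one_of_inU_h687 h 1 1))

section Meas2

attribute [local instance] instMSTA589 instBSTA589 instMSGv589 instBSGv589 instMSGC589
  instBSGC589 instMSTv589 instBSTv589 instMSTw589 instBSTw589 instLCTv589 instLCTw589
  instSCTv589 instSCTw589

theorem measurableSet_Tc589 (γ : GL (Fin 2) K) (v : HeightOneSpectrum (𝓞 K)) :
    MeasurableSet (Tc589 γ v) := by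
  have hval : Continuous (fun t : Tv589 γ v =>
      ((t : GL (Fin 2) (v.adicCompletion K)) : Matrix (Fin 2) (Fin 2) (v.adicCompletion K))) :=
    Units.continuous_val.comp continuous_subtype_val
  have htr : Continuous (fun t : Tv589 γ v =>
      ((t : GL (Fin 2) (v.adicCompletion K)) :
        Matrix (Fin 2) (Fin 2) (v.adicCompletion K)).trace) := by
    have e : (fun t : Tv589 γ v => ((t : GL (Fin 2) (v.adicCompletion K)) :
        Matrix (Fin 2) (Fin 2) (v.adicCompletion K)).trace)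
        = fun t : Tv589 γ v => ((t : GL (Fin 2) (v.adicCompletion K)) :
            Matrix (Fin 2) (Fin 2) (v.adicCompletion K)) 0 0
          + ((t : GL (Fin 2) (v.adicCompletion K)) :
            Matrix (Fin 2) (Fin 2) (v.adicCompletion K)) 1 1 := by
      funext t
      exact Matrix.trace_fin_two _
    rw [e]
    exact (hval.matrix_elem 0 0).add (hval.matrix_elem 1 1)
  have hdet : Continuous (fun t : Tv589 γ v =>
      ((t : GL (Fin 2) (v.adicCompletion K)) :
        Matrix (Fin 2) (Fin 2) (v.adicCompletion K)).det) := by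
    have e : (fun t : Tv589 γ v => ((t : GL (Fin 2) (v.adicCompletion K)) :
        Matrix (Fin 2) (Fin 2) (v.adicCompletion K)).det)
        = fun t : Tv589 γ v => ((t : GL (Fin 2) (v.adicCompletion K)) :
            Matrix (Fin 2) (Fin 2) (v.adicCompletion K)) 0 0
          * ((t : GL (Fin 2) (v.adicCompletion K)) :
            Matrix (Fin 2) (Fin 2) (v.adicCompletion K)) 1 1
          - ((t : GL (Fin 2) (v.adicCompletion K)) :
            Matrix (Fin 2) (Fin 2) (v.adicCompletion K)) 0 1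
          * ((t : GL (Fin 2) (v.adicCompletion K)) :
            Matrix (Fin 2) (Fin 2) (v.adicCompletion K)) 1 0 := by
      funext t
      exact Matrix.det_fin_two _
    rw [e]
    exact ((hval.matrix_elem 0 0).mul (hval.matrix_elem 1 1)).sub
      ((hval.matrix_elem 0 1).mul (hval.matrix_elem 1 0))
  have hO : IsOpen {x : v.adicCompletion K | Valued.v x ≤ 1} := by
    have := Valued.isOpen_valuationSubring (v.adicCompletion K)
    exact this
  have hlt : IsOpen {x : v.adicCompletion K | Valued.v x < 1} :=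
    H11.LC.isOpen_valued_lt_one_h11 K v
  have e : Tc589 γ v
      = (fun t : Tv589 γ v => ((t : GL (Fin 2) (v.adicCompletion K)) :
          Matrix (Fin 2) (Fin 2) (v.adicCompletion K)).trace) ⁻¹'
            {x : v.adicCompletion K | Valued.v x ≤ 1}
        ∩ ((fun t : Tv589 γ v => ((t : GL (Fin 2) (v.adicCompletion K)) :
          Matrix (Fin 2) (Fin 2) (v.adicCompletion K)).det) ⁻¹'
            {x : v.adicCompletion K | Valued.v x ≤ 1}
          \ (fun t : Tv589 γ v => ((t : GL (Fin 2) (v.adicCompletion K)) :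
          Matrix (Fin 2) (Fin 2) (v.adicCompletion K)).det) ⁻¹'
            {x : v.adicCompletion K | Valued.v x < 1}) := by
    ext t
    simp only [Tc589, Set.mem_setOf_eq, Set.mem_inter_iff, Set.mem_preimage, Set.mem_sdiff,
      not_lt]
    constructor
    · rintro ⟨h1, h2⟩
      exact ⟨h1, h2.le, h2.ge⟩
    · rintro ⟨h1, h2, h3⟩
      exact ⟨h1, le_antisymm h2 h3⟩
  rw [e]
  exact ((hO.preimage htr).measurableSet).inter
    (((hO.preimage hdet).measurableSet).diff ((hlt.preimage hdet).measurableSet))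

end Meas2

section Meas3

attribute [local instance] instMSTA589 instBSTA589 instMSGv589 instBSGv589 instMSGC589
  instBSGC589 instMSTv589 instBSTv589 instMSTw589 instBSTw589 instLCTv589 instLCTw589
  instSCTv589 instSCTw589

/-- The set `{t : t_v ∈ T_v^c for all v, t_∞ ∈ B}`. -/
def Omega589 (γ : GL (Fin 2) K) (B : Set (∀ w : InfinitePlace K, Tw589 γ w)) : Set (TA589 γ) :=
  {t | (∀ v, locHom589 γ v t ∈ Tc589 γ v) ∧ (fun w => archHom589 γ w t) ∈ B}

theorem preimage_box589 (γ : GL (Fin 2) K) (S : Finset (HeightOneSpectrum (𝓞 K)))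
    (hS : GoodOut305 S γ) (B : Set (∀ w : InfinitePlace K, Tw589 γ w)) :
    pS589 γ S ⁻¹' ((Set.pi Set.univ fun v : S => Tc589 γ v.1) ×ˢ B)
        ∩ (ES589 γ S : Set (TA589 γ)) = Omega589 γ B := by
  ext t
  constructor
  · rintro ⟨⟨h1, h2⟩, h3⟩
    have h3' : OutT305 S (t : G K) := (mem_ES589 γ S t).1 h3
    refine ⟨fun v => ?_, h2⟩
    by_cases hv : v ∈ S
    · exact h1 ⟨v, hv⟩ (Set.mem_univ _)
    · exact (tc_iff_int589 γ v (hS v hv) t).2 (h3' v hv)
  · rintro ⟨h1, h2⟩
    refine ⟨⟨fun v _ => h1 v.1, h2⟩, ?_⟩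
    exact (mem_ES589 γ S t).2 fun v hv => (tc_iff_int589 γ v (hS v hv) t).1 (h1 v)

theorem cS_box589 (γ : GL (Fin 2) K) (μT : Measure (TA589 γ))
    (S : Finset (HeightOneSpectrum (𝓞 K))) (hS : GoodOut305 S γ)
    (μ₁ : ∀ v : S, Measure (Tv589 γ v.1)) [∀ v, SigmaFinite (μ₁ v)]
    (h1 : ∀ v : S, μ₁ v (Tc589 γ v.1) = 1)
    (μ₂ : ∀ w : InfinitePlace K, Measure (Tw589 γ w)) [∀ w, SigmaFinite (μ₂ w)] (c : NNReal)
    (hc : Measure.map (pS589 γ S) (μT.restrict (ES589 γ S : Set (TA589 γ)))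
      = c • ((Measure.pi μ₁).prod (Measure.pi μ₂)))
    (B : Set (∀ w : InfinitePlace K, Tw589 γ w)) (hB : MeasurableSet B) :
    μT (Omega589 γ B) = c * (Measure.pi μ₂) B := by
  have hbox : MeasurableSet ((Set.pi Set.univ fun v : S => Tc589 γ v.1) ×ˢ B) :=
    (MeasurableSet.univ_pi fun v => measurableSet_Tc589 γ v.1).prod hB
  have e1 := H159.map_restrict_apply159 μT (ES589 γ S) (pS589 γ S) (continuous_pS589 γ S) hbox
  rw [preimage_box589 γ S hS B, hc, smul_prod_box589 μ₁ μ₂ c _ h1 B] at e1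
  exact e1.symm

theorem exists_nice589 (γ : GL (Fin 2) K) (μ₂ : ∀ w : InfinitePlace K, Measure (Tw589 γ w))
    [∀ w, (μ₂ w).IsHaarMeasure] :
    ∃ B : Set (∀ w : InfinitePlace K, Tw589 γ w), MeasurableSet B ∧
      (Measure.pi μ₂) B ≠ 0 ∧ (Measure.pi μ₂) B ≠ ⊤ := by
  obtain ⟨C, hC, hC1⟩ := exists_compact_mem_nhds (1 : ∀ w : InfinitePlace K, Tw589 γ w)
  refine ⟨closure C, isClosed_closure.measurableSet, ?_, hC.closure.measure_lt_top.ne⟩
  exact (Measure.measure_pos_of_mem_nhds (Measure.pi μ₂)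
    (Filter.mem_of_superset hC1 subset_closure)).ne'

/-- The constants at two good levels agree. -/
theorem cS_unique589 (γ : GL (Fin 2) K) (μT : Measure (TA589 γ))
    (S S' : Finset (HeightOneSpectrum (𝓞 K))) (hS : GoodOut305 S γ) (hS' : GoodOut305 S' γ)
    (μ₁ : ∀ v : HeightOneSpectrum (𝓞 K), Measure (Tv589 γ v)) [∀ v, (μ₁ v).IsHaarMeasure]
    (h1 : ∀ v, μ₁ v (Tc589 γ v) = 1)
    (μ₂ : ∀ w : InfinitePlace K, Measure (Tw589 γ w)) [∀ w, (μ₂ w).IsHaarMeasure]
    (c c' : NNReal)
    (hc : Measure.map (pS589 γ S) (μT.restrict (ES589 γ S : Set (TA589 γ)))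
      = c • ((Measure.pi fun v : S => μ₁ v.1).prod (Measure.pi μ₂)))
    (hc' : Measure.map (pS589 γ S') (μT.restrict (ES589 γ S' : Set (TA589 γ)))
      = c' • ((Measure.pi fun v : S' => μ₁ v.1).prod (Measure.pi μ₂))) :
    c' = c := by
  obtain ⟨B, hBm, hB0, hBt⟩ := exists_nice589 γ μ₂
  have e1 := cS_box589 γ μT S hS (fun v : S => μ₁ v.1) (fun v => h1 v.1) μ₂ c hc B hBm
  have e2 := cS_box589 γ μT S' hS' (fun v : S' => μ₁ v.1) (fun v => h1 v.1) μ₂ c' hc' B hBm
  rw [e1] at e2
  have := (ENNReal.mul_left_inj hB0 hBt).mp e2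
  exact_mod_cast this.symm

/-- The ambient form. -/
theorem map_compS589 (γ : GL (Fin 2) K) (μT : Measure (TA589 γ))
    (S : Finset (HeightOneSpectrum (𝓞 K)))
    (μ₁ : ∀ v : S, Measure (Tv589 γ v.1)) [∀ v, (μ₁ v).IsHaarMeasure]
    (μ₂ : ∀ w : InfinitePlace K, Measure (Tw589 γ w)) [∀ w, (μ₂ w).IsHaarMeasure] (c : NNReal)
    (hc : Measure.map (pS589 γ S) (μT.restrict (ES589 γ S : Set (TA589 γ)))
      = c • ((Measure.pi μ₁).prod (Measure.pi μ₂))) :
    Measure.map (fun t : TA589 γ => compS305 S (t : G K))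
        (μT.restrict {t : TA589 γ | OutT305 S (t : G K)})
      = ENNReal.ofReal (c : ℝ) •
        ((Measure.pi fun v : S => Measure.map Subtype.val (μ₁ v)).prod
          (Measure.pi fun w : InfinitePlace K => Measure.map Subtype.val (μ₂ w))) := by
  have hce1 : ∀ v : S, Topology.IsClosedEmbedding
      (Subtype.val : Tv589 γ v.1 → GL (Fin 2) (v.1.adicCompletion K)) := fun v =>
    (isClosed_Tv589 γ v.1).isClosedEmbedding_subtypeVal
  have hce2 : ∀ w : InfinitePlace K, Topology.IsClosedEmbedding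
      (Subtype.val : Tw589 γ w → GL (Fin 2) ℂ) := fun w =>
    (isClosed_Tw589 γ w).isClosedEmbedding_subtypeVal
  have hme1 : ∀ v : S, MeasurableEmbedding
      (Subtype.val : Tv589 γ v.1 → GL (Fin 2) (v.1.adicCompletion K)) := fun v =>
    (hce1 v).measurableEmbedding
  have hme2 : ∀ w : InfinitePlace K, MeasurableEmbedding
      (Subtype.val : Tw589 γ w → GL (Fin 2) ℂ) := fun w =>
    (hce2 w).measurableEmbedding
  have : ∀ v : S, SigmaFinite ((μ₁ v).map
      (Subtype.val : Tv589 γ v.1 → GL (Fin 2) (v.1.adicCompletion K))) := fun v =>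
    (hme1 v).sigmaFinite_map
  have : ∀ w : InfinitePlace K, SigmaFinite ((μ₂ w).map
      (Subtype.val : Tw589 γ w → GL (Fin 2) ℂ)) := fun w =>
    (hme2 w).sigmaFinite_map
  have hj1 : ∀ v : S, Measurable (Subtype.val : Tv589 γ v.1 → GL (Fin 2) (v.1.adicCompletion K)) :=
    fun v => continuous_subtype_val.measurable
  have hj2 : ∀ w : InfinitePlace K, Measurable (Subtype.val : Tw589 γ w → GL (Fin 2) ℂ) :=
    fun w => continuous_subtype_val.measurable
  have hjm : Measurable (Prod.map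
      (fun (x : ∀ v : S, Tv589 γ v.1) (v : S) =>
        ((x v : Tv589 γ v.1) : GL (Fin 2) (v.1.adicCompletion K)))
      (fun (y : ∀ w : InfinitePlace K, Tw589 γ w) (w : InfinitePlace K) =>
        ((y w : Tw589 γ w) : GL (Fin 2) ℂ))) :=
    (measurable_pi_lambda _ fun v => (hj1 v).comp (measurable_pi_apply v)).prodMap
      (measurable_pi_lambda _ fun w => (hj2 w).comp (measurable_pi_apply w))
  have hpm : Measurable (pS589 γ S) := (continuous_pS589 γ S).measurable
  have hcomp : (fun t : TA589 γ => compS305 S (t : G K))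
      = (Prod.map
          (fun (x : ∀ v : S, Tv589 γ v.1) (v : S) =>
            ((x v : Tv589 γ v.1) : GL (Fin 2) (v.1.adicCompletion K)))
          (fun (y : ∀ w : InfinitePlace K, Tw589 γ w) (w : InfinitePlace K) =>
            ((y w : Tw589 γ w) : GL (Fin 2) ℂ))) ∘ pS589 γ S := rfl
  rw [← coe_ES589, hcomp, ← Measure.map_map hjm hpm, hc, Measure.map_smul,
    map_prodMap_pi589 μ₁ μ₂ (fun v => Subtype.val) hj1 (fun w => Subtype.val) hj2,
    ENNReal.ofReal_coe_nnreal]
  rfl

end Meas3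

/-- **LEAF C2.7.5 `TorSplitC305`**: the torus constant exists. -/
theorem torSplitC589 (K : Type) [Field K] [NumberField K] : TorSplitC305 K := by
  intro hK γ _ μT hμT L hL1 hL2
  classical
  by_cases hex : ∃ S₁ : Finset (HeightOneSpectrum (𝓞 K)), GoodOut305 S₁ γ
  swap
  · exact ⟨1, one_pos, fun S hS => absurd ⟨S, hS⟩ hex⟩
  obtain ⟨S₁, hS₁⟩ := hex
  have := hμT
  have hH1 : ∀ v : HeightOneSpectrum (𝓞 K),
      @Measure.IsHaarMeasure _ _ _ (borel _) (L.μt v) := fun v => (hL1 v).1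
  have := hL2
  obtain ⟨c₁, hc₁pos, hc₁⟩ := exists_cS589 hK γ μT S₁ (fun v : S₁ => L.μt v.1) L.μtc
  refine ⟨(c₁ : ℝ), by exact_mod_cast hc₁pos, ?_⟩
  intro S hS
  obtain ⟨c, -, hc⟩ := exists_cS589 hK γ μT S (fun v : S => L.μt v.1) L.μtc
  have hcc : c = c₁ :=
    cS_unique589 γ μT S₁ S hS₁ hS L.μt (fun v => (hL1 v).2) L.μtc c₁ c hc₁ hc
  rw [hcc] at hc
  exact map_compS589 γ μT S (fun v : S => L.μt v.1) L.μtc c₁ hc

end Fermat.Agent.LT.H589

end

end
-- ===== PACK-END LT/T7/H589/TorSplit.lean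

-- ===== PACK-BEGIN LT/T7/H729/LocCut.lean
section





/-!
# Row LT, tower T7, leaf T7.L2.1.C2.7.2 `H305.LocCutC305` (helper729, SPARE of row 2566)

OFF-MAIN.  PROVED, UNCONDITIONAL (no hole, nothing assumed).  ADDITIVE (new names only).
Spec: `LT/T7/H305/MatchCut.lean` (helper305@56ddcdc02, sha256 0f302b81), byte-identical copy.

    locCutC729 : H305.LocCutC305

Route (docstring of the leaf): `exists_cutoff584` (helper584, `T7/H584/Cutoff.lean`, sha256
cf7491c2); `GL₂(k)` is locally compact and `σ`-compact (helper420); the twisted centraliser is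
closed, its elements commute with the regular element `N δ` (helper846 `twCent_comm_norm846`),
so it is commutative (`comm_of_comm_reg846`) and its Haar measure is right invariant.
-/

set_option autoImplicit false
set_option linter.style.haveILetI false

open AutomorphicForm IsDedekindDomain NumberField MeasureTheory

noncomputable section

namespace Fermat.Agent.LT.T7.LocMeas729

open Fermat.Agent.LT.T6 Fermat.Agent.LT.T7

/-- **LEAF T7.L2.1.C2.7.2 `H305.LocCutC305`**: local continuous cut-off functions exist. -/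
theorem locCutC729 : H305.LocCutC305 := by
  intro k _ _ q h l s hs _ hl δ hreg μT hμT
  haveI : LocallyCompactSpace (GL (Fin 2) k) := H420.locallyCompactSpace_GL h
  haveI : SigmaCompactSpace (GL (Fin 2) k) := H420.sigmaCompactSpace_GL h
  have hcl : IsClosed ((twCentSub (glAut s) δ : Subgroup (GL (Fin 2) k)) :
      Set (GL (Fin 2) k)) := by
    have hcont : Continuous fun x : GL (Fin 2) k => x⁻¹ * δ * glAut s x :=
      (continuous_inv.mul continuous_const).mul (H420.continuous_glAut h s hs)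
    exact isClosed_eq hcont continuous_const
  letI : MeasurableSpace (twCentSub (glAut s) δ) := borel _
  haveI : BorelSpace (twCentSub (glAut s) δ) := ⟨rfl⟩
  haveI := hμT
  have hD : ((twNorm s l δ : GL (Fin 2) k) : Matrix (Fin 2) (Fin 2) k).trace ^ 2
      - 4 * ((twNorm s l δ : GL (Fin 2) k) : Matrix (Fin 2) (Fin 2) k).det ≠ 0 :=
    IsUnit.ne_zero hreg
  have hcomm : ∀ a b : twCentSub (glAut s) δ, a * b = b * a := by
    intro a b
    apply Subtype.ext
    apply Units.ext
    show ((a : GL (Fin 2) k) : Matrix (Fin 2) (Fin 2) k) * ((b : GL (Fin 2) k) : Matrix _ _ k)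
      = ((b : GL (Fin 2) k) : Matrix (Fin 2) (Fin 2) k) * ((a : GL (Fin 2) k) : Matrix _ _ k)
    refine H846.comm_of_comm_reg846 _ _ _ hD ?_ ?_
    · rw [← Units.val_mul, ← Units.val_mul, H846.twCent_comm_norm846 s l hl δ a a.2]
    · rw [← Units.val_mul, ← Units.val_mul, H846.twCent_comm_norm846 s l hl δ b b.2]
  haveI : μT.IsMulRightInvariant := ⟨fun g => by
    have e : (fun t : twCentSub (glAut s) δ => t * g) = fun t => g * t := by
      funext t
      exact hcomm t g
    rw [e]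
    exact map_mul_left_eq_self μT g⟩
  obtain ⟨β, hβc, hβ0, -, hβ1⟩ := H584.exists_cutoff584 (twCentSub (glAut s) δ) μT hcl
  exact ⟨β, hβc, hβ0, hβ1⟩

end Fermat.Agent.LT.T7.LocMeas729

end

end
-- ===== PACK-END LT/T7/H729/LocCut.lean

-- ===== PACK-BEGIN LT/T7/H311/EkProdTools.lean
section




/-!
# Row LT, tower T7, leaf T7.L2.1.F2 `EkProdDownC` (helper311, registry row 2250): tools

OFF-MAIN.  Left translates of Eisenstein-killing test functions by elements which are trivial at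
infinity; finite sums; the Iwahori sum `iwL w H` preserves the left invariance under `U(𝔫)` and
under the Iwahori subgroup at `w` (`w ∣ 𝔫`).
Vocabulary: `T7/H893/SupplyFamSpec.lean` (helper893), kits of helper340 / helper129 / helper32,
byte-identical copies.
-/

set_option autoImplicit false
set_option linter.unusedSectionVars false
set_option linter.unusedVariables false

open IsDedekindDomain NumberField MeasureTheory IsDedekindDomain.HeightOneSpectrum
open scoped ComplexConjugate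
open Fermat.Agent.LT.H556 Fermat.Agent.LT.H556.A0 Fermat.Agent.LT.H129

noncomputable section

namespace Fermat.Agent.LT.T7.H311

open Fermat.Agent.LT Fermat.Agent.LT.T7 Fermat.Agent.LT.T7.H893 Fermat.Agent.LT.T7.H340

attribute [local instance] Fermat.Agent.LT.T5.instMeasurableSpaceG

variable {K : Type} [Field K] [NumberField K]

/-! ## 1. Commutation -/

/-- An element which is trivial at infinity commutes with an element which is trivial at the
finite places. -/
theorem commute_fin_inf311 {b r : G K} (hb : ∀ w : InfinitePlace K, TrivAtInf w b)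
    (hr : ∀ v : HeightOneSpectrum (𝓞 K), TrivAtFin v r) : b * r = r * b := by
  apply G_ext129
  · intro w
    rw [map_mul, map_mul, (trivAtInf_iff129 w b).1 (hb w), one_mul, mul_one]
  · intro v
    rw [map_mul, map_mul, (trivAtFin_iff129 v r).1 (hr v), one_mul, mul_one]

/-- A scalar uniformiser is central. -/
theorem central_scalar311 {w : HeightOneSpectrum (𝓞 K)} {z : G K}
    (hz : IsScalarUniformizerAt w z) (g : G K) : z * g = g * z := by
  obtain ⟨hzloc, c, -, hzc⟩ := hz
  rw [isLocalAtFin_iff129] at hzloc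
  apply G_ext129
  · intro u
    rw [map_mul, map_mul, hzloc.1 u, one_mul, mul_one]
  · intro v
    by_cases hv : v = w
    · subst hv
      apply Units.ext
      rw [map_mul, map_mul, Matrix.GeneralLinearGroup.coe_mul,
        Matrix.GeneralLinearGroup.coe_mul, coe_finCompHom129, coe_finCompHom129, hzc]
      ext i j
      rw [Matrix.diagonal_mul, Matrix.mul_diagonal, mul_comm]
    · rw [map_mul, map_mul, hzloc.2 v hv, one_mul, mul_one]

theorem trivAtInf_inv311 {b : G K} (hb : ∀ w : InfinitePlace K, TrivAtInf w b) :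
    ∀ w : InfinitePlace K, TrivAtInf w b⁻¹ := by
  intro w
  rw [trivAtInf_iff129, map_inv, (trivAtInf_iff129 w b).1 (hb w), inv_one]

theorem trivAtInf_zpow311 {b : G K} (hb : ∀ w : InfinitePlace K, TrivAtInf w b) (k : ℤ) :
    ∀ w : InfinitePlace K, TrivAtInf w (b ^ k) := by
  intro w
  rw [trivAtInf_iff129, map_zpow, (trivAtInf_iff129 w b).1 (hb w), one_zpow]

/-! ## 2. The measure -/

theorem borelSpace311 : BorelSpace (G K) := ⟨rfl⟩

theorem isMulRightInvariant311 {μ : Measure (G K)} {F : Set (G K)} (hF : T5.IsFrame μ F) :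
    μ.IsMulRightInvariant := by
  have : BorelSpace (G K) := borelSpace311
  refine ⟨fun g => ?_⟩
  ext A hA
  rw [Measure.map_apply (continuous_mul_const g).measurable hA]
  exact hF.right_inv g A hA

/-! ## 3. Eisenstein-killing: translates, sums -/

theorem isEK_ltr311 {μ : Measure (G K)} (hμ : μ.IsHaarMeasure) {φ : G K → ℂ}
    (h : T5.IsEK μ φ) (b : G K) : T5.IsEK μ (ltr b φ) := by
  have : BorelSpace (G K) := borelSpace311
  intro Ψ hΨ x
  have h0 := h Ψ hΨ (x * b)
  unfold T5.Rconv at h0 ⊢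
  rw [← h0]
  have h1 := integral_mul_left_eq_self (μ := μ) (fun y => φ y * Ψ (x * b * y)) b⁻¹
  rw [← h1]
  congr 1
  funext y
  simp only [ltr, mul_assoc, mul_inv_cancel_left]

theorem borelInv_rtr311 {Ψ : G K → ℂ} (hΨ : T5.IsBorelInvariantFn Ψ) {b : G K}
    (hb : ∀ w : InfinitePlace K, TrivAtInf w b) :
    T5.IsBorelInvariantFn (fun g => Ψ (g * b)) := by
  refine ⟨hΨ.cont.comp (continuous_mul_const b), ?_, ?_, ?_⟩
  · intro n x hn g
    simp only [mul_assoc]
    exact hΨ.unip n x hn _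
  · intro t a c ht g
    simp only [mul_assoc]
    exact hΨ.torus t a c ht _
  · obtain ⟨r, hr, hΨr⟩ := hΨ.ray
    refine ⟨r, hr, fun g => ?_⟩
    have hc : b * r = r * b := commute_fin_inf311 hb hr.1
    show Ψ (g * r * b) = Ψ (g * b)
    rw [mul_assoc, ← hc, ← mul_assoc, hΨr]

theorem adjointFn_ltr311 (φ : G K → ℂ) (b : G K) :
    T5.adjointFn (ltr b φ) = fun g => T5.adjointFn φ (g * b) := by
  funext g
  simp only [T5.adjointFn, ltr, mul_inv_rev]

theorem isEK_adj_ltr311 {μ : Measure (G K)} {F : Set (G K)} (hF : T5.IsFrame μ F)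
    {φ : G K → ℂ} (h : T5.IsEK μ (T5.adjointFn φ)) {b : G K}
    (hb : ∀ w : InfinitePlace K, TrivAtInf w b) : T5.IsEK μ (T5.adjointFn (ltr b φ)) := by
  have : BorelSpace (G K) := borelSpace311
  have := isMulRightInvariant311 hF
  rw [adjointFn_ltr311]
  intro Ψ hΨ x
  have h0 := h (fun g => Ψ (g * b⁻¹)) (borelInv_rtr311 hΨ (trivAtInf_inv311 hb)) x
  unfold T5.Rconv at h0 ⊢
  rw [← h0]
  have h1 := integral_mul_right_eq_self (μ := μ)
    (fun y => T5.adjointFn φ y * Ψ (x * y * b⁻¹)) b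
  rw [← h1]
  congr 1
  funext y
  simp only [mul_assoc, mul_inv_cancel, mul_one]

theorem integrable_mul311 {μ : Measure (G K)} (hμ : μ.IsHaarMeasure) {φ Ψ : G K → ℂ}
    (hc : Continuous φ) (hs : HasCompactSupport φ) (hΨ : Continuous Ψ) (x : G K) :
    Integrable (fun y => φ y * Ψ (x * y)) μ := by
  have : BorelSpace (G K) := borelSpace311
  have hcont : Continuous fun y => φ y * Ψ (x * y) :=
    hc.mul (hΨ.comp (continuous_const_mul x))
  exact hcont.integrable_of_hasCompactSupport hs.mul_right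

theorem isEK_add311 {μ : Measure (G K)} (hμ : μ.IsHaarMeasure) {φ₁ φ₂ : G K → ℂ}
    (c₁ : Continuous φ₁) (s₁ : HasCompactSupport φ₁) (c₂ : Continuous φ₂)
    (s₂ : HasCompactSupport φ₂) (e₁ : T5.IsEK μ φ₁) (e₂ : T5.IsEK μ φ₂) :
    T5.IsEK μ (fun y => φ₁ y + φ₂ y) := by
  intro Ψ hΨ x
  have h1 := e₁ Ψ hΨ x
  have h2 := e₂ Ψ hΨ x
  unfold T5.Rconv at h1 h2 ⊢
  simp only [add_mul]
  rw [integral_add (integrable_mul311 hμ c₁ s₁ hΨ.cont x)
    (integrable_mul311 hμ c₂ s₂ hΨ.cont x), h1, h2, add_zero]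

theorem isEK_smul311 {μ : Measure (G K)} {φ : G K → ℂ} (c : ℂ) (e : T5.IsEK μ φ) :
    T5.IsEK μ (fun y => c * φ y) := by
  intro Ψ hΨ x
  have h1 := e Ψ hΨ x
  unfold T5.Rconv at h1 ⊢
  simp only [mul_assoc]
  rw [integral_const_mul, h1, mul_zero]

theorem isEK_zero311 {μ : Measure (G K)} : T5.IsEK μ (fun _ : G K => (0 : ℂ)) := by
  intro Ψ hΨ x
  unfold T5.Rconv
  simp

/-! ## 4. The termwise properties -/

/-- Everything in `IsTestFn 𝔫 trivType` and the two Eisenstein-killing clauses, except the left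
invariance under the level group. -/
structure IsPre311 (𝔫 : Ideal (𝓞 K)) (μ : Measure (G K)) (φ : G K → ℂ) : Prop where
  cont : Continuous φ
  supp : HasCompactSupport φ
  smooth : T5.IsSmoothAtInf φ
  level_right : ∀ u : G K, InLevelGroup 𝔫 u → ∀ g : G K, φ (g * u) = φ g
  arch_right : ∀ (w : InfinitePlace K) (k : G K), IsArchCompact w k →
    ∀ g : G K, φ (g * k) = φ g
  arch_left : ∀ (w : InfinitePlace K) (k : G K), IsArchCompact w k →
    ∀ g : G K, φ (k * g) = φ g
  ek : T5.IsEK μ φ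
  ek_adj : T5.IsEK μ (T5.adjointFn φ)

variable {𝔫 : Ideal (𝓞 K)} {μ : Measure (G K)} {F : Set (G K)}

theorem isPre_of_test311 {φ : G K → ℂ} (h : T5.IsTestFn 𝔫 T5.trivType φ)
    (e : T5.IsEK μ φ) (e' : T5.IsEK μ (T5.adjointFn φ)) : IsPre311 𝔫 μ φ where
  cont := h.cont
  supp := h.supp
  smooth := h.smooth
  level_right := h.inv.level_right
  arch_right := fun w k hk g => by
    have := h.inv.arch_right w k hk g
    simpa [T5.trivType] using this
  arch_left := fun w k hk g => by
    have := h.inv.arch_left w k hk g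
    simpa [T5.trivType] using this
  ek := e
  ek_adj := e'

theorem IsPre311.ltr (hF : T5.IsFrame μ F) {φ : G K → ℂ} (h : IsPre311 𝔫 μ φ) {b : G K}
    (hb : ∀ w : InfinitePlace K, TrivAtInf w b) : IsPre311 𝔫 μ (H893.ltr b φ) where
  cont := h.cont.comp (continuous_const_mul b⁻¹)
  supp := h.supp.comp_homeomorph (Homeomorph.mulLeft b⁻¹)
  smooth := fun n fam h1 h2 g => by
    have := h.smooth n fam h1 h2 (b⁻¹ * g)
    simpa only [H893.ltr, mul_assoc] using this
  level_right := fun u hu g => by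
    show φ (b⁻¹ * (g * u)) = φ (b⁻¹ * g)
    rw [← mul_assoc]
    exact h.level_right u hu _
  arch_right := fun w k hk g => by
    show φ (b⁻¹ * (g * k)) = φ (b⁻¹ * g)
    rw [← mul_assoc]
    exact h.arch_right w k hk _
  arch_left := fun w k hk g => by
    show φ (b⁻¹ * (k * g)) = φ (b⁻¹ * g)
    have hc : b⁻¹ * k = k * b⁻¹ := commute_fin_inf311 (trivAtInf_inv311 hb) hk.1.2
    rw [← mul_assoc, hc, mul_assoc]
    exact h.arch_left w k hk _
  ek := isEK_ltr311 hF.haar h.ek b
  ek_adj := isEK_adj_ltr311 hF h.ek_adj hb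

theorem adjointFn_add311 (φ₁ φ₂ : G K → ℂ) :
    T5.adjointFn (fun y => φ₁ y + φ₂ y)
      = fun y => T5.adjointFn φ₁ y + T5.adjointFn φ₂ y := by
  funext g
  simp only [T5.adjointFn, map_add]

theorem adjointFn_smul311 (c : ℂ) (φ : G K → ℂ) :
    T5.adjointFn (fun y => c * φ y) = fun y => conj c * T5.adjointFn φ y := by
  funext g
  simp only [T5.adjointFn, map_mul]

theorem IsPre311.add (hF : T5.IsFrame μ F) {φ₁ φ₂ : G K → ℂ} (h₁ : IsPre311 𝔫 μ φ₁)
    (h₂ : IsPre311 𝔫 μ φ₂) : IsPre311 𝔫 μ (fun y => φ₁ y + φ₂ y) where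
  cont := h₁.cont.add h₂.cont
  supp := h₁.supp.add h₂.supp
  smooth := fun n fam a1 a2 g => (h₁.smooth n fam a1 a2 g).add (h₂.smooth n fam a1 a2 g)
  level_right := fun u hu g => by
    show φ₁ (g * u) + φ₂ (g * u) = φ₁ g + φ₂ g
    rw [h₁.level_right u hu, h₂.level_right u hu]
  arch_right := fun w k hk g => by
    show φ₁ (g * k) + φ₂ (g * k) = φ₁ g + φ₂ g
    rw [h₁.arch_right w k hk, h₂.arch_right w k hk]
  arch_left := fun w k hk g => by
    show φ₁ (k * g) + φ₂ (k * g) = φ₁ g + φ₂ g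
    rw [h₁.arch_left w k hk, h₂.arch_left w k hk]
  ek := isEK_add311 hF.haar h₁.cont h₁.supp h₂.cont h₂.supp h₁.ek h₂.ek
  ek_adj := by
    rw [adjointFn_add311]
    exact isEK_add311 hF.haar (T5.H32.continuous_adjointFn32 h₁.cont)
      (T5.H32.hasCompactSupport_adjointFn32 h₁.supp) (T5.H32.continuous_adjointFn32 h₂.cont)
      (T5.H32.hasCompactSupport_adjointFn32 h₂.supp) h₁.ek_adj h₂.ek_adj

theorem IsPre311.smul (c : ℂ) {φ : G K → ℂ} (h : IsPre311 𝔫 μ φ) :
    IsPre311 𝔫 μ (fun y => c * φ y) where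
  cont := continuous_const.mul h.cont
  supp := h.supp.mul_left
  smooth := fun n fam a1 a2 g => contDiff_const.mul (h.smooth n fam a1 a2 g)
  level_right := fun u hu g => by
    show c * φ (g * u) = c * φ g
    rw [h.level_right u hu]
  arch_right := fun w k hk g => by
    show c * φ (g * k) = c * φ g
    rw [h.arch_right w k hk]
  arch_left := fun w k hk g => by
    show c * φ (k * g) = c * φ g
    rw [h.arch_left w k hk]
  ek := isEK_smul311 c h.ek
  ek_adj := by
    rw [adjointFn_smul311]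
    exact isEK_smul311 _ h.ek_adj

theorem isPre_zero311 : IsPre311 𝔫 μ (fun _ : G K => (0 : ℂ)) where
  cont := continuous_const
  supp := HasCompactSupport.zero
  smooth := fun n fam a1 a2 g => contDiff_const
  level_right := fun u hu g => rfl
  arch_right := fun w k hk g => rfl
  arch_left := fun w k hk g => rfl
  ek := isEK_zero311
  ek_adj := by
    have : T5.adjointFn (fun _ : G K => (0 : ℂ)) = fun _ => 0 := by
      funext g
      simp [T5.adjointFn]
    rw [this]
    exact isEK_zero311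

theorem isPre_sum311 (hF : T5.IsFrame μ F) {ι : Type} (s : Finset ι) (f : ι → G K → ℂ)
    (h : ∀ i ∈ s, IsPre311 𝔫 μ (f i)) : IsPre311 𝔫 μ (fun y => ∑ i ∈ s, f i y) := by
  classical
  induction s using Finset.induction_on with
  | empty =>
    simp only [Finset.sum_empty]
    exact isPre_zero311
  | insert a s ha ih =>
    have h1 : (fun y => ∑ i ∈ insert a s, f i y) = fun y => f a y + ∑ i ∈ s, f i y := by
      funext y
      rw [Finset.sum_insert ha]
    rw [h1]
    exact (h a (Finset.mem_insert_self a s)).add hF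
      (ih fun i hi => h i (Finset.mem_insert_of_mem hi))

theorem IsPre311.iwL (hF : T5.IsFrame μ F) {φ : G K → ℂ} (hφ : IsPre311 𝔫 μ φ)
    {w : HeightOneSpectrum (𝓞 K)} {H : Finset (G K)} (hH : IsIwCosetSystem w H) :
    IsPre311 𝔫 μ (H893.iwL w H φ) := by
  have h1 : H893.iwL w H φ
      = fun y => ((Real.sqrt (Ideal.absNorm w.asIdeal : ℝ) : ℝ) : ℂ)⁻¹
          * ∑ h ∈ H, H893.ltr h φ y := rfl
  rw [h1]
  refine IsPre311.smul _ (isPre_sum311 hF H (fun h => H893.ltr h φ) fun h hh => ?_)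
  exact hφ.ltr hF (hH.2.1 h hh).1.1

end Fermat.Agent.LT.T7.H311

end

end
-- ===== PACK-END LT/T7/H311/EkProdTools.lean

-- ===== PACK-BEGIN LT/T7/H776/WBasisSpec.lean
section





/-!
# Row LT, tower T7, NODE T7.L2.3.5.4 `SD534.WBasisC` (row 2182) -- THE CUT (helper776)

OFF-MAIN.  Definitions, frozen Props, PROVED top `wBasisC_of776`.  No hole, nothing assumed.
ADDITIVE (new names only, suffix `776`).  Vocabulary (byte-identical copies):
`LT/T7/H534/DownBasisSpec.lean` (helper534, sha256 b2d5929f), `LT/T7/H193/ProjSpec.lean`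
(helper193, sha256 977a85e3: `IsIwElt`, `finAvg`, `IsFinData`, `FinDataC`, `FinAvgCuspC`,
`FinAvgOrthC`, `TranslInvC`), `LT/T7/Level2.lean` (15516646), `LT/T1/Spec.lean`.

    WBasisC K  ⟸  W0BasisC776 K + IwAvgC776 K + ProjSeqC776 + CuspFormC K + WSubC K   (WAsmC776)
    W0BasisC776 K  ⟸  W0RawC776 K + OrthClsC776 K + ClassFinC776 K + AbsExhaustC776
                        + CuspFormC K + WSubC K                                      (W0AsmC776)
    IwAvgC776 K  ⟸  T1Out K + FinDataC K + FinAvgCuspC K + FinAvgOrthC K + TranslInvC K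
                      + FinAvgPosC776 K + FinAvgHeckeC776 K + FinAvgMeanC776 K
                      + CuspFormC K + WSubC K                                        (IwAvgAsmC776)

## The leaves

LEVEL 0 (the class of T2: `IsWFn 𝔫 r 0 o` = cusp functions of `T2/Spec.lean`, helper130
`LT/T2/AdapterW.lean` `isWFn_zero_iff130`):
* `W0RawC776` (T2 ADAPTER, from `T2.wBasis0_130`): an orthonormal SEQUENCE of joint
  eigenfunctions of level `𝔫`, complete for the class of T2, with unitary NORMALISED eigen-data.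
* `OrthClsC776` (T2 ADAPTER, from `T2.OpsAdj`): two joint eigenfunctions whose eigen-data differ
  at a place prime to `𝔫` or at a positive radius are orthogonal.
* `ClassFinC776` (= `classFinGen429`, helper429, row 2282): the class of an eigen-datum lies in
  a finite dimensional space.
* `AbsExhaustC776` (MATHLIB ONLY, `AbsSpec.lean`).
* `W0AsmC776` (ASSEMBLY, T7 vocabulary only).

THE PROJECTOR `P = finAvg Rep`, `Rep` a system of representatives of `I_u U(𝔫) / U(𝔫)`
(`H193.IsFinData 𝔫 𝔫 1 (fun _ => u) Rep`; existence, cusp functions, orthogonality: CLOSED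
leaves of helper193's cut, owners helper543, 981, 454, 547, 387, 587, 144, 277, 453):
* `FinAvgPosC776`   : `finAvg` preserves the invariance under the positive scalars at infinity.
* `FinAvgHeckeC776` : `finAvg` preserves the Hecke eigenfunctions at EVERY finite place.
* `FinAvgMeanC776`  : `finAvg` preserves the eigenfunctions of the sphere means.
* `IwAvgAsmC776` (ASSEMBLY).

THE NEW BASIS:
* `ProjSeqC776` (MATHLIB ONLY, `AbsSpec.lean`).
* `WAsmC776` (ASSEMBLY).
-/

set_option autoImplicit false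
set_option linter.unusedSectionVars false
set_option linter.unusedVariables false

open AutomorphicForm IsDedekindDomain NumberField MeasureTheory
open scoped ComplexConjugate

noncomputable section

namespace Fermat.Agent.LT.T7.WB776

open Fermat.Agent.LT Fermat.Agent.LT.H556 Fermat.Agent.LT.H556.A0 Fermat.Agent.LT.T7
open Fermat.Agent.LT.T7.SD534 Fermat.Agent.LT.T7.H193

attribute [local instance] Fermat.Agent.LT.T5.instMeasurableSpaceG

/-! ## 1. Vocabulary -/

section Defs

variable {K : Type} [Field K] [NumberField K]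

/-- The eigen-datum `c` is NORMALISED for the level `𝔫`: `0` at the places dividing `𝔫` and at
the radii `d ≤ 0` (where `T7.IsEigFn` says nothing). -/
def IsNormData776 (𝔫 : Ideal (𝓞 K)) (c : EigData K) : Prop :=
  (∀ v : HeightOneSpectrum (𝓞 K), v.asIdeal ∣ 𝔫 → c.a v = 0 ∧ c.b v = 0) ∧
    ∀ (w : InfinitePlace K) (d : ℝ), d ≤ 0 → c.m w d = 0

/-- The eigen-data `c`, `c'` differ at a place prime to `𝔫` or at a positive radius. -/
def DiffOut776 (𝔫 : Ideal (𝓞 K)) (c c' : EigData K) : Prop :=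
  (∃ v : HeightOneSpectrum (𝓞 K), ¬ v.asIdeal ∣ 𝔫 ∧ (c.a v ≠ c'.a v ∨ c.b v ≠ c'.b v)) ∨
    ∃ (w : InfinitePlace K) (d : ℝ), 0 < d ∧ c.m w d ≠ c'.m w d

/-- The raw basis of level `0` (no Iwahori condition): an orthonormal sequence of joint
eigenfunctions of the class of T2, complete for this class, with unitary normalised data. -/
structure IsW0Raw776 (μ : Measure (G K)) (F : Set (G K)) (r : G K) (𝔫 : Ideal (𝓞 K))
    (u : HeightOneSpectrum (𝓞 K)) (w₀ : ℕ → G K → ℂ) (J₀ : Set ℕ) (c₀ : ℕ → EigData K) :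
    Prop where
  eig : ∀ j, j ∈ J₀ → IsEigFn 𝔫 r 0 (fun _ => u) (w₀ j) (c₀ j)
  unit : ∀ j, j ∈ J₀ → IsUnitOut 𝔫 (c₀ j)
  normal : ∀ j, j ∈ J₀ → IsNormData776 𝔫 (c₀ j)
  norm_one : ∀ j, j ∈ J₀ → T5.innerD μ F (w₀ j) (w₀ j) = 1
  orth : ∀ i, i ∈ J₀ → ∀ j, j ∈ J₀ → i ≠ j → T5.innerD μ F (w₀ i) (w₀ j) = 0
  parseval : ∀ χ : G K → ℂ, IsWFn 𝔫 r 0 (fun _ => u) χ →
    HasSum (fun j : J₀ => ‖T5.innerD μ F χ (w₀ j)‖ ^ 2) (T5.innerD μ F χ χ).re

/-- The basis of level `0` with finite classes which exhaust the eigenfunctions. -/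
structure IsW0Basis776 (μ : Measure (G K)) (F : Set (G K)) (r : G K) (𝔫 : Ideal (𝓞 K))
    (u : HeightOneSpectrum (𝓞 K)) (w₀ : ℕ → G K → ℂ) (J₀ : Set ℕ) (c₀ : ℕ → EigData K) :
    Prop where
  eig : ∀ j, j ∈ J₀ → IsEigFn 𝔫 r 0 (fun _ => u) (w₀ j) (c₀ j)
  unit : ∀ j, j ∈ J₀ → IsUnitOut 𝔫 (c₀ j)
  norm_one : ∀ j, j ∈ J₀ → T5.innerD μ F (w₀ j) (w₀ j) = 1
  orth : ∀ i, i ∈ J₀ → ∀ j, j ∈ J₀ → i ≠ j → T5.innerD μ F (w₀ i) (w₀ j) = 0
  parseval : ∀ χ : G K → ℂ, IsWFn 𝔫 r 0 (fun _ => u) χ →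
    HasSum (fun j : J₀ => ‖T5.innerD μ F χ (w₀ j)‖ ^ 2) (T5.innerD μ F χ χ).re
  finite : ∀ j₀, j₀ ∈ J₀ → {j : ℕ | j ∈ J₀ ∧ c₀ j = c₀ j₀}.Finite
  exhaust : ∀ j₀, j₀ ∈ J₀ → ∀ ψ : G K → ℂ, IsEigFn 𝔫 r 0 (fun _ => u) ψ (c₀ j₀) →
    ψ ∈ clsSpan w₀ J₀ c₀ (c₀ j₀)

/-- The projector on the invariant cusp functions which respects the eigen-classes. -/
structure IsIwAvg776 (μ : Measure (G K)) (F : Set (G K)) (r : G K) (𝔫 : Ideal (𝓞 K))
    (u : HeightOneSpectrum (𝓞 K)) (P : (G K → ℂ) →ₗ[ℂ] (G K → ℂ)) : Prop where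
  eig : ∀ (ψ : G K → ℂ) (c : EigData K), IsEigFn 𝔫 r 0 (fun _ => u) ψ c →
    InCls 𝔫 r u c (P ψ)
  fix : ∀ χ : G K → ℂ, InW 𝔫 r u χ → P χ = χ
  inner : ∀ χ ψ : G K → ℂ, InW 𝔫 r u χ → IsWFn 𝔫 r 0 (fun _ => u) ψ →
    T5.innerD μ F χ (P ψ) = T5.innerD μ F χ ψ

/-! ### Proved tools -/

/-- An element which is trivial at every place is `1`. -/
theorem eq_one_of_triv776 {h : G K} (hI : ∀ w : InfinitePlace K, TrivAtInf w h)
    (hF : ∀ v : HeightOneSpectrum (𝓞 K), TrivAtFin v h) : h = 1 := by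
  apply Units.ext
  ext i j
  refine Prod.ext ?_ ?_
  · funext w
    rw [hI w i j, Units.val_one, Matrix.one_apply, Matrix.one_apply]
    split_ifs <;> rfl
  · refine RestrictedProduct.ext _ _ fun v => ?_
    have h1 : ((h : Matrix (Fin 2) (Fin 2) (Adl K)) i j).2 v
        = (1 : Matrix (Fin 2) (Fin 2) (v.adicCompletion K)) i j :=
      congrFun (congrFun (hF v) i) j
    refine h1.trans ?_
    show (1 : Matrix (Fin 2) (Fin 2) (v.adicCompletion K)) i j
      = (((1 : G K) : Matrix (Fin 2) (Fin 2) (Adl K)) i j).2 v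
    rw [Units.val_one, Matrix.one_apply, Matrix.one_apply]
    split_ifs <;> rfl

/-- An invariant cusp function is a function of the class of level `0`. -/
theorem isWFn_zero_of776 {𝔫 : Ideal (𝓞 K)} {r : G K} {l : ℕ}
    {o o' : ℕ → HeightOneSpectrum (𝓞 K)} {ψ : G K → ℂ} (h : IsWFn 𝔫 r l o ψ) :
    IsWFn 𝔫 r 0 o' ψ where
  cusp := h.cusp
  arch_scalar := h.arch_scalar
  iw := fun x hI hF _ g => by
    have hx : x = 1 :=
      eq_one_of_triv776 hI (fun v => hF v (fun j hj => absurd hj (Nat.not_lt_zero j)))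
    rw [hx, mul_one]

/-- A joint eigenfunction of level `l` is a joint eigenfunction of level `0`. -/
theorem isEigFn_zero_of776 {𝔫 : Ideal (𝓞 K)} {r : G K} {l : ℕ}
    {o o' : ℕ → HeightOneSpectrum (𝓞 K)} {ψ : G K → ℂ} {c : EigData K}
    (h : IsEigFn 𝔫 r l o ψ c) : IsEigFn 𝔫 r 0 o' ψ c where
  inv := isWFn_zero_of776 h.inv
  hecke := h.hecke
  mean := h.mean

/-- A joint eigenfunction of level `0` which is Iwahori invariant is a member of the class. -/
theorem inCls_of_zero776 {𝔫 : Ideal (𝓞 K)} {r : G K} {u : HeightOneSpectrum (𝓞 K)}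
    {o' : ℕ → HeightOneSpectrum (𝓞 K)} {ψ : G K → ℂ} {c : EigData K}
    (h : IsEigFn 𝔫 r 0 o' ψ c) (hW : InW 𝔫 r u ψ) : InCls 𝔫 r u c ψ where
  inv := hW
  hecke := h.hecke
  mean := h.mean

/-- Two normalised eigen-data which are different differ at a place prime to the level or at
a positive radius. -/
theorem diffOut_of_ne776 {𝔫 : Ideal (𝓞 K)} {c c' : EigData K} (hc : IsNormData776 𝔫 c)
    (hc' : IsNormData776 𝔫 c') (hne : c ≠ c') : DiffOut776 𝔫 c c' := by
  classical
  by_contra hno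
  apply hne
  unfold DiffOut776 at hno
  push Not at hno
  obtain ⟨h1, h2⟩ := hno
  obtain ⟨a, b, m⟩ := c
  obtain ⟨a', b', m'⟩ := c'
  have ha : a = a' := by
    funext v
    by_cases hv : v.asIdeal ∣ 𝔫
    · exact (hc.1 v hv).1.trans (hc'.1 v hv).1.symm
    · exact (h1 v hv).1
  have hb : b = b' := by
    funext v
    by_cases hv : v.asIdeal ∣ 𝔫
    · exact (hc.1 v hv).2.trans (hc'.1 v hv).2.symm
    · exact (h1 v hv).2
  have hm : m = m' := by
    funext w d
    by_cases hd : 0 < d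
    · exact h2 w d hd
    · exact (hc.2 w d (not_lt.1 hd)).trans (hc'.2 w d (not_lt.1 hd)).symm
  rw [ha, hb, hm]

end Defs

/-! ## 2. The leaves -/

section Leaves

variable (K : Type) [Field K] [NumberField K]

/-- **WB.A1 = W0-RAW (T2 ADAPTER).**  From `T2.wBasis0_130` (helper130, `LT/T2/AdapterW.lean`,
UNCONDITIONAL): the index type is countable (`IsWBasis130.countable`): transport the family
along an injection into `ℕ`, `J₀` = its range; replace the data by the normalised data (`0` at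
`v ∣ 𝔫` and at `d ≤ 0`): `IsEigFn` and `IsUnitOut` only see `v ∤ 𝔫`, `d > 0`
(`IsUnitaryOut S` for `S = {v ∣ 𝔫}`, a finite set). -/
def W0RawC776 : Prop :=
  ∀ (μ : Measure (G K)) (F : Set (G K)) (r : G K) (𝔫 : Ideal (𝓞 K))
    (u : HeightOneSpectrum (𝓞 K)), 𝔫 ≠ ⊥ → T5.IsFrame μ F → T5.IsRayGen r → TotCplx K →
      ∃ (w₀ : ℕ → G K → ℂ) (J₀ : Set ℕ) (c₀ : ℕ → EigData K), IsW0Raw776 μ F r 𝔫 u w₀ J₀ c₀

/-- **WB.A2 = ORTH-CLS (T2 ADAPTER).**  Two joint eigenfunctions of level `0` whose data differ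
at a place prime to `𝔫` or at a positive radius are orthogonal, if the data of the second one
are unitary.
(`b ≠ b'` at `v`: `⟨ψ(· z), ψ'(· z)⟩ = ⟨ψ, ψ'⟩` (`TranslInvC`) and `|b'| = 1`.
`a ≠ a'`, `b = b'`: `T_v* = S_v⁻¹ T_v` (`T2.OpsAdj`) and `conj a' = a' conj b'`.
`m ≠ m'` at `(w, d)`: the sphere means are self-adjoint (`T2.OpsAdj`) and `m' d` is real.) -/
def OrthClsC776 : Prop :=
  ∀ (μ : Measure (G K)) (F : Set (G K)) (r : G K) (𝔫 : Ideal (𝓞 K))
    (u : HeightOneSpectrum (𝓞 K)), 𝔫 ≠ ⊥ → T5.IsFrame μ F → T5.IsRayGen r → TotCplx K →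
    ∀ (ψ ψ' : G K → ℂ) (c c' : EigData K),
      IsEigFn 𝔫 r 0 (fun _ => u) ψ c → IsEigFn 𝔫 r 0 (fun _ => u) ψ' c' →
      IsUnitOut 𝔫 c' → DiffOut776 𝔫 c c' → T5.innerD μ F ψ ψ' = 0

/-- **WB.A3 = CLASS-FIN** (the asset `classFinGen429` of helper429, row 2282): the class of an
eigen-datum lies in a finite dimensional space. -/
def ClassFinC776 : Prop :=
  TotCplx K → ∀ (𝔫 : Ideal (𝓞 K)) (r : G K) (l : ℕ) (o : ℕ → HeightOneSpectrum (𝓞 K))
    (C : EigData K), 𝔫 ≠ ⊥ → T5.IsRayGen r →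
    ∃ W : Submodule ℂ (G K → ℂ), Module.Finite ℂ W ∧
      ∀ ψ : G K → ℂ, IsEigFn 𝔫 r l o ψ C → ψ ∈ W

/-- **THE BASIS OF LEVEL 0** with finite classes which exhaust the eigenfunctions. -/
def W0BasisC776 : Prop :=
  ∀ (μ : Measure (G K)) (F : Set (G K)) (r : G K) (𝔫 : Ideal (𝓞 K))
    (u : HeightOneSpectrum (𝓞 K)), 𝔫 ≠ ⊥ → T5.IsFrame μ F → T5.IsRayGen r → TotCplx K →
      ∃ (w₀ : ℕ → G K → ℂ) (J₀ : Set ℕ) (c₀ : ℕ → EigData K), IsW0Basis776 μ F r 𝔫 u w₀ J₀ c₀

/-- **WB.A5 = W0-ASM (ASSEMBLY).**  `AbsExhaustC776` for `M = G K → ℂ`, `form = T5.innerD μ F`,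
`Vm` = the cusp functions (`InV`, a submodule by `WSubC`; form: `CuspFormC`), `A = EigData K`,
`Cls a x = IsEigFn 𝔫 r 0 (fun _ => u) x a`; finite dimension: `ClassFinC776`; orthogonality:
`OrthClsC776` and `diffOut_of_ne776`. -/
def W0AsmC776 : Prop :=
  W0RawC776 K → OrthClsC776 K → ClassFinC776 K → AbsExhaustC776 → CuspFormC K → WSubC K →
    W0BasisC776 K

/-- **WB.B1 = FIN-AVG-POS.**  The members of `Rep` are trivial at infinity
(`IsFinData.mem`), so they commute with the elements supported at the infinite places. -/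
def FinAvgPosC776 : Prop :=
  ∀ (𝔑 𝔑₀ : Ideal (𝓞 K)) (l : ℕ) (o : ℕ → HeightOneSpectrum (𝓞 K)) (Rep : Finset (G K)),
    IsFinData 𝔑 𝔑₀ l o Rep → ∀ ψ : G K → ℂ,
    (∀ (w : InfinitePlace K) (z : G K), IsArchPosScalar w z → ∀ g : G K, ψ (g * z) = ψ g) →
    ∀ (w : InfinitePlace K) (z : G K), IsArchPosScalar w z →
      ∀ g : G K, finAvg Rep ψ (g * z) = finAvg Rep ψ g

/-- **WB.B2 = FIN-AVG-HECKE.**  For EVERY finite place `v`: a member `h = i · u₀` of `Rep` is
integral with integral inverse at `v`, so `k ↦ h⁻¹ k h` maps a Hecke coset system at `v` to a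
Hecke coset system at `v` and a scalar uniformiser at `v` to a scalar uniformiser at `v`
(`IsHeckeEigenAt` is stated for ALL coset systems): `ψ(g k h) = ψ((g h)(h⁻¹ k h))`. -/
def FinAvgHeckeC776 : Prop :=
  ∀ (𝔑 𝔑₀ : Ideal (𝓞 K)) (l : ℕ) (o : ℕ → HeightOneSpectrum (𝓞 K)) (Rep : Finset (G K)),
    IsFinData 𝔑 𝔑₀ l o Rep → ∀ (ψ : G K → ℂ) (v : HeightOneSpectrum (𝓞 K)) (a b : ℂ),
      IsHeckeEigenAt ψ v a b → IsHeckeEigenAt (finAvg Rep ψ) v a b

/-- **WB.B3 = FIN-AVG-MEAN.**  The members of `Rep` are trivial at infinity, so they commute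
with the points `Y α β` of a sphere; the integrands are continuous (asset
`T2.H314.continuous_sphere314`, used in `LT/T7/H863/WSub.lean`), so the integral of the finite
sum is the sum of the integrals. -/
def FinAvgMeanC776 : Prop :=
  ∀ (𝔑 𝔑₀ : Ideal (𝓞 K)) (l : ℕ) (o : ℕ → HeightOneSpectrum (𝓞 K)) (Rep : Finset (G K)),
    IsFinData 𝔑 𝔑₀ l o Rep → ∀ (ψ : G K → ℂ) (w : InfinitePlace K) (m : ℝ → ℂ),
      Continuous ψ → MeanEig ψ w m → MeanEig (finAvg Rep ψ) w m

/-- **THE PROJECTOR.** -/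
def IwAvgC776 : Prop :=
  ∀ (μ : Measure (G K)) (F : Set (G K)) (r : G K) (𝔫 : Ideal (𝓞 K))
    (u : HeightOneSpectrum (𝓞 K)), 𝔫 ≠ ⊥ → T5.IsFrame μ F → T5.IsRayGen r →
      ∃ P : (G K → ℂ) →ₗ[ℂ] (G K → ℂ), IsIwAvg776 μ F r 𝔫 u P

/-- **WB.B4 = IW-AVG-ASM (ASSEMBLY).**  `Rep` from `FinDataC K 𝔫 𝔫 _ le_rfl 1 (fun _ => u)`,
`P = finAvg Rep` (linear).  `eig`: `FinAvgCuspC` (cusp function, Iwahori invariant),
`FinAvgPosC776`, `FinAvgHeckeC776`, `FinAvgMeanC776`.  `fix`: `χ(g i u₀) = χ(g)`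
(`IsFinData.mem`, `H193.isIwInv_iff`).  `inner`: `FinAvgOrthC` for the frame `⟨μ, F, r⟩` and
the form `CuspFormC` (`conj_symm`, `add_left`, `smul_left`). -/
def IwAvgAsmC776 : Prop :=
  T1.T1Out K → FinDataC K → FinAvgCuspC K → FinAvgOrthC K → TranslInvC K → FinAvgPosC776 K →
    FinAvgHeckeC776 K → FinAvgMeanC776 K → CuspFormC K → WSubC K → IwAvgC776 K

/-- **WB.C2 = W-ASM (ASSEMBLY).**  `ProjSeqC776` for `M = G K → ℂ`, `form = T5.innerD μ F`,
`Vm` = the cusp functions, `Wm` = the invariant cusp functions (`InW`), `A = EigData K`,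
`u = w₀`, `cl = c₀`, `P`; `P (w₀ j)` lies in its class space by `IsIwAvg776.eig`,
`isEigFn_zero_of776` and `IsW0Basis776.exhaust`.  The new sequence `w`, `J ⊆ J₀`, `c = c₀`:
`eig` by induction on the span (`WSubC.addC`, `smulC`; the zero function is in every class),
`exhaust` from `IsW0Basis776.exhaust` and the last conclusion of `ProjSeqC776`. -/
def WAsmC776 : Prop :=
  W0BasisC776 K → IwAvgC776 K → ProjSeqC776 → CuspFormC K → WSubC K → WBasisC K

end Leaves

/-! ## 3. The top -/

section Top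

variable {K : Type} [Field K] [NumberField K]

/-- **THE TOP of the node `WBasisC`.** -/
theorem wBasisC_of776 (hRaw : W0RawC776 K) (hOrth : OrthClsC776 K) (hFin : ClassFinC776 K)
    (hAbs : AbsExhaustC776) (hW0 : W0AsmC776 K) (hT1 : T1.T1Out K) (hFD : FinDataC K)
    (hFC : FinAvgCuspC K) (hFO : FinAvgOrthC K) (hTI : TranslInvC K) (hPos : FinAvgPosC776 K)
    (hHe : FinAvgHeckeC776 K) (hMe : FinAvgMeanC776 K) (hIw : IwAvgAsmC776 K)
    (hPS : ProjSeqC776) (hW : WAsmC776 K) (hForm : CuspFormC K) (hSub : WSubC K) :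
    WBasisC K :=
  hW (hW0 hRaw hOrth hFin hAbs hForm hSub)
    (hIw hT1 hFD hFC hFO hTI hPos hHe hMe hForm hSub) hPS hForm hSub

end Top

end Fermat.Agent.LT.T7.WB776

end

end
-- ===== PACK-END LT/T7/H776/WBasisSpec.lean

-- ===== PACK-BEGIN LT/T7/H570/KillUp.lean
section




/-!
# Row LT, tower T7, node T7.L2.1.F, LEAF T7.L2.1.F4 `KillUpC` (helper570)

OFF-MAIN.  `killUpC570 K K' : H893.KillUpC K K'` VERBATIM (SupplyFamSpec.lean of helper893,
sha256 32dee4c883d1e310), UNCONDITIONAL.  Also `killDownC570 K K' : H893.KillDownC K K'`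
(the same proof downstairs).

Proof.  `R(φ₁ ⋆ φ) = R(φ₁) R(φ)` for continuous functions with compact support
(`T5.H277.Rconv_Rconv277`, helper277, byte-identical copy), and the class of the continuous
functions `φ` with compact support and `R(φ) ψ = 0` is stable under left translates, finite sums
of left translates and scalar multiples (left invariance of the Haar measure), hence under
`lsum`, `iwL`, `regL`.  The second base function is in the class by `up2_kill` (`dn2_kill`).
-/

set_option autoImplicit false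

open AutomorphicForm IsDedekindDomain NumberField MeasureTheory
open scoped ComplexConjugate

noncomputable section

namespace Fermat.Agent.LT.T7.H570

open Fermat.Agent.LT.H556 Fermat.Agent.LT.H556.A0 Fermat.Agent.LT.T7 Fermat.Agent.LT.T7.H893

attribute [local instance] Fermat.Agent.LT.T5.instMeasurableSpaceG

section OneField

variable {K : Type} [Field K] [NumberField K]

/-- The class of the base functions which kill `ψ`: continuous, compact support,
`R(φ) ψ = 0`. -/
structure Kills570 (μ : Measure (G K)) (ψ : G K → ℂ) (φ : G K → ℂ) : Prop where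
  cont : Continuous φ
  supp : HasCompactSupport φ
  kill : ∀ y : G K, T5.Rconv μ φ ψ y = 0

variable {μ : Measure (G K)} {ψ : G K → ℂ}

/-- `R(ltr b φ) ψ = (R(φ) ψ)(· b)`. -/
theorem Rconv_ltr570 [μ.IsMulLeftInvariant] (b : G K) (φ : G K → ℂ) (y : G K) :
    T5.Rconv μ (ltr b φ) ψ y = T5.Rconv μ φ ψ (y * b) := by
  have : BorelSpace (G K) := T5.H277.borelSpaceG277
  unfold T5.Rconv ltr
  have h := integral_mul_left_eq_self (μ := μ) (fun t => φ (b⁻¹ * t) * ψ (y * t)) b
  rw [← h]
  refine integral_congr_ae (Filter.Eventually.of_forall fun t => ?_)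
  simp only [inv_mul_cancel_left, mul_assoc]

theorem continuous_ltr570 (b : G K) {φ : G K → ℂ} (h : Continuous φ) :
    Continuous (ltr b φ) :=
  h.comp (continuous_const_mul b⁻¹)

theorem hasCompactSupport_ltr570 (b : G K) {φ : G K → ℂ} (h : HasCompactSupport φ) :
    HasCompactSupport (ltr b φ) :=
  h.comp_homeomorph (Homeomorph.mulLeft b⁻¹)

theorem kills_ltr570 [μ.IsMulLeftInvariant] (b : G K) {φ : G K → ℂ} (h : Kills570 μ ψ φ) :
    Kills570 μ ψ (ltr b φ) where
  cont := continuous_ltr570 b h.cont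
  supp := hasCompactSupport_ltr570 b h.supp
  kill := fun y => by rw [Rconv_ltr570, h.kill]

theorem kills_zero570 : Kills570 μ ψ (fun _ => (0 : ℂ)) where
  cont := continuous_const
  supp := HasCompactSupport.zero
  kill := fun y => by
    unfold T5.Rconv
    simp

theorem kills_add570 [μ.IsHaarMeasure] (hψ : Continuous ψ) {φ₁ φ₂ : G K → ℂ}
    (h₁ : Kills570 μ ψ φ₁) (h₂ : Kills570 μ ψ φ₂) :
    Kills570 μ ψ (fun y => φ₁ y + φ₂ y) where
  cont := h₁.cont.add h₂.cont
  supp := h₁.supp.add h₂.supp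
  kill := fun y => by
    have : BorelSpace (G K) := T5.H277.borelSpaceG277
    have hc : Continuous fun t : G K => ψ (y * t) := hψ.comp (continuous_const_mul y)
    have i₁ : Integrable (fun t => φ₁ t * ψ (y * t)) μ :=
      (h₁.cont.mul hc).integrable_of_hasCompactSupport h₁.supp.mul_right
    have i₂ : Integrable (fun t => φ₂ t * ψ (y * t)) μ :=
      (h₂.cont.mul hc).integrable_of_hasCompactSupport h₂.supp.mul_right
    have e₁ := h₁.kill y
    have e₂ := h₂.kill y
    unfold T5.Rconv at e₁ e₂ ⊢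
    simp only [add_mul]
    rw [integral_add i₁ i₂, e₁, e₂, add_zero]

theorem kills_smul570 (c : ℂ) {φ : G K → ℂ} (h : Kills570 μ ψ φ) :
    Kills570 μ ψ (fun y => c * φ y) where
  cont := continuous_const.mul h.cont
  supp := h.supp.mul_left
  kill := fun y => by
    have e := h.kill y
    unfold T5.Rconv at e ⊢
    simp only [mul_assoc]
    rw [integral_const_mul, e, mul_zero]

theorem kills_sum570 [μ.IsHaarMeasure] (hψ : Continuous ψ) {ι : Type} (s : Finset ι)
    (f : ι → G K → ℂ) (h : ∀ i ∈ s, Kills570 μ ψ (f i)) :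
    Kills570 μ ψ (fun y => ∑ i ∈ s, f i y) := by
  classical
  induction s using Finset.induction_on with
  | empty =>
    simpa using (kills_zero570 (μ := μ) (ψ := ψ))
  | insert a s ha ih =>
    have h1 : Kills570 μ ψ (f a) := h a (Finset.mem_insert_self a s)
    have h2 : Kills570 μ ψ (fun y => ∑ i ∈ s, f i y) :=
      ih fun i hi => h i (Finset.mem_insert_of_mem hi)
    have h3 := kills_add570 hψ h1 h2
    have e : (fun y => ∑ i ∈ insert a s, f i y) = fun y => f a y + ∑ i ∈ s, f i y := by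
      funext y
      rw [Finset.sum_insert ha]
    rw [e]
    exact h3

theorem kills_lsum570 [μ.IsHaarMeasure] (hψ : Continuous ψ) (H : Finset (G K)) {φ : G K → ℂ}
    (h : Kills570 μ ψ φ) : Kills570 μ ψ (lsum H φ) :=
  kills_sum570 hψ H (fun b => ltr b φ) fun b _ => kills_ltr570 b h

theorem kills_iwL570 [μ.IsHaarMeasure] (hψ : Continuous ψ) (w : HeightOneSpectrum (𝓞 K))
    (H : Finset (G K)) {φ : G K → ℂ} (h : Kills570 μ ψ φ) : Kills570 μ ψ (iwL w H φ) :=
  kills_smul570 _ (kills_lsum570 hψ H h)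

theorem kills_iter570 [μ.IsHaarMeasure] (hψ : Continuous ψ) (w : HeightOneSpectrum (𝓞 K))
    (H : Finset (G K)) (m : ℕ) {φ : G K → ℂ} (h : Kills570 μ ψ φ) :
    Kills570 μ ψ ((iwL w H)^[m] φ) := by
  induction m with
  | zero => simpa using h
  | succ n ih =>
    rw [Function.iterate_succ_apply']
    exact kills_iwL570 hψ w H ih

theorem kills_regL570 [μ.IsHaarMeasure] (hψ : Continuous ψ) (w : HeightOneSpectrum (𝓞 K))
    (z : G K) (H : Finset (G K)) (k : ℤ) (m : ℕ) {φ : G K → ℂ} (h : Kills570 μ ψ φ) :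
    Kills570 μ ψ (regL w z H k m φ) :=
  kills_ltr570 (z ^ k) (kills_iter570 hψ w H m h)

/-- `R(φ₁ ⋆ φ) ψ = 0` if `φ` kills `ψ`. -/
theorem Rconv_conv_kills570 {F : Set (G K)} (hF : T5.IsFrame μ F) (hψ : Continuous ψ)
    {φ₁ φ : G K → ℂ} (h₁c : Continuous φ₁) (h₁s : HasCompactSupport φ₁)
    (h : Kills570 μ ψ φ) (x : G K) : T5.Rconv μ (T5.conv μ φ₁ φ) ψ x = 0 := by
  rw [← T5.H277.Rconv_Rconv277 hF h₁c h₁s h.cont h.supp hψ x]
  have e : T5.Rconv μ φ ψ = fun _ => 0 := funext h.kill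
  rw [e]
  unfold T5.Rconv
  simp

end OneField

variable (K K' : Type) [Field K] [NumberField K] [Field K'] [NumberField K'] [Algebra K K']

/-- **LEAF T7.L2.1.F4 = KILL-UP**, VERBATIM. -/
theorem killUpC570 : KillUpC K K' := by
  intro ℓ Φ B hB g hg E hE X k m hX ψ hψ horth x
  have hF := hB.frame'.frame
  have := hF.haar
  have h2 : Kills570 B.R'.μ ψ E.φ₂ :=
    ⟨hE.up2_test.cont, hE.up2_test.supp, hE.up2_kill ψ hψ horth⟩
  have h3 := kills_lsum570 hψ.cont E.Hg (kills_regL570 hψ.cont (B.o 0) E.z' E.H' k m h2)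
  exact Rconv_conv_kills570 hF hψ.cont (hE.up1_test X hX).cont (hE.up1_test X hX).supp h3 x

/-- **LEAF T7.L2.1.F8 = KILL-DOWN**, VERBATIM (the same proof downstairs). -/
theorem killDownC570 : KillDownC K K' := by
  intro ℓ Φ B hB g hg E hE X k m hX ψ hψ horth x
  have hF := hB.frame.frame
  have := hF.haar
  have h2 : Kills570 B.R.μ ψ E.f₂ :=
    ⟨hE.dn2_test.cont, hE.dn2_test.supp, hE.dn2_kill ψ hψ horth⟩
  have h3 := kills_regL570 hψ.cont B.u E.z E.H k m h2
  exact Rconv_conv_kills570 hF hψ.cont (hE.dn1_test X hX).cont (hE.dn1_test X hX).supp h3 x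

end Fermat.Agent.LT.T7.H570

end

end
-- ===== PACK-END LT/T7/H570/KillUp.lean

-- ===== PACK-BEGIN LT/T7/H736/Core/Blocks.lean
section



/-!
# Row LT, tower T7, node T7.L2.2 `SpecUpC`: THE CUT OF `BlocksC561` IN CORE FORM (over `K'` alone)

OFF-MAIN.  Definitions, frozen Props, PROVED top and PROVED bridges.  No hole, nothing assumed.
ADDITIVE (new names only: namespace `Fermat.Agent.LT.T7.CU736`).

MECHANICAL RETYPING (helper736, owner of record of `SpecUpC`; ruling of helper797 #17842 (1)) of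
the cut of helper561, `T7/H561/SpecUpSpec.lean` (383e6674, section 3) and `T7/H561/BlocksSpec.lean`
(5ceeaa4d), onto the upstairs data `H29.UpData K'` / `H29.IsUpData` of helper29
(`T7/H29/UpCore.lean`, c2d817fc).  SAME short names, SAME field names, SAME docstring proofs:

    Dt : L2Data K K'                                   ↦  U : H29.UpData K'
    IsL2Data ℓ Φ Dt                                    ↦  H29.IsUpData ℓ Φ U
    IsCycExt K K' ℓ → ℓ ≠ 2 → TotCplx K → … → ConstOnFibres K Φ →  ↦  ℓ.Prime → TotCplx K' → …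
    (hDt.comp g hg).aut / .frame' / .cyc / level_ne    ↦  hU.aut g hg / hU.frame' / hU.cyc / hU.level_ne g hg
    IsL2Data.const (places over the same place of K)   ↦  IsUpData.const (`T5.PlaceRel`)

so that ONE proof of each leaf serves the cyclic step AND the step `F / ℚ` (`ℓ = 2`).  The Props
of helper561 which are already over `K'` alone (`H561.AtomsC561`, `H561.ChangeC561`,
`H561.Blocks561`, `H561.IsIwBlock561`, `H561.trOp561`) are used as they are.

Every core leaf implies the leaf of helper561 (section "Bridges": `…_of_core`), so a leaf owner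
who proves the CORE form closes both.
-/

set_option autoImplicit false

open AutomorphicForm IsDedekindDomain NumberField MeasureTheory
open scoped ComplexConjugate Matrix

noncomputable section

namespace Fermat.Agent.LT.T7.CU736

open Fermat.Agent.LT.H556 Fermat.Agent.LT.H556.A0 Fermat.Agent.LT.T7

attribute [local instance] Fermat.Agent.LT.T5.instMeasurableSpaceG

section Blocks

variable (K' : Type) [Field K'] [NumberField K']

variable {K'}

/-- **The base level is `σ`-stable** (see the header: ruling needed). -/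
def BaseStable561 (U : H29.UpData K') : Prop :=
  ∀ u : G K', InLevelGroup U.𝔑₀ u ↔ InLevelGroup U.𝔑₀ (U.s.onG u)

/-- `v` is an orthonormal basis of the class of `C`: the invariant cusp functions of the base
level with joint eigen-data `C` outside `S'`. -/
structure IsClassBasis561 (U : H29.UpData K') (ℓ : ℕ) (C : EigData K') (n : ℕ)
    (v : Fin n → G K' → ℂ) : Prop where
  eig : ∀ a, IsEigFn U.𝔑₀ U.R'.r ℓ U.o (v a) C
  orth : ∀ a b, T5.innerD U.R'.μ U.R'.F (v a) (v b) = if a = b then 1 else 0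
  span : ∀ (ψ : G K' → ℂ) (C' : EigData K'), IsEigFn U.𝔑₀ U.R'.r ℓ U.o ψ C' →
    C'.AgreeOut U.S' C → ∃ c : Fin n → ℂ, ∀ x : G K', ψ x = ∑ a, c a * v a x

/-- The properties of the blocks for the bad element `g` in the complete orthonormal sequence
`e₀`. -/
structure IsBlocks561 (ℓ : ℕ) (Φ : HeckeEigensystem K' ℂ) (U : H29.UpData K') (g : G K')
    (e₀ : ℕ → G K' → ℂ) (𝔅 : H561.Blocks561 K') : Prop where
  onb : T5.IsCuspONB (U.𝔑 g) T5.trivType U.R'.r U.R'.μ U.R'.F e₀
  inj : ∀ (i : 𝔅.ι) (a : Fin (𝔅.n i)) (i' : 𝔅.ι) (a' : Fin (𝔅.n i')),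
    𝔅.idx i a = 𝔅.idx i' a' → (⟨i, a⟩ : Σ i, Fin (𝔅.n i)) = ⟨i', a'⟩
  unitary : ∀ i, (𝔅.C i).IsUnitaryOut U.S'
  distinct : ∀ i i', (𝔅.C i).AgreeOut U.S' (𝔅.C i') → i = i'
  basis : ∀ i, IsClassBasis561 U ℓ (𝔅.C i) (𝔅.n i) (fun a => e₀ (𝔅.idx i a))
  phi : ∃ i, (𝔅.C i).AgreeOut U.S' (eigOf Φ)
  iw : ∀ i, H561.IsIwBlock561 ℓ ((Ideal.absNorm (U.o 0).asIdeal : ℕ) : ℝ)
    (𝔅.A i) (𝔅.B i) (𝔅.S i) (𝔅.ρ i)
  /-- the matrix coefficients inside a block -/
  coeff : ∀ X : List (Gen K'), (∀ x ∈ X, x.Out U.S') →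
    ∀ (k : ℤ) (m : ℕ) (i : 𝔅.ι) (a b : Fin (𝔅.n i)),
      T5.innerD U.R'.μ U.R'.F
          (T5.Rconv U.R'.μ (U.φ' g X k m) (T5.Rsig U.s (e₀ (𝔅.idx i a))))
          (e₀ (𝔅.idx i b))
        = wordEv X (𝔅.C i)
          * (𝔅.B i * (𝔅.ρ i 0 * 𝔅.ρ i 0) ^ k
              * (((Real.sqrt ((Ideal.absNorm (U.o 0).asIdeal : ℕ) : ℝ) : ℝ) : ℂ)⁻¹
                  • (𝔅.S i 0 * 𝔅.ρ i 0)) ^ m
              * 𝔅.A i) b a
  /-- the diagonal coefficients outside the blocks vanish -/
  off : ∀ X : List (Gen K'), (∀ x ∈ X, x.Out U.S') → ∀ (k : ℤ) (m : ℕ) (j : ℕ),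
    (∀ (i : 𝔅.ι) (a : Fin (𝔅.n i)), 𝔅.idx i a ≠ j) →
    T5.diagCoeff U.s U.R'.μ U.R'.F (U.φ' g X k m) (e₀ j) = 0


variable (K')

/-- **NODE T7.L2.2.B = BLOCKS.**  See the header.
Proof (sketch; to be cut).  (1) `T2` (`cuspSpecPlus_closed`, `finite_class130`): the cusp
functions of level `𝔑₀` have an orthonormal basis of joint eigenfunctions of the Hecke operators
outside `S'` and of the sphere means, the classes have finite dimension; the projector on the
functions invariant under the positive scalars at infinity and the Iwahori subgroups along the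
orbit commutes with these operators: orthonormal bases of the classes of the INVARIANT cusp
functions, the eigen-data of a class normalised at the places of `S'` and the radii `d ≤ 0`.
(2) Complete by an orthonormal basis of the orthogonal complement in the cusp functions of level
`𝔑_g` (PROJ-up, `T5.CuspONBExistsC`, Gram--Schmidt).  (3) `R(σ)` preserves the invariant cusp
functions of the base level (`BaseStable561`, `IsCompData.aut`, orbit) and moves the eigen-data
by `σ` (asset helper930 `T7/H930/RsigOps.lean`); the blocks are the classes with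
`C ∘ σ ∼ C`; the class of `Φ` is one (`ConstOnFibres`, `orbit_good`, `level_le`).  (4) On a
block: OP-up for `ψ = R(σ) e_a`; the operators `[U g U]`, `Z`, `𝒰` preserve the classes; matrices
in the basis of the block.  (5) Outside the blocks: KILL-up and the range of `R(φ')` (in the
invariant functions) for the complement; `R(σ) e ⊥ ` class of `e` for a class which is not
stable.  (6) Iwahori--Hecke relations at `o j`: `S_j` = the operator of `I s I`, `ρ_j` = the
translation by `!![0, 1; ϖ, 0]`, `I t I = I s I · ω`, `S² = (q-1) S + q`, `ρ²` = the scalar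
uniformiser; adjoints for the inner product on the fundamental domain; `R(σ)` moves the place
`o j` to `o (j+1)`. -/
def BlocksC561 : Prop :=
  ∀ ℓ : ℕ, ℓ.Prime → TotCplx K' →
    ∀ Φ : HeckeEigensystem K' ℂ, A0.IsCuspAdelicSph0 K' Φ →
      ∀ U : H29.UpData K', H29.IsUpData ℓ Φ U → BaseStable561 U →
      ∀ g : G K', U.IsBad g →
        ∃ (e₀ : ℕ → G K' → ℂ) (𝔅 : H561.Blocks561 K'), IsBlocks561 ℓ Φ U g e₀ 𝔅

/-- **NODE T7.L2.2.N = NON-VANISHING.**  For some bad `g` and some `(k, m)` the twisted trace of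
`R(φ' g [] k m) R(σ)` on the class of `Φ` does not vanish.
Proof (sketch).  The class `V` of `Φ` is not `0` (the form of `Φ`), stable under `R(σ)`, and a
simple module under the Hecke algebra of the places of `S'` (multiplicity one in module form:
asset helper963 `H963/Cyclic.lean` from `T2.H941.MatchC`; Burnside); by OP-up the operators
`c_g [U g U] Z^k 𝒰^m` are in the image; orbit formula + regular trace (assets helper616
`T7/H616/RegTrace.lean`, `RegTrace2.lean`, helper822 `T7/H822/TwNV.lean`, helper11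
`T7/H11/TwTrace.lean`); `c_g ≠ 0` on the class of `Φ` (`base_ne`). -/
def NonVanC561 : Prop :=
  ∀ ℓ : ℕ, ℓ.Prime → TotCplx K' →
    ∀ Φ : HeckeEigensystem K' ℂ, A0.IsCuspAdelicSph0 K' Φ →
      ∀ U : H29.UpData K', H29.IsUpData ℓ Φ U → BaseStable561 U →
      ∃ (g : G K') (k : ℤ) (m : ℕ), U.IsBad g ∧
        ∀ (C : EigData K') (n : ℕ) (v : Fin n → G K' → ℂ),
          C.AgreeOut U.S' (eigOf Φ) → IsClassBasis561 U ℓ C n v →
          (∑ a, T5.innerD U.R'.μ U.R'.F
              (T5.Rconv U.R'.μ (U.φ' g [] k m) (T5.Rsig U.s (v a))) (v a)) ≠ 0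


end Blocks

section BlocksCut

variable {K' : Type} [Field K'] [NumberField K']

/-- **The spectrum of the invariant cusp functions of the base level**: classes `i : ι` with
eigen-data `C i` and orthonormal bases `v i`. -/
structure IsWSpec561 (U : H29.UpData K') (ℓ : ℕ) (ι : Type) (n : ι → ℕ) (C : ι → EigData K')
    (v : (i : ι) → Fin (n i) → G K' → ℂ) : Prop where
  countable : Countable ι
  unitary : ∀ i, (C i).IsUnitaryOut U.S'
  distinct : ∀ i i', (C i).AgreeOut U.S' (C i') → i = i'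
  basis : ∀ i, IsClassBasis561 U ℓ (C i) (n i) (v i)
  orth : ∀ (i i' : ι) (a : Fin (n i)) (a' : Fin (n i')), i ≠ i' →
    T5.innerD U.R'.μ U.R'.F (v i a) (v i' a') = 0
  complete : ∀ ψ : G K' → ℂ, IsWFn U.𝔑₀ U.R'.r ℓ U.o ψ →
    HasSum (fun p : Σ i, Fin (n i) => ‖T5.innerD U.R'.μ U.R'.F ψ (v p.1 p.2)‖ ^ 2)
      (T5.innerD U.R'.μ U.R'.F ψ ψ).re
  cover : ∀ (ψ : G K' → ℂ) (C' : EigData K'), IsEigFn U.𝔑₀ U.R'.r ℓ U.o ψ C' →
    (∃ x : G K', ψ x ≠ 0) → ∃ i, C'.AgreeOut U.S' (C i)

/-- **The operators on the invariant cusp functions of the base level**: `S_j = cosetOp (Hs j)`,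
`ρ_j = H561.trOp561 (ω j)` along the orbit, `B = cosetOp Hg` at the bad places. -/
structure IsWOps561 (U : H29.UpData K') (ℓ : ℕ) (g : G K') (Hs : ℕ → Finset (G K'))
    (ω : ℕ → G K') (Hg : Finset (G K')) : Prop where
  S_eig : ∀ (j : ℕ) (ψ : G K' → ℂ) (C : EigData K'), IsEigFn U.𝔑₀ U.R'.r ℓ U.o ψ C →
    IsEigFn U.𝔑₀ U.R'.r ℓ U.o (cosetOp (Hs j) ψ) C
  ρ_eig : ∀ (j : ℕ) (ψ : G K' → ℂ) (C : EigData K'), IsEigFn U.𝔑₀ U.R'.r ℓ U.o ψ C →
    IsEigFn U.𝔑₀ U.R'.r ℓ U.o (H561.trOp561 (ω j) ψ) C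
  B_eig : ∀ (ψ : G K' → ℂ) (C : EigData K'), IsEigFn U.𝔑₀ U.R'.r ℓ U.o ψ C →
    IsEigFn U.𝔑₀ U.R'.r ℓ U.o (cosetOp Hg ψ) C
  S_quad : ∀ (j : ℕ) (ψ : G K' → ℂ), IsWFn U.𝔑₀ U.R'.r ℓ U.o ψ → ∀ x : G K',
    cosetOp (Hs j) (cosetOp (Hs j) ψ) x
      = (((Ideal.absNorm (U.o 0).asIdeal : ℕ) : ℂ) - 1) * cosetOp (Hs j) ψ x
        + ((Ideal.absNorm (U.o 0).asIdeal : ℕ) : ℂ) * ψ x
  ρ_central : ∀ (j : ℕ) (ψ : G K' → ℂ), IsWFn U.𝔑₀ U.R'.r ℓ U.o ψ → ∀ x : G K',
    H561.trOp561 (ω j) (H561.trOp561 (ω j) (cosetOp (Hs j) ψ)) x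
      = cosetOp (Hs j) (H561.trOp561 (ω j) (H561.trOp561 (ω j) ψ)) x
  comm_SS : ∀ j j' : ℕ, j < ℓ → j' < ℓ → j ≠ j' →
    ∀ ψ : G K' → ℂ, IsWFn U.𝔑₀ U.R'.r ℓ U.o ψ → ∀ x : G K',
      cosetOp (Hs j) (cosetOp (Hs j') ψ) x = cosetOp (Hs j') (cosetOp (Hs j) ψ) x
  comm_Sρ : ∀ j j' : ℕ, j < ℓ → j' < ℓ → j ≠ j' →
    ∀ ψ : G K' → ℂ, IsWFn U.𝔑₀ U.R'.r ℓ U.o ψ → ∀ x : G K',
      cosetOp (Hs j) (H561.trOp561 (ω j') ψ) x = H561.trOp561 (ω j') (cosetOp (Hs j) ψ) x
  comm_ρρ : ∀ j j' : ℕ, j < ℓ → j' < ℓ → j ≠ j' →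
    ∀ ψ : G K' → ℂ, IsWFn U.𝔑₀ U.R'.r ℓ U.o ψ → ∀ x : G K',
      H561.trOp561 (ω j) (H561.trOp561 (ω j') ψ) x = H561.trOp561 (ω j') (H561.trOp561 (ω j) ψ) x
  per_S : ∀ (j : ℕ) (ψ : G K' → ℂ), IsWFn U.𝔑₀ U.R'.r ℓ U.o ψ → ∀ x : G K',
    cosetOp (Hs (j + ℓ)) ψ x = cosetOp (Hs j) ψ x
  per_ρ : ∀ (j : ℕ) (ψ : G K' → ℂ), IsWFn U.𝔑₀ U.R'.r ℓ U.o ψ → ∀ x : G K',
    H561.trOp561 (ω (j + ℓ)) ψ x = H561.trOp561 (ω j) ψ x
  B_S : ∀ (j : ℕ) (ψ : G K' → ℂ), IsWFn U.𝔑₀ U.R'.r ℓ U.o ψ → ∀ x : G K',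
    cosetOp Hg (cosetOp (Hs j) ψ) x = cosetOp (Hs j) (cosetOp Hg ψ) x
  B_ρ : ∀ (j : ℕ) (ψ : G K' → ℂ), IsWFn U.𝔑₀ U.R'.r ℓ U.o ψ → ∀ x : G K',
    cosetOp Hg (H561.trOp561 (ω j) ψ) x = H561.trOp561 (ω j) (cosetOp Hg ψ) x
  S_adj : ∀ (j : ℕ) (ψ χ : G K' → ℂ), IsWFn U.𝔑₀ U.R'.r ℓ U.o ψ →
    IsWFn U.𝔑₀ U.R'.r ℓ U.o χ →
    T5.innerD U.R'.μ U.R'.F (cosetOp (Hs j) ψ) χ
      = T5.innerD U.R'.μ U.R'.F ψ (cosetOp (Hs j) χ)
  ρ_iso : ∀ (j : ℕ) (ψ χ : G K' → ℂ), IsWFn U.𝔑₀ U.R'.r ℓ U.o ψ →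
    IsWFn U.𝔑₀ U.R'.r ℓ U.o χ →
    T5.innerD U.R'.μ U.R'.F (H561.trOp561 (ω j) ψ) (H561.trOp561 (ω j) χ)
      = T5.innerD U.R'.μ U.R'.F ψ χ
  σ_S : ∀ (j : ℕ) (ψ : G K' → ℂ), IsWFn U.𝔑₀ U.R'.r ℓ U.o ψ → ∀ x : G K',
    T5.Rsig U.s (cosetOp (Hs j) ψ) x = cosetOp (Hs (j + 1)) (T5.Rsig U.s ψ) x
  σ_ρ : ∀ (j : ℕ) (ψ : G K' → ℂ), IsWFn U.𝔑₀ U.R'.r ℓ U.o ψ → ∀ x : G K',
    T5.Rsig U.s (H561.trOp561 (ω j) ψ) x = H561.trOp561 (ω (j + 1)) (T5.Rsig U.s ψ) x
  dbl : IsDblCosetSystem U.𝔑₀ g Hg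
  iwsys : IsIwCosetSystem (U.o 0) ((Hs 0).map (mulRightEmbedding (ω 0)))
  unif : IsScalarUniformizerAt (U.o 0) (ω 0 * ω 0)

variable (K')

/-- **LEAF T7.L2.2.B1 = W-SPEC.**
Proof.  `T2.cuspSpecPlus_closed` for the level `𝔑₀` (`𝔑₀ ≠ ⊥`: `level_g` and
`IsCompData.level_ne` for the bad element `1`): an orthonormal complete family of joint
eigenfunctions of EVERY operator of the tower (Hecke operators outside `S'`, sphere means), with
unitary eigen-data; classes of finite dimension (`finite_class130`).  The projector on the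
Iwahori invariants along the orbit (a finite average of right translations, `I / U` is finite)
is self-adjoint, commutes with the operators and maps the class of `C` onto the functions of
`W` in the class; Gram--Schmidt in each class; eigen-data normalised (`0` at the places of `S'`
and the radii `d ≤ 0`) to get `distinct`. -/
def WSpecC561 : Prop :=
  ∀ ℓ : ℕ, ℓ.Prime → TotCplx K' →
    ∀ Φ : HeckeEigensystem K' ℂ, A0.IsCuspAdelicSph0 K' Φ →
      ∀ U : H29.UpData K', H29.IsUpData ℓ Φ U →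
        ∃ (ι : Type) (n : ι → ℕ) (C : ι → EigData K') (v : (i : ι) → Fin (n i) → G K' → ℂ),
          IsWSpec561 U ℓ ι n C v

/-- **LEAF T7.L2.2.B2 = COMPLETE.**
Proof.  `W` consists of cusp functions of level `𝔑_g` (`level_g`).  Take a complete orthonormal
sequence `f_k` of level `𝔑_g` (`T5.CuspONBExistsC`, closed in tower T5 / T2), `h_k` =
Gram--Schmidt of `f_k - P f_k` (`P` = PROJ-up); `e₀` = the family `v` (enumerated by
countability) interleaved with `h_k`; Parseval: `‖f‖² = ‖P f‖² + ‖f - P f‖²`. -/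
def CompleteC561 : Prop :=
  ∀ ℓ : ℕ, ℓ.Prime → TotCplx K' →
    ∀ Φ : HeckeEigensystem K' ℂ, A0.IsCuspAdelicSph0 K' Φ →
      ∀ U : H29.UpData K', H29.IsUpData ℓ Φ U → ∀ g : G K', U.IsBad g →
      ∀ (ι : Type) (n : ι → ℕ) (C : ι → EigData K') (v : (i : ι) → Fin (n i) → G K' → ℂ),
        IsWSpec561 U ℓ ι n C v →
        ∃ (e₀ : ℕ → G K' → ℂ) (idx : (i : ι) → Fin (n i) → ℕ),
          T5.IsCuspONB (U.𝔑 g) T5.trivType U.R'.r U.R'.μ U.R'.F e₀ ∧
          (∀ (i : ι) (a : Fin (n i)) (i' : ι) (a' : Fin (n i')), idx i a = idx i' a' →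
            (⟨i, a⟩ : Σ i, Fin (n i)) = ⟨i', a'⟩) ∧
          (∀ (i : ι) (a : Fin (n i)), e₀ (idx i a) = v i a) ∧
          ∀ j : ℕ, (∀ (i : ι) (a : Fin (n i)), idx i a ≠ j) →
            ∀ χ : G K' → ℂ, IsWFn U.𝔑₀ U.R'.r ℓ U.o χ →
              T5.innerD U.R'.μ U.R'.F (e₀ j) χ = 0

/-- **LEAF T7.L2.2.B3 = SIGMA.**
Proof.  `R(σ)` preserves the cusp functions of the base level (`BaseStable561`,
`IsCompData.aut` for the bad element `1`), the invariance under the positive scalars at
infinity and under the Iwahori subgroups along the orbit (`orbit_rel`, `σ^ℓ = 1`); it moves the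
Hecke operators at `w ∉ S'` to those at `σ w ∉ S'` (`mem_S'_g`: `S'` = the places over the
divisors of `𝔫 g`) and the sphere means at `w` to those at `σ w`: `σC C` = the eigen-data moved
by `σ` (asset helper930 `T7/H930/RsigOps.lean`).  The class of `Φ`: `IsL2Data.const`, and `sph0`
at every infinite place. -/
def SigmaC561 : Prop :=
  ∀ ℓ : ℕ, ℓ.Prime → TotCplx K' →
    ∀ Φ : HeckeEigensystem K' ℂ, A0.IsCuspAdelicSph0 K' Φ →
      ∀ U : H29.UpData K', H29.IsUpData ℓ Φ U → BaseStable561 U →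
        ∃ σC : EigData K' → EigData K',
          (∀ C C' : EigData K', C.AgreeOut U.S' C' → (σC C).AgreeOut U.S' (σC C')) ∧
          (∀ (ψ : G K' → ℂ) (C : EigData K'), IsEigFn U.𝔑₀ U.R'.r ℓ U.o ψ C →
            IsEigFn U.𝔑₀ U.R'.r ℓ U.o (T5.Rsig U.s ψ) (σC C)) ∧
          (σC (eigOf Φ)).AgreeOut U.S' (eigOf Φ)

/-- **NODE T7.L2.2.B4 = OPS.**  See the header and `IsWOps561`.
Proof (sketch; to be cut: local group theory at `o j` + operators on functions).  At the place
`w = o j` with uniformiser `ϖ`: `I` = the Iwahori subgroup (`T5.InIwahori`), `s = !![0,1;1,0]`,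
`ω = !![0,1;ϖ,0]`, `t = !![ϖ,0;0,1] = s ω`, `ω I ω⁻¹ = I`, `ω² = ϖ`,
`I s I = ⨆_{a mod ϖ} !![1,a;0,1] s I` (`q` cosets), `I t I = (I s I) ω`,
`(I s I)(I s I) = I ⊔ I s I` with `1_{IsI} ⋆ 1_{IsI} = (q-1) 1_{IsI} + q 1_I`.  The operators are
finite sums of right translations by elements supported at ONE place of `S'`: they preserve the
cusp functions, commute with the Hecke operators outside `S'`, the sphere means and the
operators at the other places; adjoints: `∫_F ψ(x h) conj χ(x) = ∫_F ψ(x) conj χ(x h⁻¹)` for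
automorphic functions (fundamental domain, ray; T2 `OpsAdjT`), `(I s I)⁻¹ = I s I`; `R(σ) R(h)
= R(σ h) R(σ)` and `σ` maps the Iwahori subgroup at `o j` onto the one at `o (j+1)`. -/
def OpsC561 : Prop :=
  ∀ ℓ : ℕ, ℓ.Prime → TotCplx K' →
    ∀ Φ : HeckeEigensystem K' ℂ, A0.IsCuspAdelicSph0 K' Φ →
      ∀ U : H29.UpData K', H29.IsUpData ℓ Φ U → BaseStable561 U → ∀ g : G K', U.IsBad g →
        ∃ (Hs : ℕ → Finset (G K')) (ω : ℕ → G K') (Hg : Finset (G K')),
          IsWOps561 U ℓ g Hs ω Hg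

/-- **LEAF T7.L2.2.B5 = PHI.**
Proof.  The form `φ` of `Φ` (`A0.IsSph0CuspFormFor`): of level `Φ.level ⊇ 𝔑₀` (`level_le`),
invariant under `GL₂(𝒪_w)` at the places of the orbit (`orbit_good`), in particular under the
Iwahori subgroups; invariant under the ray generator (a product of positive scalars at the
infinite places); `MeanValueComplex` = `MeanEig · sph0` (`K'` is totally complex); Hecke
eigenfunction at `v ∤ 𝔑₀` (then `v ∤ Φ.level`). -/
def PhiC561 : Prop :=
  ∀ ℓ : ℕ, ℓ.Prime → TotCplx K' →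
    ∀ Φ : HeckeEigensystem K' ℂ, A0.IsCuspAdelicSph0 K' Φ →
      ∀ U : H29.UpData K', H29.IsUpData ℓ Φ U →
        ∃ ψ : G K' → ℂ, IsEigFn U.𝔑₀ U.R'.r ℓ U.o ψ (eigOf Φ) ∧ ∃ x : G K', ψ x ≠ 0

/-- **LEAF T7.L2.2.B6 = OFF-W.**  If `R(φ' g X k m)` maps the eigenfunctions of `W` into `W`, the
diagonal coefficient of a cusp function of level `𝔑_g` orthogonal to `W` vanishes.
Proof.  `f = R(σ) e` is a cusp function of level `𝔑_g` (`IsCompData.aut`); `f = f₁ + f₂`,
`f₁ ∈ W`, `f₂ ⊥ W` (PROJ-up); `R(φ') f₂ = 0` (KILL-up); `⟨R(φ') f₁, e⟩ = ⟨f₁, R(φ'*) e⟩`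
(adjoint of a convolution operator, T2 `OpsAdjT`) `= ∑_p ⟨f₁, v_p⟩ conj ⟨R(φ'*) e, v_p⟩`
(Parseval in `W`, polarised; `R(φ'*) e` is a cusp function, its component orthogonal to `W`
does not contribute) and `⟨R(φ'*) e, v_p⟩ = ⟨e, R(φ') v_p⟩ = 0`. -/
def OffWC561 : Prop :=
  ∀ ℓ : ℕ, ℓ.Prime → TotCplx K' →
    ∀ Φ : HeckeEigensystem K' ℂ, A0.IsCuspAdelicSph0 K' Φ →
      ∀ U : H29.UpData K', H29.IsUpData ℓ Φ U → ∀ g : G K', U.IsBad g →
      ∀ (ι : Type) (n : ι → ℕ) (C : ι → EigData K') (v : (i : ι) → Fin (n i) → G K' → ℂ),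
        IsWSpec561 U ℓ ι n C v →
        (∀ X : List (Gen K'), (∀ x ∈ X, x.Out U.S') → ∀ (k : ℤ) (m : ℕ) (ψ : G K' → ℂ)
          (C' : EigData K'), IsEigFn U.𝔑₀ U.R'.r ℓ U.o ψ C' →
            IsWFn U.𝔑₀ U.R'.r ℓ U.o (T5.Rconv U.R'.μ (U.φ' g X k m) ψ)) →
        ∀ e : G K' → ℂ, T5.IsCuspFn (U.𝔑 g) T5.trivType U.R'.r e →
          (∀ χ : G K' → ℂ, IsWFn U.𝔑₀ U.R'.r ℓ U.o χ →
            T5.innerD U.R'.μ U.R'.F e χ = 0) →
          ∀ X : List (Gen K'), (∀ x ∈ X, x.Out U.S') → ∀ (k : ℤ) (m : ℕ),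
            T5.diagCoeff U.s U.R'.μ U.R'.F (U.φ' g X k m) e = 0

/-- **LEAF T7.L2.2.B7 = BLOCKS-ASSEMBLY.**
Proof.  `ι, n, C, v` from `WSpecC561`; `e₀, idx` from `CompleteC561`; `σC` from `SigmaC561`;
`Hs, ω, Hg` from `OpsC561`.  Blocks: `ι' = {i // (σC (C i)).AgreeOut S' (C i)}`.  In a block
every operator `T` among `R(σ)`, `S_j`, `ρ_j`, `B` maps the class into itself (an eigenfunction
for `C'` is one for every `C''` agreeing with `C'` outside `S'`: `mem_S'`, radii `d > 0`), so
`T v_a = ∑_b M_T(b,a) v_b` pointwise with `M_T(b,a) = ⟨T v_a, v_b⟩` (`span`, `orth`, additivity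
of the inner product on bounded continuous functions); `M_{T T'} = M_T M_{T'}` (the operators
are additive: finite sums of translations); `A = M_{R(σ)}`, `B = c_g(C) M_{cosetOp Hg}`,
`S j = M_{S_j}`, `ρ j = M_{ρ_j}`: `H561.IsIwBlock561` from `IsWOps561` (`S_adj` gives `Sᴴ = S`,
`ρ_iso` gives `ρᴴ ρ = 1`).  `coeff`: OP-up for `ψ = R(σ) v_a` with `H = (Hs 0) · ω 0`,
`z = ω 0 ²`: `iwOp = q^{-1/2} S₀ ρ₀`, `shiftOp z k = (ρ₀²)^k` (`k ∈ ℤ`; `ρ₀` is invertible on the
class).  `off`: outside the range of `idx`: `OffWC561` (its hypothesis from OP-up and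
`S_eig`, `ρ_eig`, `B_eig`); in a class which is not stable: `R(φ') R(σ) v_a` is an
eigenfunction for `σC (C i)`, hence `0` or in another class (`cover`, `distinct`), orthogonal
to `v_a` (`orth`).  `phi`: `PhiC561`, `cover`, `SigmaC561`. -/
def BlocksAsmC561 : Prop :=
  WSpecC561 K' → CompleteC561 K' → SigmaC561 K' → OpsC561 K' → PhiC561 K' →
    OffWC561 K' → BlocksC561 K'

variable {K'}

/-- **THE TOP OF THE NODE T7.L2.2.B.** -/
theorem blocksC_of561 (hZ : BlocksAsmC561 K') (hW : WSpecC561 K') (hC : CompleteC561 K')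
    (hS : SigmaC561 K') (hO : OpsC561 K') (hP : PhiC561 K') (hF : OffWC561 K') :
    BlocksC561 K' :=
  hZ hW hC hS hO hP hF

end BlocksCut

/-! ## Bridges: every core leaf implies the leaf of helper561 (cyclic step) -/

section Bridges

variable {K K' : Type} [Field K] [NumberField K] [Field K'] [NumberField K'] [Algebra K K']

theorem isClassBasis_of_core {Dt : L2Data K K'} {ℓ : ℕ} {C : EigData K'} {n : ℕ}
    {v : Fin n → G K' → ℂ} (h : IsClassBasis561 (H29.upOf Dt) ℓ C n v) :
    H561.IsClassBasis561 Dt ℓ C n v where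
  eig := h.eig
  orth := h.orth
  span := h.span

theorem isClassBasis_to_core {Dt : L2Data K K'} {ℓ : ℕ} {C : EigData K'} {n : ℕ}
    {v : Fin n → G K' → ℂ} (h : H561.IsClassBasis561 Dt ℓ C n v) :
    IsClassBasis561 (H29.upOf Dt) ℓ C n v where
  eig := h.eig
  orth := h.orth
  span := h.span

theorem isBlocks_of_core {ℓ : ℕ} {Φ : HeckeEigensystem K' ℂ} {Dt : L2Data K K'} {g : G K'}
    {e₀ : ℕ → G K' → ℂ} {𝔅 : H561.Blocks561 K'}
    (h : IsBlocks561 ℓ Φ (H29.upOf Dt) g e₀ 𝔅) : H561.IsBlocks561 ℓ Φ Dt g e₀ 𝔅 where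
  onb := h.onb
  inj := h.inj
  unitary := h.unitary
  distinct := h.distinct
  basis := fun i => isClassBasis_of_core (h.basis i)
  phi := h.phi
  iw := h.iw
  coeff := h.coeff
  off := h.off

theorem isWSpec_of_core {Dt : L2Data K K'} {ℓ : ℕ} {ι : Type} {n : ι → ℕ} {C : ι → EigData K'}
    {v : (i : ι) → Fin (n i) → G K' → ℂ} (h : IsWSpec561 (H29.upOf Dt) ℓ ι n C v) :
    H561.IsWSpec561 Dt ℓ ι n C v where
  countable := h.countable
  unitary := h.unitary
  distinct := h.distinct
  basis := fun i => isClassBasis_of_core (h.basis i)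
  orth := h.orth
  complete := h.complete
  cover := h.cover

theorem isWSpec_to_core {Dt : L2Data K K'} {ℓ : ℕ} {ι : Type} {n : ι → ℕ} {C : ι → EigData K'}
    {v : (i : ι) → Fin (n i) → G K' → ℂ} (h : H561.IsWSpec561 Dt ℓ ι n C v) :
    IsWSpec561 (H29.upOf Dt) ℓ ι n C v where
  countable := h.countable
  unitary := h.unitary
  distinct := h.distinct
  basis := fun i => isClassBasis_to_core (h.basis i)
  orth := h.orth
  complete := h.complete
  cover := h.cover

theorem isWOps_of_core {Dt : L2Data K K'} {ℓ : ℕ} {g : G K'} {Hs : ℕ → Finset (G K')}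
    {ω : ℕ → G K'} {Hg : Finset (G K')} (h : IsWOps561 (H29.upOf Dt) ℓ g Hs ω Hg) :
    H561.IsWOps561 Dt ℓ g Hs ω Hg where
  S_eig := h.S_eig
  ρ_eig := h.ρ_eig
  B_eig := h.B_eig
  S_quad := h.S_quad
  ρ_central := h.ρ_central
  comm_SS := h.comm_SS
  comm_Sρ := h.comm_Sρ
  comm_ρρ := h.comm_ρρ
  per_S := h.per_S
  per_ρ := h.per_ρ
  B_S := h.B_S
  B_ρ := h.B_ρ
  S_adj := h.S_adj
  ρ_iso := h.ρ_iso
  σ_S := h.σ_S
  σ_ρ := h.σ_ρ
  dbl := h.dbl
  iwsys := h.iwsys
  unif := h.unif

theorem blocksC_of_core (hC : BlocksC561 K') : H561.BlocksC561 K K' := by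
  intro ℓ hcyc _ hcplx Φ hΦ _ Dt hDt hst g hg
  obtain ⟨e₀, 𝔅, h⟩ := hC ℓ hcyc.prime (H29.totCplx_of_base hcplx) Φ hΦ (H29.upOf Dt)
    (H29.isUpData_upOf hDt) hst g hg
  exact ⟨e₀, 𝔅, isBlocks_of_core h⟩

theorem nonVanC_of_core (hC : NonVanC561 K') : H561.NonVanC561 K K' := by
  intro ℓ hcyc _ hcplx Φ hΦ _ Dt hDt hst
  obtain ⟨g, k, m, hg, h⟩ := hC ℓ hcyc.prime (H29.totCplx_of_base hcplx) Φ hΦ (H29.upOf Dt)
    (H29.isUpData_upOf hDt) hst
  exact ⟨g, k, m, hg, fun C n v hC' hv => h C n v hC' (isClassBasis_to_core hv)⟩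

theorem wSpecC_of_core (hC : WSpecC561 K') : H561.WSpecC561 K K' := by
  intro ℓ hcyc _ hcplx Φ hΦ _ Dt hDt
  obtain ⟨ι, n, C, v, h⟩ := hC ℓ hcyc.prime (H29.totCplx_of_base hcplx) Φ hΦ (H29.upOf Dt)
    (H29.isUpData_upOf hDt)
  exact ⟨ι, n, C, v, isWSpec_of_core h⟩

theorem completeC_of_core (hC : CompleteC561 K') : H561.CompleteC561 K K' := by
  intro ℓ hcyc _ hcplx Φ hΦ _ Dt hDt g hg ι n C v hv
  exact hC ℓ hcyc.prime (H29.totCplx_of_base hcplx) Φ hΦ (H29.upOf Dt)
    (H29.isUpData_upOf hDt) g hg ι n C v (isWSpec_to_core hv)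

theorem sigmaC_of_core (hC : SigmaC561 K') : H561.SigmaC561 K K' := by
  intro ℓ hcyc _ hcplx Φ hΦ _ Dt hDt hst
  exact hC ℓ hcyc.prime (H29.totCplx_of_base hcplx) Φ hΦ (H29.upOf Dt)
    (H29.isUpData_upOf hDt) hst

theorem opsC_of_core (hC : OpsC561 K') : H561.OpsC561 K K' := by
  intro ℓ hcyc _ hcplx Φ hΦ _ Dt hDt hst g hg
  obtain ⟨Hs, ω, Hg, h⟩ := hC ℓ hcyc.prime (H29.totCplx_of_base hcplx) Φ hΦ (H29.upOf Dt)
    (H29.isUpData_upOf hDt) hst g hg
  exact ⟨Hs, ω, Hg, isWOps_of_core h⟩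

theorem phiC_of_core (hC : PhiC561 K') : H561.PhiC561 K K' := by
  intro ℓ hcyc _ hcplx Φ hΦ _ Dt hDt
  exact hC ℓ hcyc.prime (H29.totCplx_of_base hcplx) Φ hΦ (H29.upOf Dt)
    (H29.isUpData_upOf hDt)

theorem offWC_of_core (hC : OffWC561 K') : H561.OffWC561 K K' := by
  intro ℓ hcyc _ hcplx Φ hΦ _ Dt hDt g hg ι n C v hv
  exact hC ℓ hcyc.prime (H29.totCplx_of_base hcplx) Φ hΦ (H29.upOf Dt)
    (H29.isUpData_upOf hDt) g hg ι n C v (isWSpec_to_core hv)

end Bridges

/-! ## Appendix: the equation lemmas of the definitions of this file are realised HERE -/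

theorem eqns_realised_coreBlocks736 : True := by
  have _a1 := @BaseStable561.eq_1
  have _a2 := @BaseStable561.eq_def
  have _a3 := @BaseStable561.eq_unfold
  have _b1 := @BlocksC561.eq_1
  have _b2 := @BlocksC561.eq_def
  have _b3 := @BlocksC561.eq_unfold
  have _n1 := @NonVanC561.eq_1
  have _n2 := @NonVanC561.eq_def
  have _n3 := @NonVanC561.eq_unfold
  have _w1 := @WSpecC561.eq_1
  have _w2 := @WSpecC561.eq_def
  have _w3 := @WSpecC561.eq_unfold
  have _c1 := @CompleteC561.eq_1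
  have _c2 := @CompleteC561.eq_def
  have _c3 := @CompleteC561.eq_unfold
  have _s1 := @SigmaC561.eq_1
  have _s2 := @SigmaC561.eq_def
  have _s3 := @SigmaC561.eq_unfold
  have _o1 := @OpsC561.eq_1
  have _o2 := @OpsC561.eq_def
  have _o3 := @OpsC561.eq_unfold
  have _p1 := @PhiC561.eq_1
  have _p2 := @PhiC561.eq_def
  have _p3 := @PhiC561.eq_unfold
  have _f1 := @OffWC561.eq_1
  have _f2 := @OffWC561.eq_def
  have _f3 := @OffWC561.eq_unfold
  have _z1 := @BlocksAsmC561.eq_1
  have _z2 := @BlocksAsmC561.eq_def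
  have _z3 := @BlocksAsmC561.eq_unfold
  trivial

end Fermat.Agent.LT.T7.CU736

end

end
-- ===== PACK-END LT/T7/H736/Core/Blocks.lean

-- ===== PACK-BEGIN LT/T7/H510/PosFamily.lean
section


/-!
# Row LT, tower T7, leaf T7.L2.1.P1a `PosFamilyC` (registry 2166) — helper510, OFF-MAIN

    posFamilyC_h510 (K) : Fermat.Agent.LT.T7.H40.PosFamilyC K

verbatim against `LT/T7/H40/ArchProjSpec.lean` (helper40@6d20eda5a, sha256 34d7f842).
Self-contained: imports the spec only.

`realAt_h510 w s` is the real number `s` in the completion at the infinite place `w`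
(characterised by `extensionEmbedding w (realAt_h510 w s) = s`; the embedding is an injective
isometry, whence multiplicativity and continuity).  The idele `a(t) = ((e^{t_w})_w, 1)` is a
unit with inverse `a(-t)`, and `Z t` is the scalar matrix of `a(t)`.
-/

set_option autoImplicit false
set_option linter.unusedSectionVars false

open AutomorphicForm IsDedekindDomain NumberField MeasureTheory

noncomputable section

namespace Fermat.Agent.LT.T7.H510

open Fermat.Agent.LT.H556 Fermat.Agent.LT.H556.A0 Fermat.Agent.LT.T7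

variable {K : Type} [Field K] [NumberField K]

/-! ## 1. Real numbers at an infinite place -/

/-- Every real number lies in the completion at an infinite place. -/
theorem exists_realAt_h510 (w : InfinitePlace K) (s : ℝ) :
    ∃ x : w.Completion, InfinitePlace.Completion.extensionEmbedding w x = (s : ℂ) := by
  by_cases hw : w.IsReal
  · obtain ⟨x, hx⟩ := InfinitePlace.Completion.surjective_extensionEmbeddingOfIsReal hw s
    exact ⟨x, by rw [← InfinitePlace.Completion.extensionEmbeddingOfIsReal_apply hw, hx]⟩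
  · exact InfinitePlace.Completion.surjective_extensionEmbedding_of_isComplex
      (InfinitePlace.not_isReal_iff_isComplex.mp hw) _

/-- The real number `s` in the completion at `w`. -/
def realAt_h510 (w : InfinitePlace K) (s : ℝ) : w.Completion :=
  Classical.choose (exists_realAt_h510 w s)

theorem ext_realAt_h510 (w : InfinitePlace K) (s : ℝ) :
    InfinitePlace.Completion.extensionEmbedding w (realAt_h510 w s) = (s : ℂ) :=
  Classical.choose_spec (exists_realAt_h510 w s)

theorem realAt_mul_h510 (w : InfinitePlace K) (s t : ℝ) :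
    realAt_h510 w (s * t) = realAt_h510 w s * realAt_h510 w t := by
  apply (InfinitePlace.Completion.extensionEmbedding w).injective
  rw [map_mul, ext_realAt_h510, ext_realAt_h510, ext_realAt_h510, Complex.ofReal_mul]

theorem realAt_one_h510 (w : InfinitePlace K) : realAt_h510 w 1 = 1 := by
  apply (InfinitePlace.Completion.extensionEmbedding w).injective
  rw [map_one, ext_realAt_h510, Complex.ofReal_one]

theorem continuous_realAt_h510 (w : InfinitePlace K) : Continuous (realAt_h510 w) := by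
  have hi : Topology.IsInducing (InfinitePlace.Completion.extensionEmbedding w) :=
    (InfinitePlace.Completion.isometry_extensionEmbedding w).isEmbedding.isInducing
  rw [hi.continuous_iff]
  have : (InfinitePlace.Completion.extensionEmbedding w) ∘ (realAt_h510 w)
      = fun s : ℝ => (s : ℂ) := by
    funext s
    exact ext_realAt_h510 w s
  rw [this]
  exact Complex.continuous_ofReal

/-! ## 2. The idele `a(t)` -/

/-- The adele `((e^{t_w})_w, 1)`. -/
def posAdl_h510 (t : InfinitePlace K → ℝ) : Adl K :=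
  ((fun w => realAt_h510 w (Real.exp (t w))), 1)

theorem posAdl_add_h510 (s t : InfinitePlace K → ℝ) :
    (posAdl_h510 (s + t) : Adl K) = posAdl_h510 s * posAdl_h510 t := by
  refine Prod.ext (funext fun w => ?_) ?_
  · show realAt_h510 w (Real.exp (s w + t w))
      = realAt_h510 w (Real.exp (s w)) * realAt_h510 w (Real.exp (t w))
    rw [Real.exp_add, realAt_mul_h510]
  · show (1 : FiniteAdeleRing (𝓞 K) K) = 1 * 1
    rw [one_mul]

theorem posAdl_zero_h510 : (posAdl_h510 (0 : InfinitePlace K → ℝ) : Adl K) = 1 := by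
  refine Prod.ext (funext fun w => ?_) rfl
  show realAt_h510 w (Real.exp 0) = 1
  rw [Real.exp_zero, realAt_one_h510]

theorem continuous_posAdl_h510 :
    Continuous (posAdl_h510 : (InfinitePlace K → ℝ) → Adl K) := by
  unfold posAdl_h510
  exact Continuous.prodMk
    (continuous_pi fun w =>
      (continuous_realAt_h510 w).comp (Real.continuous_exp.comp (continuous_apply w)))
    continuous_const

/-- The idele `a(t)`, with inverse `a(-t)`. -/
def posUnit_h510 (t : InfinitePlace K → ℝ) : (Adl K)ˣ where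
  val := posAdl_h510 t
  inv := posAdl_h510 (-t)
  val_inv := by rw [← posAdl_add_h510, add_neg_cancel, posAdl_zero_h510]
  inv_val := by rw [← posAdl_add_h510, neg_add_cancel, posAdl_zero_h510]

theorem posUnit_add_h510 (s t : InfinitePlace K → ℝ) :
    (posUnit_h510 (s + t) : (Adl K)ˣ) = posUnit_h510 s * posUnit_h510 t :=
  Units.ext (posAdl_add_h510 s t)

theorem continuous_posUnit_h510 :
    Continuous (posUnit_h510 : (InfinitePlace K → ℝ) → (Adl K)ˣ) := by
  rw [Units.continuous_iff]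
  refine ⟨continuous_posAdl_h510, ?_⟩
  show Continuous fun t : InfinitePlace K → ℝ => (posAdl_h510 (-t) : Adl K)
  exact continuous_posAdl_h510.comp continuous_neg

/-! ## 3. The family `Z` -/

/-- The scalar matrices, as a monoid homomorphism. -/
def scalHom_h510 (K : Type) [Field K] [NumberField K] :
    Adl K →* Matrix (Fin 2) (Fin 2) (Adl K) :=
  (Matrix.scalar (Fin 2) : Adl K →+* Matrix (Fin 2) (Fin 2) (Adl K)).toMonoidHom

theorem continuous_scalHom_h510 : Continuous (scalHom_h510 K) := by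
  show Continuous fun a : Adl K => Matrix.diagonal (fun _ : Fin 2 => a)
  exact Continuous.matrix_diagonal (continuous_pi fun _ => continuous_id)

/-- The family of positive scalars at infinity. -/
def posFam_h510 (t : InfinitePlace K → ℝ) : G K :=
  Units.map (scalHom_h510 K) (posUnit_h510 t)

theorem posFam_val_h510 (t : InfinitePlace K → ℝ) :
    ((posFam_h510 t : G K) : Matrix (Fin 2) (Fin 2) (Adl K))
      = Matrix.diagonal (fun _ : Fin 2 => (posAdl_h510 t : Adl K)) := rfl

theorem isPosFamily_h510 : H40.IsPosFamily40 (posFam_h510 : (InfinitePlace K → ℝ) → G K) where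
  cont := (Continuous.units_map (scalHom_h510 K) continuous_scalHom_h510).comp
    continuous_posUnit_h510
  mul s t := by
    show Units.map (scalHom_h510 K) (posUnit_h510 (s + t)) = _
    rw [posUnit_add_h510, map_mul]
    rfl
  central t g := by
    apply Units.ext
    show ((posFam_h510 t : G K) : Matrix (Fin 2) (Fin 2) (Adl K)) * g.val
      = g.val * ((posFam_h510 t : G K) : Matrix (Fin 2) (Fin 2) (Adl K))
    exact (Matrix.scalar_commute (posAdl_h510 t) (fun r => Commute.all _ _) g.val).eq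
  fin_triv t v := by
    show finComp v (posFam_h510 t) = 1
    refine Matrix.ext fun i j => ?_
    show ((((posFam_h510 t : G K) : Matrix (Fin 2) (Fin 2) (Adl K)) i j).2) v = _
    rw [posFam_val_h510, Matrix.diagonal_apply, Matrix.one_apply]
    split_ifs with h
    · rfl
    · rfl
  inf_comp t w := by
    refine Matrix.ext fun i j => ?_
    show InfinitePlace.Completion.extensionEmbedding w
      ((((posFam_h510 t : G K) : Matrix (Fin 2) (Fin 2) (Adl K)) i j).1 w) = _
    rw [posFam_val_h510, Matrix.diagonal_apply, Matrix.diagonal_apply]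
    split_ifs with h
    · exact ext_realAt_h510 w _
    · exact map_zero _

/-- **T7.L2.1.P1a `PosFamilyC`** (registry 2166). -/
theorem posFamilyC_h510 (K : Type) [Field K] [NumberField K] : H40.PosFamilyC K :=
  ⟨posFam_h510, isPosFamily_h510⟩

end Fermat.Agent.LT.T7.H510

end
end
-- ===== PACK-END LT/T7/H510/PosFamily.lean

-- ===== PACK-BEGIN LT/T7/H587/RealQ.lean
section



/-!
# Row LT, tower T7, node T7.L2Q.3 `SpecDownQC`: leaf SDQ.8 = `RealQC` (registry row 2291)

OFF-MAIN (helper587).  Spec: `LT/T7/H140/SpecDownQSpec.lean` of helper140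
(sha256 7aa829b756fe1896), byte-identical copy.

    realQC587 (n) : SDQ140.RealQC n        (VERBATIM, both types)

`w0`: the function itself is a form as in `A0.IsSph0CuspFormFor ⟨𝔫, _, c.a, c.b⟩` (`ℚ` has no
complex place; the constant of `A0.MeanValueReal` is `2π · sphR0 0 (cosh t)`: `SphValuesC`).
`w1`: `RealWtOneC` (weight one from `arch_compact` and `L2Q.wtOne_rotC`; the constant of
`T6.Inf.MeanValueWtOne` is `2π · sphR1 0 (cosh t)`: `SphValuesC`).
-/

set_option autoImplicit false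

open AutomorphicForm IsDedekindDomain NumberField MeasureTheory
open scoped ComplexConjugate

noncomputable section

namespace Fermat.Agent.LT.T7.H587

open Fermat.Agent.LT.H556 Fermat.Agent.LT.H556.A0 Fermat.Agent.LT.H670 Fermat.Agent.LT.T7
open Fermat.Agent.LT.T7.L2Q Fermat.Agent.LT.T7.SDQ140

/-- `rotC θ` is unitary. -/
theorem rotC_mul_conjTranspose587 (θ : ℝ) :
    QOut.rotC θ * (QOut.rotC θ).conjTranspose = 1 := by
  have h : Complex.cos (θ : ℂ) * Complex.cos (θ : ℂ)
      + Complex.sin (θ : ℂ) * Complex.sin (θ : ℂ) = 1 := by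
    rw [← Complex.cos_sq_add_sin_sq (θ : ℂ)]
    ring
  have hc : (starRingEnd ℂ) (Complex.cos (θ : ℂ)) = Complex.cos (θ : ℂ) := by
    rw [← Complex.ofReal_cos, Complex.conj_ofReal]
  have hs : (starRingEnd ℂ) (Complex.sin (θ : ℂ)) = Complex.sin (θ : ℂ) := by
    rw [← Complex.ofReal_sin, Complex.conj_ofReal]
  ext i j
  fin_cases i <;> fin_cases j <;>
    simp [QOut.rotC, Matrix.mul_apply, Matrix.conjTranspose_apply, Fin.sum_univ_two, hc, hs]
  · exact h
  · ring
  · ring
  · rw [add_comm]; exact h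

/-- `det (rotC θ) = 1`. -/
theorem det_rotC587 (θ : ℝ) : (QOut.rotC θ).det = 1 := by
  have h : Complex.cos (θ : ℂ) * Complex.cos (θ : ℂ)
      + Complex.sin (θ : ℂ) * Complex.sin (θ : ℂ) = 1 := by
    rw [← Complex.cos_sq_add_sin_sq (θ : ℂ)]
    ring
  simp [QOut.rotC, Matrix.det_fin_two]
  exact h

/-- An element which is local at `w` with component `rotC θ` lies in the maximal connected
compact subgroup at `w`. -/
theorem isArchCompact_of_rotC587 {w : InfinitePlace ℚ} {k : G ℚ} {θ : ℝ}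
    (hloc : IsLocalAtInf w k) (h : infComp w k = QOut.rotC θ) : IsArchCompact w k :=
  ⟨hloc, by rw [h]; exact rotC_mul_conjTranspose587 θ, fun _ => by rw [h]; exact det_rotC587 θ⟩

/-- **LEAF SDQ.8 = REALISATION of the parameter `0`**, type `w0`. -/
theorem realQC_w0_587 : RealQC QWt.w0 := by
  intro hVal _ 𝔫 r u ψ c h𝔫 hψ hne hm
  refine ⟨⟨𝔫, h𝔫, c.a, c.b⟩, rfl, rfl, Or.inl ⟨ψ, ?_⟩⟩
  have hcusp : T5.IsCuspFn 𝔫 T5.trivType r ψ := hψ.inv.cusp
  have hmean : ∀ w : InfinitePlace ℚ, MeanEigR0 ψ w (c.m w) := hψ.mean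
  refine
    { cont := hcusp.cont
      bdd := hcusp.bdd
      ne_zero := hne
      left_inv := fun γ g => hcusp.aut.left_inv γ g
      level_inv := fun u hu g => hcusp.aut.level_inv u hu g
      arch_scalar := hψ.inv.arch_scalar
      arch_compact := fun w k hk g => ?_
      mean_complex := fun w hw => ?_
      mean_real := fun w _ t ht Y hY g => ?_
      cuspidal := hcusp.cuspidal
      hecke := fun v hv => hψ.hecke v hv }
  · have h : ψ (g * k) = (1 : ℂ) * ψ g := hcusp.aut.arch_compact w k hk g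
    rw [h, one_mul]
  · exfalso
    have hw' : w = Rat.infinitePlace := Subsingleton.elim _ _
    rw [hw'] at hw
    exact (InfinitePlace.not_isReal_iff_isComplex.mpr hw) Rat.isReal_infinitePlace
  · rw [hmean w t ht Y hY g, hm w t ht]
    have h0 : T6.sphRad (QWt.w0).wt 0 (Real.cosh t) = T6.sphR0 0 (Real.cosh t) := by
      show (if (0 : ℤ) = 0 then T6.sphR0 0 (Real.cosh t) else T6.sphR1 0 (Real.cosh t))
        = T6.sphR0 0 (Real.cosh t)
      exact if_pos rfl
    rw [h0, hVal.2.1 t ht]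

/-- **LEAF SDQ.8 = REALISATION of the parameter `0`**, type `w1`. -/
theorem realQC_w1_587 : RealQC QWt.w1 := by
  intro hVal hW1 𝔫 r u ψ c h𝔫 hψ hne hm
  have hcusp : T5.IsCuspFn 𝔫 wtOne r ψ := hψ.inv.cusp
  have hmean : ∀ w : InfinitePlace ℚ, MeanEigR1 ψ w (c.m w) := hψ.mean
  refine hW1 ⟨𝔫, h𝔫, c.a, c.b⟩ ψ hcusp.cont hcusp.bdd hne
    (fun γ g => hcusp.aut.left_inv γ g) (fun u hu g => hcusp.aut.level_inv u hu g)
    hψ.inv.arch_scalar ?_ ?_ (fun v hv => hψ.hecke v hv)
  · intro w θ k hloc hk g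
    rw [hcusp.aut.arch_compact w k (isArchCompact_of_rotC587 hloc hk) g]
    have hw' : w = Rat.infinitePlace := Subsingleton.elim _ _
    rw [hw'] at hk
    rw [wtOne_rotC hk]
  · intro w t ht Y hY g
    rw [hmean w t ht Y hY g, hm w t ht]
    have h1 : T6.sphRad (QWt.w1).wt 0 (Real.cosh t) = T6.sphR1 0 (Real.cosh t) := by
      show (if (-1 : ℤ) = 0 then T6.sphR0 0 (Real.cosh t) else T6.sphR1 0 (Real.cosh t))
        = T6.sphR1 0 (Real.cosh t)
      exact if_neg (by decide)
    rw [h1, hVal.2.2 t ht]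
    congr 1
    push_cast
    ring

/-- **LEAF SDQ.8 = REALISATION of the parameter `0`**, verbatim, both types. -/
theorem realQC587 (n : QWt) : RealQC n := by
  cases n with
  | w0 => exact realQC_w0_587
  | w1 => exact realQC_w1_587

end Fermat.Agent.LT.T7.H587

end

end
-- ===== PACK-END LT/T7/H587/RealQ.lean

-- ===== PACK-BEGIN LT/T7/H313/OffW.lean
section









/-!
# Row LT, tower T7, leaf T7.L2.2.B6 = OFF-W (helper313): PROVED, unconditional

OFF-MAIN.  `offWC313 (K K') : H561.OffWC561 K K'` VERBATIM vs `T7/H561/BlocksSpec.lean` of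
helper561@fa57d28b6 (sha256 5ceeaa4d32439a1f).  Every name of this file ends in `313`.

Proof (the route of the docstring of the leaf).  `f = R(σ) e` is a cusp function of level `𝔑_g`
(asset helper930 `isCuspFn_Rsig930`, `IsCompData.aut`); `f = f₁ + f₂`, `f₁ ∈ W`, `f₂ ⊥ W`
(PROJ-up), `f₂` is a cusp function of level `𝔑_g` (`level_g`, asset helper886
`isCuspidalFn_sub886`); `R(φ') f₂ = 0` (KILL-up), so `R(φ') f = R(φ') f₁` (additivity);
`⟨R(φ') f₁, e⟩ = ⟨f₁, h⟩`, `h = R(φ'*) e` (asset helper981 `convAdj_core981` on the closed leaves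
`locCompC_h11`, `adNormC309` of tower T1); `⟨v_p, h⟩ = ⟨R(φ') v_p, e⟩ = 0` (the hypothesis, `e ⊥ W`);
`h` is bounded and measurable, `f₁` is the `L²`-limit of its partial Fourier sums in the
orthonormal family `v` (`IsWSpec561.complete`): `⟨f₁, h⟩ = 0` (`ip_eq_zero_of_parseval313`).
-/

set_option autoImplicit false

open AutomorphicForm IsDedekindDomain NumberField MeasureTheory
open scoped ComplexConjugate

noncomputable section

namespace Fermat.Agent.LT.T7.H313

open Fermat.Agent.LT Fermat.Agent.LT.H556 Fermat.Agent.LT.H556.A0 Fermat.Agent.LT.T7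
open Fermat.Agent.LT.T7.H561

attribute [local instance] Fermat.Agent.LT.T5.instMeasurableSpaceG

section OneField

variable {K : Type} [Field K] [NumberField K]

/-- `GL₂(𝔸_K)` with its Borel σ-algebra is a Borel space (local instance of this file). -/
local instance instBorelSpaceG313 : BorelSpace (G K) := ⟨rfl⟩

/-- The level group is monotone in the level. -/
theorem inLevelGroup_mono313 {𝔫 𝔪 : Ideal (𝓞 K)} (h : 𝔫 ≤ 𝔪) {u : G K}
    (hu : InLevelGroup 𝔫 u) : InLevelGroup 𝔪 u := by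
  have hsub : ∀ v : HeightOneSpectrum (𝓞 K), idealClosure 𝔫 v ⊆ idealClosure 𝔪 v :=
    fun v => closure_mono (Set.image_mono h)
  exact ⟨hu.1, fun v i j => ⟨hsub v (hu.2 v i j).1, hsub v (hu.2 v i j).2⟩⟩

/-- A cusp function of level `𝔪` is a cusp function of every smaller level. -/
theorem isCuspFn_level313 {𝔫 𝔪 : Ideal (𝓞 K)} (h : 𝔫 ≤ 𝔪) {τ : G K → ℂ} {r : G K}
    {e : G K → ℂ} (he : T5.IsCuspFn 𝔪 τ r e) : T5.IsCuspFn 𝔫 τ r e :=
  ⟨he.cont, he.bdd,
    ⟨he.aut.left_inv, fun u hu g => he.aut.level_inv u (inLevelGroup_mono313 h hu) g,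
      he.aut.arch_compact, he.aut.ray⟩,
    he.cuspidal⟩

/-- The difference of two cusp functions is a cusp function. -/
theorem isCuspFn_sub313 {𝔫 : Ideal (𝓞 K)} {τ : G K → ℂ} {r : G K} {e f : G K → ℂ}
    (he : T5.IsCuspFn 𝔫 τ r e) (hf : T5.IsCuspFn 𝔫 τ r f) :
    T5.IsCuspFn 𝔫 τ r (fun x => e x - f x) := by
  obtain ⟨C, hC⟩ := he.bdd
  obtain ⟨C', hC'⟩ := hf.bdd
  refine ⟨he.cont.sub hf.cont,
    ⟨C + C', fun g => (norm_sub_le _ _).trans (add_le_add (hC g) (hC' g))⟩,
    ⟨?_, ?_, ?_, ?_⟩,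
    T2.H886.isCuspidalFn_sub886 he.cont hC hf.cont hC' he.cuspidal hf.cuspidal⟩
  · intro γ g
    show e _ - f _ = e g - f g
    rw [he.aut.left_inv, hf.aut.left_inv]
  · intro u hu g
    show e _ - f _ = e g - f g
    rw [he.aut.level_inv u hu, hf.aut.level_inv u hu]
  · intro w k hk g
    show e _ - f _ = τ k * (e g - f g)
    rw [he.aut.arch_compact w k hk, hf.aut.arch_compact w k hk, mul_sub]
  · intro g
    show e _ - f _ = e g - f g
    rw [he.aut.ray, hf.aut.ray]

/-- The integrand of `R(φ) e` is integrable. -/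
theorem integrable_Rconv313 {μ : Measure (G K)} [IsFiniteMeasureOnCompacts μ] {φ e : G K → ℂ}
    (hφc : Continuous φ) (hφs : HasCompactSupport φ) (hec : Continuous e) (x : G K) :
    Integrable (fun y => φ y * e (x * y)) μ := by
  have hc : Continuous fun y => φ y * e (x * y) :=
    hφc.mul (hec.comp (continuous_const.mul continuous_id))
  exact hc.integrable_of_hasCompactSupport hφs.mul_right

/-- `R(φ)` is additive. -/
theorem Rconv_sub313 {μ : Measure (G K)} [IsFiniteMeasureOnCompacts μ] {φ e f : G K → ℂ}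
    (hφc : Continuous φ) (hφs : HasCompactSupport φ) (hec : Continuous e) (hfc : Continuous f)
    (x : G K) :
    T5.Rconv μ φ (fun y => e y - f y) x = T5.Rconv μ φ e x - T5.Rconv μ φ f x := by
  show ∫ y, φ y * (e (x * y) - f (x * y)) ∂μ
    = (∫ y, φ y * e (x * y) ∂μ) - ∫ y, φ y * f (x * y) ∂μ
  rw [← integral_sub (integrable_Rconv313 hφc hφs hec x) (integrable_Rconv313 hφc hφs hfc x)]
  refine integral_congr_ae (Filter.Eventually.of_forall fun y => ?_)
  show φ y * (e (x * y) - f (x * y)) = φ y * e (x * y) - φ y * f (x * y)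
  rw [mul_sub]

/-- The frame of T2 of a frame of T5: same Haar measure, same fundamental domain. -/
def frame313 {μ : Measure (G K)} {F : Set (G K)} (h : T5.IsFrame μ F) : T2.Frame K where
  μ := μ
  haar := h.haar
  D := F
  meas := h.meas
  sub := h.sub
  strict := h.strict
  fin := h.finite

/-- The inner product is conjugate symmetric. -/
theorem innerD_conj313 (μ : Measure (G K)) (F : Set (G K)) (a b : G K → ℂ) :
    T5.innerD μ F a b = conj (T5.innerD μ F b a) := by
  show ∫ x in F, a x * conj (b x) ∂μ = conj (∫ x in F, b x * conj (a x) ∂μ)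
  rw [← integral_conj]
  refine integral_congr_ae (Filter.Eventually.of_forall fun x => ?_)
  show a x * conj (b x) = conj (b x * conj (a x))
  rw [map_mul, Complex.conj_conj, mul_comm]

/-- **The adjoint of a convolution operator** on the automorphic functions (asset helper981). -/
theorem innerD_Rconv_adj313 {μ : Measure (G K)} {F : Set (G K)} (hF : T5.IsFrame μ F)
    {r : G K} (hr : T5.IsRayGen r) {𝔫 𝔫' : Ideal (𝓞 K)} {τ τ' : G K → ℂ} {φ ψ χ : G K → ℂ}
    (hφc : Continuous φ) (hφs : HasCompactSupport φ)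
    (hψ : T5.IsCuspFn 𝔫 τ r ψ) (hχ : T5.IsCuspFn 𝔫' τ' r χ) :
    T5.innerD μ F (T5.Rconv μ φ ψ) χ
      = T5.innerD μ F ψ (T2.conv (frame313 hF) (T2.adj φ) χ) := by
  have key := T2.H981.convAdj_core981 (T1.H11.locCompC_h11 K) (T1.H309.adNormC309 K)
    (frame313 hF) r (T2.H981.ray_central981 hr) (T2.H981.ray_nrm981 hr) φ ψ χ hφc hφs
    hψ.cont hψ.bdd hψ.aut.left_inv hψ.aut.ray hχ.cont hχ.bdd hχ.aut.left_inv hχ.aut.ray
  have e1 : T2.conv (frame313 hF) φ ψ = T5.Rconv μ φ ψ := by
    funext x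
    show ∫ h, ψ (x * h) * φ h ∂μ = ∫ y, φ y * ψ (x * y) ∂μ
    refine integral_congr_ae (Filter.Eventually.of_forall fun y => ?_)
    show ψ (x * y) * φ y = φ y * ψ (x * y)
    rw [mul_comm]
  rw [e1] at key
  exact key

/-- A bounded continuous function is square integrable on the fundamental domain. -/
theorem memLp_of_cont_bdd313 {μ : Measure (G K)} {F : Set (G K)} (hF : T5.IsFrame μ F)
    {ψ : G K → ℂ} (hc : Continuous ψ) (hb : ∃ C : ℝ, ∀ g : G K, ‖ψ g‖ ≤ C) :
    MemLp ψ 2 (μ.restrict F) := by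
  have : IsFiniteMeasure (μ.restrict F) :=
    ⟨by rw [Measure.restrict_apply_univ]; exact hF.finite⟩
  obtain ⟨C, hC⟩ := hb
  exact MemLp.of_bound hc.aestronglyMeasurable C (Filter.Eventually.of_forall hC)

/-- `R(φ*) χ` is square integrable on the fundamental domain. -/
theorem memLp_conv_adj313 {μ : Measure (G K)} {F : Set (G K)} (hF : T5.IsFrame μ F)
    {φ χ : G K → ℂ} (hφc : Continuous φ) (hφs : HasCompactSupport φ)
    (hχc : Continuous χ) (hχb : ∃ C : ℝ, ∀ g : G K, ‖χ g‖ ≤ C) :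
    MemLp (T2.conv (frame313 hF) (T2.adj φ) χ) 2 (μ.restrict F) := by
  obtain ⟨-, hLC, hT2, hSC⟩ := T1.H11.locCompC_h11 K
  have := hLC
  have := hT2
  have := hSC
  have := hF.haar
  have : IsFiniteMeasure (μ.restrict F) :=
    ⟨by rw [Measure.restrict_apply_univ]; exact hF.finite⟩
  obtain ⟨C, hC⟩ := hχb
  have hac : Continuous (T2.adj φ) :=
    Complex.continuous_conj.comp (hφc.comp continuous_inv)
  have has : HasCompactSupport (T2.adj φ) := by
    have h1 : HasCompactSupport (φ ∘ (Homeomorph.inv (G K))) :=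
      hφs.comp_homeomorph (Homeomorph.inv (G K))
    exact h1.comp_left (g := fun z : ℂ => conj z) (map_zero _)
  have hai : Integrable (T2.adj φ) μ := hac.integrable_of_hasCompactSupport has
  have hΦ : Continuous fun p : G K × G K => χ (p.1 * p.2) * T2.adj φ p.2 :=
    (hχc.comp (continuous_fst.mul continuous_snd)).mul (hac.comp continuous_snd)
  have hsf : SFinite μ := inferInstance
  have hsm : StronglyMeasurable (T2.conv (frame313 hF) (T2.adj φ) χ) :=
    StronglyMeasurable.integral_prod_right' (ν := μ) hΦ.stronglyMeasurable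
  refine MemLp.of_bound hsm.aestronglyMeasurable (C * ∫ y, ‖T2.adj φ y‖ ∂μ)
    (Filter.Eventually.of_forall fun x => ?_)
  show ‖∫ y, χ (x * y) * T2.adj φ y ∂μ‖ ≤ C * ∫ y, ‖T2.adj φ y‖ ∂μ
  rw [← integral_const_mul]
  refine norm_integral_le_of_norm_le (hai.norm.const_mul C)
    (Filter.Eventually.of_forall fun y => ?_)
  show ‖χ (x * y) * T2.adj φ y‖ ≤ C * ‖T2.adj φ y‖
  rw [norm_mul]
  exact mul_le_mul_of_nonneg_right (hC _) (norm_nonneg _)

end OneField

/-- **LEAF T7.L2.2.B6 = OFF-W.** -/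
theorem offWC313 (K K' : Type) [Field K] [NumberField K] [Field K'] [NumberField K']
    [Algebra K K'] : OffWC561 K K' := by
  classical
  intro ℓ _ _ _ Φ _ _ Dt hDt g hg ι n C v hW hH e he heW X hX k m
  have hcomp := hDt.comp g hg
  have hF : T5.IsFrame Dt.R'.μ Dt.R'.F := hcomp.frame'.frame
  have hr : T5.IsRayGen Dt.R'.r := hcomp.frame'.ray
  have haut : T5.AutPreserves Dt.s (Dt.𝔑 g) Dt.R'.μ Dt.R'.r := hcomp.aut
  have := hF.haar
  have hφ : T5.IsTestFn (Dt.𝔑 g) T5.trivType (Dt.φ' g X k m) :=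
    (hDt.ekprod_up g X k m hg hX).1
  -- `f = R(σ) e`
  have hf : T5.IsCuspFn (Dt.𝔑 g) T5.trivType Dt.R'.r (T5.Rsig Dt.s e) :=
    T1.H930.isCuspFn_Rsig930 haut (T1.H930.trivType_invariant930 Dt.s) he
  -- `f = f₁ + f₂`
  obtain ⟨f₁, hf₁W, hf₁⟩ := hDt.proj_up g hg _ hf
  have hf₁c : T5.IsCuspFn (Dt.𝔑 g) T5.trivType Dt.R'.r f₁ :=
    isCuspFn_level313 (hDt.level_g g hg) hf₁W.cusp
  have hf₂ := isCuspFn_sub313 hf hf₁c
  have hkill := hDt.kill_up g X k m hg hX _ hf₂ hf₁
  have hRf : T5.Rconv Dt.R'.μ (Dt.φ' g X k m) (T5.Rsig Dt.s e)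
      = T5.Rconv Dt.R'.μ (Dt.φ' g X k m) f₁ := by
    funext x
    have h1 := Rconv_sub313 (μ := Dt.R'.μ) hφ.cont hφ.supp hf.cont hf₁c.cont x
    rw [hkill x] at h1
    exact sub_eq_zero.1 h1.symm
  show T5.innerD Dt.R'.μ Dt.R'.F (T5.Rconv Dt.R'.μ (Dt.φ' g X k m) (T5.Rsig Dt.s e)) e = 0
  rw [hRf, innerD_Rconv_adj313 hF hr hφ.cont hφ.supp hf₁c he]
  -- the `L²` argument
  have hvW : ∀ p : Σ i, Fin (n i), IsEigFn Dt.𝔑₀ Dt.R'.r ℓ Dt.o (v p.1 p.2) (C p.1) :=
    fun p => (hW.basis p.1).eig p.2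
  refine ip_eq_zero_of_parseval313 (Dt.R'.μ.restrict Dt.R'.F)
    (fun p : Σ i, Fin (n i) => v p.1 p.2) f₁ _
    (fun p => memLp_of_cont_bdd313 hF (hvW p).inv.cusp.cont (hvW p).inv.cusp.bdd)
    (memLp_of_cont_bdd313 hF hf₁c.cont hf₁c.bdd)
    (memLp_conv_adj313 hF hφ.cont hφ.supp he.cont he.bdd) ?_ (hW.complete f₁ hf₁W) ?_
  · -- orthonormality
    rintro ⟨i, a⟩ ⟨i', a'⟩
    by_cases hii : i = i'
    · subst hii
      have h1 := (hW.basis i).orth a a'
      by_cases haa : a = a'
      · subst haa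
        rw [if_pos rfl] at h1
        rw [if_pos rfl]
        exact h1
      · rw [if_neg haa] at h1
        have hne : (⟨i, a⟩ : Σ i, Fin (n i)) ≠ ⟨i, a'⟩ :=
          fun h' => haa (eq_of_heq (Sigma.mk.inj h').2)
        rw [if_neg hne]
        exact h1
    · have hne : (⟨i, a⟩ : Σ i, Fin (n i)) ≠ ⟨i', a'⟩ :=
        fun h' => hii (Sigma.mk.inj h').1
      rw [if_neg hne]
      exact hW.orth i i' a a' hii
  · -- `⟨v_p, h⟩ = 0`
    intro p
    have h1 := innerD_Rconv_adj313 hF hr hφ.cont hφ.supp (hvW p).inv.cusp he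
    have h2 : T5.innerD Dt.R'.μ Dt.R'.F e (T5.Rconv Dt.R'.μ (Dt.φ' g X k m) (v p.1 p.2)) = 0 :=
      heW _ (hH X hX k m (v p.1 p.2) (C p.1) (hvW p))
    have h3 := innerD_conj313 Dt.R'.μ Dt.R'.F
      (T5.Rconv Dt.R'.μ (Dt.φ' g X k m) (v p.1 p.2)) e
    rw [h2, map_zero] at h3
    rw [h3] at h1
    exact h1.symm

end Fermat.Agent.LT.T7.H313

end

end
-- ===== PACK-END LT/T7/H313/OffW.lean

-- ===== PACK-BEGIN LT/T7/H190/SubSeq.lean
section




/-!
# Row LT, tower T7, leaf T7.L2.3.5.7 `SD534.SubSeqC` (helper190, registry row 2185)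

OFF-MAIN.  No definitions, nothing assumed.  Spec: `LT/T7/H534/DownBasisSpec.lean`
(helper534@b2ea72787, sha256 b2d5929f5cd243f8), byte-identical copy.

    subSeqC_of_sc190 : SecondCountableTopology (G K) → SD534.SubSeqC K

(`G K` is second countable: `(T1.t1Out K).locComp.2.2.2`; the unconditional form is in
`SubSeqClosed.lean`.)  `CuspFormC` is NOT needed.

Proof.  A cusp function is continuous and bounded and `μ F < ∞`, so it defines an element of
`L²(μ.restrict F)`, and `T5.innerD μ F f f' = ⟪[f'], [f]⟫`.  The classes of the members of `S`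
form a linear subspace `T` of `L²`, which is second countable (`G K` is second countable, so its
Borel σ-algebra is countably generated).  The abstract core (`SubSeqCore.lean`: Gram--Schmidt on
a dense sequence of `T`, Parseval on the closure of the span) gives the sequence `e` in `T`;
`p n` = a member of `S` of class `e n`, and `p n = 0` if `e n = 0`.
-/

set_option autoImplicit false
set_option linter.unusedSectionVars false
set_option linter.unusedVariables false

open AutomorphicForm IsDedekindDomain NumberField MeasureTheory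
open scoped ComplexConjugate InnerProductSpace

noncomputable section

namespace Fermat.Agent.LT.T7.H190

open Fermat.Agent.LT.H556 Fermat.Agent.LT.H556.A0 Fermat.Agent.LT.T7 Fermat.Agent.LT.T7.SD534

attribute [local instance] Fermat.Agent.LT.T5.instMeasurableSpaceG

variable {K : Type} [Field K] [NumberField K]

/-- The inner product of T5 is the inner product of `L²` of the restricted measure. -/
theorem innerD_eq_inner190 (μ : Measure (G K)) (F : Set (G K)) {f f' : G K → ℂ}
    (hf : MemLp f 2 (μ.restrict F)) (hf' : MemLp f' 2 (μ.restrict F)) :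
    T5.innerD μ F f f' = ⟪hf'.toLp f', hf.toLp f⟫_ℂ := by
  rw [L2.inner_def]
  unfold T5.innerD
  apply integral_congr_ae
  filter_upwards [hf.coeFn_toLp, hf'.coeFn_toLp] with x h1 h2
  rw [h1, h2, RCLike.inner_apply]

/-- **Leaf T7.L2.3.5.7 `SubSeqC`, from the second countability of `GL₂(𝔸_K)`.** -/
theorem subSeqC_of_sc190 (hsc : SecondCountableTopology (G K)) : SubSeqC K := by
  classical
  intro μ F r 𝔫 h𝔫 hfr hr S hSV hS0 hSadd hSsmul
  have hB : BorelSpace (G K) := ⟨rfl⟩
  have hsc' : SecondCountableTopology (G K) := hsc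
  have hfin : IsFiniteMeasure (μ.restrict F) :=
    ⟨by rw [Measure.restrict_apply_univ]; exact hfr.finite⟩
  have htwo : Fact ((2 : ENNReal) ≠ ⊤) := ⟨ENNReal.ofNat_ne_top⟩
  have hLsc : SecondCountableTopology (Lp ℂ 2 (μ.restrict F)) := inferInstance
  -- the members of `V` are in `L²`
  have hmem : ∀ f, InV 𝔫 r f → MemLp f 2 (μ.restrict F) := by
    intro f hf
    obtain ⟨C, hC⟩ := hf.bdd
    exact MemLp.of_bound hf.cont.aestronglyMeasurable C (Filter.Eventually.of_forall hC)
  -- the subspace of the classes of the members of `S`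
  let T : Submodule ℂ (Lp ℂ 2 (μ.restrict F)) :=
    { carrier := {g | ∃ f, S f ∧ ∃ h : MemLp f 2 (μ.restrict F), g = h.toLp f}
      zero_mem' := ⟨0, hS0, hmem 0 (hSV 0 hS0), (MemLp.toLp_zero _).symm⟩
      add_mem' := by
        rintro _ _ ⟨f, hf, h, rfl⟩ ⟨f', hf', h', rfl⟩
        exact ⟨f + f', hSadd f f' hf hf', h.add h', (MemLp.toLp_add h h').symm⟩
      smul_mem' := by
        rintro a _ ⟨f, hf, h, rfl⟩
        exact ⟨a • f, hSsmul a f hf, h.const_smul a, (MemLp.toLp_const_smul a h).symm⟩ }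
  obtain ⟨e, heT, horth, hnorm, hpars⟩ := exists_seq_parseval190 T
  choose q hqS hqm hq using heT
  -- the sequence
  let p : ℕ → G K → ℂ := fun n => if e n = 0 then 0 else q n
  have hpS : ∀ n, S (p n) := by
    intro n
    show S (if e n = 0 then 0 else q n)
    split_ifs
    · exact hS0
    · exact hqS n
  have hpm : ∀ n, MemLp (p n) 2 (μ.restrict F) := fun n => hmem _ (hSV _ (hpS n))
  have hpe : ∀ n, (hpm n).toLp (p n) = e n := by
    intro n
    by_cases h0 : e n = 0
    · have hp0 : p n = 0 := if_pos h0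
      have : (hpm n).toLp (p n) = (0 : Lp ℂ 2 (μ.restrict F)) := by
        apply (MemLp.toLp_eq_toLp_iff (hpm n) (hmem 0 (hSV 0 hS0))).2 ?_ |>.trans
          (MemLp.toLp_zero _)
        rw [hp0]
      rw [this, h0]
    · have hpq : p n = q n := if_neg h0
      rw [hq n]
      exact (MemLp.toLp_eq_toLp_iff (hpm n) (hqm n)).2 (by rw [hpq])
  refine ⟨p, hpS, ?_, ?_, ?_⟩
  · intro n m hnm
    rw [innerD_eq_inner190 μ F (hpm n) (hpm m), hpe n, hpe m]
    exact horth m n (Ne.symm hnm)
  · intro n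
    by_cases h0 : e n = 0
    · right
      exact if_pos h0
    · left
      rw [innerD_eq_inner190 μ F (hpm n) (hpm n), hpe n, inner_self_eq_norm_sq_to_K,
        hnorm n h0]
      norm_num
  · intro f hf
    have hfm := hmem f (hSV f hf)
    have hfT : hfm.toLp f ∈ T := ⟨f, hf, hfm, rfl⟩
    have h1 := hpars (hfm.toLp f) hfT
    have h2 : (fun n => ‖T5.innerD μ F f (p n)‖ ^ 2)
        = fun n => ‖⟪e n, hfm.toLp f⟫_ℂ‖ ^ 2 := by
      funext n
      rw [innerD_eq_inner190 μ F hfm (hpm n), hpe n]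
    have h3 : (T5.innerD μ F f f).re = ‖hfm.toLp f‖ ^ 2 := by
      rw [innerD_eq_inner190 μ F hfm hfm, inner_self_eq_norm_sq_to_K]
      norm_cast
    rw [h2, h3]
    exact h1

end Fermat.Agent.LT.T7.H190

end

end
-- ===== PACK-END LT/T7/H190/SubSeq.lean

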