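import Mathlib
import Fermat.Agent.Pack.LT3.E22L3
import Fermat.Agent.Pack.LT3.E22L2
import Fermat.Agent.Pack.LT3.E1L3
import Fermat.Agent.Pack.LT3.E10L2
import Fermat.Agent.Pack.LT2.E3L0
import Fermat.Agent.Pack.LT3.E22L1
import Fermat.Agent.Pack.LT3.E22L0
import Fermat.Agent.Pack.LT3.E2L0
import Fermat.Agent.Pack.LT3.E8L2
import Fermat.Agent.Pack.LT2.E16L2
import Fermat.Agent.Pack.LT2.E6L0
import Fermat.Agent.Pack.LT2.E2L1
import Fermat.Agent.Pack.LT3.E8L0
import Fermat.Agent.Pack.LT3.E23L3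
import Fermat.Agent.Pack.LT3.E21L0
import Fermat.Agent.Pack.LT3.E23L1

set_option linter.all false

-- ===== PACK-BEGIN LT/T7/H600/IotaInf.lean
section


/-!
# Row LT, tower T7, leaf T7.L2.1.C2.4 `H305.IotaC305` (spare, helper600): the infinite part

OFF-MAIN.  The base change of the infinite adeles `K_∞ → K'_∞` (Mathlib's
`NumberField.LiesOver.completionMap` along `w' ↦ w' ∘ (K → K')`), and the base change of the
adeles `iota600 : 𝔸_K →+* 𝔸_{K'}` with its formal properties: continuity, compatibility with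
`K → K'`, the local components.
-/

set_option autoImplicit false
set_option linter.unusedSectionVars false

open IsDedekindDomain NumberField

noncomputable section

namespace Fermat.Agent.LT.T7.H600

open Fermat.Agent.LT.H556 Fermat.Agent.LT.H556.A0 Fermat.Agent.LT.T7 Fermat.Agent.LT.T6.H267
open scoped ComplexConjugate

variable (K K' : Type) [Field K] [NumberField K] [Field K'] [NumberField K'] [Algebra K K']

/-- The infinite place of `K` below the infinite place `w` of `K'`. -/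
def belowInf600 (w : InfinitePlace K') : InfinitePlace K := w.comap (algebraMap K K')

instance liesOver_belowInf600 (w : InfinitePlace K') : w.LiesOver (belowInf600 K K' w) :=
  ⟨rfl⟩

/-- The local inclusion at the infinite place `w`. -/
def locInf600 (w : InfinitePlace K') : (belowInf600 K K' w).Completion →+* w.Completion :=
  NumberField.LiesOver.completionMap

variable {K K'}

theorem continuous_locInf600 (w : InfinitePlace K') : Continuous (locInf600 K K' w) :=
  NumberField.LiesOver.continuous_completionMap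

theorem locInf600_algebraMap (w : InfinitePlace K') (x : K) :
    locInf600 K K' w (algebraMap K (belowInf600 K K' w).Completion x)
      = algebraMap K' w.Completion (algebraMap K K' x) := by
  have h := NumberField.LiesOver.completionMap_coe (v := belowInf600 K K' w) (w := w)
    (WithAbs.toAbs (belowInf600 K K' w).1 x)
  exact h

/-- The embedding of the completion at `w` is the embedding of the completion at the place
below, on the elements of `K`. -/
theorem extEmb_algebraMap600 (v : InfinitePlace K) (x : K) :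
    InfinitePlace.Completion.extensionEmbedding v (algebraMap K v.Completion x)
      = v.embedding x := by
  rw [InfinitePlace.Completion.algebraMap_apply, InfinitePlace.Completion.extensionEmbedding_coe]
  rfl

/-- The coordinate at `w` of the local inclusion is the coordinate at the place below, or its
complex conjugate. -/
theorem extEmb_locInf600 (w : InfinitePlace K') :
    (∀ x : (belowInf600 K K' w).Completion,
        InfinitePlace.Completion.extensionEmbedding w (locInf600 K K' w x)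
          = InfinitePlace.Completion.extensionEmbedding (belowInf600 K K' w) x) ∨
      ∀ x : (belowInf600 K K' w).Completion,
        InfinitePlace.Completion.extensionEmbedding w (locInf600 K K' w x)
          = conj (InfinitePlace.Completion.extensionEmbedding (belowInf600 K K' w) x) := by
  have hcl : Continuous fun x : (belowInf600 K K' w).Completion =>
      InfinitePlace.Completion.extensionEmbedding w (locInf600 K K' w x) :=
    (InfinitePlace.Completion.isometry_extensionEmbedding w).continuous.comp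
      (continuous_locInf600 w)
  have hcr : Continuous fun x : (belowInf600 K K' w).Completion =>
      InfinitePlace.Completion.extensionEmbedding (belowInf600 K K' w) x :=
    (InfinitePlace.Completion.isometry_extensionEmbedding _).continuous
  have hK : ∀ a : WithAbs (belowInf600 K K' w).1,
      (⟨(a : (belowInf600 K K' w).1.Completion)⟩ : (belowInf600 K K' w).Completion)
        = algebraMap K (belowInf600 K K' w).Completion (WithAbs.equiv _ a) := by
    intro a
    rw [InfinitePlace.Completion.algebraMap_apply]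
    rfl
  rcases InfinitePlace.LiesOver.embedding_comp_eq_or_conjugate_embedding_comp_eq w
      (belowInf600 K K' w) with h | h
  · left
    intro x
    induction x using InfinitePlace.Completion.induction_on with
    | hp => exact isClosed_eq hcl hcr
    | ih a =>
      rw [hK a, locInf600_algebraMap, extEmb_algebraMap600, extEmb_algebraMap600, ← h]
      rfl
  · right
    intro x
    induction x using InfinitePlace.Completion.induction_on with
    | hp => exact isClosed_eq hcl (Complex.continuous_conj.comp hcr)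
    | ih a =>
      rw [hK a, locInf600_algebraMap, extEmb_algebraMap600, extEmb_algebraMap600, ← h]
      simp [ComplexEmbedding.conjugate]

variable (K K')

/-- **The base change of the infinite adeles.** -/
def iotaInf600 : InfiniteAdeleRing K →+* InfiniteAdeleRing K' :=
  RingHom.pi fun w : InfinitePlace K' =>
    (locInf600 K K' w).comp
      (Pi.evalRingHom (fun v : InfinitePlace K => v.Completion) (belowInf600 K K' w))

variable {K K'}

theorem iotaInf600_apply (x : InfiniteAdeleRing K) (w : InfinitePlace K') :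
    iotaInf600 K K' x w = locInf600 K K' w (x (belowInf600 K K' w)) :=
  rfl

theorem continuous_iotaInf600 : Continuous (iotaInf600 K K') :=
  continuous_pi fun w => (continuous_locInf600 w).comp (continuous_apply (belowInf600 K K' w))

variable (K K')

/-- **The base change of the adeles** `𝔸_K → 𝔸_{K'}`. -/
def iota600 : Adl K →+* Adl K' :=
  RingHom.prodMap (iotaInf600 K K') (iotaFin600 K K')

variable {K K'}

theorem iota600_fst (x : Adl K) : (iota600 K K' x).1 = iotaInf600 K K' x.1 := rfl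

theorem iota600_snd (x : Adl K) : (iota600 K K' x).2 = iotaFin600 K K' x.2 := rfl

theorem continuous_iota600 : Continuous (iota600 K K') :=
  (continuous_iotaInf600.comp continuous_fst).prodMk (continuous_iotaFin600.comp continuous_snd)

/-- The finite components of `ι x`. -/
theorem finHom_iota600 (w : HeightOneSpectrum (𝓞 K')) (x : Adl K) :
    T5.finHom w (iota600 K K' x) = locB600 K K' w (T5.finHom (below600 K K' w) x) :=
  rfl

/-- The infinite components of `ι x`. -/
theorem infHom_iota600 (w : InfinitePlace K') (x : Adl K) :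
    T5.infHom w (iota600 K K' x)
      = InfinitePlace.Completion.extensionEmbedding w
          (locInf600 K K' w (x.1 (belowInf600 K K' w))) :=
  rfl

theorem infHom_eq600 (v : InfinitePlace K) (x : Adl K) :
    T5.infHom v x = InfinitePlace.Completion.extensionEmbedding v (x.1 v) :=
  rfl

/-- `ι` is compatible with `K → K'`. -/
theorem iota600_algebraMap (x : K) :
    iota600 K K' (algebraMap K (Adl K) x) = algebraMap K' (Adl K') (algebraMap K K' x) := by
  refine Prod.ext ?_ ?_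
  · funext w
    exact locInf600_algebraMap w x
  · refine RestrictedProduct.ext _ _ ?_
    intro w
    exact locB600_algebraMap w x

/-! ## Appendix: the equation lemmas of the definitions are realised HERE -/

theorem eqns_realised_iotaInf600 : True := by
  have _a1 := @belowInf600.eq_1
  have _a2 := @belowInf600.eq_def
  have _a3 := @belowInf600.eq_unfold
  have _a4 := @locInf600.eq_1
  have _a5 := @locInf600.eq_def
  have _a6 := @locInf600.eq_unfold
  have _a7 := @iotaInf600.eq_1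
  have _a8 := @iotaInf600.eq_def
  have _a9 := @iotaInf600.eq_unfold
  have _a10 := @iota600.eq_1
  have _a11 := @iota600.eq_def
  have _a12 := @iota600.eq_unfold
  trivial

end Fermat.Agent.LT.T7.H600

end

end
-- ===== PACK-END LT/T7/H600/IotaInf.lean

-- ===== PACK-BEGIN LT/T7/H709/ArchMeas.lean
section



/-!
# Row LT, tower T7, leaf T7.L2.1.C2.7.3 `ArchMeasC305` (helper709, registry row 2567)

OFF-MAIN.  `archMeasC709 : Fermat.Agent.LT.T7.H305.ArchMeasC305`, VERBATIM vs
`LT/T7/H305/MatchCut.lean` (helper305@56ddcdc02, sha256 0f302b81), UNCONDITIONAL: the centraliser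
of a regular element of `GL₂(ℂ)` has a Haar measure, and for every Haar measure of it there is a
continuous cut-off function.

* `cent_comm709` (algebra, any field): two elements of `GL₂(F)` which commute with a regular
  element commute with each other (they are `a + b γ`).
* `GL₂(ℂ)` is locally compact, second countable (`Units.embedProduct` is a closed embedding
  into `M₂(ℂ) × M₂(ℂ)ᵐᵒᵖ`), hence `σ`-compact; the centraliser is closed.
* the cut-off function: `exists_cutoff584` of helper584 (`LT/T7/H584/Cutoff.lean`, Mathlib only,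
  byte-identical copy of helper584@origin, sha256 cf7491c2): the Haar measure of the commutative
  group `cent305 γ` is right invariant.
-/

set_option autoImplicit false
set_option linter.style.haveILetI false

open MeasureTheory

noncomputable section

namespace Fermat.Agent.LT.T7.H709

/-! ## 1. Algebra: the centraliser of a regular element is commutative -/

section Algebra

variable {F : Type} [Field F]

/-- Three numbers proportional to a non-zero triple. -/
theorem exists_prop709 {q r e b c a : F} (hg : q ≠ 0 ∨ r ≠ 0 ∨ e ≠ 0)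
    (h1 : e * b = q * a) (h2 : r * a = c * e) (h3 : q * c = b * r) :
    ∃ l : F, b = l * q ∧ c = l * r ∧ a = l * e := by
  rcases hg with hq | hr | he
  · refine ⟨b / q, ?_, ?_, ?_⟩
    · field_simp
    · field_simp
      linear_combination h3
    · field_simp
      linear_combination -h1
  · refine ⟨c / r, ?_, ?_, ?_⟩
    · field_simp
      linear_combination -h3
    · field_simp
    · field_simp
      linear_combination h2
  · refine ⟨a / e, ?_, ?_, ?_⟩
    · field_simp
      linear_combination h1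
    · field_simp
      linear_combination -h2
    · field_simp

/-- The entries of a matrix which commutes with `g`. -/
theorem comm_entries709 (g x : Matrix (Fin 2) (Fin 2) F) (h : g * x = x * g) :
    (g 0 0 - g 1 1) * x 0 1 = g 0 1 * (x 0 0 - x 1 1) ∧
    g 1 0 * (x 0 0 - x 1 1) = x 1 0 * (g 0 0 - g 1 1) ∧
    g 0 1 * x 1 0 = x 0 1 * g 1 0 := by
  have e00 := congrFun (congrFun h 0) 0
  have e01 := congrFun (congrFun h 0) 1
  have e10 := congrFun (congrFun h 1) 0
  simp only [Matrix.mul_apply, Fin.sum_univ_two] at e00 e01 e10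
  refine ⟨?_, ?_, ?_⟩
  · linear_combination e01
  · linear_combination e10
  · linear_combination e00

/-- Two matrices which commute with a matrix of non-zero discriminant commute. -/
theorem mat_comm709 (g x y : Matrix (Fin 2) (Fin 2) F)
    (hd : g.trace ^ 2 - 4 * g.det ≠ 0) (hx : g * x = x * g) (hy : g * y = y * g) :
    x * y = y * x := by
  have hg : g 0 1 ≠ 0 ∨ g 1 0 ≠ 0 ∨ g 0 0 - g 1 1 ≠ 0 := by
    by_contra hcon
    push Not at hcon
    obtain ⟨h1, h2, h3⟩ := hcon
    apply hd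
    rw [Matrix.trace_fin_two, Matrix.det_fin_two, h1, h2]
    have h4 : g 0 0 = g 1 1 := sub_eq_zero.1 h3
    rw [h4]
    ring
  obtain ⟨x1, x2, x3⟩ := comm_entries709 g x hx
  obtain ⟨y1, y2, y3⟩ := comm_entries709 g y hy
  obtain ⟨l, hb, hc, ha⟩ := exists_prop709 hg x1 x2 x3
  obtain ⟨l', hb', hc', ha'⟩ := exists_prop709 hg y1 y2 y3
  have hx00 : x 0 0 = x 1 1 + l * (g 0 0 - g 1 1) := by linear_combination ha
  have hy00 : y 0 0 = y 1 1 + l' * (g 0 0 - g 1 1) := by linear_combination ha'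
  ext i j
  fin_cases i <;> fin_cases j <;>
    simp only [Fin.zero_eta, Fin.mk_one, Fin.isValue, Matrix.mul_apply, Fin.sum_univ_two,
      hx00, hy00, hb, hc, hb', hc'] <;> ring

/-- Two elements of `GL₂(F)` which commute with a regular element commute. -/
theorem cent_comm709 (γ x y : GL (Fin 2) F) (hγ : T6.IsReg γ)
    (hx : x⁻¹ * γ * x = γ) (hy : y⁻¹ * γ * y = γ) : x * y = y * x := by
  have hd : (γ : Matrix (Fin 2) (Fin 2) F).trace ^ 2
      - 4 * (γ : Matrix (Fin 2) (Fin 2) F).det ≠ 0 := hγ.ne_zero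
  have hx' : γ * x = x * γ := by
    calc γ * x = x * (x⁻¹ * γ * x) := by group
      _ = x * γ := by rw [hx]
  have hy' : γ * y = y * γ := by
    calc γ * y = y * (y⁻¹ * γ * y) := by group
      _ = y * γ := by rw [hy]
  apply Units.ext
  rw [Units.val_mul, Units.val_mul]
  refine mat_comm709 (γ : Matrix (Fin 2) (Fin 2) F) _ _ hd ?_ ?_
  · rw [← Units.val_mul, ← Units.val_mul, hx']
  · rw [← Units.val_mul, ← Units.val_mul, hy']

end Algebra

/-! ## 2. Topology of `GL₂(ℂ)` -/

theorem locallyCompact_GL2C709 : LocallyCompactSpace (GL (Fin 2) ℂ) := by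
  haveI : LocallyCompactSpace (Matrix (Fin 2) (Fin 2) ℂ) :=
    inferInstanceAs (LocallyCompactSpace (Fin 2 → Fin 2 → ℂ))
  haveI : LocallyCompactSpace (Matrix (Fin 2) (Fin 2) ℂ)ᵐᵒᵖ :=
    (MulOpposite.opHomeomorph
      (M := Matrix (Fin 2) (Fin 2) ℂ)).symm.isClosedEmbedding.locallyCompactSpace
  exact (Units.isClosedEmbedding_embedProduct
    (α := Matrix (Fin 2) (Fin 2) ℂ)).locallyCompactSpace

theorem secondCountable_GL2C709 : SecondCountableTopology (GL (Fin 2) ℂ) := by
  haveI : SecondCountableTopology (Matrix (Fin 2) (Fin 2) ℂ) :=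
    inferInstanceAs (SecondCountableTopology (Fin 2 → Fin 2 → ℂ))
  haveI : SecondCountableTopology (Matrix (Fin 2) (Fin 2) ℂ)ᵐᵒᵖ :=
    MulOpposite.opHomeomorph.symm.secondCountableTopology
  exact (Units.isEmbedding_embedProduct
    (M := Matrix (Fin 2) (Fin 2) ℂ)).secondCountableTopology

theorem sigmaCompact_GL2C709 : SigmaCompactSpace (GL (Fin 2) ℂ) := by
  haveI := locallyCompact_GL2C709
  haveI := secondCountable_GL2C709
  infer_instance

/-- The centraliser is closed. -/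
theorem isClosed_cent709 {H : Type} [Group H] [TopologicalSpace H] [IsTopologicalGroup H]
    [T2Space H] (γ : H) : IsClosed ((H305.cent305 γ : Subgroup H) : Set H) := by
  have h : ((H305.cent305 γ : Subgroup H) : Set H) = {x : H | x⁻¹ * γ * x = γ} := rfl
  rw [h]
  exact isClosed_eq ((continuous_inv.mul continuous_const).mul continuous_id) continuous_const

/-! ## 3. The leaf -/

/-- **T7.L2.1.C2.7.3 = `ArchMeasC305`.** -/
theorem archMeasC709 : H305.ArchMeasC305 := by
  intro γ hγ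
  haveI := locallyCompact_GL2C709
  haveI := sigmaCompact_GL2C709
  have hcl : IsClosed ((H305.cent305 γ : Subgroup (GL (Fin 2) ℂ)) : Set (GL (Fin 2) ℂ)) :=
    isClosed_cent709 γ
  haveI : LocallyCompactSpace (H305.cent305 γ) :=
    hcl.isClosedEmbedding_subtypeVal.locallyCompactSpace
  letI : MeasurableSpace (H305.cent305 γ) := borel _
  haveI : BorelSpace (H305.cent305 γ) := ⟨rfl⟩
  refine ⟨⟨Measure.haar, inferInstance⟩, ?_⟩
  intro μT hμT
  haveI := hμT
  haveI : μT.IsMulRightInvariant := ⟨fun g => by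
    have e : (fun t : H305.cent305 γ => t * g) = fun t => g * t := by
      funext t
      apply Subtype.ext
      exact cent_comm709 γ t g hγ t.2 g.2
    rw [e]
    exact map_mul_left_eq_self μT g⟩
  obtain ⟨β, hβc, hβ0, -, hβ1⟩ := H584.exists_cutoff584 (H305.cent305 γ) μT hcl
  exact ⟨β, hβc, hβ0, hβ1⟩

end Fermat.Agent.LT.T7.H709

end

end
-- ===== PACK-END LT/T7/H709/ArchMeas.lean

-- ===== PACK-BEGIN LT/T7/H271/NormInf.lean
section



/-!
# Row LT, tower T7, node T7.L2.1 `SupplyC`, leaf C2.4-I.7 `NormInfC816` (helper271)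

OFF-MAIN.  The infinite part of the module of `ι x` is the `l`-th power of the one of `x`:
`K` is totally complex, so every infinite place of `K'` is complex and unramified over `K`;
`K'/K` is Galois of degree `l`, so there are exactly `l` places over every place of `K`
(orbit-stabiliser); at every place the component of `ι x` has the norm of the component of `x`
(the embeddings of the completions in `ℂ` are isometries, the conjugation is an isometry).
-/

set_option autoImplicit false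

open AutomorphicForm IsDedekindDomain NumberField MeasureTheory
open scoped ComplexConjugate

noncomputable section

namespace Fermat.Agent.LT.T7.H271

open Fermat.Agent.LT.H556 Fermat.Agent.LT.H556.A0 Fermat.Agent.LT.T7
open Fermat.Agent.LT.T7.H305 Fermat.Agent.LT.T7.H816

variable {K K' : Type} [Field K] [NumberField K] [Field K'] [NumberField K'] [Algebra K K']

/-- The norm of a component at an infinite place is the norm of its image in `ℂ`. -/
theorem norm_infHom271 (w : InfinitePlace K) (x : Adl K) :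
    ‖T5.infHom w x‖ = ‖x.1 w‖ := by
  have h := (InfinitePlace.Completion.isometry_extensionEmbedding w).norm_map_of_map_zero
    (map_zero _) (x.1 w)
  exact h

/-- The components of `ι x` have the norms of the components of `x`. -/
theorem norm_comp_iota271 {ι : Adl K →+* Adl K'} (hι : IsPreBase816 ι)
    (w' : InfinitePlace K') (x : Adl K) :
    ‖(ι x).1 w'‖ = ‖x.1 (w'.comap (algebraMap K K'))‖ := by
  rw [← norm_infHom271 w' (ι x), ← norm_infHom271 (w'.comap (algebraMap K K')) x]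
  rcases hι.inf w' with h | h
  · rw [h x]
  · rw [h x, RCLike.norm_conj]

open scoped Classical in
/-- In a Galois extension of a totally complex field there are `[K' : K]` places over every
place. -/
theorem card_fibre271 [IsGalois K K'] (hK : TotCplx K) (v : InfinitePlace K) :
    (Finset.univ.filter (fun w' : InfinitePlace K' => w'.comap (algebraMap K K') = v)).card
      = Module.finrank K K' := by
  obtain ⟨w, rfl⟩ := InfinitePlace.comap_surjective (K := K') v
  have hun : InfinitePlace.IsUnramified K w :=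
    InfinitePlace.isUnramified_iff.mpr (Or.inr (hK _))
  have h1 : (Finset.univ.filter
      (fun w' : InfinitePlace K' => w'.comap (algebraMap K K') = w.comap (algebraMap K K')))
      = (MulAction.orbit Gal(K'/K) w).toFinset := by
    ext w'
    rw [Finset.mem_filter, Set.mem_toFinset, InfinitePlace.mem_orbit_iff]
    simp [eq_comm]
  rw [h1, Set.toFinset_card, ← IsGalois.card_aut_eq_finrank, Nat.card_eq_fintype_card,
    ← MulAction.card_orbit_mul_card_stabilizer_eq_card_group Gal(K'/K) w,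
    ← Nat.card_eq_fintype_card (α := MulAction.stabilizer Gal(K'/K) w),
    InfinitePlace.card_stabilizer, if_pos hun, mul_one]

/-- **LEAF T7.L2.1.C2.4-I.7 = NORM-INF.** -/
theorem normInfC271 (K K' : Type) [Field K] [NumberField K] [Field K'] [NumberField K']
    [Algebra K K'] : NormInfC816 K K' := by
  classical
  intro l hl hK ι hι x
  have : IsGalois K K' := hl.galois
  have hK' : ∀ w' : InfinitePlace K', w'.mult = (w'.comap (algebraMap K K')).mult := by
    intro w'
    have h1 : (w'.comap (algebraMap K K')).IsComplex := hK _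
    have h2 : w'.IsComplex := InfinitePlace.IsComplex.of_comap _ h1
    rw [InfinitePlace.mult_isComplex ⟨w', h2⟩, InfinitePlace.mult_isComplex ⟨_, h1⟩]
  calc ∏ w' : InfinitePlace K', ‖(ι x).1 w'‖ ^ w'.mult
      = ∏ w' : InfinitePlace K', (fun v : InfinitePlace K => ‖x.1 v‖ ^ v.mult)
          (w'.comap (algebraMap K K')) := by
        refine Finset.prod_congr rfl (fun w' _ => ?_)
        rw [norm_comp_iota271 hι w' x, hK' w']
    _ = ∏ v : InfinitePlace K, ∏ w' ∈ Finset.univ.filter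
          (fun w' : InfinitePlace K' => w'.comap (algebraMap K K') = v),
            ‖x.1 v‖ ^ v.mult := by
        rw [← Finset.prod_fiberwise' Finset.univ
          (fun w' : InfinitePlace K' => w'.comap (algebraMap K K'))
          (fun v : InfinitePlace K => ‖x.1 v‖ ^ v.mult)]
    _ = ∏ v : InfinitePlace K, (‖x.1 v‖ ^ v.mult) ^ l := by
        refine Finset.prod_congr rfl (fun v _ => ?_)
        rw [Finset.prod_const, card_fibre271 hK v, hl.degree]
    _ = (∏ v : InfinitePlace K, ‖x.1 v‖ ^ v.mult) ^ l := by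
        rw [Finset.prod_pow]

end Fermat.Agent.LT.T7.H271

end

end
-- ===== PACK-END LT/T7/H271/NormInf.lean

-- ===== PACK-BEGIN LT/T7/H841/SuppDown.lean
section





/-!
# Row LT, tower T7, asset leaf C2.7.6 `SuppDownC305` (second cut of helper305) -- helper841,
OFF-MAIN

    suppDownC841 (K) : Fermat.Agent.LT.T7.H305.SuppDownC305 K

VERBATIM against `LT/T7/H305/MatchCut.lean` (helper305@56ddcdc02, sha256 0f302b81),
UNCONDITIONAL.  If `γ` is good outside `S` and `x⁻¹ γ x` is in `GL₂(𝒪_v)` for `v ∉ S`, then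
`x = t x'` with `t ∈ T_𝔸(γ)` and `x'_v ∈ GL₂(𝒪_v)` for `v ∉ S`.

Proof.  `x` and `x⁻¹` are integral outside a finite set `B` of places.  Induction on `B`: at a
place `v₀ ∈ B \ S` the local statement (helper159 `goodUnit_down159`) gives `x_{v₀} = t₀ u₀` with
`t₀` in the centraliser of `γ` in `GL₂(K_{v₀})` and `u₀ ∈ GL₂(𝒪_{v₀})`; the local element
`t₁ = locFin129 v₀ t₀` (helper129) is in `T_𝔸(γ)`, `t₁⁻¹ x` is integral at `v₀` and has the
components of `x` elsewhere.
-/

set_option autoImplicit false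
set_option linter.unusedSectionVars false
set_option linter.unusedVariables false
set_option linter.style.haveILetI false

open AutomorphicForm IsDedekindDomain NumberField MeasureTheory

noncomputable section

namespace Fermat.Agent.LT.T7.H841

open Fermat.Agent.LT.H556 Fermat.Agent.LT.H556.A0 Fermat.Agent.LT.T7
open Fermat.Agent.LT.T7.H305 Fermat.Agent.LT.H129

variable {K : Type} [Field K] [NumberField K]

/-- `g` and `g⁻¹` are integral at `v`. -/
def IsUnitAtSD841 (v : HeightOneSpectrum (𝓞 K)) (g : G K) : Prop :=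
  IsIntegralAt v g ∧ IsIntegralAt v g⁻¹

theorem isUnitAt_iffSD841 (v : HeightOneSpectrum (𝓞 K)) (g : G K) :
    IsUnitAtSD841 v g ↔ T6.InU 0 (finCompHom129 v g) := by
  constructor
  · rintro ⟨h1, h2⟩
    refine Fermat.Agent.LT.T6.H288.H546.inU_zero_of_integral_h546 _ ?_ ?_
    · intro i j
      exact (HeightOneSpectrum.mem_adicCompletionIntegers (𝓞 K) K v).1 (h1 i j)
    · intro i j
      rw [← map_inv]
      exact (HeightOneSpectrum.mem_adicCompletionIntegers (𝓞 K) K v).1 (h2 i j)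
  · intro h
    have hinv : T6.InU 0 (finCompHom129 v g)⁻¹ := by
      intro i j
      refine ⟨(h i j).2, ?_⟩
      rw [inv_inv]
      exact (h i j).1
    constructor
    · intro i j
      exact (HeightOneSpectrum.mem_adicCompletionIntegers (𝓞 K) K v).2
        (Fermat.Agent.LT.T6.H687.entry_le_one_of_inU_h687 h i j)
    · intro i j
      have := Fermat.Agent.LT.T6.H687.entry_le_one_of_inU_h687 hinv i j
      rw [← map_inv] at this
      exact (HeightOneSpectrum.mem_adicCompletionIntegers (𝓞 K) K v).2 this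

/-- `x` and `x⁻¹` are integral at almost all places. -/
theorem finite_nonunitSD841 (g : G K) :
    {v : HeightOneSpectrum (𝓞 K) | ¬ IsUnitAtSD841 v g}.Finite := by
  have hint : ∀ h : G K, {v : HeightOneSpectrum (𝓞 K) | ¬ IsIntegralAt v h}.Finite := by
    intro h
    have hsub : {v : HeightOneSpectrum (𝓞 K) | ¬ IsIntegralAt v h} ⊆
        ⋃ p : Fin 2 × Fin 2, {v : HeightOneSpectrum (𝓞 K) |
          ¬ (((h : Matrix (Fin 2) (Fin 2) (Adl K)) p.1 p.2).2 v ∈ v.adicCompletionIntegers K)} := by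
      intro v hv
      simp only [Set.mem_ofPred_eq, IsIntegralAt, not_forall] at hv
      obtain ⟨i, j, hij⟩ := hv
      exact Set.mem_iUnion.2 ⟨(i, j), hij⟩
    refine Set.Finite.subset (Set.finite_iUnion fun p => ?_) hsub
    exact Filter.eventually_cofinite.1 ((h : Matrix (Fin 2) (Fin 2) (Adl K)) p.1 p.2).2.2
  refine Set.Finite.subset ((hint g).union (hint g⁻¹)) ?_
  intro v hv
  simp only [Set.mem_ofPred_eq, IsUnitAtSD841, not_and_or] at hv
  exact hv

/-- The component of a rational element. -/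
theorem finComp_ratGSD841 (v : HeightOneSpectrum (𝓞 K)) (γ : GL (Fin 2) K) :
    finCompHom129 v (T5.ratG γ) = locG305 v γ := by
  apply Units.ext
  ext i j
  rfl

/-- Membership in the adelic centraliser. -/
theorem mem_tASD841 (γ : GL (Fin 2) K) (t : G K) :
    t ∈ tA305 (T5.AdelicAut.id K) γ ↔ t * T5.ratG γ = T5.ratG γ * t := by
  have hid : (T5.AdelicAut.id K).onG t = t := by
    apply Units.ext
    ext i j
    rfl
  change t⁻¹ * T5.ratG γ * (T5.AdelicAut.id K).onG t = T5.ratG γ ↔ _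
  rw [hid]
  constructor
  · intro h
    calc t * T5.ratG γ = t * (t⁻¹ * T5.ratG γ * t) := by rw [h]
      _ = T5.ratG γ * t := by group
  · intro h
    calc t⁻¹ * T5.ratG γ * t = t⁻¹ * (T5.ratG γ * t) := by group
      _ = t⁻¹ * (t * T5.ratG γ) := by rw [h]
      _ = T5.ratG γ := by group

/-- A local element which commutes with `γ` at its place is in the adelic centraliser. -/
theorem locFin_mem_tASD841 (γ : GL (Fin 2) K) (v₀ : HeightOneSpectrum (𝓞 K))
    (t₀ : GL (Fin 2) (v₀.adicCompletion K)) (h : t₀ * locG305 v₀ γ = locG305 v₀ γ * t₀) :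
    locFin129 v₀ t₀ ∈ tA305 (T5.AdelicAut.id K) γ := by
  rw [mem_tASD841]
  apply G_ext129
  · intro w
    rw [map_mul, map_mul, infCompHom129_locFin129, one_mul, mul_one]
  · intro v
    rw [map_mul, map_mul]
    by_cases hv : v = v₀
    · subst hv
      rw [finCompHom129_locFin129, finComp_ratGSD841, h]
    · rw [finCompHom129_locFin129_of_ne v₀ t₀ hv, one_mul, mul_one]

/-- **The induction.** -/
theorem suppDown_auxSD841 (γ : GL (Fin 2) K) (S : Finset (HeightOneSpectrum (𝓞 K)))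
    (hγ : GoodOut305 S γ) (B : Finset (HeightOneSpectrum (𝓞 K))) :
    ∀ x : G K, (∀ v : HeightOneSpectrum (𝓞 K), v ∉ S → v ∉ B → IsUnitAtSD841 v x) →
      (∀ v : HeightOneSpectrum (𝓞 K), v ∉ S →
        T6.InU 0 (finCompHom129 v (x⁻¹ * T5.ratG γ * x))) →
      ∃ t : G K, t ∈ tA305 (T5.AdelicAut.id K) γ ∧
        ∀ v : HeightOneSpectrum (𝓞 K), v ∉ S → IsUnitAtSD841 v (t⁻¹ * x) := by
  classical
  induction B using Finset.induction_on with
  | empty =>
    intro x hx _
    refine ⟨1, Subgroup.one_mem _, fun v hv => ?_⟩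
    rw [inv_one, one_mul]
    exact hx v hv (Finset.notMem_empty v)
  | insert v₀ B' hv₀ ih =>
    intro x hx hc
    by_cases hS : v₀ ∈ S
    · refine ih x (fun v hv hv' => hx v hv ?_) hc
      rw [Finset.mem_insert, not_or]
      exact ⟨fun h => hv (h ▸ hS), hv'⟩
    · have hloc := hc v₀ hS
      rw [map_mul, map_mul, map_inv, finComp_ratGSD841] at hloc
      obtain ⟨t₀, u₀, hcomm, hu₀, hxu⟩ := Fermat.Agent.LT.T7.H159.goodUnit_down159
        (locG305 v₀ γ) (finCompHom129 v₀ x) (hγ v₀ hS).1 (hγ v₀ hS).2 hloc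
      have ht₁ : locFin129 v₀ t₀ ∈ tA305 (T5.AdelicAut.id K) γ :=
        locFin_mem_tASD841 γ v₀ t₀ hcomm
      have hcomm₁ := (mem_tASD841 γ _).1 ht₁
      have hx' : ∀ v : HeightOneSpectrum (𝓞 K), v ∉ S → v ∉ B' →
          IsUnitAtSD841 v ((locFin129 v₀ t₀)⁻¹ * x) := by
        intro v hv hv'
        rw [isUnitAt_iffSD841, map_mul, map_inv]
        by_cases hvv : v = v₀
        · subst hvv
          rw [finCompHom129_locFin129, hxu, inv_mul_cancel_left]
          exact hu₀
        · rw [finCompHom129_locFin129_of_ne v₀ t₀ hvv, inv_one, one_mul, ← isUnitAt_iffSD841]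
          refine hx v hv ?_
          rw [Finset.mem_insert, not_or]
          exact ⟨hvv, hv'⟩
      have hc' : ∀ v : HeightOneSpectrum (𝓞 K), v ∉ S →
          T6.InU 0 (finCompHom129 v
            (((locFin129 v₀ t₀)⁻¹ * x)⁻¹ * T5.ratG γ * ((locFin129 v₀ t₀)⁻¹ * x))) := by
        intro v hv
        have e : ((locFin129 v₀ t₀)⁻¹ * x)⁻¹ * T5.ratG γ * ((locFin129 v₀ t₀)⁻¹ * x)
            = x⁻¹ * T5.ratG γ * x := by
          calc ((locFin129 v₀ t₀)⁻¹ * x)⁻¹ * T5.ratG γ * ((locFin129 v₀ t₀)⁻¹ * x)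
              = x⁻¹ * (locFin129 v₀ t₀ * T5.ratG γ) * (locFin129 v₀ t₀)⁻¹ * x := by group
            _ = x⁻¹ * (T5.ratG γ * locFin129 v₀ t₀) * (locFin129 v₀ t₀)⁻¹ * x := by
                rw [hcomm₁]
            _ = x⁻¹ * T5.ratG γ * x := by group
        rw [e]
        exact hc v hv
      obtain ⟨t', ht', hQ⟩ := ih ((locFin129 v₀ t₀)⁻¹ * x) hx' hc'
      refine ⟨locFin129 v₀ t₀ * t', Subgroup.mul_mem _ ht₁ ht', fun v hv => ?_⟩
      have e : (locFin129 v₀ t₀ * t')⁻¹ * x = t'⁻¹ * ((locFin129 v₀ t₀)⁻¹ * x) := by group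
      rw [e]
      exact hQ v hv

/-- The equation lemmas of the definition of this file are realised HERE. -/
theorem eqns_realisedSD841 : True := by
  have _a := @IsUnitAtSD841.eq_1
  have _b := @IsUnitAtSD841.eq_def
  have _c := @IsUnitAtSD841.eq_unfold
  trivial

/-- **ASSET LEAF C2.7.6 `SuppDownC305`** (second cut of helper305), VERBATIM, unconditional. -/
theorem suppDownC841 (K : Type) [Field K] [NumberField K] : SuppDownC305 K := by
  intro γ S hγ x hx
  obtain ⟨t, ht, hQ⟩ := suppDown_auxSD841 γ S hγ (finite_nonunitSD841 x).toFinset x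
    (fun v _ hv' => by
      by_contra hcon
      exact hv' ((Set.Finite.mem_toFinset _).2 hcon))
    (fun v hv => (isUnitAt_iffSD841 v _).1 (hx v hv))
  exact ⟨t, ht, fun v hv => hQ v hv⟩

end Fermat.Agent.LT.T7.H841

end

end
-- ===== PACK-END LT/T7/H841/SuppDown.lean

-- ===== PACK-BEGIN LT/T7/H312/AvgCuspidal.lean
section



/-!
# Row LT, tower T7, leaf T7.L2.1.P1h `AvgCuspidalC` (helper312)

OFF-MAIN.  `avgCuspidalC312 (K) : H40.AvgCuspidalC K`: the mean of a cusp function over the unit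
cube along a period family is cuspidal.  Spec: `LT/T7/H40/ArchProjSpec.lean` (helper40,
sha256 34d7f842), byte-identical copy with its imports.

Fubini on `D × cube` for the bounded continuous integrand `(x, t) ↦ ψ (n x * g * Y t)`:
`μ D < ⊤` (two fundamental domains of the countable group `K` have the same measure,
`T1.AddFundDomC`), the cube has volume `1`, and the inner integral over `D` vanishes for every
`t` (`ψ` is cuspidal).
-/

set_option autoImplicit false
set_option linter.unusedSectionVars false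
set_option linter.style.haveILetI false

open AutomorphicForm IsDedekindDomain NumberField MeasureTheory

noncomputable section

namespace Fermat.Agent.LT.T7.H312

open Fermat.Agent.LT.H556 Fermat.Agent.LT.H556.A0 Fermat.Agent.LT.T7 Fermat.Agent.LT.T7.H40

variable {K : Type} [Field K] [NumberField K]

theorem countable_numberField312 (K : Type) [Field K] [NumberField K] : Countable K :=
  (Module.finBasis ℚ K).equivFun.toEquiv.injective.countable

/-- the unipotent family `x ↦ !![1, x; 0, 1]` is continuous -/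
theorem continuous_unip312 (n : Adl K → G K)
    (hn : ∀ x : Adl K, (n x : Matrix (Fin 2) (Fin 2) (Adl K)) = !![1, x; 0, 1]) :
    Continuous n := by
  rw [Units.continuous_iff]
  constructor
  · have e : (Units.val ∘ n) = fun x : Adl K => !![1, x; 0, 1] := funext hn
    rw [e]
    refine continuous_matrix (fun i j => ?_)
    fin_cases i <;> fin_cases j
    · exact continuous_const
    · exact continuous_id
    · exact continuous_const
    · exact continuous_const
  · have hinv : ∀ x : Adl K,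
        (((n x)⁻¹ : G K) : Matrix (Fin 2) (Fin 2) (Adl K)) = !![1, -x; 0, 1] := by
      intro x
      apply Units.inv_eq_of_mul_eq_one_right
      rw [hn x]
      ext i j
      fin_cases i <;> fin_cases j <;> simp [Matrix.mul_apply, Fin.sum_univ_two]
    have e : (fun x : Adl K => (((n x)⁻¹ : G K) : Matrix (Fin 2) (Fin 2) (Adl K)))
        = fun x : Adl K => !![1, -x; 0, 1] := funext hinv
    rw [e]
    refine continuous_matrix (fun i j => ?_)
    fin_cases i <;> fin_cases j
    · exact continuous_const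
    · exact continuous_neg
    · exact continuous_const
    · exact continuous_const

theorem volume_cube312 (K : Type) [Field K] [NumberField K] :
    (volume : Measure (InfinitePlace K → ℝ)) (cube40 K) = 1 := by
  unfold cube40
  rw [Real.volume_pi_Ico]
  simp

/-- **T7.L2.1.P1h `AvgCuspidalC`.** -/
theorem avgCuspidalC312 (K : Type) [Field K] [NumberField K] : AvgCuspidalC K := by
  intro hT 𝔑 r Y hY ψ hψ
  letI : MeasurableSpace (Adl K) := borel (Adl K)
  haveI : BorelSpace (Adl K) := ⟨rfl⟩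
  obtain ⟨⟨_, _, hsc⟩, _, _, _⟩ := hT.locComp
  haveI := hsc
  intro μ hμ D hD n hn g
  haveI := hμ
  -- `μ D < ⊤`
  obtain ⟨D0, -, hD0, -, -, hD0fin⟩ := hT.addFundDom μ hμ
  haveI : Countable K := countable_numberField312 K
  haveI : Countable ↥((algebraMap K (Adl K)).toAddMonoidHom.range) :=
    (Set.countable_range (algebraMap K (Adl K))).to_subtype
  have hDfin : μ D < ⊤ := by
    have h := hD.measure_eq hD0
    rw [h]
    exact hD0fin
  haveI : IsFiniteMeasure (μ.restrict D) :=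
    ⟨by rw [Measure.restrict_apply_univ]; exact hDfin⟩
  haveI : IsFiniteMeasure ((volume : Measure (InfinitePlace K → ℝ)).restrict (cube40 K)) :=
    ⟨by rw [Measure.restrict_apply_univ, volume_cube312]; exact ENNReal.one_lt_top⟩
  obtain ⟨C, hC⟩ := hψ.bdd
  have hcont : Continuous
      (fun p : Adl K × (InfinitePlace K → ℝ) => ψ (n p.1 * g * Y p.2)) :=
    hψ.cont.comp ((((continuous_unip312 n hn).comp continuous_fst).mul continuous_const).mul
      (hY.cont.comp continuous_snd))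
  have hint : Integrable (Function.uncurry fun (x : Adl K) (t : InfinitePlace K → ℝ) =>
      ψ (n x * g * Y t)) ((μ.restrict D).prod (volume.restrict (cube40 K))) :=
    Integrable.of_bound hcont.aestronglyMeasurable C (Filter.Eventually.of_forall fun p => hC _)
  show ∫ x in D, archAvg40 Y ψ (n x * g) ∂μ = 0
  have h1 : (fun x : Adl K => archAvg40 Y ψ (n x * g))
      = fun x : Adl K => ∫ t in cube40 K, ψ (n x * g * Y t) := rfl
  rw [h1, integral_integral_swap hint]
  have h2 : ∀ t : InfinitePlace K → ℝ, ∫ x in D, ψ (n x * g * Y t) ∂μ = 0 := by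
    intro t
    have h := hψ.cuspidal μ hμ D hD n hn (g * Y t)
    simpa only [mul_assoc] using h
  simp only [h2, integral_zero]

end Fermat.Agent.LT.T7.H312

end
end
-- ===== PACK-END LT/T7/H312/AvgCuspidal.lean

-- ===== PACK-BEGIN LT/T7/H922/FamOps.lean
section




/-!
# Row LT, tower T7, node T7.L2.1.F `FamC` (helper922): the operator formulas of the families

OFF-MAIN.  On `LT/T7/H893/SupplyFamSpec.lean` (helper893, sha256 32dee4c883d1) and the
Mathlib-only core `LT/T7/H922/ConvCore.lean`.  For a Haar measure `μ` of `GL₂(𝔸_K)`, continuous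
functions `φ, φ₁, φ₂` with compact support and a continuous function `ψ`:

* `rconv_conv922`: `R(φ₁ ⋆ φ₂) ψ = R(φ₁) (R(φ₂) ψ)`;
* `rconv_ltr922`, `rconv_lsum922`, `rconv_iwL922`, `rconv_iwL_iter922`, `rconv_regL922`:
  `R(regL w z H k m φ) ψ = shiftOp z k ((iwOp w H)^[m] (R(φ) ψ))`;
* the operations `ltr`, `lsum`, `iwL`, `regL` preserve continuity and compact support.
-/

set_option autoImplicit false
set_option linter.unusedSectionVars false

open AutomorphicForm IsDedekindDomain NumberField MeasureTheory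
open scoped ComplexConjugate

noncomputable section

namespace Fermat.Agent.LT.T7.H922

open Fermat.Agent.LT.H556 Fermat.Agent.LT.H556.A0 Fermat.Agent.LT.T7 Fermat.Agent.LT.T7.H893

attribute [local instance] Fermat.Agent.LT.T5.instMeasurableSpaceG

section Ops

variable {K : Type} [Field K] [NumberField K]

/-- The Borel structure of `GL₂(𝔸_K)` (for the local measurable space of T5). -/
theorem borelSpaceG922 : BorelSpace (G K) := ⟨rfl⟩

attribute [local instance] borelSpaceG922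

/-! ### Continuity and compact support -/

theorem continuous_ltrT922 {φ : G K → ℂ} (h : Continuous φ) (b : G K) :
    Continuous (ltr b φ) :=
  continuous_ltr922 h b

theorem hasCompactSupport_ltrT922 {φ : G K → ℂ} (h : HasCompactSupport φ) (b : G K) :
    HasCompactSupport (ltr b φ) :=
  hasCompactSupport_ltr922 h b

theorem continuous_lsumT922 {φ : G K → ℂ} (h : Continuous φ) (H : Finset (G K)) :
    Continuous (lsum H φ) :=
  continuous_lsum922 h H

theorem hasCompactSupport_lsumT922 {φ : G K → ℂ} (h : HasCompactSupport φ) (H : Finset (G K)) :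
    HasCompactSupport (lsum H φ) :=
  hasCompactSupport_lsum922 h H

theorem continuous_iwL922 {φ : G K → ℂ} (h : Continuous φ) (w : HeightOneSpectrum (𝓞 K))
    (H : Finset (G K)) : Continuous (iwL w H φ) :=
  continuous_const.mul (continuous_lsum922 h H)

theorem hasCompactSupport_iwL922 {φ : G K → ℂ} (h : HasCompactSupport φ)
    (w : HeightOneSpectrum (𝓞 K)) (H : Finset (G K)) : HasCompactSupport (iwL w H φ) :=
  hasCompactSupport_const_mul922 (hasCompactSupport_lsum922 h H) _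

theorem continuous_iwL_iter922 {φ : G K → ℂ} (h : Continuous φ) (w : HeightOneSpectrum (𝓞 K))
    (H : Finset (G K)) (m : ℕ) : Continuous ((iwL w H)^[m] φ) := by
  induction m with
  | zero => simpa using h
  | succ m ih =>
    rw [Function.iterate_succ_apply']
    exact continuous_iwL922 ih w H

theorem hasCompactSupport_iwL_iter922 {φ : G K → ℂ} (h : HasCompactSupport φ)
    (w : HeightOneSpectrum (𝓞 K)) (H : Finset (G K)) (m : ℕ) :
    HasCompactSupport ((iwL w H)^[m] φ) := by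
  induction m with
  | zero => simpa using h
  | succ m ih =>
    rw [Function.iterate_succ_apply']
    exact hasCompactSupport_iwL922 ih w H

theorem continuous_regL922 {φ : G K → ℂ} (h : Continuous φ) (w : HeightOneSpectrum (𝓞 K))
    (z : G K) (H : Finset (G K)) (k : ℤ) (m : ℕ) : Continuous (regL w z H k m φ) :=
  continuous_ltrT922 (continuous_iwL_iter922 h w H m) _

theorem hasCompactSupport_regL922 {φ : G K → ℂ} (h : HasCompactSupport φ)
    (w : HeightOneSpectrum (𝓞 K)) (z : G K) (H : Finset (G K)) (k : ℤ) (m : ℕ) :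
    HasCompactSupport (regL w z H k m φ) :=
  hasCompactSupport_ltrT922 (hasCompactSupport_iwL_iter922 h w H m) _

/-! ### The operator formulas -/

variable (μ : Measure (G K)) [μ.IsHaarMeasure]

/-- `R(φ₁ ⋆ φ₂) ψ = R(φ₁) (R(φ₂) ψ)`. -/
theorem rconv_conv922 {φ₁ φ₂ ψ : G K → ℂ} (h1 : Continuous φ₁) (h1' : HasCompactSupport φ₁)
    (h2 : Continuous φ₂) (h2' : HasCompactSupport φ₂) (hψ : Continuous ψ) (x : G K) :
    T5.Rconv μ (T5.conv μ φ₁ φ₂) ψ x = T5.Rconv μ φ₁ (T5.Rconv μ φ₂ ψ) x :=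
  rconv_conv_core922 μ h1 h1' h2 h2' hψ x

/-- `R(ltr b φ) ψ (x) = R(φ) ψ (x b)`. -/
theorem rconv_ltr922 (φ ψ : G K → ℂ) (b x : G K) :
    T5.Rconv μ (ltr b φ) ψ x = T5.Rconv μ φ ψ (x * b) :=
  rconv_ltr_core922 μ φ ψ b x

/-- `R(lsum H φ) ψ = cosetOp H (R(φ) ψ)`. -/
theorem rconv_lsum922 {φ ψ : G K → ℂ} (h : Continuous φ) (h' : HasCompactSupport φ)
    (hψ : Continuous ψ) (H : Finset (G K)) (x : G K) :
    T5.Rconv μ (lsum H φ) ψ x = cosetOp H (T5.Rconv μ φ ψ) x :=
  rconv_lsum_core922 μ h h' hψ H x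

/-- `R(iwL w H φ) ψ = iwOp w H (R(φ) ψ)`. -/
theorem rconv_iwL922 {φ ψ : G K → ℂ} (h : Continuous φ) (h' : HasCompactSupport φ)
    (hψ : Continuous ψ) (w : HeightOneSpectrum (𝓞 K)) (H : Finset (G K)) (x : G K) :
    T5.Rconv μ (iwL w H φ) ψ x = iwOp w H (T5.Rconv μ φ ψ) x := by
  show ∫ y, (((Real.sqrt (Ideal.absNorm w.asIdeal : ℝ) : ℝ) : ℂ)⁻¹ * ∑ b ∈ H, φ (b⁻¹ * y))
      * ψ (x * y) ∂μ
    = ((Real.sqrt (Ideal.absNorm w.asIdeal : ℝ) : ℝ) : ℂ)⁻¹ * ∑ b ∈ H, ∫ y, φ y * ψ (x * b * y) ∂μ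
  rw [← rconv_lsum_core922 μ h h' hψ H x, ← integral_const_mul]
  refine integral_congr_ae (Filter.Eventually.of_forall fun y => ?_)
  show _ * _ * _ = _ * (_ * _)
  ring

/-- `R((iwL w H)^[m] φ) ψ = (iwOp w H)^[m] (R(φ) ψ)`. -/
theorem rconv_iwL_iter922 {φ ψ : G K → ℂ} (h : Continuous φ) (h' : HasCompactSupport φ)
    (hψ : Continuous ψ) (w : HeightOneSpectrum (𝓞 K)) (H : Finset (G K)) (m : ℕ) :
    T5.Rconv μ ((iwL w H)^[m] φ) ψ = (iwOp w H)^[m] (T5.Rconv μ φ ψ) := by
  induction m with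
  | zero => rfl
  | succ m ih =>
    rw [Function.iterate_succ_apply', Function.iterate_succ_apply', ← ih]
    funext x
    exact rconv_iwL922 μ (continuous_iwL_iter922 h w H m) (hasCompactSupport_iwL_iter922 h' w H m)
      hψ w H x

/-- `R(regL w z H k m φ) ψ = shiftOp z k ((iwOp w H)^[m] (R(φ) ψ))`. -/
theorem rconv_regL922 {φ ψ : G K → ℂ} (h : Continuous φ) (h' : HasCompactSupport φ)
    (hψ : Continuous ψ) (w : HeightOneSpectrum (𝓞 K)) (z : G K) (H : Finset (G K)) (k : ℤ)
    (m : ℕ) :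
    T5.Rconv μ (regL w z H k m φ) ψ = shiftOp z k ((iwOp w H)^[m] (T5.Rconv μ φ ψ)) := by
  funext x
  show T5.Rconv μ (ltr (z ^ k) ((iwL w H)^[m] φ)) ψ x = _
  rw [rconv_ltr922, rconv_iwL_iter922 μ h h' hψ w H m]
  rfl

/-! ### The operators on the zero function -/

theorem iwOp_zero922 (w : HeightOneSpectrum (𝓞 K)) (H : Finset (G K)) :
    iwOp w H (fun _ => (0 : ℂ)) = fun _ => 0 := by
  funext x
  simp [iwOp]

theorem iwOp_iter_zero922 (w : HeightOneSpectrum (𝓞 K)) (H : Finset (G K)) (m : ℕ) :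
    (iwOp w H)^[m] (fun _ => (0 : ℂ)) = fun _ => 0 := by
  induction m with
  | zero => rfl
  | succ m ih => rw [Function.iterate_succ_apply', ih, iwOp_zero922]

theorem cosetOp_zero922 (H : Finset (G K)) : cosetOp H (fun _ => (0 : ℂ)) = fun _ => 0 := by
  funext x
  simp [cosetOp]

theorem shiftOp_zero922 (z : G K) (k : ℤ) : shiftOp z k (fun _ => (0 : ℂ)) = fun _ => 0 := rfl

theorem rconv_zero922 (φ : G K → ℂ) (x : G K) : T5.Rconv μ φ (fun _ => (0 : ℂ)) x = 0 := by
  simp [T5.Rconv]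

end Ops

end Fermat.Agent.LT.T7.H922

end

end
-- ===== PACK-END LT/T7/H922/FamOps.lean

-- ===== PACK-BEGIN LT/T7/H476/BCDataQ.lean
section


/-!
# Row LT, tower T7, node T7.L2Q.3 (sub-architect helper140): leaf SDQ.4 `BCDataQC` (helper476)

OFF-MAIN.  `bcDataQC476 F n : SDQ140.BCDataQC F n` VERBATIM vs
`LT/T7/H140/SpecDownQSpec.lean` (helper140@26e3e6c54, sha256 7aa829b756fe1896), nothing assumed.

A finite place `w` of `F` determines the rational prime `p ∈ w` (`N w = p ^ f`, `f ≥ 1`), the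
prime `p` determines the place `v ∋ p` of `ℚ` (`(p)` is maximal in `𝓞 ℚ ≃ ℤ`) and `N w = p ^ f`
determines `f`; so the finite part of `C` is defined by a choice of `(p, v, f)` if there is one.
The archimedean part is `4π · sphC (2 s) ∘ cosh` for the parameter `s` of `c`.
-/

set_option autoImplicit false

open AutomorphicForm IsDedekindDomain NumberField

noncomputable section

namespace Fermat.Agent.LT.T7.H476

open Fermat.Agent.LT.H556 Fermat.Agent.LT.H556.A0 Fermat.Agent.LT.T7 Fermat.Agent.LT.T7.L2Q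

/-- The rational prime in a finite place `w` with `N w = p ^ f` is unique. -/
theorem prime_unique476 {F : Type} [Field F] [NumberField F] (w : HeightOneSpectrum (𝓞 F))
    {p p' f f' : ℕ} (hp : p.Prime) (hp' : p'.Prime)
    (h : Ideal.absNorm w.asIdeal = p ^ f) (h' : Ideal.absNorm w.asIdeal = p' ^ f') :
    p = p' ∧ f = f' := by
  have hne1 : Ideal.absNorm w.asIdeal ≠ 1 := by
    rw [Ne, Ideal.absNorm_eq_one_iff]
    exact w.isPrime.ne_top
  have hf : f ≠ 0 := by
    rintro rfl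
    exact hne1 (by rw [h, pow_zero])
  have hdvd : p ∣ p' ^ f' := by
    rw [← h', h]
    exact dvd_pow_self p hf
  have hpp : p = p' := (Nat.prime_dvd_prime_iff_eq hp hp').1 (hp.dvd_of_dvd_pow hdvd)
  refine ⟨hpp, ?_⟩
  subst hpp
  exact Nat.pow_right_injective hp.two_le (h.symm.trans h')

/-- The place of `ℚ` containing the prime `p` is unique. -/
theorem place_unique476 {p : ℕ} (hp : p.Prime) (v v' : HeightOneSpectrum (𝓞 ℚ))
    (hv : ((p : ℕ) : 𝓞 ℚ) ∈ v.asIdeal) (hv' : ((p : ℕ) : 𝓞 ℚ) ∈ v'.asIdeal) : v = v' := by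
  have hmax : (Ideal.span {((p : ℕ) : ℤ)}).IsMaximal :=
    PrincipalIdealRing.isMaximal_of_irreducible (Nat.prime_iff_prime_int.1 hp).irreducible
  have hI : (Ideal.comap (Rat.ringOfIntegersEquiv : 𝓞 ℚ →+* ℤ)
      (Ideal.span {((p : ℕ) : ℤ)})).IsMaximal :=
    Ideal.comap_isMaximal_of_surjective _ Rat.ringOfIntegersEquiv.surjective
  have hle : ∀ u : HeightOneSpectrum (𝓞 ℚ), ((p : ℕ) : 𝓞 ℚ) ∈ u.asIdeal →
      Ideal.comap (Rat.ringOfIntegersEquiv : 𝓞 ℚ →+* ℤ) (Ideal.span {((p : ℕ) : ℤ)}) ≤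
        u.asIdeal := by
    intro u hu x hx
    rw [Ideal.mem_comap, Ideal.mem_span_singleton] at hx
    obtain ⟨k, hk⟩ := hx
    have hx' : x = ((p : ℕ) : 𝓞 ℚ) * Rat.ringOfIntegersEquiv.symm k := by
      apply Rat.ringOfIntegersEquiv.injective
      rw [map_mul, map_natCast, RingEquiv.apply_symm_apply]
      exact hk
    rw [hx']
    exact u.asIdeal.mul_mem_right _ hu
  have h1 := hI.eq_of_le v.isPrime.ne_top (hle v hv)
  have h2 := hI.eq_of_le v'.isPrime.ne_top (hle v' hv')
  exact HeightOneSpectrum.ext (h1.symm.trans h2)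

/-- **SDQ.4 `BCDataQC`.** -/
theorem bcDataQC476 (F : Type) [Field F] [NumberField F] (n : QWt) : SDQ140.BCDataQC F n := by
  classical
  intro c hc
  obtain ⟨s, hs⟩ := hc
  -- the triples `(p, v, f)` attached to a finite place `w`
  let Q : HeightOneSpectrum (𝓞 F) → ℕ × HeightOneSpectrum (𝓞 ℚ) × ℕ → Prop := fun w t =>
    t.1.Prime ∧ ((t.1 : ℕ) : 𝓞 ℚ) ∈ t.2.1.asIdeal ∧ ((t.1 : ℕ) : 𝓞 F) ∈ w.asIdeal ∧
      Ideal.absNorm w.asIdeal = t.1 ^ t.2.2
  have hQ : ∀ (w : HeightOneSpectrum (𝓞 F)) (t t' : ℕ × HeightOneSpectrum (𝓞 ℚ) × ℕ),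
      Q w t → Q w t' → t = t' := by
    rintro w ⟨p, v, f⟩ ⟨p', v', f'⟩ ⟨hp, hv, -, hN⟩ ⟨hp', hv', -, hN'⟩
    obtain ⟨rfl, rfl⟩ := prime_unique476 w hp hp' hN hN'
    have hvv : v = v' := place_unique476 hp v v' hv hv'
    subst hvv
    rfl
  refine ⟨⟨fun w => if h : ∃ t, Q w t then
        satakePow h.choose.2.2 (c.a h.choose.2.1) (c.b h.choose.2.1) else 0,
      fun w => if h : ∃ t, Q w t then c.b h.choose.2.1 ^ h.choose.2.2 else 0,
      fun _ d => ((4 * Real.pi : ℝ) : ℂ) * T6.sphC (2 * s) (Real.cosh d)⟩, ?_, s, hs, ?_⟩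
  · intro p hp _ v hv w f hw hN
    have hex : ∃ t, Q w t := ⟨(p, v, f), hp, hv, hw, hN⟩
    have heq : hex.choose = (p, v, f) := hQ w _ _ hex.choose_spec ⟨hp, hv, hw, hN⟩
    constructor
    · change (if h : ∃ t, Q w t then
        satakePow h.choose.2.2 (c.a h.choose.2.1) (c.b h.choose.2.1) else 0) = _
      rw [dif_pos hex, heq]
    · change (if h : ∃ t, Q w t then c.b h.choose.2.1 ^ h.choose.2.2 else 0) = _
      rw [dif_pos hex, heq]
  · intro w d _
    rfl

end Fermat.Agent.LT.T7.H476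

end

end
-- ===== PACK-END LT/T7/H476/BCDataQ.lean

-- ===== PACK-BEGIN LT/T7/H281/OpUpSpec.lean
section



/-!
# Row LT, tower T7, leaf T7.L2.1.F3 `OpUpC` (owner helper281): THE CUT -- Spec and PROVED top

OFF-MAIN.  Definitions, frozen Props of six sub-leaves, PROVED top.  No `sorry`, nothing assumed.
ADDITIVE (new names only, all ending in `281`).  Vocabulary: `T7/Level2.lean` (15516646),
`T7/H893/SupplyFamSpec.lean` (32dee4c8).

    opUpC_of281 : RconvOpsC281 K' → TranslEigC281 K' → IwInvC281 K' → DblInvC281 K'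
                    → ShiftInvC281 K' → IndepC281 K' → H893.OpUpC K K'

Every sub-leaf is a statement about ONE number field (no extension, no eigensystem `Φ`).

* **A `RconvOpsC281`** (analysis): for a frame, continuous compactly supported `φ₁, φ₂` and a
  continuous `ψ`:
  `R(φ₁ ⋆ lsum Hg (regL w z H k m φ₂)) ψ = R(φ₁) (cosetOp Hg (shiftOp z k ((iwOp w H)^[m] (R(φ₂) ψ))))`
  (Fubini: asset `T5.H277.Rconv_Rconv277` helper32@5a6a5cf2e; left invariance of the measure).
* **B `TranslEigC281`** (general stability): for a finite set `T` of elements which are trivial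
  at infinity and in `GL₂(𝒪_v)` at every `v ∤ 𝔫₀`, the operator `ψ ↦ c ∑_{t ∈ T} ψ(· t)` preserves
  `IsEigFn 𝔫₀ r l o · C` PROVIDED the image is right invariant under `U(𝔫₀)` and Iwahori
  invariant (continuity, bound, left invariance, `K_∞`, ray, positive scalars: elements trivial
  at infinity commute with elements trivial at the finite places; cuspidality: asset helper886
  `T2/H886/CuspAlg.lean`; Hecke at `v ∤ 𝔫₀`: the conjugate `t⁻¹ H t` of a Hecke coset system is a
  Hecke coset system; sphere means: continuity of the spheres, asset helper472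
  `T2/H472/LocCont.lean`).
* **C `IwInvC281`**: the elements of an Iwahori coset system at `o 0 ∣ 𝔫₀` are good, and `iwOp`
  preserves the right `U(𝔫₀)`-invariance and the Iwahori invariance (asset helper340
  `T7/H340/IwKit.lean`: `isIwInv_iwOp340`, `iwSum_indep340`, `isIwCosetSystem_translate340`).
* **D `DblInvC281`**: the same for `cosetOp Hg`, `Hg` a system of `U(𝔫₀) g U(𝔫₀) / U(𝔫₀)`,
  `g` trivial at infinity, at the `v ∤ 𝔫₀` and along the orbit.
* **S `ShiftInvC281`**: the same for `shiftOp z k`, `z` a scalar uniformiser at `o 0` (central),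
  and independence of `z` on Iwahori invariant functions.
* **I `IndepC281`**: `iwOp (o 0) H ψ` does not depend on `H` for Iwahori invariant `ψ`
  (`iwOp_indep340`), `cosetOp Hg χ` does not depend on `Hg` for right `U(𝔫₀)`-invariant `χ`.
-/

set_option autoImplicit false

open AutomorphicForm IsDedekindDomain NumberField MeasureTheory
open scoped ComplexConjugate

noncomputable section

namespace Fermat.Agent.LT.T7.H281

open Fermat.Agent.LT.H556 Fermat.Agent.LT.H556.A0 Fermat.Agent.LT.T7 Fermat.Agent.LT.T7.H893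

attribute [local instance] Fermat.Agent.LT.T5.instMeasurableSpaceG

/-! ## 1. Vocabulary -/

section Vocab

variable {K : Type} [Field K] [NumberField K]

/-- `ψ` is right invariant under the level group `U(𝔫₀)`. -/
def IsRInv281 (𝔫₀ : Ideal (𝓞 K)) (ψ : G K → ℂ) : Prop :=
  ∀ u : G K, InLevelGroup 𝔫₀ u → ∀ x : G K, ψ (x * u) = ψ x

/-- `t` is a GOOD translation for the level `𝔫₀`: trivial at infinity and in `GL₂(𝒪_v)` at every
finite place `v ∤ 𝔫₀`. -/
def IsGoodTransl281 (𝔫₀ : Ideal (𝓞 K)) (t : G K) : Prop :=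
  (∀ w : InfinitePlace K, TrivAtInf w t) ∧
    ∀ v : HeightOneSpectrum (𝓞 K), ¬ v.asIdeal ∣ 𝔫₀ → IsIntegralAt v t ∧ IsIntegralAt v t⁻¹

/-- The operator `ψ ↦ c ∑_{t ∈ T} ψ(· t)`. -/
def translOp281 (T : Finset (G K)) (c : ℂ) (ψ : G K → ℂ) : G K → ℂ :=
  fun x => c * ∑ t ∈ T, ψ (x * t)

end Vocab

/-! ## 2. The six sub-leaves -/

section Leaves

variable (K : Type) [Field K] [NumberField K]

/-- **SUB-LEAF A = RCONV-OPS** (analysis).  See the header. -/
def RconvOpsC281 : Prop :=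
  ∀ (μ : Measure (G K)) (F : Set (G K)), T5.IsFrame μ F →
    ∀ φ₁ φ₂ ψ : G K → ℂ, Continuous φ₁ → HasCompactSupport φ₁ → Continuous φ₂ →
      HasCompactSupport φ₂ → Continuous ψ →
    ∀ (w : HeightOneSpectrum (𝓞 K)) (Hg H : Finset (G K)) (z : G K) (k : ℤ) (m : ℕ) (x : G K),
      T5.Rconv μ (T5.conv μ φ₁ (lsum Hg (regL w z H k m φ₂))) ψ x
        = T5.Rconv μ φ₁ (cosetOp Hg (shiftOp z k ((iwOp w H)^[m] (T5.Rconv μ φ₂ ψ)))) x

/-- **SUB-LEAF B = TRANSL-EIG** (general stability).  See the header. -/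
def TranslEigC281 : Prop :=
  ∀ (𝔫₀ : Ideal (𝓞 K)) (r : G K) (l : ℕ) (o : ℕ → HeightOneSpectrum (𝓞 K)), T5.IsRayGen r →
    ∀ (T : Finset (G K)) (c : ℂ), (∀ t ∈ T, IsGoodTransl281 𝔫₀ t) →
    ∀ (ψ : G K → ℂ) (C : EigData K), IsEigFn 𝔫₀ r l o ψ C →
      IsRInv281 𝔫₀ (translOp281 T c ψ) → IsIwInv l o (translOp281 T c ψ) →
      IsEigFn 𝔫₀ r l o (translOp281 T c ψ) C

/-- **SUB-LEAF C = IW-INV.**  See the header. -/
def IwInvC281 : Prop :=
  ∀ (𝔫₀ : Ideal (𝓞 K)) (l : ℕ) (o : ℕ → HeightOneSpectrum (𝓞 K)), 0 < l →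
    (∀ j < l, (o j).asIdeal ∣ 𝔫₀) →
    ∀ H : Finset (G K), IsIwCosetSystem (o 0) H →
      (∀ h ∈ H, IsGoodTransl281 𝔫₀ h) ∧
      ∀ ψ : G K → ℂ, IsRInv281 𝔫₀ ψ → IsIwInv l o ψ →
        IsRInv281 𝔫₀ (iwOp (o 0) H ψ) ∧ IsIwInv l o (iwOp (o 0) H ψ)

/-- **SUB-LEAF D = DBL-INV.**  See the header. -/
def DblInvC281 : Prop :=
  ∀ (𝔫₀ : Ideal (𝓞 K)) (l : ℕ) (o : ℕ → HeightOneSpectrum (𝓞 K)),
    (∀ j < l, (o j).asIdeal ∣ 𝔫₀) →
    ∀ g : G K, (∀ w : InfinitePlace K, TrivAtInf w g) →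
      (∀ v : HeightOneSpectrum (𝓞 K), (¬ v.asIdeal ∣ 𝔫₀ ∨ ∃ j < l, v = o j) → TrivAtFin v g) →
    ∀ Hg : Finset (G K), IsDblCosetSystem 𝔫₀ g Hg →
      (∀ a ∈ Hg, IsGoodTransl281 𝔫₀ a) ∧
      ∀ χ : G K → ℂ, IsRInv281 𝔫₀ χ → IsIwInv l o χ →
        IsRInv281 𝔫₀ (cosetOp Hg χ) ∧ IsIwInv l o (cosetOp Hg χ)

/-- **SUB-LEAF S = SHIFT-INV.**  See the header. -/
def ShiftInvC281 : Prop :=
  ∀ (𝔫₀ : Ideal (𝓞 K)) (l : ℕ) (o : ℕ → HeightOneSpectrum (𝓞 K)), 0 < l →
    (∀ j < l, (o j).asIdeal ∣ 𝔫₀) →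
    ∀ z : G K, IsScalarUniformizerAt (o 0) z → ∀ k : ℤ,
      IsGoodTransl281 𝔫₀ (z ^ k) ∧
      (∀ ψ : G K → ℂ, IsRInv281 𝔫₀ ψ → IsRInv281 𝔫₀ (shiftOp z k ψ)) ∧
      (∀ ψ : G K → ℂ, IsIwInv l o ψ → IsIwInv l o (shiftOp z k ψ)) ∧
      ∀ z' : G K, IsScalarUniformizerAt (o 0) z' → ∀ ψ : G K → ℂ, IsIwInv l o ψ →
        ∀ x : G K, shiftOp z k ψ x = shiftOp z' k ψ x

/-- **SUB-LEAF I = INDEP.**  See the header. -/
def IndepC281 : Prop :=
  ∀ (𝔫₀ : Ideal (𝓞 K)) (l : ℕ) (o : ℕ → HeightOneSpectrum (𝓞 K)), 0 < l →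
    (∀ (H H' : Finset (G K)), IsIwCosetSystem (o 0) H → IsIwCosetSystem (o 0) H' →
      ∀ ψ : G K → ℂ, IsIwInv l o ψ → ∀ x : G K, iwOp (o 0) H ψ x = iwOp (o 0) H' ψ x) ∧
    ∀ (g : G K) (Hg Hg' : Finset (G K)), IsDblCosetSystem 𝔫₀ g Hg → IsDblCosetSystem 𝔫₀ g Hg' →
      ∀ χ : G K → ℂ, IsRInv281 𝔫₀ χ → ∀ x : G K, cosetOp Hg χ x = cosetOp Hg' χ x

end Leaves

/-! ## 3. The top -/

section Top

variable {K : Type} [Field K] [NumberField K]

theorem isRInv_of_isEigFn281 {𝔫₀ : Ideal (𝓞 K)} {r : G K} {l : ℕ}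
    {o : ℕ → HeightOneSpectrum (𝓞 K)} {ψ : G K → ℂ} {C : EigData K}
    (h : IsEigFn 𝔫₀ r l o ψ C) : IsRInv281 𝔫₀ ψ :=
  fun u hu x => h.inv.cusp.aut.level_inv u hu x

theorem iwOp_eq_translOp281 (w : HeightOneSpectrum (𝓞 K)) (H : Finset (G K)) (ψ : G K → ℂ) :
    iwOp w H ψ
      = translOp281 H (((Real.sqrt (Ideal.absNorm w.asIdeal : ℝ) : ℝ) : ℂ)⁻¹) ψ := rfl

theorem cosetOp_eq_translOp281 (H : Finset (G K)) (ψ : G K → ℂ) :
    cosetOp H ψ = translOp281 H 1 ψ := by
  funext x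
  simp only [cosetOp, translOp281, one_mul]

theorem shiftOp_eq_translOp281 [DecidableEq (G K)] (z : G K) (k : ℤ) (ψ : G K → ℂ) :
    shiftOp z k ψ = translOp281 {z ^ k} 1 ψ := by
  funext x
  simp only [shiftOp, translOp281, one_mul, Finset.sum_singleton]

/-- `iwOp` preserves the eigen-classes. -/
theorem isEigFn_iwOp281 (hB : TranslEigC281 K) (hC : IwInvC281 K) {𝔫₀ : Ideal (𝓞 K)} {r : G K}
    {l : ℕ} {o : ℕ → HeightOneSpectrum (𝓞 K)} (hr : T5.IsRayGen r) (hl : 0 < l)
    (ho : ∀ j < l, (o j).asIdeal ∣ 𝔫₀) {H : Finset (G K)} (hH : IsIwCosetSystem (o 0) H)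
    {ψ : G K → ℂ} {C : EigData K} (hψ : IsEigFn 𝔫₀ r l o ψ C) :
    IsEigFn 𝔫₀ r l o (iwOp (o 0) H ψ) C := by
  obtain ⟨hgood, hinv⟩ := hC 𝔫₀ l o hl ho H hH
  obtain ⟨h1, h2⟩ := hinv ψ (isRInv_of_isEigFn281 hψ) hψ.inv.iw
  rw [iwOp_eq_translOp281] at h1 h2 ⊢
  exact hB 𝔫₀ r l o hr H _ hgood ψ C hψ h1 h2

/-- The iterates of `iwOp` preserve the eigen-classes. -/
theorem isEigFn_iwOp_iterate281 (hB : TranslEigC281 K) (hC : IwInvC281 K) {𝔫₀ : Ideal (𝓞 K)}
    {r : G K} {l : ℕ} {o : ℕ → HeightOneSpectrum (𝓞 K)} (hr : T5.IsRayGen r) (hl : 0 < l)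
    (ho : ∀ j < l, (o j).asIdeal ∣ 𝔫₀) {H : Finset (G K)} (hH : IsIwCosetSystem (o 0) H)
    {ψ : G K → ℂ} {C : EigData K} (hψ : IsEigFn 𝔫₀ r l o ψ C) (m : ℕ) :
    IsEigFn 𝔫₀ r l o ((iwOp (o 0) H)^[m] ψ) C := by
  induction m with
  | zero => exact hψ
  | succ m ih =>
    rw [Function.iterate_succ_apply']
    exact isEigFn_iwOp281 hB hC hr hl ho hH ih

/-- `shiftOp` preserves the eigen-classes. -/
theorem isEigFn_shiftOp281 (hB : TranslEigC281 K) (hS : ShiftInvC281 K) {𝔫₀ : Ideal (𝓞 K)}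
    {r : G K} {l : ℕ} {o : ℕ → HeightOneSpectrum (𝓞 K)} (hr : T5.IsRayGen r) (hl : 0 < l)
    (ho : ∀ j < l, (o j).asIdeal ∣ 𝔫₀) {z : G K} (hz : IsScalarUniformizerAt (o 0) z) (k : ℤ)
    {ψ : G K → ℂ} {C : EigData K} (hψ : IsEigFn 𝔫₀ r l o ψ C) :
    IsEigFn 𝔫₀ r l o (shiftOp z k ψ) C := by
  classical
  obtain ⟨hgood, h1, h2, -⟩ := hS 𝔫₀ l o hl ho z hz k
  have h1' := h1 ψ (isRInv_of_isEigFn281 hψ)
  have h2' := h2 ψ hψ.inv.iw
  rw [shiftOp_eq_translOp281] at h1' h2' ⊢
  refine hB 𝔫₀ r l o hr _ _ (fun t ht => ?_) ψ C hψ h1' h2'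
  rw [Finset.mem_singleton] at ht
  rw [ht]
  exact hgood

/-- `cosetOp Hg` preserves the eigen-classes. -/
theorem isEigFn_cosetOp281 (hB : TranslEigC281 K) (hD : DblInvC281 K) {𝔫₀ : Ideal (𝓞 K)}
    {r : G K} {l : ℕ} {o : ℕ → HeightOneSpectrum (𝓞 K)} (hr : T5.IsRayGen r)
    (ho : ∀ j < l, (o j).asIdeal ∣ 𝔫₀) {g : G K} (hg1 : ∀ w : InfinitePlace K, TrivAtInf w g)
    (hg2 : ∀ v : HeightOneSpectrum (𝓞 K), (¬ v.asIdeal ∣ 𝔫₀ ∨ ∃ j < l, v = o j) → TrivAtFin v g)
    {Hg : Finset (G K)} (hHg : IsDblCosetSystem 𝔫₀ g Hg)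
    {ψ : G K → ℂ} {C : EigData K} (hψ : IsEigFn 𝔫₀ r l o ψ C) :
    IsEigFn 𝔫₀ r l o (cosetOp Hg ψ) C := by
  obtain ⟨hgood, hinv⟩ := hD 𝔫₀ l o ho g hg1 hg2 Hg hHg
  obtain ⟨h1, h2⟩ := hinv ψ (isRInv_of_isEigFn281 hψ) hψ.inv.iw
  rw [cosetOp_eq_translOp281] at h1 h2 ⊢
  exact hB 𝔫₀ r l o hr Hg _ hgood ψ C hψ h1 h2

/-- **STABILITY**: `[U g U] Z^k 𝒰^m ψ` is again an invariant eigenfunction with the same
eigen-data. -/
theorem isEigFn_ops281 (hB : TranslEigC281 K) (hC : IwInvC281 K) (hD : DblInvC281 K)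
    (hS : ShiftInvC281 K) {𝔫₀ : Ideal (𝓞 K)}
    {r : G K} {l : ℕ} {o : ℕ → HeightOneSpectrum (𝓞 K)} (hr : T5.IsRayGen r) (hl : 0 < l)
    (ho : ∀ j < l, (o j).asIdeal ∣ 𝔫₀) {g : G K} (hg1 : ∀ w : InfinitePlace K, TrivAtInf w g)
    (hg2 : ∀ v : HeightOneSpectrum (𝓞 K), (¬ v.asIdeal ∣ 𝔫₀ ∨ ∃ j < l, v = o j) → TrivAtFin v g)
    {Hg H : Finset (G K)} {z : G K} (hHg : IsDblCosetSystem 𝔫₀ g Hg)
    (hH : IsIwCosetSystem (o 0) H) (hz : IsScalarUniformizerAt (o 0) z) (k : ℤ) (m : ℕ)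
    {ψ : G K → ℂ} {C : EigData K} (hψ : IsEigFn 𝔫₀ r l o ψ C) :
    IsEigFn 𝔫₀ r l o (cosetOp Hg (shiftOp z k ((iwOp (o 0) H)^[m] ψ))) C :=
  isEigFn_cosetOp281 hB hD hr ho hg1 hg2 hHg
    (isEigFn_shiftOp281 hB hS hr hl ho hz k (isEigFn_iwOp_iterate281 hB hC hr hl ho hH hψ m))

/-- The iterates of `iwOp` do not depend on the coset system. -/
theorem iwOp_iterate_indep281 (hB : TranslEigC281 K) (hC : IwInvC281 K) (hI : IndepC281 K)
    {𝔫₀ : Ideal (𝓞 K)} {r : G K} {l : ℕ} {o : ℕ → HeightOneSpectrum (𝓞 K)}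
    (hr : T5.IsRayGen r) (hl : 0 < l) (ho : ∀ j < l, (o j).asIdeal ∣ 𝔫₀)
    {H H' : Finset (G K)} (hH : IsIwCosetSystem (o 0) H) (hH' : IsIwCosetSystem (o 0) H')
    {ψ : G K → ℂ} {C : EigData K} (hψ : IsEigFn 𝔫₀ r l o ψ C) (m : ℕ) :
    (iwOp (o 0) H)^[m] ψ = (iwOp (o 0) H')^[m] ψ := by
  induction m with
  | zero => rfl
  | succ m ih =>
    rw [Function.iterate_succ_apply', Function.iterate_succ_apply', ih]
    funext x
    exact (hI 𝔫₀ l o hl).1 H H' hH hH' _
      (isEigFn_iwOp_iterate281 hB hC hr hl ho hH' hψ m).inv.iw x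

/-- **INDEPENDENCE**: `[U g U] Z^k 𝒰^m ψ` does not depend on the coset systems. -/
theorem ops_indep281 (hB : TranslEigC281 K) (hC : IwInvC281 K)
    (hS : ShiftInvC281 K) (hI : IndepC281 K) {𝔫₀ : Ideal (𝓞 K)}
    {r : G K} {l : ℕ} {o : ℕ → HeightOneSpectrum (𝓞 K)} (hr : T5.IsRayGen r) (hl : 0 < l)
    (ho : ∀ j < l, (o j).asIdeal ∣ 𝔫₀) {g : G K}
    {Hg H Hg' H' : Finset (G K)} {z z' : G K} (hHg : IsDblCosetSystem 𝔫₀ g Hg)
    (hH : IsIwCosetSystem (o 0) H) (hz : IsScalarUniformizerAt (o 0) z)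
    (hHg' : IsDblCosetSystem 𝔫₀ g Hg')
    (hH' : IsIwCosetSystem (o 0) H') (hz' : IsScalarUniformizerAt (o 0) z') (k : ℤ) (m : ℕ)
    {ψ : G K → ℂ} {C : EigData K} (hψ : IsEigFn 𝔫₀ r l o ψ C) (x : G K) :
    cosetOp Hg (shiftOp z k ((iwOp (o 0) H)^[m] ψ)) x
      = cosetOp Hg' (shiftOp z' k ((iwOp (o 0) H')^[m] ψ)) x := by
  have hm := isEigFn_iwOp_iterate281 hB hC hr hl ho hH' hψ m
  have e1 : shiftOp z k ((iwOp (o 0) H)^[m] ψ) = shiftOp z' k ((iwOp (o 0) H')^[m] ψ) := by
    rw [iwOp_iterate_indep281 hB hC hI hr hl ho hH hH' hψ m]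
    funext y
    exact (hS 𝔫₀ l o hl ho z hz k).2.2.2 z' hz' _ hm.inv.iw y
  rw [e1]
  exact (hI 𝔫₀ l o hl).2 g Hg Hg' hHg hHg' _
    (isRInv_of_isEigFn281 (isEigFn_shiftOp281 hB hS hr hl ho hz' k hm)) x

/-! ### Linearity -/

theorem iwOp_const_mul281 (w : HeightOneSpectrum (𝓞 K)) (H : Finset (G K)) (c : ℂ)
    (ψ : G K → ℂ) : iwOp w H (fun y => c * ψ y) = fun y => c * iwOp w H ψ y := by
  funext y
  simp only [iwOp, ← Finset.mul_sum]
  ring

theorem iwOp_iterate_const_mul281 (w : HeightOneSpectrum (𝓞 K)) (H : Finset (G K)) (c : ℂ)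
    (ψ : G K → ℂ) (m : ℕ) :
    (iwOp w H)^[m] (fun y => c * ψ y) = fun y => c * (iwOp w H)^[m] ψ y := by
  induction m with
  | zero => rfl
  | succ m ih =>
    rw [Function.iterate_succ_apply', ih, iwOp_const_mul281]
    funext y
    rw [Function.iterate_succ_apply']

theorem ops_const_mul281 (w : HeightOneSpectrum (𝓞 K)) (Hg H : Finset (G K)) (z : G K) (k : ℤ)
    (m : ℕ) (c : ℂ) (ψ : G K → ℂ) :
    cosetOp Hg (shiftOp z k ((iwOp w H)^[m] (fun y => c * ψ y)))
      = fun y => c * cosetOp Hg (shiftOp z k ((iwOp w H)^[m] ψ)) y := by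
  rw [iwOp_iterate_const_mul281]
  funext y
  simp only [cosetOp, shiftOp, ← Finset.mul_sum]

theorem Rconv_const_mul281 (μ : Measure (G K)) (φ ψ : G K → ℂ) (c : ℂ) (x : G K) :
    T5.Rconv μ φ (fun y => c * ψ y) x = c * T5.Rconv μ φ ψ x := by
  unfold T5.Rconv
  rw [← integral_const_mul]
  congr 1
  funext y
  ring

end Top

section Final

variable {K K' : Type} [Field K] [NumberField K] [Field K'] [NumberField K'] [Algebra K K']

/-- **THE TOP OF THE LEAF T7.L2.1.F3.** -/
theorem opUpC_of281 (hA : RconvOpsC281 K') (hB : TranslEigC281 K') (hC : IwInvC281 K')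
    (hD : DblInvC281 K') (hS : ShiftInvC281 K') (hI : IndepC281 K') : OpUpC K K' := by
  intro ℓ Φ B hBase g hg E hE X k m hX ψ C hψ Hg H z hHg hH hz x
  have hr : T5.IsRayGen B.R'.r := hBase.frame'.ray
  have hl : 0 < ℓ := hBase.deg ▸ hBase.cyc.pos
  have ho : ∀ j < ℓ, (B.o j).asIdeal ∣ B.𝔑₀ := fun j _ =>
    (hBase.mem_S' (B.o j)).1 (hBase.orbit_level j)
  have hg1 : ∀ w : InfinitePlace K', TrivAtInf w g := hg.1
  have hg2 : ∀ v : HeightOneSpectrum (𝓞 K'),
      (¬ v.asIdeal ∣ B.𝔑₀ ∨ ∃ j < ℓ, v = B.o j) → TrivAtFin v g := by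
    intro v hv
    refine hg.2 v ?_
    rcases hv with hv | ⟨j, hj, hv⟩
    · exact Or.inl fun h => hv ((hBase.mem_S' v).1 h)
    · exact Or.inr ⟨j, hBase.deg ▸ hj, hv⟩
  have hΦ₁ := hE.up1_test X hX
  have hφ₂ := hE.up2_test
  -- Fubini and the translations
  have e1 := hA B.R'.μ B.R'.F hBase.frame'.frame (E.Φ₁ X) E.φ₂ ψ hΦ₁.cont hΦ₁.supp hφ₂.cont
    hφ₂.supp hψ.inv.cusp.cont (B.o 0) E.Hg E.H' E.z' k m x
  -- the scalar of `φ₂`
  have e2 : T5.Rconv B.R'.μ E.φ₂ ψ = fun y => E.c₂ C * ψ y :=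
    funext fun y => hE.up2_op ψ C hψ y
  -- stability
  have hst := isEigFn_ops281 hB hC hD hS hr hl ho hg1 hg2 hE.sysg hE.sys' hE.unif' k m hψ
  -- the scalar of `Φ₁ X`
  have e3 := hE.up1_op X hX _ C hst x
  -- independence
  have e4 := ops_indep281 hB hC hS hI hr hl ho hE.sysg hE.sys' hE.unif' hHg hH hz k m hψ x
  show T5.Rconv B.R'.μ
      (T5.conv B.R'.μ (E.Φ₁ X) (lsum E.Hg (regL (B.o 0) E.z' E.H' k m E.φ₂))) ψ x = _
  rw [e1, e2, ops_const_mul281, Rconv_const_mul281, e3, e4]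
  ring

end Final

end Fermat.Agent.LT.T7.H281

end

end
-- ===== PACK-END LT/T7/H281/OpUpSpec.lean

-- ===== PACK-BEGIN LT/T7/H194/Orb/IndIntCut.lean
section




/-!
# Row LT, tower T7, stations C2.7 / Q2.7: ASSET, CONVERGENCE OF THE ORBITAL INTEGRAL in the
vocabulary of `MatchCut.lean` (helper194)

OFF-MAIN.  On `LT/T7/H305/MatchCut.lean` (helper305, sha256 0f302b81, byte-identical copy;
vocabulary `cent305`, `IsCut305`, `IsLocCut305` only) and `Orb/IndInt.lean` (Mathlib only).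
No hole, nothing assumed.

For every compact `K`: `a ↦ 1_K(a⁻¹ (γ z) a) β(a)` is integrable (`γ` regular, `z` central):

* `hint_cutC194` : `GL₂(ℂ)`, `IsCut305 γ μT β`;
* `hint_cutR194` : `GL₂(ℝ)`, `IsCut305 γ μT β`;
* `hint_locCut194` : `GL₂(k)`, `k` a valued field with `GL₂(k)` locally compact and second
  countable (the completions `K_v`), `IsLocCut305 (RingEquiv.refl k) γ μT β`.

VERBATIM the hypothesis `hint` of `H555.splitInt340_eq555` (helper555) for `P = γ z`.
-/

set_option autoImplicit false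
set_option linter.unusedSectionVars false
set_option linter.unusedVariables false
set_option linter.style.haveILetI false

open MeasureTheory

noncomputable section

namespace Fermat.Agent.LT.T7.H194

open Fermat.Agent.LT Fermat.Agent.LT.T7 Fermat.Agent.LT.T7.H305

theorem isClosed_cent_gen194 {H : Type} [Group H] [TopologicalSpace H] [IsTopologicalGroup H]
    [T2Space H] (γ : H) : IsClosed ((cent305 γ : Subgroup H) : Set H) := by
  have hc : Continuous (fun x : H => x⁻¹ * γ * x) :=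
    (continuous_inv.mul continuous_const).mul continuous_id
  exact isClosed_eq hc continuous_const

/-- `GL₂(ℂ)`. -/
theorem hint_cutC194 (γ : GL (Fin 2) ℂ) (hγ : T6.IsReg γ)
    (z : GL (Fin 2) ℂ) (hz : ∀ x : GL (Fin 2) ℂ, z * x = x * z)
    (μ : @Measure (GL (Fin 2) ℂ) (borel _)) (hμ : @Measure.IsHaarMeasure _ _ _ (borel _) μ)
    (μT : @Measure (cent305 γ) (borel _)) (hμT : @Measure.IsHaarMeasure _ _ _ (borel _) μT)
    (β : GL (Fin 2) ℂ → ℝ) (hβ : IsCut305 γ μT β) (K : Set (GL (Fin 2) ℂ)) (hK : IsCompact K) :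
    Integrable (fun a : GL (Fin 2) ℂ =>
      K.indicator (fun _ => (1 : ℝ)) (a⁻¹ * (γ * z) * a) * β a) μ := by
  haveI : SecondCountableTopology (GL (Fin 2) ℂ) := by
    have : SecondCountableTopology (Matrix (Fin 2) (Fin 2) ℂ) :=
      inferInstanceAs (SecondCountableTopology (Fin 2 → Fin 2 → ℂ))
    have : SecondCountableTopology (Matrix (Fin 2) (Fin 2) ℂ)ᵐᵒᵖ :=
      MulOpposite.opHomeomorph.symm.secondCountableTopology
    exact (Units.isEmbedding_embedProduct (M := Matrix (Fin 2) (Fin 2) ℂ)).secondCountableTopology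
  haveI : LocallyCompactSpace (GL (Fin 2) ℂ) := by
    have : LocallyCompactSpace (Matrix (Fin 2) (Fin 2) ℂ) :=
      inferInstanceAs (LocallyCompactSpace (Fin 2 → Fin 2 → ℂ))
    exact (Units.isClosedEmbedding_embedProduct
      (α := Matrix (Fin 2) (Fin 2) ℂ)).locallyCompactSpace
  obtain ⟨hβc, hβ0, hβ1⟩ := hβ
  have hβm : @Measurable _ _ (borel _) _ β := by
    letI : MeasurableSpace (GL (Fin 2) ℂ) := borel _
    haveI : BorelSpace (GL (Fin 2) ℂ) := ⟨rfl⟩
    exact hβc.measurable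
  exact integrable_indicator_conj194 γ (isUnit_iff_ne_zero.1 hγ) z hz (cent305 γ)
    (fun t ht => ht) (isClosed_cent_gen194 γ) μ hμ μT hμT β hβm hβ0 hβ1 K hK

/-- `GL₂(ℝ)`. -/
theorem hint_cutR194 (γ : GL (Fin 2) ℝ) (hγ : T6.IsReg γ)
    (z : GL (Fin 2) ℝ) (hz : ∀ x : GL (Fin 2) ℝ, z * x = x * z)
    (μ : @Measure (GL (Fin 2) ℝ) (borel _)) (hμ : @Measure.IsHaarMeasure _ _ _ (borel _) μ)
    (μT : @Measure (cent305 γ) (borel _)) (hμT : @Measure.IsHaarMeasure _ _ _ (borel _) μT)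
    (β : GL (Fin 2) ℝ → ℝ) (hβ : IsCut305 γ μT β) (K : Set (GL (Fin 2) ℝ)) (hK : IsCompact K) :
    Integrable (fun a : GL (Fin 2) ℝ =>
      K.indicator (fun _ => (1 : ℝ)) (a⁻¹ * (γ * z) * a) * β a) μ := by
  haveI : SecondCountableTopology (GL (Fin 2) ℝ) := by
    have : SecondCountableTopology (Matrix (Fin 2) (Fin 2) ℝ) :=
      inferInstanceAs (SecondCountableTopology (Fin 2 → Fin 2 → ℝ))
    have : SecondCountableTopology (Matrix (Fin 2) (Fin 2) ℝ)ᵐᵒᵖ :=
      MulOpposite.opHomeomorph.symm.secondCountableTopology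
    exact (Units.isEmbedding_embedProduct (M := Matrix (Fin 2) (Fin 2) ℝ)).secondCountableTopology
  haveI : LocallyCompactSpace (GL (Fin 2) ℝ) := by
    have : LocallyCompactSpace (Matrix (Fin 2) (Fin 2) ℝ) :=
      inferInstanceAs (LocallyCompactSpace (Fin 2 → Fin 2 → ℝ))
    exact (Units.isClosedEmbedding_embedProduct
      (α := Matrix (Fin 2) (Fin 2) ℝ)).locallyCompactSpace
  obtain ⟨hβc, hβ0, hβ1⟩ := hβ
  have hβm : @Measurable _ _ (borel _) _ β := by
    letI : MeasurableSpace (GL (Fin 2) ℝ) := borel _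
    haveI : BorelSpace (GL (Fin 2) ℝ) := ⟨rfl⟩
    exact hβc.measurable
  exact integrable_indicator_conj194 γ (isUnit_iff_ne_zero.1 hγ) z hz (cent305 γ)
    (fun t ht => ht) (isClosed_cent_gen194 γ) μ hμ μT hμT β hβm hβ0 hβ1 K hK

/-- `GL₂(k)`, `k` a valued field with `GL₂(k)` locally compact and second countable. -/
theorem hint_locCut194 {k : Type} [Field k] [Valued k T6.Γ₀]
    [SecondCountableTopology (GL (Fin 2) k)] [LocallyCompactSpace (GL (Fin 2) k)]
    (γ : GL (Fin 2) k) (hγ : T6.IsReg γ)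
    (z : GL (Fin 2) k) (hz : ∀ x : GL (Fin 2) k, z * x = x * z)
    (μ : @Measure (GL (Fin 2) k) (borel _)) (hμ : @Measure.IsHaarMeasure _ _ _ (borel _) μ)
    (μT : @Measure (T6.twCentSub (T6.glAut (RingEquiv.refl k)) γ) (borel _))
    (hμT : @Measure.IsHaarMeasure _ _ _ (borel _) μT)
    (β : GL (Fin 2) k → ℝ) (hβ : IsLocCut305 (RingEquiv.refl k) γ μT β)
    (K : Set (GL (Fin 2) k)) (hK : IsCompact K) :
    Integrable (fun a : GL (Fin 2) k =>
      K.indicator (fun _ => (1 : ℝ)) (a⁻¹ * (γ * z) * a) * β a) μ := by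
  have hid : ∀ t : GL (Fin 2) k, T6.glAut (RingEquiv.refl k) t = t := by
    intro t
    apply Units.ext
    ext a b
    rfl
  have hTc : IsClosed ((T6.twCentSub (T6.glAut (RingEquiv.refl k)) γ : Subgroup (GL (Fin 2) k)) :
      Set (GL (Fin 2) k)) := by
    have hc : Continuous (fun x : GL (Fin 2) k => x⁻¹ * γ * x) :=
      (continuous_inv.mul continuous_const).mul continuous_id
    have e : ((T6.twCentSub (T6.glAut (RingEquiv.refl k)) γ : Subgroup (GL (Fin 2) k)) :
        Set (GL (Fin 2) k)) = {x | x⁻¹ * γ * x = γ} := by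
      ext x
      show x⁻¹ * γ * T6.glAut (RingEquiv.refl k) x = γ ↔ x⁻¹ * γ * x = γ
      rw [hid]
    rw [e]
    exact isClosed_eq hc continuous_const
  obtain ⟨hβc, hβ0, hβ1⟩ := hβ
  have hβm : @Measurable _ _ (borel _) _ β := by
    letI : MeasurableSpace (GL (Fin 2) k) := borel _
    haveI : BorelSpace (GL (Fin 2) k) := ⟨rfl⟩
    exact hβc.measurable
  refine integrable_indicator_conj194 γ (isUnit_iff_ne_zero.1 hγ) z hz
    (T6.twCentSub (T6.glAut (RingEquiv.refl k)) γ) ?_ hTc μ hμ μT hμT β hβm hβ0 hβ1 K hK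
  intro t ht
  show t⁻¹ * γ * T6.glAut (RingEquiv.refl k) t = γ
  rw [hid]
  exact ht

end Fermat.Agent.LT.T7.H194

end

end
-- ===== PACK-END LT/T7/H194/Orb/IndIntCut.lean

-- ===== PACK-BEGIN LT/T7/H865/UpBasisTop.lean
section




/-!
# Row LT, tower T7, node T7.L2.2.E.2 `UpBasisC` (deputy sub-architect helper865): THE CUT
# = A BRIDGE to the leaves of helper561, with a PROVED top

OFF-MAIN.  PROVED top, no new definition, no new leaf Prop.  Nothing assumed, no hole.
Against `LT/T7/H736/ExpUp.lean` v0.1 (helper736@c1525b2e3, sha256 1fa5d64c), `SpecUp.lean`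
(faf14765), `LT/T7/H561/SpecUpSpec.lean` (helper561@62b060f4f, sha256 383e6674),
`BlocksSpec.lean` (5ceeaa4d), `T7/Level2.lean` (15516646); byte-identical copies.

    upBasisC_of865 : SU736.StfUpC K K' → H561.BlocksC561 K K' → H561.ChangeC561 K'
        → H561.AtomsC561 → H561.SigmaC561 K K' → IwSysUp865 K' → SU736.UpBasisC K K'

## The cut

The node `UpBasisC` of helper736 (adapted sequence WITH FINITE BLOCKS) has the same mathematical
content as the node `BlocksC561` of helper561 (blocks with the matrices of the operators) plus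
his two leaves `AtomsC561` (TW-ATOMS on an abstract block, Mathlib only) and `ChangeC561`
(unitary change inside the blocks).  All of them are registered and in work (rows 2188 - 2192,
2272 - 2279).  So NO NEW LEAF is opened: the top below derives `UpBasisC` from them.

* `e'` := the sequence `e₀` of `BlocksC561` ITSELF (no change of basis: the block identities are
  traces, `∑_a ⟨R(φ') R(σ) e₀_a, e₀_a⟩ = X(C) tr (B Z^k 𝒰^m A)`), `I` = the range of `idx`,
  `blk j` = the block of `j`, `J` = the block of `Φ`;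
* atoms of the block `i`: `y = t i a`, `b = b i a`, `l = l i a` of `AtomsC561` (`R = √q`);
* `summ`: `|t i a| ≤ |(Qᴴ (B A) Q)_{aa}|` = the modulus of the diagonal coefficient of
  `φ' g [] 0 0` at the member `idx i a` of the CHANGED sequence of `ChangeC561`, and the diagonal
  coefficients of a complete orthonormal sequence are absolutely summable (`StfUpC`);
* `cls_trace`: `∑_a t i₀ a = tr (B A)` (atoms at `k = m = 0`) `= ∑_a ⟨R(φ' g [] 0 0) R(σ) e₀_a,
  e₀_a⟩`, and `R(φ' g [] 0 0) R(σ) e₀_a = c_g(Φ) [U g U] R(σ) e₀_a` by OP-up (`R(σ) e₀_a` is an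
  eigenfunction for the data of `Φ`: `SigmaC561`; an eigenfunction for `C` is one for every `C'`
  agreeing with `C` outside `S'`: `isEigFn_congr865`).
* `IwSysUp865 K'` = the closed leaf `SD534.IwSysC K' K'` (row 2122), written out: an Iwahori
  coset system and a scalar uniformiser exist at every finite place.
* `BaseStable Dt → BaseStable561 Dt` is the field `level` of `T5.AutPreserves`.
-/

set_option autoImplicit false
set_option linter.unusedSectionVars false
set_option linter.unusedVariables false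

open AutomorphicForm IsDedekindDomain NumberField MeasureTheory
open scoped ComplexConjugate Matrix

noncomputable section

namespace Fermat.Agent.LT.T7.H865

open Fermat.Agent.LT.H556 Fermat.Agent.LT.H556.A0 Fermat.Agent.LT Fermat.Agent.LT.T7

attribute [local instance] Fermat.Agent.LT.T5.instMeasurableSpaceG

/-- An Iwahori coset system and a scalar uniformiser exist at every finite place (the Prop of
the closed leaf `SD534.IwSysC K' K'`, written out). -/
def IwSysUp865 (K' : Type) [Field K'] [NumberField K'] : Prop :=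
  ∀ u : HeightOneSpectrum (𝓞 K'),
    (∃ H : Finset (G K'), IsIwCosetSystem u H) ∧ ∃ z : G K', IsScalarUniformizerAt u z

section OneField

variable {K : Type} [Field K] [NumberField K]

theorem agreeOut_symm865 {S : Finset (HeightOneSpectrum (𝓞 K))} {C C' : EigData K}
    (h : C.AgreeOut S C') : C'.AgreeOut S C :=
  ⟨fun w hw => ⟨(h.1 w hw).1.symm, (h.1 w hw).2.symm⟩, fun w d hd => (h.2 w d hd).symm⟩

theorem agreeOut_trans865 {S : Finset (HeightOneSpectrum (𝓞 K))} {C C' C'' : EigData K}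
    (h : C.AgreeOut S C') (h' : C'.AgreeOut S C'') : C.AgreeOut S C'' :=
  ⟨fun w hw => ⟨(h.1 w hw).1.trans (h'.1 w hw).1, (h.1 w hw).2.trans (h'.1 w hw).2⟩,
    fun w d hd => (h.2 w d hd).trans (h'.2 w d hd)⟩

/-- An eigenfunction for `C` is an eigenfunction for every `C'` which agrees with `C` outside the
places dividing the level. -/
theorem isEigFn_congr865 {𝔫 : Ideal (𝓞 K)} {r : G K} {l : ℕ}
    {o : ℕ → HeightOneSpectrum (𝓞 K)} {ψ : G K → ℂ} {C C' : EigData K}
    {S : Finset (HeightOneSpectrum (𝓞 K))}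
    (hS : ∀ w : HeightOneSpectrum (𝓞 K), w ∈ S ↔ w.asIdeal ∣ 𝔫)
    (h : IsEigFn 𝔫 r l o ψ C) (hC : C.AgreeOut S C') : IsEigFn 𝔫 r l o ψ C' where
  inv := h.inv
  hecke := by
    intro v hv
    have hvS : v ∉ S := fun hmem => hv ((hS v).1 hmem)
    rw [← (hC.1 v hvS).1, ← (hC.1 v hvS).2]
    exact h.hecke v hv
  mean := by
    intro w d hd Y hY g
    rw [← hC.2 w d hd]
    exact h.mean w d hd Y hY g

theorem wordEv_nil865 (D : EigData K) : wordEv ([] : List (Gen K)) D = 1 := rfl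

end OneField

section Top

variable {K K' : Type} [Field K] [NumberField K] [Field K'] [NumberField K'] [Algebra K K']

/-- The diagonal of a conjugate. -/
theorem conj_diag865 {n : ℕ} (Q M : Matrix (Fin n) (Fin n) ℂ) (a : Fin n) :
    (Qᴴ * M * Q) a a = ∑ b, ∑ c, conj (Q c a) * M c b * Q b a := by
  rw [Matrix.mul_apply]
  refine Finset.sum_congr rfl fun b _ => ?_
  rw [Matrix.mul_apply, Finset.sum_mul]
  refine Finset.sum_congr rfl fun c _ => ?_
  rw [Matrix.conjTranspose_apply]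
  rfl

/-- **THE TOP OF THE NODE `UpBasisC`**: the bridge to the cut of helper561. -/
theorem upBasisC_of865 (hStf : SU736.StfUpC K K') (hB : H561.BlocksC561 K K')
    (hCh : H561.ChangeC561 K') (hA : H561.AtomsC561) (hS : H561.SigmaC561 K K')
    (hIw : IwSysUp865 K') : SU736.UpBasisC K K' := by
  classical
  intro ℓ hcyc hℓ hcplx Φ hΦ hconst Dt hDt hst g hg
  have hst561 : H561.BaseStable561 Dt := hst.level
  have hcomp : IsCompData (Dt.comp g) := hDt.comp g hg
  obtain ⟨e₀, 𝔅, hBl⟩ := hB ℓ hcyc hℓ hcplx Φ hΦ hconst Dt hDt hst561 g hg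
  obtain ⟨σC, -, hσ2, hσ3⟩ := hS ℓ hcyc hℓ hcplx Φ hΦ hconst Dt hDt hst561
  obtain ⟨⟨H, hH⟩, ⟨z, hz⟩⟩ := hIw (Dt.o 0)
  obtain ⟨i₀, hi₀⟩ := hBl.phi
  -- abbreviations
  set μ := Dt.R'.μ with hμ
  set F := Dt.R'.F with hF
  set q : ℝ := ((Ideal.absNorm (Dt.o 0).asIdeal : ℕ) : ℝ) with hq
  have hℓ0 : 0 < ℓ := hcyc.prime.pos
  have hq1 : 1 ≤ q := by
    have h0 : Ideal.absNorm (Dt.o 0).asIdeal ≠ 0 := by
      rw [Ne, Ideal.absNorm_eq_zero_iff]
      exact (Dt.o 0).ne_bot
    have : 1 ≤ Ideal.absNorm (Dt.o 0).asIdeal := Nat.one_le_iff_ne_zero.2 h0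
    rw [hq]
    exact_mod_cast this
  have hsq1 : 1 ≤ Real.sqrt q := by
    rw [← Real.sqrt_one]
    exact Real.sqrt_le_sqrt hq1
  -- the atoms of the blocks
  have hat : ∀ i : 𝔅.ι, ∃ (Q : Matrix (Fin (𝔅.n i)) (Fin (𝔅.n i)) ℂ)
      (t b l : Fin (𝔅.n i) → ℂ),
      Q ∈ Matrix.unitaryGroup (Fin (𝔅.n i)) ℂ ∧
      (∀ a, t a = 0 ∨ t a = (Qᴴ * (𝔅.B i * 𝔅.A i) * Q) a a) ∧
      (∀ a, IsRegParam (Real.sqrt q) (b a) (l a)) ∧
      ∀ (k : ℤ) (m : ℕ),
        Matrix.trace (𝔅.B i * (𝔅.ρ i 0 * 𝔅.ρ i 0) ^ k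
            * (((Real.sqrt q : ℝ) : ℂ)⁻¹ • (𝔅.S i 0 * 𝔅.ρ i 0)) ^ m * 𝔅.A i)
          = ∑ a, t a * b a ^ k * l a ^ m :=
    fun i => hA (𝔅.n i) ℓ q (𝔅.A i) (𝔅.B i) (𝔅.S i) (𝔅.ρ i) hℓ0 hq1 (hBl.iw i)
  choose Q t bb ll hQ ht hreg htr using hat
  -- the changed sequence (used for the summability only)
  have hnorm : ∀ (i : 𝔅.ι) (a : Fin (𝔅.n i)),
      T5.innerD μ F (e₀ (𝔅.idx i a)) (e₀ (𝔅.idx i a)) = 1 := by
    intro i a
    have := (hBl.basis i).orth a a
    rwa [if_pos rfl] at this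
  obtain ⟨e', hONB', -, -, hdiag'⟩ := hCh Dt.s (Dt.𝔑 g) μ F Dt.R'.r hcomp.frame'.frame
    hcomp.frame'.ray hcomp.aut e₀ hBl.onb 𝔅.ι 𝔅.n 𝔅.idx hBl.inj hnorm Q hQ
  -- the index bookkeeping
  set f : (Σ i, Fin (𝔅.n i)) → ℕ := fun p => 𝔅.idx p.1 p.2 with hf
  have hfinj : Function.Injective f := by
    rintro ⟨i, a⟩ ⟨i', a'⟩ h
    exact hBl.inj i a i' a' h
  set dat : ℕ → Option (Σ i, Fin (𝔅.n i)) := Function.partialInv f with hdat
  have hdat_some : ∀ (i : 𝔅.ι) (a : Fin (𝔅.n i)), dat (𝔅.idx i a) = some ⟨i, a⟩ :=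
    fun i a => Function.partialInv_left hfinj ⟨i, a⟩
  have hdat_inv : ∀ (j : ℕ) (p : Σ i, Fin (𝔅.n i)), dat j = some p → 𝔅.idx p.1 p.2 = j :=
    fun j p h => (hfinj.isPartialInv p j).1 h
  have hidx_inj : ∀ i : 𝔅.ι, Function.Injective (𝔅.idx i) := by
    intro i a a' h
    have := hfinj (a₁ := ⟨i, a⟩) (a₂ := ⟨i, a'⟩) h
    exact eq_of_heq (Sigma.mk.inj this).2
  -- the data
  set I : Set ℕ := Set.range f with hI
  set blk : ℕ → Finset ℕ := fun j =>
    (dat j).elim ∅ (fun p => Finset.univ.image (𝔅.idx p.1)) with hblk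
  set C : ℕ → EigData K' := fun j => (dat j).elim (𝔅.C i₀) (fun p => 𝔅.C p.1) with hC
  set y : ℕ → ℂ := fun j => (dat j).elim 0 (fun p => t p.1 p.2) with hy
  set b : ℕ → ℂ := fun j => (dat j).elim 1 (fun p => bb p.1 p.2) with hb
  set l : ℕ → ℂ := fun j => (dat j).elim 1 (fun p => ll p.1 p.2) with hl
  set J : Finset ℕ := Finset.univ.image (𝔅.idx i₀) with hJ
  have hnone : ∀ j, j ∉ I → dat j = none := by
    intro j hj
    cases hd : dat j with
    | none => rfl
    | some p => exact absurd ⟨p, hdat_inv j p hd⟩ hj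
  have hblk_idx : ∀ (i : 𝔅.ι) (a : Fin (𝔅.n i)),
      blk (𝔅.idx i a) = Finset.univ.image (𝔅.idx i) := by
    intro i a
    show (dat (𝔅.idx i a)).elim ∅ (fun p => Finset.univ.image (𝔅.idx p.1)) = _
    rw [hdat_some]
    rfl
  have hC_idx : ∀ (i : 𝔅.ι) (a : Fin (𝔅.n i)), C (𝔅.idx i a) = 𝔅.C i := by
    intro i a
    show (dat (𝔅.idx i a)).elim (𝔅.C i₀) (fun p => 𝔅.C p.1) = _
    rw [hdat_some]
    rfl
  have hy_idx : ∀ (i : 𝔅.ι) (a : Fin (𝔅.n i)), y (𝔅.idx i a) = t i a := by
    intro i a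
    show (dat (𝔅.idx i a)).elim 0 (fun p => t p.1 p.2) = _
    rw [hdat_some]
    rfl
  have hb_idx : ∀ (i : 𝔅.ι) (a : Fin (𝔅.n i)), b (𝔅.idx i a) = bb i a := by
    intro i a
    show (dat (𝔅.idx i a)).elim 1 (fun p => bb p.1 p.2) = _
    rw [hdat_some]
    rfl
  have hl_idx : ∀ (i : 𝔅.ι) (a : Fin (𝔅.n i)), l (𝔅.idx i a) = ll i a := by
    intro i a
    show (dat (𝔅.idx i a)).elim 1 (fun p => ll p.1 p.2) = _
    rw [hdat_some]
    rfl
  have hy_out : ∀ j, j ∉ I → y j = 0 := by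
    intro j hj
    show (dat j).elim 0 (fun p => t p.1 p.2) = 0
    rw [hnone j hj]
    rfl
  -- the test functions
  have htest : ∀ (X : List (Gen K')) (k : ℤ) (m : ℕ), (∀ x ∈ X, x.Out Dt.S') →
      T5.IsTestFn (Dt.𝔑 g) T5.trivType (Dt.φ' g X k m) :=
    fun X k m hX => (hDt.ekprod_up g X k m hg hX).1
  have hnil : ∀ x ∈ ([] : List (Gen K')), x.Out Dt.S' := fun x hx => absurd hx (List.not_mem_nil)
  -- the sum of the diagonal coefficients over a block is a trace
  have hblock : ∀ (i : 𝔅.ι) (X : List (Gen K')) (k : ℤ) (m : ℕ), (∀ x ∈ X, x.Out Dt.S') →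
      ∑ a, T5.diagCoeff Dt.s μ F (Dt.φ' g X k m) (e₀ (𝔅.idx i a))
        = ∑ a, wordEv X (𝔅.C i) * t i a * bb i a ^ k * ll i a ^ m := by
    intro i X k m hX
    have h1 : ∀ a, T5.diagCoeff Dt.s μ F (Dt.φ' g X k m) (e₀ (𝔅.idx i a))
        = wordEv X (𝔅.C i) * (𝔅.B i * (𝔅.ρ i 0 * 𝔅.ρ i 0) ^ k
            * (((Real.sqrt q : ℝ) : ℂ)⁻¹ • (𝔅.S i 0 * 𝔅.ρ i 0)) ^ m * 𝔅.A i) a a :=
      fun a => hBl.coeff X hX k m i a a
    rw [Finset.sum_congr rfl fun a _ => h1 a, ← Finset.mul_sum]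
    have h2 : ∑ a, (𝔅.B i * (𝔅.ρ i 0 * 𝔅.ρ i 0) ^ k
        * (((Real.sqrt q : ℝ) : ℂ)⁻¹ • (𝔅.S i 0 * 𝔅.ρ i 0)) ^ m * 𝔅.A i) a a
        = ∑ a, t i a * bb i a ^ k * ll i a ^ m := htr i k m
    rw [h2, Finset.mul_sum]
    refine Finset.sum_congr rfl fun a _ => ?_
    ring
  -- the class of `Φ`
  have hmemS := hDt.mem_S'
  have heig0 : ∀ a : Fin (𝔅.n i₀),
      IsEigFn Dt.𝔑₀ Dt.R'.r ℓ Dt.o (e₀ (𝔅.idx i₀ a)) (eigOf Φ) :=
    fun a => isEigFn_congr865 hmemS ((hBl.basis i₀).eig a) hi₀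
  have heigσ : ∀ a : Fin (𝔅.n i₀),
      IsEigFn Dt.𝔑₀ Dt.R'.r ℓ Dt.o (T5.Rsig Dt.s (e₀ (𝔅.idx i₀ a))) (eigOf Φ) :=
    fun a => isEigFn_congr865 hmemS (hσ2 _ _ (heig0 a)) hσ3
  refine ⟨e₀, I, blk, C, b, l, y, Real.sqrt q, J, ?_⟩
  refine
    { onb := hBl.onb
      zero_out := ?_
      y_out := hy_out
      mem_blk := ?_
      blk_sub := ?_
      block := ?_
      summ := ?_
      unit := ?_
      reg := ?_
      cls_mem := ?_
      cls_agree := ?_
      cls_basis := ?_
      cls_trace := ?_ }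
  · -- zero_out
    intro j hj X k m hX
    refine hBl.off X hX k m j fun i a h => hj ⟨⟨i, a⟩, h⟩
  · -- mem_blk
    rintro j ⟨⟨i, a⟩, rfl⟩
    show 𝔅.idx i a ∈ blk (𝔅.idx i a)
    rw [hblk_idx]
    exact Finset.mem_image_of_mem _ (Finset.mem_univ a)
  · -- blk_sub
    rintro j ⟨⟨i, a⟩, rfl⟩ j' hj'
    have hj'' : j' ∈ blk (𝔅.idx i a) := hj'
    rw [hblk_idx, Finset.mem_image] at hj''
    obtain ⟨a', -, rfl⟩ := hj''
    refine ⟨⟨⟨i, a'⟩, rfl⟩, ?_⟩
    show blk (𝔅.idx i a') = blk (𝔅.idx i a)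
    rw [hblk_idx, hblk_idx]
  · -- block
    rintro j ⟨⟨i, a⟩, rfl⟩ X k m hX
    show ∑ j' ∈ blk (𝔅.idx i a), T5.diagCoeff Dt.s μ F (Dt.φ' g X k m) (e₀ j')
      = ∑ j' ∈ blk (𝔅.idx i a), wordEv X (C j') * y j' * b j' ^ k * l j' ^ m
    rw [hblk_idx, Finset.sum_image fun x _ x' _ h => hidx_inj i h,
      Finset.sum_image fun x _ x' _ h => hidx_inj i h, hblock i X k m hX]
    refine Finset.sum_congr rfl fun a' _ => ?_
    rw [hC_idx, hy_idx, hb_idx, hl_idx]
  · -- summ
    have hs1 : Summable fun j => ‖T5.diagCoeff Dt.s μ F (Dt.φ' g [] 0 0) (e' j)‖ := by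
      obtain ⟨-, φ₁, φ₂, t₁, t₂, k₁, k₁', k₂, k₂', hconv⟩ := hDt.ekprod_up g [] 0 0 hg hnil
      rw [hconv]
      exact ((hStf (Dt.comp g) hcomp Dt.R'.μ Dt.R'.F Dt.R'.r hcomp.frame'.frame
        hcomp.frame'.ray hcomp.aut e' hONB' φ₁ φ₂ t₁ t₂ k₁ k₁' k₂ k₂').1).norm
    refine Summable.of_nonneg_of_le (fun j => norm_nonneg _) (fun j => ?_) hs1
    by_cases hj : j ∈ I
    · obtain ⟨⟨i, a⟩, rfl⟩ := hj
      show ‖y (𝔅.idx i a)‖ ≤ ‖T5.diagCoeff Dt.s μ F (Dt.φ' g [] 0 0) (e' (𝔅.idx i a))‖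
      rw [hy_idx]
      rcases ht i a with h0 | h1
      · rw [h0, norm_zero]
        exact norm_nonneg _
      · refine le_of_eq ?_
        rw [h1, hdiag' (Dt.φ' g [] 0 0) (htest [] 0 0 hnil) i a, conj_diag865]
        refine congrArg _ (Finset.sum_congr rfl fun b' _ => Finset.sum_congr rfl fun c' _ => ?_)
        have := hBl.coeff [] hnil 0 0 i b' c'
        rw [wordEv_nil865, one_mul, zpow_zero, pow_zero, mul_one, mul_one] at this
        rw [this]
    · rw [hy_out j hj, norm_zero]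
      exact norm_nonneg _
  · -- unit
    intro j
    show ((dat j).elim (𝔅.C i₀) (fun p => 𝔅.C p.1)).IsUnitaryOut Dt.S'
    cases dat j with
    | none => exact hBl.unitary i₀
    | some p => exact hBl.unitary p.1
  · -- reg
    intro j
    show IsRegParam (Real.sqrt q) ((dat j).elim 1 (fun p => bb p.1 p.2))
      ((dat j).elim 1 (fun p => ll p.1 p.2))
    cases dat j with
    | none =>
      show IsRegParam (Real.sqrt q) 1 1
      refine ⟨norm_one, ?_, Or.inl norm_one⟩
      rw [norm_one]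
      exact hsq1
    | some p => exact hreg p.1 p.2
  · -- cls_mem
    intro j hagree hyj
    have hjI : j ∈ I := by
      by_contra hj
      exact hyj (hy_out j hj)
    obtain ⟨⟨i, a⟩, rfl⟩ := hjI
    have hagree' : (C (𝔅.idx i a)).AgreeOut Dt.S' (eigOf Φ) := hagree
    rw [hC_idx] at hagree'
    have hii : i = i₀ := hBl.distinct i i₀ (agreeOut_trans865 hagree' (agreeOut_symm865 hi₀))
    subst hii
    exact Finset.mem_image_of_mem _ (Finset.mem_univ a)
  · -- cls_agree
    intro j hj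
    rw [hJ, Finset.mem_image] at hj
    obtain ⟨a, -, rfl⟩ := hj
    show (C (𝔅.idx i₀ a)).AgreeOut Dt.S' (eigOf Φ)
    rw [hC_idx]
    exact hi₀
  · -- cls_basis
    refine ⟨?_, ?_, ?_, ?_⟩
    · intro j hj
      rw [hJ, Finset.mem_image] at hj
      obtain ⟨a, -, rfl⟩ := hj
      exact heig0 a
    · intro i hi j hj hij
      rw [hJ, Finset.mem_image] at hi hj
      obtain ⟨a, -, rfl⟩ := hi
      obtain ⟨a', -, rfl⟩ := hj
      have haa : a ≠ a' := fun h => hij (by rw [h])
      have := (hBl.basis i₀).orth a a'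
      rwa [if_neg haa] at this
    · intro j hj
      rw [hJ, Finset.mem_image] at hj
      obtain ⟨a, -, rfl⟩ := hj
      exact hnorm i₀ a
    · intro ψ hψ
      obtain ⟨c, hc⟩ := (hBl.basis i₀).span ψ (eigOf Φ) hψ (agreeOut_symm865 hi₀)
      refine ⟨fun j => ∑ a' : Fin (𝔅.n i₀), if 𝔅.idx i₀ a' = j then c a' else 0, fun x => ?_⟩
      rw [hc x, hJ, Finset.sum_image fun x _ x' _ h => hidx_inj i₀ h]
      refine Finset.sum_congr rfl fun a _ => ?_
      congr 1
      show c a = ∑ a' : Fin (𝔅.n i₀), if 𝔅.idx i₀ a' = 𝔅.idx i₀ a then c a' else 0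
      rw [Finset.sum_eq_single a]
      · rw [if_pos rfl]
      · intro a' _ ha'
        rw [if_neg fun h => ha' (hidx_inj i₀ h)]
      · intro h
        exact absurd (Finset.mem_univ a) h
  · -- cls_trace
    intro Hg hHg
    show ∑ j ∈ J, y j = Dt.c g (eigOf Φ)
      * ∑ j ∈ J, T5.innerD Dt.R'.μ Dt.R'.F (cosetOp Hg (T5.Rsig Dt.s (e₀ j))) (e₀ j)
    rw [hJ, Finset.sum_image fun x _ x' _ h => hidx_inj i₀ h,
      Finset.sum_image fun x _ x' _ h => hidx_inj i₀ h, Finset.mul_sum]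
    have h1 := hblock i₀ [] 0 0 hnil
    have h2 : ∑ a, y (𝔅.idx i₀ a) = ∑ a, wordEv [] (𝔅.C i₀) * t i₀ a * bb i₀ a ^ (0 : ℤ)
        * ll i₀ a ^ 0 := by
      refine Finset.sum_congr rfl fun a _ => ?_
      rw [hy_idx, wordEv_nil865, one_mul, zpow_zero, pow_zero, mul_one, mul_one]
    rw [h2, ← h1]
    refine Finset.sum_congr rfl fun a _ => ?_
    -- OP-up for `R(σ) e₀_a`
    have hop := hDt.op_up g [] 0 0 hg hnil (T5.Rsig Dt.s (e₀ (𝔅.idx i₀ a))) (eigOf Φ)
      (heigσ a) Hg H z hHg hH hz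
    show T5.innerD μ F (T5.Rconv μ (Dt.φ' g [] 0 0) (T5.Rsig Dt.s (e₀ (𝔅.idx i₀ a))))
        (e₀ (𝔅.idx i₀ a))
      = Dt.c g (eigOf Φ)
        * T5.innerD μ F (cosetOp Hg (T5.Rsig Dt.s (e₀ (𝔅.idx i₀ a)))) (e₀ (𝔅.idx i₀ a))
    show (∫ x in F, T5.Rconv μ (Dt.φ' g [] 0 0) (T5.Rsig Dt.s (e₀ (𝔅.idx i₀ a))) x
          * conj (e₀ (𝔅.idx i₀ a) x) ∂μ)
      = Dt.c g (eigOf Φ)
        * ∫ x in F, cosetOp Hg (T5.Rsig Dt.s (e₀ (𝔅.idx i₀ a))) x
          * conj (e₀ (𝔅.idx i₀ a) x) ∂μ
    rw [← integral_const_mul]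
    refine integral_congr_ae (Filter.Eventually.of_forall fun x => ?_)
    show T5.Rconv μ (Dt.φ' g [] 0 0) (T5.Rsig Dt.s (e₀ (𝔅.idx i₀ a))) x
        * conj (e₀ (𝔅.idx i₀ a) x)
      = Dt.c g (eigOf Φ) * (cosetOp Hg (T5.Rsig Dt.s (e₀ (𝔅.idx i₀ a))) x
        * conj (e₀ (𝔅.idx i₀ a) x))
    rw [hop x, wordEv_nil865, one_mul, ← mul_assoc]
    congr 2
    show ∑ h ∈ Hg, ((iwOp (Dt.o 0) H)^[0] (T5.Rsig Dt.s (e₀ (𝔅.idx i₀ a))))
        (x * h * z ^ (0 : ℤ))
      = ∑ h ∈ Hg, T5.Rsig Dt.s (e₀ (𝔅.idx i₀ a)) (x * h)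
    refine Finset.sum_congr rfl fun h _ => ?_
    rw [zpow_zero, mul_one]
    rfl

end Top

/-! ## Appendix: the equation lemmas of the definition are realised HERE -/

theorem eqns_realised_upBasis865 : True := by
  have _a1 := @IwSysUp865.eq_1
  have _a2 := @IwSysUp865.eq_def
  have _a3 := @IwSysUp865.eq_unfold
  trivial

end Fermat.Agent.LT.T7.H865

end

end
-- ===== PACK-END LT/T7/H865/UpBasisTop.lean

-- ===== PACK-BEGIN LT/T7/H409/StabGCore.lean
section








/-!
# Row LT, tower T7: the double coset operator `[U g U]` preserves the invariant eigenfunctions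
# (helper409, OFF-MAIN) -- CORE, vocabulary of `T7/Level2.lean`

`cosetOp_isEigFn409`: let `g ∈ GL₂(𝔸_K)` be trivial at the infinite places, at the finite places
prime to `𝔫` and at the places `o j`, `j < l`; let `Hg` be a full system of representatives of
`U(𝔫) g U(𝔫) / U(𝔫)`.  If `ψ` is an invariant eigenfunction with data `C` (`IsEigFn 𝔫 r l o ψ C`),
so is `cosetOp Hg ψ = ∑_{h ∈ Hg} ψ(· h)`.  UNCONDITIONAL, every number field.

* invariance under `U(𝔫)` and under the Iwahori elements `k` along the orbit: `κ h κ'⁻¹ ∈ U g U`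
  (`κ = u`, `κ' = 1`, resp. `κ = κ' = k`: `k` normalises `U(𝔫)` and commutes with `g`), so
  `h ↦ (the representative of κ h κ'⁻¹)` is a permutation of `Hg` (`perm_sum409s`);
* `K_∞`-type, ray, positive scalars, sphere means: the members of `Hg` are trivial at infinity,
  so they commute with the elements trivial at the finite places; the sum is taken out of the
  integrals (the integrands are continuous: `A2.H751.continuous_of_local751`);
* Hecke operators at `v ∤ 𝔫`: `h = t · h_v`, `h_v ∈ U(𝔫)` the local part of `h` at `v`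
  (`𝔫 𝒪_v = 𝒪_v`), `t` trivial at `v`;
* cuspidality: the constant term integrand is integrable (`T2.H566.integrable_unip566`,
  `T1.H886.addFundDomC886`).
-/

set_option autoImplicit false
set_option linter.unusedSectionVars false

open IsDedekindDomain NumberField MeasureTheory

noncomputable section

namespace Fermat.Agent.LT.T7.H409

open Fermat.Agent.LT.H556 Fermat.Agent.LT.H556.A0 Fermat.Agent.LT Fermat.Agent.LT.T7
open Fermat.Agent.LT.H129

variable {K : Type} [Field K] [NumberField K]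

/-! ## 1. Commutation -/

/-- An element trivial at the finite places commutes with an element trivial at infinity. -/
theorem comm_fin_inf409s {k h : G K} (hk : ∀ v : HeightOneSpectrum (𝓞 K), TrivAtFin v k)
    (hh : ∀ w : InfinitePlace K, TrivAtInf w h) : k * h = h * k :=
  T2.H429.commute_of_disjoint429 (fun w => Or.inr ((trivAtInf_iff129 w h).1 (hh w)))
    (fun v => Or.inl ((trivAtFin_iff129 v k).1 (hk v)))

/-- The members of a double coset system of an element trivial at infinity are trivial at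
infinity. -/
theorem mem_trivAtInf409s {𝔫 : Ideal (𝓞 K)} {g : G K} {Hg : Finset (G K)}
    (hgI : ∀ w : InfinitePlace K, TrivAtInf w g) (hH : IsDblCosetSystem 𝔫 g Hg) {h : G K}
    (hh : h ∈ Hg) (w : InfinitePlace K) : TrivAtInf w h := by
  obtain ⟨u₁, u₂, hu₁, hu₂, rfl⟩ := hH.1 h hh
  exact H543.trivAtInf_mul543 (H543.trivAtInf_mul543 (hu₁.1 w) (hgI w)) (hu₂.1 w)

/-! ## 2. The permutation of the representatives -/

/-- **The permutation lemma.**  If `κ h κ'⁻¹ ∈ U g U` for every representative `h`, `κ'`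
normalises `U` and `ψ` is right invariant under `U` and `κ'`, then
`∑_h ψ(x κ h) = ∑_h ψ(x h)`. -/
theorem perm_sum409s {𝔫 : Ideal (𝓞 K)} {g : G K} {Hg : Finset (G K)}
    (hmul : ∀ u u' : G K, InLevelGroup 𝔫 u → InLevelGroup 𝔫 u' → InLevelGroup 𝔫 (u * u'))
    (hinv : ∀ u : G K, InLevelGroup 𝔫 u → InLevelGroup 𝔫 u⁻¹)
    (hH : IsDblCosetSystem 𝔫 g Hg) (κ κ' : G K)
    (hconj : ∀ u : G K, InLevelGroup 𝔫 u → InLevelGroup 𝔫 (κ'⁻¹ * u * κ'))
    (hκ : ∀ h ∈ Hg, ∃ u₁ u₂ : G K, InLevelGroup 𝔫 u₁ ∧ InLevelGroup 𝔫 u₂ ∧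
      κ * h * κ'⁻¹ = u₁ * g * u₂)
    (ψ : G K → ℂ) (hψU : ∀ u : G K, InLevelGroup 𝔫 u → ∀ x : G K, ψ (x * u) = ψ x)
    (hψκ : ∀ y : G K, ψ (y * κ') = ψ y) (x : G K) :
    ∑ h ∈ Hg, ψ (x * κ * h) = ∑ h ∈ Hg, ψ (x * h) := by
  classical
  have star : ∀ h ∈ Hg, ∃ h' : G K, h' ∈ Hg ∧ ∃ a : G K, InLevelGroup 𝔫 a ∧
      κ * h = h' * a * κ' := by
    intro h hh
    obtain ⟨u₁, u₂, hu₁, hu₂, e⟩ := hκ h hh
    obtain ⟨h', hh', hu'⟩ := hH.2.2 u₁ hu₁
    refine ⟨h', hh', h'⁻¹ * (u₁ * g) * u₂, hmul _ _ hu' hu₂, ?_⟩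
    calc κ * h = (κ * h * κ'⁻¹) * κ' := by group
      _ = (u₁ * g * u₂) * κ' := by rw [e]
      _ = h' * (h'⁻¹ * (u₁ * g) * u₂) * κ' := by group
  choose! π hπ a ha he using star
  have hinj : Set.InjOn π (Hg : Set (G K)) := by
    intro h₁ hh₁ h₂ hh₂ e
    by_contra hne
    apply hH.2.1 h₁ hh₁ h₂ hh₂ hne
    have e1 := he h₁ hh₁
    have e2 := he h₂ hh₂
    have key : h₁⁻¹ * h₂ = κ'⁻¹ * ((a h₁)⁻¹ * a h₂) * κ' := by
      have h1 : h₁⁻¹ * h₂ = (κ * h₁)⁻¹ * (κ * h₂) := by group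
      rw [h1, e1, e2, ← e]
      group
    rw [key]
    exact hconj _ (hmul _ _ (hinv _ (ha h₁ hh₁)) (ha h₂ hh₂))
  have hmaps : Set.MapsTo π (Hg : Set (G K)) (Hg : Set (G K)) := fun h hh => hπ h hh
  have hsurj : Set.SurjOn π (Hg : Set (G K)) (Hg : Set (G K)) :=
    Finset.surjOn_of_injOn_of_card_le π hmaps hinj le_rfl
  refine Finset.sum_nbij π (fun h hh => hπ h hh) hinj hsurj (fun h hh => ?_)
  rw [mul_assoc, he h hh, ← mul_assoc, ← mul_assoc, hψκ, hψU _ (ha h hh)]

/-! ## 3. The closure of an ideal at a place prime to it -/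

theorem integers_subset_idealClosure409s {𝔫 : Ideal (𝓞 K)} {v : HeightOneSpectrum (𝓞 K)}
    (hv : ¬ v.asIdeal ∣ 𝔫) {x : v.adicCompletion K} (hx : x ∈ v.adicCompletionIntegers K) :
    x ∈ idealClosure 𝔫 v := by
  have h1 : ¬ 𝔫 ≤ v.asIdeal := fun h => hv (Ideal.dvd_iff_le.mpr h)
  obtain ⟨n₀, hn₀, hn₀v⟩ := SetLike.not_le_iff_exists.mp h1
  have hval : Valued.v (H543.emb543 v n₀) = 1 := by
    show Valued.v (algebraMap K (v.adicCompletion K) (algebraMap (𝓞 K) K n₀)) = 1
    rw [H543.val_algebraMap543]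
    have hle := v.valuation_le_one (K := K) n₀
    have hnlt : ¬ v.valuation K (algebraMap (𝓞 K) K n₀) < 1 :=
      fun h => hn₀v ((v.valuation_lt_one_iff_mem n₀).mp h)
    exact le_antisymm hle (not_lt.mp hnlt)
  have hmem : H543.emb543 v n₀ ∈ idealClosure 𝔫 v := subset_closure ⟨n₀, hn₀, rfl⟩
  have hne : H543.emb543 v n₀ ≠ 0 := by
    intro h
    rw [h, map_zero] at hval
    exact zero_ne_one hval
  have hxa : x * (H543.emb543 v n₀)⁻¹ ∈ v.adicCompletionIntegers K := by
    rw [HeightOneSpectrum.mem_adicCompletionIntegers, map_mul, map_inv₀, hval, inv_one, mul_one]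
    exact (HeightOneSpectrum.mem_adicCompletionIntegers (𝓞 K) K v).mp hx
  have := H543.ic_mul543 hxa hmem
  rwa [inv_mul_cancel_right₀ hne] at this

/-! ## 4. The local part at a place prime to the level -/

/-- For `v ∤ 𝔫` every member `h` of the double coset system is `t * u`, `t` trivial at `v` and
`u ∈ U(𝔫)`. -/
theorem exists_locPart409s {𝔫 : Ideal (𝓞 K)} {g : G K} {Hg : Finset (G K)}
    (hH : IsDblCosetSystem 𝔫 g Hg) {v : HeightOneSpectrum (𝓞 K)} (hv : ¬ v.asIdeal ∣ 𝔫)
    (hgv : TrivAtFin v g) {h : G K} (hh : h ∈ Hg) :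
    ∃ t u : G K, TrivAtFin v t ∧ InLevelGroup 𝔫 u ∧ h = t * u := by
  obtain ⟨u₁, u₂, hu₁, hu₂, e⟩ := hH.1 h hh
  rw [H543.inLevelGroup_iff543] at hu₁ hu₂
  have hgv1 : finComp v g = 1 := hgv
  have hgv' : finComp v g⁻¹ = 1 := H543.trivAtFin_inv543 hgv
  have hint : H543.IntM543 v (finComp v h) := by
    rw [e, H543.finComp_mul543, H543.finComp_mul543, hgv1, mul_one]
    exact H543.intM_mul543 (H543.intM_of_idM543 (hu₁.2 v).1) (H543.intM_of_idM543 (hu₂.2 v).1)
  have hint' : H543.IntM543 v (finComp v h⁻¹) := by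
    have e' : h⁻¹ = u₂⁻¹ * g⁻¹ * u₁⁻¹ := by
      rw [e]
      group
    rw [e', H543.finComp_mul543, H543.finComp_mul543, hgv', mul_one]
    exact H543.intM_mul543 (H543.intM_of_idM543 (hu₂.2 v).2) (H543.intM_of_idM543 (hu₁.2 v).2)
  have hu : InLevelGroup 𝔫 (locFin129 v (finCompHom129 v h)) := by
    rw [H543.inLevelGroup_iff543]
    refine ⟨fun w => (trivAtInf_iff129 w _).2 (infCompHom129_locFin129 v _ w), fun v' => ?_⟩
    by_cases hv' : v' = v
    · subst hv'
      constructor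
      · intro i j
        apply integers_subset_idealClosure409s hv
        rw [finComp_locFin129, coe_finCompHom129, Matrix.sub_apply]
        exact sub_mem (hint i j) (H543.intM_one543 i j)
      · intro i j
        apply integers_subset_idealClosure409s hv
        rw [← map_inv, finComp_locFin129, ← map_inv, coe_finCompHom129, Matrix.sub_apply]
        exact sub_mem (hint' i j) (H543.intM_one543 i j)
    · have h1 : finComp v' (locFin129 v (finCompHom129 v h)) = 1 :=
        (trivAtFin_iff129 v' _).2 (finCompHom129_locFin129_of_ne v _ hv')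
      have h2 : finComp v' (locFin129 v (finCompHom129 v h))⁻¹ = 1 := H543.trivAtFin_inv543 h1
      rw [h1, h2, sub_self]
      exact ⟨H543.idM_zero543 𝔫, H543.idM_zero543 𝔫⟩
  refine ⟨h * (locFin129 v (finCompHom129 v h))⁻¹, locFin129 v (finCompHom129 v h), ?_, hu,
    by group⟩
  rw [trivAtFin_iff129, map_mul, map_inv, finCompHom129_locFin129]
  exact mul_inv_cancel _

/-! ## 5. The sphere means -/

theorem continuous_rotZ409s : Continuous rotZ := by
  refine continuous_matrix fun i j => ?_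
  fin_cases i <;> fin_cases j
  · show Continuous fun α : ℝ => Complex.exp (Complex.I * ((α / 2 : ℝ) : ℂ))
    fun_prop
  · exact continuous_const
  · exact continuous_const
  · show Continuous fun α : ℝ => Complex.exp (-(Complex.I * ((α / 2 : ℝ) : ℂ)))
    fun_prop

theorem continuous_rotY409s : Continuous rotY := by
  refine continuous_matrix fun i j => ?_
  fin_cases i <;> fin_cases j
  · show Continuous fun β : ℝ => ((Real.cos (β / 2) : ℝ) : ℂ)
    fun_prop
  · show Continuous fun β : ℝ => -((Real.sin (β / 2) : ℝ) : ℂ)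
    fun_prop
  · show Continuous fun β : ℝ => ((Real.sin (β / 2) : ℝ) : ℂ)
    fun_prop
  · show Continuous fun β : ℝ => ((Real.cos (β / 2) : ℝ) : ℂ)
    fun_prop

theorem det_rotZ409s (γ : ℝ) : (rotZ γ).det = 1 := by
  show Matrix.det !![Complex.exp (Complex.I * ((γ / 2 : ℝ) : ℂ)), 0;
     0, Complex.exp (-(Complex.I * ((γ / 2 : ℝ) : ℂ)))] = 1
  rw [Matrix.det_fin_two_of, mul_zero, sub_zero, ← Complex.exp_add, add_neg_cancel,
    Complex.exp_zero]

theorem det_rotY409s (β : ℝ) : (rotY β).det = 1 := by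
  show Matrix.det !![((Real.cos (β / 2) : ℝ) : ℂ), -((Real.sin (β / 2) : ℝ) : ℂ);
     ((Real.sin (β / 2) : ℝ) : ℂ), ((Real.cos (β / 2) : ℝ) : ℂ)] = 1
  rw [Matrix.det_fin_two_of]
  have h := Real.cos_sq_add_sin_sq (β / 2)
  have h' : ((Real.cos (β / 2) : ℝ) : ℂ) ^ 2 + ((Real.sin (β / 2) : ℝ) : ℂ) ^ 2 = 1 := by
    exact_mod_cast h
  linear_combination h'

theorem det_torus409s (d : ℝ) : (torus d).det = 1 := by
  show Matrix.det !![((Real.exp (d / 2) : ℝ) : ℂ), 0;
     0, ((Real.exp (-(d / 2)) : ℝ) : ℂ)] = 1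
  rw [Matrix.det_fin_two_of, mul_zero, sub_zero, ← Complex.ofReal_mul, ← Real.exp_add,
    add_neg_cancel, Real.exp_zero, Complex.ofReal_one]

/-- The parametrisation of a sphere is jointly continuous. -/
theorem continuous_sphereFam409s (w : InfinitePlace K) (d : ℝ) (Y : ℝ → ℝ → G K)
    (hY : ∀ α β : ℝ, IsLocalAtInf w (Y α β) ∧ infComp w (Y α β) = rotZ α * rotY β * torus d) :
    Continuous fun p : ℝ × ℝ => Y p.1 p.2 := by
  refine A2.H751.continuous_of_local751 w (fun p : ℝ × ℝ => Y p.1 p.2)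
    (fun p => (hY p.1 p.2).1) ?_ ?_
  · have h : (fun p : ℝ × ℝ => infComp w (Y p.1 p.2))
        = fun p : ℝ × ℝ => rotZ p.1 * rotY p.2 * torus d := funext fun p => (hY p.1 p.2).2
    rw [h]
    exact ((continuous_rotZ409s.comp continuous_fst).matrix_mul
      (continuous_rotY409s.comp continuous_snd)).matrix_mul continuous_const
  · intro p
    rw [(hY p.1 p.2).2, Matrix.det_mul, Matrix.det_mul, det_rotZ409s, det_rotY409s,
      det_torus409s, mul_one, mul_one]

/-- The sum of the right translates by elements trivial at infinity preserves the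
eigenfunctions of the sphere means. -/
theorem meanEig_cosetOp409s {ψ : G K → ℂ} (hc : Continuous ψ) {w : InfinitePlace K}
    {m : ℝ → ℂ} (hm : MeanEig ψ w m) (Hg : Finset (G K))
    (hHg : ∀ h ∈ Hg, ∀ w' : InfinitePlace K, TrivAtInf w' h) :
    MeanEig (cosetOp Hg ψ) w m := by
  intro d hd Y hY x
  have hYc := continuous_sphereFam409s w d Y hY
  have e : ∀ α β : ℝ, cosetOp Hg ψ (x * Y α β) * ((Real.sin β : ℝ) : ℂ)
      = ∑ h ∈ Hg, ψ (x * h * Y α β) * ((Real.sin β : ℝ) : ℂ) := by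
    intro α β
    show (∑ h ∈ Hg, ψ (x * Y α β * h)) * ((Real.sin β : ℝ) : ℂ) = _
    rw [Finset.sum_mul]
    refine Finset.sum_congr rfl fun h hh => ?_
    rw [mul_assoc x, comm_fin_inf409s (fun v => (hY α β).1.2 v) (hHg h hh), ← mul_assoc]
  have hcont : ∀ h : G K, Continuous fun p : ℝ × ℝ =>
      ψ (x * h * Y p.1 p.2) * ((Real.sin p.2 : ℝ) : ℂ) := by
    intro h
    exact (hc.comp (continuous_const.mul hYc)).mul
      (Complex.continuous_ofReal.comp (Real.continuous_sin.comp continuous_snd))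
  have hin : ∀ α : ℝ, (∫ β in (0 : ℝ)..Real.pi, cosetOp Hg ψ (x * Y α β) * ((Real.sin β : ℝ) : ℂ))
      = ∑ h ∈ Hg, ∫ β in (0 : ℝ)..Real.pi, ψ (x * h * Y α β) * ((Real.sin β : ℝ) : ℂ) := by
    intro α
    have e1 : (fun β : ℝ => cosetOp Hg ψ (x * Y α β) * ((Real.sin β : ℝ) : ℂ))
        = fun β : ℝ => ∑ h ∈ Hg, ψ (x * h * Y α β) * ((Real.sin β : ℝ) : ℂ) :=
      funext fun β => e α β
    rw [e1]
    refine intervalIntegral.integral_finsetSum fun h _ => ?_
    have hg1 : Continuous fun β : ℝ => ((α, β) : ℝ × ℝ) := Continuous.prodMk_right α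
    have h2 := (hcont h).comp hg1
    exact h2.intervalIntegrable 0 Real.pi
  have hterm : ∀ h ∈ Hg, IntervalIntegrable (fun α : ℝ => ∫ β in (0 : ℝ)..Real.pi,
      ψ (x * h * Y α β) * ((Real.sin β : ℝ) : ℂ)) volume 0 (2 * Real.pi) := by
    intro h _
    have h3 : Continuous fun α : ℝ => ∫ β in (0 : ℝ)..Real.pi,
        ψ (x * h * Y α β) * ((Real.sin β : ℝ) : ℂ) :=
      intervalIntegral.continuous_parametric_intervalIntegral_of_continuous'
        (f := fun (α : ℝ) (β : ℝ) => ψ (x * h * Y α β) * ((Real.sin β : ℝ) : ℂ)) (hcont h) 0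
        Real.pi
    exact h3.intervalIntegrable _ _
  calc (∫ α in (0 : ℝ)..(2 * Real.pi), ∫ β in (0 : ℝ)..Real.pi,
          cosetOp Hg ψ (x * Y α β) * ((Real.sin β : ℝ) : ℂ))
      = ∫ α in (0 : ℝ)..(2 * Real.pi), ∑ h ∈ Hg, ∫ β in (0 : ℝ)..Real.pi,
          ψ (x * h * Y α β) * ((Real.sin β : ℝ) : ℂ) :=
        intervalIntegral.integral_congr fun α _ => hin α
    _ = ∑ h ∈ Hg, ∫ α in (0 : ℝ)..(2 * Real.pi), ∫ β in (0 : ℝ)..Real.pi,
          ψ (x * h * Y α β) * ((Real.sin β : ℝ) : ℂ) :=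
        intervalIntegral.integral_finsetSum hterm
    _ = ∑ h ∈ Hg, m d * ψ (x * h) :=
        Finset.sum_congr rfl fun h _ => hm d hd Y hY (x * h)
    _ = m d * cosetOp Hg ψ x := (Finset.mul_sum _ _ _).symm

/-! ## 6. Cuspidality -/

/-- The constant term of a finite sum of right translates vanishes. -/
theorem cuspidal_cosetOp409s (Hg : Finset (G K)) {ψ : G K → ℂ} (hc : Continuous ψ)
    (hb : ∃ C : ℝ, ∀ g : G K, ‖ψ g‖ ≤ C) (hψ : IsCuspidalFn ψ) :
    IsCuspidalFn (cosetOp Hg ψ) := by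
  let _ : MeasurableSpace (Adl K) := borel (Adl K)
  intro μ hμ D hD n hn g
  have e : (fun x => cosetOp Hg ψ (n x * g)) = fun x => ∑ h ∈ Hg, ψ (n x * (g * h)) := by
    funext x
    show ∑ h ∈ Hg, ψ (n x * g * h) = _
    simp only [mul_assoc]
  rw [e, integral_finsetSum]
  · exact Finset.sum_eq_zero fun h _ => hψ μ hμ D hD n hn (g * h)
  · intro h _
    exact T2.H566.integrable_unip566 (T1.H886.addFundDomC886 K) hc hb μ hμ D hD n hn (g * h)

/-! ## 7. The theorem -/

theorem cosetOp_apply409s (Hg : Finset (G K)) (ψ : G K → ℂ) (x : G K) :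
    cosetOp Hg ψ x = ∑ h ∈ Hg, ψ (x * h) := rfl

/-- A scalar uniformiser is central. -/
theorem central_scalarUnif409s {v : HeightOneSpectrum (𝓞 K)} {z : G K}
    (hz : IsScalarUniformizerAt v z) (h : G K) : h * z = z * h := by
  obtain ⟨hloc, c, -, hc⟩ := hz
  rw [isLocalAtFin_iff129] at hloc
  refine T2.H429.central_of_scalar_comp429 (fun w => ⟨1, ?_⟩) (fun v' => ?_) h
  · rw [hloc.1 w]
    exact T2.H429.one_eq_diagonal429
  · by_cases hv' : v' = v
    · subst hv'
      exact ⟨c, by rw [coe_finCompHom129]; exact hc⟩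
    · refine ⟨1, ?_⟩
      rw [hloc.2 v' hv']
      exact T2.H429.one_eq_diagonal429

/-- **The double coset operator of an element supported at the bad places preserves the
invariant eigenfunctions.** -/
theorem cosetOp_isEigFn409 (𝔫 : Ideal (𝓞 K)) (r : G K) (l : ℕ)
    (o : ℕ → HeightOneSpectrum (𝓞 K)) (C : EigData K) (hr : T5.IsRayGen r)
    (g : G K) (Hg : Finset (G K))
    (hgI : ∀ w : InfinitePlace K, TrivAtInf w g)
    (hgF : ∀ v : HeightOneSpectrum (𝓞 K), ¬ v.asIdeal ∣ 𝔫 → TrivAtFin v g)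
    (hgO : ∀ j < l, TrivAtFin (o j) g)
    (hH : IsDblCosetSystem 𝔫 g Hg) (ψ : G K → ℂ) (hψ : IsEigFn 𝔫 r l o ψ C) :
    IsEigFn 𝔫 r l o (cosetOp Hg ψ) C := by
  obtain ⟨-, hIwInv, hmul, hinv, -, -, hnorm⟩ := H543.hGroupC543 K 𝔫 l o
  have hHI : ∀ h ∈ Hg, ∀ w : InfinitePlace K, TrivAtInf w h :=
    fun h hh w => mem_trivAtInf409s hgI hH hh w
  have hcusp := hψ.inv.cusp
  have hU := hcusp.aut.level_inv
  -- invariance under the level group
  have hlev : ∀ u : G K, InLevelGroup 𝔫 u → ∀ x : G K,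
      cosetOp Hg ψ (x * u) = cosetOp Hg ψ x := by
    intro u hu x
    refine perm_sum409s hmul hinv hH u 1 (fun u' hu' => ?_) (fun h hh => ?_) ψ hU
      (fun y => by rw [mul_one]) x
    · rw [inv_one, one_mul, mul_one]
      exact hu'
    · obtain ⟨u₁, u₂, hu₁, hu₂, e⟩ := hH.1 h hh
      refine ⟨u * u₁, u₂, hmul _ _ hu hu₁, hu₂, ?_⟩
      rw [e]
      group
  -- invariance under the Iwahori elements of the orbit
  have hiw : IsIwInv l o (cosetOp Hg ψ) := by
    rw [H193.isIwInv_iff]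
    intro k hk x
    have hkinv : H193.IsIwElt l o k⁻¹ := hIwInv k hk
    have hkg : k * g = g * k := by
      refine T2.H429.commute_of_disjoint429
        (fun w => Or.inl ((trivAtInf_iff129 w k).1 (hk.1 w))) (fun v => ?_)
      by_cases hv : ∀ j < l, v ≠ o j
      · exact Or.inl ((trivAtFin_iff129 v k).1 (hk.2.1 v hv))
      · push Not at hv
        obtain ⟨j, hj, rfl⟩ := hv
        exact Or.inr ((trivAtFin_iff129 _ g).1 (hgO j hj))
    refine perm_sum409s hmul hinv hH k k (fun u hu => hnorm k u hk hu) (fun h hh => ?_) ψ hU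
      (fun y => (H193.isIwInv_iff.1 hψ.inv.iw) k hk y) x
    obtain ⟨u₁, u₂, hu₁, hu₂, e⟩ := hH.1 h hh
    refine ⟨k * u₁ * k⁻¹, k * u₂ * k⁻¹, ?_, ?_, ?_⟩
    · have := hnorm k⁻¹ u₁ hkinv hu₁
      rwa [inv_inv] at this
    · have := hnorm k⁻¹ u₂ hkinv hu₂
      rwa [inv_inv] at this
    · have hg' : k⁻¹ * g * k = g := by
        rw [mul_assoc, ← hkg, ← mul_assoc, inv_mul_cancel, one_mul]
      have e2 : k * u₁ * k⁻¹ * g * (k * u₂ * k⁻¹) = k * u₁ * (k⁻¹ * g * k) * u₂ * k⁻¹ := by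
        group
      rw [e2, hg', e]
      group
  refine ⟨⟨⟨?_, ?_, ⟨?_, hlev, ?_, ?_⟩,
    cuspidal_cosetOp409s Hg hcusp.cont hcusp.bdd hcusp.cuspidal⟩, ?_, hiw⟩, ?_, ?_⟩
  · -- continuity
    show Continuous fun x => ∑ h ∈ Hg, ψ (x * h)
    exact continuous_finsetSum _ fun h _ => hcusp.cont.comp (continuous_id.mul continuous_const)
  · -- boundedness
    obtain ⟨B, hB⟩ := hcusp.bdd
    refine ⟨∑ _h ∈ Hg, B, fun x => ?_⟩
    rw [cosetOp_apply409s]
    exact (norm_sum_le _ _).trans (Finset.sum_le_sum fun h _ => hB _)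
  · -- left invariance under `GL₂(K)`
    intro γ x
    rw [cosetOp_apply409s, cosetOp_apply409s]
    refine Finset.sum_congr rfl fun h _ => ?_
    rw [mul_assoc]
    exact hcusp.aut.left_inv γ (x * h)
  · -- the `K_∞`-type
    intro w k hk x
    rw [cosetOp_apply409s, cosetOp_apply409s]
    have htriv : T5.trivType k = 1 := rfl
    rw [htriv, one_mul]
    refine Finset.sum_congr rfl fun h hh => ?_
    rw [mul_assoc, comm_fin_inf409s (fun v => hk.1.2 v) (hHI h hh), ← mul_assoc,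
      hcusp.aut.arch_compact w k hk (x * h), htriv, one_mul]
  · -- the ray
    intro x
    rw [cosetOp_apply409s, cosetOp_apply409s]
    refine Finset.sum_congr rfl fun h hh => ?_
    rw [mul_assoc, comm_fin_inf409s hr.1 (hHI h hh), ← mul_assoc]
    exact hcusp.aut.ray (x * h)
  · -- the positive scalars at infinity
    intro w z hz x
    rw [cosetOp_apply409s, cosetOp_apply409s]
    refine Finset.sum_congr rfl fun h hh => ?_
    rw [mul_assoc, comm_fin_inf409s (fun v => hz.1.2 v) (hHI h hh), ← mul_assoc]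
    exact hψ.inv.arch_scalar w z hz (x * h)
  · -- the Hecke operators at the places prime to the level
    intro v hv
    obtain ⟨hT, hS⟩ := hψ.hecke v hv
    constructor
    · intro H' hH' x
      have hloc : ∀ h ∈ Hg, ∃ t : G K, TrivAtFin v t ∧ ∀ y : G K, ψ (y * h) = ψ (y * t) := by
        intro h hh
        obtain ⟨t, u, ht, hu, e⟩ := exists_locPart409s hH hv (hgF v hv) hh
        exact ⟨t, ht, fun y => by rw [e, ← mul_assoc, hU u hu]⟩
      choose! t ht hψt using hloc
      have e1 : ∀ h' ∈ H', cosetOp Hg ψ (x * h') = ∑ h ∈ Hg, ψ (x * t h * h') := by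
        intro h' hh'
        rw [cosetOp_apply409s]
        refine Finset.sum_congr rfl fun h hh => ?_
        have hcomm : h' * t h = t h * h' := by
          have hl := (isLocalAtFin_iff129 v h').1 (hH'.2.1 h' hh').1
          refine T2.H429.commute_of_disjoint429 (fun w => Or.inl (hl.1 w)) (fun v' => ?_)
          by_cases hv' : v' = v
          · subst hv'
            exact Or.inr ((trivAtFin_iff129 _ _).1 (ht h hh))
          · exact Or.inl (hl.2 v' hv')
        rw [hψt h hh, mul_assoc, hcomm, ← mul_assoc]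
      rw [Finset.sum_congr rfl e1, Finset.sum_comm, cosetOp_apply409s, Finset.mul_sum]
      refine Finset.sum_congr rfl fun h hh => ?_
      rw [hT H' hH' (x * t h), ← hψt h hh]
    · intro z hz x
      rw [cosetOp_apply409s, cosetOp_apply409s, Finset.mul_sum]
      refine Finset.sum_congr rfl fun h _ => ?_
      rw [mul_assoc, ← central_scalarUnif409s hz h, ← mul_assoc]
      exact hS z hz (x * h)
  · -- the sphere means
    intro w
    exact meanEig_cosetOp409s hcusp.cont (hψ.mean w) Hg hHI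

end Fermat.Agent.LT.T7.H409

end

end
-- ===== PACK-END LT/T7/H409/StabGCore.lean

-- ===== PACK-BEGIN LT/T7/H812/StableLocal.lean
section



/-!
# Row LT, tower T7, leaf T7.L2.2.S `StableC561` (helper812), part 1: the closure of an ideal

OFF-MAIN.  ADDITIVE.  Every proof is complete, nothing assumed.

Local statements at a finite place `v` of a number field `K`:

* `mem_idealClosure_iff812` : for `z₀ ∈ 𝔫` of maximal valuation at `v`, the closure
  `A0.idealClosure 𝔫 v` is the closed ball `{y | |y|_v ≤ |z₀|_v}`;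
* `mem_idealClosure_of_colon812` : for non-zero ideals `𝔑₁ ≤ 𝔑₀`, an element `y` of `K_v` lies in
  the closure of `𝔑₀` as soon as `c y` lies in the closure of `𝔑₁` for every `c` of the colon
  ideal `(𝔑₁ : 𝔑₀)`;  `colon_mul_mem_idealClosure812` is the converse.
-/

set_option autoImplicit false

open IsDedekindDomain NumberField

noncomputable section

namespace Fermat.Agent.LT.T7.H812

open Fermat.Agent.LT.H556.A0

variable {K : Type} [Field K] [NumberField K]

/-- The map `𝓞 K → K_v` of `A0.idealClosure`. -/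
def iota812 (v : HeightOneSpectrum (𝓞 K)) : 𝓞 K →+* v.adicCompletion K :=
  (algebraMap K (v.adicCompletion K)).comp (algebraMap (𝓞 K) K)

theorem iota812_apply (v : HeightOneSpectrum (𝓞 K)) (x : 𝓞 K) :
    iota812 v x = algebraMap K (v.adicCompletion K) (algebraMap (𝓞 K) K x) := rfl

theorem idealClosure_eq812 (𝔫 : Ideal (𝓞 K)) (v : HeightOneSpectrum (𝓞 K)) :
    idealClosure 𝔫 v = closure ((iota812 v) '' (𝔫 : Set (𝓞 K))) := rfl

theorem val_iota812 (v : HeightOneSpectrum (𝓞 K)) (x : 𝓞 K) :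
    Valued.v (iota812 v x) = v.intValuation x := by
  exact (HeightOneSpectrum.valuedAdicCompletion_eq_valuation' v _).trans
    (HeightOneSpectrum.valuation_of_algebraMap v x)

theorem val_iota_ne_zero812 (v : HeightOneSpectrum (𝓞 K)) {x : 𝓞 K} (hx : x ≠ 0) :
    Valued.v (iota812 v x) ≠ 0 := by
  rw [val_iota812]
  exact v.intValuation_ne_zero x hx

theorem iota_mem_idealClosure812 (𝔫 : Ideal (𝓞 K)) (v : HeightOneSpectrum (𝓞 K)) {x : 𝓞 K}
    (hx : x ∈ 𝔫) : iota812 v x ∈ idealClosure 𝔫 v :=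
  subset_closure ⟨x, hx, rfl⟩

/-- The closed ball of radius `|a|_v`, `a ≠ 0`, is closed. -/
theorem isClosed_ball812 (v : HeightOneSpectrum (𝓞 K)) (a : v.adicCompletion K) (ha : a ≠ 0) :
    IsClosed {y : v.adicCompletion K | Valued.v y ≤ Valued.v a} := by
  have hcl : IsClosed ((v.adicCompletionIntegers K : Set (v.adicCompletion K))) :=
    Valued.isClosed_valuationSubring _
  have hc : Continuous (fun y : v.adicCompletion K => y * a⁻¹) :=
    continuous_id.mul continuous_const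
  have hva : Valued.v a ≠ 0 := (Valuation.ne_zero_iff _).2 ha
  have : {y : v.adicCompletion K | Valued.v y ≤ Valued.v a}
      = (fun y : v.adicCompletion K => y * a⁻¹) ⁻¹'
        ((v.adicCompletionIntegers K : Set (v.adicCompletion K))) := by
    ext y
    simp only [Set.mem_ofPred_eq, Set.mem_preimage, SetLike.mem_coe,
      HeightOneSpectrum.mem_adicCompletionIntegers, map_mul, map_inv₀]
    rw [mul_inv_le_iff₀ (zero_lt_iff.2 hva), one_mul]
  rw [this]
  exact hcl.preimage hc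

/-- `𝓞 K` is dense in `𝒪_v`. -/
theorem intRange_dense812 (v : HeightOneSpectrum (𝓞 K)) {y : v.adicCompletion K}
    (hy : Valued.v y ≤ 1) : y ∈ closure (Set.range (iota812 v)) := by
  rw [mem_closure_iff_nhds]
  intro t ht
  obtain ⟨γ, hγ⟩ := Valued.mem_nhds.1 ht
  have hne : MonoidWithZeroHom.ValueGroup₀.embedding γ.1 ≠ 0 := by
    intro h0
    simp at h0
  have hB : {z : v.adicCompletion K | Valued.v.restrict (z - y) < γ.1} ∈ nhds y :=
    Valued.mem_nhds.2 ⟨γ, subset_rfl⟩
  have hO : ((v.adicCompletionIntegers K : Set (v.adicCompletion K))) ∈ nhds y :=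
    (Valued.isOpen_valuationSubring _).mem_nhds hy
  obtain ⟨z, ⟨hz1, hz2⟩, k, rfl⟩ :=
    mem_closure_iff_nhds.1 ((HeightOneSpectrum.denseRange_algebraMap K v) y) _
      (Filter.inter_mem hB hO)
  have hk1 : v.valuation K k ≤ 1 := by
    rw [← HeightOneSpectrum.valuedAdicCompletion_eq_valuation']
    exact hz2
  have hk2 : Valued.v (algebraMap K (v.adicCompletion K) k - y)
      < MonoidWithZeroHom.ValueGroup₀.embedding γ.1 :=
    (Valuation.restrict_lt_iff_lt_embedding _).1 hz1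
  obtain ⟨a, ha⟩ := v.exists_valuation_sub_lt_of_integer hk1 (Units.mk0 _ hne)
  refine ⟨iota812 v a, hγ ?_, ⟨a, rfl⟩⟩
  show Valued.v.restrict (iota812 v a - y) < γ.1
  rw [Valuation.restrict_lt_iff_lt_embedding]
  have e : iota812 v a - y
      = algebraMap K (v.adicCompletion K) (algebraMap (𝓞 K) K a - k)
        + (algebraMap K (v.adicCompletion K) k - y) := by
    rw [iota812_apply, map_sub]; ring
  rw [e]
  refine lt_of_le_of_lt (Valuation.map_add _ _ _) (max_lt ?_ hk2)
  have := HeightOneSpectrum.valuedAdicCompletion_eq_valuation' v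
    (algebraMap (𝓞 K) K a - k)
  rw [Units.val_mk0] at ha
  exact this ▸ ha

/-- `d 𝒪_v ⊆ 𝔫 𝒪_v` for `d ∈ 𝔫`. -/
theorem mul_mem_idealClosure812 (𝔫 : Ideal (𝓞 K)) (v : HeightOneSpectrum (𝓞 K)) {d : 𝓞 K}
    (hd : d ∈ 𝔫) {y : v.adicCompletion K} (hy : Valued.v y ≤ 1) :
    iota812 v d * y ∈ idealClosure 𝔫 v := by
  have h1 := Set.mem_image_of_mem (fun z : v.adicCompletion K => iota812 v d * z)
    (intRange_dense812 v hy)
  have h2 := image_closure_subset_closure_image
    (f := fun z : v.adicCompletion K => iota812 v d * z) (s := Set.range (iota812 v))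
    (continuous_const.mul continuous_id) h1
  refine closure_mono ?_ h2
  rintro _ ⟨_, ⟨a, rfl⟩, rfl⟩
  exact ⟨d * a, 𝔫.mul_mem_right a hd, map_mul _ _ _⟩

/-- Multiplication by `c` maps the closure of `𝔑₀` into the closure of `𝔑₁` if `c 𝔑₀ ⊆ 𝔑₁`. -/
theorem colon_mul_mem_idealClosure812 (𝔑₀ 𝔑₁ : Ideal (𝓞 K)) (v : HeightOneSpectrum (𝓞 K))
    {c : 𝓞 K} (hc : ∀ z ∈ 𝔑₀, c * z ∈ 𝔑₁) {y : v.adicCompletion K}
    (hy : y ∈ idealClosure 𝔑₀ v) : iota812 v c * y ∈ idealClosure 𝔑₁ v := by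
  have h1 := Set.mem_image_of_mem (fun z : v.adicCompletion K => iota812 v c * z) hy
  have h2 := image_closure_subset_closure_image
    (f := fun z : v.adicCompletion K => iota812 v c * z)
    (continuous_const.mul continuous_id) h1
  refine closure_mono ?_ h2
  rintro _ ⟨_, ⟨a, ha, rfl⟩, rfl⟩
  exact ⟨c * a, hc a ha, map_mul _ _ _⟩

/-- A non-zero ideal has a non-zero element of maximal valuation at `v`. -/
theorem exists_max_val812 (𝔫 : Ideal (𝓞 K)) (h𝔫 : ∃ z ∈ 𝔫, z ≠ 0)
    (v : HeightOneSpectrum (𝓞 K)) :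
    ∃ z ∈ 𝔫, z ≠ 0 ∧ ∀ x ∈ 𝔫, v.intValuation x ≤ v.intValuation z := by
  classical
  -- the exponents of the non-zero elements of `𝔫`
  have hex : ∃ n : ℕ, ∃ z ∈ 𝔫, z ≠ 0 ∧ ¬ z ∈ v.asIdeal ^ (n + 1) := by
    obtain ⟨z, hz, hz0⟩ := h𝔫
    have hv0 : v.intValuation z ≠ 0 := v.intValuation_ne_zero z hz0
    obtain ⟨n, hn⟩ := WithZero.exists_exp_neg_natCast_lt (x := v.intValuation z) hv0
    refine ⟨n, z, hz, hz0, fun hmem => ?_⟩
    have h1 : v.intValuation z ≤ WithZero.exp (-((n + 1 : ℕ) : ℤ)) :=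
      (v.intValuation_le_pow_iff_mem z (n + 1)).2 hmem
    have h2 : WithZero.exp (-((n + 1 : ℕ) : ℤ)) ≤ WithZero.exp (-(n : ℤ)) := by
      rw [WithZero.exp_le_exp]
      push_cast
      omega
    exact absurd (lt_of_lt_of_le hn (h1.trans h2)) (lt_irrefl _)
  obtain ⟨z, hz, hz0, hzn⟩ := Nat.find_spec hex
  refine ⟨z, hz, hz0, fun x hx => ?_⟩
  by_cases hx0 : x = 0
  · rw [hx0, map_zero]
    exact zero_le
  -- `x ∈ v ^ (find)` by minimality
  have hxmem : x ∈ v.asIdeal ^ (Nat.find hex) := by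
    rcases Nat.eq_zero_or_pos (Nat.find hex) with h0 | hpos
    · rw [h0, pow_zero, Ideal.one_eq_top]
      trivial
    · by_contra hcon
      have hlt : Nat.find hex - 1 < Nat.find hex := Nat.sub_lt hpos Nat.one_pos
      refine Nat.find_min hex hlt ⟨x, hx, hx0, ?_⟩
      rwa [Nat.sub_add_cancel hpos]
  have h1 : v.intValuation x ≤ WithZero.exp (-((Nat.find hex : ℕ) : ℤ)) :=
    (v.intValuation_le_pow_iff_mem x _).2 hxmem
  refine h1.trans ?_
  -- `|z| ≥ exp (-find)` as `z ∉ v ^ (find + 1)`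
  by_contra hcon
  rw [not_le] at hcon
  apply hzn
  rw [← v.intValuation_le_pow_iff_mem]
  have hv0 : v.intValuation z ≠ 0 := v.intValuation_ne_zero z hz0
  obtain ⟨m, hm⟩ : ∃ m : ℤ, v.intValuation z = WithZero.exp m := by
    refine ⟨WithZero.log (v.intValuation z), ?_⟩
    rw [WithZero.exp_log hv0]
  rw [hm, WithZero.exp_lt_exp] at hcon
  rw [hm, WithZero.exp_le_exp]
  push_cast
  omega

/-- The closure of `𝔫` at `v` is contained in the closed ball of radius `|z₀|_v`, for `z₀ ∈ 𝔫` of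
maximal valuation. -/
theorem val_le_of_mem_idealClosure812 (𝔫 : Ideal (𝓞 K)) (v : HeightOneSpectrum (𝓞 K))
    {z₀ : 𝓞 K} (hz0 : z₀ ≠ 0) (hmax : ∀ x ∈ 𝔫, v.intValuation x ≤ v.intValuation z₀)
    {y : v.adicCompletion K} (hy : y ∈ idealClosure 𝔫 v) :
    Valued.v y ≤ Valued.v (iota812 v z₀) := by
  have ha : iota812 v z₀ ≠ 0 := (Valuation.ne_zero_iff _).1 (val_iota_ne_zero812 v hz0)
  have hsub : (iota812 v) '' (𝔫 : Set (𝓞 K)) ⊆
      {y : v.adicCompletion K | Valued.v y ≤ Valued.v (iota812 v z₀)} := by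
    rintro _ ⟨x, hx, rfl⟩
    show Valued.v (iota812 v x) ≤ Valued.v (iota812 v z₀)
    rw [val_iota812, val_iota812]
    exact hmax x hx
  exact closure_minimal hsub (isClosed_ball812 v _ ha) hy

/-- The closed ball of radius `|z₀|_v` is contained in the closure of `𝔫` at `v`, for
`z₀ ∈ 𝔫`, `z₀ ≠ 0`. -/
theorem mem_idealClosure_of_val_le812 (𝔫 : Ideal (𝓞 K)) (v : HeightOneSpectrum (𝓞 K))
    {z₀ : 𝓞 K} (hz : z₀ ∈ 𝔫) (hz0 : z₀ ≠ 0) {y : v.adicCompletion K}
    (hy : Valued.v y ≤ Valued.v (iota812 v z₀)) : y ∈ idealClosure 𝔫 v := by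
  have hva : Valued.v (iota812 v z₀) ≠ 0 := val_iota_ne_zero812 v hz0
  have ha : iota812 v z₀ ≠ 0 := (Valuation.ne_zero_iff _).1 hva
  have h1 : Valued.v (y * (iota812 v z₀)⁻¹) ≤ 1 := by
    rw [map_mul, map_inv₀, mul_inv_le_iff₀ (zero_lt_iff.2 hva), one_mul]
    exact hy
  have h2 := mul_mem_idealClosure812 𝔫 v hz h1
  have e : iota812 v z₀ * (y * (iota812 v z₀)⁻¹) = y := by
    field_simp
  rwa [e] at h2

/-- The closure of `𝔫` at `v` is the closed ball of radius `|z₀|_v`. -/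
theorem mem_idealClosure_iff812 (𝔫 : Ideal (𝓞 K)) (v : HeightOneSpectrum (𝓞 K))
    {z₀ : 𝓞 K} (hz : z₀ ∈ 𝔫) (hz0 : z₀ ≠ 0)
    (hmax : ∀ x ∈ 𝔫, v.intValuation x ≤ v.intValuation z₀) (y : v.adicCompletion K) :
    y ∈ idealClosure 𝔫 v ↔ Valued.v y ≤ Valued.v (iota812 v z₀) :=
  ⟨fun h => val_le_of_mem_idealClosure812 𝔫 v hz0 hmax h,
    fun h => mem_idealClosure_of_val_le812 𝔫 v hz hz0 h⟩

/-- In the product `𝔑₀ 𝔡` every element has valuation at most `|z₀| |d|` for some `d ∈ 𝔡`. -/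
theorem exists_factor_val812 (𝔑₀ 𝔡 : Ideal (𝓞 K)) (v : HeightOneSpectrum (𝓞 K)) {z₀ : 𝓞 K}
    (hmax : ∀ x ∈ 𝔑₀, v.intValuation x ≤ v.intValuation z₀) {z : 𝓞 K} (hz : z ∈ 𝔑₀ * 𝔡) :
    ∃ d ∈ 𝔡, v.intValuation z ≤ v.intValuation z₀ * v.intValuation d := by
  refine Submodule.mul_induction_on hz ?_ ?_
  · intro a ha d hd
    refine ⟨d, hd, ?_⟩
    rw [map_mul]
    exact mul_le_mul_left (hmax a ha) _
  · rintro x y ⟨d, hd, hxd⟩ ⟨e, he, hye⟩
    rcases le_total (v.intValuation z₀ * v.intValuation d)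
      (v.intValuation z₀ * v.intValuation e) with h | h
    · exact ⟨e, he, (Valuation.map_add _ _ _).trans (max_le (hxd.trans h) hye)⟩
    · exact ⟨d, hd, (Valuation.map_add _ _ _).trans (max_le hxd (hye.trans h))⟩

/-- **The colon characterisation.**  For non-zero ideals `𝔑₁ ≤ 𝔑₀`: if `c y` lies in the closure
of `𝔑₁` at `v` for every `c` with `c 𝔑₀ ⊆ 𝔑₁`, then `y` lies in the closure of `𝔑₀`. -/
theorem mem_idealClosure_of_colon812 (𝔑₀ 𝔑₁ : Ideal (𝓞 K)) (hle : 𝔑₁ ≤ 𝔑₀)
    (hne : ∃ z ∈ 𝔑₁, z ≠ 0) (v : HeightOneSpectrum (𝓞 K)) {y : v.adicCompletion K}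
    (hy : ∀ c : 𝓞 K, (∀ z ∈ 𝔑₀, c * z ∈ 𝔑₁) → iota812 v c * y ∈ idealClosure 𝔑₁ v) :
    y ∈ idealClosure 𝔑₀ v := by
  have hne0 : ∃ z ∈ 𝔑₀, z ≠ 0 := by
    obtain ⟨z, hz, hz0⟩ := hne
    exact ⟨z, hle hz, hz0⟩
  obtain ⟨z₀, hz₀, hz₀0, hmax₀⟩ := exists_max_val812 𝔑₀ hne0 v
  obtain ⟨z₁, hz₁, hz₁0, hmax₁⟩ := exists_max_val812 𝔑₁ hne v
  obtain ⟨𝔡, h𝔡⟩ : 𝔑₀ ∣ 𝔑₁ := Ideal.dvd_iff_le.2 hle
  have hz₁' : z₁ ∈ 𝔑₀ * 𝔡 := h𝔡 ▸ hz₁
  obtain ⟨d, hd, hval⟩ := exists_factor_val812 𝔑₀ 𝔡 v hmax₀ hz₁'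
  -- `d` lies in the colon ideal
  have hdc : ∀ z ∈ 𝔑₀, d * z ∈ 𝔑₁ := by
    intro z hz
    rw [h𝔡, mul_comm d z]
    exact Ideal.mul_mem_mul hz hd
  have hvd : v.intValuation d ≠ 0 := by
    intro h0
    rw [h0, mul_zero] at hval
    exact v.intValuation_ne_zero z₁ hz₁0 (le_antisymm hval zero_le)
  have h1 := val_le_of_mem_idealClosure812 𝔑₁ v hz₁0 hmax₁ (hy d hdc)
  refine mem_idealClosure_of_val_le812 𝔑₀ v hz₀ hz₀0 ?_
  rw [map_mul, val_iota812, val_iota812] at h1
  rw [val_iota812]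
  have h2 : v.intValuation d * Valued.v y ≤ v.intValuation d * v.intValuation z₀ := by
    rw [mul_comm (v.intValuation d) (v.intValuation z₀)]
    exact h1.trans hval
  exact (mul_le_mul_iff_right₀ (zero_lt_iff.2 hvd)).1 h2

end Fermat.Agent.LT.T7.H812

end

end
-- ===== PACK-END LT/T7/H812/StableLocal.lean

-- ===== PACK-BEGIN LT/T7/H820/ProjQGen.lean
section






/-!
# Row LT, tower T7, node T7.L2Q.1 `SupplyQC`, leaf C3a `ProjQC962 w1` (registry row 2261):
# the orthogonal projection on the invariant cusp functions, FOR AN ARBITRARY `K_∞`-TYPE `τ`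
# (helper820) -- GENERIC PART

OFF-MAIN.  No hole, nothing assumed.  ADDITIVE (new names only, all suffixed `820`).
Vocabulary: `T7/H193/ProjSpec.lean` (helper193@812840e55, sha256 977a85e3: `finAvg`, `torAvg`,
`IsFinData`, `IsTorusData`, `TranslInvC`, `FinDataC`), byte-identical copy.  Type-agnostic lemmas
of the proved trivial-type leaves are REUSED (byte-identical copies):
`T7/H547/FinAvgCusp.lean` (helper547), `T7/H865/TorAvgW.lean` (helper865),
`T7/H587/TorAvgOrth.lean` (helper587).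

    exists_projT820 : T1.T1Out K → TranslInvC K → FinDataC K → ∀ τ R, IsFrame5 R →
      ∀ 𝔑 𝔑₀, 𝔑 ≠ ⊥ → 𝔑 ≤ 𝔑₀ → ∀ l o a D, IsTorusData 𝔑₀ R.r a D → MeanRay820 R.r a D →
      ∀ ψ, T5.IsCuspFn 𝔑 τ R.r ψ →
        ∃ ψ₁, IsWFnT820 τ 𝔑₀ R.r l o ψ₁ ∧
          ∀ χ, IsWFnT820 τ 𝔑₀ R.r l o χ → T5.innerD R.μ R.F (fun x => ψ x - ψ₁ x) χ = 0

`ψ₁ = torAvg a D (finAvg Rep ψ)`, as in `H193.exists_proj193`.  The elements over which one
averages are finite adeles (`Rep`) or central (`a t`): they commute with `K_∞`, so the averages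
preserve the type `τ` (NO hypothesis on `τ`).  The only place where the trivial type was used by
the cut of helper193 is the field `mean` of `IsTorusData` (invariance under the units needs the
trivial type); here it is replaced by the hypothesis `MeanRay820` (the mean over `D` of every
`r`-invariant function is translation invariant), which holds when the lattice of periods is
generated by `log r` alone (`K = ℚ`: `ProjQ.lean`).
-/

set_option autoImplicit false
set_option linter.unusedSectionVars false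
set_option linter.style.haveILetI false

open IsDedekindDomain NumberField MeasureTheory
open scoped ComplexConjugate

noncomputable section

namespace Fermat.Agent.LT.T7.H820

open Fermat.Agent.LT.H556 Fermat.Agent.LT.H556.A0 Fermat.Agent.LT Fermat.Agent.LT.T7
open Fermat.Agent.LT.T7.H193

attribute [local instance] Fermat.Agent.LT.T5.instMeasurableSpaceG

variable {K : Type} [Field K] [NumberField K]

/-! ## 1. Vocabulary -/

/-- The INVARIANT cusp functions of type `τ`: cusp functions of level `𝔫` and type `τ`, invariant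
under the positive scalars at every infinite place and under the Iwahori subgroups along the
orbit (`T7.IsWFn` is the case `τ = 1`, `L2Q.IsWFnQ n` the case `K = ℚ`, `τ = n.type`, `l = 1`). -/
structure IsWFnT820 (τ : G K → ℂ) (𝔫 : Ideal (𝓞 K)) (r : G K) (l : ℕ)
    (o : ℕ → HeightOneSpectrum (𝓞 K)) (ψ : G K → ℂ) : Prop where
  cusp : T5.IsCuspFn 𝔫 τ r ψ
  arch_scalar : ∀ (w : InfinitePlace K) (z : G K), IsArchPosScalar w z →
    ∀ g : G K, ψ (g * z) = ψ g
  iw : IsIwInv l o ψ

/-- The mean over `D` of every function which is right invariant under `r` is invariant under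
the translations of the parameter. -/
def MeanRay820 (r : G K) (a : (InfinitePlace K → ℝ) → G K) (D : Set (InfinitePlace K → ℝ)) :
    Prop :=
  ∀ e : G K → ℂ, (∀ g : G K, e (g * r) = e g) →
    ∀ (g : G K) (s : InfinitePlace K → ℝ),
      ∫ t in D, e (g * a (t + s)) = ∫ t in D, e (g * a t)

/-! ## 2. The finite average -/

/-- **FIN-AVG-CUSP for the type `τ`.**  The finite average of a cusp function of level `𝔑` and
type `τ` is a cusp function of level `𝔑₀` and type `τ`, Iwahori-invariant along the orbit. -/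
theorem finAvgCusp_T820 (hT1 : T1.T1Out K) (τ : G K → ℂ) {𝔑 𝔑₀ : Ideal (𝓞 K)} {l : ℕ}
    {o : ℕ → HeightOneSpectrum (𝓞 K)} {Rep : Finset (G K)} (hRep : IsFinData 𝔑 𝔑₀ l o Rep)
    {r : G K} (hr : T5.IsRayGen r) {ψ : G K → ℂ} (hψ : T5.IsCuspFn 𝔑 τ r ψ) :
    T5.IsCuspFn 𝔑₀ τ r (finAvg Rep ψ) ∧ IsIwInv l o (finAvg Rep ψ) := by
  refine ⟨⟨H547.continuous_finAvg547 Rep hψ.cont, H547.bdd_finAvg547 Rep hψ.bdd,
    ⟨?_, ?_, ?_, ?_⟩,
    H547.cuspidal_finAvg547 hT1.addFundDom Rep hψ.cont hψ.bdd hψ.cuspidal⟩, ?_⟩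
  · -- left invariance under `GL₂(K)`
    intro γ g
    rw [H547.finAvg_apply547, H547.finAvg_apply547]
    congr 1
    refine Finset.sum_congr rfl fun h _ => ?_
    rw [mul_assoc]
    exact hψ.aut.left_inv γ (g * h)
  · -- right invariance under `U(𝔑₀)`
    intro u hu g
    rw [H547.finAvg_apply547, H547.finAvg_apply547]
    congr 1
    exact hRep.perm_level ψ hψ.aut.level_inv u hu g
  · -- the `K_∞`-type
    intro w k hk g
    rw [H547.finAvg_apply547, H547.finAvg_apply547, mul_left_comm]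
    congr 1
    rw [Finset.mul_sum]
    refine Finset.sum_congr rfl fun h hh => ?_
    rw [mul_assoc, H547.rep_commute_inf547 hRep hh hk.1, ← mul_assoc]
    exact hψ.aut.arch_compact w k hk (g * h)
  · -- the ray
    intro g
    rw [H547.finAvg_apply547, H547.finAvg_apply547]
    congr 1
    refine Finset.sum_congr rfl fun h _ => ?_
    rw [mul_assoc, T5.H599.ray_commute599 hr h, ← mul_assoc]
    exact hψ.aut.ray (g * h)
  · -- Iwahori invariance along the orbit
    rw [isIwInv_iff]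
    intro h₀ hh₀ x
    rw [H547.finAvg_apply547, H547.finAvg_apply547]
    congr 1
    exact hRep.perm_iw ψ hψ.aut.level_inv h₀ hh₀ x

/-- `χ` is invariant under right translation by the members of `Rep`. -/
theorem chi_rep_inv820 {τ : G K → ℂ} {𝔑 𝔑₀ : Ideal (𝓞 K)} {l : ℕ}
    {o : ℕ → HeightOneSpectrum (𝓞 K)} {Rep : Finset (G K)} (hRep : IsFinData 𝔑 𝔑₀ l o Rep)
    {r : G K} {χ : G K → ℂ} (hχ : T5.IsCuspFn 𝔑₀ τ r χ) (hiw : IsIwInv l o χ) {h : G K}
    (hh : h ∈ Rep) (x : G K) : χ (x * h) = χ x := by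
  obtain ⟨i, u, hi, hu, rfl⟩ := hRep.mem h hh
  rw [← mul_assoc, hχ.aut.level_inv u hu, (isIwInv_iff.mp hiw) i hi]

/-- **FIN-AVG-ORTH for the type `τ`.**  `ψ - P_f ψ` is orthogonal to the cusp functions of level
`𝔑₀` (any type) which are Iwahori-invariant along the orbit. -/
theorem finAvgOrth_T820 (hT1 : T1.T1Out K) (hTr : TranslInvC K) {τ τ' : G K → ℂ} (R : Frame5 K)
    (hR : IsFrame5 R) {𝔑 𝔑₀ : Ideal (𝓞 K)} {l : ℕ} {o : ℕ → HeightOneSpectrum (𝓞 K)}
    {Rep : Finset (G K)} (hRep : IsFinData 𝔑 𝔑₀ l o Rep) {ψ : G K → ℂ}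
    (hψ : T5.IsCuspFn 𝔑 τ R.r ψ) {χ : G K → ℂ} (hχ : T5.IsCuspFn 𝔑₀ τ' R.r χ)
    (hiw : IsIwInv l o χ) :
    T5.innerD R.μ R.F (fun x => ψ x - finAvg Rep ψ x) χ = 0 := by
  have hF : R.μ R.F < ⊤ := hR.frame.finite
  have key : ∀ h ∈ Rep, ∫ x in R.F, ψ (x * h) * conj (χ x) ∂(R.μ)
      = ∫ x in R.F, ψ x * conj (χ x) ∂(R.μ) := by
    intro h hh
    have h1 := hTr hT1.adNorm R hR (fun x => ψ x * conj (χ x))
      (fun γ x => by
        show ψ (T5.ratG γ * x) * conj (χ (T5.ratG γ * x)) = ψ x * conj (χ x)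
        rw [hψ.aut.left_inv, hχ.aut.left_inv])
      (fun x => by
        show ψ (x * R.r) * conj (χ (x * R.r)) = ψ x * conj (χ x)
        rw [hψ.aut.ray, hχ.aut.ray]) h
    rw [← h1]
    refine integral_congr_ae (Filter.Eventually.of_forall fun x => ?_)
    show ψ (x * h) * conj (χ x) = ψ (x * h) * conj (χ (x * h))
    rw [chi_rep_inv820 hRep hχ hiw hh x]
  have hcard : ((Rep.card : ℂ)) ≠ 0 := by
    exact_mod_cast (Finset.card_pos.mpr hRep.nonempty).ne'
  have hint0 : IntegrableOn (fun x => ψ x * conj (χ x)) R.F R.μ :=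
    integrableOn_mul_conj193 hF hψ.cont hχ.cont hψ.bdd hχ.bdd
  have hinth : ∀ h ∈ Rep, IntegrableOn (fun x => ψ (x * h) * conj (χ x)) R.F R.μ := by
    intro h _
    refine integrableOn_mul_conj193 hF (e := fun x => ψ (x * h))
      (hψ.cont.comp (continuous_mul_const h)) hχ.cont ?_ hχ.bdd
    obtain ⟨C, hC⟩ := hψ.bdd
    exact ⟨C, fun g => hC _⟩
  have hsum : IntegrableOn (fun x => (Rep.card : ℂ)⁻¹ * ∑ h ∈ Rep, ψ (x * h) * conj (χ x))
      R.F R.μ :=
    (integrable_finsetSum Rep hinth).const_mul _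
  have e : (fun x => (ψ x - finAvg Rep ψ x) * conj (χ x))
      = fun x => ψ x * conj (χ x)
          - (Rep.card : ℂ)⁻¹ * ∑ h ∈ Rep, ψ (x * h) * conj (χ x) := by
    funext x
    unfold finAvg
    rw [sub_mul, mul_assoc, Finset.sum_mul]
  unfold T5.innerD
  rw [e, integral_sub hint0 hsum, integral_const_mul, integral_finsetSum Rep hinth,
    Finset.sum_congr rfl key, Finset.sum_const, nsmul_eq_mul, ← mul_assoc,
    inv_mul_cancel₀ hcard, one_mul, sub_self]

/-! ## 3. The archimedean mean -/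

/-- **TOR-AVG-W for the type `τ`.**  The archimedean mean of a cusp function of level `𝔑₀` and
type `τ` which is Iwahori-invariant along the orbit is an invariant cusp function of type `τ`. -/
theorem torAvgW_T820 (hT1 : T1.T1Out K) (τ : G K → ℂ) {𝔑₀ : Ideal (𝓞 K)} {r : G K}
    {a : (InfinitePlace K → ℝ) → G K} {D : Set (InfinitePlace K → ℝ)}
    (hD : IsTorusData 𝔑₀ r a D) (hM : MeanRay820 r a D) {l : ℕ}
    {o : ℕ → HeightOneSpectrum (𝓞 K)} {ψ : G K → ℂ} (hψ : T5.IsCuspFn 𝔑₀ τ r ψ)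
    (hiw : IsIwInv l o ψ) : IsWFnT820 τ 𝔑₀ r l o (torAvg a D ψ) := by
  have hsc : SecondCountableTopology (G K) := hT1.locComp.2.2.2
  refine ⟨⟨H865.torAvg_continuous865 hsc hD hψ.cont hψ.bdd, H865.torAvg_bdd865 hD hψ.bdd,
    ⟨?_, ?_, ?_, ?_⟩, H865.torAvg_cuspidal865 hT1 hD hψ.cont hψ.bdd hψ.cuspidal⟩, ?_, ?_⟩
  · -- left invariance
    intro γ g
    refine H865.torAvg_congr865 fun t => ?_
    rw [mul_assoc]
    exact hψ.aut.left_inv γ (g * a t)
  · -- level
    intro u hu g
    refine H865.torAvg_congr865 fun t => ?_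
    rw [H865.mul_comm_a865 hD]
    exact hψ.aut.level_inv u hu (g * a t)
  · -- compact groups at infinity
    intro w k hk g
    show (((volume D).toReal : ℝ) : ℂ)⁻¹ * ∫ t in D, ψ (g * k * a t)
      = τ k * ((((volume D).toReal : ℝ) : ℂ)⁻¹ * ∫ t in D, ψ (g * a t))
    rw [mul_left_comm]
    congr 1
    rw [← integral_const_mul (τ k) (fun t => ψ (g * a t))]
    refine integral_congr_ae (Filter.Eventually.of_forall fun t => ?_)
    show ψ (g * k * a t) = τ k * ψ (g * a t)
    rw [H865.mul_comm_a865 hD]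
    exact hψ.aut.arch_compact w k hk (g * a t)
  · -- ray
    intro g
    refine H865.torAvg_congr865 fun t => ?_
    rw [H865.mul_comm_a865 hD]
    exact hψ.aut.ray (g * a t)
  · -- positive scalars at one infinite place
    intro w z hz g
    obtain ⟨s, rfl⟩ := H865.posScalar_eq865 hD hz
    show (((volume D).toReal : ℝ) : ℂ)⁻¹ * ∫ t in D, ψ (g * a s * a t)
      = (((volume D).toReal : ℝ) : ℂ)⁻¹ * ∫ t in D, ψ (g * a t)
    congr 1
    have h := hM ψ hψ.aut.ray g s
    rw [← h]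
    refine integral_congr_ae (Filter.Eventually.of_forall fun t => ?_)
    show ψ (g * a s * a t) = ψ (g * a (t + s))
    rw [add_comm, hD.mul, mul_assoc]
  · -- Iwahori along the orbit
    intro h h1 h2 h3 x
    refine H865.torAvg_congr865 fun t => ?_
    rw [H865.mul_comm_a865 hD]
    exact hiw h h1 h2 h3 (x * a t)

/-- **TOR-AVG-ORTH for the type `τ`.**  `ψ - P_∞ ψ` is orthogonal to the cusp functions (any
type) which are invariant under the positive scalars at infinity. -/
theorem torAvgOrth_T820 (hT1 : T1.T1Out K) (hTI : TranslInvC K) {τ τ' : G K → ℂ} (R : Frame5 K)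
    (hR : IsFrame5 R) {𝔑₀ : Ideal (𝓞 K)} {a : (InfinitePlace K → ℝ) → G K}
    {D : Set (InfinitePlace K → ℝ)} (hD : IsTorusData 𝔑₀ R.r a D) {ψ : G K → ℂ}
    (hψ : T5.IsCuspFn 𝔑₀ τ R.r ψ) {χ : G K → ℂ} (hχ : T5.IsCuspFn 𝔑₀ τ' R.r χ)
    (hχs : ∀ (w : InfinitePlace K) (z : G K), IsArchPosScalar w z →
      ∀ g : G K, χ (g * z) = χ g) :
    T5.innerD R.μ R.F (fun x => ψ x - torAvg a D ψ x) χ = 0 := by
  have hTI' := hTI hT1.adNorm R hR
  have : BorelSpace (G K) := ⟨rfl⟩
  have hFfin : R.μ R.F < ⊤ := hR.frame.finite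
  have hDfin : volume D < ⊤ := hD.bdd.measure_lt_top
  have : IsFiniteMeasure (R.μ.restrict R.F) := ⟨by rwa [Measure.restrict_apply_univ]⟩
  have : IsFiniteMeasure ((volume : Measure (InfinitePlace K → ℝ)).restrict D) :=
    ⟨by rwa [Measure.restrict_apply_univ]⟩
  obtain ⟨Cψ, hCψ⟩ := hψ.bdd
  obtain ⟨Cχ, hCχ⟩ := hχ.bdd
  -- the constant
  set c : ℂ := (((volume D).toReal : ℝ) : ℂ) with hc
  have hcpos : 0 < (volume D).toReal := ENNReal.toReal_pos hD.pos.ne' hDfin.ne
  have hc0 : c ≠ 0 := by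
    rw [hc]
    exact_mod_cast hcpos.ne'
  -- the function `Φ = ψ conj χ`
  set Φ : G K → ℂ := fun x => ψ x * conj (χ x) with hΦ
  have hΦleft : ∀ (γ : GL (Fin 2) K) (x : G K), Φ (T5.ratG γ * x) = Φ x := by
    intro γ x
    simp only [hΦ]
    rw [hψ.aut.left_inv, hχ.aut.left_inv]
  have hΦray : ∀ x : G K, Φ (x * R.r) = Φ x := by
    intro x
    simp only [hΦ]
    rw [hψ.aut.ray, hχ.aut.ray]
  have hΦint : IntegrableOn Φ R.F R.μ :=
    integrableOn_mul_conj193 hFfin hψ.cont hχ.cont ⟨Cψ, hCψ⟩ ⟨Cχ, hCχ⟩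
  -- the integrand on the product
  set f : G K → (InfinitePlace K → ℝ) → ℂ := fun x t => ψ (x * a t) * conj (χ x) with hf
  have hfcont : Continuous (Function.uncurry f) := by
    have h1 : Continuous fun p : G K × (InfinitePlace K → ℝ) => p.1 * a p.2 :=
      continuous_fst.mul (hD.cont.comp continuous_snd)
    exact (hψ.cont.comp h1).mul (Complex.continuous_conj.comp (hχ.cont.comp continuous_fst))
  have hfint : Integrable (Function.uncurry f)
      ((R.μ.restrict R.F).prod ((volume : Measure (InfinitePlace K → ℝ)).restrict D)) := by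
    refine Integrable.of_bound (C := Cψ * Cχ) hfcont.aestronglyMeasurable ?_
    refine Filter.Eventually.of_forall fun p => ?_
    simp only [Function.uncurry, hf]
    rw [norm_mul, RCLike.norm_conj]
    exact mul_le_mul (hCψ _) (hCχ _) (norm_nonneg _) ((norm_nonneg _).trans (hCψ p.1))
  -- invariance of `χ`
  have hχa : ∀ (t : InfinitePlace K → ℝ) (x : G K), χ (x * a t) = χ x :=
    fun t x => H587.inv_a587 hD.mul hD.inf hD.fin hχs t x
  -- the inner integral over `F`
  have hinner : ∀ t : InfinitePlace K → ℝ,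
      ∫ x in R.F, f x t ∂(R.μ) = ∫ x in R.F, Φ x ∂(R.μ) := by
    intro t
    rw [← hTI' Φ hΦleft hΦray (a t)]
    refine integral_congr_ae (Filter.Eventually.of_forall fun x => ?_)
    simp only [hf, hΦ]
    rw [hχa t x]
  -- Fubini
  have hswap : ∫ x in R.F, (∫ t in D, f x t) ∂(R.μ) = c * ∫ x in R.F, Φ x ∂(R.μ) := by
    rw [integral_integral_swap hfint]
    simp only [hinner]
    rw [integral_const, hc]
    simp [Measure.real, Complex.real_smul]
  -- integrability of the averaged term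
  have hgint : IntegrableOn (fun x => ∫ t in D, f x t) R.F R.μ := hfint.integral_prod_left
  -- the integrand of the inner product
  have hpt : ∀ x : G K, (ψ x - torAvg a D ψ x) * conj (χ x)
      = Φ x - c⁻¹ * ∫ t in D, f x t := by
    intro x
    simp only [torAvg, hf, hΦ]
    rw [integral_mul_const]
    ring
  unfold T5.innerD
  rw [integral_congr_ae (Filter.Eventually.of_forall hpt),
    integral_sub hΦint (hgint.const_mul c⁻¹), integral_const_mul, hswap, ← mul_assoc,
    inv_mul_cancel₀ hc0, one_mul, sub_self]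

/-! ## 4. The top -/

/-- **THE ORTHOGONAL PROJECTION ON THE INVARIANT CUSP FUNCTIONS OF TYPE `τ`.** -/
theorem exists_projT820 (hT1 : T1.T1Out K) (hTr : TranslInvC K) (hFin : FinDataC K)
    (τ : G K → ℂ) (R : Frame5 K) (hR : IsFrame5 R) (𝔑 𝔑₀ : Ideal (𝓞 K)) (h𝔑 : 𝔑 ≠ ⊥)
    (hle : 𝔑 ≤ 𝔑₀) (l : ℕ) (o : ℕ → HeightOneSpectrum (𝓞 K))
    (a : (InfinitePlace K → ℝ) → G K) (D : Set (InfinitePlace K → ℝ))
    (hD : IsTorusData 𝔑₀ R.r a D) (hM : MeanRay820 R.r a D) (ψ : G K → ℂ)
    (hψ : T5.IsCuspFn 𝔑 τ R.r ψ) :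
    ∃ ψ₁ : G K → ℂ, IsWFnT820 τ 𝔑₀ R.r l o ψ₁ ∧
      ∀ χ : G K → ℂ, IsWFnT820 τ 𝔑₀ R.r l o χ →
        T5.innerD R.μ R.F (fun x => ψ x - ψ₁ x) χ = 0 := by
  obtain ⟨Rep, hRep⟩ := hFin 𝔑 𝔑₀ h𝔑 hle l o
  obtain ⟨hc, hiw⟩ := finAvgCusp_T820 hT1 τ hRep hR.ray hψ
  have hW := torAvgW_T820 hT1 τ hD hM hc hiw
  refine ⟨torAvg a D (finAvg Rep ψ), hW, fun χ hχ => ?_⟩
  have e1 := finAvgOrth_T820 hT1 hTr R hR hRep hψ hχ.cusp hχ.iw
  have e2 := torAvgOrth_T820 hT1 hTr R hR hD hc hχ.cusp hχ.arch_scalar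
  have hsplit : (fun x => ψ x - torAvg a D (finAvg Rep ψ) x)
      = fun x => (ψ x - finAvg Rep ψ x) + (finAvg Rep ψ x - torAvg a D (finAvg Rep ψ) x) := by
    funext x
    ring
  have c1 : Continuous fun x => ψ x - finAvg Rep ψ x := hψ.cont.sub hc.cont
  have c2 : Continuous fun x => finAvg Rep ψ x - torAvg a D (finAvg Rep ψ) x :=
    hc.cont.sub hW.cusp.cont
  rw [hsplit, innerD_add193 hR.frame.finite c1 c2 hχ.cusp.cont (bdd_sub193 hψ.bdd hc.bdd)
    (bdd_sub193 hc.bdd hW.cusp.bdd) hχ.cusp.bdd, e1, e2, add_zero]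

end Fermat.Agent.LT.T7.H820

end

end
-- ===== PACK-END LT/T7/H820/ProjQGen.lean

-- ===== PACK-BEGIN LT/T7/H846/RayLog.lean
section


/-!
# Row LT, tower T7, node T7.L2.1, leaf P1d `RayLogC` (helper846)

OFF-MAIN.  `rayLogC846 : H40.RayLogC K` VERBATIM (ArchProjSpec of helper40, sha256 `34d7f842`,
byte-identical copy).  The ray generator is `Z (c, …, c)`, `c = log t₀ ≠ 0`: both elements have
the same local components, and an element of `GL₂(𝔸_K)` is determined by its local components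
(`gl_ext846`).
-/

set_option autoImplicit false
set_option linter.unusedSectionVars false

open AutomorphicForm IsDedekindDomain NumberField MeasureTheory

noncomputable section

namespace Fermat.Agent.LT.T7.H40.H846

open Fermat.Agent.LT.H556 Fermat.Agent.LT.H556.A0 Fermat.Agent.LT.T7

variable {K : Type} [Field K] [NumberField K]

/-- An adele is determined by its components. -/
theorem adl_ext846 {x y : Adl K}
    (h1 : ∀ w : InfinitePlace K, InfinitePlace.Completion.extensionEmbedding w (x.1 w)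
      = InfinitePlace.Completion.extensionEmbedding w (y.1 w))
    (h2 : ∀ v : HeightOneSpectrum (𝓞 K), x.2 v = y.2 v) : x = y := by
  refine Prod.ext ?_ ?_
  · funext w
    exact (InfinitePlace.Completion.extensionEmbedding w).injective (h1 w)
  · exact RestrictedProduct.ext _ _ h2

/-- An element of `GL₂(𝔸_K)` is determined by its local components. -/
theorem gl_ext846 {g g' : G K} (h1 : ∀ w : InfinitePlace K, infComp w g = infComp w g')
    (h2 : ∀ v : HeightOneSpectrum (𝓞 K), finComp v g = finComp v g') : g = g' := by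
  apply Units.ext
  ext i j
  refine adl_ext846 (fun w => ?_) (fun v => ?_)
  · exact congrFun (congrFun (h1 w) i) j
  · exact congrFun (congrFun (h2 v) i) j

/-- **LEAF RAY-LOG.** -/
theorem rayLogC846 (K : Type) [Field K] [NumberField K] : RayLogC K := by
  intro Z hZ r hr
  obtain ⟨hfin, t, ht, htn, hinf⟩ := hr
  have ht1 : t ≠ 1 := by
    intro h
    rw [h, one_pow] at htn
    norm_num at htn
  refine ⟨Real.log t, ?_, ?_⟩
  · intro h0
    rcases Real.log_eq_zero.1 h0 with h | h | h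
    · exact ht.ne' h
    · exact ht1 h
    · linarith
  · refine gl_ext846 (fun w => ?_) (fun v => ?_)
    · rw [hZ.inf_comp, hinf w, Real.exp_log ht]
    · have h1 : finComp v (Z fun _ => Real.log t) = 1 := hZ.fin_triv _ v
      have h2 : finComp v r = 1 := hfin v
      rw [h1, h2]

example (K : Type) [Field K] [NumberField K] : RayLogC K := rayLogC846 K

end Fermat.Agent.LT.T7.H40.H846

end

end
-- ===== PACK-END LT/T7/H846/RayLog.lean

-- ===== PACK-BEGIN LT/T7/H76/CuspForm.lean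
section



/-!
# Row LT, tower T7, leaf T7.L2.3.5.1 `SD534.CuspFormC` (helper76)

OFF-MAIN.  `cuspFormC76 : SD534.CuspFormC K` for every number field `K`, VERBATIM against the
frozen bytes `LT/T7/H534/DownBasisSpec.lean` (helper534, sha256 `b2d5929f5cd243f8`).
Unconditional: no fact of T1 is assumed (Mathlib + the definitions of the Spec only).

* the algebra of `T5.innerD` (additive, homogeneous, hermitian, non-negative): cusp functions are
  continuous and bounded and `μ F < ∞`, so every product `f · conj f'` is integrable on `F`;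
* DEFINITE: if `∫_F |f|² = 0` then the open set `N = {f ≠ 0}` meets `F` in a null set; every `g`
  is moved into the slab by a power `rᵐ` of the ray generator (`‖det (g rᵐ)‖ = ‖det g‖ · 2ᵐ`:
  `detNorm_mul_zpow76`) and then into `F` by some `γ ∈ GL₂(K)`; `f` is invariant under both, `μ` is
  left and right invariant, `GL₂(K) × ℤ` is countable: `μ N = 0`, so `N = ∅` (Haar measures are
  positive on non-empty open sets);
* `T5.Rconv μ φ` is additive and homogeneous: `y ↦ φ y · f (x y)` is continuous with compact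
  support.
-/

set_option autoImplicit false
set_option linter.unusedSectionVars false
set_option linter.unusedVariables false

open AutomorphicForm IsDedekindDomain NumberField MeasureTheory
open scoped ComplexConjugate

noncomputable section

namespace Fermat.Agent.LT.T7.H76

open Fermat.Agent.LT.H556 Fermat.Agent.LT.H556.A0 Fermat.Agent.LT.T7 Fermat.Agent.LT

attribute [local instance] Fermat.Agent.LT.T5.instMeasurableSpaceG

variable {K : Type} [Field K] [NumberField K]

/-! ## Countability -/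

theorem countable_K76 (K : Type) [Field K] [NumberField K] : Countable K :=
  (Module.finBasis ℚ K).equivFun.injective.countable

theorem countable_GL76 (K : Type) [Field K] [NumberField K] : Countable (GL (Fin 2) K) := by
  have := countable_K76 K
  have hinj : Function.Injective (fun g : GL (Fin 2) K => fun i j : Fin 2 =>
      (g : Matrix (Fin 2) (Fin 2) K) i j) := by
    intro g h hgh
    apply Units.ext
    ext i j
    exact congrFun (congrFun hgh i) j
  exact hinj.countable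

/-! ## The module of the determinant -/

/-- The module of the determinant, as a function on `GL₂(𝔸_K)`. -/
def detNorm76 (g : G K) : ℝ :=
  T5.adNorm (Matrix.det (g : Matrix (Fin 2) (Fin 2) (Adl K)))

theorem mem_slab_iff76 (g : G K) : g ∈ T5.slab K ↔ 1 ≤ detNorm76 g ∧ detNorm76 g < 2 :=
  Iff.rfl

theorem norm_fst_eq76 (w : InfinitePlace K) (x : Adl K) : ‖x.1 w‖ = ‖T5.infHom w x‖ :=
  ((InfinitePlace.Completion.isometry_extensionEmbedding w).norm_map_of_map_zero
    (map_zero _) (x.1 w)).symm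

theorem snd_eq76 (v : HeightOneSpectrum (𝓞 K)) (x : Adl K) : x.2 v = T5.finHom v x := rfl

theorem adNorm_eq76 (x : Adl K) :
    T5.adNorm x = (∏ w : InfinitePlace K, ‖T5.infHom w x‖ ^ w.mult) *
      ∏ᶠ v : HeightOneSpectrum (𝓞 K), ‖T5.finHom v x‖ := by
  unfold T5.adNorm
  congr 1
  exact Finset.prod_congr rfl fun w _ => by rw [norm_fst_eq76]

/-- The module of a unit of the adele ring is positive. -/
theorem adNorm_pos76 (u : (Adl K)ˣ) : 0 < T5.adNorm (u : Adl K) := by
  rw [adNorm_eq76]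
  apply mul_pos
  · refine Finset.prod_pos fun w _ => pow_pos ?_ _
    rw [norm_pos_iff]
    exact (u.map (T5.infHom w).toMonoidHom).ne_zero
  · refine finprod_induction (fun x : ℝ => 0 < x) one_pos (fun x y hx hy => mul_pos hx hy) ?_
    intro v
    rw [norm_pos_iff]
    exact (u.map (T5.finHom v).toMonoidHom).ne_zero

theorem detNorm_pos76 (g : G K) : 0 < detNorm76 g := by
  unfold detNorm76
  rw [← Matrix.GeneralLinearGroup.val_det_apply]
  exact adNorm_pos76 _

/-- Multiplication by an adele which is `1` at every finite place. -/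
theorem adNorm_mul_of_fin_one76 (x y : Adl K)
    (hy : ∀ v : HeightOneSpectrum (𝓞 K), T5.finHom v y = 1) :
    T5.adNorm (x * y) = T5.adNorm x * ∏ w : InfinitePlace K, ‖T5.infHom w y‖ ^ w.mult := by
  rw [adNorm_eq76, adNorm_eq76]
  have h1 : (∏ w : InfinitePlace K, ‖T5.infHom w (x * y)‖ ^ w.mult)
      = (∏ w : InfinitePlace K, ‖T5.infHom w x‖ ^ w.mult) *
        ∏ w : InfinitePlace K, ‖T5.infHom w y‖ ^ w.mult := by
    rw [← Finset.prod_mul_distrib]
    refine Finset.prod_congr rfl fun w _ => ?_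
    rw [map_mul, norm_mul, mul_pow]
  have h2 : (∏ᶠ v : HeightOneSpectrum (𝓞 K), ‖T5.finHom v (x * y)‖)
      = ∏ᶠ v : HeightOneSpectrum (𝓞 K), ‖T5.finHom v x‖ := by
    congr 1
    funext v
    rw [map_mul, hy v, mul_one]
  rw [h1, h2]
  ring

/-- A ring homomorphism commutes with the determinant of an element of `GL₂`. -/
theorem map_det_val76 {S : Type} [CommRing S] (f : Adl K →+* S) (g : G K) :
    f (Matrix.det (g : Matrix (Fin 2) (Fin 2) (Adl K)))
      = ((Matrix.GeneralLinearGroup.det (Matrix.GeneralLinearGroup.map f g) : Sˣ) : S) := by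
  rw [Matrix.GeneralLinearGroup.val_det_apply, RingHom.map_det]
  rfl

/-- The finite components of the determinant of a power of the ray generator. -/
theorem finHom_det_zpow76 {r : G K} (hr : T5.IsRayGen r) (m : ℤ)
    (v : HeightOneSpectrum (𝓞 K)) :
    T5.finHom v (Matrix.det ((r ^ m : G K) : Matrix (Fin 2) (Fin 2) (Adl K))) = 1 := by
  rw [map_det_val76, map_zpow]
  have h1 : Matrix.GeneralLinearGroup.map (T5.finHom v) r = 1 := by
    apply Units.ext
    have := hr.1 v
    unfold TrivAtFin at this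
    rw [T5.finComp_eq_map] at this
    exact this
  rw [h1, one_zpow, map_one, Units.val_one]

/-- The infinite components of the determinant of a power of the ray generator. -/
theorem infHom_det_zpow76 {r : G K} {t : ℝ}
    (ht : ∀ w : InfinitePlace K, infComp w r = Matrix.diagonal (fun _ => (t : ℂ)))
    (m : ℤ) (w : InfinitePlace K) :
    T5.infHom w (Matrix.det ((r ^ m : G K) : Matrix (Fin 2) (Fin 2) (Adl K)))
      = ((t : ℂ) * (t : ℂ)) ^ m := by
  rw [map_det_val76, map_zpow, map_zpow, Units.val_zpow_eq_zpow_val]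
  congr 1
  rw [Matrix.GeneralLinearGroup.val_det_apply]
  have h1 : ((Matrix.GeneralLinearGroup.map (T5.infHom w) r : GL (Fin 2) ℂ) :
      Matrix (Fin 2) (Fin 2) ℂ) = Matrix.diagonal (fun _ => (t : ℂ)) := by
    rw [← ht w, T5.infComp_eq_map]
    rfl
  rw [h1, Matrix.det_diagonal, Fin.prod_univ_two]

/-- `‖det (g rᵐ)‖ = ‖det g‖ · 2ᵐ`. -/
theorem detNorm_mul_zpow76 {r : G K} (hr : T5.IsRayGen r) (g : G K) (m : ℤ) :
    detNorm76 (g * r ^ m) = detNorm76 g * (2 : ℝ) ^ m := by
  obtain ⟨hfin, t, ht0, ht2, ht⟩ := hr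
  unfold detNorm76
  rw [Units.val_mul, Matrix.det_mul,
    adNorm_mul_of_fin_one76 _ _ (finHom_det_zpow76 ⟨hfin, t, ht0, ht2, ht⟩ m)]
  congr 1
  have hnorm : ∀ w : InfinitePlace K,
      ‖T5.infHom w (Matrix.det ((r ^ m : G K) : Matrix (Fin 2) (Fin 2) (Adl K)))‖
        = (t * t) ^ m := by
    intro w
    rw [infHom_det_zpow76 ht m w, norm_zpow, norm_mul, Complex.norm_real, Real.norm_eq_abs,
      abs_of_pos ht0]
  simp only [hnorm]
  rw [Finset.prod_pow_eq_pow_sum, InfinitePlace.sum_mult_eq, ← zpow_natCast, ← zpow_mul,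
    mul_comm m, zpow_mul, zpow_natCast]
  congr 1
  rw [← ht2, pow_mul, sq]

/-- Every `g` is moved into the slab by a power of the ray generator. -/
theorem exists_zpow_mem_slab76 {r : G K} (hr : T5.IsRayGen r) (g : G K) :
    ∃ m : ℤ, g * r ^ m ∈ T5.slab K := by
  obtain ⟨n, hn1, hn2⟩ := exists_mem_Ico_zpow (detNorm_pos76 g) (one_lt_two (α := ℝ))
  refine ⟨-n, ?_⟩
  rw [mem_slab_iff76, detNorm_mul_zpow76 hr]
  have h2 : (0 : ℝ) < 2 ^ n := zpow_pos (by norm_num) n
  rw [zpow_neg]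
  constructor
  · rw [le_mul_inv_iff₀ h2, one_mul]
    exact hn1
  · rw [mul_inv_lt_iff₀ h2]
    rw [zpow_add_one₀ (by norm_num : (2 : ℝ) ≠ 0), mul_comm] at hn2
    exact hn2

/-! ## Invariance under the powers of the ray generator -/

theorem ray_zpow76 {r : G K} {e : G K → ℂ} (h : ∀ g : G K, e (g * r) = e g) (m : ℤ)
    (g : G K) : e (g * r ^ m) = e g := by
  have hnat : ∀ (n : ℕ) (g : G K), e (g * r ^ n) = e g := by
    intro n
    induction n with
    | zero => intro g; simp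
    | succ n ih =>
      intro g
      rw [pow_succ, ← mul_assoc, h, ih]
  have hinv : ∀ (n : ℕ) (g : G K), e (g * (r ^ n)⁻¹) = e g := by
    intro n g
    rw [← hnat n (g * (r ^ n)⁻¹), inv_mul_cancel_right]
  cases m with
  | ofNat n => simpa using hnat n g
  | negSucc n => simpa using hinv (n + 1) g

/-! ## Integrability -/

theorem borelSpace76 : BorelSpace (G K) := ⟨rfl⟩

theorem integrableOn_mul_conj76 {μ : Measure (G K)} {F : Set (G K)} (hF : μ F < ⊤)
    {f f' : G K → ℂ} (hfc : Continuous f) (hfb : ∃ C : ℝ, ∀ g : G K, ‖f g‖ ≤ C)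
    (hfc' : Continuous f') (hfb' : ∃ C : ℝ, ∀ g : G K, ‖f' g‖ ≤ C) :
    IntegrableOn (fun x => f x * conj (f' x)) F μ := by
  have : BorelSpace (G K) := borelSpace76
  obtain ⟨C, hC⟩ := hfb
  obtain ⟨C', hC'⟩ := hfb'
  have hcont : Continuous (fun x => f x * conj (f' x)) :=
    hfc.mul (Complex.continuous_conj.comp hfc')
  refine Measure.integrableOn_of_bounded (M := C * C') hF.ne hcont.aestronglyMeasurable
    (Filter.Eventually.of_forall fun g => ?_)
  rw [norm_mul, RCLike.norm_conj]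
  exact mul_le_mul (hC g) (hC' g) (norm_nonneg _) ((norm_nonneg _).trans (hC g))

/-! ## The form -/

theorem innerD_add_left76 {μ : Measure (G K)} {F : Set (G K)} (hF : μ F < ⊤)
    {f f' f'' : G K → ℂ} (hfc : Continuous f) (hfb : ∃ C : ℝ, ∀ g : G K, ‖f g‖ ≤ C)
    (hfc' : Continuous f') (hfb' : ∃ C : ℝ, ∀ g : G K, ‖f' g‖ ≤ C)
    (hfc'' : Continuous f'') (hfb'' : ∃ C : ℝ, ∀ g : G K, ‖f'' g‖ ≤ C) :
    T5.innerD μ F (f + f') f'' = T5.innerD μ F f f'' + T5.innerD μ F f' f'' := by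
  unfold T5.innerD
  rw [← integral_add (integrableOn_mul_conj76 hF hfc hfb hfc'' hfb'')
    (integrableOn_mul_conj76 hF hfc' hfb' hfc'' hfb'')]
  congr 1
  funext x
  simp [add_mul]

theorem innerD_smul_left76 (μ : Measure (G K)) (F : Set (G K)) (a : ℂ) (f f' : G K → ℂ) :
    T5.innerD μ F (a • f) f' = a * T5.innerD μ F f f' := by
  unfold T5.innerD
  rw [← integral_const_mul]
  congr 1
  funext x
  simp [mul_assoc]

theorem innerD_conj_symm76 (μ : Measure (G K)) (F : Set (G K)) (f f' : G K → ℂ) :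
    T5.innerD μ F f' f = conj (T5.innerD μ F f f') := by
  unfold T5.innerD
  rw [← integral_conj]
  congr 1
  funext x
  simp [mul_comm]

theorem innerD_self_eq76 (μ : Measure (G K)) (F : Set (G K)) (f : G K → ℂ) :
    T5.innerD μ F f f = ((∫ x in F, Complex.normSq (f x) ∂μ : ℝ) : ℂ) := by
  unfold T5.innerD
  have h : ∀ x, f x * conj (f x) = ((Complex.normSq (f x) : ℝ) : ℂ) :=
    fun x => Complex.mul_conj (f x)
  simp only [h]
  exact integral_ofReal

theorem innerD_self_nonneg76 (μ : Measure (G K)) (F : Set (G K)) (f : G K → ℂ) :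
    0 ≤ (T5.innerD μ F f f).re := by
  rw [innerD_self_eq76, Complex.ofReal_re]
  exact integral_nonneg fun x => Complex.normSq_nonneg _

/-- **Definiteness** of the form on the cusp functions (only continuity, boundedness and the
two invariances are used). -/
theorem innerD_definite76 {μ : Measure (G K)} {F : Set (G K)} {r : G K}
    (hfr : T5.IsFrame μ F) (hr : T5.IsRayGen r) {f : G K → ℂ} (hfc : Continuous f)
    (hfb : ∃ C : ℝ, ∀ g : G K, ‖f g‖ ≤ C)
    (hleft : ∀ (γ : GL (Fin 2) K) (g : G K), f (T5.ratG γ * g) = f g)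
    (hray : ∀ g : G K, f (g * r) = f g)
    (h0 : T5.innerD μ F f f = 0) : f = 0 := by
  have : BorelSpace (G K) := borelSpace76
  have := hfr.haar
  have := countable_GL76 K
  -- the real form of the hypothesis
  have hintR : IntegrableOn (fun x => Complex.normSq (f x)) F μ := by
    have h := (integrableOn_mul_conj76 hfr.finite hfc hfb hfc hfb).re
    refine h.congr (Filter.Eventually.of_forall fun x => ?_)
    show (f x * conj (f x)).re = Complex.normSq (f x)
    rw [Complex.mul_conj, Complex.ofReal_re]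
  have h0R : ∫ x in F, Complex.normSq (f x) ∂μ = 0 := by
    rw [innerD_self_eq76] at h0
    exact_mod_cast h0
  have hae : (fun x => Complex.normSq (f x)) =ᵐ[μ.restrict F] 0 :=
    (setIntegral_eq_zero_iff_of_nonneg_ae
      (Filter.Eventually.of_forall fun x => Complex.normSq_nonneg _) hintR).1 h0R
  -- the open set where `f ≠ 0`
  set N : Set (G K) := {x | f x ≠ 0} with hN
  have hNopen : IsOpen N := isOpen_ne_fun hfc continuous_const
  have hNF : μ (N ∩ F) = 0 := by
    have h1 : μ.restrict F N = 0 := by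
      have h2 : μ.restrict F {x | ¬ ((fun x => Complex.normSq (f x)) x = (0 : G K → ℝ) x)} = 0 :=
        hae
      refine measure_mono_null (fun x hx => ?_) h2
      show ¬ (Complex.normSq (f x) = 0)
      rw [Complex.normSq_eq_zero]
      exact hx
    rwa [Measure.restrict_apply hNopen.measurableSet] at h1
  -- the translates of `N ∩ F` cover `N`
  have hcover : N ⊆ ⋃ p : GL (Fin 2) K × ℤ,
      (fun x : G K => x * r ^ p.2) ⁻¹' ((fun y : G K => T5.ratG p.1 * y) ⁻¹' (N ∩ F)) := by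
    intro x hx
    obtain ⟨m, hm⟩ := exists_zpow_mem_slab76 hr x
    obtain ⟨γ, hγ, -⟩ := hfr.strict _ hm
    refine Set.mem_iUnion.2 ⟨(γ, m), ?_⟩
    refine ⟨?_, hγ⟩
    show f (T5.ratG γ * (x * r ^ m)) ≠ 0
    rw [hleft, ray_zpow76 hray]
    exact hx
  have hnull : μ (⋃ p : GL (Fin 2) K × ℤ,
      (fun x : G K => x * r ^ p.2) ⁻¹' ((fun y : G K => T5.ratG p.1 * y) ⁻¹' (N ∩ F))) = 0 := by
    refine measure_iUnion_null fun p => ?_
    have hmeas : MeasurableSet ((fun y : G K => T5.ratG p.1 * y) ⁻¹' (N ∩ F)) :=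
      (continuous_const_mul (T5.ratG p.1)).measurable (hNopen.measurableSet.inter hfr.meas)
    rw [hfr.right_inv (r ^ p.2) _ hmeas, measure_preimage_mul]
    exact hNF
  have hN0 : μ N = 0 := measure_mono_null hcover hnull
  -- a Haar measure is positive on non-empty open sets
  funext x
  by_contra hx
  have hpos : 0 < μ N := hNopen.measure_pos μ ⟨x, hx⟩
  rw [hN0] at hpos
  exact lt_irrefl _ hpos

/-! ## The convolutions -/

theorem integrable_conv76 {μ : Measure (G K)} (hμ : μ.IsHaarMeasure) {φ f : G K → ℂ}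
    (hφc : Continuous φ) (hφs : HasCompactSupport φ) (hfc : Continuous f) (x : G K) :
    Integrable (fun y => φ y * f (x * y)) μ := by
  have : BorelSpace (G K) := borelSpace76
  have := hμ
  refine Continuous.integrable_of_hasCompactSupport
    (hφc.mul (hfc.comp (continuous_const_mul x))) ?_
  exact hφs.mul_right

theorem rconv_add76 {μ : Measure (G K)} (hμ : μ.IsHaarMeasure) {φ f f' : G K → ℂ}
    (hφc : Continuous φ) (hφs : HasCompactSupport φ) (hfc : Continuous f)
    (hfc' : Continuous f') :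
    T5.Rconv μ φ (f + f') = T5.Rconv μ φ f + T5.Rconv μ φ f' := by
  funext x
  show ∫ y, φ y * (f + f') (x * y) ∂μ = (∫ y, φ y * f (x * y) ∂μ) + ∫ y, φ y * f' (x * y) ∂μ
  rw [← integral_add (integrable_conv76 hμ hφc hφs hfc x) (integrable_conv76 hμ hφc hφs hfc' x)]
  congr 1
  funext y
  simp [mul_add]

theorem rconv_smul76 (μ : Measure (G K)) (φ : G K → ℂ) (a : ℂ) (f : G K → ℂ) :
    T5.Rconv μ φ (a • f) = a • T5.Rconv μ φ f := by
  funext x
  show ∫ y, φ y * (a • f) (x * y) ∂μ = a • ∫ y, φ y * f (x * y) ∂μ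
  rw [smul_eq_mul, ← integral_const_mul]
  congr 1
  funext y
  simp [mul_left_comm]

/-! ## The leaf -/

/-- **T7.L2.3.5.1** `SD534.CuspFormC`, unconditionally, for every number field. -/
theorem cuspFormC76 (K : Type) [Field K] [NumberField K] : SD534.CuspFormC K := by
  intro μ F r 𝔫 _ hfr hr
  refine
    { add_left := fun f f' f'' hf hf' hf'' =>
        innerD_add_left76 hfr.finite hf.cont hf.bdd hf'.cont hf'.bdd hf''.cont hf''.bdd
      smul_left := fun a f f' _ _ => innerD_smul_left76 μ F a f f'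
      conj_symm := fun f f' _ _ => innerD_conj_symm76 μ F f f'
      nonneg := fun f _ => innerD_self_nonneg76 μ F f
      definite := fun f hf h0 =>
        innerD_definite76 hfr hr hf.cont hf.bdd hf.aut.left_inv hf.aut.ray h0
      conv_add := fun φ f f' hφ hf hf' =>
        rconv_add76 hfr.haar hφ.cont hφ.supp hf.cont hf'.cont
      conv_smul := fun φ a f _ _ => rconv_smul76 μ φ a f }

end Fermat.Agent.LT.T7.H76

end

end
-- ===== PACK-END LT/T7/H76/CuspForm.lean

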