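import Mathlib
import Fermat.Agent.Pack.LT3.E22L2
import Fermat.Agent.Pack.LT3.E7L3
import Fermat.Agent.Pack.LT3.E10L2
import Fermat.Agent.Pack.LT3.E22L1
import Fermat.Agent.Pack.LT2.E0L3
import Fermat.Agent.Pack.LT2.E9L3
import Fermat.Agent.Pack.LT3.E4L3
import Fermat.Agent.Pack.LT3.E2L3
import Fermat.Agent.Pack.LT2.E10L3
import Fermat.Agent.Pack.LT2.E2L2
import Fermat.Agent.Pack.LT3.E22L3
import Fermat.Agent.Pack.LT3.E8L2
import Fermat.Agent.Pack.LT3.E22L0
import Fermat.Agent.Pack.LT3.E5L2
import Fermat.Agent.Pack.LT3.E13L3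
import Fermat.Agent.Pack.LT2.E4L2
import Fermat.Agent.Pack.LT3.E21L3
import Fermat.Agent.Pack.LT3.E21L1
import Fermat.Agent.Pack.LT3.E23L2

set_option linter.all false

-- ===== PACK-BEGIN LT/T7/H925/TorSplitCore.lean
section





/-!
# Row LT, tower T7, leaf T7.L2.1.C2.7.5 `TorSplitC305` (helper925, spare) -- core

OFF-MAIN.  No hole, nothing assumed.  ADDITIVE (suffix `925`).

The adelic torus `T_𝔸(γ)` (the centraliser of `γ` in `GL₂(𝔸_K)`), its components in the local
tori `T_v`, `T_w`, the open subgroups `E_S = {t : t_v ∈ GL₂(𝒪_v), v ∉ S}`, and the homomorphism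
`q_S : T_𝔸(γ) → ∏_{v ∈ S} T_v × ∏_w T_w`: continuous, onto on `E_S` (`K` totally complex),
proper on `E_S`.  Assets of helper159 (`HaarSplit.lean`, `RestrGL.lean`, `GoodUnit.lean`).
-/

set_option autoImplicit false

open AutomorphicForm IsDedekindDomain NumberField MeasureTheory

noncomputable section

namespace Fermat.Agent.LT.T7.H925.TorSplit

open Fermat.Agent.LT Fermat.Agent.LT.H556 Fermat.Agent.LT.H556.A0 Fermat.Agent.LT.T7
open Fermat.Agent.LT.T7.H305 Fermat.Agent.LT.T7.H159

/-! ## 1. Twisted centralisers (abstract) -/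

theorem mem_twCentSub_map925 {A B : Type} [Group A] [Group B] (f : A →* B) (s : A →* A)
    (s' : B →* B) (δ x : A) (hs : f (s x) = s' (f x)) (hx : x ∈ T6.twCentSub s δ) :
    f x ∈ T6.twCentSub s' (f δ) := by
  change (f x)⁻¹ * f δ * s' (f x) = f δ
  have h : x⁻¹ * δ * s x = δ := hx
  have := congrArg f h
  rw [map_mul, map_mul, map_inv, hs] at this
  exact this

theorem isClosed_twCentSub925 {Γ : Type} [Group Γ] [TopologicalSpace Γ] [IsTopologicalGroup Γ]
    [T2Space Γ] (s : Γ →* Γ) (hs : Continuous s) (δ : Γ) :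
    IsClosed (T6.twCentSub s δ : Set Γ) :=
  isClosed_eq ((continuous_inv.mul continuous_const).mul hs) continuous_const

/-! ## 2. Local: `U(0)`, integrality, the maximal compact subgroup of a good torus -/

section Local

variable {k : Type} [Field k] [Valued k T6.Γ₀]

omit [Valued k T6.Γ₀] in
theorem glAut_refl925 (x : GL (Fin 2) k) : T6.glAut (RingEquiv.refl k) x = x := by
  apply Units.ext
  ext a b
  rfl

theorem continuous_glAut_refl925 : Continuous (T6.glAut (RingEquiv.refl k)) := by
  have : (T6.glAut (RingEquiv.refl k) : GL (Fin 2) k → GL (Fin 2) k) = id := by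
    funext x
    exact glAut_refl925 x
  rw [this]
  exact continuous_id

omit [Valued k T6.Γ₀] in
theorem mem_locTor_iff925 (γ t : GL (Fin 2) k) :
    t ∈ T6.twCentSub (T6.glAut (RingEquiv.refl k)) γ ↔ t * γ = γ * t := by
  change t⁻¹ * γ * T6.glAut (RingEquiv.refl k) t = γ ↔ _
  rw [glAut_refl925]
  constructor
  · intro h
    calc t * γ = t * (t⁻¹ * γ * t) := by rw [h]
      _ = γ * t := by group
  · intro h
    calc t⁻¹ * γ * t = t⁻¹ * (γ * t) := by group
      _ = t⁻¹ * (t * γ) := by rw [h]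
      _ = γ := by group

/-- For a good `γ` the maximal compact subgroup `{tr integral, det a unit}` of the torus is
`T ∩ GL₂(𝒪)`. -/
theorem locTor_compact_iff925 (γ t : GL (Fin 2) k) (hγ : T6.InU 0 γ)
    (hd : Valued.v (T6.disc γ) = 1) (ht : t ∈ T6.twCentSub (T6.glAut (RingEquiv.refl k)) γ) :
    (Valued.v (t : Matrix (Fin 2) (Fin 2) k).trace ≤ 1 ∧
      Valued.v (t : Matrix (Fin 2) (Fin 2) k).det = 1) ↔ T6.InU 0 t := by
  constructor
  · rintro ⟨h1, h2⟩
    exact cent_compact159 γ t hγ hd ((mem_locTor_iff925 γ t).1 ht) h1 h2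
  · intro h
    refine ⟨?_, T6.H687.v_det_eq_one_of_inU_h687 h⟩
    rw [Matrix.trace_fin_two]
    exact (Valuation.map_add _ _ _).trans
      (max_le (T6.H687.entry_le_one_of_inU_h687 h 0 0)
        (T6.H687.entry_le_one_of_inU_h687 h 1 1))

end Local

variable {K : Type} [Field K] [NumberField K]

theorem mem_intGL_iff925 (v : HeightOneSpectrum (𝓞 K)) (x : GL (Fin 2) (v.adicCompletion K)) :
    x ∈ intGL159 K v ↔ T6.InU 0 x := by
  constructor
  · rintro ⟨h1, h2⟩
    apply T6.H288.H546.inU_zero_of_integral_h546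
    · intro i j
      exact (HeightOneSpectrum.mem_adicCompletionIntegers (𝓞 K) K v).1 (h1 i j)
    · intro i j
      exact (HeightOneSpectrum.mem_adicCompletionIntegers (𝓞 K) K v).1 (h2 i j)
  · intro h
    exact ⟨fun i j => (HeightOneSpectrum.mem_adicCompletionIntegers (𝓞 K) K v).2
        (T6.H687.entry_le_one_of_inU_h687 h i j),
      fun i j => (HeightOneSpectrum.mem_adicCompletionIntegers (𝓞 K) K v).2
        (T6.H687.entry_inv_le_one_of_inU_h687 h i j)⟩

/-! ## 3. The adelic torus and its components -/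

/-- The adelic torus `T_𝔸(γ)`. -/
abbrev TA925 (γ : GL (Fin 2) K) : Subgroup (G K) := tA305 (T5.AdelicAut.id K) γ

/-- The local torus at the finite place `v`. -/
abbrev Tv925 (γ : GL (Fin 2) K) (v : HeightOneSpectrum (𝓞 K)) :
    Subgroup (GL (Fin 2) (v.adicCompletion K)) :=
  T6.twCentSub (T6.glAut (RingEquiv.refl (v.adicCompletion K))) (locG305 v γ)

/-- The local torus at the infinite place `w`. -/
abbrev Tw925 (γ : GL (Fin 2) K) (w : InfinitePlace K) : Subgroup (GL (Fin 2) ℂ) :=
  cent305 (archG305 w γ)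

theorem finGL_ratG925 (v : HeightOneSpectrum (𝓞 K)) (γ : GL (Fin 2) K) :
    finGL305 v (T5.ratG γ) = locG305 v γ := by
  apply Units.ext
  ext i j
  rfl

theorem onG_id925 (t : G K) : (T5.AdelicAut.id K).onG t = t := by
  apply Units.ext
  ext i j
  rfl

theorem continuous_onG_id925 : Continuous ((T5.AdelicAut.id K).onG) := by
  have : ((T5.AdelicAut.id K).onG : G K → G K) = id := by
    funext x
    exact onG_id925 x
  rw [this]
  exact continuous_id

theorem isClosed_TA925 (γ : GL (Fin 2) K) : IsClosed (TA925 γ : Set (G K)) := by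
  have : T2Space (G K) := H11.LC.t2Space_GL2_adeleRing_h11 K
  exact isClosed_twCentSub925 _ continuous_onG_id925 _

theorem isClosed_Tv925 (γ : GL (Fin 2) K) (v : HeightOneSpectrum (𝓞 K)) :
    IsClosed (Tv925 γ v : Set (GL (Fin 2) (v.adicCompletion K))) :=
  isClosed_twCentSub925 _ continuous_glAut_refl925 _

theorem isClosed_Tw925 (γ : GL (Fin 2) K) (w : InfinitePlace K) :
    IsClosed (Tw925 γ w : Set (GL (Fin 2) ℂ)) :=
  isClosed_twCentSub925 _ continuous_id _

theorem finGL_mem925 (γ : GL (Fin 2) K) (v : HeightOneSpectrum (𝓞 K)) (t : G K)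
    (ht : t ∈ TA925 γ) : finGL305 v t ∈ Tv925 γ v := by
  have h := mem_twCentSub_map925 (finGL305 v) (T5.AdelicAut.id K).onG
    (T6.glAut (RingEquiv.refl (v.adicCompletion K))) (T5.ratG γ) t
    (by rw [onG_id925, glAut_refl925]) ht
  rw [finGL_ratG925] at h
  exact h

theorem infGL_mem925 (γ : GL (Fin 2) K) (w : InfinitePlace K) (t : G K)
    (ht : t ∈ TA925 γ) : infGL305 w t ∈ Tw925 γ w :=
  mem_twCentSub_map925 (infGL305 w) (T5.AdelicAut.id K).onG
    (MonoidHom.id _) (T5.ratG γ) t (by rw [onG_id925]; rfl) ht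

/-- An element of `GL₂(𝔸_K)` is determined by its components. -/
theorem G_ext925 {g h : G K} (hI : ∀ w : InfinitePlace K, infGL305 w g = infGL305 w h)
    (hF : ∀ v : HeightOneSpectrum (𝓞 K), finGL305 v g = finGL305 v h) : g = h := by
  apply Units.ext
  refine adMat_ext159 (fun w => ?_) (fun v => ?_)
  · refine Matrix.ext fun i j => ?_
    have h1 := congrArg (fun u : GL (Fin 2) ℂ => (u : Matrix (Fin 2) (Fin 2) ℂ) i j) (hI w)
    exact (InfinitePlace.Completion.extensionEmbedding w).injective h1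
  · exact congrArg (fun u : GL (Fin 2) (v.adicCompletion K) =>
      (u : Matrix (Fin 2) (Fin 2) (v.adicCompletion K))) (hF v)

theorem mem_TA_of925 (γ : GL (Fin 2) K) (g : G K)
    (hF : ∀ v : HeightOneSpectrum (𝓞 K), finGL305 v g ∈ Tv925 γ v)
    (hI : ∀ w : InfinitePlace K, infGL305 w g ∈ Tw925 γ w) : g ∈ TA925 γ := by
  change g⁻¹ * T5.ratG γ * (T5.AdelicAut.id K).onG g = T5.ratG γ
  rw [onG_id925]
  apply G_ext925
  · intro w
    rw [map_mul, map_mul, map_inv]
    exact hI w
  · intro v
    rw [map_mul, map_mul, map_inv, finGL_ratG925]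
    have := hF v
    change (finGL305 v g)⁻¹ * locG305 v γ * T6.glAut (RingEquiv.refl _) (finGL305 v g)
      = locG305 v γ at this
    rw [glAut_refl925] at this
    exact this

/-- The component of `T_𝔸(γ)` at the finite place `v`. -/
def pv925 (γ : GL (Fin 2) K) (v : HeightOneSpectrum (𝓞 K)) : TA925 γ →* Tv925 γ v :=
  ((finGL305 v).comp (TA925 γ).subtype).codRestrict (Tv925 γ v)
    (fun t => finGL_mem925 γ v t.1 t.2)

/-- The component of `T_𝔸(γ)` at the infinite place `w`. -/
def pw925 (γ : GL (Fin 2) K) (w : InfinitePlace K) : TA925 γ →* Tw925 γ w :=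
  ((infGL305 w).comp (TA925 γ).subtype).codRestrict (Tw925 γ w)
    (fun t => infGL_mem925 γ w t.1 t.2)

@[simp] theorem coe_pv925 (γ : GL (Fin 2) K) (v : HeightOneSpectrum (𝓞 K)) (t : TA925 γ) :
    ((pv925 γ v t : Tv925 γ v) : GL (Fin 2) (v.adicCompletion K)) = finGL305 v (t : G K) := rfl

@[simp] theorem coe_pw925 (γ : GL (Fin 2) K) (w : InfinitePlace K) (t : TA925 γ) :
    ((pw925 γ w t : Tw925 γ w) : GL (Fin 2) ℂ) = infGL305 w (t : G K) := rfl

theorem continuous_finGL925 (v : HeightOneSpectrum (𝓞 K)) : Continuous (finGL305 (K := K) v) :=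
  continuous_locProj159 (K := K) (Sum.inr v)

theorem continuous_infGL925 (w : InfinitePlace K) : Continuous (infGL305 (K := K) w) :=
  continuous_locProj159 (K := K) (Sum.inl w)

theorem continuous_pv925 (γ : GL (Fin 2) K) (v : HeightOneSpectrum (𝓞 K)) :
    Continuous (pv925 γ v) :=
  Continuous.subtype_mk ((continuous_finGL925 v).comp continuous_subtype_val) _

theorem continuous_pw925 (γ : GL (Fin 2) K) (w : InfinitePlace K) :
    Continuous (pw925 γ w) :=
  Continuous.subtype_mk ((continuous_infGL925 w).comp continuous_subtype_val) _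

/-! ## 4. The product of the local tori, the projection, the open subgroups -/

/-- `∏_{v ∈ S} T_v × ∏_w T_w`. -/
abbrev HS925 (γ : GL (Fin 2) K) (S : Finset (HeightOneSpectrum (𝓞 K))) : Type :=
  (∀ v : S, Tv925 γ v.1) × (∀ w : InfinitePlace K, Tw925 γ w)

/-- The projection `T_𝔸(γ) → ∏_{v ∈ S} T_v × ∏_w T_w`. -/
def qS925 (γ : GL (Fin 2) K) (S : Finset (HeightOneSpectrum (𝓞 K))) :
    TA925 γ →* HS925 γ S :=
  MonoidHom.prod (MonoidHom.pi fun v : S => pv925 γ v.1) (MonoidHom.pi fun w => pw925 γ w)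

theorem qS_fst925 (γ : GL (Fin 2) K) (S : Finset (HeightOneSpectrum (𝓞 K))) (t : TA925 γ)
    (v : S) : (qS925 γ S t).1 v = pv925 γ v.1 t := rfl

theorem qS_snd925 (γ : GL (Fin 2) K) (S : Finset (HeightOneSpectrum (𝓞 K))) (t : TA925 γ)
    (w : InfinitePlace K) : (qS925 γ S t).2 w = pw925 γ w t := rfl

theorem continuous_qS925 (γ : GL (Fin 2) K) (S : Finset (HeightOneSpectrum (𝓞 K))) :
    Continuous (qS925 γ S) :=
  Continuous.prodMk (continuous_pi fun v => continuous_pv925 γ v.1)
    (continuous_pi fun w => continuous_pw925 γ w)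

/-- The open subgroup `E_S = {t ∈ T_𝔸(γ) : t_v ∈ GL₂(𝒪_v), v ∉ S}`. -/
def ES925 (γ : GL (Fin 2) K) (S : Finset (HeightOneSpectrum (𝓞 K))) : Subgroup (TA925 γ) :=
  (restrSub159 (locProj159 K) (locK159 K) (baseSet159 K S)).subgroupOf (TA925 γ)

theorem mem_ES_iff_out925 (γ : GL (Fin 2) K) (S : Finset (HeightOneSpectrum (𝓞 K)))
    (t : TA925 γ) : t ∈ ES925 γ S ↔ OutT305 S (t : G K) :=
  mem_restrSub_base159 S (t : G K)

theorem mem_ES_iff925 (γ : GL (Fin 2) K) (S : Finset (HeightOneSpectrum (𝓞 K)))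
    (t : TA925 γ) :
    t ∈ ES925 γ S ↔ ∀ v : HeightOneSpectrum (𝓞 K), v ∉ S → T6.InU 0 (finGL305 v (t : G K)) := by
  change (t : G K) ∈ restrSub159 (locProj159 K) (locK159 K) (baseSet159 K S) ↔ _
  rw [mem_restrSub159]
  constructor
  · intro h v hv
    have := h (Sum.inr v) fun h' => hv ((inr_mem_baseSet159 S v).1 h')
    exact (mem_intGL_iff925 v _).1 this
  · intro h i hi
    cases i with
    | inl w => exact absurd (inl_mem_baseSet159 S w) hi
    | inr v =>
      exact (mem_intGL_iff925 v _).2 (h v fun h' => hi ((inr_mem_baseSet159 S v).2 h'))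

theorem isOpen_ES925 (γ : GL (Fin 2) K) (S : Finset (HeightOneSpectrum (𝓞 K))) :
    IsOpen (ES925 γ S : Set (TA925 γ)) :=
  (isOpen_restrSub159 (K := K) (baseSet159 K S)).preimage continuous_subtype_val

/-! ## 5. `q_S` is onto on `E_S` (`K` totally complex) -/

open Classical in
theorem surj_qS925 (hK : TotCplx K) (γ : GL (Fin 2) K)
    (S : Finset (HeightOneSpectrum (𝓞 K))) (h : HS925 γ S) :
    ∃ e ∈ ES925 γ S, qS925 γ S e = h := by
  set a : ∀ w : InfinitePlace K, GL (Fin 2) w.Completion := fun w =>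
    Matrix.GeneralLinearGroup.map
      ((InfinitePlace.Completion.ringEquivComplexOfIsComplex (hK w)).symm : ℂ →+* w.Completion)
      ((h.2 w : Tw925 γ w) : GL (Fin 2) ℂ) with ha
  set b : ∀ v : HeightOneSpectrum (𝓞 K), GL (Fin 2) (v.adicCompletion K) := fun v =>
    if hv : v ∈ S then ((h.1 ⟨v, hv⟩ : Tv925 γ v) : GL (Fin 2) (v.adicCompletion K))
    else 1 with hb
  have hb1 : ∀ v : HeightOneSpectrum (𝓞 K), v ∉ S → b v = 1 := fun v hv => dif_neg hv
  have hb0 : ∀ (v : HeightOneSpectrum (𝓞 K)) (hv : v ∈ S),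
      b v = ((h.1 ⟨v, hv⟩ : Tv925 γ v) : GL (Fin 2) (v.adicCompletion K)) :=
    fun v hv => dif_pos hv
  have hbint : ∀ᶠ v in Filter.cofinite, b v ∈ intGL159 K v := by
    rw [Filter.eventually_cofinite]
    refine S.finite_toSet.subset fun v hv => ?_
    by_contra hvS
    refine hv ?_
    rw [hb1 v hvS]
    exact (intGL159 K v).one_mem
  have hgF : ∀ v : HeightOneSpectrum (𝓞 K), finGL305 v (mkGL159 a b hbint) = b v :=
    fun v => mkGL_fin159 a b hbint v
  have hgI : ∀ w : InfinitePlace K,
      infGL305 w (mkGL159 a b hbint) = ((h.2 w : Tw925 γ w) : GL (Fin 2) ℂ) := by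
    intro w
    have e : infGL305 w (mkGL159 a b hbint)
        = Matrix.GeneralLinearGroup.map (InfinitePlace.Completion.extensionEmbedding w) (a w) :=
      mkGL_inf159 a b hbint w
    rw [e]
    refine Units.ext ?_
    refine Matrix.ext fun k l => ?_
    simp only [ha, Matrix.GeneralLinearGroup.map_apply]
    exact (InfinitePlace.Completion.ringEquivComplexOfIsComplex (hK w)).apply_symm_apply _
  have hg : mkGL159 a b hbint ∈ TA925 γ := by
    refine mem_TA_of925 γ _ (fun v => ?_) (fun w => ?_)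
    · rw [hgF]
      by_cases hv : v ∈ S
      · rw [hb0 v hv]
        exact (h.1 ⟨v, hv⟩).2
      · rw [hb1 v hv]
        exact (Tv925 γ v).one_mem
    · rw [hgI]
      exact (h.2 w).2
  refine ⟨⟨mkGL159 a b hbint, hg⟩, ?_, ?_⟩
  · rw [mem_ES_iff925]
    intro v hv
    change T6.InU 0 (finGL305 v (mkGL159 a b hbint))
    rw [hgF, hb1 v hv]
    exact (mem_intGL_iff925 v 1).1 (intGL159 K v).one_mem
  · refine Prod.ext (funext fun v => Subtype.ext ?_) (funext fun w => Subtype.ext ?_)
    · change finGL305 v.1 (mkGL159 a b hbint) = _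
      rw [hgF, hb0 v.1 v.2]
    · exact hgI w

/-! ## 6. `q_S` is proper on `E_S` -/

open Classical in
theorem proper_qS925 (γ : GL (Fin 2) K) (S : Finset (HeightOneSpectrum (𝓞 K)))
    (C : Set (HS925 γ S)) (hC : IsCompact C) :
    ∃ C' : Set (TA925 γ), IsCompact C' ∧
      (qS925 γ S) ⁻¹' C ∩ (ES925 γ S : Set (TA925 γ)) ⊆ C' := by
  set C'' : ∀ i : Pl159 K, Set (LocGL159 K i) := fun i =>
    match i with
    | Sum.inl w => (fun x : HS925 γ S => ((x.2 w : Tw925 γ w) : GL (Fin 2) ℂ)) '' C
    | Sum.inr v =>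
      if hv : v ∈ S then
        (fun x : HS925 γ S =>
          ((x.1 ⟨v, hv⟩ : Tv925 γ v) : GL (Fin 2) (v.adicCompletion K))) '' C
      else ∅ with hC''def
  have hCl : ∀ w : InfinitePlace K, C'' (Sum.inl w)
      = (fun x : HS925 γ S => ((x.2 w : Tw925 γ w) : GL (Fin 2) ℂ)) '' C := fun _ => rfl
  have hCr : ∀ (v : HeightOneSpectrum (𝓞 K)) (hv : v ∈ S), C'' (Sum.inr v)
      = (fun x : HS925 γ S =>
          ((x.1 ⟨v, hv⟩ : Tv925 γ v) : GL (Fin 2) (v.adicCompletion K))) '' C :=
    fun v hv => dif_pos hv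
  have hcomp : ∀ i ∈ baseSet159 K S, IsCompact (C'' i) := by
    intro i hi
    cases i with
    | inl w =>
      rw [hCl w]
      have hc : Continuous (fun x : HS925 γ S => ((x.2 w : Tw925 γ w) : GL (Fin 2) ℂ)) :=
        continuous_subtype_val.comp
          ((continuous_apply (A := fun w : InfinitePlace K => Tw925 γ w) w).comp continuous_snd)
      exact hC.image hc
    | inr v =>
      have hv := (inr_mem_baseSet159 S v).1 hi
      rw [hCr v hv]
      have hc : Continuous (fun x : HS925 γ S =>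
          ((x.1 ⟨v, hv⟩ : Tv925 γ v) : GL (Fin 2) (v.adicCompletion K))) :=
        continuous_subtype_val.comp
          ((continuous_apply (A := fun v : S => Tv925 γ v.1) (⟨v, hv⟩ : S)).comp continuous_fst)
      exact hC.image hc
  obtain ⟨C₀, hC₀, hsub⟩ := proper_restr159 (K := K) (baseSet159 K S)
    (fun w => inl_mem_baseSet159 S w) C'' hcomp
  refine ⟨Subtype.val ⁻¹' C₀,
    (isClosed_TA925 γ).isClosedEmbedding_subtypeVal.isCompact_preimage hC₀, ?_⟩
  rintro t ⟨ht1, ht2⟩
  apply hsub
  refine ⟨ht2, fun i hi => ?_⟩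
  cases i with
  | inl w =>
    rw [hCl w]
    exact ⟨qS925 γ S t, ht1, rfl⟩
  | inr v =>
    have hv := (inr_mem_baseSet159 S v).1 hi
    rw [hCr v hv]
    exact ⟨qS925 γ S t, ht1, rfl⟩

end Fermat.Agent.LT.T7.H925.TorSplit

end

end
-- ===== PACK-END LT/T7/H925/TorSplitCore.lean

-- ===== PACK-BEGIN LT/T7/H558/FactDownSpec.lean
section



/-!
# Row LT, tower T7, node C2.7.7 `FactDownC305` (helper558, registry 2571): THE CUT -- Spec

OFF-MAIN.  Definitions and frozen Props only (the proved tops are in `FactDownTop.lean`).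
No hole, nothing assumed.  ADDITIVE (new names only, suffix `558`).  Vocabulary:
`T7/H305/MatchCut.lean` (helper305, sha256 0f302b81) and its imports, byte-identical copies.

    factDownC_of_parts558 : CutOnDownC558 K → FactIntDownC558 K → FactDownC305 K
    cutOnDownC_of558 : SuppDownC305 K → OutOpenC558 K → CompContC558 K → TorCommIdC558 K →
        SuppOutC558 K → HaarSigmaC558 K → CutOnOutC558 K → CutOnDownC558 K
    factIntDownC_of558 : HaarSplitC305 K → CompContC558 K → BiInvContC558 K → RayFinC558 K →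
        PtFactC558 K → ArchIntblC558 → HaarSigmaC558 K → FactIntDownC558 K

## The cut

Cut-off part (`IsCutOn305` of the product cut-off `β = prodCut305 S cT L`):
* `OutOpenC558`, `CompContC558` (ASSETS): `Out_S` is open, the components are continuous; so `β`
  is measurable.
* `SuppOutC558`: on the support of the integrand `x⁻¹ γ x ∈ Out_S`; `SuppDownC305` (helper305):
  `x = t x'`, `t ∈ T_𝔸(γ)`, `x' ∈ Out_S`.
* `TorCommIdC558`: `T_𝔸(γ)` is commutative, so the Haar measure `μT` is right invariant: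
  `∫ β(t₁ t x') dμT(t₁) = ∫ β(t₁ x') dμT(t₁)` (proved in the top).
* `CutOnOutC558`: `∫ β(t x') dμT(t) = 1` for `x' ∈ Out_S` (torus constant + Fubini + local
  cut-offs).

Integral part:
* `RayFinC558`: the sum over the ray is a finite sum over `j ∈ J`, `J` independent of `y`.
* `PtFactC558`: for `y ∈ Out_S` the term `j` of the integrand is the product of the local terms.
* `HaarSplitC305` (helper305): the constant `c_G`; Fubini for products of functions needs NO
  integrability (`MeasureTheory.integral_prod_mul`, `integral_fintype_prod_eq_prod`), only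
  σ-finite measures (`HaarSigmaC558`).
* `ArchIntblC558`: the local integrands at the infinite places are integrable (needed to
  exchange the finite sum over `j` with the integral over `∏_w GL₂(ℂ)`).

FALSITY CHECKS (helper558).  `RayFinC558`: `det (z⁻¹ γ_w r_w^j z) = det γ_w · t^{2j}`, `t > 1`,
`det (supp F_w)` is a compact subset of `ℂ \ {0}`; stated for EVERY `w` (`J` = union).
`PtFactC558`: `r` is trivial at the finite places and central at the infinite places; `γ` is
integral outside `S` with integral inverse (`InU 0`); `(id).onG y = y`.  `CutOnOutC558`: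
`t x' ∈ Out_S ⟺ t ∈ Out_S` for `x' ∈ Out_S`; the constant `cT` cancels.  `ArchIntblC558`:
`∫ |F(y⁻¹ γ' y)| β(y) dy ≤ ‖F‖ m⁻¹ ∫ χ` (closed orbit: `{y : y⁻¹ γ' y ∈ supp F} ⊆ T C`, `C`
compact; Tonelli; `T` commutative).  `HaarSigmaC558`: `GL₂(K_v)`, `GL₂(ℂ)` are σ-compact, closed
subgroups of them too, Haar measures are finite on compact sets.
-/

set_option autoImplicit false

open AutomorphicForm IsDedekindDomain NumberField MeasureTheory
open scoped ComplexConjugate

noncomputable section

namespace Fermat.Agent.LT.T7.H558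

open Fermat.Agent.LT.H556 Fermat.Agent.LT.H556.A0 Fermat.Agent.LT.T7 Fermat.Agent.LT.T7.H305

attribute [local instance] Fermat.Agent.LT.T5.instMeasurableSpaceG

/-- The local integrand `y ↦ f(y⁻¹ γ y) β(y)` (any group); `locInt305 μ β f γ` is its integral. -/
def locFn558 {H : Type} [Group H] (β : H → ℝ) (f : H → ℂ) (γ : H) : H → ℂ :=
  fun y => f (y⁻¹ * γ * y) * ((β y : ℝ) : ℂ)

section OneField

variable (K : Type) [Field K] [NumberField K]

/-- **ASSET LEAF FD.1 = OUT-OPEN.**  `Out_S = {y : y_v, y_v⁻¹ integral for v ∉ S}` is open in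
`GL₂(𝔸_K)`.
Proof.  The adeles which are integral outside `S` form an open set
(`RestrictedProduct.isOpen_forall_imp_mem`), the entries of `y` and of `y⁻¹` are continuous
functions of `y` (topology of units). -/
def OutOpenC558 : Prop :=
  ∀ S : Finset (HeightOneSpectrum (𝓞 K)), IsOpen {y : G K | OutT305 S y}

/-- **ASSET LEAF FD.2 = COMP-CONT.**  The components `GL₂(𝔸_K) → GL₂(K_v)`, `GL₂(𝔸_K) → GL₂(ℂ)`
are continuous.
Proof.  `T5.finHom v`, `T5.infHom w` are continuous ring homomorphisms
(`RestrictedProduct.continuous_eval`, `isometry_extensionEmbedding`); `Units.map` of a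
continuous homomorphism of topological monoids is continuous. -/
def CompContC558 : Prop :=
  (∀ v : HeightOneSpectrum (𝓞 K), Continuous (finGL305 (K := K) v)) ∧
    ∀ w : InfinitePlace K, Continuous (infGL305 (K := K) w)

/-- **LEAF FD.3 = TOR-COMM-ID.**  The centraliser of an elliptic `γ ∈ GL₂(K)` in `GL₂(𝔸_K)` is
commutative.
Proof.  `(id).onG x = x`; `γ` is not a scalar matrix; Cramer over the commutative ring `𝔸_K`
(helper233 `comm_of_comm_disc233`; the discriminant of `γ` is a unit of `K`). -/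
def TorCommIdC558 : Prop :=
  ∀ γ : GL (Fin 2) K, T6.IsEll γ →
    ∀ x ∈ tA305 (T5.AdelicAut.id K) γ, ∀ y ∈ tA305 (T5.AdelicAut.id K) γ, x * y = y * x

/-- **LEAF FD.4 = SUPP-OUT.**  On the support of the integrand (pure tensor, untwisted):
`x⁻¹ γ x ∈ Out_S`.
Proof.  A non-zero `tsum` has a non-zero term: `pure305 S f₀ F (x⁻¹ γ x r^j) ≠ 0`, so
`x⁻¹ γ x r^j ∈ Out_S`; `r^j` is trivial at the finite places. -/
def SuppOutC558 : Prop :=
  ∀ r : G K, T5.IsRayGen r →
    ∀ (S : Finset (HeightOneSpectrum (𝓞 K)))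
      (f₀ : ∀ v : HeightOneSpectrum (𝓞 K), GL (Fin 2) (v.adicCompletion K) → ℂ)
      (F : InfinitePlace K → GL (Fin 2) ℂ → ℂ) (γ : GL (Fin 2) K) (x : G K),
      T5.twTerm r (T5.AdelicAut.id K) (pure305 S f₀ F) γ x ≠ 0 →
        OutT305 S (x⁻¹ * T5.ratG γ * x)

/-- **LEAF FD.5 = CUT-ON-OUT.**  For `x' ∈ Out_S`: `∫_{T_𝔸(γ)} β(t x') dμT(t) = 1` for the
product cut-off `β = prodCut305 S cT L`.
Proof.  `t x' ∈ Out_S ⟺ t ∈ Out_S`; the integral is the integral over `μT` restricted to
`Out_S` of a function of `compS305 S t`; `IsTorConst305` (the constant `cT` cancels);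
`integral_prod_mul`, `integral_fintype_prod_eq_prod` (no integrability needed; the measures are
σ-finite: `HaarSigmaC558`, to be used as a hypothesis); `IsLocCut305`, `IsCut305`. -/
def CutOnOutC558 : Prop :=
  (∀ (v : HeightOneSpectrum (𝓞 K)) (γ₀ : GL (Fin 2) (v.adicCompletion K))
      (μT : @Measure (T6.twCentSub (T6.glAut (RingEquiv.refl (v.adicCompletion K))) γ₀)
        (borel _)),
      @Measure.IsHaarMeasure _ _ _ (borel _) μT →
      @SigmaFinite _ (borel _) (@Measure.map _ _ (borel _) (borel _) Subtype.val μT)) →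
  (∀ (γ₀ : GL (Fin 2) ℂ) (μT : @Measure (cent305 γ₀) (borel _)),
      @Measure.IsHaarMeasure _ _ _ (borel _) μT →
      @SigmaFinite _ (borel _) (@Measure.map _ _ (borel _) (borel _) Subtype.val μT)) →
  CompContC558 K →
  ∀ (m : HeightOneSpectrum (𝓞 K) → ℕ) (S : Finset (HeightOneSpectrum (𝓞 K)))
    (γ : GL (Fin 2) K), T6.IsEll γ → GoodOut305 S γ →
  ∀ μT : @Measure (tA305 (T5.AdelicAut.id K) γ) (borel _),
    @Measure.IsHaarMeasure _ _ _ (borel _) μT →
  ∀ (L : LocData305 K γ) (cT : ℝ), IsLocData305 m L → 0 < cT → IsTorConst305 γ μT L cT →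
  ∀ x' : G K, OutT305 S x' →
    @integral _ _ _ _ (borel _) μT
      (fun t : tA305 (T5.AdelicAut.id K) γ => prodCut305 S cT L ((t : G K) * x')) = 1

/-- **LEAF FD.6 = RAY-FIN.**  The sum over the ray is finite, uniformly: there is a finite set
`J` of exponents such that for `j ∉ J` every `F w` vanishes on the conjugacy class of the
`w`-component of `γ r^j`.
Proof.  `det (z⁻¹ γ_w r_w^j z) = det γ_w · t^{2j}` with `t > 1` (`t^{2[K:ℚ]} = 2`); `det` maps
the compact support of `F w` onto a compact subset of `ℂ \ {0}`: `|det|` lies in `[a, b]`,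
`0 < a`; finitely many `j` for each `w`, finitely many `w`. -/
def RayFinC558 : Prop :=
  ∀ r : G K, T5.IsRayGen r →
    ∀ F : InfinitePlace K → GL (Fin 2) ℂ → ℂ,
      (∀ w : InfinitePlace K, Continuous (F w) ∧ HasCompactSupport (F w)) →
    ∀ γ : GL (Fin 2) K, ∃ J : Finset ℤ, ∀ j : ℤ, j ∉ J →
      ∀ (w : InfinitePlace K) (z : GL (Fin 2) ℂ),
        F w (z⁻¹ * infGL305 w (T5.ratG γ * r ^ j) * z) = 0

/-- **LEAF FD.7 = PT-FACT.**  For `y ∈ Out_S` and `γ` integral outside `S` the term `j` of the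
integrand is the product of the local terms.
Proof.  `(id).onG y = y`; `y⁻¹ γ y r^j ∈ Out_S` (`Out_S` is a group, `γ ∈ Out_S` by `InU 0`,
`r^j` trivial at the finite places); `finGL305 v`, `infGL305 w` are homomorphisms;
`finGL305 v (ratG γ) = locG305 v γ`, `finGL305 v (r^j) = 1`; `infGL305 w (r^j)` is a scalar
matrix. -/
def PtFactC558 : Prop :=
  ∀ r : G K, T5.IsRayGen r →
    ∀ (S : Finset (HeightOneSpectrum (𝓞 K)))
      (f₀ : ∀ v : HeightOneSpectrum (𝓞 K), GL (Fin 2) (v.adicCompletion K) → ℂ)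
      (F : InfinitePlace K → GL (Fin 2) ℂ → ℂ) (γ : GL (Fin 2) K), IntOut305 S γ →
    ∀ (y : G K) (j : ℤ), OutT305 S y →
      pure305 S f₀ F (y⁻¹ * T5.ratG γ * (T5.AdelicAut.id K).onG y * r ^ j)
        = (∏ v ∈ S, f₀ v ((finGL305 v y)⁻¹ * locG305 v γ * finGL305 v y)) *
          ∏ w : InfinitePlace K,
            F w ((infGL305 w y)⁻¹ * infGL305 w (T5.ratG γ * r ^ j) * infGL305 w y)

/-- **LEAF FD.9 = HAAR-SIGMA.**  The Haar measures of `GL₂(K_v)` and `GL₂(ℂ)` (Borel) are
σ-finite; the images in the group of the Haar measures of the centralisers are σ-finite.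
Proof.  `K_v` is locally compact and σ-compact (`⋃ ϖ⁻ⁿ 𝒪_v`, `𝒪_v` compact), so is `GL₂(K_v)`
(closed in `M₂ × M₂`); a Haar measure is finite on compact sets; a closed subgroup is σ-compact
and `(map val μT)(C) = μT(C ∩ T)`. -/
def HaarSigmaC558 : Prop :=
  (∀ (v : HeightOneSpectrum (𝓞 K))
      (μ : @Measure (GL (Fin 2) (v.adicCompletion K)) (borel _)),
      @Measure.IsHaarMeasure _ _ _ (borel _) μ → @SigmaFinite _ (borel _) μ) ∧
  (∀ μ : @Measure (GL (Fin 2) ℂ) (borel _),
      @Measure.IsHaarMeasure _ _ _ (borel _) μ → @SigmaFinite _ (borel _) μ) ∧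
  (∀ (v : HeightOneSpectrum (𝓞 K)) (γ₀ : GL (Fin 2) (v.adicCompletion K))
      (μT : @Measure (T6.twCentSub (T6.glAut (RingEquiv.refl (v.adicCompletion K))) γ₀)
        (borel _)),
      @Measure.IsHaarMeasure _ _ _ (borel _) μT →
      @SigmaFinite _ (borel _) (@Measure.map _ _ (borel _) (borel _) Subtype.val μT)) ∧
  ∀ (γ₀ : GL (Fin 2) ℂ) (μT : @Measure (cent305 γ₀) (borel _)),
      @Measure.IsHaarMeasure _ _ _ (borel _) μT →
      @SigmaFinite _ (borel _) (@Measure.map _ _ (borel _) (borel _) Subtype.val μT)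

/-- **ASSET LEAF FD.10 = BI-INV-CONT.**  A function on `GL₂(K_v)` which is bi-invariant under
`U(n)` is continuous.
Proof.  `U(n)` is an open neighbourhood of `1` (the entries of `g` and of `g⁻¹` are continuous,
closed balls of a valued field are open), `f (g u) = f g` for `u ∈ U(n)` (`1 ∈ U(n)`): `f` is
locally constant. -/
def BiInvContC558 : Prop :=
  ∀ (v : HeightOneSpectrum (𝓞 K)) (n : ℕ) (f : GL (Fin 2) (v.adicCompletion K) → ℂ),
    T6.IsBiInv (T6.InU n) f → Continuous f

/-- **PART A = CUT-ON-DOWN (the cut-off part of `FactDownC305`).** -/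
def CutOnDownC558 : Prop :=
  ∀ R : Frame5 K, IsFrame5 R →
    ∀ (m : HeightOneSpectrum (𝓞 K) → ℕ) (S : Finset (HeightOneSpectrum (𝓞 K)))
      (f₀ : ∀ v : HeightOneSpectrum (𝓞 K), GL (Fin 2) (v.adicCompletion K) → ℂ)
      (F : InfinitePlace K → GL (Fin 2) ℂ → ℂ),
    ∀ γ : GL (Fin 2) K, T6.IsEll γ → GoodOut305 S γ →
    ∀ μT : @Measure (tA305 (T5.AdelicAut.id K) γ) (borel _),
      @Measure.IsHaarMeasure _ _ _ (borel _) μT →
    ∀ (L : LocData305 K γ) (cT : ℝ), IsLocData305 m L → 0 < cT → IsTorConst305 γ μT L cT →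
      IsCutOn305 (T5.AdelicAut.id K) γ μT (prodCut305 S cT L)
        {x | T5.twTerm R.r (T5.AdelicAut.id K) (pure305 S f₀ F) γ x ≠ 0}

/-- **PART B = FACT-INT-DOWN (the integral part of `FactDownC305`).** -/
def FactIntDownC558 : Prop :=
  TotCplx K → ∀ R : Frame5 K, IsFrame5 R →
    ∀ μc : @Measure (GL (Fin 2) ℂ) (borel _), @Measure.IsHaarMeasure _ _ _ (borel _) μc →
    ∀ (T₀ : Finset (HeightOneSpectrum (𝓞 K))) (m : HeightOneSpectrum (𝓞 K) → ℕ),
      (∀ v : HeightOneSpectrum (𝓞 K), v ∉ T₀ → m v = 0) →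
    ∃ cG : ℝ, 0 < cG ∧
      ∀ S : Finset (HeightOneSpectrum (𝓞 K)), T₀ ⊆ S →
      ∀ (f₀ : ∀ v : HeightOneSpectrum (𝓞 K), GL (Fin 2) (v.adicCompletion K) → ℂ)
        (F : InfinitePlace K → GL (Fin 2) ℂ → ℂ),
        (∀ v ∈ S, T6.IsBiInv (T6.InU (m v)) (f₀ v) ∧ T6.HasFinSupp (T6.InU (m v)) (f₀ v)) →
        (∀ w : InfinitePlace K, Continuous (F w) ∧ HasCompactSupport (F w)) →
      ∀ γ : GL (Fin 2) K, T6.IsEll γ → GoodOut305 S γ →
      ∀ μT : @Measure (tA305 (T5.AdelicAut.id K) γ) (borel _),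
        @Measure.IsHaarMeasure _ _ _ (borel _) μT →
      ∀ (L : LocData305 K γ) (cT : ℝ), IsLocData305 m L → 0 < cT → IsTorConst305 γ μT L cT →
        cutInt305 R.r (T5.AdelicAut.id K) (pure305 S f₀ F) γ R.μ (prodCut305 S cT L)
          = ((cG / cT : ℝ) : ℂ) * factVal305 R.r S L f₀ μc F

end OneField

/-- **LEAF FD.8 = ARCH-INTBL (`GL₂(ℂ)` only).**  For `F` continuous with compact support, `γ₀`
regular, `z` central and a continuous cut-off function `β` for the centraliser of `γ₀`: the
local integrand `y ↦ F(y⁻¹ γ₀ z y) β(y)` is integrable.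
Proof.  `γ' = γ₀ z` is regular with the centraliser `T` of `γ₀`; its orbit is closed and
`{y : y⁻¹ γ' y ∈ supp F} ⊆ T C` with `C` compact (diagonalise `γ'`, Iwasawa:
`n⁻¹ diag(a, b) n` has the entry `(a - b) x`); `χ ∈ C_c`, `χ ≥ 0`, `χ ≥ 1` on `C`:
`m = inf_{c ∈ C} ∫_T χ(t c) dt > 0` and
`∫ 1_{TC} β dμ ≤ m⁻¹ ∫_G ∫_T χ(t y) β(y) dt dy = m⁻¹ ∫_G χ(y) ∫_T β(t⁻¹ y) dt dy = m⁻¹ ∫ χ`
(Tonelli, left invariance of `μ`, `T` commutative so `μT` is inversion invariant). -/
def ArchIntblC558 : Prop :=
  ∀ μc : @Measure (GL (Fin 2) ℂ) (borel _), @Measure.IsHaarMeasure _ _ _ (borel _) μc →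
    ∀ F : GL (Fin 2) ℂ → ℂ, Continuous F → HasCompactSupport F →
    ∀ γ₀ : GL (Fin 2) ℂ, T6.IsReg γ₀ →
    ∀ z : GL (Fin 2) ℂ, (∀ g : GL (Fin 2) ℂ, z * g = g * z) →
    ∀ μT : @Measure (cent305 γ₀) (borel _), @Measure.IsHaarMeasure _ _ _ (borel _) μT →
    ∀ β : GL (Fin 2) ℂ → ℝ, IsCut305 γ₀ μT β →
      @Integrable _ _ _ _ (borel _) (locFn558 β F (γ₀ * z)) μc

end Fermat.Agent.LT.T7.H558

end

end
-- ===== PACK-END LT/T7/H558/FactDownSpec.lean

-- ===== PACK-BEGIN LT/T7/H857/NonNormLoc.lean
section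




/-!
# Row LT, tower T7, node C2.7 `CutIntC305`, leaf C2.7.12 `NonNormLocC305` (helper857)

OFF-MAIN (registry row 2576).  No hole, nothing assumed.

    nonNormLocC857 (K K') : H305.NonNormLocC305 K K'

VERBATIM vs `LT/T7/H305/MatchCut.lean` (helper305@56ddcdc02, sha256 0f302b81).

Proof.  The node `H584.NonNormLocC584` (helper584, closed on tower T6: `nonNormLocC584`, with the
leaves N1 helper584, N2 helper122, N3 helper768) gives a finite place `v` with exactly one place
`w` over it at which `γ` is not a local norm for ALL local extension data `(e, i, s_w)`;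
`T6.InstExtC` (a component of `T6.T6Out`) gives ONE such datum.  The generator of the Galois
group as a `K`-algebra automorphism is `H584.algAut584`.
-/

set_option autoImplicit false
set_option linter.style.haveILetI false
set_option linter.unusedSectionVars false

open IsDedekindDomain NumberField

noncomputable section

namespace Fermat.Agent.LT.T7.H857

open Fermat.Agent.LT.H556.A0 Fermat.Agent.LT.T7

section

variable {K K' : Type} [Field K] [NumberField K] [Field K'] [NumberField K'] [Algebra K K']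

/-- `PlaceOver` in the form of the hypotheses of `T6.InstExtC`. -/
theorem placeOver_mem_iff857 {v : HeightOneSpectrum (𝓞 K)} {w : HeightOneSpectrum (𝓞 K')}
    (h : PlaceOver K K' v w) (x : 𝓞 K) :
    x ∈ v.asIdeal ↔ algebraMap (𝓞 K) (𝓞 K') x ∈ w.asIdeal :=
  h x (algebraMap (𝓞 K) (𝓞 K') x) rfl

/-- A place of `K'` whose contraction contains `v` lies over `v` (`v` is maximal). -/
theorem placeOver_of_le857 {v : HeightOneSpectrum (𝓞 K)} {w : HeightOneSpectrum (𝓞 K')}
    (h : ∀ x : 𝓞 K, x ∈ v.asIdeal → algebraMap (𝓞 K) (𝓞 K') x ∈ w.asIdeal) :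
    PlaceOver K K' v w := by
  rw [H557.placeOver_iff_557]
  haveI := w.isPrime
  have hle : v.asIdeal ≤ Ideal.comap (algebraMap (𝓞 K) (𝓞 K')) w.asIdeal := fun x hx =>
    Ideal.mem_comap.2 (h x hx)
  have hprime : (Ideal.comap (algebraMap (𝓞 K) (𝓞 K')) w.asIdeal).IsPrime :=
    Ideal.comap_isPrime _ _
  exact v.isMaximal.eq_of_le hprime.ne_top hle

end

variable (K K' : Type) [Field K] [NumberField K] [Field K'] [NumberField K'] [Algebra K K']

/-- **LEAF C2.7.12 = NON-NORM-LOC** (VERBATIM `H305.NonNormLocC305`). -/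
theorem nonNormLocC857 : H305.NonNormLocC305 K K' := by
  intro hT6 D hD hc _ hTC γ hγ hnn
  obtain ⟨_, _, _, hNI, _, _, hIE, hIS, _⟩ := hT6
  obtain ⟨v, w, hvw, huniq, hall⟩ := H584.nonNormLocC584 K K' hNI hIS D hD hc hTC γ hγ hnn
  haveI := hc.galois
  have hprime : (Module.finrank K K').Prime := by rw [hc.degree]; exact hc.prime
  obtain ⟨e, i, sw, hi, hsw, hext, _⟩ :=
    hIE K K' (H584.algAut584 D hD) (H584.algAut_gen584 D hD hc) hprime v w
      (placeOver_mem_iff857 hvw) (fun w' hw' => huniq w' (placeOver_of_le857 hw'))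
  have hext' : T6.IsLocalExt (v.adicCompletion K) (w.adicCompletion K') D.l e i sw := by
    have hdeg := hc.degree
    rw [hdeg] at hext
    exact hext
  exact ⟨v, w, e, i, sw, hvw, huniq, hi, fun y => hsw y, hext',
    hall e i sw hi (fun y => hsw y) hext'⟩

end Fermat.Agent.LT.T7.H857

end

end
-- ===== PACK-END LT/T7/H857/NonNormLoc.lean

-- ===== PACK-BEGIN LT/T7/H816/IotaTop.lean
section



/-!
# Row LT, tower T7, leaf C2.4 `IotaC305` [XL] -- PROVED TOP of the cut (helper816)

OFF-MAIN.  `iotaC_of816 : leaves → IotaC305 K K'` (VERBATIM against helper305 `MatchSpec.lean`).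
-/

set_option autoImplicit false

open AutomorphicForm IsDedekindDomain NumberField MeasureTheory
open scoped ComplexConjugate

noncomputable section

namespace Fermat.Agent.LT.T7.H816

open Fermat.Agent.LT.H556 Fermat.Agent.LT.H556.A0 Fermat.Agent.LT.T7
open Fermat.Agent.LT.T7.H305

variable {K K' : Type} [Field K] [NumberField K] [Field K'] [NumberField K'] [Algebra K K']

/-- The product of the two base changes is a pre-base change. -/
theorem preBase_of816 (hF : PreFinC816 K K') (hI : PreInfC816 K K') :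
    ∃ ι : Adl K →+* Adl K', IsPreBase816 ι := by
  obtain ⟨ιf, hfc, hfr, hff⟩ := hF
  obtain ⟨ιi, hic, hir, hii⟩ := hI
  refine ⟨RingHom.prodMap ιi ιf, ?_, ?_, ?_, ?_⟩
  · exact hic.prodMap hfc
  · intro x
    exact Prod.ext (hir x) (hfr x)
  · intro v w hvw
    obtain ⟨e, i, he, hi1, hi2, hi3⟩ := hff v w hvw
    exact ⟨e, i, he, hi1, hi2, fun x => hi3 x.2⟩
  · intro w'
    rcases hii w' with h | h
    · exact Or.inl fun x => h x.1
    · exact Or.inr fun x => h x.1

/-- **THE TOP OF THE CUT.** -/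
theorem iotaC_of816 (hF : PreFinC816 K K') (hI : PreInfC816 K K') (hX : FixedC816 K K')
    (hOF : OntoFinC816 K K') (hOI : OntoInfC816 K K') (hOG : OntoGlueC816 K K')
    (hNI : NormInfC816 K K') (hNF : NormFinC816 K K') (hC : ClosedC816 K K')
    (hS : SigmaLocC305 K')
    (hL : Fermat.Agent.LT.T1.LocCompC K) (hL' : Fermat.Agent.LT.T1.LocCompC K') :
    IotaC305 K K' := by
  intro D hD hcyc hT
  obtain ⟨ι, hι⟩ := preBase_of816 hF hI
  have hfix : ∀ x : Adl K, D.s.σA (ι x) = ι x := hX D hD hcyc hT hS ι hι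
  have honto : ∀ y : Adl K', D.s.σA y = y → ∃ x : Adl K, ι x = y := fun y hy =>
    hOG ι hι y (hOF D hD hcyc hT hS ι hι y hy) (hOI D hD hcyc hT hS ι hι y hy)
  refine ⟨ι, ?_⟩
  exact
    { cont := hι.cont
      closed := hC D hD ι hι hfix honto hL hL'
      rat := hι.rat
      fixed := hfix
      onto := honto
      norm := fun x => by
        show (∏ w' : InfinitePlace K', ‖(ι (x : Adl K)).1 w'‖ ^ w'.mult)
            * ∏ᶠ w : HeightOneSpectrum (𝓞 K'), ‖(ι (x : Adl K)).2 w‖
          = ((∏ v : InfinitePlace K, ‖(x : Adl K).1 v‖ ^ v.mult)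
            * ∏ᶠ v : HeightOneSpectrum (𝓞 K), ‖(x : Adl K).2 v‖) ^ D.l
        rw [hNI D.l hcyc hT ι hι (x : Adl K), hNF D.l hcyc ι hι x, mul_pow]
      fin := hι.fin
      inf := hι.inf }

end Fermat.Agent.LT.T7.H816

end

end
-- ===== PACK-END LT/T7/H816/IotaTop.lean

-- ===== PACK-BEGIN LT/T7/H327/PreFin.lean
section




/-!
# Row LT, tower T7, node T7.L2.1 `SupplyC`, leaf C2.4-I.1 `PreFinC816` (helper327, row 2469)

OFF-MAIN, never land.  Complete proof, nothing assumed.

    preFinC327 (K K') : H816.PreFinC816 K K'        (VERBATIM, any extension of number fields)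

The base change of the finite adeles is `A2.H743.finBC743` (helper743, tower A2, Mathlib only:
`RestrictedProduct.mapAlongRingHom` along `w ↦ w ∩ 𝓞_K` with the extensions by continuity
`K_v → K'_w` of `K → K'`); `e` is the ramification index.  The only new step is the dictionary
`T7.PlaceOver K K' v w → finUnder743 K K' w = v`.

The module states no definition and unfolds none by `simp` / `rw` / `unfold`.
-/

set_option autoImplicit false
set_option linter.unusedSectionVars false

open IsDedekindDomain NumberField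

noncomputable section

namespace Fermat.Agent.LT.T7.H327

open Fermat.Agent.LT.T7 Fermat.Agent.LT.A2.H743

variable (K K' : Type) [Field K] [NumberField K] [Field K'] [NumberField K'] [Algebra K K']

/-- The integer `algebraMap (𝓞 K) (𝓞 K') x` of `K'` is the image of `x` under `K → K'`. -/
theorem coe_algebraMap327 (x : 𝓞 K) :
    ((algebraMap (𝓞 K) (𝓞 K') x : 𝓞 K') : K') = algebraMap K K' (x : K) :=
  (IsScalarTower.algebraMap_apply (𝓞 K) (𝓞 K') K' x).symm.trans
    (IsScalarTower.algebraMap_apply (𝓞 K) K K' x)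

/-- A place `w` of `K'` over `v` (in the sense of `T7.PlaceOver`) has `v` under it. -/
theorem finUnder_eq_of_placeOver327 {v : HeightOneSpectrum (𝓞 K)}
    {w : HeightOneSpectrum (𝓞 K')} (h : PlaceOver K K' v w) : finUnder743 K K' w = v := by
  refine HeightOneSpectrum.ext (Ideal.ext fun x => ?_)
  have h1 : x ∈ (finUnder743 K K' w).asIdeal ↔ algebraMap (𝓞 K) (𝓞 K') x ∈ w.asIdeal :=
    Iff.rfl
  exact h1.trans (h x (algebraMap (𝓞 K) (𝓞 K') x) (coe_algebraMap327 K K' x)).symm

/-- **LEAF I.1 = PRE-FIN** (registry row 2469): the base change of the finite adeles. -/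
theorem preFinC327 : H816.PreFinC816 K K' := by
  refine ⟨finBC743 K K', continuous_finBC743 K K', ?_, ?_⟩
  · intro x
    refine FiniteAdeleRing.ext (R := 𝓞 K') (K := K') fun w => ?_
    exact finLoc_coe743 K K' w x
  · intro v w hvw
    obtain rfl := finUnder_eq_of_placeOver327 K K' hvw
    exact ⟨ramIdx743 K K' w, finLoc743 K K' w, Nat.pos_of_ne_zero (ramIdx_ne_zero743 K K' w),
      fun x => finLoc_coe743 K K' w x, fun x => valued_finLoc743 K K' w x, fun _ => rfl⟩

end Fermat.Agent.LT.T7.H327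

end

end
-- ===== PACK-END LT/T7/H327/PreFin.lean

-- ===== PACK-BEGIN LT/T7/H62I/PreInf.lean
section



/-!
# Row LT, tower T7, leaf T7.L2.1.C2.4-I.2 `PreInfC816` (registry row 2470) -- CLOSED (helper62)

OFF-MAIN.  `preInfC62 K K' : H816.PreInfC816 K K'` for ANY extension of number fields, against
`LT/T7/H816/IotaSpec.lean` (helper816@e81f893cb, sha256 c16fad08c5fc320c), byte-identical copy.

Construction.  For an infinite place `w'` of `K'` and `v = w'.comap (K → K')` the ring
homomorphism `K → K' → K'_{w'}` is an isometry for `v`, so it extends to `j_{w'} : K_v → K'_{w'}`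
(`Isometry.extensionHom`); `ι_∞ x = (j_{w'} (x_v))_{w'}`.  The embeddings `K'_{w'} → ℂ` and
`K_v → ℂ` are continuous and, on `K`, equal to `w'.embedding ∘ (K → K')` and `v.embedding`, which
agree up to complex conjugation (`InfinitePlace.mk_eq_iff`).
-/

set_option autoImplicit false
set_option linter.unusedSectionVars false

open NumberField NumberField.InfinitePlace
open scoped ComplexConjugate

noncomputable section

namespace Fermat.Agent.LT.T7.H62I

variable {K K' : Type} [Field K] [NumberField K] [Field K'] [NumberField K'] [Algebra K K']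

/-- The ring homomorphism `K → K' → K'_{w'}` on `K` with the absolute value of the place below. -/
def gHom62 (w' : InfinitePlace K') :
    WithAbs (w'.comap (algebraMap K K')).1 →+* w'.Completion :=
  (algebraMap K' w'.Completion).comp
    ((algebraMap K K').comp (WithAbs.equiv (w'.comap (algebraMap K K')).1).toRingHom)

theorem gHom62_apply (w' : InfinitePlace K') (x : WithAbs (w'.comap (algebraMap K K')).1) :
    gHom62 w' x
      = ((algebraMap K K' (WithAbs.equiv (w'.comap (algebraMap K K')).1 x) : K') :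
          w'.Completion) := rfl

theorem norm_coe62 (w' : InfinitePlace K') (y : K') : ‖(y : w'.Completion)‖ = w' y := by
  have h := Completion.norm_coe w' ((WithAbs.equiv w'.1).symm y)
  simpa using h

theorem extensionEmbedding_coe62 (w' : InfinitePlace K') (y : K') :
    Completion.extensionEmbedding w' (y : w'.Completion) = w'.embedding y :=
  Completion.extensionEmbedding_coe w' ((WithAbs.equiv w'.1).symm y)

theorem isometry_gHom62 (w' : InfinitePlace K') : Isometry (gHom62 (K := K) w') := by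
  refine AddMonoidHomClass.isometry_of_norm _ fun x => ?_
  rw [gHom62_apply, norm_coe62]
  rfl

/-- The embedding `K_v → K'_{w'}`, `v` the place below `w'`. -/
def jHom62 (w' : InfinitePlace K') : (w'.comap (algebraMap K K')).Completion →+* w'.Completion :=
  (isometry_gHom62 (K := K) w').extensionHom.comp
    (Completion.equiv (w'.comap (algebraMap K K'))).toRingHom

theorem jHom62_coe (w' : InfinitePlace K') (x : WithAbs (w'.comap (algebraMap K K')).1) :
    jHom62 w' (x : (w'.comap (algebraMap K K')).Completion) = gHom62 w' x :=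
  (isometry_gHom62 (K := K) w').extensionHom_coe x

theorem continuous_jHom62 (w' : InfinitePlace K') : Continuous (jHom62 (K := K) w') :=
  (UniformSpace.Completion.continuous_extension).comp
    (Completion.continuous_toCompletion (w'.comap (algebraMap K K')))

/-- The embeddings into `ℂ`: `w'.embedding ∘ (K → K')` is `v.embedding` or its conjugate. -/
theorem embedding_below62 (w' : InfinitePlace K') :
    (w'.comap (algebraMap K K')).embedding = w'.embedding.comp (algebraMap K K') ∨
      ComplexEmbedding.conjugate (w'.comap (algebraMap K K')).embedding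
        = w'.embedding.comp (algebraMap K K') := by
  have h : InfinitePlace.mk (w'.comap (algebraMap K K')).embedding
      = InfinitePlace.mk (w'.embedding.comp (algebraMap K K')) := by
    rw [InfinitePlace.mk_embedding, ← InfinitePlace.comap_mk, InfinitePlace.mk_embedding]
  exact InfinitePlace.mk_eq_iff.mp h

theorem ext_embedding62 (w' : InfinitePlace K')
    (h : (w'.comap (algebraMap K K')).embedding = w'.embedding.comp (algebraMap K K'))
    (y : (w'.comap (algebraMap K K')).Completion) :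
    Completion.extensionEmbedding w' (jHom62 w' y)
      = Completion.extensionEmbedding (w'.comap (algebraMap K K')) y := by
  induction y using Completion.induction_on with
  | hp =>
    exact isClosed_eq
      ((Completion.isometry_extensionEmbedding w').continuous.comp (continuous_jHom62 w'))
      (Completion.isometry_extensionEmbedding _).continuous
  | ih a =>
    rw [jHom62_coe, gHom62_apply, extensionEmbedding_coe62,
      Completion.extensionEmbedding_coe (w'.comap (algebraMap K K')) a, h]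
    rfl

theorem ext_embedding_conj62 (w' : InfinitePlace K')
    (h : ComplexEmbedding.conjugate (w'.comap (algebraMap K K')).embedding
      = w'.embedding.comp (algebraMap K K'))
    (y : (w'.comap (algebraMap K K')).Completion) :
    Completion.extensionEmbedding w' (jHom62 w' y)
      = conj (Completion.extensionEmbedding (w'.comap (algebraMap K K')) y) := by
  induction y using Completion.induction_on with
  | hp =>
    exact isClosed_eq
      ((Completion.isometry_extensionEmbedding w').continuous.comp (continuous_jHom62 w'))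
      (Complex.continuous_conj.comp (Completion.isometry_extensionEmbedding _).continuous)
  | ih a =>
    have h2 : w'.embedding (algebraMap K K' (WithAbs.equiv _ a))
        = conj ((w'.comap (algebraMap K K')).embedding (WithAbs.equiv _ a)) := by
      have := congrArg (fun φ : K →+* ℂ => φ (WithAbs.equiv _ a)) h
      simpa [ComplexEmbedding.conjugate_coe_eq] using this.symm
    rw [jHom62_coe, gHom62_apply, extensionEmbedding_coe62,
      Completion.extensionEmbedding_coe (w'.comap (algebraMap K K')) a, h2]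

variable (K K')

/-- The base change of the infinite adeles. -/
def iotaInf62 : InfiniteAdeleRing K →+* InfiniteAdeleRing K' :=
  RingHom.pi fun w' : InfinitePlace K' =>
    (jHom62 (K := K) w').comp
      (Pi.evalRingHom (fun v : InfinitePlace K => v.Completion) (w'.comap (algebraMap K K')))

theorem iotaInf62_apply (x : InfiniteAdeleRing K) (w' : InfinitePlace K') :
    iotaInf62 K K' x w' = jHom62 w' (x (w'.comap (algebraMap K K'))) := rfl

/-- **LEAF I.2 = PRE-INF**, verbatim, any extension of number fields. -/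
theorem preInfC62 : Fermat.Agent.LT.T7.H816.PreInfC816 K K' := by
  refine ⟨iotaInf62 K K', ?_, ?_, ?_⟩
  · refine continuous_pi fun w' => ?_
    exact (continuous_jHom62 w').comp (continuous_apply _)
  · intro x
    funext w'
    rw [iotaInf62_apply]
    have h := jHom62_coe (K := K) w' ((WithAbs.equiv _).symm x)
    rw [gHom62_apply] at h
    simpa using h
  · intro w'
    rcases embedding_below62 (K := K) w' with h | h
    · exact Or.inl fun x => ext_embedding62 w' h _
    · exact Or.inr fun x => ext_embedding_conj62 w' h _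

end Fermat.Agent.LT.T7.H62I

end

end
-- ===== PACK-END LT/T7/H62I/PreInf.lean

-- ===== PACK-BEGIN LT/T7/H286/OntoGlue.lean
section




/-!
# Row LT, tower T7, node T7.L2.1, leaf C2.4-I.6 `H816.OntoGlueC816` (helper286)

OFF-MAIN.  Adele bookkeeping: an adele `y` of `K'` which comes from `K_v` at the places over `v`,
for every place `v` of `K`, is in the image of `ι`.

`x_v` = the component at `v` of the adele chosen for `v`.  It is integral for almost all `v`:
if `w` lies over `v` then `|y_w| = |x_v|^e` with `e > 0`, `y_w` is integral for almost all `w`,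
and finitely many `v` lie under a finite set of `w` (`finite_under_557` of helper557).
No Galois hypothesis.
-/

set_option autoImplicit false

open AutomorphicForm IsDedekindDomain NumberField MeasureTheory
open scoped ComplexConjugate

noncomputable section

namespace Fermat.Agent.LT.T7.H286

open Fermat.Agent.LT.H556 Fermat.Agent.LT.H556.A0 Fermat.Agent.LT.T7
open Fermat.Agent.LT.T7.H816 Fermat.Agent.LT.T7.H557

variable {K K' : Type} [Field K] [NumberField K] [Field K'] [NumberField K'] [Algebra K K']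

/-- Every finite place of `K'` lies over a finite place of `K`. -/
theorem exists_placeUnder286 (w : HeightOneSpectrum (𝓞 K')) :
    ∃ v : HeightOneSpectrum (𝓞 K), PlaceOver K K' v w := by
  refine ⟨HeightOneSpectrum.under (𝓞 K) w, (placeOver_iff_557 _ w).2 ?_⟩
  simp only [HeightOneSpectrum.under_asIdeal]

/-- The component at a finite place. -/
theorem finHom_apply286 (v : HeightOneSpectrum (𝓞 K)) (x : Adl K) : T5.finHom v x = x.2 v := rfl

/-- The component at an infinite place. -/
theorem infHom_apply286 (v : InfinitePlace K) (x : Adl K) :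
    T5.infHom v x = InfinitePlace.Completion.extensionEmbedding v (x.1 v) := rfl

/-- **Leaf C2.4-I.6 `H816.OntoGlueC816`.** -/
theorem ontoGlueC286 (K K' : Type) [Field K] [NumberField K] [Field K'] [NumberField K']
    [Algebra K K'] : OntoGlueC816 K K' := by
  intro ι hι y hfin hinf
  classical
  choose xf hxf using hfin
  choose xi hxi using hinf
  -- the bad set of `y`
  have hy : ∀ᶠ w in Filter.cofinite, y.2 w ∈ w.adicCompletionIntegers K' := y.2.2
  have hyfin : {w : HeightOneSpectrum (𝓞 K') | y.2 w ∉ w.adicCompletionIntegers K'}.Finite := hy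
  -- integrality of the components
  have hsub : {v : HeightOneSpectrum (𝓞 K) | (xf v).2 v ∉ v.adicCompletionIntegers K}
      ⊆ {v | ∃ w ∈ hyfin.toFinset, PlaceOver K K' v w} := by
    intro v hv
    obtain ⟨w, hvw⟩ := exists_placeOver_557 (K' := K') v
    refine ⟨w, ?_, hvw⟩
    rw [Set.Finite.mem_toFinset]
    obtain ⟨e, i, he, -, hval, hcomp⟩ := hι.fin v w hvw
    have h1 : y.2 w = i ((xf v).2 v) := by
      have := hxf v w hvw
      rw [hcomp (xf v)] at this
      exact this.symm
    show y.2 w ∉ w.adicCompletionIntegers K'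
    rw [h1, HeightOneSpectrum.mem_adicCompletionIntegers, hval, not_le]
    have hv' : ¬ Valued.v ((xf v).2 v) ≤ 1 := by
      rwa [← HeightOneSpectrum.mem_adicCompletionIntegers]
    exact one_lt_pow₀ (not_le.mp hv') he.ne'
  have hint : ∀ᶠ v in Filter.cofinite, (xf v).2 v ∈ v.adicCompletionIntegers K :=
    (finite_under_557 (K := K) hyfin.toFinset).subset hsub
  obtain ⟨z, hzf, hzi⟩ : ∃ z : Adl K, (∀ v : HeightOneSpectrum (𝓞 K),
      T5.finHom v z = T5.finHom v (xf v)) ∧
      ∀ v : InfinitePlace K, T5.infHom v z = T5.infHom v (xi v) :=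
    ⟨((fun v => (xi v).1 v), ⟨fun v => (xf v).2 v, hint⟩), fun _ => rfl, fun _ => rfl⟩
  refine ⟨z, ?_⟩
  have h1 : (ι z).1 = y.1 := by
    funext w'
    have hw : T5.infHom w' (ι z) = T5.infHom w' y := by
      rw [← hxi (w'.comap (algebraMap K K')) w' rfl]
      rcases hι.inf w' with h | h
      · rw [h z, h (xi _), hzi]
      · rw [h z, h (xi _), hzi]
    rw [infHom_apply286, infHom_apply286] at hw
    exact (InfinitePlace.Completion.extensionEmbedding w').injective hw
  have h2 : (ι z).2 = y.2 := by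
    apply RestrictedProduct.ext
    intro w
    obtain ⟨v, hvw⟩ := exists_placeUnder286 (K := K) w
    obtain ⟨e, i, -, -, -, hcomp⟩ := hι.fin v w hvw
    have hw : T5.finHom w (ι z) = T5.finHom w y := by
      rw [← hxf v w hvw, hcomp z, hcomp (xf v), hzf]
    exact hw
  exact Prod.ext h1 h2

end Fermat.Agent.LT.T7.H286

end

end
-- ===== PACK-END LT/T7/H286/OntoGlue.lean

-- ===== PACK-BEGIN LT/T7/H194/Orb/ArchInt.lean
section





/-!
# Row LT, tower T7, station C2.7 (cut-off integrals), nodes `FactDownC305` / `FactUpC305`: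
ASSET, the archimedean factor (helper194)

OFF-MAIN.  On `LT/T7/H305/MatchCut.lean` (helper305@56ddcdc02, sha256 0f302b81, byte-identical
copy; vocabulary `cent305`, `IsCut305`, `locInt305` only) and the Mathlib-only assets
`Orb/SuppTop.lean`, `Orb/IntegAbs.lean`.  No hole, nothing assumed.

The proof of `FactDownC305` exchanges the sum over the ray with the integral over
`∏_{w ∣ ∞} GL₂(ℂ)`; the Bochner integral of a non-integrable function is `0`, so the exchange
NEEDS the integrability of the archimedean cut-off integrands (closed orbits of regular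
elements).  Here:

* `archIntegrable194` : `γ ∈ GL₂(ℂ)` regular, `z` central, `β` a cut-off for the centraliser of
  `γ` (`IsCut305`), `F` continuous with compact support:
  `y ↦ F(y⁻¹ (γ z) y) β(y)` is integrable for every Haar measure of `GL₂(ℂ)`;
* `exists_ray_finset194` : the sum over the ray is finite, uniformly in `y`
  (`|det (y⁻¹ γ zʲ y)| = |det γ| t^{2j}`);
* `archSum194` : for a finite family of places

      ∫ (∑' j, ∏_w F_w(y_w⁻¹ (γ_w z_wʲ) y_w)) ∏_w β_w(y_w) d(∏ μc)
        = ∑' j, ∏_w locInt305 μc β_w F_w (γ_w z_wʲ),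

  the archimedean factor of `factVal305`.
-/

set_option autoImplicit false
set_option linter.unusedSectionVars false
set_option linter.unusedVariables false
set_option linter.style.haveILetI false

open MeasureTheory

noncomputable section

namespace Fermat.Agent.LT.T7.H194

open Fermat.Agent.LT Fermat.Agent.LT.T7 Fermat.Agent.LT.T7.H305

/-! ## `GL₂(ℂ)` -/

theorem secondCountable_GL2C194 : SecondCountableTopology (GL (Fin 2) ℂ) := by
  have : SecondCountableTopology (Matrix (Fin 2) (Fin 2) ℂ) :=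
    inferInstanceAs (SecondCountableTopology (Fin 2 → Fin 2 → ℂ))
  have : SecondCountableTopology (Matrix (Fin 2) (Fin 2) ℂ)ᵐᵒᵖ :=
    MulOpposite.opHomeomorph.symm.secondCountableTopology
  exact (Units.isEmbedding_embedProduct (M := Matrix (Fin 2) (Fin 2) ℂ)).secondCountableTopology

theorem locallyCompact_GL2C194 : LocallyCompactSpace (GL (Fin 2) ℂ) := by
  have : LocallyCompactSpace (Matrix (Fin 2) (Fin 2) ℂ) :=
    inferInstanceAs (LocallyCompactSpace (Fin 2 → Fin 2 → ℂ))
  exact (Units.isClosedEmbedding_embedProduct (α := Matrix (Fin 2) (Fin 2) ℂ)).locallyCompactSpace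

/-- The centraliser is closed (any topological group). -/
theorem isClosed_cent194 {H : Type} [Group H] [TopologicalSpace H] [IsTopologicalGroup H]
    [T2Space H] (γ : H) : IsClosed ((cent305 γ : Subgroup H) : Set H) := by
  have hc : Continuous (fun x : H => x⁻¹ * γ * x) :=
    (continuous_inv.mul continuous_const).mul continuous_id
  exact isClosed_eq hc continuous_const

theorem mem_cent_iff194 {H : Type} [Group H] (γ x : H) :
    x ∈ cent305 γ ↔ x⁻¹ * γ * x = γ := Iff.rfl

/-! ## Integrability -/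

/-- **The archimedean cut-off integrand is integrable.** -/
theorem archIntegrable194 (γ : GL (Fin 2) ℂ) (hγ : T6.IsReg γ)
    (μc : @Measure (GL (Fin 2) ℂ) (borel _)) (hμc : @Measure.IsHaarMeasure _ _ _ (borel _) μc)
    (μT : @Measure (cent305 γ) (borel _)) (hμT : @Measure.IsHaarMeasure _ _ _ (borel _) μT)
    (β : GL (Fin 2) ℂ → ℝ) (hβ : IsCut305 γ μT β)
    (F : GL (Fin 2) ℂ → ℂ) (hF : Continuous F) (hFc : HasCompactSupport F)
    (z : GL (Fin 2) ℂ) (hz : ∀ x : GL (Fin 2) ℂ, z * x = x * z) :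
    Integrable (fun y : GL (Fin 2) ℂ => F (y⁻¹ * (γ * z) * y) * ((β y : ℝ) : ℂ)) μc := by
  letI : MeasurableSpace (GL (Fin 2) ℂ) := borel _
  haveI : BorelSpace (GL (Fin 2) ℂ) := ⟨rfl⟩
  letI : MeasurableSpace (cent305 γ) := borel _
  haveI : BorelSpace (cent305 γ) := ⟨rfl⟩
  haveI := secondCountable_GL2C194
  haveI := locallyCompact_GL2C194
  haveI : μc.IsHaarMeasure := hμc
  haveI : μT.IsHaarMeasure := hμT
  haveI : SigmaCompactSpace (cent305 γ) := (isClosed_cent194 γ).sigmaCompactSpace
  obtain ⟨hβc, hβ0, hβ1⟩ := hβ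
  -- the support
  have hdisc : (γ : Matrix (Fin 2) (Fin 2) ℂ).trace ^ 2
      - 4 * (γ : Matrix (Fin 2) (Fin 2) ℂ).det ≠ 0 := (isUnit_iff_ne_zero.1 hγ)
  have hKc : IsCompact ((fun h : GL (Fin 2) ℂ => h * z⁻¹) '' tsupport F) :=
    hFc.isCompact.image (continuous_id.mul continuous_const)
  obtain ⟨C, hC, hsupp⟩ := exists_compact_conj194 γ hdisc hKc
  obtain ⟨M, hM⟩ := hF.bounded_above_of_compact_support hFc
  have hΨc : Continuous (fun y : GL (Fin 2) ℂ => F (y⁻¹ * (γ * z) * y)) :=
    hF.comp ((continuous_inv.mul continuous_const).mul continuous_id)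
  refine integrable_mul_cut194 (cent305 γ) μc μT hβc.measurable hβ0 hβ1 hC hΨc.measurable
    (M := M) (fun y => hM _) ?_
  intro y hy
  have h1 : y⁻¹ * (γ * z) * y ∈ tsupport F := subset_tsupport F hy
  have h2 : y⁻¹ * γ * y ∈ (fun h : GL (Fin 2) ℂ => h * z⁻¹) '' tsupport F := by
    refine ⟨y⁻¹ * (γ * z) * y, h1, ?_⟩
    show y⁻¹ * (γ * z) * y * z⁻¹ = y⁻¹ * γ * y
    have e : y⁻¹ * (γ * z) * y = y⁻¹ * γ * y * z := by
      calc y⁻¹ * (γ * z) * y = y⁻¹ * γ * (z * y) := by simp only [mul_assoc]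
        _ = y⁻¹ * γ * (y * z) := by rw [hz y]
        _ = y⁻¹ * γ * y * z := by simp only [mul_assoc]
    rw [e, mul_inv_cancel_right]
  obtain ⟨t, ht, c, hc, hyc⟩ := hsupp y h2
  exact ⟨t, (mem_cent_iff194 γ t).2 ht, c, hc, hyc⟩

/-! ## The ray -/

/-- A scalar matrix is central. -/
theorem central_of_scalar194 (z : GL (Fin 2) ℂ) (t : ℂ)
    (hz : (z : Matrix (Fin 2) (Fin 2) ℂ) = Matrix.diagonal (fun _ => t)) (x : GL (Fin 2) ℂ) :
    z * x = x * z := by
  apply Units.ext
  rw [Units.val_mul, Units.val_mul, hz]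
  ext a b
  rw [Matrix.diagonal_mul, Matrix.mul_diagonal, mul_comm]

theorem det_scalar194 (z : GL (Fin 2) ℂ) (t : ℂ)
    (hz : (z : Matrix (Fin 2) (Fin 2) ℂ) = Matrix.diagonal (fun _ => t)) :
    (z : Matrix (Fin 2) (Fin 2) ℂ).det = t ^ 2 := by
  rw [hz, Matrix.det_diagonal]
  simp

theorem det_mul_zpow194 (g z : GL (Fin 2) ℂ) (j : ℤ) :
    ((g * z ^ j : GL (Fin 2) ℂ) : Matrix (Fin 2) (Fin 2) ℂ).det
      = (g : Matrix (Fin 2) (Fin 2) ℂ).det * (z : Matrix (Fin 2) (Fin 2) ℂ).det ^ j := by
  have h : Matrix.GeneralLinearGroup.det (g * z ^ j)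
      = Matrix.GeneralLinearGroup.det g * Matrix.GeneralLinearGroup.det z ^ j := by
    rw [map_mul, map_zpow]
  have h' := congrArg Units.val h
  rw [Units.val_mul, Units.val_zpow_eq_zpow_val] at h'
  exact h'

/-- **The sum over the ray is finite, uniformly.** -/
theorem exists_ray_finset194 (F : GL (Fin 2) ℂ → ℂ) (hF : Continuous F)
    (hFc : HasCompactSupport F) (g z : GL (Fin 2) ℂ) (t : ℝ) (ht : 1 < t)
    (hz : (z : Matrix (Fin 2) (Fin 2) ℂ) = Matrix.diagonal (fun _ => (t : ℂ))) :
    ∃ J : Finset ℤ, ∀ j : ℤ, j ∉ J → ∀ y : GL (Fin 2) ℂ, F (y⁻¹ * (g * z ^ j) * y) = 0 := by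
  -- bounds of the determinant on the support
  set K₀ : Set (GL (Fin 2) ℂ) := tsupport F ∪ {1} with hK₀
  have hK₀c : IsCompact K₀ := hFc.isCompact.union isCompact_singleton
  have hK₀n : K₀.Nonempty := ⟨1, Or.inr rfl⟩
  have hdc : Continuous (fun h : GL (Fin 2) ℂ => ‖(h : Matrix (Fin 2) (Fin 2) ℂ).det‖) :=
    continuous_norm.comp continuous_detGL194
  have hpos : ∀ h : GL (Fin 2) ℂ, 0 < ‖(h : Matrix (Fin 2) (Fin 2) ℂ).det‖ := by
    intro h
    rw [norm_pos_iff]
    have := (Matrix.GeneralLinearGroup.det h).ne_zero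
    simpa using this
  obtain ⟨x₀, hx₀, hmin⟩ := hK₀c.exists_isMinOn hK₀n hdc.continuousOn
  obtain ⟨x₁, hx₁, hmax⟩ := hK₀c.exists_isMaxOn hK₀n hdc.continuousOn
  set a : ℝ := ‖(x₀ : Matrix (Fin 2) (Fin 2) ℂ).det‖ with ha
  set b : ℝ := ‖(x₁ : Matrix (Fin 2) (Fin 2) ℂ).det‖ with hb
  set d : ℝ := ‖(g : Matrix (Fin 2) (Fin 2) ℂ).det‖ with hd
  have ha0 : 0 < a := hpos x₀
  have hd0 : 0 < d := hpos g
  have ht0 : 0 < t := lt_trans zero_lt_one ht
  have ht2 : 1 < t ^ 2 := by nlinarith
  have hdet : ∀ (j : ℤ) (y : GL (Fin 2) ℂ),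
      ‖((y⁻¹ * (g * z ^ j) * y : GL (Fin 2) ℂ) : Matrix (Fin 2) (Fin 2) ℂ).det‖
        = d * (t ^ 2) ^ j := by
    intro j y
    rw [det_conjGL194, det_mul_zpow194, det_scalar194 z (t : ℂ) hz, norm_mul, norm_zpow, norm_pow,
      Complex.norm_real, Real.norm_of_nonneg ht0.le]
  obtain ⟨n₁, hn₁⟩ := pow_unbounded_of_one_lt (b / d) ht2
  obtain ⟨n₂, hn₂⟩ := pow_unbounded_of_one_lt (d / a) ht2
  have hmono := zpow_right_strictMono₀ ht2
  refine ⟨Finset.Icc (-(n₂ : ℤ)) (n₁ : ℤ), fun j hj y => ?_⟩
  by_contra hne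
  have hmem : y⁻¹ * (g * z ^ j) * y ∈ K₀ := Or.inl (subset_tsupport F hne)
  have h1 : a ≤ d * (t ^ 2) ^ j := by
    rw [← hdet j y]
    exact hmin hmem
  have h2 : d * (t ^ 2) ^ j ≤ b := by
    rw [← hdet j y]
    exact hmax hmem
  apply hj
  rw [Finset.mem_Icc]
  constructor
  · by_contra hlt
    have hlt' : j < -(n₂ : ℤ) := lt_of_not_ge hlt
    have h3 : (t ^ 2) ^ j < (t ^ 2) ^ (-(n₂ : ℤ)) := hmono hlt'
    rw [zpow_neg, zpow_natCast] at h3
    have hpn : 0 < (t ^ 2) ^ n₂ := pow_pos (lt_trans zero_lt_one ht2) _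
    have h4 : ((t ^ 2) ^ n₂)⁻¹ < a / d := by
      rw [inv_lt_comm₀ hpn (div_pos ha0 hd0), inv_div]
      exact hn₂
    have h5 : (t ^ 2) ^ j < a / d := lt_trans h3 h4
    have h6 : d * (t ^ 2) ^ j < a := by
      have := mul_lt_mul_of_pos_left h5 hd0
      rwa [mul_div_cancel₀ _ hd0.ne'] at this
    exact absurd h1 (not_le.2 h6)
  · by_contra hlt
    have hlt' : (n₁ : ℤ) < j := lt_of_not_ge hlt
    have h3 : (t ^ 2) ^ (n₁ : ℤ) < (t ^ 2) ^ j := hmono hlt'
    rw [zpow_natCast] at h3
    have h5 : b / d < (t ^ 2) ^ j := lt_trans hn₁ h3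
    have h6 : b < d * (t ^ 2) ^ j := by
      have := mul_lt_mul_of_pos_left h5 hd0
      rwa [mul_div_cancel₀ _ hd0.ne'] at this
    exact absurd h2 (not_le.2 h6)

/-! ## The archimedean factor -/

/-- **The archimedean factor of the factorised value.** -/
theorem archSum194 {ι : Type} [Fintype ι] [Nonempty ι]
    (μc : @Measure (GL (Fin 2) ℂ) (borel _)) (hμc : @Measure.IsHaarMeasure _ _ _ (borel _) μc)
    (g : ι → GL (Fin 2) ℂ) (hg : ∀ w, T6.IsReg (g w))
    (μT : ∀ w, @Measure (cent305 (g w)) (borel _))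
    (hμT : ∀ w, @Measure.IsHaarMeasure _ _ _ (borel _) (μT w))
    (β : ι → GL (Fin 2) ℂ → ℝ) (hβ : ∀ w, IsCut305 (g w) (μT w) (β w))
    (F : ι → GL (Fin 2) ℂ → ℂ) (hF : ∀ w, Continuous (F w) ∧ HasCompactSupport (F w))
    (z : ι → GL (Fin 2) ℂ) (t : ℝ) (ht : 1 < t)
    (hz : ∀ w, ((z w : GL (Fin 2) ℂ) : Matrix (Fin 2) (Fin 2) ℂ)
      = Matrix.diagonal (fun _ => (t : ℂ))) :
    letI : MeasurableSpace (GL (Fin 2) ℂ) := borel _
    ∫ y : ι → GL (Fin 2) ℂ,
        (∑' j : ℤ, ∏ w, F w ((y w)⁻¹ * (g w * z w ^ j) * y w))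
          * ∏ w, ((β w (y w) : ℝ) : ℂ) ∂(Measure.pi fun _ : ι => μc)
      = ∑' j : ℤ, ∏ w, locInt305 μc (β w) (F w) (g w * z w ^ j) := by
  letI : MeasurableSpace (GL (Fin 2) ℂ) := borel _
  haveI : BorelSpace (GL (Fin 2) ℂ) := ⟨rfl⟩
  haveI := secondCountable_GL2C194
  haveI := locallyCompact_GL2C194
  haveI : μc.IsHaarMeasure := hμc
  obtain ⟨w₀⟩ := (inferInstance : Nonempty ι)
  obtain ⟨J, hJ⟩ := exists_ray_finset194 (F w₀) (hF w₀).1 (hF w₀).2 (g w₀) (z w₀) t ht (hz w₀)
  have hzero : ∀ j : ℤ, j ∉ J → ∀ y : ι → GL (Fin 2) ℂ,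
      ∏ w, F w ((y w)⁻¹ * (g w * z w ^ j) * y w) = 0 := fun j hj y =>
    Finset.prod_eq_zero (Finset.mem_univ w₀) (hJ j hj (y w₀))
  have hzero' : ∀ j : ℤ, j ∉ J → ∏ w, locInt305 μc (β w) (F w) (g w * z w ^ j) = 0 := by
    intro j hj
    refine Finset.prod_eq_zero (Finset.mem_univ w₀) ?_
    unfold locInt305
    have : (fun y : GL (Fin 2) ℂ => F w₀ (y⁻¹ * (g w₀ * z w₀ ^ j) * y) * ((β w₀ y : ℝ) : ℂ))
        = fun _ => 0 := by
      funext y
      rw [hJ j hj y, zero_mul]
    rw [this, integral_zero]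
  have hint : ∀ (j : ℤ) (w : ι), Integrable
      (fun y : GL (Fin 2) ℂ => F w (y⁻¹ * (g w * z w ^ j) * y) * ((β w y : ℝ) : ℂ)) μc := by
    intro j w
    refine archIntegrable194 (g w) (hg w) μc hμc (μT w) (hμT w) (β w) (hβ w) (F w) (hF w).1
      (hF w).2 (z w ^ j) ?_
    intro x
    have hc := central_of_scalar194 (z w) (t : ℂ) (hz w)
    have hc' : Commute (z w) x := hc x
    exact (hc'.zpow_left j).eq
  rw [tsum_eq_sum (s := J) hzero']
  have e1 : ∀ y : ι → GL (Fin 2) ℂ,
      (∑' j : ℤ, ∏ w, F w ((y w)⁻¹ * (g w * z w ^ j) * y w)) * ∏ w, ((β w (y w) : ℝ) : ℂ)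
        = ∑ j ∈ J, ∏ w, (F w ((y w)⁻¹ * (g w * z w ^ j) * y w) * ((β w (y w) : ℝ) : ℂ)) := by
    intro y
    rw [tsum_eq_sum (s := J) (fun j hj => hzero j hj y), Finset.sum_mul]
    refine Finset.sum_congr rfl fun j _ => ?_
    rw [Finset.prod_mul_distrib]
  simp_rw [e1]
  rw [integral_finsetSum J (fun j _ => Integrable.fintype_prod (fun w => hint j w))]
  refine Finset.sum_congr rfl fun j _ => ?_
  rw [integral_fintype_prod_eq_prod
    (f := fun w (y : GL (Fin 2) ℂ) => F w (y⁻¹ * (g w * z w ^ j) * y) * ((β w y : ℝ) : ℂ))]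
  rfl

end Fermat.Agent.LT.T7.H194

end

end
-- ===== PACK-END LT/T7/H194/Orb/ArchInt.lean

-- ===== PACK-BEGIN LT/T7/H117/HaarSplitA.lean
section





/-!
# Row LT, tower T7, leaf C2.7.4 `HaarSplitC305` (helper117, OFF-MAIN): the group theory

* components `finGL305`, `infGL305`: continuity, integrality;
* `outSub117 S` : the subgroup `Out_S = {y : y_v ∈ GL₂(𝒪_v), v ∉ S}`, open;
* `isOpen_inU117` : `U(n)` is open in `GL₂(K_v)`;
* `compHom117 S` : the homomorphism `y ↦ (y_v)_{v ∈ S ∪ S_∞}`, continuous, ONTO from `Out_S`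
  (`K` totally complex), with kernel in `Out_S` contained in the standard compact subgroup.
-/

set_option autoImplicit false

open IsDedekindDomain NumberField MeasureTheory Set Topology
open scoped NNReal ENNReal

noncomputable section

namespace Fermat.Agent.LT.T7.H117

open Fermat.Agent.LT.H556 Fermat.Agent.LT.H556.A0 Fermat.Agent.LT.T7 Fermat.Agent.LT.T7.H305

variable {K : Type} [Field K] [NumberField K]

/-! ## 1. Components -/

theorem finGL_val117 (v : HeightOneSpectrum (𝓞 K)) (g : G K) :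
    ((finGL305 v g : GL (Fin 2) (v.adicCompletion K)) :
      Matrix (Fin 2) (Fin 2) (v.adicCompletion K)) = finComp v g := rfl

theorem finGL_inv_val117 (v : HeightOneSpectrum (𝓞 K)) (g : G K) :
    (((finGL305 v g)⁻¹ : GL (Fin 2) (v.adicCompletion K)) :
      Matrix (Fin 2) (Fin 2) (v.adicCompletion K)) = finComp v g⁻¹ := by
  rw [← map_inv]; rfl

theorem infGL_val117 (w : InfinitePlace K) (g : G K) :
    ((infGL305 w g : GL (Fin 2) ℂ) : Matrix (Fin 2) (Fin 2) ℂ) = infComp w g := rfl

theorem finGL_eq117 (v : HeightOneSpectrum (𝓞 K)) :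
    (finGL305 v : G K →* GL (Fin 2) (v.adicCompletion K)) = T3.AS.finGL K v := rfl

theorem infGL_eq117 (w : InfinitePlace K) :
    (infGL305 w : G K →* GL (Fin 2) ℂ) = T3.AS.infGL K w := rfl

theorem continuous_finGL117 (v : HeightOneSpectrum (𝓞 K)) :
    Continuous (finGL305 (K := K) v) := by
  refine Continuous.units_map _ ?_
  refine Continuous.matrix_map continuous_id ?_
  have h : Continuous (fun x : InfiniteAdeleRing K × FiniteAdeleRing (𝓞 K) K => x.2 v) :=
    (RestrictedProduct.continuous_eval v).comp continuous_snd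
  exact h

theorem continuous_infGL117 (w : InfinitePlace K) :
    Continuous (infGL305 (K := K) w) := by
  refine Continuous.units_map _ ?_
  refine Continuous.matrix_map continuous_id ?_
  have h : Continuous (fun x : InfiniteAdeleRing K × FiniteAdeleRing (𝓞 K) K =>
      InfinitePlace.Completion.extensionEmbedding w (x.1 w)) :=
    (InfinitePlace.Completion.isometry_extensionEmbedding w).continuous.comp
      ((continuous_apply w).comp continuous_fst)
  exact h

/-! ## 2. Integrality -/

theorem one_entry_mem117 (v : HeightOneSpectrum (𝓞 K)) (i j : Fin 2) :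
    (1 : Matrix (Fin 2) (Fin 2) (v.adicCompletion K)) i j ∈ v.adicCompletionIntegers K := by
  rw [Matrix.one_apply]
  split_ifs
  · exact one_mem _
  · exact zero_mem _

theorem isIntegralAt_of_eq_one117 (v : HeightOneSpectrum (𝓞 K)) (g : G K)
    (h : finGL305 v g = 1) : IsIntegralAt v g := by
  intro i j
  have h1 : finComp v g = 1 := by
    rw [← finGL_val117, h, Units.val_one]
  rw [h1]
  exact one_entry_mem117 v i j

theorem isIntegralAt_one117 (v : HeightOneSpectrum (𝓞 K)) : IsIntegralAt v (1 : G K) :=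
  isIntegralAt_of_eq_one117 v 1 (map_one _)

theorem isIntegralAt_mul117 (v : HeightOneSpectrum (𝓞 K)) (a b : G K)
    (ha : IsIntegralAt v a) (hb : IsIntegralAt v b) : IsIntegralAt v (a * b) := by
  intro i j
  have h : finComp v (a * b) = finComp v a * finComp v b := by
    rw [← finGL_val117, map_mul, Units.val_mul]
    rfl
  rw [h, Matrix.mul_apply]
  exact sum_mem fun k _ => mul_mem (ha i k) (hb k j)

theorem inU_zero_iff117 (v : HeightOneSpectrum (𝓞 K)) (y : G K) :
    T6.InU 0 (finGL305 v y) ↔ IsIntegralAt v y ∧ IsIntegralAt v y⁻¹ := by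
  have hexp : WithZero.exp (-((0 : ℕ) : ℤ)) = (1 : WithZero (Multiplicative ℤ)) := by simp
  have key : ∀ (x : v.adicCompletion K) (i j : Fin 2),
      Valued.v (x - (1 : Matrix (Fin 2) (Fin 2) (v.adicCompletion K)) i j)
          ≤ WithZero.exp (-((0 : ℕ) : ℤ)) ↔ x ∈ v.adicCompletionIntegers K := by
    intro x i j
    rw [hexp, ← HeightOneSpectrum.mem_adicCompletionIntegers]
    constructor
    · intro h
      have := add_mem h (one_entry_mem117 v i j)
      simpa using this
    · intro h
      exact sub_mem h (one_entry_mem117 v i j)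
  constructor
  · intro h
    refine ⟨fun i j => ?_, fun i j => ?_⟩
    · have := (key _ i j).1 (h i j).1
      rwa [finGL_val117] at this
    · have := (key _ i j).1 (h i j).2
      rwa [finGL_inv_val117] at this
  · rintro ⟨h1, h2⟩ i j
    refine ⟨(key _ i j).2 ?_, (key _ i j).2 ?_⟩
    · rw [finGL_val117]; exact h1 i j
    · rw [finGL_inv_val117]; exact h2 i j

/-! ## 3. The subgroup `Out_S` -/

/-- The subgroup `Out_S = {y : y_v ∈ GL₂(𝒪_v) for v ∉ S}`. -/
def outSub117 (S : Finset (HeightOneSpectrum (𝓞 K))) : Subgroup (G K) where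
  carrier := {y | OutT305 S y}
  mul_mem' := by
    intro a b ha hb v hv
    refine ⟨isIntegralAt_mul117 v a b (ha v hv).1 (hb v hv).1, ?_⟩
    rw [mul_inv_rev]
    exact isIntegralAt_mul117 v _ _ (hb v hv).2 (ha v hv).2
  one_mem' := fun v _ => ⟨isIntegralAt_one117 v, by rw [inv_one]; exact isIntegralAt_one117 v⟩
  inv_mem' := by
    intro a ha v hv
    refine ⟨(ha v hv).2, ?_⟩
    rw [inv_inv]
    exact (ha v hv).1

theorem mem_outSub117 (S : Finset (HeightOneSpectrum (𝓞 K))) (y : G K) :
    y ∈ outSub117 S ↔ OutT305 S y := Iff.rfl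

theorem coe_outSub117 (S : Finset (HeightOneSpectrum (𝓞 K))) :
    ((outSub117 S : Subgroup (G K)) : Set (G K)) = {y | OutT305 S y} := rfl

theorem isOpen_outSub117 (S : Finset (HeightOneSpectrum (𝓞 K))) :
    IsOpen ((outSub117 S : Subgroup (G K)) : Set (G K)) := by
  refine Subgroup.isOpen_of_mem_nhds (outSub117 S) (g := 1) ?_
  have h0 : IsOpen {a : FiniteAdeleRing (𝓞 K) K |
      ∀ v : HeightOneSpectrum (𝓞 K), a v ∈ v.adicCompletionIntegers K} :=
    RestrictedProduct.isOpen_forall_mem
      (R := fun v : HeightOneSpectrum (𝓞 K) => v.adicCompletion K)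
      (A := fun v => (v.adicCompletionIntegers K : Set (v.adicCompletion K)))
      (fun _ => Valued.isOpen_valuationSubring _)
  have hA : IsOpen {x : Adl K |
      ∀ v : HeightOneSpectrum (𝓞 K), x.2 v ∈ v.adicCompletionIntegers K} :=
    h0.preimage continuous_snd
  have hopen : IsOpen (⋂ i : Fin 2, ⋂ j : Fin 2,
      ((fun g : G K => (g : Matrix (Fin 2) (Fin 2) (Adl K)) i j) ⁻¹'
          {x : Adl K | ∀ v : HeightOneSpectrum (𝓞 K), x.2 v ∈ v.adicCompletionIntegers K}) ∩
        ((fun g : G K => ((g⁻¹ : G K) : Matrix (Fin 2) (Fin 2) (Adl K)) i j) ⁻¹'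
          {x : Adl K | ∀ v : HeightOneSpectrum (𝓞 K), x.2 v ∈ v.adicCompletionIntegers K})) :=
    isOpen_iInter_of_finite fun i => isOpen_iInter_of_finite fun j =>
      (hA.preimage (T1.H793.continuous_entry793 i j)).inter
        (hA.preimage (T1.H793.continuous_entry_inv793 i j))
  refine Filter.mem_of_superset (hopen.mem_nhds ?_) ?_
  · simp only [mem_iInter, mem_inter_iff, mem_preimage, mem_ofPred_eq]
    intro i j
    refine ⟨fun v => isIntegralAt_one117 v i j, fun v => ?_⟩
    have := isIntegralAt_one117 (K := K) v i j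
    rw [inv_one]
    exact this
  · intro y hy v _
    simp only [mem_iInter, mem_inter_iff, mem_preimage, mem_ofPred_eq] at hy
    exact ⟨fun i j => (hy i j).1 v, fun i j => (hy i j).2 v⟩

/-! ## 4. `U(n)` is open -/

theorem isOpen_valLe117 (v : HeightOneSpectrum (𝓞 K)) (n : ℕ) :
    IsOpen {x : v.adicCompletion K | Valued.v x ≤ WithZero.exp (-(n : ℤ))} := by
  obtain ⟨π, hπ⟩ := v.valuation_exists_uniformizer K
  set z : v.adicCompletion K := ((π : K) : v.adicCompletion K) ^ n with hz
  have hvz : Valued.v z = WithZero.exp (-(n : ℤ)) := by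
    rw [hz, map_pow, HeightOneSpectrum.valuedAdicCompletion_eq_valuation', hπ,
      ← WithZero.exp_nsmul]
    simp
  let A : AddSubgroup (v.adicCompletion K) :=
    { carrier := {x | Valued.v x ≤ WithZero.exp (-(n : ℤ))}
      add_mem' := fun {a b} ha hb => (Valued.v.map_add a b).trans (max_le ha hb)
      zero_mem' := by simp
      neg_mem' := fun {a} ha => by
        simp only [mem_ofPred_eq, Valuation.map_neg] at ha ⊢
        exact ha }
  have hA : IsOpen (A : Set (v.adicCompletion K)) := by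
    refine AddSubgroup.isOpen_of_mem_nhds A (g := 0) ?_
    rw [Valued.mem_nhds_zero]
    have hz0 : Valued.v.restrict z ≠ 0 := by
      intro h0
      have h1 : Valued.v z = 0 := by
        rw [← Valuation.embedding_restrict, h0, map_zero]
      rw [hvz] at h1
      exact WithZero.exp_ne_zero h1
    refine ⟨Units.mk0 (Valued.v.restrict z) hz0, fun x hx => ?_⟩
    have hx' : Valued.v.restrict x < Valued.v.restrict z := hx
    rw [Valuation.restrict_lt_iff, hvz] at hx'
    exact hx'.le
  exact hA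

theorem isOpen_inU117 (v : HeightOneSpectrum (𝓞 K)) (n : ℕ) :
    IsOpen {g : GL (Fin 2) (v.adicCompletion K) | T6.InU n g} := by
  have hset : {g : GL (Fin 2) (v.adicCompletion K) | T6.InU n g}
      = ⋂ i : Fin 2, ⋂ j : Fin 2,
        ((fun g : GL (Fin 2) (v.adicCompletion K) =>
            (g : Matrix (Fin 2) (Fin 2) (v.adicCompletion K)) i j
              - (1 : Matrix (Fin 2) (Fin 2) (v.adicCompletion K)) i j) ⁻¹'
          {x : v.adicCompletion K | Valued.v x ≤ WithZero.exp (-(n : ℤ))}) ∩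
        ((fun g : GL (Fin 2) (v.adicCompletion K) =>
            ((g⁻¹ : GL (Fin 2) (v.adicCompletion K)) :
              Matrix (Fin 2) (Fin 2) (v.adicCompletion K)) i j
              - (1 : Matrix (Fin 2) (Fin 2) (v.adicCompletion K)) i j) ⁻¹'
          {x : v.adicCompletion K | Valued.v x ≤ WithZero.exp (-(n : ℤ))}) := by
    ext g
    simp only [mem_iInter, mem_inter_iff, mem_preimage, mem_ofPred_eq]
    exact Iff.rfl
  rw [hset]
  refine isOpen_iInter_of_finite fun i => isOpen_iInter_of_finite fun j => ?_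
  have h1 : Continuous (fun g : GL (Fin 2) (v.adicCompletion K) =>
      (g : Matrix (Fin 2) (Fin 2) (v.adicCompletion K)) i j) :=
    (Units.continuous_val.matrix_elem i j)
  have h2 : Continuous (fun g : GL (Fin 2) (v.adicCompletion K) =>
      ((g⁻¹ : GL (Fin 2) (v.adicCompletion K)) :
        Matrix (Fin 2) (Fin 2) (v.adicCompletion K)) i j) :=
    (Units.continuous_coe_inv.matrix_elem i j)
  exact ((isOpen_valLe117 v n).preimage (h1.sub continuous_const)).inter
    ((isOpen_valLe117 v n).preimage (h2.sub continuous_const))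

end Fermat.Agent.LT.T7.H117

end

end
-- ===== PACK-END LT/T7/H117/HaarSplitA.lean

-- ===== PACK-BEGIN LT/T7/H999/IotaPlaces.lean
section




/-!
# Row LT, tower T7, leaf T7.L2.1.C2.4 `IotaC305`: THE PLACES (helper999), OFF-MAIN

Vocabulary: `LT/T7/H253/IotaCut.lean` (helper253, byte-identical copy) and its imports.
ADDITIVE (new names only, suffix `999`).  No hole, nothing assumed.

* `galGen999`: the generator `σ` of the data as an element of `Gal(K'/K)`; it generates.
* `PlaceOver` and `Ideal.LiesOver`; every place of `K` has a place of `K'` over it.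
* `sigPlace999`: the action of a ring automorphism on the finite places; `T5.PlaceRel`.
* `exists_iterate_sigPlace999`: two places over the same place are related by a power of `σ`.
-/

set_option autoImplicit false
set_option linter.unusedSectionVars false
set_option linter.unusedVariables false
set_option linter.deprecated false
set_option linter.style.haveILetI false

open AutomorphicForm IsDedekindDomain NumberField
open scoped Pointwise

namespace Fermat.Agent.LT.T7.H999

open Fermat.Agent.LT.H556 Fermat.Agent.LT.H556.A0 Fermat.Agent.LT.T7 Fermat.Agent.LT.T7.H305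
  Fermat.Agent.LT.T7.H253

variable {K K' : Type} [Field K] [NumberField K] [Field K'] [NumberField K'] [Algebra K K']

/-! ## 1. The generator -/

/-- The generator of the data fixes `K`. -/
theorem sigma_algebraMap999 {D : CompData K K'} (hD : IsCompData D) (x : K) :
    D.s.σ (algebraMap K K' x) = algebraMap K K' x :=
  (hD.cyc.fixed _).1 ((hD.base _).2 ⟨x, rfl⟩)

/-- The generator of the data as an element of the Galois group. -/
noncomputable def galGen999 (D : CompData K K') (hD : IsCompData D) : K' ≃ₐ[K] K' :=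
  AlgEquiv.ofRingEquiv (f := D.s.σ) (sigma_algebraMap999 hD)

theorem galGen_apply999 (D : CompData K K') (hD : IsCompData D) (y : K') :
    galGen999 D hD y = D.s.σ y := rfl

theorem galGen_coe999 (D : CompData K K') (hD : IsCompData D) :
    ((galGen999 D hD : K' ≃ₐ[K] K') : K' ≃+* K') = D.s.σ :=
  RingEquiv.ext fun _ => rfl

theorem galGen_ne_one999 (D : CompData K K') (hD : IsCompData D) (hcyc : IsCycExt K K' D.l) :
    galGen999 D hD ≠ 1 := by
  intro h
  obtain ⟨x, hx⟩ := hD.cyc.faithful 1 one_pos hcyc.prime.one_lt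
  apply hx
  rw [pow_one]
  have := congrArg (fun t : K' ≃ₐ[K] K' => t x) h
  exact this

/-- The generator of the data generates the Galois group. -/
theorem galGen_gen999 (D : CompData K K') (hD : IsCompData D) (hcyc : IsCycExt K K' D.l)
    (t : K' ≃ₐ[K] K') : t ∈ Subgroup.zpowers (galGen999 D hD) := by
  haveI := hcyc.galois
  haveI : Fact D.l.Prime := ⟨hcyc.prime⟩
  have hcard : Nat.card (K' ≃ₐ[K] K') = D.l := by
    rw [IsGalois.card_aut_eq_finrank K K', hcyc.degree]
  exact mem_zpowers_of_prime_card hcard (galGen_ne_one999 D hD hcyc)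

/-- Every element of the Galois group is a power (with natural exponent) of the generator. -/
theorem exists_pow_galGen999 (D : CompData K K') (hD : IsCompData D)
    (hcyc : IsCycExt K K' D.l) (t : K' ≃ₐ[K] K') : ∃ j : ℕ, galGen999 D hD ^ j = t := by
  haveI := hcyc.galois
  have h := galGen_gen999 D hD hcyc t
  rw [← mem_powers_iff_mem_zpowers] at h
  exact h

/-! ## 2. Places over a place -/

theorem coe_algebraMap_int999 (x : 𝓞 K) :
    ((algebraMap (𝓞 K) (𝓞 K') x : 𝓞 K') : K') = algebraMap K K' (x : K) := rfl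

theorem mem_iff_of_placeOver999 {v : HeightOneSpectrum (𝓞 K)} {w : HeightOneSpectrum (𝓞 K')}
    (h : PlaceOver K K' v w) (x : 𝓞 K) :
    x ∈ v.asIdeal ↔ algebraMap (𝓞 K) (𝓞 K') x ∈ w.asIdeal :=
  h x _ (coe_algebraMap_int999 x)

theorem liesOver_of_placeOver999 {v : HeightOneSpectrum (𝓞 K)} {w : HeightOneSpectrum (𝓞 K')}
    (h : PlaceOver K K' v w) : w.asIdeal.LiesOver v.asIdeal :=
  T6.H267.liesOver_of_iff v w (mem_iff_of_placeOver999 h)

theorem placeOver_of_liesOver999 (v : HeightOneSpectrum (𝓞 K)) (w : HeightOneSpectrum (𝓞 K'))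
    [hw : w.asIdeal.LiesOver v.asIdeal] : PlaceOver K K' v w := by
  intro x y hy
  have hy' : y = algebraMap (𝓞 K) (𝓞 K') x := RingOfIntegers.ext hy
  rw [hy', hw.over, Ideal.under_def, Ideal.mem_comap]

/-- The place under a place. -/
noncomputable def underPlace999 (w : HeightOneSpectrum (𝓞 K')) : HeightOneSpectrum (𝓞 K) :=
  w.under (𝓞 K)

theorem placeOver_underPlace999 (w : HeightOneSpectrum (𝓞 K')) :
    PlaceOver K K' (underPlace999 (K := K) w) w := by
  haveI : w.asIdeal.LiesOver (underPlace999 (K := K) w).asIdeal := ⟨rfl⟩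
  exact placeOver_of_liesOver999 _ w

theorem eq_underPlace_of_placeOver999 {v : HeightOneSpectrum (𝓞 K)}
    {w : HeightOneSpectrum (𝓞 K')} (h : PlaceOver K K' v w) : v = underPlace999 w := by
  apply HeightOneSpectrum.ext
  exact (liesOver_of_placeOver999 h).over

/-- Every place of `K` has a place of `K'` over it. -/
theorem exists_placeOver999 (v : HeightOneSpectrum (𝓞 K)) :
    ∃ w : HeightOneSpectrum (𝓞 K'), PlaceOver K K' v w := by
  have : v.asIdeal.IsMaximal := v.isMaximal
  obtain ⟨⟨P, hP, hPo⟩⟩ := (inferInstance : Nonempty (Ideal.primesOver v.asIdeal (𝓞 K')))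
  have hne : P ≠ ⊥ := by
    rintro rfl
    apply v.ne_bot
    rw [hPo.over, eq_bot_iff]
    intro x hx
    rw [Ideal.under_def, Ideal.mem_comap, Ideal.mem_bot] at hx
    rw [Ideal.mem_bot]
    exact FaithfulSMul.algebraMap_injective (𝓞 K) (𝓞 K') (by rw [hx, map_zero])
  haveI : (⟨P, hP, hne⟩ : HeightOneSpectrum (𝓞 K')).asIdeal.LiesOver v.asIdeal := hPo
  exact ⟨⟨P, hP, hne⟩, placeOver_of_liesOver999 v _⟩

/-! ## 3. The action of an automorphism on the places -/

/-- The image of the place `w` under the ring automorphism `σ`. -/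
noncomputable def sigPlace999 (σ : K' ≃+* K') (w : HeightOneSpectrum (𝓞 K')) :
    HeightOneSpectrum (𝓞 K') where
  asIdeal := Ideal.map (RingOfIntegers.mapRingEquiv σ) w.asIdeal
  isPrime := Ideal.map_isPrime_of_equiv _
  ne_bot := by
    intro h
    apply w.ne_bot
    rw [eq_bot_iff]
    intro y hy
    have h1 : RingOfIntegers.mapRingEquiv σ y
        ∈ Ideal.map (RingOfIntegers.mapRingEquiv σ) w.asIdeal := Ideal.mem_map_of_mem _ hy
    rw [h, Ideal.mem_bot] at h1
    rw [Ideal.mem_bot]
    exact (RingOfIntegers.mapRingEquiv σ).injective (by rw [h1, map_zero])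

theorem placeRel_sigPlace999 (s : T5.AdelicAut K') (w : HeightOneSpectrum (𝓞 K')) :
    T5.PlaceRel s w (sigPlace999 s.σ w) := rfl

theorem eq_sigPlace_of_placeRel999 {s : T5.AdelicAut K'} {w w' : HeightOneSpectrum (𝓞 K')}
    (h : T5.PlaceRel s w w') : w' = sigPlace999 s.σ w :=
  HeightOneSpectrum.ext h

theorem mem_sigPlace_iff999 (σ : K' ≃+* K') (w : HeightOneSpectrum (𝓞 K')) (y : 𝓞 K') :
    y ∈ (sigPlace999 σ w).asIdeal ↔ (RingOfIntegers.mapRingEquiv σ).symm y ∈ w.asIdeal := by
  show y ∈ Ideal.map (RingOfIntegers.mapRingEquiv σ) w.asIdeal ↔ _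
  constructor
  · intro hy
    obtain ⟨z, hz, rfl⟩ := (Ideal.mem_map_of_equiv _ _).1 hy
    rwa [RingEquiv.symm_apply_apply]
  · intro hy
    have := Ideal.mem_map_of_mem (RingOfIntegers.mapRingEquiv σ) hy
    rwa [RingEquiv.apply_symm_apply] at this

theorem sigPlace_symm999 (σ : K' ≃+* K') (w : HeightOneSpectrum (𝓞 K')) :
    sigPlace999 σ (sigPlace999 σ.symm w) = w := by
  apply HeightOneSpectrum.ext
  ext y
  rw [mem_sigPlace_iff999, mem_sigPlace_iff999]
  have : (RingOfIntegers.mapRingEquiv σ.symm).symm ((RingOfIntegers.mapRingEquiv σ).symm y) = y := by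
    apply RingOfIntegers.ext
    show σ.symm.symm (σ.symm (y : K')) = y
    simp
  rw [this]

/-- If `σ` fixes `K`, the image of a place over `v` is over `v`. -/
theorem placeOver_sigPlace999 (σ : K' ≃+* K')
    (hσ : ∀ x : K, σ (algebraMap K K' x) = algebraMap K K' x)
    {v : HeightOneSpectrum (𝓞 K)} {w : HeightOneSpectrum (𝓞 K')} (h : PlaceOver K K' v w) :
    PlaceOver K K' v (sigPlace999 σ w) := by
  intro x y hy
  rw [mem_sigPlace_iff999]
  refine h x _ ?_
  show σ.symm (y : K') = algebraMap K K' (x : K)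
  rw [hy, RingEquiv.symm_apply_eq, hσ]

/-- The action of the Galois group on the ideals is the action on the places. -/
theorem smul_asIdeal999 (t : K' ≃ₐ[K] K') (w : HeightOneSpectrum (𝓞 K')) :
    t • w.asIdeal = (sigPlace999 (t : K' ≃+* K') w).asIdeal := rfl

theorem sigPlace_mul999 (t t' : K' ≃ₐ[K] K') (w : HeightOneSpectrum (𝓞 K')) :
    sigPlace999 ((t * t' : K' ≃ₐ[K] K') : K' ≃+* K') w
      = sigPlace999 (t : K' ≃+* K') (sigPlace999 (t' : K' ≃+* K') w) := by
  apply HeightOneSpectrum.ext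
  rw [← smul_asIdeal999, ← smul_asIdeal999, ← smul_asIdeal999, mul_smul]

theorem sigPlace_pow999 (t : K' ≃ₐ[K] K') (j : ℕ) (w : HeightOneSpectrum (𝓞 K')) :
    sigPlace999 ((t ^ j : K' ≃ₐ[K] K') : K' ≃+* K') w
      = (sigPlace999 (t : K' ≃+* K'))^[j] w := by
  induction j with
  | zero =>
    rw [pow_zero, Function.iterate_zero, id]
    apply HeightOneSpectrum.ext
    rw [← smul_asIdeal999, one_smul]
  | succ j ih =>
    rw [pow_succ', sigPlace_mul999, ih, Function.iterate_succ_apply']

/-- **Transitivity**: two places over the same place are related by a power of the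
generator. -/
theorem exists_iterate_sigPlace999 (D : CompData K K') (hD : IsCompData D)
    (hcyc : IsCycExt K K' D.l) {v : HeightOneSpectrum (𝓞 K)} {w w' : HeightOneSpectrum (𝓞 K')}
    (h : PlaceOver K K' v w) (h' : PlaceOver K K' v w') :
    ∃ j : ℕ, w' = (sigPlace999 D.s.σ)^[j] w := by
  haveI := hcyc.galois
  haveI := liesOver_of_placeOver999 h
  haveI := liesOver_of_placeOver999 h'
  have : v.asIdeal.IsMaximal := v.isMaximal
  obtain ⟨t, ht⟩ := Ideal.exists_smul_eq_of_isGaloisGroup v.asIdeal w.asIdeal w'.asIdeal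
    (K' ≃ₐ[K] K')
  obtain ⟨j, rfl⟩ := exists_pow_galGen999 D hD hcyc t
  refine ⟨j, ?_⟩
  have h1 : w' = sigPlace999 ((galGen999 D hD ^ j : K' ≃ₐ[K] K') : K' ≃+* K') w :=
    HeightOneSpectrum.ext ht.symm
  rw [h1, sigPlace_pow999, galGen_coe999]

end Fermat.Agent.LT.T7.H999

end
-- ===== PACK-END LT/T7/H999/IotaPlaces.lean

-- ===== PACK-BEGIN LT/T7/H555/SplitAlg.lean
section





/-!
# Row LT, tower T7, leaf C2.7.13.3 `LocEqSplitC340` / `LocEqSplitC305b` (helper555), part A:
# THE NORM AT A SPLIT PLACE, IN THE COORDINATES OF `K_v`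

OFF-MAIN.  `w 0, w 1, …` places of `K'` over `v` with `w j = σ(w (j+1))`, `i j : K_v ≃ K'_{w j}`
valuation preserving identifications compatible with `K → K'`, `N δ = γ`.  Then

    δ_0 δ_1 ⋯ δ_{l-1} = γ_v,    δ_j = i_j⁻¹(δ_{w j})         (`prodFrom_eq_locG555`).

Proof: `i_j⁻¹ ∘ s_j ∘ i_{j+1}` (`s_j : K'_{w (j+1)} ≃ K'_{w j}` the local form of `σ`,
`SigmaLocC305` closed by helper558) is a valuation preserving ring endomorphism of `K_v` which
is the identity on the dense subfield `K`, hence the identity.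
-/

set_option autoImplicit false

open IsDedekindDomain NumberField Filter Topology

noncomputable section

namespace Fermat.Agent.LT.T7.H555

open Fermat.Agent.LT.H556 Fermat.Agent.LT.H556.A0 Fermat.Agent.LT Fermat.Agent.LT.T7
open Fermat.Agent.LT.T7.H305 Fermat.Agent.LT.T7.H159

section OneField

variable {K : Type} [Field K] [NumberField K]

/-- A valuation preserving ring endomorphism of `K_v` which is the identity on `K` is the
identity. -/
theorem eq_self_of_val555 (v : HeightOneSpectrum (𝓞 K))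
    (τ : v.adicCompletion K →+* v.adicCompletion K)
    (hτ : ∀ x : v.adicCompletion K, Valued.v (τ x) = Valued.v x)
    (hK : ∀ a : K, τ (algebraMap K (v.adicCompletion K) a) = algebraMap K (v.adicCompletion K) a)
    (x : v.adicCompletion K) : τ x = x := by
  by_contra hne
  have hpos : Valued.v (τ x - x) ≠ 0 := by
    intro h0
    rw [map_eq_zero, sub_eq_zero] at h0
    exact hne h0
  have hopen : IsOpen {y : v.adicCompletion K | Valued.v (y - x) < Valued.v (τ x - x)} := by
    have h := Valued.isOpen_ball (v.adicCompletion K)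
      (r := (Valued.v : Valuation (v.adicCompletion K) (WithZero (Multiplicative ℤ))).restrict
        (τ x - x))
    have hc' : Continuous fun y : v.adicCompletion K => y - x :=
      continuous_id.sub continuous_const
    have := h.preimage hc'
    convert this using 1
    ext y
    simp only [Set.mem_preimage]
    exact (Valuation.restrict_lt_iff
      (v := (Valued.v : Valuation (v.adicCompletion K) (WithZero (Multiplicative ℤ))))).symm
  have hx : x ∈ {y : v.adicCompletion K | Valued.v (y - x) < Valued.v (τ x - x)} := by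
    show Valued.v (x - x) < Valued.v (τ x - x)
    rw [sub_self, map_zero]
    exact zero_lt_iff.2 hpos
  obtain ⟨a, ha⟩ := DenseRange.exists_mem_open (HeightOneSpectrum.denseRange_algebraMap K v)
    hopen ⟨x, hx⟩
  have ha' : Valued.v (algebraMap K (v.adicCompletion K) a - x) < Valued.v (τ x - x) := ha
  have e : τ x - x = τ (x - algebraMap K _ a) - (x - algebraMap K _ a) := by
    rw [map_sub, hK]
    ring
  have hle : Valued.v (τ x - x) ≤ Valued.v (x - algebraMap K (v.adicCompletion K) a) := by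
    rw [e]
    refine (Valuation.map_sub _ _ _).trans ?_
    rw [hτ, max_self]
  have hsw : Valued.v (x - algebraMap K (v.adicCompletion K) a)
      = Valued.v (algebraMap K (v.adicCompletion K) a - x) := Valuation.map_sub_swap _ _ _
  rw [hsw] at hle
  exact absurd (lt_of_le_of_lt hle ha') (lt_irrefl _)

end OneField

section TwoFields

variable {K K' : Type} [Field K] [NumberField K] [Field K'] [NumberField K'] [Algebra K K']

theorem sigma_fix555 (D : CompData K K') (hD : IsCompData D) (a : K) :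
    D.s.σ (algebraMap K K' a) = algebraMap K K' a :=
  (hD.cyc.fixed _).1 ((hD.base _).2 ⟨a, rfl⟩)

theorem val_symm555 {k k' : Type} [Field k] [Field k'] [Valued k (WithZero (Multiplicative ℤ))]
    [Valued k' (WithZero (Multiplicative ℤ))] (i : k ≃+* k')
    (hval : ∀ x : k, Valued.v (i x) = Valued.v x) (z : k') :
    Valued.v (i.symm z) = Valued.v z := by
  rw [← hval (i.symm z), RingEquiv.apply_symm_apply]

/-- `i_j⁻¹ ∘ σ = i_{j+1}⁻¹` on `K'`. -/
theorem symm_sigma555 (D : CompData K K') (hD : IsCompData D)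
    (v : HeightOneSpectrum (𝓞 K)) (w : ℕ → HeightOneSpectrum (𝓞 K'))
    (i : ∀ j : ℕ, v.adicCompletion K ≃+* (w j).adicCompletion K')
    (hrel : ∀ j : ℕ, T5.PlaceRel D.s (w (j + 1)) (w j))
    (hi : ∀ (j : ℕ) (x : K), i j (algebraMap K (v.adicCompletion K) x)
      = algebraMap K' ((w j).adicCompletion K') (algebraMap K K' x))
    (hval : ∀ (j : ℕ) (x : v.adicCompletion K), Valued.v (i j x) = Valued.v x)
    (j : ℕ) (y : K') :
    (i j).symm (algebraMap K' ((w j).adicCompletion K') (D.s.σ y))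
      = (i (j + 1)).symm (algebraMap K' ((w (j + 1)).adicCompletion K') y) := by
  obtain ⟨sw, hsw1, hsw2, _⟩ := (H558.sigmaLocC558 (K := K') D.s).1 (w (j + 1)) (w j) (hrel j)
  set τ : v.adicCompletion K →+* v.adicCompletion K :=
    ((i j).symm : (w j).adicCompletion K' →+* v.adicCompletion K).comp
      ((sw : (w (j + 1)).adicCompletion K' →+* (w j).adicCompletion K').comp
        ((i (j + 1) : v.adicCompletion K ≃+* _) :
          v.adicCompletion K →+* (w (j + 1)).adicCompletion K')) with hτ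
  have hτv : ∀ x : v.adicCompletion K, Valued.v (τ x) = Valued.v x := by
    intro x
    show Valued.v ((i j).symm (sw (i (j + 1) x))) = Valued.v x
    rw [val_symm555 (i j) (hval j), hsw2, hval]
  have hτK : ∀ a : K, τ (algebraMap K (v.adicCompletion K) a)
      = algebraMap K (v.adicCompletion K) a := by
    intro a
    show (i j).symm (sw (i (j + 1) (algebraMap K (v.adicCompletion K) a))) = _
    rw [hi, hsw1, sigma_fix555 D hD, RingEquiv.symm_apply_eq, hi]
  have h := eq_self_of_val555 v τ hτv hτK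
    ((i (j + 1)).symm (algebraMap K' ((w (j + 1)).adicCompletion K') y))
  have h' : (i j).symm (sw (i (j + 1)
      ((i (j + 1)).symm (algebraMap K' ((w (j + 1)).adicCompletion K') y))))
      = (i (j + 1)).symm (algebraMap K' ((w (j + 1)).adicCompletion K') y) := h
  rw [RingEquiv.apply_symm_apply, hsw1] at h'
  exact h'

/-- The window products of the `δ_j = i_j⁻¹(δ_{w j})`. -/
theorem map_symm_locG_normUpTo555 (D : CompData K K') (hD : IsCompData D)
    (v : HeightOneSpectrum (𝓞 K)) (w : ℕ → HeightOneSpectrum (𝓞 K'))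
    (i : ∀ j : ℕ, v.adicCompletion K ≃+* (w j).adicCompletion K')
    (hrel : ∀ j : ℕ, T5.PlaceRel D.s (w (j + 1)) (w j))
    (hi : ∀ (j : ℕ) (x : K), i j (algebraMap K (v.adicCompletion K) x)
      = algebraMap K' ((w j).adicCompletion K') (algebraMap K K' x))
    (hval : ∀ (j : ℕ) (x : v.adicCompletion K), Valued.v (i j x) = Valued.v x)
    (δ : GL (Fin 2) K') :
    ∀ n j : ℕ,
      Matrix.GeneralLinearGroup.map
          (((i j).symm : (w j).adicCompletion K' ≃+* _) :
            (w j).adicCompletion K' →+* v.adicCompletion K)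
          (locG305 (w j) (D.s.normUpTo n δ))
        = prodFrom159 (fun j => Matrix.GeneralLinearGroup.map
            (((i j).symm : (w j).adicCompletion K' ≃+* _) :
              (w j).adicCompletion K' →+* v.adicCompletion K) (locG305 (w j) δ)) n j
  | 0, j => by
    show Matrix.GeneralLinearGroup.map _ (locG305 (w j) 1) = 1
    rw [map_one, map_one]
  | n + 1, j => by
    have ih := map_symm_locG_normUpTo555 D hD v w i hrel hi hval δ n (j + 1)
    show Matrix.GeneralLinearGroup.map _ (locG305 (w j) (δ * D.s.onRat (D.s.normUpTo n δ)))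
      = Matrix.GeneralLinearGroup.map _ (locG305 (w j) δ) * prodFrom159 _ n (j + 1)
    rw [map_mul, map_mul, ← ih]
    congr 1
    apply Matrix.GeneralLinearGroup.ext
    intro a b
    exact symm_sigma555 D hD v w i hrel hi hval j _

/-- **The norm in the coordinates of `K_v`.** -/
theorem prodFrom_eq_locG555 (D : CompData K K') (hD : IsCompData D)
    (v : HeightOneSpectrum (𝓞 K)) (w : ℕ → HeightOneSpectrum (𝓞 K'))
    (i : ∀ j : ℕ, v.adicCompletion K ≃+* (w j).adicCompletion K')
    (hrel : ∀ j : ℕ, T5.PlaceRel D.s (w (j + 1)) (w j))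
    (hi : ∀ (j : ℕ) (x : K), i j (algebraMap K (v.adicCompletion K) x)
      = algebraMap K' ((w j).adicCompletion K') (algebraMap K K' x))
    (hval : ∀ (j : ℕ) (x : v.adicCompletion K), Valued.v (i j x) = Valued.v x)
    (δ : GL (Fin 2) K') (γ : GL (Fin 2) K) (l : ℕ)
    (hN : D.s.normUpTo l δ = Matrix.GeneralLinearGroup.map (algebraMap K K') γ) :
    prodFrom159 (fun j => Matrix.GeneralLinearGroup.map
        (((i j).symm : (w j).adicCompletion K' ≃+* _) :
          (w j).adicCompletion K' →+* v.adicCompletion K) (locG305 (w j) δ)) l 0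
      = locG305 v γ := by
  rw [← map_symm_locG_normUpTo555 D hD v w i hrel hi hval δ l 0, hN]
  apply Matrix.GeneralLinearGroup.ext
  intro a b
  show (i 0).symm (algebraMap K' ((w 0).adicCompletion K') (algebraMap K K' (γ a b)))
    = algebraMap K (v.adicCompletion K) (γ a b)
  rw [RingEquiv.symm_apply_eq, hi]

end TwoFields

end Fermat.Agent.LT.T7.H555

end

end
-- ===== PACK-END LT/T7/H555/SplitAlg.lean

-- ===== PACK-BEGIN LT/T7/H271/Phi.lean
section





/-!
# Row LT, tower T7, leaf T7.L2.2.B5 `PhiC561` (helper271)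

OFF-MAIN.  The class of `Φ` is not zero: `phiC271 K K' : H561.PhiC561 K K'`, exact type of
`LT/T7/H561/BlocksSpec.lean` (helper561@fa57d28b6, sha256 5ceeaa4d).

The function is the form `φ` of `Φ` (`A0.IsSph0CuspFormFor`):

* level: `𝔑₀ ≤ Φ.level`, so `U(𝔑₀) ⊆ U(Φ.level)` (`inLevelGroup_mono271`);
* ray generator: a product of positive scalars at the infinite places (`rayOfArch793`, asset
  helper793 `LT/T2/H793/RayGen.lean`; `T5.IsRayGen` and `T2.IsRayGen` are the same Prop);
* Iwahori subgroups along the orbit: the places of the orbit do not divide `Φ.level`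
  (`orbit_good`), there the level group is `GL₂(𝒪_w)` (`integers_subset_idealClosure566`, asset
  helper566 `LT/T2/H566/Local.lean`), which contains the Iwahori subgroup;
* Hecke eigenfunction at `v ∤ 𝔑₀`: then `v ∤ Φ.level`;
* sphere means: `K'` is totally complex (`IsComplex.of_comap`), `MeanEig · sph0` is
  `A0.MeanValueComplex`.
-/

set_option autoImplicit false
set_option linter.unusedSectionVars false

open AutomorphicForm IsDedekindDomain NumberField MeasureTheory

noncomputable section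

namespace Fermat.Agent.LT.T7.H271

open Fermat.Agent.LT.H556 Fermat.Agent.LT.H556.A0 Fermat.Agent.LT.T7 Fermat.Agent.LT.T7.H561

section OneField

variable {K : Type} [Field K] [NumberField K]

theorem idealClosure_mono271 {𝔪 𝔫 : Ideal (𝓞 K)} (h : 𝔪 ≤ 𝔫) (v : HeightOneSpectrum (𝓞 K)) :
    idealClosure 𝔪 v ⊆ idealClosure 𝔫 v :=
  closure_mono (Set.image_mono fun _ hx => h hx)

/-- `U(𝔪) ⊆ U(𝔫)` for `𝔪 ≤ 𝔫`. -/
theorem inLevelGroup_mono271 {𝔪 𝔫 : Ideal (𝓞 K)} (h : 𝔪 ≤ 𝔫) {u : G K}
    (hu : InLevelGroup 𝔪 u) : InLevelGroup 𝔫 u :=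
  ⟨hu.1, fun v a b =>
    ⟨idealClosure_mono271 h v (hu.2 v a b).1, idealClosure_mono271 h v (hu.2 v a b).2⟩⟩

theorem trivAtInf_one271 (w : InfinitePlace K) : TrivAtInf w (1 : G K) :=
  (T2.H566.trivAtInf_iff566 w 1).2 (map_one _)

theorem trivAtFin_one271 (v : HeightOneSpectrum (𝓞 K)) : TrivAtFin v (1 : G K) :=
  (T2.H566.trivAtFin_iff566 v 1).2 (map_one _)

theorem one_entry_mem271 (v : HeightOneSpectrum (𝓞 K)) (a b : Fin 2) :
    (1 : Matrix (Fin 2) (Fin 2) (v.adicCompletion K)) a b ∈ v.adicCompletionIntegers K := by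
  rw [Matrix.one_apply]
  split_ifs
  · exact one_mem _
  · exact zero_mem _

/-- An element which is trivial at infinity and outside the places `o j` (`j < l`), and lies in
the Iwahori subgroup at these places, belongs to the level group `U(𝔫)` if the places `o j` do
not divide `𝔫`. -/
theorem inLevelGroup_of_iw271 {𝔫 : Ideal (𝓞 K)} (l : ℕ) (o : ℕ → HeightOneSpectrum (𝓞 K))
    (hgood : ∀ j, ¬ (o j).asIdeal ∣ 𝔫) {h : G K}
    (hinf : ∀ w : InfinitePlace K, TrivAtInf w h)
    (hfin : ∀ v : HeightOneSpectrum (𝓞 K), (∀ j < l, v ≠ o j) → TrivAtFin v h)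
    (hiw : ∀ j < l, T5.InIwahori (o j) h) : InLevelGroup 𝔫 h := by
  refine ⟨hinf, fun v a b => ?_⟩
  by_cases hv : ∃ j, j < l ∧ v = o j
  · obtain ⟨j, hj, rfl⟩ := hv
    obtain ⟨hint, hint', -⟩ := hiw j hj
    constructor
    · apply T2.H566.integers_subset_idealClosure566 𝔫 (o j) (hgood j)
      rw [Matrix.sub_apply]
      exact sub_mem (hint a b) (one_entry_mem271 (o j) a b)
    · apply T2.H566.integers_subset_idealClosure566 𝔫 (o j) (hgood j)
      rw [Matrix.sub_apply]
      exact sub_mem (hint' a b) (one_entry_mem271 (o j) a b)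
  · have hv' : ∀ j < l, v ≠ o j := fun j hj e => hv ⟨j, hj, e⟩
    have e1 : finComp v h = 1 := hfin v hv'
    have e2 : finComp v h⁻¹ = 1 := by
      have h3 := T2.H566.finComp_inv_mul566 v h
      rw [e1, mul_one] at h3
      exact h3
    rw [e1, e2, sub_self]
    exact ⟨T2.H566.zero_mem_idealClosure566 𝔫 v, T2.H566.zero_mem_idealClosure566 𝔫 v⟩

/-- A form of A0 is invariant under the ray generator. -/
theorem ray_inv271 {π : HeckeEigensystem K ℂ} {φ : G K → ℂ} (hφ : IsSph0CuspFormFor π φ)
    {r : G K} (hr : T5.IsRayGen r) (g : G K) : φ (g * r) = φ g :=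
  T2.H793.rayOfArch793 K φ hφ.arch_scalar r hr g

end OneField

section TwoFields

variable {K K' : Type} [Field K] [NumberField K] [Field K'] [NumberField K'] [Algebra K K']

theorem isComplex_of_totCplx271 (h : TotCplx K) (w : InfinitePlace K') : w.IsComplex :=
  InfinitePlace.IsComplex.of_comap (algebraMap K K') (h _)

variable (K K')

/-- **LEAF T7.L2.2.B5 `PhiC561`.** -/
theorem phiC271 : PhiC561 K K' := by
  intro ℓ _ _ hcplx Φ hΦ _ Dt hDt
  obtain ⟨φ, hφ⟩ := hΦ
  have hbad : Dt.IsBad (1 : G K') :=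
    ⟨fun w => trivAtInf_one271 w, fun v _ => trivAtFin_one271 v⟩
  have hray : T5.IsRayGen Dt.R'.r := (hDt.comp 1 hbad).frame'.ray
  refine ⟨φ, ⟨⟨⟨hφ.cont, hφ.bdd, ⟨fun γ g => hφ.left_inv γ g,
    fun u hu g => hφ.level_inv u (inLevelGroup_mono271 hDt.level_le hu) g, ?_,
    fun g => ray_inv271 hφ hray g⟩, hφ.cuspidal⟩, hφ.arch_scalar, ?_⟩, ?_, ?_⟩, hφ.ne_zero⟩
  · -- trivial type
    intro w k hk g
    rw [hφ.arch_compact w k hk g]
    simp [T5.trivType]
  · -- Iwahori subgroups along the orbit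
    intro h hinf hfin hiw x
    exact hφ.level_inv h (inLevelGroup_of_iw271 ℓ Dt.o hDt.orbit_good hinf hfin hiw) x
  · -- Hecke eigenfunction outside the base level
    intro v hv
    have hv' : ¬ v.asIdeal ∣ Φ.level := fun hd =>
      hv (dvd_trans hd (Ideal.dvd_iff_le.2 hDt.level_le))
    exact hφ.hecke v hv'
  · -- sphere means
    intro w d hd Y hY g
    exact hφ.mean_complex w (isComplex_of_totCplx271 hcplx w) d hd Y hY g

end TwoFields

end Fermat.Agent.LT.T7.H271

end

end
-- ===== PACK-END LT/T7/H271/Phi.lean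

-- ===== PACK-BEGIN LT/T7/H69/BCUnitQ.lean
section




/-!
# Row LT, tower T7, node T7.L2Q.3 `SpecDownQC`, LEAF T7.L2Q.3.5 `BCUnitQC` (helper69, registry 2289)

OFF-MAIN.  `bcUnitQC69 F n : SDQ140.BCUnitQC F n` for every number field `F` and both types `n`,
against the frozen bytes `LT/T7/H140/SpecDownQSpec.lean` (helper140, commit 26e3e6c54, sha256
7aa829b7).  The algebraic core (unitarity of the Satake powers) is `LT/T7/H706/BCUnitCore.lean`
(helper706, commit 4999105c1, sha256 e10e0e50; Mathlib + Prelude only), a byte-identical copy.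

Finite part: the residue field of a finite place `w` of `F` is a finite field, of characteristic
`p` say; then `p ∈ w` and `N w = p ^ f` (`exists_prime_pow69`); the place `v = (p)` of `ℚ` has norm
`p` (`ratPlace69`).  Archimedean part: `c.m` real and bounded by `2π` gives `sphRad n.wt s ∘ cosh`
real and bounded by `1`, and the hypothesis `T6.Inf.UpUnitaryC` gives the same for
`sphC (2 s) ∘ cosh`.
-/

set_option autoImplicit false

open AutomorphicForm IsDedekindDomain NumberField MeasureTheory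
open scoped ComplexConjugate

noncomputable section

namespace Fermat.Agent.LT.T7.H69

open Fermat.Agent.LT.H556 Fermat.Agent.LT.H556.A0 Fermat.Agent.LT.H670 Fermat.Agent.LT.T7
open Fermat.Agent.LT.T7.L2Q

/-- A finite place of a number field lies over a rational prime `p`, and its norm is a power of
`p`. -/
theorem exists_prime_pow69 {F : Type} [Field F] [NumberField F] (w : HeightOneSpectrum (𝓞 F)) :
    ∃ p f : ℕ, p.Prime ∧ ((p : ℕ) : 𝓞 F) ∈ w.asIdeal ∧ Ideal.absNorm w.asIdeal = p ^ f := by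
  have : w.asIdeal.IsMaximal := w.isMaximal
  let _ : Field (𝓞 F ⧸ w.asIdeal) := Ideal.Quotient.field w.asIdeal
  have hN : Ideal.absNorm w.asIdeal ≠ 0 := by
    rw [Ne, Ideal.absNorm_eq_zero_iff]
    exact w.ne_bot
  have hcard : Nat.card (𝓞 F ⧸ w.asIdeal) = Ideal.absNorm w.asIdeal := by
    rw [Ideal.absNorm_apply, Submodule.cardQuot_apply]
  have : Finite (𝓞 F ⧸ w.asIdeal) := Nat.finite_of_card_ne_zero (hcard ▸ hN)
  let _ : Fintype (𝓞 F ⧸ w.asIdeal) := Fintype.ofFinite _
  obtain ⟨p, hchar⟩ := CharP.exists (𝓞 F ⧸ w.asIdeal)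
  obtain ⟨f, hp, hf⟩ := FiniteField.card (𝓞 F ⧸ w.asIdeal) p
  refine ⟨p, f, hp, ?_, ?_⟩
  · rw [← Ideal.Quotient.eq_zero_iff_mem, map_natCast]
    exact CharP.cast_eq_zero _ p
  · rw [← hcard, Nat.card_eq_fintype_card, hf]

/-- The place `(p)` of `ℚ`: it contains `p` and has norm `p`. -/
theorem ratPlace69 (p : ℕ) (hp : p.Prime) :
    ∃ v : HeightOneSpectrum (𝓞 ℚ), ((p : ℕ) : 𝓞 ℚ) ∈ v.asIdeal ∧ Ideal.absNorm v.asIdeal = p := by
  have hpne : ((p : ℕ) : 𝓞 ℚ) ≠ 0 := by
    exact_mod_cast hp.ne_zero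
  have hprime : (Ideal.span {((p : ℕ) : 𝓞 ℚ)}).IsPrime := by
    rw [Ideal.span_singleton_prime hpne]
    have hpZ : Prime ((p : ℕ) : ℤ) := Nat.prime_iff_prime_int.1 hp
    refine (MulEquiv.prime_iff Rat.ringOfIntegersEquiv).1 ?_
    rw [map_natCast]
    exact hpZ
  have hbot : Ideal.span {((p : ℕ) : 𝓞 ℚ)} ≠ ⊥ := by
    simpa [Ideal.span_singleton_eq_bot] using hpne
  refine ⟨⟨Ideal.span {((p : ℕ) : 𝓞 ℚ)}, hprime, hbot⟩, Ideal.mem_span_singleton_self _, ?_⟩
  show Ideal.absNorm (Ideal.span {((p : ℕ) : 𝓞 ℚ)}) = p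
  have h1 : ((p : ℕ) : 𝓞 ℚ) = algebraMap ℤ (𝓞 ℚ) ((p : ℕ) : ℤ) := by
    simp
  rw [Ideal.absNorm_span_singleton, h1, Algebra.norm_algebraMap, RingOfIntegers.rank,
    Module.finrank_self, pow_one, Int.natAbs_natCast]

/-- **LEAF T7.L2Q.3.5 `BCUnitQC`**, VERBATIM. -/
theorem bcUnitQC69 (F : Type) [Field F] [NumberField F] (n : QWt) :
    Fermat.Agent.LT.T7.SDQ140.BCUnitQC F n := by
  intro hUni S' 𝔫 c C hS hc hBC
  refine ⟨fun w hw => ?_, fun w d hd => ?_⟩
  · obtain ⟨p, f, hp, hpw, hNw⟩ := exists_prime_pow69 w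
    obtain ⟨v, hpv, hNv⟩ := ratPlace69 p hp
    have hv : ¬ v.asIdeal ∣ 𝔫 := hS w hw p v hp hpw hpv
    obtain ⟨hb, ha, hn⟩ := hc.1 v hv
    obtain ⟨hCa, hCb⟩ := hBC.1 p hp (Finset.notMem_empty p) v hpv w f hpw hNw
    have hq : (1 : ℝ) ≤ (p : ℝ) := by
      exact_mod_cast hp.one_le
    rw [hNv] at hn
    have hNwR : (Ideal.absNorm w.asIdeal : ℝ) = (p : ℝ) ^ f := by
      rw [hNw]
      push_cast
      rfl
    refine ⟨?_, ?_, ?_⟩
    · rw [hCb, norm_pow, hb, one_pow]
    · rw [hCa, hCb]
      exact H706.conj_satakePow706 _ _ hb ha f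
    · rw [hCa, hNwR]
      exact H706.norm_satakePow_le706 _ _ hb ha _ hq hn f
  · obtain ⟨s, hcm, hCm⟩ := hBC.2
    have hwt : n.wt = 0 ∨ n.wt = 1 ∨ n.wt = -1 := by
      cases n
      · exact Or.inl rfl
      · exact Or.inr (Or.inr rfl)
    have w₀ : InfinitePlace ℚ := Classical.arbitrary _
    have hpi : (0 : ℝ) < 2 * Real.pi := by positivity
    have hpi4 : (0 : ℝ) < 4 * Real.pi := by positivity
    have key : ∀ t : ℝ, 0 < t →
        (T6.sphRad n.wt s (Real.cosh t)).im = 0 ∧ ‖T6.sphRad n.wt s (Real.cosh t)‖ ≤ 1 := by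
      intro t ht
      obtain ⟨h1, h2⟩ := hc.2 w₀ t ht
      rw [hcm w₀ t ht] at h1 h2
      constructor
      · rw [Complex.im_ofReal_mul] at h1
        exact (mul_eq_zero.1 h1).resolve_left hpi.ne'
      · rw [norm_mul, Complex.norm_real, Real.norm_of_nonneg hpi.le] at h2
        by_contra hgt
        rw [not_le] at hgt
        nlinarith
    obtain ⟨h1, h2⟩ := hUni n.wt hwt s key d hd
    rw [hCm w d hd]
    constructor
    · rw [Complex.im_ofReal_mul, h1, mul_zero]
    · rw [norm_mul, Complex.norm_real, Real.norm_of_nonneg hpi4.le]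
      calc 4 * Real.pi * ‖T6.sphC (2 * s) (Real.cosh d)‖ ≤ 4 * Real.pi * 1 :=
            mul_le_mul_of_nonneg_left h2 hpi4.le
        _ = 4 * Real.pi := mul_one _

end Fermat.Agent.LT.T7.H69

end

end
-- ===== PACK-END LT/T7/H69/BCUnitQ.lean

-- ===== PACK-BEGIN LT/T7/H817/NonVanAdapt.lean
section





/-!
# Row LT, tower T7, node T7.L2.2.N `NonVanC561` (registry 2191, helper817): ADAPTER

OFF-MAIN.  Proved statements only; no new Prop is introduced.

    nonVanC561_of817 : SU736.NonVanC K K' → H561.SigmaC561 K K' → SD534.IwSysC K'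
                         → H561.NonVanC561 K K'

The node `NonVanC561` of the cut of helper561 (`T7/H561/SpecUpSpec.lean`) is the node `NonVanC`
of the cut of helper736 (`T7/H736/SpecUp.lean`) read at `k = 0`, `m = 0`:

* a class basis `IsClassBasis561 Dt ℓ C n v` with `C` agreeing with `eigOf Φ` outside `S'` is a
  class basis `SU736.IsClassBasisOn 𝔑₀ R' ℓ o (eigOf Φ) q (range n)` (`IsEigFn` reads the
  eigen-data only at the places prime to the level, i.e. outside `S'`, and at positive radii);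
* `R(σ)` preserves the class of `Φ` (`SigmaC561`, leaf of the cut of `BlocksC561`), so (OP-up)
  applies to `R(σ) v_a` with the empty word, `k = 0`, `m = 0`:
  `R(φ' g [] 0 0) R(σ) v_a = c_g(C) · [U g U] R(σ) v_a` (an Iwahori coset system and a scalar
  uniformiser at `o 0` exist: `SD534.IwSysC`, closed by helper510);
* `c_g(C) ≠ 0` (`base_ne`), and the base stability of helper736 (`T5.AutPreserves` for `𝔑₀`)
  follows from `BaseStable561` and `IsCompData.aut` for the bad element `1`.

So ONE proof of the non-vanishing (the node `ClassModelC` of helper736) serves both cuts.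
-/

set_option autoImplicit false
set_option linter.unusedSectionVars false

open AutomorphicForm IsDedekindDomain NumberField MeasureTheory
open scoped ComplexConjugate

noncomputable section

namespace Fermat.Agent.LT.T7.H817

open Fermat.Agent.LT.H556 Fermat.Agent.LT.H556.A0 Fermat.Agent.LT.T7

attribute [local instance] Fermat.Agent.LT.T5.instMeasurableSpaceG

section OneField

variable {K : Type} [Field K] [NumberField K]

theorem agreeOut_symm817 {S : Finset (HeightOneSpectrum (𝓞 K))} {D D' : EigData K}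
    (h : D.AgreeOut S D') : D'.AgreeOut S D :=
  ⟨fun w hw => ⟨(h.1 w hw).1.symm, (h.1 w hw).2.symm⟩, fun w d hd => (h.2 w d hd).symm⟩

theorem agreeOut_trans817 {S : Finset (HeightOneSpectrum (𝓞 K))} {D D' D'' : EigData K}
    (h : D.AgreeOut S D') (h' : D'.AgreeOut S D'') : D.AgreeOut S D'' :=
  ⟨fun w hw => ⟨(h.1 w hw).1.trans (h'.1 w hw).1, (h.1 w hw).2.trans (h'.1 w hw).2⟩,
    fun w d hd => (h.2 w d hd).trans (h'.2 w d hd)⟩

/-- `IsEigFn` reads the eigen-data only outside the level and at positive radii. -/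
theorem isEigFn_congr817 {𝔫 : Ideal (𝓞 K)} {r : G K} {l : ℕ}
    {o : ℕ → HeightOneSpectrum (𝓞 K)} {ψ : G K → ℂ} {C C' : EigData K}
    {S : Finset (HeightOneSpectrum (𝓞 K))}
    (hS : ∀ w : HeightOneSpectrum (𝓞 K), w ∈ S ↔ w.asIdeal ∣ 𝔫)
    (hC : C.AgreeOut S C') (h : IsEigFn 𝔫 r l o ψ C) : IsEigFn 𝔫 r l o ψ C' where
  inv := h.inv
  hecke := fun v hv => by
    have hv' : v ∉ S := fun hmem => hv ((hS v).1 hmem)
    rw [← (hC.1 v hv').1, ← (hC.1 v hv').2]
    exact h.hecke v hv
  mean := fun w d hd Y hY g => by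
    rw [← hC.2 w d hd]
    exact h.mean w d hd Y hY g

theorem wordEv_nil817 (D : EigData K) : wordEv ([] : List (Gen K)) D = 1 := by
  simp [wordEv]

theorem innerD_const_mul817 (μ : Measure (G K)) (F : Set (G K)) (c : ℂ) (e f : G K → ℂ) :
    T5.innerD μ F (fun x => c * e x) f = c * T5.innerD μ F e f := by
  unfold T5.innerD
  rw [← integral_const_mul]
  refine integral_congr_ae (Filter.Eventually.of_forall fun x => ?_)
  simp only [mul_assoc]

end OneField

section TwoFields

variable {K K' : Type} [Field K] [NumberField K] [Field K'] [NumberField K'] [Algebra K K']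

/-- The identity is a bad element. -/
theorem isBad_one817 (Dt : L2Data K K') : Dt.IsBad (1 : G K') := by
  refine ⟨fun w i j => ?_, fun v _ => ?_⟩
  · rw [Units.val_one]
    by_cases hij : i = j
    · subst hij
      simp only [Matrix.one_apply_eq]
      rfl
    · simp only [Matrix.one_apply_ne hij]
      rfl
  · unfold TrivAtFin finComp
    ext i j
    rw [Units.val_one]
    by_cases hij : i = j
    · subst hij
      simp only [Matrix.one_apply_eq]
      rfl
    · simp only [Matrix.one_apply_ne hij]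
      rfl

/-- The base stability of helper736 from the base stability of helper561. -/
theorem baseStable_of561_817 {ℓ : ℕ} {Φ : HeckeEigensystem K' ℂ} {Dt : L2Data K K'}
    (hDt : IsL2Data ℓ Φ Dt) (hst : H561.BaseStable561 Dt) : SU736.BaseStable Dt := by
  have haut := (hDt.comp 1 (isBad_one817 Dt)).aut
  exact
    { left_inverse := haut.left_inverse
      right_inverse := haut.right_inverse
      rat := haut.rat
      cont := haut.cont
      measure := haut.measure
      ray := haut.ray
      slab := haut.slab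
      level := hst
      arch := haut.arch }

/-- The base stability of helper561 from the base stability of helper736. -/
theorem baseStable561_of_817 {Dt : L2Data K K'} (hst : SU736.BaseStable Dt) :
    H561.BaseStable561 Dt :=
  hst.level

/-- A class basis of helper561 is a class basis of helper736. -/
theorem isClassBasisOn_of561_817 {ℓ : ℕ} {Φ : HeckeEigensystem K' ℂ} {Dt : L2Data K K'}
    (hDt : IsL2Data ℓ Φ Dt) {C : EigData K'} {n : ℕ} {v : Fin n → G K' → ℂ}
    (hC : C.AgreeOut Dt.S' (eigOf Φ)) (hv : H561.IsClassBasis561 Dt ℓ C n v) :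
    SU736.IsClassBasisOn Dt.𝔑₀ Dt.R' ℓ Dt.o (eigOf Φ)
      (fun j => if h : j < n then v ⟨j, h⟩ else 0) (Finset.range n) where
  eig := fun j hj => by
    have hj' : j < n := Finset.mem_range.1 hj
    simp only [hj', dif_pos]
    exact isEigFn_congr817 hDt.mem_S' hC (hv.eig ⟨j, hj'⟩)
  orth := fun i hi j hj hij => by
    have hi' : i < n := Finset.mem_range.1 hi
    have hj' : j < n := Finset.mem_range.1 hj
    simp only [hi', hj', dif_pos]
    rw [hv.orth ⟨i, hi'⟩ ⟨j, hj'⟩, if_neg]
    intro h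
    exact hij (congrArg Fin.val h)
  norm := fun j hj => by
    have hj' : j < n := Finset.mem_range.1 hj
    simp only [hj', dif_pos]
    rw [hv.orth ⟨j, hj'⟩ ⟨j, hj'⟩, if_pos rfl]
  span := fun ψ hψ => by
    obtain ⟨c, hc⟩ := hv.span ψ (eigOf Φ) hψ (agreeOut_symm817 hC)
    refine ⟨fun j => if h : j < n then c ⟨j, h⟩ else 0, fun x => ?_⟩
    rw [hc x, Finset.sum_range]
    refine Finset.sum_congr rfl fun a _ => ?_
    simp only [a.2, dif_pos, Fin.eta]

/-- The twisted trace of helper736 in a class basis of helper561. -/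
theorem twTrace_eq817 (s : T5.AdelicAut K') (R : Frame5 K') (Hg : Finset (G K')) {n : ℕ}
    (v : Fin n → G K' → ℂ) :
    SU736.twTrace s R Hg (fun j => if h : j < n then v ⟨j, h⟩ else 0) (Finset.range n)
      = ∑ a, T5.innerD R.μ R.F (cosetOp Hg (T5.Rsig s (v a))) (v a) := by
  unfold SU736.twTrace
  rw [Finset.sum_range]
  refine Finset.sum_congr rfl fun a _ => ?_
  simp only [a.2, dif_pos, Fin.eta]

variable (K K')

/-- **THE ADAPTER**: the node `NonVanC561` of the cut of helper561 from the node `NonVanC` of the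
cut of helper736, the leaf `SigmaC561` and the closed leaf `SD534.IwSysC`. -/
theorem nonVanC561_of817 (hN : SU736.NonVanC K K') (hσ : H561.SigmaC561 K K')
    (hI : SD534.IwSysC K') : H561.NonVanC561 K K' := by
  intro ℓ hcyc hℓ hcplx Φ hΦ hconst Dt hDt hst
  obtain ⟨g, Hg, hg, hHg, hne⟩ :=
    hN ℓ hcyc hℓ hcplx Φ hΦ hconst Dt hDt (baseStable_of561_817 hDt hst)
  obtain ⟨σC, hσ1, hσ2, hσ3⟩ := hσ ℓ hcyc hℓ hcplx Φ hΦ hconst Dt hDt hst
  obtain ⟨⟨H, hH⟩, ⟨z, hz⟩⟩ := hI (Dt.o 0)
  refine ⟨g, 0, 0, hg, fun C n v hC hv => ?_⟩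
  have hbasis := isClassBasisOn_of561_817 hDt hC hv
  have htw := hne _ _ hbasis
  rw [twTrace_eq817] at htw
  have hc : Dt.c g C ≠ 0 := hDt.base_ne g hg C hC
  -- `R(σ)` preserves the class
  have hsig : ∀ a, IsEigFn Dt.𝔑₀ Dt.R'.r ℓ Dt.o (T5.Rsig Dt.s (v a)) C := fun a =>
    isEigFn_congr817 hDt.mem_S'
      (agreeOut_trans817 (agreeOut_trans817 (hσ1 C (eigOf Φ) hC) hσ3) (agreeOut_symm817 hC))
      (hσ2 (v a) C (hv.eig a))
  -- (OP-up) at the empty word, `k = 0`, `m = 0`
  have hop : ∀ a, T5.Rconv Dt.R'.μ (Dt.φ' g [] 0 0) (T5.Rsig Dt.s (v a))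
      = fun x => Dt.c g C * cosetOp Hg (T5.Rsig Dt.s (v a)) x := fun a => by
    funext x
    have h := hDt.op_up g [] 0 0 hg (fun x hx => absurd hx (List.not_mem_nil))
      (T5.Rsig Dt.s (v a)) C (hsig a) Hg H z hHg hH hz x
    rw [h, wordEv_nil817, one_mul]
    have hshift : shiftOp z 0 ((iwOp (Dt.o 0) H)^[0] (T5.Rsig Dt.s (v a)))
        = T5.Rsig Dt.s (v a) := by
      funext y
      simp [shiftOp]
    rw [hshift]
  have hsum : (∑ a, T5.innerD Dt.R'.μ Dt.R'.F
      (T5.Rconv Dt.R'.μ (Dt.φ' g [] 0 0) (T5.Rsig Dt.s (v a))) (v a))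
      = Dt.c g C * ∑ a, T5.innerD Dt.R'.μ Dt.R'.F (cosetOp Hg (T5.Rsig Dt.s (v a))) (v a) := by
    rw [Finset.mul_sum]
    refine Finset.sum_congr rfl fun a _ => ?_
    rw [hop a, innerD_const_mul817]
  rw [hsum]
  exact mul_ne_zero hc htw

end TwoFields

end Fermat.Agent.LT.T7.H817

end

end
-- ===== PACK-END LT/T7/H817/NonVanAdapt.lean

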