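import Mathlib
import Fermat.Agent.Pack.LT3.E22L2
import Fermat.Agent.Pack.LT3.E10L2
import Fermat.Agent.Pack.LT2.E3L0
import Fermat.Agent.Pack.LT3.E7L3
import Fermat.Agent.Pack.LT2.E0L1
import Fermat.Agent.Pack.LT3.E13L0
import Fermat.Agent.Pack.LT3.E22L0
import Fermat.Agent.Pack.LT3.E22L1
import Fermat.Agent.Pack.LT2.E2L1
import Fermat.Agent.Pack.LT2.E0L2
import Fermat.Agent.Pack.LT2.E4L2
import Fermat.Agent.Pack.LT2.E6L3
import Fermat.Agent.Pack.LT2.E4L1
import Fermat.Agent.Pack.LT2.E10L0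
import Fermat.Agent.Pack.LT3.E21L0
import Fermat.Agent.Pack.LT3.E23L2
import Fermat.Agent.Pack.LT3.E23L3

set_option linter.all false

-- ===== PACK-BEGIN LT/T7/H941/SuppDown.lean
section





/-!
# Row LT, tower T7, level 2, leaf T7.L2.1.C2.7.6 `SuppDownC305` (helper941, registry row 2570)

OFF-MAIN.  `suppDownC941 K : H305.SuppDownC305 K`, VERBATIM (cut of helper305, `MatchCut.lean`),
unconditional, every number field.

If `γ ∈ GL₂(K)` is good outside `S` and `x⁻¹ γ x ∈ GL₂(𝒪_v)` for `v ∉ S`, then `x = t x'` with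
`t` in the centraliser `T_𝔸(γ)` and `x'_v ∈ GL₂(𝒪_v)` for `v ∉ S`.

Proof.  Local statement: helper159 `goodUnit_down159`.  The set of the finite places `v` with
`x_v ∉ GL₂(𝒪_v)` is finite (`finite_nonint941`); induction on a finite set `B` containing the bad
places outside `S` (`suppDown_aux941`): at `v₀ ∈ B \ S` write `x_{v₀} = t₀ u₀`, and replace `x` by
`locFin129 v₀ t₀⁻¹ · x` (the local embedding of helper129 commutes with `γ`:
`locFin_comm941`).
-/

set_option autoImplicit false

open AutomorphicForm IsDedekindDomain NumberField MeasureTheory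

noncomputable section

namespace Fermat.Agent.LT.T7.H941

open Fermat.Agent.LT Fermat.Agent.LT.H556 Fermat.Agent.LT.H556.A0 Fermat.Agent.LT.T7
open Fermat.Agent.LT.T7.H305

/-! ## Local: `U(0)` and integrality -/

section Local

variable {k : Type} [Field k] [Valued k T6.Γ₀]

theorem integral_of_inU941 {g : GL (Fin 2) k} (h : T6.InU 0 g) :
    (∀ i j : Fin 2, Valued.v ((g : Matrix (Fin 2) (Fin 2) k) i j) ≤ 1) ∧
      ∀ i j : Fin 2, Valued.v (((g⁻¹ : GL (Fin 2) k) : Matrix (Fin 2) (Fin 2) k) i j) ≤ 1 := by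
  have he : WithZero.exp (-((0 : ℕ) : ℤ)) = (1 : T6.Γ₀) := by simp
  have hone : ∀ i j : Fin 2, Valued.v ((1 : Matrix (Fin 2) (Fin 2) k) i j) ≤ 1 := by
    intro i j
    rw [Matrix.one_apply]
    split_ifs <;> simp
  constructor
  · intro i j
    have h1 := (h i j).1
    rw [he] at h1
    have e : (g : Matrix (Fin 2) (Fin 2) k) i j
        = ((g : Matrix (Fin 2) (Fin 2) k) i j - (1 : Matrix (Fin 2) (Fin 2) k) i j)
          + (1 : Matrix (Fin 2) (Fin 2) k) i j := by ring
    rw [e]
    exact Valuation.map_add_le _ h1 (hone i j)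
  · intro i j
    have h1 := (h i j).2
    rw [he] at h1
    have e : ((g⁻¹ : GL (Fin 2) k) : Matrix (Fin 2) (Fin 2) k) i j
        = (((g⁻¹ : GL (Fin 2) k) : Matrix (Fin 2) (Fin 2) k) i j
            - (1 : Matrix (Fin 2) (Fin 2) k) i j)
          + (1 : Matrix (Fin 2) (Fin 2) k) i j := by ring
    rw [e]
    exact Valuation.map_add_le _ h1 (hone i j)

end Local

variable {K : Type} [Field K] [NumberField K]

/-! ## Components -/

theorem finGL_eq941 (v : HeightOneSpectrum (𝓞 K)) : finGL305 v = H129.finCompHom129 v := rfl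

theorem finGL_val941 (v : HeightOneSpectrum (𝓞 K)) (h : G K) (i j : Fin 2) :
    ((finGL305 v h : GL (Fin 2) (v.adicCompletion K)) :
      Matrix (Fin 2) (Fin 2) (v.adicCompletion K)) i j = finComp v h i j := rfl

theorem finGL_ratG941 (v : HeightOneSpectrum (𝓞 K)) (γ : GL (Fin 2) K) :
    finGL305 v (T5.ratG γ) = locG305 v γ := by
  apply Units.ext
  ext i j
  rfl

theorem onG_id941 (t : G K) : (T5.AdelicAut.id K).onG t = t := by
  apply Units.ext
  ext i j
  rfl

theorem mem_tA_iff941 (γ : GL (Fin 2) K) (t : G K) :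
    t ∈ tA305 (T5.AdelicAut.id K) γ ↔ t * T5.ratG γ = T5.ratG γ * t := by
  change t⁻¹ * T5.ratG γ * (T5.AdelicAut.id K).onG t = T5.ratG γ ↔ _
  rw [onG_id941]
  constructor
  · intro h
    calc t * T5.ratG γ = t * (t⁻¹ * T5.ratG γ * t) := by rw [h]
      _ = T5.ratG γ * t := by group
  · intro h
    calc t⁻¹ * T5.ratG γ * t = t⁻¹ * (T5.ratG γ * t) := by group
      _ = t⁻¹ * (t * T5.ratG γ) := by rw [h]
      _ = T5.ratG γ := by group

/-- `OutT305` in terms of `U(0)`. -/
theorem outT_iff941 (S : Finset (HeightOneSpectrum (𝓞 K))) (h : G K) :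
    OutT305 S h ↔ ∀ v : HeightOneSpectrum (𝓞 K), v ∉ S → T6.InU 0 (finGL305 v h) := by
  unfold OutT305
  refine forall_congr' fun v => imp_congr_right fun _ => ?_
  constructor
  · rintro ⟨h1, h2⟩
    apply T6.H288.H546.inU_zero_of_integral_h546
    · intro i j
      exact (HeightOneSpectrum.mem_adicCompletionIntegers (𝓞 K) K v).1 (h1 i j)
    · intro i j
      rw [← map_inv]
      exact (HeightOneSpectrum.mem_adicCompletionIntegers (𝓞 K) K v).1 (h2 i j)
  · intro hU
    obtain ⟨a, b⟩ := integral_of_inU941 hU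
    refine ⟨fun i j => (HeightOneSpectrum.mem_adicCompletionIntegers (𝓞 K) K v).2 (a i j),
      fun i j => (HeightOneSpectrum.mem_adicCompletionIntegers (𝓞 K) K v).2 ?_⟩
    have := b i j
    rw [← map_inv] at this
    exact this

/-- The components of `x ∈ GL₂(𝔸_K)` are in `GL₂(𝒪_v)` at almost all `v`. -/
theorem finite_nonint941 (x : G K) :
    {v : HeightOneSpectrum (𝓞 K) | ¬ T6.InU 0 (finGL305 v x)}.Finite := by
  have h1 : ∀ i j : Fin 2, ∀ᶠ v : HeightOneSpectrum (𝓞 K) in Filter.cofinite,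
      ((x : Matrix (Fin 2) (Fin 2) (Adl K)) i j).2 v ∈ v.adicCompletionIntegers K :=
    fun i j => ((x : Matrix (Fin 2) (Fin 2) (Adl K)) i j).2.2
  have h2 : ∀ i j : Fin 2, ∀ᶠ v : HeightOneSpectrum (𝓞 K) in Filter.cofinite,
      (((x⁻¹ : G K) : Matrix (Fin 2) (Fin 2) (Adl K)) i j).2 v ∈ v.adicCompletionIntegers K :=
    fun i j => (((x⁻¹ : G K) : Matrix (Fin 2) (Fin 2) (Adl K)) i j).2.2
  have h3 : ∀ᶠ v : HeightOneSpectrum (𝓞 K) in Filter.cofinite, T6.InU 0 (finGL305 v x) := by
    have a1 := Filter.eventually_all.2 fun i : Fin 2 => Filter.eventually_all.2 (h1 i)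
    have a2 := Filter.eventually_all.2 fun i : Fin 2 => Filter.eventually_all.2 (h2 i)
    filter_upwards [a1, a2] with v hv1 hv2
    apply T6.H288.H546.inU_zero_of_integral_h546
    · intro i j
      exact (HeightOneSpectrum.mem_adicCompletionIntegers (𝓞 K) K v).1 (hv1 i j)
    · intro i j
      rw [← map_inv]
      exact (HeightOneSpectrum.mem_adicCompletionIntegers (𝓞 K) K v).1 (hv2 i j)
  exact Filter.eventually_cofinite.1 h3

/-! ## The local embedding commutes with `γ` -/

theorem locFin_comm941 (v₀ : HeightOneSpectrum (𝓞 K)) (t₀ : GL (Fin 2) (v₀.adicCompletion K))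
    (γ : GL (Fin 2) K) (h : t₀ * locG305 v₀ γ = locG305 v₀ γ * t₀) :
    H129.locFin129 v₀ t₀ * T5.ratG γ = T5.ratG γ * H129.locFin129 v₀ t₀ := by
  apply H129.G_ext129
  · intro w
    rw [map_mul, map_mul, H129.infCompHom129_locFin129, one_mul, mul_one]
  · intro v
    rw [map_mul, map_mul]
    by_cases hv : v = v₀
    · subst hv
      rw [H129.finCompHom129_locFin129, ← finGL_eq941, finGL_ratG941]
      exact h
    · rw [H129.finCompHom129_locFin129_of_ne _ _ hv, one_mul, mul_one]

/-! ## The induction -/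

theorem suppDown_aux941 (γ : GL (Fin 2) K) (S : Finset (HeightOneSpectrum (𝓞 K)))
    (hγ : GoodOut305 S γ) (B : Finset (HeightOneSpectrum (𝓞 K))) :
    ∀ x : G K,
      (∀ v : HeightOneSpectrum (𝓞 K), v ∉ S →
        T6.InU 0 (finGL305 v (x⁻¹ * T5.ratG γ * x))) →
      (∀ v : HeightOneSpectrum (𝓞 K), v ∉ S → v ∉ B → T6.InU 0 (finGL305 v x)) →
      ∃ t : G K, t ∈ tA305 (T5.AdelicAut.id K) γ ∧
        ∀ v : HeightOneSpectrum (𝓞 K), v ∉ S → T6.InU 0 (finGL305 v (t⁻¹ * x)) := by
  classical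
  induction B using Finset.induction_on with
  | empty =>
    intro x _ hx
    refine ⟨1, Subgroup.one_mem _, fun v hv => ?_⟩
    rw [inv_one, one_mul]
    exact hx v hv (Finset.notMem_empty v)
  | insert v₀ B' hv₀ ih =>
    intro x hconj hx
    by_cases hS : v₀ ∈ S
    · apply ih x hconj
      intro v hv hvB
      apply hx v hv
      rw [Finset.mem_insert]
      rintro (rfl | h)
      · exact hv hS
      · exact hvB h
    · obtain ⟨hγU, hγd⟩ := hγ v₀ hS
      have hloc : T6.InU 0 ((finGL305 v₀ x)⁻¹ * locG305 v₀ γ * finGL305 v₀ x) := by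
        have := hconj v₀ hS
        rwa [map_mul, map_mul, map_inv, finGL_ratG941] at this
      obtain ⟨t₀, u₀, hcomm, hu₀, hx₀⟩ :=
        H159.goodUnit_down159 (locG305 v₀ γ) (finGL305 v₀ x) hγU hγd hloc
      have hT₀c : H129.locFin129 v₀ t₀ * T5.ratG γ = T5.ratG γ * H129.locFin129 v₀ t₀ :=
        locFin_comm941 v₀ t₀ γ hcomm
      have hT₀ : H129.locFin129 v₀ t₀ ∈ tA305 (T5.AdelicAut.id K) γ :=
        (mem_tA_iff941 γ _).2 hT₀c
      have h1 : ∀ v : HeightOneSpectrum (𝓞 K), v ∉ S →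
          T6.InU 0 (finGL305 v (((H129.locFin129 v₀ t₀)⁻¹ * x)⁻¹ * T5.ratG γ
            * ((H129.locFin129 v₀ t₀)⁻¹ * x))) := by
        intro v hv
        have e : ((H129.locFin129 v₀ t₀)⁻¹ * x)⁻¹ * T5.ratG γ * ((H129.locFin129 v₀ t₀)⁻¹ * x)
            = x⁻¹ * T5.ratG γ * x := by
          calc ((H129.locFin129 v₀ t₀)⁻¹ * x)⁻¹ * T5.ratG γ * ((H129.locFin129 v₀ t₀)⁻¹ * x)
              = x⁻¹ * (H129.locFin129 v₀ t₀ * T5.ratG γ) * (H129.locFin129 v₀ t₀)⁻¹ * x := by
                group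
            _ = x⁻¹ * (T5.ratG γ * H129.locFin129 v₀ t₀) * (H129.locFin129 v₀ t₀)⁻¹ * x := by
                rw [hT₀c]
            _ = x⁻¹ * T5.ratG γ * x := by group
        rw [e]
        exact hconj v hv
      have h2 : ∀ v : HeightOneSpectrum (𝓞 K), v ∉ S → v ∉ B' →
          T6.InU 0 (finGL305 v ((H129.locFin129 v₀ t₀)⁻¹ * x)) := by
        intro v hv hvB
        rw [map_mul, map_inv]
        by_cases hvv : v = v₀
        · subst hvv
          rw [finGL_eq941, H129.finCompHom129_locFin129, ← finGL_eq941, hx₀, inv_mul_cancel_left]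
          exact hu₀
        · rw [finGL_eq941, H129.finCompHom129_locFin129_of_ne _ _ hvv, inv_one, one_mul,
            ← finGL_eq941]
          apply hx v hv
          rw [Finset.mem_insert]
          rintro (h | h)
          · exact hvv h
          · exact hvB h
      obtain ⟨t', ht', hout⟩ := ih ((H129.locFin129 v₀ t₀)⁻¹ * x) h1 h2
      refine ⟨H129.locFin129 v₀ t₀ * t', Subgroup.mul_mem _ hT₀ ht', fun v hv => ?_⟩
      have e : (H129.locFin129 v₀ t₀ * t')⁻¹ * x = t'⁻¹ * ((H129.locFin129 v₀ t₀)⁻¹ * x) := by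
        group
      rw [e]
      exact hout v hv

/-! ## The leaf -/

/-- **T7.L2.1.C2.7.6 `H305.SuppDownC305`**, verbatim, unconditional. -/
theorem suppDownC941 (K : Type) [Field K] [NumberField K] : SuppDownC305 K := by
  intro γ S hγ x hx
  classical
  obtain ⟨t, ht, hout⟩ := suppDown_aux941 γ S hγ (finite_nonint941 x).toFinset x
    ((outT_iff941 S _).1 hx)
    (fun v _ hvB => by
      by_contra h
      exact hvB ((Set.Finite.mem_toFinset _).2 h))
  exact ⟨t, ht, (outT_iff941 S _).2 hout⟩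

end Fermat.Agent.LT.T7.H941

end

end
-- ===== PACK-END LT/T7/H941/SuppDown.lean

-- ===== PACK-BEGIN LT/T7/H159/HaarSplit305.lean
section




/-!
# Row LT, tower T7, node CutIntC305, LEAF C2.7.4 `HaarSplitC305` (helper159): PROVED, VERBATIM

OFF-MAIN.  No hole, nothing assumed.  ADDITIVE (suffix `159`).

    haarSplitC159 (K) : H305.HaarSplitC305 K

On `HaarSplit.lean` (`isHaarMeasure_map_restrict159`) and `RestrGL.lean` (`surj_restr159`,
`proper_restr159`, `isOpen_restrSub159`) of helper159; statement of `T7/H305/MatchCut.lean`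
(helper305).  The constant: `c = μ(A) / μc(C)^{#w}`, `A = {y : y_v ∈ U(m_v) for all v, y_w ∈ C}`
for a compact neighbourhood `C` of `1` in `GL₂(ℂ)`.
-/

set_option autoImplicit false
set_option linter.style.haveILetI false

open IsDedekindDomain NumberField MeasureTheory
open scoped RestrictedProduct

noncomputable section

namespace Fermat.Agent.LT.T7.H159

open Fermat.Agent.LT.H556.A0 Fermat.Agent.LT Fermat.Agent.LT.T7

variable {K : Type} [Field K] [NumberField K]

/-! ## Local facts -/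

theorem isOpen_ball159 (v : HeightOneSpectrum (𝓞 K)) (a : v.adicCompletion K) (n : ℕ) :
    IsOpen {x : v.adicCompletion K | Valued.v (x - a) ≤ WithZero.exp (-(n : ℤ))} := by
  obtain ⟨π, hπ⟩ := v.valuation_exists_uniformizer K
  set ϖ : v.adicCompletion K := (π : v.adicCompletion K) with hϖdef
  have hϖ : Valued.v ϖ = WithZero.exp (-1 : ℤ) := by
    rw [hϖdef, HeightOneSpectrum.valuedAdicCompletion_eq_valuation', hπ]
  have hϖn : Valued.v (ϖ ^ n) = WithZero.exp (-(n : ℤ)) := by
    rw [map_pow, hϖ, ← WithZero.exp_nsmul]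
    simp
  have hpos : (0 : T6.Γ₀) < Valued.v (ϖ ^ n) := by
    rw [hϖn]; exact WithZero.exp_pos
  have hO : IsOpen (v.adicCompletionIntegers K : Set (v.adicCompletion K)) :=
    Valued.isOpen_valuationSubring _
  have hcont : Continuous fun x : v.adicCompletion K => (ϖ ^ n)⁻¹ * (x - a) :=
    continuous_const.mul (continuous_id.sub continuous_const)
  have hset : {x : v.adicCompletion K | Valued.v (x - a) ≤ WithZero.exp (-(n : ℤ))}
      = (fun x : v.adicCompletion K => (ϖ ^ n)⁻¹ * (x - a)) ⁻¹'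
        (v.adicCompletionIntegers K : Set (v.adicCompletion K)) := by
    ext x
    simp only [Set.mem_ofPred_eq, Set.mem_preimage, SetLike.mem_coe,
      HeightOneSpectrum.mem_adicCompletionIntegers, map_mul, map_inv₀]
    rw [inv_mul_le_iff₀ hpos, mul_one, hϖn]
  rw [hset]
  exact hO.preimage hcont

theorem isOpen_InU159 (v : HeightOneSpectrum (𝓞 K)) (n : ℕ) :
    IsOpen {g : GL (Fin 2) (v.adicCompletion K) | T6.InU n g} := by
  have e : {g : GL (Fin 2) (v.adicCompletion K) | T6.InU n g}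
      = ⋂ (i : Fin 2), ⋂ (j : Fin 2),
        ((fun g : GL (Fin 2) (v.adicCompletion K) =>
            (g : Matrix (Fin 2) (Fin 2) (v.adicCompletion K)) i j) ⁻¹'
            {x | Valued.v (x - (1 : Matrix (Fin 2) (Fin 2) (v.adicCompletion K)) i j)
              ≤ WithZero.exp (-(n : ℤ))}) ∩
          ((fun g : GL (Fin 2) (v.adicCompletion K) =>
            ((g⁻¹ : GL (Fin 2) (v.adicCompletion K)) :
              Matrix (Fin 2) (Fin 2) (v.adicCompletion K)) i j) ⁻¹'
            {x | Valued.v (x - (1 : Matrix (Fin 2) (Fin 2) (v.adicCompletion K)) i j)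
              ≤ WithZero.exp (-(n : ℤ))}) := by
    ext g
    simp only [Set.mem_iInter, Set.mem_inter_iff, Set.mem_preimage]
    rfl
  rw [e]
  refine isOpen_iInter_of_finite fun i => isOpen_iInter_of_finite fun j => IsOpen.inter ?_ ?_
  · exact (isOpen_ball159 v _ n).preimage (continuous_entryGL159 i j)
  · exact (isOpen_ball159 v _ n).preimage (continuous_entryInvGL159 i j)

theorem inU_zero_iff159 (v : HeightOneSpectrum (𝓞 K)) (g : GL (Fin 2) (v.adicCompletion K)) :
    T6.InU 0 g ↔ g ∈ intGL159 K v := by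
  have key : ∀ (x : v.adicCompletion K) (i j : Fin 2),
      Valued.v (x - (1 : Matrix (Fin 2) (Fin 2) (v.adicCompletion K)) i j)
          ≤ WithZero.exp (-((0 : ℕ) : ℤ)) ↔ x ∈ v.adicCompletionIntegers K := by
    intro x i j
    have h1 := one_entry_mem159 v i j
    have e0 : WithZero.exp (-((0 : ℕ) : ℤ)) = (1 : T6.Γ₀) := by simp
    rw [e0, ← HeightOneSpectrum.mem_adicCompletionIntegers]
    constructor
    · intro h
      have := add_mem h h1
      simpa using this
    · intro h
      exact sub_mem h h1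
  constructor
  · intro h
    exact ⟨fun i j => (key _ i j).1 (h i j).1, fun i j => (key _ i j).1 (h i j).2⟩
  · rintro ⟨h1, h2⟩ i j
    exact ⟨(key _ i j).2 (h1 i j), (key _ i j).2 (h2 i j)⟩

/-! ## The map to the product -/

attribute [local instance] Fermat.Agent.LT.T5.instMeasurableSpaceG

section Main

variable (K)

/-- The target group `∏_{v ∈ S} GL₂(K_v) × ∏_w GL₂(ℂ)`. -/
abbrev Tgt159 (S : Finset (HeightOneSpectrum (𝓞 K))) : Type :=
  (∀ v : S, GL (Fin 2) ((v : HeightOneSpectrum (𝓞 K)).adicCompletion K)) ×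
    (InfinitePlace K → GL (Fin 2) ℂ)

/-- `compS305 S` as a homomorphism. -/
def compHom159 (S : Finset (HeightOneSpectrum (𝓞 K))) : G K →* Tgt159 K S :=
  MonoidHom.prod (MonoidHom.pi fun v : S => H305.finGL305 v.1)
    (MonoidHom.pi fun w => H305.infGL305 w)

theorem compHom_eq159 (S : Finset (HeightOneSpectrum (𝓞 K))) :
    ⇑(compHom159 K S) = H305.compS305 S := rfl

theorem continuous_compHom159 (S : Finset (HeightOneSpectrum (𝓞 K))) :
    Continuous (compHom159 K S) := by
  refine Continuous.prodMk (continuous_pi fun v => ?_) (continuous_pi fun w => ?_)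
  · exact continuous_locProj159 (Sum.inr v.1)
  · exact continuous_locProj159 (Sum.inl w)

variable {K}

theorem surj_comp159 (hK : ∀ w : InfinitePlace K, w.IsComplex)
    (S : Finset (HeightOneSpectrum (𝓞 K))) (h : Tgt159 K S) :
    ∃ e ∈ restrSub159 (locProj159 K) (locK159 K) (baseSet159 K S), compHom159 K S e = h := by
  set x : ∀ i : baseSet159 K S, LocGL159 K i := fun i =>
    match i with
    | ⟨Sum.inl w, _⟩ => (h.2 w : GL (Fin 2) ℂ)
    | ⟨Sum.inr v, hv⟩ => (h.1 ⟨v, (inr_mem_baseSet159 S v).1 hv⟩ :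
        GL (Fin 2) (v.adicCompletion K)) with hx
  obtain ⟨g, hg, hgx⟩ := surj_restr159 hK (baseSet159 K S) (fun w => inl_mem_baseSet159 S w) x
  refine ⟨g, hg, Prod.ext (funext fun v => ?_) (funext fun w => ?_)⟩
  · exact congrFun hgx ⟨Sum.inr v.1, (inr_mem_baseSet159 S v.1).2 v.2⟩
  · exact congrFun hgx ⟨Sum.inl w, inl_mem_baseSet159 S w⟩

open Classical in
theorem proper_comp159 (S : Finset (HeightOneSpectrum (𝓞 K))) (C : Set (Tgt159 K S))
    (hC : IsCompact C) :
    ∃ C' : Set (G K), IsCompact C' ∧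
      (compHom159 K S) ⁻¹' C ∩
        (restrSub159 (locProj159 K) (locK159 K) (baseSet159 K S) : Set (G K)) ⊆ C' := by
  set Cf : ∀ i : Pl159 K, Set (LocGL159 K i) := fun i =>
    match i with
    | Sum.inl w => ((fun h : Tgt159 K S => h.2 w) '' C : Set (GL (Fin 2) ℂ))
    | Sum.inr v => (if hv : v ∈ S then (fun h : Tgt159 K S => h.1 ⟨v, hv⟩) '' C else ∅ :
        Set (GL (Fin 2) (v.adicCompletion K))) with hCf
  have hcomp : ∀ i ∈ baseSet159 K S, IsCompact (Cf i) := by
    intro i hi
    cases i with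
    | inl w => exact hC.image ((continuous_apply w).comp continuous_snd)
    | inr v =>
      have hv := (inr_mem_baseSet159 S v).1 hi
      have e : Cf (Sum.inr v) = (fun h : Tgt159 K S => h.1 ⟨v, hv⟩) '' C := dif_pos hv
      rw [e]
      exact hC.image ((continuous_apply (⟨v, hv⟩ : S)).comp continuous_fst)
  obtain ⟨C', hC', hsub⟩ := proper_restr159 (baseSet159 K S)
    (fun w => inl_mem_baseSet159 S w) Cf hcomp
  refine ⟨C', hC', ?_⟩
  rintro g ⟨hgC, hgE⟩
  refine hsub ⟨hgE, fun i hi => ?_⟩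
  cases i with
  | inl w => exact ⟨compHom159 K S g, hgC, rfl⟩
  | inr v =>
    have hv := (inr_mem_baseSet159 S v).1 hi
    have e : Cf (Sum.inr v) = (fun h : Tgt159 K S => h.1 ⟨v, hv⟩) '' C := dif_pos hv
    rw [e]
    exact ⟨compHom159 K S g, hgC, rfl⟩

end Main

/-! ## The leaf -/

section Leaf

theorem exists_nice_nhds_gen159 {X : Type*} [Group X] [TopologicalSpace X]
    [IsTopologicalGroup X] [LocallyCompactSpace X] [MeasurableSpace X] [BorelSpace X]
    (μ : Measure X) [μ.IsHaarMeasure] :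
    ∃ C : Set X, IsCompact C ∧ MeasurableSet C ∧ μ C ≠ 0 ∧ μ C ≠ ⊤ := by
  obtain ⟨C, hC, hC1⟩ := exists_compact_mem_nhds (1 : X)
  refine ⟨closure C, hC.closure, isClosed_closure.measurableSet, ?_, hC.closure.measure_lt_top.ne⟩
  exact (MeasureTheory.Measure.measure_pos_of_mem_nhds μ
    (Filter.mem_of_superset hC1 subset_closure)).ne'

variable (K)

/-- **LEAF C2.7.4 = HAAR-SPLIT, PROVED.** -/
theorem haarSplitC159 : H305.HaarSplitC305 K := by
  intro hK μ hμ μc hμc T₀ m hm
  classical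
  letI mv : ∀ v : HeightOneSpectrum (𝓞 K), MeasurableSpace (GL (Fin 2) (v.adicCompletion K)) :=
    fun _ => borel _
  letI mc : MeasurableSpace (GL (Fin 2) ℂ) := borel _
  haveI : ∀ v : HeightOneSpectrum (𝓞 K), BorelSpace (GL (Fin 2) (v.adicCompletion K)) :=
    fun _ => ⟨rfl⟩
  haveI : BorelSpace (GL (Fin 2) ℂ) := ⟨rfl⟩
  haveI : SecondCountableTopology (GL (Fin 2) ℂ) := secondCountable_GLC159
  haveI : LocallyCompactSpace (GL (Fin 2) ℂ) := locallyCompactSpace_GLC159
  haveI : ∀ v : HeightOneSpectrum (𝓞 K),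
      SecondCountableTopology (GL (Fin 2) (v.adicCompletion K)) :=
    fun v => secondCountable_GLv159 K v
  haveI : ∀ v : HeightOneSpectrum (𝓞 K),
      LocallyCompactSpace (GL (Fin 2) (v.adicCompletion K)) :=
    fun v => H11.LC.locallyCompactSpace_GL2_adicCompletion_h11 K v
  haveI : BorelSpace (G K) := ⟨rfl⟩
  haveI := hμ
  haveI : μc.IsHaarMeasure := hμc
  obtain ⟨C, hCc, hCm, hC0, hCt⟩ := exists_nice_nhds_gen159 μc
  set A : Set (G K) := {y | (∀ v : HeightOneSpectrum (𝓞 K), T6.InU (m v) (H305.finGL305 v y)) ∧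
    ∀ w : InfinitePlace K, H305.infGL305 w y ∈ C} with hA
  set M : ENNReal := ∏ _w : InfinitePlace K, μc C with hM
  have hM0 : M ≠ 0 := Finset.prod_ne_zero_iff.mpr fun _ _ => hC0
  have hMt : M ≠ ⊤ := ENNReal.prod_ne_top fun _ _ => hCt
  set c0 : ℝ := (μ A / M).toReal with hc0
  refine ⟨if 0 < c0 then c0 else 1, by split_ifs with h <;> [exact h; exact one_pos], ?_⟩
  intro S hS μv hμv
  haveI : ∀ v : HeightOneSpectrum (𝓞 K), (μv v).IsHaarMeasure := fun v => (hμv v).1
  set E := restrSub159 (locProj159 K) (locK159 K) (baseSet159 K S) with hEdef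
  have hE : {y : G K | H305.OutT305 S y} = (E : Set (G K)) := by
    ext y
    exact (mem_restrSub_base159 S y).symm
  have hH : (Measure.map (compHom159 K S) (μ.restrict (E : Set (G K)))).IsHaarMeasure :=
    isHaarMeasure_map_restrict159 μ E (isOpen_restrSub159 _) (compHom159 K S)
      (continuous_compHom159 K S) (surj_comp159 hK S)
      (fun C hC _ => proper_comp159 S C hC)
  set P : Measure (Tgt159 K S) :=
    (Measure.pi fun v : S => μv v.1).prod (Measure.pi fun _ : InfinitePlace K => μc) with hP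
  haveI i1 : ∀ v : S, MeasurableMul (GL (Fin 2) (v.1.adicCompletion K)) := fun v => inferInstance
  haveI i2 : MeasurableMul (GL (Fin 2) ℂ) := inferInstance
  haveI i3 : ∀ v : S, SigmaFinite (μv v.1) := fun v => inferInstance
  haveI i4 : SigmaFinite μc := inferInstance
  haveI i5 : (Measure.pi fun v : S => μv v.1).IsHaarMeasure := inferInstance
  haveI i6 : (Measure.pi fun _ : InfinitePlace K => μc).IsHaarMeasure := inferInstance
  haveI i7 : MeasurableMul (∀ v : S, GL (Fin 2) (v.1.adicCompletion K)) := inferInstance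
  haveI i8 : MeasurableMul (InfinitePlace K → GL (Fin 2) ℂ) := inferInstance
  haveI : P.IsHaarMeasure := by rw [hP]; infer_instance
  set s : NNReal :=
    MeasureTheory.Measure.haarScalarFactor (Measure.map (compHom159 K S) (μ.restrict (E : Set (G K)))) P with hs
  have e1 : Measure.map (compHom159 K S) (μ.restrict (E : Set (G K))) = s • P :=
    MeasureTheory.Measure.isMulLeftInvariant_eq_smul _ _
  have hspos : 0 < s := MeasureTheory.Measure.haarScalarFactor_pos_of_isHaarMeasure _ _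
  set W : Set (Tgt159 K S) :=
    (Set.pi Set.univ fun v : S => {g : GL (Fin 2) (v.1.adicCompletion K) | T6.InU (m v.1) g}) ×ˢ
      (Set.pi Set.univ fun _ : InfinitePlace K => C) with hW
  have hWm : MeasurableSet W :=
    (MeasurableSet.univ_pi fun v => (isOpen_InU159 v.1 (m v.1)).measurableSet).prod
      (MeasurableSet.univ_pi fun _ => hCm)
  have hPW : P W = M := by
    rw [hP, hW, Measure.prod_prod, Measure.pi_pi, Measure.pi_pi]
    have : ∏ v : S, μv v.1 {g : GL (Fin 2) (v.1.adicCompletion K) | T6.InU (m v.1) g} = 1 :=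
      Finset.prod_eq_one fun v _ => (hμv v.1).2
    rw [this, one_mul]
  have hνW : Measure.map (compHom159 K S) (μ.restrict (E : Set (G K))) W = μ A := by
    rw [map_restrict_apply159 μ E (compHom159 K S) (continuous_compHom159 K S) hWm]
    congr 1
    ext y
    constructor
    · rintro ⟨⟨h1, h2⟩, h3⟩
      refine ⟨fun v => ?_, fun w => h2 w (Set.mem_univ w)⟩
      by_cases hv : v ∈ S
      · exact h1 ⟨v, hv⟩ (Set.mem_univ _)
      · have hm0 : m v = 0 := hm v fun h0 => hv (hS h0)
        rw [hm0]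
        refine (inU_zero_iff159 v _).2 ?_
        exact h3 (Sum.inr v) fun h' => hv ((inr_mem_baseSet159 S v).1 h')
    · rintro ⟨h1, h2⟩
      refine ⟨⟨fun v _ => h1 v.1, fun w _ => h2 w⟩, ?_⟩
      intro i hi
      cases i with
      | inl w => exact Subgroup.mem_top _
      | inr v =>
        have hv : v ∉ S := fun h' => hi ((inr_mem_baseSet159 S v).2 h')
        have hm0 : m v = 0 := hm v fun h0 => hv (hS h0)
        have := h1 v
        rw [hm0] at this
        exact (inU_zero_iff159 v _).1 this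
  have hμA : μ A = (s : ENNReal) * M := by
    rw [← hνW, e1, Measure.smul_apply, hPW]
    rfl
  have hc0s : c0 = (s : ℝ) := by
    rw [hc0, hμA, ENNReal.mul_div_cancel_right hM0 hMt]
    rfl
  have hc0pos : 0 < c0 := by
    rw [hc0s]
    exact_mod_cast hspos
  rw [if_pos hc0pos, hc0s]
  show Measure.map (H305.compS305 S) (μ.restrict {y | H305.OutT305 S y})
      = ENNReal.ofReal (s : ℝ) • P
  rw [hE, ← compHom_eq159, e1, ENNReal.ofReal_coe_nnreal]
  rfl

end Leaf

end Fermat.Agent.LT.T7.H159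

end

end
-- ===== PACK-END LT/T7/H159/HaarSplit305.lean

-- ===== PACK-BEGIN LT/T7/H340/FactUpSpec.lean
section



/-!
# Row LT, tower T7, node C2.7.13 `FactUpC305` (helper305's second cut; owner helper340,
# registry row 2577): THE CUT -- Spec

OFF-MAIN.  Definitions and frozen Props only (the proved top is `FactUpTop.lean`).  No hole,
nothing assumed.  ADDITIVE (new names only, suffix `340`).  Vocabulary:
`T7/H305/MatchSpec.lean` v2 (sha256 0e8798b2), `T7/H305/MatchCut.lean` (sha256 0f302b81) and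
their imports, byte-identical copies.

    factUpC_of340 : UpFactC340 K K' → LocEqInertC340 K K' → LocEqSplitC340 K K'
                      → LocEqArchC340 K K' → H305.FactUpC305 K K'        (VERBATIM)

## The cut

`N δ = γ` elliptic, `γ` good outside `S`, `δ` integral outside `S'` (the places over `S`).
The integral upstairs is computed in THREE steps which do not interact:

1. (`UpFactC340`, NODE: global → local, NO matching)  For the product cut-off upstairs the
   cut-off integral is `(c'_G / c_T) ∑_j ∏_{v ∈ S} J_v ∏_{v ∣ ∞} J_v(j)` where the `J`'s are the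
   LOCAL TWISTED INTEGRALS UPSTAIRS, in the coordinates of the places of `K`:
   * `v ∈ S` with ONE place `w` over it (inert or ramified), `IsInertVal340`:
     `J_v = ∫_{GL₂(K'_w)} φ₀_w(x⁻¹ δ_w s_w(x)) β'_w(x) dμ'_w(x)` (`locTwInt340` = the integral of
     `T6.OrbSumIntC`), `μ'_w(U(n_w)) = 1`, `β'_w` a continuous cut-off for the normalised Haar
     measure of the twisted centraliser;
   * `v ∈ S` split, `w_0, …, w_{l-1}` the places over it (`w_j = σ(w_{j+1})`), `i_j : K_v ≃
     K'_{w_j}`, `IsSplitVal340`: in the coordinates `y_j = i_j⁻¹(x_{w_j})`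
     (`(σ x)_{w_j} = x_{w_{j+1}}` in these coordinates, the torus is the diagonal image of the
     centraliser of `γ` in `GL₂(K_v)`)
     `J_v = ∫_{GL₂(K_v)^l} ∏_j φ_j(y_j⁻¹ δ_j y_{j+1}) β_v(y_0) ∏ dμ_v(y_j)` (`splitInt340`),
     `φ_j = φ₀_{w_j} ∘ i_j`, `δ_j = i_j⁻¹(δ_{w_j})`, `μ_v`, `β_v` the local data DOWNSTAIRS;
   * `v ∣ ∞` (complex, split), `IsArchVal340`: the same on `GL₂(ℂ)^l` in the `K`-COORDINATES
     `z_a = d_a(x_{w_a})`, `d_a ∈ {1, conj}` the type of `ι` at `w_a`
     (`(ι t)_{w_a} = d_a(t_v)`), `w_{a+1} = w_a ∘ σ`; in these coordinates no conjugation is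
     left (`σ ι = ι`), `δ_a = d_a((δ r'^j)_{w_a})`.
2. (`LocEqInertC340`, `LocEqSplitC340`, LEAVES, local, finite places)  `J_v = I_v`, the local
   cut-off integral downstairs (`locInt305`), by local matching (`LocHyp305`).
3. (`LocEqArchC340`, LEAF, local, infinite places)  `J_v(j) = I_v(j)`.

FALSITY CHECKS (helper340).  Constants: `c'_G` = the constant of `HaarSplitC305 K'` for the
levels `n` (the levels agree at the split places of `S`: `LocHyp305.split`; `U(0)` outside
`T₀`); the torus constant is the one DOWNSTAIRS (`IsTorLinked305`: `μT'` is the image of `μT`;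
the local torus measures correspond: `i⁻¹(T'^c) = T^c`).  Ray: `r'` has the scalar `ρ'` with
`ρ'^{2 n l} = 2`, `r` the scalar `ρ` with `ρ^{2n} = 2`, so `ρ'^l = ρ` (`T5.IsRayGen`).  Order:
`N δ = δ σ(δ) ⋯ σ^{l-1}(δ)` has the component `δ_0 δ_1 ⋯ δ_{l-1}` at `w_0` in the coordinates
of `K_v`, the iterated integral gives `(φ_0 * ⋯ * φ_{l-1})(y_0⁻¹ δ_0 ⋯ δ_{l-1} y_0)`
(`T6.SplitInt3C` for `l = 3`).  The values `J` do not depend on the choices (`s_w`, `i_j` are
unique by density, the integrals do not depend on the cut-off): the leaves of step 2, 3 are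
stated for EVERY admissible choice.
-/

set_option autoImplicit false

open AutomorphicForm IsDedekindDomain NumberField MeasureTheory
open scoped ComplexConjugate

noncomputable section

namespace Fermat.Agent.LT.T7.H340

open Fermat.Agent.LT.H556 Fermat.Agent.LT.H556.A0 Fermat.Agent.LT.T7 Fermat.Agent.LT.T7.H305

attribute [local instance] Fermat.Agent.LT.T5.instMeasurableSpaceG

/-! ## 1. The local integrals upstairs -/

/-- The local TWISTED cut-off integral `∫ φ(x⁻¹ δ s(x)) β(x) dμ(x)` on `GL₂(k)` (the integral of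
`T6.OrbSumIntC`). -/
def locTwInt340 {k : Type} [Field k] [Valued k T6.Γ₀] (s : k ≃+* k)
    (μ : @Measure (GL (Fin 2) k) (borel _)) (β : GL (Fin 2) k → ℝ) (φ : GL (Fin 2) k → ℂ)
    (δ : GL (Fin 2) k) : ℂ :=
  @integral _ _ _ _ (borel _) μ
    (fun x : GL (Fin 2) k => φ (x⁻¹ * δ * T6.glAut s x) * ((β x : ℝ) : ℂ))

/-- The cyclic successor on `Fin l`. -/
def cycSucc340 {l : ℕ} (j : Fin l) : Fin l := ⟨(j.1 + 1) % l, Nat.mod_lt _ j.pos⟩

/-- The SPLIT cut-off integral on `H^l`:
`∫ ∏_{j < l} φ_j(y_j⁻¹ δ_j y_{j+1}) β(y_0) ∏ dμ(y_j)` (indices modulo `l`). -/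
def splitInt340 {H : Type} [Group H] [TopologicalSpace H] (l : ℕ) (hl : 0 < l)
    (μ : @Measure H (borel _)) (β : H → ℝ) (φ : ℕ → H → ℂ) (δ : ℕ → H) : ℂ :=
  letI : MeasurableSpace H := borel _
  ∫ y : Fin l → H,
    (∏ j : Fin l, φ j.1 ((y j)⁻¹ * δ j.1 * y (cycSucc340 j))) * ((β (y ⟨0, hl⟩) : ℝ) : ℂ)
    ∂(Measure.pi fun _ : Fin l => μ)

section TwoFields

variable {K K' : Type} [Field K] [NumberField K] [Field K'] [NumberField K'] [Algebra K K']

/-- `J` is THE LOCAL TWISTED INTEGRAL UPSTAIRS at the place `v` with ONE place over it, for some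
admissible local data. -/
def IsInertVal340 (D : CompData K K') (n : HeightOneSpectrum (𝓞 K') → ℕ)
    (φ₀ : ∀ w : HeightOneSpectrum (𝓞 K'), GL (Fin 2) (w.adicCompletion K') → ℂ)
    (δ : GL (Fin 2) K') (v : HeightOneSpectrum (𝓞 K)) (J : ℂ) : Prop :=
  ∃ (w : HeightOneSpectrum (𝓞 K')) (e : ℕ) (i : v.adicCompletion K →+* w.adicCompletion K')
    (sw : w.adicCompletion K' ≃+* w.adicCompletion K')
    (μ' : @Measure (GL (Fin 2) (w.adicCompletion K')) (borel _))
    (μt' : @Measure (T6.twCentSub (T6.glAut sw) (locG305 w δ)) (borel _))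
    (β' : GL (Fin 2) (w.adicCompletion K') → ℝ),
    PlaceOver K K' v w ∧
    (∀ w' : HeightOneSpectrum (𝓞 K'), PlaceOver K K' v w' → w' = w) ∧
    (∀ x : K, i (algebraMap K (v.adicCompletion K) x)
      = algebraMap K' (w.adicCompletion K') (algebraMap K K' x)) ∧
    (∀ y : K', sw (algebraMap K' (w.adicCompletion K') y)
      = algebraMap K' (w.adicCompletion K') (D.s.σ y)) ∧
    T6.IsLocalExt (v.adicCompletion K) (w.adicCompletion K') D.l e i sw ∧
    IsLocHaar305 (n w) μ' ∧ IsLocTor305 sw (locG305 w δ) μt' ∧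
    IsLocCut305 sw (locG305 w δ) μt' β' ∧
    J = locTwInt340 sw μ' β' (φ₀ w) (locG305 w δ)

/-- `J` is THE LOCAL TWISTED INTEGRAL UPSTAIRS at the SPLIT place `v`, in the coordinates of
`K_v`, with the local Haar measure and the local cut-off function DOWNSTAIRS. -/
def IsSplitVal340 (D : CompData K K')
    (φ₀ : ∀ w : HeightOneSpectrum (𝓞 K'), GL (Fin 2) (w.adicCompletion K') → ℂ)
    (δ : GL (Fin 2) K') {γ : GL (Fin 2) K} (L : LocData305 K γ)
    (v : HeightOneSpectrum (𝓞 K)) (J : ℂ) : Prop :=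
  ∃ (hl : 0 < D.l) (w : ℕ → HeightOneSpectrum (𝓞 K'))
    (i : ∀ j : ℕ, v.adicCompletion K ≃+* (w j).adicCompletion K'),
    (∀ j : ℕ, PlaceOver K K' v (w j)) ∧
    (∀ j : ℕ, T5.PlaceRel D.s (w (j + 1)) (w j)) ∧
    (∀ j : ℕ, 0 < j → j < D.l → w j ≠ w 0) ∧
    (∀ (j : ℕ) (x : K), i j (algebraMap K (v.adicCompletion K) x)
      = algebraMap K' ((w j).adicCompletion K') (algebraMap K K' x)) ∧
    (∀ (j : ℕ) (x : v.adicCompletion K), Valued.v (i j x) = Valued.v x) ∧
    J = splitInt340 D.l hl (L.μv v) (L.βv v)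
        (fun j g => φ₀ (w j)
          (Matrix.GeneralLinearGroup.map ((i j : v.adicCompletion K ≃+* _) :
            v.adicCompletion K →+* (w j).adicCompletion K') g))
        (fun j => Matrix.GeneralLinearGroup.map
          (((i j).symm : (w j).adicCompletion K' ≃+* _) :
            (w j).adicCompletion K' →+* v.adicCompletion K) (locG305 (w j) δ))

/-- `J` is THE LOCAL TWISTED INTEGRAL UPSTAIRS at the infinite place `v` for the index `j` of
the ray, in the `K`-coordinates, with the Haar measure `μc` and the cut-off function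
DOWNSTAIRS.  `w a` are the places over `v` (`w (a+1) = w a ∘ σ`), `d a ∈ {1, conj}` the type of
`ι` at `w a`. -/
def IsArchVal340 (D : CompData K K') (ι : Adl K →+* Adl K')
    (Φ : InfinitePlace K' → GL (Fin 2) ℂ → ℂ) (δ : GL (Fin 2) K') {γ : GL (Fin 2) K}
    (L : LocData305 K γ) (μc : @Measure (GL (Fin 2) ℂ) (borel _))
    (v : InfinitePlace K) (j : ℤ) (J : ℂ) : Prop :=
  ∃ (hl : 0 < D.l) (w : ℕ → InfinitePlace K') (d : ℕ → ℂ →+* ℂ),
    (∀ a : ℕ, (w a).comap (algebraMap K K') = v) ∧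
    (∀ a : ℕ, w (a + 1) = (w a).comap (D.s.σ : K' →+* K')) ∧
    (∀ a a' : ℕ, a < D.l → a' < D.l → w a = w a' → a = a') ∧
    (∀ a : ℕ, d a = RingHom.id ℂ ∨ d a = starRingEnd ℂ) ∧
    (∀ (a : ℕ) (x : Adl K), T5.infHom (w a) (ι x) = d a (T5.infHom v x)) ∧
    J = splitInt340 D.l hl μc (L.βc v) (fun a => Φ (w a))
        (fun a => Matrix.GeneralLinearGroup.map (d a)
          (infGL305 (w a) (T5.ratG δ * D.R'.r ^ j)))

variable (K K')

/-! ## 2. The node and the leaves -/

/-- **NODE C2.7.13.1 = UP-FACT (global → local upstairs, NO matching).**  See the header,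
step 1.  The constant `c'_G` depends on `D`, `ι`, `μc`, `T₀`, `n`, `m` only.
Proof.  LOCAL DATA: at `v ∈ S` with one place `w` over it: `(e, i, s_w)` from `T6.InstExtC`
(`s_w` is the component of `σ_𝔸`: `SigmaLocC305`, uniqueness by density), `μ'_w` and the
normalised Haar measure `μt'_w` of the twisted centraliser from `LocMeasC305`, `β'_w` from
`LocCutC305`; at a split `v ∈ S`: the places over `v` in the order of the orbit, `i_j` from
`T6.InstSplitC`; at `v ∣ ∞`: the `l` places over `v`, `d_a` from `IsAdeleBase305.inf`.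
CUT-OFF: `β' = c_T⁻¹ 1_{Out_{S'}} ∏_{v ∈ S} β'_v ∏_{v ∣ ∞} β'_v` with `β'_v(y) = β'_w(y_w)`
(inert), `β_v(i_0⁻¹ y_{w_0})` (split), `β_v(d_0 y_{w_0})` (infinite).  SUPPORT: if the integrand
does not vanish at `x` then `x⁻¹ δ σ(x)` is in `Out_{S'}` (`r'` is trivial at the finite places)
and `x = t x'`, `t ∈ T_𝔸(δ)`, `x' ∈ Out_{S'}` (helper159 `goodUnit_split159`, `GoodUnitTw.lean`;
the twisted form of `SuppDownC305`).  CUT-OFF PROPERTY: `T_𝔸(δ)` is commutative
(`TorCommC305`), `μT'` is the image of `μT` (`IsTorLinked305`), `ι(t) ∈ Out_{S'}` iff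
`t ∈ Out_S`, `IsTorConst305`, the local torus measures correspond under `i` (normalised:
`i⁻¹(T'^c) = T^c`, local form of `T6.TwCentC`), Fubini for the finite product.  INTEGRAL: the
sum over the ray is a finite sum, uniformly (`‖det (x⁻¹ δ σ(x) r'^j)‖ = 2^j`); for
`y ∈ Out_{S'}` the integrand is the product of the local integrands in the coordinates
(`SigmaLocC305`); `HaarSplitC305 K'` (levels `n`; `n (w j) = m v` at the split places of `S`:
`LocHyp305.split`; the images of `μ'_{w_j}` under `i_j⁻¹` are `μ_v`: uniqueness of the Haar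
measure), Fubini grouped by the places of `K`; at the infinite places the change of variables
`z_a = d_a(y_{w_a})` (complex conjugation preserves `μc` and the `Φ_w`). -/
def UpFactC340 : Prop :=
  T6.T6Out →
  ∀ D : CompData K K', IsCompData D → IsCycExt K K' D.l → D.l ≠ 2 → TotCplx K →
    ∀ ι : Adl K →+* Adl K', IsAdeleBase305 D.s D.l ι →
    ∀ μc : @Measure (GL (Fin 2) ℂ) (borel _), @Measure.IsHaarMeasure _ _ _ (borel _) μc →
    ∀ (T₀ : Finset (HeightOneSpectrum (𝓞 K))), UnramOut305 (K' := K') T₀ →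
    ∀ (n : HeightOneSpectrum (𝓞 K') → ℕ) (m : HeightOneSpectrum (𝓞 K) → ℕ),
      IsLevelAt305 T₀ n m →
    ∃ cG' : ℝ, 0 < cG' ∧
      ∀ (S : Finset (HeightOneSpectrum (𝓞 K))) (S' : Finset (HeightOneSpectrum (𝓞 K'))),
        T₀ ⊆ S → IsOver305 S S' →
      ∀ (φ₀ : ∀ w : HeightOneSpectrum (𝓞 K'), GL (Fin 2) (w.adicCompletion K') → ℂ)
        (Φ : InfinitePlace K' → GL (Fin 2) ℂ → ℂ)
        (f₀ : ∀ v : HeightOneSpectrum (𝓞 K), GL (Fin 2) (v.adicCompletion K) → ℂ)
        (F : InfinitePlace K → GL (Fin 2) ℂ → ℂ),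
        LocHyp305 D μc S n m φ₀ Φ f₀ F →
      ∀ (δ : GL (Fin 2) K') (γ : GL (Fin 2) K), T6.IsEll γ →
        D.s.normUpTo D.l δ = Matrix.GeneralLinearGroup.map (algebraMap K K') γ →
        GoodOut305 S γ → IntOut305 S' δ →
      ∀ (μT : @Measure (tA305 (T5.AdelicAut.id K) γ) (borel _))
        (μT' : @Measure (tA305 D.s δ) (borel _)),
        @Measure.IsHaarMeasure _ _ _ (borel _) μT →
        @Measure.IsHaarMeasure _ _ _ (borel _) μT' →
        IsTorLinked305 ι D.s δ γ μT μT' →
      ∀ (L : LocData305 K γ) (cT : ℝ), IsLocData305 m L → 0 < cT → IsTorConst305 γ μT L cT →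
        ∃ (β' : G K' → ℝ) (J : HeightOneSpectrum (𝓞 K) → ℂ) (Jc : InfinitePlace K → ℤ → ℂ),
          IsCutOn305 D.s δ μT' β'
              {x | T5.twTerm D.R'.r D.s (pure305 S' φ₀ Φ) δ x ≠ 0} ∧
            cutInt305 D.R'.r D.s (pure305 S' φ₀ Φ) δ D.R'.μ β'
              = ((cG' / cT : ℝ) : ℂ)
                * ∑' j : ℤ, (∏ v ∈ S, J v) * ∏ w : InfinitePlace K, Jc w j ∧
            (∀ v ∈ S, IsInertVal340 D n φ₀ δ v (J v) ∨ IsSplitVal340 D φ₀ δ L v (J v)) ∧
            ∀ (w : InfinitePlace K) (j : ℤ), IsArchVal340 D ι Φ δ L μc w j (Jc w j)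

/-- **LEAF C2.7.13.2 = LOC-EQ-INERT (local; one place over `v`).**  The local twisted integral
upstairs is the local integral downstairs.
Proof.  `K_v`, `K'_w` are local fields (`T6.InstLocalC`; the residue field of `K'_w` has
`q^{l/e}` elements: `e` is determined by `IsLocalExt.val_i`, `T6.InstExtC`).  `γ` is elliptic,
so `γ_v` is regular and `N δ_w = i(γ_v)` is regular (`twNorm s_w l δ_w` is the component of
`N δ`: `s_w` extends `σ`).  `T6.OrbSumExC` gives orbit sums `c` (upstairs, twisted) and `c'`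
(downstairs, `k' = k`, `l = e = 1`); `T6.OrbSumIntC`: `J = c` and the integral downstairs is `c'`
(`IsLocData305`: normalised measures, continuous cut-off; `T6.glAut 1 = 1`);
`LocHyp305.inert`: `c = c'`. -/
def LocEqInertC340 : Prop :=
  T6.T6Out →
  ∀ D : CompData K K', IsCompData D → IsCycExt K K' D.l → D.l ≠ 2 → TotCplx K →
    ∀ (μc : @Measure (GL (Fin 2) ℂ) (borel _)) (S : Finset (HeightOneSpectrum (𝓞 K)))
      (n : HeightOneSpectrum (𝓞 K') → ℕ) (m : HeightOneSpectrum (𝓞 K) → ℕ)
      (φ₀ : ∀ w : HeightOneSpectrum (𝓞 K'), GL (Fin 2) (w.adicCompletion K') → ℂ)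
      (Φ : InfinitePlace K' → GL (Fin 2) ℂ → ℂ)
      (f₀ : ∀ v : HeightOneSpectrum (𝓞 K), GL (Fin 2) (v.adicCompletion K) → ℂ)
      (F : InfinitePlace K → GL (Fin 2) ℂ → ℂ),
      LocHyp305 D μc S n m φ₀ Φ f₀ F →
    ∀ (δ : GL (Fin 2) K') (γ : GL (Fin 2) K), T6.IsEll γ →
      D.s.normUpTo D.l δ = Matrix.GeneralLinearGroup.map (algebraMap K K') γ →
    ∀ L : LocData305 K γ, IsLocData305 m L →
    ∀ v ∈ S, ∀ J : ℂ, IsInertVal340 D n φ₀ δ v J →
      J = locInt305 (L.μv v) (L.βv v) (f₀ v) (locG305 v γ)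

/-- **LEAF C2.7.13.3 = LOC-EQ-SPLIT (local; split place).**  The local twisted integral upstairs
is the local integral downstairs.
Proof.  `δ_0 δ_1 ⋯ δ_{l-1} = γ_v` (the component of `N δ = γ` at `w_0` in the coordinates of
`K_v`: `i_0⁻¹ ∘ s ∘ i_a = 1` on `K_v` by density).  Fubini and the split integral identity for
general `l` (helper159 `iterL_eq159`, helper584 `iterInt_eq_rconv584`; `T6.SplitInt3C` for
`l = 3`): the integral over `y_1, …, y_{l-1}` is the iterated convolution
`(φ_0 * ⋯ * φ_{l-1})(y_0⁻¹ γ_v y_0)` for the measure `μ_v`; `LocHyp305.split`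
(`T6.IsConvProd` is the convolution for the measure with `vol U(m_v) = 1`, the levels agree):
it is `f₀_v(y_0⁻¹ γ_v y_0)`.  Integrability: finite supports modulo `U`, `β_v` continuous. -/
def LocEqSplitC340 : Prop :=
  T6.T6Out →
  ∀ D : CompData K K', IsCompData D → IsCycExt K K' D.l → D.l ≠ 2 → TotCplx K →
    ∀ (μc : @Measure (GL (Fin 2) ℂ) (borel _)) (S : Finset (HeightOneSpectrum (𝓞 K)))
      (n : HeightOneSpectrum (𝓞 K') → ℕ) (m : HeightOneSpectrum (𝓞 K) → ℕ)
      (φ₀ : ∀ w : HeightOneSpectrum (𝓞 K'), GL (Fin 2) (w.adicCompletion K') → ℂ)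
      (Φ : InfinitePlace K' → GL (Fin 2) ℂ → ℂ)
      (f₀ : ∀ v : HeightOneSpectrum (𝓞 K), GL (Fin 2) (v.adicCompletion K) → ℂ)
      (F : InfinitePlace K → GL (Fin 2) ℂ → ℂ),
      LocHyp305 D μc S n m φ₀ Φ f₀ F →
    ∀ (δ : GL (Fin 2) K') (γ : GL (Fin 2) K), T6.IsEll γ →
      D.s.normUpTo D.l δ = Matrix.GeneralLinearGroup.map (algebraMap K K') γ →
    ∀ L : LocData305 K γ, IsLocData305 m L →
    ∀ v ∈ S, ∀ J : ℂ, IsSplitVal340 D φ₀ δ L v J →
      J = locInt305 (L.μv v) (L.βv v) (f₀ v) (locG305 v γ)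

/-- **LEAF C2.7.13.4 = LOC-EQ-ARCH (local; infinite places).**  The local twisted integral
upstairs for the index `j` of the ray is the local integral downstairs for the index `j`.
Proof.  `∏_a d_a((δ r'^j)_{w_a}) = (γ r^j)_v`: `d_a = c_a d_{a+1}` (`σ ι = ι`; `c_a` the type of
`σ_𝔸` at `w_a`, `SigmaLocC305`), so the product is `d_0` of the component of `N δ = γ` at `w_0`,
i.e. `γ_v`; the scalars: `ρ'^l = ρ` (`T5.IsRayGen` for `D.R'.r`, `D.R.r`: `IsCompData.frame`,
`frame'`; `[K':ℚ] = l [K:ℚ]`).  Fubini and the split integral identity for general `l` on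
`GL₂(ℂ)` (helper159 `iterL_eq159`, helper584 `iterInt_eq_rconv584`): the integral over
`z_1, …, z_{l-1}` is `convL305 μc (fun a => Φ (w a)) (l - 1) (z_0⁻¹ (γ r^j)_v z_0)`;
`LocHyp305.arch`: it is `F v (z_0⁻¹ (γ r^j)_v z_0)`.  Integrability: continuous functions with
compact support (`arch_up`), `β_v` continuous. -/
def LocEqArchC340 : Prop :=
  ∀ D : CompData K K', IsCompData D → IsCycExt K K' D.l → D.l ≠ 2 → TotCplx K →
    ∀ ι : Adl K →+* Adl K', IsAdeleBase305 D.s D.l ι →
    ∀ μc : @Measure (GL (Fin 2) ℂ) (borel _), @Measure.IsHaarMeasure _ _ _ (borel _) μc →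
    ∀ (S : Finset (HeightOneSpectrum (𝓞 K)))
      (n : HeightOneSpectrum (𝓞 K') → ℕ) (m : HeightOneSpectrum (𝓞 K) → ℕ)
      (φ₀ : ∀ w : HeightOneSpectrum (𝓞 K'), GL (Fin 2) (w.adicCompletion K') → ℂ)
      (Φ : InfinitePlace K' → GL (Fin 2) ℂ → ℂ)
      (f₀ : ∀ v : HeightOneSpectrum (𝓞 K), GL (Fin 2) (v.adicCompletion K) → ℂ)
      (F : InfinitePlace K → GL (Fin 2) ℂ → ℂ),
      LocHyp305 D μc S n m φ₀ Φ f₀ F →
    ∀ (δ : GL (Fin 2) K') (γ : GL (Fin 2) K), T6.IsEll γ →
      D.s.normUpTo D.l δ = Matrix.GeneralLinearGroup.map (algebraMap K K') γ →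
    ∀ L : LocData305 K γ, IsLocData305 m L →
    ∀ (w : InfinitePlace K) (j : ℤ) (J : ℂ), IsArchVal340 D ι Φ δ L μc w j J →
      J = locInt305 μc (L.βc w) (F w) (infGL305 w (T5.ratG γ * D.R.r ^ j))

end TwoFields

/-! ## Appendix: the equation lemmas of the definitions are realised HERE -/

theorem eqns_realisedFU340 : True := by
  have _a1 := @locTwInt340.eq_1
  have _a2 := @locTwInt340.eq_def
  have _a3 := @locTwInt340.eq_unfold
  have _b1 := @cycSucc340.eq_1
  have _b2 := @cycSucc340.eq_def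
  have _b3 := @cycSucc340.eq_unfold
  have _c1 := @splitInt340.eq_1
  have _c2 := @splitInt340.eq_def
  have _c3 := @splitInt340.eq_unfold
  have _d1 := @IsInertVal340.eq_1
  have _d2 := @IsInertVal340.eq_def
  have _d3 := @IsInertVal340.eq_unfold
  have _e1 := @IsSplitVal340.eq_1
  have _e2 := @IsSplitVal340.eq_def
  have _e3 := @IsSplitVal340.eq_unfold
  have _f1 := @IsArchVal340.eq_1
  have _f2 := @IsArchVal340.eq_def
  have _f3 := @IsArchVal340.eq_unfold
  have _g1 := @UpFactC340.eq_1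
  have _g2 := @UpFactC340.eq_def
  have _g3 := @UpFactC340.eq_unfold
  have _h1 := @LocEqInertC340.eq_1
  have _h2 := @LocEqInertC340.eq_def
  have _h3 := @LocEqInertC340.eq_unfold
  have _i1 := @LocEqSplitC340.eq_1
  have _i2 := @LocEqSplitC340.eq_def
  have _i3 := @LocEqSplitC340.eq_unfold
  have _j1 := @LocEqArchC340.eq_1
  have _j2 := @LocEqArchC340.eq_def
  have _j3 := @LocEqArchC340.eq_unfold
  trivial

end Fermat.Agent.LT.T7.H340

end

end
-- ===== PACK-END LT/T7/H340/FactUpSpec.lean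

-- ===== PACK-BEGIN LT/T7/H510/IotaClosedEmb.lean
section


/-!
# Row LT, tower T7, leaf T7.L2.1.C2.4 `IotaC305`, sub-leaf I.9 `ClosedC816` — helper510, OFF-MAIN

    closedC_h510 (K K') : Fermat.Agent.LT.T7.H816.ClosedC816 K K'

verbatim against `LT/T7/H816/IotaSpec.lean` (helper816@e81f893cb, sha256 c16fad08),
UNCONDITIONAL, Mathlib + spec only.

`ι` is injective (every place of `K` has a place of `K'` over it, the local maps are
homomorphisms of fields); its range is the set of the fixed points of `σ_𝔸`, closed; the range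
is locally compact and Hausdorff, hence a Baire space, `𝔸_K` is σ-compact: `ι` is open onto its
range (`AddMonoidHom.isOpenMap_of_sigmaCompact`).
-/

set_option autoImplicit false
set_option linter.style.haveILetI false
set_option linter.unusedSectionVars false

open AutomorphicForm IsDedekindDomain NumberField MeasureTheory
open scoped ComplexConjugate

noncomputable section

namespace Fermat.Agent.LT.T7.H510

open Fermat.Agent.LT.H556 Fermat.Agent.LT.H556.A0 Fermat.Agent.LT Fermat.Agent.LT.T7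

variable {K K' : Type} [Field K] [NumberField K] [Field K'] [NumberField K'] [Algebra K K']

/-- Every finite place of `K` has a place of `K'` over it. -/
theorem exists_placeOver_E510 (v : HeightOneSpectrum (𝓞 K)) :
    ∃ w : HeightOneSpectrum (𝓞 K'), PlaceOver K K' v w := by
  haveI : Algebra.IsIntegral (𝓞 K) (𝓞 K') := inferInstance
  have hinj : Function.Injective (algebraMap (𝓞 K) (𝓞 K')) :=
    FaithfulSMul.algebraMap_injective (𝓞 K) (𝓞 K')
  haveI : v.asIdeal.IsPrime := v.isPrime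
  obtain ⟨P, hP, hcomap⟩ := Ideal.exists_ideal_over_prime_of_isIntegral_of_isDomain
    (S := 𝓞 K') v.asIdeal (by
      rw [(RingHom.injective_iff_ker_eq_bot _).mp hinj]
      exact bot_le)
  have hne : P ≠ ⊥ := by
    intro h
    apply v.ne_bot
    rw [← hcomap, h, ← RingHom.ker_eq_comap_bot, (RingHom.injective_iff_ker_eq_bot _).mp hinj]
  refine ⟨⟨P, hP, hne⟩, ?_⟩
  intro x y hxy
  have hy : y = algebraMap (𝓞 K) (𝓞 K') x := by
    apply RingOfIntegers.ext
    rw [hxy]
    rfl
  show x ∈ v.asIdeal ↔ y ∈ P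
  rw [hy, ← hcomap, Ideal.mem_comap]

/-- Every infinite place of `K` has a place of `K'` over it. -/
theorem exists_infOver_E510 (v : InfinitePlace K) :
    ∃ w' : InfinitePlace K', w'.comap (algebraMap K K') = v := by
  haveI : Algebra.IsAlgebraic K K' := inferInstance
  exact InfinitePlace.comap_surjective v

/-- A pre-base-change map is injective. -/
theorem preBase_injective_E510 {ι : Adl K →+* Adl K'} (hι : H816.IsPreBase816 ι) :
    Function.Injective ι := by
  rw [injective_iff_map_eq_zero]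
  intro x hx
  refine Prod.ext (funext fun v => ?_) (RestrictedProduct.ext _ _ fun v => ?_)
  · obtain ⟨w', hw'⟩ := exists_infOver_E510 (K' := K') v
    have h0 : T5.infHom w' (ι x) = 0 := by rw [hx, map_zero]
    have h1 : T5.infHom v x = 0 := by
      rcases hι.inf w' with h | h
      · rw [← hw', ← h x, h0]
      · have := h x
        rw [h0, hw'] at this
        exact (map_eq_zero_iff (starRingEnd ℂ) (RingHom.injective _)).mp this.symm
    exact (map_eq_zero_iff _ (InfinitePlace.Completion.extensionEmbedding v).injective).mp h1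
  · obtain ⟨w, hw⟩ := exists_placeOver_E510 (K' := K') v
    obtain ⟨e, i, -, -, -, hi⟩ := hι.fin v w hw
    have h0 : i (T5.finHom v x) = 0 := by rw [← hi x, hx, map_zero]
    exact (map_eq_zero_iff i i.injective).mp h0

/-- **I.9 `ClosedC816`**, unconditional. -/
theorem closedC_h510 (K K' : Type) [Field K] [NumberField K] [Field K'] [NumberField K']
    [Algebra K K'] : H816.ClosedC816 K K' := by
  intro D _ ι hι hfix honto hLK hLK'
  obtain ⟨⟨hlc, ht2, hsc⟩, -⟩ := hLK
  obtain ⟨⟨hlc', ht2', -⟩, -⟩ := hLK'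
  haveI := hlc
  haveI := ht2
  haveI := hsc
  haveI := hlc'
  haveI := ht2'
  have hinj : Function.Injective ι := preBase_injective_E510 hι
  have hrange : Set.range ι = {y : Adl K' | D.s.σA y = y} := by
    ext y
    constructor
    · rintro ⟨x, rfl⟩
      exact hfix x
    · intro hy
      exact honto y hy
  have hclosed : IsClosed (Set.range ι) := by
    rw [hrange]
    exact isClosed_eq D.s.continuous_σA continuous_id
  -- the range, as an additive subgroup
  let H : AddSubgroup (Adl K') := ι.toAddMonoidHom.range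
  have hHc : IsClosed (H : Set (Adl K')) := hclosed
  haveI : LocallyCompactSpace H := hHc.locallyCompactSpace
  let f : Adl K →+ H := ι.toAddMonoidHom.rangeRestrict
  have hfs : Function.Surjective f := ι.toAddMonoidHom.rangeRestrict_surjective
  have hfc : Continuous f := hι.cont.subtype_mk _
  have hfi : Function.Injective f := fun a b hab => hinj (congrArg Subtype.val hab)
  have hopen : IsOpenMap f := AddMonoidHom.isOpenMap_of_sigmaCompact f hfs hfc
  have hemb : Topology.IsClosedEmbedding f :=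
    ⟨(Topology.IsOpenEmbedding.of_continuous_injective_isOpenMap hfc hfi hopen).isEmbedding,
      by rw [hfs.range_eq]; exact isClosed_univ⟩
  exact hHc.isClosedEmbedding_subtypeVal.comp hemb

end Fermat.Agent.LT.T7.H510

end
end
-- ===== PACK-END LT/T7/H510/IotaClosedEmb.lean

-- ===== PACK-BEGIN LT/T7/H1G/Fixed.lean
section



/-!
# Row LT, tower T7, leaf C2.4 `IotaC305`: `σ_𝔸 ∘ ι = ι`, GENERAL form (helper1)

OFF-MAIN.  Complete proofs, nothing assumed.  ADDITIVE (new names only, suffix `H1G`).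

`fixedG_H1G`: for EVERY data of the comparison `D` (no hypothesis on the degree, NO hypothesis
"totally complex": real places of `K` are allowed), every pre-base change `ι`
(`H816.IsPreBase816`) and the local form of the adelic automorphism (`H305.SigmaLocC305 K'`):
`σ_𝔸 (ι x) = ι x`.  It serves the cubic step (`H816.FixedC816`, adapter `fixedC816_H1G`) AND the
quadratic step `F/ℚ`.

Proof, componentwise.  Finite place `w' = σ(w)`, `v` under both: `s_w ∘ i_w` and `i_{w'}` are ring
homomorphisms `K_v → K'_{w'}` which agree on `K` and satisfy `|·| = |x|^e`, `|·| = |x|^{e'}`: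
their difference `d` vanishes on `K`, so `|d(c)| = |d(c - y)| ≤ |c - y|` for `y ∈ K` close to
`c`, hence `d = 0` (NO continuity of `i` is needed).  Infinite place `w'`: both sides are
`c(x_v)` with `c ∈ {id, conj}`; they agree on `K`; if the two `c` differ then `v(K) ⊆ ℝ`, `v` is
real and `x_v` is real.
-/

set_option autoImplicit false
set_option linter.unusedSectionVars false
set_option linter.unusedVariables false
set_option linter.style.haveILetI false

open AutomorphicForm IsDedekindDomain NumberField MeasureTheory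
open scoped ComplexConjugate

noncomputable section

namespace Fermat.Agent.LT.T7.H1G

open Fermat.Agent.LT.H556 Fermat.Agent.LT.H556.A0 Fermat.Agent.LT.T7
open Fermat.Agent.LT.T7.H305 Fermat.Agent.LT.T7.H816

variable {K K' : Type} [Field K] [NumberField K] [Field K'] [NumberField K'] [Algebra K K']

/-! ## 1. Extensionality for adeles -/

/-- Two adeles with the same components are equal. -/
theorem adl_ext_H1G {L : Type} [Field L] [NumberField L] {a b : Adl L}
    (hi : ∀ w : InfinitePlace L, T5.infHom w a = T5.infHom w b)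
    (hf : ∀ v : HeightOneSpectrum (𝓞 L), T5.finHom v a = T5.finHom v b) : a = b := by
  refine Prod.ext ?_ ?_
  · funext w
    exact (InfinitePlace.Completion.extensionEmbedding w).injective (hi w)
  · exact FiniteAdeleRing.ext (R := 𝓞 L) (K := L) fun v => hf v

/-! ## 2. `σ` fixes `K`; the places under `w` and `σ w` -/

/-- `σ` fixes the image of `K`. -/
theorem sigma_algebraMap_H1G {D : CompData K K'} (hD : IsCompData D) (y : K) :
    D.s.σ (algebraMap K K' y) = algebraMap K K' y :=
  (hD.cyc.fixed _).1 ((hD.base _).2 ⟨y, rfl⟩)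

/-- `σ_𝔸 ∘ ι = ι` on the principal adeles. -/
theorem fixed_rat_H1G {D : CompData K K'} (hD : IsCompData D) {ι : Adl K →+* Adl K'}
    (hι : IsPreBase816 ι) (y : K) :
    D.s.σA (ι (algebraMap K (Adl K) y)) = ι (algebraMap K (Adl K) y) := by
  rw [hι.rat, D.s.compat, sigma_algebraMap_H1G hD]

/-- The place `σ⁻¹ w'`. -/
def preP_H1G (s : T5.AdelicAut K') (w' : HeightOneSpectrum (𝓞 K')) :
    HeightOneSpectrum (𝓞 K') where
  asIdeal := Ideal.comap (NumberField.RingOfIntegers.mapRingEquiv s.σ) w'.asIdeal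
  isPrime := Ideal.comap_isPrime _ _
  ne_bot := by
    intro h
    apply w'.ne_bot
    have h2 : Ideal.map (NumberField.RingOfIntegers.mapRingEquiv s.σ)
        (Ideal.comap (NumberField.RingOfIntegers.mapRingEquiv s.σ) w'.asIdeal) = w'.asIdeal :=
      Ideal.map_comap_of_surjective _ (RingEquiv.surjective _) _
    rw [← h2, h, Ideal.map_bot]

theorem placeRel_preP_H1G (s : T5.AdelicAut K') (w' : HeightOneSpectrum (𝓞 K')) :
    T5.PlaceRel s (preP_H1G s w') w' :=
  (Ideal.map_comap_of_surjective _ (RingEquiv.surjective _) _).symm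

/-- The place of `K` under `w'`. -/
def underP_H1G (w' : HeightOneSpectrum (𝓞 K')) : HeightOneSpectrum (𝓞 K) where
  asIdeal := w'.asIdeal.under (𝓞 K)
  isPrime := inferInstance
  ne_bot := Ideal.under_ne_bot (𝓞 K) w'.ne_bot

theorem placeOver_underP_H1G (w' : HeightOneSpectrum (𝓞 K')) :
    PlaceOver K K' (underP_H1G (K := K) w') w' := by
  intro x y hxy
  have hy : y = algebraMap (𝓞 K) (𝓞 K') x := by
    apply NumberField.RingOfIntegers.ext
    rw [hxy]
    rfl
  rw [hy]
  exact Ideal.mem_comap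

/-- `σ⁻¹ w'` lies over the same place of `K` as `w'`. -/
theorem placeOver_preP_H1G {D : CompData K K'} (hD : IsCompData D)
    {v : HeightOneSpectrum (𝓞 K)} {w' : HeightOneSpectrum (𝓞 K')} (h : PlaceOver K K' v w') :
    PlaceOver K K' v (preP_H1G D.s w') := by
  intro x y hxy
  rw [h x y hxy]
  show y ∈ w'.asIdeal ↔ y ∈ Ideal.comap (NumberField.RingOfIntegers.mapRingEquiv D.s.σ) w'.asIdeal
  rw [Ideal.mem_comap]
  have : NumberField.RingOfIntegers.mapRingEquiv D.s.σ y = y := by
    apply NumberField.RingOfIntegers.ext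
    show D.s.σ (y : K') = (y : K')
    rw [hxy]
    exact sigma_algebraMap_H1G hD _
  rw [this]

/-! ## 3. The finite places -/

open WithZeroTopology in
/-- Two ring homomorphisms `K_v → B` into a valued field which multiply the valuation by
positive powers and agree on `K` are equal. -/
theorem eq_of_val_of_rat_H1G (v : HeightOneSpectrum (𝓞 K)) {B : Type} [Field B]
    [Valued B (WithZero (Multiplicative ℤ))]
    (f g : v.adicCompletion K →+* B) (e e' : ℕ) (he : 0 < e) (he' : 0 < e')
    (hf : ∀ c, Valued.v (f c) = Valued.v c ^ e) (hg : ∀ c, Valued.v (g c) = Valued.v c ^ e')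
    (hfg : ∀ y : K, f (algebraMap K (v.adicCompletion K) y)
      = g (algebraMap K (v.adicCompletion K) y)) (c : v.adicCompletion K) : f c = g c := by
  by_contra hne
  have hd : f c - g c ≠ 0 := sub_ne_zero.2 hne
  set γ : WithZero (Multiplicative ℤ) := Valued.v (f c - g c) with hγ
  have hγ0 : γ ≠ 0 := (Valuation.ne_zero_iff _).2 hd
  -- a rational point close to `c`
  have hcont : Continuous fun c' : v.adicCompletion K => Valued.v (c' - c) :=
    (Valued.continuous_valuation_of_surjective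
      (HeightOneSpectrum.valuedAdicCompletion_surjective K v)).comp
      (continuous_id.sub continuous_const)
  have hopen : IsOpen {c' : v.adicCompletion K | Valued.v (c' - c) < min γ 1} := by
    exact (WithZeroTopology.isOpen_Iio (a := min γ 1)).preimage hcont
  have hmem : c ∈ {c' : v.adicCompletion K | Valued.v (c' - c) < min γ 1} := by
    show Valued.v (c - c) < min γ 1
    rw [sub_self, map_zero]
    exact lt_min (zero_lt_iff.2 hγ0) zero_lt_one
  obtain ⟨_, hy1, ⟨y, rfl⟩⟩ := (v.denseRange_algebraMap K).inter_open_nonempty _ hopen ⟨c, hmem⟩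
  have hy : Valued.v (algebraMap K (v.adicCompletion K) y - c) < min γ 1 := hy1
  set t : v.adicCompletion K := c - algebraMap K (v.adicCompletion K) y with ht
  have hvt : Valued.v t < min γ 1 := by
    rw [ht, ← neg_sub, Valuation.map_neg]
    exact hy
  have hvt1 : Valued.v t ≤ 1 := (hvt.trans_le (min_le_right _ _)).le
  have hvtγ : Valued.v t < γ := hvt.trans_le (min_le_left _ _)
  have hdiff : f c - g c = f t - g t := by
    rw [ht, map_sub, map_sub, hfg y]
    ring
  have hpow : ∀ n : ℕ, 0 < n → Valued.v t ^ n ≤ Valued.v t := by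
    intro n hn
    obtain ⟨m, rfl⟩ : ∃ m, n = m + 1 := ⟨n - 1, by omega⟩
    rw [pow_succ]
    calc Valued.v t ^ m * Valued.v t ≤ 1 * Valued.v t :=
          mul_le_mul_left (pow_le_one' hvt1 m) _
      _ = Valued.v t := one_mul _
  have hle : γ ≤ Valued.v t := by
    rw [hγ, hdiff]
    refine (Valuation.map_sub _ _ _).trans (max_le ?_ ?_)
    · rw [hf]
      exact hpow e he
    · rw [hg]
      exact hpow e' he'
  exact absurd hvtγ (not_lt.2 hle)

/-- The finite components of `σ_𝔸 (ι x)` and of `ι x` agree. -/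
theorem fixed_fin_H1G {D : CompData K K'} (hD : IsCompData D) (hS : SigmaLocC305 K')
    {ι : Adl K →+* Adl K'} (hι : IsPreBase816 ι) (x : Adl K) (w' : HeightOneSpectrum (𝓞 K')) :
    T5.finHom w' (D.s.σA (ι x)) = T5.finHom w' (ι x) := by
  obtain ⟨sw, hsw1, hsw2, hsw3⟩ := (hS D.s).1 (preP_H1G D.s w') w' (placeRel_preP_H1G D.s w')
  have hv' : PlaceOver K K' (underP_H1G (K := K) w') w' := placeOver_underP_H1G w'
  have hv : PlaceOver K K' (underP_H1G (K := K) w') (preP_H1G D.s w') :=
    placeOver_preP_H1G hD hv'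
  obtain ⟨e, i, he, hi1, hi2, hi3⟩ := hι.fin _ _ hv
  obtain ⟨e', i', he', hi1', hi2', hi3'⟩ := hι.fin _ _ hv'
  rw [hsw3, hi3, hi3']
  refine eq_of_val_of_rat_H1G (underP_H1G (K := K) w')
    ((sw : _ →+* w'.adicCompletion K').comp i) i' e e' he he' ?_ hi2' ?_ _
  · intro c
    show Valued.v (sw (i c)) = _
    rw [hsw2, hi2]
  · intro y
    show sw (i _) = i' _
    rw [hi1, hsw1, hi1', sigma_algebraMap_H1G hD]

/-! ## 4. The infinite places -/

/-- The component at a real place is real. -/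
theorem conj_infHom_of_isReal_H1G {v : InfinitePlace K} (hv : v.IsReal) (x : Adl K) :
    conj (T5.infHom v x) = T5.infHom v x := by
  have h : T5.infHom v x
      = ((InfinitePlace.Completion.extensionEmbeddingOfIsReal hv (x.1 v) : ℝ) : ℂ) :=
    (InfinitePlace.Completion.extensionEmbeddingOfIsReal_apply hv _).symm
  rw [h, Complex.conj_ofReal]

/-- The component of a principal adele. -/
theorem infHom_algebraMap_H1G (v : InfinitePlace K) (y : K) :
    T5.infHom v (algebraMap K (Adl K) y) = v.embedding y := by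
  show InfinitePlace.Completion.extensionEmbedding v _ = _
  exact InfinitePlace.Completion.extensionEmbedding_coe v _

/-- If `conj` fixes the image of `K` at `v` then `v` is real. -/
theorem isReal_of_conj_H1G {v : InfinitePlace K}
    (h : ∀ y : K, conj (v.embedding y) = v.embedding y) : v.IsReal := by
  rw [InfinitePlace.isReal_iff, ComplexEmbedding.isReal_iff]
  ext y
  exact h y

/-- The infinite components of `σ_𝔸 (ι x)` and of `ι x` agree. -/
theorem fixed_inf_H1G {D : CompData K K'} (hD : IsCompData D) (hS : SigmaLocC305 K')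
    {ι : Adl K →+* Adl K'} (hι : IsPreBase816 ι) (x : Adl K) (w' : InfinitePlace K') :
    T5.infHom w' (D.s.σA (ι x)) = T5.infHom w' (ι x) := by
  set w'' : InfinitePlace K' := w'.comap (D.s.σ : K' →+* K') with hw''
  set v : InfinitePlace K := w'.comap (algebraMap K K') with hv
  have hvv : w''.comap (algebraMap K K') = v := by
    rw [hw'', hv, ← InfinitePlace.comap_comp]
    congr 1
    ext y
    exact sigma_algebraMap_H1G hD y
  -- the three local forms
  have h2 := (hS D.s).2 w'
  have h1 := hι.inf w''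
  have h3 := hι.inf w'
  rw [hvv] at h1
  -- the identity on the principal adeles
  have hrat : ∀ y : K, T5.infHom w' (D.s.σA (ι (algebraMap K (Adl K) y)))
      = T5.infHom w' (ι (algebraMap K (Adl K) y)) := fun y => by rw [fixed_rat_H1G hD hι]
  -- if `conj` fixes the image of `K`, every component at `v` is real
  have hreal : (∀ y : K, conj (v.embedding y) = v.embedding y) →
      conj (T5.infHom v x) = T5.infHom v x := fun h =>
    conj_infHom_of_isReal_H1G (isReal_of_conj_H1G h) x
  have hcc : ∀ z : ℂ, conj (conj z) = z := fun z => Complex.conj_conj z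
  rcases h2 with h2 | h2 <;> rcases h1 with h1 | h1 <;> rcases h3 with h3 | h3
  · rw [h2, h1, h3]
  · rw [h2, h1, h3]
    refine (hreal fun y => ?_).symm
    have := hrat y
    rw [h2, h1, h3, infHom_algebraMap_H1G] at this
    exact this.symm
  · rw [h2, h1, h3]
    refine hreal fun y => ?_
    have := hrat y
    rw [h2, h1, h3, infHom_algebraMap_H1G] at this
    exact this
  · rw [h2, h1, h3]
  · rw [h2, h1, h3]
    refine hreal fun y => ?_
    have := hrat y
    rw [h2, h1, h3, infHom_algebraMap_H1G] at this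
    exact this
  · rw [h2, h1, h3]
  · rw [h2, h1, h3, hcc]
  · rw [h2, h1, h3, hcc]
    refine (hreal fun y => ?_).symm
    have := hrat y
    rw [h2, h1, h3, hcc, infHom_algebraMap_H1G] at this
    exact this.symm

/-! ## 5. The statement -/

/-- **`σ_𝔸 ∘ ι = ι`, general form** (no hypothesis on the infinite places or on the degree). -/
theorem fixedG_H1G (D : CompData K K') (hD : IsCompData D) (hS : SigmaLocC305 K')
    (ι : Adl K →+* Adl K') (hι : IsPreBase816 ι) (x : Adl K) : D.s.σA (ι x) = ι x :=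
  adl_ext_H1G (fun w' => fixed_inf_H1G hD hS hι x w') (fun w' => fixed_fin_H1G hD hS hι x w')

/-- **ADAPTER: the leaf I.3 of helper816** (`H816.FixedC816`, VERBATIM). -/
theorem fixedC816_H1G : FixedC816 K K' :=
  fun D hD _ _ hS ι hι x => fixedG_H1G D hD hS ι hι x

end Fermat.Agent.LT.T7.H1G

end

end
-- ===== PACK-END LT/T7/H1G/Fixed.lean

-- ===== PACK-BEGIN LT/T7/H816/UnitLoc.lean
section





/-!
# Row LT, tower T7, leaf C2.7.11 UNIT-MATCH (the fundamental lemma for the unit element):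
# LOCAL PART (helper816, OFF-MAIN)

Abstract local fields (`Valued k T6.Γ₀`).  The unit element `H305.unit305 = 1_{GL₂(𝒪)}`:

* `isBiInv_unit816`, `hasFinSupp_unit816` : bi-invariant under `U(0)`, supported on one coset;
* `inU_map_iff816`, `unit_map816` : a ring homomorphism which preserves the valuation preserves
  `U(n)` and the unit element;
* `isConv_unit816`, `isConvProd_unit816` : `1 * 1 * ⋯ * 1 = 1` (volume one);
* `inert_unit816` : the two clauses of `LocHyp.inert` for the unit elements at an unramified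
  place, from `T6.FundLemmaC` (assets of helper159: `isBC_unitFn159`, `unitFn_apply159`).
-/

set_option autoImplicit false

noncomputable section

namespace Fermat.Agent.LT.T7.H816U

open Fermat.Agent.LT.T6 Fermat.Agent.LT.T7.H305 Fermat.Agent.LT.T7.H159

section OneField

variable {k : Type} [Field k] [Valued k Γ₀]

/-- The unit element is the spherical function of the Cartan invariant `(0, 0)`. -/
theorem unit305_eq816 :
    (unit305 : GL (Fin 2) k → ℂ) = fun g => unitFn159 (cartan g) := by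
  classical
  funext g
  show (if InU 0 g then (1 : ℂ) else 0) = unitFn159 (cartan g)
  by_cases h : InU 0 g
  · rw [if_pos h, unitFn_of_inU159 g h]
  · rw [if_neg h]
    by_contra hne
    exact h (inU_of_unitFn_ne159 g (Ne.symm hne))

theorem unit305_of_inU816 (g : GL (Fin 2) k) (h : InU 0 g) : unit305 g = 1 := by
  rw [unit305_eq816]
  exact unitFn_of_inU159 g h

theorem inU_of_unit305_ne816 (g : GL (Fin 2) k) (h : unit305 g ≠ 0) : InU 0 g := by
  rw [unit305_eq816] at h
  exact inU_of_unitFn_ne159 g h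

theorem isBiInv_unit816 : IsBiInv (InU 0) (unit305 : GL (Fin 2) k → ℂ) := by
  rw [unit305_eq816]
  exact isBiInv_unit159

theorem hasFinSupp_unit816 : HasFinSupp (InU 0) (unit305 : GL (Fin 2) k → ℂ) := by
  rw [unit305_eq816]
  exact hasFinSupp_unit159

theorem inU_one816 : InU 0 (1 : GL (Fin 2) k) :=
  inU_zero_of_det159 1 (fun i j => Fermat.Agent.LT.T6.H687.v_one_apply_le_one_h687 i j)
    (by simp)

/-- `1 * 1 = 1` for the convolution with `vol U(0) = 1`. -/
theorem isConv_unit816 :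
    IsConv (InU 0) (unit305 : GL (Fin 2) k → ℂ) unit305 unit305 := by
  intro g
  refine ⟨{1}, ?_, ?_, ?_⟩
  · intro h hh h' hh' _
    rw [Finset.mem_singleton] at hh hh'
    rw [hh, hh']
  · intro h hne
    have h1 : unit305 h ≠ 0 := fun h0 => hne (by rw [h0, zero_mul])
    exact ⟨1, Finset.mem_singleton_self _, h, inU_of_unit305_ne816 h h1, (one_mul h).symm⟩
  · rw [Finset.sum_singleton, unit305_of_inU816 1 inU_one816, one_mul, inv_one, one_mul]

/-- `1 * 1 * ⋯ * 1 = 1`. -/
theorem isConvProd_unit816 (l : ℕ) :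
    IsConvProd (InU 0) l (fun _ : ℕ => (unit305 : GL (Fin 2) k → ℂ)) unit305 :=
  ⟨fun _ => unit305, rfl, fun _ _ => isConv_unit816, rfl⟩

end OneField

section TwoFields

variable {k k' : Type} [Field k] [Field k'] [Valued k Γ₀] [Valued k' Γ₀]

/-- A ring homomorphism which preserves the valuation preserves `U(n)`. -/
theorem inU_map_iff816 (i : k →+* k') (hv : ∀ x : k, Valued.v (i x) = Valued.v x) (n : ℕ)
    (g : GL (Fin 2) k) : InU n (Matrix.GeneralLinearGroup.map i g) ↔ InU n g := by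
  have h1 : ∀ (h : GL (Fin 2) k) (a b : Fin 2),
      Valued.v (((Matrix.GeneralLinearGroup.map i h : GL (Fin 2) k') :
          Matrix (Fin 2) (Fin 2) k') a b - (1 : Matrix (Fin 2) (Fin 2) k') a b)
        = Valued.v ((h : Matrix (Fin 2) (Fin 2) k) a b - (1 : Matrix (Fin 2) (Fin 2) k) a b) := by
    intro h a b
    have e : ((Matrix.GeneralLinearGroup.map i h : GL (Fin 2) k') :
          Matrix (Fin 2) (Fin 2) k') a b - (1 : Matrix (Fin 2) (Fin 2) k') a b
        = i ((h : Matrix (Fin 2) (Fin 2) k) a b - (1 : Matrix (Fin 2) (Fin 2) k) a b) := by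
      rw [map_sub]
      congr 1
      by_cases hab : a = b
      · rw [hab, Matrix.one_apply_eq, Matrix.one_apply_eq, map_one]
      · rw [Matrix.one_apply_ne hab, Matrix.one_apply_ne hab, map_zero]
    rw [e, hv]
  have h2 : ((Matrix.GeneralLinearGroup.map i g)⁻¹ : GL (Fin 2) k')
      = Matrix.GeneralLinearGroup.map i g⁻¹ := (map_inv _ g).symm
  unfold InU
  constructor
  · intro h a b
    have := h a b
    rw [h2, h1 g a b, h1 g⁻¹ a b] at this
    exact this
  · intro h a b
    rw [h2, h1 g a b, h1 g⁻¹ a b]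
    exact h a b

/-- A ring homomorphism which preserves the valuation preserves the unit element. -/
theorem unit_map816 (i : k →+* k') (hv : ∀ x : k, Valued.v (i x) = Valued.v x)
    (g : GL (Fin 2) k) : unit305 (Matrix.GeneralLinearGroup.map i g) = unit305 g := by
  classical
  show (if InU 0 (Matrix.GeneralLinearGroup.map i g) then (1 : ℂ) else 0)
    = if InU 0 g then (1 : ℂ) else 0
  by_cases h : InU 0 g
  · rw [if_pos h, if_pos ((inU_map_iff816 i hv 0 g).2 h)]
  · rw [if_neg h, if_neg (fun h' => h ((inU_map_iff816 i hv 0 g).1 h'))]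

/-- **The inert clause for the unit elements** (`k'/k` unramified of prime degree `l`), from the
fundamental lemma. -/
theorem inert_unit816 (hFL : FundLemmaC) (q l : ℕ) (i : k →+* k') (s : k' ≃+* k')
    (hk : IsLocalField k q) (hk' : IsLocalField k' (q ^ l)) (hext : IsLocalExt k k' l 1 i s)
    (hl : l.Prime) :
    (∀ (δ : GL (Fin 2) k') (γ : GL (Fin 2) k) (c c' : ℂ), IsReg γ →
        IsConj (twNorm s l δ) (Matrix.GeneralLinearGroup.map i γ) →
        IsTwOrbSum s 0 unit305 δ c → IsOrbSum 0 unit305 γ c' → c = c') ∧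
      ∀ (γ : GL (Fin 2) k) (c' : ℂ), IsReg γ →
        ¬ IsNormFrom l i s γ → IsOrbSum 0 unit305 γ c' → c' = 0 := by
  constructor
  · intro δ γ c c' hreg hconj hc hc'
    rw [unit305_eq816] at hc hc'
    exact hFL.1 k k' q l i s hk hk' hext hl unitFn159 unitFn159 isDominant_unitFn159
      isDominant_unitFn159 (isBC_unitFn159 l q) δ γ c c' hreg trivial hconj hc hc'
  · intro γ c' hreg hnn hc'
    rw [unit305_eq816] at hc'
    exact hFL.2 k k' q l i s hk hk' hext hl unitFn159 unitFn159 isDominant_unitFn159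
      isDominant_unitFn159 (isBC_unitFn159 l q) γ c' hreg hnn hc'

end TwoFields

end Fermat.Agent.LT.T7.H816U

end

end
-- ===== PACK-END LT/T7/H816/UnitLoc.lean

-- ===== PACK-BEGIN LT/T7/H388/UnitMatch.lean
section




/-!
# Row LT, tower T7, leaf C2.7.11 `UnitMatchC305` (helper388, SPARE): PROVED VERBATIM

OFF-MAIN.  No hole, nothing assumed.  ADDITIVE (new names only, suffix `388`).

    unitMatchC388 (K K') : H305.UnitMatchC305 K K'

Spec: `T7/H305/MatchCut.lean` (helper305@56ddcdc02, sha256 0f302b81) on `MatchSpec.lean` v2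
(0e8798b2).  Assets: helper159 `T7/H159/GoodUnitTw.lean` (`unitFn159`, `isBC_unitFn159`,
`unitFn_apply159`), helper944 `inU_mul944`, `inU_inv944` (byte-identical copies).

Proof.  At the places of `T` nothing changes (`ext305` is the old component: a place of `K'`
lies over ONE place of `K`).  At `v ∈ S \ T` the levels are `0` and all components are the unit
`1_{GL₂(𝒪)}`:
* invariance, finite support: `GL₂(𝒪)` is a group, one coset;
* `split`: `1 ∘ i_j = 1` (`i_j` preserves the valuation), `1 * 1 = 1` (one coset);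
* `inert`: the ramification index of the given local datum is `1` (evaluate `val_i` at the
  element of `UnramOut305`), `N w = (N v)^l` (`T6.InstExtC`, again with index `1`),
  `T6.InstLocalC` on both sides, `T6.FundLemmaC` for the unit (`isBC_unitFn159`).
No definition of an imported module is unfolded by `unfold` / `simp [·]` / `rw [·]`.
-/

set_option autoImplicit false

open AutomorphicForm IsDedekindDomain NumberField MeasureTheory

noncomputable section

namespace Fermat.Agent.LT.T7.H388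

open Fermat.Agent.LT.H556 Fermat.Agent.LT.H556.A0 Fermat.Agent.LT.T7 Fermat.Agent.LT.T7.H305
open Fermat.Agent.LT

/-! ## 1. The unit element (abstract local field) -/

section Local

variable {k : Type} [Field k] [Valued k T6.Γ₀]

theorem unit305_of388 {g : GL (Fin 2) k} (h : T6.InU 0 g) : unit305 g = 1 := if_pos h

theorem unit305_of_not388 {g : GL (Fin 2) k} (h : ¬ T6.InU 0 g) : unit305 g = 0 := if_neg h

theorem inU_of_unit305_ne388 {g : GL (Fin 2) k} (h : unit305 g ≠ 0) : T6.InU 0 g := by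
  by_contra hn
  exact h (unit305_of_not388 hn)

theorem unit305_eq388 : (unit305 : GL (Fin 2) k → ℂ) = fun g => H159.unitFn159 (T6.cartan g) := by
  funext g
  by_cases h : T6.InU 0 g
  · rw [unit305_of388 h, H159.unitFn_of_inU159 g h]
  · rw [unit305_of_not388 h]
    by_contra hne
    exact h (H159.inU_of_unitFn_ne159 g (Ne.symm hne))

theorem inU_one388 : T6.InU 0 (1 : GL (Fin 2) k) :=
  H159.inU_zero_of_det159 1 (fun i j => T6.H687.v_one_apply_le_one_h687 i j) (by simp)

theorem isBiInv_unit388 : T6.IsBiInv (T6.InU 0) (unit305 : GL (Fin 2) k → ℂ) := by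
  intro u u' g hu hu'
  by_cases hg : T6.InU 0 g
  · rw [unit305_of388 hg,
      unit305_of388 (T6.H944.inU_mul944 0 _ _ (T6.H944.inU_mul944 0 _ _ hu hg) hu')]
  · have hn : ¬ T6.InU 0 (u * g * u') := by
      intro h
      apply hg
      have h1 := T6.H944.inU_mul944 0 _ _
        (T6.H944.inU_mul944 0 _ _ (T6.H944.inU_inv944 0 _ hu) h) (T6.H944.inU_inv944 0 _ hu')
      have e : u⁻¹ * (u * g * u') * u'⁻¹ = g := by group
      rwa [e] at h1
    rw [unit305_of_not388 hg, unit305_of_not388 hn]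

theorem hasFinSupp_unit388 : T6.HasFinSupp (T6.InU 0) (unit305 : GL (Fin 2) k → ℂ) :=
  ⟨{1}, fun g hg =>
    ⟨1, Finset.mem_singleton_self 1, g, inU_of_unit305_ne388 hg, (one_mul g).symm⟩⟩

theorem isConv_unit388 :
    T6.IsConv (T6.InU 0) (unit305 : GL (Fin 2) k → ℂ) unit305 unit305 := by
  intro g
  refine ⟨{1}, ?_, ?_, ?_⟩
  · intro h hh h' hh' _
    rw [Finset.mem_singleton.1 hh, Finset.mem_singleton.1 hh']
  · intro h hne
    have h1 : unit305 h ≠ 0 := left_ne_zero_of_mul hne
    exact ⟨1, Finset.mem_singleton_self 1, h, inU_of_unit305_ne388 h1, (one_mul h).symm⟩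
  · rw [Finset.sum_singleton, unit305_of388 inU_one388, one_mul, inv_one, one_mul]

theorem isConvProd_unit388 (l : ℕ) :
    T6.IsConvProd (T6.InU 0) l (fun _ => (unit305 : GL (Fin 2) k → ℂ)) unit305 :=
  ⟨fun _ => unit305, rfl, fun _ _ => isConv_unit388, rfl⟩

end Local

section Map

variable {k k' : Type} [Field k] [Valued k T6.Γ₀] [Field k'] [Valued k' T6.Γ₀]

theorem one_apply_map388 (i : k →+* k') (a b : Fin 2) :
    (1 : Matrix (Fin 2) (Fin 2) k') a b = i ((1 : Matrix (Fin 2) (Fin 2) k) a b) := by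
  by_cases h : a = b
  · rw [h, Matrix.one_apply_eq, Matrix.one_apply_eq, map_one]
  · rw [Matrix.one_apply_ne h, Matrix.one_apply_ne h, map_zero]

theorem inU_map_iff388 (i : k →+* k') (hv : ∀ x : k, Valued.v (i x) = Valued.v x) (n : ℕ)
    (g : GL (Fin 2) k) :
    T6.InU n (Matrix.GeneralLinearGroup.map i g) ↔ T6.InU n g := by
  have key : ∀ (h : GL (Fin 2) k) (a b : Fin 2),
      Valued.v (((Matrix.GeneralLinearGroup.map i h : GL (Fin 2) k') :
          Matrix (Fin 2) (Fin 2) k') a b - (1 : Matrix (Fin 2) (Fin 2) k') a b)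
        = Valued.v ((h : Matrix (Fin 2) (Fin 2) k) a b - (1 : Matrix (Fin 2) (Fin 2) k) a b) := by
    intro h a b
    have e : ((Matrix.GeneralLinearGroup.map i h : GL (Fin 2) k') :
        Matrix (Fin 2) (Fin 2) k') a b = i ((h : Matrix (Fin 2) (Fin 2) k) a b) := rfl
    rw [e, one_apply_map388 i a b, ← map_sub, hv]
  have hinv : (Matrix.GeneralLinearGroup.map i g)⁻¹ = Matrix.GeneralLinearGroup.map i g⁻¹ :=
    (map_inv (Matrix.GeneralLinearGroup.map i) g).symm
  constructor
  · intro h a b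
    have := h a b
    rw [hinv, key g a b, key g⁻¹ a b] at this
    exact this
  · intro h a b
    have := h a b
    rw [hinv, key g a b, key g⁻¹ a b]
    exact this

theorem unit305_map388 (i : k →+* k') (hv : ∀ x : k, Valued.v (i x) = Valued.v x)
    (g : GL (Fin 2) k) : unit305 (Matrix.GeneralLinearGroup.map i g) = unit305 g := by
  by_cases h : T6.InU 0 g
  · rw [unit305_of388 h, unit305_of388 ((inU_map_iff388 i hv 0 g).2 h)]
  · rw [unit305_of_not388 h, unit305_of_not388 (fun h' => h ((inU_map_iff388 i hv 0 g).1 h'))]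

end Map

/-! ## 2. Places -/

section Global

variable {K K' : Type} [Field K] [NumberField K] [Field K'] [NumberField K'] [Algebra K K']

theorem coe_algebraMap388 (x : 𝓞 K) :
    ((algebraMap (𝓞 K) (𝓞 K') x : 𝓞 K') : K') = algebraMap K K' (x : K) := rfl

theorem placeOver_iff388 {v : HeightOneSpectrum (𝓞 K)} {w : HeightOneSpectrum (𝓞 K')}
    (h : PlaceOver K K' v w) (x : 𝓞 K) :
    x ∈ v.asIdeal ↔ algebraMap (𝓞 K) (𝓞 K') x ∈ w.asIdeal :=
  h x (algebraMap (𝓞 K) (𝓞 K') x) (coe_algebraMap388 x)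

/-- A place of `K'` lies over ONE place of `K`. -/
theorem placeOver_unique388 {v v' : HeightOneSpectrum (𝓞 K)} {w : HeightOneSpectrum (𝓞 K')}
    (h : PlaceOver K K' v w) (h' : PlaceOver K K' v' w) : v = v' := by
  apply HeightOneSpectrum.ext
  ext x
  rw [placeOver_iff388 h, placeOver_iff388 h']

theorem mem_over_iff388 {T : Finset (HeightOneSpectrum (𝓞 K))}
    {T' : Finset (HeightOneSpectrum (𝓞 K'))} (hT : IsOver305 T T')
    {v : HeightOneSpectrum (𝓞 K)} {w : HeightOneSpectrum (𝓞 K')} (h : PlaceOver K K' v w) :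
    w ∈ T' ↔ v ∈ T :=
  (hT w).trans ⟨fun ⟨v', hv', h'⟩ => by rwa [placeOver_unique388 h h'], fun hv => ⟨v, hv, h⟩⟩

/-- `w` contains the image of `v`: `w` lies over `v`. -/
theorem placeOver_of_le388 {v : HeightOneSpectrum (𝓞 K)} {w : HeightOneSpectrum (𝓞 K')}
    (h : ∀ x : 𝓞 K, x ∈ v.asIdeal → algebraMap (𝓞 K) (𝓞 K') x ∈ w.asIdeal) :
    PlaceOver K K' v w := by
  have hle : v.asIdeal ≤ Ideal.comap (algebraMap (𝓞 K) (𝓞 K')) w.asIdeal := fun x hx => h x hx
  have hmax : v.asIdeal.IsMaximal := v.isMaximal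
  have hne : Ideal.comap (algebraMap (𝓞 K) (𝓞 K')) w.asIdeal ≠ ⊤ :=
    (Ideal.IsPrime.comap (algebraMap (𝓞 K) (𝓞 K'))).ne_top
  have heq : v.asIdeal = Ideal.comap (algebraMap (𝓞 K) (𝓞 K')) w.asIdeal :=
    hmax.eq_of_le hne hle
  intro x y hy
  have hyx : y = algebraMap (𝓞 K) (𝓞 K') x := by
    apply RingOfIntegers.ext
    rw [hy, coe_algebraMap388]
  rw [hyx, heq, Ideal.mem_comap]

theorem valued_algebraMap388 {F : Type} [Field F] [NumberField F]
    (v : HeightOneSpectrum (𝓞 F)) (x : F) :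
    Valued.v (algebraMap F (v.adicCompletion F) x) = v.valuation F x :=
  HeightOneSpectrum.valuedAdicCompletion_eq_valuation' v x

/-- **The ramification index is one at an unramified place.** -/
theorem e_eq_one388 {v : HeightOneSpectrum (𝓞 K)} {w : HeightOneSpectrum (𝓞 K')}
    (hun : ∃ x : 𝓞 K, x ∈ v.asIdeal ∧ algebraMap (𝓞 K) (𝓞 K') x ∉ w.asIdeal ^ 2)
    {e : ℕ} (he : 0 < e) (i : v.adicCompletion K →+* w.adicCompletion K')
    (hi : ∀ x : K, i (algebraMap K (v.adicCompletion K) x)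
      = algebraMap K' (w.adicCompletion K') (algebraMap K K' x))
    (hval : ∀ x : v.adicCompletion K, Valued.v (i x) = Valued.v x ^ e) : e = 1 := by
  obtain ⟨x, hxv, hxw⟩ := hun
  have ha : Valued.v (algebraMap K (v.adicCompletion K) (x : K)) ≤ WithZero.exp (-(1 : ℤ)) := by
    rw [valued_algebraMap388 v (x : K)]
    have h1 : v.valuation K (algebraMap (𝓞 K) K x) = v.intValuation x :=
      HeightOneSpectrum.valuation_of_algebraMap v x
    have h2 : v.intValuation x ≤ WithZero.exp (-((1 : ℕ) : ℤ)) :=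
      (HeightOneSpectrum.intValuation_le_pow_iff_mem v x 1).2 (by rwa [pow_one])
    rw [show (x : K) = algebraMap (𝓞 K) K x from rfl, h1]
    simpa using h2
  have hb : ¬ Valued.v (algebraMap K' (w.adicCompletion K') (algebraMap K K' (x : K)))
      ≤ WithZero.exp (-(2 : ℤ)) := by
    rw [valued_algebraMap388 w (algebraMap K K' (x : K))]
    have h1 : w.valuation K' (algebraMap (𝓞 K') K' (algebraMap (𝓞 K) (𝓞 K') x))
        = w.intValuation (algebraMap (𝓞 K) (𝓞 K') x) :=
      HeightOneSpectrum.valuation_of_algebraMap w _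
    rw [show algebraMap K K' (x : K) = algebraMap (𝓞 K') K' (algebraMap (𝓞 K) (𝓞 K') x) from rfl,
      h1]
    intro h
    apply hxw
    have h2 : w.intValuation (algebraMap (𝓞 K) (𝓞 K') x) ≤ WithZero.exp (-((2 : ℕ) : ℤ)) := by
      simpa using h
    exact (HeightOneSpectrum.intValuation_le_pow_iff_mem w _ 2).1 h2
  have hab : Valued.v (algebraMap K' (w.adicCompletion K') (algebraMap K K' (x : K)))
      = Valued.v (algebraMap K (v.adicCompletion K) (x : K)) ^ e := by
    rw [← hi, hval]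
  by_contra hne
  have he2 : 2 ≤ e := by omega
  apply hb
  rw [hab]
  calc Valued.v (algebraMap K (v.adicCompletion K) (x : K)) ^ e
      ≤ WithZero.exp (-(1 : ℤ)) ^ e := pow_le_pow_left₀ zero_le ha e
    _ = WithZero.exp (e • (-(1 : ℤ))) := (WithZero.exp_nsmul e _).symm
    _ ≤ WithZero.exp (-(2 : ℤ)) := by
        rw [WithZero.exp_le_exp]
        simp only [nsmul_eq_mul, mul_neg, mul_one, neg_le_neg_iff]
        exact_mod_cast he2

/-- **`N w = (N v)^l`** at an unramified place with ONE place above it (`T6.InstExtC`). -/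
theorem absNorm_inert388 (hExt : T6.InstExtC) {l : ℕ} (hcyc : IsCycExt K K' l)
    {v : HeightOneSpectrum (𝓞 K)} {w : HeightOneSpectrum (𝓞 K')} (hvw : PlaceOver K K' v w)
    (honly : ∀ w' : HeightOneSpectrum (𝓞 K'), PlaceOver K K' v w' → w' = w)
    (hun : ∃ x : 𝓞 K, x ∈ v.asIdeal ∧ algebraMap (𝓞 K) (𝓞 K') x ∉ w.asIdeal ^ 2) :
    Ideal.absNorm w.asIdeal = Ideal.absNorm v.asIdeal ^ l := by
  haveI := hcyc.galois
  have hcard : Nat.card (K' ≃ₐ[K] K') = l := by
    rw [IsGalois.card_aut_eq_finrank, hcyc.degree]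
  haveI : Fact l.Prime := ⟨hcyc.prime⟩
  haveI : IsCyclic (K' ≃ₐ[K] K') := isCyclic_of_prime_card hcard
  obtain ⟨g, hg⟩ := IsCyclic.exists_generator (α := K' ≃ₐ[K] K')
  have hprime : (Module.finrank K K').Prime := by rw [hcyc.degree]; exact hcyc.prime
  obtain ⟨e', i', sw', hi', -, hext', hN⟩ := hExt K K' g hg hprime v w (placeOver_iff388 hvw)
    (fun w' h' => honly w' (placeOver_of_le388 h'))
  have he' : e' = 1 := e_eq_one388 hun hext'.e_pos i' hi' hext'.val_i
  rw [hN, he', Nat.div_one, hcyc.degree]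

end Global

/-! ## 3. The leaf -/

/-- **LEAF C2.7.11 = UNIT-MATCH**, VERBATIM. -/
theorem unitMatchC388 (K K' : Type) [Field K] [NumberField K] [Field K'] [NumberField K']
    [Algebra K K'] : UnitMatchC305 K K' := by
  intro hT6 D _ hcyc _ _ μc _ T₀ hunr n m hlev T S T' S' hT₀T _ hTT' _ φ₀ Φ f₀ F h
  obtain ⟨-, -, -, -, -, hIL, hIE, -, -, -, -, -, -, hFL, -⟩ := hT6
  have hup : ∀ (v : HeightOneSpectrum (𝓞 K)) (w : HeightOneSpectrum (𝓞 K')),
      PlaceOver K K' v w → v ∈ T → ext305 T' φ₀ w = φ₀ w :=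
    fun v w hvw hv => if_pos ((mem_over_iff388 hTT' hvw).2 hv)
  have hup' : ∀ (v : HeightOneSpectrum (𝓞 K)) (w : HeightOneSpectrum (𝓞 K')),
      PlaceOver K K' v w → v ∉ T → ext305 T' φ₀ w = unit305 :=
    fun v w hvw hv => if_neg (fun hw => hv ((mem_over_iff388 hTT' hvw).1 hw))
  have hdn : ∀ v : HeightOneSpectrum (𝓞 K), v ∈ T → ext305 T f₀ v = f₀ v :=
    fun v hv => if_pos hv
  have hdn' : ∀ v : HeightOneSpectrum (𝓞 K), v ∉ T → ext305 T f₀ v = unit305 :=
    fun v hv => if_neg hv
  have hm0 : ∀ v : HeightOneSpectrum (𝓞 K), v ∉ T → m v = 0 :=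
    fun v hv => hlev.1 v (fun h0 => hv (hT₀T h0))
  have hn0 : ∀ (v : HeightOneSpectrum (𝓞 K)) (w : HeightOneSpectrum (𝓞 K')),
      PlaceOver K K' v w → v ∉ T → n w = 0 :=
    fun v w hvw hv => hlev.2 v w (fun h0 => hv (hT₀T h0)) hvw
  refine ⟨?_, ?_, h.arch_up, h.arch_down, ?_, ?_, h.arch⟩
  · -- inv_up
    intro v _ w hvw
    by_cases hv : v ∈ T
    · rw [hup v w hvw hv]
      exact h.inv_up v hv w hvw
    · rw [hup' v w hvw hv, hn0 v w hvw hv]
      exact ⟨isBiInv_unit388, hasFinSupp_unit388⟩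
  · -- inv_down
    intro v _
    by_cases hv : v ∈ T
    · rw [hdn v hv]
      exact h.inv_down v hv
    · rw [hdn' v hv, hm0 v hv]
      exact ⟨isBiInv_unit388, hasFinSupp_unit388⟩
  · -- inert
    intro v _ w hvw honly e i sw hi hs hext
    by_cases hv : v ∈ T
    · rw [hup v w hvw hv, hdn v hv]
      exact h.inert v hv w hvw honly e i sw hi hs hext
    · have hun := hunr v (fun h0 => hv (hT₀T h0)) w hvw
      have he1 : e = 1 := e_eq_one388 hun hext.e_pos i hi hext.val_i
      subst he1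
      have hN := absNorm_inert388 hIE hcyc hvw honly hun
      have hk : T6.IsLocalField (v.adicCompletion K) (Ideal.absNorm v.asIdeal) := hIL K v
      have hk' : T6.IsLocalField (w.adicCompletion K') (Ideal.absNorm v.asIdeal ^ D.l) := by
        have := hIL K' w
        rwa [hN] at this
      rw [hup' v w hvw hv, hdn' v hv, hn0 v w hvw hv, hm0 v hv, unit305_eq388, unit305_eq388]
      exact ⟨fun δ γ c c' hreg hconj hc hc' =>
          hFL.1 (v.adicCompletion K) (w.adicCompletion K') _ _ i sw hk hk' hext hcyc.prime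
            H159.unitFn159 H159.unitFn159 H159.isDominant_unitFn159 H159.isDominant_unitFn159
            (H159.isBC_unitFn159 _ _) δ γ c c' hreg trivial hconj hc hc',
        fun γ c' hreg hnn hc' =>
          hFL.2 (v.adicCompletion K) (w.adicCompletion K') _ _ i sw hk hk' hext hcyc.prime
            H159.unitFn159 H159.unitFn159 H159.isDominant_unitFn159 H159.isDominant_unitFn159
            (H159.isBC_unitFn159 _ _) γ c' hreg hnn hc'⟩
  · -- split
    intro v _ w i hw hrel hne hi hval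
    by_cases hv : v ∈ T
    · have e1 : ∀ j : ℕ, ext305 T' φ₀ (w j) = φ₀ (w j) := fun j => hup v (w j) (hw j) hv
      simp only [e1, hdn v hv]
      exact h.split v hv w i hw hrel hne hi hval
    · refine ⟨fun j => by rw [hn0 v (w j) (hw j) hv, hm0 v hv], ?_⟩
      have e1 : ∀ j : ℕ, ext305 T' φ₀ (w j) = unit305 := fun j => hup' v (w j) (hw j) hv
      have e2 : ∀ (j : ℕ) (g : GL (Fin 2) (v.adicCompletion K)),
          unit305 (Matrix.GeneralLinearGroup.map
            ((i j : v.adicCompletion K ≃+* (w j).adicCompletion K') :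
              v.adicCompletion K →+* (w j).adicCompletion K') g) = unit305 g :=
        fun j g => unit305_map388 _ (hval j) g
      simp only [e1, e2, hdn' v hv, hm0 v hv]
      exact isConvProd_unit388 D.l

end Fermat.Agent.LT.T7.H388

end

end
-- ===== PACK-END LT/T7/H388/UnitMatch.lean

-- ===== PACK-BEGIN LT/T7/H124/OntoInf.lean
section



/-!
# Row LT, tower T7, leaf T7.L2.1.C2.5-I.5 `H816.OntoInfC816` (registry row 2472) -- helper124

OFF-MAIN.  A fixed adele of `K'` comes from `K_v` at the infinite places over `v`.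
VERBATIM against `LT/T7/H816/IotaSpec.lean` (helper816@e81f893cb, sha256 c16fad08c5fc320c).
No hole, nothing assumed.

Proof.  At every infinite place `w` of `K'` the base change `ι` is `c_w ∈ {id, conj}` in the
coordinates of `T5.infHom` (`IsPreBase816.inf`) and `σ_𝔸` is `d_w ∈ {id, conj}`
(`SigmaLocC305`).  On the elements of `K` (fixed by `σ`) this gives `c_w = d_w ∘ c_{w ∘ σ}` on
the image of `K` in `ℂ`, which is not real (`v` is complex): so `c_w = d_w ∘ c_{w ∘ σ}`.  For a
fixed adele `y` the number `t` with `c_w t = y_w` is therefore the same for `w` and `w ∘ σ`;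
the powers of `σ` are all of `Gal(K'/K)` (prime order), which is transitive on the places over
`v`.  The completion at the complex place `v` is `ℂ`.
-/

set_option autoImplicit false

open AutomorphicForm IsDedekindDomain NumberField MeasureTheory
open scoped ComplexConjugate

noncomputable section

namespace Fermat.Agent.LT.T7.H124

open Fermat.Agent.LT.H556 Fermat.Agent.LT.H556.A0 Fermat.Agent.LT.T7
open Fermat.Agent.LT.T7.H305 Fermat.Agent.LT.T7.H816

variable {K K' : Type} [Field K] [NumberField K] [Field K'] [NumberField K'] [Algebra K K']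

/-- The component at `w` of a principal adele. -/
theorem infHom_algebraMap124 (w : InfinitePlace K) (x : K) :
    T5.infHom w (algebraMap K (Adl K) x) = w.embedding x :=
  InfinitePlace.Completion.extensionEmbedding_coe w _

/-- At a complex place every complex number is a component. -/
theorem exists_infHom_eq124 (v : InfinitePlace K) (hv : v.IsComplex) (t : ℂ) :
    ∃ x : Adl K, T5.infHom v x = t := by
  classical
  obtain ⟨c, hc⟩ := InfinitePlace.Completion.surjective_extensionEmbedding_of_isComplex hv t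
  refine ⟨((Pi.single v c : InfiniteAdeleRing K), 0), ?_⟩
  show InfinitePlace.Completion.extensionEmbedding v ((Pi.single v c : InfiniteAdeleRing K) v) = t
  rw [Pi.single_eq_same, hc]

omit [NumberField K] in
/-- A complex place has a non-real value on `K`. -/
theorem exists_nonreal124 (v : InfinitePlace K) (hv : v.IsComplex) :
    ∃ x : K, conj (v.embedding x) ≠ v.embedding x := by
  by_contra hno
  push Not at hno
  have h1 : ComplexEmbedding.IsReal v.embedding := by
    rw [ComplexEmbedding.isReal_iff]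
    exact RingHom.ext fun x => hno x
  exact (InfinitePlace.isComplex_iff.1 hv) h1

/-- Three maps which are the identity or the conjugation and satisfy `f = g ∘ h` at one non-real
point satisfy it everywhere. -/
theorem idconj_comp124 (f g h : ℂ → ℂ) (hf : (∀ z, f z = z) ∨ (∀ z, f z = conj z))
    (hg : (∀ z, g z = z) ∨ (∀ z, g z = conj z)) (hh : (∀ z, h z = z) ∨ (∀ z, h z = conj z))
    (z₀ : ℂ) (hz₀ : conj z₀ ≠ z₀) (key : f z₀ = g (h z₀)) : ∀ z, f z = g (h z) := by
  intro z
  rcases hf with a | a <;> rcases hg with b | b <;> rcases hh with c | c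
  · rw [a, b, c]
  · rw [a, b, c] at key
    exact absurd key.symm hz₀
  · rw [a, b, c] at key
    exact absurd key.symm hz₀
  · rw [a, b, c, Complex.conj_conj]
  · rw [a, b, c] at key
    exact absurd key hz₀
  · rw [a, b, c]
  · rw [a, b, c]
  · rw [a, b, c, Complex.conj_conj] at key
    exact absurd key hz₀

variable (K K')

/-- **Leaf T7.L2.1.C2.5-I.5 = ONTO-INF**, VERBATIM. -/
theorem ontoInfC124 : H816.OntoInfC816 K K' := by
  classical
  intro D hD hcyc hcplx hσloc ι hι y hy v
  -- the automorphism as an element of the Galois group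
  have hfix : ∀ x : K, D.s.σ (algebraMap K K' x) = algebraMap K K' x := fun x =>
    (hD.cyc.fixed _).1 ((hD.base _).2 ⟨x, rfl⟩)
  have hcomp : (D.s.σ : K' →+* K').comp (algebraMap K K') = algebraMap K K' :=
    RingHom.ext fun x => hfix x
  have : FiniteDimensional K K' := by
    apply Module.finite_of_finrank_pos
    rw [hcyc.degree]
    exact hcyc.prime.pos
  have : IsGalois K K' := hcyc.galois
  have : Fact D.l.Prime := ⟨hcyc.prime⟩
  let σ' : K' ≃ₐ[K] K' := AlgEquiv.ofRingEquiv (f := D.s.σ) hfix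
  have hσ'coe : ((σ' : K' ≃ₐ[K] K') : K' →+* K') = (D.s.σ : K' →+* K') :=
    RingHom.ext fun _ => rfl
  have hσ'ne : σ' ≠ 1 := by
    intro h1
    obtain ⟨x, hx⟩ := hD.cyc.faithful 1 one_pos hcyc.prime.one_lt
    apply hx
    rw [pow_one]
    have := AlgEquiv.congr_fun h1 x
    exact this
  have htop : Subgroup.zpowers σ' = ⊤ :=
    zpowers_eq_top_of_prime_card
      ((IsGalois.card_aut_eq_finrank K K').trans hcyc.degree) hσ'ne
  -- the local forms
  have hF : ∀ w' : InfinitePlace K', ∃ f : ℂ → ℂ, ((∀ z, f z = z) ∨ (∀ z, f z = conj z)) ∧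
      ∀ x : Adl K, T5.infHom w' (ι x) = f (T5.infHom (w'.comap (algebraMap K K')) x) := by
    intro w'
    rcases hι.inf w' with h | h
    · exact ⟨fun z => z, Or.inl fun _ => rfl, h⟩
    · exact ⟨fun z => conj z, Or.inr fun _ => rfl, h⟩
  choose F hF1 hF2 using hF
  have hG : ∀ w : InfinitePlace K', ∃ g : ℂ → ℂ, ((∀ z, g z = z) ∨ (∀ z, g z = conj z)) ∧
      ∀ a : Adl K', T5.infHom w (D.s.σA a)
        = g (T5.infHom (w.comap (D.s.σ : K' →+* K')) a) := by
    intro w
    rcases (hσloc D.s).2 w with h | h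
    · exact ⟨fun z => z, Or.inl fun _ => rfl, h⟩
    · exact ⟨fun z => conj z, Or.inr fun _ => rfl, h⟩
  choose Gf hG1 hG2 using hG
  have hover : ∀ w : InfinitePlace K',
      (w.comap (D.s.σ : K' →+* K')).comap (algebraMap K K') = w.comap (algebraMap K K') := by
    intro w
    rw [← InfinitePlace.comap_comp, hcomp]
  -- the relation between the local forms
  have hrel : ∀ (w : InfinitePlace K') (z : ℂ),
      F w z = Gf w (F (w.comap (D.s.σ : K' →+* K')) z) := by
    intro w
    obtain ⟨x₀, hx₀⟩ := exists_nonreal124 (w.comap (algebraMap K K'))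
      (hcplx (w.comap (algebraMap K K')))
    refine idconj_comp124 (F w) (Gf w) (F (w.comap (D.s.σ : K' →+* K'))) (hF1 w) (hG1 w)
      (hF1 _) _ hx₀ ?_
    have h1 := hG2 w (ι (algebraMap K (Adl K) x₀))
    have h2 : D.s.σA (ι (algebraMap K (Adl K) x₀)) = ι (algebraMap K (Adl K) x₀) := by
      rw [hι.rat, D.s.compat, hfix]
    rw [h2, hF2 w, hF2 (w.comap (D.s.σ : K' →+* K')), hover w, infHom_algebraMap124] at h1
    exact h1
  -- one step along `σ`
  have hstep : ∀ (w : InfinitePlace K') (t : ℂ),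
      F (w.comap (D.s.σ : K' →+* K')) t = T5.infHom (w.comap (D.s.σ : K' →+* K')) y →
        F w t = T5.infHom w y := by
    intro w t ht
    have h1 := hG2 w y
    rw [hy] at h1
    rw [h1, ← ht]
    exact hrel w t
  -- the automorphisms along which the step is possible
  let H : Submonoid (K' ≃ₐ[K] K') :=
    { carrier := {τ | ∀ (w : InfinitePlace K') (t : ℂ),
        F (w.comap ((τ : K' ≃ₐ[K] K') : K' →+* K')) t
          = T5.infHom (w.comap ((τ : K' ≃ₐ[K] K') : K' →+* K')) y → F w t = T5.infHom w y}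
      one_mem' := fun w t ht => ht
      mul_mem' := fun {τ₁ τ₂} h₁ h₂ w t ht =>
        h₁ w t (h₂ (w.comap ((τ₁ : K' ≃ₐ[K] K') : K' →+* K')) t ht) }
  have hσH : σ' ∈ H := by
    intro w t ht
    rw [hσ'coe] at ht
    exact hstep w t ht
  have hall : ∀ τ : K' ≃ₐ[K] K', τ ∈ H := by
    intro τ
    have h1 : τ ∈ Subgroup.zpowers σ' := by
      rw [htop]
      exact Subgroup.mem_top τ
    have h2 : τ ∈ Submonoid.powers σ' := mem_powers_iff_mem_zpowers.2 h1
    exact (Submonoid.powers_le.2 hσH) h2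
  -- the base place and the number `t`
  have : Algebra.IsAlgebraic K K' := Algebra.IsAlgebraic.of_finite K K'
  obtain ⟨w₀, hw₀⟩ := InfinitePlace.comap_surjective (K := K') v
  have hw₀' : w₀.comap (algebraMap K K') = v := hw₀
  obtain ⟨t, ht⟩ : ∃ t : ℂ, F w₀ t = T5.infHom w₀ y := by
    rcases hF1 w₀ with a | a
    · exact ⟨T5.infHom w₀ y, a _⟩
    · exact ⟨conj (T5.infHom w₀ y), by rw [a, Complex.conj_conj]⟩
  obtain ⟨x, hx⟩ := exists_infHom_eq124 v (hcplx v) t
  refine ⟨x, fun w' hw' => ?_⟩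
  rw [hF2 w', hw', hx]
  obtain ⟨τ, hτ⟩ := InfinitePlace.exists_smul_eq_of_comap_eq (k := K) (w := w') (w' := w₀)
    (hw'.trans hw₀'.symm)
  refine hall τ.symm w' t ?_
  have h3 : w'.comap ((τ.symm : K' ≃ₐ[K] K') : K' →+* K') = w₀ := hτ
  rw [h3]
  exact ht

end Fermat.Agent.LT.T7.H124

end

end
-- ===== PACK-END LT/T7/H124/OntoInf.lean

-- ===== PACK-BEGIN LT/T7/H534/DownBasisTop.lean
section



/-!
# Row LT, tower T7, NODE T7.L2.3.5 `SD534.DownBasisC` -- THE ASSEMBLY (helper534)

OFF-MAIN.  PROVED: `downBasisC_of534`, from the seven leaves of `DownBasisSpec.lean` and the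
fields `proj_down`, `class_down`, `comm_down`, `ekprod_down`, `u_level`, `comp` of `IsL2Data`.
No hole, nothing assumed.  ADDITIVE.
-/

set_option autoImplicit false
set_option linter.unusedSectionVars false
set_option linter.unusedVariables false

open AutomorphicForm IsDedekindDomain NumberField MeasureTheory
open scoped ComplexConjugate

noncomputable section

namespace Fermat.Agent.LT.T7.SD534

open Fermat.Agent.LT.H556 Fermat.Agent.LT.H556.A0 Fermat.Agent.LT.T7

attribute [local instance] Fermat.Agent.LT.T5.instMeasurableSpaceG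

section Basic

variable {K : Type} [Field K] [NumberField K]

/-- `W` as a submodule of the functions. -/
def wSub534 {𝔫 : Ideal (𝓞 K)} {r : G K} {u : HeightOneSpectrum (𝓞 K)} (h : IsWSub 𝔫 r u) :
    Submodule ℂ (G K → ℂ) where
  carrier := {χ | InW 𝔫 r u χ}
  zero_mem' := h.zeroW
  add_mem' := fun {a b} ha hb => h.addW a b ha hb
  smul_mem' := fun a f hf => h.smulW a f hf

theorem mem_wSub534 {𝔫 : Ideal (𝓞 K)} {r : G K} {u : HeightOneSpectrum (𝓞 K)}
    (h : IsWSub 𝔫 r u) (χ : G K → ℂ) : χ ∈ wSub534 h ↔ InW 𝔫 r u χ := Iff.rfl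

theorem innerD_zero_right534 (μ : Measure (G K)) (F : Set (G K)) (f : G K → ℂ) :
    T5.innerD μ F f 0 = 0 := by
  unfold T5.innerD
  simp

theorem innerD_zero_left0_534 (μ : Measure (G K)) (F : Set (G K)) (f : G K → ℂ) :
    T5.innerD μ F 0 f = 0 := by
  unfold T5.innerD
  simp

theorem iwOp_add534 (u : HeightOneSpectrum (𝓞 K)) (H : Finset (G K)) (x y : G K → ℂ) :
    iwOp u H (x + y) = iwOp u H x + iwOp u H y := by
  funext g
  simp only [iwOp, Pi.add_apply, Finset.sum_add_distrib, mul_add]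

theorem iwOp_smul534 (u : HeightOneSpectrum (𝓞 K)) (H : Finset (G K)) (t : ℂ) (x : G K → ℂ) :
    iwOp u H (t • x) = t • iwOp u H x := by
  funext g
  simp only [iwOp, Pi.smul_apply, smul_eq_mul, ← Finset.mul_sum]
  ring

theorem shiftOp_add534 (z : G K) (k : ℤ) (x y : G K → ℂ) :
    shiftOp z k (x + y) = shiftOp z k x + shiftOp z k y := by
  funext g
  simp only [shiftOp, Pi.add_apply]

theorem shiftOp_smul534 (z : G K) (k : ℤ) (t : ℂ) (x : G K → ℂ) :
    shiftOp z k (t • x) = t • shiftOp z k x := by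
  funext g
  simp only [shiftOp, Pi.smul_apply]

theorem shiftOp_shiftOp534 (z : G K) (k k' : ℤ) (x : G K → ℂ) :
    shiftOp z (k + k') x = shiftOp z k (shiftOp z k' x) := by
  funext g
  simp only [shiftOp]
  rw [zpow_add, mul_assoc]

theorem rconv_zero534 (μ : Measure (G K)) (φ : G K → ℂ) : T5.Rconv μ φ 0 = 0 := by
  funext g
  simp [T5.Rconv]

/-- The class spans are contained in `W`. -/
theorem clsSpan_le534 {𝔫 : Ideal (𝓞 K)} {r : G K} {u : HeightOneSpectrum (𝓞 K)}
    (hS : IsWSub 𝔫 r u) (w : ℕ → G K → ℂ) (J : Set ℕ) (c : ℕ → EigData K)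
    (heig : ∀ j, j ∈ J → InCls 𝔫 r u (c j) (w j)) (a : EigData K) :
    clsSpan w J c a ≤ wSub534 hS := by
  unfold clsSpan
  rw [Submodule.span_le]
  rintro f ⟨j, hj, -, rfl⟩
  exact (heig j hj).inW

/-- The members of a class span are eigenfunctions with the data of the class. -/
theorem inCls_of_mem534 {𝔫 : Ideal (𝓞 K)} {r : G K} {u : HeightOneSpectrum (𝓞 K)}
    (hS : IsWSub 𝔫 r u) (w : ℕ → G K → ℂ) (J : Set ℕ) (c : ℕ → EigData K)
    (heig : ∀ j, j ∈ J → InCls 𝔫 r u (c j) (w j)) (j₀ : ℕ) (hj₀ : j₀ ∈ J)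
    (x : G K → ℂ) (hx : x ∈ clsSpan w J c (c j₀)) : InCls 𝔫 r u (c j₀) x := by
  unfold clsSpan at hx
  induction hx using Submodule.span_induction with
  | mem f hf =>
    obtain ⟨j, hj, hc, rfl⟩ := hf
    rw [← hc]
    exact heig j hj
  | zero =>
    have h := hS.smulC (c j₀) 0 (w j₀) (heig j₀ hj₀)
    rwa [zero_smul] at h
  | add f f' _ _ hf hf' => exact hS.addC (c j₀) f f' hf hf'
  | smul a f _ hf => exact hS.smulC (c j₀) a f hf

/-- A class span without members is trivial. -/
theorem clsSpan_eq_bot534 {M A : Type} [AddCommGroup M] [Module ℂ M] (w : ℕ → M) (J : Set ℕ)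
    (cl : ℕ → A) (a : A) (h : ¬ ∃ j, j ∈ J ∧ cl j = a) : clsSpan w J cl a = ⊥ := by
  unfold clsSpan
  rw [Submodule.span_eq_bot]
  rintro f ⟨j, hj, hc, -⟩
  exact absurd ⟨j, hj, hc⟩ h

end Basic

/-! ## The interleaved sequence -/

section Mix

variable {K : Type} [Field K] [NumberField K]

open Classical in
/-- The interleaved sequence: `e n` (or `0` if `n ∉ J`) at `2 n`, `p n` at `2 n + 1`. -/
def mix534 (e p : ℕ → G K → ℂ) (J : Set ℕ) : ℕ → G K → ℂ :=
  fun i => if i % 2 = 0 then (if i / 2 ∈ J then e (i / 2) else 0) else p (i / 2)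

theorem mix_even534 (e p : ℕ → G K → ℂ) (J : Set ℕ) (n : ℕ) :
    mix534 e p J (2 * n) = open Classical in if n ∈ J then e n else 0 := by
  unfold mix534
  have h1 : 2 * n % 2 = 0 := Nat.mul_mod_right 2 n
  have h2 : 2 * n / 2 = n := Nat.mul_div_cancel_left n (by norm_num)
  rw [if_pos h1, h2]

theorem mix_odd534 (e p : ℕ → G K → ℂ) (J : Set ℕ) (n : ℕ) :
    mix534 e p J (2 * n + 1) = p n := by
  unfold mix534
  have h1 : ¬ (2 * n + 1) % 2 = 0 := by omega
  have h2 : (2 * n + 1) / 2 = n := by omega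
  rw [if_neg h1, h2]

theorem mix_cases534 (e p : ℕ → G K → ℂ) (J : Set ℕ) (i : ℕ) :
    (∃ n, i = 2 * n ∧ n ∈ J ∧ mix534 e p J i = e n) ∨
    (∃ n, i = 2 * n ∧ n ∉ J ∧ mix534 e p J i = 0) ∨
    (∃ n, i = 2 * n + 1 ∧ mix534 e p J i = p n) := by
  classical
  rcases Nat.even_or_odd' i with ⟨n, hn | hn⟩
  · by_cases hJ : n ∈ J
    · left
      refine ⟨n, hn, hJ, ?_⟩
      rw [hn, mix_even534, if_pos hJ]
    · right; left
      refine ⟨n, hn, hJ, ?_⟩
      rw [hn, mix_even534, if_neg hJ]
  · right; right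
    exact ⟨n, hn, by rw [hn, mix_odd534]⟩

/-- Parseval for the interleaved sequence. -/
theorem complete_mix534 {μ : Measure (G K)} {F : Set (G K)} {r : G K} {𝔫 : Ideal (𝓞 K)}
    {u : HeightOneSpectrum (𝓞 K)} (hF : IsCuspForm μ F r 𝔫) (hS : IsWSub 𝔫 r u)
    (e p : ℕ → G K → ℂ) (J : Set ℕ)
    (he : ∀ j, j ∈ J → InW 𝔫 r u (e j))
    (hePars : ∀ χ : G K → ℂ, InW 𝔫 r u χ →
      HasSum (fun j : J => ‖T5.innerD μ F χ (e j)‖ ^ 2) (T5.innerD μ F χ χ).re)
    (hpV : ∀ n, InV 𝔫 r (p n))
    (hpW : ∀ n, ∀ χ : G K → ℂ, InW 𝔫 r u χ → T5.innerD μ F (p n) χ = 0)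
    (hpPars : ∀ f : G K → ℂ, InV 𝔫 r f →
      (∀ χ : G K → ℂ, InW 𝔫 r u χ → T5.innerD μ F f χ = 0) →
      HasSum (fun n => ‖T5.innerD μ F f (p n)‖ ^ 2) (T5.innerD μ F f f).re)
    (f : G K → ℂ) (hf : InV 𝔫 r f)
    (hproj : ∃ f₁ : G K → ℂ, InW 𝔫 r u f₁ ∧
      ∀ χ : G K → ℂ, InW 𝔫 r u χ → T5.innerD μ F (fun x => f x - f₁ x) χ = 0) :
    HasSum (fun i => ‖T5.innerD μ F f (mix534 e p J i)‖ ^ 2) (T5.innerD μ F f f).re := by
  classical
  obtain ⟨f₁, hf₁, hperp⟩ := hproj
  set d : G K → ℂ := fun x => f x - f₁ x with hd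
  have hf₁V : InV 𝔫 r f₁ := hf₁.inV
  have hdV : InV 𝔫 r d := by
    have h1 : d = f + (-1 : ℂ) • f₁ := by
      funext x
      simp only [hd, Pi.add_apply, Pi.smul_apply, smul_eq_mul]
      ring
    rw [h1]
    exact hS.addV _ _ hf (hS.smulV _ _ hf₁V)
  have hfd : f = f₁ + d := by
    funext x
    simp only [hd, Pi.add_apply]
    ring
  -- the coefficients
  have hcoefW : ∀ χ : G K → ℂ, InW 𝔫 r u χ → T5.innerD μ F f χ = T5.innerD μ F f₁ χ := by
    intro χ hχ
    have h := hF.add_left f₁ d χ hf₁V hdV hχ.inV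
    rw [← hfd] at h
    rw [h, hperp χ hχ, add_zero]
  have hcoefP : ∀ n, T5.innerD μ F f (p n) = T5.innerD μ F d (p n) := by
    intro n
    have h := hF.add_left f₁ d (p n) hf₁V hdV (hpV n)
    rw [← hfd] at h
    have h0 : T5.innerD μ F f₁ (p n) = 0 := by
      rw [hF.conj_symm (p n) f₁ (hpV n) hf₁V, hpW n f₁ hf₁, map_zero]
    rw [h, h0, zero_add]
  -- Pythagoras
  have hpyth : (T5.innerD μ F f f).re = (T5.innerD μ F f₁ f₁).re + (T5.innerD μ F d d).re := by
    have h1 : T5.innerD μ F f f = T5.innerD μ F f₁ f + T5.innerD μ F d f := by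
      have h := hF.add_left f₁ d f hf₁V hdV hf
      rwa [← hfd] at h
    have h2 : T5.innerD μ F f₁ f = conj (T5.innerD μ F f₁ f₁) := by
      rw [hF.conj_symm f f₁ hf hf₁V, hcoefW f₁ hf₁]
    have h3 : T5.innerD μ F d f = conj (T5.innerD μ F d d) := by
      rw [hF.conj_symm f d hf hdV]
      have h := hF.add_left f₁ d d hf₁V hdV hdV
      rw [← hfd] at h
      have h0 : T5.innerD μ F f₁ d = 0 := by
        rw [hF.conj_symm d f₁ hdV hf₁V, hperp f₁ hf₁, map_zero]
      rw [h, h0, zero_add]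
    rw [h1, h2, h3, Complex.add_re, Complex.conj_re, Complex.conj_re]
  rw [hpyth]
  refine HasSum.even_add_odd ?_ ?_
  · -- the even part
    have h1 := hePars f₁ hf₁
    have h2 := (hasSum_subtype_iff_indicator
      (f := fun n => ‖T5.innerD μ F f₁ (e n)‖ ^ 2) (s := J)).1 h1
    have h3 : (fun k => ‖T5.innerD μ F f (mix534 e p J (2 * k))‖ ^ 2)
        = J.indicator (fun n => ‖T5.innerD μ F f₁ (e n)‖ ^ 2) := by
      funext n
      rw [mix_even534]
      by_cases hn : n ∈ J
      · rw [if_pos hn, Set.indicator_of_mem hn, hcoefW (e n) (he n hn)]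
      · rw [if_neg hn, Set.indicator_of_notMem hn, innerD_zero_right534, norm_zero]
        norm_num
    rw [h3]
    exact h2
  · have h3 : (fun k => ‖T5.innerD μ F f (mix534 e p J (2 * k + 1))‖ ^ 2)
        = fun n => ‖T5.innerD μ F d (p n)‖ ^ 2 := by
      funext n
      rw [mix_odd534, hcoefP n]
    rw [h3]
    exact hpPars d hdV hperp

end Mix

/-! ## The assembly -/

section Top

variable {K K' : Type} [Field K] [NumberField K] [Field K'] [NumberField K'] [Algebra K K']

theorem iwOp_zero534 {K : Type} [Field K] [NumberField K] (u : HeightOneSpectrum (𝓞 K))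
    (H : Finset (G K)) : iwOp u H (0 : G K → ℂ) = 0 := by
  funext g
  simp [iwOp]

theorem shiftOp_zero0_534 {K : Type} [Field K] [NumberField K] (z : G K) (k : ℤ) :
    shiftOp z k (0 : G K → ℂ) = 0 := by
  funext g
  simp [shiftOp]

/-- **THE ASSEMBLY of the node DOWN-BASIS.** -/
theorem downBasisC_of534 (hForm : CuspFormC K) (hSub : WSubC K) (hOps : OpsClassC K)
    (hWB : WBasisC K) (hSchur : SchurSeqC) (hReg : RegParamFnC K) (hSeq : SubSeqC K) :
    DownBasisC K K' := by
  classical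
  intro ℓ hcyc hℓ hcplx Φ hΦ hconst Dt hDt g hg H z hH hz
  have hcomp : IsCompData (Dt.comp g) := hDt.comp g hg
  have hlev : Dt.𝔫 g ≠ ⊥ := hcomp.level_ne
  have hfr : T5.IsFrame Dt.R.μ Dt.R.F := hcomp.frame.frame
  have hray : T5.IsRayGen Dt.R.r := hcomp.frame.ray
  have hu : Dt.u.asIdeal ∣ Dt.𝔫 g := hDt.u_level g hg
  have hF := hForm Dt.R.μ Dt.R.F Dt.R.r (Dt.𝔫 g) hlev hfr hray
  have hS := hSub (Dt.𝔫 g) Dt.R.r Dt.u
  have hO := hOps (Dt.𝔫 g) Dt.R.r Dt.u H z hlev hray hu hH hz
  obtain ⟨w, J, c, hW⟩ := hWB Dt.R.μ Dt.R.F Dt.R.r (Dt.𝔫 g) Dt.u hlev hfr hray hu hcplx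
  have htest : T5.IsTestFn (Dt.𝔫 g) T5.trivType (Dt.f g [] 0 0) :=
    (hDt.ekprod_down g [] 0 0 hg (fun x hx => absurd hx (List.not_mem_nil))).1
  have hmemW : ∀ a, ∀ x ∈ clsSpan w J c a, InW (Dt.𝔫 g) Dt.R.r Dt.u x :=
    fun a x hx => clsSpan_le534 hS w J c hW.eig a hx
  -- the hypotheses of the Schur leaf
  have hadd : ∀ a : EigData K, ∀ x ∈ clsSpan w J c a, ∀ y ∈ clsSpan w J c a,
      iwOp Dt.u H (x + y) = iwOp Dt.u H x + iwOp Dt.u H y ∧
      T5.Rconv Dt.R.μ (Dt.f g [] 0 0) (x + y)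
        = T5.Rconv Dt.R.μ (Dt.f g [] 0 0) x + T5.Rconv Dt.R.μ (Dt.f g [] 0 0) y ∧
      ∀ k : ℤ, shiftOp z k (x + y) = shiftOp z k x + shiftOp z k y := by
    intro a x hx y hy
    exact ⟨iwOp_add534 _ _ x y,
      hF.conv_add _ x y htest (hmemW a x hx).inV (hmemW a y hy).inV,
      fun k => shiftOp_add534 z k x y⟩
  have hsmul : ∀ (a : EigData K) (t : ℂ), ∀ x ∈ clsSpan w J c a,
      iwOp Dt.u H (t • x) = t • iwOp Dt.u H x ∧
      T5.Rconv Dt.R.μ (Dt.f g [] 0 0) (t • x) = t • T5.Rconv Dt.R.μ (Dt.f g [] 0 0) x ∧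
      ∀ k : ℤ, shiftOp z k (t • x) = t • shiftOp z k x := by
    intro a t x hx
    exact ⟨iwOp_smul534 _ _ t x, hF.conv_smul _ t x htest (hmemW a x hx).inV,
      fun k => shiftOp_smul534 z k t x⟩
  have hpres : ∀ a : EigData K, ∀ x ∈ clsSpan w J c a,
      iwOp Dt.u H x ∈ clsSpan w J c a ∧
      T5.Rconv Dt.R.μ (Dt.f g [] 0 0) x ∈ clsSpan w J c a ∧
      ∀ k : ℤ, shiftOp z k x ∈ clsSpan w J c a := by
    intro a x hx
    by_cases hne : ∃ j, j ∈ J ∧ c j = a
    · obtain ⟨j₀, hj₀, rfl⟩ := hne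
      have hxc := inCls_of_mem534 hS w J c hW.eig j₀ hj₀ x hx
      exact ⟨hW.exhaust j₀ hj₀ _ (hO.iw _ _ hxc),
        hW.exhaust j₀ hj₀ _ (hDt.class_down g hg x (c j₀) hxc),
        fun k => hW.exhaust j₀ hj₀ _ (hO.shift _ _ k hxc)⟩
    · rw [clsSpan_eq_bot534 w J c a hne] at hx ⊢
      rw [Submodule.mem_bot] at hx
      subst hx
      simp only [Submodule.mem_bot]
      exact ⟨iwOp_zero534 _ _, rconv_zero534 _ _, fun k => shiftOp_zero0_534 z k⟩
  have hcomm : ∀ a : EigData K, ∀ x ∈ clsSpan w J c a,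
      T5.Rconv Dt.R.μ (Dt.f g [] 0 0) (iwOp Dt.u H x)
        = iwOp Dt.u H (T5.Rconv Dt.R.μ (Dt.f g [] 0 0) x) ∧
      (∀ k : ℤ, T5.Rconv Dt.R.μ (Dt.f g [] 0 0) (shiftOp z k x)
        = shiftOp z k (T5.Rconv Dt.R.μ (Dt.f g [] 0 0) x)) ∧
      ∀ k : ℤ, iwOp Dt.u H (shiftOp z k x) = shiftOp z k (iwOp Dt.u H x) := by
    intro a x hx
    have hc := hDt.comm_down g hg x (hmemW a x hx) H z hH hz
    exact ⟨funext hc.1, fun k => funext (hc.2 k), fun k => hO.comm x k⟩
  have hgrp : ∀ a : EigData K, ∀ x ∈ clsSpan w J c a,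
      shiftOp z 0 x = x ∧ ∀ k k' : ℤ, shiftOp z (k + k') x = shiftOp z k (shiftOp z k' x) :=
    fun a x _ => ⟨shiftOp_zero534 z x, fun k k' => shiftOp_shiftOp534 z k k' x⟩
  obtain ⟨e, b, l, x, he, hnorm, horth, hpars, htri, hjoint⟩ :=
    hSchur (G K → ℂ) (T5.innerD Dt.R.μ Dt.R.F) (wSub534 hS) (EigData K) w J c
      (shiftOp z) (iwOp Dt.u H) (T5.Rconv Dt.R.μ (Dt.f g [] 0 0))
      (fun x hx y hy z hz => hF.add_left x y z (InW.inV hx) (InW.inV hy) (InW.inV hz))
      (fun a x hx y hy => hF.smul_left a x y (InW.inV hx) (InW.inV hy))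
      (fun x hx y hy => hF.conj_symm x y (InW.inV hx) (InW.inV hy))
      (fun x hx => hF.nonneg x (InW.inV hx))
      (fun x hx => hF.definite x (InW.inV hx))
      (fun j hj => (hW.eig j hj).inW)
      hW.norm_one hW.orth
      (fun χ hχ => hW.parseval χ hχ)
      hW.finite hadd hsmul hpres hcomm hgrp
  have heW : ∀ j, j ∈ J → InW (Dt.𝔫 g) Dt.R.r Dt.u (e j) := fun j hj => hmemW _ _ (he j hj)
  -- the complement
  obtain ⟨p, hpS, hporth, hpnorm, hppars⟩ :=
    hSeq Dt.R.μ Dt.R.F Dt.R.r (Dt.𝔫 g) hlev hfr hray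
      (fun f => InV (Dt.𝔫 g) Dt.R.r f ∧
        ∀ χ : G K → ℂ, InW (Dt.𝔫 g) Dt.R.r Dt.u χ → T5.innerD Dt.R.μ Dt.R.F f χ = 0)
      (fun f hf => hf.1)
      ⟨hS.zeroW.inV, fun χ _ => innerD_zero_left0_534 _ _ χ⟩
      (fun f f' hf hf' => ⟨hS.addV _ _ hf.1 hf'.1, fun χ hχ => by
        rw [hF.add_left f f' χ hf.1 hf'.1 hχ.inV, hf.2 χ hχ, hf'.2 χ hχ, add_zero]⟩)
      (fun a f hf => ⟨hS.smulV a f hf.1, fun χ hχ => by
        rw [hF.smul_left a f χ hf.1 hχ.inV, hf.2 χ hχ, mul_zero]⟩)
  -- the sequence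
  have hmixI : ∀ i, (i % 2 = 0 ∧ i / 2 ∈ J) → mix534 e p J i = e (i / 2) := by
    intro i hi
    unfold mix534
    rw [if_pos hi.1, if_pos hi.2]
  refine ⟨mix534 e p J, {i | i % 2 = 0 ∧ i / 2 ∈ J}, fun i => c (i / 2), fun i => b (i / 2),
    fun i => l (i / 2), fun i => x (i / 2), Real.sqrt (Ideal.absNorm Dt.u.asIdeal : ℝ),
    ⟨⟨?_, ?_, ?_, ?_⟩, ?_, ?_, ?_, ?_, ?_, ?_⟩⟩
  · -- cusp
    intro i
    rcases mix_cases534 e p J i with ⟨n, -, hn, h⟩ | ⟨n, -, -, h⟩ | ⟨n, -, h⟩
    · rw [h]; exact (heW n hn).inV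
    · rw [h]; exact hS.zeroW.inV
    · rw [h]; exact (hpS n).1
  · -- orth
    intro i j hij
    rcases mix_cases534 e p J i with ⟨n, hi, hn, h⟩ | ⟨n, hi, -, h⟩ | ⟨n, hi, h⟩ <;>
    rcases mix_cases534 e p J j with ⟨n', hj, hn', h'⟩ | ⟨n', hj, -, h'⟩ | ⟨n', hj, h'⟩ <;>
    rw [h, h']
    · exact horth n hn n' hn' (fun hnn => hij (by rw [hi, hj, hnn]))
    · exact innerD_zero_right534 _ _ _
    · rw [hF.conj_symm (p n') (e n) (hpS n').1 (heW n hn).inV, (hpS n').2 (e n) (heW n hn),
        map_zero]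
    · exact innerD_zero_left0_534 _ _ _
    · exact innerD_zero_left0_534 _ _ _
    · exact innerD_zero_left0_534 _ _ _
    · exact (hpS n).2 (e n') (heW n' hn')
    · exact innerD_zero_right534 _ _ _
    · exact hporth n n' (fun hnn => hij (by rw [hi, hj, hnn]))
  · -- norm
    intro i
    rcases mix_cases534 e p J i with ⟨n, -, hn, h⟩ | ⟨n, -, -, h⟩ | ⟨n, -, h⟩
    · rw [h]; exact Or.inl (hnorm n hn)
    · rw [h]; exact Or.inr (fun _ => rfl)
    · rw [h]
      rcases hpnorm n with h1 | h0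
      · exact Or.inl h1
      · exact Or.inr (fun y => by rw [h0]; rfl)
  · -- complete
    intro f hf
    exact complete_mix534 hF hS e p J heW hpars (fun n => (hpS n).1) (fun n => (hpS n).2)
      (fun f hf h => hppars f ⟨hf, h⟩) f hf (hDt.proj_down g hg f hf)
  · -- perp
    intro i hi χ hχ
    rcases mix_cases534 e p J i with ⟨n, hin, hn, h⟩ | ⟨n, -, -, h⟩ | ⟨n, -, h⟩
    · exfalso
      apply hi
      refine ⟨by omega, ?_⟩
      have : i / 2 = n := by omega
      rw [this]
      exact hn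
    · rw [h]; exact innerD_zero_left0_534 _ _ _
    · rw [h]; exact (hpS n).2 χ hχ
  · -- eig
    intro i hi
    rw [hmixI i hi]
    exact inCls_of_mem534 hS w J c hW.eig (i / 2) hi.2 _ (he (i / 2) hi.2)
  · -- ne
    intro i hi
    rw [hmixI i hi]
    by_contra hcon
    have h0 : e (i / 2) = 0 := by
      funext y
      by_contra hy
      exact hcon ⟨y, hy⟩
    have h1 := hnorm (i / 2) hi.2
    rw [h0, innerD_zero_left0_534] at h1
    exact zero_ne_one h1
  · -- unit
    intro i hi
    exact hW.unit (i / 2) hi.2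
  · -- tri
    intro i hi k m
    rw [hmixI i hi]
    exact htri (i / 2) hi.2 k m
  · -- reg
    intro i hi
    obtain ⟨y, hy, hy0, hyZ, hyU⟩ := hjoint (i / 2) hi.2
    refine hReg Dt.R.μ Dt.R.F Dt.R.r (Dt.𝔫 g) Dt.u H z hlev hfr hray hu hH hz y _ _
      (hmemW _ y hy) ?_ hyZ hyU
    by_contra hcon
    apply hy0
    funext t
    by_contra ht
    exact hcon ⟨t, ht⟩

end Top

/-- **THE NODE T7.L2.3 FROM ITS TWELVE LEAVES.** -/
theorem specDownC_of_leaves534 {K K' : Type} [Field K] [NumberField K] [Field K']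
    [NumberField K'] [Algebra K K'] (hStf : StfIdC K) (hIw : IwSysC K) (hBC : BCDataC K K')
    (hRD : ResDegC K K') (hBU : BCUnitC K K') (hForm : CuspFormC K) (hSub : WSubC K)
    (hOps : OpsClassC K) (hWB : WBasisC K) (hSchur : SchurSeqC) (hReg : RegParamFnC K)
    (hSeq : SubSeqC K) : SpecDownC K K' :=
  specDownC_of534 hStf hIw hBC hRD hBU
    (downBasisC_of534 hForm hSub hOps hWB hSchur hReg hSeq)

end Fermat.Agent.LT.T7.SD534

end

end
-- ===== PACK-END LT/T7/H534/DownBasisTop.lean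

-- ===== PACK-BEGIN LT/T7/H346/AvgAut.lean
section


/-!
# Row LT, tower T7, leaf T7.L2.1.P1g `H40.AvgAutC` (helper346) -- OFF-MAIN

`avgAutC346 K : H40.AvgAutC K`, VERBATIM vs `LT/T7/H40/ArchProjSpec.lean` (helper40, sha256
`34d7f842`), UNCONDITIONAL.  The mean over the unit cube of a cusp function along a period family
is bounded (the cube has volume `1`) and automorphic of the same level (`Y t` is central).
-/

set_option autoImplicit false

open AutomorphicForm IsDedekindDomain NumberField MeasureTheory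
open scoped ComplexConjugate

noncomputable section

namespace Fermat.Agent.LT.T7.H346

open Fermat.Agent.LT.H556 Fermat.Agent.LT.H556.A0 Fermat.Agent.LT.T7 Fermat.Agent.LT.T7.H40

attribute [local instance] Fermat.Agent.LT.T5.instMeasurableSpaceG

variable (K : Type) [Field K] [NumberField K]

/-- The unit cube has volume `1`. -/
theorem volume_cube346 : volume (cube40 K) = 1 := by
  unfold cube40
  rw [Real.volume_pi_Ico]
  simp

variable {K}

/-- The mean of a function which does not change under `g ↦ F g` on the orbit. -/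
theorem archAvg_congr346 (Y : (InfinitePlace K → ℝ) → G K) (ψ : G K → ℂ) (g g' : G K)
    (h : ∀ t : InfinitePlace K → ℝ, ψ (g' * Y t) = ψ (g * Y t)) :
    archAvg40 Y ψ g' = archAvg40 Y ψ g := by
  unfold archAvg40
  simp only [h]

variable (K)

/-- **T7.L2.1.P1g `AvgAutC`**: the mean of a cusp function is bounded and automorphic of the
same level. -/
theorem avgAutC346 : AvgAutC K := by
  intro 𝔑 r Y hY ψ hψ
  obtain ⟨C, hC⟩ := hψ.bdd
  refine ⟨⟨C, fun g => ?_⟩, ⟨fun γ g => ?_, fun u hu g => ?_, fun w k hk g => ?_, fun g => ?_⟩⟩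
  · have h := norm_setIntegral_le_of_norm_le_const (μ := volume) (s := cube40 K)
      (f := fun t => ψ (g * Y t)) (C := C) (by rw [volume_cube346]; exact ENNReal.one_lt_top)
      (fun t _ => hC _)
    have h1 : (volume : Measure (InfinitePlace K → ℝ)).real (cube40 K) = 1 := by
      rw [Measure.real, volume_cube346]
      simp
    rw [h1, mul_one] at h
    exact h
  · refine archAvg_congr346 Y ψ g _ fun t => ?_
    rw [mul_assoc]
    exact hψ.aut.left_inv γ (g * Y t)
  · refine archAvg_congr346 Y ψ g _ fun t => ?_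
    rw [mul_assoc, ← hY.central t u, ← mul_assoc]
    exact hψ.aut.level_inv u hu (g * Y t)
  · have h1 : T5.trivType k = 1 := rfl
    rw [h1, one_mul]
    refine archAvg_congr346 Y ψ g _ fun t => ?_
    rw [mul_assoc, ← hY.central t k, ← mul_assoc, hψ.aut.arch_compact w k hk (g * Y t)]
    show (1 : ℂ) * ψ (g * Y t) = ψ (g * Y t)
    rw [one_mul]
  · refine archAvg_congr346 Y ψ g _ fun t => ?_
    rw [mul_assoc, ← hY.central t r, ← mul_assoc]
    exact hψ.aut.ray (g * Y t)

/-- Check: the Prop is the frozen one, verbatim. -/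
example : Fermat.Agent.LT.T7.H40.AvgAutC K := avgAutC346 K

end Fermat.Agent.LT.T7.H346

end

end
-- ===== PACK-END LT/T7/H346/AvgAut.lean

-- ===== PACK-BEGIN LT/T7/H362/ChangeClosed.lean
section








/-!
# Row LT, tower T7, leaf T7.L2.2.C `ChangeC561` (registry row 2189, helper362): CLOSED

OFF-MAIN.  `changeC362 K' : T7.H561.ChangeC561 K'`, UNCONDITIONAL, the Prop of
`LT/T7/H561/SpecUpSpec.lean` (helper561) VERBATIM.

The hypothesis `T1.AddFundDomC K'` of `changeC_of362` is discharged by the closed leaves of tower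
T1 (byte-identical copies from helper54@272e43fd2): T1.01 `locCompC_h11` (helper11), T1.02
`discreteTopology_principal` (helper767), T1.03 `leafAdeleCocompact767` (helper767), T1.04
`leafAddFundDom848` (helper848).  Only these four leaves are imported (11 files), not the whole
of `T1/Closed.lean`.
-/

set_option autoImplicit false

open IsDedekindDomain NumberField MeasureTheory

noncomputable section

namespace Fermat.Agent.LT.T7.H362

open Fermat.Agent.LT.H556.A0

/-- `T1.AddFundDomC`, closed (leaves T1.01 -- T1.04). -/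
theorem addFundDomC362 (K : Type) [Field K] [NumberField K] :
    Fermat.Agent.LT.T1.AddFundDomC K := by
  have hLC : Fermat.Agent.LT.T1.LocCompC K := Fermat.Agent.LT.T1.H11.locCompC_h11 K
  have hD : Fermat.Agent.LT.T1.LeafAdeleDiscrete K := by
    unfold Fermat.Agent.LT.T1.LeafAdeleDiscrete
    have e : Fermat.Agent.LT.T1.princ K = AdeleRing.principalSubgroup (𝓞 K) K := by
      ext x
      simp [Fermat.Agent.LT.T1.princ, AdeleRing.principalSubgroup]
    rw [e]
    exact Fermat.Agent.LT.H767.discreteTopology_principal K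
  have hAL : Fermat.Agent.LT.T1.AdeleLatticeC K :=
    Fermat.Agent.LT.T1.adeleLattice_of_leaves K hLC hD
      (Fermat.Agent.LT.H767.leafAdeleCocompact767 K)
  exact Fermat.Agent.LT.T1.H848.leafAddFundDom848 K hLC hAL

/-- **LEAF T7.L2.2.C = CHANGE, UNCONDITIONAL.** -/
theorem changeC362 (K' : Type) [Field K'] [NumberField K'] :
    Fermat.Agent.LT.T7.H561.ChangeC561 K' :=
  changeC_of362 K' (addFundDomC362 K')

end Fermat.Agent.LT.T7.H362

end
end
-- ===== PACK-END LT/T7/H362/ChangeClosed.lean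

-- ===== PACK-BEGIN LT/T7/H439/SupplyDown.lean
section




/-!
# Row LT, tower T7, node T7.L2.1.F (second cut of helper893): the leaves downstairs
# F4 `KillUpC`, F6 `ClassDownC`, F7 `CommDownC`, F8 `KillDownC` (helper439, OFF-MAIN, spare)

VERBATIM vs `T7/H893/SupplyFamSpec.lean` (helper893@a538b800c), unconditional.

* `Rconv (down [] 0 0) ψ = R(F₁ []) (R(f₂) ψ)` (`regL u z H 0 0 f₂ = f₂`, `Rconv_Rconv277`);
* `Rconv (ltr b φ) ψ = (R(φ) ψ)(· b)`, `Rconv (iwL w H φ) ψ = iwOp w H (R(φ) ψ)` (left invariance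
  of the Haar measure, finite sums), hence
  `Rconv (regL w z H k m φ) ψ = shiftOp z k ((iwOp w H)^[m] (R(φ) ψ))`.
-/

set_option autoImplicit false

open AutomorphicForm IsDedekindDomain NumberField MeasureTheory
open scoped ComplexConjugate

noncomputable section

namespace Fermat.Agent.LT.T7.H439

open Fermat.Agent.LT.H556 Fermat.Agent.LT.H556.A0 Fermat.Agent.LT.T7 Fermat.Agent.LT.T7.H893
open Fermat.Agent.LT

attribute [local instance] Fermat.Agent.LT.T5.instMeasurableSpaceG

section OneField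

variable {K : Type} [Field K] [NumberField K]

theorem regL_zero439 (w : HeightOneSpectrum (𝓞 K)) (z : G K) (H : Finset (G K))
    (φ : G K → ℂ) : regL w z H 0 0 φ = φ := by
  funext y
  simp [regL, ltr]

/-! ### continuity and compact support of the translates -/

theorem continuous_ltr439 (b : G K) {φ : G K → ℂ} (h : Continuous φ) :
    Continuous (ltr b φ) :=
  h.comp (continuous_const.mul continuous_id)

theorem hasCompactSupport_ltr439 (b : G K) {φ : G K → ℂ} (h : HasCompactSupport φ) :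
    HasCompactSupport (ltr b φ) := by
  have := h.comp_homeomorph (Homeomorph.mulLeft b⁻¹)
  exact this

theorem continuous_iwL439 (w : HeightOneSpectrum (𝓞 K)) (H : Finset (G K)) {φ : G K → ℂ}
    (h : Continuous φ) : Continuous (iwL w H φ) := by
  unfold iwL
  exact continuous_const.mul
    (continuous_finsetSum _ fun b _ => h.comp (continuous_const.mul continuous_id))

theorem iwL_eq439 (w : HeightOneSpectrum (𝓞 K)) (H : Finset (G K)) (φ : G K → ℂ) :
    iwL w H φ = fun y => ((Real.sqrt (Ideal.absNorm w.asIdeal : ℝ) : ℝ) : ℂ)⁻¹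
      * ∑ h ∈ H, ltr h φ y := rfl

theorem hasCompactSupport_iwL439 (w : HeightOneSpectrum (𝓞 K)) (H : Finset (G K))
    {φ : G K → ℂ} (h : HasCompactSupport φ) : HasCompactSupport (iwL w H φ) := by
  classical
  rw [iwL_eq439]
  have hs : HasCompactSupport (fun y => ∑ b ∈ H, ltr b φ y) := by
    induction H using Finset.induction_on with
    | empty =>
      simp only [Finset.sum_empty]
      exact HasCompactSupport.zero
    | insert a s ha ih =>
      have : (fun y => ∑ b ∈ insert a s, ltr b φ y)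
          = (fun y => ltr a φ y) + fun y => ∑ b ∈ s, ltr b φ y := by
        funext y
        simp [Finset.sum_insert ha]
      rw [this]
      exact (hasCompactSupport_ltr439 a h).add ih
  exact hs.mul_left

theorem continuous_iter_iwL439 (w : HeightOneSpectrum (𝓞 K)) (H : Finset (G K)) {φ : G K → ℂ}
    (h : Continuous φ) (m : ℕ) : Continuous ((iwL w H)^[m] φ) := by
  induction m with
  | zero => simpa using h
  | succ n ih =>
    rw [Function.iterate_succ_apply']
    exact continuous_iwL439 w H ih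

theorem hasCompactSupport_iter_iwL439 (w : HeightOneSpectrum (𝓞 K)) (H : Finset (G K))
    {φ : G K → ℂ} (h : HasCompactSupport φ) (m : ℕ) :
    HasCompactSupport ((iwL w H)^[m] φ) := by
  induction m with
  | zero => simpa using h
  | succ n ih =>
    rw [Function.iterate_succ_apply']
    exact hasCompactSupport_iwL439 w H ih

theorem continuous_regL439 (w : HeightOneSpectrum (𝓞 K)) (z : G K) (H : Finset (G K)) (k : ℤ)
    (m : ℕ) {φ : G K → ℂ} (h : Continuous φ) : Continuous (regL w z H k m φ) :=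
  continuous_ltr439 _ (continuous_iter_iwL439 w H h m)

theorem hasCompactSupport_regL439 (w : HeightOneSpectrum (𝓞 K)) (z : G K) (H : Finset (G K))
    (k : ℤ) (m : ℕ) {φ : G K → ℂ} (h : HasCompactSupport φ) :
    HasCompactSupport (regL w z H k m φ) :=
  hasCompactSupport_ltr439 _ (hasCompactSupport_iter_iwL439 w H h m)

/-! ### the operators of the translates -/

variable {μ : Measure (G K)} {F : Set (G K)}

theorem Rconv_ltr439 (hF : T5.IsFrame μ F) (b : G K) (φ ψ : G K → ℂ) (x : G K) :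
    T5.Rconv μ (ltr b φ) ψ x = T5.Rconv μ φ ψ (x * b) := by
  have : BorelSpace (G K) := T5.H277.borelSpaceG277
  have := hF.haar
  unfold T5.Rconv ltr
  have h := integral_mul_left_eq_self (μ := μ) (fun y => φ (b⁻¹ * y) * ψ (x * y)) b
  rw [← h]
  congr 1
  funext y
  simp only [inv_mul_cancel_left, mul_assoc]

theorem integrable_mul439 (hF : T5.IsFrame μ F) {φ ψ : G K → ℂ} (hφ : Continuous φ)
    (hφs : HasCompactSupport φ) (hψ : Continuous ψ) (x : G K) :
    Integrable (fun y => φ y * ψ (x * y)) μ := by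
  have : BorelSpace (G K) := T5.H277.borelSpaceG277
  have := hF.haar
  apply Continuous.integrable_of_hasCompactSupport
  · exact hφ.mul (hψ.comp (continuous_const.mul continuous_id))
  · exact hφs.mul_right

theorem Rconv_iwL439 (hF : T5.IsFrame μ F) (w : HeightOneSpectrum (𝓞 K)) (H : Finset (G K))
    {φ ψ : G K → ℂ} (hφ : Continuous φ) (hφs : HasCompactSupport φ) (hψ : Continuous ψ) :
    T5.Rconv μ (iwL w H φ) ψ = iwOp w H (T5.Rconv μ φ ψ) := by
  funext x
  have h1 : T5.Rconv μ (iwL w H φ) ψ x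
      = ((Real.sqrt (Ideal.absNorm w.asIdeal : ℝ) : ℝ) : ℂ)⁻¹
        * ∑ h ∈ H, T5.Rconv μ (ltr h φ) ψ x := by
    unfold T5.Rconv
    rw [← integral_finsetSum]
    · rw [← integral_const_mul]
      congr 1
      funext y
      simp only [iwL, ltr]
      rw [mul_assoc, Finset.sum_mul]
    · intro h _
      exact integrable_mul439 hF (continuous_ltr439 h hφ) (hasCompactSupport_ltr439 h hφs) hψ x
  rw [h1]
  unfold iwOp
  congr 1
  exact Finset.sum_congr rfl fun h _ => Rconv_ltr439 hF h φ ψ x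

theorem Rconv_iter_iwL439 (hF : T5.IsFrame μ F) (w : HeightOneSpectrum (𝓞 K))
    (H : Finset (G K)) {φ ψ : G K → ℂ} (hφ : Continuous φ) (hφs : HasCompactSupport φ)
    (hψ : Continuous ψ) (m : ℕ) :
    T5.Rconv μ ((iwL w H)^[m] φ) ψ = (iwOp w H)^[m] (T5.Rconv μ φ ψ) := by
  induction m with
  | zero => rfl
  | succ n ih =>
    rw [Function.iterate_succ_apply', Function.iterate_succ_apply',
      Rconv_iwL439 hF w H (continuous_iter_iwL439 w H hφ n)
        (hasCompactSupport_iter_iwL439 w H hφs n) hψ, ih]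

theorem Rconv_regL439 (hF : T5.IsFrame μ F) (w : HeightOneSpectrum (𝓞 K)) (z : G K)
    (H : Finset (G K)) (k : ℤ) (m : ℕ) {φ ψ : G K → ℂ} (hφ : Continuous φ)
    (hφs : HasCompactSupport φ) (hψ : Continuous ψ) :
    T5.Rconv μ (regL w z H k m φ) ψ = shiftOp z k ((iwOp w H)^[m] (T5.Rconv μ φ ψ)) := by
  funext x
  unfold regL
  rw [Rconv_ltr439 hF, Rconv_iter_iwL439 hF w H hφ hφs hψ m]
  rfl

theorem iwOp_zero439 (w : HeightOneSpectrum (𝓞 K)) (H : Finset (G K)) :
    iwOp w H (fun _ => (0 : ℂ)) = fun _ => 0 := by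
  funext x
  simp [iwOp]

theorem iter_iwOp_zero439 (w : HeightOneSpectrum (𝓞 K)) (H : Finset (G K)) (m : ℕ) :
    (iwOp w H)^[m] (fun _ => (0 : ℂ)) = fun _ => 0 := by
  induction m with
  | zero => rfl
  | succ n ih => rw [Function.iterate_succ_apply', ih, iwOp_zero439]

theorem continuous_iwOp439 (w : HeightOneSpectrum (𝓞 K)) (H : Finset (G K)) {ψ : G K → ℂ}
    (h : Continuous ψ) : Continuous (iwOp w H ψ) := by
  unfold iwOp
  exact continuous_const.mul
    (continuous_finsetSum _ fun b _ => h.comp (continuous_id.mul continuous_const))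

theorem continuous_shiftOp439 (z : G K) (k : ℤ) {ψ : G K → ℂ} (h : Continuous ψ) :
    Continuous (shiftOp z k ψ) :=
  h.comp (continuous_id.mul continuous_const)

/-! ### the sum of the left translates -/

theorem continuous_lsum439 (H : Finset (G K)) {φ : G K → ℂ} (h : Continuous φ) :
    Continuous (lsum H φ) := by
  unfold lsum
  exact continuous_finsetSum _ fun b _ => h.comp (continuous_const.mul continuous_id)

theorem hasCompactSupport_lsum439 (H : Finset (G K)) {φ : G K → ℂ}
    (h : HasCompactSupport φ) : HasCompactSupport (lsum H φ) := by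
  classical
  have e : lsum H φ = fun y => ∑ b ∈ H, ltr b φ y := rfl
  rw [e]
  induction H using Finset.induction_on with
  | empty =>
    simp only [Finset.sum_empty]
    exact HasCompactSupport.zero
  | insert a s ha ih =>
    have : (fun y => ∑ b ∈ insert a s, ltr b φ y)
        = (fun y => ltr a φ y) + fun y => ∑ b ∈ s, ltr b φ y := by
      funext y
      simp [Finset.sum_insert ha]
    rw [this]
    exact (hasCompactSupport_ltr439 a h).add (ih rfl)

theorem Rconv_lsum439 (hF : T5.IsFrame μ F) (H : Finset (G K))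
    {φ ψ : G K → ℂ} (hφ : Continuous φ) (hφs : HasCompactSupport φ) (hψ : Continuous ψ) :
    T5.Rconv μ (lsum H φ) ψ = cosetOp H (T5.Rconv μ φ ψ) := by
  funext x
  have h1 : T5.Rconv μ (lsum H φ) ψ x = ∑ h ∈ H, T5.Rconv μ (ltr h φ) ψ x := by
    unfold T5.Rconv
    rw [← integral_finsetSum]
    · congr 1
      funext y
      simp only [lsum, ltr]
      rw [Finset.sum_mul]
    · intro h _
      exact integrable_mul439 hF (continuous_ltr439 h hφ) (hasCompactSupport_ltr439 h hφs) hψ x
  rw [h1]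
  unfold cosetOp
  exact Finset.sum_congr rfl fun h _ => Rconv_ltr439 hF h φ ψ x

theorem cosetOp_zero439 (H : Finset (G K)) :
    cosetOp H (fun _ => (0 : ℂ)) = fun _ => 0 := by
  funext x
  simp [cosetOp]

end OneField

/-! ## The leaves -/

section Leaves

variable {K K' : Type} [Field K] [NumberField K] [Field K'] [NumberField K'] [Algebra K K']

omit [Algebra K K'] in
theorem down_nil439 (B : L2Base K K') (E : L2Pre K K') :
    E.down B [] 0 0 = T5.conv B.R.μ (E.F₁ []) E.f₂ := by
  simp only [L2Pre.down, regL_zero439]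

theorem Rconv_down_nil439 {ℓ : ℕ} {Φ : HeckeEigensystem K' ℂ} {B : L2Base K K'}
    (hB : IsL2Base ℓ Φ B) {g : G K'} {E : L2Pre K K'} (hE : IsL2Pre ℓ Φ B g E)
    {ψ : G K → ℂ} (hψ : Continuous ψ) :
    T5.Rconv B.R.μ (E.down B [] 0 0) ψ
      = T5.Rconv B.R.μ (E.F₁ []) (T5.Rconv B.R.μ E.f₂ ψ) := by
  funext x
  rw [down_nil439]
  have h1 := hE.dn1_test [] (by simp)
  exact (T5.H277.Rconv_Rconv277 hB.frame.frame h1.cont h1.supp hE.dn2_test.cont
    hE.dn2_test.supp hψ x).symm

/-- **LEAF T7.L2.1.F6 = CLASS-DOWN**, verbatim. -/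
theorem classDownC439 (K K' : Type) [Field K] [NumberField K] [Field K'] [NumberField K']
    [Algebra K K'] : ClassDownC K K' := by
  intro ℓ Φ B hB g _ E hE ψ c hψ
  rw [Rconv_down_nil439 hB hE hψ.inv.cusp.cont]
  exact hE.dn1_class _ c (hE.dn2_class ψ c hψ)

/-- **LEAF T7.L2.1.F7 = COMM-DOWN**, verbatim. -/
theorem commDownC439 (K K' : Type) [Field K] [NumberField K] [Field K'] [NumberField K']
    [Algebra K K'] : CommDownC K K' := by
  intro ℓ Φ B hB g _ E hE ψ hψ H z hH hz
  have hc : Continuous ψ := hψ.cusp.cont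
  have h2 := hE.dn2_comm ψ hψ H z hH hz
  have hw : IsWFn E.𝔫 B.R.r 1 (fun _ => B.u) (T5.Rconv B.R.μ E.f₂ ψ) := hE.dn2_wfn ψ hψ
  have h1 := hE.dn1_comm _ hw H z hH hz
  refine ⟨fun x => ?_, fun k x => ?_⟩
  · rw [Rconv_down_nil439 hB hE (continuous_iwOp439 B.u H hc), Rconv_down_nil439 hB hE hc]
    have e2 : T5.Rconv B.R.μ E.f₂ (iwOp B.u H ψ) = iwOp B.u H (T5.Rconv B.R.μ E.f₂ ψ) :=
      funext h2.1
    rw [e2]
    exact h1.1 x
  · rw [Rconv_down_nil439 hB hE (continuous_shiftOp439 z k hc), Rconv_down_nil439 hB hE hc]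
    have e2 : T5.Rconv B.R.μ E.f₂ (shiftOp z k ψ) = shiftOp z k (T5.Rconv B.R.μ E.f₂ ψ) :=
      funext (h2.2 k)
    rw [e2]
    exact h1.2 k x

/-- **LEAF T7.L2.1.F8 = KILL-DOWN**, verbatim. -/
theorem killDownC439 (K K' : Type) [Field K] [NumberField K] [Field K'] [NumberField K']
    [Algebra K K'] : KillDownC K K' := by
  intro ℓ Φ B hB g _ E hE X k m hX ψ hψ horth x
  have hF := hB.frame.frame
  have h1 := hE.dn1_test X hX
  have h2 := hE.dn2_test
  have hc : Continuous ψ := hψ.cont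
  have hkill : T5.Rconv B.R.μ E.f₂ ψ = fun _ => 0 := funext (hE.dn2_kill ψ hψ horth)
  have hreg : T5.Rconv B.R.μ (regL B.u E.z E.H k m E.f₂) ψ = fun _ => 0 := by
    rw [Rconv_regL439 hF B.u E.z E.H k m h2.cont h2.supp hc, hkill, iter_iwOp_zero439]
    rfl
  have := T5.H277.Rconv_Rconv277 hF h1.cont h1.supp
    (continuous_regL439 B.u E.z E.H k m h2.cont)
    (hasCompactSupport_regL439 B.u E.z E.H k m h2.supp) hc x
  unfold L2Pre.down
  rw [← this, hreg]
  simp [T5.Rconv]

/-- **LEAF T7.L2.1.F4 = KILL-UP**, verbatim. -/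
theorem killUpC439 (K K' : Type) [Field K] [NumberField K] [Field K'] [NumberField K']
    [Algebra K K'] : KillUpC K K' := by
  intro ℓ Φ B hB g _ E hE X k m hX ψ hψ horth x
  have hF := hB.frame'.frame
  have h1 := hE.up1_test X hX
  have h2 := hE.up2_test
  have hc : Continuous ψ := hψ.cont
  have hkill : T5.Rconv B.R'.μ E.φ₂ ψ = fun _ => 0 := funext (hE.up2_kill ψ hψ horth)
  have hrc := continuous_regL439 (B.o 0) E.z' E.H' k m h2.cont
  have hrs := hasCompactSupport_regL439 (B.o 0) E.z' E.H' k m h2.supp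
  have hreg : T5.Rconv B.R'.μ (lsum E.Hg (regL (B.o 0) E.z' E.H' k m E.φ₂)) ψ = fun _ => 0 := by
    rw [Rconv_lsum439 hF E.Hg hrc hrs hc,
      Rconv_regL439 hF (B.o 0) E.z' E.H' k m h2.cont h2.supp hc, hkill, iter_iwOp_zero439]
    have : shiftOp E.z' k (fun _ : G K' => (0 : ℂ)) = fun _ => 0 := rfl
    rw [this, cosetOp_zero439]
  have := T5.H277.Rconv_Rconv277 hF h1.cont h1.supp
    (continuous_lsum439 E.Hg hrc) (hasCompactSupport_lsum439 E.Hg hrs) hc x
  unfold L2Pre.up
  rw [← this, hreg]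
  simp [T5.Rconv]

end Leaves

end Fermat.Agent.LT.T7.H439

end

end
-- ===== PACK-END LT/T7/H439/SupplyDown.lean

-- ===== PACK-BEGIN LT/T7/H729/SphFormQCore.lean
section



/-!
# Row LT, tower T7, leaf T7.L2Q.3.3 `SDQ140.SphFormQC` (helper729): the core

OFF-MAIN.  Proved lemmas only (no hole, nothing assumed).  ADDITIVE (new names only).

The restriction `e x = ψ (y₀ · locInf x)` of a function `ψ` on `GL₂(𝔸_ℚ)` to the real place is
continuous, of weight `n` in the convention of `T6.wtChar`, invariant under the positive scalars,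
and its conjugated circle means `∫ e (x k_θ a_t k_θ⁻¹) dθ` are the twisted circle means
`∫ τ(k_θ⁻¹) ψ (g k_θ a_t) dθ` of `ψ`; `T6.ArchClassC` then classifies the eigenvalue function
(`archClass_apply729`).
-/

set_option autoImplicit false

open AutomorphicForm IsDedekindDomain NumberField MeasureTheory
open scoped ComplexConjugate

noncomputable section

namespace Fermat.Agent.LT.T7.SphQ729

open Fermat.Agent.LT.H556 Fermat.Agent.LT.H556.A0 Fermat.Agent.LT.H670 Fermat.Agent.LT.T7
open Fermat.Agent.LT.T7.L2Q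

/-! ## 1. Topology -/

theorem continuous_realToInf729 : Continuous (QOut.realToInf : ℝ → QOut.Ainf) := by
  refine continuous_pi fun w => ?_
  exact (InfinitePlace.Completion.isometryEquivRealOfIsReal
    (QOut.isReal_place w)).symm.continuous

theorem continuous_matInf729 :
    Continuous (QOut.matInf : Matrix (Fin 2) (Fin 2) ℝ → Matrix (Fin 2) (Fin 2) (A0.Adl ℚ)) := by
  refine continuous_matrix fun i j => ?_
  have h1 : Continuous fun m : Matrix (Fin 2) (Fin 2) ℝ => QOut.realToInf (m i j) :=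
    continuous_realToInf729.comp (continuous_id.matrix_elem i j)
  exact Continuous.prodMk h1 continuous_const

theorem continuous_locInf729 : Continuous (QOut.locInf : GL (Fin 2) ℝ → A0.G ℚ) :=
  Continuous.units_map QOut.matInf continuous_matInf729

/-- continuity of a map into `GL₂(ℝ)` given by matrices of determinant `≠ 0` -/
theorem continuous_mkOfDetNeZero729 {X : Type*} [TopologicalSpace X]
    (M : X → Matrix (Fin 2) (Fin 2) ℝ) (hM : ∀ x, (M x).det ≠ 0) (hc : Continuous M) :
    Continuous fun x => Matrix.GeneralLinearGroup.mkOfDetNeZero (M x) (hM x) := by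
  rw [Units.continuous_iff]
  refine ⟨hc, ?_⟩
  have h2 : (fun x => ((Matrix.GeneralLinearGroup.mkOfDetNeZero (M x) (hM x))⁻¹ :
      GL (Fin 2) ℝ).val) = fun x => (M x)⁻¹ := by
    funext x
    rw [Matrix.coe_units_inv]
    rfl
  show Continuous fun x => ((Matrix.GeneralLinearGroup.mkOfDetNeZero (M x) (hM x))⁻¹ :
      GL (Fin 2) ℝ).val
  rw [h2]
  have h3 : (fun x => (M x)⁻¹) = fun x => ((M x).det)⁻¹ • (M x).adjugate := by
    funext x
    rw [Matrix.inv_def, Ring.inverse_eq_inv']
  rw [h3]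
  exact ((hc.matrix_det).inv₀ hM).smul hc.matrix_adjugate

/-! ## 2. The elements `k_φ`, `a_t` of `GL₂(ℝ)` -/

/-- the rotation of angle `φ` -/
def rotM729 (φ : ℝ) : Matrix (Fin 2) (Fin 2) ℝ :=
  !![Real.cos φ, -Real.sin φ; Real.sin φ, Real.cos φ]

/-- `diag(e^{t/2}, e^{-t/2})` -/
def torM729 (t : ℝ) : Matrix (Fin 2) (Fin 2) ℝ :=
  !![Real.exp (t / 2), 0; 0, Real.exp (-(t / 2))]

theorem det_rotM729 (φ : ℝ) : (rotM729 φ).det = 1 := by
  rw [rotM729, Matrix.det_fin_two_of]
  nlinarith [Real.cos_sq_add_sin_sq φ]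

theorem det_torM729 (t : ℝ) : (torM729 t).det = 1 := by
  rw [torM729, Matrix.det_fin_two_of, mul_zero, sub_zero, ← Real.exp_add, add_neg_cancel,
    Real.exp_zero]

/-- `k_φ` in `GL₂(ℝ)` -/
def rotG729 (φ : ℝ) : GL (Fin 2) ℝ :=
  Matrix.GeneralLinearGroup.mkOfDetNeZero (rotM729 φ) (by rw [det_rotM729]; exact one_ne_zero)

/-- `a_t` in `GL₂(ℝ)` -/
def torG729 (t : ℝ) : GL (Fin 2) ℝ :=
  Matrix.GeneralLinearGroup.mkOfDetNeZero (torM729 t) (by rw [det_torM729]; exact one_ne_zero)

theorem val_rotG729 (φ : ℝ) : ((rotG729 φ : GL (Fin 2) ℝ) : Matrix (Fin 2) (Fin 2) ℝ)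
    = rotM729 φ := rfl

theorem val_torG729 (t : ℝ) : ((torG729 t : GL (Fin 2) ℝ) : Matrix (Fin 2) (Fin 2) ℝ)
    = torM729 t := rfl

theorem continuous_rotG729 : Continuous (rotG729 : ℝ → GL (Fin 2) ℝ) := by
  refine continuous_mkOfDetNeZero729 (fun φ : ℝ => rotM729 φ) _ ?_
  refine continuous_matrix fun i j => ?_
  fin_cases i <;> fin_cases j <;> simp [rotM729] <;> fun_prop

theorem inSO2_rotG729 (φ : ℝ) : T6.InSO2 (rotG729 φ) := by
  constructor
  · show rotM729 φ * (rotM729 φ).transpose = 1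
    ext i j
    fin_cases i <;> fin_cases j <;>
      simp [rotM729, Matrix.mul_apply, Fin.sum_univ_two] <;>
      nlinarith [Real.sin_sq_add_cos_sq φ]
  · exact det_rotM729 φ

theorem rotG_add_two_pi729 (φ : ℝ) : rotG729 (φ + 2 * Real.pi) = rotG729 φ := by
  apply Units.ext
  show rotM729 (φ + 2 * Real.pi) = rotM729 φ
  simp [rotM729, Real.cos_add_two_pi, Real.sin_add_two_pi]

theorem rotG_add_pi_mul729 (φ t : ℝ) :
    rotG729 (φ + Real.pi) * torG729 t = rotG729 φ * torG729 t * rotG729 Real.pi := by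
  apply Units.ext
  show rotM729 (φ + Real.pi) * torM729 t = rotM729 φ * torM729 t * rotM729 Real.pi
  ext i j
  fin_cases i <;> fin_cases j <;>
    simp [rotM729, torM729, Matrix.mul_apply, Fin.sum_univ_two, Real.cos_add_pi,
      Real.sin_add_pi, Real.cos_pi, Real.sin_pi]

/-- the entries of an element of `SO(2)` -/
theorem so2_entries729 {k : GL (Fin 2) ℝ} (hk : T6.InSO2 k) :
    (k : Matrix (Fin 2) (Fin 2) ℝ) 1 1 = (k : Matrix (Fin 2) (Fin 2) ℝ) 0 0 ∧
      (k : Matrix (Fin 2) (Fin 2) ℝ) 1 0 = -(k : Matrix (Fin 2) (Fin 2) ℝ) 0 1 ∧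
      (k : Matrix (Fin 2) (Fin 2) ℝ) 0 0 ^ 2 + (k : Matrix (Fin 2) (Fin 2) ℝ) 0 1 ^ 2 = 1 := by
  obtain ⟨h1, h2⟩ := hk
  have e00 := congrFun (congrFun h1 0) 0
  have e01 := congrFun (congrFun h1 0) 1
  rw [Matrix.mul_apply, Fin.sum_univ_two] at e00 e01
  simp only [Matrix.transpose_apply, Matrix.one_apply_eq] at e00
  simp only [Matrix.transpose_apply] at e01
  rw [Matrix.one_apply_ne (by decide)] at e01
  rw [Matrix.det_fin_two] at h2
  refine ⟨?_, ?_, ?_⟩
  · linear_combination (k : Matrix (Fin 2) (Fin 2) ℝ) 0 0 * h2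
      + (k : Matrix (Fin 2) (Fin 2) ℝ) 0 1 * e01 - (k : Matrix (Fin 2) (Fin 2) ℝ) 1 1 * e00
  · linear_combination (k : Matrix (Fin 2) (Fin 2) ℝ) 0 0 * e01
      - (k : Matrix (Fin 2) (Fin 2) ℝ) 0 1 * h2 - (k : Matrix (Fin 2) (Fin 2) ℝ) 1 0 * e00
  · linear_combination e00

/-! ## 3. Local elements at the real place -/

theorem isArchCompact_locInf729 (w : InfinitePlace ℚ) {k : GL (Fin 2) ℝ} (hk : T6.InSO2 k) :
    IsArchCompact w (QOut.locInf k) := by
  refine ⟨QOut.isLocalAtInf_locInf w k, ?_, fun _ => ?_⟩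
  · rw [QOut.infComp_locInf]
    ext i j
    rw [Matrix.mul_apply, Fin.sum_univ_two]
    simp only [Matrix.conjTranspose_apply, Matrix.map_apply, Complex.star_def,
      Complex.conj_ofReal]
    have h := congrFun (congrFun hk.1 i) j
    rw [Matrix.mul_apply, Fin.sum_univ_two] at h
    simp only [Matrix.transpose_apply] at h
    rw [← Complex.ofReal_mul, ← Complex.ofReal_mul, ← Complex.ofReal_add, h]
    by_cases hij : i = j
    · subst hij
      simp
    · simp [Matrix.one_apply_ne hij]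
  · rw [QOut.infComp_locInf, Matrix.det_fin_two]
    simp only [Matrix.map_apply]
    have h := hk.2
    rw [Matrix.det_fin_two] at h
    rw [← Complex.ofReal_mul, ← Complex.ofReal_mul, ← Complex.ofReal_sub, h, Complex.ofReal_one]

theorem isArchPosScalar_locInf729 (w : InfinitePlace ℚ) {z : GL (Fin 2) ℝ} {r : ℝ} (hr : 0 < r)
    (hz : (z : Matrix (Fin 2) (Fin 2) ℝ) = Matrix.diagonal (fun _ => r)) :
    IsArchPosScalar w (QOut.locInf z) := by
  refine ⟨QOut.isLocalAtInf_locInf w z, r, hr, ?_⟩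
  rw [QOut.infComp_locInf, hz]
  ext i j
  fin_cases i <;> fin_cases j <;> simp [Matrix.diagonal]

theorem infComp_rot_tor729 (w : InfinitePlace ℚ) (φ t : ℝ) :
    infComp w (QOut.locInf (rotG729 φ * torG729 t)) = rotY (2 * φ) * torus t := by
  rw [QOut.infComp_locInf, Units.val_mul, val_rotG729, val_torG729]
  have h : 2 * φ / 2 = φ := by ring
  ext i j
  fin_cases i <;> fin_cases j <;>
    simp [rotM729, torM729, rotY, torus, Matrix.mul_apply, Fin.sum_univ_two, h]

theorem infComp_rot_neg_tor729 (w : InfinitePlace ℚ) (θ t : ℝ) :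
    infComp w (QOut.locInf (rotG729 (-θ) * torG729 t)) = QOut.rotC θ * torus t := by
  rw [QOut.infComp_locInf, Units.val_mul, val_rotG729, val_torG729]
  ext i j
  fin_cases i <;> fin_cases j <;>
    simp [rotM729, torM729, QOut.rotC, torus, Matrix.mul_apply, Fin.sum_univ_two]

theorem infComp_rot_neg729 (w : InfinitePlace ℚ) (θ : ℝ) :
    infComp w (QOut.locInf (rotG729 (-θ))) = QOut.rotC θ := by
  rw [QOut.infComp_locInf, val_rotG729]
  ext i j
  fin_cases i <;> fin_cases j <;> simp [rotM729, QOut.rotC]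

/-- the weight one type on `SO(2)` is the weight `-1` of `T6.wtChar` -/
theorem wtOne_locInf729 {k : GL (Fin 2) ℝ} (hk : T6.InSO2 k) :
    wtOne (QOut.locInf k) = T6.wtChar (-1) k := by
  obtain ⟨h11, h10, hsq⟩ := so2_entries729 hk
  unfold wtOne T6.wtChar T6.holPart
  rw [QOut.infComp_locInf, h11, h10, zpow_neg_one]
  simp only [Matrix.map_apply]
  apply eq_inv_of_mul_eq_one_left
  have hsq' : (((k : Matrix (Fin 2) (Fin 2) ℝ) 0 0 : ℝ) : ℂ) ^ 2
      + (((k : Matrix (Fin 2) (Fin 2) ℝ) 0 1 : ℝ) : ℂ) ^ 2 = 1 := by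
    exact_mod_cast hsq
  push_cast
  linear_combination hsq' - (((k : Matrix (Fin 2) (Fin 2) ℝ) 0 1 : ℝ) : ℂ) ^ 2 * Complex.I_sq

theorem wtChar_zero729 (k : GL (Fin 2) ℝ) : T6.wtChar 0 k = 1 := by
  unfold T6.wtChar
  exact zpow_zero _

/-! ## 4. The adapter -/

/-- **The adapter of `T6.ArchClassC`.**  If `ψ ≠ 0` is continuous on `GL₂(𝔸_ℚ)`, of type `τ` under
`SO(2)` at the real place (`τ = T6.wtChar n` on `SO(2)`), invariant under the positive scalars,
and an eigenfunction of the twisted circle means `∫ τ(k_θ⁻¹) ψ (g k_θ a_t) dθ` with the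
eigenvalues `m t`, then `m t = 2π · sphRad n s (cosh t)` for some `s`. -/
theorem archClass_apply729 (hArch : T6.ArchClassC) (n : ℤ) (hn : n = 0 ∨ n = 1 ∨ n = -1)
    (ψ τ : G ℚ → ℂ) (m : ℝ → ℂ) (hcont : Continuous ψ) (hne : ∃ y : G ℚ, ψ y ≠ 0)
    (hτ : ∀ k : GL (Fin 2) ℝ, T6.InSO2 k → τ (QOut.locInf k) = T6.wtChar n k)
    (hwt : ∀ k : G ℚ, IsArchCompact Rat.infinitePlace k → ∀ g : G ℚ, ψ (g * k) = τ k * ψ g)
    (hsc : ∀ z : G ℚ, IsArchPosScalar Rat.infinitePlace z → ∀ g : G ℚ, ψ (g * z) = ψ g)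
    (hmean : ∀ t : ℝ, 0 < t → ∀ g : G ℚ,
      (∫ θ in (0 : ℝ)..(2 * Real.pi),
        τ (QOut.locInf (rotG729 (-θ))) * ψ (g * QOut.locInf (rotG729 θ * torG729 t)))
        = m t * ψ g) :
    ∃ s : ℂ, ∀ t : ℝ, 0 < t → m t = ((2 * Real.pi : ℝ) : ℂ) * T6.sphRad n s (Real.cosh t) := by
  obtain ⟨y₀, hy₀⟩ := hne
  have h2pi : ((2 * Real.pi : ℝ) : ℂ) ≠ 0 := by
    have : (2 * Real.pi : ℝ) ≠ 0 := by positivity
    exact_mod_cast this
  have key : ∃ s : ℂ, ∀ t : ℝ, 0 < t →
      m t / ((2 * Real.pi : ℝ) : ℂ) = T6.sphRad n s (Real.cosh t) := by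
    refine hArch n hn (fun x => ψ (y₀ * QOut.locInf x))
      (fun t => m t / ((2 * Real.pi : ℝ) : ℂ)) ?_ ?_ ?_ ?_ ?_
    · exact hcont.comp (continuous_const.mul continuous_locInf729)
    · refine ⟨1, ?_⟩
      show ψ (y₀ * QOut.locInf 1) ≠ 0
      rw [map_one, mul_one]
      exact hy₀
    · intro k g hk
      show ψ (y₀ * QOut.locInf (g * k)) = T6.wtChar n k * ψ (y₀ * QOut.locInf g)
      rw [map_mul, ← mul_assoc, hwt _ (isArchCompact_locInf729 _ hk), hτ k hk]
    · intro z g r hr hz
      show ψ (y₀ * QOut.locInf (g * z)) = ψ (y₀ * QOut.locInf g)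
      rw [map_mul, ← mul_assoc, hsc _ (isArchPosScalar_locInf729 _ hr hz)]
    · intro t ht Y hY x
      have hYeq : ∀ θ, Y θ = rotG729 θ * torG729 t * rotG729 (-θ) := by
        intro θ
        apply Units.ext
        rw [hY θ]
        show _ = rotM729 θ * torM729 t * rotM729 (-θ)
        simp only [rotM729, torM729, Real.cos_neg, Real.sin_neg, neg_neg]
      have hint : ∀ θ, ψ (y₀ * QOut.locInf (x * Y θ))
          = τ (QOut.locInf (rotG729 (-θ)))
            * ψ (y₀ * QOut.locInf x * QOut.locInf (rotG729 θ * torG729 t)) := by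
        intro θ
        have h1 : y₀ * QOut.locInf (x * Y θ)
            = (y₀ * QOut.locInf x * QOut.locInf (rotG729 θ * torG729 t))
              * QOut.locInf (rotG729 (-θ)) := by
          rw [hYeq θ, map_mul, map_mul (QOut.locInf) (rotG729 θ * torG729 t)]
          simp only [mul_assoc]
        rw [h1, hwt _ (isArchCompact_locInf729 _ (inSO2_rotG729 _))]
      show (∫ θ in (0 : ℝ)..(2 * Real.pi), ψ (y₀ * QOut.locInf (x * Y θ)))
        = ((2 * Real.pi : ℝ) : ℂ) * (m t / ((2 * Real.pi : ℝ) : ℂ)) * ψ (y₀ * QOut.locInf x)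
      simp only [hint]
      rw [hmean t ht]
      field_simp
  obtain ⟨s, hs⟩ := key
  refine ⟨s, fun t ht => ?_⟩
  have h := hs t ht
  rw [← h]
  field_simp

/-- The circle means of weight `0` (`L2Q.MeanEigR0`) in the form of `archClass_apply729`. -/
theorem mean_w0_729 {ψ : G ℚ → ℂ} {m : ℝ → ℂ} (hcont : Continuous ψ)
    (hwt : ∀ k : G ℚ, IsArchCompact Rat.infinitePlace k →
      ∀ g : G ℚ, ψ (g * k) = T5.trivType k * ψ g)
    (hmean : MeanEigR0 ψ Rat.infinitePlace m) (t : ℝ) (ht : 0 < t) (g : G ℚ) :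
    (∫ θ in (0 : ℝ)..(2 * Real.pi),
        T5.trivType (QOut.locInf (rotG729 (-θ)))
          * ψ (g * QOut.locInf (rotG729 θ * torG729 t)))
      = m t * ψ g := by
  have h1 := hmean t ht (fun θ => QOut.locInf (rotG729 (θ / 2) * torG729 t))
    (fun θ => ⟨QOut.isLocalAtInf_locInf _ _, by
      rw [infComp_rot_tor729]
      congr 2
      ring⟩) g
  have hFc : Continuous fun φ : ℝ => ψ (g * QOut.locInf (rotG729 φ * torG729 t)) :=
    hcont.comp (continuous_const.mul
      (continuous_locInf729.comp (continuous_rotG729.mul continuous_const)))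
  have hper : Function.Periodic
      (fun φ : ℝ => ψ (g * QOut.locInf (rotG729 φ * torG729 t))) Real.pi := by
    intro φ
    show ψ (g * QOut.locInf (rotG729 (φ + Real.pi) * torG729 t))
      = ψ (g * QOut.locInf (rotG729 φ * torG729 t))
    rw [rotG_add_pi_mul729, map_mul, ← mul_assoc,
      hwt _ (isArchCompact_locInf729 _ (inSO2_rotG729 _))]
    simp [T5.trivType]
  have h2 : (∫ θ in (0 : ℝ)..(2 * Real.pi), ψ (g * QOut.locInf (rotG729 (θ / 2) * torG729 t)))
      = (2 : ℝ) • ∫ φ in (0 : ℝ)..Real.pi, ψ (g * QOut.locInf (rotG729 φ * torG729 t)) := by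
    have h := intervalIntegral.integral_comp_div (a := 0) (b := 2 * Real.pi) (c := 2)
      (fun φ : ℝ => ψ (g * QOut.locInf (rotG729 φ * torG729 t))) two_ne_zero
    rw [h]
    congr 2
    · simp
    · ring
  have h3 : (∫ φ in (0 : ℝ)..(2 * Real.pi), ψ (g * QOut.locInf (rotG729 φ * torG729 t)))
      = (2 : ℝ) • ∫ φ in (0 : ℝ)..Real.pi, ψ (g * QOut.locInf (rotG729 φ * torG729 t)) := by
    have hsplit := intervalIntegral.integral_add_adjacent_intervals
      (hFc.intervalIntegrable (μ := volume) 0 Real.pi)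
      (hFc.intervalIntegrable (μ := volume) Real.pi (2 * Real.pi))
    have hshift : (∫ φ in Real.pi..(2 * Real.pi),
          ψ (g * QOut.locInf (rotG729 φ * torG729 t)))
        = ∫ φ in (0 : ℝ)..Real.pi, ψ (g * QOut.locInf (rotG729 φ * torG729 t)) := by
      have h := hper.intervalIntegral_add_eq Real.pi 0
      rw [zero_add] at h
      rw [← h]
      congr 1
      ring
    rw [← hsplit, hshift, two_smul]
  simp only [T5.trivType, one_mul]
  rw [h3, ← h2]
  exact h1

/-- The circle means of weight one (`L2Q.MeanEigR1`) in the form of `archClass_apply729`. -/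
theorem mean_w1_729 {ψ : G ℚ → ℂ} {m : ℝ → ℂ}
    (hmean : MeanEigR1 ψ Rat.infinitePlace m) (t : ℝ) (ht : 0 < t) (g : G ℚ) :
    (∫ θ in (0 : ℝ)..(2 * Real.pi),
        wtOne (QOut.locInf (rotG729 (-θ))) * ψ (g * QOut.locInf (rotG729 θ * torG729 t)))
      = m t * ψ g := by
  have h1 := hmean t ht (fun θ => QOut.locInf (rotG729 (-θ) * torG729 t))
    (fun θ => ⟨QOut.isLocalAtInf_locInf _ _, infComp_rot_neg_tor729 _ θ t⟩) g
  have hneg : ∀ θ : ℝ, rotG729 (-(θ + 2 * Real.pi)) = rotG729 (-θ) := by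
    intro θ
    have h := rotG_add_two_pi729 (-(θ + 2 * Real.pi))
    rw [← h]
    congr 1
    ring
  have hper : Function.Periodic
      (fun θ : ℝ => wtOne (QOut.locInf (rotG729 (-θ)))
        * ψ (g * QOut.locInf (rotG729 θ * torG729 t))) (2 * Real.pi) := by
    intro θ
    show wtOne (QOut.locInf (rotG729 (-(θ + 2 * Real.pi))))
        * ψ (g * QOut.locInf (rotG729 (θ + 2 * Real.pi) * torG729 t))
      = wtOne (QOut.locInf (rotG729 (-θ))) * ψ (g * QOut.locInf (rotG729 θ * torG729 t))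
    rw [hneg, rotG_add_two_pi729]
  have hH : ∀ θ : ℝ, Complex.exp (-(Complex.I * ((θ : ℝ) : ℂ)))
        * ψ (g * QOut.locInf (rotG729 (-θ) * torG729 t))
      = (fun θ : ℝ => wtOne (QOut.locInf (rotG729 (-θ)))
        * ψ (g * QOut.locInf (rotG729 θ * torG729 t))) (-θ) := by
    intro θ
    show _ = wtOne (QOut.locInf (rotG729 (- -θ))) * ψ (g * QOut.locInf (rotG729 (-θ) * torG729 t))
    rw [wtOne_rotC (infComp_rot_neg729 _ (-θ))]
    congr 2
    push_cast
    ring
  simp only [hH] at h1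
  rw [intervalIntegral.integral_comp_neg
    (fun θ : ℝ => wtOne (QOut.locInf (rotG729 (-θ)))
        * ψ (g * QOut.locInf (rotG729 θ * torG729 t)))] at h1
  have h := hper.intervalIntegral_add_eq (-(2 * Real.pi)) 0
  rw [zero_add] at h
  rw [← h1, ← h]
  congr 1
  ring

end Fermat.Agent.LT.T7.SphQ729

end

end
-- ===== PACK-END LT/T7/H729/SphFormQCore.lean

-- ===== PACK-BEGIN LT/T7/H157/BlkLin.lean
section



/-!
# Row LT, tower T7, leaf T7.L2.2.B7 (helper157): coordinate calculus in a class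

OFF-MAIN.  ADDITIVE (new names only, all ending in `157`).  Every proof is complete, nothing
assumed.  Bounded continuous functions, the inner product on the fundamental domain, additive
operators (finite sums of translations) and their matrices in an orthonormal family.
-/

set_option autoImplicit false

open AutomorphicForm IsDedekindDomain NumberField MeasureTheory
open scoped ComplexConjugate Matrix

noncomputable section

namespace Fermat.Agent.LT.T7.H157

open Fermat.Agent.LT.H556 Fermat.Agent.LT.H556.A0 Fermat.Agent.LT.T7 Fermat.Agent.LT.T7.H561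

attribute [local instance] Fermat.Agent.LT.T5.instMeasurableSpaceG

variable {K : Type} [Field K] [NumberField K]

/-! ## 1. Bounded continuous functions and the inner product -/

/-- Bounded continuous functions. -/
def Nice157 (ψ : G K → ℂ) : Prop := Continuous ψ ∧ ∃ C : ℝ, ∀ g : G K, ‖ψ g‖ ≤ C

theorem nice_of_cusp157 {𝔫 : Ideal (𝓞 K)} {τ : G K → ℂ} {r : G K} {ψ : G K → ℂ}
    (h : T5.IsCuspFn 𝔫 τ r ψ) : Nice157 ψ := ⟨h.cont, h.bdd⟩

theorem integrable_mul_conj157 {μ : Measure (G K)} {F : Set (G K)} (hF : μ F < ⊤)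
    {ψ χ : G K → ℂ} (hψ : Nice157 ψ) (hχ : Nice157 χ) :
    Integrable (fun x => ψ x * conj (χ x)) (μ.restrict F) := by
  have : BorelSpace (G K) := ⟨rfl⟩
  have : IsFiniteMeasure (μ.restrict F) := ⟨by rw [Measure.restrict_apply_univ]; exact hF⟩
  obtain ⟨hc1, C1, h1⟩ := hψ
  obtain ⟨hc2, C2, h2⟩ := hχ
  have hcont : Continuous (fun x => ψ x * conj (χ x)) :=
    hc1.mul (Complex.continuous_conj.comp hc2)
  refine Integrable.mono' (integrable_const (|C1| * |C2|)) hcont.aestronglyMeasurable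
    (Filter.Eventually.of_forall fun x => ?_)
  rw [norm_mul, RCLike.norm_conj]
  exact mul_le_mul ((h1 x).trans (le_abs_self _)) ((h2 x).trans (le_abs_self _))
    (norm_nonneg _) (abs_nonneg _)

theorem innerD_conj157 (μ : Measure (G K)) (F : Set (G K)) (e f : G K → ℂ) :
    conj (T5.innerD μ F e f) = T5.innerD μ F f e := by
  unfold T5.innerD
  rw [← integral_conj]
  refine integral_congr_ae (Filter.Eventually.of_forall fun x => ?_)
  simp [mul_comm]

theorem innerD_sum_left157 {μ : Measure (G K)} {F : Set (G K)} (hF : μ F < ⊤) {n : ℕ}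
    (d : Fin n → ℂ) {f : Fin n → G K → ℂ} (hf : ∀ b, Nice157 (f b)) {h : G K → ℂ}
    (hh : Nice157 h) :
    T5.innerD μ F (fun x => ∑ b, d b * f b x) h = ∑ b, d b * T5.innerD μ F (f b) h := by
  unfold T5.innerD
  have e1 : ∀ x, (∑ b, d b * f b x) * conj (h x) = ∑ b, d b * (f b x * conj (h x)) := by
    intro x
    rw [Finset.sum_mul]
    exact Finset.sum_congr rfl fun b _ => by ring
  simp only [e1]
  rw [integral_finsetSum]
  · exact Finset.sum_congr rfl fun b _ => integral_const_mul _ _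
  · intro b _
    exact (integrable_mul_conj157 hF (hf b) hh).const_mul _

theorem innerD_sum_right157 {μ : Measure (G K)} {F : Set (G K)} (hF : μ F < ⊤) {n : ℕ}
    (d : Fin n → ℂ) {f : Fin n → G K → ℂ} (hf : ∀ b, Nice157 (f b)) {h : G K → ℂ}
    (hh : Nice157 h) :
    T5.innerD μ F h (fun x => ∑ b, d b * f b x) = ∑ b, conj (d b) * T5.innerD μ F h (f b) := by
  rw [← innerD_conj157, innerD_sum_left157 hF d hf hh, map_sum]
  refine Finset.sum_congr rfl fun b _ => ?_
  rw [map_mul, innerD_conj157]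

/-! ## 2. Additive operators -/

/-- The finite linear combination of the family `f` with coefficients `c`. -/
def lin157 {n : ℕ} (f : Fin n → G K → ℂ) (c : Fin n → ℂ) : G K → ℂ :=
  fun x => ∑ a, c a * f a x

/-- `T` commutes with finite linear combinations (pointwise). -/
def IsLin157 (T : (G K → ℂ) → (G K → ℂ)) : Prop :=
  ∀ (n : ℕ) (c : Fin n → ℂ) (f : Fin n → G K → ℂ),
    T (lin157 f c) = lin157 (fun a => T (f a)) c

theorem isLin_id157 : IsLin157 (K := K) (fun ψ => ψ) := fun _ _ _ => rfl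

theorem isLin_comp157 {T₁ T₂ : (G K → ℂ) → (G K → ℂ)} (h₁ : IsLin157 T₁) (h₂ : IsLin157 T₂) :
    IsLin157 (fun ψ => T₁ (T₂ ψ)) := by
  intro n c f
  show T₁ (T₂ (lin157 f c)) = _
  rw [h₂ n c f, h₁ n c]

theorem isLin_iterate157 {T : (G K → ℂ) → (G K → ℂ)} (h : IsLin157 T) (m : ℕ) :
    IsLin157 (T^[m]) := by
  induction m with
  | zero => exact fun _ _ _ => rfl
  | succ m ih =>
    intro n c f
    rw [Function.iterate_succ_apply, h n c f, ih n c]
    rfl

theorem isLin_smul157 {T : (G K → ℂ) → (G K → ℂ)} (h : IsLin157 T) (t : ℂ) :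
    IsLin157 (fun ψ x => t * T ψ x) := by
  intro n c f
  funext x
  show t * T (lin157 f c) x = _
  rw [h n c f]
  simp only [lin157, Finset.mul_sum]
  exact Finset.sum_congr rfl fun a _ => by ring

theorem isLin_add157 {T₁ T₂ : (G K → ℂ) → (G K → ℂ)} (h₁ : IsLin157 T₁) (h₂ : IsLin157 T₂) :
    IsLin157 (fun ψ x => T₁ ψ x + T₂ ψ x) := by
  intro n c f
  funext x
  show T₁ (lin157 f c) x + T₂ (lin157 f c) x = _
  rw [h₁ n c f, h₂ n c f]
  simp only [lin157, ← Finset.sum_add_distrib]
  exact Finset.sum_congr rfl fun a _ => by ring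

theorem isLin_tr157 (h : G K) : IsLin157 (trOp561 h) := fun _ _ _ => rfl

theorem isLin_shift157 (z : G K) (k : ℤ) : IsLin157 (shiftOp z k) := fun _ _ _ => rfl

theorem isLin_Rsig157 (s : T5.AdelicAut K) : IsLin157 (T5.Rsig s) := fun _ _ _ => rfl

theorem isLin_coset157 (H : Finset (G K)) : IsLin157 (cosetOp H) := by
  intro n c f
  funext x
  show (∑ h ∈ H, ∑ a, c a * f a (x * h)) = ∑ a, c a * ∑ h ∈ H, f a (x * h)
  rw [Finset.sum_comm]
  exact Finset.sum_congr rfl fun a _ => (Finset.mul_sum _ _ _).symm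

theorem iwOp_eq157 (w : HeightOneSpectrum (𝓞 K)) (H : Finset (G K)) (ψ : G K → ℂ) :
    iwOp w H ψ
      = fun x => ((Real.sqrt (Ideal.absNorm w.asIdeal : ℝ) : ℝ) : ℂ)⁻¹ * cosetOp H ψ x := rfl

theorem isLin_iw157 (w : HeightOneSpectrum (𝓞 K)) (H : Finset (G K)) : IsLin157 (iwOp w H) := by
  have h := isLin_smul157 (isLin_coset157 H)
    (((Real.sqrt (Ideal.absNorm w.asIdeal : ℝ) : ℝ) : ℂ)⁻¹)
  exact h

/-- `I t I = (I s I) · ω`: the Iwahori operator of the translated system. -/
theorem iwOp_map157 (w : HeightOneSpectrum (𝓞 K)) (H : Finset (G K)) (ω' : G K)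
    (ψ : G K → ℂ) :
    iwOp w (H.map (mulRightEmbedding ω')) ψ
      = fun x => ((Real.sqrt (Ideal.absNorm w.asIdeal : ℝ) : ℝ) : ℂ)⁻¹
          * cosetOp H (trOp561 ω' ψ) x := by
  funext x
  show ((Real.sqrt (Ideal.absNorm w.asIdeal : ℝ) : ℝ) : ℂ)⁻¹
        * ∑ h ∈ H.map (mulRightEmbedding ω'), ψ (x * h)
      = ((Real.sqrt (Ideal.absNorm w.asIdeal : ℝ) : ℝ) : ℂ)⁻¹ * ∑ h ∈ H, ψ (x * h * ω')
  rw [Finset.sum_map]
  simp only [mulRightEmbedding_apply, mul_assoc]

theorem trOp_mul157 (a b : G K) (ψ : G K → ℂ) :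
    trOp561 (a * b) ψ = trOp561 a (trOp561 b ψ) := by
  funext x
  show ψ (x * (a * b)) = ψ (x * a * b)
  rw [mul_assoc]

theorem shiftOp_zero157 (z : G K) (ψ : G K → ℂ) : shiftOp z 0 ψ = ψ := by
  funext x
  show ψ (x * z ^ (0 : ℤ)) = ψ x
  rw [zpow_zero, mul_one]

theorem shiftOp_succ157 (z : G K) (n : ℕ) (ψ : G K → ℂ) :
    shiftOp z ((n + 1 : ℕ) : ℤ) ψ = shiftOp z (n : ℤ) (trOp561 z ψ) := by
  funext x
  show ψ (x * z ^ ((n + 1 : ℕ) : ℤ)) = ψ (x * z ^ (n : ℤ) * z)
  rw [zpow_natCast, zpow_natCast, pow_succ, mul_assoc]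

theorem shiftOp_neg_cancel157 (z : G K) (n : ℕ) (ψ : G K → ℂ) :
    shiftOp z (-(n : ℤ)) (shiftOp z (n : ℤ) ψ) = ψ := by
  funext x
  show ψ (x * z ^ (-(n : ℤ)) * z ^ (n : ℤ)) = ψ x
  rw [mul_assoc, zpow_neg, inv_mul_cancel, mul_one]

/-! ## 3. Matrices in an orthonormal family -/

/-- An orthonormal family of bounded continuous functions on a domain of finite measure. -/
structure IsON157 (μ : Measure (G K)) (F : Set (G K)) {n : ℕ} (v : Fin n → G K → ℂ) : Prop where
  fin : μ F < ⊤
  nice : ∀ a, Nice157 (v a)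
  orth : ∀ a b, T5.innerD μ F (v a) (v b) = if a = b then 1 else 0

/-- `M` is the matrix of `T` in the family `v`. -/
def Rep157 {n : ℕ} (v : Fin n → G K → ℂ) (T : (G K → ℂ) → (G K → ℂ))
    (M : Matrix (Fin n) (Fin n) ℂ) : Prop :=
  ∀ a, T (v a) = lin157 v (fun b => M b a)

section Rep

variable {μ : Measure (G K)} {F : Set (G K)} {n : ℕ} {v : Fin n → G K → ℂ}

theorem IsON157.coeff (hv : IsON157 μ F v) (c : Fin n → ℂ) (b : Fin n) :
    T5.innerD μ F (lin157 v c) (v b) = c b := by
  unfold lin157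
  rw [innerD_sum_left157 hv.fin c hv.nice (hv.nice b)]
  simp only [hv.orth]
  simp

theorem IsON157.lin_inj (hv : IsON157 μ F v) {c c' : Fin n → ℂ}
    (h : ∀ x, lin157 v c x = lin157 v c' x) : c = c' := by
  funext b
  rw [← hv.coeff c b, ← hv.coeff c' b, show lin157 v c = lin157 v c' from funext h]

theorem IsON157.nice_lin (hv : IsON157 μ F v) (c : Fin n → ℂ) : Nice157 (lin157 v c) := by
  constructor
  · unfold lin157
    exact continuous_finsetSum _ fun a _ => continuous_const.mul (hv.nice a).1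
  · choose C hC using fun a => (hv.nice a).2
    refine ⟨∑ a, ‖c a‖ * C a, fun g => ?_⟩
    unfold lin157
    refine (norm_sum_le _ _).trans (Finset.sum_le_sum fun a _ => ?_)
    rw [norm_mul]
    exact mul_le_mul_of_nonneg_left (hC a g) (norm_nonneg _)

theorem rep_unique157 (hv : IsON157 μ F v) {T₁ T₂ : (G K → ℂ) → (G K → ℂ)}
    {M₁ M₂ : Matrix (Fin n) (Fin n) ℂ} (h₁ : Rep157 v T₁ M₁) (h₂ : Rep157 v T₂ M₂)
    (h : ∀ a x, T₁ (v a) x = T₂ (v a) x) : M₁ = M₂ := by
  ext b a
  have e : (fun b => M₁ b a) = fun b => M₂ b a :=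
    hv.lin_inj fun x => by rw [← h₁ a, ← h₂ a]; exact h a x
  exact congrFun e b

theorem rep_of_span157 (hv : IsON157 μ F v) (T : (G K → ℂ) → (G K → ℂ))
    (h : ∀ a, ∃ c : Fin n → ℂ, ∀ x, T (v a) x = ∑ b, c b * v b x) :
    Rep157 v T (Matrix.of fun b a => T5.innerD μ F (T (v a)) (v b)) := by
  intro a
  obtain ⟨c, hc⟩ := h a
  have e : T (v a) = lin157 v c := funext hc
  rw [e]
  congr 1
  funext b
  rw [Matrix.of_apply, e, hv.coeff]

theorem rep_apply157 {T : (G K → ℂ) → (G K → ℂ)} {M : Matrix (Fin n) (Fin n) ℂ}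
    (hT : IsLin157 T) (h : Rep157 v T M) (c : Fin n → ℂ) :
    T (lin157 v c) = lin157 v (M.mulVec c) := by
  rw [hT n c v]
  funext x
  simp only [lin157, h _, Matrix.mulVec, dotProduct, Finset.mul_sum, Finset.sum_mul]
  rw [Finset.sum_comm]
  exact Finset.sum_congr rfl fun b _ => Finset.sum_congr rfl fun a _ => by ring

theorem rep_id157 : Rep157 v (fun ψ => ψ) 1 := by
  intro a
  funext x
  simp [lin157, Matrix.one_apply]

theorem rep_comp157 {T₁ T₂ : (G K → ℂ) → (G K → ℂ)} {M₁ M₂ : Matrix (Fin n) (Fin n) ℂ}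
    (hT : IsLin157 T₁) (h₁ : Rep157 v T₁ M₁) (h₂ : Rep157 v T₂ M₂) :
    Rep157 v (fun ψ => T₁ (T₂ ψ)) (M₁ * M₂) := by
  intro a
  show T₁ (T₂ (v a)) = _
  rw [h₂ a, rep_apply157 hT h₁]
  congr 1

theorem rep_smul157 {T : (G K → ℂ) → (G K → ℂ)} {M : Matrix (Fin n) (Fin n) ℂ}
    (h : Rep157 v T M) (t : ℂ) : Rep157 v (fun ψ x => t * T ψ x) (t • M) := by
  intro a
  funext x
  show t * T (v a) x = _
  rw [h a]
  simp only [lin157, Finset.mul_sum, Matrix.smul_apply, smul_eq_mul]
  exact Finset.sum_congr rfl fun b _ => by ring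

theorem rep_add157 {T₁ T₂ : (G K → ℂ) → (G K → ℂ)} {M₁ M₂ : Matrix (Fin n) (Fin n) ℂ}
    (h₁ : Rep157 v T₁ M₁) (h₂ : Rep157 v T₂ M₂) :
    Rep157 v (fun ψ x => T₁ ψ x + T₂ ψ x) (M₁ + M₂) := by
  intro a
  funext x
  show T₁ (v a) x + T₂ (v a) x = _
  rw [h₁ a, h₂ a]
  simp only [lin157, ← Finset.sum_add_distrib, Matrix.add_apply]
  exact Finset.sum_congr rfl fun b _ => by ring

theorem rep_iterate157 {T : (G K → ℂ) → (G K → ℂ)} {M : Matrix (Fin n) (Fin n) ℂ}
    (hT : IsLin157 T) (h : Rep157 v T M) (m : ℕ) : Rep157 v (T^[m]) (M ^ m) := by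
  induction m with
  | zero => exact rep_id157
  | succ m ih =>
    have e := rep_comp157 (isLin_iterate157 hT m) ih h
    rw [← pow_succ] at e
    intro a
    rw [Function.iterate_succ_apply]
    exact e a

theorem rep_congr157 {T T' : (G K → ℂ) → (G K → ℂ)} {M : Matrix (Fin n) (Fin n) ℂ}
    (h : Rep157 v T M) (e : ∀ a, T' (v a) = T (v a)) : Rep157 v T' M :=
  fun a => (e a).trans (h a)

/-- The matrix of a left inverse. -/
theorem rep_inv157 {T T' : (G K → ℂ) → (G K → ℂ)} {W W' : Matrix (Fin n) (Fin n) ℂ}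
    (hT' : IsLin157 T') (h : Rep157 v T W) (hinv : ∀ a, T' (T (v a)) = v a)
    (hW : W * W' = 1) : Rep157 v T' W' := by
  have key : ∀ a, v a = lin157 (fun b => T' (v b)) (fun b => W b a) := by
    intro a
    rw [← hT' n _ v, ← h a, hinv a]
  intro c
  funext x
  have e1 : lin157 v (fun b => W' b c) x
      = ∑ a, W' a c * ∑ b, W b a * T' (v b) x := by
    unfold lin157
    refine Finset.sum_congr rfl fun a _ => ?_
    congr 1
    exact congrFun (key a) x
  rw [e1]
  simp only [Finset.mul_sum]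
  rw [Finset.sum_comm]
  have e2 : ∀ b, ∑ a, W' a c * (W b a * T' (v b) x) = (W * W') b c * T' (v b) x := by
    intro b
    rw [Matrix.mul_apply, Finset.sum_mul]
    exact Finset.sum_congr rfl fun a _ => by ring
  simp only [e2, hW, Matrix.one_apply]
  simp

/-- The powers of a translation, `k ∈ ℤ`. -/
theorem rep_shift157 {z : G K} {U : Matrix (Fin n) (Fin n) ℂ} (h : Rep157 v (trOp561 z) U)
    (hU : IsUnit U.det) (k : ℤ) : Rep157 v (shiftOp z k) (U ^ k) := by
  have hn : ∀ m : ℕ, Rep157 v (shiftOp z (m : ℤ)) (U ^ m) := by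
    intro m
    induction m with
    | zero =>
      intro a
      rw [Nat.cast_zero, shiftOp_zero157, pow_zero]
      exact rep_id157 a
    | succ m ih =>
      have e := rep_comp157 (isLin_shift157 z (m : ℤ)) ih h
      rw [← pow_succ] at e
      intro a
      rw [shiftOp_succ157]
      exact e a
  obtain ⟨m, rfl | rfl⟩ := Int.eq_nat_or_neg k
  · rw [zpow_natCast]
    exact hn m
  · rw [Matrix.zpow_neg_natCast]
    refine rep_inv157 (isLin_shift157 z _) (hn m) (fun a => shiftOp_neg_cancel157 z m _) ?_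
    exact Matrix.mul_nonsing_inv _ (by rw [Matrix.det_pow]; exact hU.pow m)

end Rep

end Fermat.Agent.LT.T7.H157

end

end
-- ===== PACK-END LT/T7/H157/BlkLin.lean

-- ===== PACK-BEGIN LT/T7/H893/SupplyFamTop.lean
section





/-!
# Row LT, tower T7, node T7.L2.1 `SupplyC` / `SupplySC` (sub-architect helper893):
# SECOND CUT -- proved tops

OFF-MAIN.  No `sorry`, nothing assumed.  ADDITIVE.

    famC_of893     : PreC P K K' → EkProdUpC K K' → EkProdDownC K K' → OpUpC K K' → KillUpC K K'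
                       → OpDownC K K' → ClassDownC K K' → CommDownC K K' → KillDownC K K'
                       → FamC P K K'
    supplySC_of893 : SetupC K K' → ProjC K' → ProjC K → FamC P K K' → SupplySC P K K'
    supplySC_of_leaves893 : SetupC → ProjC K' → ProjC K → PreC P → (8 leaves) → SupplySC P K K'

`SupplySC` = the node of `T7/Level2S.lean` (helper797, stable base level); `supplyC_of_S` of that
file gives `SupplyC`.
-/

set_option autoImplicit false

open AutomorphicForm IsDedekindDomain NumberField MeasureTheory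
open scoped ComplexConjugate

noncomputable section

namespace Fermat.Agent.LT.T7.H893

open Fermat.Agent.LT.H556 Fermat.Agent.LT.H556.A0 Fermat.Agent.LT.T7

attribute [local instance] Fermat.Agent.LT.T5.instMeasurableSpaceG

section Top

variable {P : EKCond}
variable {K K' : Type} [Field K] [NumberField K] [Field K'] [NumberField K'] [Algebra K K']

/-- **The families of pre-data are good**, from the eight bookkeeping leaves. -/
theorem isL2Fam_toFam893 {ℓ : ℕ} {Φ : HeckeEigensystem K' ℂ} {B : L2Base K K'}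
    (hB : IsL2Base ℓ Φ B) {g : G K'} (hg : B.IsBad g) {E : L2Pre K K'}
    (hE : IsL2Pre ℓ Φ B g E)
    (h1 : EkProdUpC K K') (h2 : EkProdDownC K K') (h3 : OpUpC K K') (h4 : KillUpC K K')
    (h5 : OpDownC K K') (h6 : ClassDownC K K') (h7 : CommDownC K K') (h8 : KillDownC K K') :
    IsL2Fam ℓ Φ B g (E.toFam B) where
  level_ne := hE.level_ne
  level_g := hE.level_g
  mem_S'_g := hE.mem_S'_g
  u_level := hE.u_level
  ekprod_up := fun X k m hX => h1 ℓ Φ B hB g hg E hE X k m hX
  ekprod_down := fun X k m hX => h2 ℓ Φ B hB g hg E hE X k m hX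
  reg_up := hE.reg_up
  reg_down := hE.reg_down
  matched := hE.matched
  base_ne := fun C hC => mul_ne_zero (hE.up_ne C hC).1 (hE.up_ne C hC).2
  op_up := fun X k m hX ψ C hψ Hg H z hHg hH hz x =>
    h3 ℓ Φ B hB g hg E hE X k m hX ψ C hψ Hg H z hHg hH hz x
  kill_up := fun X k m hX ψ hψ hperp x => h4 ℓ Φ B hB g hg E hE X k m hX ψ hψ hperp x
  op_down := fun X k m hX ψ c C hψ hbc H z hH hz x =>
    h5 ℓ Φ B hB g hg E hE X k m hX ψ c C hψ hbc H z hH hz x
  class_down := fun ψ c hψ => h6 ℓ Φ B hB g hg E hE ψ c hψ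
  comm_down := fun ψ hψ H z hH hz => h7 ℓ Φ B hB g hg E hE ψ hψ H z hH hz
  kill_down := fun X k m hX ψ hψ hperp x => h8 ℓ Φ B hB g hg E hE X k m hX ψ hψ hperp x

/-- **THE TOP OF THE SECOND CUT**: the families for one bad element from the pre-data and the
eight bookkeeping leaves. -/
theorem famC_of893 (h0 : PreC P K K')
    (h1 : EkProdUpC K K') (h2 : EkProdDownC K K') (h3 : OpUpC K K') (h4 : KillUpC K K')
    (h5 : OpDownC K K') (h6 : ClassDownC K K') (h7 : CommDownC K K') (h8 : KillDownC K K') :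
    FamC P K K' := by
  intro ℓ hcyc hℓ hcplx Φ hΦ hconst hPΦ B hB g hg
  obtain ⟨E, hE⟩ := h0 ℓ hcyc hℓ hcplx Φ hΦ hconst hPΦ B hB g hg
  exact ⟨E.toFam B, isL2Fam_toFam893 hB hg hE h1 h2 h3 h4 h5 h6 h7 h8⟩

/-- The data assembled from a good common part are stable. -/
theorem isStable_toData893 {ℓ : ℕ} {Φ : HeckeEigensystem K' ℂ} {B : L2Base K K'}
    (hB : IsL2Base ℓ Φ B) (Fm : G K' → L2Fam K K') : (B.toData Fm).IsStable := by
  obtain ⟨𝔫₀, h0, h1, _, _⟩ := hB.base_level
  exact ⟨𝔫₀, h0, h1⟩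

/-- **THE STABLE SUPPLY (node `SupplySC` of `T7/Level2S.lean`) from the first cut.** -/
theorem supplySC_of893 (hS : SetupC K K') (hP' : ProjC K') (hP : ProjC K)
    (hF : FamC P K K') : SupplySC P K K' := by
  intro ℓ hcyc hℓ hcplx Φ hΦ hconst hPΦ
  obtain ⟨B, hB⟩ := hS ℓ hcyc hℓ hcplx Φ hΦ hconst
  have hex : ∀ g : G K', ∃ Fm : L2Fam K K', B.IsBad g → IsL2Fam ℓ Φ B g Fm := by
    intro g
    by_cases hg : B.IsBad g
    · obtain ⟨Fm, h⟩ := hF ℓ hcyc hℓ hcplx Φ hΦ hconst hPΦ B hB g hg
      exact ⟨Fm, fun _ => h⟩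
    · exact ⟨⟨⊥, fun _ => 0, fun _ _ _ _ => 0, fun _ _ _ _ => 0, fun _ => 0⟩,
        fun h => absurd h hg⟩
  choose Fm hFm using hex
  exact ⟨B.toData Fm, isL2Data_toData893 hB hP' hP Fm hFm, isStable_toData893 hB Fm⟩

/-- **THE STABLE SUPPLY from the leaves of the two cuts.** -/
theorem supplySC_of_leaves893 (hS : SetupC K K') (hP' : ProjC K') (hP : ProjC K)
    (h0 : PreC P K K')
    (h1 : EkProdUpC K K') (h2 : EkProdDownC K K') (h3 : OpUpC K K') (h4 : KillUpC K K')
    (h5 : OpDownC K K') (h6 : ClassDownC K K') (h7 : CommDownC K K') (h8 : KillDownC K K') :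
    SupplySC P K K' :=
  supplySC_of893 hS hP' hP (famC_of893 h0 h1 h2 h3 h4 h5 h6 h7 h8)

end Top

end Fermat.Agent.LT.T7.H893

end

end
-- ===== PACK-END LT/T7/H893/SupplyFamTop.lean

-- ===== PACK-BEGIN LT/T7/H819/PosScalar.lean
section



/-!
# Row LT, tower T7, node T7.L2.1 `SupplyC`, leaf T7.L2.1.P1b `PosScalarC` (helper819), OFF-MAIN

Registry row 2167.  Spec: `LT/T7/H40/ArchProjSpec.lean` (helper40@6d20eda5a, sha256 34d7f8425284).

    posScalarC819 (K) : Fermat.Agent.LT.T7.H40.PosScalarC K        (VERBATIM, UNCONDITIONAL)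

Route: extensionality of `GL₂(𝔸_K)` in the local components (the embedding of a completion in `ℂ`
is injective); a positive scalar `diag(ρ, ρ)` at `w` is `Z (Pi.single w (log ρ))`; every
`Z (Pi.single w s)` is a positive scalar at `w`; `t = ∑_w Pi.single w (t w)` and `Z` is
multiplicative, so invariance under the positive scalars at every place gives invariance under
every `Z t` (induction on a finite set of places).
-/

set_option autoImplicit false

open IsDedekindDomain NumberField

noncomputable section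

namespace Fermat.Agent.LT.T7.H819

open Fermat.Agent.LT.H556 Fermat.Agent.LT.H556.A0 Fermat.Agent.LT.T7 Fermat.Agent.LT.T7.H40

variable {K : Type} [Field K] [NumberField K]

/-- Extensionality of `GL₂(𝔸_K)` in the local components. -/
theorem g_ext819 {g h : G K}
    (hI : ∀ (w : InfinitePlace K) (i j : Fin 2),
      ((g : Matrix (Fin 2) (Fin 2) (Adl K)) i j).1 w =
        ((h : Matrix (Fin 2) (Fin 2) (Adl K)) i j).1 w)
    (hF : ∀ v : HeightOneSpectrum (𝓞 K), finComp v g = finComp v h) : g = h := by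
  apply Units.ext
  refine Matrix.ext fun i j => ?_
  refine Prod.ext (funext fun w => hI w i j) ?_
  exact RestrictedProduct.ext _ _ (fun v => congrFun (congrFun (hF v) i) j)

omit [NumberField K] in
/-- The embedding of the completion at `w` in `ℂ` is injective. -/
theorem emb_injective819 (w : InfinitePlace K) :
    Function.Injective (InfinitePlace.Completion.extensionEmbedding w) :=
  (InfinitePlace.Completion.extensionEmbedding w).injective

/-- Equal components in `ℂ` give equal raw components. -/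
theorem raw_eq_of_infComp_eq819 {w : InfinitePlace K} {g h : G K}
    (hgh : infComp w g = infComp w h) (i j : Fin 2) :
    ((g : Matrix (Fin 2) (Fin 2) (Adl K)) i j).1 w =
      ((h : Matrix (Fin 2) (Fin 2) (Adl K)) i j).1 w :=
  emb_injective819 w (congrFun (congrFun hgh i) j)

/-- A matrix whose component in `ℂ` at `w` is the identity is trivial at `w`. -/
theorem trivAtInf_of_infComp_eq_one819 {w : InfinitePlace K} {g : G K}
    (hg : infComp w g = 1) : TrivAtInf w g := by
  intro i j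
  apply emb_injective819 w
  have h1 : InfinitePlace.Completion.extensionEmbedding w
      (((g : Matrix (Fin 2) (Fin 2) (Adl K)) i j).1 w) = (1 : Matrix (Fin 2) (Fin 2) ℂ) i j :=
    congrFun (congrFun hg i) j
  rw [h1]
  by_cases hij : i = j
  · subst hij
    simp
  · simp [Matrix.one_apply_ne hij]

/-- The component in `ℂ` of a matrix which is trivial at `w` is the identity. -/
theorem infComp_eq_one_of_trivAtInf819 {w : InfinitePlace K} {g : G K}
    (hg : TrivAtInf w g) : infComp w g = 1 := by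
  refine Matrix.ext fun i j => ?_
  show InfinitePlace.Completion.extensionEmbedding w
      (((g : Matrix (Fin 2) (Fin 2) (Adl K)) i j).1 w) = (1 : Matrix (Fin 2) (Fin 2) ℂ) i j
  rw [hg i j]
  by_cases hij : i = j
  · subst hij
    simp
  · simp [Matrix.one_apply_ne hij]

/-- `diag(1, 1) = 1`. -/
theorem diagonal_exp_zero819 :
    Matrix.diagonal (fun _ : Fin 2 => ((Real.exp (0 : ℝ) : ℝ) : ℂ)) = 1 := by
  rw [Real.exp_zero]
  simp

section Family

variable {Z : (InfinitePlace K → ℝ) → G K}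

/-- `Z 0 = 1`. -/
theorem Z_zero819 (hZ : IsPosFamily40 Z) : Z 0 = 1 := by
  have h := hZ.mul 0 0
  rw [add_zero] at h
  exact (mul_eq_left (a := Z 0) (b := Z 0)).mp h.symm

open Classical in
/-- `Z (s e_w)` is a positive scalar at `w`. -/
theorem isArchPosScalar_single819 (hZ : IsPosFamily40 Z) (w : InfinitePlace K) (s : ℝ) :
    IsArchPosScalar w (Z (Pi.single w s)) := by
  refine ⟨⟨fun w' hw' => ?_, fun v => hZ.fin_triv _ v⟩, Real.exp s, Real.exp_pos s, ?_⟩
  · apply trivAtInf_of_infComp_eq_one819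
    rw [hZ.inf_comp, Pi.single_eq_of_ne hw']
    exact diagonal_exp_zero819
  · rw [hZ.inf_comp, Pi.single_eq_same]

open Classical in
/-- Every positive scalar at `w` is a value of `Z`. -/
theorem exists_eq_Z819 (hZ : IsPosFamily40 Z) (w : InfinitePlace K) (z : G K)
    (hz : IsArchPosScalar w z) : ∃ t : InfinitePlace K → ℝ, z = Z t := by
  obtain ⟨⟨hinf, hfin⟩, r, hr, hcomp⟩ := hz
  refine ⟨Pi.single w (Real.log r), g_ext819 (fun w' i j => ?_) (fun v => ?_)⟩
  · by_cases hw' : w' = w
    · subst hw'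
      apply raw_eq_of_infComp_eq819
      rw [hcomp, hZ.inf_comp, Pi.single_eq_same, Real.exp_log hr]
    · apply raw_eq_of_infComp_eq819
      rw [infComp_eq_one_of_trivAtInf819 (hinf w' hw'), hZ.inf_comp,
        Pi.single_eq_of_ne hw']
      exact diagonal_exp_zero819.symm
  · have h1 : finComp v z = 1 := hfin v
    have h2 : finComp v (Z (Pi.single w (Real.log r))) = 1 := hZ.fin_triv _ v
    rw [h1, h2]

open Classical in
/-- Invariance under the positive scalars at every place gives invariance under `Z t` for the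
partial sums of `t = ∑_w t_w e_w`. -/
theorem inv_partial819 (hZ : IsPosFamily40 Z) (χ : G K → ℂ) (hχ : IsPosInv χ)
    (t : InfinitePlace K → ℝ) (s : Finset (InfinitePlace K)) :
    ∀ g : G K, χ (g * Z (∑ w ∈ s, Pi.single w (t w))) = χ g := by
  induction s using Finset.induction_on with
  | empty =>
    intro g
    rw [Finset.sum_empty, Z_zero819 hZ, mul_one]
  | insert a s ha ih =>
    intro g
    rw [Finset.sum_insert ha, hZ.mul, ← mul_assoc, ih,
      hχ a _ (isArchPosScalar_single819 hZ a (t a))]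

open Classical in
/-- Invariance under the positive scalars at every place gives invariance under every `Z t`. -/
theorem inv_Z819 (hZ : IsPosFamily40 Z) (χ : G K → ℂ) (hχ : IsPosInv χ)
    (t : InfinitePlace K → ℝ) (g : G K) : χ (g * Z t) = χ g := by
  have h := inv_partial819 hZ χ hχ t Finset.univ g
  rwa [Finset.univ_sum_single t] at h

end Family

/-- **LEAF T7.L2.1.P1b `PosScalarC`**, VERBATIM, UNCONDITIONAL, for every number field. -/
theorem posScalarC819 (K : Type) [Field K] [NumberField K] : PosScalarC K :=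
  fun _ hZ => ⟨fun w z hz => exists_eq_Z819 hZ w z hz, fun χ hχ t g => inv_Z819 hZ χ hχ t g⟩

end Fermat.Agent.LT.T7.H819

end

end
-- ===== PACK-END LT/T7/H819/PosScalar.lean

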