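import Mathlib
import Fermat.Agent.Pack.LT2.E6L1
import Fermat.Agent.Pack.LT3.E21L0
import Fermat.Agent.Pack.LT3.E17L1
import Fermat.Agent.Pack.LT3.E23L3
import Fermat.Agent.Pack.LT3.E23L2
import Fermat.Agent.Pack.LT3.E23L1
import Fermat.Agent.Pack.LT3.E23L0
import Fermat.Agent.Pack.LT3.E22L3
import Fermat.Agent.Pack.LT2.E7L0
import Fermat.Agent.Pack.LT2.E4L1
import Fermat.Agent.Pack.LT2.E6L3
import Fermat.Agent.Pack.LT2.E4L2
import Fermat.Agent.Pack.LT2.E3L0
import Fermat.Agent.Pack.LT3.E1L1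
import Fermat.Agent.Pack.LT3.E24L2
import Fermat.Agent.Pack.LT3.E24L1
import Fermat.Agent.Pack.LT3.E22L0
import Fermat.Agent.Pack.LT3.E2L3
import Fermat.Agent.Pack.LT3.E24L0

set_option linter.all false

-- ===== PACK-BEGIN LT/T2/H386/Leaf03Partial.lean
section






/-!
# Row LT, T2.03 (owner helper386): INTEGRATION of the closed leaves

OFF-MAIN.  ONE import closure with the byte-identical files of the leaf owners:

* `H386.leafSoft1_386` (T2.03b, registry 1118, helper386),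
* `H511.leafFD_of_us511` (T2.03a up to `LeafUnifSmooth`; leaves of helper729, helper988,
  helper793 inside; helper511@b9949f8d8),
* `H767.leafLocalL2_767` (T2.03c, registry 1119, helper767@84f973682; count by
  helper868@d29b270f6).

Result: `T2.Leaf03 K` (= `GPSCore`, registry row 867) from the ONE open leaf
`H511.LeafUnifSmooth K` (registry row 1225).
-/

set_option autoImplicit false

open IsDedekindDomain NumberField

noncomputable section

namespace Fermat.Agent.LT.T2.H386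

open Fermat.Agent.LT.T2

/-- **T2.03 up to the one open leaf**: `GPSCore` from the uniform smoothness of test
functions. -/
theorem leaf03_of_us386 (K : Type) [Field K] [NumberField K]
    (hUS : H511.LeafUnifSmooth K) : Leaf03 K :=
  leaf03_of_leaves (H511.leafFD_of_us511 K hUS) (leafSoft1_386 K) (H767.leafLocalL2_767 K)

/-- Type check against the Spec of the tower architect (T2/Spec v3). -/
example (K : Type) [Field K] [NumberField K] (hUS : H511.LeafUnifSmooth K) :
    T1.T1Out K → ∀ 𝔫 : Ideal (𝓞 K), 𝔫 ≠ ⊥ → GPSCore K 𝔫 := leaf03_of_us386 K hUS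

end Fermat.Agent.LT.T2.H386

end

end
-- ===== PACK-END LT/T2/H386/Leaf03Partial.lean

-- ===== PACK-BEGIN LT/T6/H855/HypExplClosed.lean
section




/-!
# Row LT, tower T6, T6.25 = T6.20d = T6.20d-X (helper855): `HypExplC634` CLOSED

OFF-MAIN.  `hypExplC_closed855 : H634.HypExplC634` (VERBATIM vs `H634/EllCut.lean` d96dd710),
UNCONDITIONAL: `cStar634 μ μ'` is positive and is a matching constant on `{disc > 0}`.
-/

set_option autoImplicit false

namespace Fermat.Agent.LT.T6.H855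

open Fermat.Agent.LT.T6

/-- **T6.20d-X `HypExplC634`, UNCONDITIONAL.** -/
theorem hypExplC_closed855 : H634.HypExplC634 :=
  hypExplC_of_iwasawa855 iwasawaRC_closed855 u2HaarC_closed855 iwasawaCC_closed855

end Fermat.Agent.LT.T6.H855

end
-- ===== PACK-END LT/T6/H855/HypExplClosed.lean

-- ===== PACK-BEGIN LT/T7/H122/CuspFormQ.lean
section




/-!
# Row LT, tower T7, leaf T7.L2Q.3.7.1 `SDQ140.CuspFormQC` (helper122)

OFF-MAIN.  `cuspFormQC122 n : Fermat.Agent.LT.T7.SDQ140.CuspFormQC n` for BOTH weights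
(`n = w0`, `n = w1`), VERBATIM against `LT/T7/H140/DownBasisQSpec.lean`
(helper140@281c6f596, sha256 `ccac08d3…`), unconditional.

The proof is the proof of `SD534.CuspFormC` of helper128 (`LT/T7/H128/CuspForm.lean`, byte
copy) with the `K_∞`-type as a parameter: the two lemmas `integrable_mul_conj128` and
`eq_zero_of_ae_frame128` do not see the type (a cusp function of any type is continuous,
bounded, left invariant under `GL₂(ℚ)` and right invariant under the ray generator); the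
general statement is `cuspForm_typed122` (every number field, every type `τ`).
-/

set_option autoImplicit false
set_option linter.unusedSectionVars false
set_option linter.unusedVariables false

open IsDedekindDomain NumberField MeasureTheory
open scoped ComplexConjugate
open Fermat.Agent.LT.H556.A0 Fermat.Agent.LT.T5 Fermat.Agent.LT.T5.H277

noncomputable section

namespace Fermat.Agent.LT.T7.H122

open Fermat.Agent.LT.T7.H128

attribute [local instance] Fermat.Agent.LT.T5.instMeasurableSpaceG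

section General

variable {K : Type} [Field K] [NumberField K]

/-- The seven clauses for the cusp functions of an arbitrary `K_∞`-type `τ`. -/
theorem cuspForm_typed122 (τ : G K → ℂ) (μ : Measure (G K)) (F : Set (G K)) (r : G K)
    (𝔫 : Ideal (𝓞 K)) (hF : T5.IsFrame μ F) (hr : T5.IsRayGen r) :
    (∀ f f' f'' : G K → ℂ, T5.IsCuspFn 𝔫 τ r f → T5.IsCuspFn 𝔫 τ r f' →
      T5.IsCuspFn 𝔫 τ r f'' →
      T5.innerD μ F (f + f') f'' = T5.innerD μ F f f'' + T5.innerD μ F f' f'') ∧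
    (∀ (a : ℂ) (f f' : G K → ℂ), T5.IsCuspFn 𝔫 τ r f → T5.IsCuspFn 𝔫 τ r f' →
      T5.innerD μ F (a • f) f' = a * T5.innerD μ F f f') ∧
    (∀ f f' : G K → ℂ, T5.IsCuspFn 𝔫 τ r f → T5.IsCuspFn 𝔫 τ r f' →
      T5.innerD μ F f' f = conj (T5.innerD μ F f f')) ∧
    (∀ f : G K → ℂ, T5.IsCuspFn 𝔫 τ r f → 0 ≤ (T5.innerD μ F f f).re) ∧
    (∀ f : G K → ℂ, T5.IsCuspFn 𝔫 τ r f → T5.innerD μ F f f = 0 → f = 0) ∧
    (∀ φ f f' : G K → ℂ, T5.IsTestFn 𝔫 τ φ → T5.IsCuspFn 𝔫 τ r f → T5.IsCuspFn 𝔫 τ r f' →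
      T5.Rconv μ φ (f + f') = T5.Rconv μ φ f + T5.Rconv μ φ f') ∧
    (∀ (φ : G K → ℂ) (a : ℂ) (f : G K → ℂ), T5.IsTestFn 𝔫 τ φ → T5.IsCuspFn 𝔫 τ r f →
      T5.Rconv μ φ (a • f) = a • T5.Rconv μ φ f) := by
  have hB : BorelSpace (G K) := borelSpaceG277
  have hH := hF.haar
  have hfin : IsFiniteMeasure (μ.restrict F) := ⟨by simpa using hF.finite⟩
  have hI : ∀ f f' : G K → ℂ, T5.IsCuspFn 𝔫 τ r f → T5.IsCuspFn 𝔫 τ r f' →
      Integrable (fun x => f x * conj (f' x)) (μ.restrict F) :=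
    fun f f' hf hf' => integrable_mul_conj128 hF hf.cont hf'.cont hf.bdd hf'.bdd
  refine ⟨?_, ?_, ?_, ?_, ?_, ?_, ?_⟩
  · -- add_left
    intro f f' f'' hf hf' hf''
    unfold T5.innerD
    rw [← integral_add (hI f f'' hf hf'') (hI f' f'' hf' hf'')]
    refine integral_congr_ae (Filter.Eventually.of_forall fun x => ?_)
    simp only [Pi.add_apply]
    ring
  · -- smul_left
    intro a f f' _ _
    unfold T5.innerD
    rw [← integral_const_mul]
    refine integral_congr_ae (Filter.Eventually.of_forall fun x => ?_)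
    simp only [Pi.smul_apply, smul_eq_mul]
    ring
  · -- conj_symm
    intro f f' _ _
    unfold T5.innerD
    rw [← integral_conj]
    refine integral_congr_ae (Filter.Eventually.of_forall fun x => ?_)
    simp only [map_mul, Complex.conj_conj]
    ring
  · -- nonneg
    intro f _
    unfold T5.innerD
    have e : (fun x => f x * conj (f x)) = fun x => ((‖f x‖ ^ 2 : ℝ) : ℂ) := by
      funext x
      rw [RCLike.mul_conj]
      norm_cast
    rw [e]
    have e2 : (∫ x in F, ((‖f x‖ ^ 2 : ℝ) : ℂ) ∂μ) = ((∫ x in F, ‖f x‖ ^ 2 ∂μ : ℝ) : ℂ) :=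
      integral_ofReal
    rw [e2, Complex.ofReal_re]
    exact integral_nonneg fun x => by positivity
  · -- definite
    intro f hf h0
    unfold T5.innerD at h0
    have e : (fun x => f x * conj (f x)) = fun x => ((‖f x‖ ^ 2 : ℝ) : ℂ) := by
      funext x
      rw [RCLike.mul_conj]
      norm_cast
    rw [e] at h0
    have e2 : (∫ x in F, ((‖f x‖ ^ 2 : ℝ) : ℂ) ∂μ) = ((∫ x in F, ‖f x‖ ^ 2 ∂μ : ℝ) : ℂ) :=
      integral_ofReal
    rw [e2] at h0
    have h1 : ∫ x in F, ‖f x‖ ^ 2 ∂μ = 0 := by exact_mod_cast h0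
    have hint : Integrable (fun x => ‖f x‖ ^ 2) (μ.restrict F) := by
      obtain ⟨C, hC⟩ := hf.bdd
      refine Integrable.of_bound (hf.cont.norm.pow 2).aestronglyMeasurable (C ^ 2)
        (Filter.Eventually.of_forall fun x => ?_)
      rw [Real.norm_eq_abs, abs_of_nonneg (by positivity)]
      exact pow_le_pow_left₀ (norm_nonneg _) (hC x) 2
    have h2 := (integral_eq_zero_iff_of_nonneg (fun x => by positivity) hint).1 h1
    have h3 : μ ({x | f x ≠ 0} ∩ F) = 0 := by
      have h4 : (μ.restrict F) {x | f x ≠ 0} = 0 := by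
        rw [Filter.EventuallyEq, ae_iff] at h2
        refine measure_mono_null ?_ h2
        intro x hx
        simp only [Set.mem_ofPred_eq, Pi.zero_apply] at hx ⊢
        intro h5
        exact hx (by simpa using h5)
      rwa [Measure.restrict_apply' hF.meas] at h4
    exact eq_zero_of_ae_frame128 hF hr hf.cont hf.aut.left_inv hf.aut.ray h3
  · -- conv_add
    intro φ f f' hφ hf hf'
    funext x
    unfold T5.Rconv
    have hi : ∀ e : G K → ℂ, Continuous e → Integrable (fun y => φ y * e (x * y)) μ := by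
      intro e he
      exact (hφ.cont.mul
        (he.comp (continuous_const.mul continuous_id))).integrable_of_hasCompactSupport
        hφ.supp.mul_right
    simp only [Pi.add_apply]
    rw [← integral_add (hi f hf.cont) (hi f' hf'.cont)]
    refine integral_congr_ae (Filter.Eventually.of_forall fun y => ?_)
    simp only
    ring
  · -- conv_smul
    intro φ a f _ _
    funext x
    unfold T5.Rconv
    simp only [Pi.smul_apply, smul_eq_mul]
    rw [← integral_const_mul]
    refine integral_congr_ae (Filter.Eventually.of_forall fun y => ?_)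
    simp only
    ring

end General

/-- **T7.L2Q.3.7.1 `CuspFormQC n`**, VERBATIM, both weights. -/
theorem cuspFormQC122 (n : Fermat.Agent.LT.T7.L2Q.QWt) :
    Fermat.Agent.LT.T7.SDQ140.CuspFormQC n := by
  intro μ F r 𝔫 _ _ hF hr
  obtain ⟨h1, h2, h3, h4, h5, h6, h7⟩ := cuspForm_typed122 (K := ℚ) n.type μ F r 𝔫 hF hr
  exact ⟨h1, h2, h3, h4, h5, h6, h7⟩

example : Fermat.Agent.LT.T7.SDQ140.CuspFormQC Fermat.Agent.LT.T7.L2Q.QWt.w0 :=
  cuspFormQC122 _

example : Fermat.Agent.LT.T7.SDQ140.CuspFormQC Fermat.Agent.LT.T7.L2Q.QWt.w1 :=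
  cuspFormQC122 _

end Fermat.Agent.LT.T7.H122

end

end
-- ===== PACK-END LT/T7/H122/CuspFormQ.lean

-- ===== PACK-BEGIN LT/T7/H131/SupplyQFam.lean
section




/-
LT tower T7, node T7.L2Q.1.F `FamQC962` (cut of helper732), leaves F4 `KillUpQC732`,
F6 `ClassDownQC732`, F7 `CommDownQC732`, F8 `KillDownQC732` (registry id 2321 = F8; F4, F6, F7
delivered with it) -- helper131, OFF-MAIN.

Spec: helper732@d2eb0c98b `Fermat/Agent/LT/T7/H732/SupplyQFamSpec.lean` (sha256 7e4f04b4...),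
closure vendored byte-identical; `Rconv_Rconv277` from `LT/T5/H277/Coeff.lean` (helper277);
general lemmas `LT/T7/H131/RconvOps.lean`.

Results: `killUpQC_h131 : KillUpQC732 F`, `classDownQC_h131 : ClassDownQC732 F`,
`commDownQC_h131 : CommDownQC732 F`, `killDownQC_h131 : KillDownQC732 F`.

This file realises NO equation lemma of a definition of another module.
-/

set_option autoImplicit false

open AutomorphicForm IsDedekindDomain NumberField MeasureTheory
open scoped ComplexConjugate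

noncomputable section

namespace Fermat.Agent.LT.T7.H131

open Fermat.Agent.LT.H556 Fermat.Agent.LT.H556.A0 Fermat.Agent.LT.T7 Fermat.Agent.LT.T7.L2Q
  Fermat.Agent.LT.T7.H893 Fermat.Agent.LT.T7.H962 Fermat.Agent.LT.T7.H732

attribute [local instance] Fermat.Agent.LT.T5.instMeasurableSpaceG

variable {F : Type} [Field F] [NumberField F]

theorem qDown_eq_h131 (B : L2QBase962 F) (E : L2QPre732 F) (n : QWt) (X : List (Gen F))
    (k : ℤ) (m : ℕ) :
    E.down B n X k m = T5.conv B.R.μ (E.F₁ n X) (regL B.u E.z E.H k m (E.f₂ n)) := rfl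

theorem qUp_eq_h131 (B : L2QBase962 F) (E : L2QPre732 F) (X : List (Gen F)) (k : ℤ) (m : ℕ) :
    E.up B X k m
      = T5.conv B.R'.μ (E.Φ₁ X) (lsum E.Hg (regL (B.o 0) E.z' E.H' k m E.φ₂)) := rfl

/-- `R(f n [] 0 0) = R(F₁ n []) R(f₂ n)`. -/
theorem qRconv_down_nil_h131 {Φ : HeckeEigensystem F ℂ} {B : L2QBase962 F}
    (hB : IsL2QBase962 Φ B) {g : G F} {E : L2QPre732 F} (hE : IsL2QPre732 Φ B g E) (n : QWt)
    {χ : G ℚ → ℂ} (hχ : Continuous χ) :
    T5.Rconv B.R.μ (E.down B n [] 0 0) χ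
      = T5.Rconv B.R.μ (E.F₁ n []) (T5.Rconv B.R.μ (E.f₂ n) χ) := by
  have hF := hB.frame.frame
  have h1 := hE.dn1_test n [] (fun x hx => absurd hx List.not_mem_nil)
  have h2 := hE.dn2_test n
  funext x
  rw [qDown_eq_h131, rcRegL_zero_h131,
    ← T5.H277.Rconv_Rconv277 hF h1.cont h1.supp h2.cont h2.supp hχ]

/-- **T7.L2Q.1.F6** `ClassDownQC732`. -/
theorem classDownQC_h131 : ClassDownQC732 F := by
  intro Φ B hB g _ E hE n ψ c hψ
  rw [qRconv_down_nil_h131 hB hE n hψ.inv.cusp.cont]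
  exact hE.dn1_class n _ c (hE.dn2_class n ψ c hψ)

/-- **T7.L2Q.1.F7** `CommDownQC732`. -/
theorem commDownQC_h131 : CommDownQC732 F := by
  intro Φ B hB g _ E hE n ψ hψ H z hH hz
  have hc := hψ.cusp.cont
  have hw := hE.dn2_wfn n ψ hψ
  constructor
  · intro x
    rw [qRconv_down_nil_h131 hB hE n (rcContinuous_iwOp_h131 B.u H hc),
      qRconv_down_nil_h131 hB hE n hc]
    have e1 : T5.Rconv B.R.μ (E.f₂ n) (iwOp B.u H ψ)
        = iwOp B.u H (T5.Rconv B.R.μ (E.f₂ n) ψ) :=
      funext (hE.dn2_comm n ψ hψ H z hH hz).1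
    rw [e1]
    exact (hE.dn1_comm n _ hw H z hH hz).1 x
  · intro k x
    rw [qRconv_down_nil_h131 hB hE n (rcContinuous_shiftOp_h131 z k hc),
      qRconv_down_nil_h131 hB hE n hc]
    have e1 : T5.Rconv B.R.μ (E.f₂ n) (shiftOp z k ψ)
        = shiftOp z k (T5.Rconv B.R.μ (E.f₂ n) ψ) :=
      funext ((hE.dn2_comm n ψ hψ H z hH hz).2 k)
    rw [e1]
    exact (hE.dn1_comm n _ hw H z hH hz).2 k x

/-- **T7.L2Q.1.F8** `KillDownQC732`. -/
theorem killDownQC_h131 : KillDownQC732 F := by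
  intro Φ B hB g _ E hE n X k m hX ψ hψ hperp x
  have hF := hB.frame.frame
  have h1 := hE.dn1_test n X hX
  have h2 := hE.dn2_test n
  have h0 : T5.Rconv B.R.μ (E.f₂ n) ψ = 0 := funext (hE.dn2_kill n ψ hψ hperp)
  rw [qDown_eq_h131, ← T5.H277.Rconv_Rconv277 hF h1.cont h1.supp
    (rcContinuous_regL_h131 B.u E.z E.H k m h2.cont)
    (rcCompact_regL_h131 B.u E.z E.H k m h2.supp) hψ.cont,
    rcRegL_h131 hF B.u E.z E.H k m h2.cont h2.supp hψ.cont, h0, rcIwOp_iter_zero_h131,
    rcShiftOp_zero_h131, rcRconv_zero_h131]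
  rfl

/-- **T7.L2Q.1.F4** `KillUpQC732`. -/
theorem killUpQC_h131 : KillUpQC732 F := by
  intro Φ B hB g _ E hE X k m hX ψ hψ hperp x
  have hF := hB.frame'.frame
  have h1 := hE.up1_test X hX
  have h2 := hE.up2_test
  have h0 : T5.Rconv B.R'.μ E.φ₂ ψ = 0 := funext (hE.up2_kill ψ hψ hperp)
  have hrc := rcContinuous_regL_h131 (B.o 0) E.z' E.H' k m h2.cont
  have hrs := rcCompact_regL_h131 (B.o 0) E.z' E.H' k m h2.supp
  have e1 : T5.Rconv B.R'.μ (lsum E.Hg (regL (B.o 0) E.z' E.H' k m E.φ₂)) ψ = 0 := by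
    funext y
    rw [rcLsum_h131 hF E.Hg hrc hrs hψ.cont,
      rcRegL_h131 hF (B.o 0) E.z' E.H' k m h2.cont h2.supp hψ.cont, h0,
      rcIwOp_iter_zero_h131, rcShiftOp_zero_h131, rcCosetOp_zero_h131]
  rw [qUp_eq_h131, ← T5.H277.Rconv_Rconv277 hF h1.cont h1.supp (rcContinuous_lsum_h131 E.Hg hrc)
    (rcCompact_lsum_h131 E.Hg hrs) hψ.cont, e1, rcRconv_zero_h131]
  rfl

end Fermat.Agent.LT.T7.H131

end
end
-- ===== PACK-END LT/T7/H131/SupplyQFam.lean

-- ===== PACK-BEGIN LT/T7/H16/RegParamLeavesQ.lean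
section





/-!
# Row LT, tower T7, node T7.L2Q.3 `SpecDownQC`: the REG-PARAM leaf over `ℚ`, VERBATIM (helper16)

OFF-MAIN.  Unconditional.

* `isRegParam_of_iwInv16` : the statement of `isRegParam_of_eig16'` for ANY `K_∞`-type: a
  continuous bounded function on `GL₂(K) ⟨r⟩ \ GL₂(𝔸_K)`, not identically zero, with
  `T7.IsIwInv l o ψ`, `0 < l`, which is a joint eigenfunction of `iwOp (o 0) H` and
  `shiftOp z 1`;
* `regParamFnQC16 n : SDQ140.RegParamFnQC n` -- leaf DBQ.6 of the cut of helper140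
  (`LT/T7/H140/DownBasisQSpec.lean`, sha256 ccac08d3), both types `n`.
-/

set_option autoImplicit false

open IsDedekindDomain NumberField MeasureTheory

noncomputable section

namespace Fermat.Agent.LT.T7.H16

open Fermat.Agent.LT.H556.A0 Fermat.Agent.LT.T5 Fermat.Agent.LT.T7

attribute [local instance] Fermat.Agent.LT.T5.instMeasurableSpaceG

/-- The regular parameters of a joint eigenfunction, any `K_∞`-type, unconditional. -/
theorem isRegParam_of_iwInv16 {K : Type} [Field K] [NumberField K] {μ : Measure (G K)}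
    {F : Set (G K)} {r : G K} (hF : IsFrame μ F) (hr : IsRayGen r) {l : ℕ}
    {o : ℕ → HeightOneSpectrum (𝓞 K)} (hl : 0 < l) {ψ : G K → ℂ} (hψ : IsAutBdd16 r ψ)
    (hiw : IsIwInv l o ψ) (hne : ∃ x : G K, ψ x ≠ 0) {H : Finset (G K)}
    (hH : IsIwCosetSystem (o 0) H) {z : G K} (hz : IsScalarUniformizerAt (o 0) z) {b lam : ℂ}
    (hU : ∀ x : G K, iwOp (o 0) H ψ x = lam * ψ x)
    (hZ : ∀ x : G K, shiftOp z 1 ψ x = b * ψ x) :
    IsRegParam (Real.sqrt (Ideal.absNorm (o 0).asIdeal : ℝ)) b lam := by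
  have hN := T1.H309.adNormC309 (K := K)
  refine isRegParam_of_eig_core16 hN hF hr hψ ?_ (innerD_self_ne_zero16 hN hF hr hψ hne)
    hH hz hU hZ
  intro k hk hkI x
  refine hiw k hk.1 (fun v hv => hk.2 v (hv 0 hl)) (fun j _ => ?_) x
  exact inIwahori_all_of_local16 hk hkI (o j)

/-- **Leaf DBQ.6 `RegParamFnQC` of helper140, VERBATIM** (both types). -/
theorem regParamFnQC16 (n : L2Q.QWt) : SDQ140.RegParamFnQC n := by
  intro μ F r 𝔫 u H z _ _ hF hr _ hH hz ψ b l hW hne hZ hU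
  refine isRegParam_of_iwInv16 hF hr (l := 1) (o := fun _ => u) one_pos
    (isAutBdd16_of_cusp hW.cusp) hW.iw hne hH hz (fun x => ?_) (fun x => ?_)
  · have := congrFun hU x
    simpa using this
  · have := congrFun hZ x
    simpa using this

end Fermat.Agent.LT.T7.H16

end

end
-- ===== PACK-END LT/T7/H16/RegParamLeavesQ.lean

-- ===== PACK-BEGIN LT/T7/H890/JointInt.lean
section




/-!
# Row LT, tower T7, node T7.L2.1 `SupplyC`, sub-station NAT-MATCH, LEAF NM.2 = JOINT-INT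
# (helper890, registry row 2585): PROVED

OFF-MAIN.  `jointIntC890 (K) : T7.H193.JointIntC K` VERBATIM vs `T7/H193/NatMatchSpec.lean`
(helper193@2b431d43c, sha256 4d7f0df5).  No hole, nothing assumed.

Proof (the proof of T5.07 by helper29, `T5/H29/TwFinite.lean`, with a parameter).
* `Θ` = the indicator function of `A = {g : ∃ t ∈ D, φ (g a(t)⁻¹) ≠ 0}`: compact support
  (`A ⊆ tsupport φ · a(closure D)`), `σ`-regular (every translate is); `TwBoundC` for `Θ` gives
  `(S, M)` which serve for ALL the translates `trl193 (a t) φ`, `t ∈ D`;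
* `lintegral_twTerm_le890`: for a continuous bounded `ψ` with the bound `(S, M)`:
  `∫⁻_{Fδ} ‖twTerm ψ δ x‖ₑ ≤ #S · (2M+1) C · μ(F)` (the orbit unfolding of helper29, with the
  constant made explicit);
* on `G × D` the function is the finite sum `∑_{|m| ≤ M} φ (x⁻¹ δ σ(x) r^m a(t)⁻¹)`, jointly
  continuous; Tonelli.
-/

set_option autoImplicit false

open IsDedekindDomain NumberField MeasureTheory
open scoped MatrixGroups Pointwise ENNReal

noncomputable section

namespace Fermat.Agent.LT.T7.H890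

open Fermat.Agent.LT.H556.A0 Fermat.Agent.LT.T5 Fermat.Agent.LT Fermat.Agent.LT.T5.H29
open Fermat.Agent.LT.T7.H193

attribute [local instance] Fermat.Agent.LT.T5.instMeasurableSpaceG
attribute [local instance] Fermat.Agent.LT.T5.H29.ratAction29

variable {K : Type} [Field K] [NumberField K]

/-! ## 1. The orbit unfolding with an explicit constant -/

/-- The bound of helper29 (`leafTwFinite_of_twBound`) with the constant made explicit. -/
theorem lintegral_twTerm_le890 (hT : T1.T1Out K) (hRS : RaySlabC K) {s : AdelicAut K}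
    {𝔫 : Ideal (𝓞 K)} {μ : Measure (G K)} {F : Set (G K)} {r : G K}
    (hF : IsFrame μ F) (hP : AutPreserves s 𝔫 μ r) (S : Finset (GL (Fin 2) K)) (M : ℕ)
    {ψ : G K → ℂ} (hψ : Continuous ψ) {C : ℝ} (hC : ∀ g : G K, ‖ψ g‖ ≤ C)
    (hSM : ∀ x : G K, ∃ γ₀ : GL (Fin 2) K, ∀ (δ : GL (Fin 2) K) (m : ℤ),
      ψ (x⁻¹ * ratG δ * s.onG x * r ^ m) ≠ 0 → m.natAbs ≤ M ∧ γ₀⁻¹ * δ * s.onRat γ₀ ∈ S)
    (δ : GL (Fin 2) K) (Fδ : Set (G K)) (hFδ : IsTwDomain s δ Fδ) :
    ∫⁻ x in Fδ, ‖twTerm r s ψ δ x‖ₑ ∂μ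
      ≤ S.card * ENNReal.ofReal ((2 * M + 1 : ℕ) * C) * μ F := by
  classical
  have hM : ∀ (x : G K) (δ : GL (Fin 2) K) (m : ℤ),
      ψ (x⁻¹ * ratG δ * s.onG x * r ^ m) ≠ 0 → m.natAbs ≤ M := fun x δ m h => by
    obtain ⟨γ₀, hγ₀⟩ := hSM x
    exact (hγ₀ δ m h).1
  have hconj : ∀ (x : G K) (δ : GL (Fin 2) K), twTerm r s ψ δ x ≠ 0 →
      ∃ γ₀ : GL (Fin 2) K, ∀ δ' : GL (Fin 2) K, twTerm r s ψ δ' x ≠ 0 →
        γ₀⁻¹ * δ' * s.onRat γ₀ ∈ S := fun x _ _ => by
    obtain ⟨γ₀, hγ₀⟩ := hSM x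
    refine ⟨γ₀, fun δ' hδ' => ?_⟩
    obtain ⟨m, hm⟩ := exists_ne_zero_of_twTerm29 hM δ' x hδ'
    exact (hγ₀ δ' m hm).2
  have hBorel : BorelSpace (G K) := borelSpace_G29 K
  have hcount : Countable (GL (Fin 2) K) := countable_GL29 K
  have hcountΔ : Countable (TwAct29 s) := countable_twAct29 s
  have hMC : MeasurableConstSMul (GL (Fin 2) K) (G K) := measurableConstSMul29 K
  have hSC : SecondCountableTopology (G K) := hT.locComp.2.2.2
  obtain ⟨-, hslab⟩ := hRS hT.adNorm
  have hHaar : μ.IsHaarMeasure := hF.haar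
  have hinv : SMulInvariantMeasure (GL (Fin 2) K) (G K) (μ.restrict (slab K)) :=
    smulInvariant_restrict29 hslab μ
  have hFD : IsFundamentalDomain (GL (Fin 2) K) F (μ.restrict (slab K)) :=
    isFundamentalDomain_of_strict_top29 hT.adNorm μ hF.meas hF.sub hF.strict
  have hstrict' : ∀ g ∈ slab K,
      ∃! γ : MulAction.stabilizer (GL (Fin 2) K) (⟨δ⟩ : TwAct29 s),
        ratG (γ : GL (Fin 2) K) * g ∈ Fδ := by
    intro g hg
    obtain ⟨γ, hγ, hu⟩ := hFδ.strict g hg
    refine ⟨⟨γ.1, (mem_stabilizer_iff29 s δ γ.1).2 γ.2⟩, hγ, fun γ' hγ' => ?_⟩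
    have h := hu ⟨γ'.1, (mem_stabilizer_iff29 s δ γ'.1).1 γ'.2⟩ hγ'
    have h' : (γ' : GL (Fin 2) K) = (γ : GL (Fin 2) K) := congrArg Subtype.val h
    exact Subtype.ext h'
  have hFDδ : IsFundamentalDomain (MulAction.stabilizer (GL (Fin 2) K) (⟨δ⟩ : TwAct29 s)) Fδ
      (μ.restrict (slab K)) :=
    isFundamentalDomain_of_strict29 hT.adNorm μ _ hFδ.meas hFδ.sub hstrict'
  have hunf := Fermat.Agent.LT.H29.lintegral_enorm_orbit_unfold29 (μ := μ.restrict (slab K)) hFD
    (fun (δ' : TwAct29 s) (x : G K) => twTerm r s ψ δ'.val x)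
    (fun γ δ' x => twTerm_smul29 hP γ δ' x) ⟨δ⟩ hFDδ
  have hcont : ∀ δ' : GL (Fin 2) K, Continuous (twTerm r s ψ δ') := fun δ' =>
    continuous_twTerm29 hP hψ hM δ'
  have hptw : ∀ x : G K, ∑' δ' : TwAct29 s, ‖twTerm r s ψ δ'.val x‖ₑ
      ≤ S.card * ENNReal.ofReal ((2 * M + 1 : ℕ) * C) := by
    intro x
    by_cases hx : ∃ δ' : GL (Fin 2) K, twTerm r s ψ δ' x ≠ 0
    · obtain ⟨δ₁, hδ₁⟩ := hx
      obtain ⟨γ₀, hγ₀⟩ := hconj x δ₁ hδ₁
      let T : Finset (TwAct29 s) :=
        S.image fun η => (⟨γ₀ * η * (s.onRat γ₀)⁻¹⟩ : TwAct29 s)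
      have hT0 : ∀ δ' : TwAct29 s, δ' ∉ T → ‖twTerm r s ψ δ'.val x‖ₑ = 0 := by
        intro δ' hδ'
        by_contra h
        apply hδ'
        have h' : twTerm r s ψ δ'.val x ≠ 0 := fun h0 => h (by rw [h0, enorm_zero])
        rw [Finset.mem_image]
        refine ⟨γ₀⁻¹ * δ'.val * s.onRat γ₀, hγ₀ δ'.val h', ?_⟩
        apply TwAct29.ext'
        show γ₀ * (γ₀⁻¹ * δ'.val * s.onRat γ₀) * (s.onRat γ₀)⁻¹ = δ'.val
        simp [mul_assoc]
      rw [tsum_eq_sum hT0]
      calc ∑ δ' ∈ T, ‖twTerm r s ψ δ'.val x‖ₑ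
          ≤ ∑ _δ' ∈ T, ENNReal.ofReal ((2 * M + 1 : ℕ) * C) := by
            refine Finset.sum_le_sum fun δ' _ => ?_
            rw [← ofReal_norm]
            exact ENNReal.ofReal_le_ofReal (norm_twTerm_le29 hC hM δ'.val x)
        _ = T.card * ENNReal.ofReal ((2 * M + 1 : ℕ) * C) := by
            rw [Finset.sum_const, nsmul_eq_mul]
        _ ≤ S.card * ENNReal.ofReal ((2 * M + 1 : ℕ) * C) := by
            gcongr
            exact Finset.card_image_le
    · push Not at hx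
      have : ∀ δ' : TwAct29 s, ‖twTerm r s ψ δ'.val x‖ₑ = 0 := fun δ' => by
        rw [hx δ'.val, enorm_zero]
      simp only [this, tsum_zero]
      exact bot_le
  have hres : (μ.restrict (slab K)).restrict Fδ = μ.restrict Fδ := by
    rw [Measure.restrict_restrict hFδ.meas, Set.inter_eq_left.2 hFδ.sub]
  have hmeasΔ : ∀ δ' : TwAct29 s,
      AEMeasurable (fun x => ‖twTerm r s ψ δ'.val x‖ₑ) ((μ.restrict (slab K)).restrict F) :=
    fun δ' => (hcont δ'.val).measurable.enorm.aemeasurable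
  rw [← hres]
  have h1 : ∫⁻ x in Fδ, ‖twTerm r s ψ δ x‖ₑ ∂(μ.restrict (slab K))
      = ∑' δ' : MulAction.orbit (GL (Fin 2) K) (⟨δ⟩ : TwAct29 s),
          ∫⁻ x in F, ‖twTerm r s ψ (δ' : TwAct29 s).val x‖ₑ ∂(μ.restrict (slab K)) :=
    hunf.symm
  rw [h1]
  calc ∑' δ' : MulAction.orbit (GL (Fin 2) K) (⟨δ⟩ : TwAct29 s),
        ∫⁻ x in F, ‖twTerm r s ψ (δ' : TwAct29 s).val x‖ₑ ∂(μ.restrict (slab K))
      ≤ ∑' δ' : TwAct29 s, ∫⁻ x in F, ‖twTerm r s ψ δ'.val x‖ₑ ∂(μ.restrict (slab K)) :=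
        ENNReal.tsum_comp_le_tsum_of_injective Subtype.val_injective
          (fun δ' : TwAct29 s => ∫⁻ x in F, ‖twTerm r s ψ δ'.val x‖ₑ ∂(μ.restrict (slab K)))
    _ = ∫⁻ x in F, ∑' δ' : TwAct29 s, ‖twTerm r s ψ δ'.val x‖ₑ ∂(μ.restrict (slab K)) :=
        (lintegral_tsum hmeasΔ).symm
    _ ≤ ∫⁻ _x in F, S.card * ENNReal.ofReal ((2 * M + 1 : ℕ) * C) ∂(μ.restrict (slab K)) :=
        lintegral_mono fun x => hptw x
    _ = S.card * ENNReal.ofReal ((2 * M + 1 : ℕ) * C) * (μ.restrict (slab K)) F := by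
        rw [lintegral_const, Measure.restrict_apply MeasurableSet.univ, Set.univ_inter]
    _ ≤ S.card * ENNReal.ofReal ((2 * M + 1 : ℕ) * C) * μ F := by
        gcongr
        exact Measure.restrict_le_self

/-! ## 2. The union of the supports of the translates -/

/-- `A = {g : ∃ t ∈ D, φ (g a(t)⁻¹) ≠ 0}`. -/
def suppSet890 (a : (InfinitePlace K → ℝ) → G K) (D : Set (InfinitePlace K → ℝ))
    (φ : G K → ℂ) : Set (G K) :=
  {g | ∃ t ∈ D, φ (g * (a t)⁻¹) ≠ 0}

open Classical in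
/-- `Θ`: the indicator function of `A`. -/
def theta890 (a : (InfinitePlace K → ℝ) → G K) (D : Set (InfinitePlace K → ℝ))
    (φ : G K → ℂ) : G K → ℂ :=
  (suppSet890 a D φ).indicator (fun _ => (1 : ℂ))

theorem theta_ne_zero890 {a : (InfinitePlace K → ℝ) → G K} {D : Set (InfinitePlace K → ℝ)}
    {φ : G K → ℂ} {g : G K} (h : theta890 a D φ g ≠ 0) : g ∈ suppSet890 a D φ := by
  by_contra hg
  exact h (Set.indicator_of_notMem hg _)

theorem theta_of_mem890 {a : (InfinitePlace K → ℝ) → G K} {D : Set (InfinitePlace K → ℝ)}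
    {φ : G K → ℂ} {g : G K} (h : g ∈ suppSet890 a D φ) : theta890 a D φ g ≠ 0 := by
  rw [theta890, Set.indicator_of_mem h]
  exact one_ne_zero

theorem hasCompactSupport_theta890 [T2Space (G K)] {a : (InfinitePlace K → ℝ) → G K}
    (ha : Continuous a) {D : Set (InfinitePlace K → ℝ)} (hD : Bornology.IsBounded D)
    {φ : G K → ℂ} (hφ : HasCompactSupport φ) : HasCompactSupport (theta890 a D φ) := by
  have hcD : IsCompact (closure D) := hD.isCompact_closure
  have hK : IsCompact (tsupport φ * a '' closure D) := IsCompact.mul hφ (hcD.image ha)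
  apply HasCompactSupport.intro hK
  intro g hg
  by_contra hne
  obtain ⟨t, ht, hφt⟩ := theta_ne_zero890 hne
  apply hg
  rw [Set.mem_mul]
  exact ⟨g * (a t)⁻¹, subset_tsupport _ hφt, a t, Set.mem_image_of_mem _ (subset_closure ht),
    by simp⟩

theorem isTwRegular_theta890 {s : AdelicAut K} {l : ℕ} {k : Subfield K}
    {a : (InfinitePlace K → ℝ) → G K} {D : Set (InfinitePlace K → ℝ)} {φ : G K → ℂ}
    (hreg : ∀ t ∈ D, IsTwRegular s l k (trl193 (a t) φ)) :
    IsTwRegular s l k (theta890 a D φ) := by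
  intro x δ z hz hne
  obtain ⟨t, ht, hφt⟩ := theta_ne_zero890 hne
  exact hreg t ht x δ z hz hφt

/-! ## 3. The leaf -/

/-- **LEAF NM.2 = JOINT-INT**, verbatim. -/
theorem jointIntC890 (K : Type) [Field K] [NumberField K] : JointIntC K := by
  intro hT hRS s l k 𝔫 hB hcyc μ F r hF hr hP a D ha hDm hDb φ hφc hφs hreg δ Fδ hFδ
  classical
  have : T2Space (G K) := hT.locComp.2.2.1
  have : SecondCountableTopology (G K) := hT.locComp.2.2.2
  have : LocallyCompactSpace (G K) := hT.locComp.2.1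
  have : BorelSpace (G K) := borelSpace_G29 K
  have : μ.IsHaarMeasure := hF.haar
  obtain ⟨S, M, hSM⟩ := hB hcyc μ r hr hP (theta890 a D φ)
    (hasCompactSupport_theta890 ha hDb hφs) (isTwRegular_theta890 hreg)
  obtain ⟨C, hC⟩ : ∃ C : ℝ, ∀ g : G K, ‖φ g‖ ≤ C := hφc.bounded_above_of_compact_support hφs
  -- the bound serves for all the translates
  have hSMt : ∀ t ∈ D, ∀ x : G K, ∃ γ₀ : GL (Fin 2) K, ∀ (δ : GL (Fin 2) K) (m : ℤ),
      trl193 (a t) φ (x⁻¹ * ratG δ * s.onG x * r ^ m) ≠ 0 →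
        m.natAbs ≤ M ∧ γ₀⁻¹ * δ * s.onRat γ₀ ∈ S := by
    intro t ht x
    obtain ⟨γ₀, hγ₀⟩ := hSM x
    exact ⟨γ₀, fun δ m h => hγ₀ δ m (theta_of_mem890 ⟨t, ht, h⟩)⟩
  have hMt : ∀ t ∈ D, ∀ (x : G K) (δ : GL (Fin 2) K) (m : ℤ),
      trl193 (a t) φ (x⁻¹ * ratG δ * s.onG x * r ^ m) ≠ 0 → m.natAbs ≤ M := by
    intro t ht x δ m h
    obtain ⟨γ₀, hγ₀⟩ := hSMt t ht x
    exact (hγ₀ δ m h).1
  -- the continuous model
  set ft : G K × (InfinitePlace K → ℝ) → ℂ := fun p =>
    ∑ m ∈ Finset.Icc (-(M : ℤ)) (M : ℤ),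
      φ (p.1⁻¹ * ratG δ * s.onG p.1 * r ^ m * (a p.2)⁻¹) with hft
  have hftc : Continuous ft := by
    refine continuous_finsetSum _ fun m _ => hφc.comp ?_
    exact ((((continuous_fst.inv.mul continuous_const).mul (hP.cont.comp continuous_fst)).mul
      continuous_const).mul (ha.comp continuous_snd).inv)
  have heq : ∀ p : G K × (InfinitePlace K → ℝ), p.2 ∈ D →
      twTerm r s (trl193 (a p.2) φ) δ p.1 = ft p := fun p hp =>
    twTerm_eq_sum29 (hMt p.2 hp) δ p.1
  have hae : (fun p : G K × (InfinitePlace K → ℝ) => twTerm r s (trl193 (a p.2) φ) δ p.1)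
      =ᵐ[(μ.restrict Fδ).prod (volume.restrict D)] ft := by
    have h1 : ∀ᵐ t ∂(volume.restrict D), t ∈ D := ae_restrict_mem hDm
    have h2 := (Measure.quasiMeasurePreserving_snd (μ := μ.restrict Fδ)
      (ν := volume.restrict D)).ae h1
    filter_upwards [h2] with p hp using heq p hp
  refine (integrable_congr hae).mpr ⟨hftc.aestronglyMeasurable, ?_⟩
  rw [hasFiniteIntegral_iff_enorm, lintegral_prod_symm _ hftc.measurable.enorm.aemeasurable]
  calc ∫⁻ t, ∫⁻ x, ‖ft (x, t)‖ₑ ∂(μ.restrict Fδ) ∂(volume.restrict D)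
      ≤ ∫⁻ _t, S.card * ENNReal.ofReal ((2 * M + 1 : ℕ) * C) * μ F ∂(volume.restrict D) := by
        apply lintegral_mono_ae
        filter_upwards [ae_restrict_mem hDm] with t ht
        have h3 := lintegral_twTerm_le890 hT hRS hF hP S M
          (ψ := trl193 (a t) φ) (hφc.comp (continuous_id.mul continuous_const))
          (C := C) (fun g => hC _) (hSMt t ht) δ Fδ hFδ
        refine le_trans (le_of_eq ?_) h3
        apply lintegral_congr
        intro x
        rw [heq (x, t) ht]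
    _ = S.card * ENNReal.ofReal ((2 * M + 1 : ℕ) * C) * μ F * volume D := by
        rw [lintegral_const, Measure.restrict_apply MeasurableSet.univ, Set.univ_inter]
    _ < ⊤ := by
        refine ENNReal.mul_lt_top (ENNReal.mul_lt_top
          (ENNReal.mul_lt_top (ENNReal.natCast_lt_top _) ENNReal.ofReal_lt_top) hF.finite) ?_
        exact hDb.measure_lt_top

end Fermat.Agent.LT.T7.H890

end

end
-- ===== PACK-END LT/T7/H890/JointInt.lean

-- ===== PACK-BEGIN LT/T7/H250/WSubQ.lean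
section




/-!
# Row LT, tower T7, leaf T7.L2Q.3.7.2 `SDQ140.WSubQC` (registry row 2348; helper250)

OFF-MAIN.  Typed against byte-identical copies of `LT/T7/H140/DownBasisQSpec.lean` (helper140,
sha256 `ccac08d3…`), `LT/T7/H826/Level2Q.lean` (`3acaa310…`), `LT/T7/H863/WSub.lean` (helper863,
`f64a32cd…`: the same leaf over a general field, assets `isCuspFn_add_863`, …),
`LT/T2/H314/CommCore.lean` (helper314, `faaf37d0…`: continuity of local families) and their
closure.

`wSubQC250 n : Fermat.Agent.LT.T7.SDQ140.WSubQC n` VERBATIM, UNCONDITIONAL, both `n`: the cusp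
functions of type `n` over `ℚ`, the invariant cusp functions and the eigen-classes are closed
under `+` and scalar multiplication, and `0` is an invariant cusp function.
-/

set_option autoImplicit false
set_option linter.unusedSectionVars false

open AutomorphicForm IsDedekindDomain NumberField MeasureTheory

noncomputable section

namespace Fermat.Agent.LT.T7.H250

open Fermat.Agent.LT Fermat.Agent.LT.H556 Fermat.Agent.LT.H556.A0 Fermat.Agent.LT.H670
open Fermat.Agent.LT.T7 Fermat.Agent.LT.T7.L2Q Fermat.Agent.LT.T7.SDQ140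

/-! ## 1. Invariant cusp functions -/

theorem isWFnQ_zero250q (n : QWt) (𝔫 : Ideal (𝓞 ℚ)) (r : G ℚ) (u : HeightOneSpectrum (𝓞 ℚ)) :
    IsWFnQ n 𝔫 r u (0 : G ℚ → ℂ) where
  cusp := H863.isCuspFn_zero_863 𝔫 n.type r
  arch_scalar := fun _ _ _ _ => rfl
  iw := fun _ _ _ _ _ => rfl

theorem isWFnQ_add250q {n : QWt} {𝔫 : Ideal (𝓞 ℚ)} {r : G ℚ} {u : HeightOneSpectrum (𝓞 ℚ)}
    {f f' : G ℚ → ℂ} (h : IsWFnQ n 𝔫 r u f) (h' : IsWFnQ n 𝔫 r u f') :
    IsWFnQ n 𝔫 r u (f + f') where
  cusp := H863.isCuspFn_add_863 h.cusp h'.cusp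
  arch_scalar := fun w z hz g => by
    simp only [Pi.add_apply, h.arch_scalar w z hz g, h'.arch_scalar w z hz g]
  iw := fun y h1 h2 h3 x => by
    simp only [Pi.add_apply, h.iw y h1 h2 h3 x, h'.iw y h1 h2 h3 x]

theorem isWFnQ_smul250q {n : QWt} {𝔫 : Ideal (𝓞 ℚ)} {r : G ℚ} {u : HeightOneSpectrum (𝓞 ℚ)}
    {f : G ℚ → ℂ} (a : ℂ) (h : IsWFnQ n 𝔫 r u f) : IsWFnQ n 𝔫 r u (a • f) where
  cusp := H863.isCuspFn_smul_863 a h.cusp
  arch_scalar := fun w z hz g => by
    simp only [Pi.smul_apply, h.arch_scalar w z hz g]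
  iw := fun y h1 h2 h3 x => by
    simp only [Pi.smul_apply, h.iw y h1 h2 h3 x]

/-! ## 2. Circle means -/

theorem continuous_rotC250q : Continuous QOut.rotC := by
  refine continuous_matrix fun i j => ?_
  fin_cases i <;> fin_cases j <;> simp [QOut.rotC] <;> fun_prop

/-- The parametrisation of a circle (convention of QOut) is continuous. -/
theorem continuous_circleC250q {w : InfinitePlace ℚ} {t : ℝ} {Y : ℝ → G ℚ}
    (hY : ∀ θ : ℝ, IsLocalAtInf w (Y θ) ∧ infComp w (Y θ) = QOut.rotC θ * torus t) :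
    Continuous Y := by
  refine T2.H314.continuous_of_localAtInf314 w _ (fun θ => (hY θ).1) fun i j => ?_
  have hm : Continuous fun θ : ℝ => QOut.rotC θ * torus t :=
    continuous_rotC250q.matrix_mul continuous_const
  have : (fun θ : ℝ => infComp w (Y θ) i j) = fun θ : ℝ => (QOut.rotC θ * torus t) i j := by
    funext θ
    rw [(hY θ).2]
  rw [this]
  exact (continuous_apply_apply i j).comp hm

theorem meanEigR0_add250q {f f' : G ℚ → ℂ} (hf : Continuous f) (hf' : Continuous f')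
    {w : InfinitePlace ℚ} {m : ℝ → ℂ} (h : MeanEigR0 f w m) (h' : MeanEigR0 f' w m) :
    MeanEigR0 (f + f') w m := by
  intro t ht Y hY g
  have hYc : Continuous Y := T2.H314.continuous_circle314 hY
  have e : ∀ θ : ℝ, (f + f') (g * Y θ) = f (g * Y θ) + f' (g * Y θ) := fun θ => rfl
  have h1 : IntervalIntegrable (fun θ : ℝ => f (g * Y θ)) volume 0 (2 * Real.pi) :=
    (show Continuous fun θ : ℝ => f (g * Y θ) from
      hf.comp (continuous_const.mul hYc)).intervalIntegrable _ _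
  have h2 : IntervalIntegrable (fun θ : ℝ => f' (g * Y θ)) volume 0 (2 * Real.pi) :=
    (show Continuous fun θ : ℝ => f' (g * Y θ) from
      hf'.comp (continuous_const.mul hYc)).intervalIntegrable _ _
  simp only [e]
  rw [intervalIntegral.integral_add h1 h2,
    h t ht Y hY g, h' t ht Y hY g, Pi.add_apply, mul_add]

theorem meanEigR0_smul250q {f : G ℚ → ℂ} {w : InfinitePlace ℚ} {m : ℝ → ℂ} (a : ℂ)
    (h : MeanEigR0 f w m) : MeanEigR0 (a • f) w m := by
  intro t ht Y hY g
  have e : ∀ θ : ℝ, (a • f) (g * Y θ) = a * f (g * Y θ) := fun θ => rfl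
  simp only [e, intervalIntegral.integral_const_mul]
  rw [h t ht Y hY g, Pi.smul_apply, smul_eq_mul]
  ring

theorem meanEigR1_add250q {f f' : G ℚ → ℂ} (hf : Continuous f) (hf' : Continuous f')
    {w : InfinitePlace ℚ} {m : ℝ → ℂ} (h : MeanEigR1 f w m) (h' : MeanEigR1 f' w m) :
    MeanEigR1 (f + f') w m := by
  intro t ht Y hY g
  have hYc : Continuous Y := continuous_circleC250q hY
  have hexp : Continuous fun θ : ℝ => Complex.exp (-(Complex.I * ((θ : ℝ) : ℂ))) := by
    fun_prop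
  have e : ∀ θ : ℝ, Complex.exp (-(Complex.I * ((θ : ℝ) : ℂ))) * (f + f') (g * Y θ)
      = Complex.exp (-(Complex.I * ((θ : ℝ) : ℂ))) * f (g * Y θ)
        + Complex.exp (-(Complex.I * ((θ : ℝ) : ℂ))) * f' (g * Y θ) :=
    fun θ => by rw [Pi.add_apply, mul_add]
  have h1 : IntervalIntegrable
      (fun θ : ℝ => Complex.exp (-(Complex.I * ((θ : ℝ) : ℂ))) * f (g * Y θ))
      volume 0 (2 * Real.pi) :=
    (show Continuous fun θ : ℝ => Complex.exp (-(Complex.I * ((θ : ℝ) : ℂ))) * f (g * Y θ) from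
      hexp.mul (hf.comp (continuous_const.mul hYc))).intervalIntegrable _ _
  have h2 : IntervalIntegrable
      (fun θ : ℝ => Complex.exp (-(Complex.I * ((θ : ℝ) : ℂ))) * f' (g * Y θ))
      volume 0 (2 * Real.pi) :=
    (show Continuous fun θ : ℝ => Complex.exp (-(Complex.I * ((θ : ℝ) : ℂ))) * f' (g * Y θ) from
      hexp.mul (hf'.comp (continuous_const.mul hYc))).intervalIntegrable _ _
  simp only [e]
  rw [intervalIntegral.integral_add h1 h2,
    h t ht Y hY g, h' t ht Y hY g, Pi.add_apply, mul_add]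

theorem meanEigR1_smul250q {f : G ℚ → ℂ} {w : InfinitePlace ℚ} {m : ℝ → ℂ} (a : ℂ)
    (h : MeanEigR1 f w m) : MeanEigR1 (a • f) w m := by
  intro t ht Y hY g
  have e : ∀ θ : ℝ, Complex.exp (-(Complex.I * ((θ : ℝ) : ℂ))) * (a • f) (g * Y θ)
      = a * (Complex.exp (-(Complex.I * ((θ : ℝ) : ℂ))) * f (g * Y θ)) :=
    fun θ => by rw [Pi.smul_apply, smul_eq_mul]; ring
  simp only [e, intervalIntegral.integral_const_mul]
  rw [h t ht Y hY g, Pi.smul_apply, smul_eq_mul]
  ring

theorem meanEig_add250q (n : QWt) {f f' : G ℚ → ℂ} (hf : Continuous f) (hf' : Continuous f')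
    {w : InfinitePlace ℚ} {m : ℝ → ℂ} (h : n.MeanEig f w m) (h' : n.MeanEig f' w m) :
    n.MeanEig (f + f') w m := by
  cases n
  · exact meanEigR0_add250q hf hf' h h'
  · exact meanEigR1_add250q hf hf' h h'

theorem meanEig_smul250q (n : QWt) {f : G ℚ → ℂ} {w : InfinitePlace ℚ} {m : ℝ → ℂ} (a : ℂ)
    (h : n.MeanEig f w m) : n.MeanEig (a • f) w m := by
  cases n
  · exact meanEigR0_smul250q a h
  · exact meanEigR1_smul250q a h

/-! ## 3. The eigen-classes -/

theorem isEigFnQ_add250q {n : QWt} {𝔫 : Ideal (𝓞 ℚ)} {r : G ℚ} {u : HeightOneSpectrum (𝓞 ℚ)}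
    {c : EigData ℚ} {f f' : G ℚ → ℂ} (h : IsEigFnQ n 𝔫 r u f c) (h' : IsEigFnQ n 𝔫 r u f' c) :
    IsEigFnQ n 𝔫 r u (f + f') c where
  inv := isWFnQ_add250q h.inv h'.inv
  hecke := fun v hv => H863.isHeckeEigenAt_add_863 (h.hecke v hv) (h'.hecke v hv)
  mean := fun w => meanEig_add250q n h.inv.cusp.cont h'.inv.cusp.cont (h.mean w) (h'.mean w)

theorem isEigFnQ_smul250q {n : QWt} {𝔫 : Ideal (𝓞 ℚ)} {r : G ℚ} {u : HeightOneSpectrum (𝓞 ℚ)}
    {c : EigData ℚ} {f : G ℚ → ℂ} (a : ℂ) (h : IsEigFnQ n 𝔫 r u f c) :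
    IsEigFnQ n 𝔫 r u (a • f) c where
  inv := isWFnQ_smul250q a h.inv
  hecke := fun v hv => H863.isHeckeEigenAt_smul_863 a (h.hecke v hv)
  mean := fun w => meanEig_smul250q n a (h.mean w)

/-! ## 4. The leaf -/

/-- **T7.L2Q.3.7.2** (`SDQ140.WSubQC`): `V`, `W` and the eigen-classes of type `n` over `ℚ` are
linear subspaces. -/
theorem wSubQC250 (n : QWt) : WSubQC n := fun 𝔫 r u =>
  { zeroW := isWFnQ_zero250q n 𝔫 r u
    addV := fun _ _ h h' => H863.isCuspFn_add_863 h h'
    smulV := fun a _ h => H863.isCuspFn_smul_863 a h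
    addW := fun _ _ h h' => isWFnQ_add250q h h'
    smulW := fun a _ h => isWFnQ_smul250q a h
    addC := fun _ _ _ h h' => isEigFnQ_add250q h h'
    smulC := fun _ a _ h => isEigFnQ_smul250q a h }

/-- Type check against the frozen Prop. -/
example (n : Fermat.Agent.LT.T7.L2Q.QWt) : Fermat.Agent.LT.T7.SDQ140.WSubQC n := wSubQC250 n

end Fermat.Agent.LT.T7.H250

end

end
-- ===== PACK-END LT/T7/H250/WSubQ.lean

-- ===== PACK-BEGIN LT/T7/H468/OpsIw.lean
section







/-!
# Row LT, tower T7, leaf T7.L2.3.5.3 `SD534.OpsClassC` (helper468): the Iwahori operator `𝒰`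

OFF-MAIN.  The tools for the field `iw` of `SD534.IsOpsClass`:

* `inIwahori_of_level468` : `U(𝔫) ⊆ I_u` at `u ∣ 𝔫`; `level_split468` : `u' = i u''`, `i` in the
  Iwahori subgroup and supported at `u`, `u'' ∈ U(𝔫)` trivial at `u`;
* `iwOp_eigen468`, `iwOp_sum_eigen468` : the relations `ψ(g y) = c ψ(g)`,
  `∑_{h'} ψ(g h') = c ψ(g)` for elements which are trivial at `u` pass to `𝒰 ψ`;
* `iwOp_iw468` : `𝒰 ψ` is invariant under the Iwahori subgroup (`iw_perm_sum468`);
* `isCuspidalFn_iwOp468` : the constant term (`T1.AddFundDomC`, unconditional);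
* `meanEig_iwOp468` : the sphere means (continuity of the Euler family: `T2.H472.locCont472`).
-/

set_option autoImplicit false
set_option linter.unusedSectionVars false
set_option linter.unusedVariables false
set_option linter.style.haveILetI false

open AutomorphicForm IsDedekindDomain NumberField MeasureTheory Matrix
open scoped ComplexConjugate

noncomputable section

namespace Fermat.Agent.LT.T7.H468

open Fermat.Agent.LT.H556 Fermat.Agent.LT.H556.A0 Fermat.Agent.LT.T7
open Fermat.Agent.LT.T8.H864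

variable {K : Type} [Field K] [NumberField K]

/-! ## The closure of an ideal divisible by `u` -/

theorem valuedAlg468 (v : HeightOneSpectrum (𝓞 K)) (q : K) :
    Valued.v (algebraMap K (v.adicCompletion K) q) = v.valuation K q :=
  HeightOneSpectrum.valuedAdicCompletion_eq_valuation' v q

theorem zero_mem_idealClosure468o (𝔫 : Ideal (𝓞 K)) (v : HeightOneSpectrum (𝓞 K)) :
    (0 : v.adicCompletion K) ∈ idealClosure 𝔫 v := by
  apply subset_closure
  exact ⟨0, 𝔫.zero_mem, by simp⟩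

theorem isClosed_lt_one468 (v : HeightOneSpectrum (𝓞 K)) :
    IsClosed {x : v.adicCompletion K | Valued.v x < 1} := by
  have h := Valued.isClosed_ball (v.adicCompletion K) (1 : MonoidWithZeroHom.ValueGroup₀ _)
  have e : {x : v.adicCompletion K | Valued.v x < 1} = {x | Valued.v.restrict x < 1} := by
    ext x
    simp [Valuation.restrict_lt_iff_lt_embedding]
  rw [e]
  exact h

/-- The closure of an ideal consists of integers. -/
theorem idealClosure_integral468 (𝔫 : Ideal (𝓞 K)) (v : HeightOneSpectrum (𝓞 K))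
    {x : v.adicCompletion K} (hx : x ∈ idealClosure 𝔫 v) : x ∈ v.adicCompletionIntegers K := by
  have hcl : IsClosed ((v.adicCompletionIntegers K : Set (v.adicCompletion K))) :=
    Valued.isClosed_valuationSubring _
  refine closure_minimal ?_ hcl hx
  rintro _ ⟨n, -, rfl⟩
  rw [SetLike.mem_coe, HeightOneSpectrum.mem_adicCompletionIntegers, valuedAlg468]
  exact HeightOneSpectrum.valuation_le_one v n

/-- The closure of an ideal divisible by `u` lies in the maximal ideal at `u`. -/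
theorem idealClosure_lt_one468 {𝔫 : Ideal (𝓞 K)} {u : HeightOneSpectrum (𝓞 K)}
    (hu : u.asIdeal ∣ 𝔫) {x : u.adicCompletion K} (hx : x ∈ idealClosure 𝔫 u) :
    Valued.v x < 1 := by
  refine closure_minimal ?_ (isClosed_lt_one468 u) hx
  rintro _ ⟨n, hn, rfl⟩
  show Valued.v (algebraMap K (u.adicCompletion K) (algebraMap (𝓞 K) K n)) < 1
  rw [valuedAlg468]
  exact (HeightOneSpectrum.valuation_lt_one_iff_mem u n).2 (Ideal.dvd_iff_le.1 hu hn)

/-- The level group lies in the Iwahori subgroup at `u ∣ 𝔫`. -/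
theorem inIwahori_of_level468 {𝔫 : Ideal (𝓞 K)} {u : HeightOneSpectrum (𝓞 K)}
    (hu : u.asIdeal ∣ 𝔫) {g : G K} (hg : InLevelGroup 𝔫 g) : T5.InIwahori u g := by
  have key : ∀ (M : Matrix (Fin 2) (Fin 2) (u.adicCompletion K)),
      (∀ i j, (M - 1) i j ∈ idealClosure 𝔫 u) → ∀ i j, M i j ∈ u.adicCompletionIntegers K := by
    intro M hM i j
    have e : M i j = (M - 1) i j + (1 : Matrix (Fin 2) (Fin 2) (u.adicCompletion K)) i j := by
      rw [Matrix.sub_apply, sub_add_cancel]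
    rw [e]
    exact add_mem (idealClosure_integral468 𝔫 u (hM i j)) (one_apply_mem_integers u i j)
  refine ⟨key _ fun i j => (hg.2 u i j).1, key _ fun i j => (hg.2 u i j).2, ?_⟩
  have h := idealClosure_lt_one468 hu (hg.2 u 1 0).1
  rwa [Matrix.sub_apply, Matrix.one_apply_ne (by decide), sub_zero] at h

/-! ## Elements which are trivial at `u` -/

/-- An element which is trivial at `u` commutes with the elements supported at `u`. -/
theorem comm_local468 {u : HeightOneSpectrum (𝓞 K)} {h y : G K} (hh : IsLocalAtFin u h)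
    (hy : TrivAtFin u y) : y * h = h * y := by
  refine commute_of_triv (fun w => Or.inr ((trivAtInf_iff_hom w h).1 (hh.1 w))) (fun v => ?_)
  by_cases hv : v = u
  · subst hv
    exact Or.inl ((trivAtFin_iff_hom _ y).1 hy)
  · exact Or.inr ((trivAtFin_iff_hom v h).1 (hh.2 v hv))

/-- The splitting of an element of the level group at `u`. -/
theorem level_split468 {𝔫 : Ideal (𝓞 K)} {u : HeightOneSpectrum (𝓞 K)}
    (hu : u.asIdeal ∣ 𝔫) {g : G K} (hg : InLevelGroup 𝔫 g) :
    ∃ i y : G K, g = i * y ∧ IsLocalAtFin u i ∧ T5.InIwahori u i ∧ TrivAtFin u y ∧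
      InLevelGroup 𝔫 y := by
  have hiu : finCompHom u (locFin u (finCompHom u g)) = finCompHom u g :=
    finCompHom_locFin_self u _
  have hyu : finCompHom u ((locFin u (finCompHom u g))⁻¹ * g) = 1 := by
    rw [map_mul, map_inv, hiu, inv_mul_cancel]
  have hyv : ∀ v : HeightOneSpectrum (𝓞 K), v ≠ u →
      finCompHom v ((locFin u (finCompHom u g))⁻¹ * g) = finCompHom v g := by
    intro v hv
    rw [map_mul, map_inv, finCompHom_locFin_of_ne hv, inv_one, one_mul]
  refine ⟨locFin u (finCompHom u g), (locFin u (finCompHom u g))⁻¹ * g, by group,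
    isLocalAtFin_locFin u _, ?_, (trivAtFin_iff_hom u _).2 hyu, ⟨fun w => ?_, fun v i j => ?_⟩⟩
  · rw [inIwahori_iff468, hiu, ← inIwahori_iff468]
    exact inIwahori_of_level468 hu hg
  · rw [trivAtInf_iff_hom, map_mul, map_inv, infCompHom_locFin, inv_one, one_mul]
    exact (trivAtInf_iff_hom w g).1 (hg.1 w)
  · by_cases hv : v = u
    · subst hv
      have e1 : finComp v ((locFin v (finCompHom v g))⁻¹ * g) = 1 := by
        rw [← coe_finCompHom, hyu]; rfl
      have e2 : finComp v ((locFin v (finCompHom v g))⁻¹ * g)⁻¹ = 1 := by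
        rw [← coe_finCompHom, map_inv, hyu, inv_one]; rfl
      rw [e1, e2, sub_self]
      exact ⟨zero_mem_idealClosure468o 𝔫 v, zero_mem_idealClosure468o 𝔫 v⟩
    · have e1 : finComp v ((locFin u (finCompHom u g))⁻¹ * g) = finComp v g := by
        rw [← coe_finCompHom, hyv v hv, coe_finCompHom]
      have e2 : finComp v ((locFin u (finCompHom u g))⁻¹ * g)⁻¹ = finComp v g⁻¹ := by
        rw [← coe_finCompHom, map_inv, hyv v hv, ← map_inv, coe_finCompHom]
      rw [e1, e2]
      exact hg.2 v i j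

/-! ## Relations which pass to `𝒰 ψ` -/

theorem iwOp_apply468 (u : HeightOneSpectrum (𝓞 K)) (H : Finset (G K)) (ψ : G K → ℂ) (x : G K) :
    iwOp u H ψ x
      = ((Real.sqrt (Ideal.absNorm u.asIdeal : ℝ) : ℝ) : ℂ)⁻¹ * ∑ h ∈ H, ψ (x * h) := rfl

/-- A relation `ψ(g y) = c ψ(g)` with `y` trivial at `u` passes to `𝒰 ψ`. -/
theorem iwOp_eigen468 {u : HeightOneSpectrum (𝓞 K)} {H : Finset (G K)}
    (hH : ∀ h ∈ H, IsLocalAtFin u h) {ψ : G K → ℂ} {y : G K} (hy : TrivAtFin u y) {c : ℂ}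
    (he : ∀ g : G K, ψ (g * y) = c * ψ g) (g : G K) :
    iwOp u H ψ (g * y) = c * iwOp u H ψ g := by
  rw [iwOp_apply468, iwOp_apply468]
  have e : ∑ h ∈ H, ψ (g * y * h) = c * ∑ h ∈ H, ψ (g * h) := by
    rw [Finset.mul_sum]
    refine Finset.sum_congr rfl fun h hh => ?_
    rw [mul_assoc, comm_local468 (hH h hh) hy, ← mul_assoc]
    exact he _
  rw [e]
  ring

/-- A relation `∑_{h'} ψ(g h') = c ψ(g)` with the `h'` trivial at `u` passes to `𝒰 ψ`. -/
theorem iwOp_sum_eigen468 {u : HeightOneSpectrum (𝓞 K)} {H : Finset (G K)}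
    (hH : ∀ h ∈ H, IsLocalAtFin u h) {ψ : G K → ℂ} {H' : Finset (G K)}
    (hH' : ∀ h' ∈ H', TrivAtFin u h') {c : ℂ}
    (he : ∀ g : G K, ∑ h' ∈ H', ψ (g * h') = c * ψ g) (g : G K) :
    ∑ h' ∈ H', iwOp u H ψ (g * h') = c * iwOp u H ψ g := by
  simp only [iwOp_apply468]
  have e : ∑ h' ∈ H', ∑ h ∈ H, ψ (g * h' * h) = c * ∑ h ∈ H, ψ (g * h) := by
    rw [Finset.sum_comm, Finset.mul_sum]
    refine Finset.sum_congr rfl fun h hh => ?_
    rw [← he (g * h)]
    refine Finset.sum_congr rfl fun h' hh' => ?_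
    rw [mul_assoc, comm_local468 (hH h hh) (hH' h' hh'), ← mul_assoc]
  rw [← Finset.mul_sum, e]
  ring

/-- `𝒰 ψ` is invariant under the elements of the Iwahori subgroup supported at `u`. -/
theorem iwOp_iw468 {u : HeightOneSpectrum (𝓞 K)} {H : Finset (G K)}
    (hH : IsIwCosetSystem u H) {ψ : G K → ℂ} (hψ : IsIwInv 1 (fun _ => u) ψ) {i : G K}
    (hi : IsLocalAtFin u i) (hiI : T5.InIwahori u i) (g : G K) :
    iwOp u H ψ (g * i) = iwOp u H ψ g := by
  rw [iwOp_apply468, iwOp_apply468]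
  congr 1
  rw [← iw_perm_sum468 hH hψ hi hiI g]
  exact Finset.sum_congr rfl fun h _ => by rw [mul_assoc]

/-- `𝒰 ψ` is invariant under the level group. -/
theorem iwOp_level468 {𝔫 : Ideal (𝓞 K)} {u : HeightOneSpectrum (𝓞 K)} (hu : u.asIdeal ∣ 𝔫)
    {H : Finset (G K)} (hH : IsIwCosetSystem u H) {ψ : G K → ℂ}
    (hψ : IsIwInv 1 (fun _ => u) ψ)
    (hl : ∀ u' : G K, InLevelGroup 𝔫 u' → ∀ g : G K, ψ (g * u') = ψ g)
    {u' : G K} (hu' : InLevelGroup 𝔫 u') (g : G K) :
    iwOp u H ψ (g * u') = iwOp u H ψ g := by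
  obtain ⟨i, y, rfl, hi, hiI, hy, hyL⟩ := level_split468 hu hu'
  rw [← mul_assoc, iwOp_eigen468 (fun h hh => (hH.2.1 h hh).1) hy (c := 1)
    (fun g => by rw [one_mul]; exact hl y hyL g), one_mul]
  exact iwOp_iw468 hH hψ hi hiI g

/-! ## Continuity, bound -/

theorem continuous_iwOp468 (u : HeightOneSpectrum (𝓞 K)) (H : Finset (G K)) {ψ : G K → ℂ}
    (hψ : Continuous ψ) : Continuous (iwOp u H ψ) :=
  continuous_const.mul (continuous_finsetSum _ fun h _ => hψ.comp (continuous_mul_const h))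

theorem bdd_iwOp468 (u : HeightOneSpectrum (𝓞 K)) (H : Finset (G K)) {ψ : G K → ℂ}
    (hψ : ∃ C : ℝ, ∀ g : G K, ‖ψ g‖ ≤ C) : ∃ C : ℝ, ∀ g : G K, ‖iwOp u H ψ g‖ ≤ C := by
  obtain ⟨C, hC⟩ := hψ
  refine ⟨‖(((Real.sqrt (Ideal.absNorm u.asIdeal : ℝ) : ℝ) : ℂ))⁻¹‖ * ∑ _h ∈ H, C, fun g => ?_⟩
  rw [iwOp_apply468, norm_mul]
  refine mul_le_mul_of_nonneg_left ?_ (norm_nonneg _)
  exact (norm_sum_le _ _).trans (Finset.sum_le_sum fun h _ => hC _)

/-! ## The constant term -/

/-- A family of upper unipotent elements `n(x) = [[1, x], [0, 1]]` is continuous in `x`. -/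
theorem continuous_unipFam468 (n : Adl K → G K)
    (hn : ∀ x : Adl K, (n x : Matrix (Fin 2) (Fin 2) (Adl K)) = !![1, x; 0, 1]) :
    Continuous n := by
  rw [Units.continuous_iff]
  constructor
  · have h : (Units.val ∘ n) = fun x : Adl K => !![1, x; 0, 1] := funext hn
    rw [h]
    refine continuous_matrix fun i j => ?_
    fin_cases i <;> fin_cases j <;> simp <;> fun_prop
  · have h : (fun x => ((n x)⁻¹ : G K).val) = fun x : Adl K => !![1, -x; 0, 1] := by
      funext x
      have h1 : (n x : Matrix (Fin 2) (Fin 2) (Adl K)) * !![1, -x; 0, 1] = 1 := by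
        rw [hn x]
        ext i j
        fin_cases i <;> fin_cases j <;> simp [Matrix.mul_apply, Fin.sum_univ_two]
      exact Units.inv_eq_of_mul_eq_one_right h1
    rw [h]
    refine continuous_matrix fun i j => ?_
    fin_cases i <;> fin_cases j <;> simp <;> fun_prop

/-- The constant term of `𝒰 ψ` vanishes. -/
theorem isCuspidalFn_iwOp468 (u : HeightOneSpectrum (𝓞 K)) (H : Finset (G K)) {ψ : G K → ℂ}
    (hcont : Continuous ψ) (hbdd : ∃ C : ℝ, ∀ g : G K, ‖ψ g‖ ≤ C) (hcusp : IsCuspidalFn ψ) :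
    IsCuspidalFn (iwOp u H ψ) := by
  letI : MeasurableSpace (Adl K) := borel (Adl K)
  haveI : BorelSpace (Adl K) := ⟨rfl⟩
  intro μ hμ D hD n hn g
  haveI := hμ
  obtain ⟨D₀, -, hD₀, -, -, hfin⟩ :=
    Fermat.Agent.LT.T1.H848.leafAddFundDom848 K (Fermat.Agent.LT.T1.H11.locCompC_h11 K)
      (Fermat.Agent.LT.H767.adeleLatticeC767 K) μ hμ
  haveI : Countable (Fermat.Agent.LT.T1.princ K) := Fermat.Agent.LT.T1.H848.countable_princ848 K
  have hDfin : μ D ≠ ⊤ := by
    have h : μ D = μ D₀ :=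
      IsAddFundamentalDomain.measure_eq (G := Fermat.Agent.LT.T1.princ K) hD hD₀
    rw [h]
    exact hfin.ne
  have hncont : ∀ h : G K, Continuous fun x => n x * (g * h) := fun h =>
    (continuous_unipFam468 n hn).mul continuous_const
  obtain ⟨C, hC⟩ := hbdd
  have hint : ∀ h ∈ H, IntegrableOn (fun x => ψ (n x * (g * h))) D μ := fun h _ =>
    Measure.integrableOn_of_bounded hDfin
      (hcont.comp (hncont h)).aestronglyMeasurable (Filter.Eventually.of_forall fun x => hC _)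
  have e : (fun x => iwOp u H ψ (n x * g))
      = fun x => ((Real.sqrt (Ideal.absNorm u.asIdeal : ℝ) : ℝ) : ℂ)⁻¹
          * ∑ h ∈ H, ψ (n x * (g * h)) := by
    funext x
    rw [iwOp_apply468]
    simp only [mul_assoc]
  rw [e, integral_const_mul, integral_finsetSum H hint]
  rw [Finset.sum_eq_zero fun h _ => hcusp μ hμ D hD n hn (g * h), mul_zero]

/-! ## The sphere means -/

/-- The Euler family `Y α β` at the infinite place `w` is continuous. -/
theorem continuous_euler468 (w : InfinitePlace K) (d : ℝ) (Y : ℝ → ℝ → G K)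
    (hY : ∀ α β : ℝ, IsLocalAtInf w (Y α β) ∧ infComp w (Y α β) = rotZ α * rotY β * torus d) :
    Continuous fun p : ℝ × ℝ => Y p.1 p.2 := by
  refine Fermat.Agent.LT.T2.H472.locCont472 K w (ℝ × ℝ) _ (fun p => (hY p.1 p.2).1)
    (fun i j => ?_)
  have e : (fun p : ℝ × ℝ => infComp w (Y p.1 p.2) i j)
      = fun p => (rotZ p.1 * rotY p.2 * torus d) i j := by
    funext p
    rw [(hY p.1 p.2).2]
  rw [e]
  have hM : Continuous fun p : ℝ × ℝ => rotZ p.1 * rotY p.2 * torus d := by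
    refine (Continuous.matrix_mul ?_ ?_).matrix_mul continuous_const
    · refine continuous_matrix fun i j => ?_
      fin_cases i <;> fin_cases j <;> simp [rotZ] <;> fun_prop
    · refine continuous_matrix fun i j => ?_
      fin_cases i <;> fin_cases j <;> simp [rotY] <;> fun_prop
  exact hM.matrix_elem i j

/-- `𝒰 ψ` is an eigenfunction of the sphere means, with the same eigenvalues. -/
theorem meanEig_iwOp468 {u : HeightOneSpectrum (𝓞 K)} {H : Finset (G K)}
    (hH : ∀ h ∈ H, IsLocalAtFin u h) {ψ : G K → ℂ} (hcont : Continuous ψ)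
    {w : InfinitePlace K} {m : ℝ → ℂ} (hm : MeanEig ψ w m) : MeanEig (iwOp u H ψ) w m := by
  intro d hd Y hY g
  have hYc := continuous_euler468 w d Y hY
  have hF : ∀ h : G K, Continuous (Function.uncurry
      (fun α β : ℝ => ψ (g * h * Y α β) * ((Real.sin β : ℝ) : ℂ))) := by
    intro h
    have h1 : Continuous fun p : ℝ × ℝ => g * h * Y p.1 p.2 := continuous_const.mul hYc
    have h2 : Continuous fun p : ℝ × ℝ => ((Real.sin p.2 : ℝ) : ℂ) := by fun_prop
    exact (hcont.comp h1).mul h2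
  have hpt : ∀ α β : ℝ, iwOp u H ψ (g * Y α β) * ((Real.sin β : ℝ) : ℂ)
      = ((Real.sqrt (Ideal.absNorm u.asIdeal : ℝ) : ℝ) : ℂ)⁻¹
        * ∑ h ∈ H, ψ (g * h * Y α β) * ((Real.sin β : ℝ) : ℂ) := by
    intro α β
    rw [iwOp_apply468, mul_assoc, Finset.sum_mul]
    congr 1
    refine Finset.sum_congr rfl fun h hh => ?_
    rw [mul_assoc g, comm_local468 (hH h hh) ((hY α β).1.2 u), ← mul_assoc]
  simp only [hpt]
  have hinner : ∀ α : ℝ,
      (∫ β in (0 : ℝ)..Real.pi, ((Real.sqrt (Ideal.absNorm u.asIdeal : ℝ) : ℝ) : ℂ)⁻¹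
          * ∑ h ∈ H, ψ (g * h * Y α β) * ((Real.sin β : ℝ) : ℂ))
        = ((Real.sqrt (Ideal.absNorm u.asIdeal : ℝ) : ℝ) : ℂ)⁻¹
          * ∑ h ∈ H, ∫ β in (0 : ℝ)..Real.pi, ψ (g * h * Y α β) * ((Real.sin β : ℝ) : ℂ) := by
    intro α
    rw [intervalIntegral.integral_const_mul, intervalIntegral.integral_finsetSum]
    intro h _
    exact ((hF h).comp (Continuous.prodMk_right α)).intervalIntegrable _ _
  simp only [hinner]
  have hG : ∀ h : G K, Continuous fun α : ℝ =>
      ∫ β in (0 : ℝ)..Real.pi, ψ (g * h * Y α β) * ((Real.sin β : ℝ) : ℂ) := fun h =>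
    intervalIntegral.continuous_parametric_intervalIntegral_of_continuous (hF h)
      continuous_const
  rw [intervalIntegral.integral_const_mul,
    intervalIntegral.integral_finsetSum (fun h _ => (hG h).intervalIntegrable _ _)]
  rw [iwOp_apply468]
  have e : ∑ h ∈ H, ∫ α in (0 : ℝ)..(2 * Real.pi),
      ∫ β in (0 : ℝ)..Real.pi, ψ (g * h * Y α β) * ((Real.sin β : ℝ) : ℂ)
      = m d * ∑ h ∈ H, ψ (g * h) := by
    rw [Finset.mul_sum]
    exact Finset.sum_congr rfl fun h _ => hm d hd Y hY (g * h)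
  rw [e]
  ring

end Fermat.Agent.LT.T7.H468

end

end
-- ===== PACK-END LT/T7/H468/OpsIw.lean

-- ===== PACK-BEGIN LT/T7/H270/MulG.lean
section




/-!
# Row LT, tower T7, leaf CM.10 `MulGC616` (helper270)

OFF-MAIN.  On `T7/H616/ClassModelSpec.lean` (helper616, sha256 8568bae7), `H129/Local.lean`
(helper129) and the Mathlib-only core `T7/H270/MulCore.lean`.

    mulGC270 : CM616.MulGC616 K K'          (VERBATIM, unconditional)

Proof.  `U = U(𝔑₀)` is a subgroup (`levelSub270`).  The abstract product formula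
(`mul_core270`) gives `[U g U][U g' U] = ∑ c_i [U y_i U]` on the right `U`-invariant functions,
for any choice of `y_i` in the double cosets contained in `U g U g' U`.  Every such double coset
contains a bad element: `h h' = u₁ g u g' u₄` with `u ∈ U`; write `u = u_B u_R`, `u_B` the part
of `u` at the bad places (`exists_localPart270`), `u_R` trivial at the bad places; `u_R` commutes
with `g'`, so `h h' = u₁ (g u_B g') (u_R u₄)` and `g u_B g'` is bad.
-/

set_option autoImplicit false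

open AutomorphicForm IsDedekindDomain NumberField

noncomputable section

namespace Fermat.Agent.LT.T7.H270

open Fermat.Agent.LT.H556 Fermat.Agent.LT.H556.A0 Fermat.Agent.LT.T7 Fermat.Agent.LT.H129

open scoped Classical

section Level

variable {K : Type} [Field K] [NumberField K]

/-! ## 1. The level group is a subgroup -/

theorem idealClosure_zero270 (𝔫 : Ideal (𝓞 K)) (v : HeightOneSpectrum (𝓞 K)) :
    (0 : v.adicCompletion K) ∈ idealClosure 𝔫 v :=
  subset_closure ⟨0, 𝔫.zero_mem, by simp⟩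

theorem idealClosure_add270 (𝔫 : Ideal (𝓞 K)) (v : HeightOneSpectrum (𝓞 K))
    {x y : v.adicCompletion K} (hx : x ∈ idealClosure 𝔫 v) (hy : y ∈ idealClosure 𝔫 v) :
    x + y ∈ idealClosure 𝔫 v := by
  refine map_mem_closure₂ continuous_add hx hy ?_
  rintro _ ⟨a, ha, rfl⟩ _ ⟨b, hb, rfl⟩
  exact ⟨a + b, 𝔫.add_mem ha hb, by simp⟩

theorem idealClosure_mul270 (𝔫 : Ideal (𝓞 K)) (v : HeightOneSpectrum (𝓞 K))
    {x y : v.adicCompletion K} (hx : x ∈ idealClosure 𝔫 v) (hy : y ∈ idealClosure 𝔫 v) :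
    x * y ∈ idealClosure 𝔫 v := by
  refine map_mem_closure₂ continuous_mul hx hy ?_
  rintro _ ⟨a, ha, rfl⟩ _ ⟨b, hb, rfl⟩
  exact ⟨a * b, 𝔫.mul_mem_left a hb, by simp⟩

/-- The local condition: `M ≡ 1` modulo the closure of `𝔫`. -/
def LocOK270 (𝔫 : Ideal (𝓞 K)) (v : HeightOneSpectrum (𝓞 K))
    (M : Matrix (Fin 2) (Fin 2) (v.adicCompletion K)) : Prop :=
  ∀ i j, (M - 1) i j ∈ idealClosure 𝔫 v

theorem locOK_one270 (𝔫 : Ideal (𝓞 K)) (v : HeightOneSpectrum (𝓞 K)) :
    LocOK270 𝔫 v 1 := by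
  intro i j
  rw [sub_self]
  exact idealClosure_zero270 𝔫 v

theorem locOK_mul270 {𝔫 : Ideal (𝓞 K)} {v : HeightOneSpectrum (𝓞 K)}
    {A B : Matrix (Fin 2) (Fin 2) (v.adicCompletion K)} (hA : LocOK270 𝔫 v A)
    (hB : LocOK270 𝔫 v B) : LocOK270 𝔫 v (A * B) := by
  intro i j
  have e : A * B - 1 = (A - 1) * (B - 1) + (A - 1) + (B - 1) := by
    rw [Matrix.sub_mul, Matrix.mul_sub, Matrix.mul_sub, Matrix.mul_one, Matrix.one_mul,
      Matrix.one_mul]
    abel
  rw [e, Matrix.add_apply, Matrix.add_apply, Matrix.mul_apply, Fin.sum_univ_two]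
  exact idealClosure_add270 𝔫 v (idealClosure_add270 𝔫 v
    (idealClosure_add270 𝔫 v (idealClosure_mul270 𝔫 v (hA i 0) (hB 0 j))
      (idealClosure_mul270 𝔫 v (hA i 1) (hB 1 j))) (hA i j)) (hB i j)

theorem inLevelGroup_iff270 (𝔫 : Ideal (𝓞 K)) (u : G K) :
    InLevelGroup 𝔫 u ↔ (∀ w : InfinitePlace K, infCompHom129 w u = 1) ∧
      ∀ v : HeightOneSpectrum (𝓞 K),
        LocOK270 𝔫 v ((finCompHom129 v u : GL (Fin 2) (v.adicCompletion K)) :
          Matrix (Fin 2) (Fin 2) (v.adicCompletion K)) ∧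
        LocOK270 𝔫 v ((finCompHom129 v u⁻¹ : GL (Fin 2) (v.adicCompletion K)) :
          Matrix (Fin 2) (Fin 2) (v.adicCompletion K)) := by
  constructor
  · rintro ⟨h1, h2⟩
    refine ⟨fun w => (trivAtInf_iff129 w u).1 (h1 w), fun v => ⟨fun i j => ?_, fun i j => ?_⟩⟩
    · exact (h2 v i j).1
    · exact (h2 v i j).2
  · rintro ⟨h1, h2⟩
    refine ⟨fun w => (trivAtInf_iff129 w u).2 (h1 w), fun v i j => ⟨?_, ?_⟩⟩
    · exact (h2 v).1 i j
    · exact (h2 v).2 i j

theorem inLevelGroup_one270 (𝔫 : Ideal (𝓞 K)) : InLevelGroup 𝔫 (1 : G K) := by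
  rw [inLevelGroup_iff270]
  refine ⟨fun w => map_one _, fun v => ?_⟩
  rw [inv_one, map_one]
  exact ⟨locOK_one270 𝔫 v, locOK_one270 𝔫 v⟩

theorem inLevelGroup_inv270 {𝔫 : Ideal (𝓞 K)} {u : G K} (hu : InLevelGroup 𝔫 u) :
    InLevelGroup 𝔫 u⁻¹ := by
  rw [inLevelGroup_iff270] at hu ⊢
  refine ⟨fun w => by rw [map_inv, hu.1 w, inv_one], fun v => ?_⟩
  rw [inv_inv]
  exact ⟨(hu.2 v).2, (hu.2 v).1⟩

theorem inLevelGroup_mul270 {𝔫 : Ideal (𝓞 K)} {u u' : G K} (hu : InLevelGroup 𝔫 u)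
    (hu' : InLevelGroup 𝔫 u') : InLevelGroup 𝔫 (u * u') := by
  rw [inLevelGroup_iff270] at hu hu' ⊢
  refine ⟨fun w => by rw [map_mul, hu.1 w, hu'.1 w, mul_one], fun v => ⟨?_, ?_⟩⟩
  · rw [map_mul, Matrix.GeneralLinearGroup.coe_mul]
    exact locOK_mul270 (hu.2 v).1 (hu'.2 v).1
  · rw [mul_inv_rev, map_mul, Matrix.GeneralLinearGroup.coe_mul]
    exact locOK_mul270 (hu'.2 v).2 (hu.2 v).2

/-- The level group `U(𝔫)` as a subgroup of `GL₂(𝔸_K)`. -/
def levelSub270 (𝔫 : Ideal (𝓞 K)) : Subgroup (G K) where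
  carrier := {u | InLevelGroup 𝔫 u}
  mul_mem' := fun hu hu' => inLevelGroup_mul270 hu hu'
  one_mem' := inLevelGroup_one270 𝔫
  inv_mem' := fun hu => inLevelGroup_inv270 hu

theorem mem_levelSub270 {𝔫 : Ideal (𝓞 K)} {u : G K} :
    u ∈ levelSub270 𝔫 ↔ InLevelGroup 𝔫 u := Iff.rfl

theorem isSys_iff270 (𝔫 : Ideal (𝓞 K)) (g : G K) (H : Finset (G K)) :
    IsSys270 (levelSub270 𝔫) g H ↔ IsDblCosetSystem 𝔫 g H := Iff.rfl

theorem rinv_iff270 (𝔫 : Ideal (𝓞 K)) (ψ : G K → ℂ) :
    RInv270 (levelSub270 𝔫) ψ ↔ CM616.IsLevelInv616 𝔫 ψ := Iff.rfl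

/-! ## 2. The part of an element at a finite set of places -/

/-- `g` is trivial at the infinite places and at the finite places outside `B`. -/
def SuppIn270 (B : Finset (HeightOneSpectrum (𝓞 K))) (g : G K) : Prop :=
  (∀ w : InfinitePlace K, infCompHom129 w g = 1) ∧
    ∀ v : HeightOneSpectrum (𝓞 K), v ∉ B → finCompHom129 v g = 1

theorem suppIn_mul270 {B : Finset (HeightOneSpectrum (𝓞 K))} {g h : G K}
    (hg : SuppIn270 B g) (hh : SuppIn270 B h) : SuppIn270 B (g * h) :=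
  ⟨fun w => by rw [map_mul, hg.1 w, hh.1 w, mul_one],
    fun v hv => by rw [map_mul, hg.2 v hv, hh.2 v hv, mul_one]⟩

/-- The part of `u` at the places of `B`. -/
theorem exists_localPart270 (B : Finset (HeightOneSpectrum (𝓞 K))) (u : G K) :
    ∃ uB : G K, SuppIn270 B uB ∧
      ∀ v ∈ B, finCompHom129 v uB = finCompHom129 v u := by
  induction B using Finset.induction_on with
  | empty =>
    exact ⟨1, ⟨fun w => map_one _, fun v _ => map_one _⟩, fun v hv => absurd hv (by simp)⟩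
  | insert v₀ B hv₀ ih =>
    obtain ⟨uB, ⟨h1, h2⟩, h3⟩ := ih
    refine ⟨locFin129 v₀ (finCompHom129 v₀ u) * uB, ⟨fun w => ?_, fun v hv => ?_⟩,
      fun v hv => ?_⟩
    · rw [map_mul, infCompHom129_locFin129, h1 w, mul_one]
    · have hne : v ≠ v₀ := fun e => hv (e ▸ Finset.mem_insert_self _ _)
      have hvB : v ∉ B := fun e => hv (Finset.mem_insert_of_mem e)
      rw [map_mul, finCompHom129_locFin129_of_ne v₀ _ hne, h2 v hvB, mul_one]
    · rcases Finset.mem_insert.1 hv with rfl | hvB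
      · rw [map_mul, finCompHom129_locFin129, h2 _ hv₀, mul_one]
      · have hne : v ≠ v₀ := fun e => hv₀ (e ▸ hvB)
        rw [map_mul, finCompHom129_locFin129_of_ne v₀ _ hne, one_mul, h3 v hvB]

/-- The part at `B` of an element of the level group is in the level group. -/
theorem localPart_mem270 {𝔫 : Ideal (𝓞 K)} {B : Finset (HeightOneSpectrum (𝓞 K))} {u uB : G K}
    (hu : InLevelGroup 𝔫 u) (hs : SuppIn270 B uB)
    (he : ∀ v ∈ B, finCompHom129 v uB = finCompHom129 v u) : InLevelGroup 𝔫 uB := by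
  rw [inLevelGroup_iff270] at hu ⊢
  refine ⟨hs.1, fun v => ?_⟩
  by_cases hv : v ∈ B
  · rw [map_inv, he v hv, ← map_inv]
    exact hu.2 v
  · rw [map_inv, hs.2 v hv, inv_one]
    exact ⟨locOK_one270 𝔫 v, locOK_one270 𝔫 v⟩

/-- Elements with disjoint supports commute. -/
theorem comm_of_supp270 {B : Finset (HeightOneSpectrum (𝓞 K))} {r g : G K}
    (hr1 : ∀ w : InfinitePlace K, infCompHom129 w r = 1)
    (hr2 : ∀ v ∈ B, finCompHom129 v r = 1) (hg : SuppIn270 B g) : r * g = g * r := by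
  apply G_ext129
  · intro w
    rw [map_mul, map_mul, hr1 w, hg.1 w]
  · intro v
    rw [map_mul, map_mul]
    by_cases hv : v ∈ B
    · rw [hr2 v hv, one_mul, mul_one]
    · rw [hg.2 v hv, one_mul, mul_one]

/-- Every double coset in `U g U g' U` (`g`, `g'` supported in `B`) contains an element
supported in `B`. -/
theorem exists_supp_rep270 {𝔫 : Ideal (𝓞 K)} {B : Finset (HeightOneSpectrum (𝓞 K))}
    {g g' h h' : G K} (hg : SuppIn270 B g) (hg' : SuppIn270 B g')
    (hh : ∃ u₁ u₂ : G K, InLevelGroup 𝔫 u₁ ∧ InLevelGroup 𝔫 u₂ ∧ h = u₁ * g * u₂)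
    (hh' : ∃ u₁ u₂ : G K, InLevelGroup 𝔫 u₁ ∧ InLevelGroup 𝔫 u₂ ∧ h' = u₁ * g' * u₂) :
    ∃ y : G K, SuppIn270 B y ∧
      ∃ u₁ u₂ : G K, InLevelGroup 𝔫 u₁ ∧ InLevelGroup 𝔫 u₂ ∧ h * h' = u₁ * y * u₂ := by
  obtain ⟨u₁, u₂, h1, h2, rfl⟩ := hh
  obtain ⟨u₃, u₄, h3, h4, rfl⟩ := hh'
  have hu : InLevelGroup 𝔫 (u₂ * u₃) := inLevelGroup_mul270 h2 h3
  obtain ⟨uB, hsB, heB⟩ := exists_localPart270 B (u₂ * u₃)
  have hB : InLevelGroup 𝔫 uB := localPart_mem270 hu hsB heB
  have hR : InLevelGroup 𝔫 (uB⁻¹ * (u₂ * u₃)) :=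
    inLevelGroup_mul270 (inLevelGroup_inv270 hB) hu
  have hR1 : ∀ w : InfinitePlace K, infCompHom129 w (uB⁻¹ * (u₂ * u₃)) = 1 :=
    ((inLevelGroup_iff270 𝔫 _).1 hR).1
  have hR2 : ∀ v ∈ B, finCompHom129 v (uB⁻¹ * (u₂ * u₃)) = 1 := by
    intro v hv
    rw [map_mul, map_inv, heB v hv, inv_mul_cancel]
  have hc : uB⁻¹ * (u₂ * u₃) * g' = g' * (uB⁻¹ * (u₂ * u₃)) := comm_of_supp270 hR1 hR2 hg'
  refine ⟨g * uB * g', suppIn_mul270 (suppIn_mul270 hg hsB) hg', u₁,
    uB⁻¹ * (u₂ * u₃) * u₄, h1, inLevelGroup_mul270 hR h4, ?_⟩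
  calc u₁ * g * u₂ * (u₃ * g' * u₄)
      = u₁ * g * uB * (uB⁻¹ * (u₂ * u₃) * g') * u₄ := by group
    _ = u₁ * g * uB * (g' * (uB⁻¹ * (u₂ * u₃))) * u₄ := by rw [hc]
    _ = u₁ * (g * uB * g') * (uB⁻¹ * (u₂ * u₃) * u₄) := by group

end Level

/-! ## 3. The leaf -/

section Leaf

variable (K K' : Type) [Field K] [NumberField K] [Field K'] [NumberField K'] [Algebra K K']

/-- The bad places: the places of `S'` outside the orbit. -/
def badSet270 {K K' : Type} [Field K] [NumberField K] [Field K'] [NumberField K']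
    [Algebra K K'] (Dt : L2Data K K') : Finset (HeightOneSpectrum (𝓞 K')) :=
  Dt.S'.filter (fun v => ¬ ∃ j < Dt.l, v = Dt.o j)

theorem isBad_iff270 {K K' : Type} [Field K] [NumberField K] [Field K'] [NumberField K']
    [Algebra K K'] (Dt : L2Data K K') (g : G K') :
    Dt.IsBad g ↔ SuppIn270 (badSet270 Dt) g := by
  have hmem : ∀ v : HeightOneSpectrum (𝓞 K'),
      v ∉ badSet270 Dt ↔ (v ∉ Dt.S' ∨ ∃ j < Dt.l, v = Dt.o j) := by
    intro v
    unfold badSet270
    rw [Finset.mem_filter, not_and_or, not_not]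
  constructor
  · rintro ⟨h1, h2⟩
    exact ⟨fun w => (trivAtInf_iff129 w g).1 (h1 w),
      fun v hv => (trivAtFin_iff129 v g).1 (h2 v ((hmem v).1 hv))⟩
  · rintro ⟨h1, h2⟩
    exact ⟨fun w => (trivAtInf_iff129 w g).2 (h1 w),
      fun v hv => (trivAtFin_iff129 v g).2 (h2 v ((hmem v).2 hv))⟩

/-- **LEAF CM.10 = MUL-G**, VERBATIM, unconditional. -/
theorem mulGC270 : CM616.MulGC616 K K' := by
  intro ℓ Φ Dt _ g g' Hg Hg' hg hHg hg' hHg'
  have hsg : SuppIn270 (badSet270 Dt) g := (isBad_iff270 Dt g).1 hg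
  have hsg' : SuppIn270 (badSet270 Dt) g' := (isBad_iff270 Dt g').1 hg'
  obtain ⟨n, c, y, H'', h1, h2⟩ :=
    mul_core270 (U := levelSub270 Dt.𝔑₀) ((isSys_iff270 Dt.𝔑₀ g Hg).2 hHg)
      ((isSys_iff270 Dt.𝔑₀ g' Hg').2 hHg') (fun y => Dt.IsBad y)
      (fun h hh h' hh' => by
        obtain ⟨y, hy, u₁, u₂, hu₁, hu₂, e⟩ :=
          exists_supp_rep270 (𝔫 := Dt.𝔑₀) hsg hsg' (hHg.1 h hh) (hHg'.1 h' hh')
        exact ⟨y, (isBad_iff270 Dt y).2 hy, u₁, u₂, hu₁, hu₂, e⟩)
  refine ⟨n, c, y, H'', fun i => ⟨(h1 i).1, (isSys_iff270 Dt.𝔑₀ _ _).1 (h1 i).2⟩, ?_⟩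
  intro ψ hψ x
  exact h2 ψ ((rinv_iff270 Dt.𝔑₀ ψ).2 hψ) x

end Leaf

end Fermat.Agent.LT.T7.H270

end

end
-- ===== PACK-END LT/T7/H270/MulG.lean

-- ===== PACK-BEGIN LT/T7/H298/MatchQTop2.lean
section




/-!
# Row LT, tower T7, node T7.L2Q.1.H1 (registry rows 2464 / 2605, owner helper298):
# THE MATCHING THEOREM OVER `ℚ` -- FIRST CUT, the proved top, v2

OFF-MAIN.  Complete proof, nothing assumed.  The proof of `globMatchQ_of298` for the nodes of v2
(`MatchQSpec2.lean`: split clause for ONE enumeration).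

    globMatchQ_of298b : IotaQC298 F → UnfoldGC298 ℚ → UnfoldC305 F → TorCommC305 ℚ →
        TorCommC305 F → TwistRepC305 F → EllRegC305 ℚ F → TorHaarC305 ℚ → TorMeasQC298 F →
        TorCompQC298 F → CutIntQC298b F → GlobMatchQC298b F
-/

set_option autoImplicit false

open AutomorphicForm IsDedekindDomain NumberField MeasureTheory
open scoped ComplexConjugate

noncomputable section

namespace Fermat.Agent.LT.T7.MQ298

open Fermat.Agent.LT.H556 Fermat.Agent.LT.H556.A0 Fermat.Agent.LT.T7 Fermat.Agent.LT.T7.H305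

attribute [local instance] Fermat.Agent.LT.T5.instMeasurableSpaceG

variable {F : Type} [Field F] [NumberField F]

/-- **THE TOP OF THE FIRST CUT over `ℚ`, v2**: global matching from local matching (`LocHypQ298b`). -/
theorem globMatchQ_of298b (hι : IotaQC298 F) (hU : UnfoldGC298 ℚ) (hU' : UnfoldC305 F)
    (hTc : TorCommC305 ℚ) (hTc' : TorCommC305 F)
    (hRep : TwistRepC305 F) (hEll : EllRegC305 ℚ F) (hHaar : TorHaarC305 ℚ)
    (hMeas : TorMeasQC298 F) (hComp : TorCompQC298 F) (hCut : CutIntQC298b F) :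
    GlobMatchQC298b F := by
  intro hF D hD hcyc hl μr hμr μc hμc T₀ hram n m hlev
  obtain ⟨ι, hιD⟩ := hι hF D hD hcyc hl
  obtain ⟨κ₀, hκ₀, hC⟩ := hCut hF D hD hcyc hl ι hιD μr hμr μc hμc T₀ hram n m hlev
  have hl0 : ((D.l : ℕ) : ℂ) ≠ 0 := by
    exact_mod_cast hcyc.prime.ne_zero
  refine ⟨κ₀ / (D.l : ℂ), div_ne_zero hκ₀ hl0, ?_⟩
  intro T T' hTT hT' φ₀ Φ f₀ F0 F1 hloc φ' f0 f1 hφ' hf0 hf1 htφ' hc0 hs0 hc1 hs1
  obtain ⟨hnorm, hnon⟩ := hC T T' hTT hT' φ₀ Φ f₀ F0 F1 hloc
  have eφ' : φ' = pure305 T' φ₀ Φ := funext hφ'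
  have ef : (fun x => f0 x + f1 x)
      = fun h => κ₀ / (D.l : ℂ) * pureQ298 T f₀ (fun g => F0 g + F1 g) h :=
    sum_eq_pureQ298 T f₀ F0 F1 _ f0 f1 hf0 hf1
  have hκ : κ₀ / (D.l : ℂ) ≠ 0 := div_ne_zero hκ₀ hl0
  have hcont : Continuous (fun x => f0 x + f1 x) := hc0.add hc1
  have hsupp : HasCompactSupport (fun x => f0 x + f1 x) := hs0.add hs1
  constructor
  · intro δ γ hγ hN Fδ Fγ hFδ hFγ
    obtain ⟨δ₁, Fδ₁, hN₁, hFδ₁, hint⟩ :=
      hRep D.R' hD.frame' D.s D.l D.k D.𝔑 hD.cyc hD.aut δ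
        (Matrix.GeneralLinearGroup.map (algebraMap ℚ F) γ) hN Fδ hFδ
    rw [← hint φ']
    obtain ⟨μT, μT', hμT, hμT', hlink⟩ := hMeas hF D hD hcyc hl ι hιD δ₁ γ hγ hN₁
    obtain ⟨β', β, hβ', hβ, hCI⟩ := hnorm δ₁ γ hγ hN₁ μT μT' hμT hμT' hlink
    have hreg := hEll D hD γ hγ
    have e1 := hU' D.R' hD.frame' D.s D.l D.k D.𝔑 hD.cyc hD.aut δ₁
      (by rw [hN₁]; exact hreg.1) φ' htφ' Fδ₁ hFδ₁
      (hTc' D.R' hD.frame' D.s D.l D.k D.𝔑 hD.cyc hD.aut δ₁ (by rw [hN₁]; exact hreg.1))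
      μT' hμT' β' (by rw [eφ']; exact hβ')
    have e2 := hU D.R hD.frame (T5.AdelicAut.id ℚ) 1 ⊤ D.𝔫 T5.isCyclicOfDegree_id
      (T5.autPreserves_id D.𝔫 D.R.μ D.R.r) γ hreg.2 (fun x => f0 x + f1 x) hcont hsupp Fγ hFγ
      (hTc D.R hD.frame (T5.AdelicAut.id ℚ) 1 ⊤ D.𝔫 T5.isCyclicOfDegree_id
        (T5.autPreserves_id D.𝔫 D.R.μ D.R.r) γ hreg.2)
      μT hμT β
      (by rw [ef, supp_const_mul305 _ _ hκ]; exact hβ)
    have e3 := hComp hF D hD hcyc hl ι hιD δ₁ γ hγ hN₁ Fδ₁ Fγ hFδ₁ hFγ μT μT' hμT hμT' hlink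
    rw [e1, e2, e3, eφ', hCI, ef, cutInt_const_mul305, ENNReal.toReal_mul]
    simp only [ENNReal.toReal_natCast]
    push_cast
    field_simp
  · intro γ hγ hno Fγ hFγ
    obtain ⟨μT, hμT⟩ := hHaar (T5.AdelicAut.id ℚ) γ
    obtain ⟨β, hβ, hCI⟩ := hnon γ hγ hno μT hμT
    have hreg := hEll D hD γ hγ
    have e2 := hU D.R hD.frame (T5.AdelicAut.id ℚ) 1 ⊤ D.𝔫 T5.isCyclicOfDegree_id
      (T5.autPreserves_id D.𝔫 D.R.μ D.R.r) γ hreg.2 (fun x => f0 x + f1 x) hcont hsupp Fγ hFγ
      (hTc D.R hD.frame (T5.AdelicAut.id ℚ) 1 ⊤ D.𝔫 T5.isCyclicOfDegree_id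
        (T5.autPreserves_id D.𝔫 D.R.μ D.R.r) γ hreg.2)
      μT hμT β
      (by rw [ef, supp_const_mul305 _ _ hκ]; exact hβ)
    rw [e2, ef, cutInt_const_mul305, hCI]
    simp

end Fermat.Agent.LT.T7.MQ298

end

end
-- ===== PACK-END LT/T7/H298/MatchQTop2.lean

-- ===== PACK-BEGIN LT/T7/H409/CompCont.lean
section


/-!
# Row LT, tower T7, asset leaf T7.L2.1.C2.7.7.2 `H558.CompContC558` (helper409): PROVED

OFF-MAIN.  No hole, nothing assumed.

    compContC409 (K) : H558.CompContC558 K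

The components `GL₂(𝔸_K) → GL₂(K_v)` (`H305.finGL305 v`) and `GL₂(𝔸_K) → GL₂(ℂ)`
(`H305.infGL305 w`) are continuous: `T5.finHom v`, `T5.infHom w` are continuous ring
homomorphisms (`RestrictedProduct.continuous_eval`, `isometry_extensionEmbedding`), the map of
matrices of a continuous map is continuous (`Continuous.matrix_map`), `Units.map` of a continuous
homomorphism of monoids is continuous (`Continuous.units_map`).
-/

set_option autoImplicit false
set_option linter.unusedSectionVars false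

open IsDedekindDomain NumberField Topology

noncomputable section

namespace Fermat.Agent.LT.T7.H409

open Fermat.Agent.LT.H556 Fermat.Agent.LT.H556.A0 Fermat.Agent.LT.T7 Fermat.Agent.LT.T7.H305

variable {K : Type} [Field K] [NumberField K]

/-- The component at a finite place is continuous on the adeles. -/
theorem continuous_finHom409 (v : HeightOneSpectrum (𝓞 K)) :
    Continuous (T5.finHom (K := K) v) := by
  have h1 : Continuous fun x : FiniteAdeleRing (𝓞 K) K => x v :=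
    RestrictedProduct.continuous_eval v
  exact h1.comp continuous_snd

/-- The component at an infinite place is continuous on the adeles. -/
theorem continuous_infHom409 (w : InfinitePlace K) :
    Continuous (T5.infHom (K := K) w) := by
  have h1 : Continuous (InfinitePlace.Completion.extensionEmbedding w) :=
    (InfinitePlace.Completion.isometry_extensionEmbedding w).continuous
  have h2 : Continuous fun x : InfiniteAdeleRing K => x w :=
    continuous_apply (A := fun v : InfinitePlace K => v.Completion) w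
  exact h1.comp (h2.comp continuous_fst)

/-- `GL_n` of a continuous ring homomorphism is continuous. -/
theorem continuous_glMap409 {n : Type} [Fintype n] [DecidableEq n]
    {R S : Type} [CommRing R] [CommRing S] [TopologicalSpace R] [TopologicalSpace S]
    [IsTopologicalRing R] [IsTopologicalRing S] (f : R →+* S) (hf : Continuous f) :
    Continuous (Matrix.GeneralLinearGroup.map (n := n) f) := by
  have hm : Continuous ((RingHom.mapMatrix (m := n) f).toMonoidHom) := by
    have : Continuous fun A : Matrix n n R => A.map f := continuous_id.matrix_map hf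
    exact this
  exact Continuous.units_map ((RingHom.mapMatrix (m := n) f).toMonoidHom) hm

theorem continuous_finGL409 (v : HeightOneSpectrum (𝓞 K)) :
    Continuous (finGL305 (K := K) v) :=
  continuous_glMap409 (T5.finHom v) (continuous_finHom409 v)

theorem continuous_infGL409 (w : InfinitePlace K) :
    Continuous (infGL305 (K := K) w) :=
  continuous_glMap409 (T5.infHom w) (continuous_infHom409 w)

variable (K)

/-- **ASSET LEAF FD.2 = COMP-CONT of helper558's cut of `FactDownC305`: PROVED.** -/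
theorem compContC409 : Fermat.Agent.LT.T7.H558.CompContC558 K :=
  ⟨fun v => continuous_finGL409 v, fun w => continuous_infGL409 w⟩

end Fermat.Agent.LT.T7.H409

end

end
-- ===== PACK-END LT/T7/H409/CompCont.lean

-- ===== PACK-BEGIN LT/T7/H454/PtFact.lean
section



/-!
# Row LT, tower T7, node C2.7.7 `FactDownC305`, leaf FD.7 `PtFactC558` (helper454)

OFF-MAIN.  No `sorry`, nothing assumed.  Spec: `T7/H558/FactDownSpec.lean` (sha256 8043f526,
helper558), byte-identical copy, with its closure.  Mathlib + the definitions of the spec only.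

    ptFactC454 (K) : H558.PtFactC558 K

For `y ∈ Out_S`, `γ` integral outside `S` and the ray generator `r`:
`pure305 S f₀ F (y⁻¹ γ y r^j) = ∏_{v ∈ S} f₀ v (y_v⁻¹ γ_v y_v) · ∏_w F w (y_w⁻¹ (γ r^j)_w y_w)`.
`Out_S` is a group which contains `γ` and `r^j` (trivial at the finite places); the components
are homomorphisms; the component of `r` at an infinite place is a scalar matrix.
-/

set_option autoImplicit false

open IsDedekindDomain NumberField

noncomputable section

namespace Fermat.Agent.LT.T7.H454.PtFact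

open Fermat.Agent.LT.H556 Fermat.Agent.LT.H556.A0 Fermat.Agent.LT.T7 Fermat.Agent.LT.T7.H305

variable {K : Type} [Field K] [NumberField K]

/-! ## 1. Components -/

theorem onG_id454 (y : G K) : (T5.AdelicAut.id K).onG y = y := by
  apply Units.ext
  ext i j
  rfl

theorem finGL_ratG454 (v : HeightOneSpectrum (𝓞 K)) (γ : GL (Fin 2) K) :
    finGL305 v (T5.ratG γ) = locG305 v γ := by
  apply Units.ext
  ext i j
  rfl

theorem finComp_eq_finGL454 (v : HeightOneSpectrum (𝓞 K)) (g : G K) :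
    finComp v g = (finGL305 v g : Matrix (Fin 2) (Fin 2) (v.adicCompletion K)) := rfl

theorem infComp_eq_infGL454 (w : InfinitePlace K) (g : G K) :
    infComp w g = (infGL305 w g : Matrix (Fin 2) (Fin 2) ℂ) := rfl

theorem finGL_eq_one454 {v : HeightOneSpectrum (𝓞 K)} {g : G K} (h : TrivAtFin v g) :
    finGL305 v g = 1 := by
  apply Units.ext
  rw [← finComp_eq_finGL454]
  exact h

theorem finComp_mul454 (v : HeightOneSpectrum (𝓞 K)) (g h : G K) :
    finComp v (g * h) = finComp v g * finComp v h := by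
  rw [finComp_eq_finGL454, finComp_eq_finGL454, finComp_eq_finGL454, map_mul, Units.val_mul]

/-! ## 2. `Out_S` is a group -/

/-- Integral with integral inverse at `v`. -/
def IntAt454 (v : HeightOneSpectrum (𝓞 K)) (g : G K) : Prop :=
  IsIntegralAt v g ∧ IsIntegralAt v g⁻¹

theorem isIntegralAt_mul454 (v : HeightOneSpectrum (𝓞 K)) {g h : G K} (hg : IsIntegralAt v g)
    (hh : IsIntegralAt v h) : IsIntegralAt v (g * h) := by
  intro i j
  rw [_root_.Fermat.Agent.LT.T7.H454.PtFact.finComp_mul454, Matrix.mul_apply]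
  exact sum_mem fun k _ => mul_mem (hg i k) (hh k j)

theorem intAt_mul454 {v : HeightOneSpectrum (𝓞 K)} {g h : G K} (hg : IntAt454 v g)
    (hh : IntAt454 v h) : IntAt454 v (g * h) := by
  refine ⟨_root_.Fermat.Agent.LT.T7.H454.PtFact.isIntegralAt_mul454 v hg.1 hh.1, ?_⟩
  rw [mul_inv_rev]
  exact _root_.Fermat.Agent.LT.T7.H454.PtFact.isIntegralAt_mul454 v hh.2 hg.2

theorem intAt_inv454 {v : HeightOneSpectrum (𝓞 K)} {g : G K} (hg : IntAt454 v g) :
    IntAt454 v g⁻¹ := by
  refine ⟨hg.2, ?_⟩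
  rw [inv_inv]
  exact hg.1

theorem isIntegralAt_of_triv454 {v : HeightOneSpectrum (𝓞 K)} {g : G K} (hg : TrivAtFin v g) :
    IsIntegralAt v g := by
  intro i j
  have h1 : finComp v g = 1 := hg
  rw [h1, Matrix.one_apply]
  split_ifs
  · exact one_mem _
  · exact zero_mem _

theorem trivAtFin_of_finGL454 {v : HeightOneSpectrum (𝓞 K)} {g : G K} (h : finGL305 v g = 1) :
    TrivAtFin v g := by
  show finComp v g = 1
  rw [finComp_eq_finGL454, h]
  rfl

theorem intAt_of_triv454 {v : HeightOneSpectrum (𝓞 K)} {g : G K} (hg : TrivAtFin v g) :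
    IntAt454 v g := by
  refine ⟨_root_.Fermat.Agent.LT.T7.H454.PtFact.isIntegralAt_of_triv454 hg, _root_.Fermat.Agent.LT.T7.H454.PtFact.isIntegralAt_of_triv454 (trivAtFin_of_finGL454 ?_)⟩
  rw [map_inv, finGL_eq_one454 hg, inv_one]

/-- An element of `U(0)` has integral entries. -/
theorem mem_integers_of_sub_one454 (v : HeightOneSpectrum (𝓞 K))
    (M : Matrix (Fin 2) (Fin 2) (v.adicCompletion K)) (i j : Fin 2)
    (h : Valued.v (M i j - (1 : Matrix (Fin 2) (Fin 2) (v.adicCompletion K)) i j)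
      ≤ WithZero.exp (-((0 : ℕ) : ℤ))) :
    M i j ∈ v.adicCompletionIntegers K := by
  have h0 : WithZero.exp (-((0 : ℕ) : ℤ)) = (1 : WithZero (Multiplicative ℤ)) := by
    rw [Nat.cast_zero, neg_zero, WithZero.exp_zero]
  rw [h0] at h
  have h1 : M i j - (1 : Matrix (Fin 2) (Fin 2) (v.adicCompletion K)) i j
      ∈ v.adicCompletionIntegers K :=
    (HeightOneSpectrum.mem_adicCompletionIntegers (𝓞 K) K v).mpr h
  have h2 : (1 : Matrix (Fin 2) (Fin 2) (v.adicCompletion K)) i j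
      ∈ v.adicCompletionIntegers K := by
    rw [Matrix.one_apply]
    split_ifs
    · exact one_mem _
    · exact zero_mem _
  have h3 := add_mem h1 h2
  rwa [sub_add_cancel] at h3

theorem intAt_ratG454 {v : HeightOneSpectrum (𝓞 K)} {γ : GL (Fin 2) K}
    (h : T6.InU 0 (locG305 v γ)) : IntAt454 v (T5.ratG γ) := by
  constructor
  · intro i j
    rw [finComp_eq_finGL454, finGL_ratG454]
    exact mem_integers_of_sub_one454 v _ i j (h i j).1
  · intro i j
    rw [finComp_eq_finGL454, map_inv, finGL_ratG454]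
    exact mem_integers_of_sub_one454 v _ i j (h i j).2

theorem finGL_ray_zpow454 {r : G K} (hr : T5.IsRayGen r) (v : HeightOneSpectrum (𝓞 K)) (j : ℤ) :
    finGL305 v (r ^ j) = 1 := by
  rw [map_zpow, finGL_eq_one454 (hr.1 v), one_zpow]

/-! ## 3. The ray generator is central at infinity -/

theorem commute_infGL_ray454 {r : G K} (hr : T5.IsRayGen r) (w : InfinitePlace K)
    (Y : GL (Fin 2) ℂ) : Commute (infGL305 w r) Y := by
  obtain ⟨t, -, -, ht⟩ := hr.2
  have h1 : (infGL305 w r : Matrix (Fin 2) (Fin 2) ℂ) = Matrix.diagonal fun _ => (t : ℂ) := by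
    rw [← infComp_eq_infGL454]
    exact ht w
  apply Units.ext
  rw [Units.val_mul, Units.val_mul, h1]
  ext i k
  rw [Matrix.diagonal_mul, Matrix.mul_diagonal, mul_comm]

/-! ## 4. The leaf -/

/-- **LEAF FD.7 = PT-FACT.** -/
theorem ptFactC454 (K : Type) [Field K] [NumberField K] :
    Fermat.Agent.LT.T7.H558.PtFactC558 K := by
  intro r hr S f₀ F γ hγ y j hy
  rw [onG_id454]
  have hout : OutT305 S (y⁻¹ * T5.ratG γ * y * r ^ j) := by
    intro v hv
    have hyv : IntAt454 v y := hy v hv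
    have hγv : IntAt454 v (T5.ratG γ) := intAt_ratG454 (hγ v hv)
    have hrv : IntAt454 v (r ^ j) :=
      intAt_of_triv454 (trivAtFin_of_finGL454 (finGL_ray_zpow454 hr v j))
    exact intAt_mul454 (intAt_mul454 (intAt_mul454 (intAt_inv454 hyv) hγv) hyv) hrv
  have e : pure305 S f₀ F (y⁻¹ * T5.ratG γ * y * r ^ j)
      = (∏ v ∈ S, f₀ v (finGL305 v (y⁻¹ * T5.ratG γ * y * r ^ j))) *
        ∏ w : InfinitePlace K, F w (infGL305 w (y⁻¹ * T5.ratG γ * y * r ^ j)) :=
    if_pos hout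
  rw [e]
  have hfin : ∀ v : HeightOneSpectrum (𝓞 K), finGL305 v (y⁻¹ * T5.ratG γ * y * r ^ j)
      = (finGL305 v y)⁻¹ * locG305 v γ * finGL305 v y := by
    intro v
    rw [map_mul, map_mul, map_mul, map_inv, finGL_ratG454, finGL_ray_zpow454 hr v j, mul_one]
  have hinf : ∀ w : InfinitePlace K, infGL305 w (y⁻¹ * T5.ratG γ * y * r ^ j)
      = (infGL305 w y)⁻¹ * infGL305 w (T5.ratG γ * r ^ j) * infGL305 w y := by
    intro w
    have hc : Commute (infGL305 w r ^ j) (infGL305 w y) :=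
      (commute_infGL_ray454 hr w (infGL305 w y)).zpow_left j
    rw [map_mul, map_mul, map_mul, map_mul, map_inv, map_zpow, mul_assoc, mul_assoc, mul_assoc,
      mul_assoc, hc.eq]
  have e1 : (∏ v ∈ S, f₀ v (finGL305 v (y⁻¹ * T5.ratG γ * y * r ^ j)))
      = ∏ v ∈ S, f₀ v ((finGL305 v y)⁻¹ * locG305 v γ * finGL305 v y) :=
    Finset.prod_congr rfl fun v _ => by rw [hfin v]
  have e2 : (∏ w : InfinitePlace K, F w (infGL305 w (y⁻¹ * T5.ratG γ * y * r ^ j)))
      = ∏ w : InfinitePlace K,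
          F w ((infGL305 w y)⁻¹ * infGL305 w (T5.ratG γ * r ^ j) * infGL305 w y) :=
    Finset.prod_congr rfl fun w _ => by rw [hinf w]
  rw [e1, e2]

end Fermat.Agent.LT.T7.H454.PtFact

end
end
-- ===== PACK-END LT/T7/H454/PtFact.lean

-- ===== PACK-BEGIN LT/T7/H600/IotaTop.lean
section


/-!
# Row LT, tower T7, leaf T7.L2.1.C2.4 `H305.IotaC305` (spare, helper600): THE CUT and its top

OFF-MAIN.  Definitions, frozen sub-leaf Props, PROVED top.  No hole, nothing assumed.

The base change of adeles is CONSTRUCTED (`iota600 K K' : 𝔸_K →+* 𝔸_{K'}`, `IotaInf.lean`): at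
the finite places `RestrictedProduct.mapAlongRingHom` along `w ↦ w ∩ 𝓞_K` (`below600`) with the
inclusions of the completions `T6.H267.locIncl` (helper267), at the infinite places Mathlib's
`NumberField.LiesOver.completionMap` along `w' ↦ w' ∘ (K → K')` (`belowInf600`).

PROVED here (no hypothesis): the fields `cont`, `rat`, `fin`, `inf` of `H305.IsAdeleBase305`.

    iotaC_of_leaves600 : IotaClosedC600 K K' → IotaNormC600 K K' → IotaFixedC600 K K' →
        IotaOntoC600 K K' → H305.IotaC305 K K'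

## The four sub-leaves (all about the EXPLICIT map `iota600 K K'`)

* `IotaClosedC600` : `iota600` is a closed embedding.  (Finite part: `U = ∏ 𝒪_v` is compact open,
  `ι⁻¹(∏ 𝒪_w) = U` by `locB600_mem_integers_iff`, a continuous injective map from a compact space
  to a Hausdorff space is a closed embedding, so `ι` is inducing at `0`; a group homomorphism
  which is inducing at `0` is inducing; the range is complete, hence closed.  Infinite part:
  `‖ι x‖ = ‖x‖` for the sup norms, the local maps are isometries and `belowInf600` is onto.)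
* `IotaNormC600`   : `‖ι x‖_{𝔸_{K'}} = ‖x‖_{𝔸_K} ^ [K' : K]` for ideles `x`
  (`valued_locB600`, `N w = N v ^ f`, `∑_{w ∣ v} e_w f_w = [K' : K]`
  (`Ideal.sum_ramification_inertia`), `∑_{w' ∣ v} mult w' = [K' : K] mult v`).
* `IotaFixedC600`  : `σ_𝔸 (ι x) = ι x` (from `H305.SigmaLocC305 K'`: `s_w ∘ locIncl v w` and
  `locIncl v (σ w)` are continuous ring homomorphisms which agree on the dense subfield `K`).
* `IotaOntoC600`   : a `σ_𝔸`-fixed adele of `K'` is in the image (from `H305.SigmaLocC305 K'`: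
  `σ` permutes the places over `v` transitively; the trace argument of `T6.H267.fixed_mem_range`
  at a place with one place above, `K'_w = K_v` at a split place; the components at the places
  over `v` are the images of ONE element of `K_v`).
-/

set_option autoImplicit false
set_option linter.unusedSectionVars false

open IsDedekindDomain NumberField

noncomputable section

namespace Fermat.Agent.LT.T7.H600

open Fermat.Agent.LT.H556 Fermat.Agent.LT.H556.A0 Fermat.Agent.LT.T7 Fermat.Agent.LT.T6.H267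
open scoped ComplexConjugate

variable (K K' : Type) [Field K] [NumberField K] [Field K'] [NumberField K'] [Algebra K K']

/-- **Sub-leaf CLOSED.**  The base change of adeles is a closed embedding. -/
def IotaClosedC600 : Prop :=
  Topology.IsClosedEmbedding (iota600 K K')

/-- **Sub-leaf NORM.**  `‖ι x‖ = ‖x‖ ^ [K' : K]` on the ideles. -/
def IotaNormC600 : Prop :=
  ∀ x : (Adl K)ˣ,
    T5.adNorm (iota600 K K' (x : Adl K)) = T5.adNorm (x : Adl K) ^ Module.finrank K K'

/-- **Sub-leaf FIXED.**  The image of the base change is fixed by `σ_𝔸`. -/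
def IotaFixedC600 : Prop :=
  H305.SigmaLocC305 K' →
  ∀ D : CompData K K', IsCompData D → IsCycExt K K' D.l →
    ∀ x : Adl K, D.s.σA (iota600 K K' x) = iota600 K K' x

/-- **Sub-leaf ONTO.**  Every adele of `K'` fixed by `σ_𝔸` is in the image of the base change. -/
def IotaOntoC600 : Prop :=
  H305.SigmaLocC305 K' →
  ∀ D : CompData K K', IsCompData D → IsCycExt K K' D.l → TotCplx K →
    ∀ y : Adl K', D.s.σA y = y → ∃ x : Adl K, iota600 K K' x = y

variable {K K'}

/-- The field `fin` of `IsAdeleBase305` for `iota600`. -/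
theorem iota600_fin (v : HeightOneSpectrum (𝓞 K)) (w : HeightOneSpectrum (𝓞 K'))
    (h : PlaceOver K K' v w) :
    ∃ (e : ℕ) (i : v.adicCompletion K →+* w.adicCompletion K'), 0 < e ∧
      (∀ x : K, i (algebraMap K (v.adicCompletion K) x)
        = algebraMap K' (w.adicCompletion K') (algebraMap K K' x)) ∧
      (∀ x : v.adicCompletion K, Valued.v (i x) = Valued.v x ^ e) ∧
      ∀ x : Adl K, T5.finHom w (iota600 K K' x) = i (T5.finHom v x) := by
  obtain rfl := (placeOver_iff600 v w).mp h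
  exact ⟨ramIdx (below600 K K' w) w, locB600 K K' w,
    Nat.pos_of_ne_zero (ramIdx_ne_zero _ _), fun x => locB600_algebraMap w x,
    fun x => valued_locB600 w x, fun x => finHom_iota600 w x⟩

/-- The field `inf` of `IsAdeleBase305` for `iota600`. -/
theorem iota600_inf (w' : InfinitePlace K') :
    (∀ x : Adl K, T5.infHom w' (iota600 K K' x)
        = T5.infHom (w'.comap (algebraMap K K')) x) ∨
      ∀ x : Adl K, T5.infHom w' (iota600 K K' x)
        = conj (T5.infHom (w'.comap (algebraMap K K')) x) := by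
  rcases extEmb_locInf600 (K := K) w' with h | h
  · left
    intro x
    rw [infHom_iota600]
    exact h _
  · right
    intro x
    rw [infHom_iota600]
    exact h _

/-- **THE TOP**: `IotaC305` from the four sub-leaves. -/
theorem iotaC_of_leaves600 (hS : H305.SigmaLocC305 K') (hC : IotaClosedC600 K K')
    (hN : IotaNormC600 K K') (hF : IotaFixedC600 K K') (hO : IotaOntoC600 K K') :
    H305.IotaC305 K K' := by
  intro D hD hcyc hcplx
  refine ⟨iota600 K K', ?_⟩
  exact
    { cont := continuous_iota600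
      closed := hC
      rat := iota600_algebraMap
      fixed := hF hS D hD hcyc
      onto := hO hS D hD hcyc hcplx
      norm := by
        intro x
        rw [hN x]
        congr 1
        exact hcyc.degree
      fin := iota600_fin
      inf := iota600_inf }

/-! ## Appendix: the equation lemmas of the definitions are realised HERE -/

theorem eqns_realised_iotaTop600 : True := by
  have _a1 := @IotaClosedC600.eq_1
  have _a2 := @IotaClosedC600.eq_def
  have _a3 := @IotaClosedC600.eq_unfold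
  have _a4 := @IotaNormC600.eq_1
  have _a5 := @IotaNormC600.eq_def
  have _a6 := @IotaNormC600.eq_unfold
  have _a7 := @IotaFixedC600.eq_1
  have _a8 := @IotaFixedC600.eq_def
  have _a9 := @IotaFixedC600.eq_unfold
  have _a10 := @IotaOntoC600.eq_1
  have _a11 := @IotaOntoC600.eq_def
  have _a12 := @IotaOntoC600.eq_unfold
  trivial

end Fermat.Agent.LT.T7.H600

end

end
-- ===== PACK-END LT/T7/H600/IotaTop.lean

-- ===== PACK-BEGIN LT/T7/H128/SubSeq.lean
section




/-!
# Row LT, tower T7, leaf T7.L2.3.5.7 `SD534.SubSeqC` (helper128, SPARE of row 2185)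

OFF-MAIN.  `subSeqC128 K : Fermat.Agent.LT.T7.SD534.SubSeqC K`, VERBATIM, unconditional, every
number field `K`.

Route: `GL₂(𝔸_K)` is second countable (`locCompC_h11`, helper11, leaf T1.01), so the Borel
σ-algebra is countably generated and `L²(F, μ)` is separable (Mathlib,
`MeasureTheory.Lp.SecondCountableTopology`); cusp functions are continuous and bounded, hence in
`L²(F, μ)` (`μ F < ∞`); Gram--Schmidt on a dense sequence of the image of `S`
(`SubSeqCore.lean`, Mathlib only).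
-/

set_option autoImplicit false

open IsDedekindDomain NumberField MeasureTheory
open Fermat.Agent.LT.H556.A0 Fermat.Agent.LT.T5

noncomputable section

namespace Fermat.Agent.LT.T7.H128

attribute [local instance] Fermat.Agent.LT.T5.instMeasurableSpaceG

/-- **T7.L2.3.5.7.**  `SD534.SubSeqC K`. -/
theorem subSeqC128 (K : Type) [Field K] [NumberField K] :
    Fermat.Agent.LT.T7.SD534.SubSeqC K := by
  intro μ F r 𝔫 _ hF _ S hSV hS0 hSadd hSsmul
  have hB : BorelSpace (G K) := ⟨rfl⟩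
  have hsc : SecondCountableTopology (G K) := (Fermat.Agent.LT.T1.H11.locCompC_h11 K).2.2.2
  have hfin : IsFiniteMeasure (μ.restrict F) := ⟨by simpa using hF.finite⟩
  have hmem : ∀ f, S f → MemLp f 2 (μ.restrict F) := by
    intro f hf
    have hc : T5.IsCuspFn 𝔫 T5.trivType r f := hSV f hf
    obtain ⟨C, hC⟩ := hc.bdd
    exact MemLp.of_bound hc.cont.aestronglyMeasurable C (Filter.Eventually.of_forall hC)
  have hcg : MeasurableSpace.CountablyGenerated (G K) := inferInstance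
  have hsepm : MeasureTheory.IsSeparable (μ.restrict F) := inferInstance
  have hp1 : Fact ((1 : ENNReal) ≤ 2) := ⟨by norm_num⟩
  have hp2 : Fact ((2 : ENNReal) ≠ ⊤) := ⟨by norm_num⟩
  have h2c : SecondCountableTopology (Lp ℂ 2 (μ.restrict F)) :=
    MeasureTheory.Lp.SecondCountableTopology
  have hsepL : TopologicalSpace.SeparableSpace (Lp ℂ 2 (μ.restrict F)) := inferInstance
  obtain ⟨p, hpS, horth, hnorm, hpars⟩ :=
    exists_l2_seq128 (μ.restrict F) S hmem hS0 hSadd hSsmul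
  exact ⟨p, hpS, horth, hnorm, hpars⟩

end Fermat.Agent.LT.T7.H128

end
end
-- ===== PACK-END LT/T7/H128/SubSeq.lean

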