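import Mathlib
import Fermat.Agent.Pack.S43GC.G0E20L2
import Fermat.Agent.Pack.LT3.E20L3
import Fermat.Agent.Pack.LT3.E19L3
import Fermat.Agent.Pack.LT2.E19L2
import Fermat.Agent.Pack.LT3.E14L3
import Fermat.Agent.Pack.LT3.E23L3
import Fermat.Agent.Pack.LT2.E3L0
import Fermat.Agent.Pack.LT2.E10L0
import Fermat.Agent.Pack.LT3.E23L1
import Fermat.Agent.Pack.LT3.E21L2
import Fermat.Agent.Pack.LT3.E1L3
import Fermat.Agent.Pack.LT3.E4L2
import Fermat.Agent.Pack.LT3.E22L1
import Fermat.Agent.Pack.LT3.E13L0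
import Fermat.Agent.Pack.LT3.E24L2
import Fermat.Agent.Pack.LT3.E24L3
import Fermat.Agent.Pack.LT3.E10L2
import Fermat.Agent.Pack.LT2.E0L2
import Fermat.Agent.Pack.LT2.E2L1
import Fermat.Agent.Pack.LT2.E3L1
import Fermat.Agent.Pack.LT2.E16L2
import Fermat.Agent.Pack.LT3.E21L0
import Fermat.Agent.Pack.LT3.E24L1

set_option linter.all false

-- ===== PACK-BEGIN LT/CFT/H776/RayMove.lean
section



/-!
# Row LT, tower CFT, sub-tower EX (`CFT.16`), ASSET (helper776), OFF-MAIN

Ray data of main (`S55/H963/Ray.lean`) with an ENLARGED modulus, and the second inequality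
`RayDatum.card_le_finrank` of main with a finite EXCEPTIONAL set of primes.

* `enlarge776 D 𝔤 h𝔤` : the same class map with the modulus `D.m * 𝔤`;
* `exists_coprime_mul_eq_one776` (MOVING LEMMA) : every class has an inverse which is the class
  of a nonzero ideal coprime to `D.m * 𝔤`;
* `enlarge_isSurj776` : `D.IsSurj → (enlarge776 D 𝔤 h𝔤).IsSurj`;
* `card_le_finrank_except776` : the second inequality where the hypothesis on the primes of
  degree one of `L` is only required outside the divisors of `𝔤`;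
* `index_le_finrank_except776` : the same for a subgroup `B` (values in `B` on the primes of
  degree one outside `𝔤` ⟹ `B.index ≤ [L : K]`).

Mathlib + main only.  No `sorry`.
-/

set_option autoImplicit false
set_option linter.unusedSectionVars false
set_option linter.style.haveILetI false

open IsDedekindDomain NumberField
open Fermat.Agent.S55.H963

noncomputable section

namespace Fermat.Agent.LT.H776

variable {K : Type*} [Field K] [NumberField K] {A : Type*} [CommGroup A]

/-- Coprimality to a smaller ideal gives coprimality to a larger one. -/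
theorem isCoprime_of_le776 {R : Type*} [CommRing R] {I J J' : Ideal R} (h : IsCoprime I J)
    (hle : J ≤ J') : IsCoprime I J' := by
  rw [Ideal.isCoprime_iff_sup_eq] at h ⊢
  exact top_le_iff.mp (h ▸ sup_le_sup_left hle I)

/-- The ray datum `D` with the modulus `D.m * 𝔤`. -/
def enlarge776 (D : RayDatum K A) (𝔤 : Ideal (𝓞 K)) (h𝔤 : 𝔤 ≠ ⊥) : RayDatum K A where
  m := D.m * 𝔤
  m_ne_bot := by
    intro h
    rcases Ideal.mul_eq_bot.mp h with h1 | h1
    · exact D.m_ne_bot h1
    · exact h𝔤 h1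
  ψ := D.ψ
  map_mul I J hI hJ := D.map_mul I J (isCoprime_of_le776 hI Ideal.mul_le_left)
    (isCoprime_of_le776 hJ Ideal.mul_le_left)
  map_principal x hx := D.map_principal x (Ideal.mul_le_left hx)

@[simp] theorem enlarge_m776 (D : RayDatum K A) (𝔤 : Ideal (𝓞 K)) (h𝔤 : 𝔤 ≠ ⊥) :
    (enlarge776 D 𝔤 h𝔤).m = D.m * 𝔤 := rfl

@[simp] theorem enlarge_psi776 (D : RayDatum K A) (𝔤 : Ideal (𝓞 K)) (h𝔤 : 𝔤 ≠ ⊥)
    (I : Ideal (𝓞 K)) : (enlarge776 D 𝔤 h𝔤).ψ I = D.ψ I := rfl

/-- A maximal ideal which does not contain `J` is coprime to `J`. -/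
theorem isCoprime_of_not_le776 {R : Type*} [CommRing R] {P J : Ideal R} (hP : P.IsMaximal)
    (h : ¬ J ≤ P) : IsCoprime P J := by
  rw [Ideal.isCoprime_iff_sup_eq]
  by_contra hne
  have h1 : P = P ⊔ J := hP.eq_of_le hne le_sup_left
  exact h (le_trans le_sup_right h1.ge)

/-- An ideal `𝔟 ≠ ⊥` coprime to `𝔪` which is contained in every maximal ideal containing `𝔤`
and not `𝔪`. -/
theorem exists_coprime_part776 (𝔪 𝔤 : Ideal (𝓞 K)) (h𝔤 : 𝔤 ≠ ⊥) :
    ∃ 𝔟 : Ideal (𝓞 K), 𝔟 ≠ ⊥ ∧ IsCoprime 𝔟 𝔪 ∧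
      ∀ P : Ideal (𝓞 K), P.IsMaximal → 𝔤 ≤ P → ¬ 𝔪 ≤ P → 𝔟 ≤ P := by
  classical
  refine ⟨∏ P ∈ (Ideal.finite_factors h𝔤).toFinset.filter (fun P => ¬ 𝔪 ≤ P.asIdeal),
    P.asIdeal, ?_, ?_, ?_⟩
  · rw [← Ideal.zero_eq_bot]
    exact Finset.prod_ne_zero_iff.mpr (fun P _ => P.ne_bot)
  · refine IsCoprime.prod_left ?_
    intro P hP
    exact isCoprime_of_not_le776 P.isMaximal (Finset.mem_filter.mp hP).2
  · intro P hP hPg hPm
    have hP0 : P ≠ ⊥ := by
      intro h
      rw [h] at hPg
      exact h𝔤 (le_bot_iff.mp hPg)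
    have hmem : (⟨P, hP.isPrime, hP0⟩ : HeightOneSpectrum (𝓞 K)) ∈
        (Ideal.finite_factors h𝔤).toFinset.filter (fun P => ¬ 𝔪 ≤ P.asIdeal) := by
      refine Finset.mem_filter.mpr ⟨?_, hPm⟩
      rw [Set.Finite.mem_toFinset]
      exact Ideal.dvd_iff_le.mpr hPg
    have hdvd := Finset.dvd_prod_of_mem (fun Q : HeightOneSpectrum (𝓞 K) => Q.asIdeal) hmem
    exact Ideal.dvd_iff_le.mp hdvd

/-- CRT for two coprime ideals, with a nonzero solution. -/
theorem exists_crt_ne_zero776 {I J : Ideal (𝓞 K)} (hIJ : IsCoprime I J) (hI : I ≠ ⊥)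
    (hJ : J ≠ ⊥) (a : 𝓞 K) : ∃ y : 𝓞 K, y ≠ 0 ∧ y - 1 ∈ J ∧ y - a ∈ I := by
  obtain ⟨i, hi, j, hj, hij⟩ := Ideal.isCoprime_iff_exists.mp hIJ
  have hIJ0 : I * J ≠ ⊥ := by
    intro h
    rcases Ideal.mul_eq_bot.mp h with h1 | h1
    · exact hI h1
    · exact hJ h1
  obtain ⟨t, ht, ht0⟩ := Submodule.exists_mem_ne_zero_of_ne_bot hIJ0
  have htI : t ∈ I := Ideal.mul_le_left ht
  have htJ : t ∈ J := Ideal.mul_le_right ht
  have h1 : a * j + i - 1 ∈ J := by
    have : a * j + i - 1 = j * (a - 1) := by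
      have hi' : i = 1 - j := by rw [← hij]; ring
      rw [hi']; ring
    rw [this]
    exact J.mul_mem_right _ hj
  have h2 : a * j + i - a ∈ I := by
    have : a * j + i - a = i * (1 - a) := by
      have hj' : j = 1 - i := by rw [← hij]; ring
      rw [hj']; ring
    rw [this]
    exact I.mul_mem_right _ hi
  by_cases h0 : a * j + i = 0
  · refine ⟨a * j + i + t, ?_, ?_, ?_⟩
    · rw [h0, zero_add]; exact ht0
    · have : a * j + i + t - 1 = (a * j + i - 1) + t := by ring
      rw [this]; exact J.add_mem h1 htJ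
    · have : a * j + i + t - a = (a * j + i - a) + t := by ring
      rw [this]; exact I.add_mem h2 htI
  · exact ⟨a * j + i, h0, h1, h2⟩

/-- Dedekind: for `𝔠, 𝔟 ≠ ⊥` and `𝔪` coprime to `𝔠 𝔟` there is `y ≠ 0`, `y ≡ 1 mod 𝔪`, with
`(y) = 𝔠 𝔠'`, `𝔠'` coprime to `𝔟` and to `𝔪`. -/
theorem exists_span_eq_mul776 {𝔠 𝔟 𝔪 : Ideal (𝓞 K)} (h𝔠0 : 𝔠 ≠ ⊥) (h𝔟0 : 𝔟 ≠ ⊥)
    (h𝔪0 : 𝔪 ≠ ⊥) (hcop : IsCoprime (𝔠 * 𝔟) 𝔪) :
    ∃ (y : 𝓞 K) (𝔠' : Ideal (𝓞 K)), y - 1 ∈ 𝔪 ∧ Ideal.span {y} = 𝔠 * 𝔠' ∧ 𝔠' ≠ ⊥ ∧
      𝔟 ⊔ 𝔠' = ⊤ ∧ 𝔠' ⊔ 𝔪 = ⊤ := by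
  have hcb0 : 𝔠 * 𝔟 ≠ ⊥ := by
    intro h
    rcases Ideal.mul_eq_bot.mp h with h1 | h1
    · exact h𝔠0 h1
    · exact h𝔟0 h1
  have hcb_le : 𝔠 * 𝔟 ≤ 𝔠 := Ideal.mul_le_left
  obtain ⟨a, ha⟩ := IsDedekindDomain.exists_sup_span_eq hcb_le hcb0
  obtain ⟨y, hy0, hy1, hya⟩ := exists_crt_ne_zero776 hcop hcb0 h𝔪0 a
  have ha_mem : a ∈ 𝔠 := by
    have h1 : a ∈ 𝔠 * 𝔟 ⊔ Ideal.span {a} :=
      Ideal.mem_sup_right (Ideal.mem_span_singleton_self a)
    exact ha ▸ h1
  have hyc : y ∈ 𝔠 := by
    have : y = (y - a) + a := by ring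
    rw [this]
    exact 𝔠.add_mem (hcb_le hya) ha_mem
  have hle : 𝔠 ≤ 𝔠 * 𝔟 ⊔ Ideal.span {y} := by
    intro x hx
    have hx' : x ∈ 𝔠 * 𝔟 ⊔ Ideal.span {a} := ha.symm ▸ hx
    obtain ⟨u, hu, v, hv, rfl⟩ := Submodule.mem_sup.mp hx'
    obtain ⟨c, rfl⟩ := Ideal.mem_span_singleton'.mp hv
    have h3 : u + c * a = (u - c * (y - a)) + c * y := by ring
    rw [h3]
    refine Ideal.add_mem _ (Ideal.mem_sup_left ?_) (Ideal.mem_sup_right ?_)
    · exact (𝔠 * 𝔟).sub_mem hu ((𝔠 * 𝔟).mul_mem_left c hya)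
    · exact Ideal.mem_span_singleton'.mpr ⟨c, rfl⟩
  obtain ⟨𝔠', h𝔠'⟩ : 𝔠 ∣ Ideal.span {y} := by
    rw [Ideal.dvd_iff_le, Ideal.span_singleton_le_iff_mem]; exact hyc
  have h𝔠'0 : 𝔠' ≠ ⊥ := by
    intro h
    rw [h, Ideal.mul_bot, Ideal.span_singleton_eq_bot] at h𝔠'
    exact hy0 h𝔠'
  have hb𝔠' : 𝔟 ⊔ 𝔠' = ⊤ := by
    have h1 : 𝔠 * (𝔟 ⊔ 𝔠') = 𝔠 * ⊤ := by
      rw [Ideal.mul_sup, ← h𝔠', Ideal.mul_top]
      exact le_antisymm (sup_le hcb_le ((Ideal.span_singleton_le_iff_mem _).mpr hyc)) hle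
    exact mul_left_cancel₀ (by rwa [Ne, ← Ideal.zero_eq_bot] at h𝔠0) h1
  have hspan_le : Ideal.span {y} ≤ 𝔠' := by
    rw [h𝔠']; exact Ideal.mul_le_right
  have h𝔠'm : 𝔠' ⊔ 𝔪 = ⊤ := by
    rw [Ideal.eq_top_iff_one]
    have : (1 : 𝓞 K) = y - (y - 1) := by ring
    rw [this]
    exact Ideal.sub_mem _
      (Ideal.mem_sup_left (hspan_le (Ideal.mem_span_singleton_self y)))
      (Ideal.mem_sup_right hy1)
  exact ⟨y, 𝔠', hy1, h𝔠', h𝔠'0, hb𝔠', h𝔠'm⟩

/-- **MOVING LEMMA**: for a nonzero ideal `𝔠` coprime to the modulus there is a nonzero ideal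
`𝔠'` coprime to `D.m * 𝔤` with `ψ(𝔠) ψ(𝔠') = 1`. -/
theorem exists_coprime_mul_eq_one776 (D : RayDatum K A) {𝔠 : Ideal (𝓞 K)} (h𝔠0 : 𝔠 ≠ ⊥)
    (h𝔠 : IsCoprime 𝔠 D.m) {𝔤 : Ideal (𝓞 K)} (h𝔤 : 𝔤 ≠ ⊥) :
    ∃ 𝔠' : Ideal (𝓞 K), 𝔠' ≠ ⊥ ∧ IsCoprime 𝔠' (D.m * 𝔤) ∧ D.ψ 𝔠 * D.ψ 𝔠' = 1 := by
  obtain ⟨𝔟, h𝔟0, h𝔟m, h𝔟P⟩ := exists_coprime_part776 D.m 𝔤 h𝔤
  have hcbm : IsCoprime (𝔠 * 𝔟) D.m := IsCoprime.mul_left h𝔠 h𝔟m
  obtain ⟨y, 𝔠', hy1, h𝔠', h𝔠'0, hb𝔠', h𝔠'm⟩ :=
    exists_span_eq_mul776 h𝔠0 h𝔟0 D.m_ne_bot hcbm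
  have hcop' : IsCoprime 𝔠' D.m := Ideal.isCoprime_iff_sup_eq.mpr h𝔠'm
  refine ⟨𝔠', h𝔠'0, ?_, ?_⟩
  · rw [Ideal.isCoprime_iff_sup_eq]
    by_contra hne
    obtain ⟨P, hP, hle⟩ := Ideal.exists_le_maximal _ hne
    have h1 : 𝔠' ≤ P := le_trans le_sup_left hle
    have h2 : D.m * 𝔤 ≤ P := le_trans le_sup_right hle
    have hPm : ¬ D.m ≤ P := by
      intro h3
      have : (⊤ : Ideal (𝓞 K)) ≤ P := by rw [← h𝔠'm]; exact sup_le h1 h3
      exact hP.ne_top (top_le_iff.mp this)
    have hPg : 𝔤 ≤ P := by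
      rcases (hP.isPrime.mul_le).mp h2 with h3 | h3
      · exact absurd h3 hPm
      · exact h3
    have hbP : 𝔟 ≤ P := h𝔟P P hP hPg hPm
    have : (⊤ : Ideal (𝓞 K)) ≤ P := by rw [← hb𝔠']; exact sup_le hbP h1
    exact hP.ne_top (top_le_iff.mp this)
  · rw [← D.map_mul 𝔠 𝔠' h𝔠 hcop', ← h𝔠']
    exact D.map_principal y hy1

/-- Surjectivity survives the enlargement of the modulus. -/
theorem enlarge_isSurj776 (D : RayDatum K A) (𝔤 : Ideal (𝓞 K)) (h𝔤 : 𝔤 ≠ ⊥)
    (hsurj : D.IsSurj) : (enlarge776 D 𝔤 h𝔤).IsSurj := by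
  intro a
  obtain ⟨𝔠, h0, hc, hψ⟩ := hsurj a⁻¹
  obtain ⟨𝔠', h0', hc', h1⟩ := exists_coprime_mul_eq_one776 D h0 hc h𝔤
  refine ⟨𝔠', h0', hc', ?_⟩
  show D.ψ 𝔠' = a
  rw [hψ] at h1
  have h2 : a * (a⁻¹ * D.ψ 𝔠') = a * 1 := by rw [h1]
  rw [mul_inv_cancel_left, mul_one] at h2
  exact h2

variable {L : Type*} [Field L] [NumberField L] [Algebra K L]

/-- **The second inequality with a finite exceptional set** (`RayDatum.card_le_finrank` of main
for the enlarged modulus). -/
theorem card_le_finrank_except776 [Finite A] (D : RayDatum K A) (hsurj : D.IsSurj)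
    (𝔤 : Ideal (𝓞 K)) (h𝔤 : 𝔤 ≠ ⊥)
    (hsplit : ∀ w : HeightOneSpectrum (𝓞 L), (Ideal.absNorm w.asIdeal).Prime →
      IsCoprime (w.asIdeal.under (𝓞 K)) 𝔤 → IsCoprime (w.asIdeal.under (𝓞 K)) D.m →
        D.ψ (w.asIdeal.under (𝓞 K)) = 1) :
    Nat.card A ≤ Module.finrank K L := by
  refine RayDatum.card_le_finrank (L := L) (enlarge776 D 𝔤 h𝔤)
    (enlarge_isSurj776 D 𝔤 h𝔤 hsurj) ?_
  intro w hw hcop
  have hcop' : IsCoprime (w.asIdeal.under (𝓞 K)) (D.m * 𝔤) := hcop
  exact hsplit w hw (isCoprime_of_le776 hcop' Ideal.mul_le_right)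
    (isCoprime_of_le776 hcop' Ideal.mul_le_left)

/-- The same for a subgroup: if the primes of degree one of `L` (outside `𝔤`) have class in
`B`, then `B.index ≤ [L : K]`. -/
theorem index_le_finrank_except776 [Finite A] (D : RayDatum K A) (hsurj : D.IsSurj)
    (B : Subgroup A) (𝔤 : Ideal (𝓞 K)) (h𝔤 : 𝔤 ≠ ⊥)
    (hsplit : ∀ w : HeightOneSpectrum (𝓞 L), (Ideal.absNorm w.asIdeal).Prime →
      IsCoprime (w.asIdeal.under (𝓞 K)) 𝔤 → IsCoprime (w.asIdeal.under (𝓞 K)) D.m →
        D.ψ (w.asIdeal.under (𝓞 K)) ∈ B) :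
    B.index ≤ Module.finrank K L := by
  rw [Subgroup.index_eq_card]
  refine card_le_finrank_except776 (L := L) (D.map (QuotientGroup.mk' B))
    (RayDatum.map_isSurj D _ (QuotientGroup.mk'_surjective B) hsurj) 𝔤 h𝔤 ?_
  intro w hw hg hm
  show (QuotientGroup.mk' B) (D.ψ (w.asIdeal.under (𝓞 K))) = 1
  exact (QuotientGroup.eq_one_iff _).mpr (hsplit w hw hg hm)

end Fermat.Agent.LT.H776

end

end
-- ===== PACK-END LT/CFT/H776/RayMove.lean

-- ===== PACK-BEGIN LT/T2/H465/LeafT03Closed.lean
section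






/-!
# Row LT, tower T2, leaf T2.23 = `T2.LeafT03` (`GPSCoreT`, THE ESTIMATE in the class of T5): CLOSED

OFF-MAIN (helper465, owner of registry row 1146).

    leafT03_465 K : T2.LeafT03 K        (VERBATIM vs `LT/T2/SpecTau.lean` 4d2b0fc2)
    gpsCoreT465 K hT1 𝔫 τ h𝔫 : T2.GPSCoreT K 𝔫 τ   (no condition on `τ`)
    gpsCoreCore465 K hT1 𝔫 h𝔫 : GPSCoreCore K 𝔫     (the estimate for the core classes)

from the top `leafT03_of_core` (GPSCoreCut.lean, helper465) and the four closed leaves: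

* T2.23a `leafFDCore465` (helper465; proof of helper437 per function + helper511 `FDAtPartial`,
  inputs helper8 `FDCalc`, helper187 `LevelNhds`, helper793 `Cpt`, helper729 `Contr`,
  helper988 `ConjAlg`),
* T2.23b `H386.leafSoft1Core_386` (helper386, `SoftCore465.lean` addbcdc8),
* T2.03c.1 `leafCount323` (helper323, `Count/Leaf.lean` 64271b2e),
* T2.23c `leafIntCore465` (helper465).

All copies are byte-identical to the bytes of the owners.
-/

set_option autoImplicit false

open IsDedekindDomain NumberField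
open Fermat.Agent.LT.H556.A0

namespace Fermat.Agent.LT.T2.H465

open Fermat.Agent.LT.T2

/-- **T2.23 `LeafT03`**: THE ESTIMATE in the class of T5, unconditional (VERBATIM). -/
theorem leafT03_465 (K : Type) [Field K] [NumberField K] : LeafT03 K :=
  leafT03_of_core (leafFDCore465 K) (Fermat.Agent.LT.T2.H386.leafSoft1Core_386 K)
    (Fermat.Agent.LT.T2.H323.leafCount323 K) (leafIntCore465 K)

/-- Type check against the frozen Prop of `SpecTau.lean`. -/
example (K : Type) [Field K] [NumberField K] : Fermat.Agent.LT.T2.LeafT03 K := leafT03_465 K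

/-- THE ESTIMATE for the core classes. -/
theorem gpsCoreCore465 (K : Type) [Field K] [NumberField K] (hT1 : T1.T1Out K)
    (𝔫 : Ideal (𝓞 K)) (h𝔫 : 𝔫 ≠ ⊥) : GPSCoreCore K 𝔫 :=
  gpsCoreCore_of_core
    (Fermat.Agent.LT.T2.H386.leafSoft1Core_386 K hT1 𝔫 h𝔫 (leafFDCore465 K hT1 𝔫 h𝔫))
    (leafIntCore465 K hT1 (Fermat.Agent.LT.T2.H323.leafCount323 K hT1))

/-- THE ESTIMATE in the class of T5, for EVERY function `τ`. -/
theorem gpsCoreT465 (K : Type) [Field K] [NumberField K] (hT1 : T1.T1Out K)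
    (𝔫 : Ideal (𝓞 K)) (τ : G K → ℂ) (h𝔫 : 𝔫 ≠ ⊥) : GPSCoreT K 𝔫 τ :=
  gpsCoreT_of_gpsCoreCore τ (gpsCoreCore465 K hT1 𝔫 h𝔫)

/-- T2.03 (`GPSCore`, class of A0) from `T2.LeafT14`. -/
theorem leaf03_of_leafT14_465 (K : Type) [Field K] [NumberField K] (h14 : LeafT14 K) :
    Leaf03 K :=
  fun hT1 𝔫 h𝔫 => gpsCore_of_gpsCoreCore h14 (gpsCoreCore465 K hT1 𝔫 h𝔫)

end Fermat.Agent.LT.T2.H465

end
-- ===== PACK-END LT/T2/H465/LeafT03Closed.lean

-- ===== PACK-BEGIN LT/T7/H893/SupplyGeoSpec.lean
section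



/-!
# Row LT, tower T7, node T7.L2.1.G0 `PreGeoC` (sub-architect helper893): FOURTH CUT -- Spec

OFF-MAIN.  Definitions and frozen Props only (the proved top is `SupplyGeoTop.lean`).  No
`sorry`, nothing assumed.  ADDITIVE.

    preGeoC_of893 : GlobC Mt K K' → ConstrC P Mt K K' → EkProdUpC K K' → EkProdDownC K K'
                      → RegSuppC K' → RegSupp0C K → PreGeoC P K K'      (for EVERY `Mt`)

## The cut: GLOBAL matching is split off from the construction

The cut is PARAMETRIC in a relation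

    Mt : L2Base K K' → Ideal (𝓞 K) → (G K' → ℂ) → (G K → ℂ) → Prop

"`φ'` (over `K'`, level `𝔫 𝒪_{K'}`) and `f` (over `K`, level `𝔫`) are LOCALLY MATCHED
DECOMPOSABLE functions" (pure tensors, or finite sums and averages of pure tensors, with
matched local factors).  The relation of record is the one of the station C2 (helper305,
`LT/T7/H305/MatchSpec.lean`); the top is proved for every relation.

* **`GlobC Mt K K'`** (NODE C2 = the matching theorem; helper305 / helper584): locally matched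
  test functions which are regular are MATCHED (`IsGlobMatch`): unfolding of the global terms
  (helper584, `T7/H584/MatchTop.lean`), factorisation into local (twisted) orbital integrals,
  local matching, volumes, vanishing off the norms (`T6.HasseNormTCC`).
* **`ConstrC P Mt K K'`** (NODE = the construction): pre-data with the operator properties
  (`IsL2PreOp`), the supports (`IsL2PreSupp`) and LOCALLY matched families.
* the hypotheses of `GlobC` for the families are supplied by the leaves of the second and third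
  cut: test functions by `EkProdUpC` / `EkProdDownC`, regularity by `RegSuppC` / `RegSupp0C`
  and the closed device of T5.
-/

set_option autoImplicit false

open AutomorphicForm IsDedekindDomain NumberField MeasureTheory
open scoped ComplexConjugate

noncomputable section

namespace Fermat.Agent.LT.T7.H893

open Fermat.Agent.LT.H556 Fermat.Agent.LT.H556.A0 Fermat.Agent.LT.T7

attribute [local instance] Fermat.Agent.LT.T5.instMeasurableSpaceG

section Leaves

variable (P : EKCond)
variable (K K' : Type) [Field K] [NumberField K] [Field K'] [NumberField K'] [Algebra K K']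

/-- The type of the relations "locally matched decomposable functions". -/
abbrev MtRel : Type :=
  L2Base K K' → Ideal (𝓞 K) → (G K' → ℂ) → (G K → ℂ) → Prop

variable (Mt : MtRel K K')

/-- **NODE T7.L2.1.H1 = GLOB (the matching theorem, C2).**  For a good common part and a level
`𝔫 ≠ 0`: locally matched test functions of levels `𝔫 𝒪_{K'}` and `𝔫` which are `σ`-regular,
resp. regular, are matched. -/
def GlobC : Prop :=
  ∀ (ℓ : ℕ) (Φ : HeckeEigensystem K' ℂ), IsCycExt K K' ℓ → ℓ ≠ 2 → TotCplx K →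
    ∀ B : L2Base K K', IsL2Base ℓ Φ B → ∀ 𝔫 : Ideal (𝓞 K), 𝔫 ≠ ⊥ →
    ∀ (φ' : G K' → ℂ) (f : G K → ℂ), Mt B 𝔫 φ' f →
      T5.IsTestFn (upI (K' := K') 𝔫) T5.trivType φ' → T5.IsTwRegular B.s B.l B.k φ' →
      T5.IsTestFn 𝔫 T5.trivType f → T5.IsTwRegular (T5.AdelicAut.id K) 1 ⊤ f →
      IsGlobMatch (B.comp 𝔫) φ' f

/-- **NODE T7.L2.1.H2 = CONSTR (the construction).**  For a common part and one bad element
there are pre-data with the operator properties and the supports whose families are LOCALLY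
matched. -/
def ConstrC : Prop :=
  ∀ ℓ : ℕ, IsCycExt K K' ℓ → ℓ ≠ 2 → TotCplx K →
    ∀ Φ : HeckeEigensystem K' ℂ, A0.IsCuspAdelicSph0 K' Φ → ConstOnFibres K Φ → P K' Φ →
      ∀ B : L2Base K K', IsL2Base ℓ Φ B → ∀ g : G K', B.IsBad g →
        ∃ E : L2Pre K K', IsL2PreOp ℓ Φ B g E ∧ IsL2PreSupp ℓ B E ∧
          ∀ (X : List (Gen K')) (k : ℤ) (m : ℕ), (∀ x ∈ X, x.Out B.S') →
            Mt B E.𝔫 (E.up B X k m) (E.down B X k m)

/-- `EkProdUpC` for pre-data with the operator properties only (the statement of the second cut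
uses `IsL2Pre`; the proofs use the operator fields only). -/
def EkProdUpOpC : Prop :=
  ∀ (ℓ : ℕ) (Φ : HeckeEigensystem K' ℂ) (B : L2Base K K'), IsL2Base ℓ Φ B →
    ∀ g : G K', B.IsBad g → ∀ E : L2Pre K K', IsL2PreOp ℓ Φ B g E →
    ∀ (X : List (Gen K')) (k : ℤ) (m : ℕ), (∀ x ∈ X, x.Out B.S') →
      IsEKProd (upI (K' := K') E.𝔫) B.R' (E.up B X k m)

/-- `EkProdDownC` for pre-data with the operator properties only. -/
def EkProdDownOpC : Prop :=
  ∀ (ℓ : ℕ) (Φ : HeckeEigensystem K' ℂ) (B : L2Base K K'), IsL2Base ℓ Φ B →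
    ∀ g : G K', B.IsBad g → ∀ E : L2Pre K K', IsL2PreOp ℓ Φ B g E →
    ∀ (X : List (Gen K')) (k : ℤ) (m : ℕ), (∀ x ∈ X, x.Out B.S') →
      IsEKProd E.𝔫 B.R (E.down B X k m)

end Leaves

end Fermat.Agent.LT.T7.H893

end

end
-- ===== PACK-END LT/T7/H893/SupplyGeoSpec.lean

-- ===== PACK-BEGIN LT/T7/H176/OpsComm.lean
section




/-!
# Row LT, tower T7, node T7.L2.2.B4 `OpsC561`, leaf B4.4 `OpsCommC561` (helper176)

OFF-MAIN.  `opsCommC176 : H561.OpsCommC561 K K'` (VERBATIM vs `LT/T7/H561/OpsSpec.lean` of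
helper561, sha256 17293f38), UNCONDITIONAL: the operators at two different places of the orbit
commute.

Proof.  `o j ≠ o j'` for `j ≠ j' < ℓ` (`orbit_ne` + `orbit_rel`: the relation `PlaceRel` is
injective, `finRel_inj415` of helper415); elements supported at two different finite places
commute (`G_ext129` of helper129); finite sums.

Imports: byte-identical copies of the spec closure, `LT/H129/{Comp,Local}.lean` (helper129),
`LT/H415`, `T5/H415/AutT5.lean` (helper415).
-/

set_option autoImplicit false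

open AutomorphicForm IsDedekindDomain NumberField MeasureTheory
open scoped ComplexConjugate Matrix

noncomputable section

namespace Fermat.Agent.LT.T7.H176

open Fermat.Agent.LT.H556 Fermat.Agent.LT.H556.A0 Fermat.Agent.LT.T5 Fermat.Agent.LT.T7
open Fermat.Agent.LT.T7.H561 Fermat.Agent.LT.H129

section OneField

variable {K : Type} [Field K] [NumberField K]

/-- Elements supported at two different finite places commute. -/
theorem commute_of_local_ne176 {v v' : HeightOneSpectrum (𝓞 K)} (hne : v ≠ v') {g h : G K}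
    (hg : IsLocalAtFin v g) (hh : IsLocalAtFin v' h) : g * h = h * g := by
  rw [isLocalAtFin_iff129] at hg hh
  apply G_ext129
  · intro w
    rw [map_mul, map_mul, hg.1 w, hh.1 w]
  · intro u
    rw [map_mul, map_mul]
    by_cases hu : u = v
    · have hu' : u ≠ v' := fun h' => hne (hu.symm.trans h')
      rw [hh.2 u hu', mul_one, one_mul]
    · rw [hg.2 u hu, mul_one, one_mul]

/-- The places of an orbit with `o j ≠ o 0` for `0 < j < l` are pairwise different. -/
theorem orbit_injOn176 (s : AdelicAut K) {l : ℕ} {o : ℕ → HeightOneSpectrum (𝓞 K)}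
    (hrel : ∀ j : ℕ, PlaceRel s (o j) (o (j + 1)))
    (hne : ∀ j : ℕ, 0 < j → j < l → o j ≠ o 0) :
    ∀ j j' : ℕ, j < l → j' < l → j ≠ j' → o j ≠ o j' := by
  have key : ∀ d j : ℕ, 0 < d → j + d < l → o j ≠ o (j + d) := by
    intro d j
    induction j with
    | zero =>
      intro hd hl h
      rw [Nat.zero_add] at hl h
      exact hne d hd hl h.symm
    | succ j ih =>
      intro hd hl h
      apply ih hd (by omega)
      have h1 : PlaceRel s (o j) (o (j + 1)) := hrel j
      have h2 : PlaceRel s (o (j + d)) (o (j + 1)) := by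
        have := hrel (j + d)
        rw [show j + d + 1 = j + 1 + d by omega, ← h] at this
        exact this
      exact H415.finRel_inj415 s.σ _ _ _ h1 h2
  intro j j' hj hj' hjj
  rcases Nat.lt_or_gt_of_ne hjj with h | h
  · have := key (j' - j) j (by omega) (by omega)
    rwa [show j + (j' - j) = j' by omega] at this
  · have := key (j - j') j' (by omega) (by omega)
    rw [show j' + (j - j') = j by omega] at this
    exact fun e => this e.symm

end OneField

section TwoFields

variable {K K' : Type} [Field K] [NumberField K] [Field K'] [NumberField K'] [Algebra K K']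

/-- **LEAF B4.4 `OpsCommC561`.** -/
theorem opsCommC176 : OpsCommC561 K K' := by
  intro ℓ Φ Dt hs Hs ω hsys j j' hj hj' hjj ψ x
  have hDt := hs.data
  have hne : Dt.o j ≠ Dt.o j' :=
    orbit_injOn176 Dt.s hDt.orbit_rel hDt.orbit_ne j j' hj hj' hjj
  have hSS : ∀ h ∈ Hs j, ∀ h' ∈ Hs j', h * h' = h' * h := fun h hh h' hh' =>
    commute_of_local_ne176 hne (hsys.Hs_local j h hh) (hsys.Hs_local j' h' hh')
  have hSω : ∀ h ∈ Hs j, h * ω j' = ω j' * h := fun h hh =>
    commute_of_local_ne176 hne (hsys.Hs_local j h hh) (hsys.ω_local j')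
  have hωω : ω j * ω j' = ω j' * ω j :=
    commute_of_local_ne176 hne (hsys.ω_local j) (hsys.ω_local j')
  refine ⟨?_, ?_, ?_⟩
  · show ∑ h ∈ Hs j, ∑ h' ∈ Hs j', ψ (x * h * h') = ∑ h' ∈ Hs j', ∑ h ∈ Hs j, ψ (x * h' * h)
    rw [Finset.sum_comm]
    refine Finset.sum_congr rfl fun h' hh' => Finset.sum_congr rfl fun h hh => ?_
    rw [mul_assoc, hSS h hh h' hh', ← mul_assoc]
  · show ∑ h ∈ Hs j, ψ (x * h * ω j') = ∑ h ∈ Hs j, ψ (x * ω j' * h)
    refine Finset.sum_congr rfl fun h hh => ?_
    rw [mul_assoc, hSω h hh, ← mul_assoc]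
  · show ψ (x * ω j * ω j') = ψ (x * ω j' * ω j)
    rw [mul_assoc, hωω, ← mul_assoc]

end TwoFields

end Fermat.Agent.LT.T7.H176

end

end
-- ===== PACK-END LT/T7/H176/OpsComm.lean

-- ===== PACK-BEGIN LT/T7/H193/TorusPar.lean
section



/-!
# Row LT, tower T7, node T7.L2.1, station NAT-MATCH, leaf RT.3 = TORUS-PAR (SPARE of row 2581)

Seat helper193, OFF-MAIN.  Mathlib only (the proof of helper563, `T7/H563/TorusMeanCore.lean`,
for a basis with an arbitrary index type).  New names only (suffix `193`).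
-/

set_option autoImplicit false

open MeasureTheory

namespace Fermat.Agent.LT.T7.H193

/-- Periodicity under a basis gives invariance under the lattice spanned by it. -/
theorem periodic_spanPar193 {ι ι' : Type} (b : Module.Basis ι ℝ (ι' → ℝ)) (f : (ι' → ℝ) → ℂ)
    (hf : ∀ (i : ι) (t : ι' → ℝ), f (t + b i) = f t) :
    ∀ g ∈ Submodule.span ℤ (Set.range b), ∀ x : ι' → ℝ, f (g + x) = f x := by
  intro g hg
  induction hg using Submodule.span_induction with
  | mem y hy =>
    obtain ⟨i, rfl⟩ := hy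
    intro x
    rw [add_comm]
    exact hf i x
  | zero =>
    intro x
    rw [zero_add]
  | add y z _ _ hy hz =>
    intro x
    rw [add_assoc, hy, hz]
  | smul n y _ hy =>
    have hneg : ∀ x : ι' → ℝ, f (-y + x) = f x := by
      intro x
      have h := hy (-y + x)
      rw [add_neg_cancel_left] at h
      exact h.symm
    have hnat : ∀ (k : ℕ) (x : ι' → ℝ), f ((k : ℤ) • y + x) = f x := by
      intro k
      induction k with
      | zero => intro x; simp
      | succ k ih =>
        intro x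
        have e : ((k + 1 : ℕ) : ℤ) • y + x = (k : ℤ) • y + (y + x) := by
          push_cast
          rw [add_smul, one_smul, add_assoc]
        rw [e, ih, hy]
    have hnatneg : ∀ (k : ℕ) (x : ι' → ℝ), f ((-(k : ℤ)) • y + x) = f x := by
      intro k
      induction k with
      | zero => intro x; simp
      | succ k ih =>
        intro x
        have e : (-((k + 1 : ℕ) : ℤ)) • y + x = (-(k : ℤ)) • y + (-y + x) := by
          push_cast
          rw [neg_add, add_smul, neg_one_smul, add_assoc]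
        rw [e, ih, hneg]
    intro x
    obtain ⟨k, rfl | rfl⟩ := Int.eq_nat_or_neg n
    · exact hnat k x
    · exact hnatneg k x

/-- **LEAF RT.3 = TORUS-PAR.** -/
theorem torusParC193 : TorusParC := by
  classical
  intro ι ι' _ _ b
  refine ⟨ZSpan.fundamentalDomain_measurableSet b,
    ZSpan.fundamentalDomain_isBounded b, ?_, ?_⟩
  · exact pos_iff_ne_zero.2 (ZSpan.measure_fundamentalDomain_ne_zero b)
  · intro f hf s
    have hD := ZSpan.isAddFundamentalDomain' b (volume : Measure (ι' → ℝ))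
    have : Countable (Submodule.span ℤ (Set.range b)).toAddSubgroup := by
      change Countable (Submodule.span ℤ (Set.range b))
      infer_instance
    have hL : ∀ (g : (Submodule.span ℤ (Set.range b)).toAddSubgroup) (x : ι' → ℝ),
        f (g +ᵥ x) = f x := by
      intro g x
      exact periodic_spanPar193 b f hf (g : ι' → ℝ) g.2 x
    have hmp : MeasurePreserving (fun u : ι' → ℝ => u + (-s)) volume volume :=
      measurePreserving_add_right volume (-s)
    have hD' : IsAddFundamentalDomain (Submodule.span ℤ (Set.range b)).toAddSubgroup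
        ((fun u : ι' → ℝ => u + (-s)) ⁻¹' ZSpan.fundamentalDomain b) volume := by
      refine hD.preimage_of_equiv hmp.quasiMeasurePreserving (e := id) Function.bijective_id ?_
      intro g x
      change ((g : ι' → ℝ) + x) + (-s) = (g : ι' → ℝ) + (x + (-s))
      rw [add_assoc]
    have hmp2 : MeasurePreserving (fun t : ι' → ℝ => t + s) volume volume :=
      measurePreserving_add_right volume s
    have hemb : MeasurableEmbedding (fun t : ι' → ℝ => t + s) :=
      measurableEmbedding_addRight s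
    have hpre : (fun t : ι' → ℝ => t + s) ⁻¹'
        ((fun u : ι' → ℝ => u + (-s)) ⁻¹' ZSpan.fundamentalDomain b)
        = ZSpan.fundamentalDomain b := by
      ext t
      simp only [Set.mem_preimage]
      rw [add_neg_cancel_right]
    have h1 := hmp2.setIntegral_preimage_emb hemb f
      ((fun u : ι' → ℝ => u + (-s)) ⁻¹' ZSpan.fundamentalDomain b)
    rw [hpre] at h1
    rw [h1]
    exact hD'.setIntegral_eq hD hL

end Fermat.Agent.LT.T7.H193

end
-- ===== PACK-END LT/T7/H193/TorusPar.lean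

-- ===== PACK-BEGIN LT/T7/H560/FibCard.lean
section



/-!
# Row LT, tower T7, node T7.L2.1, leaf RT.2 `FibCardC` (helper560, registry 2580)

OFF-MAIN.  The frozen Prop is `Fermat.Agent.LT.T7.H193.FibCardC` of helper193's
`T7/H193/NatMatchSpec.lean` (vendored byte-identical with its closure).  Proved here with no
hole: `fibCardC560 (K K') : H193.FibCardC K K'`.

The proof.  For every extension `K' / K` of number fields and every infinite place `v` of `K`:
`∑_{w ∣ v} mult w = mult v · [K' : K]` (`sum_mult_fib560b`, from Mathlib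
`InfinitePlace.sum_inertiaDeg_eq_finrank` and `mult_mul_finrank`).  If `v` is complex, every
place over `v` is complex, all the multiplicities are `2`, and the fibre has `[K' : K]` elements
(`card_fib_of_isComplex560`; no Galois hypothesis is used).
-/

set_option autoImplicit false
set_option linter.unusedSectionVars false
set_option linter.style.haveILetI false

open IsDedekindDomain NumberField MeasureTheory

noncomputable section

namespace Fermat.Agent.LT.T7.H560

open Fermat.Agent.LT.H556 Fermat.Agent.LT.H556.A0 Fermat.Agent.LT.T7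

variable (K K' : Type) [Field K] [NumberField K] [Field K'] [NumberField K'] [Algebra K K']

open Classical in
/-- The sum of the multiplicities over the fibre of an infinite place. -/
theorem sum_mult_fib560b (v : InfinitePlace K) :
    ∑ w' ∈ Finset.univ.filter (fun w' : InfinitePlace K' => w'.comap (algebraMap K K') = v),
        w'.mult = v.mult * Module.finrank K K' := by
  have h := NumberField.InfinitePlace.sum_inertiaDeg_eq_finrank K K' v
  rw [← h, Finset.mul_sum]
  have hset : (NumberField.InfinitePlace.placesOver K' v).toFinset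
      = Finset.univ.filter (fun w' : InfinitePlace K' => w'.comap (algebraMap K K') = v) := by
    ext w'
    simp only [Set.mem_toFinset, Finset.mem_filter, Finset.mem_univ, true_and]
    constructor
    · intro hw
      haveI : w'.LiesOver v := hw
      exact NumberField.InfinitePlace.LiesOver.comap_eq w' v
    · intro hw
      subst hw
      exact (⟨rfl⟩ : w'.LiesOver (w'.comap (algebraMap K K')))
  rw [hset]
  refine Finset.sum_congr rfl fun w' hw' => ?_
  have hw : w'.comap (algebraMap K K') = v := (Finset.mem_filter.mp hw').2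
  subst hw
  haveI : w'.LiesOver (w'.comap (algebraMap K K')) := ⟨rfl⟩
  rw [NumberField.InfinitePlace.inertiaDeg_eq_finrank,
    NumberField.InfinitePlace.mult_mul_finrank]

open Classical in
/-- A complex place of `K` has exactly `[K' : K]` places of `K'` over it. -/
theorem card_fib_of_isComplex560 {v : InfinitePlace K} (hv : v.IsComplex) :
    Nat.card {w : InfinitePlace K' // w.comap (algebraMap K K') = v} = Module.finrank K K' := by
  have h := sum_mult_fib560b K K' v
  have h2 : ∀ w' ∈ Finset.univ.filter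
      (fun w' : InfinitePlace K' => w'.comap (algebraMap K K') = v), w'.mult = 2 := by
    intro w' hw'
    have hw : w'.comap (algebraMap K K') = v := (Finset.mem_filter.mp hw').2
    apply NumberField.InfinitePlace.IsComplex.mult_eq_two
    apply NumberField.InfinitePlace.IsComplex.of_comap (algebraMap K K')
    rw [hw]
    exact hv
  rw [Finset.sum_congr rfl h2, Finset.sum_const, hv.mult_eq_two, smul_eq_mul] at h
  have h3 : (Finset.univ.filter
      (fun w' : InfinitePlace K' => w'.comap (algebraMap K K') = v)).card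
      = Module.finrank K K' := by omega
  rw [← h3, Nat.card_eq_fintype_card, Fintype.card_subtype]

/-- **LEAF RT.2 = FIB-CARD.** -/
theorem fibCardC560 : H193.FibCardC K K' := by
  intro ℓ hcyc htc v
  rw [card_fib_of_isComplex560 K K' (htc v), hcyc.degree]

end Fermat.Agent.LT.T7.H560

end

end
-- ===== PACK-END LT/T7/H560/FibCard.lean

-- ===== PACK-BEGIN LT/T7/H209/LtrTest.lean
section



/-!
# Row LT, tower T7, leaves EKPROD-UP (helper209): left translates of test functions

OFF-MAIN, ADDITIVE (all names end in `209`).  Vocabulary: A0, `T5/Spec.lean` v4,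
`T7/H893/SupplyFamSpec.lean`; local embeddings of helper129.  Nothing assumed.

`IsRT209 𝔑 φ` = the clauses of `T5.IsTestFn 𝔑 T5.trivType φ` except the left invariance under
the level group.  The class is stable under left translation by elements which are trivial at
the infinite places, finite sums and scalar multiples.
-/

set_option autoImplicit false

open AutomorphicForm IsDedekindDomain NumberField MeasureTheory
open scoped ComplexConjugate ContDiff

noncomputable section

namespace Fermat.Agent.LT.T7.H209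

open Fermat.Agent.LT.H556 Fermat.Agent.LT.H556.A0 Fermat.Agent.LT.T7 Fermat.Agent.LT.H129

attribute [local instance] Fermat.Agent.LT.T5.instMeasurableSpaceG

variable {K : Type} [Field K] [NumberField K]

/-! ## Elements which are trivial at the infinite places -/

/-- `b` is trivial at every infinite place. -/
def TrivInf209 (b : G K) : Prop := ∀ w : InfinitePlace K, TrivAtInf w b

theorem trivInf_iff209 (b : G K) : TrivInf209 b ↔ ∀ w : InfinitePlace K, infCompHom129 w b = 1 :=
  forall_congr' fun w => trivAtInf_iff129 w b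

theorem trivInf_one209 : TrivInf209 (1 : G K) := by
  rw [trivInf_iff209]
  exact fun w => map_one _

theorem trivInf_mul209 {a b : G K} (ha : TrivInf209 a) (hb : TrivInf209 b) :
    TrivInf209 (a * b) := by
  rw [trivInf_iff209] at *
  intro w
  rw [map_mul, ha w, hb w, mul_one]

theorem trivInf_inv209 {a : G K} (ha : TrivInf209 a) : TrivInf209 a⁻¹ := by
  rw [trivInf_iff209] at *
  intro w
  rw [map_inv, ha w, inv_one]

theorem trivInf_zpow209 {a : G K} (ha : TrivInf209 a) (k : ℤ) : TrivInf209 (a ^ k) := by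
  rw [trivInf_iff209] at *
  intro w
  rw [map_zpow, ha w, one_zpow]

theorem trivInf_of_isLocalAtFin209 {v : HeightOneSpectrum (𝓞 K)} {a : G K}
    (ha : IsLocalAtFin v a) : TrivInf209 a := ha.1

theorem trivInf_of_inLevelGroup209 {𝔫 : Ideal (𝓞 K)} {a : G K} (ha : InLevelGroup 𝔫 a) :
    TrivInf209 a := ha.1

/-- An element which is trivial at infinity commutes with the elements supported at an infinite
place. -/
theorem comm_of_trivInf209 {b k : G K} (hb : TrivInf209 b) {w : InfinitePlace K}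
    (hk : IsLocalAtInf w k) : b * k = k * b := by
  rw [trivInf_iff209] at hb
  apply G_ext129
  · intro w'
    rw [map_mul, map_mul, hb w', one_mul, mul_one]
  · intro v
    have hv : finCompHom129 v k = 1 := (trivAtFin_iff129 v k).1 (hk.2 v)
    rw [map_mul, map_mul, hv, one_mul, mul_one]

/-! ## Test functions without the left invariance under the level group -/

/-- The clauses of `T5.IsTestFn 𝔑 T5.trivType φ` except `level_left`. -/
structure IsRT209 (𝔑 : Ideal (𝓞 K)) (φ : G K → ℂ) : Prop where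
  cont : Continuous φ
  supp : HasCompactSupport φ
  smooth : T5.IsSmoothAtInf φ
  level_right : ∀ u : G K, InLevelGroup 𝔑 u → ∀ g : G K, φ (g * u) = φ g
  arch_right : ∀ (w : InfinitePlace K) (k : G K), IsArchCompact w k → ∀ g : G K, φ (g * k) = φ g
  arch_left : ∀ (w : InfinitePlace K) (k : G K), IsArchCompact w k → ∀ g : G K, φ (k * g) = φ g

theorem trivType_inv209 (k : G K) : ((T5.trivType k : ℂ))⁻¹ = 1 := by
  show ((1 : ℂ))⁻¹ = 1
  exact inv_one

theorem isRT_of_isTestFn209 {𝔑 : Ideal (𝓞 K)} {φ : G K → ℂ}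
    (h : T5.IsTestFn 𝔑 T5.trivType φ) : IsRT209 𝔑 φ where
  cont := h.cont
  supp := h.supp
  smooth := h.smooth
  level_right := h.inv.level_right
  arch_right := fun w k hk g => by
    rw [h.inv.arch_right w k hk g, trivType_inv209, one_mul]
  arch_left := fun w k hk g => by
    rw [h.inv.arch_left w k hk g, trivType_inv209, one_mul]

/-- Assembly: the right half and the left invariance under the level group. -/
theorem isTestFn_of_isRT209 {𝔑 : Ideal (𝓞 K)} {φ : G K → ℂ} (hk : T5.IsKType (T5.trivType (K := K)))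
    (h : IsRT209 𝔑 φ) (hl : ∀ u : G K, InLevelGroup 𝔑 u → ∀ g : G K, φ (u * g) = φ g) :
    T5.IsTestFn 𝔑 T5.trivType φ where
  ktype := hk
  cont := h.cont
  supp := h.supp
  smooth := h.smooth
  inv :=
    { level_right := h.level_right
      level_left := hl
      arch_right := fun w k hk g => by
        rw [h.arch_right w k hk g, trivType_inv209, one_mul]
      arch_left := fun w k hk g => by
        rw [h.arch_left w k hk g, trivType_inv209, one_mul] }

theorem isRT_ltr209 {𝔑 : Ideal (𝓞 K)} {b : G K} (hb : TrivInf209 b) {φ : G K → ℂ}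
    (h : IsRT209 𝔑 φ) : IsRT209 𝔑 (H893.ltr b φ) where
  cont := continuous_ltr209 b h.cont
  supp := hasCompactSupport_ltr209 b h.supp
  smooth := fun n f hf hs g => by
    have := h.smooth n f hf hs (b⁻¹ * g)
    have e : (fun t => H893.ltr b φ (g * f t)) = fun t => φ (b⁻¹ * g * f t) := by
      funext t
      rw [ltr_apply209, mul_assoc]
    rw [e]
    exact this
  level_right := fun u hu g => by
    rw [ltr_apply209, ltr_apply209, ← mul_assoc, h.level_right u hu]
  arch_right := fun w k hk g => by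
    rw [ltr_apply209, ltr_apply209, ← mul_assoc, h.arch_right w k hk]
  arch_left := fun w k hk g => by
    rw [ltr_apply209, ltr_apply209, ← mul_assoc, comm_of_trivInf209 (trivInf_inv209 hb) hk.1,
      mul_assoc, h.arch_left w k hk]

theorem isRT_sum209 {𝔑 : Ideal (𝓞 K)} {ι : Type} (s : Finset ι) (φ : ι → G K → ℂ)
    (h : ∀ i ∈ s, IsRT209 𝔑 (φ i)) : IsRT209 𝔑 (fun y => ∑ i ∈ s, φ i y) where
  cont := continuous_finsetSum s fun i hi => (h i hi).cont
  supp := hasCompactSupport_sum209 s φ fun i hi => (h i hi).supp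
  smooth := fun n f hf hs g =>
    ContDiff.sum fun i hi => (h i hi).smooth n f hf hs g
  level_right := fun u hu g =>
    Finset.sum_congr rfl fun i hi => (h i hi).level_right u hu g
  arch_right := fun w k hk g =>
    Finset.sum_congr rfl fun i hi => (h i hi).arch_right w k hk g
  arch_left := fun w k hk g =>
    Finset.sum_congr rfl fun i hi => (h i hi).arch_left w k hk g

theorem isRT_const_mul209 {𝔑 : Ideal (𝓞 K)} (c : ℂ) {φ : G K → ℂ} (h : IsRT209 𝔑 φ) :
    IsRT209 𝔑 (fun y => c * φ y) where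
  cont := continuous_const.mul h.cont
  supp := h.supp.mul_left (f := fun _ => c)
  smooth := fun n f hf hs g => contDiff_const.mul (h.smooth n f hf hs g)
  level_right := fun u hu g => by
    show c * φ (g * u) = c * φ g
    rw [h.level_right u hu]
  arch_right := fun w k hk g => by
    show c * φ (g * k) = c * φ g
    rw [h.arch_right w k hk]
  arch_left := fun w k hk g => by
    show c * φ (k * g) = c * φ g
    rw [h.arch_left w k hk]

theorem isRT_lsum209 {𝔑 : Ideal (𝓞 K)} {H : Finset (G K)} (hH : ∀ h ∈ H, TrivInf209 h)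
    {φ : G K → ℂ} (h : IsRT209 𝔑 φ) : IsRT209 𝔑 (H893.lsum H φ) := by
  rw [lsum_eq_sum_ltr209]
  exact isRT_sum209 H (fun b => H893.ltr b φ) fun b hb => isRT_ltr209 (hH b hb) h

theorem isRT_iwL209 {𝔑 : Ideal (𝓞 K)} (w : HeightOneSpectrum (𝓞 K)) {H : Finset (G K)}
    (hH : ∀ h ∈ H, TrivInf209 h) {φ : G K → ℂ} (h : IsRT209 𝔑 φ) :
    IsRT209 𝔑 (H893.iwL w H φ) := by
  rw [iwL_eq209]
  exact isRT_const_mul209 _ (isRT_lsum209 hH h)

theorem isRT_iwL_iterate209 {𝔑 : Ideal (𝓞 K)} (w : HeightOneSpectrum (𝓞 K))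
    {H : Finset (G K)} (hH : ∀ h ∈ H, TrivInf209 h) {φ : G K → ℂ} (h : IsRT209 𝔑 φ) (m : ℕ) :
    IsRT209 𝔑 ((H893.iwL w H)^[m] φ) := by
  induction m with
  | zero => exact h
  | succ m ih =>
    rw [Function.iterate_succ_apply']
    exact isRT_iwL209 w hH ih

theorem isRT_regL209 {𝔑 : Ideal (𝓞 K)} (w : HeightOneSpectrum (𝓞 K)) {z : G K}
    (hz : TrivInf209 z) {H : Finset (G K)} (hH : ∀ h ∈ H, TrivInf209 h) (k : ℤ) (m : ℕ)
    {φ : G K → ℂ} (h : IsRT209 𝔑 φ) : IsRT209 𝔑 (H893.regL w z H k m φ) := by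
  rw [regL_eq209]
  exact isRT_ltr209 (trivInf_zpow209 hz k) (isRT_iwL_iterate209 w hH h m)

end Fermat.Agent.LT.T7.H209

end

end
-- ===== PACK-END LT/T7/H209/LtrTest.lean

-- ===== PACK-BEGIN LT/T7/H298/MatchQCut2.lean
section




/-!
# Row LT, tower T7, node Q2.7 `CutIntQC298b` (registry row 2605, owner helper298):
# SECOND CUT over `ℚ` -- Spec, v2 (split clause for ONE enumeration)

OFF-MAIN.  Frozen Props only (the proved top is `MatchQCutTop2.lean`).  No hole, nothing
assumed.  ADDITIVE: `MatchQCut.lean` (v1, sha256 74dc2a3c) is unchanged and imported; the TWO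
Props which mention the local hypotheses are restated for `LocHypQ298b` (`MatchQSpec2.lean`):

* **`UnitMatchQC298b F`** [M] = `UnitMatchQC298 F` for `LocHypQ298b`;
* **`FactUpQC298b F`** [XL node] = `FactUpQC298 F` for `LocHypQ298b`.

ALL OTHER leaves and nodes of the second cut are UNCHANGED (`ArchMeasRC298`, `ArchVanQC298`,
`NonNormLocQC298`, `TorSplitQC298`, `HaarSplitQC298`, `FactDownQC298` and the cubic leaves reused
verbatim).

    cutIntQC_of298b : HasSqrtNegThree F → T6.T6Out → GoodSetC305 ℚ F → UnitMatchQC298b F →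
        PureExtC305 ℚ → PureExtC305 F → LocMeasC305 → LocCutC305 → ArchMeasRC298 →
        TorSplitQC298 → FactDownQC298 → FactUpQC298b F → LocVanC305 → ArchVanQC298 →
        NonNormLocQC298 F → CutIntQC298b F
-/

set_option autoImplicit false

open AutomorphicForm IsDedekindDomain NumberField MeasureTheory
open scoped ComplexConjugate

noncomputable section

namespace Fermat.Agent.LT.T7.MQ298

open Fermat.Agent.LT.H556 Fermat.Agent.LT.H556.A0 Fermat.Agent.LT.T7 Fermat.Agent.LT.T7.H305

attribute [local instance] Fermat.Agent.LT.T5.instMeasurableSpaceG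

section TwoFieldsCutQ2

variable (F : Type) [Field F] [NumberField F]

/-- **LEAF Q2.7.11 = UNIT-MATCH over `ℚ`** (the fundamental lemma for the unit element).  Mirror
of `H305.UnitMatchC305` for `LocHypQ298b` (v2): if `T₀ ⊆ T ⊆ S`, the places outside `T₀` are unramified
and the levels are `0` there, the local hypotheses for `T` give the local hypotheses for `S`
with unit components at the new places.  (The archimedean clauses do not change.  At a new
place with two places over it: the enumeration from `T6.InstSplitC`, unit components.) -/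
def UnitMatchQC298b : Prop :=
  T6.T6Out → IsImagQuad F →
  ∀ D : CompData ℚ F, IsCompData D → IsCycExt ℚ F D.l → D.l = 2 →
    ∀ μr : @Measure (GL (Fin 2) ℝ) (borel _), @Measure.IsHaarMeasure _ _ _ (borel _) μr →
    ∀ μc : @Measure (GL (Fin 2) ℂ) (borel _), @Measure.IsHaarMeasure _ _ _ (borel _) μc →
    ∀ (T₀ : Finset (HeightOneSpectrum (𝓞 ℚ))), UnramOut305 (K' := F) T₀ →
    ∀ (n : HeightOneSpectrum (𝓞 F) → ℕ) (m : HeightOneSpectrum (𝓞 ℚ) → ℕ),
      IsLevelAt305 T₀ n m →
    ∀ (T S : Finset (HeightOneSpectrum (𝓞 ℚ))) (T' S' : Finset (HeightOneSpectrum (𝓞 F))),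
      T₀ ⊆ T → T ⊆ S → IsOver305 T T' → IsOver305 S S' →
    ∀ (φ₀ : ∀ w : HeightOneSpectrum (𝓞 F), GL (Fin 2) (w.adicCompletion F) → ℂ)
      (Φ : InfinitePlace F → GL (Fin 2) ℂ → ℂ)
      (f₀ : ∀ v : HeightOneSpectrum (𝓞 ℚ), GL (Fin 2) (v.adicCompletion ℚ) → ℂ)
      (F0 F1 : GL (Fin 2) ℝ → ℂ),
      LocHypQ298b D μr μc T n m φ₀ Φ f₀ F0 F1 →
      LocHypQ298b D μr μc S n m (ext305 T' φ₀) Φ (ext305 T f₀) F0 F1

/-- **NODE Q2.7.13 = FACT-UP over `ℚ`** (the factorisation upstairs, with local matching).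
Mirror of `H305.FactUpC305`: for a suitable cut-off `β'` upstairs and linked torus measures,

    ∫ φ'♭(y⁻¹ δ σ(y)) β'(y) dμ'(y) = (c'_G / c_T) ∑_j ∏_{v ∈ S} I_v · I_∞(j)

with THE SAME local integrals downstairs (`factValQ298` for `Fr = F0 + F1`).  The constant
`c'_G` depends on `D`, `ι`, `μr`, `μc`, `T₀`, `n`, `m` only.
Proof.  As `FactUpC305` (at the split places: the enumeration of `LocHypQ298b.split`); at the infinite place: `F` has ONE infinite place `w`, complex, the
conjugation of `F` is the complex conjugation in the coordinate of `w`; `N(δ r'^j) = γ ι(r)^j`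
(`t'⁴ = 2`, `t'² = t`); `β'_∞` a continuous cut-off function on `GL₂(ℂ)` for the image of the
centraliser of `γ_∞` with the image of `μtr` (exists: `H305.ArchMeasC305` form,
`exists_cutoff584`); FIRST clause of `LocHypQ298b.arch` (`T6.IsArchMatch`) for `(γ r^j)_∞`,
`(δ r'^j)_w` and the cut-off data transported to the centraliser of `(γ r^j)_∞` (the same
subgroup). -/
def FactUpQC298b : Prop :=
  T6.T6Out → IsImagQuad F →
  ∀ D : CompData ℚ F, IsCompData D → IsCycExt ℚ F D.l → D.l = 2 →
    ∀ ι : Adl ℚ →+* Adl F, IsAdeleBase305 D.s D.l ι →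
    ∀ μr : @Measure (GL (Fin 2) ℝ) (borel _), @Measure.IsHaarMeasure _ _ _ (borel _) μr →
    ∀ μc : @Measure (GL (Fin 2) ℂ) (borel _), @Measure.IsHaarMeasure _ _ _ (borel _) μc →
    ∀ (T₀ : Finset (HeightOneSpectrum (𝓞 ℚ))), UnramOut305 (K' := F) T₀ →
    ∀ (n : HeightOneSpectrum (𝓞 F) → ℕ) (m : HeightOneSpectrum (𝓞 ℚ) → ℕ),
      IsLevelAt305 T₀ n m →
    ∃ cG' : ℝ, 0 < cG' ∧
      ∀ (S : Finset (HeightOneSpectrum (𝓞 ℚ))) (S' : Finset (HeightOneSpectrum (𝓞 F))),
        T₀ ⊆ S → IsOver305 S S' →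
      ∀ (φ₀ : ∀ w : HeightOneSpectrum (𝓞 F), GL (Fin 2) (w.adicCompletion F) → ℂ)
        (Φ : InfinitePlace F → GL (Fin 2) ℂ → ℂ)
        (f₀ : ∀ v : HeightOneSpectrum (𝓞 ℚ), GL (Fin 2) (v.adicCompletion ℚ) → ℂ)
        (F0 F1 : GL (Fin 2) ℝ → ℂ),
        LocHypQ298b D μr μc S n m φ₀ Φ f₀ F0 F1 →
      ∀ (δ : GL (Fin 2) F) (γ : GL (Fin 2) ℚ), T6.IsEll γ →
        D.s.normUpTo D.l δ = Matrix.GeneralLinearGroup.map (algebraMap ℚ F) γ →
        GoodOut305 S γ → IntOut305 S' δ →
      ∀ (μT : @Measure (tA305 (T5.AdelicAut.id ℚ) γ) (borel _))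
        (μT' : @Measure (tA305 D.s δ) (borel _)),
        @Measure.IsHaarMeasure _ _ _ (borel _) μT →
        @Measure.IsHaarMeasure _ _ _ (borel _) μT' →
        IsTorLinked305 ι D.s δ γ μT μT' →
      ∀ (L : LocDataQ298 γ) (cT : ℝ), IsLocDataQ298 m L → 0 < cT → IsTorConstQ298 γ μT L cT →
        ∃ β' : G F → ℝ,
          IsCutOn305 D.s δ μT' β'
              {x | T5.twTerm D.R'.r D.s (pure305 S' φ₀ Φ) δ x ≠ 0} ∧
            cutInt305 D.R'.r D.s (pure305 S' φ₀ Φ) δ D.R'.μ β'
              = ((cG' / cT : ℝ) : ℂ) *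
                factValQ298 D.R.r S L f₀ μr (fun g => F0 g + F1 g)

end TwoFieldsCutQ2

/-! ## Appendix: the equation lemmas of the definitions of this file are realised HERE -/

theorem eqns_realised_matchQCut298b : True := by
  have _h9 := @UnitMatchQC298b.eq_1
  have _h11 := @FactUpQC298b.eq_1
  have _g9 := @UnitMatchQC298b.eq_def
  have _g11 := @FactUpQC298b.eq_def
  have _u9 := @UnitMatchQC298b.eq_unfold
  have _u11 := @FactUpQC298b.eq_unfold
  trivial

end Fermat.Agent.LT.T7.MQ298

end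

end
-- ===== PACK-END LT/T7/H298/MatchQCut2.lean

-- ===== PACK-BEGIN LT/T7/H729/ArchMeasR.lean
section





/-!
# Row LT, tower T7, leaf T7.L2Q.1.H1.5.1 `MQ298.ArchMeasRC298` (helper729, registry row 2669)

OFF-MAIN.  PROVED, UNCONDITIONAL (no hole, nothing assumed).  ADDITIVE (new names only).
Spec: `LT/T7/H298/MatchQCut.lean` (helper298@076793e90, sha256 74dc2a3c), byte-identical copy.
Assets (byte-identical copies): `T7/H584/Cutoff.lean` (helper584, sha256 cf7491c2,
`exists_cutoff584`), `T6/H846/OrbAlg.lean` (helper846, `comm_of_comm_reg846`).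

    archMeasRC729 : MQ298.ArchMeasRC298

Route (docstring of the leaf): `GL₂(ℝ)` is a locally compact, `σ`-compact group, the centraliser
of a regular element is a closed commutative subgroup, so its Haar measure is right invariant and
`exists_cutoff584` applies.
-/

set_option autoImplicit false
set_option linter.style.haveILetI false

open MeasureTheory

noncomputable section

namespace Fermat.Agent.LT.T7.ArchMeasR729

open Fermat.Agent.LT.T6 Fermat.Agent.LT.T7 Fermat.Agent.LT.T7.H305

theorem locallyCompact_GL2R729 : LocallyCompactSpace (GL (Fin 2) ℝ) := by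
  haveI : LocallyCompactSpace (Matrix (Fin 2) (Fin 2) ℝ) :=
    inferInstanceAs (LocallyCompactSpace (Fin 2 → Fin 2 → ℝ))
  haveI : LocallyCompactSpace (Matrix (Fin 2) (Fin 2) ℝ)ᵐᵒᵖ :=
    (MulOpposite.opHomeomorph
      (M := Matrix (Fin 2) (Fin 2) ℝ)).symm.isClosedEmbedding.locallyCompactSpace
  exact (Units.isClosedEmbedding_embedProduct
    (α := Matrix (Fin 2) (Fin 2) ℝ)).locallyCompactSpace

theorem sigmaCompact_GL2R729 : SigmaCompactSpace (GL (Fin 2) ℝ) := by
  haveI : SigmaCompactSpace (Matrix (Fin 2) (Fin 2) ℝ) :=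
    inferInstanceAs (SigmaCompactSpace (Fin 2 → Fin 2 → ℝ))
  haveI : SigmaCompactSpace (Matrix (Fin 2) (Fin 2) ℝ)ᵐᵒᵖ :=
    MulOpposite.opHomeomorph.symm.isClosedEmbedding.sigmaCompactSpace
  exact Units.isClosedEmbedding_embedProduct.sigmaCompactSpace

/-- The centraliser is closed. -/
theorem isClosed_centR729 {H : Type} [Group H] [TopologicalSpace H] [IsTopologicalGroup H]
    [T2Space H] (γ : H) : IsClosed ((cent305 γ : Subgroup H) : Set H) := by
  have h : ((cent305 γ : Subgroup H) : Set H) = {x : H | x⁻¹ * γ * x = γ} := rfl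
  rw [h]
  exact isClosed_eq ((continuous_inv.mul continuous_const).mul continuous_id) continuous_const

/-- The centraliser of a regular element of `GL₂(F)` is commutative. -/
theorem cent_commR729 {F : Type} [Field F] (γ : GL (Fin 2) F) (hγ : IsReg γ)
    (a b : cent305 γ) : a * b = b * a := by
  have hD : (γ : Matrix (Fin 2) (Fin 2) F).trace ^ 2
      - 4 * (γ : Matrix (Fin 2) (Fin 2) F).det ≠ 0 := IsUnit.ne_zero hγ
  have key : ∀ x : cent305 γ, ((x : GL (Fin 2) F) : Matrix (Fin 2) (Fin 2) F)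
      * (γ : Matrix (Fin 2) (Fin 2) F)
      = (γ : Matrix (Fin 2) (Fin 2) F) * ((x : GL (Fin 2) F) : Matrix (Fin 2) (Fin 2) F) := by
    intro x
    have hx : (x : GL (Fin 2) F)⁻¹ * γ * (x : GL (Fin 2) F) = γ := x.2
    have hx' : (x : GL (Fin 2) F) * γ = γ * (x : GL (Fin 2) F) := by
      calc (x : GL (Fin 2) F) * γ
          = (x : GL (Fin 2) F) * ((x : GL (Fin 2) F)⁻¹ * γ * (x : GL (Fin 2) F)) := by rw [hx]
        _ = γ * (x : GL (Fin 2) F) := by group
    rw [← Units.val_mul, ← Units.val_mul, hx']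
  apply Subtype.ext
  apply Units.ext
  show ((a : GL (Fin 2) F) : Matrix (Fin 2) (Fin 2) F) * ((b : GL (Fin 2) F) : Matrix _ _ F)
    = ((b : GL (Fin 2) F) : Matrix (Fin 2) (Fin 2) F) * ((a : GL (Fin 2) F) : Matrix _ _ F)
  exact H846.comm_of_comm_reg846 _ _ _ hD (key a) (key b)

/-- **LEAF T7.L2Q.1.H1.5.1 `MQ298.ArchMeasRC298`.** -/
theorem archMeasRC729 : MQ298.ArchMeasRC298 := by
  intro γ hγ
  haveI := locallyCompact_GL2R729
  haveI := sigmaCompact_GL2R729
  have hcl : IsClosed ((cent305 γ : Subgroup (GL (Fin 2) ℝ)) : Set (GL (Fin 2) ℝ)) :=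
    isClosed_centR729 γ
  haveI : LocallyCompactSpace (cent305 γ) :=
    hcl.isClosedEmbedding_subtypeVal.locallyCompactSpace
  letI : MeasurableSpace (cent305 γ) := borel _
  haveI : BorelSpace (cent305 γ) := ⟨rfl⟩
  refine ⟨⟨Measure.haar, inferInstance⟩, ?_⟩
  intro μT hμT
  haveI := hμT
  haveI : μT.IsMulRightInvariant := ⟨fun g => by
    have e : (fun t : cent305 γ => t * g) = fun t => g * t := by
      funext t
      exact cent_commR729 γ hγ t g
    rw [e]
    exact map_mul_left_eq_self μT g⟩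
  obtain ⟨β, hβc, hβ0, -, hβ1⟩ := H584.exists_cutoff584 (cent305 γ) μT hcl
  exact ⟨β, hβc, hβ0, hβ1⟩

end Fermat.Agent.LT.T7.ArchMeasR729

end

end
-- ===== PACK-END LT/T7/H729/ArchMeasR.lean

-- ===== PACK-BEGIN LT/T7/H984/NonNormLocQ.lean
section




/-!
# Row LT, tower T7, node Q2.7 `CutIntQC298`, leaf Q2.7.12 `NonNormLocQC298` (helper984)

OFF-MAIN (registry row 2672).  No hole, nothing assumed.

    nonNormLocQC984 (F) : MQ298.NonNormLocQC298 F

VERBATIM vs `LT/T7/H298/MatchQCut.lean` (helper298@076793e90, sha256 74dc2a3c).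

Proof.  Contrapositive of `T6.NormImageQC` (a component of `T6.T6Out`).  Assume that `γ` is a
local norm for every local datum at every finite place with one place over it, and a norm from
`GL₂(ℂ)` at the real place.
* Finite places: as in the closed cubic leaf (`H584.nonNormLoc_of584`): `H768.splitOrUniqueC768`;
  one place over `v`: `T6.InstExtC` gives a local datum, `H584.tensorFieldC584` transports the
  norm to `F ⊗ ℚ_v`; a split place: `T6.InstSplitC` and `H122.tensorSplitC122`.
* The real place (NEW): `H584.tensorFieldC584` for `k = ℚ_∞`, `k' = ℂ`,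
  `i = (ℝ → ℂ) ∘ (ℚ_∞ ≅ ℝ)`, `j` an embedding of `F` in `ℂ`, `s_w` the complex conjugation.
  `(ℂ, conj)` is a cyclic datum of degree `2` over `ℚ_∞` (`i` is onto `ℝ`:
  `surjective_extensionEmbeddingOfIsReal`); `conj ∘ j = j ∘ s` because `F` is Galois over `ℚ`
  with group `{1, s}` and `j` is not real (`F` is totally complex).
-/

set_option autoImplicit false
set_option linter.style.haveILetI false
set_option linter.unusedSectionVars false

open IsDedekindDomain NumberField
open scoped ComplexConjugate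

noncomputable section

namespace Fermat.Agent.LT.T7.H984

open Fermat.Agent.LT.H556.A0 Fermat.Agent.LT.T7

/-! ## 1. The complex conjugation as a cyclic datum -/

/-- `(ℂ, conj)` is a cyclic datum of degree `2` over any field `k` with a surjective
homomorphism to `ℝ`. -/
theorem cyclicData_conj984 {k : Type} [Field k] (e : k →+* ℝ) (he : Function.Surjective e) :
    T6.IsCyclicData k ℂ 2 ((algebraMap ℝ ℂ).comp e) (starRingAut : ℂ ≃+* ℂ) where
  pos := by norm_num
  fix_i := fun x => by
    change (starRingEnd ℂ) ((e x : ℝ) : ℂ) = ((e x : ℝ) : ℂ)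
    exact Complex.conj_ofReal _
  fixed := fun y hy => by
    have hy' : (starRingEnd ℂ) y = y := hy
    obtain ⟨r, hr⟩ := Complex.conj_eq_iff_real.1 hy'
    obtain ⟨x, hx⟩ := he r
    refine ⟨x, ?_⟩
    change ((e x : ℝ) : ℂ) = y
    rw [hx, hr]
  order := fun y => by
    change (starRingEnd ℂ) ((starRingEnd ℂ) y) = y
    exact Complex.conj_conj y
  faithful := fun m hm hm2 => by
    have h1 : m = 1 := by omega
    subst h1
    refine ⟨Complex.I, ?_⟩
    rw [pow_one]
    change (starRingEnd ℂ) Complex.I ≠ Complex.I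
    rw [Complex.conj_I]
    intro h
    have := congrArg Complex.im h
    simp at this
    norm_num at this

/-! ## 2. The conjugation on a non-real embedding of a quadratic Galois extension of `ℚ` -/

section Conj

variable {F : Type} [Field F] [NumberField F]

/-- `F/ℚ` Galois of degree `2` with group generated by `s`, `j` a non-real embedding:
`conj ∘ j = j ∘ s`. -/
theorem conj_embedding984 [IsGalois ℚ F] (s : F ≃ₐ[ℚ] F)
    (hgen : ∀ t : F ≃ₐ[ℚ] F, t ∈ Subgroup.zpowers s) (hdeg : Module.finrank ℚ F = 2)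
    (j : F →+* ℂ) (hj : ¬ ComplexEmbedding.IsReal j) (y : F) :
    (starRingAut : ℂ ≃+* ℂ) (j y) = j (s y) := by
  have hcard : Nat.card (F ≃ₐ[ℚ] F) = 2 := by
    rw [IsGalois.card_aut_eq_finrank, hdeg]
  have hs2 : s ^ 2 = 1 := by
    have h := orderOf_dvd_natCard s
    rw [hcard] at h
    exact orderOf_dvd_iff_pow_eq_one.1 h
  obtain ⟨σ, hσ⟩ := ComplexEmbedding.exists_comp_symm_eq_of_comp_eq (k := ℚ) j
    (ComplexEmbedding.conjugate j) (Subsingleton.elim _ _)
  obtain ⟨n, hn⟩ := Subgroup.mem_zpowers_iff.1 (hgen σ.symm)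
  have hval : ∀ z : F, j (σ.symm z) = (starRingEnd ℂ) (j z) := fun z => by
    have := congrArg (fun f : F →+* ℂ => f z) hσ
    simpa [ComplexEmbedding.conjugate_coe_eq] using this
  rcases Int.even_or_odd n with ⟨m, hm⟩ | ⟨m, hm⟩
  · exfalso
    apply hj
    have h1 : σ.symm = 1 := by
      rw [← hn, hm, ← two_mul, zpow_mul, zpow_ofNat, hs2, one_zpow]
    rw [ComplexEmbedding.isReal_iff]
    ext z
    rw [ComplexEmbedding.conjugate_coe_eq, ← hval z, h1]
    rfl
  · have h1 : σ.symm = s := by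
      rw [← hn, hm, zpow_add, zpow_mul, zpow_ofNat, hs2, one_zpow, one_mul, zpow_one]
    change (starRingEnd ℂ) (j y) = j (s y)
    rw [← hval y, h1]

end Conj

/-! ## 3. The real place -/

section RealPlace

variable {K K' : Type} [Field K] [NumberField K] [Field K'] [NumberField K'] [Algebra K K']

/-- **The bridge at a real place.**  `K'/K` of degree `2` with the non-trivial automorphism `s`,
`w` a real place of `K`, `j` an embedding of `K'` in `ℂ` over `w` with `conj ∘ j = j ∘ s`.  If the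
image of `γ` in `GL₂(ℝ)` is a norm from `GL₂(ℂ)` then `γ` is a norm at `w` in the sense of
`T6.IsLocNormInf`. -/
theorem locNormInf_of_real984 (s : K' ≃ₐ[K] K') (hdeg : Module.finrank K K' = 2)
    (hs : ∃ x : K', s x ≠ x) (w : InfinitePlace K) (hw : w.IsReal) (j : K' →+* ℂ)
    (hj : ∀ x : K, ((InfinitePlace.Completion.extensionEmbeddingOfIsReal hw
        (algebraMap K w.Completion x) : ℝ) : ℂ) = j (algebraMap K K' x))
    (hconj : ∀ y : K', (starRingAut : ℂ ≃+* ℂ) (j y) = j (s y))
    (γ : GL (Fin 2) K)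
    (h : T6.IsNormFrom 2 (algebraMap ℝ ℂ) (starRingAut : ℂ ≃+* ℂ)
      (Matrix.GeneralLinearGroup.map
        ((InfinitePlace.Completion.extensionEmbeddingOfIsReal hw).comp
          (algebraMap K w.Completion)) γ)) :
    T6.IsLocNormInf s 2 w γ := by
  have hcyc := cyclicData_conj984 (InfinitePlace.Completion.extensionEmbeddingOfIsReal hw)
    (InfinitePlace.Completion.surjective_extensionEmbeddingOfIsReal hw)
  have hnorm : T6.IsNormFrom 2
      ((algebraMap ℝ ℂ).comp (InfinitePlace.Completion.extensionEmbeddingOfIsReal hw))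
      (starRingAut : ℂ ≃+* ℂ)
      (Matrix.GeneralLinearGroup.map (algebraMap K w.Completion) γ) := by
    obtain ⟨δ, hδ⟩ := h
    refine ⟨δ, ?_⟩
    have e : Matrix.GeneralLinearGroup.map
          ((algebraMap ℝ ℂ).comp (InfinitePlace.Completion.extensionEmbeddingOfIsReal hw))
          (Matrix.GeneralLinearGroup.map (algebraMap K w.Completion) γ)
        = Matrix.GeneralLinearGroup.map (algebraMap ℝ ℂ)
          (Matrix.GeneralLinearGroup.map
            ((InfinitePlace.Completion.extensionEmbeddingOfIsReal hw).comp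
              (algebraMap K w.Completion)) γ) := by
      apply Units.ext
      ext a b
      rfl
    rw [e]
    exact hδ
  obtain ⟨δ, hδ⟩ := H584.tensorFieldC584 K K' w.Completion ℂ s 2 Nat.prime_two hdeg hs
    ((algebraMap ℝ ℂ).comp (InfinitePlace.Completion.extensionEmbeddingOfIsReal hw)) j
    (starRingAut : ℂ ≃+* ℂ) (fun x => hj x) hconj hcyc
    (Matrix.GeneralLinearGroup.map (algebraMap K w.Completion) γ) hnorm
  exact ⟨δ, hδ⟩

end RealPlace

/-! ## 4. Places over a place -/

section Places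

variable {K K' : Type} [Field K] [NumberField K] [Field K'] [NumberField K'] [Algebra K K']

/-- `PlaceOver` in the form of the hypotheses of `T6.InstExtC`. -/
theorem placeOver_mem_iff984 {v : HeightOneSpectrum (𝓞 K)} {w : HeightOneSpectrum (𝓞 K')}
    (h : PlaceOver K K' v w) (x : 𝓞 K) :
    x ∈ v.asIdeal ↔ algebraMap (𝓞 K) (𝓞 K') x ∈ w.asIdeal :=
  h x (algebraMap (𝓞 K) (𝓞 K') x) rfl

/-- A place of `K'` whose contraction contains `v` lies over `v` (`v` is maximal). -/
theorem placeOver_of_le984 {v : HeightOneSpectrum (𝓞 K)} {w : HeightOneSpectrum (𝓞 K')}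
    (h : ∀ x : 𝓞 K, x ∈ v.asIdeal → algebraMap (𝓞 K) (𝓞 K') x ∈ w.asIdeal) :
    PlaceOver K K' v w := by
  rw [H557.placeOver_iff_557]
  haveI := w.isPrime
  have hle : v.asIdeal ≤ Ideal.comap (algebraMap (𝓞 K) (𝓞 K')) w.asIdeal := fun x hx =>
    Ideal.mem_comap.2 (h x hx)
  have hprime : (Ideal.comap (algebraMap (𝓞 K) (𝓞 K')) w.asIdeal).IsPrime :=
    Ideal.comap_isPrime _ _
  exact v.isMaximal.eq_of_le hprime.ne_top hle

end Places

/-! ## 5. The leaf -/

section Leaf

variable (F : Type) [Field F] [NumberField F]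

/-- **LEAF Q2.7.12 = NON-NORM-LOC over `ℚ`** (VERBATIM `MQ298.NonNormLocQC298`). -/
theorem nonNormLocQC984 : MQ298.NonNormLocQC298 F := by
  intro hT6 hIQ hS3 D hD hc hl2 γ hγ hnn
  by_contra hcon
  rw [not_or] at hcon
  obtain ⟨hfin, hinf⟩ := hcon
  have hre := not_not.1 hinf
  apply hnn
  have hNI : T6.NormImageQC := hT6.2.2.2.2.1
  have hIE : T6.InstExtC := hT6.2.2.2.2.2.2.1
  have hIS : T6.InstSplitC := hT6.2.2.2.2.2.2.2.1
  haveI := hc.galois
  set s : F ≃ₐ[ℚ] F := H584.algAut584 D hD with hs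
  have hgen := H584.algAut_gen584 D hD hc
  have hdeg2 : Module.finrank ℚ F = 2 := by rw [hc.degree, hl2]
  have hprime : (Module.finrank ℚ F).Prime := by rw [hc.degree]; exact hc.prime
  have hne : ∃ x : F, s x ≠ x := H584.algAut_ne_one584 D hD hc.prime.one_lt
  -- `γ` is a norm at every finite place
  have hloc : ∀ v : HeightOneSpectrum (𝓞 ℚ), T6.IsLocNormFin s 2 v γ := by
    intro v
    rw [← hl2]
    rcases H768.splitOrUniqueC768 ℚ F D.l hc v with ⟨w, hvw, huniq⟩ | ⟨w, hw1, hw2, hw3⟩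
    · obtain ⟨e, i, sw, hi, hsw, hext, _⟩ :=
        hIE ℚ F s hgen hprime v w (placeOver_mem_iff984 hvw)
          (fun w' hw' => huniq w' (placeOver_of_le984 hw'))
      have hext' : T6.IsLocalExt (v.adicCompletion ℚ) (w.adicCompletion F) D.l e i sw := by
        have hdeg := hc.degree
        rw [hdeg] at hext
        exact hext
      have hnorm : T6.IsNormFrom D.l i sw (H305.locG305 v γ) := by
        by_contra hno
        exact hfin ⟨v, w, e, i, sw, hvw, huniq, hi, fun y => hsw y, hext', hno⟩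
      obtain ⟨δ, hδ⟩ := H584.tensorFieldC584 ℚ F (v.adicCompletion ℚ) (w.adicCompletion F) s D.l
        hc.prime hc.degree hne i (algebraMap F (w.adicCompletion F)) sw hi (fun y => hsw y)
        hext'.cyc (Matrix.GeneralLinearGroup.map (algebraMap ℚ (v.adicCompletion ℚ)) γ) hnorm
      exact ⟨δ, hδ⟩
    · obtain ⟨i, hi, _⟩ := hIS ℚ F v w hw1 hw2 hw3
      let τ : F →ₐ[ℚ] v.adicCompletion ℚ :=
        { toRingHom := (i.symm : w.adicCompletion F →+* v.adicCompletion ℚ).comp
            (algebraMap F (w.adicCompletion F))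
          commutes' := fun x => by
            change i.symm (algebraMap F (w.adicCompletion F) (algebraMap ℚ F x))
              = algebraMap ℚ (v.adicCompletion ℚ) x
            rw [← hi x]
            exact i.symm_apply_apply _ }
      obtain ⟨δ, hδ⟩ := H122.tensorSplitC122 ℚ F (v.adicCompletion ℚ) s D.l hc.degree hgen τ
        (Matrix.GeneralLinearGroup.map (algebraMap ℚ (v.adicCompletion ℚ)) γ)
      refine ⟨δ, ?_⟩
      have : T6.twNorm (T6.locAutFin s v) D.l δ
          = Matrix.GeneralLinearGroup.map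
            ((Algebra.TensorProduct.includeRight :
                v.adicCompletion ℚ →ₐ[ℚ] T6.locAlgFin ℚ F v)
              : v.adicCompletion ℚ →+* T6.locAlgFin ℚ F v)
            (Matrix.GeneralLinearGroup.map (algebraMap ℚ (v.adicCompletion ℚ)) γ) := hδ
      rw [this]
  -- `γ` is a norm at the real place
  have hlocInf : ∀ w : InfinitePlace ℚ, T6.IsLocNormInf s 2 w γ := by
    intro w
    obtain rfl : w = Rat.infinitePlace := Subsingleton.elim _ _
    obtain ⟨w', -⟩ : ∃ w' : InfinitePlace F, True := by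
      have hcard : Nat.card (InfinitePlace F) = 1 := hIQ.1
      have : Nonempty (InfinitePlace F) := by
        by_contra hemp
        rw [not_nonempty_iff] at hemp
        rw [Nat.card_of_isEmpty] at hcard
        exact absurd hcard (by norm_num)
      exact ⟨this.some, trivial⟩
    have hw' : w'.IsComplex := hIQ.2 w'
    have hj : ¬ ComplexEmbedding.IsReal w'.embedding := InfinitePlace.isComplex_iff.1 hw'
    refine locNormInf_of_real984 s hdeg2 hne Rat.infinitePlace Rat.isReal_infinitePlace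
      w'.embedding (fun x => ?_) (conj_embedding984 s hgen hdeg2 w'.embedding hj) γ ?_
    · rw [eq_ratCast, eq_ratCast, map_ratCast, map_ratCast]
      simp
    · have e : Matrix.GeneralLinearGroup.map
            ((InfinitePlace.Completion.extensionEmbeddingOfIsReal Rat.isReal_infinitePlace).comp
              (algebraMap ℚ (Rat.infinitePlace).Completion)) γ
          = MQ298.reGLQ298 (T5.ratG γ) := by
        apply Units.ext
        ext a b
        change ((InfinitePlace.Completion.extensionEmbeddingOfIsReal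
            Rat.isReal_infinitePlace).comp (algebraMap ℚ (Rat.infinitePlace).Completion))
            ((γ : Matrix (Fin 2) (Fin 2) ℚ) a b)
          = (MQ298.reHomQ298.comp (algebraMap ℚ (Adl ℚ))) ((γ : Matrix (Fin 2) (Fin 2) ℚ) a b)
        rw [Subsingleton.elim ((InfinitePlace.Completion.extensionEmbeddingOfIsReal
            Rat.isReal_infinitePlace).comp (algebraMap ℚ (Rat.infinitePlace).Completion))
          (MQ298.reHomQ298.comp (algebraMap ℚ (Adl ℚ)))]
      rw [e]
      exact hre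
  -- the local-global principle
  obtain ⟨δ, hδ⟩ := hNI F s hgen hdeg2 (by
    obtain ⟨z, hz⟩ := hS3
    exact ⟨z, by rw [pow_two]; exact hz⟩) γ hγ hloc hlocInf
  refine ⟨δ, ?_⟩
  change IsConj (D.s.normUpTo D.l δ) (Matrix.GeneralLinearGroup.map (algebraMap ℚ F) γ)
  rw [← H584.twNorm_eq_normUpTo584, hl2]
  have e : ((s : F ≃ₐ[ℚ] F) : F ≃+* F) = D.s.σ := H584.algAut_coe584 D hD
  rw [← e]
  exact hδ

/-- Check: the statement is the Prop of the Spec. -/
example : MQ298.NonNormLocQC298 F := nonNormLocQC984 F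

end Leaf

end Fermat.Agent.LT.T7.H984

end

end
-- ===== PACK-END LT/T7/H984/NonNormLocQ.lean

-- ===== PACK-BEGIN LT/T7/H767/UnitMatchQ.lean
section




/-!
# Row LT, tower T7, leaf T7.L2Q.1.H1.5.3 `UnitMatchQC298 F` (registry row 2671, helper767)

OFF-MAIN.  ADDITIVE (new names only, suffix `767`).  No hole, nothing assumed.

    unitMatchQC767 (F) : MQ298.UnitMatchQC298 F

verbatim against `LT/T7/H298/MatchQCut.lean` (helper298@076793e90, sha256 74dc2a3c): the
fundamental lemma for the unit element over `ℚ`.  If `T₀ ⊆ T ⊆ S`, the places outside `T₀` are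
unramified in `F` and the levels are `0` there, then the local hypotheses `LocHypQ298` for `T`
give the local hypotheses for `S` with unit components at the new places.

Proof.  At `v ∈ T` nothing changes (a place `w` over `v` lies in `T'`).  At `v ∉ T` the places
over `v` are not in `T'` (a place of `F` lies over ONE place of `ℚ`), the components are the unit
elements and the levels are `0`.  Invariance and finite support: helper159 (`isBiInv_unit159`,
`hasFinSupp_unit159`).  `split`: the convolution of unit elements is the unit element, and a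
valuation preserving isomorphism preserves `GL₂(𝒪)`.  `inert`: the ramification index of the local
extension datum is `1` (evaluate `val_i` at the element of `UnramOut305`), `N w = (N v)^l`
(`T6.InstExtC` for a generator of the Galois group, again with ramification index `1`),
`T6.InstLocalC`, and `T6.FundLemmaC` for the unit (`isBC_unitFn159`).  The archimedean clauses are
unchanged.

The general lemmas are stated for an arbitrary extension `K'/K` of number fields; they do not use
the hypotheses `D.l = 2`, `IsImagQuad F`.  Vendored byte-identical: the closure of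
`MatchQCut.lean` (helper298@076793e90), `T7/H159/GoodUnit.lean`, `GoodUnitTw.lean`
(helper159@77b853c18) on the bytes of record of T6 (helper17).
-/

set_option autoImplicit false
set_option linter.unusedSectionVars false

open AutomorphicForm IsDedekindDomain NumberField MeasureTheory

noncomputable section

namespace Fermat.Agent.LT.T7.H767

open Fermat.Agent.LT.H556 Fermat.Agent.LT.H556.A0 Fermat.Agent.LT.T7 Fermat.Agent.LT.T7.H305
open Fermat.Agent.LT

/-! ## 1. The unit element (one local field) -/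

section Local

variable {k : Type} [Field k] [Valued k T6.Γ₀]

/-- The unit element is the function `unitFn159 ∘ cartan` of helper159. -/
theorem unit305_eq767 :
    (unit305 : GL (Fin 2) k → ℂ) = fun g => H159.unitFn159 (T6.cartan g) := by
  classical
  funext g
  rw [H159.unitFn_apply159]
  rfl

theorem isBiInv_unit767 : T6.IsBiInv (T6.InU 0) (unit305 : GL (Fin 2) k → ℂ) := by
  rw [unit305_eq767]
  exact H159.isBiInv_unit159

theorem hasFinSupp_unit767 : T6.HasFinSupp (T6.InU 0) (unit305 : GL (Fin 2) k → ℂ) := by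
  rw [unit305_eq767]
  exact H159.hasFinSupp_unit159

theorem unit305_of_inU767 {g : GL (Fin 2) k} (h : T6.InU 0 g) : unit305 g = 1 := by
  classical
  show (if T6.InU 0 g then (1 : ℂ) else 0) = 1
  rw [if_pos h]

theorem unit305_of_not_inU767 {g : GL (Fin 2) k} (h : ¬ T6.InU 0 g) : unit305 g = 0 := by
  classical
  show (if T6.InU 0 g then (1 : ℂ) else 0) = 0
  rw [if_neg h]

/-- The convolution of unit elements is the unit element. -/
theorem isConv_unit767 :
    T6.IsConv (T6.InU 0) (unit305 : GL (Fin 2) k → ℂ) unit305 unit305 := by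
  classical
  intro g
  refine ⟨{1}, ?_, ?_, ?_⟩
  · intro h hh h' hh' _
    rw [Finset.mem_singleton] at hh hh'
    rw [hh, hh']
  · intro h hne
    have h1 : unit305 h ≠ 0 := left_ne_zero_of_mul hne
    have hU : T6.InU 0 h := by
      by_contra hn
      exact h1 (unit305_of_not_inU767 hn)
    exact ⟨1, Finset.mem_singleton_self _, h, hU, (one_mul h).symm⟩
  · rw [Finset.sum_singleton, inv_one, one_mul]
    have h1 : T6.InU 0 (1 : GL (Fin 2) k) :=
      H159.inU_zero_of_det159 1 (fun i j => T6.H687.v_one_apply_le_one_h687 i j) (by simp)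
    rw [unit305_of_inU767 h1, one_mul]

/-- The iterated convolution of unit elements is the unit element. -/
theorem isConvProd_unit767 (l : ℕ) (φ : ℕ → GL (Fin 2) k → ℂ) (hφ : ∀ j, φ j = unit305) :
    T6.IsConvProd (T6.InU 0) l φ unit305 := by
  refine ⟨fun _ => unit305, (hφ 0).symm, fun m _ => ?_, rfl⟩
  rw [hφ (m + 1)]
  exact isConv_unit767

end Local

/-! ## 2. Valuation preserving homomorphisms -/

section Map

variable {k k' : Type} [Field k] [Valued k T6.Γ₀] [Field k'] [Valued k' T6.Γ₀]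

theorem map_sub_one767 (i : k →+* k') (hi : ∀ x : k, Valued.v (i x) = Valued.v x)
    (h : GL (Fin 2) k) (a b : Fin 2) :
    Valued.v (((Matrix.GeneralLinearGroup.map i h : GL (Fin 2) k') :
        Matrix (Fin 2) (Fin 2) k') a b - (1 : Matrix (Fin 2) (Fin 2) k') a b)
      = Valued.v ((h : Matrix (Fin 2) (Fin 2) k) a b - (1 : Matrix (Fin 2) (Fin 2) k) a b) := by
  have h1 : ((Matrix.GeneralLinearGroup.map i h : GL (Fin 2) k') :
      Matrix (Fin 2) (Fin 2) k') a b = i ((h : Matrix (Fin 2) (Fin 2) k) a b) := rfl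
  have h2 : (1 : Matrix (Fin 2) (Fin 2) k') a b = i ((1 : Matrix (Fin 2) (Fin 2) k) a b) := by
    rw [Matrix.one_apply, Matrix.one_apply]
    split_ifs
    · rw [map_one]
    · rw [map_zero]
  rw [h1, h2, ← map_sub, hi]

/-- A ring homomorphism which preserves the valuation preserves `U(n)`. -/
theorem inU_map767 (i : k →+* k') (hi : ∀ x : k, Valued.v (i x) = Valued.v x) (n : ℕ)
    (g : GL (Fin 2) k) : T6.InU n (Matrix.GeneralLinearGroup.map i g) ↔ T6.InU n g := by
  have hinv : (Matrix.GeneralLinearGroup.map i g)⁻¹ = Matrix.GeneralLinearGroup.map i g⁻¹ :=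
    (map_inv (Matrix.GeneralLinearGroup.map i) g).symm
  constructor
  · intro h a b
    have := h a b
    rw [hinv, map_sub_one767 i hi, map_sub_one767 i hi] at this
    exact this
  · intro h a b
    rw [hinv, map_sub_one767 i hi, map_sub_one767 i hi]
    exact h a b

theorem unit305_map767 (i : k →+* k') (hi : ∀ x : k, Valued.v (i x) = Valued.v x) :
    (fun g : GL (Fin 2) k => (unit305 (Matrix.GeneralLinearGroup.map i g) : ℂ)) = unit305 := by
  classical
  funext g
  show (if T6.InU 0 (Matrix.GeneralLinearGroup.map i g) then (1 : ℂ) else 0)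
    = if T6.InU 0 g then (1 : ℂ) else 0
  by_cases h : T6.InU 0 g
  · rw [if_pos h, if_pos ((inU_map767 i hi 0 g).2 h)]
  · rw [if_neg h, if_neg (fun h' => h ((inU_map767 i hi 0 g).1 h'))]

end Map

/-! ## 3. Places of `K'` over places of `K` -/

section Global

variable {K K' : Type} [Field K] [NumberField K] [Field K'] [NumberField K'] [Algebra K K']

theorem coe_algebraMap767 (x : 𝓞 K) :
    ((algebraMap (𝓞 K) (𝓞 K') x : 𝓞 K') : K') = algebraMap K K' (x : K) := by
  rfl

theorem placeOver_iff767 {v : HeightOneSpectrum (𝓞 K)} {w : HeightOneSpectrum (𝓞 K')}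
    (h : PlaceOver K K' v w) (x : 𝓞 K) :
    x ∈ v.asIdeal ↔ algebraMap (𝓞 K) (𝓞 K') x ∈ w.asIdeal :=
  h x (algebraMap (𝓞 K) (𝓞 K') x) (coe_algebraMap767 x)

/-- A place of `K'` lies over ONE place of `K`. -/
theorem placeOver_unique767 {v v' : HeightOneSpectrum (𝓞 K)} {w : HeightOneSpectrum (𝓞 K')}
    (h : PlaceOver K K' v w) (h' : PlaceOver K K' v' w) : v = v' := by
  apply HeightOneSpectrum.ext
  ext x
  rw [placeOver_iff767 h, placeOver_iff767 h']

/-- `PlaceOver` from the inclusion `v ⊆ w ∩ 𝓞_K`. -/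
theorem placeOver_of_le767 {v : HeightOneSpectrum (𝓞 K)} {w : HeightOneSpectrum (𝓞 K')}
    (h : ∀ x : 𝓞 K, x ∈ v.asIdeal → algebraMap (𝓞 K) (𝓞 K') x ∈ w.asIdeal) :
    PlaceOver K K' v w := by
  intro x y hy
  have hyx : y = algebraMap (𝓞 K) (𝓞 K') x := by
    apply RingOfIntegers.ext
    rw [hy, coe_algebraMap767]
  rw [hyx]
  refine ⟨h x, fun hx => ?_⟩
  by_contra hxv
  have hmax : v.asIdeal.IsMaximal := v.isMaximal
  obtain ⟨a, b, hb, hab⟩ := hmax.exists_inv hxv
  have h1 : algebraMap (𝓞 K) (𝓞 K') (a * x + b) ∈ w.asIdeal := by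
    rw [map_add, map_mul]
    exact w.asIdeal.add_mem (w.asIdeal.mul_mem_left _ hx) (h b hb)
  rw [hab, map_one] at h1
  exact w.isPrime.ne_top ((Ideal.eq_top_iff_one _).2 h1)

theorem val_int767 (v : HeightOneSpectrum (𝓞 K)) (x : 𝓞 K) :
    Valued.v (algebraMap K (v.adicCompletion K) (x : K)) = v.intValuation x := by
  have h1 : (algebraMap K (v.adicCompletion K) (x : K)) = ((x : K) : v.adicCompletion K) := rfl
  rw [h1, HeightOneSpectrum.valuedAdicCompletion_eq_valuation']
  exact HeightOneSpectrum.valuation_of_algebraMap v x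

theorem exp_pow767 (e : ℕ) : (WithZero.exp (-1 : ℤ)) ^ e = WithZero.exp (-(e : ℤ)) := by
  rw [← WithZero.exp_nsmul]
  simp

/-- The ramification index of a local extension datum at an unramified place is `1`. -/
theorem ramIdx_eq_one767 {v : HeightOneSpectrum (𝓞 K)} {w : HeightOneSpectrum (𝓞 K')}
    (hun : ∃ x : 𝓞 K, x ∈ v.asIdeal ∧ algebraMap (𝓞 K) (𝓞 K') x ∉ w.asIdeal ^ 2)
    {l e : ℕ} {i : v.adicCompletion K →+* w.adicCompletion K'}
    {sw : w.adicCompletion K' ≃+* w.adicCompletion K'}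
    (hi : ∀ x : K, i (algebraMap K (v.adicCompletion K) x)
      = algebraMap K' (w.adicCompletion K') (algebraMap K K' x))
    (hext : T6.IsLocalExt (v.adicCompletion K) (w.adicCompletion K') l e i sw) : e = 1 := by
  obtain ⟨x, hxv, hxw⟩ := hun
  have ha : Valued.v (algebraMap K (v.adicCompletion K) (x : K)) ≤ WithZero.exp (-1 : ℤ) := by
    rw [val_int767]
    have := (v.intValuation_le_pow_iff_mem x 1).2 (by rw [pow_one]; exact hxv)
    simpa using this
  have hb : ¬ Valued.v (algebraMap K' (w.adicCompletion K') (algebraMap K K' (x : K)))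
      ≤ WithZero.exp (-2 : ℤ) := by
    rw [← coe_algebraMap767, val_int767]
    intro h
    exact hxw ((w.intValuation_le_pow_iff_mem _ 2).1 (by simpa using h))
  have hval := hext.val_i (algebraMap K (v.adicCompletion K) (x : K))
  rw [hi] at hval
  by_contra hne
  have he2 : 2 ≤ e := by
    have := hext.e_pos
    omega
  apply hb
  rw [hval]
  calc Valued.v (algebraMap K (v.adicCompletion K) (x : K)) ^ e
      ≤ (WithZero.exp (-1 : ℤ)) ^ e := pow_le_pow_left' ha e
    _ = WithZero.exp (-(e : ℤ)) := exp_pow767 e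
    _ ≤ WithZero.exp (-2 : ℤ) := WithZero.exp_le_exp.2 (by omega)

/-- The Galois group of a Galois extension of prime degree has a generator. -/
theorem exists_gen767 {ℓ : ℕ} (h : IsCycExt K K' ℓ) :
    ∃ s : K' ≃ₐ[K] K', ∀ t : K' ≃ₐ[K] K', t ∈ Subgroup.zpowers s := by
  have := h.galois
  have : Fact ℓ.Prime := ⟨h.prime⟩
  have : FiniteDimensional K K' :=
    Module.finite_of_finrank_pos (by rw [h.degree]; exact h.prime.pos)
  have hcard : Nat.card (K' ≃ₐ[K] K') = ℓ := by
    rw [IsGalois.card_aut_eq_finrank, h.degree]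
  have : IsCyclic (K' ≃ₐ[K] K') := isCyclic_of_prime_card hcard
  exact IsCyclic.exists_generator

/-- The norm of the only place over an unramified place `v` is `(N v)^ℓ`. -/
theorem absNorm_over767 (hExt : T6.InstExtC) {ℓ : ℕ} (hcyc : IsCycExt K K' ℓ)
    {v : HeightOneSpectrum (𝓞 K)} {w : HeightOneSpectrum (𝓞 K')} (hvw : PlaceOver K K' v w)
    (huniq : ∀ w' : HeightOneSpectrum (𝓞 K'), PlaceOver K K' v w' → w' = w)
    (hun : ∃ x : 𝓞 K, x ∈ v.asIdeal ∧ algebraMap (𝓞 K) (𝓞 K') x ∉ w.asIdeal ^ 2) :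
    Ideal.absNorm w.asIdeal = Ideal.absNorm v.asIdeal ^ ℓ := by
  obtain ⟨s, hs⟩ := exists_gen767 hcyc
  have := hcyc.galois
  have hp : (Module.finrank K K').Prime := by
    rw [hcyc.degree]
    exact hcyc.prime
  obtain ⟨e, i, sw, hi, _, hext, hN⟩ := hExt K K' s hs hp v w (placeOver_iff767 hvw)
    (fun w' hw' => huniq w' (placeOver_of_le767 hw'))
  have he := ramIdx_eq_one767 hun hi hext
  rw [hN, he, Nat.div_one, hcyc.degree]

theorem ext305_of_mem767 {T : Finset (HeightOneSpectrum (𝓞 K))}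
    {f₀ : ∀ v : HeightOneSpectrum (𝓞 K), GL (Fin 2) (v.adicCompletion K) → ℂ}
    {v : HeightOneSpectrum (𝓞 K)} (h : v ∈ T) : ext305 T f₀ v = f₀ v := by
  delta ext305
  exact if_pos h

theorem ext305_of_not_mem767 {T : Finset (HeightOneSpectrum (𝓞 K))}
    {f₀ : ∀ v : HeightOneSpectrum (𝓞 K), GL (Fin 2) (v.adicCompletion K) → ℂ}
    {v : HeightOneSpectrum (𝓞 K)} (h : v ∉ T) : ext305 T f₀ v = unit305 := by
  delta ext305
  exact if_neg h

end Global

/-! ## 4. The leaf -/

/-- **LEAF Q2.7.11 = UNIT-MATCH over `ℚ`**, closed. -/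
theorem unitMatchQC767 (F : Type) [Field F] [NumberField F] : MQ298.UnitMatchQC298 F := by
  classical
  intro hT6 _ D _ hcyc _ μr _ μc _ T₀ hun n m hlev T S T' S' hT₀T _ hTT' _ φ₀ Φ f₀ F0 F1 H
  obtain ⟨-, -, -, -, -, hLoc, hExt, -, -, -, -, -, -, hFL, -⟩ := hT6
  have hupT : ∀ v ∈ T, ∀ w : HeightOneSpectrum (𝓞 F), PlaceOver ℚ F v w →
      ext305 T' φ₀ w = φ₀ w :=
    fun v hv w hvw => ext305_of_mem767 ((hTT' w).2 ⟨v, hv, hvw⟩)
  have hupN : ∀ v : HeightOneSpectrum (𝓞 ℚ), v ∉ T → ∀ w : HeightOneSpectrum (𝓞 F),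
      PlaceOver ℚ F v w → ext305 T' φ₀ w = unit305 := by
    intro v hv w hvw
    apply ext305_of_not_mem767
    intro hw
    obtain ⟨v', hv', hv'w⟩ := (hTT' w).1 hw
    rw [placeOver_unique767 hvw hv'w] at hv
    exact hv hv'
  have hm0 : ∀ v : HeightOneSpectrum (𝓞 ℚ), v ∉ T → m v = 0 :=
    fun v hv => hlev.1 v (fun h => hv (hT₀T h))
  have hn0 : ∀ v : HeightOneSpectrum (𝓞 ℚ), v ∉ T → ∀ w : HeightOneSpectrum (𝓞 F),
      PlaceOver ℚ F v w → n w = 0 :=
    fun v hv w hvw => hlev.2 v w (fun h => hv (hT₀T h)) hvw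
  refine ⟨?_, ?_, H.arch_up, H.arch_down0, H.arch_down1, ?_, ?_, H.arch⟩
  · -- inv_up
    intro v _ w hvw
    by_cases hvT : v ∈ T
    · rw [hupT v hvT w hvw]
      exact H.inv_up v hvT w hvw
    · rw [hupN v hvT w hvw, hn0 v hvT w hvw]
      exact ⟨isBiInv_unit767, hasFinSupp_unit767⟩
  · -- inv_down
    intro v _
    by_cases hvT : v ∈ T
    · rw [ext305_of_mem767 hvT]
      exact H.inv_down v hvT
    · rw [ext305_of_not_mem767 hvT, hm0 v hvT]
      exact ⟨isBiInv_unit767, hasFinSupp_unit767⟩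
  · -- inert
    intro v _ w hvw huniq e i sw hi hsw hext
    by_cases hvT : v ∈ T
    · rw [hupT v hvT w hvw, ext305_of_mem767 hvT]
      exact H.inert v hvT w hvw huniq e i sw hi hsw hext
    · have hunr := hun v (fun h => hvT (hT₀T h)) w hvw
      have he : e = 1 := ramIdx_eq_one767 hunr hi hext
      subst he
      have hN := absNorm_over767 hExt hcyc hvw huniq hunr
      have hk : T6.IsLocalField (v.adicCompletion ℚ) (Ideal.absNorm v.asIdeal) := hLoc ℚ v
      have hk' : T6.IsLocalField (w.adicCompletion F) (Ideal.absNorm v.asIdeal ^ D.l) := by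
        rw [← hN]
        exact hLoc F w
      have e1 : (unit305 : GL (Fin 2) (w.adicCompletion F) → ℂ)
          = fun g => H159.unitFn159 (T6.cartan g) := unit305_eq767
      have e2 : (unit305 : GL (Fin 2) (v.adicCompletion ℚ) → ℂ)
          = fun g => H159.unitFn159 (T6.cartan g) := unit305_eq767
      rw [hupN v hvT w hvw, ext305_of_not_mem767 hvT, hn0 v hvT w hvw, hm0 v hvT, e1, e2]
      refine ⟨fun δ γ c c' hreg hconj hc hc' => ?_, fun γ c' hreg hnn hc' => ?_⟩
      · exact hFL.1 (v.adicCompletion ℚ) (w.adicCompletion F) (Ideal.absNorm v.asIdeal) D.l i sw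
          hk hk' hext hcyc.prime H159.unitFn159 H159.unitFn159 H159.isDominant_unitFn159
          H159.isDominant_unitFn159 (H159.isBC_unitFn159 _ _) δ γ c c' hreg trivial hconj hc hc'
      · exact hFL.2 (v.adicCompletion ℚ) (w.adicCompletion F) (Ideal.absNorm v.asIdeal) D.l i sw
          hk hk' hext hcyc.prime H159.unitFn159 H159.unitFn159 H159.isDominant_unitFn159
          H159.isDominant_unitFn159 (H159.isBC_unitFn159 _ _) γ c' hreg hnn hc'
  · -- split
    intro v _ w i hw hrel hne hi hval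
    by_cases hvT : v ∈ T
    · have h0 := H.split v hvT w i hw hrel hne hi hval
      have e0 : (fun (j : ℕ) (g : GL (Fin 2) (v.adicCompletion ℚ)) => ext305 T' φ₀ (w j)
            (Matrix.GeneralLinearGroup.map ((i j : v.adicCompletion ℚ ≃+* _) :
              v.adicCompletion ℚ →+* (w j).adicCompletion F) g))
          = fun (j : ℕ) (g : GL (Fin 2) (v.adicCompletion ℚ)) => φ₀ (w j)
            (Matrix.GeneralLinearGroup.map ((i j : v.adicCompletion ℚ ≃+* _) :
              v.adicCompletion ℚ →+* (w j).adicCompletion F) g) := by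
        funext j g
        rw [hupT v hvT (w j) (hw j)]
      rw [e0, ext305_of_mem767 hvT]
      exact h0
    · refine ⟨fun j => by rw [hn0 v hvT (w j) (hw j), hm0 v hvT], ?_⟩
      rw [ext305_of_not_mem767 hvT, hm0 v hvT]
      refine isConvProd_unit767 D.l _ (fun j => ?_)
      show (fun g : GL (Fin 2) (v.adicCompletion ℚ) => ext305 T' φ₀ (w j)
        (Matrix.GeneralLinearGroup.map ((i j : v.adicCompletion ℚ ≃+* _) :
          v.adicCompletion ℚ →+* (w j).adicCompletion F) g)) = unit305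
      rw [hupN v hvT (w j) (hw j)]
      exact unit305_map767 _ (fun x => hval j x)

end Fermat.Agent.LT.T7.H767

end

end
-- ===== PACK-END LT/T7/H767/UnitMatchQ.lean

-- ===== PACK-BEGIN LT/T7/H558/FactDownTopA.lean
section



/-!
# Row LT, tower T7, node C2.7.7 `FactDownC305` (helper558): the top of PART A (cut-off part)

OFF-MAIN.  Complete proof, nothing assumed.

    cutOnDownC_of558 : SuppDownC305 K → OutOpenC558 K → CompContC558 K → TorCommIdC558 K →
        SuppOutC558 K → HaarSigmaC558 K → CutOnOutC558 K → CutOnDownC558 K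
-/

set_option autoImplicit false

open AutomorphicForm IsDedekindDomain NumberField MeasureTheory
open scoped ComplexConjugate

noncomputable section

namespace Fermat.Agent.LT.T7.H558

open Fermat.Agent.LT.H556 Fermat.Agent.LT.H556.A0 Fermat.Agent.LT.T7 Fermat.Agent.LT.T7.H305

attribute [local instance] Fermat.Agent.LT.T5.instMeasurableSpaceG

variable {K : Type} [Field K] [NumberField K]

/-- The continuous factor of the product cut-off. -/
def prodCutCore558 (S : Finset (HeightOneSpectrum (𝓞 K))) (cT : ℝ) {γ : GL (Fin 2) K}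
    (L : LocData305 K γ) (y : G K) : ℝ :=
  cT⁻¹ * (∏ v ∈ S, L.βv v (finGL305 v y)) * ∏ w : InfinitePlace K, L.βc w (infGL305 w y)

theorem prodCut_eq_indicator558 (S : Finset (HeightOneSpectrum (𝓞 K))) (cT : ℝ)
    {γ : GL (Fin 2) K} (L : LocData305 K γ) :
    prodCut305 S cT L = Set.indicator {y : G K | OutT305 S y} (prodCutCore558 S cT L) := by
  classical
  funext y
  by_cases h : OutT305 S y
  · rw [Set.indicator_of_mem (show y ∈ {y : G K | OutT305 S y} from h)]
    change (if OutT305 S y then _ else _) = _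
    rw [if_pos h]
    rfl
  · rw [Set.indicator_of_notMem (show y ∉ {y : G K | OutT305 S y} from h)]
    change (if OutT305 S y then _ else _) = _
    rw [if_neg h]

theorem continuous_prodCutCore558 (hCont : CompContC558 K)
    (m : HeightOneSpectrum (𝓞 K) → ℕ) (S : Finset (HeightOneSpectrum (𝓞 K))) (cT : ℝ)
    {γ : GL (Fin 2) K} (L : LocData305 K γ) (hL : IsLocData305 m L) :
    Continuous (prodCutCore558 S cT L) := by
  unfold prodCutCore558
  refine (continuous_const.mul (continuous_finset_prod _ fun v _ => ?_)).mul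
    (continuous_finset_prod _ fun w _ => ?_)
  · exact (hL.cut v).1.comp (hCont.1 v)
  · exact (hL.cutc w).1.comp (hCont.2 w)

theorem prodCut_nonneg558 (m : HeightOneSpectrum (𝓞 K) → ℕ)
    (S : Finset (HeightOneSpectrum (𝓞 K))) (cT : ℝ) (hcT : 0 < cT)
    {γ : GL (Fin 2) K} (L : LocData305 K γ) (hL : IsLocData305 m L) (y : G K) :
    0 ≤ prodCut305 S cT L y := by
  classical
  rw [prodCut_eq_indicator558]
  refine Set.indicator_nonneg (fun y _ => ?_) y
  unfold prodCutCore558
  refine mul_nonneg (mul_nonneg (inv_nonneg.2 hcT.le) (Finset.prod_nonneg fun v _ => ?_))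
    (Finset.prod_nonneg fun w _ => ?_)
  · exact (hL.cut v).2.1 _
  · exact (hL.cutc w).2.1 _

/-- Right translation by an element of the (commutative) torus does not change the orbital
average. -/
theorem torus_transl558 (hComm : TorCommIdC558 K) (γ : GL (Fin 2) K) (hγ : T6.IsEll γ)
    (μT : @Measure (tA305 (T5.AdelicAut.id K) γ) (borel _))
    (hμT : @Measure.IsHaarMeasure _ _ _ (borel _) μT) (β : G K → ℝ) (t : G K)
    (ht : t ∈ tA305 (T5.AdelicAut.id K) γ) (x : G K) :
    @integral _ _ _ _ (borel _) μT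
        (fun t₁ : tA305 (T5.AdelicAut.id K) γ => β ((t₁ : G K) * (t * x)))
      = @integral _ _ _ _ (borel _) μT
        (fun t₁ : tA305 (T5.AdelicAut.id K) γ => β ((t₁ : G K) * x)) := by
  letI : MeasurableSpace (tA305 (T5.AdelicAut.id K) γ) := borel _
  haveI : BorelSpace (tA305 (T5.AdelicAut.id K) γ) := ⟨rfl⟩
  haveI := hμT
  have h := integral_mul_left_eq_self (μ := μT)
    (fun t₁ : tA305 (T5.AdelicAut.id K) γ => β ((t₁ : G K) * x))
    (⟨t, ht⟩ : tA305 (T5.AdelicAut.id K) γ)
  rw [← h]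
  congr 1
  funext t₁
  have hc : (t₁ : G K) * t = t * (t₁ : G K) := hComm γ hγ _ t₁.2 _ ht
  change β ((t₁ : G K) * (t * x)) = β ((t * (t₁ : G K)) * x)
  rw [← mul_assoc, hc]

/-- **THE TOP OF PART A.** -/
theorem cutOnDownC_of558 (hSD : SuppDownC305 K) (hOpen : OutOpenC558 K)
    (hCont : CompContC558 K) (hComm : TorCommIdC558 K) (hSO : SuppOutC558 K)
    (hσ : HaarSigmaC558 K) (hCut : CutOnOutC558 K) : CutOnDownC558 K := by
  intro R hR m S f₀ F γ hγ hgood μT hμT L cT hL hcT hT
  refine ⟨?_, prodCut_nonneg558 m S cT hcT L hL, ?_⟩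
  · rw [prodCut_eq_indicator558]
    haveI : BorelSpace (G K) := ⟨rfl⟩
    exact (continuous_prodCutCore558 hCont m S cT L hL).measurable.indicator
      (hOpen S).measurableSet
  · intro x hx
    have h1 : OutT305 S (x⁻¹ * T5.ratG γ * x) := hSO R.r hR.ray S f₀ F γ x hx
    obtain ⟨t, ht, hout⟩ := hSD γ S hgood x h1
    have hone := hCut hσ.2.2.1 hσ.2.2.2 hCont m S γ hγ hgood μT hμT L cT hL hcT hT
      (t⁻¹ * x) hout
    have htr := torus_transl558 hComm γ hγ μT hμT (prodCut305 S cT L) t ht (t⁻¹ * x)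
    rw [mul_inv_cancel_left] at htr
    rw [htr]
    exact hone

end Fermat.Agent.LT.T7.H558

end

end
-- ===== PACK-END LT/T7/H558/FactDownTopA.lean

-- ===== PACK-BEGIN LT/T7/H729/OutOpen.lean
section



/-!
# Row LT, tower T7, asset leaf T7.L2.1.C2.7.7.1 `H558.OutOpenC558` (helper729)

OFF-MAIN.  PROVED, UNCONDITIONAL (no hole, nothing assumed).  ADDITIVE (new names only).
Spec: `LT/T7/H558/FactDownSpec.lean` (helper558@b6c4c8a4b, sha256 8043f526), byte-identical copy.

    outOpenC729 K : H558.OutOpenC558 K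

Route (docstring of the leaf): the finite adeles which are integral outside `S` form an open set
(`RestrictedProduct.isOpen_forall_imp_mem`), the entries of `y` and of `y⁻¹` are continuous
(topology of units).
-/

set_option autoImplicit false

open AutomorphicForm IsDedekindDomain NumberField MeasureTheory

noncomputable section

namespace Fermat.Agent.LT.T7.OutOpen729

open Fermat.Agent.LT.H556 Fermat.Agent.LT.H556.A0 Fermat.Agent.LT.T7 Fermat.Agent.LT.T7.H305

/-- **ASSET LEAF T7.L2.1.C2.7.7.1 `H558.OutOpenC558`**: `Out_S` is open in `GL₂(𝔸_K)`. -/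
theorem outOpenC729 (K : Type) [Field K] [NumberField K] : H558.OutOpenC558 K := by
  intro S
  set U : Set (FiniteAdeleRing (𝓞 K) K) :=
    {f | ∀ v : HeightOneSpectrum (𝓞 K), v ∉ S → f v ∈ v.adicCompletionIntegers K} with hU
  have hopen : IsOpen U :=
    RestrictedProduct.isOpen_forall_imp_mem
      (A := fun v : HeightOneSpectrum (𝓞 K) =>
        (v.adicCompletionIntegers K : Set (v.adicCompletion K)))
      (fun v => Valued.isOpen_valuationSubring _) (p := fun v => v ∉ S)
  have h1 : ∀ i j : Fin 2,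
      Continuous fun y : G K => ((y : Matrix (Fin 2) (Fin 2) (Adl K)) i j).2 :=
    fun i j => continuous_snd.comp ((continuous_id.matrix_elem i j).comp Units.continuous_val)
  have h2 : ∀ i j : Fin 2,
      Continuous fun y : G K => (((y⁻¹ : G K) : Matrix (Fin 2) (Fin 2) (Adl K)) i j).2 :=
    fun i j => continuous_snd.comp
      ((continuous_id.matrix_elem i j).comp Units.continuous_coe_inv)
  have e : {y : G K | OutT305 S y}
      = (⋂ i : Fin 2, ⋂ j : Fin 2,
          (fun y : G K => ((y : Matrix (Fin 2) (Fin 2) (Adl K)) i j).2) ⁻¹' U)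
        ∩ (⋂ i : Fin 2, ⋂ j : Fin 2,
          (fun y : G K => (((y⁻¹ : G K) : Matrix (Fin 2) (Fin 2) (Adl K)) i j).2) ⁻¹' U) := by
    ext y
    simp only [Set.mem_inter_iff, Set.mem_iInter, Set.mem_preimage]
    constructor
    · intro hy
      exact ⟨fun i j v hv => (hy v hv).1 i j, fun i j v hv => (hy v hv).2 i j⟩
    · rintro ⟨ha, hb⟩ v hv
      exact ⟨fun i j => ha i j v hv, fun i j => hb i j v hv⟩
  rw [e]
  exact (isOpen_iInter_of_finite fun i => isOpen_iInter_of_finite fun j =>
      hopen.preimage (h1 i j)).inter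
    (isOpen_iInter_of_finite fun i => isOpen_iInter_of_finite fun j =>
      hopen.preimage (h2 i j))

end Fermat.Agent.LT.T7.OutOpen729

end

end
-- ===== PACK-END LT/T7/H729/OutOpen.lean

-- ===== PACK-BEGIN LT/T7/H379/HaarSplitQ.lean
section





/-!
# Row LT, tower T7, quadratic step, node `CutIntQC298`, ASSET LEAF Q2.7.4 `HaarSplitQC298`
# (registry row 2674, helper379): PROVED, VERBATIM

OFF-MAIN.  No hole, nothing assumed.  ADDITIVE (suffix `379`).

    haarSplitQC379 : MQ298.HaarSplitQC298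

Statement of `T7/H298/MatchQCut.lean` (helper298@076793e90, sha256 74dc2a3c).  MIRROR of
`T7/H159/HaarSplit305.lean` (helper159, `haarSplitC159`) with the real place of `ℚ`: on
`T7/H159/HaarSplit.lean` (`isHaarMeasure_map_restrict159`, helper159, Mathlib only) and
`T7/H973/RestrGLQ.lean` (helper973: `surj_restrQ973`, `proper_restrQ973`, `isOpen_restrSubQ973`).
The constant: `c = μ(A) / μr(C)`, `A = {y : y_v ∈ U(m_v) for all v, y_∞ ∈ C}` for a compact
neighbourhood `C` of `1` in `GL₂(ℝ)`.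
-/

set_option autoImplicit false
set_option linter.style.haveILetI false

open IsDedekindDomain NumberField MeasureTheory
open scoped RestrictedProduct

noncomputable section

namespace Fermat.Agent.LT.T7.H379

open Fermat.Agent.LT.H556.A0 Fermat.Agent.LT Fermat.Agent.LT.T7 Fermat.Agent.LT.T7.H159
  Fermat.Agent.LT.T7.H973

attribute [local instance] Fermat.Agent.LT.T5.instMeasurableSpaceG

/-! ## The map to the product -/

/-- The target group `∏_{v ∈ S} GL₂(ℚ_v) × GL₂(ℝ)`. -/
abbrev TgtQ379 (S : Finset (HeightOneSpectrum (𝓞 ℚ))) : Type :=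
  (∀ v : S, GL (Fin 2) ((v : HeightOneSpectrum (𝓞 ℚ)).adicCompletion ℚ)) × GL (Fin 2) ℝ

/-- `compSQ298 S` as a homomorphism. -/
def compHomQ379 (S : Finset (HeightOneSpectrum (𝓞 ℚ))) : G ℚ →* TgtQ379 S :=
  MonoidHom.prod (MonoidHom.pi fun v : S => H305.finGL305 v.1) MQ298.reGLQ298

theorem compHomQ_eq379 (S : Finset (HeightOneSpectrum (𝓞 ℚ))) :
    ⇑(compHomQ379 S) = MQ298.compSQ298 S := rfl

theorem continuous_compHomQ379 (S : Finset (HeightOneSpectrum (𝓞 ℚ))) :
    Continuous (compHomQ379 S) := by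
  refine Continuous.prodMk (continuous_pi fun v => ?_) ?_
  · exact continuous_locProjQ973 (Sum.inr v.1)
  · exact continuous_locProjQ973 (Sum.inl ())

theorem surj_compQ379 (S : Finset (HeightOneSpectrum (𝓞 ℚ))) (h : TgtQ379 S) :
    ∃ e ∈ restrSub159 locProjQ973 locKQ973 (baseSetQ973 S), compHomQ379 S e = h := by
  set x : ∀ i : baseSetQ973 S, LocGLQ973 i := fun i =>
    match i with
    | ⟨Sum.inl _, _⟩ => (h.2 : GL (Fin 2) ℝ)
    | ⟨Sum.inr v, hv⟩ => (h.1 ⟨v, (inr_mem_baseSetQ973 S v).1 hv⟩ :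
        GL (Fin 2) (v.adicCompletion ℚ)) with hx
  obtain ⟨g, hg, hgx⟩ := surj_restrQ973 (baseSetQ973 S) (inl_mem_baseSetQ973 S ()) x
  refine ⟨g, hg, Prod.ext (funext fun v => ?_) ?_⟩
  · exact congrFun hgx ⟨Sum.inr v.1, (inr_mem_baseSetQ973 S v.1).2 v.2⟩
  · exact congrFun hgx ⟨Sum.inl (), inl_mem_baseSetQ973 S ()⟩

open Classical in
theorem proper_compQ379 (S : Finset (HeightOneSpectrum (𝓞 ℚ))) (C : Set (TgtQ379 S))
    (hC : IsCompact C) :
    ∃ C' : Set (G ℚ), IsCompact C' ∧
      (compHomQ379 S) ⁻¹' C ∩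
        (restrSub159 locProjQ973 locKQ973 (baseSetQ973 S) : Set (G ℚ)) ⊆ C' := by
  set Cf : ∀ i : PlQ973, Set (LocGLQ973 i) := fun i =>
    match i with
    | Sum.inl _ => ((fun h : TgtQ379 S => h.2) '' C : Set (GL (Fin 2) ℝ))
    | Sum.inr v => (if hv : v ∈ S then (fun h : TgtQ379 S => h.1 ⟨v, hv⟩) '' C else ∅ :
        Set (GL (Fin 2) (v.adicCompletion ℚ))) with hCf
  have hcomp : ∀ i ∈ baseSetQ973 S, IsCompact (Cf i) := by
    intro i hi
    cases i with
    | inl u => exact hC.image continuous_snd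
    | inr v =>
      have hv := (inr_mem_baseSetQ973 S v).1 hi
      have e : Cf (Sum.inr v) = (fun h : TgtQ379 S => h.1 ⟨v, hv⟩) '' C := dif_pos hv
      rw [e]
      exact hC.image ((continuous_apply (⟨v, hv⟩ : S)).comp continuous_fst)
  obtain ⟨C', hC', hsub⟩ := proper_restrQ973 (baseSetQ973 S)
    (inl_mem_baseSetQ973 S ()) Cf hcomp
  refine ⟨C', hC', ?_⟩
  rintro g ⟨hgC, hgE⟩
  refine hsub ⟨hgE, fun i hi => ?_⟩
  cases i with
  | inl u => exact ⟨compHomQ379 S g, hgC, rfl⟩
  | inr v =>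
    have hv := (inr_mem_baseSetQ973 S v).1 hi
    have e : Cf (Sum.inr v) = (fun h : TgtQ379 S => h.1 ⟨v, hv⟩) '' C := dif_pos hv
    rw [e]
    exact ⟨compHomQ379 S g, hgC, rfl⟩

/-! ## The leaf -/

/-- **ASSET LEAF Q2.7.4 = HAAR-SPLIT over `ℚ`, PROVED.** -/
theorem haarSplitQC379 : MQ298.HaarSplitQC298 := by
  intro μ hμ μr hμr T₀ m hm
  classical
  letI mv : ∀ v : HeightOneSpectrum (𝓞 ℚ), MeasurableSpace (GL (Fin 2) (v.adicCompletion ℚ)) :=
    fun _ => borel _
  letI mr : MeasurableSpace (GL (Fin 2) ℝ) := borel _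
  haveI : ∀ v : HeightOneSpectrum (𝓞 ℚ), BorelSpace (GL (Fin 2) (v.adicCompletion ℚ)) :=
    fun _ => ⟨rfl⟩
  haveI : BorelSpace (GL (Fin 2) ℝ) := ⟨rfl⟩
  haveI : SecondCountableTopology (GL (Fin 2) ℝ) := secondCountable_GLR973
  haveI : LocallyCompactSpace (GL (Fin 2) ℝ) := locallyCompactSpace_GLR973
  haveI : ∀ v : HeightOneSpectrum (𝓞 ℚ),
      SecondCountableTopology (GL (Fin 2) (v.adicCompletion ℚ)) :=
    fun v => secondCountable_GLv159 ℚ v
  haveI : ∀ v : HeightOneSpectrum (𝓞 ℚ),
      LocallyCompactSpace (GL (Fin 2) (v.adicCompletion ℚ)) :=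
    fun v => H11.LC.locallyCompactSpace_GL2_adicCompletion_h11 ℚ v
  haveI : BorelSpace (G ℚ) := ⟨rfl⟩
  haveI := hμ
  haveI : μr.IsHaarMeasure := hμr
  obtain ⟨C, hCc, hCm, hC0, hCt⟩ := exists_nice_nhds_gen159 μr
  set A : Set (G ℚ) := {y | (∀ v : HeightOneSpectrum (𝓞 ℚ), T6.InU (m v) (H305.finGL305 v y)) ∧
    MQ298.reGLQ298 y ∈ C} with hA
  set M : ENNReal := μr C with hM
  have hM0 : M ≠ 0 := hC0
  have hMt : M ≠ ⊤ := hCt
  set c0 : ℝ := (μ A / M).toReal with hc0
  refine ⟨if 0 < c0 then c0 else 1, by split_ifs with h <;> [exact h; exact one_pos], ?_⟩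
  intro S hS μv hμv
  haveI : ∀ v : HeightOneSpectrum (𝓞 ℚ), (μv v).IsHaarMeasure := fun v => (hμv v).1
  set E := restrSub159 locProjQ973 locKQ973 (baseSetQ973 S) with hEdef
  have hE : {y : G ℚ | H305.OutT305 S y} = (E : Set (G ℚ)) := by
    ext y
    exact (mem_restrSubQ_base973 S y).symm
  have hH : (Measure.map (compHomQ379 S) (μ.restrict (E : Set (G ℚ)))).IsHaarMeasure :=
    isHaarMeasure_map_restrict159 μ E (isOpen_restrSubQ973 _) (compHomQ379 S)
      (continuous_compHomQ379 S) (surj_compQ379 S)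
      (fun C hC _ => proper_compQ379 S C hC)
  set P : Measure (TgtQ379 S) :=
    (Measure.pi fun v : S => μv v.1).prod μr with hP
  haveI i1 : ∀ v : S, MeasurableMul (GL (Fin 2) (v.1.adicCompletion ℚ)) := fun v => inferInstance
  haveI i2 : MeasurableMul (GL (Fin 2) ℝ) := inferInstance
  haveI i3 : ∀ v : S, SigmaFinite (μv v.1) := fun v => inferInstance
  haveI i4 : SigmaFinite μr := inferInstance
  haveI i5 : (Measure.pi fun v : S => μv v.1).IsHaarMeasure := inferInstance
  haveI i7 : MeasurableMul (∀ v : S, GL (Fin 2) (v.1.adicCompletion ℚ)) := inferInstance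
  haveI : P.IsHaarMeasure := by rw [hP]; infer_instance
  set s : NNReal :=
    MeasureTheory.Measure.haarScalarFactor
      (Measure.map (compHomQ379 S) (μ.restrict (E : Set (G ℚ)))) P with hs
  have e1 : Measure.map (compHomQ379 S) (μ.restrict (E : Set (G ℚ))) = s • P :=
    MeasureTheory.Measure.isMulLeftInvariant_eq_smul _ _
  have hspos : 0 < s := MeasureTheory.Measure.haarScalarFactor_pos_of_isHaarMeasure _ _
  set W : Set (TgtQ379 S) :=
    (Set.pi Set.univ fun v : S => {g : GL (Fin 2) (v.1.adicCompletion ℚ) | T6.InU (m v.1) g}) ×ˢ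
      C with hW
  have hWm : MeasurableSet W :=
    (MeasurableSet.univ_pi fun v => (isOpen_InU159 v.1 (m v.1)).measurableSet).prod hCm
  have hPW : P W = M := by
    rw [hP, hW, Measure.prod_prod, Measure.pi_pi]
    have : ∏ v : S, μv v.1 {g : GL (Fin 2) (v.1.adicCompletion ℚ) | T6.InU (m v.1) g} = 1 :=
      Finset.prod_eq_one fun v _ => (hμv v.1).2
    rw [this, one_mul]
  have hνW : Measure.map (compHomQ379 S) (μ.restrict (E : Set (G ℚ))) W = μ A := by
    rw [map_restrict_apply159 μ E (compHomQ379 S) (continuous_compHomQ379 S) hWm]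
    congr 1
    ext y
    constructor
    · rintro ⟨⟨h1, h2⟩, h3⟩
      refine ⟨fun v => ?_, h2⟩
      by_cases hv : v ∈ S
      · exact h1 ⟨v, hv⟩ (Set.mem_univ _)
      · have hm0 : m v = 0 := hm v fun h0 => hv (hS h0)
        rw [hm0]
        refine (inU_zero_iff159 v _).2 ?_
        exact h3 (Sum.inr v) fun h' => hv ((inr_mem_baseSetQ973 S v).1 h')
    · rintro ⟨h1, h2⟩
      refine ⟨⟨fun v _ => h1 v.1, h2⟩, ?_⟩
      intro i hi
      cases i with
      | inl u => exact Subgroup.mem_top _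
      | inr v =>
        have hv : v ∉ S := fun h' => hi ((inr_mem_baseSetQ973 S v).2 h')
        have hm0 : m v = 0 := hm v fun h0 => hv (hS h0)
        have := h1 v
        rw [hm0] at this
        exact (inU_zero_iff159 v _).1 this
  have hμA : μ A = (s : ENNReal) * M := by
    rw [← hνW, e1, Measure.smul_apply, hPW]
    rfl
  have hc0s : c0 = (s : ℝ) := by
    rw [hc0, hμA, ENNReal.mul_div_cancel_right hM0 hMt]
    rfl
  have hc0pos : 0 < c0 := by
    rw [hc0s]
    exact_mod_cast hspos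
  rw [if_pos hc0pos, hc0s]
  show Measure.map (MQ298.compSQ298 S) (μ.restrict {y | H305.OutT305 S y})
      = ENNReal.ofReal (s : ℝ) • P
  rw [hE, ← compHomQ_eq379, e1, ENNReal.ofReal_coe_nnreal]
  rfl

end Fermat.Agent.LT.T7.H379

end

end
-- ===== PACK-END LT/T7/H379/HaarSplitQ.lean

-- ===== PACK-BEGIN LT/T7/H340/UpFactSpec.lean
section




/-!
# Row LT, tower T7, node C2.7.13.1 `UpFactC340` (owner helper340, registry row 2620):
# THE SECOND CUT -- Spec

OFF-MAIN.  Definitions and frozen Props only (the proved tops are in `UpFactTop.lean`).  No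
hole, nothing assumed.  ADDITIVE (new names only, suffix `340`).  Vocabulary:
`T7/H340/FactUpSpec.lean` (sha256 786596dd), `T7/H558/FactDownSpec.lean` (helper558, sha256
8043f526), `T7/H305/MatchCut.lean` (0f302b81) and their imports, byte-identical copies.

    upFactC_of_parts340 : UpDatC340 K K' → CutOnUpC340 K K' → FactIntUpC340 K K'
                            → UpFactC340 K K'                                   (PROVED)

## The cut (mirror of the cut of `FactDownC305` by helper558, with the places GROUPED over `K`)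

0. LOCAL DATA UPSTAIRS (`UpDat340`, `IsUpDat340`; part `UpDatC340`).  `S = S_in ⊔ S_sp`:
   * `v ∈ S_in` (ONE place `w` over `v`), `InertDat340`: `(w, e, i, s_w, μ'_w, μt'_w, β'_w)` as
     in `IsInertVal340`, and moreover `(σ_𝔸 a)_w = s_w(a_w)`, `(ι x)_w = i(x_v)`, and the torus
     measure `μt'_w` is the image of the torus measure `μt_v` downstairs under `i`;
   * `v ∈ S_sp` (split), `SplitDat340`: `(w_j, i_j)` as in `IsSplitVal340`, and moreover the
     `w_a`, `a < l`, are distinct and ALL the places over `v`,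
     `i_a⁻¹((σ_𝔸 x)_{w_a}) = i_{a+1}⁻¹(x_{w_{a+1}})` (indices modulo `l`), `(ι x)_{w_a} = i_a(x_v)`;
   * `v ∣ ∞`, `ArchDat340`: `(w_a, d_a)` as in `IsArchVal340`, and moreover the `w_a`, `a < l`,
     are ALL the places over `v`, `d_a((σ_𝔸 x)_{w_a}) = d_{a+1}(x_{w_{a+1}})` (modulo `l`).
1. THE CUT-OFF `upCut340 = c_T⁻¹ 1_{Out_{S'}} ∏_{S_in} β'_w(y_w) ∏_{S_sp} β_v(i_0⁻¹ y_{w_0})
   ∏_{v ∣ ∞} β_v(d_0 y_{w_0})`, THE VALUES `upJ340`, `upJc340` (the local twisted integrals of
   `FactUpSpec.lean` for the data).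
2. Part A `CutOnUpC340`: `upCut340` is a cut-off on the support of the integrand.  Leaves:
   `SuppOutUpC340` (support in `Out`), `SuppUpC340` (twisted form of `SuppDownC305`),
   `CutOnOutUpC340` (the integral over the torus is `1` on `Out_{S'}`), `TorCommC305 K'`
   (closed), measurability (`OutOpenC558 K'`, `CompContC558 K'`, `IsoContC340`).
3. Part B `FactIntUpC340`: the integral.  Leaves: `GrpSplitC340` (the Haar measure of
   `GL₂(𝔸_{K'})` on `Out_{S'}` in the GROUPED coordinates is `c'_G` times the product measure),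
   `PtFactUpC340` (pointwise factorisation), `RayFinUpC340` (finite sum over the ray,
   uniformly), `ArchIntblUpC340` (integrability at the infinite places).

FALSITY CHECKS (helper340).  `sig` at a split place for `a = l - 1`: `w_l = w_0` (the fibre is
`{w_0, …, w_{l-1}}`, `σ` permutes it) and `i_l = i_0` as maps to `K'_{w_0}` (density), so the
statement with `cycSucc340` is the true one.  Infinite places: `d_a = c_a ∘ d_{a+1}`
(`σ ι = ι`, `T5.infHom v` onto), `c_a` the type of `σ_𝔸` at `w_a`, so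
`d_a((σ x)_{w_a}) = d_a c_a(x_{w_{a+1}}) = d_{a+1}(x_{w_{a+1}})`.  `link`: `i` maps the
centraliser of `γ_v` onto the twisted centraliser of `δ_w` (local `T6.TwCentC`) and
`{tr integral, det unit}` onto itself (`val_i`, `e > 0`), so the image of the normalised Haar
measure is the normalised Haar measure: the data exist.  `RayFinUpC340`: only the PRODUCT over
the places over `v` vanishes uniformly (`∏_a det(Z_a⁻¹ δ_a Z_{a+1}) = ∏_a det δ_a`).
`GrpSplitC340`: the constant is the constant of `HaarSplitC305 K'` for the levels `n`; at the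
split places the image of `μ_v` under `i_a` is the normalised Haar measure for the level
`n (w_a) = m v` (hypothesis `hlev`, from `LocHyp305.split`); complex conjugation preserves `μc`.
-/

set_option autoImplicit false

open AutomorphicForm IsDedekindDomain NumberField MeasureTheory
open scoped ComplexConjugate

noncomputable section

namespace Fermat.Agent.LT.T7.H340

open Fermat.Agent.LT.H556 Fermat.Agent.LT.H556.A0 Fermat.Agent.LT.T7 Fermat.Agent.LT.T7.H305
open Fermat.Agent.LT.T7.H558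

attribute [local instance] Fermat.Agent.LT.T5.instMeasurableSpaceG

section TwoFields

variable {K K' : Type} [Field K] [NumberField K] [Field K'] [NumberField K'] [Algebra K K']

/-! ## 0. The local data upstairs -/

/-- Local data upstairs at a finite place `v` with ONE place over it. -/
structure InertDat340 (δ : GL (Fin 2) K') (v : HeightOneSpectrum (𝓞 K)) where
  /-- the place over `v` -/
  w : HeightOneSpectrum (𝓞 K')
  /-- the ramification index -/
  e : ℕ
  /-- the embedding of the completions -/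
  i : v.adicCompletion K →+* w.adicCompletion K'
  /-- the local automorphism -/
  sw : w.adicCompletion K' ≃+* w.adicCompletion K'
  /-- the Haar measure of `GL₂(K'_w)` -/
  μ' : @Measure (GL (Fin 2) (w.adicCompletion K')) (borel _)
  /-- the Haar measure of the twisted centraliser -/
  μt' : @Measure (T6.twCentSub (T6.glAut sw) (locG305 w δ)) (borel _)
  /-- the cut-off function -/
  β' : GL (Fin 2) (w.adicCompletion K') → ℝ

/-- Local data upstairs at a split finite place `v`. -/
structure SplitDat340 (K' : Type) [Field K'] [NumberField K'] (v : HeightOneSpectrum (𝓞 K)) where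
  /-- the places over `v` -/
  w : ℕ → HeightOneSpectrum (𝓞 K')
  /-- the identifications of the completions -/
  i : ∀ j : ℕ, v.adicCompletion K ≃+* (w j).adicCompletion K'

/-- Local data upstairs at an infinite place. -/
structure ArchDat340 (K' : Type) [Field K'] [NumberField K'] where
  /-- the places over `v` -/
  w : ℕ → InfinitePlace K'
  /-- the types of `ι` -/
  d : ℕ → ℂ →+* ℂ

/-- The properties of the local data at a place with ONE place over it. -/
structure IsInertDat340 (D : CompData K K') (ι : Adl K →+* Adl K')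
    (n : HeightOneSpectrum (𝓞 K') → ℕ) {δ : GL (Fin 2) K'} {γ : GL (Fin 2) K}
    (L : LocData305 K γ) {v : HeightOneSpectrum (𝓞 K)} (d : InertDat340 δ v) : Prop where
  ovr : PlaceOver K K' v d.w
  uniq : ∀ w' : HeightOneSpectrum (𝓞 K'), PlaceOver K K' v w' → w' = d.w
  rat_i : ∀ x : K, d.i (algebraMap K (v.adicCompletion K) x)
    = algebraMap K' (d.w.adicCompletion K') (algebraMap K K' x)
  rat_s : ∀ y : K', d.sw (algebraMap K' (d.w.adicCompletion K') y)
    = algebraMap K' (d.w.adicCompletion K') (D.s.σ y)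
  ext : T6.IsLocalExt (v.adicCompletion K) (d.w.adicCompletion K') D.l d.e d.i d.sw
  haar : IsLocHaar305 (n d.w) d.μ'
  tor : IsLocTor305 d.sw (locG305 d.w δ) d.μt'
  cut : IsLocCut305 d.sw (locG305 d.w δ) d.μt' d.β'
  sig : ∀ a : Adl K', T5.finHom d.w (D.s.σA a) = d.sw (T5.finHom d.w a)
  iot : ∀ x : Adl K, T5.finHom d.w (ι x) = d.i (T5.finHom v x)
  link : ∀ A : Set (GL (Fin 2) (d.w.adicCompletion K')), @MeasurableSet _ (borel _) A →
    d.μt' {t | (t : GL (Fin 2) (d.w.adicCompletion K')) ∈ A}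
      = L.μt v {t | Matrix.GeneralLinearGroup.map d.i (t : GL (Fin 2) (v.adicCompletion K)) ∈ A}

/-- The properties of the local data at a split place. -/
structure IsSplitDat340 (D : CompData K K') (ι : Adl K →+* Adl K')
    {v : HeightOneSpectrum (𝓞 K)} (d : SplitDat340 K' v) : Prop where
  pos : 0 < D.l
  ovr : ∀ j : ℕ, PlaceOver K K' v (d.w j)
  rel : ∀ j : ℕ, T5.PlaceRel D.s (d.w (j + 1)) (d.w j)
  ne : ∀ j : ℕ, 0 < j → j < D.l → d.w j ≠ d.w 0
  rat_i : ∀ (j : ℕ) (x : K), d.i j (algebraMap K (v.adicCompletion K) x)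
    = algebraMap K' ((d.w j).adicCompletion K') (algebraMap K K' x)
  val_i : ∀ (j : ℕ) (x : v.adicCompletion K), Valued.v (d.i j x) = Valued.v x
  inj : ∀ a b : ℕ, a < D.l → b < D.l → d.w a = d.w b → a = b
  exh : ∀ w' : HeightOneSpectrum (𝓞 K'), PlaceOver K K' v w' → ∃ a : ℕ, a < D.l ∧ w' = d.w a
  sig : ∀ (a : Fin D.l) (x : Adl K'),
    (d.i a.1).symm (T5.finHom (d.w a.1) (D.s.σA x))
      = (d.i (cycSucc340 a).1).symm (T5.finHom (d.w (cycSucc340 a).1) x)
  iot : ∀ (a : ℕ) (x : Adl K), T5.finHom (d.w a) (ι x) = d.i a (T5.finHom v x)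

/-- The properties of the local data at an infinite place. -/
structure IsArchDat340 (D : CompData K K') (ι : Adl K →+* Adl K') (v : InfinitePlace K)
    (d : ArchDat340 K') : Prop where
  pos : 0 < D.l
  ovr : ∀ a : ℕ, (d.w a).comap (algebraMap K K') = v
  rel : ∀ a : ℕ, d.w (a + 1) = (d.w a).comap (D.s.σ : K' →+* K')
  inj : ∀ a a' : ℕ, a < D.l → a' < D.l → d.w a = d.w a' → a = a'
  typ : ∀ a : ℕ, d.d a = RingHom.id ℂ ∨ d.d a = starRingEnd ℂ
  iot : ∀ (a : ℕ) (x : Adl K), T5.infHom (d.w a) (ι x) = d.d a (T5.infHom v x)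
  exh : ∀ w' : InfinitePlace K', w'.comap (algebraMap K K') = v → ∃ a : ℕ, a < D.l ∧ w' = d.w a
  sig : ∀ (a : Fin D.l) (x : Adl K'),
    d.d a.1 (T5.infHom (d.w a.1) (D.s.σA x))
      = d.d (cycSucc340 a).1 (T5.infHom (d.w (cycSucc340 a).1) x)

/-- THE LOCAL DATA UPSTAIRS for `S = Sin ⊔ Ssp` and the infinite places. -/
structure UpDat340 (K : Type) [Field K] [NumberField K] {K' : Type} [Field K'] [NumberField K']
    (δ : GL (Fin 2) K') where
  /-- the places of `S` with ONE place over them -/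
  Sin : Finset (HeightOneSpectrum (𝓞 K))
  /-- the split places of `S` -/
  Ssp : Finset (HeightOneSpectrum (𝓞 K))
  /-- the data at the places of `Sin` -/
  dI : ∀ v : Sin, InertDat340 δ v.1
  /-- the data at the places of `Ssp` -/
  dS : ∀ v : Ssp, SplitDat340 K' v.1
  /-- the data at the infinite places -/
  dA : InfinitePlace K → ArchDat340 K'

/-- The properties of the local data upstairs. -/
structure IsUpDat340 (D : CompData K K') (ι : Adl K →+* Adl K')
    (n : HeightOneSpectrum (𝓞 K') → ℕ) {δ : GL (Fin 2) K'} {γ : GL (Fin 2) K}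
    (L : LocData305 K γ) (S : Finset (HeightOneSpectrum (𝓞 K))) (U : UpDat340 K δ) : Prop where
  pos : 0 < D.l
  union : ∀ v : HeightOneSpectrum (𝓞 K), v ∈ S ↔ v ∈ U.Sin ∨ v ∈ U.Ssp
  disj : ∀ v : HeightOneSpectrum (𝓞 K), v ∈ U.Sin → v ∉ U.Ssp
  inert : ∀ v : U.Sin, IsInertDat340 D ι n L (U.dI v)
  split : ∀ v : U.Ssp, IsSplitDat340 D ι (U.dS v)
  arch : ∀ v : InfinitePlace K, IsArchDat340 D ι v (U.dA v)

/-! ## 1. The coordinates, the cut-off, the values -/

/-- The coordinates of `y ∈ GL₂(𝔸_{K'})` at a split place `v`, in `GL₂(K_v)^l`. -/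
def coordS340 {v : HeightOneSpectrum (𝓞 K)} (d : SplitDat340 K' v) (l : ℕ) (y : G K') :
    Fin l → GL (Fin 2) (v.adicCompletion K) :=
  fun a => Matrix.GeneralLinearGroup.map
    (((d.i a.1).symm : (d.w a.1).adicCompletion K' ≃+* _) :
      (d.w a.1).adicCompletion K' →+* v.adicCompletion K) (finGL305 (d.w a.1) y)

/-- The `K`-coordinates of `y ∈ GL₂(𝔸_{K'})` at an infinite place, in `GL₂(ℂ)^l`. -/
def coordA340 (d : ArchDat340 K') (l : ℕ) (y : G K') : Fin l → GL (Fin 2) ℂ :=
  fun a => Matrix.GeneralLinearGroup.map (d.d a.1) (infGL305 (d.w a.1) y)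

/-- The integrand of `locTwInt340`. -/
def twFn340 {k : Type} [Field k] [Valued k T6.Γ₀] (s : k ≃+* k) (β : GL (Fin 2) k → ℝ)
    (φ : GL (Fin 2) k → ℂ) (δ : GL (Fin 2) k) : GL (Fin 2) k → ℂ :=
  fun x => φ (x⁻¹ * δ * T6.glAut s x) * ((β x : ℝ) : ℂ)

/-- The twisted product `∏_{a < l} φ_a(y_a⁻¹ δ_a y_{a+1})` (indices modulo `l`). -/
def cycProd340 {H : Type} [Group H] (l : ℕ) (φ : ℕ → H → ℂ) (δ : ℕ → H) (y : Fin l → H) : ℂ :=
  ∏ j : Fin l, φ j.1 ((y j)⁻¹ * δ j.1 * y (cycSucc340 j))

/-- The integrand of `splitInt340`. -/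
def splitFn340 {H : Type} [Group H] (l : ℕ) (hl : 0 < l) (β : H → ℝ) (φ : ℕ → H → ℂ)
    (δ : ℕ → H) : (Fin l → H) → ℂ :=
  fun y => cycProd340 l φ δ y * ((β (y ⟨0, hl⟩) : ℝ) : ℂ)

/-- The components of the test function at a split place in the coordinates of `K_v`. -/
def phiS340 (φ₀ : ∀ w : HeightOneSpectrum (𝓞 K'), GL (Fin 2) (w.adicCompletion K') → ℂ)
    {v : HeightOneSpectrum (𝓞 K)} (d : SplitDat340 K' v) :
    ℕ → GL (Fin 2) (v.adicCompletion K) → ℂ :=
  fun j g => φ₀ (d.w j)
    (Matrix.GeneralLinearGroup.map ((d.i j : v.adicCompletion K ≃+* _) :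
      v.adicCompletion K →+* (d.w j).adicCompletion K') g)

/-- The components of `δ` at a split place in the coordinates of `K_v`. -/
def delS340 (δ : GL (Fin 2) K') {v : HeightOneSpectrum (𝓞 K)} (d : SplitDat340 K' v) :
    ℕ → GL (Fin 2) (v.adicCompletion K) :=
  fun j => Matrix.GeneralLinearGroup.map
    (((d.i j).symm : (d.w j).adicCompletion K' ≃+* _) :
      (d.w j).adicCompletion K' →+* v.adicCompletion K) (locG305 (d.w j) δ)

/-- The components of `δ r'^j` at an infinite place in the `K`-coordinates. -/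
def delA340 (r' : G K') (δ : GL (Fin 2) K') (d : ArchDat340 K') (j : ℤ) : ℕ → GL (Fin 2) ℂ :=
  fun a => Matrix.GeneralLinearGroup.map (d.d a) (infGL305 (d.w a) (T5.ratG δ * r' ^ j))

open Classical in
/-- THE CUT-OFF UPSTAIRS for the local data `U`. -/
def upCut340 (S' : Finset (HeightOneSpectrum (𝓞 K'))) (cT : ℝ) {γ : GL (Fin 2) K}
    (L : LocData305 K γ) {δ : GL (Fin 2) K'} (U : UpDat340 K δ) (y : G K') : ℝ :=
  if OutT305 S' y then
    cT⁻¹ * (∏ v : U.Sin, (U.dI v).β' (finGL305 (U.dI v).w y))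
      * (∏ v : U.Ssp, L.βv v.1
          (Matrix.GeneralLinearGroup.map
            ((((U.dS v).i 0).symm : ((U.dS v).w 0).adicCompletion K' ≃+* _) :
              ((U.dS v).w 0).adicCompletion K' →+* (v.1).adicCompletion K)
            (finGL305 ((U.dS v).w 0) y)))
      * ∏ v : InfinitePlace K, L.βc v
          (Matrix.GeneralLinearGroup.map ((U.dA v).d 0) (infGL305 ((U.dA v).w 0) y))
  else 0

open Classical in
/-- THE VALUES at the finite places for the local data `U`. -/
def upJ340 (l : ℕ) (hl : 0 < l)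
    (φ₀ : ∀ w : HeightOneSpectrum (𝓞 K'), GL (Fin 2) (w.adicCompletion K') → ℂ)
    {γ : GL (Fin 2) K} (L : LocData305 K γ) {δ : GL (Fin 2) K'} (U : UpDat340 K δ)
    (v : HeightOneSpectrum (𝓞 K)) : ℂ :=
  if h : v ∈ U.Sin then
    locTwInt340 (U.dI ⟨v, h⟩).sw (U.dI ⟨v, h⟩).μ' (U.dI ⟨v, h⟩).β' (φ₀ (U.dI ⟨v, h⟩).w)
      (locG305 (U.dI ⟨v, h⟩).w δ)
  else if h' : v ∈ U.Ssp then
    splitInt340 l hl (L.μv v) (L.βv v) (phiS340 φ₀ (U.dS ⟨v, h'⟩)) (delS340 δ (U.dS ⟨v, h'⟩))
  else 0

/-- THE VALUES at the infinite places for the local data `U`. -/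
def upJc340 (l : ℕ) (hl : 0 < l) (r' : G K') (Φ : InfinitePlace K' → GL (Fin 2) ℂ → ℂ)
    {γ : GL (Fin 2) K} (L : LocData305 K γ) (μc : @Measure (GL (Fin 2) ℂ) (borel _))
    {δ : GL (Fin 2) K'} (U : UpDat340 K δ) (v : InfinitePlace K) (j : ℤ) : ℂ :=
  splitInt340 l hl μc (L.βc v) (fun a => Φ ((U.dA v).w a)) (delA340 r' δ (U.dA v) j)

/-- THE GROUPED COORDINATES of `y ∈ GL₂(𝔸_{K'})`. -/
def upCoord340 {δ : GL (Fin 2) K'} (U : UpDat340 K δ) (l : ℕ) (y : G K') :
    (∀ v : U.Sin, GL (Fin 2) ((U.dI v).w.adicCompletion K')) ×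
      ((∀ v : U.Ssp, Fin l → GL (Fin 2) ((v : HeightOneSpectrum (𝓞 K)).adicCompletion K)) ×
        (InfinitePlace K → Fin l → GL (Fin 2) ℂ)) :=
  (fun v => finGL305 (U.dI v).w y,
    (fun v => coordS340 (U.dS v) l y, fun v => coordA340 (U.dA v) l y))

variable (K K')

/-! ## 2. The three parts -/

/-- **PART 0 = UP-DAT (the local data upstairs exist).**
Proof.  Dichotomy at `v ∈ S`: one place over `v`, or the places over `v` are `w_0, …, w_{l-1}`,
`w_j = σ(w_{j+1})`, distinct (`H584.SplitOrUniqueC584`, closed; the Galois group acts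
transitively on the places over `v`).  ONE place: `(e, i, s_w)` from `T6.InstExtC`, `sig` from
`SigmaLocC305 K'` (`PlaceRel s w w`; uniqueness of the continuous extension of `σ`), `iot` from
`IsAdeleBase305.fin` (uniqueness of `i` by density), `μ'` from `LocMeasC305` (`T6.InstLocalC`),
`μt'` = the image of `L.μt v` under `i` (local `T6.TwCentC`: `i` maps the centraliser of `γ_v`
onto the twisted centraliser of `δ_w`; `N δ_w = i(γ_v)` regular), `β'` from `LocCutC305`.
SPLIT: `T6.InstSplitC`; `sig`: `i_a⁻¹ ∘ s ∘ i_{a+1}` is a continuous automorphism of `K_v`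
which is the identity on `K`.  INFINITE: the `l` places over `v` (`H193.FibCardC`, closed),
`d_a` from `IsAdeleBase305.inf`, `sig` from `SigmaLocC305 K'` and `IsAdeleBase305.fixed`. -/
def UpDatC340 : Prop :=
  T6.T6Out →
  ∀ D : CompData K K', IsCompData D → IsCycExt K K' D.l → D.l ≠ 2 → TotCplx K →
    ∀ ι : Adl K →+* Adl K', IsAdeleBase305 D.s D.l ι →
    ∀ (T₀ : Finset (HeightOneSpectrum (𝓞 K))), UnramOut305 (K' := K') T₀ →
    ∀ (n : HeightOneSpectrum (𝓞 K') → ℕ) (m : HeightOneSpectrum (𝓞 K) → ℕ),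
      IsLevelAt305 T₀ n m →
    ∀ (S : Finset (HeightOneSpectrum (𝓞 K))) (S' : Finset (HeightOneSpectrum (𝓞 K'))),
      T₀ ⊆ S → IsOver305 S S' →
    ∀ (δ : GL (Fin 2) K') (γ : GL (Fin 2) K), T6.IsEll γ →
      D.s.normUpTo D.l δ = Matrix.GeneralLinearGroup.map (algebraMap K K') γ →
    ∀ L : LocData305 K γ, IsLocData305 m L →
      ∃ U : UpDat340 K δ, IsUpDat340 D ι n L S U

/-- **PART A = CUT-ON-UP (the cut-off part).**  For all local data upstairs `upCut340` is a
cut-off function on the support of the integrand. -/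
def CutOnUpC340 : Prop :=
  T6.T6Out →
  ∀ D : CompData K K', IsCompData D → IsCycExt K K' D.l → D.l ≠ 2 → TotCplx K →
    ∀ ι : Adl K →+* Adl K', IsAdeleBase305 D.s D.l ι →
    ∀ (T₀ : Finset (HeightOneSpectrum (𝓞 K))), UnramOut305 (K' := K') T₀ →
    ∀ (n : HeightOneSpectrum (𝓞 K') → ℕ) (m : HeightOneSpectrum (𝓞 K) → ℕ),
      IsLevelAt305 T₀ n m →
    ∀ (S : Finset (HeightOneSpectrum (𝓞 K))) (S' : Finset (HeightOneSpectrum (𝓞 K'))),
      T₀ ⊆ S → IsOver305 S S' →
    ∀ (φ₀ : ∀ w : HeightOneSpectrum (𝓞 K'), GL (Fin 2) (w.adicCompletion K') → ℂ)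
      (Φ : InfinitePlace K' → GL (Fin 2) ℂ → ℂ),
    ∀ (δ : GL (Fin 2) K') (γ : GL (Fin 2) K), T6.IsEll γ →
      D.s.normUpTo D.l δ = Matrix.GeneralLinearGroup.map (algebraMap K K') γ →
      GoodOut305 S γ → IntOut305 S' δ →
    ∀ (μT : @Measure (tA305 (T5.AdelicAut.id K) γ) (borel _))
      (μT' : @Measure (tA305 D.s δ) (borel _)),
      @Measure.IsHaarMeasure _ _ _ (borel _) μT →
      @Measure.IsHaarMeasure _ _ _ (borel _) μT' →
      IsTorLinked305 ι D.s δ γ μT μT' →
    ∀ (L : LocData305 K γ) (cT : ℝ), IsLocData305 m L → 0 < cT → IsTorConst305 γ μT L cT →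
    ∀ U : UpDat340 K δ, IsUpDat340 D ι n L S U →
      IsCutOn305 D.s δ μT' (upCut340 S' cT L U)
        {x | T5.twTerm D.R'.r D.s (pure305 S' φ₀ Φ) δ x ≠ 0}

/-- **PART B = FACT-INT-UP (the integral part).**  The constant `c'_G` depends on `D`, `μc`,
`T₀`, `n` only. -/
def FactIntUpC340 : Prop :=
  T6.T6Out →
  ∀ D : CompData K K', IsCompData D → IsCycExt K K' D.l → D.l ≠ 2 → TotCplx K →
    ∀ ι : Adl K →+* Adl K', IsAdeleBase305 D.s D.l ι →
    ∀ μc : @Measure (GL (Fin 2) ℂ) (borel _), @Measure.IsHaarMeasure _ _ _ (borel _) μc →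
    ∀ (T₀ : Finset (HeightOneSpectrum (𝓞 K))), UnramOut305 (K' := K') T₀ →
    ∀ (n : HeightOneSpectrum (𝓞 K') → ℕ) (m : HeightOneSpectrum (𝓞 K) → ℕ),
      IsLevelAt305 T₀ n m →
    ∃ cG' : ℝ, 0 < cG' ∧
      ∀ (S : Finset (HeightOneSpectrum (𝓞 K))) (S' : Finset (HeightOneSpectrum (𝓞 K'))),
        T₀ ⊆ S → IsOver305 S S' →
      ∀ (φ₀ : ∀ w : HeightOneSpectrum (𝓞 K'), GL (Fin 2) (w.adicCompletion K') → ℂ)
        (Φ : InfinitePlace K' → GL (Fin 2) ℂ → ℂ)
        (f₀ : ∀ v : HeightOneSpectrum (𝓞 K), GL (Fin 2) (v.adicCompletion K) → ℂ)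
        (F : InfinitePlace K → GL (Fin 2) ℂ → ℂ),
        LocHyp305 D μc S n m φ₀ Φ f₀ F →
      ∀ (δ : GL (Fin 2) K') (γ : GL (Fin 2) K), T6.IsEll γ →
        D.s.normUpTo D.l δ = Matrix.GeneralLinearGroup.map (algebraMap K K') γ →
        GoodOut305 S γ → IntOut305 S' δ →
      ∀ (L : LocData305 K γ) (cT : ℝ), IsLocData305 m L → 0 < cT →
      ∀ (U : UpDat340 K δ) (hU : IsUpDat340 D ι n L S U),
        cutInt305 D.R'.r D.s (pure305 S' φ₀ Φ) δ D.R'.μ (upCut340 S' cT L U)
          = ((cG' / cT : ℝ) : ℂ)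
            * ∑' j : ℤ, (∏ v ∈ S, upJ340 D.l hU.pos φ₀ L U v)
                * ∏ w : InfinitePlace K, upJc340 D.l hU.pos D.R'.r Φ L μc U w j

/-! ## 3. The leaves of part A -/

/-- **LEAF UF.A1 = SUPP-OUT-UP (ONE field, any automorphism).**  On the support of the
integrand (pure tensor, twisted): `x⁻¹ δ σ(x) ∈ Out_{S}`.
Proof.  As `SuppOutC558`: a non-zero `tsum` has a non-zero term, `r^j` is trivial at the finite
places. -/
def SuppOutUpC340 : Prop :=
  ∀ r : G K, T5.IsRayGen r →
    ∀ (s : T5.AdelicAut K) (S : Finset (HeightOneSpectrum (𝓞 K)))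
      (f₀ : ∀ v : HeightOneSpectrum (𝓞 K), GL (Fin 2) (v.adicCompletion K) → ℂ)
      (F : InfinitePlace K → GL (Fin 2) ℂ → ℂ) (δ : GL (Fin 2) K) (x : G K),
      T5.twTerm r s (pure305 S f₀ F) δ x ≠ 0 →
        OutT305 S (x⁻¹ * T5.ratG δ * s.onG x)

/-- **LEAF UF.A2 = SUPP-UP (the twisted form of `SuppDownC305`).**  If `N δ = γ` is good outside
`S`, `δ` is integral outside `S'`, the places outside `S` are unramified and `x⁻¹ δ σ(x)` is in
`GL₂(𝒪_w)` for `w ∉ S'`, then `x = t x'` with `t ∈ T_𝔸(δ)` and `x'_w ∈ GL₂(𝒪_w)` for `w ∉ S'`.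
Proof.  Local statements at `v ∉ S` (unramified): ONE place over `v`: helper159
`goodUnit_up159` (`GoodUnitTw.lean`; `K'_w/K_v` unramified, `T6.InstExtC`); split: helper159
`goodUnit_split159` (all places over `v` at once, in the coordinates of `K_v`).  `x_w` is in
`GL₂(𝒪_w)` for almost all `w`: `t = 1` there; the local `t`'s (finitely many `≠ 1`) define an
element of `T_𝔸(δ)` (`SigmaLocC305 K'`), as in the proof of `SuppDownC305` (helper941). -/
def SuppUpC340 : Prop :=
  T6.T6Out →
  ∀ D : CompData K K', IsCompData D → IsCycExt K K' D.l → D.l ≠ 2 → TotCplx K →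
    ∀ (T₀ : Finset (HeightOneSpectrum (𝓞 K))), UnramOut305 (K' := K') T₀ →
    ∀ (S : Finset (HeightOneSpectrum (𝓞 K))) (S' : Finset (HeightOneSpectrum (𝓞 K'))),
      T₀ ⊆ S → IsOver305 S S' →
    ∀ (δ : GL (Fin 2) K') (γ : GL (Fin 2) K), T6.IsEll γ →
      D.s.normUpTo D.l δ = Matrix.GeneralLinearGroup.map (algebraMap K K') γ →
      GoodOut305 S γ → IntOut305 S' δ →
    ∀ x : G K', OutT305 S' (x⁻¹ * T5.ratG δ * D.s.onG x) →
      ∃ t : G K', t ∈ tA305 D.s δ ∧ OutT305 S' (t⁻¹ * x)

/-- **LEAF UF.A3 = CUT-ON-OUT-UP.**  For `x' ∈ Out_{S'}`: `∫_{T_𝔸(δ)} β'(t x') dμT'(t) = 1` for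
the cut-off `β' = upCut340 S' cT L U`.
Proof.  `IsTorLinked305`: the integral is `∫_{T_𝔸(γ)} β'(ι(t) x') dμT(t)`;
`ι(t) x' ∈ Out_{S'} ⟺ t ∈ Out_S` (`IsAdeleBase305.fin`: `v(i x) = v(x)^e`, `e > 0`; every place
outside `S'` lies over a place outside `S`, every place outside `S` has a place over it);
`β'(ι(t) x')` is a function of `compS305 S t`:
`c_T⁻¹ ∏_{S_in} β'_w(i(t_v) x'_w) ∏_{S_sp} β_v(t_v · i_0⁻¹(x'_{w_0})) ∏_{v ∣ ∞} β_v(t_v · d_0(x'_{w_0}))`
(`iot`; `d_0 ∘ d_0 = 1`); `IsTorConst305` (the constant `c_T` cancels), Fubini for products (no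
integrability needed, σ-finite measures); `link` + `IsLocCut305` at `S_in`, `IsLocCut305` at
`S_sp`, `IsCut305` at the infinite places. -/
def CutOnOutUpC340 : Prop :=
  HaarSigmaC558 K → CompContC558 K → CompContC558 K' →
  ∀ D : CompData K K', IsCompData D → IsCycExt K K' D.l → D.l ≠ 2 → TotCplx K →
    ∀ ι : Adl K →+* Adl K', IsAdeleBase305 D.s D.l ι →
    ∀ (n : HeightOneSpectrum (𝓞 K') → ℕ) (m : HeightOneSpectrum (𝓞 K) → ℕ)
      (S : Finset (HeightOneSpectrum (𝓞 K))) (S' : Finset (HeightOneSpectrum (𝓞 K'))),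
      IsOver305 S S' →
    ∀ (δ : GL (Fin 2) K') (γ : GL (Fin 2) K), T6.IsEll γ →
      D.s.normUpTo D.l δ = Matrix.GeneralLinearGroup.map (algebraMap K K') γ →
      GoodOut305 S γ →
    ∀ (μT : @Measure (tA305 (T5.AdelicAut.id K) γ) (borel _))
      (μT' : @Measure (tA305 D.s δ) (borel _)),
      @Measure.IsHaarMeasure _ _ _ (borel _) μT →
      @Measure.IsHaarMeasure _ _ _ (borel _) μT' →
      IsTorLinked305 ι D.s δ γ μT μT' →
    ∀ (L : LocData305 K γ) (cT : ℝ), IsLocData305 m L → 0 < cT → IsTorConst305 γ μT L cT →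
    ∀ U : UpDat340 K δ, IsUpDat340 D ι n L S U →
    ∀ x' : G K', OutT305 S' x' →
      @integral _ _ _ _ (borel _) μT'
        (fun t : tA305 D.s δ => upCut340 S' cT L U ((t : G K') * x')) = 1

/-- **ASSET LEAF UF.A4 = ISO-CONT (abstract valued fields).**  A ring homomorphism of valued
fields with `v(i x) = v(x)^e`, `e > 0`, is continuous, and so is `GL₂(i)`.
Proof.  `i` is uniformly continuous (`v(i x - i y) = v(x - y)^e`); `Units.map` of a continuous
homomorphism of topological monoids is continuous (entries of `g` and of `g⁻¹`). -/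
def IsoContC340 : Prop :=
  ∀ (k k' : Type) [Field k] [Field k'] [Valued k T6.Γ₀] [Valued k' T6.Γ₀] (e : ℕ)
    (i : k →+* k'), 0 < e → (∀ x : k, Valued.v (i x) = Valued.v x ^ e) →
    Continuous i ∧ Continuous (Matrix.GeneralLinearGroup.map (n := Fin 2) i)

/-! ## 4. The leaves of part B -/

/-- **LEAF UF.B1 = GRP-SPLIT (the Haar measure of `GL₂(𝔸_{K'})` in the GROUPED coordinates).**
There is a constant `c'_G > 0` (depending on `D`, `μc`, `T₀`, `n` only) such that for all
`S ⊇ T₀` and all local data upstairs: the image of `μ'` restricted to `Out_{S'}` under the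
grouped coordinates is `c'_G` times the product measure
`⊗_{S_in} μ'_w ⊗ ⊗_{S_sp} μ_v^{⊗ l} ⊗ ⊗_{v ∣ ∞} μc^{⊗ l}`.
Proof.  `HaarSplitC305 K'` (closed by helper74; levels `n`, base set = the places over `T₀`,
local measures: `μ'_w` at `S_in`, the image of `μ_v` under `i_a` at `w_a`, `v ∈ S_sp`
(normalised for the level `n (w_a) = m v`: `hlev`; `i_a` preserves the valuation), any
normalised Haar measure elsewhere (`LocMeasC305`, `T6.InstLocalC`)); the grouped coordinates are
the composition of `compS305 S'` with a measure preserving map: regrouping of a finite product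
measure along the fibres of `S' → S` (`MeasurableEquiv.piCongrLeft`, `MeasurableEquiv.piCurry`,
`Measure.pi_eq` on boxes), `GL₂(i_a⁻¹)` at the split places (`measurePreserving_pi`), `GL₂(d_a)`
at the infinite places (complex conjugation is a continuous automorphism of order `2` of
`GL₂(ℂ)`: it preserves the Haar measure). -/
def GrpSplitC340 : Prop :=
  T6.T6Out →
  ∀ D : CompData K K', IsCompData D → IsCycExt K K' D.l → D.l ≠ 2 → TotCplx K →
    ∀ ι : Adl K →+* Adl K', IsAdeleBase305 D.s D.l ι →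
    ∀ μc : @Measure (GL (Fin 2) ℂ) (borel _), @Measure.IsHaarMeasure _ _ _ (borel _) μc →
    ∀ (T₀ : Finset (HeightOneSpectrum (𝓞 K))), UnramOut305 (K' := K') T₀ →
    ∀ (n : HeightOneSpectrum (𝓞 K') → ℕ) (m : HeightOneSpectrum (𝓞 K) → ℕ),
      IsLevelAt305 T₀ n m →
    ∃ cG' : ℝ, 0 < cG' ∧
      ∀ (S : Finset (HeightOneSpectrum (𝓞 K))) (S' : Finset (HeightOneSpectrum (𝓞 K'))),
        T₀ ⊆ S → IsOver305 S S' →
      ∀ (δ : GL (Fin 2) K') (γ : GL (Fin 2) K) (L : LocData305 K γ), IsLocData305 m L →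
      ∀ U : UpDat340 K δ, IsUpDat340 D ι n L S U →
        (∀ (v : U.Ssp) (a : ℕ), n ((U.dS v).w a) = m v.1) →
        letI : ∀ w : HeightOneSpectrum (𝓞 K'),
            MeasurableSpace (GL (Fin 2) (w.adicCompletion K')) := fun _ => borel _
        letI : ∀ v : HeightOneSpectrum (𝓞 K),
            MeasurableSpace (GL (Fin 2) (v.adicCompletion K)) := fun _ => borel _
        letI : MeasurableSpace (GL (Fin 2) ℂ) := borel _
        Measure.map (upCoord340 U D.l) (D.R'.μ.restrict {y | OutT305 S' y})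
          = ENNReal.ofReal cG' •
            ((Measure.pi fun v : U.Sin => (U.dI v).μ').prod
              ((Measure.pi fun v : U.Ssp => Measure.pi fun _ : Fin D.l => L.μv v.1).prod
                (Measure.pi fun _ : InfinitePlace K => Measure.pi fun _ : Fin D.l => μc)))

/-- **LEAF UF.B2 = PT-FACT-UP (pointwise factorisation upstairs).**  For `y ∈ Out_{S'}` and `δ`
integral outside `S'` the term `j` of the integrand is the product of the local terms in the
grouped coordinates.
Proof.  `σ(y) ∈ Out_{S'}` (`SigmaLocC305 K'`: `(σ y)_w = s(y_{σ⁻¹ w})`, `s` preserves the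
valuation, `S'` is stable under `σ`), so `y⁻¹ δ σ(y) r'^j ∈ Out_{S'}`; `S'` is the disjoint
union of the fibres (`IsOver305`, `uniq`, `exh`, `inj`); `sig`; `r'` is trivial at the finite
places and central at the infinite places; `Φ_w ∘ conj = Φ_w`, `d_a ∘ d_a = 1`. -/
def PtFactUpC340 : Prop :=
  ∀ D : CompData K K', IsCompData D → IsCycExt K K' D.l → D.l ≠ 2 → TotCplx K →
    ∀ ι : Adl K →+* Adl K', IsAdeleBase305 D.s D.l ι →
    ∀ (n : HeightOneSpectrum (𝓞 K') → ℕ)
      (S : Finset (HeightOneSpectrum (𝓞 K))) (S' : Finset (HeightOneSpectrum (𝓞 K'))),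
      IsOver305 S S' →
    ∀ (φ₀ : ∀ w : HeightOneSpectrum (𝓞 K'), GL (Fin 2) (w.adicCompletion K') → ℂ)
      (Φ : InfinitePlace K' → GL (Fin 2) ℂ → ℂ),
      (∀ (w : InfinitePlace K') (g : GL (Fin 2) ℂ), Φ w (conjGL305 g) = Φ w g) →
    ∀ (δ : GL (Fin 2) K') (γ : GL (Fin 2) K), IntOut305 S' δ →
    ∀ (L : LocData305 K γ) (U : UpDat340 K δ), IsUpDat340 D ι n L S U →
    ∀ (y : G K') (j : ℤ), OutT305 S' y →
      pure305 S' φ₀ Φ (y⁻¹ * T5.ratG δ * D.s.onG y * D.R'.r ^ j)
        = (∏ v : U.Sin, φ₀ (U.dI v).w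
              ((finGL305 (U.dI v).w y)⁻¹ * locG305 (U.dI v).w δ
                * T6.glAut (U.dI v).sw (finGL305 (U.dI v).w y)))
          * (∏ v : U.Ssp, cycProd340 D.l (phiS340 φ₀ (U.dS v)) (delS340 δ (U.dS v))
              (coordS340 (U.dS v) D.l y))
          * ∏ v : InfinitePlace K, cycProd340 D.l (fun a => Φ ((U.dA v).w a))
              (delA340 D.R'.r δ (U.dA v) j) (coordA340 (U.dA v) D.l y)

/-- **LEAF UF.B3 = RAY-FIN-UP.**  The sum over the ray is finite, uniformly: there is a finite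
set `J` of exponents such that for `j ∉ J` the twisted product at every infinite place `v`
vanishes identically.
Proof.  If the product does not vanish, every factor is in the support of `Φ_{w_a}`
(compact): `|det|` of the `a`-th argument lies in `[m_a, M_a]`, `0 < m_a`; the product of the
determinants is `∏_a det δ_a · t^{2 j l}` (`cycSucc340` is a permutation, `|det d(X)| = |det X|`,
`r'` has the scalar `t > 1`, `T5.IsRayGen`): finitely many `j`, finitely many `v`. -/
def RayFinUpC340 : Prop :=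
  ∀ D : CompData K K', IsCompData D →
    ∀ ι : Adl K →+* Adl K',
    ∀ Φ : InfinitePlace K' → GL (Fin 2) ℂ → ℂ,
      (∀ w : InfinitePlace K', Continuous (Φ w) ∧ HasCompactSupport (Φ w)) →
    ∀ (δ : GL (Fin 2) K') (dA : InfinitePlace K → ArchDat340 K'),
      (∀ v : InfinitePlace K, IsArchDat340 D ι v (dA v)) →
      ∃ J : Finset ℤ, ∀ j : ℤ, j ∉ J →
        ∀ (v : InfinitePlace K) (Z : Fin D.l → GL (Fin 2) ℂ),
          cycProd340 D.l (fun a => Φ ((dA v).w a)) (delA340 D.R'.r δ (dA v) j) Z = 0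

/-- **LEAF UF.B4 = ARCH-INTBL-UP (integrability at the infinite places).**  The integrand of
`upJc340` is integrable on `GL₂(ℂ)^l`.
Proof.  Tonelli: the integral of the absolute value over `Z_1, …, Z_{l-1}` is the iterated
convolution of the `|Φ_{w_a}|` (continuous, compact support) at `Z_0⁻¹ (∏_a δ_a) Z_0`, and
`∏_a δ_a = (γ)_v t^{j l}` (`sig` for rational elements, `iot`, `N δ = γ`); `ArchIntblC558`
(helper558) for the cut-off `L.βc v` of the centraliser of `γ_v` (`IsLocData305.cutc`; `γ_v` is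
regular: `γ` is elliptic). -/
def ArchIntblUpC340 : Prop :=
  ArchIntblC558 →
  ∀ D : CompData K K', IsCompData D → IsCycExt K K' D.l → D.l ≠ 2 → TotCplx K →
    ∀ ι : Adl K →+* Adl K', IsAdeleBase305 D.s D.l ι →
    ∀ μc : @Measure (GL (Fin 2) ℂ) (borel _), @Measure.IsHaarMeasure _ _ _ (borel _) μc →
    ∀ Φ : InfinitePlace K' → GL (Fin 2) ℂ → ℂ,
      (∀ w : InfinitePlace K', Continuous (Φ w) ∧ HasCompactSupport (Φ w)) →
    ∀ (δ : GL (Fin 2) K') (γ : GL (Fin 2) K), T6.IsEll γ →
      D.s.normUpTo D.l δ = Matrix.GeneralLinearGroup.map (algebraMap K K') γ →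
    ∀ (m : HeightOneSpectrum (𝓞 K) → ℕ) (L : LocData305 K γ), IsLocData305 m L →
    ∀ (v : InfinitePlace K) (d : ArchDat340 K'), IsArchDat340 D ι v d →
    ∀ (hl : 0 < D.l) (j : ℤ),
      letI : MeasurableSpace (GL (Fin 2) ℂ) := borel _
      Integrable (splitFn340 D.l hl (L.βc v) (fun a => Φ (d.w a)) (delA340 D.R'.r δ d j))
        (Measure.pi fun _ : Fin D.l => μc)

end TwoFields

/-! ## Appendix: the equation lemmas of the definitions are realised HERE -/

theorem eqns_realisedUF340 : True := by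
  have _a1 := @coordS340.eq_1
  have _a2 := @coordS340.eq_def
  have _a3 := @coordS340.eq_unfold
  have _b1 := @coordA340.eq_1
  have _b2 := @coordA340.eq_def
  have _b3 := @coordA340.eq_unfold
  have _c1 := @twFn340.eq_1
  have _c2 := @twFn340.eq_def
  have _c3 := @twFn340.eq_unfold
  have _d1 := @cycProd340.eq_1
  have _d2 := @cycProd340.eq_def
  have _d3 := @cycProd340.eq_unfold
  have _e1 := @splitFn340.eq_1
  have _e2 := @splitFn340.eq_def
  have _e3 := @splitFn340.eq_unfold
  have _f1 := @phiS340.eq_1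
  have _f2 := @phiS340.eq_def
  have _f3 := @phiS340.eq_unfold
  have _g1 := @delS340.eq_1
  have _g2 := @delS340.eq_def
  have _g3 := @delS340.eq_unfold
  have _h1 := @delA340.eq_1
  have _h2 := @delA340.eq_def
  have _h3 := @delA340.eq_unfold
  have _i1 := @upCut340.eq_1
  have _i2 := @upCut340.eq_def
  have _i3 := @upCut340.eq_unfold
  have _j1 := @upJ340.eq_1
  have _j2 := @upJ340.eq_def
  have _j3 := @upJ340.eq_unfold
  have _k1 := @upJc340.eq_1
  have _k2 := @upJc340.eq_def
  have _k3 := @upJc340.eq_unfold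
  have _l1 := @upCoord340.eq_1
  have _l2 := @upCoord340.eq_def
  have _l3 := @upCoord340.eq_unfold
  have _m1 := @UpDatC340.eq_1
  have _m2 := @UpDatC340.eq_def
  have _m3 := @UpDatC340.eq_unfold
  have _n1 := @CutOnUpC340.eq_1
  have _n2 := @CutOnUpC340.eq_def
  have _n3 := @CutOnUpC340.eq_unfold
  have _o1 := @FactIntUpC340.eq_1
  have _o2 := @FactIntUpC340.eq_def
  have _o3 := @FactIntUpC340.eq_unfold
  have _p1 := @SuppOutUpC340.eq_1
  have _p2 := @SuppOutUpC340.eq_def
  have _p3 := @SuppOutUpC340.eq_unfold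
  have _q1 := @SuppUpC340.eq_1
  have _q2 := @SuppUpC340.eq_def
  have _q3 := @SuppUpC340.eq_unfold
  have _r1 := @CutOnOutUpC340.eq_1
  have _r2 := @CutOnOutUpC340.eq_def
  have _r3 := @CutOnOutUpC340.eq_unfold
  have _s1 := @IsoContC340.eq_1
  have _s2 := @IsoContC340.eq_def
  have _s3 := @IsoContC340.eq_unfold
  have _t1 := @GrpSplitC340.eq_1
  have _t2 := @GrpSplitC340.eq_def
  have _t3 := @GrpSplitC340.eq_unfold
  have _u1 := @PtFactUpC340.eq_1
  have _u2 := @PtFactUpC340.eq_def
  have _u3 := @PtFactUpC340.eq_unfold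
  have _v1 := @RayFinUpC340.eq_1
  have _v2 := @RayFinUpC340.eq_def
  have _v3 := @RayFinUpC340.eq_unfold
  have _w1 := @ArchIntblUpC340.eq_1
  have _w2 := @ArchIntblUpC340.eq_def
  have _w3 := @ArchIntblUpC340.eq_unfold
  trivial

end Fermat.Agent.LT.T7.H340

end

end
-- ===== PACK-END LT/T7/H340/UpFactSpec.lean

-- ===== PACK-BEGIN LT/T7/H944/AvgCont.lean
section








/-!
# Row LT, tower T7, sub-leaf T7.L2.1.P1f `AvgContC`: CLOSED (helper944)

OFF-MAIN.  Sub-spec: `LT/T7/H40/ArchProjSpec.lean` (helper40, sha256 34d7f842) on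
`LT/T7/H40/ProjSpec.lean` (ac5b80ed), `LT/T7/Level2.lean` (15516646), `LT/T5/Spec.lean` v4
(f2d97e70), `LT/T1/Spec.lean` (e8ae48d6), `LT/H556/A0.lean` (66d3374a): byte-identical copies.
Nothing is assumed.

`avgContC944 (K) : AvgContC K` (VERBATIM): the mean over the unit cube of a bounded continuous
function along a continuous family is continuous.

Proof: dominated convergence (`MeasureTheory.continuous_of_dominated`) with the constant bound
on the cube (volume `1`); `GL₂(𝔸_K)` is second countable (`T1.T1Out.locComp`), hence first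
countable.  Abstract form: `continuous_avg944` (any topological group, any set of finite
measure).
-/

set_option autoImplicit false

open AutomorphicForm IsDedekindDomain NumberField MeasureTheory

noncomputable section

namespace Fermat.Agent.LT.T7.H944

open Fermat.Agent.LT.H556 Fermat.Agent.LT.H556.A0 Fermat.Agent.LT.T7 Fermat.Agent.LT.T7.H40

/-- The unit cube has finite volume. -/
theorem volume_cube_lt_top944 (ι : Type) [Fintype ι] :
    volume (Set.univ.pi fun _ : ι => Set.Ico (0 : ℝ) 1) < ⊤ := by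
  rw [volume_pi_pi]
  simp

/-- Abstract form: the mean of a bounded continuous function along a continuous family over a
set of finite measure is continuous. -/
theorem continuous_avg944 {X T : Type*} [TopologicalSpace X] [FirstCountableTopology X] [Mul X]
    [ContinuousMul X] [TopologicalSpace T] [MeasurableSpace T] [OpensMeasurableSpace T]
    [SecondCountableTopology T] (μ : Measure T) (s : Set T) (hs : μ s < ⊤) (Y : T → X)
    (hY : Continuous Y) (ψ : X → ℂ) (hψ : Continuous ψ) (C : ℝ) (hC : ∀ g : X, ‖ψ g‖ ≤ C) :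
    Continuous fun g : X => ∫ t in s, ψ (g * Y t) ∂μ := by
  haveI : IsFiniteMeasure (μ.restrict s) := ⟨by rwa [Measure.restrict_apply_univ]⟩
  refine continuous_of_dominated (bound := fun _ => C) (fun g => ?_) (fun g => ?_) ?_ ?_
  · exact (hψ.comp (continuous_const.mul hY)).aestronglyMeasurable
  · exact Filter.Eventually.of_forall fun t => hC _
  · exact integrable_const C
  · exact Filter.Eventually.of_forall fun t => hψ.comp (continuous_id.mul continuous_const)

/-- **T7.L2.1.P1f** (`AvgContC`, VERBATIM). -/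
theorem avgContC944 (K : Type) [Field K] [NumberField K] : AvgContC K := by
  intro hT1 Y hY ψ hψ hb
  obtain ⟨C, hC⟩ := hb
  haveI : SecondCountableTopology (G K) := hT1.locComp.2.2.2
  exact continuous_avg944 volume (cube40 K) (volume_cube_lt_top944 (InfinitePlace K)) Y hY ψ hψ
    C hC

end Fermat.Agent.LT.T7.H944

end

end
-- ===== PACK-END LT/T7/H944/AvgCont.lean

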