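import Mathlib
import Fermat.Agent.Pack.LT3.E23L2
import Fermat.Agent.Pack.LT3.E23L0
import Fermat.Agent.Pack.LT3.E23L1
import Fermat.Agent.Pack.LT3.E1L2
import Fermat.Agent.Pack.LT3.E23L3
import Fermat.Agent.Pack.LT2.E10L0
import Fermat.Agent.Pack.LT3.E24L2
import Fermat.Agent.Pack.LT2.E5L2
import Fermat.Agent.Pack.LT2.E2L2
import Fermat.Agent.Pack.LT3.E22L3
import Fermat.Agent.Pack.LT2.E7L2
import Fermat.Agent.Pack.LT2.E0L2
import Fermat.Agent.Pack.LT2.E2L1
import Fermat.Agent.Pack.LT2.E3L1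
import Fermat.Agent.Pack.LT2.E16L2
import Fermat.Agent.Pack.LT3.E21L0
import Fermat.Agent.Pack.LT3.E22L1

set_option linter.all false

-- ===== PACK-BEGIN LT/T6/H888/DbSmooth1.lean
section



/-!
# Row LT, tower T6, leaf T6.22.B.1 `DbSmoothC683` (helper888, spare): weight `±1`

`b1_main888`: for a `C²` jet `(F, F', F'')` on `(0, ∞)`, `n ≠ 0` and all `t`, `U ≥ 0`,
`∫ K F(ρ(t, U, φ)) dφ = ∫ K F(ρ(t, 0, φ)) dφ + gL888 n (q ↦ ∫ K (L F)(ρ(t, q, φ)) dφ) U`,
`K = 1 + tanh(t/2) tanh(u/2) cos φ`.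
-/

set_option autoImplicit false

open MeasureTheory Set

noncomputable section

namespace Fermat.Agent.LT.T6.H888

open Fermat.Agent.LT.T6.H683

/-- The algebraic identity (weight `±1`); cofactors by polynomial division. -/
theorem b1_alg888 (C S w c sn a b tau F0 F1 F2 : ℝ) (h1 : S ^ 2 = C ^ 2 - 1)
    (h2 : sn ^ 2 = 1 - c ^ 2) (h3 : C * w = 1 - w) (h4 : b ^ 2 = a ^ 2 - 1)
    (h5 : a * tau = b - tau) (h6 : b * tau = a - 1) :
    (S * (1 + C)) * ((tau * (-(S * w ^ 2)) * c) * F0 + (tau * w * c) * (F1 * (a * S + b * C * c))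
        + ((tau * w * c) * (F1 * (a * S + b * C * c))
          + (1 + tau * (S * w) * c) * (F2 * (a * S + b * C * c) * (a * S + b * C * c)
            + F1 * (a * C + b * S * c))))
      + (C * (1 + C) + S * S) * ((tau * w * c) * F0
        + (1 + tau * (S * w) * c) * (F1 * (a * S + b * C * c)))
    = (S * (1 + C)) * ((1 + tau * (S * w) * c) * (((a * C + b * S * c) ^ 2 - 1) * F2
        + (3 * (a * C + b * S * c) - 1) * F1))
      + ((1 + C) * b * ((-(tau * (S * w) * sn)) * F1 * sn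
          + (1 + tau * (S * w) * c) * (F2 * (-(b * S * sn))) * sn
          + (1 + tau * (S * w) * c) * F1 * c)
        + tau * C * (c * F0 + sn * (F1 * (-(b * S * sn))))) := by
  linear_combination
    ((-1)*C*F0*c*tau*w^2 + (-1)*C*F1*S*b*c^2*tau*w + (1)*C*F1*a*c*tau*w + (-1)*C*F1*b*c +
      (1)*C*F1*c*tau*w + (1)*C*F2*S*a^2 + (-1)*C*F2*S*b^2*c^2 + (1)*C*F2*S^2*a^2*c*tau*w +
      (-1)*C*F2*S^2*b^2*c^3*tau*w + (-1)*C*F2*a^2*c*tau*w + (1)*C*F2*b^2*c*sn^2*tau*w +
      (1)*C*F2*b^2*c^3*tau*w + (1)*C*F2*c*tau*w + (1)*F0*c*tau*w + (-1)*F0*c*tau*w^2 +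
      (1)*F1*S*a + (-2)*F1*S*b*c^2*tau*w + (1)*F1*S^2*a*c*tau*w + (1)*F1*a*c*tau*w + (-2)*F1*b*c +
      (1)*F1*c*tau*w + (1)*F2*S*a^2 + (-1)*F2*S*b^2*c^2 + (1)*F2*S^2*a^2*c*tau*w +
      (-1)*F2*S^2*b^2*c^3*tau*w + (-1)*F2*a^2*c*tau*w + (1)*F2*b^2*c*sn^2*tau*w +
      (1)*F2*b^2*c^3*tau*w + (1)*F2*c*tau*w) * h1
    + ((1)*C*F1*S*b*tau + (1)*C*F1*S*b*tau*w + (1)*C*F2*S*b^2 + (-1)*C*F2*b^2*c*tau*w +
      (1)*C^2*F2*b^2*c*tau*w + (1)*C^3*F2*b^2*c*tau*w + (1)*F1*S*b*tau*w + (1)*F2*S*b^2 +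
      (-1)*F2*b^2*c*tau*w) * h2
    + ((1)*C*F0*c*tau + (1)*C*F1*S*b*c^2*tau + (-1)*C^2*F0*c*tau*w + (1)*C^2*F1*a*c*tau +
      (1)*C^2*F1*c*tau + (-1)*C^2*F2*a^2*c*tau + (1)*C^2*F2*b^2*c*tau + (1)*C^2*F2*c*tau +
      (1)*F0*c*tau*w + (1)*F1*S*b*tau + (-1)*F1*a*c*tau + (-1)*F1*c*tau + (1)*F2*a^2*c*tau +
      (-1)*F2*b^2*c*tau + (-1)*F2*c*tau) * h3
    + ((1)*C*F2*S + (1)*C^2*F2*c*tau + (1)*F2*S + (-1)*F2*c*tau) * h4
    + ((1)*C^2*F1*c + (-1)*F1*c) * h5
    + ((1)*C*F1*S + (1)*F1*S) * h6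

/-- The kernel and its derivatives. -/
def bK888 (t u φ : ℝ) : ℝ := 1 + tH888 t * tH888 u * Real.cos φ

/-- `∂K/∂u`. -/
def bKu888 (t u φ : ℝ) : ℝ := tH888 t * wInv888 u * Real.cos φ

/-- `∂²K/∂u²`. -/
def bKuu888 (t u φ : ℝ) : ℝ := tH888 t * (-(Real.sinh u * wInv888 u ^ 2)) * Real.cos φ

/-- `∂K/∂φ`. -/
def bKp888 (t u φ : ℝ) : ℝ := -(tH888 t * tH888 u * Real.sin φ)

theorem bK_hasDerivAt888 (t u φ : ℝ) : HasDerivAt (fun u => bK888 t u φ) (bKu888 t u φ) u :=
  (((tH_hasDerivAt888 u).const_mul (tH888 t)).mul_const (Real.cos φ)).const_add 1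

theorem bKu_hasDerivAt888 (t u φ : ℝ) :
    HasDerivAt (fun u => bKu888 t u φ) (bKuu888 t u φ) u :=
  ((wInv_hasDerivAt888 u).const_mul (tH888 t)).mul_const (Real.cos φ)

theorem bK_hasDerivAt_phi888 (t u φ : ℝ) :
    HasDerivAt (fun φ => bK888 t u φ) (bKp888 t u φ) φ := by
  have := ((Real.hasDerivAt_cos φ).const_mul (tH888 t * tH888 u)).const_add 1
  refine this.congr_deriv ?_
  unfold bKp888
  ring

theorem bK_cont888 (t : ℝ) : Continuous (fun p : ℝ × ℝ => bK888 t p.1 p.2) := by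
  unfold bK888
  exact continuous_const.add ((continuous_const.mul (tH_cont888.comp continuous_fst)).mul
    (Real.continuous_cos.comp continuous_snd))

theorem bKu_cont888 (t : ℝ) : Continuous (fun p : ℝ × ℝ => bKu888 t p.1 p.2) := by
  unfold bKu888
  exact (continuous_const.mul (wInv_cont888.comp continuous_fst)).mul
    (Real.continuous_cos.comp continuous_snd)

theorem bKuu_cont888 (t : ℝ) : Continuous (fun p : ℝ × ℝ => bKuu888 t p.1 p.2) := by
  unfold bKuu888
  exact (continuous_const.mul (((Real.continuous_sinh.comp continuous_fst).mul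
    ((wInv_cont888.comp continuous_fst).pow 2)).neg)).mul
    (Real.continuous_cos.comp continuous_snd)

/-- The integrand. -/
def b1h888 (F : ℝ → ℝ) (t u φ : ℝ) : ℂ := ((bK888 t u φ * F (rho888 t u φ) : ℝ) : ℂ)

/-- First `u`-derivative. -/
def b1h1_888 (F F' : ℝ → ℝ) (t u φ : ℝ) : ℂ :=
  ((bKu888 t u φ * F (rho888 t u φ)
    + bK888 t u φ * (F' (rho888 t u φ) * rhoU888 t u φ) : ℝ) : ℂ)

/-- Second `u`-derivative. -/
def b1h2_888 (F F' F'' : ℝ → ℝ) (t u φ : ℝ) : ℂ :=
  ((bKuu888 t u φ * F (rho888 t u φ) + bKu888 t u φ * (F' (rho888 t u φ) * rhoU888 t u φ)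
    + (bKu888 t u φ * (F' (rho888 t u φ) * rhoU888 t u φ)
      + bK888 t u φ * (F'' (rho888 t u φ) * rhoU888 t u φ * rhoU888 t u φ
        + F' (rho888 t u φ) * rho888 t u φ)) : ℝ) : ℂ)

/-- The right-hand side. -/
def b1k888 (n : ℤ) (F' F'' : ℝ → ℝ) (t u φ : ℝ) : ℂ :=
  ((bK888 t u φ * lop683 n F' F'' (rho888 t u φ) : ℝ) : ℂ)

/-- The `φ`-potential. -/
def b1Psi888 (F F' : ℝ → ℝ) (t u φ : ℝ) : ℂ :=
  (((1 + Real.cosh u) * Real.sinh t * (bK888 t u φ * F' (rho888 t u φ) * Real.sin φ)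
    + tH888 t * Real.cosh u * (Real.sin φ * F (rho888 t u φ)) : ℝ) : ℂ)

/-- Its `φ`-derivative. -/
def b1Psi'888 (F F' F'' : ℝ → ℝ) (t u φ : ℝ) : ℂ :=
  (((1 + Real.cosh u) * Real.sinh t * (bKp888 t u φ * F' (rho888 t u φ) * Real.sin φ
        + bK888 t u φ * (F'' (rho888 t u φ) * rhoP888 t u φ) * Real.sin φ
        + bK888 t u φ * F' (rho888 t u φ) * Real.cos φ)
    + tH888 t * Real.cosh u * (Real.cos φ * F (rho888 t u φ)
        + Real.sin φ * (F' (rho888 t u φ) * rhoP888 t u φ)) : ℝ) : ℂ)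

section
variable {F F' F'' : ℝ → ℝ} (hF : ∀ x : ℝ, 0 < x → HasDerivAt F (F' x) x)
  (hF' : ∀ x : ℝ, 0 < x → HasDerivAt F' (F'' x) x) (hF'' : ContinuousOn F'' (Ioi 0))
include hF

theorem b1h_hasDerivAt888 (t u φ : ℝ) :
    HasDerivAt (fun u => b1h888 F t u φ) (b1h1_888 F F' t u φ) u :=
  ((bK_hasDerivAt888 t u φ).mul
    ((hF _ (rho_pos888 t u φ)).comp u (rho_hasDerivAt888 t u φ))).ofReal_comp

theorem b1h_cont888 (t : ℝ) : Continuous (Function.uncurry (b1h888 F t)) := by
  have : Function.uncurry (b1h888 F t)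
      = fun p : ℝ × ℝ => ((bK888 t p.1 p.2 * F (rho888 t p.1 p.2) : ℝ) : ℂ) := by
    funext ⟨u, φ⟩; rfl
  rw [this]
  exact Complex.continuous_ofReal.comp
    ((bK_cont888 t).mul (comp_rho_cont888 (contOn_of_hasDerivAt888 hF) t))

include hF'

theorem b1h1_hasDerivAt888 (t u φ : ℝ) :
    HasDerivAt (fun u => b1h1_888 F F' t u φ) (b1h2_888 F F' F'' t u φ) u :=
  (((bKu_hasDerivAt888 t u φ).mul
      ((hF _ (rho_pos888 t u φ)).comp u (rho_hasDerivAt888 t u φ))).add
    ((bK_hasDerivAt888 t u φ).mul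
      (((hF' _ (rho_pos888 t u φ)).comp u (rho_hasDerivAt888 t u φ)).mul
        (rhoU_hasDerivAt888 t u φ)))).ofReal_comp

theorem b1Psi_hasDerivAt888 (t u φ : ℝ) :
    HasDerivAt (fun φ => b1Psi888 F F' t u φ) (b1Psi'888 F F' F'' t u φ) φ := by
  have hK := bK_hasDerivAt_phi888 t u φ
  have h1 : HasDerivAt (fun φ => F' (rho888 t u φ))
      (F'' (rho888 t u φ) * rhoP888 t u φ) φ :=
    (hF' _ (rho_pos888 t u φ)).comp φ (rho_hasDerivAt_phi888 t u φ)
  have h0 : HasDerivAt (fun φ => F (rho888 t u φ))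
      (F' (rho888 t u φ) * rhoP888 t u φ) φ :=
    (hF _ (rho_pos888 t u φ)).comp φ (rho_hasDerivAt_phi888 t u φ)
  have hs := Real.hasDerivAt_sin φ
  have hKF : HasDerivAt (fun φ => bK888 t u φ * F' (rho888 t u φ))
      (bKp888 t u φ * F' (rho888 t u φ)
        + bK888 t u φ * (F'' (rho888 t u φ) * rhoP888 t u φ)) φ := hK.mul h1
  have hKFs : HasDerivAt (fun φ => bK888 t u φ * F' (rho888 t u φ) * Real.sin φ)
      ((bKp888 t u φ * F' (rho888 t u φ)
        + bK888 t u φ * (F'' (rho888 t u φ) * rhoP888 t u φ)) * Real.sin φ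
        + bK888 t u φ * F' (rho888 t u φ) * Real.cos φ) φ := hKF.mul hs
  have hsF : HasDerivAt (fun φ => Real.sin φ * F (rho888 t u φ))
      (Real.cos φ * F (rho888 t u φ)
        + Real.sin φ * (F' (rho888 t u φ) * rhoP888 t u φ)) φ := hs.mul h0
  have hall : HasDerivAt (fun φ => (1 + Real.cosh u) * Real.sinh t
        * (bK888 t u φ * F' (rho888 t u φ) * Real.sin φ)
        + tH888 t * Real.cosh u * (Real.sin φ * F (rho888 t u φ)))
      ((1 + Real.cosh u) * Real.sinh t
        * ((bKp888 t u φ * F' (rho888 t u φ)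
          + bK888 t u φ * (F'' (rho888 t u φ) * rhoP888 t u φ)) * Real.sin φ
          + bK888 t u φ * F' (rho888 t u φ) * Real.cos φ)
        + tH888 t * Real.cosh u * (Real.cos φ * F (rho888 t u φ)
          + Real.sin φ * (F' (rho888 t u φ) * rhoP888 t u φ))) φ :=
    (hKFs.const_mul _).add (hsF.const_mul _)
  have := hall.ofReal_comp
  refine this.congr_deriv ?_
  unfold b1Psi'888
  congr 1
  ring

theorem b1h1_cont888 (t : ℝ) : Continuous (Function.uncurry (b1h1_888 F F' t)) := by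
  have : Function.uncurry (b1h1_888 F F' t)
      = fun p : ℝ × ℝ => ((bKu888 t p.1 p.2 * F (rho888 t p.1 p.2)
          + bK888 t p.1 p.2 * (F' (rho888 t p.1 p.2) * rhoU888 t p.1 p.2) : ℝ) : ℂ) := by
    funext ⟨u, φ⟩; rfl
  rw [this]
  exact Complex.continuous_ofReal.comp
    (((bKu_cont888 t).mul (comp_rho_cont888 (contOn_of_hasDerivAt888 hF) t)).add
      ((bK_cont888 t).mul
        ((comp_rho_cont888 (contOn_of_hasDerivAt888 hF') t).mul (rhoU_cont888 t))))

include hF''

theorem b1h2_cont888 (t : ℝ) : Continuous (Function.uncurry (b1h2_888 F F' F'' t)) := by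
  have : Function.uncurry (b1h2_888 F F' F'' t)
      = fun p : ℝ × ℝ => ((bKuu888 t p.1 p.2 * F (rho888 t p.1 p.2)
          + bKu888 t p.1 p.2 * (F' (rho888 t p.1 p.2) * rhoU888 t p.1 p.2)
          + (bKu888 t p.1 p.2 * (F' (rho888 t p.1 p.2) * rhoU888 t p.1 p.2)
            + bK888 t p.1 p.2 * (F'' (rho888 t p.1 p.2) * rhoU888 t p.1 p.2
                * rhoU888 t p.1 p.2
              + F' (rho888 t p.1 p.2) * rho888 t p.1 p.2)) : ℝ) : ℂ) := by
    funext ⟨u, φ⟩; rfl
  rw [this]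
  have c0 := comp_rho_cont888 (contOn_of_hasDerivAt888 hF) t
  have c1 := comp_rho_cont888 (contOn_of_hasDerivAt888 hF') t
  have c2 := comp_rho_cont888 hF'' t
  exact Complex.continuous_ofReal.comp
    ((((bKuu_cont888 t).mul c0).add ((bKu_cont888 t).mul (c1.mul (rhoU_cont888 t)))).add
      (((bKu_cont888 t).mul (c1.mul (rhoU_cont888 t))).add
        ((bK_cont888 t).mul
          (((c2.mul (rhoU_cont888 t)).mul (rhoU_cont888 t)).add (c1.mul (rho_cont888 t))))))

omit hF in
theorem b1k_cont888 (n : ℤ) (t : ℝ) : Continuous (Function.uncurry (b1k888 n F' F'' t)) := by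
  have : Function.uncurry (b1k888 n F' F'' t)
      = fun p : ℝ × ℝ => ((bK888 t p.1 p.2 * ((rho888 t p.1 p.2 ^ 2 - 1)
            * F'' (rho888 t p.1 p.2)
          + (if n = 0 then 2 * rho888 t p.1 p.2 else 3 * rho888 t p.1 p.2 - 1)
            * F' (rho888 t p.1 p.2)) : ℝ) : ℂ) := by
    funext ⟨u, φ⟩; rfl
  rw [this]
  have c1 := comp_rho_cont888 (contOn_of_hasDerivAt888 hF') t
  have c2 := comp_rho_cont888 hF'' t
  have c3 : Continuous (fun p : ℝ × ℝ =>
      (if n = 0 then 2 * rho888 t p.1 p.2 else 3 * rho888 t p.1 p.2 - 1)) := by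
    split_ifs
    · exact continuous_const.mul (rho_cont888 t)
    · exact (continuous_const.mul (rho_cont888 t)).sub continuous_const
  exact Complex.continuous_ofReal.comp
    ((bK_cont888 t).mul
      (((((rho_cont888 t).pow 2).sub continuous_const).mul c2).add (c3.mul c1)))

theorem b1Psi'_cont888 (t u : ℝ) : Continuous (b1Psi'888 F F' F'' t u) := by
  have c0 := comp_rho_cont_phi888 (contOn_of_hasDerivAt888 hF) t u
  have c1 := comp_rho_cont_phi888 (contOn_of_hasDerivAt888 hF') t u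
  have c2 := comp_rho_cont_phi888 hF'' t u
  have c3 : Continuous (fun φ : ℝ => rhoP888 t u φ) := by unfold rhoP888; fun_prop
  have c4 : Continuous (fun φ : ℝ => bK888 t u φ) := by unfold bK888; fun_prop
  have c5 : Continuous (fun φ : ℝ => bKp888 t u φ) := by unfold bKp888; fun_prop
  unfold b1Psi'888
  exact Complex.continuous_ofReal.comp
    ((continuous_const.mul ((((c5.mul c1).mul Real.continuous_sin).add
        ((c4.mul (c2.mul c3)).mul Real.continuous_sin)).add
        ((c4.mul c1).mul Real.continuous_cos))).add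
      (continuous_const.mul ((Real.continuous_cos.mul c0).add
        (Real.continuous_sin.mul (c1.mul c3)))))

omit hF hF' hF''

theorem b1_id888 (n : ℤ) (hn : n ≠ 0) (t u φ : ℝ) :
    ((wtA888 n u : ℝ) : ℂ) * b1h2_888 F F' F'' t u φ
        + ((wtA'888 n u : ℝ) : ℂ) * b1h1_888 F F' t u φ
      = ((wtA888 n u : ℝ) : ℂ) * b1k888 n F' F'' t u φ + b1Psi'888 F F' F'' t u φ := by
  have hA : wtA888 n u = Real.sinh u * (1 + Real.cosh u) := by simp [wtA888, hn]
  have hA' : wtA'888 n u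
      = Real.cosh u * (1 + Real.cosh u) + Real.sinh u * Real.sinh u := by simp [wtA'888, hn]
  have r1 : Real.sinh u ^ 2 = Real.cosh u ^ 2 - 1 := by have := Real.cosh_sq u; linarith
  have r2 : Real.sin φ ^ 2 = 1 - Real.cos φ ^ 2 := by
    have := Real.sin_sq_add_cos_sq φ; linarith
  have r3 := wInv_rel888 u
  have r4 : Real.sinh t ^ 2 = Real.cosh t ^ 2 - 1 := by have := Real.cosh_sq t; linarith
  have r5 := tH_rel1_888 t
  have r6 := tH_rel2_888 t
  have key := b1_alg888 (Real.cosh u) (Real.sinh u) (wInv888 u) (Real.cos φ) (Real.sin φ)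
    (Real.cosh t) (Real.sinh t) (tH888 t) (F (rho888 t u φ)) (F' (rho888 t u φ))
    (F'' (rho888 t u φ)) r1 r2 r3 r4 r5 r6
  unfold b1h2_888 b1h1_888 b1k888 b1Psi'888
  rw [hA, hA']
  have e : lop683 n F' F'' (rho888 t u φ)
      = (rho888 t u φ ^ 2 - 1) * F'' (rho888 t u φ)
        + (3 * rho888 t u φ - 1) * F' (rho888 t u φ) := by simp [lop683, hn]
  rw [e]
  have key' : (Real.sinh u * (1 + Real.cosh u))
        * (bKuu888 t u φ * F (rho888 t u φ)
          + bKu888 t u φ * (F' (rho888 t u φ) * rhoU888 t u φ)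
          + (bKu888 t u φ * (F' (rho888 t u φ) * rhoU888 t u φ)
            + bK888 t u φ * (F'' (rho888 t u φ) * rhoU888 t u φ * rhoU888 t u φ
              + F' (rho888 t u φ) * rho888 t u φ)))
      + (Real.cosh u * (1 + Real.cosh u) + Real.sinh u * Real.sinh u)
        * (bKu888 t u φ * F (rho888 t u φ)
          + bK888 t u φ * (F' (rho888 t u φ) * rhoU888 t u φ))
      = (Real.sinh u * (1 + Real.cosh u))
        * (bK888 t u φ * ((rho888 t u φ ^ 2 - 1) * F'' (rho888 t u φ)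
          + (3 * rho888 t u φ - 1) * F' (rho888 t u φ)))
        + ((1 + Real.cosh u) * Real.sinh t * (bKp888 t u φ * F' (rho888 t u φ) * Real.sin φ
            + bK888 t u φ * (F'' (rho888 t u φ) * rhoP888 t u φ) * Real.sin φ
            + bK888 t u φ * F' (rho888 t u φ) * Real.cos φ)
          + tH888 t * Real.cosh u * (Real.cos φ * F (rho888 t u φ)
            + Real.sin φ * (F' (rho888 t u φ) * rhoP888 t u φ))) := by
    have e1 : rho888 t u φ
        = Real.cosh t * Real.cosh u + Real.sinh t * Real.sinh u * Real.cos φ := rfl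
    have e2 : rhoU888 t u φ
        = Real.cosh t * Real.sinh u + Real.sinh t * Real.cosh u * Real.cos φ := rfl
    have e3 : rhoP888 t u φ = -(Real.sinh t * Real.sinh u * Real.sin φ) := rfl
    have e4 : bK888 t u φ = 1 + tH888 t * (Real.sinh u * wInv888 u) * Real.cos φ := rfl
    have e5 : bKu888 t u φ = tH888 t * wInv888 u * Real.cos φ := rfl
    have e6 : bKuu888 t u φ
        = tH888 t * (-(Real.sinh u * wInv888 u ^ 2)) * Real.cos φ := rfl
    have e7 : bKp888 t u φ = -(tH888 t * (Real.sinh u * wInv888 u) * Real.sin φ) := rfl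
    generalize F (rho888 t u φ) = F0 at key ⊢
    generalize F' (rho888 t u φ) = F1 at key ⊢
    generalize F'' (rho888 t u φ) = F2 at key ⊢
    rw [e1, e2, e3, e4, e5, e6, e7]
    linear_combination key
  exact_mod_cast key'

include hF hF' hF''

/-- **The averaged identity, weight `±1`.** -/
theorem b1_main888 (n : ℤ) (hn : n ≠ 0) (t U : ℝ) (hU : 0 ≤ U) :
    (∫ φ in (0:ℝ)..(2 * Real.pi), b1h888 F t U φ)
      = (∫ φ in (0:ℝ)..(2 * Real.pi), b1h888 F t 0 φ)
        + gL888 n (fun q => ∫ φ in (0:ℝ)..(2 * Real.pi), b1k888 n F' F'' t q φ) U := by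
  have hper : ∀ u, b1Psi888 F F' t u (2 * Real.pi) = b1Psi888 F F' t u 0 := by
    intro u; simp [b1Psi888]
  exact avg_volterra888 n (h := b1h888 F t) (h1 := b1h1_888 F F' t)
    (h2 := b1h2_888 F F' F'' t) (k := b1k888 n F' F'' t) (Ψ := b1Psi888 F F' t)
    (Ψ' := b1Psi'888 F F' F'' t)
    (b1h_hasDerivAt888 hF t) (b1h1_hasDerivAt888 hF hF' t) (b1h_cont888 hF t)
    (b1h1_cont888 hF hF' t) (b1h2_cont888 hF hF' hF'' t) (b1k_cont888 hF' hF'' n t)
    (b1Psi_hasDerivAt888 hF hF' t) (b1Psi'_cont888 hF hF' hF'' t) hper (b1_id888 n hn t) U hU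

end

end Fermat.Agent.LT.T6.H888

end

end
-- ===== PACK-END LT/T6/H888/DbSmooth1.lean

-- ===== PACK-BEGIN LT/T7/H341/WBasisQSpec.lean
section




/-!
# Row LT, tower T7, NODE T7.L2Q.3.7.4 `SDQ140.WBasisQC` -- THE CUT, level 3 (helper341)

OFF-MAIN.  Definitions and frozen Props; the assembly `wBasisQC_of341` is in `WBasisQTop.lean`.
No hole, nothing assumed.  ADDITIVE (new names only, suffix `341`, namespace `WBQ341`).
Typed MIRROR over `ℚ` (with the `K_∞`-type `n`) of `LT/T7/H534/WBasisSpec.lean`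
(helper534@f2b76c564, byte-identical copy); `SD534.ProjBasisC` (Mathlib only, abstract) is
REUSED verbatim.

    WBasisQC n  ⟸  CuspFormQC n + WSubQC n + V2SubQC341 n + V2BasisQC341 n + IwProjQC341 n
                     + SD534.ProjBasisC

Notation: `V` = the cusp functions over `ℚ` of level `𝔫` and type `n.type` (`SDQ140.InVQ`);
`V₂ ⊆ V` = those which are invariant under the positive scalars at the real place (`InV2Q341`:
the class `L2Q.IsWFnQ` WITHOUT the Iwahori condition); `W ⊆ V₂` = the members which are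
invariant under the Iwahori subgroup at `u` (`SDQ140.InWQ`).

* `V2SubQC341 n`   : `V₂` and its eigen-classes are linear subspaces, `W ⊆ V₂`.
* `V2BasisQC341 n` (NODE; tower T2 in the class of T5 for `(ℚ, 𝔫, n.type)`,
  `T2.cuspSpecT_closed`, + admissibility at the real place): an orthonormal sequence of joint
  eigenfunctions of type `n`, complete in `V₂`, with FINITE classes (per `EigData`, normalised)
  which EXHAUST the eigenfunctions, unitary data `SDQ140.IsUnitOutQ`.
* `IwProjQC341 n`  : the Iwahori projector `P` = the average over `I_u / U(𝔫)_u`: linear,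
  `V₂ → W`, `⟨P ψ, χ⟩ = ⟨ψ, χ⟩` for `χ ∈ W`, and `P` preserves the eigen-data.
-/

set_option autoImplicit false
set_option linter.unusedSectionVars false
set_option linter.unusedVariables false

open AutomorphicForm IsDedekindDomain NumberField MeasureTheory
open scoped ComplexConjugate

noncomputable section

namespace Fermat.Agent.LT.T7.WBQ341

open Fermat.Agent.LT.H556 Fermat.Agent.LT.H556.A0 Fermat.Agent.LT.H670 Fermat.Agent.LT.T7
open Fermat.Agent.LT.T7.L2Q Fermat.Agent.LT.T7.SDQ140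

attribute [local instance] Fermat.Agent.LT.T5.instMeasurableSpaceG

section Defs

/-- `ψ ∈ V₂`: a cusp function over `ℚ` of level `𝔫` and type `n.type`, invariant under the
positive scalars at the real place (`L2Q.IsWFnQ` without the Iwahori condition). -/
structure InV2Q341 (n : QWt) (𝔫 : Ideal (𝓞 ℚ)) (r : G ℚ) (ψ : G ℚ → ℂ) : Prop where
  cusp : T5.IsCuspFn 𝔫 n.type r ψ
  arch_scalar : ∀ (w : InfinitePlace ℚ) (z : G ℚ), IsArchPosScalar w z →
    ∀ g : G ℚ, ψ (g * z) = ψ g

/-- `ψ` is a member of `V₂` with joint eigen-data `c` (`L2Q.IsEigFnQ` without the Iwahori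
condition). -/
structure InCls2Q341 (n : QWt) (𝔫 : Ideal (𝓞 ℚ)) (r : G ℚ) (c : EigData ℚ) (ψ : G ℚ → ℂ) :
    Prop where
  inv : InV2Q341 n 𝔫 r ψ
  hecke : ∀ v : HeightOneSpectrum (𝓞 ℚ), ¬ v.asIdeal ∣ 𝔫 → IsHeckeEigenAt ψ v (c.a v) (c.b v)
  mean : ∀ w : InfinitePlace ℚ, n.MeanEig ψ w (c.m w)

/-- `V₂` and its classes are linear subspaces; `W ⊆ V₂ ⊆ V`. -/
structure IsV2SubQ341 (n : QWt) (𝔫 : Ideal (𝓞 ℚ)) (r : G ℚ) (u : HeightOneSpectrum (𝓞 ℚ)) :
    Prop where
  zero2 : InV2Q341 n 𝔫 r (0 : G ℚ → ℂ)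
  add2 : ∀ f f' : G ℚ → ℂ, InV2Q341 n 𝔫 r f → InV2Q341 n 𝔫 r f' → InV2Q341 n 𝔫 r (f + f')
  smul2 : ∀ (a : ℂ) (f : G ℚ → ℂ), InV2Q341 n 𝔫 r f → InV2Q341 n 𝔫 r (a • f)
  addC2 : ∀ (c : EigData ℚ) (f f' : G ℚ → ℂ), InCls2Q341 n 𝔫 r c f → InCls2Q341 n 𝔫 r c f' →
    InCls2Q341 n 𝔫 r c (f + f')
  smulC2 : ∀ (c : EigData ℚ) (a : ℂ) (f : G ℚ → ℂ), InCls2Q341 n 𝔫 r c f →
    InCls2Q341 n 𝔫 r c (a • f)

/-- An orthonormal sequence of joint eigenfunctions of type `n`, complete in `V₂`, with finite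
classes which exhaust the eigenfunctions. -/
structure IsV2BasisQ341 (n : QWt) (μ : Measure (G ℚ)) (F : Set (G ℚ)) (r : G ℚ)
    (𝔫 : Ideal (𝓞 ℚ)) (v : ℕ → G ℚ → ℂ) (J : Set ℕ) (c : ℕ → EigData ℚ) : Prop where
  eig : ∀ j, j ∈ J → InCls2Q341 n 𝔫 r (c j) (v j)
  unit : ∀ j, j ∈ J → IsUnitOutQ 𝔫 (c j)
  norm_one : ∀ j, j ∈ J → T5.innerD μ F (v j) (v j) = 1
  orth : ∀ i, i ∈ J → ∀ j, j ∈ J → i ≠ j → T5.innerD μ F (v i) (v j) = 0
  parseval : ∀ ψ : G ℚ → ℂ, InV2Q341 n 𝔫 r ψ →
    HasSum (fun j : J => ‖T5.innerD μ F ψ (v j)‖ ^ 2) (T5.innerD μ F ψ ψ).re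
  finite : ∀ j₀, j₀ ∈ J → {j : ℕ | j ∈ J ∧ c j = c j₀}.Finite
  exhaust : ∀ j₀, j₀ ∈ J → ∀ ψ : G ℚ → ℂ, InCls2Q341 n 𝔫 r (c j₀) ψ →
    ψ ∈ SD534.clsSpan v J c (c j₀)

/-- The Iwahori projector. -/
structure IsIwProjQ341 (n : QWt) (μ : Measure (G ℚ)) (F : Set (G ℚ)) (r : G ℚ)
    (𝔫 : Ideal (𝓞 ℚ)) (u : HeightOneSpectrum (𝓞 ℚ)) (P : (G ℚ → ℂ) → (G ℚ → ℂ)) : Prop where
  add : ∀ ψ ψ' : G ℚ → ℂ, P (ψ + ψ') = P ψ + P ψ'
  smul : ∀ (a : ℂ) (ψ : G ℚ → ℂ), P (a • ψ) = a • P ψ
  mem : ∀ ψ : G ℚ → ℂ, InV2Q341 n 𝔫 r ψ → InWQ n 𝔫 r u (P ψ)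
  inner : ∀ ψ : G ℚ → ℂ, InV2Q341 n 𝔫 r ψ → ∀ χ : G ℚ → ℂ, InWQ n 𝔫 r u χ →
    T5.innerD μ F (P ψ) χ = T5.innerD μ F ψ χ
  cls : ∀ (c : EigData ℚ) (ψ : G ℚ → ℂ), InCls2Q341 n 𝔫 r c ψ → InClsQ n 𝔫 r u c (P ψ)

theorem InV2Q341.inV {n : QWt} {𝔫 : Ideal (𝓞 ℚ)} {r : G ℚ} {ψ : G ℚ → ℂ}
    (h : InV2Q341 n 𝔫 r ψ) : InVQ n 𝔫 r ψ := h.cusp

/-- `W ⊆ V₂` (no hypothesis: drop the Iwahori condition). -/
theorem inV2Q_of_inWQ341 {n : QWt} {𝔫 : Ideal (𝓞 ℚ)} {r : G ℚ} {u : HeightOneSpectrum (𝓞 ℚ)}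
    {χ : G ℚ → ℂ} (h : InWQ n 𝔫 r u χ) : InV2Q341 n 𝔫 r χ :=
  ⟨h.cusp, h.arch_scalar⟩

/-- An eigenfunction in `W` is an eigenfunction in `V₂`. -/
theorem inCls2Q_of_inClsQ341 {n : QWt} {𝔫 : Ideal (𝓞 ℚ)} {r : G ℚ}
    {u : HeightOneSpectrum (𝓞 ℚ)} {c : EigData ℚ} {ψ : G ℚ → ℂ} (h : InClsQ n 𝔫 r u c ψ) :
    InCls2Q341 n 𝔫 r c ψ :=
  ⟨inV2Q_of_inWQ341 h.inv, h.hecke, h.mean⟩

/-- A member of `W` which is an eigenfunction in `V₂` is an eigenfunction in `W`. -/
theorem inClsQ_of_inCls2Q341 {n : QWt} {𝔫 : Ideal (𝓞 ℚ)} {r : G ℚ}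
    {u : HeightOneSpectrum (𝓞 ℚ)} {c : EigData ℚ} {ψ : G ℚ → ℂ} (h : InCls2Q341 n 𝔫 r c ψ)
    (hW : InWQ n 𝔫 r u ψ) : InClsQ n 𝔫 r u c ψ :=
  ⟨hW, h.hecke, h.mean⟩

end Defs

/-! ## The leaves -/

section Leaves

/-- **WBQ.1 SUBSPACES of `V₂`** (typed form of `SD534.V2SubC`).  Every condition of
`T5.IsCuspFn`, of the invariance under the positive scalars and of `L2Q.IsEigFnQ` (Hecke
eigenfunction, eigenfunction of the circle means of type `n`) is linear.  (As `SDQ140.WSubQC`
without the Iwahori condition; the constant term needs the integrability of a bounded continuous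
function on a fundamental domain of `ℚ` in `𝔸_ℚ`: T1.) -/
def V2SubQC341 (n : QWt) : Prop :=
  ∀ (𝔫 : Ideal (𝓞 ℚ)) (r : G ℚ) (u : HeightOneSpectrum (𝓞 ℚ)), IsV2SubQ341 n 𝔫 r u

/-- **WBQ.2 = NODE `V₂`-BASIS over `ℚ`, type `n`** (typed form of `SD534.V2BasisC`).
Route: `T2.cuspSpecT_closed` for `(ℚ, 𝔫, n.type)` (tower T2 in the class of T5: closed for EVERY
number field, level and `K_∞`-type) restricted to the functions invariant under the positive
scalars at the real place (the projector on them commutes with all the operators: R3 of the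
architect); the circle means of T2 (`T2.MeanEigRT`, `rotY θ` = rotation of angle `θ/2`) are those
of `L2Q.MeanEigR0` / `L2Q.MeanEigR1` (`QOut.rotC θ = k_{-θ}`); ADMISSIBILITY at the real place
(the members with given eigenvalue functions of the circle means are finite in number: real
form of `T2.finite_meanClass130`), so the classes PER `EigData` are finite.  The eigen-data are
NORMALISED (`0` at the places dividing `𝔫` and at the radii `t ≤ 0`): same class ⟺ EQUAL data.
Unitarity `IsUnitOutQ`: `T2.IsCuspBasisT` (`unit_b`, `conj_a`, `bound_a`, `real_m`) and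
`|m| ≤ 2π`.  Exhaustion: an eigenfunction with the data of a class is orthogonal to the members
of the other classes (`T_v`, `S_v` normal, the circle means self-adjoint), hence in the span of
its class (Parseval + definiteness). -/
def V2BasisQC341 (n : QWt) : Prop :=
  ∀ (μ : Measure (G ℚ)) (F : Set (G ℚ)) (r : G ℚ) (𝔫 : Ideal (𝓞 ℚ)), 𝔫 ≠ ⊥ →
    T5.IsKType n.type → T5.IsFrame μ F → T5.IsRayGen r →
      ∃ (v : ℕ → G ℚ → ℂ) (J : Set ℕ) (c : ℕ → EigData ℚ), IsV2BasisQ341 n μ F r 𝔫 v J c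

/-- **WBQ.3 IWAHORI PROJECTOR over `ℚ`, type `n`** (typed form of `SD534.IwProjC`; the
`K_∞`-type plays no role).  For `u ∣ 𝔫`: `P ψ = |H₀|⁻¹ ∑_{h ∈ H₀} ψ(· h)`, `H₀` a system of
representatives of `I_u / U(𝔫)_u` (elements at `u`).  `P ψ` is Iwahori invariant; the elements
at `u` commute with the Hecke operators at `v ∤ 𝔫`, with the circle means and with the elements
of `K_∞`; right translation by `h ∈ I_u` preserves `⟨ , ⟩` and fixes `χ ∈ W`. -/
def IwProjQC341 (n : QWt) : Prop :=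
  ∀ (μ : Measure (G ℚ)) (F : Set (G ℚ)) (r : G ℚ) (𝔫 : Ideal (𝓞 ℚ))
    (u : HeightOneSpectrum (𝓞 ℚ)), 𝔫 ≠ ⊥ → T5.IsKType n.type → T5.IsFrame μ F →
    T5.IsRayGen r → u.asIdeal ∣ 𝔫 →
      ∃ P : (G ℚ → ℂ) → (G ℚ → ℂ), IsIwProjQ341 n μ F r 𝔫 u P

end Leaves

end Fermat.Agent.LT.T7.WBQ341

end

end
-- ===== PACK-END LT/T7/H341/WBasisQSpec.lean

-- ===== PACK-BEGIN LT/T7/H222/PushPar.lean
section



/-!
# Row LT, tower T7, leaf T7.L2.1.RT4 `PushParC` (registry 2582): PROVED, VERBATIM (helper222)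

OFF-MAIN.  Spec: `Fermat/Agent/LT/T7/H193/NatMatchSpec.lean` of helper193@2b431d43c
(byte-identical copy, sha256 4d7f0df5b118c396; closure vendored byte-identical).
-/

set_option autoImplicit false

namespace Fermat.Agent.LT.T7.H222

/-- **RT.4 `PushParC`** (VERBATIM): `N` maps the fundamental parallelepiped of `B` onto the one of
`b` and the normalised Lebesgue measure to the normalised Lebesgue measure. -/
theorem pushParC222 : Fermat.Agent.LT.T7.H193.PushParC := by
  intro ι ι' J _ _ _ N b B hl hr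
  exact pushPar_core222 ι ι' J N b B hl hr

end Fermat.Agent.LT.T7.H222

end
-- ===== PACK-END LT/T7/H222/PushPar.lean

-- ===== PACK-BEGIN LT/T7/H863/FlatNat.lean
section


/-!
# Row LT, tower T7, leaf T7.L2.1.NM1 (`H193.FlatNatC`) -- helper863, OFF-MAIN

The frozen Prop `Fermat.Agent.LT.T7.H193.FlatNatC K` (VERBATIM, from
`Fermat/Agent/LT/T7/H193/NatMatchSpec.lean`): the summand of the twisted kernel of a torus mean
is the mean of the summands of the translates,

    twTerm r s (nat193 a D φ) δ x = vol(D)⁻¹ ∫_D twTerm r s (trl193 (a t) φ) δ x dt.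

Proof.  `twTerm r s ψ δ x = ∑'_m ψ(y r^m)`, `y = x⁻¹ δ σ(x)`.  With the continuous additive
function `L(g) = log |det g_w|` (`w` ONE infinite place; `L(r) = 2 log t ≠ 0`): if
`φ(y r^m a(t)⁻¹) ≠ 0` with `t ∈ D`, then `|m| |L r| ≤ sup_{supp φ} |L| + |L y| + sup_{cl D} |L ∘ a|`.
So both sides are sums over ONE finite set of `m`, and the finite sum commutes with the integral
over `D` (continuous integrands, `cl D` compact).  The hypothesis `T1.T1Out K` is not used.

Every proof is complete.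
-/

set_option autoImplicit false

open IsDedekindDomain NumberField MeasureTheory

noncomputable section

namespace Fermat.Agent.LT.T7.H863

open Fermat.Agent.LT.H556 Fermat.Agent.LT.H556.A0 Fermat.Agent.LT Fermat.Agent.LT.T7.H193

attribute [local instance] Fermat.Agent.LT.T5.instMeasurableSpaceG

variable {K : Type} [Field K] [NumberField K]

/-- The component at one infinite place is continuous. -/
theorem continuous_infHom863 (w : InfinitePlace K) : Continuous (T5.infHom w) :=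
  (InfinitePlace.Completion.isometry_extensionEmbedding w).continuous.comp
    ((continuous_apply w).comp continuous_fst)

/-- `g ↦ |det g_w|`. -/
def detSz863 (w : InfinitePlace K) (g : G K) : ℝ :=
  ‖T5.infHom w ((g : Matrix (Fin 2) (Fin 2) (Adl K)).det)‖

theorem continuous_detSz863 (w : InfinitePlace K) : Continuous (detSz863 (K := K) w) := by
  have h1 : Continuous fun g : G K => (g : Matrix (Fin 2) (Fin 2) (Adl K)) :=
    Units.continuous_val
  exact continuous_norm.comp ((continuous_infHom863 w).comp h1.matrix_det)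

theorem detSz863_one (w : InfinitePlace K) : detSz863 w (1 : G K) = 1 := by
  simp [detSz863]

theorem detSz863_mul (w : InfinitePlace K) (g h : G K) :
    detSz863 w (g * h) = detSz863 w g * detSz863 w h := by
  simp [detSz863, Matrix.det_mul]

theorem detSz863_ne_zero (w : InfinitePlace K) (g : G K) : detSz863 w g ≠ 0 := by
  intro h
  have h1 := detSz863_mul w g g⁻¹
  rw [mul_inv_cancel, detSz863_one, h, zero_mul] at h1
  exact one_ne_zero h1

/-- `L(g) = log |det g_w|`. -/
def logSz863 (w : InfinitePlace K) (g : G K) : ℝ := Real.log (detSz863 w g)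

theorem continuous_logSz863 (w : InfinitePlace K) : Continuous (logSz863 (K := K) w) :=
  (continuous_detSz863 w).log (detSz863_ne_zero w)

theorem logSz863_one (w : InfinitePlace K) : logSz863 w (1 : G K) = 0 := by
  simp [logSz863, detSz863_one]

theorem logSz863_mul (w : InfinitePlace K) (g h : G K) :
    logSz863 w (g * h) = logSz863 w g + logSz863 w h := by
  unfold logSz863
  rw [detSz863_mul, Real.log_mul (detSz863_ne_zero w g) (detSz863_ne_zero w h)]

theorem logSz863_inv (w : InfinitePlace K) (g : G K) : logSz863 w g⁻¹ = -logSz863 w g := by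
  have h1 := logSz863_mul w g g⁻¹
  rw [mul_inv_cancel, logSz863_one] at h1
  linarith

theorem logSz863_zpow (w : InfinitePlace K) (g : G K) (m : ℤ) :
    logSz863 w (g ^ m) = m * logSz863 w g := by
  induction m using Int.induction_on with
  | zero => simp [logSz863_one]
  | succ n ih => rw [zpow_add_one, logSz863_mul, ih]; push_cast; ring
  | pred n ih => rw [zpow_sub_one, logSz863_mul, logSz863_inv, ih]; push_cast; ring

/-- `L(r) ≠ 0` for the generator of the ray. -/
theorem logSz863_rayGen_ne_zero (w : InfinitePlace K) {r : G K} (hr : T5.IsRayGen r) :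
    logSz863 w r ≠ 0 := by
  obtain ⟨-, t, ht0, ht2, hinf⟩ := hr
  have hdet : T5.infHom w ((r : Matrix (Fin 2) (Fin 2) (Adl K)).det) = ((t : ℂ)) ^ 2 := by
    rw [RingHom.map_det, RingHom.mapMatrix_apply, ← T5.infComp_eq_map, hinf w,
      Matrix.det_diagonal]
    simp [sq]
  have hsz : detSz863 w r = t ^ 2 := by
    unfold detSz863
    rw [hdet, norm_pow, Complex.norm_real, Real.norm_eq_abs, abs_of_pos ht0]
  unfold logSz863
  rw [hsz]
  intro h
  have hpos : 0 < t ^ 2 := by positivity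
  rcases Real.log_eq_zero.mp h with h0 | h1 | h2
  · exact hpos.ne' h0
  · have h3 : t ^ (2 * Module.finrank ℚ K) = 1 := by rw [pow_mul, h1, one_pow]
    rw [h3] at ht2
    norm_num at ht2
  · linarith

/-- The summand of the twisted kernel, unfolded. -/
theorem twTerm_eq_863 (r : G K) (s : T5.AdelicAut K) (ψ : G K → ℂ) (δ : GL (Fin 2) K)
    (x : G K) :
    T5.twTerm r s ψ δ x = ∑' m : ℤ, ψ (x⁻¹ * T5.ratG δ * s.onG x * r ^ m) := rfl

/-- **T7.L2.1.NM1** (`FlatNatC`). -/
theorem flatNatC_863 (K : Type) [Field K] [NumberField K] : FlatNatC K := by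
  intro _ s r hr a D ha hDm hDb φ hφ hφc δ x
  obtain ⟨w⟩ : Nonempty (InfinitePlace K) := inferInstance
  set y : G K := x⁻¹ * T5.ratG δ * s.onG x with hy
  set c : ℂ := (((volume D).toReal : ℝ) : ℂ)⁻¹ with hc
  -- the functions
  let F : ℤ → (InfinitePlace K → ℝ) → ℂ := fun m t => φ (y * r ^ m * (a t)⁻¹)
  have hLHS : T5.twTerm r s (nat193 a D φ) δ x = ∑' m : ℤ, c * ∫ t in D, F m t := rfl
  have hRHS : ∀ t, T5.twTerm r s (trl193 (a t) φ) δ x = ∑' m : ℤ, F m t := fun t => rfl
  rw [hLHS]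
  simp only [hRHS]
  -- continuity
  have hFc : ∀ m, Continuous (F m) := fun m =>
    hφ.comp (continuous_const.mul ha.inv)
  -- the bounds
  have hcl : IsCompact (closure D) := hDb.isCompact_closure
  obtain ⟨B₁, hB₁⟩ := hφc.exists_bound_of_continuousOn
    (continuous_logSz863 w).continuousOn
  obtain ⟨B₂, hB₂⟩ := hcl.exists_bound_of_continuousOn
    ((continuous_logSz863 w).comp ha).continuousOn
  have hL0 : 0 < |logSz863 w r| := abs_pos.mpr (logSz863_rayGen_ne_zero w hr)
  set B : ℝ := B₁ + |logSz863 w y| + B₂ with hB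
  set N : ℤ := ⌈B / |logSz863 w r|⌉ with hN
  let S : Finset ℤ := Finset.Icc (-N) N
  have hS : ∀ m : ℤ, m ∉ S → ∀ t ∈ D, F m t = 0 := by
    intro m hm t ht
    by_contra hne
    apply hm
    have hmem : y * r ^ m * (a t)⁻¹ ∈ tsupport φ := subset_tsupport _ hne
    have h1 := hB₁ _ hmem
    have h2 := hB₂ t (subset_closure ht)
    rw [Real.norm_eq_abs] at h1 h2
    simp only [Function.comp_apply] at h2
    rw [logSz863_mul, logSz863_mul, logSz863_zpow, logSz863_inv] at h1
    have h3 : |(m : ℝ) * logSz863 w r| ≤ B := by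
      have e : (m : ℝ) * logSz863 w r
          = (logSz863 w y + (m : ℝ) * logSz863 w r + -logSz863 w (a t))
            - logSz863 w y + logSz863 w (a t) := by ring
      rw [e]
      calc |(logSz863 w y + (m : ℝ) * logSz863 w r + -logSz863 w (a t))
            - logSz863 w y + logSz863 w (a t)|
          ≤ |(logSz863 w y + (m : ℝ) * logSz863 w r + -logSz863 w (a t))
            - logSz863 w y| + |logSz863 w (a t)| := abs_add_le _ _
        _ ≤ (|logSz863 w y + (m : ℝ) * logSz863 w r + -logSz863 w (a t)|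
            + |logSz863 w y|) + |logSz863 w (a t)| := by
            gcongr
            exact abs_sub _ _
        _ ≤ B := by rw [hB]; linarith
    rw [abs_mul] at h3
    have h4 : |(m : ℝ)| ≤ B / |logSz863 w r| := (le_div_iff₀ hL0).mpr h3
    have h5 : |m| ≤ N := by
      have : ((|m| : ℤ) : ℝ) ≤ ((N : ℤ) : ℝ) := by
        rw [Int.cast_abs]
        exact h4.trans (Int.le_ceil _)
      exact_mod_cast this
    rw [Finset.mem_Icc]
    exact abs_le.mp h5
  -- integrability
  have hFi : ∀ m, IntegrableOn (F m) D volume := fun m =>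
    ((hFc m).continuousOn.integrableOn_compact hcl).mono_set subset_closure
  -- the left side
  have hL : ∑' m : ℤ, c * ∫ t in D, F m t = ∑ m ∈ S, c * ∫ t in D, F m t := by
    refine tsum_eq_sum ?_
    intro m hm
    have : ∫ t in D, F m t = 0 := by
      rw [setIntegral_congr_fun hDm (fun t ht => hS m hm t ht)]
      simp
    rw [this, mul_zero]
  -- the right side
  have hR : ∫ t in D, ∑' m : ℤ, F m t = ∑ m ∈ S, ∫ t in D, F m t := by
    rw [setIntegral_congr_fun hDm
      (fun t ht => tsum_eq_sum (fun m hm => hS m hm t ht))]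
    exact integral_finsetSum S (fun m _ => hFi m)
  rw [hL, hR, Finset.mul_sum]

end Fermat.Agent.LT.T7.H863

end

end
-- ===== PACK-END LT/T7/H863/FlatNat.lean

-- ===== PACK-BEGIN LT/T7/H616/ClassModelTop.lean
section


/-!
# Row LT, tower T7, node T7.L2.2.N.1 `ClassModelC` (deputy sub-architect helper616): THE TOP

OFF-MAIN.  PROVED: the eleven leaves of `ClassModelSpec.lean` give `SU736.ClassModelC K K'`.
No hole, nothing assumed.
-/

set_option autoImplicit false

open AutomorphicForm IsDedekindDomain NumberField MeasureTheory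
open scoped ComplexConjugate

noncomputable section

namespace Fermat.Agent.LT.T7.CM616

open Fermat.Agent.LT.H556 Fermat.Agent.LT.H556.A0 Fermat.Agent.LT.T7 Fermat.Agent.LT.T7.SU736

attribute [local instance] Fermat.Agent.LT.T5.instMeasurableSpaceG

/-! ## 1. Tools -/

section Tools

variable {K : Type} [Field K] [NumberField K]

theorem restr616_apply {M : Type} [AddCommGroup M] [Module ℂ M] (p : Submodule ℂ M)
    (f : M →ₗ[ℂ] M) (h : ∀ x ∈ p, f x ∈ p) (x : p) : ((restr616 p f x : p) : M) = f x := by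
  unfold restr616
  rw [dif_pos h]
  rfl

theorem restr616_eq {M : Type} [AddCommGroup M] [Module ℂ M] (p : Submodule ℂ M)
    (f : M →ₗ[ℂ] M) (h : ∀ x ∈ p, f x ∈ p) : restr616 p f = f.restrict h := by
  unfold restr616
  rw [dif_pos h]

theorem cosetLin616_apply (H : Finset (G K)) (ψ : G K → ℂ) : cosetLin616 H ψ = cosetOp H ψ :=
  rfl

theorem rsigLin616_apply (s : T5.AdelicAut K) (ψ : G K → ℂ) (x : G K) :
    rsigLin616 s ψ x = ψ (s.onGinv x) := rfl

theorem rsigInvLin616_apply (s : T5.AdelicAut K) (ψ : G K → ℂ) (x : G K) :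
    rsigInvLin616 s ψ x = ψ (s.onG x) := rfl

theorem mem_classSp_of_map616 {𝔫 : Ideal (𝓞 K)} {r : G K} {l : ℕ}
    {o : ℕ → HeightOneSpectrum (𝓞 K)} {C : EigData K} (f : (G K → ℂ) →ₗ[ℂ] (G K → ℂ))
    (hf : ∀ ψ, IsEigFn 𝔫 r l o ψ C → IsEigFn 𝔫 r l o (f ψ) C) :
    ∀ ψ ∈ classSp616 𝔫 r l o C, f ψ ∈ classSp616 𝔫 r l o C := by
  intro ψ hψ
  unfold classSp616 at hψ ⊢
  induction hψ using Submodule.span_induction with
  | mem x hx => exact Submodule.subset_span (hf x hx)
  | zero => rw [map_zero]; exact Submodule.zero_mem _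
  | add x y _ _ hx hy => rw [map_add]; exact Submodule.add_mem _ hx hy
  | smul c x _ hx => rw [map_smul]; exact Submodule.smul_mem _ c hx

theorem levelInv_of_mem616 {𝔫 : Ideal (𝓞 K)} {r : G K} {l : ℕ}
    {o : ℕ → HeightOneSpectrum (𝓞 K)} {C : EigData K} :
    ∀ ψ ∈ classSp616 𝔫 r l o C, IsLevelInv616 𝔫 ψ := by
  intro ψ hψ
  unfold classSp616 at hψ
  induction hψ using Submodule.span_induction with
  | mem x hx => exact fun u hu y => hx.inv.cusp.aut.level_inv u hu y
  | zero => exact fun _ _ _ => rfl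
  | add x y _ _ hx hy =>
    intro u hu z
    rw [Pi.add_apply, Pi.add_apply, hx u hu z, hy u hu z]
  | smul c x _ hx =>
    intro u hu z
    rw [Pi.smul_apply, Pi.smul_apply, hx u hu z]

theorem trivAtInf_one616 (w : InfinitePlace K) : TrivAtInf w (1 : G K) := by
  intro i j
  rw [Units.val_one, Matrix.one_apply, Matrix.one_apply]
  split_ifs <;> rfl

theorem trivAtFin_one616 (v : HeightOneSpectrum (𝓞 K)) : TrivAtFin v (1 : G K) := by
  unfold TrivAtFin finComp
  ext i j
  rw [Units.val_one, Matrix.one_apply, Matrix.one_apply]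
  split_ifs <;> rfl

theorem inLevelGroup_one616 (𝔫 : Ideal (𝓞 K)) : InLevelGroup 𝔫 (1 : G K) := by
  have h0 : ∀ v : HeightOneSpectrum (𝓞 K), (0 : v.adicCompletion K) ∈ idealClosure 𝔫 v := by
    intro v
    refine subset_closure ⟨0, 𝔫.zero_mem, ?_⟩
    simp
  refine ⟨fun w => trivAtInf_one616 w, fun v i j => ?_⟩
  have h1 : finComp v (1 : G K) = 1 := trivAtFin_one616 v
  rw [inv_one, h1, sub_self]
  exact ⟨h0 v, h0 v⟩

theorem isDblCosetSystem_one616 (𝔫 : Ideal (𝓞 K)) :
    IsDblCosetSystem 𝔫 (1 : G K) ({1} : Finset (G K)) := by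
  refine ⟨fun h hh => ⟨1, 1, inLevelGroup_one616 𝔫, inLevelGroup_one616 𝔫, ?_⟩,
    fun h hh h' hh' hne => ?_, fun u hu => ⟨1, Finset.mem_singleton_self _, ?_⟩⟩
  · rw [Finset.mem_singleton] at hh
    rw [hh, mul_one, mul_one]
  · rw [Finset.mem_singleton] at hh hh'
    exact absurd (hh.trans hh'.symm) hne
  · rw [inv_one, one_mul, mul_one]
    exact hu

theorem cosetOp_singleton_one616 (ψ : G K → ℂ) : cosetOp ({1} : Finset (G K)) ψ = ψ := by
  funext x
  unfold cosetOp
  rw [Finset.sum_singleton, mul_one]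

/-- The conjugate of a sum of right translates by `R(σ)`. -/
theorem conj_cosetOp616 [DecidableEq (G K)] (s : T5.AdelicAut K)
    (hl : ∀ g : G K, s.onGinv (s.onG g) = g)
    (hr : ∀ g : G K, s.onG (s.onGinv g) = g) (H : Finset (G K)) (ψ : G K → ℂ) :
    rsigInvLin616 s (cosetLin616 H (rsigLin616 s ψ))
      = cosetLin616 (H.image s.onGinv) ψ := by
  funext x
  rw [rsigInvLin616_apply, cosetLin616_apply, cosetLin616_apply]
  unfold cosetOp
  rw [Finset.sum_image]
  · refine Finset.sum_congr rfl fun h _ => ?_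
    rw [rsigLin616_apply, map_mul, hl]
  · intro a _ b _ hab
    have := congrArg s.onG hab
    rwa [hr, hr] at this

theorem iterate_rsig616 (s : T5.AdelicAut K) (n : ℕ) (ψ : G K → ℂ) (x : G K) :
    ((rsigLin616 s)^[n] ψ) x = ψ ((⇑s.onGinv)^[n] x) := by
  induction n generalizing x with
  | zero => rfl
  | succ n ih =>
    rw [Function.iterate_succ_apply', rsigLin616_apply, ih, ← Function.iterate_succ_apply]

/-- Sums of right translates by elementwise commuting sets commute. -/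
theorem cosetOp_comm616 (H H' : Finset (G K)) (hc : ∀ a ∈ H, ∀ b ∈ H', a * b = b * a)
    (ψ : G K → ℂ) (x : G K) : cosetOp H (cosetOp H' ψ) x = cosetOp H' (cosetOp H ψ) x := by
  unfold cosetOp
  rw [Finset.sum_comm]
  refine Finset.sum_congr rfl fun b hb => Finset.sum_congr rfl fun a ha => ?_
  rw [mul_assoc, hc a ha b hb, ← mul_assoc]

end Tools

/-! ## 2. The top -/

section Top

variable {K K' : Type} [Field K] [NumberField K] [Field K'] [NumberField K'] [Algebra K K']

omit [Algebra K K'] in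
theorem isBad_one616 (Dt : L2Data K K') : Dt.IsBad (1 : G K') :=
  ⟨fun w => trivAtInf_one616 w, fun v _ => trivAtFin_one616 v⟩

/-- **THE TOP OF THE NODE `ClassModelC`.** -/
theorem classModelC_of616 (h01 : FinDimC616 K K') (h02 : NontrivC616 K K')
    (h03 : StabGC616 K K') (h04 : StabSC616 K K') (h05 : CommGIC616 K K')
    (h06 : LocCommC616 K K') (h07 : LocMoveC616 K K') (h08 : PowC616 K K')
    (h09 : SimpleC616 K K') (h10 : MulGC616 K K') (h11 : DictC616 K K') :
    SU736.ClassModelC K K' := by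
  classical
  intro ℓ hcyc hℓ hcplx Φ hΦ hconst Dt hDt hst
  have ctx : Ctx616 K K' ℓ Φ Dt := ⟨hcyc, hℓ, hcplx, hΦ, hconst, hDt, hst⟩
  have hl : 0 < ℓ := hcyc.prime.pos
  -- stability of the class space
  have stS : ∀ ψ ∈ cls616 Dt ℓ Φ, rsigLin616 Dt.s ψ ∈ cls616 Dt ℓ Φ :=
    mem_classSp_of_map616 (rsigLin616 Dt.s) fun ψ hψ => (h04 ℓ Φ Dt ctx ψ hψ).1
  have stSi : ∀ ψ ∈ cls616 Dt ℓ Φ, rsigInvLin616 Dt.s ψ ∈ cls616 Dt ℓ Φ :=
    mem_classSp_of_map616 (rsigInvLin616 Dt.s) fun ψ hψ => (h04 ℓ Φ Dt ctx ψ hψ).2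
  have stG : ∀ (g : G K') (Hg : Finset (G K')), Dt.IsBad g → IsDblCosetSystem Dt.𝔑₀ g Hg →
      ∀ ψ ∈ cls616 Dt ℓ Φ, cosetLin616 Hg ψ ∈ cls616 Dt ℓ Φ := fun g Hg hg hHg =>
    mem_classSp_of_map616 (cosetLin616 Hg) fun ψ hψ => h03 ℓ Φ Dt ctx g Hg hg hHg ψ hψ
  have lev : ∀ ψ ∈ cls616 Dt ℓ Φ, IsLevelInv616 Dt.𝔑₀ ψ := levelInv_of_mem616
  have hleft : ∀ g : G K', Dt.s.onGinv (Dt.s.onG g) = g := hst.left_inverse
  have hright : ∀ g : G K', Dt.s.onG (Dt.s.onGinv g) = g := hst.right_inverse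
  have hfd : FiniteDimensional ℂ (cls616 Dt ℓ Φ) := h01 ℓ Φ Dt ctx
  have hnt : Nontrivial (cls616 Dt ℓ Φ) := by
    obtain ⟨ψ, hψ, x, hx⟩ := h02 ℓ Φ Dt ctx
    refine ⟨⟨⟨ψ, Submodule.subset_span hψ⟩, 0, fun h => hx ?_⟩⟩
    have h' : ψ = 0 := congrArg Subtype.val h
    rw [h']
    rfl
  -- the conjugation by `R(σ)`
  have hconj : ∀ (w w' : HeightOneSpectrum (𝓞 K')),
      (∀ h : G K', IsLocalAtFin w' h → IsLocalAtFin w (Dt.s.onGinv h)) →
      ∀ H : Finset (G K'), (∀ h ∈ H, IsLocalAtFin w' h) →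
        (∀ ψ ∈ cls616 Dt ℓ Φ, cosetLin616 H ψ ∈ cls616 Dt ℓ Φ) →
        ∃ H' : Finset (G K'), (∀ h ∈ H', IsLocalAtFin w h) ∧
          (∀ ψ ∈ cls616 Dt ℓ Φ, cosetLin616 H' ψ ∈ cls616 Dt ℓ Φ) ∧
          sInvOp616 Dt ℓ Φ * restr616 (cls616 Dt ℓ Φ) (cosetLin616 H) * sOp616 Dt ℓ Φ
            = restr616 (cls616 Dt ℓ Φ) (cosetLin616 H') := by
    intro w w' hmove H hH hstH
    have key := conj_cosetOp616 Dt.s hleft hright H
    have hst' : ∀ ψ ∈ cls616 Dt ℓ Φ,
        cosetLin616 (H.image Dt.s.onGinv) ψ ∈ cls616 Dt ℓ Φ := by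
      intro ψ hψ
      rw [← key ψ]
      exact stSi _ (hstH _ (stS ψ hψ))
    refine ⟨H.image Dt.s.onGinv, ?_, hst', ?_⟩
    · intro h hh
      obtain ⟨h₀, hh₀, rfl⟩ := Finset.mem_image.1 hh
      exact hmove h₀ (hH h₀ hh₀)
    · apply LinearMap.ext
      intro v
      apply Subtype.ext
      rw [Module.End.mul_apply, Module.End.mul_apply]
      unfold sInvOp616 sOp616
      rw [restr616_apply _ _ stSi, restr616_apply _ _ hstH, restr616_apply _ _ stS,
        restr616_apply _ _ hst', key]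
  -- `S ^ n`
  have hpow : ∀ (n : ℕ) (v : cls616 Dt ℓ Φ),
      (((sOp616 Dt ℓ Φ ^ n) v : cls616 Dt ℓ Φ) : G K' → ℂ)
        = (rsigLin616 Dt.s)^[n] (v : G K' → ℂ) := by
    intro n
    induction n with
    | zero => intro v; rfl
    | succ n ih =>
      intro v
      rw [pow_succ', Module.End.mul_apply, Function.iterate_succ_apply', ← ih v]
      unfold sOp616
      rw [restr616_apply _ _ stS]
  have hSl : sOp616 Dt ℓ Φ ^ ℓ = 1 := by
    apply LinearMap.ext
    intro v
    apply Subtype.ext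
    rw [hpow ℓ v, Module.End.one_apply]
    funext x
    rw [iterate_rsig616, h08 ℓ Φ Dt ctx x]
  refine ⟨cls616 Dt ℓ Φ, inferInstance, inferInstance, hfd, hnt, gSet616 Dt ℓ Φ,
    iSet616 Dt ℓ Φ, sOp616 Dt ℓ Φ, sInvOp616 Dt ℓ Φ, ?_⟩
  refine
    { hS := ?_
      hS' := ?_
      hGI := ?_
      hII := ?_
      hdown := ?_
      hwrap := ?_
      hcent := ?_
      hirr := ?_
      h1 := ?_
      hmul := ?_
      dict := ?_ }
  · -- hS
    apply LinearMap.ext
    intro v
    apply Subtype.ext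
    rw [Module.End.mul_apply, Module.End.one_apply]
    unfold sOp616 sInvOp616
    rw [restr616_apply _ _ stS, restr616_apply _ _ stSi]
    funext x
    rw [rsigLin616_apply, rsigInvLin616_apply, hright]
  · -- hS'
    apply LinearMap.ext
    intro v
    apply Subtype.ext
    rw [Module.End.mul_apply, Module.End.one_apply]
    unfold sOp616 sInvOp616
    rw [restr616_apply _ _ stSi, restr616_apply _ _ stS]
    funext x
    rw [rsigInvLin616_apply, rsigLin616_apply, hleft]
  · -- hGI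
    rintro j hj _ ⟨g, Hg, hg, hHg, rfl⟩ _ ⟨H, hH, hstH, rfl⟩
    apply LinearMap.ext
    intro v
    apply Subtype.ext
    rw [Module.End.mul_apply, Module.End.mul_apply, restr616_apply _ _ (stG g Hg hg hHg),
      restr616_apply _ _ hstH, restr616_apply _ _ hstH, restr616_apply _ _ (stG g Hg hg hHg)]
    funext x
    exact h05 ℓ Φ Dt ctx g Hg hg hHg j hj H hH v.1 (lev v.1 v.2) (lev _ (hstH v.1 v.2)) x
  · -- hII
    rintro i hi j hj hij _ ⟨H, hH, hstH, rfl⟩ _ ⟨H', hH', hstH', rfl⟩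
    apply LinearMap.ext
    intro v
    apply Subtype.ext
    rw [Module.End.mul_apply, Module.End.mul_apply, restr616_apply _ _ hstH,
      restr616_apply _ _ hstH', restr616_apply _ _ hstH', restr616_apply _ _ hstH]
    funext x
    exact cosetOp_comm616 H H'
      (fun a ha b hb => h06 ℓ Φ Dt ctx i hi j hj hij a b (hH a ha) (hH' b hb)) v.1 x
  · -- hdown
    rintro j hj _ ⟨H, hH, hstH, rfl⟩
    obtain ⟨H', hH', hstH', heq⟩ := hconj (Dt.o j) (Dt.o (j + 1))
      ((h07 ℓ Φ Dt ctx).1 j hj) H hH hstH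
    rw [heq]
    exact Algebra.subset_adjoin ⟨H', hH', hstH', rfl⟩
  · -- hwrap
    rintro _ ⟨H, hH, hstH, rfl⟩
    obtain ⟨H', hH', hstH', heq⟩ := hconj (Dt.o (ℓ - 1)) (Dt.o 0)
      ((h07 ℓ Φ Dt ctx).2) H hH hstH
    rw [heq]
    exact Algebra.subset_adjoin ⟨H', hH', hstH', rfl⟩
  · -- hcent
    intro h _
    rw [hSl, one_mul, mul_one]
  · -- hirr
    intro W hG hI
    have h := h09 ℓ Φ Dt ctx (W.map (cls616 Dt ℓ Φ).subtype)
      (Submodule.map_subtype_le _ W) ?_ ?_
    · rcases h with h | h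
      · left
        rw [Submodule.eq_bot_iff]
        intro w hw
        have : ((w : cls616 Dt ℓ Φ) : G K' → ℂ) ∈ W.map (cls616 Dt ℓ Φ).subtype :=
          ⟨w, hw, rfl⟩
        rw [h, Submodule.mem_bot] at this
        exact Subtype.ext this
      · right
        rw [Submodule.eq_top_iff']
        intro v
        have : ((v : cls616 Dt ℓ Φ) : G K' → ℂ) ∈ W.map (cls616 Dt ℓ Φ).subtype := by
          rw [h]
          exact v.2
        obtain ⟨w, hw, hwv⟩ := this
        have : w = v := Subtype.ext hwv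
        rw [← this]
        exact hw
    · rintro g Hg hg hHg ψ ⟨w, hw, rfl⟩
      have := hG (restr616 (cls616 Dt ℓ Φ) (cosetLin616 Hg)) ⟨g, Hg, hg, hHg, rfl⟩ hw
      exact ⟨_, this, restr616_apply _ _ (stG g Hg hg hHg) w⟩
    · rintro j hj H hH hstH ψ ⟨w, hw, rfl⟩
      have := hI j hj (restr616 (cls616 Dt ℓ Φ) (cosetLin616 H)) ⟨H, hH, hstH, rfl⟩ hw
      exact ⟨_, this, restr616_apply _ _ hstH w⟩
  · -- h1
    refine Submodule.subset_span ⟨1, {1}, isBad_one616 Dt, isDblCosetSystem_one616 _, ?_⟩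
    apply LinearMap.ext
    intro v
    apply Subtype.ext
    rw [restr616_apply _ _ (stG 1 {1} (isBad_one616 Dt) (isDblCosetSystem_one616 _)),
      Module.End.one_apply, cosetLin616_apply, cosetOp_singleton_one616]
  · -- hmul
    rintro _ ⟨g, Hg, hg, hHg, rfl⟩ _ ⟨g', Hg', hg', hHg', rfl⟩
    obtain ⟨n, c, g'', H'', hbad, hprod⟩ := h10 ℓ Φ Dt ctx g g' Hg Hg' hg hHg hg' hHg'
    have heq : restr616 (cls616 Dt ℓ Φ) (cosetLin616 Hg)
          * restr616 (cls616 Dt ℓ Φ) (cosetLin616 Hg')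
        = ∑ i, c i • restr616 (cls616 Dt ℓ Φ) (cosetLin616 (H'' i)) := by
      apply LinearMap.ext
      intro v
      apply Subtype.ext
      rw [Module.End.mul_apply, restr616_apply _ _ (stG g Hg hg hHg),
        restr616_apply _ _ (stG g' Hg' hg' hHg'), LinearMap.sum_apply, Submodule.coe_sum]
      funext x
      rw [Finset.sum_apply]
      rw [cosetLin616_apply, cosetLin616_apply, hprod v.1 (lev v.1 v.2) x]
      refine Finset.sum_congr rfl fun i _ => ?_
      rw [LinearMap.smul_apply, Submodule.coe_smul, Pi.smul_apply, smul_eq_mul,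
        restr616_apply _ _ (stG (g'' i) (H'' i) (hbad i).1 (hbad i).2), cosetLin616_apply]
    rw [heq]
    exact Submodule.sum_mem _ fun i _ => Submodule.smul_mem _ _
      (Submodule.subset_span ⟨g'' i, H'' i, (hbad i).1, (hbad i).2, rfl⟩)
  · -- dict
    rintro _ ⟨g, Hg, hg, hHg, rfl⟩
    exact ⟨g, Hg, hg, hHg, fun q J hq => h11 ℓ Φ Dt ctx g Hg hg hHg q J hq⟩

end Top

end Fermat.Agent.LT.T7.CM616

end

end
-- ===== PACK-END LT/T7/H616/ClassModelTop.lean

-- ===== PACK-BEGIN LT/T7/H267/RconvOps.lean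
section



/-!
# Row LT, tower T7, node T7.L2.1.F (helper267): translates and convolution operators

OFF-MAIN.  One field.  For a left invariant measure which is finite on compacts, a continuous
compactly supported `φ` and a continuous `ψ`:

    R(ltr b φ) ψ = (R(φ) ψ)(· b),   R(iwL w H φ) ψ = iwOp w H (R(φ) ψ),
    R(regL w z H k m φ) ψ = shiftOp z k ((iwOp w H)^[m] (R(φ) ψ)),

and the translates `ltr`, `lsum`, `iwL`, `regL` of a continuous compactly supported function are
continuous and compactly supported.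
-/

set_option autoImplicit false

open AutomorphicForm IsDedekindDomain NumberField MeasureTheory
open scoped Pointwise

noncomputable section

namespace Fermat.Agent.LT.T7.H893.H267

open Fermat.Agent.LT.H556 Fermat.Agent.LT.H556.A0 Fermat.Agent.LT.T7 Fermat.Agent.LT.T7.H893

attribute [local instance] Fermat.Agent.LT.T5.instMeasurableSpaceG
attribute [local instance] borelSpaceG267

variable {K : Type} [Field K] [NumberField K]

/-! ## Regularity of the translates -/

theorem continuous_ltr267 (b : G K) {φ : G K → ℂ} (h : Continuous φ) : Continuous (ltr b φ) :=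
  h.comp (continuous_const.mul continuous_id)

theorem hasCompactSupport_ltr267 (b : G K) {φ : G K → ℂ} (h : HasCompactSupport φ) :
    HasCompactSupport (ltr b φ) :=
  h.comp_homeomorph (Homeomorph.mulLeft b⁻¹)

theorem continuous_lsum267 (H : Finset (G K)) {φ : G K → ℂ} (h : Continuous φ) :
    Continuous (lsum H φ) := by
  unfold lsum
  exact continuous_finsetSum _ fun b _ => h.comp (continuous_const.mul continuous_id)

theorem hasCompactSupport_lsum267 (H : Finset (G K)) {φ : G K → ℂ} (h : HasCompactSupport φ) :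
    HasCompactSupport (lsum H φ) := by
  classical
  induction H using Finset.induction_on with
  | empty =>
    have e : lsum (∅ : Finset (G K)) φ = 0 := by
      funext y
      simp [lsum]
    rw [e]
    exact HasCompactSupport.zero
  | insert a s ha ih =>
    have e : lsum (insert a s) φ = ltr a φ + lsum s φ := by
      funext y
      simp [lsum, ltr, Finset.sum_insert ha]
    rw [e]
    exact (hasCompactSupport_ltr267 a h).add ih

theorem iwL_eq267 (w : HeightOneSpectrum (𝓞 K)) (H : Finset (G K)) (φ : G K → ℂ) :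
    iwL w H φ
      = (fun _ => ((Real.sqrt (Ideal.absNorm w.asIdeal : ℝ) : ℝ) : ℂ)⁻¹) * lsum H φ := rfl

theorem continuous_iwL267 (w : HeightOneSpectrum (𝓞 K)) (H : Finset (G K)) {φ : G K → ℂ}
    (h : Continuous φ) : Continuous (iwL w H φ) := by
  rw [iwL_eq267]
  exact continuous_const.mul (continuous_lsum267 H h)

theorem hasCompactSupport_iwL267 (w : HeightOneSpectrum (𝓞 K)) (H : Finset (G K))
    {φ : G K → ℂ} (h : HasCompactSupport φ) : HasCompactSupport (iwL w H φ) := by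
  rw [iwL_eq267]
  exact (hasCompactSupport_lsum267 H h).mul_left

theorem continuous_iwL_iterate267 (w : HeightOneSpectrum (𝓞 K)) (H : Finset (G K))
    {φ : G K → ℂ} (h : Continuous φ) (m : ℕ) : Continuous ((iwL w H)^[m] φ) := by
  induction m with
  | zero => simpa using h
  | succ m ih =>
    rw [Function.iterate_succ_apply']
    exact continuous_iwL267 w H ih

theorem hasCompactSupport_iwL_iterate267 (w : HeightOneSpectrum (𝓞 K)) (H : Finset (G K))
    {φ : G K → ℂ} (h : HasCompactSupport φ) (m : ℕ) :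
    HasCompactSupport ((iwL w H)^[m] φ) := by
  induction m with
  | zero => simpa using h
  | succ m ih =>
    rw [Function.iterate_succ_apply']
    exact hasCompactSupport_iwL267 w H ih

theorem continuous_regL267 (w : HeightOneSpectrum (𝓞 K)) (z : G K) (H : Finset (G K)) (k : ℤ)
    (m : ℕ) {φ : G K → ℂ} (h : Continuous φ) : Continuous (regL w z H k m φ) :=
  continuous_ltr267 _ (continuous_iwL_iterate267 w H h m)

theorem hasCompactSupport_regL267 (w : HeightOneSpectrum (𝓞 K)) (z : G K) (H : Finset (G K))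
    (k : ℤ) (m : ℕ) {φ : G K → ℂ} (h : HasCompactSupport φ) :
    HasCompactSupport (regL w z H k m φ) :=
  hasCompactSupport_ltr267 _ (hasCompactSupport_iwL_iterate267 w H h m)

/-! ## The operators of the translates -/

/-- `R(ltr b φ) ψ = (R(φ) ψ)(· b)`. -/
theorem rconv_ltr267 (μ : Measure (G K)) [μ.IsMulLeftInvariant] (b : G K) (φ ψ : G K → ℂ)
    (x : G K) : T5.Rconv μ (ltr b φ) ψ x = T5.Rconv μ φ ψ (x * b) := by
  unfold T5.Rconv ltr
  have e := integral_mul_left_eq_self (μ := μ) (fun y : G K => φ (b⁻¹ * y) * ψ (x * y)) b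
  rw [← e]
  congr 1
  funext y
  simp [mul_assoc]

/-- `R(lsum H φ) ψ = cosetOp H (R(φ) ψ)`. -/
theorem rconv_lsum267 (μ : Measure (G K)) [μ.IsMulLeftInvariant] [IsFiniteMeasureOnCompacts μ]
    (H : Finset (G K)) {φ ψ : G K → ℂ} (hφ : Continuous φ) (sφ : HasCompactSupport φ)
    (hψ : Continuous ψ) (x : G K) :
    T5.Rconv μ (lsum H φ) ψ x = cosetOp H (T5.Rconv μ φ ψ) x := by
  have hint : ∀ b ∈ H, Integrable (fun y : G K => ltr b φ y * ψ (x * y)) μ := fun b _ =>
    ((continuous_ltr267 b hφ).mul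
      (hψ.comp (continuous_const.mul continuous_id))).integrable_of_hasCompactSupport
      (hasCompactSupport_ltr267 b sφ).mul_right
  have e : ∀ b : G K, T5.Rconv μ φ ψ (x * b) = ∫ y, ltr b φ y * ψ (x * y) ∂μ := fun b =>
    (rconv_ltr267 μ b φ ψ x).symm
  unfold cosetOp
  simp only [e]
  rw [← integral_finsetSum _ hint]
  unfold T5.Rconv lsum ltr
  congr 1
  funext y
  rw [Finset.sum_mul]

/-- `R(iwL w H φ) ψ = iwOp w H (R(φ) ψ)`. -/
theorem rconv_iwL267 (μ : Measure (G K)) [μ.IsMulLeftInvariant] [IsFiniteMeasureOnCompacts μ]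
    (w : HeightOneSpectrum (𝓞 K)) (H : Finset (G K)) {φ ψ : G K → ℂ} (hφ : Continuous φ)
    (sφ : HasCompactSupport φ) (hψ : Continuous ψ) (x : G K) :
    T5.Rconv μ (iwL w H φ) ψ x = iwOp w H (T5.Rconv μ φ ψ) x := by
  have e1 : iwOp w H (T5.Rconv μ φ ψ) x
      = ((Real.sqrt (Ideal.absNorm w.asIdeal : ℝ) : ℝ) : ℂ)⁻¹ * cosetOp H (T5.Rconv μ φ ψ) x :=
    rfl
  rw [e1, ← rconv_lsum267 μ H hφ sφ hψ x]
  unfold T5.Rconv
  rw [← integral_const_mul]
  congr 1
  funext y
  rw [iwL_eq267]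
  simp only [Pi.mul_apply]
  ring

/-- `R((iwL w H)^[m] φ) ψ = (iwOp w H)^[m] (R(φ) ψ)`. -/
theorem rconv_iwL_iterate267 (μ : Measure (G K)) [μ.IsMulLeftInvariant]
    [IsFiniteMeasureOnCompacts μ] (w : HeightOneSpectrum (𝓞 K)) (H : Finset (G K))
    {φ ψ : G K → ℂ} (hφ : Continuous φ) (sφ : HasCompactSupport φ) (hψ : Continuous ψ)
    (m : ℕ) :
    T5.Rconv μ ((iwL w H)^[m] φ) ψ = (iwOp w H)^[m] (T5.Rconv μ φ ψ) := by
  induction m with
  | zero => rfl
  | succ m ih =>
    rw [Function.iterate_succ_apply', Function.iterate_succ_apply', ← ih]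
    funext x
    exact rconv_iwL267 μ w H (continuous_iwL_iterate267 w H hφ m)
      (hasCompactSupport_iwL_iterate267 w H sφ m) hψ x

/-- `R(regL w z H k m φ) ψ = shiftOp z k ((iwOp w H)^[m] (R(φ) ψ))`. -/
theorem rconv_regL267 (μ : Measure (G K)) [μ.IsMulLeftInvariant] [IsFiniteMeasureOnCompacts μ]
    (w : HeightOneSpectrum (𝓞 K)) (z : G K) (H : Finset (G K)) (k : ℤ) (m : ℕ)
    {φ ψ : G K → ℂ} (hφ : Continuous φ) (sφ : HasCompactSupport φ) (hψ : Continuous ψ) :
    T5.Rconv μ (regL w z H k m φ) ψ = shiftOp z k ((iwOp w H)^[m] (T5.Rconv μ φ ψ)) := by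
  funext x
  unfold regL
  rw [rconv_ltr267, rconv_iwL_iterate267 μ w H hφ sφ hψ m]
  rfl

end Fermat.Agent.LT.T7.H893.H267

end

end
-- ===== PACK-END LT/T7/H267/RconvOps.lean

-- ===== PACK-BEGIN LT/T7/H277/FamSmall.lean
section



/-!
# Row LT, tower T7, node T7.L2.1.F `FamC` (cut of helper893): LEAVES `KillUpC`, `KillDownC`,
# `ClassDownC`, `CommDownC` (helper277) -- OFF-MAIN

PROVED, VERBATIM vs `LT/T7/H893/SupplyFamSpec.lean` (helper893), unconditional:

* `killUpC277 K K' : H893.KillUpC K K'`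
* `killDownC277 K K' : H893.KillDownC K K'`
* `classDownC277 K K' : H893.ClassDownC K K'`
* `commDownC277 K K' : H893.CommDownC K K'`

from the operator calculus of `ROps.lean`.
-/

set_option autoImplicit false
open AutomorphicForm IsDedekindDomain NumberField MeasureTheory
open scoped ComplexConjugate

noncomputable section
namespace Fermat.Agent.LT.T7.H277

open Fermat.Agent.LT Fermat.Agent.LT.H556 Fermat.Agent.LT.H556.A0 Fermat.Agent.LT.T7
open Fermat.Agent.LT.T7.H893

attribute [local instance] Fermat.Agent.LT.T5.instMeasurableSpaceG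

variable (K K' : Type) [Field K] [NumberField K] [Field K'] [NumberField K'] [Algebra K K']

/-- **LEAF KILL-UP, VERBATIM.** -/
theorem killUpC277 : KillUpC K K' := by
  intro ℓ Φ B hB g hg E hE X k m hX ψ hψ horth x
  have hF := hB.frame'.frame
  have h1 := hE.up1_test X hX
  have h2 := hE.up2_test
  have hkill : T5.Rconv B.R'.μ E.φ₂ ψ = fun _ => 0 := by
    funext y
    exact hE.up2_kill ψ hψ horth y
  show T5.Rconv B.R'.μ (T5.conv B.R'.μ (E.Φ₁ X)
    (lsum E.Hg (regL (B.o 0) E.z' E.H' k m E.φ₂))) ψ x = 0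
  rw [Rconv_up277 hF E.Hg (B.o 0) E.z' E.H' k m h1.cont h1.supp h2.cont h2.supp hψ.cont,
    hkill, iwOp_iter_zero277, shiftOp_zero277, cosetOp_zero277, Rconv_zero277]

/-- **LEAF KILL-DOWN, VERBATIM.** -/
theorem killDownC277 : KillDownC K K' := by
  intro ℓ Φ B hB g hg E hE X k m hX ψ hψ horth x
  have hF := hB.frame.frame
  have h1 := hE.dn1_test X hX
  have h2 := hE.dn2_test
  have hkill : T5.Rconv B.R.μ E.f₂ ψ = fun _ => 0 := by
    funext y
    exact hE.dn2_kill ψ hψ horth y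
  show T5.Rconv B.R.μ (T5.conv B.R.μ (E.F₁ X) (regL B.u E.z E.H k m E.f₂)) ψ x = 0
  rw [Rconv_down277 hF B.u E.z E.H k m h1.cont h1.supp h2.cont h2.supp hψ.cont,
    hkill, iwOp_iter_zero277, shiftOp_zero277, Rconv_zero277]

/-- The operator of the base member downstairs: `R(f [] 0 0) = R(F₁ []) R(f₂)`. -/
theorem Rconv_down_base277 {ℓ : ℕ} {Φ : HeckeEigensystem K' ℂ} {B : L2Base K K'}
    (hB : IsL2Base ℓ Φ B) {g : G K'} {E : L2Pre K K'} (hE : IsL2Pre ℓ Φ B g E)
    {ψ : G K → ℂ} (hψ : Continuous ψ) :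
    T5.Rconv B.R.μ (E.down B [] 0 0) ψ
      = T5.Rconv B.R.μ (E.F₁ []) (T5.Rconv B.R.μ E.f₂ ψ) := by
  have hF := hB.frame.frame
  have h1 := hE.dn1_test [] (by intro x hx; simp at hx)
  have h2 := hE.dn2_test
  show T5.Rconv B.R.μ (T5.conv B.R.μ (E.F₁ []) (regL B.u E.z E.H 0 0 E.f₂)) ψ = _
  rw [Rconv_down277 hF B.u E.z E.H 0 0 h1.cont h1.supp h2.cont h2.supp hψ,
    Function.iterate_zero, id, shiftOp_zero_exp277]

/-- **LEAF CLASS-DOWN, VERBATIM.** -/
theorem classDownC277 : ClassDownC K K' := by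
  intro ℓ Φ B hB g hg E hE ψ c hψ
  rw [Rconv_down_base277 K K' hB hE hψ.inv.cusp.cont]
  exact hE.dn1_class _ c (hE.dn2_class ψ c hψ)

/-- **LEAF COMM-DOWN, VERBATIM.** -/
theorem commDownC277 : CommDownC K K' := by
  intro ℓ Φ B hB g hg E hE ψ hψ H z hH hz
  have hc := hψ.cusp.cont
  obtain ⟨a2, b2⟩ := hE.dn2_comm ψ hψ H z hH hz
  have hW := hE.dn2_wfn ψ hψ
  obtain ⟨a1, b1⟩ := hE.dn1_comm _ hW H z hH hz
  have e0 := Rconv_down_base277 K K' hB hE hc
  refine ⟨fun x => ?_, fun k x => ?_⟩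
  · rw [Rconv_down_base277 K K' hB hE (continuous_iwOp277 B.u H hc), e0]
    have : T5.Rconv B.R.μ E.f₂ (iwOp B.u H ψ) = iwOp B.u H (T5.Rconv B.R.μ E.f₂ ψ) :=
      funext a2
    rw [this]
    exact a1 x
  · rw [Rconv_down_base277 K K' hB hE (continuous_shiftOp277 z k hc), e0]
    have : T5.Rconv B.R.μ E.f₂ (shiftOp z k ψ) = shiftOp z k (T5.Rconv B.R.μ E.f₂ ψ) :=
      funext (b2 k)
    rw [this]
    exact b1 k x

end Fermat.Agent.LT.T7.H277
end

end
-- ===== PACK-END LT/T7/H277/FamSmall.lean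

-- ===== PACK-BEGIN LT/T7/H296/ClassModelLeaves.lean
section




/-!
# Row LT, tower T7, node T7.L2.2.N.1 `ClassModelC` (cut of helper616): leaves CM.06, CM.07,
# CM.08 -- helper296, OFF-MAIN

VERBATIM vs `LT/T7/H616/ClassModelSpec.lean` (helper616@6a81e5a09, sha256 8568bae7),
unconditional:

* `locCommC296 : CM616.LocCommC616 K K'` (CM.06): elements supported at two different places of
  the orbit commute (the places `o i`, `i < ℓ`, are pairwise different: `orbit_inj296`);
* `locMoveC296 : CM616.LocMoveC616 K K'` (CM.07): `σ⁻¹` moves the elements supported at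
  `o (j+1)` to `o j` and `o 0` to `o (ℓ-1)`;
* `powC296 : CM616.PowC616 K K'` (CM.08): `σ⁻ℓ = 1` on `GL₂(𝔸_{K'})`.

Assets: `LT/T5/H415/AutT5.lean` (helper415: uniqueness of the adelic extension, locality),
byte-identical copy.
-/

set_option autoImplicit false

open AutomorphicForm IsDedekindDomain NumberField

noncomputable section

namespace Fermat.Agent.LT.T7.H296

open Fermat.Agent.LT.H556 Fermat.Agent.LT.H556.A0 Fermat.Agent.LT.T7 Fermat.Agent.LT.T7.CM616
open Fermat.Agent.LT.H415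

/-! ## 1. Components -/

section Comp

variable {K : Type} [Field K] [NumberField K]

/-- The raw component at the infinite place `w`. -/
def infRaw296 (w : InfinitePlace K) : Adl K →+* w.Completion :=
  (Pi.evalRingHom (fun v : InfinitePlace K => v.Completion) w).comp
    (RingHom.fst (InfiniteAdeleRing K) (FiniteAdeleRing (𝓞 K) K))

/-- The matrix of raw components at `w`. -/
def infM296 (w : InfinitePlace K) (g : G K) : Matrix (Fin 2) (Fin 2) w.Completion :=
  (g : Matrix (Fin 2) (Fin 2) (Adl K)).map (infRaw296 w)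

theorem trivAtInf_iff296 (w : InfinitePlace K) (g : G K) : TrivAtInf w g ↔ infM296 w g = 1 := by
  constructor
  · intro h
    exact Matrix.ext fun i j => h i j
  · intro h i j
    exact congrFun (congrFun h i) j

theorem infM_mul296 (w : InfinitePlace K) (g h : G K) :
    infM296 w (g * h) = infM296 w g * infM296 w h := by
  unfold infM296
  rw [Units.val_mul, Matrix.map_mul]

theorem infM_one296 (w : InfinitePlace K) : infM296 w (1 : G K) = 1 := by
  unfold infM296
  rw [Units.val_one, Matrix.map_one _ (map_zero _) (map_one _)]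

theorem finComp_mul296 (v : HeightOneSpectrum (𝓞 K)) (g h : G K) :
    finComp v (g * h) = finComp v g * finComp v h := by
  rw [T5.finComp_eq_map, T5.finComp_eq_map, T5.finComp_eq_map, Units.val_mul, Matrix.map_mul]

theorem finComp_one296 (v : HeightOneSpectrum (𝓞 K)) : finComp v (1 : G K) = 1 := by
  rw [T5.finComp_eq_map, Units.val_one, Matrix.map_one _ (map_zero _) (map_one _)]

theorem trivAtInf_one296 (w : InfinitePlace K) : TrivAtInf w (1 : G K) :=
  (trivAtInf_iff296 w 1).2 (infM_one296 w)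

theorem trivAtFin_one296 (v : HeightOneSpectrum (𝓞 K)) : TrivAtFin v (1 : G K) :=
  finComp_one296 v

/-- An element of `GL₂(𝔸_K)` is determined by its components. -/
theorem G_ext296 {g g' : G K} (hinf : ∀ w : InfinitePlace K, infM296 w g = infM296 w g')
    (hfin : ∀ v : HeightOneSpectrum (𝓞 K), finComp v g = finComp v g') : g = g' := by
  apply Units.ext
  ext i j
  apply Prod.ext
  · funext w
    exact congrFun (congrFun (hinf w) i) j
  · apply DFunLike.ext
    intro v
    exact congrFun (congrFun (hfin v) i) j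

/-- Elements supported at two different finite places commute. -/
theorem comm_of_local296 {v v' : HeightOneSpectrum (𝓞 K)} (hne : v ≠ v') {h h' : G K}
    (hh : IsLocalAtFin v h) (hh' : IsLocalAtFin v' h') : h * h' = h' * h := by
  apply G_ext296
  · intro w
    rw [infM_mul296, infM_mul296, (trivAtInf_iff296 w h).1 (hh.1 w),
      (trivAtInf_iff296 w h').1 (hh'.1 w)]
  · intro u
    rw [finComp_mul296, finComp_mul296]
    by_cases hu : u = v
    · have hu' : u ≠ v' := fun e => hne (hu.symm.trans e)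
      have h1 : finComp u h' = 1 := hh'.2 u hu'
      rw [h1, mul_one, one_mul]
    · have h1 : finComp u h = 1 := hh.2 u hu
      rw [h1, mul_one, one_mul]

end Comp

/-! ## 2. The inverse automorphism -/

section Inv

variable {K : Type} [Field K] [NumberField K]

/-- The inverse of an adelic automorphism. -/
def invAut296 (s : T5.AdelicAut K) : T5.AdelicAut K where
  σ := s.σ.symm
  σA := s.σA.symm
  continuous_σA := s.continuous_symm
  continuous_symm := s.continuous_σA
  compat := by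
    intro x
    apply s.σA.injective
    rw [RingEquiv.apply_symm_apply, s.compat, RingEquiv.apply_symm_apply]

theorem invAut_onG296 (s : T5.AdelicAut K) : (invAut296 s).onG = s.onGinv := rfl

/-- `σ⁻¹` moves the elements supported at `σ v` to elements supported at `v`. -/
theorem local_onGinv296 (s : T5.AdelicAut K) {v v' : HeightOneSpectrum (𝓞 K)}
    (hv : T5.PlaceRel s v v') {h : G K} (hh : IsLocalAtFin v' h) :
    IsLocalAtFin v (s.onGinv h) := by
  rw [← invAut_onG296]
  have hrel : T5.PlaceRel (invAut296 s) v' v := finRel_symm415 s.σ v v' hv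
  refine ⟨fun w' => ?_, fun u hu => ?_⟩
  · -- the infinite places
    obtain ⟨w, rfl⟩ := infImage_surjective415 (invAut296 s).σ w'
    have h1 : infComp w h = infComp w 1 := by
      rw [T5.H415.infComp_eq_iff415]
      intro i j
      have := hh.1 w i j
      rw [this]
      exact ((trivAtInf_one296 w) i j).symm
    have h2 := T5.H415.infComp_onG_congr415 (invAut296 s) w h 1 h1
    rw [map_one, T5.H415.infComp_eq_iff415] at h2
    intro i j
    rw [h2 i j]
    exact (trivAtInf_one296 _) i j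
  · -- the finite places
    obtain ⟨u', hu'⟩ := finRel_exists_preimage415 (invAut296 s).σ u
    have hne : u' ≠ v' := by
      rintro rfl
      exact hu (finRel_unique415 (invAut296 s).σ u' u v hu' hrel)
    have h1 : finComp u' h = finComp u' 1 := by
      rw [finComp_one296]
      exact hh.2 u' hne
    have h2 := T5.H415.finComp_onG_congr415 (invAut296 s) u' u hu' h 1 h1
    rw [map_one, finComp_one296] at h2
    exact h2

end Inv

/-! ## 3. The leaves -/

section Leaves

variable (K K' : Type) [Field K] [NumberField K] [Field K'] [NumberField K'] [Algebra K K']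

variable {K K'} in
theorem isBad_one296 (Dt : L2Data K K') : Dt.IsBad 1 :=
  ⟨fun w => trivAtInf_one296 w, fun v _ => trivAtFin_one296 v⟩

variable {K K'} in
/-- `σ` is cyclic of degree `ℓ` (from the data of the comparison for the bad element `1`). -/
theorem cyc_of_data296 {ℓ : ℕ} {Φ : HeckeEigensystem K' ℂ} {Dt : L2Data K K'}
    (hD : IsL2Data ℓ Φ Dt) : T5.IsCyclicOfDegree Dt.s ℓ Dt.k := by
  have h := (hD.comp 1 (isBad_one296 Dt)).cyc
  have hl : Dt.l = ℓ := hD.deg
  rw [← hl]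
  exact h

variable {K K'} in
/-- The places `o i`, `i < ℓ`, of the orbit are pairwise different. -/
theorem orbit_inj296 {ℓ : ℕ} {Φ : HeckeEigensystem K' ℂ} {Dt : L2Data K K'}
    (hD : IsL2Data ℓ Φ Dt) : ∀ i j : ℕ, i < j → j < ℓ → Dt.o i ≠ Dt.o j := by
  intro i
  induction i with
  | zero =>
    intro j hij hj h
    exact hD.orbit_ne j hij hj h.symm
  | succ i ih =>
    intro j hij hj h
    obtain ⟨j', rfl⟩ : ∃ j', j = j' + 1 := ⟨j - 1, by omega⟩
    have h1 : T5.PlaceRel Dt.s (Dt.o i) (Dt.o (i + 1)) := hD.orbit_rel i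
    have h2 : T5.PlaceRel Dt.s (Dt.o j') (Dt.o (i + 1)) := by
      rw [h]
      exact hD.orbit_rel j'
    exact ih j' (by omega) (by omega) (finRel_inj415 Dt.s.σ (Dt.o i) (Dt.o j') (Dt.o (i + 1)) h1 h2)

/-- **LEAF CM.06 `LocCommC616`**, VERBATIM. -/
theorem locCommC296 : LocCommC616 K K' := by
  intro ℓ Φ Dt ctx i hi j hj hij h h' hh hh'
  have hne : Dt.o i ≠ Dt.o j := by
    rcases lt_or_gt_of_ne hij with h1 | h1
    · exact orbit_inj296 ctx.data i j h1 hj
    · exact (orbit_inj296 ctx.data j i h1 hi).symm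
  exact comm_of_local296 hne hh hh'

/-- **LEAF CM.07 `LocMoveC616`**, VERBATIM. -/
theorem locMoveC296 : LocMoveC616 K K' := by
  intro ℓ Φ Dt ctx
  refine ⟨fun j _ h hh => local_onGinv296 Dt.s (ctx.data.orbit_rel j) hh, fun h hh => ?_⟩
  have hc := cyc_of_data296 ctx.data
  have hper : Dt.o ℓ = Dt.o 0 :=
    T5.H415.orbit_period415 Dt.s ℓ Dt.k hc Dt.o ctx.data.orbit_rel
  have hrel : T5.PlaceRel Dt.s (Dt.o (ℓ - 1)) (Dt.o 0) := by
    have := ctx.data.orbit_rel (ℓ - 1)
    rw [Nat.sub_add_cancel hc.pos, hper] at this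
    exact this
  exact local_onGinv296 Dt.s hrel hh

/-- **LEAF CM.08 `PowC616`**, VERBATIM. -/
theorem powC296 : PowC616 K K' := by
  intro ℓ Φ Dt ctx x
  have hc := cyc_of_data296 ctx.data
  have h1 : (⇑Dt.s.onG)^[ℓ] x = x := T5.H415.onG_iterate415 Dt.s ℓ Dt.k hc x
  have hli : Function.LeftInverse (⇑Dt.s.onGinv) (⇑Dt.s.onG) := by
    intro y
    apply Units.ext
    ext i j
    show Dt.s.σA.symm (Dt.s.σA ((y : Matrix (Fin 2) (Fin 2) (Adl K')) i j)) = _
    rw [RingEquiv.symm_apply_apply]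
  have h2 := (hli.iterate ℓ) x
  rw [h1] at h2
  exact h2

end Leaves

end Fermat.Agent.LT.T7.H296

end

end
-- ===== PACK-END LT/T7/H296/ClassModelLeaves.lean

-- ===== PACK-BEGIN LT/T7/H925/TorSplit.lean
section



/-!
# Row LT, tower T7, leaf T7.L2.1.C2.7.5 `TorSplitC305` (helper925, spare of registry row 2569)

OFF-MAIN.  No hole, nothing assumed.  ADDITIVE (suffix `925`).

`torSplitC925 K : H305.TorSplitC305 K`, VERBATIM (cut of helper305, `MatchCut.lean`),
unconditional.

`K` totally complex, `γ ∈ GL₂(K)`, `μT` a Haar measure of the adelic torus `T_𝔸(γ)`, `μt v`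
Haar measures of the local tori `T_v` which give the volume `1` to `{tr integral, det a unit}`,
`μtc w` Haar measures of the tori `T_w ⊆ GL₂(ℂ)`: there is ONE constant `c_T > 0` such that for
every finite `S` outside which `γ` is good the image of `μT|_{E_S}` under
`t ↦ (t_v)_{v ∈ S ∪ S_∞}` is `c_T` times the product of the local torus measures.

Proof.  `q_S : T_𝔸(γ) → H_S = ∏_{v ∈ S} T_v × ∏_w T_w` is a continuous homomorphism, onto and
proper on the open subgroup `E_S` (`TorSplitCore.lean`), so `(q_S)_* μT|_{E_S}` is a Haar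
measure of `H_S` (helper159 `isHaarMeasure_map_restrict159`): `c_S` times the product measure
(uniqueness of the Haar measure, `H_S` locally compact, second countable).  `c_S = c_{S'}` for
`S ⊆ S'`, `S` good: evaluate on a box, with `T_v ∩ GL₂(𝒪_v) = {tr integral, det a unit}` at
the places of `S' \ S` (helper159 `cent_compact159`), of volume `1`.  Any two good sets are
compared with their union.  The image in the product of the local GROUPS: `Measure.map_prod_map`,
`Measure.pi_map_pi` (the inclusions of the closed subgroups are measurable embeddings).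
(`γ` elliptic is not used.)
-/

set_option autoImplicit false

open AutomorphicForm IsDedekindDomain NumberField MeasureTheory

noncomputable section

namespace Fermat.Agent.LT.T7.H925.TorSplit

open Fermat.Agent.LT Fermat.Agent.LT.H556 Fermat.Agent.LT.H556.A0 Fermat.Agent.LT.T7
open Fermat.Agent.LT.T7.H305 Fermat.Agent.LT.T7.H159

variable {K : Type} [Field K] [NumberField K]

/-- The Borel σ-algebra of a twisted centraliser (local instance of this file). -/
local instance instMeasSub925 {Γ : Type} [Group Γ] [TopologicalSpace Γ] (H : Subgroup Γ) :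
    MeasurableSpace H := borel _

local instance instBorelSub925 {Γ : Type} [Group Γ] [TopologicalSpace Γ] (H : Subgroup Γ) :
    BorelSpace H := ⟨rfl⟩

theorem locallyCompact_Tv925 (γ : GL (Fin 2) K) (v : HeightOneSpectrum (𝓞 K)) :
    LocallyCompactSpace (Tv925 γ v) :=
  haveI := H11.LC.locallyCompactSpace_GL2_adicCompletion_h11 K v
  (isClosed_Tv925 γ v).isClosedEmbedding_subtypeVal.locallyCompactSpace

theorem secondCountable_Tv925 (γ : GL (Fin 2) K) (v : HeightOneSpectrum (𝓞 K)) :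
    SecondCountableTopology (Tv925 γ v) :=
  haveI := secondCountable_GLv159 K v
  Topology.IsEmbedding.subtypeVal.secondCountableTopology

theorem locallyCompact_Tw925 (γ : GL (Fin 2) K) (w : InfinitePlace K) :
    LocallyCompactSpace (Tw925 γ w) :=
  haveI := locallyCompactSpace_GLC159
  (isClosed_Tw925 γ w).isClosedEmbedding_subtypeVal.locallyCompactSpace

theorem secondCountable_Tw925 (γ : GL (Fin 2) K) (w : InfinitePlace K) :
    SecondCountableTopology (Tw925 γ w) :=
  haveI := secondCountable_GLC159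
  Topology.IsEmbedding.subtypeVal.secondCountableTopology

attribute [local instance] locallyCompact_Tv925 secondCountable_Tv925 locallyCompact_Tw925
  secondCountable_Tw925


/-- The image of `μT|_{E_S}` in `∏_{v ∈ S} T_v × ∏_w T_w`. -/
def nuS925 (γ : GL (Fin 2) K) (μT : Measure (TA925 γ)) (S : Finset (HeightOneSpectrum (𝓞 K))) :
    Measure (HS925 γ S) :=
  Measure.map (qS925 γ S) (μT.restrict (ES925 γ S : Set (TA925 γ)))

theorem isHaar_nuS925 (hK : TotCplx K) (γ : GL (Fin 2) K) (μT : Measure (TA925 γ))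
    [μT.IsHaarMeasure] (S : Finset (HeightOneSpectrum (𝓞 K))) :
    (nuS925 γ μT S).IsHaarMeasure :=
  isHaarMeasure_map_restrict159 μT (ES925 γ S) (isOpen_ES925 γ S) (qS925 γ S)
    (continuous_qS925 γ S) (surj_qS925 hK γ S) (fun C hC _ => proper_qS925 γ S C hC)

/-- The product of the local torus measures. -/
def prS925 (γ : GL (Fin 2) K) (μt : ∀ v : HeightOneSpectrum (𝓞 K), Measure (Tv925 γ v))
    (μtc : ∀ w : InfinitePlace K, Measure (Tw925 γ w)) (S : Finset (HeightOneSpectrum (𝓞 K))) :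
    Measure (HS925 γ S) :=
  (Measure.pi fun v : S => μt v.1).prod (Measure.pi fun w => μtc w)

instance isHaar_prS925 (γ : GL (Fin 2) K)
    (μt : ∀ v : HeightOneSpectrum (𝓞 K), Measure (Tv925 γ v))
    (μtc : ∀ w : InfinitePlace K, Measure (Tw925 γ w))
    [∀ v, (μt v).IsHaarMeasure] [∀ w, (μtc w).IsHaarMeasure]
    (S : Finset (HeightOneSpectrum (𝓞 K))) : (prS925 γ μt μtc S).IsHaarMeasure := by
  unfold prS925
  have h1 : ∀ v : S, SigmaFinite (μt v.1) := fun v => inferInstance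
  have h2 : ∀ v : S, MeasurableMul (Tv925 γ v.1) := fun v => inferInstance
  have h3 : (Measure.pi fun v : S => μt v.1).IsHaarMeasure := inferInstance
  have h4 : (Measure.pi fun w => μtc w).IsHaarMeasure := inferInstance
  have h5 : SFinite (Measure.pi fun v : S => μt v.1) := inferInstance
  have h6 : MeasurableMul (∀ v : S, Tv925 γ v.1) := inferInstance
  infer_instance

/-! ## The constants -/

theorem exists_smul925 (hK : TotCplx K) (γ : GL (Fin 2) K) (μT : Measure (TA925 γ))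
    [μT.IsHaarMeasure] (μt : ∀ v : HeightOneSpectrum (𝓞 K), Measure (Tv925 γ v))
    (μtc : ∀ w : InfinitePlace K, Measure (Tw925 γ w))
    [∀ v, (μt v).IsHaarMeasure] [∀ w, (μtc w).IsHaarMeasure]
    (S : Finset (HeightOneSpectrum (𝓞 K))) :
    ∃ c : NNReal, 0 < c ∧ nuS925 γ μT S = c • prS925 γ μt μtc S := by
  have := isHaar_nuS925 hK γ μT S
  exact ⟨Measure.haarScalarFactor (nuS925 γ μT S) (prS925 γ μt μtc S),
    Measure.haarScalarFactor_pos_of_isHaarMeasure _ _, Measure.isMulLeftInvariant_eq_smul _ _⟩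

/-- The box `∏_{v ∈ S} C_v × ∏_w D_w`. -/
def box925 (γ : GL (Fin 2) K) (S : Finset (HeightOneSpectrum (𝓞 K)))
    (C : ∀ v : HeightOneSpectrum (𝓞 K), Set (Tv925 γ v))
    (D : ∀ w : InfinitePlace K, Set (Tw925 γ w)) : Set (HS925 γ S) :=
  (Set.pi Set.univ fun v : S => C v.1) ×ˢ (Set.pi Set.univ fun w => D w)

theorem measurableSet_box925 (γ : GL (Fin 2) K) (S : Finset (HeightOneSpectrum (𝓞 K)))
    (C : ∀ v : HeightOneSpectrum (𝓞 K), Set (Tv925 γ v))
    (D : ∀ w : InfinitePlace K, Set (Tw925 γ w))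
    (hC : ∀ v ∈ S, MeasurableSet (C v)) (hD : ∀ w, MeasurableSet (D w)) :
    MeasurableSet (box925 γ S C D) :=
  (MeasurableSet.univ_pi fun v : S => hC v.1 v.2).prod (MeasurableSet.univ_pi hD)

theorem nuS_box925 (γ : GL (Fin 2) K) (μT : Measure (TA925 γ))
    (S : Finset (HeightOneSpectrum (𝓞 K)))
    (C : ∀ v : HeightOneSpectrum (𝓞 K), Set (Tv925 γ v))
    (D : ∀ w : InfinitePlace K, Set (Tw925 γ w))
    (hC : ∀ v ∈ S, MeasurableSet (C v)) (hD : ∀ w, MeasurableSet (D w)) :
    nuS925 γ μT S (box925 γ S C D)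
      = μT {t | t ∈ ES925 γ S ∧ (∀ v ∈ S, pv925 γ v t ∈ C v) ∧ ∀ w, pw925 γ w t ∈ D w} := by
  rw [nuS925, map_restrict_apply159 μT _ _ (continuous_qS925 γ S)
    (measurableSet_box925 γ S C D hC hD)]
  congr 1
  ext t
  constructor
  · rintro ⟨⟨h1, h2⟩, h3⟩
    exact ⟨h3, fun v hv => h1 ⟨v, hv⟩ (Set.mem_univ _), fun w => h2 w (Set.mem_univ _)⟩
  · rintro ⟨h1, h2, h3⟩
    exact ⟨⟨fun v _ => h2 v.1 v.2, fun w _ => h3 w⟩, h1⟩

theorem prS_box925 (γ : GL (Fin 2) K)
    (μt : ∀ v : HeightOneSpectrum (𝓞 K), Measure (Tv925 γ v))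
    (μtc : ∀ w : InfinitePlace K, Measure (Tw925 γ w))
    [∀ v, (μt v).IsHaarMeasure] [∀ w, (μtc w).IsHaarMeasure]
    (S : Finset (HeightOneSpectrum (𝓞 K)))
    (C : ∀ v : HeightOneSpectrum (𝓞 K), Set (Tv925 γ v))
    (D : ∀ w : InfinitePlace K, Set (Tw925 γ w)) :
    prS925 γ μt μtc S (box925 γ S C D)
      = (∏ v ∈ S, μt v (C v)) * ∏ w : InfinitePlace K, μtc w (D w) := by
  have h1 : ∀ v : S, SigmaFinite (μt v.1) := fun v => inferInstance
  rw [prS925, box925, Measure.prod_prod, Measure.pi_pi, Measure.pi_pi]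
  congr 1
  exact Finset.prod_coe_sort S fun v => μt v (C v)

/-- A measurable set of positive finite Haar measure. -/
theorem exists_nice925 {X : Type} [Group X] [TopologicalSpace X] [IsTopologicalGroup X]
    [MeasurableSpace X] [BorelSpace X] [LocallyCompactSpace X] (μ : Measure X)
    [μ.IsHaarMeasure] : ∃ C : Set X, MeasurableSet C ∧ μ C ≠ 0 ∧ μ C ≠ ⊤ := by
  obtain ⟨C, hC, hC1⟩ := exists_compact_mem_nhds (1 : X)
  refine ⟨closure C, isClosed_closure.measurableSet, ?_, hC.closure.measure_lt_top.ne⟩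
  exact (Measure.measure_pos_of_mem_nhds μ (Filter.mem_of_superset hC1 subset_closure)).ne'

/-- `T_v ∩ GL₂(𝒪_v)`. -/
def Kc925 (γ : GL (Fin 2) K) (v : HeightOneSpectrum (𝓞 K)) : Set (Tv925 γ v) :=
  {t | T6.InU 0 (t : GL (Fin 2) (v.adicCompletion K))}

theorem measurableSet_Kc925 (γ : GL (Fin 2) K) (v : HeightOneSpectrum (𝓞 K)) :
    MeasurableSet (Kc925 γ v) := by
  have h : Kc925 γ v = Subtype.val ⁻¹' (intGL159 K v : Set (GL (Fin 2) (v.adicCompletion K))) := by
    ext t
    exact (mem_intGL_iff925 v _).symm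
  rw [h]
  exact ((isOpen_intGL159 v).preimage continuous_subtype_val).measurableSet

open Classical in
/-- THE CONSTANT DOES NOT DEPEND ON `S`. -/
theorem const_unique925 (γ : GL (Fin 2) K) (μT : Measure (TA925 γ))
    (μt : ∀ v : HeightOneSpectrum (𝓞 K), Measure (Tv925 γ v))
    (μtc : ∀ w : InfinitePlace K, Measure (Tw925 γ w))
    [∀ v, (μt v).IsHaarMeasure] [∀ w, (μtc w).IsHaarMeasure]
    (S S' : Finset (HeightOneSpectrum (𝓞 K))) (hSS' : S ⊆ S')
    (hgood : ∀ v : HeightOneSpectrum (𝓞 K), v ∉ S → μt v (Kc925 γ v) = 1)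
    (c c' : NNReal) (hc : nuS925 γ μT S = c • prS925 γ μt μtc S)
    (hc' : nuS925 γ μT S' = c' • prS925 γ μt μtc S') : c' = c := by
  choose C hCm hC0 hCt using fun v => exists_nice925 (μt v)
  choose D hDm hD0 hDt using fun w => exists_nice925 (μtc w)
  set C' : ∀ v, Set (Tv925 γ v) := fun v => if v ∈ S then C v else Kc925 γ v with hC'
  have hC'm : ∀ v ∈ S', MeasurableSet (C' v) := by
    intro v _
    by_cases hv : v ∈ S
    · simp only [hC', if_pos hv]; exact hCm v
    · simp only [hC', if_neg hv]; exact measurableSet_Kc925 γ v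
  have hset : {t | t ∈ ES925 γ S' ∧ (∀ v ∈ S', pv925 γ v t ∈ C' v) ∧ ∀ w, pw925 γ w t ∈ D w}
      = {t | t ∈ ES925 γ S ∧ (∀ v ∈ S, pv925 γ v t ∈ C v) ∧ ∀ w, pw925 γ w t ∈ D w} := by
    ext t
    simp only [Set.mem_ofPred_eq, mem_ES_iff925]
    constructor
    · rintro ⟨h1, h2, h3⟩
      refine ⟨fun v hv => ?_, fun v hv => ?_, h3⟩
      · by_cases hv' : v ∈ S'
        · have := h2 v hv'
          simp only [hC', if_neg hv] at this
          exact this
        · exact h1 v hv'
      · have := h2 v (hSS' hv)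
        simpa only [hC', if_pos hv] using this
    · rintro ⟨h1, h2, h3⟩
      refine ⟨fun v hv => h1 v fun hvS => hv (hSS' hvS), fun v _ => ?_, h3⟩
      by_cases hv : v ∈ S
      · simp only [hC', if_pos hv]; exact h2 v hv
      · simp only [hC', if_neg hv]; exact h1 v hv
  have e1 := nuS_box925 γ μT S C D (fun v _ => hCm v) hDm
  have e2 := nuS_box925 γ μT S' C' D hC'm hDm
  rw [hset, ← e1, hc, hc'] at e2
  simp only [Measure.smul_apply, prS_box925] at e2
  have hprod : ∏ v ∈ S', μt v (C' v) = ∏ v ∈ S, μt v (C v) := by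
    rw [← Finset.prod_sdiff hSS']
    have h1 : ∏ v ∈ S' \ S, μt v (C' v) = 1 := by
      refine Finset.prod_eq_one fun v hv => ?_
      have hv' := (Finset.mem_sdiff.mp hv).2
      simp only [hC', if_neg hv']
      exact hgood v hv'
    have h2 : ∏ v ∈ S, μt v (C' v) = ∏ v ∈ S, μt v (C v) := by
      refine Finset.prod_congr rfl fun v hv => ?_
      simp only [hC', if_pos hv]
    rw [h1, h2, one_mul]
  rw [hprod] at e2
  have hP0 : (∏ v ∈ S, μt v (C v)) * ∏ w : InfinitePlace K, μtc w (D w) ≠ 0 :=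
    mul_ne_zero (Finset.prod_ne_zero_iff.mpr fun v _ => hC0 v)
      (Finset.prod_ne_zero_iff.mpr fun w _ => hD0 w)
  have hPt : (∏ v ∈ S, μt v (C v)) * ∏ w : InfinitePlace K, μtc w (D w) ≠ ⊤ :=
    ENNReal.mul_ne_top (ENNReal.prod_ne_top fun v _ => hCt v)
      (ENNReal.prod_ne_top fun w _ => hDt w)
  simp only [ENNReal.smul_def, smul_eq_mul] at e2
  have := (ENNReal.mul_left_inj hP0 hPt).mp e2
  exact_mod_cast this

theorem goodOut_mono925 {γ : GL (Fin 2) K} {S S' : Finset (HeightOneSpectrum (𝓞 K))}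
    (hSS' : S ⊆ S') (h : GoodOut305 S γ) : GoodOut305 S' γ :=
  fun v hv => h v fun hvS => hv (hSS' hvS)

/-- **THE TORUS CONSTANT** (on the product of the local tori). -/
theorem torSplit_prod925 (hK : TotCplx K) (γ : GL (Fin 2) K) (μT : Measure (TA925 γ))
    [μT.IsHaarMeasure] (μt : ∀ v : HeightOneSpectrum (𝓞 K), Measure (Tv925 γ v))
    (μtc : ∀ w : InfinitePlace K, Measure (Tw925 γ w))
    [∀ v, (μt v).IsHaarMeasure] [∀ w, (μtc w).IsHaarMeasure]
    (hnorm : ∀ v : HeightOneSpectrum (𝓞 K),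
      μt v {t | Valued.v ((t : GL (Fin 2) (v.adicCompletion K)) :
          Matrix (Fin 2) (Fin 2) (v.adicCompletion K)).trace ≤ 1 ∧
        Valued.v ((t : GL (Fin 2) (v.adicCompletion K)) :
          Matrix (Fin 2) (Fin 2) (v.adicCompletion K)).det = 1} = 1) :
    ∃ c : NNReal, 0 < c ∧ ∀ S : Finset (HeightOneSpectrum (𝓞 K)), GoodOut305 S γ →
      nuS925 γ μT S = c • prS925 γ μt μtc S := by
  classical
  have hgood : ∀ S : Finset (HeightOneSpectrum (𝓞 K)), GoodOut305 S γ →
      ∀ v : HeightOneSpectrum (𝓞 K), v ∉ S → μt v (Kc925 γ v) = 1 := by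
    intro S hS v hv
    obtain ⟨hU, hd⟩ := hS v hv
    rw [← hnorm v]
    congr 1
    ext t
    exact (locTor_compact_iff925 (locG305 v γ) (t : GL (Fin 2) (v.adicCompletion K)) hU hd
      t.2).symm
  by_cases hex : ∃ S₁ : Finset (HeightOneSpectrum (𝓞 K)), GoodOut305 S₁ γ
  · obtain ⟨S₁, hS₁⟩ := hex
    obtain ⟨c₁, hc₁0, hc₁⟩ := exists_smul925 hK γ μT μt μtc S₁
    refine ⟨c₁, hc₁0, fun S hS => ?_⟩
    obtain ⟨c, -, hc⟩ := exists_smul925 hK γ μT μt μtc S
    obtain ⟨c₂, -, hc₂⟩ := exists_smul925 hK γ μT μt μtc (S ∪ S₁)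
    have e1 : c₂ = c := const_unique925 γ μT μt μtc S (S ∪ S₁) Finset.subset_union_left
      (hgood S hS) c c₂ hc hc₂
    have e2 : c₂ = c₁ := const_unique925 γ μT μt μtc S₁ (S ∪ S₁) Finset.subset_union_right
      (hgood S₁ hS₁) c₁ c₂ hc₁ hc₂
    rw [hc, ← e1, e2]
  · exact ⟨1, one_pos, fun S hS => absurd ⟨S, hS⟩ hex⟩

/-! ## The image in the product of the local groups -/

/-- The Borel σ-algebra of `GL₂(K_v)` (local instance of this file). -/
local instance instMeasGLv925 (v : HeightOneSpectrum (𝓞 K)) :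
    MeasurableSpace (GL (Fin 2) (v.adicCompletion K)) := borel _

local instance instBorelGLv925 (v : HeightOneSpectrum (𝓞 K)) :
    BorelSpace (GL (Fin 2) (v.adicCompletion K)) := ⟨rfl⟩

/-- The Borel σ-algebra of `GL₂(ℂ)` (local instance of this file). -/
local instance instMeasGLC925 : MeasurableSpace (GL (Fin 2) ℂ) := borel _

local instance instBorelGLC925 : BorelSpace (GL (Fin 2) ℂ) := ⟨rfl⟩

/-- The inclusion of the product of the local tori in the product of the local groups. -/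
def jS925 (γ : GL (Fin 2) K) (S : Finset (HeightOneSpectrum (𝓞 K))) :
    HS925 γ S → (∀ v : S, GL (Fin 2) ((v : HeightOneSpectrum (𝓞 K)).adicCompletion K)) ×
      (InfinitePlace K → GL (Fin 2) ℂ) :=
  Prod.map (fun a v => ((a v : Tv925 γ v.1) : GL (Fin 2) (v.1.adicCompletion K)))
    (fun b w => ((b w : Tw925 γ w) : GL (Fin 2) ℂ))

theorem compS_eq925 (γ : GL (Fin 2) K) (S : Finset (HeightOneSpectrum (𝓞 K))) (t : TA925 γ) :
    compS305 S (t : G K) = jS925 γ S (qS925 γ S t) := rfl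

theorem measurable_val_Tv925 (γ : GL (Fin 2) K) (v : HeightOneSpectrum (𝓞 K)) :
    @Measurable (Tv925 γ v) (GL (Fin 2) (v.adicCompletion K)) (borel _) (borel _)
      Subtype.val :=
  continuous_subtype_val.measurable

theorem measurable_val_Tw925 (γ : GL (Fin 2) K) (w : InfinitePlace K) :
    @Measurable (Tw925 γ w) (GL (Fin 2) ℂ) (borel _) (borel _) Subtype.val :=
  continuous_subtype_val.measurable

theorem measurableEmbedding_val_Tv925 (γ : GL (Fin 2) K) (v : HeightOneSpectrum (𝓞 K)) :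
    @MeasurableEmbedding (Tv925 γ v) (GL (Fin 2) (v.adicCompletion K)) (borel _) (borel _)
      Subtype.val :=
  @Topology.IsClosedEmbedding.measurableEmbedding (Tv925 γ v)
    (GL (Fin 2) (v.adicCompletion K)) _ (borel _) ⟨rfl⟩ _ (borel _) ⟨rfl⟩ Subtype.val
    (isClosed_Tv925 γ v).isClosedEmbedding_subtypeVal

theorem measurableEmbedding_val_Tw925 (γ : GL (Fin 2) K) (w : InfinitePlace K) :
    @MeasurableEmbedding (Tw925 γ w) (GL (Fin 2) ℂ) (borel _) (borel _) Subtype.val :=
  @Topology.IsClosedEmbedding.measurableEmbedding (Tw925 γ w)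
    (GL (Fin 2) ℂ) _ (borel _) ⟨rfl⟩ _ (borel _) ⟨rfl⟩ Subtype.val
    (isClosed_Tw925 γ w).isClosedEmbedding_subtypeVal

theorem map_jS_prS925 (γ : GL (Fin 2) K)
    (μt : ∀ v : HeightOneSpectrum (𝓞 K), Measure (Tv925 γ v))
    (μtc : ∀ w : InfinitePlace K, Measure (Tw925 γ w))
    [∀ v, (μt v).IsHaarMeasure] [∀ w, (μtc w).IsHaarMeasure]
    (S : Finset (HeightOneSpectrum (𝓞 K))) :
    Measure.map (jS925 γ S) (prS925 γ μt μtc S)
      = (Measure.pi fun v : S => Measure.map Subtype.val (μt v.1)).prod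
          (Measure.pi fun w : InfinitePlace K => Measure.map Subtype.val (μtc w)) := by
  have h1 : ∀ v : S, SigmaFinite (μt v.1) := fun v => inferInstance
  have h2 : ∀ v : S, SigmaFinite (Measure.map Subtype.val (μt v.1)) :=
    fun v => (measurableEmbedding_val_Tv925 γ v.1).sigmaFinite_map
  have h3 : ∀ w : InfinitePlace K, SigmaFinite (Measure.map Subtype.val (μtc w)) :=
    fun w => (measurableEmbedding_val_Tw925 γ w).sigmaFinite_map
  have m1 : Measurable (fun (a : ∀ v : S, Tv925 γ v.1) (v : S) =>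
      ((a v : Tv925 γ v.1) : GL (Fin 2) (v.1.adicCompletion K))) :=
    measurable_pi_lambda _ fun v => (measurable_val_Tv925 γ v.1).comp (measurable_pi_apply v)
  have m2 : Measurable (fun (b : ∀ w : InfinitePlace K, Tw925 γ w) (w : InfinitePlace K) =>
      ((b w : Tw925 γ w) : GL (Fin 2) ℂ)) :=
    measurable_pi_lambda _ fun w => (measurable_val_Tw925 γ w).comp (measurable_pi_apply w)
  rw [prS925, jS925, ← Measure.map_prod_map _ _ m1 m2,
    Measure.pi_map_pi (fun v : S => (measurable_val_Tv925 γ v.1).aemeasurable),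
    Measure.pi_map_pi (fun w : InfinitePlace K => (measurable_val_Tw925 γ w).aemeasurable)]

theorem measurable_jS925 (γ : GL (Fin 2) K) (S : Finset (HeightOneSpectrum (𝓞 K))) :
    Measurable (jS925 γ S) := by
  have m1 : Measurable (fun (a : ∀ v : S, Tv925 γ v.1) (v : S) =>
      ((a v : Tv925 γ v.1) : GL (Fin 2) (v.1.adicCompletion K))) :=
    measurable_pi_lambda _ fun v => (measurable_val_Tv925 γ v.1).comp (measurable_pi_apply v)
  have m2 : Measurable (fun (b : ∀ w : InfinitePlace K, Tw925 γ w) (w : InfinitePlace K) =>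
      ((b w : Tw925 γ w) : GL (Fin 2) ℂ)) :=
    measurable_pi_lambda _ fun w => (measurable_val_Tw925 γ w).comp (measurable_pi_apply w)
  exact m1.prodMap m2

/-- **THE TORUS CONSTANT** (in the product of the local groups). -/
theorem torSplit_amb925 (hK : TotCplx K) (γ : GL (Fin 2) K) (μT : Measure (TA925 γ))
    [μT.IsHaarMeasure] (μt : ∀ v : HeightOneSpectrum (𝓞 K), Measure (Tv925 γ v))
    (μtc : ∀ w : InfinitePlace K, Measure (Tw925 γ w))
    [∀ v, (μt v).IsHaarMeasure] [∀ w, (μtc w).IsHaarMeasure]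
    (hnorm : ∀ v : HeightOneSpectrum (𝓞 K),
      μt v {t | Valued.v ((t : GL (Fin 2) (v.adicCompletion K)) :
          Matrix (Fin 2) (Fin 2) (v.adicCompletion K)).trace ≤ 1 ∧
        Valued.v ((t : GL (Fin 2) (v.adicCompletion K)) :
          Matrix (Fin 2) (Fin 2) (v.adicCompletion K)).det = 1} = 1) :
    ∃ c : ℝ, 0 < c ∧ ∀ S : Finset (HeightOneSpectrum (𝓞 K)), GoodOut305 S γ →
      Measure.map (fun t : TA925 γ => compS305 S (t : G K))
          (μT.restrict {t | OutT305 S (t : G K)})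
        = ENNReal.ofReal c •
          ((Measure.pi fun v : S => Measure.map Subtype.val (μt v.1)).prod
            (Measure.pi fun w : InfinitePlace K => Measure.map Subtype.val (μtc w))) := by
  obtain ⟨c, hc0, hc⟩ := torSplit_prod925 hK γ μT μt μtc hnorm
  refine ⟨(c : ℝ), by exact_mod_cast hc0, fun S hS => ?_⟩
  have e := hc S hS
  have hset : {t : TA925 γ | OutT305 S (t : G K)} = (ES925 γ S : Set (TA925 γ)) :=
    Set.ext fun t => (mem_ES_iff_out925 γ S t).symm
  have hfun : (fun t : TA925 γ => compS305 S (t : G K)) = jS925 γ S ∘ qS925 γ S := rfl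
  rw [hset, hfun, ← Measure.map_map (measurable_jS925 γ S) (continuous_qS925 γ S).measurable,
    ← map_jS_prS925, ENNReal.ofReal_coe_nnreal]
  have e' : Measure.map (qS925 γ S) (μT.restrict (ES925 γ S : Set (TA925 γ)))
      = c • prS925 γ μt μtc S := e
  rw [e']
  refine Measure.ext fun A hA => ?_
  rw [Measure.map_apply (measurable_jS925 γ S) hA, Measure.smul_apply, Measure.smul_apply,
    Measure.map_apply (measurable_jS925 γ S) hA]
  rfl

/-! ## The leaf -/

/-- **T7.L2.1.C2.7.5 `H305.TorSplitC305`**, verbatim, unconditional. -/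
theorem torSplitC925 (K : Type) [Field K] [NumberField K] : TorSplitC305 K := by
  intro hK γ _ μT hμT L hLt hLc
  have i1 : μT.IsHaarMeasure := hμT
  have i2 : ∀ v : HeightOneSpectrum (𝓞 K), (L.μt v).IsHaarMeasure := fun v => (hLt v).1
  have i3 : ∀ w : InfinitePlace K, (L.μtc w).IsHaarMeasure := hLc
  obtain ⟨c, hc0, hc⟩ := torSplit_amb925 hK γ μT L.μt L.μtc (fun v => (hLt v).2)
  exact ⟨c, hc0, fun S hS => hc S hS⟩

end Fermat.Agent.LT.T7.H925.TorSplit

end
end
-- ===== PACK-END LT/T7/H925/TorSplit.lean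

-- ===== PACK-BEGIN LT/T7/H751/FactDownQSpec.lean
section




/-!
# Row LT, tower T7, node Q2.7.7 `MQ298.FactDownQC298` (helper751, registry 2675): THE CUT -- Spec

OFF-MAIN.  Definitions and frozen Props only (the proved tops are in `FactDownQTop.lean`).
No hole, nothing assumed.  ADDITIVE (new names only, suffix `751`).  Vocabulary:
`T7/H298/MatchQCut.lean` (helper298, sha256 74dc2a3c) and `T7/H558/FactDownSpec.lean`
(helper558, sha256 8043f526: the cut of the cubic node `H305.FactDownC305`), byte-identical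
copies.  MIRROR of the cut of helper558, leaf by leaf: the proofs of the cubic leaves port with
`K = ℚ`, ONE real place, `GL₂(ℝ)` instead of `GL₂(ℂ)`.

    factDownQC_of_parts751 : CutOnDownQC751 → FactIntDownQC751 → MQ298.FactDownQC298
    cutOnDownQC_of751 : H305.SuppDownC305 ℚ → H558.OutOpenC558 ℚ → H558.CompContC558 ℚ →
        ReContQC751 → H558.TorCommIdC558 ℚ → SuppOutQC751 → H558.HaarSigmaC558 ℚ →
        HaarSigmaRC751 → CutOnOutQC751 → CutOnDownQC751
    factIntDownQC_of751 : MQ298.HaarSplitQC298 → H558.OutOpenC558 ℚ → H558.CompContC558 ℚ →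
        ReContQC751 → H558.BiInvContC558 ℚ → RayFinQC751 → PtFactQC751 → ArchIntblRC751 →
        H558.HaarSigmaC558 ℚ → HaarSigmaRC751 → FactIntDownQC751

## REUSED VERBATIM (`K = ℚ`; closed or in work for every number field)

`H305.SuppDownC305 ℚ`, `H558.OutOpenC558 ℚ`, `H558.CompContC558 ℚ` (the finite places),
`H558.TorCommIdC558 ℚ`, `H558.BiInvContC558 ℚ`, `H558.HaarSigmaC558 ℚ` (the finite places),
`MQ298.HaarSplitQC298` (leaf of helper298, row 2674).

## NEW (the real place)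

`ReContQC751` (FDQ.2), `SuppOutQC751` (FDQ.4), `CutOnOutQC751` (FDQ.5), `RayFinQC751` (FDQ.6),
`PtFactQC751` (FDQ.7), `ArchIntblRC751` (FDQ.8), `HaarSigmaRC751` (FDQ.9).

FALSITY CHECKS (helper751).  As in the cut of helper558.  `RayFinQC751`: the real component of
`r` is the scalar `t`, `t² = 2`, `det (z⁻¹ (γ r^j)_∞ z) = det γ_∞ · t^{2j}`.  `ArchIntblRC751`:
`γ₀ ∈ GL₂(ℝ)` regular (split or not): the orbit of `γ₀ z` is closed (the matrices with the
characteristic polynomial of `γ₀ z`), `{y : y⁻¹ γ₀ z y ∈ supp F} ⊆ T C`, `C` compact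
(`y = M₀⁻¹ [u; u ω]` for a cyclic vector `u ∈ {e₁, e₂, e₁ + e₂}` of `ω`).  Sum over `j`: only the
real factor depends on `j`; `integral_prod_mul` needs no integrability.
-/

set_option autoImplicit false

open AutomorphicForm IsDedekindDomain NumberField MeasureTheory
open scoped ComplexConjugate

noncomputable section

namespace Fermat.Agent.LT.T7.H751

open Fermat.Agent.LT.H556 Fermat.Agent.LT.H556.A0 Fermat.Agent.LT.T7 Fermat.Agent.LT.T7.H305

attribute [local instance] Fermat.Agent.LT.T5.instMeasurableSpaceG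

/-- **ASSET LEAF FDQ.2 = RE-CONT.**  The real component `GL₂(𝔸_ℚ) → GL₂(ℝ)` is continuous.
Proof.  `MQ298.reHomQ298` is a continuous ring homomorphism (projection, evaluation,
`extensionEmbeddingOfIsReal` is an isometry); `Units.map` of a continuous homomorphism of
topological monoids is continuous (as `H558.CompContC558`). -/
def ReContQC751 : Prop := Continuous (MQ298.reGLQ298)

/-- **LEAF FDQ.4 = SUPP-OUT over `ℚ`.**  Mirror of `H558.SuppOutC558` for `MQ298.pureQ298`. -/
def SuppOutQC751 : Prop :=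
  ∀ r : G ℚ, T5.IsRayGen r →
    ∀ (S : Finset (HeightOneSpectrum (𝓞 ℚ)))
      (f₀ : ∀ v : HeightOneSpectrum (𝓞 ℚ), GL (Fin 2) (v.adicCompletion ℚ) → ℂ)
      (Fr : GL (Fin 2) ℝ → ℂ) (γ : GL (Fin 2) ℚ) (x : G ℚ),
      T5.twTerm r (T5.AdelicAut.id ℚ) (MQ298.pureQ298 S f₀ Fr) γ x ≠ 0 →
        OutT305 S (x⁻¹ * T5.ratG γ * x)

/-- **LEAF FDQ.9 = HAAR-SIGMA at the real place.**  The Haar measures of `GL₂(ℝ)` (Borel) are
σ-finite; the images in `GL₂(ℝ)` of the Haar measures of the centralisers are σ-finite.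
Mirror of the clauses 2 and 4 of `H558.HaarSigmaC558`. -/
def HaarSigmaRC751 : Prop :=
  (∀ μ : @Measure (GL (Fin 2) ℝ) (borel _),
      @Measure.IsHaarMeasure _ _ _ (borel _) μ → @SigmaFinite _ (borel _) μ) ∧
  ∀ (γ₀ : GL (Fin 2) ℝ) (μT : @Measure (cent305 γ₀) (borel _)),
      @Measure.IsHaarMeasure _ _ _ (borel _) μT →
      @SigmaFinite _ (borel _) (@Measure.map _ _ (borel _) (borel _) Subtype.val μT)

/-- **LEAF FDQ.5 = CUT-ON-OUT over `ℚ`.**  For `x' ∈ Out_S`: `∫_{T_𝔸(γ)} β(t x') dμT(t) = 1` for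
the product cut-off `β = MQ298.prodCutQ298 S cT L`.  Mirror of `H558.CutOnOutC558`.
Proof.  `t x' ∈ Out_S ⟺ t ∈ Out_S`; the integral is the integral over `μT` restricted to
`Out_S` of a function of `MQ298.compSQ298 S t`; `MQ298.IsTorConstQ298` (the constant `cT`
cancels); `integral_prod_mul`, `integral_fintype_prod_eq_prod` (no integrability needed; the
measures are σ-finite: hypotheses); `IsLocCut305`, `IsCut305`. -/
def CutOnOutQC751 : Prop :=
  (∀ (v : HeightOneSpectrum (𝓞 ℚ)) (γ₀ : GL (Fin 2) (v.adicCompletion ℚ))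
      (μT : @Measure (T6.twCentSub (T6.glAut (RingEquiv.refl (v.adicCompletion ℚ))) γ₀)
        (borel _)),
      @Measure.IsHaarMeasure _ _ _ (borel _) μT →
      @SigmaFinite _ (borel _) (@Measure.map _ _ (borel _) (borel _) Subtype.val μT)) →
  (∀ (γ₀ : GL (Fin 2) ℝ) (μT : @Measure (cent305 γ₀) (borel _)),
      @Measure.IsHaarMeasure _ _ _ (borel _) μT →
      @SigmaFinite _ (borel _) (@Measure.map _ _ (borel _) (borel _) Subtype.val μT)) →
  (∀ v : HeightOneSpectrum (𝓞 ℚ), Continuous (finGL305 (K := ℚ) v)) → ReContQC751 →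
  ∀ (m : HeightOneSpectrum (𝓞 ℚ) → ℕ) (S : Finset (HeightOneSpectrum (𝓞 ℚ)))
    (γ : GL (Fin 2) ℚ), T6.IsEll γ → GoodOut305 S γ →
  ∀ μT : @Measure (tA305 (T5.AdelicAut.id ℚ) γ) (borel _),
    @Measure.IsHaarMeasure _ _ _ (borel _) μT →
  ∀ (L : MQ298.LocDataQ298 γ) (cT : ℝ), MQ298.IsLocDataQ298 m L → 0 < cT →
    MQ298.IsTorConstQ298 γ μT L cT →
  ∀ x' : G ℚ, OutT305 S x' →
    @integral _ _ _ _ (borel _) μT
      (fun t : tA305 (T5.AdelicAut.id ℚ) γ => MQ298.prodCutQ298 S cT L ((t : G ℚ) * x')) = 1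

/-- **LEAF FDQ.6 = RAY-FIN over `ℚ`.**  The sum over the ray is finite, uniformly: there is a
finite set `J` of exponents such that for `j ∉ J` the function `Fr` vanishes on the conjugacy
class of the real component of `γ r^j`.  Mirror of `H558.RayFinC558`.
Proof.  `det (z⁻¹ (γ r^j)_∞ z) = det γ_∞ · t^{2j}` with `t > 1` (`t² = 2`); `det` maps the
compact support of `Fr` onto a compact subset of `ℝ \ {0}`. -/
def RayFinQC751 : Prop :=
  ∀ r : G ℚ, T5.IsRayGen r →
    ∀ Fr : GL (Fin 2) ℝ → ℂ, Continuous Fr → HasCompactSupport Fr →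
    ∀ γ : GL (Fin 2) ℚ, ∃ J : Finset ℤ, ∀ j : ℤ, j ∉ J →
      ∀ z : GL (Fin 2) ℝ, Fr (z⁻¹ * MQ298.reGLQ298 (T5.ratG γ * r ^ j) * z) = 0

/-- **LEAF FDQ.7 = PT-FACT over `ℚ`.**  For `y ∈ Out_S` and `γ` integral outside `S` the term `j`
of the integrand is the product of the local terms.  Mirror of `H558.PtFactC558`. -/
def PtFactQC751 : Prop :=
  ∀ r : G ℚ, T5.IsRayGen r →
    ∀ (S : Finset (HeightOneSpectrum (𝓞 ℚ)))
      (f₀ : ∀ v : HeightOneSpectrum (𝓞 ℚ), GL (Fin 2) (v.adicCompletion ℚ) → ℂ)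
      (Fr : GL (Fin 2) ℝ → ℂ) (γ : GL (Fin 2) ℚ), IntOut305 S γ →
    ∀ (y : G ℚ) (j : ℤ), OutT305 S y →
      MQ298.pureQ298 S f₀ Fr (y⁻¹ * T5.ratG γ * (T5.AdelicAut.id ℚ).onG y * r ^ j)
        = (∏ v ∈ S, f₀ v ((finGL305 v y)⁻¹ * locG305 v γ * finGL305 v y)) *
          Fr ((MQ298.reGLQ298 y)⁻¹ * MQ298.reGLQ298 (T5.ratG γ * r ^ j) * MQ298.reGLQ298 y)

/-- **LEAF FDQ.8 = ARCH-INTBL (`GL₂(ℝ)` only).**  For `F` continuous with compact support, `γ₀`
regular, `z` central and a continuous cut-off function `β` for the centraliser of `γ₀`: the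
local integrand `y ↦ F(y⁻¹ γ₀ z y) β(y)` is integrable.  Mirror of `H558.ArchIntblC558`.
Proof.  `γ' = γ₀ z` is regular with the centraliser `T` of `γ₀`; its conjugacy class is closed
(the matrices with the characteristic polynomial of `γ'`) and
`{y : y⁻¹ γ' y ∈ supp F} ⊆ T C` with `C` compact: for `ω = y⁻¹ γ' y` and a cyclic row vector `u`
of `ω` among `e₁, e₂, e₁ + e₂`, `y ∈ T · M₀⁻¹ [u; u ω]` (`M₀ = [u₀; u₀ γ']`, `u₀` cyclic for
`γ'`), and `max_u |det [u; u ω]|` is bounded below on the compact set of the `ω`.  Then Tonelli as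
in `H558.ArchIntblC558` (`χ ≥ 1` on `V C`, `V` a compact neighbourhood of `1`:
`∫_T χ(t c) dt ≥ μT(T ∩ V) > 0`). -/
def ArchIntblRC751 : Prop :=
  ∀ μr : @Measure (GL (Fin 2) ℝ) (borel _), @Measure.IsHaarMeasure _ _ _ (borel _) μr →
    ∀ F : GL (Fin 2) ℝ → ℂ, Continuous F → HasCompactSupport F →
    ∀ γ₀ : GL (Fin 2) ℝ, T6.IsReg γ₀ →
    ∀ z : GL (Fin 2) ℝ, (∀ g : GL (Fin 2) ℝ, z * g = g * z) →
    ∀ μT : @Measure (cent305 γ₀) (borel _), @Measure.IsHaarMeasure _ _ _ (borel _) μT →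
    ∀ β : GL (Fin 2) ℝ → ℝ, IsCut305 γ₀ μT β →
      @Integrable _ _ _ _ (borel _) (H558.locFn558 β F (γ₀ * z)) μr

/-- **PART A = CUT-ON-DOWN over `ℚ`** (the cut-off part of `MQ298.FactDownQC298`). -/
def CutOnDownQC751 : Prop :=
  ∀ R : Frame5 ℚ, IsFrame5 R →
    ∀ (m : HeightOneSpectrum (𝓞 ℚ) → ℕ) (S : Finset (HeightOneSpectrum (𝓞 ℚ)))
      (f₀ : ∀ v : HeightOneSpectrum (𝓞 ℚ), GL (Fin 2) (v.adicCompletion ℚ) → ℂ)
      (Fr : GL (Fin 2) ℝ → ℂ),
    ∀ γ : GL (Fin 2) ℚ, T6.IsEll γ → GoodOut305 S γ →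
    ∀ μT : @Measure (tA305 (T5.AdelicAut.id ℚ) γ) (borel _),
      @Measure.IsHaarMeasure _ _ _ (borel _) μT →
    ∀ (L : MQ298.LocDataQ298 γ) (cT : ℝ), MQ298.IsLocDataQ298 m L → 0 < cT →
      MQ298.IsTorConstQ298 γ μT L cT →
      IsCutOn305 (T5.AdelicAut.id ℚ) γ μT (MQ298.prodCutQ298 S cT L)
        {x | T5.twTerm R.r (T5.AdelicAut.id ℚ) (MQ298.pureQ298 S f₀ Fr) γ x ≠ 0}

/-- **PART B = FACT-INT-DOWN over `ℚ`** (the integral part of `MQ298.FactDownQC298`). -/
def FactIntDownQC751 : Prop :=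
  ∀ R : Frame5 ℚ, IsFrame5 R →
    ∀ μr : @Measure (GL (Fin 2) ℝ) (borel _), @Measure.IsHaarMeasure _ _ _ (borel _) μr →
    ∀ (T₀ : Finset (HeightOneSpectrum (𝓞 ℚ))) (m : HeightOneSpectrum (𝓞 ℚ) → ℕ),
      (∀ v : HeightOneSpectrum (𝓞 ℚ), v ∉ T₀ → m v = 0) →
    ∃ cG : ℝ, 0 < cG ∧
      ∀ S : Finset (HeightOneSpectrum (𝓞 ℚ)), T₀ ⊆ S →
      ∀ (f₀ : ∀ v : HeightOneSpectrum (𝓞 ℚ), GL (Fin 2) (v.adicCompletion ℚ) → ℂ)
        (Fr : GL (Fin 2) ℝ → ℂ),
        (∀ v ∈ S, T6.IsBiInv (T6.InU (m v)) (f₀ v) ∧ T6.HasFinSupp (T6.InU (m v)) (f₀ v)) →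
        Continuous Fr → HasCompactSupport Fr →
      ∀ γ : GL (Fin 2) ℚ, T6.IsEll γ → GoodOut305 S γ →
      ∀ μT : @Measure (tA305 (T5.AdelicAut.id ℚ) γ) (borel _),
        @Measure.IsHaarMeasure _ _ _ (borel _) μT →
      ∀ (L : MQ298.LocDataQ298 γ) (cT : ℝ), MQ298.IsLocDataQ298 m L → 0 < cT →
        MQ298.IsTorConstQ298 γ μT L cT →
        cutInt305 R.r (T5.AdelicAut.id ℚ) (MQ298.pureQ298 S f₀ Fr) γ R.μ
            (MQ298.prodCutQ298 S cT L)
          = ((cG / cT : ℝ) : ℂ) * MQ298.factValQ298 R.r S L f₀ μr Fr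

/-! ## Appendix: the equation lemmas of the definitions of this file are realised HERE -/

theorem eqns_realised_factDownQ751 : True := by
  have _h0 := @ReContQC751.eq_1
  have _h1 := @SuppOutQC751.eq_1
  have _h2 := @HaarSigmaRC751.eq_1
  have _h3 := @CutOnOutQC751.eq_1
  have _h4 := @RayFinQC751.eq_1
  have _h5 := @PtFactQC751.eq_1
  have _h6 := @ArchIntblRC751.eq_1
  have _h7 := @CutOnDownQC751.eq_1
  have _h8 := @FactIntDownQC751.eq_1
  have _g0 := @ReContQC751.eq_def
  have _g1 := @SuppOutQC751.eq_def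
  have _g2 := @HaarSigmaRC751.eq_def
  have _g3 := @CutOnOutQC751.eq_def
  have _g4 := @RayFinQC751.eq_def
  have _g5 := @PtFactQC751.eq_def
  have _g6 := @ArchIntblRC751.eq_def
  have _g7 := @CutOnDownQC751.eq_def
  have _g8 := @FactIntDownQC751.eq_def
  trivial

end Fermat.Agent.LT.T7.H751

end

end
-- ===== PACK-END LT/T7/H751/FactDownQSpec.lean

-- ===== PACK-BEGIN LT/T7/H296/BiInvCont.lean
section




/-!
# Row LT, tower T7, node C2.7.7 `FactDownC305` (cut of helper558): asset leaf FD.10 BI-INV-CONT --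
# helper296, OFF-MAIN

VERBATIM vs `LT/T7/H558/FactDownSpec.lean` (helper558@b6c4c8a4b, sha256 8043f526), unconditional:

* `biInvContC296 (K) : H558.BiInvContC558 K`.

Tools: `isOpen_val_le296` (closed balls of `K_v` of radius `exp (-n)` are open),
`isOpen_inU296` (`U(n)` is open in `GL₂(K_v)`), `inU_one296`.
-/

set_option autoImplicit false

open IsDedekindDomain NumberField Topology

noncomputable section

namespace Fermat.Agent.LT.T7.H296

open Fermat.Agent.LT Fermat.Agent.LT.H556.A0 Fermat.Agent.LT.T7 Fermat.Agent.LT.T7.H305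

variable {K : Type} [Field K] [NumberField K]

/-- The closed ball of radius `exp (-n)` of `K_v` is open. -/
theorem isOpen_val_le296 (v : HeightOneSpectrum (𝓞 K)) (n : ℕ) :
    IsOpen {x : v.adicCompletion K | Valued.v x ≤ WithZero.exp (-(n : ℤ))} := by
  obtain ⟨ϖ, hϖ⟩ := Fermat.Agent.LT.T1.H724.exists_unif724 (K := K) v
  have hc : Valued.v (ϖ ^ n) = WithZero.exp (-(n : ℤ)) := by
    rw [map_pow, hϖ, ← WithZero.exp_nsmul]
    simp
  have hpos : (0 : WithZero (Multiplicative ℤ)) < WithZero.exp (-(n : ℤ)) := WithZero.exp_pos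
  have h1 : IsOpen ((v.adicCompletionIntegers K : Set (v.adicCompletion K))) :=
    Valued.isOpen_valuationSubring _
  have h2 : Continuous (fun y : v.adicCompletion K => y * (ϖ ^ n)⁻¹) :=
    continuous_id.mul continuous_const
  have h3 : {x : v.adicCompletion K | Valued.v x ≤ WithZero.exp (-(n : ℤ))}
      = (fun y : v.adicCompletion K => y * (ϖ ^ n)⁻¹) ⁻¹'
        (v.adicCompletionIntegers K : Set (v.adicCompletion K)) := by
    ext x
    simp only [Set.mem_setOf_eq, Set.mem_preimage, SetLike.mem_coe]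
    rw [HeightOneSpectrum.mem_adicCompletionIntegers, map_mul, map_inv₀, hc,
      mul_inv_le_iff₀ hpos, one_mul]
  rw [h3]
  exact h1.preimage h2

/-- `U(n)` is open in `GL₂(K_v)`. -/
theorem isOpen_inU296 (v : HeightOneSpectrum (𝓞 K)) (n : ℕ) :
    IsOpen {u : GL (Fin 2) (v.adicCompletion K) | T6.InU n u} := by
  have h : {u : GL (Fin 2) (v.adicCompletion K) | T6.InU n u}
      = ⋂ i : Fin 2, ⋂ j : Fin 2,
        ({u : GL (Fin 2) (v.adicCompletion K) |
            Valued.v ((u : Matrix (Fin 2) (Fin 2) (v.adicCompletion K)) i j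
              - (1 : Matrix (Fin 2) (Fin 2) (v.adicCompletion K)) i j)
                ≤ WithZero.exp (-(n : ℤ))} ∩
          {u : GL (Fin 2) (v.adicCompletion K) |
            Valued.v (((u⁻¹ : GL (Fin 2) (v.adicCompletion K)) :
                Matrix (Fin 2) (Fin 2) (v.adicCompletion K)) i j
              - (1 : Matrix (Fin 2) (Fin 2) (v.adicCompletion K)) i j)
                ≤ WithZero.exp (-(n : ℤ))}) := by
    ext u
    simp only [Set.mem_setOf_eq, Set.mem_iInter, Set.mem_inter_iff]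
    rfl
  rw [h]
  refine isOpen_iInter_of_finite fun i => isOpen_iInter_of_finite fun j => IsOpen.inter ?_ ?_
  · have hc : Continuous fun u : GL (Fin 2) (v.adicCompletion K) =>
        (u : Matrix (Fin 2) (Fin 2) (v.adicCompletion K)) i j
          - (1 : Matrix (Fin 2) (Fin 2) (v.adicCompletion K)) i j :=
      (Continuous.matrix_elem Units.continuous_val i j).sub continuous_const
    exact (isOpen_val_le296 v n).preimage hc
  · have hc : Continuous fun u : GL (Fin 2) (v.adicCompletion K) =>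
        ((u⁻¹ : GL (Fin 2) (v.adicCompletion K)) :
            Matrix (Fin 2) (Fin 2) (v.adicCompletion K)) i j
          - (1 : Matrix (Fin 2) (Fin 2) (v.adicCompletion K)) i j :=
      (Continuous.matrix_elem Units.continuous_coe_inv i j).sub continuous_const
    exact (isOpen_val_le296 v n).preimage hc

/-- `1 ∈ U(n)`. -/
theorem inU_one296 (v : HeightOneSpectrum (𝓞 K)) (n : ℕ) :
    T6.InU n (1 : GL (Fin 2) (v.adicCompletion K)) := by
  intro i j
  constructor
  · rw [Units.val_one, sub_self, map_zero]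
    exact zero_le'
  · rw [inv_one, Units.val_one, sub_self, map_zero]
    exact zero_le'

variable (K)

/-- **ASSET LEAF FD.10 `BiInvContC558`**, VERBATIM. -/
theorem biInvContC296 : H558.BiInvContC558 K := by
  intro v n f hf
  refine ((IsLocallyConstant.iff_eventually_eq f).2 fun g => ?_).continuous
  have hopen : IsOpen {x : GL (Fin 2) (v.adicCompletion K) | T6.InU n (g⁻¹ * x)} :=
    (isOpen_inU296 v n).preimage (continuous_const.mul continuous_id)
  have hmem : g ∈ {x : GL (Fin 2) (v.adicCompletion K) | T6.InU n (g⁻¹ * x)} := by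
    show T6.InU n (g⁻¹ * g)
    rw [inv_mul_cancel]
    exact inU_one296 v n
  filter_upwards [hopen.mem_nhds hmem] with x hx
  have h := hf 1 (g⁻¹ * x) g (inU_one296 v n) hx
  rw [one_mul, mul_inv_cancel_left] at h
  exact h

end Fermat.Agent.LT.T7.H296

end

end
-- ===== PACK-END LT/T7/H296/BiInvCont.lean

-- ===== PACK-BEGIN LT/T7/H505/HaarSigma.lean
section




/-!
# Row LT, tower T7, node C2.7.7 `FactDownC305`, leaf FD.9 (helper505): `HaarSigmaC558`

OFF-MAIN.  `haarSigmaC505 (K) : Fermat.Agent.LT.T7.H558.HaarSigmaC558 K`, the frozen Prop of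
`Fermat/Agent/LT/T7/H558/FactDownSpec.lean` (helper558, sha256 8043f526) VERBATIM.
Registry row 2644.

Proof.  `GL₂(R)` is a closed subset of `M₂(R) × M₂(R)ᵐᵒᵖ`, hence σ-compact if `R` is
(`R = K_v`: locally compact and second countable, `H11/LC.lean`, `H11/SC.lean` of helper11;
`R = ℂ`).  A Haar measure is finite on compact sets: the compact covering is a sequence of
spanning sets of finite measure.  A centraliser is a closed subgroup `T` (Hausdorff group), so
the preimage of a compact set under `T → G` is compact and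
`(map val μT)(C) = μT(val⁻¹ C) < ∞`.
-/

set_option autoImplicit false
set_option linter.style.haveILetI false

open IsDedekindDomain NumberField MeasureTheory

noncomputable section

namespace Fermat.Agent.LT.T7.H505

/-! ## 1. Groups -/

/-- A Haar measure (Borel) of a σ-compact group is σ-finite. -/
theorem sigmaFinite_haar505 {H : Type} [Group H] [TopologicalSpace H] [SigmaCompactSpace H]
    (μ : @Measure H (borel H)) (hμ : @Measure.IsHaarMeasure H _ _ (borel H) μ) :
    @SigmaFinite H (borel H) μ := by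
  letI : MeasurableSpace H := borel H
  haveI : BorelSpace H := ⟨rfl⟩
  haveI := hμ
  exact ⟨⟨{ set := compactCovering H
            set_mem := fun _ => trivial
            finite := fun n => (isCompact_compactCovering H n).measure_lt_top
            spanning := iUnion_compactCovering H }⟩⟩

/-- The image in the group of a Haar measure (Borel) of a closed subgroup of a σ-compact
Hausdorff group is σ-finite. -/
theorem sigmaFinite_map_val505 {H : Type} [Group H] [TopologicalSpace H] [T2Space H]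
    [SigmaCompactSpace H] (T : Subgroup H) (hT : IsClosed (T : Set H))
    (μT : @Measure T (borel T)) (hμ : @Measure.IsHaarMeasure T _ _ (borel T) μT) :
    @SigmaFinite H (borel H) (@Measure.map T H (borel T) (borel H) Subtype.val μT) := by
  letI : MeasurableSpace H := borel H
  haveI : BorelSpace H := ⟨rfl⟩
  letI : MeasurableSpace T := borel T
  haveI : BorelSpace T := ⟨rfl⟩
  haveI := hμ
  have hval : Measurable (Subtype.val : T → H) := continuous_subtype_val.measurable
  have hemb : Topology.IsClosedEmbedding (Subtype.val : T → H) :=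
    hT.isClosedEmbedding_subtypeVal
  refine ⟨⟨{ set := compactCovering H
             set_mem := fun _ => trivial
             finite := fun n => ?_
             spanning := iUnion_compactCovering H }⟩⟩
  rw [Measure.map_apply hval (isCompact_compactCovering H n).measurableSet]
  exact (hemb.isCompact_preimage (isCompact_compactCovering H n)).measure_lt_top

/-- The twisted centraliser of a continuous endomorphism is closed. -/
theorem isClosed_twCentSub505 {H : Type} [Group H] [TopologicalSpace H] [IsTopologicalGroup H]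
    [T1Space H] (s : H →* H) (hs : Continuous s) (δ : H) :
    IsClosed ((T6.twCentSub s δ : Subgroup H) : Set H) := by
  have hc : Continuous (fun x : H => x⁻¹ * δ * s x) :=
    (continuous_inv.mul continuous_const).mul hs
  exact isClosed_singleton.preimage hc

/-- `GL₂(R)` is σ-compact if `R` is. -/
theorem sigmaCompactSpace_GL505 (R : Type) [CommRing R] [TopologicalSpace R]
    [IsTopologicalRing R] [T1Space R] [SigmaCompactSpace R] :
    SigmaCompactSpace (GL (Fin 2) R) := by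
  haveI : SigmaCompactSpace (Matrix (Fin 2) (Fin 2) R) :=
    inferInstanceAs (SigmaCompactSpace (Fin 2 → Fin 2 → R))
  haveI : T1Space (Matrix (Fin 2) (Fin 2) R) :=
    inferInstanceAs (T1Space (Fin 2 → Fin 2 → R))
  haveI : SigmaCompactSpace (Matrix (Fin 2) (Fin 2) R)ᵐᵒᵖ :=
    MulOpposite.opHomeomorph.symm.isClosedEmbedding.sigmaCompactSpace
  exact Units.isClosedEmbedding_embedProduct.sigmaCompactSpace

theorem glAut_refl505 (R : Type) [CommRing R] (x : GL (Fin 2) R) :
    T6.glAut (RingEquiv.refl R) x = x := by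
  ext i j
  rfl

theorem continuous_glAut_refl505 (R : Type) [CommRing R] [TopologicalSpace R] :
    Continuous (T6.glAut (RingEquiv.refl R)) := by
  have : (T6.glAut (RingEquiv.refl R) : GL (Fin 2) R → GL (Fin 2) R) = id :=
    funext fun x => glAut_refl505 R x
  rw [this]
  exact continuous_id

/-! ## 2. The leaf -/

variable (K : Type) [Field K] [NumberField K]

theorem sigmaCompactSpace_GL_adic505 (v : HeightOneSpectrum (𝓞 K)) :
    SigmaCompactSpace (GL (Fin 2) (v.adicCompletion K)) := by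
  haveI := Fermat.Agent.LT.H11.LC.locallyCompactSpace_adicCompletion_h11 K v
  haveI := Fermat.Agent.LT.H11.SC.secondCountableTopology_adicCompletion_h11 K v
  haveI : SigmaCompactSpace (v.adicCompletion K) := inferInstance
  exact sigmaCompactSpace_GL505 (v.adicCompletion K)

theorem sigmaCompactSpace_GL_cplx505 : SigmaCompactSpace (GL (Fin 2) ℂ) :=
  sigmaCompactSpace_GL505 ℂ

theorem haarSigmaC505 : Fermat.Agent.LT.T7.H558.HaarSigmaC558 K := by
  refine ⟨?_, ?_, ?_, ?_⟩
  · intro v μ hμ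
    haveI := sigmaCompactSpace_GL_adic505 K v
    exact sigmaFinite_haar505 μ hμ
  · intro μ hμ
    haveI := sigmaCompactSpace_GL_cplx505
    exact sigmaFinite_haar505 μ hμ
  · intro v γ₀ μT hμ
    haveI := sigmaCompactSpace_GL_adic505 K v
    exact sigmaFinite_map_val505 _
      (isClosed_twCentSub505 _ (continuous_glAut_refl505 (v.adicCompletion K)) γ₀) μT hμ
  · intro γ₀ μT hμ
    haveI := sigmaCompactSpace_GL_cplx505
    exact sigmaFinite_map_val505 _
      (isClosed_twCentSub505 (MonoidHom.id (GL (Fin 2) ℂ)) continuous_id γ₀) μT hμ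

end Fermat.Agent.LT.T7.H505

end
end
-- ===== PACK-END LT/T7/H505/HaarSigma.lean

-- ===== PACK-BEGIN LT/T7/H904/ArchVanQ.lean
section



/-!
# Row LT, tower T7, node Q2.7 `CutIntQC298`, leaf Q2.7.9r `ArchVanQC298` (helper904)

OFF-MAIN.  `archVanQC904 : MQ298.ArchVanQC298`, statement VERBATIM vs
`LT/T7/H298/MatchQCut.lean` (helper298@076793e90, sha256 74dc2a3c), UNCONDITIONAL.

Proof.  The real component of the ray generator is the scalar `t > 0` (`reGL_ray904`: the
component in `ℂ` is the image of the real component, `extensionEmbeddingOfIsReal_apply`), so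
`(γ r^j)_∞ = γ_∞ ζ`, `ζ` the positive scalar `t^j`.  For a positive scalar `ζ`: `γ_∞ ζ` is
regular (`disc (γ ζ) = c² disc γ`), has the centraliser of `γ_∞` (the cut-off datum is
transported along the equality of the subgroups, `transport904`), and is not a norm from
`GL₂(ℂ)` if `γ_∞` is not (`δ ↦ δ (√c)⁻¹`).  Second clause of `T6.IsArchMatch`.
-/

set_option autoImplicit false
set_option linter.unusedSectionVars false
set_option linter.unusedVariables false

open AutomorphicForm IsDedekindDomain NumberField MeasureTheory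
open scoped ComplexConjugate

noncomputable section

namespace Fermat.Agent.LT.T7.H904

open Fermat.Agent.LT.H556 Fermat.Agent.LT.H556.A0 Fermat.Agent.LT.T7 Fermat.Agent.LT.T7.H305
open Fermat.Agent.LT.T7.MQ298 Fermat.Agent.LT

/-! ## Scalars in `GL₂` -/

/-- The scalar matrix of a unit, as an element of `GL₂`. -/
def scalGL904 (R : Type) [CommRing R] : Rˣ →* GL (Fin 2) R :=
  Units.map (Matrix.scalar (Fin 2) : R →+* Matrix (Fin 2) (Fin 2) R).toMonoidHom

theorem coe_scalGL904 {R : Type} [CommRing R] (u : Rˣ) :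
    ((scalGL904 R u : GL (Fin 2) R) : Matrix (Fin 2) (Fin 2) R)
      = Matrix.diagonal (fun _ => (u : R)) := rfl

theorem scalGL_comm904 {R : Type} [CommRing R] (u : Rˣ) (x : GL (Fin 2) R) :
    scalGL904 R u * x = x * scalGL904 R u := by
  apply Units.ext
  rw [Units.val_mul, Units.val_mul, coe_scalGL904]
  ext i j
  simp [Matrix.mul_apply, Matrix.diagonal_apply, mul_comm]

/-- The centraliser does not change under multiplication by a scalar. -/
theorem cent_mul_scal904 {R : Type} [CommRing R] (γ : GL (Fin 2) R) (u : Rˣ) :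
    cent305 (γ * scalGL904 R u) = cent305 γ := by
  ext x
  show x⁻¹ * (γ * scalGL904 R u) * x = γ * scalGL904 R u ↔ x⁻¹ * γ * x = γ
  have h : x⁻¹ * (γ * scalGL904 R u) * x = (x⁻¹ * γ * x) * scalGL904 R u := by
    calc x⁻¹ * (γ * scalGL904 R u) * x = x⁻¹ * γ * (scalGL904 R u * x) := by
          simp only [mul_assoc]
      _ = x⁻¹ * γ * (x * scalGL904 R u) := by rw [scalGL_comm904]
      _ = (x⁻¹ * γ * x) * scalGL904 R u := by simp only [mul_assoc]
  rw [h]
  exact mul_left_inj _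

theorem disc_mul_scal904 {R : Type} [CommRing R] (γ : GL (Fin 2) R) (u : Rˣ) :
    T6.disc (γ * scalGL904 R u) = (u : R) ^ 2 * T6.disc γ := by
  show ((γ * scalGL904 R u : GL (Fin 2) R) : Matrix (Fin 2) (Fin 2) R).trace ^ 2
      - 4 * ((γ * scalGL904 R u : GL (Fin 2) R) : Matrix (Fin 2) (Fin 2) R).det
    = (u : R) ^ 2 * ((γ : Matrix (Fin 2) (Fin 2) R).trace ^ 2
      - 4 * (γ : Matrix (Fin 2) (Fin 2) R).det)
  rw [Units.val_mul, coe_scalGL904, Matrix.det_mul, Matrix.det_diagonal]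
  simp only [Matrix.trace_fin_two, Matrix.mul_apply, Matrix.diagonal_apply, Fin.sum_univ_two,
    Fin.prod_univ_two]
  simp
  ring

theorem isReg_mul_scal904 {R : Type} [CommRing R] (γ : GL (Fin 2) R) (u : Rˣ)
    (h : T6.IsReg γ) : T6.IsReg (γ * scalGL904 R u) := by
  show IsUnit (T6.disc (γ * scalGL904 R u))
  rw [disc_mul_scal904]
  exact (u.isUnit.pow 2).mul h

/-! ## Transport of a cut-off datum along an equality of subgroups -/

theorem transport904 {H : Type} [Group H] [TopologicalSpace H] {A B : Subgroup H} (h : A = B)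
    (μ : @Measure A (borel _)) (hμ : @Measure.IsHaarMeasure _ _ _ (borel _) μ) (β : H → ℝ)
    (hβ : ∀ x : H, @integral _ _ _ _ (borel _) μ (fun t : A => β ((t : H) * x)) = 1) :
    ∃ μ' : @Measure B (borel _), @Measure.IsHaarMeasure _ _ _ (borel _) μ' ∧
      ∀ x : H, @integral _ _ _ _ (borel _) μ' (fun t : B => β ((t : H) * x)) = 1 := by
  subst h
  exact ⟨μ, hμ, hβ⟩

/-! ## Norms from `GL₂(ℂ)` and positive scalars -/

theorem twNorm_two904 (δ : GL (Fin 2) ℂ) :
    T6.twNorm (starRingAut : ℂ ≃+* ℂ) 2 δ = δ * T6.glAut (starRingAut : ℂ ≃+* ℂ) δ := by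
  show δ * T6.glAut (starRingAut : ℂ ≃+* ℂ) (δ * T6.glAut (starRingAut : ℂ ≃+* ℂ) 1)
    = δ * T6.glAut (starRingAut : ℂ ≃+* ℂ) δ
  rw [map_one, mul_one]

/-- The image in `GL₂(ℂ)` of a real scalar. -/
theorem map_scalGL904 (u : ℝˣ) :
    Matrix.GeneralLinearGroup.map (algebraMap ℝ ℂ) (scalGL904 ℝ u)
      = scalGL904 ℂ (Units.map (algebraMap ℝ ℂ).toMonoidHom u) := by
  apply Units.ext
  ext i j
  show algebraMap ℝ ℂ ((Matrix.diagonal fun _ => (u : ℝ)) i j)
    = (Matrix.diagonal fun _ => ((Units.map (algebraMap ℝ ℂ).toMonoidHom u : ℂˣ) : ℂ)) i j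
  by_cases hij : i = j
  · subst hij
    simp
  · simp [Matrix.diagonal_apply_ne _ hij]

/-- A real scalar of `GL₂(ℂ)` is fixed by the conjugation. -/
theorem glAut_scal904 (c : ℝ) (hc : c ≠ 0) :
    T6.glAut (starRingAut : ℂ ≃+* ℂ)
        (scalGL904 ℂ (Units.mk0 (c : ℂ) (by exact_mod_cast hc)))
      = scalGL904 ℂ (Units.mk0 (c : ℂ) (by exact_mod_cast hc)) := by
  apply Units.ext
  ext i j
  show (starRingAut : ℂ ≃+* ℂ) ((Matrix.diagonal fun _ => (c : ℂ)) i j)
    = (Matrix.diagonal fun _ => (c : ℂ)) i j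
  by_cases hij : i = j
  · subst hij
    simp
  · simp [Matrix.diagonal_apply_ne _ hij]

/-- If `γ ζ` is a norm from `GL₂(ℂ)`, `ζ` a positive scalar, then `γ` is a norm. -/
theorem isNormFrom_of_mul_scal904 (γ : GL (Fin 2) ℝ) (c : ℝ) (hc : 0 < c)
    (h : T6.IsNormFrom 2 (algebraMap ℝ ℂ) (starRingAut : ℂ ≃+* ℂ)
      (γ * scalGL904 ℝ (Units.mk0 c hc.ne'))) :
    T6.IsNormFrom 2 (algebraMap ℝ ℂ) (starRingAut : ℂ ≃+* ℂ) γ := by
  obtain ⟨δ, hδ⟩ := h
  have hs : Real.sqrt c ≠ 0 := (Real.sqrt_pos.mpr hc).ne'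
  set ζ : GL (Fin 2) ℂ :=
    scalGL904 ℂ (Units.mk0 ((Real.sqrt c : ℝ) : ℂ) (by exact_mod_cast hs)) with hζ
  have hζfix : T6.glAut (starRingAut : ℂ ≃+* ℂ) ζ = ζ := glAut_scal904 _ hs
  have hζ2 : ζ * ζ = Matrix.GeneralLinearGroup.map (algebraMap ℝ ℂ)
      (scalGL904 ℝ (Units.mk0 c hc.ne')) := by
    rw [map_scalGL904, hζ, ← map_mul]
    congr 1
    apply Units.ext
    show ((Real.sqrt c : ℝ) : ℂ) * ((Real.sqrt c : ℝ) : ℂ) = algebraMap ℝ ℂ c
    rw [← Complex.ofReal_mul, Real.mul_self_sqrt hc.le]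
    rfl
  -- the inverse of `ζ` is a scalar: central, fixed by the conjugation
  set w : GL (Fin 2) ℂ :=
    scalGL904 ℂ (Units.mk0 ((Real.sqrt c : ℝ) : ℂ) (by exact_mod_cast hs))⁻¹ with hw
  have hwζ : w = ζ⁻¹ := by rw [hw, hζ, map_inv]
  have hcomm : ∀ x : GL (Fin 2) ℂ, w * x = x * w := fun x => scalGL_comm904 _ x
  have hwfix : T6.glAut (starRingAut : ℂ ≃+* ℂ) w = w := by
    rw [hwζ, map_inv, hζfix]
  have hζw : ζ * ζ * (w * w) = 1 := by
    rw [hwζ]; group
  refine ⟨δ * w, ?_⟩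
  rw [twNorm_two904] at hδ ⊢
  rw [map_mul] at hδ
  rw [map_mul, hwfix]
  obtain ⟨g, hg⟩ := isConj_iff.mp hδ
  refine isConj_iff.mpr ⟨g, ?_⟩
  set a := δ with ha
  set b := T6.glAut (starRingAut : ℂ ≃+* ℂ) δ with hb
  have e1 : a * w * (b * w) = a * b * (w * w) := by
    calc a * w * (b * w) = a * (w * b) * w := by simp only [mul_assoc]
      _ = a * (b * w) * w := by rw [hcomm b]
      _ = a * b * (w * w) := by simp only [mul_assoc]
  have e2 : g * (a * b * (w * w)) * g⁻¹ = g * (a * b) * g⁻¹ * (w * w) := by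
    calc g * (a * b * (w * w)) * g⁻¹ = g * (a * b) * (w * (w * g⁻¹)) := by
          simp only [mul_assoc]
      _ = g * (a * b) * (w * (g⁻¹ * w)) := by rw [hcomm g⁻¹]
      _ = g * (a * b) * ((w * g⁻¹) * w) := by simp only [mul_assoc]
      _ = g * (a * b) * ((g⁻¹ * w) * w) := by rw [hcomm g⁻¹]
      _ = g * (a * b) * g⁻¹ * (w * w) := by simp only [mul_assoc]
  rw [e1, e2, hg, ← hζ2, mul_assoc, hζw, mul_one]

/-! ## The real component -/

/-- The component in `ℂ` at the real place of `ℚ` is the image of the real component. -/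
theorem infHom_eq_ofReal904 (a : Adl ℚ) :
    T5.infHom Rat.infinitePlace a = ((reHomQ298 a : ℝ) : ℂ) :=
  (InfinitePlace.Completion.extensionEmbeddingOfIsReal_apply Rat.isReal_infinitePlace _).symm

/-- The real component of the ray generator is a positive scalar. -/
theorem reGL_ray904 {R : Frame5 ℚ} (hR : IsFrame5 R) :
    ∃ (t : ℝ) (ht : 0 < t), reGLQ298 R.r = scalGL904 ℝ (Units.mk0 t ht.ne') := by
  obtain ⟨-, t, ht, -, hinf⟩ := hR.ray
  refine ⟨t, ht, ?_⟩
  apply Units.ext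
  ext i j
  have h1 := congrFun (congrFun (hinf Rat.infinitePlace) i) j
  rw [T5.infComp_eq_map] at h1
  have h2 : ((reHomQ298 ((R.r : Matrix (Fin 2) (Fin 2) (Adl ℚ)) i j) : ℝ) : ℂ)
      = (Matrix.diagonal fun _ => (t : ℂ)) i j := by
    rw [← infHom_eq_ofReal904]
    exact h1
  show reHomQ298 ((R.r : Matrix (Fin 2) (Fin 2) (Adl ℚ)) i j)
    = (Matrix.diagonal fun _ => t) i j
  by_cases hij : i = j
  · subst hij
    rw [Matrix.diagonal_apply_eq] at h2 ⊢
    exact_mod_cast h2
  · rw [Matrix.diagonal_apply_ne _ hij] at h2 ⊢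
    exact_mod_cast h2

/-- Regularity is preserved by ring homomorphisms. -/
theorem isReg_map904 {A B : Type} [CommRing A] [CommRing B] (f : A →+* B)
    (γ : GL (Fin 2) A) (h : T6.IsReg γ) :
    T6.IsReg (Matrix.GeneralLinearGroup.map f γ) := by
  have h0 : IsUnit ((γ : Matrix (Fin 2) (Fin 2) A).trace ^ 2
      - 4 * (γ : Matrix (Fin 2) (Fin 2) A).det) := h
  show IsUnit (((Matrix.GeneralLinearGroup.map f γ : GL (Fin 2) B) :
      Matrix (Fin 2) (Fin 2) B).trace ^ 2
    - 4 * ((Matrix.GeneralLinearGroup.map f γ : GL (Fin 2) B) : Matrix (Fin 2) (Fin 2) B).det)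
  have h1 : ((Matrix.GeneralLinearGroup.map f γ : GL (Fin 2) B) :
      Matrix (Fin 2) (Fin 2) B).trace ^ 2
    - 4 * ((Matrix.GeneralLinearGroup.map f γ : GL (Fin 2) B) : Matrix (Fin 2) (Fin 2) B).det
    = f ((γ : Matrix (Fin 2) (Fin 2) A).trace ^ 2
      - 4 * (γ : Matrix (Fin 2) (Fin 2) A).det) := by
    simp only [Matrix.trace_fin_two, Matrix.det_fin_two, Matrix.GeneralLinearGroup.map_apply,
      map_sub, map_mul, map_add, map_pow, map_ofNat]
  rw [h1]
  exact h0.map f

/-- **LEAF Q2.7.9r = ARCH-VAN**, closed. -/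
theorem archVanQC904 : ArchVanQC298 := by
  intro R hR μr μc Φ f hmatch γ hγ hnn μtr βr hμtr hcut j
  obtain ⟨t, ht, hr⟩ := reGL_ray904 hR
  have hc : 0 < ((((Units.mk0 t ht.ne') ^ j : ℝˣ)) : ℝ) := by
    rw [Units.val_zpow_eq_zpow_val]
    exact zpow_pos ht j
  have hu : (Units.mk0 t ht.ne') ^ j
      = Units.mk0 ((((Units.mk0 t ht.ne') ^ j : ℝˣ)) : ℝ) hc.ne' := Units.ext rfl
  have h1 : reGLQ298 (T5.ratG γ * R.r ^ j)
      = reGLQ298 (T5.ratG γ)
        * scalGL904 ℝ (Units.mk0 ((((Units.mk0 t ht.ne') ^ j : ℝˣ)) : ℝ) hc.ne') := by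
    rw [map_mul, map_zpow, hr, ← map_zpow, ← hu]
  have hreg0 : T6.IsReg (reGLQ298 (T5.ratG γ)) :=
    isReg_map904 reHomQ298 _ (isReg_map904 (algebraMap ℚ (Adl ℚ)) γ hγ.1)
  have hreg := isReg_mul_scal904 (reGLQ298 (T5.ratG γ))
    (Units.mk0 ((((Units.mk0 t ht.ne') ^ j : ℝˣ)) : ℝ) hc.ne') hreg0
  have hnn' : ¬ T6.IsNormFrom 2 (algebraMap ℝ ℂ) (starRingAut : ℂ ≃+* ℂ)
      (reGLQ298 (T5.ratG γ)
        * scalGL904 ℝ (Units.mk0 ((((Units.mk0 t ht.ne') ^ j : ℝˣ)) : ℝ) hc.ne')) :=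
    fun h => hnn (isNormFrom_of_mul_scal904 _ _ hc h)
  obtain ⟨hcont, hnonneg, hint⟩ := hcut
  obtain ⟨μT', hμT', hint'⟩ := transport904
    (cent_mul_scal904 (reGLQ298 (T5.ratG γ))
      (Units.mk0 ((((Units.mk0 t ht.ne') ^ j : ℝˣ)) : ℝ) hc.ne')).symm μtr hμtr βr hint
  have key := (hmatch _ hreg μT' hμT' βr hcont hnonneg hint').2 hnn'
  rw [h1]
  exact key

end Fermat.Agent.LT.T7.H904

end

end
-- ===== PACK-END LT/T7/H904/ArchVanQ.lean

-- ===== PACK-BEGIN LT/T7/H16/FactDownLeaves.lean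
section




/-!
# Row LT, tower T7, node C2.7.7 `FactDownC305` (cut of helper558): leaves FD.4 `SuppOutC558` and
# FD.7 `PtFactC558`, VERBATIM (helper16, spare)

OFF-MAIN.  Unconditional, every number field.

    suppOutC558_16 : H558.SuppOutC558 K      (`LT/T7/H558/FactDownSpec.lean`, sha256 8043f526)
    ptFactC558_16  : H558.PtFactC558 K

`Out_S` is a group (`outT_mul16`, `outT_inv16`), the powers of the ray generator are trivial at
the finite places (`outT_zpow16`) and central at the infinite places (`infGL_central16`),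
`finGL305 v (ratG γ) = locG305 v γ`, `(id).onG y = y`.
-/

set_option autoImplicit false
set_option linter.unusedSectionVars false

open IsDedekindDomain NumberField

noncomputable section

namespace Fermat.Agent.LT.T7.H16

open Fermat.Agent.LT Fermat.Agent.LT.H556 Fermat.Agent.LT.H556.A0 Fermat.Agent.LT.T7
open Fermat.Agent.LT.T7.H305 Fermat.Agent.LT.T7.H543

variable {K : Type} [Field K] [NumberField K]

theorem coe_finGL16 (v : HeightOneSpectrum (𝓞 K)) (g : G K) :
    ((finGL305 v g : GL (Fin 2) (v.adicCompletion K)) :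
      Matrix (Fin 2) (Fin 2) (v.adicCompletion K)) = finComp v g := rfl

theorem coe_infGL16 (w : InfinitePlace K) (g : G K) :
    ((infGL305 w g : GL (Fin 2) ℂ) : Matrix (Fin 2) (Fin 2) ℂ) = infComp w g := rfl

theorem id_onG16 (y : G K) : (T5.AdelicAut.id K).onG y = y := by
  apply Units.ext
  ext i j
  rfl

theorem finGL_ratG16 (v : HeightOneSpectrum (𝓞 K)) (γ : GL (Fin 2) K) :
    finGL305 v (T5.ratG γ) = locG305 v γ := by
  apply Units.ext
  ext i j
  rfl

theorem finGL_eq_one16 {v : HeightOneSpectrum (𝓞 K)} {g : G K} (hg : TrivAtFin v g) :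
    finGL305 v g = 1 := by
  apply Units.ext
  exact hg

theorem finGL_zpow16 {r : G K} (hr : T5.IsRayGen r) (v : HeightOneSpectrum (𝓞 K)) (j : ℤ) :
    finGL305 v (r ^ j) = 1 := by
  rw [map_zpow, finGL_eq_one16 (hr.1 v), one_zpow]

/-- The components of the powers of the ray generator at the infinite places are central. -/
theorem infGL_central16 {r : G K} (hr : T5.IsRayGen r) (w : InfinitePlace K) (j : ℤ)
    (g : GL (Fin 2) ℂ) : infGL305 w (r ^ j) * g = g * infGL305 w (r ^ j) := by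
  obtain ⟨-, t, -, -, ht⟩ := hr
  have hc : ∀ g : GL (Fin 2) ℂ, Commute (infGL305 w r) g := by
    intro g
    apply Units.ext
    rw [Units.val_mul, Units.val_mul, coe_infGL16, ht w]
    ext a b
    rw [Matrix.diagonal_mul, Matrix.mul_diagonal, mul_comm]
  rw [map_zpow]
  exact ((hc g).zpow_left j).eq

/-! ## `Out_S` is a group -/

theorem outT_mul16 {S : Finset (HeightOneSpectrum (𝓞 K))} {g h : G K} (hg : OutT305 S g)
    (hh : OutT305 S h) : OutT305 S (g * h) := by
  intro v hv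
  refine ⟨isIntegralAt_mul543 (hg v hv).1 (hh v hv).1, ?_⟩
  rw [mul_inv_rev]
  exact isIntegralAt_mul543 (hh v hv).2 (hg v hv).2

theorem outT_inv16 {S : Finset (HeightOneSpectrum (𝓞 K))} {g : G K} (hg : OutT305 S g) :
    OutT305 S g⁻¹ := by
  intro v hv
  refine ⟨(hg v hv).2, ?_⟩
  rw [inv_inv]
  exact (hg v hv).1

theorem outT_of_triv16 {S : Finset (HeightOneSpectrum (𝓞 K))} {g : G K}
    (hg : ∀ v : HeightOneSpectrum (𝓞 K), TrivAtFin v g) : OutT305 S g :=
  fun v _ => ⟨isIntegralAt_of_triv543 (hg v), isIntegralAt_of_triv543 (trivAtFin_inv543 (hg v))⟩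

theorem outT_zpow16 {r : G K} (hr : T5.IsRayGen r) (S : Finset (HeightOneSpectrum (𝓞 K)))
    (j : ℤ) : OutT305 S (r ^ j) := by
  refine outT_of_triv16 fun v => ?_
  have h1 : finGL305 v (r ^ j) = 1 := finGL_zpow16 hr v j
  have h2 := congrArg (fun u : GL (Fin 2) (v.adicCompletion K) =>
    (u : Matrix (Fin 2) (Fin 2) (v.adicCompletion K))) h1
  exact h2

theorem le_one_of_sub16 {k : Type} [Field k] [Valued k T6.Γ₀] {x : k} (δ : k)
    (hδ : Valued.v δ ≤ 1) (h : Valued.v (x - δ) ≤ 1) : Valued.v x ≤ 1 := by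
  have e : x = (x - δ) + δ := by ring
  rw [e]
  exact (Valuation.map_add _ _ _).trans (max_le h hδ)

theorem one_entry_le16 {k : Type} [Field k] [Valued k T6.Γ₀] (i j : Fin 2) :
    Valued.v ((1 : Matrix (Fin 2) (Fin 2) k) i j) ≤ 1 := by
  by_cases h : i = j
  · rw [h, Matrix.one_apply_eq, map_one]
  · rw [Matrix.one_apply_ne h, map_zero]
    exact zero_le

theorem outT_ratG16 {S : Finset (HeightOneSpectrum (𝓞 K))} {γ : GL (Fin 2) K}
    (hγ : IntOut305 S γ) : OutT305 S (T5.ratG γ) := by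
  intro v hv
  have h := hγ v hv
  refine ⟨fun i j => ?_, fun i j => ?_⟩
  · rw [HeightOneSpectrum.mem_adicCompletionIntegers, ← coe_finGL16, finGL_ratG16]
    have h1 := (h i j).1
    rw [WithZero.exp_neg, Nat.cast_zero, WithZero.exp_zero, inv_one] at h1
    exact le_one_of_sub16 _ (one_entry_le16 i j) h1
  · rw [HeightOneSpectrum.mem_adicCompletionIntegers, ← coe_finGL16, map_inv, finGL_ratG16]
    have h1 := (h i j).2
    rw [WithZero.exp_neg, Nat.cast_zero, WithZero.exp_zero, inv_one] at h1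
    exact le_one_of_sub16 _ (one_entry_le16 i j) h1

variable (K)

/-- **LEAF FD.7 = PT-FACT of helper558, VERBATIM.** -/
theorem ptFactC558_16 : H558.PtFactC558 K := by
  intro r hr S f₀ F γ hγ y j hy
  have hout : OutT305 S (y⁻¹ * T5.ratG γ * (T5.AdelicAut.id K).onG y * r ^ j) := by
    rw [id_onG16]
    exact outT_mul16 (outT_mul16 (outT_mul16 (outT_inv16 hy) (outT_ratG16 hγ)) hy)
      (outT_zpow16 hr S j)
  delta pure305
  rw [if_pos hout]
  congr 1
  · refine Finset.prod_congr rfl fun v _ => ?_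
    congr 1
    rw [id_onG16, map_mul, map_mul, map_mul, map_inv, finGL_ratG16, finGL_zpow16 hr,
      mul_one]
  · refine Finset.prod_congr rfl fun w _ => ?_
    congr 1
    rw [id_onG16, map_mul, map_mul, map_mul, map_inv, map_mul (infGL305 w) (T5.ratG γ),
      mul_assoc ((infGL305 w y)⁻¹ * infGL305 w (T5.ratG γ)), ← infGL_central16 hr w j,
      ← mul_assoc, mul_assoc ((infGL305 w y)⁻¹)]

/-- **LEAF FD.4 = SUPP-OUT of helper558, VERBATIM.** -/
theorem suppOutC558_16 : H558.SuppOutC558 K := by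
  intro r hr S f₀ F γ x hx
  have hx' : (∑' m : ℤ, pure305 S f₀ F (x⁻¹ * T5.ratG γ * (T5.AdelicAut.id K).onG x * r ^ m))
      ≠ 0 := hx
  have hex : ∃ m : ℤ,
      pure305 S f₀ F (x⁻¹ * T5.ratG γ * (T5.AdelicAut.id K).onG x * r ^ m) ≠ 0 := by
    by_contra hcon
    push Not at hcon
    apply hx'
    rw [tsum_congr hcon, tsum_zero]
  obtain ⟨m, hm⟩ := hex
  rw [id_onG16] at hm
  have hout : OutT305 S (x⁻¹ * T5.ratG γ * x * r ^ m) := by
    by_contra hcon
    apply hm
    delta pure305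
    rw [if_neg hcon]
  have h1 := outT_mul16 hout (outT_inv16 (outT_zpow16 hr S m))
  rwa [mul_inv_cancel_right] at h1

end Fermat.Agent.LT.T7.H16

end

end
-- ===== PACK-END LT/T7/H16/FactDownLeaves.lean

-- ===== PACK-BEGIN LT/T7/H385/CutOnOut.lean
section




/-!
# Row LT, tower T7, node C2.7.7 `FactDownC305`, leaf FD.5 `CutOnOutC558` (registry 2640)

OFF-MAIN (helper385).  `cutOnOutC385 (K) : H558.CutOnOutC558 K`, UNCONDITIONAL, VERBATIM Prop of
`LT/T7/H558/FactDownSpec.lean` (helper558@b6c4c8a4b, sha256 8043f526).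

Proof.  `Out_S` is an open subgroup (`H942.isOpen_integralOutside942`), so for `x' ∈ Out_S`:
`t x' ∈ Out_S ⟺ t ∈ Out_S`, and `A = {t ∈ T_𝔸(γ) : t ∈ Out_S}` is measurable.  The integrand is
`1_A(t) g(compS305 S t)`, `g(a, b) = cT⁻¹ ∏_v β_v(a_v x'_v) ∏_w β_w(b_w x'_w)`; the image of
`μT|_A` under `compS305 S` is `cT` times the product of the local torus measures
(`IsTorConst305`); Fubini for products (`integral_prod_mul`, `integral_fintype_prod_eq_prod`);
the local integrals are `1` (`IsLocCut305`, `IsCut305`).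
-/

set_option autoImplicit false
set_option linter.style.haveILetI false

open AutomorphicForm IsDedekindDomain NumberField MeasureTheory

noncomputable section

namespace Fermat.Agent.LT.T7.H385

open Fermat.Agent.LT Fermat.Agent.LT.H556 Fermat.Agent.LT.H556.A0 Fermat.Agent.LT.T7
open Fermat.Agent.LT.T7.H305 Fermat.Agent.LT.T7.H558

/-! ## 1. The abstract computation -/

open Classical in
/-- Fubini for a cut-off of product form. -/
theorem integral_cut_abs385 {X : Type*} [MeasurableSpace X] {ι κ : Type*} [Fintype ι]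
    [Fintype κ] {Y : ι → Type*} [∀ i, MeasurableSpace (Y i)] {Z : κ → Type*}
    [∀ j, MeasurableSpace (Z j)] (μ : Measure X) (A : Set X) (hA : MeasurableSet A)
    (φ : X → (∀ i, Y i) × (∀ j, Z j)) (hφ : Measurable φ)
    (ν : ∀ i, Measure (Y i)) (ρ : ∀ j, Measure (Z j)) [∀ i, SigmaFinite (ν i)]
    [∀ j, SigmaFinite (ρ j)] (c : ℝ) (hc : 0 < c)
    (hmap : Measure.map φ (μ.restrict A)
      = ENNReal.ofReal c • ((Measure.pi ν).prod (Measure.pi ρ)))
    (a : ∀ i, Y i → ℝ) (b : ∀ j, Z j → ℝ) (ha : ∀ i, Measurable (a i))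
    (hb : ∀ j, Measurable (b j))
    (ha1 : ∀ i, ∫ y, a i y ∂ν i = 1) (hb1 : ∀ j, ∫ z, b j z ∂ρ j = 1) :
    ∫ x, (if x ∈ A then c⁻¹ * (∏ i, a i ((φ x).1 i)) * ∏ j, b j ((φ x).2 j) else 0) ∂μ
      = 1 := by
  set g : (∀ i, Y i) × (∀ j, Z j) → ℝ :=
    fun p => c⁻¹ * (∏ i, a i (p.1 i)) * ∏ j, b j (p.2 j) with hg
  have hgm : Measurable g := by
    refine (measurable_const.mul ?_).mul ?_
    · exact Finset.measurable_prod _ fun i _ =>
        (ha i).comp ((measurable_pi_apply i).comp measurable_fst)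
    · exact Finset.measurable_prod _ fun j _ =>
        (hb j).comp ((measurable_pi_apply j).comp measurable_snd)
  have e1 : (fun x => if x ∈ A then c⁻¹ * (∏ i, a i ((φ x).1 i)) * ∏ j, b j ((φ x).2 j)
      else 0) = A.indicator (fun x => g (φ x)) := by
    funext x
    by_cases hx : x ∈ A
    · rw [if_pos hx, Set.indicator_of_mem hx]
    · rw [if_neg hx, Set.indicator_of_notMem hx]
  rw [e1, integral_indicator hA, ← integral_map hφ.aemeasurable hgm.aestronglyMeasurable, hmap,
    integral_smul_measure, ENNReal.toReal_ofReal hc.le]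
  have e2 : ∫ p, g p ∂((Measure.pi ν).prod (Measure.pi ρ))
      = c⁻¹ * ((∫ y, ∏ i, a i (y i) ∂(Measure.pi ν)) * ∫ z, ∏ j, b j (z j) ∂(Measure.pi ρ)) := by
    rw [← integral_prod_mul, ← integral_const_mul]
    congr 1
    funext p
    show (c⁻¹ * ∏ i, a i (p.1 i)) * ∏ j, b j (p.2 j) = _
    rw [mul_assoc]
  rw [e2, integral_fintype_prod_eq_prod, integral_fintype_prod_eq_prod]
  simp only [ha1, hb1, Finset.prod_const_one, mul_one, smul_eq_mul]
  exact mul_inv_cancel₀ hc.ne'

/-! ## 2. `Out_S` is a subgroup -/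

section Out

variable {K : Type} [Field K] [NumberField K]

theorem isIntegralAt_mul385 {v : HeightOneSpectrum (𝓞 K)} {a b : G K}
    (ha : IsIntegralAt v a) (hb : IsIntegralAt v b) : IsIntegralAt v (a * b) := by
  intro i j
  rw [H942.finComp_mul942, Matrix.mul_apply]
  exact sum_mem fun k _ => mul_mem (ha i k) (hb k j)

theorem outT_mul385 {S : Finset (HeightOneSpectrum (𝓞 K))} {a b : G K}
    (ha : OutT305 S a) (hb : OutT305 S b) : OutT305 S (a * b) := fun v hv =>
  ⟨isIntegralAt_mul385 (ha v hv).1 (hb v hv).1, by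
    rw [mul_inv_rev]
    exact isIntegralAt_mul385 (hb v hv).2 (ha v hv).2⟩

theorem outT_inv385 {S : Finset (HeightOneSpectrum (𝓞 K))} {a : G K}
    (ha : OutT305 S a) : OutT305 S a⁻¹ := fun v hv =>
  ⟨(ha v hv).2, by rw [inv_inv]; exact (ha v hv).1⟩

theorem outT_mul_iff385 {S : Finset (HeightOneSpectrum (𝓞 K))} {t x : G K}
    (hx : OutT305 S x) : OutT305 S (t * x) ↔ OutT305 S t := by
  constructor
  · intro h
    have := outT_mul385 h (outT_inv385 hx)
    rwa [mul_inv_cancel_right] at this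
  · intro h
    exact outT_mul385 h hx

end Out

/-! ## 3. The leaf -/

/-- **Leaf FD.5 `CutOnOutC558`**, unconditional. -/
theorem cutOnOutC385 (K : Type) [Field K] [NumberField K] : CutOnOutC558 K := by
  intro hσv hσc hcont m S γ hell hgood μT hμT L cT hL hcT hconst x' hx'
  classical
  letI iT : MeasurableSpace (tA305 (T5.AdelicAut.id K) γ) := borel _
  haveI bT : BorelSpace (tA305 (T5.AdelicAut.id K) γ) := ⟨rfl⟩
  letI iv : ∀ v : HeightOneSpectrum (𝓞 K), MeasurableSpace (GL (Fin 2) (v.adicCompletion K)) :=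
    fun _ => borel _
  haveI bv : ∀ v : HeightOneSpectrum (𝓞 K), BorelSpace (GL (Fin 2) (v.adicCompletion K)) :=
    fun _ => ⟨rfl⟩
  letI ic : MeasurableSpace (GL (Fin 2) ℂ) := borel _
  haveI bc : BorelSpace (GL (Fin 2) ℂ) := ⟨rfl⟩
  letI itv : ∀ v : HeightOneSpectrum (𝓞 K), MeasurableSpace
      (T6.twCentSub (T6.glAut (RingEquiv.refl (v.adicCompletion K))) (locG305 v γ)) :=
    fun _ => borel _
  haveI btv : ∀ v : HeightOneSpectrum (𝓞 K), BorelSpace
      (T6.twCentSub (T6.glAut (RingEquiv.refl (v.adicCompletion K))) (locG305 v γ)) :=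
    fun _ => ⟨rfl⟩
  letI itc : ∀ w : InfinitePlace K, MeasurableSpace (cent305 (archG305 w γ)) := fun _ => borel _
  haveI btc : ∀ w : InfinitePlace K, BorelSpace (cent305 (archG305 w γ)) := fun _ => ⟨rfl⟩
  have hmap := hconst S hgood
  -- the set `A`
  have hAo : IsOpen {t : tA305 (T5.AdelicAut.id K) γ | OutT305 S (t : G K)} :=
    (H942.isOpen_integralOutside942 S).preimage continuous_subtype_val
  have hAm : MeasurableSet {t : tA305 (T5.AdelicAut.id K) γ | OutT305 S (t : G K)} :=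
    hAo.measurableSet
  -- σ-finiteness
  haveI sν : ∀ i : S, SigmaFinite (Measure.map Subtype.val (L.μt i.1)) :=
    fun i => hσv i.1 (locG305 i.1 γ) (L.μt i.1) (hL.tor i.1).1
  haveI sρ : ∀ w : InfinitePlace K, SigmaFinite (Measure.map Subtype.val (L.μtc w)) :=
    fun w => hσc (archG305 w γ) (L.μtc w) (hL.torc w)
  -- measurability of the components
  have hφ : Measurable (fun t : tA305 (T5.AdelicAut.id K) γ => compS305 S (t : G K)) := by
    refine Measurable.prodMk ?_ ?_
    · exact measurable_pi_lambda _ fun i =>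
        ((hcont.1 i.1).comp continuous_subtype_val).measurable
    · exact measurable_pi_lambda _ fun w =>
        ((hcont.2 w).comp continuous_subtype_val).measurable
  have ha : ∀ i : S, Measurable
      (fun y : GL (Fin 2) (i.1.adicCompletion K) => L.βv i.1 (y * finGL305 i.1 x')) :=
    fun i => ((hL.cut i.1).1.comp (continuous_mul_const _)).measurable
  have hb : ∀ w : InfinitePlace K, Measurable
      (fun y : GL (Fin 2) ℂ => L.βc w (y * infGL305 w x')) :=
    fun w => ((hL.cutc w).1.comp (continuous_mul_const _)).measurable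
  -- the local integrals
  have ha1 : ∀ i : S, ∫ y, L.βv i.1 (y * finGL305 i.1 x')
      ∂(Measure.map Subtype.val (L.μt i.1)) = 1 := by
    intro i
    rw [integral_map continuous_subtype_val.measurable.aemeasurable
      (ha i).aestronglyMeasurable]
    exact (hL.cut i.1).2.2 (finGL305 i.1 x')
  have hb1 : ∀ w : InfinitePlace K, ∫ y, L.βc w (y * infGL305 w x')
      ∂(Measure.map Subtype.val (L.μtc w)) = 1 := by
    intro w
    rw [integral_map continuous_subtype_val.measurable.aemeasurable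
      (hb w).aestronglyMeasurable]
    exact (hL.cutc w).2.2 (infGL305 w x')
  have key := integral_cut_abs385 (Y := fun i : S => GL (Fin 2) (i.1.adicCompletion K))
    (Z := fun _ : InfinitePlace K => GL (Fin 2) ℂ) μT _ hAm _ hφ
    (fun i : S => Measure.map Subtype.val (L.μt i.1))
    (fun w : InfinitePlace K => Measure.map Subtype.val (L.μtc w)) cT hcT hmap
    (fun i y => L.βv i.1 (y * finGL305 i.1 x')) (fun w y => L.βc w (y * infGL305 w x'))
    ha hb ha1 hb1
  rw [← key]
  congr 1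
  funext t
  unfold prodCut305
  by_cases ht : OutT305 S (t : G K)
  · rw [if_pos ((outT_mul_iff385 hx').2 ht), if_pos (show t ∈ {t : tA305 (T5.AdelicAut.id K) γ |
      OutT305 S (t : G K)} from ht)]
    have e1 : ∀ v : HeightOneSpectrum (𝓞 K),
        finGL305 v ((t : G K) * x') = finGL305 v (t : G K) * finGL305 v x' :=
      fun v => map_mul _ _ _
    have e2 : ∀ w : InfinitePlace K,
        infGL305 w ((t : G K) * x') = infGL305 w (t : G K) * infGL305 w x' :=
      fun w => map_mul _ _ _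
    simp only [e1, e2]
    rw [← Finset.prod_coe_sort S (fun v => L.βv v (finGL305 v (t : G K) * finGL305 v x'))]
    rfl
  · rw [if_neg (fun h => ht ((outT_mul_iff385 hx').1 h)),
      if_neg (show ¬ t ∈ {t : tA305 (T5.AdelicAut.id K) γ | OutT305 S (t : G K)} from ht)]

end Fermat.Agent.LT.T7.H385

end

end
-- ===== PACK-END LT/T7/H385/CutOnOut.lean

-- ===== PACK-BEGIN LT/T7/H944/AvgInv.lean
section








/-!
# Row LT, tower T7, sub-leaf T7.L2.1.P1 `AvgInvC`: CLOSED (helper944)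

OFF-MAIN.  Sub-spec: `LT/T7/H40/ArchProjSpec.lean` (helper40, sha256 34d7f842), byte-identical
copy of the closure.  Nothing is assumed.

`avgInvC944 (K) : AvgInvC K` (VERBATIM): the mean over the unit cube along a period family is
invariant under the positive scalars.

Proof: `z = Y t₀`; `F s = ψ (g * Y s)` is `ℤ^ι`-periodic; the cube and its translate by `t₀` are
fundamental domains of `ℤ^ι` (`integral_cube_periodic944`, Mathlib only).
-/

set_option autoImplicit false

open AutomorphicForm IsDedekindDomain NumberField MeasureTheory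
open scoped Pointwise

noncomputable section

namespace Fermat.Agent.LT.T7.H944

open Fermat.Agent.LT.H556 Fermat.Agent.LT.H556.A0 Fermat.Agent.LT.T7 Fermat.Agent.LT.T7.H40

attribute [local instance] Fermat.Agent.LT.T5.instMeasurableSpaceG

/-- The elements of the lattice spanned by the standard basis are the integral vectors. -/
theorem exists_int_of_mem_span944 (ι : Type) [Fintype ι] (l : ι → ℝ)
    (hl : l ∈ Submodule.span ℤ (Set.range (Pi.basisFun ℝ ι))) :
    ∃ n : ι → ℤ, l = fun i => (n i : ℝ) := by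
  classical
  induction hl using Submodule.span_induction with
  | mem x hx =>
    obtain ⟨j, rfl⟩ := hx
    refine ⟨Pi.single j 1, ?_⟩
    funext i
    rw [Pi.basisFun_apply]
    by_cases h : i = j
    · subst h; simp
    · simp [h]
  | zero => exact ⟨0, by funext i; simp⟩
  | add x y _ _ hx hy =>
    obtain ⟨n, rfl⟩ := hx
    obtain ⟨m, rfl⟩ := hy
    exact ⟨n + m, by funext i; simp⟩
  | smul a x _ hx =>
    obtain ⟨n, rfl⟩ := hx
    exact ⟨a • n, by funext i; simp⟩

/-- The integral over the unit cube of a `ℤ^ι`-periodic function is invariant under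
translations. -/
theorem integral_cube_periodic944 (ι : Type) [Fintype ι] {E : Type*} [NormedAddCommGroup E]
    [NormedSpace ℝ E] (F : (ι → ℝ) → E)
    (hF : ∀ (s : ι → ℝ) (n : ι → ℤ), F (s + fun i => (n i : ℝ)) = F s) (t₀ : ι → ℝ) :
    (∫ t in Set.univ.pi fun _ : ι => Set.Ico (0 : ℝ) 1, F (t₀ + t))
      = ∫ t in Set.univ.pi fun _ : ι => Set.Ico (0 : ℝ) 1, F t := by
  have hD : IsAddFundamentalDomain (Submodule.span ℤ (Set.range (Pi.basisFun ℝ ι)))
      (Set.univ.pi fun _ : ι => Set.Ico (0 : ℝ) 1) volume := by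
    rw [← ZSpan.fundamentalDomain_pi_basisFun]
    exact ZSpan.isAddFundamentalDomain (Pi.basisFun ℝ ι) volume
  have hD' : IsAddFundamentalDomain (Submodule.span ℤ (Set.range (Pi.basisFun ℝ ι)))
      (t₀ +ᵥ (Set.univ.pi fun _ : ι => Set.Ico (0 : ℝ) 1)) volume :=
    hD.vadd_of_comm t₀
  have hinv : ∀ (l : Submodule.span ℤ (Set.range (Pi.basisFun ℝ ι))) (x : ι → ℝ),
      F (l +ᵥ x) = F x := by
    intro l x
    obtain ⟨n, hn⟩ := exists_int_of_mem_span944 ι (l : ι → ℝ) l.2
    have : (l +ᵥ x) = x + fun i => (n i : ℝ) := by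
      rw [← hn, add_comm]
      rfl
    rw [this, hF]
  haveI : VAddInvariantMeasure (Submodule.span ℤ (Set.range (Pi.basisFun ℝ ι))) (ι → ℝ)
      (volume : Measure (ι → ℝ)) :=
    ⟨fun l s _ => measure_preimage_add volume (l : ι → ℝ) s⟩
  have h1 := hD'.setIntegral_eq hD hinv
  rw [← h1]
  have h2 := (measurePreserving_add_left (volume : Measure (ι → ℝ)) t₀).setIntegral_image_emb
    (measurableEmbedding_addLeft t₀) F (Set.univ.pi fun _ : ι => Set.Ico (0 : ℝ) 1)
  rw [← h2]
  rfl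

/-- **T7.L2.1.P1 AVG-INV** (`AvgInvC`, VERBATIM). -/
theorem avgInvC944 (K : Type) [Field K] [NumberField K] : AvgInvC K := by
  intro 𝔑 r Y hY ψ hψ w z hz g
  obtain ⟨t₀, rfl⟩ := hY.surj w z hz
  have hF : ∀ (s : InfinitePlace K → ℝ) (n : InfinitePlace K → ℤ),
      ψ (g * Y (s + fun i => (n i : ℝ))) = ψ (g * Y s) := by
    intro s n
    rw [hY.mul, ← mul_assoc]
    exact hY.period ψ hψ.aut n (g * Y s)
  have key := integral_cube_periodic944 (InfinitePlace K) (fun s => ψ (g * Y s)) hF t₀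
  show (∫ t in cube40 K, ψ (g * Y t₀ * Y t)) = ∫ t in cube40 K, ψ (g * Y t)
  rw [cube40, ← key]
  refine integral_congr_ae (Filter.Eventually.of_forall fun t => ?_)
  show ψ (g * Y t₀ * Y t) = ψ (g * Y (t₀ + t))
  rw [hY.mul, mul_assoc]

end Fermat.Agent.LT.T7.H944

end

end
-- ===== PACK-END LT/T7/H944/AvgInv.lean

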