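import Mathlib
import Fermat.Agent.Pack.LT3.E23L0
import Fermat.Agent.Pack.LT3.E20L0
import Fermat.Agent.Pack.LT3.E21L1
import Fermat.Agent.Pack.LT3.E8L3
import Fermat.Agent.Pack.LT3.E23L1
import Fermat.Agent.Pack.LT2.E3L0
import Fermat.Agent.Pack.LT3.E23L3
import Fermat.Agent.Pack.LT3.E22L3
import Fermat.Agent.Pack.LT3.E22L2
import Fermat.Agent.Pack.LT2.E10L0
import Fermat.Agent.Pack.LT3.E21L0
import Fermat.Agent.Pack.LT3.E22L1
import Fermat.Agent.Pack.LT3.E22L0
import Fermat.Agent.Pack.LT3.E23L2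
import Fermat.Agent.Pack.LT3.E24L2
import Fermat.Agent.Pack.LT3.E24L3
import Fermat.Agent.Pack.LT3.E2L1
import Fermat.Agent.Pack.LT3.E24L1

set_option linter.all false

-- ===== PACK-BEGIN LT/T6/H865/FixTwClosed.lean
section










/-!
# Row LT, tower T6, leaf T6.13.3b (`H60.FixTwC`, registry 1133 / 982) -- CLOSED (helper865)

OFF-MAIN.  `fixTwC865 : H60.FixTwC`, UNCONDITIONAL: the assembly of `T6/H865/TwEllSpec.lean` with
the leaves of helper811 (`NFExistsC865`), helper264 (`LatSumC865`), helper820 (`H90rC865`),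
helper241 (`FixSigmaC865`), helper426 (`OutsideC865`), helper864 (`CongFixC865`) and helper439
(`H277.BallCountC`), all vendored byte-identical.
-/

set_option autoImplicit false

noncomputable section

namespace Fermat.Agent.LT.T6.H865

open Fermat.Agent.LT.T6

/-- The twisted normal form at the centre exists. -/
theorem twNFC865_closed : TwNFC865 :=
  twNF_of_leaves865 H811.nfExistsC811 H264.latSumC264

/-- The count in twisted normal form. -/
theorem twNFCountC865_closed : TwNFCountC865 :=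
  twNFCount_of_leaves865 H820.h90rC820 H241.fixSigmaC241 H426.outsideC426 H864.congFixC864
    H439.ballCountC_h439

/-- **T6.13.3b (`H60.FixTwC`), closed.** -/
theorem fixTwC865 : H60.FixTwC :=
  fixTw_of_leaves865 twNFC865_closed twNFCountC865_closed

end Fermat.Agent.LT.T6.H865

end
end
-- ===== PACK-END LT/T6/H865/FixTwClosed.lean

-- ===== PACK-BEGIN LT/T7/H166/CommGI.lean
section



/-!
# Row LT, tower T7, node T7.L2.2.N.1 `ClassModelC`, LEAF CM.05 `CommGIC616` (helper166, OFF-MAIN)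

`commGIC166 (K K') : CM616.CommGIC616 K K'` -- on the functions `ψ` such that `ψ` and
`cosetOp H ψ` are right invariant under `U(𝔑₀)`, the double coset operator `[U g U]` of a bad
element `g` commutes with the sum of the right translates by a finite set `H` of elements
supported at `o j`.

Proof.  `h = u₁ g u₂ ∈ Hg`, `g` trivial at `v = o j`.  Let `a_i` be the local part of `u_i` at `v`
(`locPart166`, built on helper129's `locFin129`); `a_i ∈ U(𝔑₀)` and `h = t a₁ a₂` with `t` trivial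
at `v`.  Then `(cosetOp H ψ)(x h) = (cosetOp H ψ)(x t) = ∑ ψ(x t h') = ∑ ψ(x h' t) = ∑ ψ(x h' h)`
(`t` commutes with the elements supported at `v`).  Only the first property of
`IsDblCosetSystem` and `IsBad`, `IsL2Data.deg` are used.
-/

set_option autoImplicit false

open IsDedekindDomain NumberField

noncomputable section

namespace Fermat.Agent.LT.T7.H166

open Fermat.Agent.LT.H556 Fermat.Agent.LT.H556.A0 Fermat.Agent.LT.T7 Fermat.Agent.LT.H129

section Local

variable {K : Type} [Field K] [NumberField K]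

/-- The local part of `h` at `v`: the element supported at `v` with the component of `h`. -/
def locPart166 (v : HeightOneSpectrum (𝓞 K)) (h : G K) : G K :=
  locFin129 v (finCompHom129 v h)

theorem finCompHom_locPart166 (v : HeightOneSpectrum (𝓞 K)) (h : G K) :
    finCompHom129 v (locPart166 v h) = finCompHom129 v h :=
  finCompHom129_locFin129 v _

theorem finCompHom_locPart_ne166 {v v' : HeightOneSpectrum (𝓞 K)} (hne : v' ≠ v) (h : G K) :
    finCompHom129 v' (locPart166 v h) = 1 :=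
  finCompHom129_locFin129_of_ne v _ hne

theorem isLocalAtFin_locPart166 (v : HeightOneSpectrum (𝓞 K)) (h : G K) :
    IsLocalAtFin v (locPart166 v h) :=
  isLocalAtFin_locFin129 v _

theorem locPart_inv166 (v : HeightOneSpectrum (𝓞 K)) (h : G K) :
    (locPart166 v h)⁻¹ = locPart166 v h⁻¹ := by
  unfold locPart166
  rw [map_inv, map_inv]

theorem zero_mem_idealClosure166 (𝔫 : Ideal (𝓞 K)) (v : HeightOneSpectrum (𝓞 K)) :
    (0 : v.adicCompletion K) ∈ idealClosure 𝔫 v := by
  apply subset_closure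
  exact ⟨0, 𝔫.zero_mem, by simp⟩

/-- The local part of an element of `U(𝔫)` is in `U(𝔫)`. -/
theorem inLevelGroup_locPart166 {𝔫 : Ideal (𝓞 K)} {u : G K} (hu : InLevelGroup 𝔫 u)
    (v : HeightOneSpectrum (𝓞 K)) : InLevelGroup 𝔫 (locPart166 v u) := by
  refine ⟨fun w => (isLocalAtFin_locPart166 v u).1 w, fun v' i j => ?_⟩
  by_cases hv : v' = v
  · subst hv
    have e1 : finComp v' (locPart166 v' u) = finComp v' u := by
      rw [← coe_finCompHom129, finCompHom_locPart166, coe_finCompHom129]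
    have e2 : finComp v' (locPart166 v' u)⁻¹ = finComp v' u⁻¹ := by
      rw [locPart_inv166, ← coe_finCompHom129, finCompHom_locPart166, coe_finCompHom129]
    rw [e1, e2]
    exact hu.2 v' i j
  · have e1 : finComp v' (locPart166 v u) = 1 := by
      rw [← coe_finCompHom129, finCompHom_locPart_ne166 hv]
      rfl
    have e2 : finComp v' (locPart166 v u)⁻¹ = 1 := by
      rw [locPart_inv166, ← coe_finCompHom129, finCompHom_locPart_ne166 hv]
      rfl
    rw [e1, e2, sub_self, Matrix.zero_apply]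
    exact ⟨zero_mem_idealClosure166 𝔫 v', zero_mem_idealClosure166 𝔫 v'⟩

/-- An element supported at `w` commutes with an element which is trivial at `w`
(= helper83's `mul_comm_of_local83`, reproved on helper129's kit). -/
theorem mul_comm_of_local166 {w : HeightOneSpectrum (𝓞 K)} {h u : G K}
    (hh : IsLocalAtFin w h) (hu : TrivAtFin w u) : h * u = u * h := by
  rw [isLocalAtFin_iff129] at hh
  rw [trivAtFin_iff129] at hu
  apply G_ext129
  · intro w'
    rw [map_mul, map_mul, hh.1 w', one_mul, mul_one]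
  · intro v
    by_cases e : v = w
    · subst e
      rw [map_mul, map_mul, hu, one_mul, mul_one]
    · rw [map_mul, map_mul, hh.2 v e, one_mul, mul_one]

/-- An element `u₁ g u₂` of `U(𝔫) g U(𝔫)`, `g` trivial at `v`, is `t a₁ a₂` with `t` trivial at
`v` and `a₁, a₂ ∈ U(𝔫)`. -/
theorem exists_decomp166 {𝔫 : Ideal (𝓞 K)} {v : HeightOneSpectrum (𝓞 K)} {g h : G K}
    (hg : TrivAtFin v g)
    (hh : ∃ u₁ u₂ : G K, InLevelGroup 𝔫 u₁ ∧ InLevelGroup 𝔫 u₂ ∧ h = u₁ * g * u₂) :
    ∃ t a₁ a₂ : G K, TrivAtFin v t ∧ InLevelGroup 𝔫 a₁ ∧ InLevelGroup 𝔫 a₂ ∧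
      h = t * a₁ * a₂ := by
  obtain ⟨u₁, u₂, h1, h2, rfl⟩ := hh
  refine ⟨u₁ * g * u₂ * (locPart166 v u₁ * locPart166 v u₂)⁻¹, locPart166 v u₁,
    locPart166 v u₂, ?_, inLevelGroup_locPart166 h1 v, inLevelGroup_locPart166 h2 v, ?_⟩
  · rw [trivAtFin_iff129] at hg ⊢
    rw [map_mul, map_mul, map_mul, map_inv, map_mul, hg, mul_one, finCompHom_locPart166,
      finCompHom_locPart166, mul_inv_cancel]
  · group

/-- The commutation, for functions on `GL₂(𝔸_K)`. -/
theorem cosetOp_comm166 {𝔫 : Ideal (𝓞 K)} {v : HeightOneSpectrum (𝓞 K)} {g : G K}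
    {Hg H : Finset (G K)} (hg : TrivAtFin v g)
    (hHg : ∀ h ∈ Hg, ∃ u₁ u₂ : G K, InLevelGroup 𝔫 u₁ ∧ InLevelGroup 𝔫 u₂ ∧ h = u₁ * g * u₂)
    (hH : ∀ h ∈ H, IsLocalAtFin v h) {ψ : G K → ℂ}
    (hψ : ∀ u : G K, InLevelGroup 𝔫 u → ∀ x : G K, ψ (x * u) = ψ x)
    (hHψ : ∀ u : G K, InLevelGroup 𝔫 u → ∀ x : G K, cosetOp H ψ (x * u) = cosetOp H ψ x)
    (x : G K) : cosetOp Hg (cosetOp H ψ) x = cosetOp H (cosetOp Hg ψ) x := by
  have hR : cosetOp H (cosetOp Hg ψ) x = ∑ h ∈ Hg, ∑ h' ∈ H, ψ (x * h' * h) := by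
    unfold cosetOp
    exact Finset.sum_comm
  rw [hR]
  show ∑ h ∈ Hg, cosetOp H ψ (x * h) = _
  refine Finset.sum_congr rfl fun h hh => ?_
  obtain ⟨t, a₁, a₂, ht, ha₁, ha₂, rfl⟩ := exists_decomp166 hg (hHg h hh)
  have e1 : cosetOp H ψ (x * (t * a₁ * a₂)) = cosetOp H ψ (x * t) := by
    have e : x * (t * a₁ * a₂) = x * t * a₁ * a₂ := by simp only [mul_assoc]
    rw [e, hHψ a₂ ha₂, hHψ a₁ ha₁]
  rw [e1]
  show ∑ h' ∈ H, ψ (x * t * h') = _
  refine Finset.sum_congr rfl fun h' hh' => ?_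
  have hc : h' * t = t * h' := mul_comm_of_local166 (hH h' hh') ht
  have e2 : x * h' * (t * a₁ * a₂) = x * (h' * t) * a₁ * a₂ := by simp only [mul_assoc]
  rw [e2, hψ a₂ ha₂, hψ a₁ ha₁, hc, mul_assoc]

end Local

/-- **LEAF CM.05 `CommGIC616`.** -/
theorem commGIC166 (K K' : Type) [Field K] [NumberField K] [Field K'] [NumberField K']
    [Algebra K K'] : CM616.CommGIC616 K K' := by
  intro ℓ Φ Dt hctx g Hg hbad hHg j hj H hH ψ hψ hHψ x
  have hgv : TrivAtFin (Dt.o j) g :=
    hbad.2 (Dt.o j) (Or.inr ⟨j, by rw [hctx.data.deg]; exact hj, rfl⟩)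
  exact cosetOp_comm166 hgv hHg.1 hH hψ hHψ x

end Fermat.Agent.LT.T7.H166

end

end
-- ===== PACK-END LT/T7/H166/CommGI.lean

-- ===== PACK-BEGIN LT/T7/H176/OpsAdj.lean
section





/-!
# Row LT, tower T7, node T7.L2.2.B4 `OpsC561`, leaf B4.6 `OpsAdjC561` (helper176)

OFF-MAIN.  `opsAdjC176 : T1.AdNormC K' → H561.OpsAdjC561 K K'` (VERBATIM vs
`LT/T7/H561/OpsSpec.lean` of helper561, sha256 17293f38): on the invariant cusp functions `W` of
the base level the operator `S_j = cosetOp (Hs j)` is symmetric and `ρ_j = trOp561 (ω j)` is an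
isometry, for ANY explicit system `IsIwSys561`.

Proof.  `innerD_transl176`: `⟨R(h) ψ, R(h') χ⟩ = ⟨ψ, R(h⁻¹ h') χ⟩` for automorphic functions
invariant under the ray generator (from `translInnerC176`: the integral over the fundamental
domain of a function invariant under `GL₂(K) × r^ℤ` is invariant under right translations).
With `h_a = !![a,1;1,0] = x_a s` (`x_a = !![1,a;0,1]` in the Iwahori subgroup, `s` the Weyl
element): `R(h_a⁻¹) χ = R(s x_{-a}) χ = R(s) χ` and `⟨ψ, R(h_a) χ⟩ = ⟨R(x_{-a}) ψ, R(s) χ⟩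
= ⟨ψ, R(s) χ⟩`; both sides are `∑_{h ∈ Hs j} ⟨ψ, R(s) χ⟩`.

Imports: byte-identical copies of the spec closure, of the local toolkit `LT/H129` (helper129),
`T7/H701/IwSys.lean` (helper701), `T5/H415/AutT5.lean` (helper415), `T5/H277` (helper277).
-/

set_option autoImplicit false

open AutomorphicForm IsDedekindDomain NumberField MeasureTheory
open scoped ComplexConjugate Matrix

noncomputable section

namespace Fermat.Agent.LT.T7.H176

open Fermat.Agent.LT.H556 Fermat.Agent.LT.H556.A0 Fermat.Agent.LT.T5 Fermat.Agent.LT.T7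
open Fermat.Agent.LT.T7.H561 Fermat.Agent.LT.H129

attribute [local instance] Fermat.Agent.LT.T5.instMeasurableSpaceG

section OneField

variable {K : Type} [Field K] [NumberField K]

/-! ## 1. Translations and the inner product on the fundamental domain -/

/-- `⟨R(h) ψ, R(h') χ⟩ = ⟨ψ, R(h⁻¹ h') χ⟩` for cusp functions. -/
theorem innerD_transl176 (hN : T1.AdNormC K) {μ : Measure (G K)} {F : Set (G K)} {r : G K}
    (hF : IsFrame μ F) (hr : IsRayGen r) {𝔫 : Ideal (𝓞 K)} {ψ χ : G K → ℂ}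
    (hψ : IsCuspFn 𝔫 trivType r ψ) (hχ : IsCuspFn 𝔫 trivType r χ) (h h' : G K) :
    innerD μ F (fun x => ψ (x * h)) (fun x => χ (x * h'))
      = innerD μ F ψ (fun x => χ (x * (h⁻¹ * h'))) := by
  obtain ⟨Cψ, hCψ⟩ := hψ.bdd
  obtain ⟨Cχ, hCχ⟩ := hχ.bdd
  have hcont : Continuous fun y : G K => ψ y * conj (χ (y * (h⁻¹ * h'))) :=
    hψ.cont.mul (Complex.continuous_conj.comp (hχ.cont.comp (continuous_mul_const _)))
  have hbdd : ∃ C : ℝ, ∀ g : G K, ‖ψ g * conj (χ (g * (h⁻¹ * h')))‖ ≤ C := by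
    refine ⟨Cψ * Cχ, fun g => ?_⟩
    rw [norm_mul, RCLike.norm_conj]
    exact mul_le_mul (hCψ g) (hCχ _) (norm_nonneg _) ((norm_nonneg _).trans (hCψ g))
  have hleft : ∀ (γ : GL (Fin 2) K) (g : G K),
      ψ (ratG γ * g) * conj (χ (ratG γ * g * (h⁻¹ * h'))) = ψ g * conj (χ (g * (h⁻¹ * h'))) := by
    intro γ g
    rw [hψ.aut.left_inv, mul_assoc, hχ.aut.left_inv]
  have hright : ∀ g : G K,
      ψ (g * r) * conj (χ (g * r * (h⁻¹ * h'))) = ψ g * conj (χ (g * (h⁻¹ * h'))) := by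
    intro g
    have hc : g * r * (h⁻¹ * h') = g * (h⁻¹ * h') * r := by
      rw [mul_assoc, H277.ray_comm277 hr, ← mul_assoc]
    rw [hψ.aut.ray, hc, hχ.aut.ray]
  have key := translInnerC176 hN μ F r hF hr _ hcont hbdd hleft hright h
  unfold innerD
  rw [← key]
  refine integral_congr_ae (Filter.Eventually.of_forall fun x => ?_)
  show ψ (x * h) * conj (χ (x * h')) = ψ (x * h) * conj (χ (x * h * (h⁻¹ * h')))
  rw [mul_assoc x h, mul_inv_cancel_left]

/-- The inner product is additive in the first variable (finite sums of translates). -/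
theorem innerD_sum_left176 {μ : Measure (G K)} {F : Set (G K)} {r : G K}
    (hF : IsFrame μ F) {𝔫 : Ideal (𝓞 K)} {ψ χ : G K → ℂ}
    (hψ : IsCuspFn 𝔫 trivType r ψ) (hχ : IsCuspFn 𝔫 trivType r χ) (H : Finset (G K)) :
    innerD μ F (cosetOp H ψ) χ = ∑ h ∈ H, innerD μ F (fun x => ψ (x * h)) χ := by
  have hB : BorelSpace (G K) := H277.borelSpaceG277
  have hfin : IsFiniteMeasure (μ.restrict F) := ⟨by simpa using hF.finite⟩
  obtain ⟨Cψ, hCψ⟩ := hψ.bdd
  obtain ⟨Cχ, hCχ⟩ := hχ.bdd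
  unfold innerD cosetOp
  rw [← integral_finsetSum]
  · refine integral_congr_ae (Filter.Eventually.of_forall fun x => ?_)
    simp only [Finset.sum_mul]
  · intro h _
    refine Integrable.of_bound (C := Cψ * Cχ) ?_ (Filter.Eventually.of_forall fun x => ?_)
    · exact ((hψ.cont.comp (continuous_mul_const h)).mul
        (Complex.continuous_conj.comp hχ.cont)).aestronglyMeasurable
    · rw [norm_mul, RCLike.norm_conj]
      exact mul_le_mul (hCψ _) (hCχ _) (norm_nonneg _) ((norm_nonneg _).trans (hCψ x))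

/-- The inner product is additive in the second variable (finite sums of translates). -/
theorem innerD_sum_right176 {μ : Measure (G K)} {F : Set (G K)} {r : G K}
    (hF : IsFrame μ F) {𝔫 : Ideal (𝓞 K)} {ψ χ : G K → ℂ}
    (hψ : IsCuspFn 𝔫 trivType r ψ) (hχ : IsCuspFn 𝔫 trivType r χ) (H : Finset (G K)) :
    innerD μ F ψ (cosetOp H χ) = ∑ h ∈ H, innerD μ F ψ (fun x => χ (x * h)) := by
  have hB : BorelSpace (G K) := H277.borelSpaceG277
  have hfin : IsFiniteMeasure (μ.restrict F) := ⟨by simpa using hF.finite⟩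
  obtain ⟨Cψ, hCψ⟩ := hψ.bdd
  obtain ⟨Cχ, hCχ⟩ := hχ.bdd
  unfold innerD cosetOp
  rw [← integral_finsetSum]
  · refine integral_congr_ae (Filter.Eventually.of_forall fun x => ?_)
    simp only [map_sum, Finset.mul_sum]
  · intro h _
    refine Integrable.of_bound (C := Cψ * Cχ) ?_ (Filter.Eventually.of_forall fun x => ?_)
    · exact (hψ.cont.mul (Complex.continuous_conj.comp
        (hχ.cont.comp (continuous_mul_const h)))).aestronglyMeasurable
    · rw [norm_mul, RCLike.norm_conj]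
      exact mul_le_mul (hCψ _) (hCχ _) (norm_nonneg _) ((norm_nonneg _).trans (hCψ x))

/-! ## 2. Local elements and the Iwahori invariance -/

/-- An element which is trivial at `v` lies in the Iwahori subgroup at `v`. -/
theorem inIwahori_of_trivAtFin176 {v : HeightOneSpectrum (𝓞 K)} {g : G K}
    (hg : TrivAtFin v g) : InIwahori v g := by
  have h1 : finCompHom129 v g = 1 := (trivAtFin_iff129 v g).1 hg
  have h2 : finCompHom129 v g⁻¹ = 1 := by rw [map_inv, h1, inv_one]
  have hint : ∀ u : G K, finCompHom129 v u = 1 → IsIntegralAt v u := by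
    intro u hu
    rw [isIntegralAt_iff129, hu]
    intro i j
    by_cases hij : i = j
    · subst hij
      simp only [Units.val_one, Matrix.one_apply_eq]
      exact (v.adicCompletionIntegers K).one_mem
    · simp only [Units.val_one, Matrix.one_apply_ne hij]
      exact (v.adicCompletionIntegers K).zero_mem
  refine ⟨hint g h1, hint g⁻¹ h2, ?_⟩
  rw [← coe_finCompHom129, h1]
  simp

/-- An Iwahori-invariant function is invariant under the upper unipotent elements with integral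
entry at a place of the orbit. -/
theorem iwInv_upper176 {l : ℕ} {o : ℕ → HeightOneSpectrum (𝓞 K)} {ψ : G K → ℂ}
    (hψ : IsIwInv l o ψ) {v : HeightOneSpectrum (𝓞 K)} (hv : ∃ j₀ < l, o j₀ = v)
    {b : v.adicCompletion K} (hb : b ∈ v.adicCompletionIntegers K) (x : G K) :
    ψ (x * locFin129 v (upperU129 b)) = ψ x := by
  obtain ⟨j₀, hj₀, rfl⟩ := hv
  have hloc := isLocalAtFin_locFin129 (o j₀) (upperU129 b)
  refine hψ _ hloc.1 (fun v hv => hloc.2 v (hv j₀ hj₀)) (fun j' _ => ?_) x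
  by_cases h : o j' = o j₀
  · rw [h]
    exact H701.inIwahori_upper701 (o j₀) hb
  · exact inIwahori_of_trivAtFin176 (hloc.2 _ h)

/-! ## 3. The local algebra: `!![a, 1; 1, 0] = x_a s` -/

section LocalAlg

variable {F : Type*} [Field F]

/-- The representative `!![a, 1; 1, 0]`. -/
def repS176 (a : F) : GL (Fin 2) F := mkGL129 a 1 1 0 (by simp)

theorem repS_eq176 (a : F) : repS176 a = upperU129 a * weyl129 := by
  apply ext_mat129
  rw [Matrix.GeneralLinearGroup.coe_mul]
  simp [repS176, upperU129, weyl129]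

theorem repS_inv176 (a : F) : (repS176 a)⁻¹ = weyl129 * upperU129 (-a) := by
  rw [repS_eq176, mul_inv_rev, weyl129_inv, upperU129_inv]

theorem upper_mul_repS176 (a : F) : upperU129 (-a) * repS176 a = weyl129 := by
  rw [repS_eq176, ← mul_assoc, ← upperU129_inv, inv_mul_cancel, one_mul]

end LocalAlg

/-- An element of an explicit system is the local embedding of `!![a, 1; 1, 0]`. -/
theorem eq_locFin_repS176 {v : HeightOneSpectrum (𝓞 K)} {h : G K} (hloc : IsLocalAtFin v h)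
    {a : v.adicCompletion K} (ha : finComp v h = !![a, 1; 1, 0]) :
    h = locFin129 v (repS176 a) := by
  have h1 := eq_locFin129_of_isLocalAtFin hloc
  have h2 : finCompHom129 v h = repS176 a := by
    apply ext_mat129
    rw [coe_finCompHom129, ha]
    rfl
  rw [h2] at h1
  exact h1

/-- **The key of the symmetry**: for `h = !![a, 1; 1, 0]` at a place `v` of the orbit and
Iwahori-invariant cusp functions, `⟨R(h) ψ, χ⟩ = ⟨ψ, R(s) χ⟩ = ⟨ψ, R(h) χ⟩`. -/
theorem innerD_repS176 (hN : T1.AdNormC K) {μ : Measure (G K)} {F : Set (G K)} {r : G K}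
    (hF : IsFrame μ F) (hr : IsRayGen r) {𝔫 : Ideal (𝓞 K)} {ψ χ : G K → ℂ}
    (hψ : IsCuspFn 𝔫 trivType r ψ) (hχ : IsCuspFn 𝔫 trivType r χ)
    {l : ℕ} {o : ℕ → HeightOneSpectrum (𝓞 K)} (hψi : IsIwInv l o ψ) (hχi : IsIwInv l o χ)
    {v : HeightOneSpectrum (𝓞 K)} (hv : ∃ j₀ < l, o j₀ = v)
    {a : v.adicCompletion K} (ha : a ∈ v.adicCompletionIntegers K) :
    innerD μ F (fun x => ψ (x * locFin129 v (repS176 a))) χ
      = innerD μ F ψ (fun x => χ (x * locFin129 v (repS176 a))) := by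
  have hna : -a ∈ v.adicCompletionIntegers K := (v.adicCompletionIntegers K).neg_mem _ ha
  -- the left side
  have e1 : innerD μ F (fun x => ψ (x * locFin129 v (repS176 a))) χ
      = innerD μ F ψ (fun x => χ (x * locFin129 v weyl129)) := by
    have h1 := innerD_transl176 hN hF hr hψ hχ (locFin129 v (repS176 a)) 1
    have h2 : (fun x : G K => χ (x * 1)) = χ := by
      funext x
      rw [mul_one]
    rw [h2] at h1
    rw [h1]
    congr 1
    funext x
    rw [mul_one, ← map_inv, repS_inv176, map_mul, ← mul_assoc]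
    exact iwInv_upper176 hχi hv hna _
  -- the right side
  have e2 : innerD μ F ψ (fun x => χ (x * locFin129 v (repS176 a)))
      = innerD μ F ψ (fun x => χ (x * locFin129 v weyl129)) := by
    have h1 := innerD_transl176 hN hF hr hψ hχ (locFin129 v (upperU129 (-a)))
      (locFin129 v (upperU129 (-a)) * locFin129 v (repS176 a))
    rw [inv_mul_cancel_left] at h1
    rw [← h1]
    have h3 : (fun x : G K => ψ (x * locFin129 v (upperU129 (-a)))) = ψ := by
      funext x
      exact iwInv_upper176 hψi hv hna x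
    rw [h3, ← map_mul, upper_mul_repS176]
  rw [e1, e2]

end OneField

/-! ## 4. The leaf -/

section TwoFields

variable {K K' : Type} [Field K] [NumberField K] [Field K'] [NumberField K'] [Algebra K K']

omit [Algebra K K'] in
theorem isBad_one176 (Dt : L2Data K K') : Dt.IsBad 1 :=
  ⟨fun w => (trivAtInf_iff129 w 1).2 (map_one _), fun v _ => (trivAtFin_iff129 v 1).2 (map_one _)⟩

/-- The orbit is periodic. -/
theorem orbit_add_period176 {ℓ : ℕ} {Φ : HeckeEigensystem K' ℂ} {Dt : L2Data K K'}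
    (hDt : IsL2Data ℓ Φ Dt) (j : ℕ) : Dt.o (j + ℓ) = Dt.o j := by
  have hc : IsCyclicOfDegree Dt.s Dt.l Dt.k := (hDt.comp 1 (isBad_one176 Dt)).cyc
  have h := H415.orbit_period415 Dt.s Dt.l Dt.k hc (fun n => Dt.o (j + n))
    (fun n => hDt.orbit_rel (j + n))
  rw [hDt.deg] at h
  exact h

/-- Every place of the orbit is one of the first `ℓ`. -/
theorem orbit_mod176 {ℓ : ℕ} {Φ : HeckeEigensystem K' ℂ} {Dt : L2Data K K'}
    (hDt : IsL2Data ℓ Φ Dt) (j : ℕ) : ∃ j₀ < ℓ, Dt.o j₀ = Dt.o j := by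
  have hc : IsCyclicOfDegree Dt.s Dt.l Dt.k := (hDt.comp 1 (isBad_one176 Dt)).cyc
  have hpos : 0 < ℓ := hDt.deg ▸ hc.pos
  have hmul : ∀ n i : ℕ, Dt.o (i + n * ℓ) = Dt.o i := by
    intro n
    induction n with
    | zero => intro i; rw [Nat.zero_mul, Nat.add_zero]
    | succ n ih =>
      intro i
      rw [Nat.succ_mul, ← Nat.add_assoc, orbit_add_period176 hDt, ih]
  refine ⟨j % ℓ, Nat.mod_lt _ hpos, ?_⟩
  have h := hmul (j / ℓ) (j % ℓ)
  rw [Nat.mul_comm, Nat.mod_add_div] at h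
  exact h.symm

/-- **LEAF B4.6 `OpsAdjC561`** from `T1.AdNormC`. -/
theorem opsAdjC176 (hN : T1.AdNormC K') : OpsAdjC561 K K' := by
  intro ℓ Φ Dt hs Hs ω hsys j ψ χ hψ hχ
  have hDt := hs.data
  have hcomp := hDt.comp 1 (isBad_one176 Dt)
  have hF : IsFrame Dt.R'.μ Dt.R'.F := hcomp.frame'.frame
  have hr : IsRayGen Dt.R'.r := hcomp.frame'.ray
  constructor
  · rw [innerD_sum_left176 hF hψ.cusp hχ.cusp, innerD_sum_right176 hF hψ.cusp hχ.cusp]
    refine Finset.sum_congr rfl fun h hh => ?_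
    obtain ⟨a, ha, hah⟩ := hsys.Hs_comp j h hh
    rw [eq_locFin_repS176 (hsys.Hs_local j h hh) hah]
    exact innerD_repS176 hN hF hr hψ.cusp hχ.cusp hψ.iw hχ.iw (orbit_mod176 hDt j) ha
  · have h1 := innerD_transl176 hN hF hr hψ.cusp hχ.cusp (ω j) (ω j)
    rw [inv_mul_cancel] at h1
    have h2 : (fun x : G K' => χ (x * 1)) = χ := by
      funext x
      rw [mul_one]
    rw [h2] at h1
    exact h1

end TwoFields

end Fermat.Agent.LT.T7.H176

end

end
-- ===== PACK-END LT/T7/H176/OpsAdj.lean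

-- ===== PACK-BEGIN LT/T7/H193/AvgFinal.lean
section





























/-!
# Row LT, tower T7, node T7.L2.1 `SupplyC`: sub-stations PROJ, KILL, NATURAL -- INTEGRATION
(sub-architect helper193)

OFF-MAIN.  Complete proofs, nothing assumed.  ALL the leaves of `ProjSpec.lean` (13) and
`KillSpec.lean` (12) are proved by the volunteers (byte-identical copies of their files):
`projLeaves193`, `killLeaves193`, `natLeaves193`.  The only hypothesis left is the output
`T1.T1Out K` of the closed tower T1 (`T1.t1Out`, helper54).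

* `exists_proj_closed193`  = the fields `proj_up` / `proj_down` of `T7.IsL2Data`
  (= `H893.ProjC` of helper893, without the divisibility hypothesis);
* `exists_killing193` = THE TOOL for the pre-data of helper893 (`IsL2Pre`: `up2_test`, `up2_ek`,
  `up2_inv`, `up2_op`, `up2_kill`, and the same downstairs): an Eisenstein-killing test function
  `φ₀` which is bi-invariant under `U(𝔑₀)` and the Iwahori subgroups along the orbit can be
  replaced by `φ₂ = φ₀♮` with the same properties, the same action on the invariant cusp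
  functions, and which KILLS the cusp functions orthogonal to the invariant ones.
-/

set_option autoImplicit false

open IsDedekindDomain NumberField MeasureTheory
open scoped ComplexConjugate

noncomputable section

namespace Fermat.Agent.LT.T7.H193

open Fermat.Agent.LT.H556 Fermat.Agent.LT.H556.A0 Fermat.Agent.LT

attribute [local instance] Fermat.Agent.LT.T5.instMeasurableSpaceG

variable {K : Type} [Field K] [NumberField K]

/-- The leaves of PROJ (all closed). -/
theorem projLeaves193 (K : Type) [Field K] [NumberField K] : ProjLeaves K where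
  translInv := H453.translInvC453 K
  hGroup := H543.hGroupC543 K
  finIndex := H981.finIndexC981 K
  finDataAsm := H454.finDataAsmC454 K
  finAvgCusp := H547.finAvgCuspC547 K
  finAvgOrth := H387.finAvgOrthC387 K
  posScal := H195.posScalC195 K
  unitInv := H613.unitInvC613 K
  dirichlet := H126.dirichletC126 K
  torusMean := H563.torusMeanC563
  torusDataAsm := H317.torusDataAsmC317 K
  torAvgW := H865.torAvgWC865 K
  torAvgOrth := H587.torAvgOrthC587 K

/-- The leaves of KILL (all closed). -/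
theorem killLeaves193 (K : Type) [Field K] [NumberField K] : KillLeaves K where
  rconvFinAvg := H905.rconvFinAvgC905 K
  rconvTorAvg := H622.rconvTorAvgC622 K
  null := H440.nullC440 K

/-- The leaves of NATURAL (all closed). -/
theorem natLeaves193 (K : Type) [Field K] [NumberField K] : NatLeaves K where
  basic := H496.natBasicC496 K
  smooth := H517.natSmoothC517 K
  op := H392.natOpC392 K
  ek := H646.natEKC646 K
  adjEK := H894.natAdjEKC894
  conv := H953.natConvC953 K
  absorb := H117.natAbsorbC117 K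
  fix := H887.torAvgFixC887 K
  hInv := H269.natHInvC269 K

/-- `φ` is bi-invariant under `U(𝔑₀)` and under the Iwahori subgroups along the orbit
(= `H893.IsUInv`, verbatim). -/
def IsBiHInv (𝔑₀ : Ideal (𝓞 K)) (l : ℕ) (o : ℕ → HeightOneSpectrum (𝓞 K)) (φ : G K → ℂ) :
    Prop :=
  (∀ u : G K, InLevelGroup 𝔑₀ u → ∀ y : G K, φ (u * y) = φ y ∧ φ (y * u) = φ y) ∧
    ∀ h : G K, (∀ w : InfinitePlace K, TrivAtInf w h) →
      (∀ v : HeightOneSpectrum (𝓞 K), (∀ j < l, v ≠ o j) → TrivAtFin v h) →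
      (∀ j < l, T5.InIwahori (o j) h) → ∀ y : G K, φ (h * y) = φ y ∧ φ (y * h) = φ y

theorem isRightHInv_of_biHInv193 {𝔑₀ : Ideal (𝓞 K)} {l : ℕ}
    {o : ℕ → HeightOneSpectrum (𝓞 K)} {φ : G K → ℂ} (h : IsBiHInv 𝔑₀ l o φ) :
    IsRightHInv 𝔑₀ l o φ :=
  ⟨fun u hu y => (h.1 u hu y).2, fun i hi y => (h.2 i hi.1 hi.2.1 hi.2.2 y).2⟩

/-- `♮` preserves the invariance on the left under any element. -/
theorem nat_left_inv193 (a : (InfinitePlace K → ℝ) → G K) (D : Set (InfinitePlace K → ℝ))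
    {φ : G K → ℂ} {u : G K} (h : ∀ y : G K, φ (u * y) = φ y) (y : G K) :
    nat193 a D φ (u * y) = nat193 a D φ y := by
  unfold nat193
  congr 1
  refine integral_congr_ae (Filter.Eventually.of_forall fun t => ?_)
  show φ (u * y * (a t)⁻¹) = φ (y * (a t)⁻¹)
  rw [mul_assoc, h]

/-- **The fields `proj_up` / `proj_down`.** -/
theorem exists_proj_closed193 (hT1 : T1.T1Out K) (R : Frame5 K)
    (hR : IsFrame5 R) (𝔑 𝔑₀ : Ideal (𝓞 K)) (h𝔑 : 𝔑 ≠ ⊥) (hle : 𝔑 ≤ 𝔑₀) (l : ℕ)
    (o : ℕ → HeightOneSpectrum (𝓞 K)) (ψ : G K → ℂ)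
    (hψ : T5.IsCuspFn 𝔑 T5.trivType R.r ψ) :
    ∃ ψ₁ : G K → ℂ, IsWFn 𝔑₀ R.r l o ψ₁ ∧
      ∀ χ : G K → ℂ, IsWFn 𝔑₀ R.r l o χ →
        T5.innerD R.μ R.F (fun x => ψ x - ψ₁ x) χ = 0 :=
  exists_proj193 hT1 (projLeaves193 K) R hR 𝔑 𝔑₀ h𝔑 hle l o ψ hψ

/-- **The generic KILL.** -/
theorem kill_closed193 (hT1 : T1.T1Out K) (R : Frame5 K)
    (hR : IsFrame5 R) (𝔑 𝔑₀ : Ideal (𝓞 K)) (h𝔑 : 𝔑 ≠ ⊥) (hle : 𝔑 ≤ 𝔑₀) (l : ℕ)
    (o : ℕ → HeightOneSpectrum (𝓞 K)) (φ : G K → ℂ) (hφc : Continuous φ)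
    (hφs : HasCompactSupport φ) (hH : IsRightHInv 𝔑₀ l o φ)
    (hA : AbsorbsPos R.μ 𝔑₀ R.r φ) :
    ∀ ψ : G K → ℂ, T5.IsCuspFn 𝔑 T5.trivType R.r ψ →
      (∀ χ : G K → ℂ, IsWFn 𝔑₀ R.r l o χ → T5.innerD R.μ R.F ψ χ = 0) →
      ∀ x : G K, T5.Rconv R.μ φ ψ x = 0 :=
  kill193 hT1 (projLeaves193 K) (killLeaves193 K) R hR 𝔑 𝔑₀ h𝔑 hle l o φ hφc hφs hH hA

/-- **The operation `♮`** (all properties; `T1.T1Out` is the only hypothesis). -/
theorem natural_closed193 (hT1 : T1.T1Out K) (R : Frame5 K) (hR : IsFrame5 R)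
    (𝔑₀ : Ideal (𝓞 K)) (h𝔑₀ : 𝔑₀ ≠ ⊥) :
    ∃ nat : (G K → ℂ) → G K → ℂ,
      (∀ (𝔫 : Ideal (𝓞 K)) (φ : G K → ℂ), T5.IsTestFn 𝔫 T5.trivType φ →
        T5.IsTestFn 𝔫 T5.trivType (nat φ)) ∧
      (∀ φ : G K → ℂ, Continuous φ → HasCompactSupport φ → T5.IsEK R.μ φ →
        T5.IsEK R.μ (nat φ)) ∧
      (∀ φ : G K → ℂ, Continuous φ → HasCompactSupport φ → T5.IsEK R.μ (T5.adjointFn φ) →
        T5.IsEK R.μ (T5.adjointFn (nat φ))) ∧
      (∀ (𝔑 : Ideal (𝓞 K)) (l : ℕ) (o : ℕ → HeightOneSpectrum (𝓞 K)) (φ : G K → ℂ),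
        IsRightHInv 𝔑 l o φ → IsRightHInv 𝔑 l o (nat φ)) ∧
      (∀ φ₁ φ₂ : G K → ℂ, Continuous φ₁ → HasCompactSupport φ₁ → Continuous φ₂ →
        HasCompactSupport φ₂ →
        (∀ g : G K, T5.conv R.μ (nat φ₁) φ₂ g = nat (T5.conv R.μ φ₁ φ₂) g) ∧
        ∀ g : G K, T5.conv R.μ φ₁ (nat φ₂) g = nat (T5.conv R.μ φ₁ φ₂) g) ∧
      (∀ φ : G K → ℂ, Continuous φ → HasCompactSupport φ →
        AbsorbsPos R.μ 𝔑₀ R.r (nat φ)) ∧
      ∀ φ : G K → ℂ, Continuous φ → HasCompactSupport φ →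
        ∀ e : G K → ℂ, Continuous e →
          (∀ (w : InfinitePlace K) (z : G K), IsArchPosScalar w z →
            ∀ g : G K, e (g * z) = e g) →
          ∀ x : G K, T5.Rconv R.μ (nat φ) e x = T5.Rconv R.μ φ e x :=
  natural193 hT1 (projLeaves193 K) (natLeaves193 K) R hR 𝔑₀ h𝔑₀

/-- **THE TOOL for the pre-data**: see the header. -/
theorem exists_killing193 (hT1 : T1.T1Out K) (R : Frame5 K)
    (hR : IsFrame5 R) (𝔑 𝔑₀ : Ideal (𝓞 K)) (h𝔑 : 𝔑 ≠ ⊥) (hle : 𝔑 ≤ 𝔑₀) (l : ℕ)
    (o : ℕ → HeightOneSpectrum (𝓞 K)) (φ₀ : G K → ℂ)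
    (htest : T5.IsTestFn 𝔑 T5.trivType φ₀) (hek : T5.IsEK R.μ φ₀)
    (hadj : T5.IsEK R.μ (T5.adjointFn φ₀)) (hinv : IsBiHInv 𝔑₀ l o φ₀) :
    ∃ φ₂ : G K → ℂ, T5.IsTestFn 𝔑 T5.trivType φ₂ ∧ T5.IsEK R.μ φ₂ ∧
      T5.IsEK R.μ (T5.adjointFn φ₂) ∧ IsBiHInv 𝔑₀ l o φ₂ ∧
      (∀ e : G K → ℂ, Continuous e →
        (∀ (w : InfinitePlace K) (z : G K), IsArchPosScalar w z →
          ∀ g : G K, e (g * z) = e g) →
        ∀ x : G K, T5.Rconv R.μ φ₂ e x = T5.Rconv R.μ φ₀ e x) ∧
      ∀ ψ : G K → ℂ, T5.IsCuspFn 𝔑 T5.trivType R.r ψ →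
        (∀ χ : G K → ℂ, IsWFn 𝔑₀ R.r l o χ → T5.innerD R.μ R.F ψ χ = 0) →
        ∀ x : G K, T5.Rconv R.μ φ₂ ψ x = 0 := by
  have h𝔑₀ : 𝔑₀ ≠ ⊥ := fun h => h𝔑 (le_bot_iff.mp (h ▸ hle))
  have L := projLeaves193 K
  have N := natLeaves193 K
  obtain ⟨a, D, hD⟩ := torusDataC_of193 L 𝔑₀ h𝔑₀ R.r hR.ray
  have ht : T5.IsTestFn 𝔑 T5.trivType (nat193 a D φ₀) := isTestFn_nat193 hT1 N hD htest
  have hr : IsRightHInv 𝔑₀ l o (nat193 a D φ₀) :=
    N.hInv 𝔑₀ R.r a D hD 𝔑₀ l o φ₀ (isRightHInv_of_biHInv193 hinv)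
  have hbi : IsBiHInv 𝔑₀ l o (nat193 a D φ₀) :=
    ⟨fun u hu y => ⟨nat_left_inv193 a D (fun y => (hinv.1 u hu y).1) y, hr.1 u hu y⟩,
      fun h h1 h2 h3 y =>
        ⟨nat_left_inv193 a D (fun y => (hinv.2 h h1 h2 h3 y).1) y, hr.2 h ⟨h1, h2, h3⟩ y⟩⟩
  have habs : AbsorbsPos R.μ 𝔑₀ R.r (nat193 a D φ₀) :=
    N.absorb hT1 N.op R hR 𝔑₀ a D hD φ₀ htest.cont htest.supp
  refine ⟨nat193 a D φ₀, ht, N.ek hT1 N.op R hR 𝔑₀ R.r a D hD φ₀ htest.cont htest.supp hek,
    N.adjEK hT1 R hR 𝔑₀ R.r a D hD φ₀ htest.cont htest.supp hadj, hbi, ?_, ?_⟩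
  · intro e he hi x
    rw [N.op hT1 R hR 𝔑₀ R.r a D hD φ₀ htest.cont htest.supp e he x]
    have hfix : torAvg a D e = e := funext fun g => N.fix 𝔑₀ R.r a D hD e hi g
    rw [hfix]
  · exact kill193 hT1 L (killLeaves193 K) R hR 𝔑 𝔑₀ h𝔑 hle l o _ ht.cont ht.supp hr habs

end Fermat.Agent.LT.T7.H193

end

end
-- ===== PACK-END LT/T7/H193/AvgFinal.lean

-- ===== PACK-BEGIN LT/T7/H193/NatMatchTop.lean
section



/-!
# Row LT, tower T7, node T7.L2.1 `SupplyC`: sub-station NAT-MATCH -- the PROVED TOPS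
(sub-architect helper193)

OFF-MAIN.  Complete proofs, nothing assumed (the leaves of `NatMatchSpec.lean` are hypotheses).

    natMatch193 : FlatNatC K → FlatNatC K' → JointIntC K → JointIntC K' → … →
      IsRelTorus Dd.𝔫 Dd.R.r Dd.R'.r a D a' D' →
      (∀ t' ∈ D', IsGlobMatch Dd (trl193 (a' t') φ') (trl193 (a (fibSum193 t')) f)) →
      IsGlobMatch Dd (nat193 a' D' φ') (nat193 a D f)
    orbInt_nat193 : the orbital integral of a torus mean is the mean of the orbital integrals of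
      the translates (one field)
    relTorusC_of193 : the leaves of REL-TORUS give `RelTorusC K K'`
    isTorusData_mono193 : torus data for a level are torus data for every larger ideal
-/

set_option autoImplicit false

open IsDedekindDomain NumberField MeasureTheory
open scoped ComplexConjugate

noncomputable section

namespace Fermat.Agent.LT.T7.H193

open Fermat.Agent.LT.H556 Fermat.Agent.LT.H556.A0 Fermat.Agent.LT

attribute [local instance] Fermat.Agent.LT.T5.instMeasurableSpaceG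

section OneField

variable {K : Type} [Field K] [NumberField K]

/-- The level groups are monotone in the ideal. -/
theorem inLevelGroup_mono193 {𝔑 𝔑₀ : Ideal (𝓞 K)} (hle : 𝔑 ≤ 𝔑₀) {u : G K}
    (hu : InLevelGroup 𝔑 u) : InLevelGroup 𝔑₀ u := by
  have hmono : ∀ v : HeightOneSpectrum (𝓞 K), idealClosure 𝔑 v ⊆ idealClosure 𝔑₀ v :=
    fun v => closure_mono (Set.image_mono hle)
  exact ⟨hu.1, fun v i j => ⟨hmono v (hu.2 v i j).1, hmono v (hu.2 v i j).2⟩⟩

/-- Torus data for the level `𝔑` are torus data for every ideal `𝔑₀ ⊇ 𝔑` (an automorphic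
function of level `𝔑₀` is one of level `𝔑`). -/
theorem isTorusData_mono193 {𝔑 𝔑₀ : Ideal (𝓞 K)} (hle : 𝔑 ≤ 𝔑₀) {r : G K}
    {a : (InfinitePlace K → ℝ) → G K} {D : Set (InfinitePlace K → ℝ)}
    (h : IsTorusData 𝔑 r a D) : IsTorusData 𝔑₀ r a D where
  cont := h.cont
  mul := h.mul
  inf := h.inf
  fin := h.fin
  central := h.central
  meas := h.meas
  bdd := h.bdd
  pos := h.pos
  mean := fun e he hc g s =>
    h.mean e ⟨he.left_inv, fun u hu g => he.level_inv u (inLevelGroup_mono193 hle hu) g,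
      he.arch_compact, he.ray⟩ hc g s

/-- **The orbital integral of a torus mean** is the mean of the orbital integrals of the
translates (`FlatNatC`, Fubini by `JointIntC`), and the orbital integrals of the translates are
integrable on `D`. -/
theorem orbInt_nat193 (hT1 : T1.T1Out K) (hF : FlatNatC K) (hJ : JointIntC K)
    (hRS : T5.H29.RaySlabC K) (s : T5.AdelicAut K) (l : ℕ) (k : Subfield K) (𝔫 : Ideal (𝓞 K))
    (hTB : T5.H29.TwBoundC s l k 𝔫) (hcyc : T5.IsCyclicOfDegree s l k)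
    (R : Frame5 K) (hR : IsFrame5 R) (hP : T5.AutPreserves s 𝔫 R.μ R.r)
    (a : (InfinitePlace K → ℝ) → G K) (D : Set (InfinitePlace K → ℝ))
    (ha : Continuous a) (hDm : MeasurableSet D) (hDb : Bornology.IsBounded D)
    (φ : G K → ℂ) (hφc : Continuous φ) (hφs : HasCompactSupport φ)
    (hreg : ∀ t ∈ D, T5.IsTwRegular s l k (trl193 (a t) φ))
    (δ : GL (Fin 2) K) (Fδ : Set (G K)) (hFδ : T5.IsTwDomain s δ Fδ) :
    IntegrableOn (fun t => ∫ x in Fδ, T5.twTerm R.r s (trl193 (a t) φ) δ x ∂(R.μ)) D volume ∧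
      ∫ x in Fδ, T5.twTerm R.r s (nat193 a D φ) δ x ∂(R.μ)
        = (((volume D).toReal : ℝ) : ℂ)⁻¹
          * ∫ t in D, ∫ x in Fδ, T5.twTerm R.r s (trl193 (a t) φ) δ x ∂(R.μ) := by
  have hB : BorelSpace (G K) := ⟨rfl⟩
  have : LocallyCompactSpace (G K) := hT1.locComp.2.1
  have : T2Space (G K) := hT1.locComp.2.2.1
  have : SecondCountableTopology (G K) := hT1.locComp.2.2.2
  have : R.μ.IsHaarMeasure := hR.frame.haar
  have hJ' := hJ hT1 hRS s l k 𝔫 hTB hcyc R.μ R.F R.r hR.frame hR.ray hP a D ha hDm hDb φ hφc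
    hφs hreg δ Fδ hFδ
  refine ⟨hJ'.integral_prod_right, ?_⟩
  have e1 : (fun x => T5.twTerm R.r s (nat193 a D φ) δ x)
      = fun x => (((volume D).toReal : ℝ) : ℂ)⁻¹
          * ∫ t in D, T5.twTerm R.r s (trl193 (a t) φ) δ x :=
    funext fun x => hF hT1 s R.r hR.ray a D ha hDm hDb φ hφc hφs δ x
  rw [e1, integral_const_mul]
  congr 1
  exact integral_integral_swap
    (f := fun x t => T5.twTerm R.r s (trl193 (a t) φ) δ x) hJ'

end OneField

section TwoFields

variable {K K' : Type} [Field K] [NumberField K] [Field K'] [NumberField K'] [Algebra K K']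

/-- **NAT-MATCH.**  For compatible torus data: if the translates are matched and regular, the
torus means are matched. -/
theorem natMatch193 (hT1 : T1.T1Out K) (hT1' : T1.T1Out K')
    (hF : FlatNatC K) (hF' : FlatNatC K') (hJ : JointIntC K) (hJ' : JointIntC K')
    (hRS : T5.H29.RaySlabC K) (hRS' : T5.H29.RaySlabC K')
    (Dd : CompData K K') (hDd : IsCompData Dd)
    (hTB : T5.H29.TwBoundC (T5.AdelicAut.id K) 1 ⊤ Dd.𝔫)
    (hTB' : T5.H29.TwBoundC Dd.s Dd.l Dd.k Dd.𝔑)
    {a : (InfinitePlace K → ℝ) → G K} {D : Set (InfinitePlace K → ℝ)}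
    {a' : (InfinitePlace K' → ℝ) → G K'} {D' : Set (InfinitePlace K' → ℝ)}
    (hrel : IsRelTorus Dd.𝔫 Dd.R.r Dd.R'.r a D a' D')
    (φ' : G K' → ℂ) (f : G K → ℂ)
    (hφ'c : Continuous φ') (hφ's : HasCompactSupport φ')
    (hfc : Continuous f) (hfs : HasCompactSupport f)
    (hreg' : ∀ t' ∈ D', T5.IsTwRegular Dd.s Dd.l Dd.k (trl193 (a' t') φ'))
    (hreg : ∀ t ∈ D, T5.IsTwRegular (T5.AdelicAut.id K) 1 ⊤ (trl193 (a t) f))
    (hM : ∀ t' ∈ D', IsGlobMatch Dd (trl193 (a' t') φ')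
      (trl193 (a (fibSum193 (K := K) t')) f)) :
    IsGlobMatch Dd (nat193 a' D' φ') (nat193 a D f) := by
  have keyd := fun (γ : GL (Fin 2) K) (Fγ : Set (G K))
      (h : T5.IsTwDomain (T5.AdelicAut.id K) γ Fγ) =>
    orbInt_nat193 hT1 hF hJ hRS (T5.AdelicAut.id K) 1 ⊤ Dd.𝔫 hTB T5.isCyclicOfDegree_id Dd.R
      hDd.frame (T5.autPreserves_id Dd.𝔫 Dd.R.μ Dd.R.r) a D hrel.down.cont hrel.down.meas
      hrel.down.bdd f hfc hfs hreg γ Fγ h
  have keyu := fun (δ : GL (Fin 2) K') (Fδ : Set (G K')) (h : T5.IsTwDomain Dd.s δ Fδ) =>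
    orbInt_nat193 hT1' hF' hJ' hRS' Dd.s Dd.l Dd.k Dd.𝔑 hTB' hDd.cyc Dd.R'
      hDd.frame' hDd.aut a' D' hrel.up.cont hrel.up.meas hrel.up.bdd φ' hφ'c hφ's hreg' δ Fδ h
  refine ⟨?_, ?_⟩
  · intro δ γ hell hnorm Fδ Fγ hFδ hFγ
    rw [(keyu δ Fδ hFδ).2, (keyd γ Fγ hFγ).2]
    have h1 : ∫ t' in D', ∫ x in Fδ, T5.twTerm Dd.R'.r Dd.s (trl193 (a' t') φ') δ x ∂(Dd.R'.μ)
        = ∫ t' in D', (fun t => ∫ x in Fγ,
            T5.twTerm Dd.R.r (T5.AdelicAut.id K) (trl193 (a t) f) γ x ∂(Dd.R.μ))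
            (fibSum193 (K := K) t') :=
      setIntegral_congr_fun hrel.up.meas fun t' ht' =>
        (hM t' ht').norm δ γ hell hnorm Fδ Fγ hFδ hFγ
    rw [h1]
    exact hrel.push _ (keyd γ Fγ hFγ).1
  · intro γ hell hnn Fγ hFγ
    rw [(keyd γ Fγ hFγ).2]
    have h0 : ∫ t in D, ∫ x in Fγ,
        T5.twTerm Dd.R.r (T5.AdelicAut.id K) (trl193 (a t) f) γ x ∂(Dd.R.μ)
        = ∫ _t in D, (0 : ℂ) :=
      setIntegral_congr_fun hrel.down.meas fun t ht => by
        obtain ⟨t', ht', rfl⟩ := hrel.onto t ht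
        exact (hM t' ht').nonnorm γ hell hnn Fγ hFγ
    rw [h0, integral_zero, mul_zero]

variable (K K') in
/-- **REL-TORUS from its leaves.** -/
theorem relTorusC_of193 (hP : PosScalC K) (hP' : PosScalC K') (hU : UnitInvC K)
    (hU' : UnitInvC K') (hD : DirichletC K) (hK : KerUnitsC K K') (hC : FibCardC K K')
    (hT : TorusParC) (hPush : PushParC) (hA : RelTorusAsmC K K') : RelTorusC K K' :=
  hA hP hP' hU hU' hD hK hC hT hPush

end TwoFields

end Fermat.Agent.LT.T7.H193

end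

end
-- ===== PACK-END LT/T7/H193/NatMatchTop.lean

-- ===== PACK-BEGIN LT/T7/H193/RelTorusAsm.lean
section



/-!
# Row LT, tower T7, node T7.L2.1, station NAT-MATCH, leaf RT.5 = REL-TORUS-ASM
(SPARE of row 2583, by the sub-architect helper193)

OFF-MAIN.  Imports the spec only.  New names only (suffix `RT193`).  No hole.

    relTorusAsmC193 (K K') : RelTorusAsmC K K'

`b₀` from `DirichletC K 𝔫 c`, `c = log t₀`; `b = ℓ • b₀`; `B = (lift (b₀ i))_i ∪ (logVec ε'_j)_j`;
`D`, `D'` the fundamental parallelepipeds; `N ∘ lift = ℓ` (`FibCardC`).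
-/

set_option autoImplicit false
set_option linter.unusedSectionVars false

open IsDedekindDomain NumberField MeasureTheory

noncomputable section

namespace Fermat.Agent.LT.T7.H193

open Fermat.Agent.LT.H556 Fermat.Agent.LT.H556.A0 Fermat.Agent.LT

attribute [local instance] Fermat.Agent.LT.T5.instMeasurableSpaceG

section Tools

variable {K : Type} [Field K] [NumberField K]
variable {K' : Type} [Field K'] [NumberField K'] [Algebra K K']

/-- An element of `GL₂(𝔸_K)` is determined by its components. -/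
theorem g_extRT193 (g h : G K) (hinf : ∀ w : InfinitePlace K, infComp w g = infComp w h)
    (hfin : ∀ v : HeightOneSpectrum (𝓞 K), finComp v g = finComp v h) : g = h := by
  apply Units.ext
  ext i j
  apply Prod.ext
  · funext w
    apply (InfinitePlace.Completion.extensionEmbedding w).injective
    exact congrFun (congrFun (hinf w) i) j
  · apply FiniteAdeleRing.ext
    intro v
    exact congrFun (congrFun (hfin v) i) j

variable (K K') in
/-- `N` as a linear map. -/
def fibSumLRT193 : (InfinitePlace K' → ℝ) →ₗ[ℝ] (InfinitePlace K → ℝ) where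
  toFun := fibSum193 (K := K)
  map_add' x y := by
    funext v
    simp only [fibSum193, Pi.add_apply]
    rw [← Finset.sum_add_distrib]
    refine Finset.sum_congr rfl fun w _ => ?_
    split_ifs <;> simp
  map_smul' c x := by
    funext v
    simp only [fibSum193, Pi.smul_apply, smul_eq_mul, RingHom.id_apply]
    rw [Finset.mul_sum]
    refine Finset.sum_congr rfl fun w _ => ?_
    split_ifs <;> simp

theorem fibSumLRT193_apply (x : InfinitePlace K' → ℝ) :
    fibSumLRT193 K K' x = fibSum193 (K := K) x := rfl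

variable (K K') in
/-- The lift as a linear map. -/
def liftLRT193 : (InfinitePlace K → ℝ) →ₗ[ℝ] (InfinitePlace K' → ℝ) where
  toFun := liftVec193 (K' := K')
  map_add' _ _ := rfl
  map_smul' _ _ := rfl

theorem liftLRT193_apply (x : InfinitePlace K → ℝ) :
    liftLRT193 K K' x = liftVec193 (K' := K') x := rfl

/-- `N (lift x) = ℓ x`. -/
theorem fibSum_liftRT193 {ℓ : ℕ}
    (hfib : ∀ v : InfinitePlace K,
      Nat.card {w : InfinitePlace K' // w.comap (algebraMap K K') = v} = ℓ)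
    (x : InfinitePlace K → ℝ) :
    fibSum193 (K := K) (liftVec193 (K' := K') x) = (ℓ : ℝ) • x := by
  classical
  funext v
  simp only [fibSum193, liftVec193, Pi.smul_apply, smul_eq_mul]
  have h1 : ∀ w : InfinitePlace K',
      (if w.comap (algebraMap K K') = v then x (w.comap (algebraMap K K')) else 0)
        = if w.comap (algebraMap K K') = v then x v else 0 := by
    intro w
    split_ifs with h
    · rw [h]
    · rfl
  rw [Finset.sum_congr rfl (fun w _ => h1 w), ← Finset.sum_filter, Finset.sum_const,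
    nsmul_eq_mul]
  congr 1
  rw [← hfib v, Nat.card_eq_fintype_card, Fintype.card_subtype]

/-- Invariance under `z` gives invariance under the powers of `z`. -/
theorem inv_powRT193 {e : G K → ℂ} {z : G K} (h : ∀ g : G K, e (g * z) = e g) (n : ℕ) :
    ∀ g : G K, e (g * z ^ n) = e g := by
  induction n with
  | zero => intro g; simp
  | succ n ih =>
    intro g
    rw [pow_succ, ← mul_assoc, h, ih]

/-- A homomorphism maps the multiples to the powers. -/
theorem a_nsmulRT193 {a : (InfinitePlace K → ℝ) → G K}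
    (ha : ∀ s t : InfinitePlace K → ℝ, a (s + t) = a s * a t) (n : ℕ)
    (x : InfinitePlace K → ℝ) : a ((n : ℝ) • x) = a x ^ n := by
  have h0 : a 0 = 1 := by
    have h := ha 0 0
    rw [add_zero] at h
    exact (mul_eq_left (a := a 0) (b := a 0)).mp h.symm
  induction n with
  | zero => simp [h0]
  | succ n ih =>
    rw [pow_succ, ← ih, ← ha]
    congr 1
    push_cast
    rw [add_smul, one_smul]

/-- The basis upstairs: the lifts of a basis downstairs and a basis of `ker N`. -/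
theorem exists_basisRT193 {ℓ : ℕ} (hℓ : ℓ ≠ 0)
    (hfib : ∀ v : InfinitePlace K,
      Nat.card {w : InfinitePlace K' // w.comap (algebraMap K K') = v} = ℓ)
    (b₀ : Module.Basis (InfinitePlace K) ℝ (InfinitePlace K → ℝ))
    {J : Type} [Fintype J] (y : J → InfinitePlace K' → ℝ)
    (hy0 : ∀ j, fibSum193 (K := K) (y j) = 0)
    (hyli : LinearIndependent ℝ y)
    (hysp : ∀ x : InfinitePlace K' → ℝ, fibSum193 (K := K) x = 0 →
      x ∈ Submodule.span ℝ (Set.range y)) :
    ∃ B : Module.Basis (InfinitePlace K ⊕ J) ℝ (InfinitePlace K' → ℝ),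
      (∀ i, B (Sum.inl i) = liftVec193 (K' := K') (b₀ i)) ∧ (∀ j, B (Sum.inr j) = y j) := by
  classical
  have hNL : ∀ x, fibSumLRT193 K K' (liftLRT193 K K' x) = (ℓ : ℝ) • x :=
    fun x => fibSum_liftRT193 hfib x
  have hℓR : (ℓ : ℝ) ≠ 0 := Nat.cast_ne_zero.mpr hℓ
  have hker : LinearMap.ker (liftLRT193 K K') = ⊥ := by
    rw [LinearMap.ker_eq_bot']
    intro x hx
    have h := hNL x
    rw [hx, map_zero] at h
    exact (smul_eq_zero.mp h.symm).resolve_left hℓR
  have hli1 : LinearIndependent ℝ (fun i => liftVec193 (K' := K') (b₀ i)) :=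
    b₀.linearIndependent.map' (liftLRT193 K K') hker
  have hdisj : Disjoint
      (Submodule.span ℝ (Set.range fun i => liftVec193 (K' := K') (b₀ i)))
      (Submodule.span ℝ (Set.range y)) := by
    rw [Submodule.disjoint_def]
    intro x hx1 hx2
    have h1 : x ∈ LinearMap.range (liftLRT193 K K') := by
      refine (Submodule.span_le.mpr ?_) hx1
      rintro _ ⟨i, rfl⟩
      exact ⟨b₀ i, rfl⟩
    have h2 : x ∈ LinearMap.ker (fibSumLRT193 K K') := by
      refine (Submodule.span_le.mpr ?_) hx2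
      rintro _ ⟨j, rfl⟩
      exact hy0 j
    obtain ⟨z, rfl⟩ := h1
    have h := hNL z
    rw [LinearMap.mem_ker.mp h2] at h
    have hz : z = 0 := (smul_eq_zero.mp h.symm).resolve_left hℓR
    rw [hz, map_zero]
  have hli : LinearIndependent ℝ (Sum.elim (fun i => liftVec193 (K' := K') (b₀ i)) y) :=
    LinearIndependent.sum_type hli1 hyli hdisj
  have hsp : ⊤ ≤ Submodule.span ℝ
      (Set.range (Sum.elim (fun i => liftVec193 (K' := K') (b₀ i)) y)) := by
    intro x _
    rw [Set.Sum.elim_range, Submodule.span_union]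
    have hx : x = liftLRT193 K K' ((ℓ : ℝ)⁻¹ • fibSumLRT193 K K' x)
        + (x - liftLRT193 K K' ((ℓ : ℝ)⁻¹ • fibSumLRT193 K K' x)) :=
      (add_sub_cancel _ _).symm
    rw [hx]
    refine Submodule.add_mem_sup ?_ ?_
    · have h0 : ((ℓ : ℝ)⁻¹ • fibSumLRT193 K K' x) ∈ Submodule.span ℝ (Set.range b₀) := by
        rw [b₀.span_eq]
        trivial
      have h3 := Submodule.mem_map_of_mem (f := liftLRT193 K K') h0
      rw [Submodule.map_span, ← Set.range_comp] at h3
      exact h3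
    · apply hysp
      show fibSumLRT193 K K' (x - liftLRT193 K K' ((ℓ : ℝ)⁻¹ • fibSumLRT193 K K' x)) = 0
      rw [map_sub, hNL, smul_smul, mul_inv_cancel₀ hℓR, one_smul, sub_self]
  refine ⟨Module.Basis.mk hli hsp, fun i => ?_, fun j => ?_⟩
  · rw [Module.Basis.mk_apply]
    rfl
  · rw [Module.Basis.mk_apply]
    rfl

end Tools

/-- **LEAF RT.5 = REL-TORUS-ASM** (VERBATIM). -/
theorem relTorusAsmC193 (K K' : Type) [Field K] [NumberField K] [Field K'] [NumberField K']
    [Algebra K K'] : RelTorusAsmC K K' := by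
  classical
  intro hPos hPos' hUnit hUnit' hDir hKer hFib hTor hPush ℓ hcyc htot 𝔫 h𝔫 r r' hr hr'
  obtain ⟨a, ha_cont, ha_mul, ha_inf, ha_fin, ha_central⟩ := hPos
  obtain ⟨a', ha'_cont, ha'_mul, ha'_inf, ha'_fin, ha'_central⟩ := hPos'
  obtain ⟨hrfin, t₀, ht₀pos, ht₀pow, hrinf⟩ := hr
  obtain ⟨hr'fin, t₀', ht₀'pos, ht₀'pow, hr'inf⟩ := hr'
  have hℓ : ℓ ≠ 0 := hcyc.prime.ne_zero
  have hℓR : (ℓ : ℝ) ≠ 0 := Nat.cast_ne_zero.mpr hℓ
  have hdeg : Module.finrank ℚ K' = Module.finrank ℚ K * ℓ := by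
    rw [← hcyc.degree, Module.finrank_mul_finrank]
  have ht : t₀ = t₀' ^ ℓ := by
    have h1 : (t₀' ^ ℓ) ^ (2 * Module.finrank ℚ K) = 2 := by
      rw [← pow_mul, ← ht₀'pow, hdeg]
      congr 1
      ring
    have hn : 2 * Module.finrank ℚ K ≠ 0 := by
      have := Module.finrank_pos (R := ℚ) (M := K)
      omega
    exact (pow_left_inj₀ ht₀pos.le (pow_nonneg ht₀'pos.le ℓ) hn).mp (ht₀pow.trans h1.symm)
  have hc' : Real.log t₀' ≠ 0 := by
    intro h0
    rcases Real.log_eq_zero.mp h0 with h | h | h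
    · linarith
    · rw [h, one_pow] at ht₀'pow
      norm_num at ht₀'pow
    · linarith
  have hclog : Real.log t₀ = (ℓ : ℝ) * Real.log t₀' := by
    rw [ht, Real.log_pow]
  have hc : Real.log t₀ ≠ 0 := by
    rw [hclog]
    exact mul_ne_zero hℓR hc'
  obtain ⟨b₀, hb₀⟩ := hDir 𝔫 h𝔫 (Real.log t₀) hc
  obtain ⟨J, hJ, ε', hε'mem, hε'ker, hε'li, hε'sp⟩ := hKer ℓ hcyc htot 𝔫 h𝔫
  letI : Fintype J := hJ
  have hfib := hFib ℓ hcyc htot
  obtain ⟨B, hBl, hBr⟩ := exists_basisRT193 hℓ hfib b₀ (fun j => logVec193 (ε' j))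
    hε'ker hε'li hε'sp
  obtain ⟨b, hb⟩ : ∃ b : Module.Basis (InfinitePlace K) ℝ (InfinitePlace K → ℝ),
      ∀ i, b i = (ℓ : ℝ) • b₀ i :=
    ⟨b₀.isUnitSMul (w := fun _ => (ℓ : ℝ)) (fun _ => isUnit_iff_ne_zero.mpr hℓR),
      fun i => Module.Basis.isUnitSMul_apply _ i⟩
  obtain ⟨hmaps, honto, hpush⟩ :=
    hPush (InfinitePlace K) (InfinitePlace K') J (fibSumLRT193 K K') b B
      (fun i => by rw [hBl, fibSumLRT193_apply, fibSum_liftRT193 hfib, hb])
      (fun j => by rw [hBr]; exact hε'ker j)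
  obtain ⟨hDm, hDb, hDp, hDmean⟩ := hTor (InfinitePlace K) (InfinitePlace K) b
  obtain ⟨hD'm, hD'b, hD'p, hD'mean⟩ := hTor (InfinitePlace K ⊕ J) (InfinitePlace K') B
  refine ⟨a, ZSpan.fundamentalDomain b, a', ZSpan.fundamentalDomain B,
    ⟨⟨ha_cont, ha_mul, ha_inf, ha_fin, ha_central, hDm, hDb, hDp, ?_⟩,
      ⟨ha'_cont, ha'_mul, ha'_inf, ha'_fin, ha'_central, hD'm, hD'b, hD'p, ?_⟩,
      hmaps, honto, hpush⟩⟩
  · -- the mean downstairs
    intro e he _ g s
    refine hDmean (fun t => e (g * a t)) (fun i t => ?_) s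
    show e (g * a (t + b i)) = e (g * a t)
    rw [ha_mul, ← mul_assoc, hb, a_nsmulRT193 ha_mul]
    refine inv_powRT193 (fun g => ?_) ℓ _
    rcases hb₀ i with h | ⟨ε, hε, h⟩
    · have hr1 : a (b₀ i) = r := by
        apply g_extRT193
        · intro w
          rw [ha_inf, hrinf, h, Real.exp_log ht₀pos]
        · intro v
          rw [show finComp v (a (b₀ i)) = 1 from ha_fin (b₀ i) v,
            show finComp v r = 1 from hrfin v]
      rw [hr1]
      exact he.ray _
    · refine hUnit 𝔫 r e he ε hε (a (b₀ i)) (ha_fin (b₀ i)) (fun w => ?_) _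
      have hpos : 0 < w (((ε : 𝓞 K)) : K) := by
        apply (InfinitePlace.pos_iff).mpr
        have : (ε : 𝓞 K) ≠ 0 := ε.ne_zero
        exact_mod_cast this
      rw [ha_inf, h, Real.exp_log hpos]
  · -- the mean upstairs
    intro e he _ g s
    refine hD'mean (fun t => e (g * a' t)) (fun i t => ?_) s
    show e (g * a' (t + B i)) = e (g * a' t)
    rw [ha'_mul, ← mul_assoc]
    rcases i with i | j
    · rw [hBl]
      rcases hb₀ i with h | ⟨ε, hε, h⟩
      · have h1 : liftVec193 (K' := K') (b₀ i) = (ℓ : ℝ) • (fun _ => Real.log t₀') := by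
          rw [h]
          funext w
          simp only [liftVec193, Pi.smul_apply, smul_eq_mul]
          exact hclog
        rw [h1, a_nsmulRT193 ha'_mul]
        refine inv_powRT193 (fun g => ?_) ℓ _
        have hr1 : a' (fun _ => Real.log t₀') = r' := by
          apply g_extRT193
          · intro w
            rw [ha'_inf, hr'inf, Real.exp_log ht₀'pos]
          · intro v
            rw [show finComp v (a' (fun _ => Real.log t₀')) = 1 from ha'_fin _ v,
              show finComp v r' = 1 from hr'fin v]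
        rw [hr1]
        exact he.ray _
      · have hcoe : ∀ x : 𝓞 K, ((algebraMap (𝓞 K) (𝓞 K') x : 𝓞 K') : K')
            = algebraMap K K' (x : K) := by
          intro x
          rfl
        refine hUnit' _ r' e he (Units.map (algebraMap (𝓞 K) (𝓞 K')).toMonoidHom ε) ?_
          (a' (liftVec193 (K' := K') (b₀ i))) (ha'_fin _) (fun w => ?_) _
        · have h2 : ((Units.map (algebraMap (𝓞 K) (𝓞 K')).toMonoidHom ε : (𝓞 K')ˣ) : 𝓞 K') - 1
              = algebraMap (𝓞 K) (𝓞 K') ((ε : 𝓞 K) - 1) := by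
            rw [map_sub, map_one]
            rfl
          rw [h2]
          exact Ideal.mem_map_of_mem _ hε
        · have hpos : 0 < w (algebraMap K K' (((ε : 𝓞 K)) : K)) := by
            apply (InfinitePlace.pos_iff).mpr
            have h3 : (ε : 𝓞 K) ≠ 0 := ε.ne_zero
            have h4 : (((ε : 𝓞 K)) : K) ≠ 0 := by exact_mod_cast h3
            exact (map_ne_zero _).mpr h4
          rw [ha'_inf, h]
          have h5 : liftVec193 (K' := K') (fun w => Real.log (w (((ε : 𝓞 K)) : K))) w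
              = Real.log (w (algebraMap K K' (((ε : 𝓞 K)) : K))) := by
            simp only [liftVec193]
            rw [InfinitePlace.comap_apply]
          rw [h5, Real.exp_log hpos]
          rfl
    · rw [hBr]
      refine hUnit' _ r' e he (ε' j) (hε'mem j) (a' (logVec193 (ε' j))) (ha'_fin _)
        (fun w => ?_) _
      have hpos : 0 < w (((ε' j : 𝓞 K')) : K') := by
        apply (InfinitePlace.pos_iff).mpr
        have : (ε' j : 𝓞 K') ≠ 0 := (ε' j).ne_zero
        exact_mod_cast this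
      rw [ha'_inf]
      simp only [logVec193]
      rw [Real.exp_log hpos]

end Fermat.Agent.LT.T7.H193

end

end
-- ===== PACK-END LT/T7/H193/RelTorusAsm.lean

-- ===== PACK-BEGIN LT/T7/H634/KerUnits.lean
section


/-!
# Row LT, tower T7, node T7.L2.1, sub-station NAT-MATCH, leaf RT.1 `KerUnitsC` (helper634, OFF-MAIN)

`kerUnitsC634 K K' : T7.H193.KerUnitsC K K'` — VERBATIM the frozen Prop of
`Fermat/Agent/LT/T7/H193/NatMatchSpec.lean` (helper193@2b431d43c, sha256 `4d7f0df5b118…`).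
Imports: the spec only.  New names only (suffix `634`), no hole, nothing assumed.

Proof.  `G = Gal(K'/K)` acts on the infinite places of `K'`, the fibres of
`InfinitePlace K' → InfinitePlace K` are the orbits (`exists_smul_eq_of_comap_eq`).  For
`x ∈ ker N` the average `∑_σ x(σ ·)` is constant on the fibres and in `ker N`, hence `0`; so
`|G| x = ∑_σ (x - x(σ ·)) = A x`.  The linear map `A` kills the constants and maps the log vector
of a unit `ε ≡ 1 mod 𝔫 𝒪_{K'}` to the sum of the log vectors of the units `ε / σ⁻¹ ε`, which are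
`≡ 1 mod 𝔫 𝒪_{K'}` and have log vectors in `ker N`.  By `DirichletC K'` (proved below, second
part: Mathlib's Dirichlet unit theorem) the constants and the log vectors of the units
`≡ 1 mod 𝔫 𝒪_{K'}` span, so the log vectors of the units `≡ 1` in `ker N` span `ker N`; a
spanning set contains a basis (`exists_linearIndependent`).  Neither the primality of the degree
nor `TotCplx K` is used.
-/

set_option autoImplicit false
set_option linter.unusedSectionVars false
set_option linter.unusedVariables false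

open IsDedekindDomain NumberField MeasureTheory

noncomputable section

namespace Fermat.Agent.LT.T7.H634

open Fermat.Agent.LT.T7 Fermat.Agent.LT.T7.H193

/-! ## 1. `DirichletC` (Mathlib's unit theorem) -/

section Dirichlet

open NumberField.Units NumberField.Units.dirichletUnitTheorem NumberField.InfinitePlace

variable (K : Type) [Field K] [NumberField K]

/-- A power of every unit is `≡ 1 mod 𝔑`. -/
theorem exists_exp634 (𝔑 : Ideal (𝓞 K)) (h𝔑 : 𝔑 ≠ ⊥) :
    ∃ m : ℕ, m ≠ 0 ∧ ∀ ε : (𝓞 K)ˣ, ((ε ^ m : (𝓞 K)ˣ) : 𝓞 K) - 1 ∈ 𝔑 := by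
  have : Finite (𝓞 K ⧸ 𝔑) := Ideal.finiteQuotientOfFreeOfNeBot 𝔑 h𝔑
  have : Finite (𝓞 K ⧸ 𝔑)ˣ := inferInstance
  refine ⟨Nat.card (𝓞 K ⧸ 𝔑)ˣ, Nat.card_pos.ne', fun ε => ?_⟩
  have h1 : (Units.map (Ideal.Quotient.mk 𝔑 : 𝓞 K →* 𝓞 K ⧸ 𝔑) ε) ^ Nat.card (𝓞 K ⧸ 𝔑)ˣ = 1 :=
    pow_card_eq_one'
  have h2 := congrArg (fun u : (𝓞 K ⧸ 𝔑)ˣ => (u : 𝓞 K ⧸ 𝔑)) h1
  simp only [Units.val_pow_eq_pow_val, Units.coe_map, MonoidHom.coe_coe, Units.val_one] at h2
  rw [← Ideal.Quotient.eq_zero_iff_mem, map_sub, map_one, Units.val_pow_eq_pow_val, map_pow, h2,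
    sub_self]

/-- The log vectors of the fundamental system, in `logSpace`. -/
def logBasis634 (i : Fin (rank K)) : logSpace K :=
  fun w => mult w.val * Real.log (w.val (fundSystem K i : 𝓞 K))

theorem logBasis634_apply (i : Fin (rank K)) (w : {w : InfinitePlace K // w ≠ w₀}) :
    logBasis634 K i w = mult w.val * Real.log (w.val (fundSystem K i : 𝓞 K)) := rfl

theorem logBasis634_linearIndependent : LinearIndependent ℝ (logBasis634 K) := by
  have h := isMaxRank_fundSystem K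
  unfold IsMaxRank at h
  exact h

/-- The bijection of the places `≠ w₀` with `Fin (rank K)`. -/
def eqv634 : {w : InfinitePlace K // w ≠ w₀} ≃ Fin (rank K) := by
  classical
  refine Fintype.equivOfCardEq ?_
  rw [Fintype.card_subtype_compl, Fintype.card_subtype_eq, Fintype.card_fin, rank]

open Classical in
/-- The family: the constant vector at `w₀`, log vectors of units elsewhere. -/
def fam634 (c : ℝ) (m : ℕ) (i : InfinitePlace K) : InfinitePlace K → ℝ :=
  if h : i = w₀ then fun _ => c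
  else fun w => Real.log (w (((fundSystem K (eqv634 K ⟨i, h⟩) ^ m : (𝓞 K)ˣ) : 𝓞 K) : K))

theorem fam634_w₀ (c : ℝ) (m : ℕ) : fam634 K c m w₀ = fun _ => c := by
  unfold fam634
  rw [dif_pos rfl]

theorem fam634_ne (c : ℝ) (m : ℕ) (i : InfinitePlace K) (h : i ≠ w₀) (w : InfinitePlace K) :
    fam634 K c m i w = m * Real.log (w ((fundSystem K (eqv634 K ⟨i, h⟩) : 𝓞 K) : K)) := by
  unfold fam634
  rw [dif_neg h]
  simp only [Units.val_pow_eq_pow_val, RingOfIntegers.coe_eq_algebraMap, map_pow, Real.log_pow]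

theorem fam634_linearIndependent (c : ℝ) (hc : c ≠ 0) (m : ℕ) (hm : m ≠ 0) :
    LinearIndependent ℝ (fam634 K c m) := by
  classical
  rw [Fintype.linearIndependent_iff]
  intro g hg
  -- the functional `∑ mult w · x_w`
  have hφ : ∑ w : InfinitePlace K, (mult w : ℝ) * (∑ i, g i • fam634 K c m i) w = 0 := by
    rw [hg]
    simp
  have hsplit : ∀ w : InfinitePlace K, (∑ i, g i • fam634 K c m i) w =
      g w₀ * c + ∑ i : {i : InfinitePlace K // i ≠ w₀},
        g i.1 * (m * Real.log (w ((fundSystem K (eqv634 K i) : 𝓞 K) : K))) := by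
    intro w
    rw [Finset.sum_apply, Fintype.sum_eq_add_sum_subtype_ne _ w₀]
    congr 1
    · rw [Pi.smul_apply, fam634_w₀, smul_eq_mul]
    · refine Finset.sum_congr rfl fun i _ => ?_
      rw [Pi.smul_apply, smul_eq_mul, fam634_ne K c m i.1 i.2]
  have hunit : ∀ i : {i : InfinitePlace K // i ≠ w₀},
      ∑ w : InfinitePlace K, (mult w : ℝ) *
        (g i.1 * (m * Real.log (w ((fundSystem K (eqv634 K i) : 𝓞 K) : K)))) = 0 := by
    intro i
    have := sum_mult_mul_log (fundSystem K (eqv634 K i))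
    calc ∑ w : InfinitePlace K, (mult w : ℝ) *
          (g i.1 * (m * Real.log (w ((fundSystem K (eqv634 K i) : 𝓞 K) : K))))
        = (g i.1 * m) * ∑ w : InfinitePlace K, (mult w : ℝ) *
            Real.log (w ((fundSystem K (eqv634 K i) : 𝓞 K) : K)) := by
          rw [Finset.mul_sum]
          refine Finset.sum_congr rfl fun w _ => ?_
          ring
      _ = 0 := by rw [this, mul_zero]
  have h0 : g w₀ = 0 := by
    simp only [hsplit, mul_add, Finset.sum_add_distrib, Finset.mul_sum] at hφ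
    rw [Finset.sum_comm] at hφ
    have h2 : ∑ i : {i : InfinitePlace K // i ≠ w₀}, ∑ w : InfinitePlace K, (mult w : ℝ) *
        (g i.1 * (m * Real.log (w ((fundSystem K (eqv634 K i) : 𝓞 K) : K)))) = 0 :=
      Finset.sum_eq_zero fun i _ => hunit i
    rw [h2, add_zero, ← Finset.sum_mul] at hφ
    have hpos : (0 : ℝ) < ∑ w : InfinitePlace K, (mult w : ℝ) := by
      refine Finset.sum_pos (fun w _ => ?_) Finset.univ_nonempty
      exact_mod_cast mult_pos
    rcases mul_eq_zero.1 hφ with h | h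
    · exact absurd h hpos.ne'
    · rcases mul_eq_zero.1 h with h' | h'
      · exact h'
      · exact absurd h' hc
  -- the log vectors
  have hlog : ∑ i : {i : InfinitePlace K // i ≠ w₀},
      (g i.1 * m) • logBasis634 K (eqv634 K i) = 0 := by
    funext w
    have := congrFun hg w.1
    rw [hsplit, h0, zero_mul, zero_add, Pi.zero_apply] at this
    rw [Finset.sum_apply, Pi.zero_apply]
    have h3 : ∑ i : {i : InfinitePlace K // i ≠ w₀},
        ((g i.1 * m) • logBasis634 K (eqv634 K i)) w =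
        (mult w.1 : ℝ) * ∑ i : {i : InfinitePlace K // i ≠ w₀},
          g i.1 * (m * Real.log (w.1 ((fundSystem K (eqv634 K i) : 𝓞 K) : K))) := by
      rw [Finset.mul_sum]
      refine Finset.sum_congr rfl fun i _ => ?_
      rw [Pi.smul_apply, smul_eq_mul, logBasis634_apply]
      ring
    rw [h3, this, mul_zero]
  have hli := logBasis634_linearIndependent K
  have hli' : LinearIndependent ℝ fun i : {i : InfinitePlace K // i ≠ w₀} =>
      logBasis634 K (eqv634 K i) := hli.comp _ (eqv634 K).injective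
  rw [Fintype.linearIndependent_iff] at hli'
  have hz := hli' (fun i => g i.1 * m) hlog
  intro i
  by_cases hi : i = w₀
  · rw [hi]; exact h0
  · have := hz ⟨i, hi⟩
    simp only at this
    rcases mul_eq_zero.1 this with h | h
    · exact h
    · exact absurd (Nat.cast_eq_zero.1 h) hm

/-- **PROJ.7 `DirichletC`** (VERBATIM `T7.H193.DirichletC K`; the proof of helper800,
`LT/T7/H800/Dirichlet.lean`, with new names, so that this file imports the spec only). -/
theorem dirichletC634 : H193.DirichletC K := by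
  classical
  intro 𝔑 h𝔑 c hc
  obtain ⟨m, hm, hmε⟩ := exists_exp634 K 𝔑 h𝔑
  have hcard : Fintype.card (InfinitePlace K) = Module.finrank ℝ (InfinitePlace K → ℝ) := by
    rw [Module.finrank_fintype_fun_eq_card]
  refine ⟨basisOfLinearIndependentOfCardEqFinrank (fam634_linearIndependent K c hc m hm) hcard,
    fun i => ?_⟩
  rw [coe_basisOfLinearIndependentOfCardEqFinrank]
  by_cases hi : i = w₀
  · left
    rw [hi, fam634_w₀]
  · right
    refine ⟨fundSystem K (eqv634 K ⟨i, hi⟩) ^ m, hmε _, ?_⟩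
    unfold fam634
    rw [dif_neg hi]

end Dirichlet

/-! ## 2. The Galois average -/

section KerUnits

variable {K K' : Type} [Field K] [NumberField K] [Field K'] [NumberField K'] [Algebra K K']

theorem fibSum_apply634 (x : InfinitePlace K' → ℝ) (v : InfinitePlace K) :
    fibSum193 (K := K) x v = ∑ w : InfinitePlace K',
      @ite ℝ (w.comap (algebraMap K K') = v) (Classical.propDecidable _) (x w) 0 := rfl

theorem logVec_apply634 (ε : (𝓞 K')ˣ) (w : InfinitePlace K') :
    logVec193 ε w = Real.log (w (((ε : 𝓞 K')) : K')) := rfl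

variable (K K') in
/-- `N` as a linear map. -/
def fibL634 : (InfinitePlace K' → ℝ) →ₗ[ℝ] (InfinitePlace K → ℝ) where
  toFun := fibSum193 (K := K)
  map_add' x y := by
    funext v
    rw [Pi.add_apply, fibSum_apply634, fibSum_apply634, fibSum_apply634, ← Finset.sum_add_distrib]
    refine Finset.sum_congr rfl fun w _ => ?_
    by_cases h : w.comap (algebraMap K K') = v
    · rw [if_pos h, if_pos h, if_pos h, Pi.add_apply]
    · rw [if_neg h, if_neg h, if_neg h, add_zero]
  map_smul' c x := by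
    funext v
    rw [Pi.smul_apply, fibSum_apply634, fibSum_apply634, RingHom.id_apply, smul_eq_mul,
      Finset.mul_sum]
    refine Finset.sum_congr rfl fun w _ => ?_
    by_cases h : w.comap (algebraMap K K') = v
    · rw [if_pos h, if_pos h, Pi.smul_apply, smul_eq_mul]
    · rw [if_neg h, if_neg h, mul_zero]

theorem fibL_apply634 (x : InfinitePlace K' → ℝ) : fibL634 K K' x = fibSum193 (K := K) x := rfl

/-- The translation of a vector by an automorphism. -/
def tw634 (σ : K' ≃ₐ[K] K') : (InfinitePlace K' → ℝ) →ₗ[ℝ] (InfinitePlace K' → ℝ) :=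
  LinearMap.funLeft ℝ ℝ (fun w : InfinitePlace K' => σ • w)

theorem tw_apply634 (σ : K' ≃ₐ[K] K') (x : InfinitePlace K' → ℝ) (w : InfinitePlace K') :
    tw634 σ x w = x (σ • w) := rfl

theorem comap_smul634 (σ : K' ≃ₐ[K] K') (w : InfinitePlace K') :
    (σ • w).comap (algebraMap K K') = w.comap (algebraMap K K') := by
  refine DFunLike.ext _ _ fun x => ?_
  show (σ • w) (algebraMap K K' x) = w (algebraMap K K' x)
  rw [InfinitePlace.smul_apply, AlgEquiv.commutes]

/-- `N` is invariant under the translations. -/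
theorem fibSum_tw634 (σ : K' ≃ₐ[K] K') (x : InfinitePlace K' → ℝ) :
    fibSum193 (K := K) (tw634 σ x) = fibSum193 (K := K) x := by
  funext v
  rw [fibSum_apply634, fibSum_apply634]
  have h : ∀ w : InfinitePlace K',
      @ite ℝ (w.comap (algebraMap K K') = v) (Classical.propDecidable _) (tw634 σ x w) 0
        = (fun w' : InfinitePlace K' =>
            @ite ℝ (w'.comap (algebraMap K K') = v) (Classical.propDecidable _) (x w') 0)
          ((MulAction.toPerm σ : Equiv.Perm (InfinitePlace K')) w) := by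
    intro w
    show _ = @ite ℝ ((σ • w).comap (algebraMap K K') = v) (Classical.propDecidable _)
      (x (σ • w)) 0
    rw [comap_smul634, tw_apply634]
  exact (Finset.sum_congr rfl fun w _ => h w).trans
    (Equiv.sum_comp (MulAction.toPerm σ : Equiv.Perm (InfinitePlace K'))
      (fun w' : InfinitePlace K' =>
        @ite ℝ (w'.comap (algebraMap K K') = v) (Classical.propDecidable _) (x w') 0))

/-- The average of a vector of `ker N` over the Galois group vanishes. -/
theorem sum_tw_eq_zero634 [IsGalois K K'] [Fintype (K' ≃ₐ[K] K')]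
    (x : InfinitePlace K' → ℝ) (hx : fibSum193 (K := K) x = 0) :
    ∑ σ : K' ≃ₐ[K] K', tw634 σ x = 0 := by
  classical
  set f : InfinitePlace K' → ℝ := ∑ σ : K' ≃ₐ[K] K', tw634 σ x with hf
  have hfw : ∀ w, f w = ∑ σ : K' ≃ₐ[K] K', x (σ • w) := by
    intro w
    rw [hf, Finset.sum_apply]
    rfl
  -- constant on the orbits
  have h1 : ∀ (τ : K' ≃ₐ[K] K') (w : InfinitePlace K'), f (τ • w) = f w := by
    intro τ w
    rw [hfw, hfw]
    refine Fintype.sum_equiv (Equiv.mulRight τ) _ _ fun σ => ?_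
    rw [Equiv.coe_mulRight, mul_smul]
  -- in the kernel
  have h2 : fibSum193 (K := K) f = 0 := by
    rw [← fibL_apply634, hf, map_sum]
    refine Finset.sum_eq_zero fun σ _ => ?_
    rw [fibL_apply634, fibSum_tw634, hx]
  funext w
  have h3 := congrFun h2 (w.comap (algebraMap K K'))
  rw [fibSum_apply634, Pi.zero_apply] at h3
  have h4 : ∀ w' : InfinitePlace K',
      @ite ℝ (w'.comap (algebraMap K K') = w.comap (algebraMap K K'))
        (Classical.propDecidable _) (f w') 0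
      = @ite ℝ (w'.comap (algebraMap K K') = w.comap (algebraMap K K'))
        (Classical.propDecidable _) (f w) 0 := by
    intro w'
    by_cases h : w'.comap (algebraMap K K') = w.comap (algebraMap K K')
    · rw [if_pos h, if_pos h]
      obtain ⟨τ, rfl⟩ := InfinitePlace.exists_smul_eq_of_comap_eq h.symm
      exact h1 τ w
    · rw [if_neg h, if_neg h]
  rw [Finset.sum_congr rfl fun w' _ => h4 w', ← Finset.sum_filter, Finset.sum_const,
    nsmul_eq_mul] at h3
  rcases mul_eq_zero.1 h3 with h | h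
  · exfalso
    have hmem : w ∈ (Finset.univ : Finset (InfinitePlace K')).filter
        (fun w' => w'.comap (algebraMap K K') = w.comap (algebraMap K K')) := by
      rw [Finset.mem_filter]
      exact ⟨Finset.mem_univ _, rfl⟩
    have hcard := Finset.card_pos.2 ⟨w, hmem⟩
    rw [Nat.cast_eq_zero] at h
    omega
  · rw [Pi.zero_apply]
    exact h

/-! ## 3. The units `ε / σ ε` -/

theorem logVec_mul634 (a b : (𝓞 K')ˣ) : logVec193 (a * b) = logVec193 a + logVec193 b := by
  funext w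
  have h : ((((a * b : (𝓞 K')ˣ) : 𝓞 K')) : K') = (((a : 𝓞 K')) : K') * (((b : 𝓞 K')) : K') := rfl
  rw [Pi.add_apply, logVec_apply634, logVec_apply634, logVec_apply634, h, map_mul, Real.log_mul]
  · exact (map_ne_zero w).2 (NumberField.Units.coe_ne_zero a)
  · exact (map_ne_zero w).2 (NumberField.Units.coe_ne_zero b)

theorem logVec_one634 : logVec193 (1 : (𝓞 K')ˣ) = 0 := by
  funext w
  have h : ((((1 : (𝓞 K')ˣ) : 𝓞 K')) : K') = 1 := rfl
  rw [logVec_apply634, h, map_one, Real.log_one, Pi.zero_apply]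

theorem logVec_inv634 (a : (𝓞 K')ˣ) : logVec193 a⁻¹ = - logVec193 a := by
  have h := logVec_mul634 a a⁻¹
  rw [mul_inv_cancel, logVec_one634] at h
  exact (neg_eq_of_add_eq_zero_right h.symm).symm

/-- The ring automorphism of `𝓞 K'` induced by an automorphism of `K'/K`. -/
def galO634 (σ : K' ≃ₐ[K] K') : 𝓞 K' ≃+* 𝓞 K' :=
  RingOfIntegers.mapRingEquiv (σ : K' ≃+* K')

theorem galO_coe634 (σ : K' ≃ₐ[K] K') (z : 𝓞 K') : ((galO634 σ z : 𝓞 K') : K') = σ (z : K') :=
  rfl

theorem galO_comp634 (σ : K' ≃ₐ[K] K') :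
    ((galO634 σ : 𝓞 K' ≃+* 𝓞 K') : 𝓞 K' →+* 𝓞 K').comp (algebraMap (𝓞 K) (𝓞 K'))
      = algebraMap (𝓞 K) (𝓞 K') := by
  refine RingHom.ext fun z => ?_
  apply RingOfIntegers.ext
  show σ (algebraMap K K' (z : K)) = algebraMap K K' (z : K)
  exact σ.commutes _

theorem galO_mem634 (σ : K' ≃ₐ[K] K') (𝔫 : Ideal (𝓞 K)) (z : 𝓞 K')
    (hz : z ∈ Ideal.map (algebraMap (𝓞 K) (𝓞 K')) 𝔫) :
    galO634 σ z ∈ Ideal.map (algebraMap (𝓞 K) (𝓞 K')) 𝔫 := by
  have h := Ideal.mem_map_of_mem ((galO634 σ : 𝓞 K' ≃+* 𝓞 K') : 𝓞 K' →+* 𝓞 K') hz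
  rw [Ideal.map_map, galO_comp634] at h
  exact h

/-- The unit `σ ε`. -/
def galU634 (σ : K' ≃ₐ[K] K') (ε : (𝓞 K')ˣ) : (𝓞 K')ˣ :=
  Units.map ((galO634 σ : 𝓞 K' ≃+* 𝓞 K') : 𝓞 K' →* 𝓞 K') ε

theorem galU_val634 (σ : K' ≃ₐ[K] K') (ε : (𝓞 K')ˣ) :
    ((galU634 σ ε : (𝓞 K')ˣ) : 𝓞 K') = galO634 σ (ε : 𝓞 K') := rfl

theorem logVec_galU634 (σ : K' ≃ₐ[K] K') (ε : (𝓞 K')ˣ) :
    logVec193 (galU634 σ.symm ε) = tw634 σ (logVec193 ε) := by
  funext w
  rw [tw_apply634, logVec_apply634, logVec_apply634, galU_val634, galO_coe634,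
    InfinitePlace.smul_apply]

/-- The set of the log vectors of the units `≡ 1 mod 𝔫 𝒪_{K'}` in `ker N`. -/
def kerSet634 (𝔫 : Ideal (𝓞 K)) : Set (InfinitePlace K' → ℝ) :=
  {y | ∃ u : (𝓞 K')ˣ, ((u : 𝓞 K') - 1 ∈ Ideal.map (algebraMap (𝓞 K) (𝓞 K')) 𝔫) ∧
      fibSum193 (K := K) (logVec193 u) = 0 ∧ logVec193 u = y}

theorem sub_tw_mem634 (σ : K' ≃ₐ[K] K') (𝔫 : Ideal (𝓞 K)) (ε : (𝓞 K')ˣ)
    (hε : (ε : 𝓞 K') - 1 ∈ Ideal.map (algebraMap (𝓞 K) (𝓞 K')) 𝔫) :
    logVec193 ε - tw634 σ (logVec193 ε) ∈ kerSet634 (K' := K') 𝔫 := by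
  have hlog : logVec193 (ε * (galU634 σ.symm ε)⁻¹) = logVec193 ε - tw634 σ (logVec193 ε) := by
    rw [logVec_mul634, logVec_inv634, logVec_galU634, sub_eq_add_neg]
  refine ⟨ε * (galU634 σ.symm ε)⁻¹, ?_, ?_, hlog⟩
  · have h1 : ((galU634 σ.symm ε : (𝓞 K')ˣ) : 𝓞 K') - 1
        ∈ Ideal.map (algebraMap (𝓞 K) (𝓞 K')) 𝔫 := by
      have := galO_mem634 σ.symm 𝔫 _ hε
      rwa [map_sub, map_one] at this
    have h2 : ((ε * (galU634 σ.symm ε)⁻¹ : (𝓞 K')ˣ) : 𝓞 K') - 1
        = (((ε : 𝓞 K') - 1) - (((galU634 σ.symm ε : (𝓞 K')ˣ) : 𝓞 K') - 1))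
          * (((galU634 σ.symm ε)⁻¹ : (𝓞 K')ˣ) : 𝓞 K') := by
      have h3 : ((galU634 σ.symm ε : (𝓞 K')ˣ) : 𝓞 K')
          * (((galU634 σ.symm ε)⁻¹ : (𝓞 K')ˣ) : 𝓞 K') = 1 := Units.mul_inv _
      rw [Units.val_mul]
      linear_combination h3
    rw [h2]
    exact Ideal.mul_mem_right _ _ (Ideal.sub_mem _ hε h1)
  · rw [hlog, ← fibL_apply634, map_sub, fibL_apply634, fibL_apply634, fibSum_tw634, sub_self]

/-! ## 4. The span -/

theorem mem_span_kerSet634 [IsGalois K K'] (hD : H193.DirichletC K') (𝔫 : Ideal (𝓞 K))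
    (h𝔫 : 𝔫 ≠ ⊥) (x : InfinitePlace K' → ℝ) (hx : fibSum193 (K := K) x = 0) :
    x ∈ Submodule.span ℝ (kerSet634 (K' := K') 𝔫) := by
  classical
  let _ : Fintype (K' ≃ₐ[K] K') := Fintype.ofFinite _
  have h𝔑 : Ideal.map (algebraMap (𝓞 K) (𝓞 K')) 𝔫 ≠ ⊥ := by
    intro h
    exact h𝔫 ((Ideal.map_eq_bot_iff_of_injective
      (NumberField.RingOfIntegers.algebraMap.injective K K')).1 h)
  obtain ⟨b, hb⟩ := hD _ h𝔑 1 one_ne_zero
  set A : (InfinitePlace K' → ℝ) →ₗ[ℝ] (InfinitePlace K' → ℝ) :=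
    ∑ σ : K' ≃ₐ[K] K', (LinearMap.id - tw634 σ) with hA
  have hAb : ∀ i, A (b i) ∈ Submodule.span ℝ (kerSet634 (K' := K') 𝔫) := by
    intro i
    rw [hA, LinearMap.sum_apply]
    refine Submodule.sum_mem _ fun σ _ => ?_
    rw [LinearMap.sub_apply, LinearMap.id_apply]
    rcases hb i with h | ⟨ε, hε, h⟩
    · have : b i - tw634 σ (b i) = 0 := by
        funext w
        rw [Pi.sub_apply, tw_apply634, h, sub_self, Pi.zero_apply]
      rw [this]
      exact Submodule.zero_mem _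
    · have h' : b i = logVec193 ε := h
      rw [h']
      exact Submodule.subset_span (sub_tw_mem634 σ 𝔫 ε hε)
  have hAall : ∀ y, A y ∈ Submodule.span ℝ (kerSet634 (K' := K') 𝔫) := by
    intro y
    have hy : y ∈ Submodule.span ℝ (Set.range b) := by
      rw [b.span_eq]
      exact Submodule.mem_top
    induction hy using Submodule.span_induction with
    | mem z hz =>
      obtain ⟨i, rfl⟩ := hz
      exact hAb i
    | zero => rw [map_zero]; exact Submodule.zero_mem _
    | add y z _ _ hy hz => rw [map_add]; exact Submodule.add_mem _ hy hz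
    | smul c y _ hy => rw [map_smul]; exact Submodule.smul_mem _ c hy
  have hAx : A x = (Fintype.card (K' ≃ₐ[K] K') : ℝ) • x := by
    have h0 := sum_tw_eq_zero634 x hx
    rw [hA, LinearMap.sum_apply]
    simp only [LinearMap.sub_apply, LinearMap.id_apply]
    rw [Finset.sum_sub_distrib, h0, sub_zero, Finset.sum_const, Finset.card_univ,
      Nat.cast_smul_eq_nsmul]
  have hcard : (Fintype.card (K' ≃ₐ[K] K') : ℝ) ≠ 0 := by
    exact_mod_cast Fintype.card_ne_zero
  have hxeq : x = (Fintype.card (K' ≃ₐ[K] K') : ℝ)⁻¹ • A x := by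
    rw [hAx, smul_smul, inv_mul_cancel₀ hcard, one_smul]
  rw [hxeq]
  exact Submodule.smul_mem _ _ (hAall x)

variable (K K') in
/-- `KerUnitsC` from `DirichletC K'`. -/
theorem kerUnitsC_of_dirichlet634 (hD : H193.DirichletC K') : H193.KerUnitsC K K' := by
  intro ℓ hcyc _ 𝔫 h𝔫
  have : IsGalois K K' := hcyc.galois
  obtain ⟨b, hbS, hbspan, hbli⟩ := exists_linearIndependent ℝ (kerSet634 (K' := K') 𝔫)
  have hfin : b.Finite := hbli.setFinite
  have hval : (fun j : b => logVec193 (Classical.choose (hbS j.2)))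
      = ((↑) : b → InfinitePlace K' → ℝ) :=
    funext fun j => (Classical.choose_spec (hbS j.2)).2.2
  refine ⟨b, hfin.fintype, fun j => Classical.choose (hbS j.2),
    fun j => (Classical.choose_spec (hbS j.2)).1,
    fun j => (Classical.choose_spec (hbS j.2)).2.1, ?_, ?_⟩
  · rw [hval]
    exact hbli
  · intro x hx
    rw [hval, Subtype.range_coe, hbspan]
    exact mem_span_kerSet634 hD 𝔫 h𝔫 x hx

end KerUnits

/-- **RT.1 `KerUnitsC`** (VERBATIM `T7.H193.KerUnitsC K K'`). -/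
theorem kerUnitsC634 (K K' : Type) [Field K] [NumberField K] [Field K'] [NumberField K']
    [Algebra K K'] : H193.KerUnitsC K K' :=
  kerUnitsC_of_dirichlet634 K K' (dirichletC634 K')

end Fermat.Agent.LT.T7.H634

end

end
-- ===== PACK-END LT/T7/H634/KerUnits.lean

-- ===== PACK-BEGIN LT/T7/H468/OpsShift.lean
section



/-!
# Row LT, tower T7, leaf T7.L2.3.5.3 `SD534.OpsClassC` (helper468): the shift `Z^k`

OFF-MAIN.  A scalar uniformiser `z` at `u` is central in `GL₂(𝔸_K)` (`central_scalar468`), hence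
the translation by `z ^ k` preserves every condition of `T7.IsEigFn` (`shift_inCls468`) and
commutes with every sum of right translates (`iwOp_shiftOp468`).
-/

set_option autoImplicit false
set_option linter.unusedSectionVars false
set_option linter.unusedVariables false
set_option linter.style.haveILetI false

open AutomorphicForm IsDedekindDomain NumberField MeasureTheory Matrix
open scoped ComplexConjugate

noncomputable section

namespace Fermat.Agent.LT.T7.H468

open Fermat.Agent.LT.H556 Fermat.Agent.LT.H556.A0 Fermat.Agent.LT.T7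
open Fermat.Agent.LT.T8.H864

variable {K : Type} [Field K] [NumberField K]

/-! ## Centrality -/

/-- A scalar uniformiser at `u` is central. -/
theorem central_scalar468 {u : HeightOneSpectrum (𝓞 K)} {z : G K}
    (hz : IsScalarUniformizerAt u z) (g : G K) : g * z = z * g := by
  obtain ⟨hloc, c, -, hc⟩ := hz
  refine G_ext (fun w => ?_) (fun v => ?_)
  · rw [map_mul, map_mul, (trivAtInf_iff_hom w z).1 (hloc.1 w), mul_one, one_mul]
  · by_cases hv : v = u
    · subst hv
      rw [map_mul, map_mul]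
      refine Units.ext ?_
      rw [Units.val_mul, Units.val_mul, coe_finCompHom, coe_finCompHom, hc]
      ext i j
      fin_cases i <;> fin_cases j <;>
        simp [Matrix.mul_apply, Fin.sum_univ_two, mul_comm]
    · rw [map_mul, map_mul, (trivAtFin_iff_hom v z).1 (hloc.2 v hv), mul_one, one_mul]

/-- The powers of a scalar uniformiser are central. -/
theorem central_zpow468 {u : HeightOneSpectrum (𝓞 K)} {z : G K}
    (hz : IsScalarUniformizerAt u z) (k : ℤ) (g : G K) : g * z ^ k = z ^ k * g :=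
  ((show Commute g z from central_scalar468 hz g).zpow_right k).eq

/-! ## Translation by a central element -/

/-- The translation by a central element preserves the class of every eigen-datum. -/
theorem central_inCls468 {𝔫 : Ideal (𝓞 K)} {r : G K} {u : HeightOneSpectrum (𝓞 K)}
    {c : EigData K} {ψ : G K → ℂ} {ζ : G K} (hζ : ∀ g : G K, g * ζ = ζ * g)
    (hψ : SD534.InCls 𝔫 r u c ψ) : SD534.InCls 𝔫 r u c (fun x => ψ (x * ζ)) := by
  have sw : ∀ g y : G K, g * y * ζ = g * ζ * y := fun g y => by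
    rw [mul_assoc, hζ y, ← mul_assoc]
  refine ⟨⟨⟨?_, ?_, ⟨?_, ?_, ?_, ?_⟩, ?_⟩, ?_, ?_⟩, ?_, ?_⟩
  · exact hψ.inv.cusp.cont.comp (continuous_mul_const ζ)
  · obtain ⟨C, hC⟩ := hψ.inv.cusp.bdd
    exact ⟨C, fun g => hC _⟩
  · intro γ g
    show ψ (T5.ratG γ * g * ζ) = ψ (g * ζ)
    rw [mul_assoc]
    exact hψ.inv.cusp.aut.left_inv γ _
  · intro u' hu' g
    show ψ (g * u' * ζ) = ψ (g * ζ)
    rw [sw]
    exact hψ.inv.cusp.aut.level_inv u' hu' _
  · intro w k hk g
    show ψ (g * k * ζ) = T5.trivType k * ψ (g * ζ)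
    rw [sw]
    exact hψ.inv.cusp.aut.arch_compact w k hk _
  · intro g
    show ψ (g * r * ζ) = ψ (g * ζ)
    rw [sw]
    exact hψ.inv.cusp.aut.ray _
  · intro μ hμ D hD n hn g
    have := hψ.inv.cusp.cuspidal μ hμ D hD n hn (g * ζ)
    simp only [mul_assoc] at this ⊢
    exact this
  · intro w z' hz' g
    show ψ (g * z' * ζ) = ψ (g * ζ)
    rw [sw]
    exact hψ.inv.arch_scalar w z' hz' _
  · intro h h1 h2 h3 x
    show ψ (x * h * ζ) = ψ (x * ζ)
    rw [sw]
    exact hψ.inv.iw h h1 h2 h3 _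
  · intro v hv
    obtain ⟨hT, hS⟩ := hψ.hecke v hv
    refine ⟨fun H hH g => ?_, fun z' hz' g => ?_⟩
    · have := hT H hH (g * ζ)
      simp only [sw]
      exact this
    · show ψ (g * z' * ζ) = c.b v * ψ (g * ζ)
      rw [sw]
      exact hS z' hz' _
  · intro w d hd Y hY g
    have := hψ.mean w d hd Y hY (g * ζ)
    simp only [sw]
    exact this

/-- **The shift preserves the classes.** -/
theorem shift_inCls468 {𝔫 : Ideal (𝓞 K)} {r : G K} {u : HeightOneSpectrum (𝓞 K)} {z : G K}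
    (hz : IsScalarUniformizerAt u z) {c : EigData K} {ψ : G K → ℂ} (k : ℤ)
    (hψ : SD534.InCls 𝔫 r u c ψ) : SD534.InCls 𝔫 r u c (shiftOp z k ψ) :=
  central_inCls468 (central_zpow468 hz k) hψ

/-- **The operators commute.** -/
theorem iwOp_shiftOp468 {u : HeightOneSpectrum (𝓞 K)} {z : G K}
    (hz : IsScalarUniformizerAt u z) (H : Finset (G K)) (ψ : G K → ℂ) (k : ℤ) :
    iwOp u H (shiftOp z k ψ) = shiftOp z k (iwOp u H ψ) := by
  funext x
  unfold iwOp shiftOp
  refine congrArg _ (Finset.sum_congr rfl fun h _ => ?_)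
  rw [mul_assoc, mul_assoc, central_zpow468 hz k h]

end Fermat.Agent.LT.T7.H468

end

end
-- ===== PACK-END LT/T7/H468/OpsShift.lean

-- ===== PACK-BEGIN LT/T7/H298/MatchQCutTop.lean
section




/-!
# Row LT, tower T7, node Q2.7 `CutIntQC298` (registry row 2605, owner helper298):
# SECOND CUT over `ℚ` -- the proved top

OFF-MAIN.  Complete proof, nothing assumed.

    cutIntQC_of298 : HasSqrtNegThree F → T6.T6Out → GoodSetC305 ℚ F → UnitMatchQC298 F →
        PureExtC305 ℚ → PureExtC305 F → LocMeasC305 → LocCutC305 → ArchMeasRC298 →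
        TorSplitQC298 → FactDownQC298 → FactUpQC298 F → LocVanC305 → ArchVanQC298 →
        NonNormLocQC298 F → CutIntQC298 F

The constant of the node is `κ = c'_G / c_G` (`FactUpQC298`, `FactDownQC298`).
-/

set_option autoImplicit false
set_option linter.unusedSectionVars false

open AutomorphicForm IsDedekindDomain NumberField MeasureTheory
open scoped ComplexConjugate

noncomputable section

namespace Fermat.Agent.LT.T7.MQ298

open Fermat.Agent.LT.H556 Fermat.Agent.LT.H556.A0 Fermat.Agent.LT.T7 Fermat.Agent.LT.T7.H305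

attribute [local instance] Fermat.Agent.LT.T5.instMeasurableSpaceG

section Lemmas

/-- The real component of a rational element is regular. -/
theorem isReg_reGLQ298 {γ : GL (Fin 2) ℚ} (h : T6.IsEll γ) :
    T6.IsReg (reGLQ298 (T5.ratG γ)) := by
  have h1 : reGLQ298 (T5.ratG γ)
      = Matrix.GeneralLinearGroup.map (reHomQ298.comp (algebraMap ℚ (Adl ℚ))) γ := by
    apply Units.ext
    ext a b
    rfl
  rw [h1]
  exact isReg_map305 _ h.1

/-- **LOCAL DATA over `ℚ` EXIST.** -/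
theorem exists_locDataQ298 (hT6 : T6.T6Out) (hmeas : LocMeasC305) (hcut : LocCutC305)
    (harch : ArchMeasRC298) (m : HeightOneSpectrum (𝓞 ℚ) → ℕ) {γ : GL (Fin 2) ℚ}
    (hell : T6.IsEll γ) : ∃ L : LocDataQ298 γ, IsLocDataQ298 m L := by
  have hloc : T6.InstLocalC := hT6.2.2.2.2.2.1
  have hreg : ∀ v : HeightOneSpectrum (𝓞 ℚ),
      T6.IsReg (T6.twNorm (RingEquiv.refl (v.adicCompletion ℚ)) 1 (locG305 v γ)) := fun v => by
    rw [twNorm_one305]; exact isReg_locG305 hell v
  have h1 : ∀ v : HeightOneSpectrum (𝓞 ℚ),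
      ∃ μ : @Measure (GL (Fin 2) (v.adicCompletion ℚ)) (borel _), IsLocHaar305 (m v) μ :=
    fun v => (hmeas (v.adicCompletion ℚ) _ (hloc ℚ v)).1 (m v)
  have h2 : ∀ v : HeightOneSpectrum (𝓞 ℚ),
      ∃ μT : @Measure (T6.twCentSub (T6.glAut (RingEquiv.refl (v.adicCompletion ℚ)))
          (locG305 v γ)) (borel _),
        IsLocTor305 (RingEquiv.refl (v.adicCompletion ℚ)) (locG305 v γ) μT :=
    fun v => (hmeas (v.adicCompletion ℚ) _ (hloc ℚ v)).2 1 (RingEquiv.refl _)
      (fun _ => rfl) Nat.one_pos (fun _ => rfl) (locG305 v γ) (hreg v)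
  choose μv hμv using h1
  choose μt hμt using h2
  have h3 : ∀ v : HeightOneSpectrum (𝓞 ℚ), ∃ β : GL (Fin 2) (v.adicCompletion ℚ) → ℝ,
      IsLocCut305 (RingEquiv.refl (v.adicCompletion ℚ)) (locG305 v γ) (μt v) β :=
    fun v => hcut (v.adicCompletion ℚ) _ (hloc ℚ v) 1 (RingEquiv.refl _)
      (fun _ => rfl) Nat.one_pos (fun _ => rfl) (locG305 v γ) (hreg v) (μt v) (hμt v).1
  choose βv hβv using h3
  obtain ⟨μtr, hμtr⟩ := (harch (reGLQ298 (T5.ratG γ)) (isReg_reGLQ298 hell)).1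
  obtain ⟨βr, hβr⟩ := (harch (reGLQ298 (T5.ratG γ)) (isReg_reGLQ298 hell)).2 μtr hμtr
  exact ⟨⟨μv, μt, βv, μtr, βr⟩, ⟨hμv, hμt, hβv, hμtr, hβr⟩⟩

/-- The pure tensor over `ℚ` is the pure tensor with trivial archimedean components times the
real component. -/
theorem pureQ_eq298 (T : Finset (HeightOneSpectrum (𝓞 ℚ)))
    (f₀ : ∀ v : HeightOneSpectrum (𝓞 ℚ), GL (Fin 2) (v.adicCompletion ℚ) → ℂ)
    (Fr : GL (Fin 2) ℝ → ℂ) (h : G ℚ) :
    pureQ298 T f₀ Fr h = pure305 T f₀ (fun _ _ => 1) h * Fr (reGLQ298 h) := by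
  classical
  unfold pureQ298 pure305
  by_cases hT : OutT305 T h
  · rw [if_pos hT, if_pos hT, Finset.prod_const_one, mul_one]
  · rw [if_neg hT, if_neg hT, zero_mul]

theorem pureQ_ext_fun298 (hp : PureExtC305 ℚ) {T S : Finset (HeightOneSpectrum (𝓞 ℚ))}
    (hTS : T ⊆ S)
    (f₀ : ∀ v : HeightOneSpectrum (𝓞 ℚ), GL (Fin 2) (v.adicCompletion ℚ) → ℂ)
    (Fr : GL (Fin 2) ℝ → ℂ) :
    pureQ298 S (ext305 T f₀) Fr = pureQ298 T f₀ Fr := by
  funext h
  rw [pureQ_eq298, pureQ_eq298, hp T S hTS f₀ (fun _ _ => 1) h]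

end Lemmas

variable {F : Type} [Field F] [NumberField F]

/-- **THE TOP OF THE SECOND CUT over `ℚ`.** -/
theorem cutIntQC_of298 (h3 : HasSqrtNegThree F) (hT6 : T6.T6Out) (hgood : GoodSetC305 ℚ F)
    (hunit : UnitMatchQC298 F) (hpure : PureExtC305 ℚ) (hpure' : PureExtC305 F)
    (hmeas : LocMeasC305) (hcut : LocCutC305) (harch : ArchMeasRC298)
    (htor : TorSplitQC298) (hdown : FactDownQC298) (hup : FactUpQC298 F)
    (hvan : LocVanC305) (hvanr : ArchVanQC298) (hnn : NonNormLocQC298 F) :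
    CutIntQC298 F := by
  classical
  intro hiq D hD hcyc hl2 ι hι μr hμr μc hμc T₀ hun n m hlev
  obtain ⟨cG, hcG, hdn⟩ := hdown D.R hD.frame μr hμr T₀ m hlev.1
  obtain ⟨cG', hcG', hupp⟩ := hup hT6 hiq D hD hcyc hl2 ι hι μr hμr μc hμc T₀ hun n m hlev
  have hloc : T6.InstLocalC := hT6.2.2.2.2.2.1
  refine ⟨((cG' / cG : ℝ) : ℂ), ?_, ?_⟩
  · exact_mod_cast (div_pos hcG' hcG).ne'
  intro T T' hT₀T hTT' φ₀ Φ f₀ F0 F1 hlocT
  have hcont : Continuous (fun g => F0 g + F1 g) :=
    hlocT.arch_down0.cont.add hlocT.arch_down1.cont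
  have hsupp : HasCompactSupport (fun g => F0 g + F1 g) :=
    hlocT.arch_down0.supp.add hlocT.arch_down1.supp
  constructor
  · -- the norms
    intro δ γ hell hN μT μT' hμT hμT' hlink
    obtain ⟨S, S', hTS, hSS', hgγ, hiδ⟩ := hgood γ δ hell T
    have hlocS := hunit hT6 hiq D hD hcyc hl2 μr hμr μc hμc T₀ hun n m hlev T S T' S' hT₀T hTS
      hTT' hSS' φ₀ Φ f₀ F0 F1 hlocT
    obtain ⟨L, hL⟩ := exists_locDataQ298 hT6 hmeas hcut harch m hell
    obtain ⟨cT, hcT, hTC⟩ := htor γ hell μT hμT L hL.tor hL.torr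
    obtain ⟨hβ, hval⟩ := hdn S (hT₀T.trans hTS) (ext305 T f₀) (fun g => F0 g + F1 g)
      hlocS.inv_down hcont hsupp γ hell hgγ μT hμT L cT hL hcT hTC
    obtain ⟨β', hβ', hval'⟩ := hupp S S' (hT₀T.trans hTS) hSS' (ext305 T' φ₀) Φ (ext305 T f₀)
      F0 F1 hlocS δ γ hell hN hgγ hiδ μT μT' hμT hμT' hlink L cT hL hcT hTC
    rw [pureQ_ext_fun298 hpure hTS] at hβ hval
    rw [pure_ext_fun305 hpure' (over_mono305 hTS hTT' hSS')] at hβ' hval'
    refine ⟨β', prodCutQ298 S cT L, hβ', hβ, ?_⟩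
    have h1 : cG ≠ 0 := hcG.ne'
    have h2 : cT ≠ 0 := hcT.ne'
    have h4 : cG' / cT = cG' / cG * (cG / cT) := by field_simp
    rw [hval', hval, ← mul_assoc, ← Complex.ofReal_mul, ← h4]
  · -- the elements which are not norms
    intro γ hell hnot μT hμT
    rcases hnn hT6 hiq h3 D hD hcyc hl2 γ hell hnot with
      ⟨v, w, e, i, sw, hvw, huniq, hi, hsw, hext, hnorm⟩ | hreal
    · -- a finite place
      obtain ⟨S, S', hTS, hSS', hgγ, -⟩ := hgood γ 1 hell (insert v T)
      have hTS' : T ⊆ S := (Finset.subset_insert v T).trans hTS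
      have hvS : v ∈ S := hTS (Finset.mem_insert_self v T)
      have hlocS := hunit hT6 hiq D hD hcyc hl2 μr hμr μc hμc T₀ hun n m hlev T S T' S' hT₀T
        hTS' hTT' hSS' φ₀ Φ f₀ F0 F1 hlocT
      obtain ⟨L, hL⟩ := exists_locDataQ298 hT6 hmeas hcut harch m hell
      obtain ⟨cT, hcT, hTC⟩ := htor γ hell μT hμT L hL.tor hL.torr
      obtain ⟨hβ, hval⟩ := hdn S (hT₀T.trans hTS') (ext305 T f₀) (fun g => F0 g + F1 g)
        hlocS.inv_down hcont hsupp γ hell hgγ μT hμT L cT hL hcT hTC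
      rw [pureQ_ext_fun298 hpure hTS'] at hβ hval
      refine ⟨prodCutQ298 S cT L, hβ, ?_⟩
      rw [hval]
      have hzero : locInt305 (L.μv v) (L.βv v) (ext305 T f₀ v) (locG305 v γ) = 0 := by
        refine hvan hT6 (v.adicCompletion ℚ) _ (hloc ℚ v) (m v) (ext305 T f₀ v)
          (hlocS.inv_down v hvS).1 (hlocS.inv_down v hvS).2 (locG305 v γ) (isReg_locG305 hell v)
          ?_ (L.μv v) (hL.haar v) (L.μt v) (hL.tor v) (L.βv v) (hL.cut v)
        intro c' hc'
        exact ((hlocS.inert v hvS w hvw huniq e i sw hi hsw hext).2 (locG305 v γ) c'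
          (isReg_locG305 hell v) hnorm hc')
      have hfact : factValQ298 D.R.r S L (ext305 T f₀) μr (fun g => F0 g + F1 g) = 0 := by
        unfold factValQ298
        rw [Finset.prod_eq_zero hvS hzero]
        simp
      rw [hfact, mul_zero]
    · -- the real place
      obtain ⟨S, S', hTS, hSS', hgγ, -⟩ := hgood γ 1 hell T
      have hlocS := hunit hT6 hiq D hD hcyc hl2 μr hμr μc hμc T₀ hun n m hlev T S T' S' hT₀T
        hTS hTT' hSS' φ₀ Φ f₀ F0 F1 hlocT
      obtain ⟨L, hL⟩ := exists_locDataQ298 hT6 hmeas hcut harch m hell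
      obtain ⟨cT, hcT, hTC⟩ := htor γ hell μT hμT L hL.tor hL.torr
      obtain ⟨hβ, hval⟩ := hdn S (hT₀T.trans hTS) (ext305 T f₀) (fun g => F0 g + F1 g)
        hlocS.inv_down hcont hsupp γ hell hgγ μT hμT L cT hL hcT hTC
      rw [pureQ_ext_fun298 hpure hTS] at hβ hval
      refine ⟨prodCutQ298 S cT L, hβ, ?_⟩
      rw [hval]
      obtain ⟨w₀⟩ : Nonempty (InfinitePlace F) := inferInstance
      have hzero : ∀ j : ℤ,
          locInt305 μr L.βr (fun g => F0 g + F1 g) (reGLQ298 (T5.ratG γ * D.R.r ^ j)) = 0 :=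
        fun j => hvanr D.R hD.frame μr μc (Φ w₀) (fun g => F0 g + F1 g) (hlocT.arch w₀) γ hell
          hreal L.μtr L.βr hL.torr hL.cutr j
      have hfact : factValQ298 D.R.r S L (ext305 T f₀) μr (fun g => F0 g + F1 g) = 0 := by
        unfold factValQ298
        simp only [hzero, mul_zero, tsum_zero]
      rw [hfact, mul_zero]

end Fermat.Agent.LT.T7.MQ298

end

end
-- ===== PACK-END LT/T7/H298/MatchQCutTop.lean

-- ===== PACK-BEGIN LT/T7/H732/SupplyQFamTop.lean
section




/-!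
# Row LT, tower T7, node T7.L2Q.1.F `FamQC962` (quadratic step): SECOND CUT -- proved tops
(helper732, registry row 2262; mirror of helper893 `SupplyFamTop.lean`)

OFF-MAIN.  Every proof is complete, nothing assumed.  ADDITIVE.

    famQC_of732 : PreQC732 P F → EkProdUpQC732 F → EkProdDownQC732 F → OpUpQC732 F
                    → KillUpQC732 F → OpDownQC732 F → ClassDownQC732 F → CommDownQC732 F
                    → KillDownQC732 F → H962.FamQC962 P F
    supplyQC_of_leaves732 : H962.SetupQC962 F → H893.ProjC F → H962.ProjQC962 w0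
                    → H962.ProjQC962 w1 → PreQC732 P F → (8 leaves) → L2Q.SupplyQC P F

`H962.FamQC962`, `L2Q.SupplyQC` VERBATIM (helper962@39bd27364, helper826@4ba4a298a).
-/

set_option autoImplicit false

open AutomorphicForm IsDedekindDomain NumberField MeasureTheory
open scoped ComplexConjugate

noncomputable section

namespace Fermat.Agent.LT.T7.H732

open Fermat.Agent.LT.H556 Fermat.Agent.LT.H556.A0 Fermat.Agent.LT.T7 Fermat.Agent.LT.T7.L2Q
  Fermat.Agent.LT.T7.H893 Fermat.Agent.LT.T7.H962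

attribute [local instance] Fermat.Agent.LT.T5.instMeasurableSpaceG

section Top

variable {P : EKCond}
variable {F : Type} [Field F] [NumberField F]

/-- **The families of pre-data are good**, from the eight bookkeeping leaves. -/
theorem isL2QFam_toFam732 {Φ : HeckeEigensystem F ℂ} {B : L2QBase962 F}
    (hB : IsL2QBase962 Φ B) {g : G F} (hg : B.IsBad g) {E : L2QPre732 F}
    (hE : IsL2QPre732 Φ B g E)
    (h1 : EkProdUpQC732 F) (h2 : EkProdDownQC732 F) (h3 : OpUpQC732 F) (h4 : KillUpQC732 F)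
    (h5 : OpDownQC732 F) (h6 : ClassDownQC732 F) (h7 : CommDownQC732 F)
    (h8 : KillDownQC732 F) :
    IsL2QFam962 Φ B g (E.toFam B) where
  level_ne := hE.level_ne
  level_g := hE.level_g
  mem_S'_g := hE.mem_S'_g
  u_level := hE.u_level
  ekprod_up := fun X k m hX => h1 Φ B hB g hg E hE X k m hX
  ekprod_down := fun n X k m hX => h2 Φ B hB g hg E hE n X k m hX
  reg_up := hE.reg_up
  reg_down := hE.reg_down
  matched := hE.matched
  base_ne := fun C hC => mul_ne_zero (hE.up_ne C hC).1 (hE.up_ne C hC).2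
  op_up := fun X k m hX ψ C hψ Hg H z hHg hH hz x =>
    h3 Φ B hB g hg E hE X k m hX ψ C hψ Hg H z hHg hH hz x
  kill_up := fun X k m hX ψ hψ hperp x => h4 Φ B hB g hg E hE X k m hX ψ hψ hperp x
  op_down := fun n X k m hX ψ c C hψ hbc H z hH hz x =>
    h5 Φ B hB g hg E hE n X k m hX ψ c C hψ hbc H z hH hz x
  class_down := fun n ψ c hψ => h6 Φ B hB g hg E hE n ψ c hψ
  comm_down := fun n ψ hψ H z hH hz => h7 Φ B hB g hg E hE n ψ hψ H z hH hz
  kill_down := fun n X k m hX ψ hψ hperp x => h8 Φ B hB g hg E hE n X k m hX ψ hψ hperp x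

/-- **THE TOP OF THE SECOND CUT, quadratic step**: the families for one bad element from the
pre-data and the eight bookkeeping leaves. -/
theorem famQC_of732 (h0 : PreQC732 P F)
    (h1 : EkProdUpQC732 F) (h2 : EkProdDownQC732 F) (h3 : OpUpQC732 F) (h4 : KillUpQC732 F)
    (h5 : OpDownQC732 F) (h6 : ClassDownQC732 F) (h7 : CommDownQC732 F)
    (h8 : KillDownQC732 F) : FamQC962 P F := by
  intro h3' hquad Φ hΦ hconst hPΦ B hB g hg
  obtain ⟨E, hE⟩ := h0 h3' hquad Φ hΦ hconst hPΦ B hB g hg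
  exact ⟨E.toFam B, isL2QFam_toFam732 hB hg hE h1 h2 h3 h4 h5 h6 h7 h8⟩

/-- **THE SUPPLY OVER `ℚ` from the leaves of the two cuts** (first cut: helper962). -/
theorem supplyQC_of_leaves732 (hS : SetupQC962 F) (hP' : H893.ProjC F)
    (hP0 : ProjQC962 QWt.w0) (hP1 : ProjQC962 QWt.w1) (h0 : PreQC732 P F)
    (h1 : EkProdUpQC732 F) (h2 : EkProdDownQC732 F) (h3 : OpUpQC732 F) (h4 : KillUpQC732 F)
    (h5 : OpDownQC732 F) (h6 : ClassDownQC732 F) (h7 : CommDownQC732 F)
    (h8 : KillDownQC732 F) : L2Q.SupplyQC P F :=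
  supplyQC_of962 hS hP' hP0 hP1 (famQC_of732 h0 h1 h2 h3 h4 h5 h6 h7 h8)

end Top

end Fermat.Agent.LT.T7.H732

end

end
-- ===== PACK-END LT/T7/H732/SupplyQFamTop.lean

-- ===== PACK-BEGIN LT/T7/H943/IotaGlue.lean
section


/-!
# Row LT, tower T7, leaf T7.L2.1.C2.4.5c `GlueC943` (helper943), OFF-MAIN

`glueC943 : GlueC943 K K'` VERBATIM, unconditional: an adele of `K'` which is locally in the
image of the base change `iota943` at every place of `K` is in the image of `iota943`.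
-/

set_option autoImplicit false
set_option linter.unusedSectionVars false

open AutomorphicForm IsDedekindDomain NumberField

noncomputable section

namespace Fermat.Agent.LT.T7.H943

open Fermat.Agent.LT.H556 Fermat.Agent.LT.H556.A0 Fermat.Agent.LT.T7 Fermat.Agent.LT.T7.H305
open Fermat.Agent.LT.A2

variable (K K' : Type) [Field K] [NumberField K] [Field K'] [NumberField K'] [Algebra K K']

/-- Every finite place of `K` has a finite place of `K'` over it. -/
theorem exists_finUnder_eq943 (v : HeightOneSpectrum (𝓞 K)) :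
    ∃ w : HeightOneSpectrum (𝓞 K'), H743.finUnder743 K K' w = v := by
  have := v.isPrime
  obtain ⟨Q, -, hQ, hQv⟩ := Ideal.exists_ideal_over_prime_of_isIntegral v.asIdeal
    (⊥ : Ideal (𝓞 K')) (by simp [← RingHom.ker_eq_comap_bot])
  have hne : Q ≠ ⊥ := by
    intro h
    apply v.ne_bot
    rw [← hQv, h]
    simp [← RingHom.ker_eq_comap_bot]
  refine ⟨⟨Q, hQ, hne⟩, ?_⟩
  apply HeightOneSpectrum.ext
  show Q.under (𝓞 K) = v.asIdeal
  rw [Ideal.under_def]
  exact hQv

theorem infHom_iota943 (w' : InfinitePlace K') (x : Adl K) :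
    T5.infHom w' (iota943 K K' x)
      = InfinitePlace.Completion.extensionEmbedding w'
          (H743.infLoc743 K K' w' (x.1 (H743.infUnder743 K K' w'))) := rfl

/-- **LEAF I.5c = GLUE**, VERBATIM. -/
theorem glueC943 : GlueC943 K K' := by
  intro y hfin hinf
  choose af haf using hfin
  choose ai hai using hinf
  -- integrality almost everywhere
  have hy : ∀ᶠ w in Filter.cofinite, y.2 w ∈ w.adicCompletionIntegers K' := y.2.2
  have hB' : {w : HeightOneSpectrum (𝓞 K') | ¬ y.2 w ∈ w.adicCompletionIntegers K'}.Finite :=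
    Filter.eventually_cofinite.mp hy
  have hB : (H743.finUnder743 K K' ''
      {w : HeightOneSpectrum (𝓞 K') | ¬ y.2 w ∈ w.adicCompletionIntegers K'}).Finite :=
    hB'.image _
  have hint : ∀ᶠ v in Filter.cofinite,
      (af v).2 v ∈ (v.adicCompletionIntegers K : Set (v.adicCompletion K)) := by
    rw [Filter.eventually_cofinite]
    refine hB.subset ?_
    intro v hv
    obtain ⟨w, hw⟩ := exists_finUnder_eq943 K K' v
    refine ⟨w, ?_, hw⟩
    intro hyw
    apply hv
    subst hw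
    have h1 := haf (H743.finUnder743 K K' w) w (placeOver_finUnder943 K K' w)
    rw [finHom_iota943] at h1
    have h2 : Valued.v (H743.finLoc743 K K' w
        (T5.finHom (H743.finUnder743 K K' w) (af (H743.finUnder743 K K' w)))) ≤ 1 := by
      rw [h1]
      exact (HeightOneSpectrum.mem_adicCompletionIntegers _ _ _).mp hyw
    rw [H743.valued_finLoc743] at h2
    rw [SetLike.mem_coe, HeightOneSpectrum.mem_adicCompletionIntegers]
    exact (pow_le_one_iff (H743.ramIdx_ne_zero743 K K' w)).mp h2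
  -- the adele
  let xfin : FiniteAdeleRing (𝓞 K) K := ⟨fun v => (af v).2 v, hint⟩
  let xinf : InfiniteAdeleRing K := fun v => (ai v).1 v
  let x : Adl K := (xinf, xfin)
  refine ⟨x, ?_⟩
  refine Prod.ext ?_ ?_
  · funext w'
    have h1 := hai (H743.infUnder743 K K' w') w' rfl
    rw [infHom_iota943] at h1
    have h2 := (InfinitePlace.Completion.extensionEmbedding w').injective h1
    show H743.infLoc743 K K' w' (x.1 (H743.infUnder743 K K' w')) = y.1 w'
    exact h2
  · refine FiniteAdeleRing.ext (R := 𝓞 K') (K := K') fun w => ?_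
    have h1 := haf (H743.finUnder743 K K' w) w (placeOver_finUnder943 K K' w)
    rw [finHom_iota943] at h1
    show H743.finLoc743 K K' w (x.2 (H743.finUnder743 K K' w)) = y.2 w
    exact h1

end Fermat.Agent.LT.T7.H943

end

end
-- ===== PACK-END LT/T7/H943/IotaGlue.lean

-- ===== PACK-BEGIN LT/T7/H409/ArchVanQ.lean
section


/-!
# Row LT, tower T7, leaf T7.L2Q.1.H1.5.2 `MQ298.ArchVanQC298` (helper409): PROVED

OFF-MAIN.  No hole, nothing assumed.

    archVanQC409 : MQ298.ArchVanQC298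

Vanishing at the real place along the ray: if `γ_∞` is not a norm from `GL₂(ℂ)` and `f` is
matched (`T6.IsArchMatch`), the local cut-off integral at `(γ r^j)_∞` vanishes for all `j`.

Proof.  `T5.IsRayGen r`: the component of `r` at the infinite place of `ℚ` is the scalar matrix
`t > 0` (in `ℂ`), so the real component `reGLQ298 r` is the scalar matrix `t` in `GL₂(ℝ)`
(`extensionEmbeddingOfIsReal_apply`): `(γ r^j)_∞ = γ_∞ c`, `c = t^j > 0` a scalar.  Then
`γ_∞ c` is regular (`disc (γ c) = c² disc γ`, `disc γ_∞` is the image of `disc γ ≠ 0`), has the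
centraliser of `γ_∞` (`twCentSub_mul_central409`; the Haar measure and the cut-off function are
transported along the equality of the subgroups), and is not a norm
(`isNormFrom_of_mul_scalar409`: if `N δ ∼ γ_∞ c` then `N (δ q⁻¹) ∼ γ_∞` for the scalar
`q = √c`).  Second clause of `T6.IsArchMatch`.
-/

set_option autoImplicit false
set_option linter.unusedSectionVars false

open AutomorphicForm IsDedekindDomain NumberField MeasureTheory
open scoped ComplexConjugate

noncomputable section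

namespace Fermat.Agent.LT.T7.H409

open Fermat.Agent.LT.H556 Fermat.Agent.LT.H556.A0 Fermat.Agent.LT.T7 Fermat.Agent.LT.T7.H305
open Fermat.Agent.LT.T7.MQ298

/-! ## Group theory: central elements -/

/-- The centraliser does not change under multiplication by a central element. -/
theorem twCentSub_mul_central409 {H : Type} [Group H] (g w : H) (hw : ∀ x : H, w * x = x * w) :
    T6.twCentSub (MonoidHom.id H) (g * w) = T6.twCentSub (MonoidHom.id H) g := by
  ext x
  show x⁻¹ * (g * w) * (MonoidHom.id H) x = g * w ↔ x⁻¹ * g * (MonoidHom.id H) x = g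
  have h1 : x⁻¹ * (g * w) * x = (x⁻¹ * g * x) * w := by
    rw [mul_assoc, mul_assoc, hw x, ← mul_assoc, ← mul_assoc]
  show x⁻¹ * (g * w) * x = g * w ↔ x⁻¹ * g * x = g
  rw [h1]
  exact mul_left_inj w

/-- Conjugacy is compatible with multiplication by a central element. -/
theorem isConj_mul_central409 {H : Type} [Group H] {a b : H} (w : H)
    (hw : ∀ x : H, w * x = x * w) (h : IsConj a b) : IsConj (a * w) (b * w) := by
  rw [isConj_iff] at h ⊢
  obtain ⟨c, hc⟩ := h
  refine ⟨c, ?_⟩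
  rw [← hc]
  calc c * (a * w) * c⁻¹ = c * a * (w * c⁻¹) := by group
    _ = c * a * (c⁻¹ * w) := by rw [hw c⁻¹]
    _ = c * a * c⁻¹ * w := by group

/-! ## The discriminant -/

theorem disc_def409 {R : Type} [CommRing R] (γ : GL (Fin 2) R) :
    T6.disc γ = (γ : Matrix (Fin 2) (Fin 2) R).trace ^ 2
      - 4 * (γ : Matrix (Fin 2) (Fin 2) R).det :=
  rfl

theorem disc_mul_scalar409 {R : Type} [CommRing R] (γ : GL (Fin 2) R) (c : Rˣ) :
    T6.disc (γ * Matrix.GeneralLinearGroup.scalar (Fin 2) c) = (c : R) ^ 2 * T6.disc γ := by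
  rw [disc_def409, disc_def409]
  have hm : ((γ * Matrix.GeneralLinearGroup.scalar (Fin 2) c : GL (Fin 2) R) :
      Matrix (Fin 2) (Fin 2) R) = (c : R) • (γ : Matrix (Fin 2) (Fin 2) R) := by
    rw [Units.val_mul, Matrix.GeneralLinearGroup.coe_scalar]
    ext i j
    simp [Matrix.mul_apply, Matrix.diagonal_apply, mul_comm]
  rw [hm, Matrix.trace_smul, Matrix.det_smul]
  simp only [Fintype.card_fin, smul_eq_mul]
  ring

theorem disc_map409 {R S : Type} [CommRing R] [CommRing S] (φ : R →+* S) (γ : GL (Fin 2) R) :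
    T6.disc (Matrix.GeneralLinearGroup.map φ γ) = φ (T6.disc γ) := by
  rw [disc_def409, disc_def409]
  have ht : ((Matrix.GeneralLinearGroup.map φ γ : GL (Fin 2) S) :
      Matrix (Fin 2) (Fin 2) S).trace = φ ((γ : Matrix (Fin 2) (Fin 2) R).trace) := by
    rw [Matrix.trace_fin_two, Matrix.trace_fin_two, map_add]
    rfl
  have hd : ((Matrix.GeneralLinearGroup.map φ γ : GL (Fin 2) S) :
      Matrix (Fin 2) (Fin 2) S).det = φ ((γ : Matrix (Fin 2) (Fin 2) R).det) := by
    rw [Matrix.det_fin_two, Matrix.det_fin_two, map_sub, map_mul, map_mul]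
    rfl
  rw [ht, hd]
  simp only [map_sub, map_mul, map_pow, map_ofNat]


/-! ## The real component -/

theorem reHomQ298_coe409 (a : Adl ℚ) :
    ((reHomQ298 a : ℝ) : ℂ) = T5.infHom Rat.infinitePlace a :=
  InfinitePlace.Completion.extensionEmbeddingOfIsReal_apply Rat.isReal_infinitePlace _

/-- The real component of the generator of the ray is a positive scalar matrix. -/
theorem reGLQ_rayGen409 (r : G ℚ) (hr : T5.IsRayGen r) :
    ∃ u : ℝˣ, 0 < (u : ℝ) ∧ reGLQ298 r = Matrix.GeneralLinearGroup.scalar (Fin 2) u := by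
  obtain ⟨_, t, ht, _, hinf⟩ := hr
  refine ⟨Units.mk0 t ht.ne', ht, ?_⟩
  ext i j
  have h1 : ((reHomQ298 ((r : Matrix (Fin 2) (Fin 2) (Adl ℚ)) i j) : ℝ) : ℂ)
      = (Matrix.diagonal (fun _ : Fin 2 => (t : ℂ))) i j := by
    rw [reHomQ298_coe409, ← hinf Rat.infinitePlace]
    rfl
  show reHomQ298 ((r : Matrix (Fin 2) (Fin 2) (Adl ℚ)) i j)
    = (Matrix.scalar (Fin 2) t) i j
  by_cases hij : i = j
  · subst hij
    rw [Matrix.diagonal_apply_eq] at h1
    rw [Matrix.scalar_apply, Matrix.diagonal_apply_eq]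
    exact_mod_cast h1
  · rw [Matrix.diagonal_apply_ne _ hij] at h1
    rw [Matrix.scalar_apply, Matrix.diagonal_apply_ne _ hij]
    exact_mod_cast h1

/-- The real component of `γ r^j`. -/
theorem reGLQ_ray409 (r : G ℚ) (hr : T5.IsRayGen r) (g : G ℚ) (j : ℤ) :
    ∃ c : ℝˣ, 0 < (c : ℝ) ∧
      reGLQ298 (g * r ^ j) = reGLQ298 g * Matrix.GeneralLinearGroup.scalar (Fin 2) c := by
  obtain ⟨u, hu, hur⟩ := reGLQ_rayGen409 r hr
  refine ⟨u ^ j, ?_, ?_⟩
  · rw [Units.val_zpow_eq_zpow_val]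
    exact zpow_pos hu j
  · rw [map_mul, map_zpow, hur, map_zpow]

/-! ## Norms -/

theorem twNorm_two409 {R : Type} [CommRing R] (s : R ≃+* R) (δ : GL (Fin 2) R) :
    T6.twNorm s 2 δ = δ * T6.glAut s δ := by
  show δ * T6.glAut s (δ * T6.glAut s 1) = δ * T6.glAut s δ
  rw [map_one, mul_one]

/-- A positive real scalar is a norm from `ℂ`: `γ c` is a norm iff `γ` is. -/
theorem isNormFrom_of_mul_scalar409 (γ : GL (Fin 2) ℝ) (c : ℝˣ) (hc : 0 < (c : ℝ))
    (h : T6.IsNormFrom 2 (algebraMap ℝ ℂ) (starRingAut : ℂ ≃+* ℂ)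
      (γ * Matrix.GeneralLinearGroup.scalar (Fin 2) c)) :
    T6.IsNormFrom 2 (algebraMap ℝ ℂ) (starRingAut : ℂ ≃+* ℂ) γ := by
  obtain ⟨δ, hδ⟩ := h
  -- the square root of `c`
  have hs : 0 < Real.sqrt (c : ℝ) := Real.sqrt_pos.mpr hc
  set s : ℝˣ := Units.mk0 (Real.sqrt (c : ℝ)) hs.ne' with hsdef
  have hss : s * s = c := by
    ext
    show Real.sqrt (c : ℝ) * Real.sqrt (c : ℝ) = c
    exact Real.mul_self_sqrt hc.le
  set w : ℂˣ := Units.map (algebraMap ℝ ℂ : ℝ →+* ℂ).toMonoidHom s with hwdef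
  set q : GL (Fin 2) ℂ := Matrix.GeneralLinearGroup.scalar (Fin 2) w with hqdef
  have hqc : ∀ x : GL (Fin 2) ℂ, q * x = x * q :=
    fun x => Matrix.GeneralLinearGroup.scalar_commute w x
  have hqinv : ∀ x : GL (Fin 2) ℂ, q⁻¹ * x = x * q⁻¹ := by
    intro x
    have := hqc x
    calc q⁻¹ * x = q⁻¹ * (x * q) * q⁻¹ := by group
      _ = q⁻¹ * (q * x) * q⁻¹ := by rw [this]
      _ = x * q⁻¹ := by group
  have hqσ : T6.glAut (starRingAut : ℂ ≃+* ℂ) q = q := by
    show Matrix.GeneralLinearGroup.map ((starRingAut : ℂ ≃+* ℂ) : ℂ →+* ℂ)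
      (Matrix.GeneralLinearGroup.scalar (Fin 2) w) = _
    rw [Matrix.GeneralLinearGroup.map_scalar]
    congr 1
    ext
    show (starRingAut : ℂ ≃+* ℂ) ((Real.sqrt (c : ℝ) : ℝ) : ℂ) = ((Real.sqrt (c : ℝ) : ℝ) : ℂ)
    exact Complex.conj_ofReal _
  have hqq : Matrix.GeneralLinearGroup.map (algebraMap ℝ ℂ)
      (Matrix.GeneralLinearGroup.scalar (Fin 2) c) = q * q := by
    rw [Matrix.GeneralLinearGroup.map_scalar, hqdef, ← map_mul, hwdef, ← map_mul, hss]
    rfl
  refine ⟨δ * q⁻¹, ?_⟩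
  have h1 : T6.twNorm (starRingAut : ℂ ≃+* ℂ) 2 (δ * q⁻¹)
      = T6.twNorm (starRingAut : ℂ ≃+* ℂ) 2 δ * (q * q)⁻¹ := by
    rw [twNorm_two409, twNorm_two409, map_mul, map_inv, hqσ]
    calc δ * q⁻¹ * (T6.glAut (starRingAut : ℂ ≃+* ℂ) δ * q⁻¹)
        = δ * (q⁻¹ * T6.glAut (starRingAut : ℂ ≃+* ℂ) δ) * q⁻¹ := by group
      _ = δ * (T6.glAut (starRingAut : ℂ ≃+* ℂ) δ * q⁻¹) * q⁻¹ := by rw [hqinv]
      _ = δ * T6.glAut (starRingAut : ℂ ≃+* ℂ) δ * (q * q)⁻¹ := by group
  have h2 : Matrix.GeneralLinearGroup.map (algebraMap ℝ ℂ) γ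
      = Matrix.GeneralLinearGroup.map (algebraMap ℝ ℂ)
          (γ * Matrix.GeneralLinearGroup.scalar (Fin 2) c) * (q * q)⁻¹ := by
    rw [map_mul, hqq]
    group
  rw [h1, h2]
  refine isConj_mul_central409 (q * q)⁻¹ ?_ hδ
  intro x
  have hcx : Commute q x := hqc x
  exact ((hcx.mul_left hcx).inv_left).eq


/-! ## Regularity at the real place -/

/-- The real component of a regular rational element is regular. -/
theorem isReg_reGLQ409 (γ : GL (Fin 2) ℚ) (hγ : T6.IsReg γ) :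
    T6.IsReg (reGLQ298 (T5.ratG γ)) := by
  have h0 : T6.disc γ ≠ 0 := (isUnit_iff_ne_zero.mp hγ)
  have h1 : reGLQ298 (T5.ratG γ)
      = Matrix.GeneralLinearGroup.map (reHomQ298.comp (algebraMap ℚ (Adl ℚ))) γ := rfl
  have h2 : T6.disc (reGLQ298 (T5.ratG γ))
      = (reHomQ298.comp (algebraMap ℚ (Adl ℚ))) (T6.disc γ) := by
    rw [h1, disc_map409]
  have h3 : T6.disc (reGLQ298 (T5.ratG γ)) ≠ 0 := by
    rw [h2]
    exact (map_ne_zero_iff _ (RingHom.injective _)).mpr h0
  exact isUnit_iff_ne_zero.mpr h3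

/-- Regularity is stable under multiplication by a scalar (over a field). -/
theorem isReg_mul_scalar409 (γ : GL (Fin 2) ℝ) (c : ℝˣ) (hγ : T6.IsReg γ) :
    T6.IsReg (γ * Matrix.GeneralLinearGroup.scalar (Fin 2) c) := by
  have h0 : T6.disc γ ≠ 0 := (isUnit_iff_ne_zero.mp hγ)
  have h1 : T6.disc (γ * Matrix.GeneralLinearGroup.scalar (Fin 2) c) ≠ 0 := by
    rw [disc_mul_scalar409]
    exact mul_ne_zero (pow_ne_zero 2 c.ne_zero) h0
  exact isUnit_iff_ne_zero.mpr h1

/-! ## The leaf -/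

/-- The second clause of `T6.IsArchMatch`, for a subgroup EQUAL to the centraliser. -/
theorem archMatch_van409 (μr : @Measure (GL (Fin 2) ℝ) (borel _))
    (μc : @Measure (GL (Fin 2) ℂ) (borel _)) (Φ : GL (Fin 2) ℂ → ℂ) (f : GL (Fin 2) ℝ → ℂ)
    (hm : T6.IsArchMatch μr μc Φ f) (γ' : GL (Fin 2) ℝ) (hreg : T6.IsReg γ')
    (hnn : ¬ T6.IsNormFrom 2 (algebraMap ℝ ℂ) (starRingAut : ℂ ≃+* ℂ) γ')
    (S : Subgroup (GL (Fin 2) ℝ)) (hS : S = T6.twCentSub (MonoidHom.id (GL (Fin 2) ℝ)) γ')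
    (μT : @Measure S (borel _)) (hμT : @Measure.IsHaarMeasure _ _ _ (borel _) μT)
    (β : GL (Fin 2) ℝ → ℝ) (hβc : Continuous β) (hβ0 : ∀ x, 0 ≤ β x)
    (hβ1 : ∀ x : GL (Fin 2) ℝ,
      @integral _ _ _ _ (borel _) μT (fun t : S => β ((t : GL (Fin 2) ℝ) * x)) = 1) :
    locInt305 μr β f γ' = 0 := by
  subst hS
  exact (hm γ' hreg μT hμT β hβc hβ0 hβ1).2 hnn

/-- **LEAF Q2.7.9r = ARCH-VAN of helper298's cut of `CutIntQC298`: PROVED.** -/
theorem archVanQC409 : Fermat.Agent.LT.T7.MQ298.ArchVanQC298 := by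
  intro R hR μr μc Φ f hm γ hEll hnn μtr βr hμtr hcut j
  obtain ⟨c, hc, hcj⟩ := reGLQ_ray409 R.r hR.ray (T5.ratG γ) j
  rw [hcj]
  have hreg0 : T6.IsReg (reGLQ298 (T5.ratG γ)) := isReg_reGLQ409 γ hEll.1
  have hreg : T6.IsReg (reGLQ298 (T5.ratG γ) * Matrix.GeneralLinearGroup.scalar (Fin 2) c) :=
    isReg_mul_scalar409 _ c hreg0
  have hnn' : ¬ T6.IsNormFrom 2 (algebraMap ℝ ℂ) (starRingAut : ℂ ≃+* ℂ)
      (reGLQ298 (T5.ratG γ) * Matrix.GeneralLinearGroup.scalar (Fin 2) c) :=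
    fun h => hnn (isNormFrom_of_mul_scalar409 _ c hc h)
  have hcent : cent305 (reGLQ298 (T5.ratG γ))
      = T6.twCentSub (MonoidHom.id (GL (Fin 2) ℝ))
          (reGLQ298 (T5.ratG γ) * Matrix.GeneralLinearGroup.scalar (Fin 2) c) :=
    (twCentSub_mul_central409 _ _
      (fun x => Matrix.GeneralLinearGroup.scalar_commute c x)).symm
  exact archMatch_van409 μr μc Φ f hm _ hreg hnn' (cent305 (reGLQ298 (T5.ratG γ))) hcent
    μtr hμtr βr hcut.1 hcut.2.1 hcut.2.2

end Fermat.Agent.LT.T7.H409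

end

end
-- ===== PACK-END LT/T7/H409/ArchVanQ.lean

-- ===== PACK-BEGIN LT/T7/H296/TorCommId.lean
section



/-!
# Row LT, tower T7, node C2.7.7 `FactDownC305` (cut of helper558): leaf FD.3 TOR-COMM-ID --
# helper296, OFF-MAIN

VERBATIM vs `LT/T7/H558/FactDownSpec.lean` (helper558@b6c4c8a4b, sha256 8043f526), unconditional:

* `torCommIdC296 (K) : H558.TorCommIdC558 K`.

Tool (any commutative ring): `exists_poly_of_comm_unit296`, `comm_of_unit_disc296`: two matrices
which commute with a `2 × 2` matrix whose discriminant is a unit are polynomials in it and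
commute.
-/

set_option autoImplicit false

open IsDedekindDomain NumberField

noncomputable section

namespace Fermat.Agent.LT.T7.H296

open Fermat.Agent.LT Fermat.Agent.LT.H556.A0 Fermat.Agent.LT.T7 Fermat.Agent.LT.T7.H305

section Alg

variable {R : Type} [CommRing R]

/-- A matrix which commutes with a `2 × 2` matrix `γ` whose discriminant is a unit is a
polynomial in `γ`. -/
theorem exists_poly_of_comm_unit296 (γ X : Matrix (Fin 2) (Fin 2) R)
    (hd : IsUnit (γ.trace ^ 2 - 4 * γ.det)) (hX : X * γ = γ * X) :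
    ∃ a l : R, X = Matrix.scalar (Fin 2) a + l • γ := by
  have h00 := congrFun (congrFun hX 0) 0
  have h01 := congrFun (congrFun hX 0) 1
  have h10 := congrFun (congrFun hX 1) 0
  simp only [Matrix.mul_apply, Fin.sum_univ_two] at h00 h01 h10
  rw [Matrix.trace_fin_two, Matrix.det_fin_two] at hd
  obtain ⟨u, hu⟩ := hd
  set Q : R := (γ 0 0 + γ 1 1) ^ 2 - 4 * (γ 0 0 * γ 1 1 - γ 0 1 * γ 1 0) with hQ
  set B : R := (γ 0 0 - γ 1 1) * (X 0 0 - X 1 1) + 2 * γ 0 1 * X 1 0 + 2 * γ 1 0 * X 0 1 with hB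
  set qi : R := ((u⁻¹ : Rˣ) : R) with hqi
  have hinv : qi * Q = 1 := by
    rw [hqi, ← hu]
    exact Units.inv_mul u
  have e1 : Q * X 0 1 = B * γ 0 1 := by
    rw [hQ, hB]; linear_combination (-(γ 0 0 - γ 1 1)) * h01 + (2 * γ 0 1) * h00
  have e2 : Q * X 1 0 = B * γ 1 0 := by
    rw [hQ, hB]; linear_combination (γ 0 0 - γ 1 1) * h10 - (2 * γ 1 0) * h00
  have e3 : Q * (X 0 0 - X 1 1) = B * (γ 0 0 - γ 1 1) := by
    rw [hQ, hB]; linear_combination (2 * γ 1 0) * h01 - (2 * γ 0 1) * h10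
  refine ⟨X 0 0 - qi * B * γ 0 0, qi * B, ?_⟩
  have f1 : X 0 1 = qi * B * γ 0 1 := by
    rw [mul_assoc, ← e1, ← mul_assoc, hinv, one_mul]
  have f2 : X 1 0 = qi * B * γ 1 0 := by
    rw [mul_assoc, ← e2, ← mul_assoc, hinv, one_mul]
  have f3 : X 0 0 - X 1 1 = qi * B * (γ 0 0 - γ 1 1) := by
    rw [mul_assoc, ← e3, ← mul_assoc, hinv, one_mul]
  ext i j
  fin_cases i <;> fin_cases j
  · simp [Matrix.add_apply, Matrix.smul_apply]
  · simpa [Matrix.add_apply, Matrix.smul_apply] using f1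
  · simpa [Matrix.add_apply, Matrix.smul_apply] using f2
  · simp only [Matrix.add_apply, Matrix.smul_apply, Matrix.scalar_apply, Matrix.diagonal_apply_eq,
      smul_eq_mul, Fin.mk_one, Fin.isValue]
    linear_combination -f3

/-- Two matrices which commute with a `2 × 2` matrix whose discriminant is a unit commute. -/
theorem comm_of_unit_disc296 (γ X Y : Matrix (Fin 2) (Fin 2) R)
    (hd : IsUnit (γ.trace ^ 2 - 4 * γ.det)) (hX : X * γ = γ * X) (hY : Y * γ = γ * Y) :
    X * Y = Y * X := by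
  obtain ⟨a, l, rfl⟩ := exists_poly_of_comm_unit296 γ X hd hX
  obtain ⟨b, m, rfl⟩ := exists_poly_of_comm_unit296 γ Y hd hY
  have h1 : Commute (Matrix.scalar (Fin 2) a) (Matrix.scalar (Fin 2) b + m • γ) :=
    Matrix.scalar_commute a (fun r' => mul_comm _ _) _
  have h2 : Commute (l • γ) (Matrix.scalar (Fin 2) b + m • γ) := by
    refine Commute.add_right ?_ ?_
    · exact (Matrix.scalar_commute b (fun r' => mul_comm _ _) _).symm
    · exact ((Commute.refl γ).smul_left l).smul_right m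
  exact (h1.add_left h2).eq

end Alg

variable (K : Type) [Field K] [NumberField K]

/-- The trivial automorphism acts trivially on `GL₂(𝔸_K)`. -/
theorem onG_id296 (x : G K) : (T5.AdelicAut.id K).onG x = x := by
  apply Units.ext
  ext i j
  rfl

/-- **LEAF FD.3 `TorCommIdC558`**, VERBATIM. -/
theorem torCommIdC296 : H558.TorCommIdC558 K := by
  intro γ hγ x hx y hy
  have hreg : T6.IsReg γ := hγ.1
  set M : Matrix (Fin 2) (Fin 2) (Adl K) := ((T5.ratG γ : G K) : Matrix (Fin 2) (Fin 2) (Adl K))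
    with hM
  have hMmap : M = (γ : Matrix (Fin 2) (Fin 2) K).map (algebraMap K (Adl K)) := rfl
  have hd : IsUnit (M.trace ^ 2 - 4 * M.det) := by
    have h1 : M.trace ^ 2 - 4 * M.det = algebraMap K (Adl K) (T6.disc γ) := by
      rw [hMmap]
      unfold T6.disc
      have ht : ((γ : Matrix (Fin 2) (Fin 2) K).map (algebraMap K (Adl K))).trace
          = algebraMap K (Adl K) (γ : Matrix (Fin 2) (Fin 2) K).trace := by
        rw [Matrix.trace_fin_two, Matrix.trace_fin_two, map_add]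
        rfl
      have hdet : ((γ : Matrix (Fin 2) (Fin 2) K).map (algebraMap K (Adl K))).det
          = algebraMap K (Adl K) (γ : Matrix (Fin 2) (Fin 2) K).det :=
        (RingHom.map_det (algebraMap K (Adl K)) _).symm
      rw [ht, hdet]
      simp only [map_sub, map_mul, map_pow, map_ofNat]
    rw [h1]
    exact hreg.map _
  have key : ∀ z : G K, z ∈ tA305 (T5.AdelicAut.id K) γ →
      (z : Matrix (Fin 2) (Fin 2) (Adl K)) * M = M * z := by
    intro z hz
    have h1 : z⁻¹ * T5.ratG γ * (T5.AdelicAut.id K).onG z = T5.ratG γ := hz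
    rw [onG_id296] at h1
    have h2 : T5.ratG γ * z = z * T5.ratG γ := by
      calc T5.ratG γ * z = z * (z⁻¹ * T5.ratG γ * z) := by group
        _ = z * T5.ratG γ := by rw [h1]
    have h3 := congrArg (fun u : G K => (u : Matrix (Fin 2) (Fin 2) (Adl K))) h2
    simpa using h3.symm
  apply Units.ext
  simpa using comm_of_unit_disc296 M x y hd (key x hx) (key y hy)

end Fermat.Agent.LT.T7.H296

end

end
-- ===== PACK-END LT/T7/H296/TorCommId.lean

-- ===== PACK-BEGIN LT/T7/H514/FactUpQSpec.lean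
section




/-!
# Row LT, tower T7, node Q2.7.13 `MQ298.FactUpQC298` (registry row 2676, helper514):
# THE CUT over `ℚ` -- Spec

OFF-MAIN.  Definitions and frozen Props only (the proved top is `FactUpQTop.lean`).  No hole,
nothing assumed.  ADDITIVE (new names only, suffix `514`, namespace
`Fermat.Agent.LT.T7.FUQ514`).  MIRROR over `ℚ` of the cut of the cubic node `H305.FactUpC305` by
helper340 (`T7/H340/FactUpSpec.lean`, helper340@b1879b9c4, sha256 786596dd), which is imported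
AS IT IS: `locTwInt340`, `splitInt340`, `IsInertVal340` are REUSED VERBATIM (they carry no
hypothesis on the degree or on the infinite places).  Vocabulary over `ℚ`:
`T7/H298/MatchQSpec.lean`, `T7/H298/MatchQCut.lean` (helper298@076793e90, sha256 74dc2a3c).

    factUpQC_of514 : UpFactQC514 F → LocEqInertQC514 F → LocEqSplitQC514 F → LocEqArchQC514 F
                       → MQ298.FactUpQC298 F                                     (VERBATIM)

## The cut (as in the cubic case: three steps which do not interact)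

`F/ℚ` imaginary quadratic, `l = 2`, `N δ = γ` elliptic, `γ` good outside `S`, `δ` integral
outside `S'`.

1. (`UpFactQC514`, NODE: global → local upstairs, NO matching)  For the product cut-off upstairs
   the cut-off integral is `(c'_G / c_T) ∑_j ∏_{v ∈ S} J_v · J_∞(j)`:
   * `v ∈ S` with ONE place over it: `H340.IsInertVal340` (VERBATIM);
   * `v ∈ S` split: `IsSplitValQ514` = `H340.IsSplitVal340` with the local data over `ℚ`
     (`MQ298.LocDataQ298`);
   * the infinite place, `IsArchValQ514`: `F` has ONE infinite place `w`, complex, over the real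
     place; the conjugation of `F` is the complex conjugation in the coordinate of `w`:
     `J_∞(j) = ∫_{GL₂(ℂ)} Φ_w(x⁻¹ (δ r'^j)_w x̄) β'(x) dμc(x)`, `β'` a continuous cut-off function
     on `GL₂(ℂ)` for the image of the centraliser of `γ_∞` in `GL₂(ℝ)` with the measure `L.μtr`
     DOWNSTAIRS (the twisted centraliser of `δ_w` is that image: `T6.TwCentC`).
2. (`LocEqInertQC514`, `LocEqSplitQC514`, LEAVES, local, finite places)  `J_v = I_v`
   (`locInt305`), by `LocHypQ298.inert`, `LocHypQ298.split` (the SAME clauses as `LocHyp305`):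
   the proofs of `H340.LocEqInertC340` (helper555) and `H340.LocEqSplitC340` port verbatim.
3. (`LocEqArchQC514`, LEAF, local, infinite place)  `J_∞(j) = I_∞(j)`: FIRST clause of
   `T6.IsArchMatch` (`LocHypQ298.arch w`) for `(γ r^j)_∞` and `(δ r'^j)_w`.

FALSITY CHECKS (helper514).  (1) Constant: `c'_G` = the constant of `H305.HaarSplitC305 F` (`F` is
totally complex) for `D.R'.μ`, `μc` and the levels `n`; at a split `v ∈ S` the levels agree
(`LocHypQ298.split`) and the images of the normalised measures upstairs under `i_j⁻¹` are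
`L.μv v`.  (2) The torus constant is the one DOWNSTAIRS (`IsTorLinked305`); at the infinite place
the local torus measure is `L.μtr` on the centraliser of `γ_∞`, and the cut-off functions `β'`
(upstairs) and `L.βr` (downstairs, `IsLocDataQ298.cutr`) are normalised against THE SAME measure,
as `T6.IsArchMatch` requires.  (3) Ray: the real component of `D.R.r` is the positive scalar `t`,
`t² = 2`, the component of `D.R'.r` at `w` is the positive scalar `t'`, `t'⁴ = 2`, so `t'² = t`;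
`(γ r^j)_∞ = t^j γ_∞` is regular with the centraliser of `γ_∞` (transport of `L.μtr` along the
equality of the subgroups), and `(δ r'^j)_w conj((δ r'^j)_w) = t^j (N δ)_w = ((γ r^j)_∞)_ℂ`
(`w ∘ σ = conj ∘ w` as embeddings: `σ ≠ 1`, two embeddings).  (4) The finite components of `r`,
`r'` are trivial: `J_v` does not depend on `j`.  (5) `T6.IsArchMatch` quantifies over ALL
admissible `β'`: the leaf of step 3 is stated for every admissible choice.
-/

set_option autoImplicit false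

open AutomorphicForm IsDedekindDomain NumberField MeasureTheory
open scoped ComplexConjugate

noncomputable section

namespace Fermat.Agent.LT.T7.FUQ514

open Fermat.Agent.LT.H556 Fermat.Agent.LT.H556.A0 Fermat.Agent.LT.T7 Fermat.Agent.LT.T7.H305
open Fermat.Agent.LT.T7.MQ298 Fermat.Agent.LT.T7.H340

attribute [local instance] Fermat.Agent.LT.T5.instMeasurableSpaceG

/-! ## 1. The local integrals upstairs over `ℚ` -/

section Defs

variable {F : Type} [Field F] [NumberField F]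

/-- `J` is THE LOCAL TWISTED INTEGRAL UPSTAIRS at the SPLIT place `v` of `ℚ`, in the coordinates
of `ℚ_v`, with the local Haar measure and the local cut-off function DOWNSTAIRS
(`H340.IsSplitVal340` with the local data `MQ298.LocDataQ298`). -/
def IsSplitValQ514 (D : CompData ℚ F)
    (φ₀ : ∀ w : HeightOneSpectrum (𝓞 F), GL (Fin 2) (w.adicCompletion F) → ℂ)
    (δ : GL (Fin 2) F) {γ : GL (Fin 2) ℚ} (L : LocDataQ298 γ)
    (v : HeightOneSpectrum (𝓞 ℚ)) (J : ℂ) : Prop :=
  ∃ (hl : 0 < D.l) (w : ℕ → HeightOneSpectrum (𝓞 F))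
    (i : ∀ j : ℕ, v.adicCompletion ℚ ≃+* (w j).adicCompletion F),
    (∀ j : ℕ, PlaceOver ℚ F v (w j)) ∧
    (∀ j : ℕ, T5.PlaceRel D.s (w (j + 1)) (w j)) ∧
    (∀ j : ℕ, 0 < j → j < D.l → w j ≠ w 0) ∧
    (∀ (j : ℕ) (x : ℚ), i j (algebraMap ℚ (v.adicCompletion ℚ) x)
      = algebraMap F ((w j).adicCompletion F) (algebraMap ℚ F x)) ∧
    (∀ (j : ℕ) (x : v.adicCompletion ℚ), Valued.v (i j x) = Valued.v x) ∧
    J = splitInt340 D.l hl (L.μv v) (L.βv v)
        (fun j g => φ₀ (w j)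
          (Matrix.GeneralLinearGroup.map ((i j : v.adicCompletion ℚ ≃+* _) :
            v.adicCompletion ℚ →+* (w j).adicCompletion F) g))
        (fun j => Matrix.GeneralLinearGroup.map
          (((i j).symm : (w j).adicCompletion F ≃+* _) :
            (w j).adicCompletion F →+* v.adicCompletion ℚ) (locG305 (w j) δ))

/-- `J` is THE LOCAL TWISTED INTEGRAL UPSTAIRS at the infinite place for the index `j` of the
ray: `∫_{GL₂(ℂ)} Φ_w(x⁻¹ (δ r'^j)_w x̄) β'(x) dμc(x)` for an infinite place `w` of `F` and SOME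
continuous cut-off function `β' ≥ 0` on `GL₂(ℂ)` with `∫ β'(t_ℂ x) dμtr(t) = 1` for all `x`, `t`
in the centraliser of `γ_∞` in `GL₂(ℝ)` (the cut-off data of `T6.IsArchMatch`, for the torus
measure `L.μtr` DOWNSTAIRS). -/
def IsArchValQ514 (D : CompData ℚ F) (Φ : InfinitePlace F → GL (Fin 2) ℂ → ℂ)
    (δ : GL (Fin 2) F) {γ : GL (Fin 2) ℚ} (L : LocDataQ298 γ)
    (μc : @Measure (GL (Fin 2) ℂ) (borel _)) (j : ℤ) (J : ℂ) : Prop :=
  ∃ (w : InfinitePlace F) (β' : GL (Fin 2) ℂ → ℝ),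
    Continuous β' ∧ (∀ x, 0 ≤ β' x) ∧
    (∀ x : GL (Fin 2) ℂ,
      @integral _ _ _ _ (borel _) L.μtr
        (fun t : cent305 (reGLQ298 (T5.ratG γ)) =>
          β' (Matrix.GeneralLinearGroup.map (algebraMap ℝ ℂ) (t : GL (Fin 2) ℝ) * x)) = 1) ∧
    J = @integral _ _ _ _ (borel _) μc
        (fun x : GL (Fin 2) ℂ =>
          Φ w (x⁻¹ * infGL305 w (T5.ratG δ * D.R'.r ^ j)
              * T6.glAut (starRingAut : ℂ ≃+* ℂ) x) * ((β' x : ℝ) : ℂ))

end Defs

/-! ## 2. The node and the leaves -/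

section Leaves

variable (F : Type) [Field F] [NumberField F]

/-- **NODE Q2.7.13.1 = UP-FACT over `ℚ` (global → local upstairs, NO matching).**  Mirror of
`H340.UpFactC340`.  The constant `c'_G` depends on `D`, `ι`, `μr`, `μc`, `T₀`, `n`, `m` only.
Proof.  As `UpFactC340` (see there), with: `H305.HaarSplitC305 F` (`F` is totally complex; levels
`n`), `IsTorConstQ298`, `IsTorLinked305`; LOCAL DATA at the infinite place: the place `w` of `F`,
`β'_w` a continuous cut-off function on `GL₂(ℂ)` for the image of the centraliser of `γ_∞` with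
the measure `L.μtr` (closed subgroup of `GL₂(ℂ)`: `exists_cutoff584`); CUT-OFF:
`β' = c_T⁻¹ 1_{Out_{S'}} ∏_{v ∈ S} β'_v · β'_w(y_w)`; the component of `σ_𝔸` at `w` is the complex
conjugation (`SigmaLocC305`-form: `w ∘ σ = conj ∘ w` on `F`, density), so the component at `w` of
`y⁻¹ δ r'^j σ(y)` is `y_w⁻¹ (δ r'^j)_w conj(y_w)`. -/
def UpFactQC514 : Prop :=
  T6.T6Out → IsImagQuad F →
  ∀ D : CompData ℚ F, IsCompData D → IsCycExt ℚ F D.l → D.l = 2 →
    ∀ ι : Adl ℚ →+* Adl F, IsAdeleBase305 D.s D.l ι →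
    ∀ μr : @Measure (GL (Fin 2) ℝ) (borel _), @Measure.IsHaarMeasure _ _ _ (borel _) μr →
    ∀ μc : @Measure (GL (Fin 2) ℂ) (borel _), @Measure.IsHaarMeasure _ _ _ (borel _) μc →
    ∀ (T₀ : Finset (HeightOneSpectrum (𝓞 ℚ))), UnramOut305 (K' := F) T₀ →
    ∀ (n : HeightOneSpectrum (𝓞 F) → ℕ) (m : HeightOneSpectrum (𝓞 ℚ) → ℕ),
      IsLevelAt305 T₀ n m →
    ∃ cG' : ℝ, 0 < cG' ∧
      ∀ (S : Finset (HeightOneSpectrum (𝓞 ℚ))) (S' : Finset (HeightOneSpectrum (𝓞 F))),
        T₀ ⊆ S → IsOver305 S S' →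
      ∀ (φ₀ : ∀ w : HeightOneSpectrum (𝓞 F), GL (Fin 2) (w.adicCompletion F) → ℂ)
        (Φ : InfinitePlace F → GL (Fin 2) ℂ → ℂ)
        (f₀ : ∀ v : HeightOneSpectrum (𝓞 ℚ), GL (Fin 2) (v.adicCompletion ℚ) → ℂ)
        (F0 F1 : GL (Fin 2) ℝ → ℂ),
        LocHypQ298 D μr μc S n m φ₀ Φ f₀ F0 F1 →
      ∀ (δ : GL (Fin 2) F) (γ : GL (Fin 2) ℚ), T6.IsEll γ →
        D.s.normUpTo D.l δ = Matrix.GeneralLinearGroup.map (algebraMap ℚ F) γ →
        GoodOut305 S γ → IntOut305 S' δ →
      ∀ (μT : @Measure (tA305 (T5.AdelicAut.id ℚ) γ) (borel _))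
        (μT' : @Measure (tA305 D.s δ) (borel _)),
        @Measure.IsHaarMeasure _ _ _ (borel _) μT →
        @Measure.IsHaarMeasure _ _ _ (borel _) μT' →
        IsTorLinked305 ι D.s δ γ μT μT' →
      ∀ (L : LocDataQ298 γ) (cT : ℝ), IsLocDataQ298 m L → 0 < cT → IsTorConstQ298 γ μT L cT →
        ∃ (β' : G F → ℝ) (J : HeightOneSpectrum (𝓞 ℚ) → ℂ) (Jc : ℤ → ℂ),
          IsCutOn305 D.s δ μT' β'
              {x | T5.twTerm D.R'.r D.s (pure305 S' φ₀ Φ) δ x ≠ 0} ∧
            cutInt305 D.R'.r D.s (pure305 S' φ₀ Φ) δ D.R'.μ β'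
              = ((cG' / cT : ℝ) : ℂ) * ∑' j : ℤ, (∏ v ∈ S, J v) * Jc j ∧
            (∀ v ∈ S, IsInertVal340 D n φ₀ δ v (J v) ∨ IsSplitValQ514 D φ₀ δ L v (J v)) ∧
            ∀ j : ℤ, IsArchValQ514 D Φ δ L μc j (Jc j)

/-- **LEAF Q2.7.13.2 = LOC-EQ-INERT over `ℚ` (local; one place over `v`).**  Mirror of
`H340.LocEqInertC340`: the local twisted integral upstairs is the local integral downstairs.
Proof.  The proof of `H340.LocEqInertC340` (helper555, `T7/H555/LocEqInert.lean`) with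
`LocHypQ298.inert` in place of `LocHyp305.inert` (the same clause for `K = ℚ`, `K' = F`); it uses
`T6Out` (`InstLocalC`, `InstExtC`, `OrbSumExC`, `OrbSumIntC`) and neither `D.l ≠ 2` nor
`TotCplx`. -/
def LocEqInertQC514 : Prop :=
  T6.T6Out → IsImagQuad F →
  ∀ D : CompData ℚ F, IsCompData D → IsCycExt ℚ F D.l → D.l = 2 →
    ∀ (μr : @Measure (GL (Fin 2) ℝ) (borel _)) (μc : @Measure (GL (Fin 2) ℂ) (borel _))
      (S : Finset (HeightOneSpectrum (𝓞 ℚ)))
      (n : HeightOneSpectrum (𝓞 F) → ℕ) (m : HeightOneSpectrum (𝓞 ℚ) → ℕ)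
      (φ₀ : ∀ w : HeightOneSpectrum (𝓞 F), GL (Fin 2) (w.adicCompletion F) → ℂ)
      (Φ : InfinitePlace F → GL (Fin 2) ℂ → ℂ)
      (f₀ : ∀ v : HeightOneSpectrum (𝓞 ℚ), GL (Fin 2) (v.adicCompletion ℚ) → ℂ)
      (F0 F1 : GL (Fin 2) ℝ → ℂ),
      LocHypQ298 D μr μc S n m φ₀ Φ f₀ F0 F1 →
    ∀ (δ : GL (Fin 2) F) (γ : GL (Fin 2) ℚ), T6.IsEll γ →
      D.s.normUpTo D.l δ = Matrix.GeneralLinearGroup.map (algebraMap ℚ F) γ →
    ∀ L : LocDataQ298 γ, IsLocDataQ298 m L →
    ∀ v ∈ S, ∀ J : ℂ, IsInertVal340 D n φ₀ δ v J →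
      J = locInt305 (L.μv v) (L.βv v) (f₀ v) (locG305 v γ)

/-- **LEAF Q2.7.13.3 = LOC-EQ-SPLIT over `ℚ` (local; split place).**  Mirror of
`H340.LocEqSplitC340` (`l = 2`: two places `w_0, w_1` over `v`).
Proof.  As `LocEqSplitC340`: `δ_0 δ_1 = γ_v`; Fubini and the split integral identity
(`T6.SplitInt2C`; helper159 `iterL_eq159`, helper584 `iterInt_eq_rconv584`, helper855
`isConvProd_chain855`): the integral over `y_1` is `(φ_0 * φ_1)(y_0⁻¹ γ_v y_0)` for the measure
`L.μv v`; `LocHypQ298.split`: it is `f₀_v(y_0⁻¹ γ_v y_0)`. -/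
def LocEqSplitQC514 : Prop :=
  T6.T6Out → IsImagQuad F →
  ∀ D : CompData ℚ F, IsCompData D → IsCycExt ℚ F D.l → D.l = 2 →
    ∀ (μr : @Measure (GL (Fin 2) ℝ) (borel _)) (μc : @Measure (GL (Fin 2) ℂ) (borel _))
      (S : Finset (HeightOneSpectrum (𝓞 ℚ)))
      (n : HeightOneSpectrum (𝓞 F) → ℕ) (m : HeightOneSpectrum (𝓞 ℚ) → ℕ)
      (φ₀ : ∀ w : HeightOneSpectrum (𝓞 F), GL (Fin 2) (w.adicCompletion F) → ℂ)
      (Φ : InfinitePlace F → GL (Fin 2) ℂ → ℂ)
      (f₀ : ∀ v : HeightOneSpectrum (𝓞 ℚ), GL (Fin 2) (v.adicCompletion ℚ) → ℂ)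
      (F0 F1 : GL (Fin 2) ℝ → ℂ),
      LocHypQ298 D μr μc S n m φ₀ Φ f₀ F0 F1 →
    ∀ (δ : GL (Fin 2) F) (γ : GL (Fin 2) ℚ), T6.IsEll γ →
      D.s.normUpTo D.l δ = Matrix.GeneralLinearGroup.map (algebraMap ℚ F) γ →
    ∀ L : LocDataQ298 γ, IsLocDataQ298 m L →
    ∀ v ∈ S, ∀ J : ℂ, IsSplitValQ514 D φ₀ δ L v J →
      J = locInt305 (L.μv v) (L.βv v) (f₀ v) (locG305 v γ)

/-- **LEAF Q2.7.13.4 = LOC-EQ-ARCH over `ℚ` (local; the infinite place).**  The local twisted
integral upstairs for the index `j` of the ray is the local integral downstairs for the index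
`j`, for the archimedean component `F0 + F1`.
Proof.  `γ' = (γ r^j)_∞ = t^j γ_∞` (`T5.IsRayGen` for `D.R.r`: `IsCompData.frame`; `t > 0`,
`t² = 2`): regular (`γ` elliptic), with the centraliser of `γ_∞` (equality of subgroups of
`GL₂(ℝ)`: transport `L.μtr`, the two integral conditions do not change).
`δ' = (δ r'^j)_w = t'^j δ_w` (`IsCompData.frame'`, `t'⁴ = 2`, `t'² = t`):
`T6.twNorm conj 2 δ' = δ' conj(δ') = t^j (δ σ(δ))_w = t^j (γ)_w = (γ')_ℂ`
(`w ∘ σ = conj ∘ w` on `F`: `σ ≠ 1` by `IsCycExt`, `F` has two embeddings; the component at `w`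
of `T5.ratG` is the embedding).  FIRST clause of `T6.IsArchMatch μr μc (Φ w) (F0 + F1)`
(`LocHypQ298.arch w`) for `γ'`, the transported measure, `β = L.βr` (`IsLocDataQ298.cutr`), `δ'`
and `β'` of `IsArchValQ514`. -/
def LocEqArchQC514 : Prop :=
  IsImagQuad F →
  ∀ D : CompData ℚ F, IsCompData D → IsCycExt ℚ F D.l → D.l = 2 →
    ∀ ι : Adl ℚ →+* Adl F, IsAdeleBase305 D.s D.l ι →
    ∀ μr : @Measure (GL (Fin 2) ℝ) (borel _), @Measure.IsHaarMeasure _ _ _ (borel _) μr →
    ∀ μc : @Measure (GL (Fin 2) ℂ) (borel _), @Measure.IsHaarMeasure _ _ _ (borel _) μc →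
    ∀ (S : Finset (HeightOneSpectrum (𝓞 ℚ)))
      (n : HeightOneSpectrum (𝓞 F) → ℕ) (m : HeightOneSpectrum (𝓞 ℚ) → ℕ)
      (φ₀ : ∀ w : HeightOneSpectrum (𝓞 F), GL (Fin 2) (w.adicCompletion F) → ℂ)
      (Φ : InfinitePlace F → GL (Fin 2) ℂ → ℂ)
      (f₀ : ∀ v : HeightOneSpectrum (𝓞 ℚ), GL (Fin 2) (v.adicCompletion ℚ) → ℂ)
      (F0 F1 : GL (Fin 2) ℝ → ℂ),
      LocHypQ298 D μr μc S n m φ₀ Φ f₀ F0 F1 →
    ∀ (δ : GL (Fin 2) F) (γ : GL (Fin 2) ℚ), T6.IsEll γ →
      D.s.normUpTo D.l δ = Matrix.GeneralLinearGroup.map (algebraMap ℚ F) γ →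
    ∀ L : LocDataQ298 γ, IsLocDataQ298 m L →
    ∀ (j : ℤ) (J : ℂ), IsArchValQ514 D Φ δ L μc j J →
      J = locInt305 μr L.βr (fun g => F0 g + F1 g) (reGLQ298 (T5.ratG γ * D.R.r ^ j))

end Leaves

/-! ## Appendix: the equation lemmas of the definitions are realised HERE -/

theorem eqns_realisedFUQ514 : True := by
  have _a1 := @IsSplitValQ514.eq_1
  have _a2 := @IsSplitValQ514.eq_def
  have _a3 := @IsSplitValQ514.eq_unfold
  have _b1 := @IsArchValQ514.eq_1
  have _b2 := @IsArchValQ514.eq_def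
  have _b3 := @IsArchValQ514.eq_unfold
  have _c1 := @UpFactQC514.eq_1
  have _c2 := @UpFactQC514.eq_def
  have _c3 := @UpFactQC514.eq_unfold
  have _d1 := @LocEqInertQC514.eq_1
  have _d2 := @LocEqInertQC514.eq_def
  have _d3 := @LocEqInertQC514.eq_unfold
  have _e1 := @LocEqSplitQC514.eq_1
  have _e2 := @LocEqSplitQC514.eq_def
  have _e3 := @LocEqSplitQC514.eq_unfold
  have _f1 := @LocEqArchQC514.eq_1
  have _f2 := @LocEqArchQC514.eq_def
  have _f3 := @LocEqArchQC514.eq_unfold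
  trivial

end Fermat.Agent.LT.T7.FUQ514

end

end
-- ===== PACK-END LT/T7/H514/FactUpQSpec.lean

-- ===== PACK-BEGIN LT/T7/H555/LocEqInert.lean
section



/-!
# Row LT, tower T7, leaf C2.7.13.2 `LocEqInertC340` (cut of helper340, registry row 2621)

OFF-MAIN.  `locEqInertC555 K K' : H340.LocEqInertC340 K K'` VERBATIM, unconditional.

Proof (the sketch of the spec).  `T6.InstLocalC`: `K_v`, `K'_w` are local fields; `T6.InstExtC`
for a generator of the Galois group gives the residue field of `K'_w` (`N w = N v ^ (l / e₀)`),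
and `e₀` is the `e` of the given local extension datum (both are the valuation of the image of a
uniformiser of `K`).  `T6.OrbSumExC` gives orbit sums upstairs (twisted) and downstairs
(`k' = k`, `l = e = 1`), `T6.OrbSumIntC` identifies them with the two integrals, and
`LocHyp305.inert` says that they agree (`N δ_w = i(γ_v)`).
-/

set_option autoImplicit false

open AutomorphicForm IsDedekindDomain NumberField MeasureTheory
open scoped ComplexConjugate

noncomputable section

namespace Fermat.Agent.LT.T7.H555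

open Fermat.Agent.LT.H556 Fermat.Agent.LT.H556.A0 Fermat.Agent.LT Fermat.Agent.LT.T7
open Fermat.Agent.LT.T7.H305 Fermat.Agent.LT.T7.H340

/-! ## 1. Algebra of `GL₂` under ring homomorphisms -/

theorem disc_map555 {R S : Type} [CommRing R] [CommRing S] (f : R →+* S) (γ : GL (Fin 2) R) :
    T6.disc (Matrix.GeneralLinearGroup.map f γ) = f (T6.disc γ) := by
  unfold T6.disc
  have h1 : ((Matrix.GeneralLinearGroup.map f γ : GL (Fin 2) S) : Matrix (Fin 2) (Fin 2) S)
      = (γ : Matrix (Fin 2) (Fin 2) R).map f := rfl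
  rw [h1]
  simp [Matrix.trace_fin_two, Matrix.det_fin_two, map_ofNat]

theorem isReg_map555 {R S : Type} [CommRing R] [CommRing S] (f : R →+* S) {γ : GL (Fin 2) R}
    (h : T6.IsReg γ) : T6.IsReg (Matrix.GeneralLinearGroup.map f γ) := by
  unfold T6.IsReg at h ⊢
  rw [disc_map555]
  exact h.map f

theorem glAut_refl555 {R : Type} [CommRing R] (x : GL (Fin 2) R) :
    T6.glAut (RingEquiv.refl R) x = x := by
  apply Matrix.GeneralLinearGroup.ext
  intro a b
  rfl

theorem twNorm_one555 {R : Type} [CommRing R] (s : R ≃+* R) (δ : GL (Fin 2) R) :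
    T6.twNorm s 1 δ = δ := by
  show δ * T6.glAut s 1 = δ
  rw [map_one, mul_one]

theorem isLocalExt_refl555 (k : Type) [Field k] [Valued k T6.Γ₀] :
    T6.IsLocalExt k k 1 1 (RingHom.id k) (RingEquiv.refl k) where
  cyc :=
    { pos := Nat.one_pos
      fix_i := fun _ => rfl
      fixed := fun y _ => ⟨y, rfl⟩
      order := fun y => by simp
      faithful := fun m h1 h2 => by omega }
  e_pos := Nat.one_pos
  val_i := fun x => by simp
  val_s := fun _ => rfl

section TwoFields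

variable {K K' : Type} [Field K] [NumberField K] [Field K'] [NumberField K'] [Algebra K K']

theorem locG_onRat555 (s : T5.AdelicAut K') (w : HeightOneSpectrum (𝓞 K'))
    (sw : w.adicCompletion K' ≃+* w.adicCompletion K')
    (hsw : ∀ y : K', sw (algebraMap K' (w.adicCompletion K') y)
      = algebraMap K' (w.adicCompletion K') (s.σ y)) (x : GL (Fin 2) K') :
    locG305 w (s.onRat x) = T6.glAut sw (locG305 w x) := by
  apply Matrix.GeneralLinearGroup.ext
  intro a b
  exact (hsw _).symm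

theorem locG_normUpTo555 (s : T5.AdelicAut K') (w : HeightOneSpectrum (𝓞 K'))
    (sw : w.adicCompletion K' ≃+* w.adicCompletion K')
    (hsw : ∀ y : K', sw (algebraMap K' (w.adicCompletion K') y)
      = algebraMap K' (w.adicCompletion K') (s.σ y)) (l : ℕ) (δ : GL (Fin 2) K') :
    locG305 w (s.normUpTo l δ) = T6.twNorm sw l (locG305 w δ) := by
  induction l with
  | zero =>
    show locG305 w 1 = 1
    exact map_one _
  | succ n ih =>
    show locG305 w (δ * s.onRat (s.normUpTo n δ))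
      = locG305 w δ * T6.glAut sw (T6.twNorm sw n (locG305 w δ))
    rw [map_mul, locG_onRat555 s w sw hsw, ih]

theorem locG_base555 (v : HeightOneSpectrum (𝓞 K)) (w : HeightOneSpectrum (𝓞 K'))
    (i : v.adicCompletion K →+* w.adicCompletion K')
    (hi : ∀ x : K, i (algebraMap K (v.adicCompletion K) x)
      = algebraMap K' (w.adicCompletion K') (algebraMap K K' x)) (γ : GL (Fin 2) K) :
    locG305 w (Matrix.GeneralLinearGroup.map (algebraMap K K') γ)
      = Matrix.GeneralLinearGroup.map i (locG305 v γ) := by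
  apply Matrix.GeneralLinearGroup.ext
  intro a b
  exact (hi _).symm

/-- The ramification index of a local embedding is determined by its restriction to `K`. -/
theorem ramIdx_unique555 (v : HeightOneSpectrum (𝓞 K)) (w : HeightOneSpectrum (𝓞 K'))
    (e e₀ : ℕ) (i i₀ : v.adicCompletion K →+* w.adicCompletion K')
    (hi : ∀ x : K, i (algebraMap K (v.adicCompletion K) x)
      = algebraMap K' (w.adicCompletion K') (algebraMap K K' x))
    (hi₀ : ∀ x : K, i₀ (algebraMap K (v.adicCompletion K) x)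
      = algebraMap K' (w.adicCompletion K') (algebraMap K K' x))
    (hv : ∀ x : v.adicCompletion K, Valued.v (i x) = Valued.v x ^ e)
    (hv₀ : ∀ x : v.adicCompletion K, Valued.v (i₀ x) = Valued.v x ^ e₀) : e = e₀ := by
  obtain ⟨π, hπ⟩ := v.valuation_exists_uniformizer K
  have h1 := hv (algebraMap K _ π)
  have h2 := hv₀ (algebraMap K _ π)
  rw [hi] at h1
  rw [hi₀] at h2
  have h3 : Valued.v (algebraMap K (v.adicCompletion K) π) = WithZero.exp (-1 : ℤ) := by
    rw [← hπ]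
    exact v.valuedAdicCompletion_eq_valuation' π
  rw [h3] at h1 h2
  have h4 : WithZero.exp (-1 : ℤ) ^ e = WithZero.exp (-1 : ℤ) ^ e₀ := h1.symm.trans h2
  rw [← WithZero.exp_nsmul, ← WithZero.exp_nsmul, WithZero.exp_inj] at h4
  have h5 : (e : ℤ) * (-1) = (e₀ : ℤ) * (-1) := by simpa using h4
  omega

theorem exists_gen555 (l : ℕ) (h : IsCycExt K K' l) :
    ∃ s : K' ≃ₐ[K] K', ∀ t : K' ≃ₐ[K] K', t ∈ Subgroup.zpowers s := by
  haveI := h.galois
  haveI : Fact l.Prime := ⟨h.prime⟩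
  have hcard : Nat.card (K' ≃ₐ[K] K') = l := by
    rw [IsGalois.card_aut_eq_finrank, h.degree]
  haveI : IsCyclic (K' ≃ₐ[K] K') := isCyclic_of_prime_card hcard
  exact IsCyclic.exists_generator

theorem coe_algebraMap555 (x : 𝓞 K) :
    ((algebraMap (𝓞 K) (𝓞 K') x : 𝓞 K') : K') = algebraMap K K' (x : K) := rfl

theorem placeOver_iff555 {v : HeightOneSpectrum (𝓞 K)} {w : HeightOneSpectrum (𝓞 K')}
    (h : PlaceOver K K' v w) (x : 𝓞 K) :
    x ∈ v.asIdeal ↔ algebraMap (𝓞 K) (𝓞 K') x ∈ w.asIdeal :=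
  h x _ (coe_algebraMap555 x)

theorem placeOver_of_le555 {v : HeightOneSpectrum (𝓞 K)} {w : HeightOneSpectrum (𝓞 K')}
    (h : ∀ x : 𝓞 K, x ∈ v.asIdeal → algebraMap (𝓞 K) (𝓞 K') x ∈ w.asIdeal) :
    PlaceOver K K' v w := by
  intro x y hxy
  have hy : y = algebraMap (𝓞 K) (𝓞 K') x := by
    exact RingOfIntegers.ext (hxy.trans (coe_algebraMap555 x).symm)
  subst hy
  refine ⟨h x, fun hx => ?_⟩
  by_contra hxv
  haveI : v.asIdeal.IsMaximal := v.isMaximal
  obtain ⟨a, b, hb, hab⟩ := Ideal.IsMaximal.exists_inv (I := v.asIdeal) inferInstance hxv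
  have h1 : algebraMap (𝓞 K) (𝓞 K') (a * x + b) ∈ w.asIdeal := by
    rw [map_add, map_mul]
    exact w.asIdeal.add_mem (w.asIdeal.mul_mem_left _ hx) (h b hb)
  rw [hab, map_one] at h1
  exact w.isPrime.ne_top ((Ideal.eq_top_iff_one _).mpr h1)

/-! ## 2. The leaf -/

variable (K K') in
/-- **LEAF C2.7.13.2 = LOC-EQ-INERT**, VERBATIM. -/
theorem locEqInertC555 : LocEqInertC340 K K' := by
  intro hT6 D hD hcyc _hl2 _hTC μc S n m φ₀ Φ f₀ F hLoc δ γ hEll hN L hL v hv J hJ
  obtain ⟨_, _, _, _, _, hInstLoc, hInstExt, _, hEx, _, hInt, _⟩ := hT6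
  obtain ⟨w, e, i, sw, μ', μt', β', hvw, huniq, hi, hsw, hext, hμ', hμt', hβ', rfl⟩ := hJ
  obtain ⟨hμ'1, hμ'2⟩ := hμ'
  obtain ⟨hμt'1, hμt'2⟩ := hμt'
  obtain ⟨hβ'1, hβ'2, hβ'3⟩ := hβ'
  obtain ⟨hμ1, hμ2⟩ := hL.haar v
  obtain ⟨hμt1, hμt2⟩ := hL.tor v
  obtain ⟨hβ1, hβ2, hβ3⟩ := hL.cut v
  obtain ⟨hup1, hup2⟩ := hLoc.inv_up v hv w hvw
  obtain ⟨hdn1, hdn2⟩ := hLoc.inv_down v hv
  -- regularity
  have hregγ : T6.IsReg (locG305 v γ) := isReg_map555 _ hEll.1
  have hnorm : T6.twNorm sw D.l (locG305 w δ)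
      = Matrix.GeneralLinearGroup.map i (locG305 v γ) := by
    rw [← locG_normUpTo555 D.s w sw hsw, hN, locG_base555 v w i hi]
  have hregδ : T6.IsReg (T6.twNorm sw D.l (locG305 w δ)) := by
    rw [hnorm]
    exact isReg_map555 _ hregγ
  -- the local fields
  have hkv := hInstLoc K v
  have hkw := hInstLoc K' w
  have hkw' : T6.IsLocalField (w.adicCompletion K')
      (Ideal.absNorm v.asIdeal ^ (D.l / e)) := by
    haveI := hcyc.galois
    obtain ⟨s, hs⟩ := exists_gen555 D.l hcyc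
    obtain ⟨e₀, i₀, sw₀, hi₀, _, hext₀, hN₀⟩ :=
      hInstExt K K' s hs (hcyc.degree ▸ hcyc.prime) v w (placeOver_iff555 hvw)
        (fun w' hw' => huniq w' (placeOver_of_le555 hw'))
    have he : e = e₀ := ramIdx_unique555 v w e e₀ i i₀ hi hi₀ hext.val_i hext₀.val_i
    rw [he, ← hcyc.degree, ← hN₀]
    exact hkw
  -- orbit sums
  obtain ⟨c, hc⟩ := hEx (v.adicCompletion K) (w.adicCompletion K') (Ideal.absNorm v.asIdeal)
    D.l e i sw hkv hkw' hext (n w) (φ₀ w) hup1 hup2 (locG305 w δ) hregδ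
  have hkv1 : T6.IsLocalField (v.adicCompletion K) (Ideal.absNorm v.asIdeal ^ (1 / 1)) := by
    have : Ideal.absNorm v.asIdeal ^ (1 / 1) = Ideal.absNorm v.asIdeal := by norm_num
    rw [this]
    exact hkv
  have hregγ1 : T6.IsReg (T6.twNorm (RingEquiv.refl (v.adicCompletion K)) 1 (locG305 v γ)) := by
    rw [twNorm_one555]
    exact hregγ
  obtain ⟨c', hc'⟩ := hEx (v.adicCompletion K) (v.adicCompletion K) (Ideal.absNorm v.asIdeal)
    1 1 (RingHom.id _) (RingEquiv.refl _) hkv hkv1 (isLocalExt_refl555 _) (m v) (f₀ v) hdn1 hdn2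
    (locG305 v γ) hregγ1
  -- the integrals
  have hJc : locTwInt340 sw μ' β' (φ₀ w) (locG305 w δ) = c :=
    hInt (w.adicCompletion K') (Ideal.absNorm w.asIdeal) D.l sw hkw hext.val_s hext.cyc.pos
      hext.cyc.order (n w) (φ₀ w) hup1 hup2 (locG305 w δ) c hregδ hc μ' hμ'1 hμ'2 μt' hμt'1 hμt'2
      β' hβ'1 hβ'2 hβ'3
  have hIc : locInt305 (L.μv v) (L.βv v) (f₀ v) (locG305 v γ) = c' := by
    have h := hInt (v.adicCompletion K) (Ideal.absNorm v.asIdeal) 1 (RingEquiv.refl _) hkv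
      (fun _ => rfl) Nat.one_pos (fun y => by simp) (m v) (f₀ v) hdn1 hdn2 (locG305 v γ) c'
      hregγ1 hc' (L.μv v) hμ1 hμ2 (L.μt v) hμt1 hμt2 (L.βv v) hβ1 hβ2 hβ3
    rw [← h]
    unfold locInt305
    simp only [glAut_refl555]
  -- matching
  have hcc' : c = c' :=
    (hLoc.inert v hv w hvw huniq e i sw hi hsw hext).1 (locG305 w δ) (locG305 v γ) c c' hregγ
      (hnorm ▸ IsConj.refl _) hc hc'
  rw [hJc, hIc, hcc']

end TwoFields

end Fermat.Agent.LT.T7.H555

end

end
-- ===== PACK-END LT/T7/H555/LocEqInert.lean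

-- ===== PACK-BEGIN LT/T7/H919/UnitPeriods.lean
section



/-!
# Row LT, tower T7, node T7.L2.1 `SupplyC`, part PROJ, leaf `UnitPeriodsC` (helper919)

OFF-MAIN.  `unitPeriodsC919 K : H40.UnitPeriodsC K`, VERBATIM against `T7/H40/ArchProjSpec.lean`
(helper40, sha256 34d7f842528466e1), unconditional, every number field.  The proof is
`unitPeriods919` of `UnitPeriodsCore.lean` (Mathlib only).
-/

set_option autoImplicit false

namespace Fermat.Agent.LT.T7.H919

/-- **LEAF UNIT-PERIODS**, verbatim. -/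
theorem unitPeriodsC919 (K : Type) [Field K] [NumberField K] :
    Fermat.Agent.LT.T7.H40.UnitPeriodsC K :=
  fun 𝔑 h𝔑 c hc => unitPeriods919 K 𝔑 h𝔑 c hc

end Fermat.Agent.LT.T7.H919

end
-- ===== PACK-END LT/T7/H919/UnitPeriods.lean

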