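import Mathlib
import Fermat.Agent.Pack.LT3.E24L2
import Fermat.Agent.Pack.LT3.E24L0
import Fermat.Agent.Pack.LT2.E8L3
import Fermat.Agent.Pack.LT2.E8L1
import Fermat.Agent.Pack.LT3.E23L3
import Fermat.Agent.Pack.LT2.E10L0
import Fermat.Agent.Pack.LT3.E23L1
import Fermat.Agent.Pack.LT2.E7L1
import Fermat.Agent.Pack.LT3.E23L0
import Fermat.Agent.Pack.LT3.E24L3
import Fermat.Agent.Pack.LT3.E10L1
import Fermat.Agent.Pack.LT3.E17L2
import Fermat.Agent.Pack.LT3.E23L2
import Fermat.Agent.Pack.LT3.E24L1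
import Fermat.Agent.Pack.LT2.E2L2
import Fermat.Agent.Pack.LT3.E2L1
import Fermat.Agent.Pack.LT3.E22L3
import Fermat.Agent.Pack.LT3.E25L0

set_option linter.all false

-- ===== PACK-BEGIN LT/T7/H194/FD/ArchIntbl.lean
section




/-!
# Row LT, tower T7, node C2.7.7 `FactDownC305`, leaf FD.8 `ArchIntblC558` (helper194)

OFF-MAIN.  On `LT/T7/H558/FactDownSpec.lean` (helper558@b6c4c8a4b, sha256 8043f526, byte-identical
copy) and the asset `Orb/ArchInt.lean` (closed orbits of regular elements, Tonelli).  No hole,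
nothing assumed.

    archIntblC194 : Fermat.Agent.LT.T7.H558.ArchIntblC558
-/

set_option autoImplicit false

open MeasureTheory

noncomputable section

namespace Fermat.Agent.LT.T7.H194

open Fermat.Agent.LT Fermat.Agent.LT.T7 Fermat.Agent.LT.T7.H305

/-- **FD.8 `ArchIntblC558`, unconditional.** -/
theorem archIntblC194 : H558.ArchIntblC558 :=
  fun μc hμc F hF hFc γ₀ hγ z hz μT hμT β hβ =>
    archIntegrable194 γ₀ hγ μc hμc μT hμT β hβ F hF hFc z hz

end Fermat.Agent.LT.T7.H194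

end

end
-- ===== PACK-END LT/T7/H194/FD/ArchIntbl.lean

-- ===== PACK-BEGIN LT/T7/H117/HaarSplitB.lean
section



/-!
# Row LT, tower T7, leaf C2.7.4 `HaarSplitC305` (helper117, OFF-MAIN): the component map

* `compHom117 S` : the homomorphism `y ↦ (y_v)_{v ∈ S ∪ S_∞}` (`= compS305 S`), continuous;
* `compHom_surj117` : ONTO from `Out_S` (`K` totally complex);
* `ker_sub117` : the kernel in `Out_S` lies in the standard compact subgroup.
-/

set_option autoImplicit false

open IsDedekindDomain NumberField MeasureTheory Set Topology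
open scoped NNReal ENNReal

noncomputable section

namespace Fermat.Agent.LT.T7.H117

open Fermat.Agent.LT.H556 Fermat.Agent.LT.H556.A0 Fermat.Agent.LT.T7 Fermat.Agent.LT.T7.H305

variable {K : Type} [Field K] [NumberField K]

/-- The target group `∏_{v ∈ S} GL₂(K_v) × ∏_w GL₂(ℂ)`. -/
abbrev HS117 (K : Type) [Field K] [NumberField K] (S : Finset (HeightOneSpectrum (𝓞 K))) :
    Type :=
  (∀ v : S, GL (Fin 2) ((v : HeightOneSpectrum (𝓞 K)).adicCompletion K)) ×
    (InfinitePlace K → GL (Fin 2) ℂ)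

/-- The component map as a homomorphism. -/
def compHom117 (S : Finset (HeightOneSpectrum (𝓞 K))) : G K →* HS117 K S :=
  MonoidHom.prod (MonoidHom.pi fun v : S => finGL305 v.1) (MonoidHom.pi fun w => infGL305 w)

theorem compHom_apply117 (S : Finset (HeightOneSpectrum (𝓞 K))) (y : G K) :
    compHom117 S y = compS305 S y := rfl

theorem coe_compHom117 (S : Finset (HeightOneSpectrum (𝓞 K))) :
    (compHom117 S : G K → HS117 K S) = compS305 S := rfl

theorem continuous_compHom117 (S : Finset (HeightOneSpectrum (𝓞 K))) :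
    Continuous (compHom117 (K := K) S) := by
  have h : Continuous (fun y : G K => compS305 S y) :=
    Continuous.prodMk (continuous_pi fun v => continuous_finGL117 v.1)
      (continuous_pi fun w => continuous_infGL117 w)
  exact h

theorem exists_fin117 (T : Finset (HeightOneSpectrum (𝓞 K)))
    (a : ∀ v : HeightOneSpectrum (𝓞 K), GL (Fin 2) (v.adicCompletion K)) :
    ∃ x : G K, (∀ v ∈ T, finGL305 v x = a v) ∧ (∀ v, v ∉ T → finGL305 v x = 1) ∧
      ∀ w : InfinitePlace K, infGL305 w x = 1 := by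
  classical
  induction T using Finset.induction_on with
  | empty => exact ⟨1, by simp, fun v _ => map_one _, fun w => map_one _⟩
  | insert v₀ T hv₀ ih =>
    obtain ⟨x, h1, h2, h3⟩ := ih
    refine ⟨T3.H57.finEmb57 v₀ (a v₀) * x, ?_, ?_, ?_⟩
    · intro v hv
      rw [map_mul]
      rcases Finset.mem_insert.1 hv with h | hv'
      · subst h
        rw [h2 v hv₀, mul_one]
        exact T3.H57.finGL_finEmb57 v (a v)
      · have hne : v ≠ v₀ := fun h => hv₀ (h ▸ hv')
        rw [h1 v hv', show finGL305 v (T3.H57.finEmb57 v₀ (a v₀)) = 1 from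
          T3.H57.finGL_finEmb_ne57 v₀ (a v₀) v hne, one_mul]
    · intro v hv
      rw [Finset.mem_insert, not_or] at hv
      rw [map_mul, h2 v hv.2, mul_one]
      exact T3.H57.finGL_finEmb_ne57 v₀ (a v₀) v hv.1
    · intro w
      rw [map_mul, h3 w, mul_one]
      exact T3.H57.infGL_finEmb57 v₀ (a v₀) w

theorem compHom_surj117 (hK : TotCplx K) (S : Finset (HeightOneSpectrum (𝓞 K)))
    (h : HS117 K S) : ∃ x ∈ outSub117 S, compHom117 S x = h := by
  classical
  have hK' : ∀ w : InfinitePlace K, w.IsComplex := hK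
  obtain ⟨x, h1, h2, h3⟩ := exists_fin117 S
    (fun v => if hv : v ∈ S then h.1 ⟨v, hv⟩ else 1)
  refine ⟨T3.H57.infEmb57 hK' h.2 * x, ?_, ?_⟩
  · intro v hv
    have hfin : finGL305 v (T3.H57.infEmb57 hK' h.2 * x) = 1 := by
      rw [map_mul, h2 v hv, mul_one]
      exact T3.H57.finGL_infEmb57 hK' h.2 v
    refine ⟨isIntegralAt_of_eq_one117 v _ hfin, isIntegralAt_of_eq_one117 v _ ?_⟩
    rw [map_inv, hfin, inv_one]
  · refine Prod.ext (funext fun v => ?_) (funext fun w => ?_)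
    · show finGL305 v.1 (T3.H57.infEmb57 hK' h.2 * x) = h.1 v
      rw [map_mul, h1 v.1 v.2, show finGL305 v.1 (T3.H57.infEmb57 hK' h.2) = 1 from
        T3.H57.finGL_infEmb57 hK' h.2 v.1, one_mul, dif_pos v.2]
    · show infGL305 w (T3.H57.infEmb57 hK' h.2 * x) = h.2 w
      rw [map_mul, h3 w, mul_one]
      exact T3.H57.infGL_infEmb57 hK' h.2 w

theorem ker_sub117 (S : Finset (HeightOneSpectrum (𝓞 K))) (x : G K) (hx : x ∈ outSub117 S)
    (h : compHom117 S x = 1) : x ∈ {k : G K | T1.IsStdCompact K k} := by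
  have h1 : ∀ v : S, finGL305 v.1 x = 1 := fun v => congrFun (congrArg Prod.fst h) v
  have h2 : ∀ w : InfinitePlace K, infGL305 w x = 1 := fun w =>
    congrFun (congrArg Prod.snd h) w
  refine ⟨fun v => ?_, fun w => ?_⟩
  · by_cases hv : v ∈ S
    · have h3 := h1 ⟨v, hv⟩
      refine ⟨isIntegralAt_of_eq_one117 v x h3, isIntegralAt_of_eq_one117 v _ ?_⟩
      rw [map_inv, h3, inv_one]
    · exact hx v hv
  · have hc : infComp w x = 1 := by
      rw [← infGL_val117, h2 w, Units.val_one]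
    rw [hc]
    exact ⟨by simp, fun _ => Matrix.det_one⟩

end Fermat.Agent.LT.T7.H117

end

end
-- ===== PACK-END LT/T7/H117/HaarSplitB.lean

-- ===== PACK-BEGIN LT/T7/H311/EkProdInv.lean
section



/-!
# Row LT, tower T7, leaf T7.L2.1.F2 `EkProdDownC` (helper311, registry row 2250): left invariance

OFF-MAIN.  The Iwahori sum `iwL w H` and the central shift `ltr (z ^ k)` preserve the left
invariance under `U(𝔫)` and under the local Iwahori elements at `w`, for `w ∣ 𝔫`.
-/

set_option autoImplicit false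
set_option linter.unusedSectionVars false
set_option linter.unusedVariables false

open IsDedekindDomain NumberField MeasureTheory IsDedekindDomain.HeightOneSpectrum
open scoped ComplexConjugate
open Fermat.Agent.LT.H556 Fermat.Agent.LT.H556.A0 Fermat.Agent.LT.H129

noncomputable section

namespace Fermat.Agent.LT.T7.H311

open Fermat.Agent.LT Fermat.Agent.LT.T7 Fermat.Agent.LT.T7.H893 Fermat.Agent.LT.T7.H340

attribute [local instance] Fermat.Agent.LT.T5.instMeasurableSpaceG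

variable {K : Type} [Field K] [NumberField K]

/-! ## 1. The level group at a place dividing the level -/

theorem isClosed_lt_one311 (w : HeightOneSpectrum (𝓞 K)) :
    IsClosed {a : w.adicCompletion K | Valued.v a < 1} := by
  obtain ⟨π, hπ⟩ := exists_unif129 w
  have hπ0 : π ≠ 0 := unif_ne_zero129 w hπ
  have hcl : IsClosed ((w.adicCompletionIntegers K : Set (w.adicCompletion K))) :=
    Valued.isClosed_valuationSubring _
  have heq : {a : w.adicCompletion K | Valued.v a < 1}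
      = (fun a => a * π⁻¹) ⁻¹' (w.adicCompletionIntegers K : Set (w.adicCompletion K)) := by
    ext a
    simp only [Set.mem_ofPred_eq, Set.mem_preimage, SetLike.mem_coe,
      mem_adicCompletionIntegers, map_mul, map_inv₀, hπ]
    rw [mul_inv_le_iff₀ WithZero.exp_pos, one_mul]
    exact T1.H724.lt_one_iff724 _
  rw [heq]
  exact hcl.preimage (continuous_mul_const _)

theorem val_lt_one_of_mem311 {w : HeightOneSpectrum (𝓞 K)} {𝔫 : Ideal (𝓞 K)}
    (hw : w.asIdeal ∣ 𝔫) {a : w.adicCompletion K} (ha : a ∈ idealClosure 𝔫 w) :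
    Valued.v a < 1 := by
  have hsub : (fun x : 𝓞 K => algebraMap K (w.adicCompletion K) (algebraMap (𝓞 K) K x)) ''
      (𝔫 : Set (𝓞 K)) ⊆ {a : w.adicCompletion K | Valued.v a < 1} := by
    rintro _ ⟨r, hr, rfl⟩
    have hr' : r ∈ w.asIdeal := Ideal.le_of_dvd hw hr
    have := (T1.H724.val_int_lt_one_iff724 w r).2 hr'
    rwa [IsScalarTower.algebraMap_apply (𝓞 K) K (w.adicCompletion K)] at this
  exact closure_minimal hsub (isClosed_lt_one311 w) ha

theorem val_le_one_of_sub_one311 {w : HeightOneSpectrum (𝓞 K)}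
    {M : Matrix (Fin 2) (Fin 2) (w.adicCompletion K)}
    (h : ∀ i j, Valued.v ((M - 1) i j) < 1) (i j : Fin 2) : Valued.v (M i j) ≤ 1 := by
  have e : M i j = (M - 1) i j + (1 : Matrix (Fin 2) (Fin 2) (w.adicCompletion K)) i j := by
    simp
  rw [e]
  refine le_trans (Valuation.map_add _ _ _) (max_le (h i j).le ?_)
  by_cases hij : i = j
  · subst hij
    simp
  · rw [Matrix.one_apply_ne hij, map_zero]
    exact zero_le

/-- An element of the level group is in the Iwahori subgroup at the places dividing the level. -/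
theorem inIwahori_of_level311 {w : HeightOneSpectrum (𝓞 K)} {𝔫 : Ideal (𝓞 K)}
    (hw : w.asIdeal ∣ 𝔫) {x : G K} (hx : InLevelGroup 𝔫 x) : T5.InIwahori w x := by
  have h1 : ∀ i j, Valued.v ((finComp w x - 1) i j) < 1 :=
    fun i j => val_lt_one_of_mem311 hw (hx.2 w i j).1
  have h2 : ∀ i j, Valued.v ((finComp w x⁻¹ - 1) i j) < 1 :=
    fun i j => val_lt_one_of_mem311 hw (hx.2 w i j).2
  refine ⟨fun i j => ?_, fun i j => ?_, ?_⟩
  · exact (mem_adicCompletionIntegers (𝓞 K) K w).2 (val_le_one_of_sub_one311 h1 i j)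
  · exact (mem_adicCompletionIntegers (𝓞 K) K w).2 (val_le_one_of_sub_one311 h2 i j)
  · have := h1 1 0
    simpa using this

/-- The splitting of an element of the level group at a place dividing the level. -/
theorem exists_split311 {w : HeightOneSpectrum (𝓞 K)} {𝔫 : Ideal (𝓞 K)}
    (hw : w.asIdeal ∣ 𝔫) {x : G K} (hx : InLevelGroup 𝔫 x) :
    ∃ x₁ x₂ : G K, x = x₁ * x₂ ∧ IsLocalAtFin w x₁ ∧ T5.InIwahori w x₁ ∧
      InLevelGroup 𝔫 x₂ ∧ finCompHom129 w x₂ = 1 := by
  have hloc : IsLocalAtFin w (locFin129 w (finCompHom129 w x)) := isLocalAtFin_locFin129 w _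
  have hloc' := (isLocalAtFin_iff129 w _).1 hloc
  have hc2 : finCompHom129 w ((locFin129 w (finCompHom129 w x))⁻¹ * x) = 1 := by
    rw [map_mul, map_inv, finCompHom129_locFin129, inv_mul_cancel]
  refine ⟨locFin129 w (finCompHom129 w x), (locFin129 w (finCompHom129 w x))⁻¹ * x,
    by group, hloc, ?_, ?_, hc2⟩
  · rw [inIwahori_iff340, finCompHom129_locFin129, ← inIwahori_iff340]
    exact inIwahori_of_level311 hw hx
  · refine ⟨fun u => ?_, fun v i j => ?_⟩
    · rw [trivAtInf_iff129, map_mul, map_inv, hloc'.1 u, inv_one, one_mul]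
      exact (trivAtInf_iff129 u x).1 (hx.1 u)
    · by_cases hv : v = w
      · subst hv
        have e1 : finComp v ((locFin129 v (finCompHom129 v x))⁻¹ * x) = 1 := by
          rw [← coe_finCompHom129, hc2]
          rfl
        have e2 : finComp v ((locFin129 v (finCompHom129 v x))⁻¹ * x)⁻¹ = 1 := by
          rw [← coe_finCompHom129, map_inv, hc2, inv_one]
          rfl
        rw [e1, e2, sub_self]
        exact ⟨T2.H724.zero_mem_idealClosure724 v 𝔫, T2.H724.zero_mem_idealClosure724 v 𝔫⟩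
      · have e0 : finCompHom129 v ((locFin129 w (finCompHom129 w x))⁻¹ * x)
            = finCompHom129 v x := by
          rw [map_mul, map_inv, hloc'.2 v hv, inv_one, one_mul]
        have e1 : finComp v ((locFin129 w (finCompHom129 w x))⁻¹ * x) = finComp v x := by
          rw [← coe_finCompHom129, e0]
          rfl
        have e2 : finComp v ((locFin129 w (finCompHom129 w x))⁻¹ * x)⁻¹ = finComp v x⁻¹ := by
          rw [← coe_finCompHom129, map_inv, e0, ← map_inv]
          rfl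
        rw [e1, e2]
        exact hx.2 v i j

/-! ## 2. Left invariance -/

/-- Left invariance under `U(𝔫)` and under the local Iwahori elements at `w`. -/
structure IsLInv311 (𝔫 : Ideal (𝓞 K)) (w : HeightOneSpectrum (𝓞 K)) (φ : G K → ℂ) : Prop where
  level : ∀ x : G K, InLevelGroup 𝔫 x → ∀ y : G K, φ (x * y) = φ y
  iw : ∀ h : G K, IsLocalAtFin w h → T5.InIwahori w h → ∀ y : G K, φ (h * y) = φ y

variable {𝔫 : Ideal (𝓞 K)} {w : HeightOneSpectrum (𝓞 K)}

/-- The Iwahori sum of left translates is invariant under the local Iwahori elements. -/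
theorem sum_ltr_iw311 {φ : G K → ℂ} (hφ : IsLInv311 𝔫 w φ) {H : Finset (G K)}
    (hH : IsIwCosetSystem w H) {h₀ : G K} (h₀l : IsLocalAtFin w h₀)
    (h₀I : T5.InIwahori w h₀) (y : G K) :
    ∑ h ∈ H, φ (h⁻¹ * (h₀ * y)) = ∑ h ∈ H, φ (h⁻¹ * y) := by
  classical
  have hk : IsLocalAtFin w h₀⁻¹ := isLocalAtFin_inv129 h₀l
  have hkI : T5.InIwahori w h₀⁻¹ := inIwahori_inv340 h₀I
  have hH' := isIwCosetSystem_translate340 hH hk hkI
  have hF : ∀ u : G K, IsLocalAtFin w u → T5.InIwahori w u →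
      ∀ g : G K, (fun a : G K => φ (a⁻¹ * y)) (g * u) = (fun a : G K => φ (a⁻¹ * y)) g := by
    intro u hu huI g
    show φ ((g * u)⁻¹ * y) = φ (g⁻¹ * y)
    rw [mul_inv_rev, mul_assoc]
    exact hφ.iw u⁻¹ (isLocalAtFin_inv129 hu) (inIwahori_inv340 huI) _
  have key := iwSum_indep340 hH' hH (fun a : G K => φ (a⁻¹ * y)) hF 1
  simp only [one_mul] at key
  rw [← key, Finset.sum_image (fun a _ b _ hab => mul_right_injective h₀⁻¹ hab)]
  refine Finset.sum_congr rfl fun h _ => ?_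
  congr 1
  group

theorem IsLInv311.iwL {φ : G K → ℂ} (hφ : IsLInv311 𝔫 w φ) (hw : w.asIdeal ∣ 𝔫)
    {H : Finset (G K)} (hH : IsIwCosetSystem w H) : IsLInv311 𝔫 w (H893.iwL w H φ) where
  level := fun x hx y => by
    obtain ⟨x₁, x₂, rfl, h1l, h1I, h2, h2c⟩ := exists_split311 hw hx
    show _ * ∑ h ∈ H, φ (h⁻¹ * (x₁ * x₂ * y)) = _ * ∑ h ∈ H, φ (h⁻¹ * y)
    congr 1
    have e1 : ∑ h ∈ H, φ (h⁻¹ * (x₁ * x₂ * y)) = ∑ h ∈ H, φ (h⁻¹ * (x₂ * y)) := by
      have := sum_ltr_iw311 hφ hH h1l h1I (x₂ * y)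
      simpa only [mul_assoc] using this
    rw [e1]
    refine Finset.sum_congr rfl fun h hh => ?_
    have hc : h⁻¹ * x₂ = x₂ * h⁻¹ :=
      commute_of_local340 (isLocalAtFin_inv129 (hH.2.1 h hh).1) h2c
    rw [← mul_assoc, hc, mul_assoc]
    exact hφ.level x₂ h2 _
  iw := fun h₀ h₀l h₀I y => by
    show _ * ∑ h ∈ H, φ (h⁻¹ * (h₀ * y)) = _ * ∑ h ∈ H, φ (h⁻¹ * y)
    rw [sum_ltr_iw311 hφ hH h₀l h₀I y]

theorem IsLInv311.iterate {φ : G K → ℂ} (hφ : IsLInv311 𝔫 w φ) (hw : w.asIdeal ∣ 𝔫)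
    {H : Finset (G K)} (hH : IsIwCosetSystem w H) (m : ℕ) :
    IsLInv311 𝔫 w ((H893.iwL w H)^[m] φ) := by
  induction m with
  | zero => exact hφ
  | succ n ih =>
    rw [Function.iterate_succ_apply']
    exact ih.iwL hw hH

theorem IsLInv311.ltr_central {φ : G K → ℂ} (hφ : IsLInv311 𝔫 w φ) {b : G K}
    (hb : ∀ g : G K, b * g = g * b) : IsLInv311 𝔫 w (H893.ltr b φ) where
  level := fun x hx y => by
    show φ (b⁻¹ * (x * y)) = φ (b⁻¹ * y)
    have hc : b⁻¹ * x = x * b⁻¹ := by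
      have := hb x
      calc b⁻¹ * x = b⁻¹ * (x * b) * b⁻¹ := by group
        _ = b⁻¹ * (b * x) * b⁻¹ := by rw [this]
        _ = x * b⁻¹ := by group
    rw [← mul_assoc, hc, mul_assoc]
    exact hφ.level x hx _
  iw := fun h hl hI y => by
    show φ (b⁻¹ * (h * y)) = φ (b⁻¹ * y)
    have hc : b⁻¹ * h = h * b⁻¹ := by
      have := hb h
      calc b⁻¹ * h = b⁻¹ * (h * b) * b⁻¹ := by group
        _ = b⁻¹ * (b * h) * b⁻¹ := by rw [this]
        _ = h * b⁻¹ := by group
    rw [← mul_assoc, hc, mul_assoc]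
    exact hφ.iw h hl hI _

theorem IsPre311.iterate {μ : Measure (G K)} {F : Set (G K)} (hF : T5.IsFrame μ F)
    {φ : G K → ℂ} (hφ : IsPre311 𝔫 μ φ) {H : Finset (G K)} (hH : IsIwCosetSystem w H)
    (m : ℕ) : IsPre311 𝔫 μ ((H893.iwL w H)^[m] φ) := by
  induction m with
  | zero => exact hφ
  | succ n ih =>
    rw [Function.iterate_succ_apply']
    exact ih.iwL hF hH

/-- **The regular member is an Eisenstein-killing test function.** -/
theorem isEKTest_regL311 {μ : Measure (G K)} {F : Set (G K)} (hF : T5.IsFrame μ F)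
    {φ : G K → ℂ} (hφ : IsPre311 𝔫 μ φ) (hL : IsLInv311 𝔫 w φ) (hw : w.asIdeal ∣ 𝔫)
    {H : Finset (G K)} (hH : IsIwCosetSystem w H) {z : G K}
    (hz : IsScalarUniformizerAt w z) (k : ℤ) (m : ℕ) :
    H32.IsEKTest32 𝔫 μ (H893.regL w z H k m φ) := by
  have hzc : ∀ g : G K, z ^ k * g = g * z ^ k := fun g =>
    ((show Commute z g from central_scalar311 hz g).zpow_left k).eq
  have hzinf : ∀ u : InfinitePlace K, TrivAtInf u (z ^ k) :=
    trivAtInf_zpow311 hz.1.1 k
  have h1 : IsPre311 𝔫 μ (H893.regL w z H k m φ) := (hφ.iterate hF hH m).ltr hF hzinf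
  have h2 : IsLInv311 𝔫 w (H893.regL w z H k m φ) := (hL.iterate hw hH m).ltr_central hzc
  refine ⟨⟨T5.isKType_triv, h1.cont, h1.supp, h1.smooth, ⟨h1.level_right, h2.level, ?_, ?_⟩⟩,
    h1.ek, h1.ek_adj⟩
  · intro u k' hk' g
    rw [h1.arch_right u k' hk' g]
    simp [T5.trivType]
  · intro u k' hk' g
    rw [h1.arch_left u k' hk' g]
    simp [T5.trivType]

end Fermat.Agent.LT.T7.H311

end

end
-- ===== PACK-END LT/T7/H311/EkProdInv.lean

-- ===== PACK-BEGIN LT/T7/H385/FinAvgPos.lean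
section




/-!
# Row LT, tower T7, node T7.L2.3.5.4 `WBasisC`, leaf WB.B1 `FinAvgPosC776` (registry 2389)

OFF-MAIN (helper385).  `finAvgPosC385 (K) : FinAvgPosC776 K`, UNCONDITIONAL, VERBATIM Prop of
`LT/T7/H776/WBasisSpec.lean` (helper776@c8c37e749, sha256 ebd5d61e).

Proof.  A member `h = i u` of `Rep` is trivial at infinity, a positive scalar `z` at the infinite
place `w` is trivial at the finite places: `z h = h z`, and `ψ(g z h) = ψ((g h) z) = ψ(g h)`.
-/

set_option autoImplicit false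
set_option linter.unusedSectionVars false
set_option linter.unusedVariables false

open AutomorphicForm IsDedekindDomain NumberField MeasureTheory

noncomputable section

namespace Fermat.Agent.LT.T7.H385

open Fermat.Agent.LT.H556 Fermat.Agent.LT.H556.A0 Fermat.Agent.LT.T7 Fermat.Agent.LT.T2

variable {K : Type} [Field K] [NumberField K]

/-- An element which is trivial at infinity commutes with an element which is trivial at the
finite places. -/
theorem commute_triv385 {h k : G K} (hh : ∀ w : InfinitePlace K, TrivAtInf w h)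
    (hk : ∀ v : HeightOneSpectrum (𝓞 K), TrivAtFin v k) : h * k = k * h := by
  apply Units.ext
  rw [Units.val_mul, Units.val_mul]
  apply H333.adeleMatrix_ext333
  · intro w
    rw [Matrix.map_mul, Matrix.map_mul, (H333.trivAtInf_iff333 w h).1 (hh w), one_mul, mul_one]
  · intro v
    rw [Matrix.map_mul, Matrix.map_mul, (H333.trivAtFin_iff333 v k).1 (hk v), one_mul, mul_one]

theorem trivAtInf_mul385 {w : InfinitePlace K} {a b : G K} (ha : TrivAtInf w a)
    (hb : TrivAtInf w b) : TrivAtInf w (a * b) := by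
  rw [H333.trivAtInf_iff333] at ha hb ⊢
  rw [Units.val_mul, Matrix.map_mul, ha, hb, one_mul]

/-- **Leaf WB.B1 `FinAvgPosC776`**, unconditional. -/
theorem finAvgPosC385 (K : Type) [Field K] [NumberField K] : WB776.FinAvgPosC776 K := by
  intro 𝔑 𝔑₀ l o Rep hRep ψ hψ w z hz g
  unfold H193.finAvg
  congr 1
  refine Finset.sum_congr rfl fun h hh => ?_
  obtain ⟨i, u, hi, hu, rfl⟩ := hRep.mem h hh
  have hcomm : i * u * z = z * (i * u) :=
    commute_triv385 (fun w' => trivAtInf_mul385 (hi.1 w') (hu.1 w')) (fun v => hz.1.2 v)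
  rw [mul_assoc, ← hcomm, ← mul_assoc]
  exact hψ w z hz (g * (i * u))

end Fermat.Agent.LT.T7.H385

end

end
-- ===== PACK-END LT/T7/H385/FinAvgPos.lean

-- ===== PACK-BEGIN LT/T7/H49/OpsRel.lean
section




/-!
# Row LT, tower T7, leaf T7.L2.2.B4.3 `H561.OpsRelC561` (helper49, OFF-MAIN)

    opsRelC49 (K K') : H561.OpsRelC561 K K'        VERBATIM, UNCONDITIONAL

`S_j² = (q - 1) S_j + q` and `ρ_j² S_j = S_j ρ_j²` on the invariant cusp functions of the base
level, for ANY explicit system along the orbit (cut of helper561, `T7/H561/OpsSpec.lean`).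

* the orbit is periodic (`orbit_add49`, `orbit_mod49`; asset helper415 `orbit_period415`), so
  that `ψ` is Iwahori invariant at EVERY `o j` (`isIwInvAt_orbit49`);
* the norm is constant along the orbit (`absNorm_orbit49`);
* the quadratic relation is `sRel49` of `IwRel.lean`;
* `ω² = ϖ` is central (`om_sq49`).
-/

set_option autoImplicit false
set_option linter.unusedSectionVars false
set_option linter.unusedSimpArgs false
set_option linter.unusedVariables false

open Matrix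
open AutomorphicForm IsDedekindDomain NumberField IsDedekindDomain.HeightOneSpectrum
open Fermat.Agent.LT.H556 Fermat.Agent.LT.H556.A0 Fermat.Agent.LT.H129
open Fermat.Agent.LT.T7 Fermat.Agent.LT.T7.H83

noncomputable section

namespace Fermat.Agent.LT.T7.H49

section Gen

variable {K : Type} [Field K] [NumberField K]

/-- The norm is invariant under the automorphisms. -/
theorem absNorm_placeRel49 {s : T5.AdelicAut K} {v v' : HeightOneSpectrum (𝓞 K)}
    (h : T5.PlaceRel s v v') : Ideal.absNorm v'.asIdeal = Ideal.absNorm v.asIdeal := by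
  unfold T5.PlaceRel at h
  rw [Ideal.absNorm_apply, Ideal.absNorm_apply, Submodule.cardQuot_apply,
    Submodule.cardQuot_apply]
  exact Nat.card_congr
    (Ideal.quotientEquiv v.asIdeal v'.asIdeal (NumberField.RingOfIntegers.mapRingEquiv s.σ)
      h).toEquiv.symm

/-- An element which is supported at `w` with component `[[0, 1], [c, 0]]`. -/
theorem eq_locFin_om49 {w : HeightOneSpectrum (𝓞 K)} {g : G K} (hg : IsLocalAtFin w g)
    {c : w.adicCompletion K} (hc : c ≠ 0) (hcomp : finComp w g = !![0, 1; c, 0]) :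
    g = locFin129 w (omL49 c hc) := by
  rw [eq_locFin129_of_isLocalAtFin hg]
  congr 1
  apply ext_mat129
  rw [coe_finCompHom129, hcomp, coe_omL49]

/-- An element which is supported at `w` with component `[[a, 1], [1, 0]]`. -/
theorem eq_locFin_sL49 {w : HeightOneSpectrum (𝓞 K)} {g : G K} (hg : IsLocalAtFin w g)
    {a : w.adicCompletion K} (hcomp : finComp w g = !![a, 1; 1, 0]) :
    g = locFin129 w (sL49 a) := by
  rw [eq_locFin129_of_isLocalAtFin hg]
  congr 1
  apply ext_mat129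
  rw [coe_finCompHom129, hcomp, coe_sL49]

/-- The scalar matrices are central. -/
theorem scL_comm49 {F : Type*} [Field F] (π : F) (hπ : π ≠ 0) (x : GL (Fin 2) F) :
    scL49 π hπ * x = x * scL49 π hπ := by
  apply ext_mat129
  rw [Matrix.GeneralLinearGroup.coe_mul, Matrix.GeneralLinearGroup.coe_mul, coe_scL49,
    eta129 x]
  ext i j
  fin_cases i <;> fin_cases j <;> simp [Matrix.mul_apply, Fin.sum_univ_two, mul_comm]

end Gen

section Orbit

variable {K K' : Type} [Field K] [NumberField K] [Field K'] [NumberField K'] [Algebra K K']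

theorem isBad_one49 (Dt : L2Data K K') : Dt.IsBad 1 := by
  refine ⟨fun w => ?_, fun v _ => ?_⟩
  · rw [trivAtInf_iff129, map_one]
  · rw [trivAtFin_iff129, map_one]

theorem cyc49 {ℓ : ℕ} {Φ : HeckeEigensystem K' ℂ} {Dt : L2Data K K'}
    (hs : H561.IsSetup561 ℓ Φ Dt) : T5.IsCyclicOfDegree Dt.s ℓ Dt.k := by
  have h := (hs.data.comp 1 (isBad_one49 Dt)).cyc
  have e := hs.data.deg
  rw [← e]
  exact h

theorem orbit_add49 {ℓ : ℕ} {Φ : HeckeEigensystem K' ℂ} {Dt : L2Data K K'}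
    (hs : H561.IsSetup561 ℓ Φ Dt) (j : ℕ) : Dt.o (j + ℓ) = Dt.o j := by
  have h := T5.H415.orbit_period415 Dt.s ℓ Dt.k (cyc49 hs) (fun i => Dt.o (j + i))
    (fun i => by
      have := hs.data.orbit_rel (j + i)
      rwa [add_assoc] at this)
  simpa using h

theorem orbit_mod49 {ℓ : ℕ} {Φ : HeckeEigensystem K' ℂ} {Dt : L2Data K K'}
    (hs : H561.IsSetup561 ℓ Φ Dt) (j : ℕ) : Dt.o j = Dt.o (j % ℓ) := by
  induction j using Nat.strong_induction_on with
  | _ j ih =>
    rcases Nat.lt_or_ge j ℓ with h | h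
    · rw [Nat.mod_eq_of_lt h]
    · have e : j = (j - ℓ) + ℓ := (Nat.sub_add_cancel h).symm
      have hpos : 0 < ℓ := (cyc49 hs).pos
      have hlt : j - ℓ < j := Nat.sub_lt (lt_of_lt_of_le hpos h) hpos
      rw [Nat.mod_eq_sub_mod h, ← ih (j - ℓ) hlt]
      conv_lhs => rw [e]
      exact orbit_add49 hs (j - ℓ)

theorem absNorm_orbit49 {ℓ : ℕ} {Φ : HeckeEigensystem K' ℂ} {Dt : L2Data K K'}
    (hs : H561.IsSetup561 ℓ Φ Dt) (j : ℕ) :
    Ideal.absNorm (Dt.o j).asIdeal = Ideal.absNorm (Dt.o 0).asIdeal := by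
  induction j with
  | zero => rfl
  | succ n ih => rw [absNorm_placeRel49 (hs.data.orbit_rel n), ih]

/-- An invariant cusp function is Iwahori invariant at every place of the orbit. -/
theorem isIwInvAt_orbit49 {ℓ : ℕ} {Φ : HeckeEigensystem K' ℂ} {Dt : L2Data K K'}
    (hs : H561.IsSetup561 ℓ Φ Dt) {ψ : G K' → ℂ} (hψ : IsWFn Dt.𝔑₀ Dt.R'.r ℓ Dt.o ψ)
    (j : ℕ) : IsIwInvAt (Dt.o j) ψ := by
  rw [orbit_mod49 hs j]
  exact isIwInvAt_of_isIwInv83 hψ.iw (Nat.mod_lt j (cyc49 hs).pos)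

/-- The explicit system at `o j` is a system in the sense of `IwRel.lean`. -/
theorem isSSys_of561 {Dt : L2Data K K'} {Hs : ℕ → Finset (G K')} {ω : ℕ → G K'}
    (hsys : H561.IsIwSys561 Dt Hs ω) (j : ℕ) : IsSSys49 (Dt.o j) (Hs j) :=
  ⟨hsys.Hs_card j, hsys.Hs_local j, hsys.Hs_comp j, hsys.Hs_inj j⟩

/-- `ω_j² ` commutes with the members of the system at `o j`. -/
theorem om_sq_comm49 {Dt : L2Data K K'} {Hs : ℕ → Finset (G K')} {ω : ℕ → G K'}
    (hsys : H561.IsIwSys561 Dt Hs ω) (j : ℕ) {h : G K'} (hh : h ∈ Hs j) :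
    ω j * ω j * h = h * (ω j * ω j) := by
  obtain ⟨c, hcv, hcc⟩ := hsys.ω_comp j
  have hc0 : c ≠ 0 := unif_ne_zero129 (Dt.o j) hcv
  obtain ⟨a, ha, hac⟩ := hsys.Hs_comp j h hh
  have e1 := eq_locFin_om49 (hsys.ω_local j) hc0 hcc
  have e2 := eq_locFin_sL49 (hsys.Hs_local j h hh) hac
  rw [e1, e2, ← map_mul, ← map_mul, ← map_mul, om_sq49, scL_comm49]

end Orbit

/-- **LEAF T7.L2.2.B4.3 = OPS-REL, VERBATIM.** -/
theorem opsRelC49 (K K' : Type) [Field K] [NumberField K] [Field K'] [NumberField K']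
    [Algebra K K'] : H561.OpsRelC561 K K' := by
  intro ℓ Φ Dt hs Hs ω hsys j ψ hψ x
  constructor
  · rw [← absNorm_orbit49 hs j]
    exact sRel49 (isSSys_of561 hsys j) (isIwInvAt_orbit49 hs hψ j) x
  · unfold H561.trOp561 cosetOp
    apply Finset.sum_congr rfl
    intro h hh
    congr 1
    have e := om_sq_comm49 hsys j hh
    calc x * ω j * ω j * h = x * (ω j * ω j * h) := by group
      _ = x * (h * (ω j * ω j)) := by rw [e]
      _ = x * h * ω j * ω j := by group

example (K K' : Type) [Field K] [NumberField K] [Field K'] [NumberField K'] [Algebra K K'] :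
    H561.OpsRelC561 K K' := opsRelC49 K K'

end Fermat.Agent.LT.T7.H49

end

end
-- ===== PACK-END LT/T7/H49/OpsRel.lean

-- ===== PACK-BEGIN LT/T7/H510/OpsLink.lean
section



/-!
# Row LT, tower T7, leaf T7.L2.2.B4.8 `OpsLinkC561` — helper510, OFF-MAIN

    opsLinkC_h510 (K K') : Fermat.Agent.LT.T7.H561.OpsLinkC561 K K'

verbatim against `LT/T7/H561/OpsSpec.lean` (helper561@62b060f4f, sha256 17293f38),
UNCONDITIONAL (the hypothesis `IsSetup561` is not used).  Toolbox: `LT/H129/HeckeExists.lean`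
(helper129, sha256 283484f0).

Local algebra at `v = o 0`, for ANY explicit system: `h_a = !![a, 1; 1, 0]`, `ω = !![0, 1; c, 0]`:
`h_a ω = !![c, a; 0, 1] = n(a) diag(c, 1)` lies in `I diag(c, 1) I`;
`(h_a ω)⁻¹ (h_b ω) = ω⁻¹ !![1, 0; b - a, 1] ω = !![1, (b - a)/c; 0, 1]` is not integral when
`b - a` is a unit; `ω² = c`.
-/

set_option autoImplicit false
set_option linter.style.haveILetI false
set_option linter.unusedSectionVars false

open AutomorphicForm IsDedekindDomain NumberField MeasureTheory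

noncomputable section

namespace Fermat.Agent.LT.T7.H510

open Fermat.Agent.LT.H556 Fermat.Agent.LT.H556.A0 Fermat.Agent.LT.H129 Fermat.Agent.LT

/-! ## 1. Local algebra -/

section LocalAlg

variable {F : Type*} [Field F]

/-- `!![b, 1; 1, 0] = !![a, 1; 1, 0] * !![1, 0; b - a, 1]`. -/
theorem swap_eq_mul_lower_L510 (a b : F) :
    mkGL129 b 1 1 0 (by simp) = mkGL129 a 1 1 0 (by simp) * lowerU129 (b - a) := by
  apply ext_mat129
  unfold lowerU129
  rw [Matrix.GeneralLinearGroup.coe_mul, coe_mkGL129, coe_mkGL129, coe_mkGL129]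
  ext i j
  fin_cases i <;> fin_cases j <;> simp [Matrix.mul_apply, Fin.sum_univ_two]

/-- `!![a, 1; 1, 0] * !![0, 1; c, 0] = !![1, a; 0, 1] * !![c, 0; 0, 1]`. -/
theorem swap_mul_omega_L510 (a c : F) (hc : c ≠ 0) :
    mkGL129 a 1 1 0 (by simp) * mkGL129 0 1 c 0 (by simpa using hc)
      = upperU129 a * mkGL129 c 0 0 1 (by simpa using hc) := by
  apply ext_mat129
  unfold upperU129
  rw [Matrix.GeneralLinearGroup.coe_mul, Matrix.GeneralLinearGroup.coe_mul, coe_mkGL129,
    coe_mkGL129, coe_mkGL129, coe_mkGL129]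
  ext i j
  fin_cases i <;> fin_cases j <;> simp [Matrix.mul_apply, Fin.sum_univ_two]

/-- `!![1, 0; r, 1] * !![0, 1; c, 0] = !![0, 1; c, 0] * !![1, r / c; 0, 1]`. -/
theorem lower_mul_omega_L510 (r c : F) (hc : c ≠ 0) :
    lowerU129 r * mkGL129 0 1 c 0 (by simpa using hc)
      = mkGL129 0 1 c 0 (by simpa using hc) * upperU129 (r / c) := by
  apply ext_mat129
  unfold upperU129 lowerU129
  rw [Matrix.GeneralLinearGroup.coe_mul, Matrix.GeneralLinearGroup.coe_mul, coe_mkGL129,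
    coe_mkGL129, coe_mkGL129]
  ext i j
  fin_cases i <;> fin_cases j <;> simp [Matrix.mul_apply, Fin.sum_univ_two]
  field_simp

/-- `!![0, 1; c, 0]² = c`. -/
theorem omega_sq_L510 (c : F) (hc : c ≠ 0) :
    ((mkGL129 0 1 c 0 (by simpa using hc) * mkGL129 0 1 c 0 (by simpa using hc) :
        GL (Fin 2) F) : Matrix (Fin 2) (Fin 2) F) = Matrix.diagonal (fun _ => c) := by
  rw [Matrix.GeneralLinearGroup.coe_mul, coe_mkGL129]
  ext i j
  fin_cases i <;> fin_cases j <;> simp [Matrix.mul_apply, Fin.sum_univ_two]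

end LocalAlg

/-! ## 2. The Iwahori subgroup -/

variable {K : Type} [Field K] [NumberField K] (v : HeightOneSpectrum (𝓞 K))

theorem finCompHom_eq_mkGL_L510 {g : G K} {a b c d : v.adicCompletion K}
    (h : a * d - b * c ≠ 0) (hg : finComp v g = !![a, b; c, d]) :
    finCompHom129 v g = mkGL129 a b c d h := by
  apply ext_mat129
  rw [coe_finCompHom129, hg, coe_mkGL129]

/-- The identity lies in the Iwahori subgroup. -/
theorem inIwahori_one_L510 : T5.InIwahori v (1 : G K) := by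
  have h1 : finComp v (1 : G K) = 1 := by
    rw [← coe_finCompHom129, map_one]
    rfl
  have hint : IsIntegralAt v (1 : G K) := by
    rw [← isInt129_finCompHom_iff, map_one]
    exact isInt129_one _
  refine ⟨hint, ?_, ?_⟩
  · rw [inv_one]
    exact hint
  · rw [h1, Matrix.one_apply_ne (by decide), map_zero]
    exact zero_lt_one

/-- The upper unipotent element with an integral entry lies in the Iwahori subgroup. -/
theorem inIwahori_upper_L510 {a : v.adicCompletion K} (ha : a ∈ v.adicCompletionIntegers K) :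
    T5.InIwahori v (locFin129 v (upperU129 a)) := by
  have hm := isMaxCpt129_upperU (O := v.adicCompletionIntegers K) ha
  refine ⟨?_, ?_, ?_⟩
  · rw [← isInt129_finCompHom_iff, finCompHom129_locFin129]
    exact hm.1
  · rw [← isInt129_finCompHom_iff, map_inv, finCompHom129_locFin129]
    exact hm.2
  · rw [finComp_locFin129]
    have h0 : ((upperU129 a : GL (Fin 2) (v.adicCompletion K)) :
        Matrix (Fin 2) (Fin 2) (v.adicCompletion K)) 1 0 = 0 := by
      unfold upperU129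
      rw [coe_mkGL129]
      rfl
    rw [h0, map_zero]
    exact zero_lt_one

/-- An element with component `!![1, 0; r, 1]`, `r` integral of valuation `< 1`, lies in the
Iwahori subgroup. -/
theorem inIwahori_of_lower_L510 {g : G K} {r : v.adicCompletion K}
    (hr : r ∈ v.adicCompletionIntegers K) (hlt : Valued.v r < 1)
    (hg : finCompHom129 v g = lowerU129 r) : T5.InIwahori v g := by
  have hm := isMaxCpt129_lowerU (O := v.adicCompletionIntegers K) hr
  refine ⟨?_, ?_, ?_⟩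
  · rw [← isInt129_finCompHom_iff, hg]
    exact hm.1
  · rw [← isInt129_finCompHom_iff, map_inv, hg]
    exact hm.2
  · rw [← coe_finCompHom129, hg]
    have h0 : ((lowerU129 r : GL (Fin 2) (v.adicCompletion K)) :
        Matrix (Fin 2) (Fin 2) (v.adicCompletion K)) 1 0 = r := by
      unfold lowerU129
      rw [coe_mkGL129]
      rfl
    rw [h0]
    exact hlt

/-! ## 3. The leaf -/

/-- The link at one place, for any explicit system. -/
theorem opsLink_at_L510 {H : Finset (G K)} {ω : G K}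
    (hωl : IsLocalAtFin v ω)
    (hωc : ∃ c : v.adicCompletion K, Valued.v c = WithZero.exp (-1 : ℤ) ∧
      finComp v ω = !![0, 1; c, 0])
    (hcard : H.card = Ideal.absNorm v.asIdeal)
    (hl : ∀ h ∈ H, IsLocalAtFin v h)
    (hcomp : ∀ h ∈ H, ∃ a : v.adicCompletion K,
      a ∈ v.adicCompletionIntegers K ∧ finComp v h = !![a, 1; 1, 0])
    (hinj : ∀ h ∈ H, ∀ h' ∈ H, h ≠ h' → ¬ T5.InIwahori v (h⁻¹ * h')) :
    IsIwCosetSystem v (H.map (mulRightEmbedding ω)) ∧ IsScalarUniformizerAt v (ω * ω) := by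
  obtain ⟨c, hc, hω⟩ := hωc
  have hc0 : c ≠ 0 := unif_ne_zero129 v hc
  have hW : finCompHom129 v ω = mkGL129 0 1 c 0 (by simpa using hc0) :=
    finCompHom_eq_mkGL_L510 v _ hω
  refine ⟨⟨?_, ?_, ?_⟩, ?_⟩
  · rw [Finset.card_map]
    exact hcard
  · intro g hg
    obtain ⟨h, hh, rfl⟩ := Finset.mem_map.mp hg
    show IsLocalAtFin v (h * ω) ∧ T5.InIwahoriCoset v 1 (h * ω)
    obtain ⟨a, ha, hha⟩ := hcomp h hh
    have hA : finCompHom129 v h = mkGL129 a 1 1 0 (by simp) :=
      finCompHom_eq_mkGL_L510 v _ hha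
    refine ⟨isLocalAtFin_mul129 (hl h hh) hωl, ?_⟩
    refine ⟨locFin129 v (upperU129 a), 1, locFin129 v (mkGL129 c 0 0 1 (by simpa using hc0)),
      c, inIwahori_upper_L510 v ha, inIwahori_one_L510 v, ?_, ?_, ?_⟩
    · rw [hc]
      rfl
    · rw [finComp_locFin129, coe_mkGL129]
    · rw [mul_one, ← coe_finCompHom129, ← coe_finCompHom129, map_mul, map_mul, hA, hW,
        finCompHom129_locFin129, finCompHom129_locFin129, swap_mul_omega_L510 a c hc0]
  · intro g hg g' hg' hne hI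
    obtain ⟨h, hh, rfl⟩ := Finset.mem_map.mp hg
    obtain ⟨h', hh', rfl⟩ := Finset.mem_map.mp hg'
    have hhne : h ≠ h' := fun e => hne (by rw [e])
    obtain ⟨a, ha, hha⟩ := hcomp h hh
    obtain ⟨b, hb, hhb⟩ := hcomp h' hh'
    have hA : finCompHom129 v h = mkGL129 a 1 1 0 (by simp) :=
      finCompHom_eq_mkGL_L510 v _ hha
    have hB : finCompHom129 v h' = mkGL129 b 1 1 0 (by simp) :=
      finCompHom_eq_mkGL_L510 v _ hhb
    have e1 : finCompHom129 v (h⁻¹ * h') = lowerU129 (b - a) := by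
      rw [map_mul, map_inv, hA, hB, swap_eq_mul_lower_L510 a b, inv_mul_cancel_left]
    have hba : b - a ∈ v.adicCompletionIntegers K := sub_mem hb ha
    have hval : ¬ Valued.v (b - a) < 1 := fun hlt =>
      hinj h hh h' hh' hhne (inIwahori_of_lower_L510 v hba hlt e1)
    have e2 : finCompHom129 v ((h * ω)⁻¹ * (h' * ω)) = upperU129 ((b - a) / c) := by
      have : (h * ω)⁻¹ * (h' * ω) = ω⁻¹ * ((h⁻¹ * h') * ω) := by
        rw [mul_inv_rev]
        simp only [mul_assoc]
      rw [this, map_mul, map_mul, map_inv, e1, hW, lower_mul_omega_L510 (b - a) c hc0,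
        inv_mul_cancel_left]
    have hI' : T5.InIwahori v ((h * ω)⁻¹ * (h' * ω)) := hI
    have hint := hI'.1 0 1
    rw [← coe_finCompHom129, e2] at hint
    have h01 : ((upperU129 ((b - a) / c) : GL (Fin 2) (v.adicCompletion K)) :
        Matrix (Fin 2) (Fin 2) (v.adicCompletion K)) 0 1 = (b - a) / c := by
      unfold upperU129
      rw [coe_mkGL129]
      rfl
    rw [h01, HeightOneSpectrum.mem_adicCompletionIntegers, map_div₀, hc] at hint
    apply hval
    have hpos : (0 : WithZero (Multiplicative ℤ)) < WithZero.exp (-1 : ℤ) := WithZero.exp_pos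
    have hle : Valued.v (b - a) ≤ WithZero.exp (-1 : ℤ) := (div_le_one₀ hpos).mp hint
    refine lt_of_le_of_lt hle ?_
    rw [← WithZero.exp_zero, WithZero.exp_lt_exp]
    norm_num
  · refine ⟨isLocalAtFin_mul129 hωl hωl, c, hc, ?_⟩
    rw [← coe_finCompHom129, map_mul, hW, omega_sq_L510 c hc0]

/-- **T7.L2.2.B4.8 `OpsLinkC561`**, unconditional. -/
theorem opsLinkC_h510 (K K' : Type) [Field K] [NumberField K] [Field K'] [NumberField K']
    [Algebra K K'] : H561.OpsLinkC561 K K' := by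
  intro ℓ Φ Dt _ Hs ω hsys
  exact opsLink_at_L510 (Dt.o 0) (hsys.ω_local 0) (hsys.ω_comp 0) (hsys.Hs_card 0)
    (hsys.Hs_local 0) (hsys.Hs_comp 0) (hsys.Hs_inj 0)

end Fermat.Agent.LT.T7.H510

end
end
-- ===== PACK-END LT/T7/H510/OpsLink.lean

-- ===== PACK-BEGIN LT/T7/H534/WBasisTop.lean
section




/-!
# Row LT, tower T7, NODE T7.L2.3.5.4 `SD534.WBasisC` -- THE ASSEMBLY (helper534)

OFF-MAIN.  PROVED: `wBasisC_of534 : CuspFormC K → WSubC K → V2SubC K → V2BasisC K → IwProjC K →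
ProjBasisC → WBasisC K`.  No hole, nothing assumed.  ADDITIVE.
-/

set_option autoImplicit false
set_option linter.unusedSectionVars false
set_option linter.unusedVariables false

open AutomorphicForm IsDedekindDomain NumberField MeasureTheory
open scoped ComplexConjugate

noncomputable section

namespace Fermat.Agent.LT.T7.SD534

open Fermat.Agent.LT.H556 Fermat.Agent.LT.H556.A0 Fermat.Agent.LT.T7

attribute [local instance] Fermat.Agent.LT.T5.instMeasurableSpaceG

section Top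

variable {K : Type} [Field K] [NumberField K]

/-- `V₂` as a submodule of the functions. -/
def v2Sub534 {𝔫 : Ideal (𝓞 K)} {r : G K} {u : HeightOneSpectrum (𝓞 K)} (h : IsV2Sub 𝔫 r u) :
    Submodule ℂ (G K → ℂ) where
  carrier := {ψ | InV2 𝔫 r u ψ}
  zero_mem' := h.zero2
  add_mem' := fun {a b} ha hb => h.add2 a b ha hb
  smul_mem' := fun a f hf => h.smul2 a f hf

theorem InV2.inV {𝔫 : Ideal (𝓞 K)} {r : G K} {u : HeightOneSpectrum (𝓞 K)}
    {ψ : G K → ℂ} (h : InV2 𝔫 r u ψ) : InV 𝔫 r ψ := h.cusp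

theorem InCls2.inV2 {𝔫 : Ideal (𝓞 K)} {r : G K} {u : HeightOneSpectrum (𝓞 K)} {c : EigData K}
    {ψ : G K → ℂ} (h : InCls2 𝔫 r u c ψ) : InV2 𝔫 r u ψ := h.inv

/-- A member of `W` which is an eigenfunction in `V₂` is an eigenfunction in `W`. -/
theorem inCls_of_inCls2_534 {𝔫 : Ideal (𝓞 K)} {r : G K} {u : HeightOneSpectrum (𝓞 K)}
    {c : EigData K} {ψ : G K → ℂ} (h : InCls2 𝔫 r u c ψ) (hW : InW 𝔫 r u ψ) :
    InCls 𝔫 r u c ψ :=
  ⟨hW, h.hecke, h.mean⟩

/-- An eigenfunction in `W` is an eigenfunction in `V₂`. -/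
theorem inCls2_of_inCls534 {𝔫 : Ideal (𝓞 K)} {r : G K} {u : HeightOneSpectrum (𝓞 K)}
    (h2 : IsV2Sub 𝔫 r u) {c : EigData K} {ψ : G K → ℂ} (h : InCls 𝔫 r u c ψ) :
    InCls2 𝔫 r u c ψ :=
  ⟨h2.w_le ψ h.inv, h.hecke, h.mean⟩

/-- The members of a class span of `V₂` are eigenfunctions with the data of the class. -/
theorem inCls2_of_mem534 {𝔫 : Ideal (𝓞 K)} {r : G K} {u : HeightOneSpectrum (𝓞 K)}
    (h2 : IsV2Sub 𝔫 r u) (v : ℕ → G K → ℂ) (J : Set ℕ) (c : ℕ → EigData K)
    (heig : ∀ j, j ∈ J → InCls2 𝔫 r u (c j) (v j)) (j₀ : ℕ) (hj₀ : j₀ ∈ J)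
    (x : G K → ℂ) (hx : x ∈ clsSpan v J c (c j₀)) : InCls2 𝔫 r u (c j₀) x := by
  unfold clsSpan at hx
  induction hx using Submodule.span_induction with
  | mem f hf =>
    obtain ⟨j, hj, hc, rfl⟩ := hf
    rw [← hc]
    exact heig j hj
  | zero =>
    have h := h2.smulC2 (c j₀) 0 (v j₀) (heig j₀ hj₀)
    rwa [zero_smul] at h
  | add f f' _ _ hf hf' => exact h2.addC2 (c j₀) f f' hf hf'
  | smul a f _ hf => exact h2.smulC2 (c j₀) a f hf

/-- **THE ASSEMBLY of the node W-BASIS.** -/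
theorem wBasisC_of534 (hForm : CuspFormC K) (hSub : WSubC K) (hV2 : V2SubC K)
    (hV2B : V2BasisC K) (hIw : IwProjC K) (hPB : ProjBasisC) : WBasisC K := by
  classical
  intro μ F r 𝔫 u hlev hfr hray hu hcx
  have hF := hForm μ F r 𝔫 hlev hfr hray
  have hS := hSub 𝔫 r u
  have h2 := hV2 𝔫 r u
  obtain ⟨v, J₀, c₀, hv⟩ := hV2B μ F r 𝔫 u hlev hfr hray hcx
  obtain ⟨P, hP⟩ := hIw μ F r 𝔫 u hlev hfr hray hu
  have hP0 : P 0 = 0 := by
    have h := hP.smul 0 0
    rwa [zero_smul, zero_smul] at h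
  have hPcls : ∀ a : EigData K, ∀ x ∈ clsSpan v J₀ c₀ a, P x ∈ clsSpan v J₀ c₀ a := by
    intro a x hx
    by_cases hne : ∃ j, j ∈ J₀ ∧ c₀ j = a
    · obtain ⟨j₀, hj₀, rfl⟩ := hne
      have hxc := inCls2_of_mem534 h2 v J₀ c₀ hv.eig j₀ hj₀ x hx
      exact hv.exhaust j₀ hj₀ _ (inCls2_of_inCls534 h2 (hP.cls _ x hxc))
    · rw [clsSpan_eq_bot534 v J₀ c₀ a hne] at hx ⊢
      rw [Submodule.mem_bot] at hx
      subst hx
      rw [Submodule.mem_bot]
      exact hP0
  have hWV : wSub534 hS ≤ v2Sub534 h2 := fun χ hχ => h2.w_le χ hχ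
  obtain ⟨w, J, cl, hw, hcl, hnorm, horth, hpars, hfin, hexh⟩ :=
    hPB (G K → ℂ) (T5.innerD μ F) (v2Sub534 h2) (wSub534 hS) (EigData K) v J₀ c₀ P hWV
      (fun x hx y hy z hz => hF.add_left x y z (InV2.inV hx) (InV2.inV hy) (InV2.inV hz))
      (fun a x hx y hy => hF.smul_left a x y (InV2.inV hx) (InV2.inV hy))
      (fun x hx y hy => hF.conj_symm x y (InV2.inV hx) (InV2.inV hy))
      (fun x hx => hF.nonneg x (InV2.inV hx))
      (fun x hx => hF.definite x (InV2.inV hx))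
      (fun j hj => (hv.eig j hj).inV2)
      hv.norm_one hv.orth
      (fun ψ hψ => hv.parseval ψ hψ)
      hv.finite hP.add hP.smul
      (fun x hx => hP.mem x hx)
      (fun x hx χ hχ => hP.inner x hx χ hχ)
      hPcls
  have heig : ∀ j, j ∈ J → InCls 𝔫 r u (cl j) (w j) := by
    intro j hj
    obtain ⟨j₀, hj₀, hc⟩ := hcl j hj
    have h1 := (hw j hj).2
    rw [← hc] at h1 ⊢
    exact inCls_of_inCls2_534 (inCls2_of_mem534 h2 v J₀ c₀ hv.eig j₀ hj₀ _ h1) (hw j hj).1
  refine ⟨w, J, cl, ⟨heig, ?_, hnorm, horth, fun χ hχ => hpars χ hχ, hfin, ?_⟩⟩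
  · intro j hj
    obtain ⟨j₀, hj₀, hc⟩ := hcl j hj
    rw [← hc]
    exact hv.unit j₀ hj₀
  · intro j₁ hj₁ ψ hψ
    obtain ⟨j₀, hj₀, hc⟩ := hcl j₁ hj₁
    have h1 : InCls2 𝔫 r u (c₀ j₀) ψ := by
      rw [hc]
      exact inCls2_of_inCls534 h2 hψ
    have h3 := hv.exhaust j₀ hj₀ ψ h1
    rw [hc] at h3
    exact hexh (cl j₁) ψ hψ.inW h3

/-- **THE NODE T7.L2.3 FROM ITS FIFTEEN LEAVES** (level 3 of `WBasisC` unfolded). -/
theorem specDownC_of_leaves3_534 {K K' : Type} [Field K] [NumberField K] [Field K']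
    [NumberField K'] [Algebra K K'] (hStf : StfIdC K) (hIw : IwSysC K) (hBC : BCDataC K K')
    (hRD : ResDegC K K') (hBU : BCUnitC K K') (hForm : CuspFormC K) (hSub : WSubC K)
    (hOps : OpsClassC K) (hSchur : SchurSeqC) (hReg : RegParamFnC K) (hSeq : SubSeqC K)
    (hV2 : V2SubC K) (hV2B : V2BasisC K) (hProj : IwProjC K) (hPB : ProjBasisC) :
    SpecDownC K K' :=
  specDownC_of_leaves534 hStf hIw hBC hRD hBU hForm hSub hOps
    (wBasisC_of534 hForm hSub hV2 hV2B hProj hPB) hSchur hReg hSeq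

end Top

end Fermat.Agent.LT.T7.SD534

end

end
-- ===== PACK-END LT/T7/H534/WBasisTop.lean

-- ===== PACK-BEGIN LT/T7/H16/OpsLink561.lean
section




/-!
# Row LT, tower T7, node T7.L2.2.B4 (cut of helper561), leaf B4.8 = `OpsLinkC561` (helper16)

OFF-MAIN.  `opsLinkC561_16 : H561.OpsLinkC561 K K'` VERBATIM against
`Fermat/Agent/LT/T7/H561/OpsSpec.lean` (sha256 17293f38), UNCONDITIONAL.

`!![a,1;1,0] * !![0,1;c,0] = !![c,a;0,1] = !![1,a;0,1] * !![c,0;0,1]` lies in `I diag(c,1) I`,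
`(h ω)⁻¹ (h' ω) = ω⁻¹ (h⁻¹ h') ω` and `ω` normalises `I`, `ω² = c` is a scalar uniformiser.
-/

set_option autoImplicit false

open IsDedekindDomain NumberField WithZero

noncomputable section

namespace Fermat.Agent.LT.T7.H16

open Fermat.Agent.LT.H556 Fermat.Agent.LT.H556.A0 Fermat.Agent.LT.T5 Fermat.Agent.LT.H129
open Fermat.Agent.LT.T7

variable {K : Type} [Field K] [NumberField K]

/-- The upper unipotent matrix with an integral entry lies in the Iwahori subgroup. -/
theorem isIw16_upper {F : Type*} [Field F] {v : Valuation F ℤᵐ⁰} {a : F} (ha : v a ≤ 1) :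
    IsIw16 v !![1, a; 0, 1] := by
  refine ⟨⟨fun i j => ?_, ?_⟩, ?_⟩
  · fin_cases i <;> fin_cases j
    · show v 1 ≤ 1
      rw [map_one]
    · exact ha
    · show v 0 ≤ 1
      rw [map_zero]
      exact zero_le
    · show v 1 ≤ 1
      rw [map_one]
  · rw [Matrix.det_fin_two_of]
    simp
  · show v 0 < 1
    rw [map_zero]
    exact zero_lt_one

theorem link_mul16 {F : Type*} [Field F] (a c : F) :
    (!![a, 1; 1, 0] : Matrix (Fin 2) (Fin 2) F) * !![0, 1; c, 0]
      = !![1, a; 0, 1] * !![c, 0; 0, 1] * 1 := by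
  rw [mul_one, Matrix.mul_fin_two, Matrix.mul_fin_two]
  congr 1
  ring_nf

/-- **The link at one place**: `H ω` is an Iwahori coset system at `w` for an explicit system
`H` and `ω = antidiag(1, c)`. -/
theorem isIwCosetSystem_link16 (w : HeightOneSpectrum (𝓞 K)) (H : Finset (G K)) (ω : G K)
    (hωl : IsLocalAtFin w ω)
    (hωc : ∃ c : w.adicCompletion K, Valued.v c = WithZero.exp (-1 : ℤ) ∧
      finComp w ω = !![0, 1; c, 0])
    (hcard : H.card = Ideal.absNorm w.asIdeal)
    (hloc : ∀ h ∈ H, IsLocalAtFin w h)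
    (hcomp : ∀ h ∈ H, ∃ a : w.adicCompletion K,
      a ∈ w.adicCompletionIntegers K ∧ finComp w h = !![a, 1; 1, 0])
    (hinj : ∀ h ∈ H, ∀ h' ∈ H, h ≠ h' → ¬ InIwahori w (h⁻¹ * h')) :
    IsIwCosetSystem w (H.map (mulRightEmbedding ω)) ∧ IsScalarUniformizerAt w (ω * ω) := by
  obtain ⟨c, hc, hω⟩ := hωc
  have hc' : vw16 w c = exp (-1 : ℤ) := hc
  have hc0 : c ≠ 0 := ne_zero_of_v16 hc'
  refine ⟨⟨?_, ?_, ?_⟩, ?_⟩
  · rw [Finset.card_map]
    exact hcard
  · intro h hh
    rw [Finset.mem_map] at hh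
    obtain ⟨h0, hh0, rfl⟩ := hh
    obtain ⟨a, ha, hcomp0⟩ := hcomp h0 hh0
    have ha' : vw16 w a ≤ 1 := (HeightOneSpectrum.mem_adicCompletionIntegers _ _ _).1 ha
    refine ⟨isLocalAtFin_mul129 (hloc h0 hh0) hωl, ?_⟩
    have hd1 : (!![1, a; 0, 1] : Matrix (Fin 2) (Fin 2) (w.adicCompletion K)).det ≠ 0 := by
      rw [Matrix.det_fin_two_of]
      simp
    have hd2 : (!![c, 0; 0, 1] : Matrix (Fin 2) (Fin 2) (w.adicCompletion K)).det ≠ 0 := by
      rw [Matrix.det_fin_two_of]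
      simpa using hc0
    refine ⟨locOf16 w _ hd1, 1, locOf16 w _ hd2, c, ?_, ?_, hc, finComp_locOf16 w _ hd2, ?_⟩
    · rw [inIwahori_iff16, finComp_locOf16]
      exact isIw16_upper ha'
    · rw [inIwahori_iff16, finComp_one16]
      exact isIw16_one
    · show finComp w (h0 * ω) = _
      rw [finComp_mul16, finComp_mul16, finComp_mul16, finComp_locOf16, finComp_locOf16,
        finComp_one16, hcomp0, hω]
      exact link_mul16 a c
  · intro h hh h' hh' hne hI
    rw [Finset.mem_map] at hh hh'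
    obtain ⟨h0, hh0, rfl⟩ := hh
    obtain ⟨h1, hh1, rfl⟩ := hh'
    have hne' : h0 ≠ h1 := fun e => hne (by rw [e])
    apply hinj h0 hh0 h1 hh1 hne'
    have e : h0⁻¹ * h1 = ω * ((h0 * ω)⁻¹ * (h1 * ω)) * ω⁻¹ := by group
    have hI' : InIwahori w ((h0 * ω)⁻¹ * (h1 * ω)) := hI
    rw [inIwahori_iff16] at hI' ⊢
    rw [e, finComp_mul16, finComp_mul16, finComp_inv16' w ω, hω]
    have hinv : (!![0, 1; c, 0] : Matrix (Fin 2) (Fin 2) (w.adicCompletion K))⁻¹
        = omegaInvM16 c := by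
      apply Matrix.inv_eq_right_inv
      exact omegaM16_mul_inv hc0
    rw [hinv]
    exact isIw16_conj' hc' hI'
  · refine ⟨isLocalAtFin_mul129 hωl hωl, c, hc, ?_⟩
    rw [finComp_mul16, hω]
    exact omegaM16_sq c

variable (K) (K' : Type) [Field K'] [NumberField K'] [Algebra K K']

/-- **LEAF B4.8 = OPS-LINK of the cut of helper561, VERBATIM.** -/
theorem opsLinkC561_16 : H561.OpsLinkC561 K K' := by
  intro ℓ Φ Dt _ Hs ω hsys
  exact isIwCosetSystem_link16 (Dt.o 0) (Hs 0) (ω 0) (hsys.ω_local 0) (hsys.ω_comp 0)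
    (hsys.Hs_card 0) (hsys.Hs_local 0) (hsys.Hs_comp 0) (hsys.Hs_inj 0)

end Fermat.Agent.LT.T7.H16

end

end
-- ===== PACK-END LT/T7/H16/OpsLink561.lean

-- ===== PACK-BEGIN LT/T7/H276/OpsLink.lean
section



/-!
# Row LT, tower T7, leaf T7.L2.2.B4.8 `OpsLinkC561` (helper276, OFF-MAIN)

    opsLinkC276 (K K') : H561.OpsLinkC561 K K'     -- VERBATIM, UNCONDITIONAL

For ANY explicit system `(Hs, ω)` along the orbit: `{h ω 0 | h ∈ Hs 0}` is a full system of
representatives of `I t I / I` at `o 0` and `ω 0 ²` is a scalar uniformiser at `o 0`.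
`!![a,1;1,0] !![0,1;ϖ,0] = !![ϖ,a;0,1] = !![1,a;0,1] !![ϖ,0;0,1]`,
`(h ω)⁻¹ (h' ω) = !![1,(a'-a)/ϖ;0,1]` is not integral (`|a' - a| = 1`), `ω² = ϖ`.
The hypotheses on the data are not used.
-/

set_option autoImplicit false

open IsDedekindDomain NumberField IsDedekindDomain.HeightOneSpectrum
open Fermat.Agent.LT.H556.A0 Fermat.Agent.LT.H129

noncomputable section

namespace Fermat.Agent.LT.T7.H276

variable {K : Type} [Field K] [NumberField K] (v : HeightOneSpectrum (𝓞 K))

theorem finComp_one276 : finComp v (1 : G K) = 1 := by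
  rw [← coe_finCompHom129, map_one]; rfl

theorem inIwahori_one276 : T5.InIwahori v (1 : G K) := by
  have h1 : (1 : v.adicCompletion K) ∈ v.adicCompletionIntegers K :=
    (v.adicCompletionIntegers K).one_mem
  have h0 : (0 : v.adicCompletion K) ∈ v.adicCompletionIntegers K :=
    (v.adicCompletionIntegers K).zero_mem
  have hint : IsIntegralAt v (1 : G K) := by
    intro i j
    rw [finComp_one276]
    by_cases hij : i = j
    · subst hij; simp
    · simp [hij]
  refine ⟨hint, by rw [inv_one]; exact hint, ?_⟩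
  rw [finComp_one276]
  simp

/-- The upper unipotent element `!![1,a;0,1]`, `a` integral, is in the Iwahori subgroup. -/
theorem inIwahori_upper276 {a : v.adicCompletion K} (ha : a ∈ v.adicCompletionIntegers K) :
    T5.InIwahori v (locFin129 v (mkGL129 1 a 0 1 (by simp))) := by
  have h1 : (1 : v.adicCompletion K) ∈ v.adicCompletionIntegers K :=
    (v.adicCompletionIntegers K).one_mem
  have h0 : (0 : v.adicCompletion K) ∈ v.adicCompletionIntegers K :=
    (v.adicCompletionIntegers K).zero_mem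
  have hI : IsInt129 (v.adicCompletionIntegers K) (mkGL129 1 a 0 1 (by simp)) :=
    isInt129_mkGL _ h1 ha h0 h1
  have hinv : (mkGL129 1 a 0 1 (by simp) : GL (Fin 2) (v.adicCompletion K))⁻¹
      = mkGL129 1 (-a) 0 1 (by simp) := by
    rw [inv_eq_iff_eq_inv, eq_comm, inv_eq_iff_mul_eq_one]
    apply Units.ext
    rw [Matrix.GeneralLinearGroup.coe_mul, coe_mkGL129, coe_mkGL129]
    ext i j
    fin_cases i <;> fin_cases j <;> simp [Matrix.mul_apply, Fin.sum_univ_two]
  refine ⟨?_, ?_, ?_⟩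
  · rw [← isInt129_finCompHom_iff, finCompHom129_locFin129]
    exact hI
  · rw [← isInt129_finCompHom_iff, map_inv, finCompHom129_locFin129, hinv]
    exact isInt129_mkGL _ h1 ((v.adicCompletionIntegers K).neg_mem _ ha) h0 h1
  · rw [finComp_locFin129, coe_mkGL129]
    simp

/-- `h ω` lies in `I diag(ϖ, 1) I`. -/
theorem inIwahoriCoset_mul276 {h ω : G K} {a c : v.adicCompletion K}
    (ha : a ∈ v.adicCompletionIntegers K) (hc : Valued.v c = WithZero.exp (-1 : ℤ))
    (hh : finComp v h = !![a, 1; 1, 0]) (hω : finComp v ω = !![0, 1; c, 0]) :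
    T5.InIwahoriCoset v 1 (h * ω) := by
  have hc0 : c ≠ 0 := unif_ne_zero129 v hc
  refine ⟨locFin129 v (mkGL129 1 a 0 1 (by simp)),
    1, locFin129 v (mkGL129 c 0 0 1 (by simpa using hc0)), c,
    inIwahori_upper276 v ha, inIwahori_one276 v, by simpa using hc, ?_, ?_⟩
  · rw [finComp_locFin129, coe_mkGL129]
  · rw [mul_one, finComp_mul276, finComp_mul276, hh, hω, finComp_locFin129,
      finComp_locFin129, coe_mkGL129, coe_mkGL129, iw_mul_omega276, iw_split276]

/-- `(h ω)⁻¹ (h' ω)` is not in the Iwahori subgroup if `h⁻¹ h'` is not. -/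
theorem not_inIwahori_mul276 {h h' ω : G K} {a a' c : v.adicCompletion K}
    (ha : a ∈ v.adicCompletionIntegers K) (ha' : a' ∈ v.adicCompletionIntegers K)
    (hc : Valued.v c = WithZero.exp (-1 : ℤ))
    (hh : finComp v h = !![a, 1; 1, 0]) (hh' : finComp v h' = !![a', 1; 1, 0])
    (hω : finComp v ω = !![0, 1; c, 0]) (hI : ¬ T5.InIwahori v (h⁻¹ * h')) :
    ¬ T5.InIwahori v ((h * ω)⁻¹ * (h' * ω)) := by
  have hval := val_of_not_inIwahori276 v ha ha' hh hh' hI
  intro hJ
  have h01 := hJ.1 0 1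
  have e1 : ((finCompHom129 v (h * ω) : GL (Fin 2) (v.adicCompletion K)) :
      Matrix (Fin 2) (Fin 2) (v.adicCompletion K)) = !![c, a; 0, 1] := by
    rw [coe_finCompHom129, finComp_mul276, hh, hω, iw_mul_omega276]
  have e2 : ((finCompHom129 v (h' * ω) : GL (Fin 2) (v.adicCompletion K)) :
      Matrix (Fin 2) (Fin 2) (v.adicCompletion K)) = !![c, a'; 0, 1] := by
    rw [coe_finCompHom129, finComp_mul276, hh', hω, iw_mul_omega276]
  rw [finComp_inv_mul276, iw_conj276 _ _ a a' c e1 e2, mem_adicCompletionIntegers, map_div₀,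
    hc] at h01
  have h2 : Valued.v (a' - a) ≤ WithZero.exp (-1 : ℤ) := by
    have hpos : (0 : WithZero (Multiplicative ℤ)) < WithZero.exp (-1 : ℤ) :=
      WithZero.exp_pos
    have := (div_le_iff₀ hpos).mp h01
    simpa using this
  have h3 : (1 : WithZero (Multiplicative ℤ)) ≤ WithZero.exp (-1 : ℤ) := le_trans hval h2
  rw [← WithZero.exp_zero, WithZero.exp_le_exp] at h3
  omega

variable (K)
variable (K' : Type) [Field K'] [NumberField K'] [Algebra K K']

/-- **LEAF T7.L2.2.B4.8 = OPS-LINK, VERBATIM.** -/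
theorem opsLinkC276 : H561.OpsLinkC561 K K' := by
  intro ℓ Φ Dt _ Hs ω hsys
  obtain ⟨c, hc, hω⟩ := hsys.ω_comp 0
  refine ⟨⟨?_, ?_, ?_⟩, ?_, c, hc, ?_⟩
  · rw [Finset.card_map]
    exact hsys.Hs_card 0
  · intro x hx
    obtain ⟨h, hh, rfl⟩ := Finset.mem_map.mp hx
    obtain ⟨a, ha, hha⟩ := hsys.Hs_comp 0 h hh
    exact ⟨isLocalAtFin_mul129 (hsys.Hs_local 0 h hh) (hsys.ω_local 0),
      inIwahoriCoset_mul276 (Dt.o 0) ha hc hha hω⟩
  · intro x hx x' hx' hne
    obtain ⟨h, hh, rfl⟩ := Finset.mem_map.mp hx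
    obtain ⟨h', hh', rfl⟩ := Finset.mem_map.mp hx'
    obtain ⟨a, ha, hha⟩ := hsys.Hs_comp 0 h hh
    obtain ⟨a', ha', hha'⟩ := hsys.Hs_comp 0 h' hh'
    have hne' : h ≠ h' := fun e => hne (by rw [e])
    exact not_inIwahori_mul276 (Dt.o 0) ha ha' hc hha hha' hω (hsys.Hs_inj 0 h hh h' hh' hne')
  · exact isLocalAtFin_mul129 (hsys.ω_local 0) (hsys.ω_local 0)
  · rw [finComp_mul276, hω, omega_sq276]

end Fermat.Agent.LT.T7.H276

end

end
-- ===== PACK-END LT/T7/H276/OpsLink.lean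

-- ===== PACK-BEGIN LT/T7/H736/Core/UpBasis.lean
section




/-!
# Row LT, tower T7, node T7.L2.2.E.2 `UpBasisC`: THE TOP IN CORE FORM (over `K'` alone)

OFF-MAIN.  PROVED top, no new definition, no new leaf Prop.  No hole, nothing assumed.  ADDITIVE.

MECHANICAL RETYPING (helper736) of the proof of helper865, `T7/H865/UpBasisTop.lean` (217ecacd,
`upBasisC_of865`), onto `H29.UpData K'` / `H29.IsUpData` (see the header of
`T7/H736/Core/Blocks.lean` for the substitution); his general lemmas (`conj_diag865`,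
`isEigFn_congr865`, …) are used as they are.

    upBasisUC_of : SU736.StfUC K' → CU736.BlocksC561 K' → H561.ChangeC561 K' → H561.AtomsC561
        → CU736.SigmaC561 K' → H865.IwSysUp865 K' → SU736.UpBasisUC K'
    expUpCoreC_of_blocks : … the same hypotheses … → H29.ExpUpCoreC K'

so the core node `H29.ExpUpCoreC K'` (both steps: cyclic and `F / ℚ`) follows from the CORE forms
of the leaves of helper561; `StfUC` (tower T5), `ChangeC561`, `AtomsC561`, `IwSysUp865` are CLOSED.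
-/

set_option autoImplicit false
set_option linter.unusedSectionVars false
set_option linter.unusedVariables false

open AutomorphicForm IsDedekindDomain NumberField MeasureTheory
open scoped ComplexConjugate Matrix

noncomputable section

namespace Fermat.Agent.LT.T7.CU736

open Fermat.Agent.LT.H556 Fermat.Agent.LT.H556.A0 Fermat.Agent.LT Fermat.Agent.LT.T7

attribute [local instance] Fermat.Agent.LT.T5.instMeasurableSpaceG

section Top

variable {K' : Type} [Field K'] [NumberField K']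

/-- **THE TOP OF THE NODE `UpBasisC`**: the bridge to the cut of helper561. -/
theorem upBasisUC_of (hStf : SU736.StfUC K') (hB : BlocksC561 K')
    (hCh : H561.ChangeC561 K') (hA : H561.AtomsC561) (hS : SigmaC561 K')
    (hIw : H865.IwSysUp865 K') : SU736.UpBasisUC K' := by
  classical
  intro ℓ hℓ hcplx Φ hΦ U hU hst g hg
  have hst561 : BaseStable561 U := hst.level
  obtain ⟨e₀, 𝔅, hBl⟩ := hB ℓ hℓ hcplx Φ hΦ U hU hst561 g hg
  obtain ⟨σC, -, hσ2, hσ3⟩ := hS ℓ hℓ hcplx Φ hΦ U hU hst561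
  obtain ⟨⟨H, hH⟩, ⟨z, hz⟩⟩ := hIw (U.o 0)
  obtain ⟨i₀, hi₀⟩ := hBl.phi
  -- abbreviations
  set μ := U.R'.μ with hμ
  set F := U.R'.F with hF
  set q : ℝ := ((Ideal.absNorm (U.o 0).asIdeal : ℕ) : ℝ) with hq
  have hℓ0 : 0 < ℓ := hℓ.pos
  have hq1 : 1 ≤ q := by
    have h0 : Ideal.absNorm (U.o 0).asIdeal ≠ 0 := by
      rw [Ne, Ideal.absNorm_eq_zero_iff]
      exact (U.o 0).ne_bot
    have : 1 ≤ Ideal.absNorm (U.o 0).asIdeal := Nat.one_le_iff_ne_zero.2 h0
    rw [hq]
    exact_mod_cast this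
  have hsq1 : 1 ≤ Real.sqrt q := by
    rw [← Real.sqrt_one]
    exact Real.sqrt_le_sqrt hq1
  -- the atoms of the blocks
  have hat : ∀ i : 𝔅.ι, ∃ (Q : Matrix (Fin (𝔅.n i)) (Fin (𝔅.n i)) ℂ)
      (t b l : Fin (𝔅.n i) → ℂ),
      Q ∈ Matrix.unitaryGroup (Fin (𝔅.n i)) ℂ ∧
      (∀ a, t a = 0 ∨ t a = (Qᴴ * (𝔅.B i * 𝔅.A i) * Q) a a) ∧
      (∀ a, IsRegParam (Real.sqrt q) (b a) (l a)) ∧
      ∀ (k : ℤ) (m : ℕ),
        Matrix.trace (𝔅.B i * (𝔅.ρ i 0 * 𝔅.ρ i 0) ^ k
            * (((Real.sqrt q : ℝ) : ℂ)⁻¹ • (𝔅.S i 0 * 𝔅.ρ i 0)) ^ m * 𝔅.A i)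
          = ∑ a, t a * b a ^ k * l a ^ m :=
    fun i => hA (𝔅.n i) ℓ q (𝔅.A i) (𝔅.B i) (𝔅.S i) (𝔅.ρ i) hℓ0 hq1 (hBl.iw i)
  choose Q t bb ll hQ ht hreg htr using hat
  -- the changed sequence (used for the summability only)
  have hnorm : ∀ (i : 𝔅.ι) (a : Fin (𝔅.n i)),
      T5.innerD μ F (e₀ (𝔅.idx i a)) (e₀ (𝔅.idx i a)) = 1 := by
    intro i a
    have := (hBl.basis i).orth a a
    rwa [if_pos rfl] at this
  obtain ⟨e', hONB', -, -, hdiag'⟩ := hCh U.s (U.𝔑 g) μ F U.R'.r hU.frame'.frame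
    hU.frame'.ray (hU.aut g hg) e₀ hBl.onb 𝔅.ι 𝔅.n 𝔅.idx hBl.inj hnorm Q hQ
  -- the index bookkeeping
  set f : (Σ i, Fin (𝔅.n i)) → ℕ := fun p => 𝔅.idx p.1 p.2 with hf
  have hfinj : Function.Injective f := by
    rintro ⟨i, a⟩ ⟨i', a'⟩ h
    exact hBl.inj i a i' a' h
  set dat : ℕ → Option (Σ i, Fin (𝔅.n i)) := Function.partialInv f with hdat
  have hdat_some : ∀ (i : 𝔅.ι) (a : Fin (𝔅.n i)), dat (𝔅.idx i a) = some ⟨i, a⟩ :=
    fun i a => Function.partialInv_left hfinj ⟨i, a⟩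
  have hdat_inv : ∀ (j : ℕ) (p : Σ i, Fin (𝔅.n i)), dat j = some p → 𝔅.idx p.1 p.2 = j :=
    fun j p h => (hfinj.isPartialInv p j).1 h
  have hidx_inj : ∀ i : 𝔅.ι, Function.Injective (𝔅.idx i) := by
    intro i a a' h
    have := hfinj (a₁ := ⟨i, a⟩) (a₂ := ⟨i, a'⟩) h
    exact eq_of_heq (Sigma.mk.inj this).2
  -- the data
  set I : Set ℕ := Set.range f with hI
  set blk : ℕ → Finset ℕ := fun j =>
    (dat j).elim ∅ (fun p => Finset.univ.image (𝔅.idx p.1)) with hblk
  set C : ℕ → EigData K' := fun j => (dat j).elim (𝔅.C i₀) (fun p => 𝔅.C p.1) with hC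
  set y : ℕ → ℂ := fun j => (dat j).elim 0 (fun p => t p.1 p.2) with hy
  set b : ℕ → ℂ := fun j => (dat j).elim 1 (fun p => bb p.1 p.2) with hb
  set l : ℕ → ℂ := fun j => (dat j).elim 1 (fun p => ll p.1 p.2) with hl
  set J : Finset ℕ := Finset.univ.image (𝔅.idx i₀) with hJ
  have hnone : ∀ j, j ∉ I → dat j = none := by
    intro j hj
    cases hd : dat j with
    | none => rfl
    | some p => exact absurd ⟨p, hdat_inv j p hd⟩ hj
  have hblk_idx : ∀ (i : 𝔅.ι) (a : Fin (𝔅.n i)),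
      blk (𝔅.idx i a) = Finset.univ.image (𝔅.idx i) := by
    intro i a
    show (dat (𝔅.idx i a)).elim ∅ (fun p => Finset.univ.image (𝔅.idx p.1)) = _
    rw [hdat_some]
    rfl
  have hC_idx : ∀ (i : 𝔅.ι) (a : Fin (𝔅.n i)), C (𝔅.idx i a) = 𝔅.C i := by
    intro i a
    show (dat (𝔅.idx i a)).elim (𝔅.C i₀) (fun p => 𝔅.C p.1) = _
    rw [hdat_some]
    rfl
  have hy_idx : ∀ (i : 𝔅.ι) (a : Fin (𝔅.n i)), y (𝔅.idx i a) = t i a := by
    intro i a
    show (dat (𝔅.idx i a)).elim 0 (fun p => t p.1 p.2) = _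
    rw [hdat_some]
    rfl
  have hb_idx : ∀ (i : 𝔅.ι) (a : Fin (𝔅.n i)), b (𝔅.idx i a) = bb i a := by
    intro i a
    show (dat (𝔅.idx i a)).elim 1 (fun p => bb p.1 p.2) = _
    rw [hdat_some]
    rfl
  have hl_idx : ∀ (i : 𝔅.ι) (a : Fin (𝔅.n i)), l (𝔅.idx i a) = ll i a := by
    intro i a
    show (dat (𝔅.idx i a)).elim 1 (fun p => ll p.1 p.2) = _
    rw [hdat_some]
    rfl
  have hy_out : ∀ j, j ∉ I → y j = 0 := by
    intro j hj
    show (dat j).elim 0 (fun p => t p.1 p.2) = 0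
    rw [hnone j hj]
    rfl
  -- the test functions
  have htest : ∀ (X : List (Gen K')) (k : ℤ) (m : ℕ), (∀ x ∈ X, x.Out U.S') →
      T5.IsTestFn (U.𝔑 g) T5.trivType (U.φ' g X k m) :=
    fun X k m hX => (hU.ekprod_up g X k m hg hX).1
  have hnil : ∀ x ∈ ([] : List (Gen K')), x.Out U.S' := fun x hx => absurd hx (List.not_mem_nil)
  -- the sum of the diagonal coefficients over a block is a trace
  have hblock : ∀ (i : 𝔅.ι) (X : List (Gen K')) (k : ℤ) (m : ℕ), (∀ x ∈ X, x.Out U.S') →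
      ∑ a, T5.diagCoeff U.s μ F (U.φ' g X k m) (e₀ (𝔅.idx i a))
        = ∑ a, wordEv X (𝔅.C i) * t i a * bb i a ^ k * ll i a ^ m := by
    intro i X k m hX
    have h1 : ∀ a, T5.diagCoeff U.s μ F (U.φ' g X k m) (e₀ (𝔅.idx i a))
        = wordEv X (𝔅.C i) * (𝔅.B i * (𝔅.ρ i 0 * 𝔅.ρ i 0) ^ k
            * (((Real.sqrt q : ℝ) : ℂ)⁻¹ • (𝔅.S i 0 * 𝔅.ρ i 0)) ^ m * 𝔅.A i) a a :=
      fun a => hBl.coeff X hX k m i a a
    rw [Finset.sum_congr rfl fun a _ => h1 a, ← Finset.mul_sum]
    have h2 : ∑ a, (𝔅.B i * (𝔅.ρ i 0 * 𝔅.ρ i 0) ^ k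
        * (((Real.sqrt q : ℝ) : ℂ)⁻¹ • (𝔅.S i 0 * 𝔅.ρ i 0)) ^ m * 𝔅.A i) a a
        = ∑ a, t i a * bb i a ^ k * ll i a ^ m := htr i k m
    rw [h2, Finset.mul_sum]
    refine Finset.sum_congr rfl fun a _ => ?_
    ring
  -- the class of `Φ`
  have hmemS := hU.mem_S'
  have heig0 : ∀ a : Fin (𝔅.n i₀),
      IsEigFn U.𝔑₀ U.R'.r ℓ U.o (e₀ (𝔅.idx i₀ a)) (eigOf Φ) :=
    fun a => H865.isEigFn_congr865 hmemS ((hBl.basis i₀).eig a) hi₀
  have heigσ : ∀ a : Fin (𝔅.n i₀),
      IsEigFn U.𝔑₀ U.R'.r ℓ U.o (T5.Rsig U.s (e₀ (𝔅.idx i₀ a))) (eigOf Φ) :=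
    fun a => H865.isEigFn_congr865 hmemS (hσ2 _ _ (heig0 a)) hσ3
  refine ⟨e₀, I, blk, C, b, l, y, Real.sqrt q, J, ?_⟩
  refine
    { onb := hBl.onb
      zero_out := ?_
      y_out := hy_out
      mem_blk := ?_
      blk_sub := ?_
      block := ?_
      summ := ?_
      unit := ?_
      reg := ?_
      cls_mem := ?_
      cls_agree := ?_
      cls_basis := ?_
      cls_trace := ?_ }
  · -- zero_out
    intro j hj X k m hX
    refine hBl.off X hX k m j fun i a h => hj ⟨⟨i, a⟩, h⟩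
  · -- mem_blk
    rintro j ⟨⟨i, a⟩, rfl⟩
    show 𝔅.idx i a ∈ blk (𝔅.idx i a)
    rw [hblk_idx]
    exact Finset.mem_image_of_mem _ (Finset.mem_univ a)
  · -- blk_sub
    rintro j ⟨⟨i, a⟩, rfl⟩ j' hj'
    have hj'' : j' ∈ blk (𝔅.idx i a) := hj'
    rw [hblk_idx, Finset.mem_image] at hj''
    obtain ⟨a', -, rfl⟩ := hj''
    refine ⟨⟨⟨i, a'⟩, rfl⟩, ?_⟩
    show blk (𝔅.idx i a') = blk (𝔅.idx i a)
    rw [hblk_idx, hblk_idx]
  · -- block
    rintro j ⟨⟨i, a⟩, rfl⟩ X k m hX
    show ∑ j' ∈ blk (𝔅.idx i a), T5.diagCoeff U.s μ F (U.φ' g X k m) (e₀ j')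
      = ∑ j' ∈ blk (𝔅.idx i a), wordEv X (C j') * y j' * b j' ^ k * l j' ^ m
    rw [hblk_idx, Finset.sum_image fun x _ x' _ h => hidx_inj i h,
      Finset.sum_image fun x _ x' _ h => hidx_inj i h, hblock i X k m hX]
    refine Finset.sum_congr rfl fun a' _ => ?_
    rw [hC_idx, hy_idx, hb_idx, hl_idx]
  · -- summ
    have hs1 : Summable fun j => ‖T5.diagCoeff U.s μ F (U.φ' g [] 0 0) (e' j)‖ := by
      obtain ⟨-, φ₁, φ₂, t₁, t₂, k₁, k₁', k₂, k₂', hconv⟩ := hU.ekprod_up g [] 0 0 hg hnil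
      rw [hconv]
      exact ((hStf U.s U.l U.k (U.𝔑 g) (hU.level_ne g hg) hU.cyc U.R'.μ U.R'.F U.R'.r hU.frame'.frame
        hU.frame'.ray (hU.aut g hg) e' hONB' φ₁ φ₂ t₁ t₂ k₁ k₁' k₂ k₂').1).norm
    refine Summable.of_nonneg_of_le (fun j => norm_nonneg _) (fun j => ?_) hs1
    by_cases hj : j ∈ I
    · obtain ⟨⟨i, a⟩, rfl⟩ := hj
      show ‖y (𝔅.idx i a)‖ ≤ ‖T5.diagCoeff U.s μ F (U.φ' g [] 0 0) (e' (𝔅.idx i a))‖
      rw [hy_idx]
      rcases ht i a with h0 | h1
      · rw [h0, norm_zero]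
        exact norm_nonneg _
      · refine le_of_eq ?_
        rw [h1, hdiag' (U.φ' g [] 0 0) (htest [] 0 0 hnil) i a, H865.conj_diag865]
        refine congrArg _ (Finset.sum_congr rfl fun b' _ => Finset.sum_congr rfl fun c' _ => ?_)
        have := hBl.coeff [] hnil 0 0 i b' c'
        rw [H865.wordEv_nil865, one_mul, zpow_zero, pow_zero, mul_one, mul_one] at this
        rw [this]
    · rw [hy_out j hj, norm_zero]
      exact norm_nonneg _
  · -- unit
    intro j
    show ((dat j).elim (𝔅.C i₀) (fun p => 𝔅.C p.1)).IsUnitaryOut U.S'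
    cases dat j with
    | none => exact hBl.unitary i₀
    | some p => exact hBl.unitary p.1
  · -- reg
    intro j
    show IsRegParam (Real.sqrt q) ((dat j).elim 1 (fun p => bb p.1 p.2))
      ((dat j).elim 1 (fun p => ll p.1 p.2))
    cases dat j with
    | none =>
      show IsRegParam (Real.sqrt q) 1 1
      refine ⟨norm_one, ?_, Or.inl norm_one⟩
      rw [norm_one]
      exact hsq1
    | some p => exact hreg p.1 p.2
  · -- cls_mem
    intro j hagree hyj
    have hjI : j ∈ I := by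
      by_contra hj
      exact hyj (hy_out j hj)
    obtain ⟨⟨i, a⟩, rfl⟩ := hjI
    have hagree' : (C (𝔅.idx i a)).AgreeOut U.S' (eigOf Φ) := hagree
    rw [hC_idx] at hagree'
    have hii : i = i₀ := hBl.distinct i i₀ (H865.agreeOut_trans865 hagree' (H865.agreeOut_symm865 hi₀))
    subst hii
    exact Finset.mem_image_of_mem _ (Finset.mem_univ a)
  · -- cls_agree
    intro j hj
    rw [hJ, Finset.mem_image] at hj
    obtain ⟨a, -, rfl⟩ := hj
    show (C (𝔅.idx i₀ a)).AgreeOut U.S' (eigOf Φ)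
    rw [hC_idx]
    exact hi₀
  · -- cls_basis
    refine ⟨?_, ?_, ?_, ?_⟩
    · intro j hj
      rw [hJ, Finset.mem_image] at hj
      obtain ⟨a, -, rfl⟩ := hj
      exact heig0 a
    · intro i hi j hj hij
      rw [hJ, Finset.mem_image] at hi hj
      obtain ⟨a, -, rfl⟩ := hi
      obtain ⟨a', -, rfl⟩ := hj
      have haa : a ≠ a' := fun h => hij (by rw [h])
      have := (hBl.basis i₀).orth a a'
      rwa [if_neg haa] at this
    · intro j hj
      rw [hJ, Finset.mem_image] at hj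
      obtain ⟨a, -, rfl⟩ := hj
      exact hnorm i₀ a
    · intro ψ hψ
      obtain ⟨c, hc⟩ := (hBl.basis i₀).span ψ (eigOf Φ) hψ (H865.agreeOut_symm865 hi₀)
      refine ⟨fun j => ∑ a' : Fin (𝔅.n i₀), if 𝔅.idx i₀ a' = j then c a' else 0, fun x => ?_⟩
      rw [hc x, hJ, Finset.sum_image fun x _ x' _ h => hidx_inj i₀ h]
      refine Finset.sum_congr rfl fun a _ => ?_
      congr 1
      show c a = ∑ a' : Fin (𝔅.n i₀), if 𝔅.idx i₀ a' = 𝔅.idx i₀ a then c a' else 0
      rw [Finset.sum_eq_single a]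
      · rw [if_pos rfl]
      · intro a' _ ha'
        rw [if_neg fun h => ha' (hidx_inj i₀ h)]
      · intro h
        exact absurd (Finset.mem_univ a) h
  · -- cls_trace
    intro Hg hHg
    show ∑ j ∈ J, y j = U.c g (eigOf Φ)
      * ∑ j ∈ J, T5.innerD U.R'.μ U.R'.F (cosetOp Hg (T5.Rsig U.s (e₀ j))) (e₀ j)
    rw [hJ, Finset.sum_image fun x _ x' _ h => hidx_inj i₀ h,
      Finset.sum_image fun x _ x' _ h => hidx_inj i₀ h, Finset.mul_sum]
    have h1 := hblock i₀ [] 0 0 hnil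
    have h2 : ∑ a, y (𝔅.idx i₀ a) = ∑ a, wordEv [] (𝔅.C i₀) * t i₀ a * bb i₀ a ^ (0 : ℤ)
        * ll i₀ a ^ 0 := by
      refine Finset.sum_congr rfl fun a _ => ?_
      rw [hy_idx, H865.wordEv_nil865, one_mul, zpow_zero, pow_zero, mul_one, mul_one]
    rw [h2, ← h1]
    refine Finset.sum_congr rfl fun a _ => ?_
    -- OP-up for `R(σ) e₀_a`
    have hop := hU.op_up g [] 0 0 hg hnil (T5.Rsig U.s (e₀ (𝔅.idx i₀ a))) (eigOf Φ)
      (heigσ a) Hg H z hHg hH hz
    show T5.innerD μ F (T5.Rconv μ (U.φ' g [] 0 0) (T5.Rsig U.s (e₀ (𝔅.idx i₀ a))))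
        (e₀ (𝔅.idx i₀ a))
      = U.c g (eigOf Φ)
        * T5.innerD μ F (cosetOp Hg (T5.Rsig U.s (e₀ (𝔅.idx i₀ a)))) (e₀ (𝔅.idx i₀ a))
    show (∫ x in F, T5.Rconv μ (U.φ' g [] 0 0) (T5.Rsig U.s (e₀ (𝔅.idx i₀ a))) x
          * conj (e₀ (𝔅.idx i₀ a) x) ∂μ)
      = U.c g (eigOf Φ)
        * ∫ x in F, cosetOp Hg (T5.Rsig U.s (e₀ (𝔅.idx i₀ a))) x
          * conj (e₀ (𝔅.idx i₀ a) x) ∂μ
    rw [← integral_const_mul]
    refine integral_congr_ae (Filter.Eventually.of_forall fun x => ?_)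
    show T5.Rconv μ (U.φ' g [] 0 0) (T5.Rsig U.s (e₀ (𝔅.idx i₀ a))) x
        * conj (e₀ (𝔅.idx i₀ a) x)
      = U.c g (eigOf Φ) * (cosetOp Hg (T5.Rsig U.s (e₀ (𝔅.idx i₀ a))) x
        * conj (e₀ (𝔅.idx i₀ a) x))
    rw [hop x, H865.wordEv_nil865, one_mul, ← mul_assoc]
    congr 2
    show ∑ h ∈ Hg, ((iwOp (U.o 0) H)^[0] (T5.Rsig U.s (e₀ (𝔅.idx i₀ a))))
        (x * h * z ^ (0 : ℤ))
      = ∑ h ∈ Hg, T5.Rsig U.s (e₀ (𝔅.idx i₀ a)) (x * h)
    refine Finset.sum_congr rfl fun h _ => ?_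
    rw [zpow_zero, mul_one]
    rfl

/-- **THE CORE NODE `H29.ExpUpCoreC` from the core forms of the leaves of helper561.** -/
theorem expUpCoreC_of_blocks (hStf : SU736.StfUC K') (hB : BlocksC561 K')
    (hCh : H561.ChangeC561 K') (hA : H561.AtomsC561) (hS : SigmaC561 K')
    (hIw : H865.IwSysUp865 K') : H29.ExpUpCoreC K' :=
  SU736.expUpCoreC_of hStf (upBasisUC_of hStf hB hCh hA hS hIw)

end Top

end Fermat.Agent.LT.T7.CU736

end

end
-- ===== PACK-END LT/T7/H736/Core/UpBasis.lean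

-- ===== PACK-BEGIN LT/T7/H736/Port/OffW.lean
section



/-!
# Row LT, tower T7, node T7.L2.2 `SpecUpC`: leaf B6 `OffWC561` IN CORE FORM (port by helper736)

OFF-MAIN.  PROVED, no hole, nothing assumed.  ADDITIVE (namespace `Fermat.Agent.LT.T7.PU736`).

MECHANICAL PORT onto `H29.UpData K'` / `H29.IsUpData` of the proof of helper313 (`T7/H313/OffW.lean` a336ea10, `offWC313`): the same text after the
substitution of the header of `T7/H736/Core/Blocks.lean`; the lemmas of the source over ONE field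
are used as they are.  The forms of record (`UB675` / `CMU675`) follow by `T7/H736/Core/Glue.lean`.
-/

set_option autoImplicit false
set_option linter.unusedSectionVars false
set_option linter.unusedVariables false

open AutomorphicForm IsDedekindDomain NumberField MeasureTheory
open scoped ComplexConjugate

noncomputable section

namespace Fermat.Agent.LT.T7.PU736

open Fermat.Agent.LT.H556 Fermat.Agent.LT.H556.A0 Fermat.Agent.LT.T7
open Fermat.Agent.LT Fermat.Agent.LT.T7.H313 Fermat.Agent.LT.T7.CU736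

attribute [local instance] Fermat.Agent.LT.T5.instMeasurableSpaceG



/-- **LEAF T7.L2.2.B6 = OFF-W.** -/
theorem offWC313 (K' : Type) [Field K'] [NumberField K'] : OffWC561 K' := by
  classical
  intro ℓ _ _ Φ _ U hU g hg ι n C v hW hH e he heW X hX k m
  have hF : T5.IsFrame U.R'.μ U.R'.F := hU.frame'.frame
  have hr : T5.IsRayGen U.R'.r := hU.frame'.ray
  have haut : T5.AutPreserves U.s (U.𝔑 g) U.R'.μ U.R'.r := (hU.aut g hg)
  have := hF.haar
  have hφ : T5.IsTestFn (U.𝔑 g) T5.trivType (U.φ' g X k m) :=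
    (hU.ekprod_up g X k m hg hX).1
  -- `f = R(σ) e`
  have hf : T5.IsCuspFn (U.𝔑 g) T5.trivType U.R'.r (T5.Rsig U.s e) :=
    T1.H930.isCuspFn_Rsig930 haut (T1.H930.trivType_invariant930 U.s) he
  -- `f = f₁ + f₂`
  obtain ⟨f₁, hf₁W, hf₁⟩ := hU.proj_up g hg _ hf
  have hf₁c : T5.IsCuspFn (U.𝔑 g) T5.trivType U.R'.r f₁ :=
    isCuspFn_level313 (hU.level_g g hg) hf₁W.cusp
  have hf₂ := isCuspFn_sub313 hf hf₁c
  have hkill := hU.kill_up g X k m hg hX _ hf₂ hf₁
  have hRf : T5.Rconv U.R'.μ (U.φ' g X k m) (T5.Rsig U.s e)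
      = T5.Rconv U.R'.μ (U.φ' g X k m) f₁ := by
    funext x
    have h1 := Rconv_sub313 (μ := U.R'.μ) hφ.cont hφ.supp hf.cont hf₁c.cont x
    rw [hkill x] at h1
    exact sub_eq_zero.1 h1.symm
  show T5.innerD U.R'.μ U.R'.F (T5.Rconv U.R'.μ (U.φ' g X k m) (T5.Rsig U.s e)) e = 0
  rw [hRf, innerD_Rconv_adj313 hF hr hφ.cont hφ.supp hf₁c he]
  -- the `L²` argument
  have hvW : ∀ p : Σ i, Fin (n i), IsEigFn U.𝔑₀ U.R'.r ℓ U.o (v p.1 p.2) (C p.1) :=
    fun p => (hW.basis p.1).eig p.2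
  refine ip_eq_zero_of_parseval313 (U.R'.μ.restrict U.R'.F)
    (fun p : Σ i, Fin (n i) => v p.1 p.2) f₁ _
    (fun p => memLp_of_cont_bdd313 hF (hvW p).inv.cusp.cont (hvW p).inv.cusp.bdd)
    (memLp_of_cont_bdd313 hF hf₁c.cont hf₁c.bdd)
    (memLp_conv_adj313 hF hφ.cont hφ.supp he.cont he.bdd) ?_ (hW.complete f₁ hf₁W) ?_
  · -- orthonormality
    rintro ⟨i, a⟩ ⟨i', a'⟩
    by_cases hii : i = i'
    · subst hii
      have h1 := (hW.basis i).orth a a'
      by_cases haa : a = a'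
      · subst haa
        rw [if_pos rfl] at h1
        rw [if_pos rfl]
        exact h1
      · rw [if_neg haa] at h1
        have hne : (⟨i, a⟩ : Σ i, Fin (n i)) ≠ ⟨i, a'⟩ :=
          fun h' => haa (eq_of_heq (Sigma.mk.inj h').2)
        rw [if_neg hne]
        exact h1
    · have hne : (⟨i, a⟩ : Σ i, Fin (n i)) ≠ ⟨i', a'⟩ :=
        fun h' => hii (Sigma.mk.inj h').1
      rw [if_neg hne]
      exact hW.orth i i' a a' hii
  · -- `⟨v_p, h⟩ = 0`
    intro p
    have h1 := innerD_Rconv_adj313 hF hr hφ.cont hφ.supp (hvW p).inv.cusp he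
    have h2 : T5.innerD U.R'.μ U.R'.F e (T5.Rconv U.R'.μ (U.φ' g X k m) (v p.1 p.2)) = 0 :=
      heW _ (hH X hX k m (v p.1 p.2) (C p.1) (hvW p))
    have h3 := innerD_conj313 U.R'.μ U.R'.F
      (T5.Rconv U.R'.μ (U.φ' g X k m) (v p.1 p.2)) e
    rw [h2, map_zero] at h3
    rw [h3] at h1
    exact h1.symm



end Fermat.Agent.LT.T7.PU736

end

end
-- ===== PACK-END LT/T7/H736/Port/OffW.lean

-- ===== PACK-BEGIN LT/T7/H952/FibCard.lean
section



/-!
# Row LT, tower T7, leaf T7.L2.1.RT2 `H193.FibCardC` (helper952, spare)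

OFF-MAIN.  `fibCardC952 (K K') : H193.FibCardC K K'`, VERBATIM against helper193's frozen
`T7/H193/NatMatchSpec.lean`.  No hole, nothing assumed.

The fibre of `w ↦ w.comap` over `v` is one orbit of the Galois group (`mem_orbit_iff`); `v` is
complex, so every place over it is unramified and its stabiliser is trivial
(`card_stabilizer`); orbit-stabiliser.
-/

set_option autoImplicit false
set_option linter.unusedSectionVars false
set_option linter.unusedVariables false

open NumberField NumberField.InfinitePlace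

noncomputable section

namespace Fermat.Agent.LT.T7.H952

/-- **`H193.FibCardC`** (T7.L2.1.RT2), VERBATIM. -/
theorem fibCardC952 (K K' : Type) [Field K] [NumberField K] [Field K'] [NumberField K']
    [Algebra K K'] : Fermat.Agent.LT.T7.H193.FibCardC K K' := by
  intro ℓ hcyc htc v
  classical
  haveI : IsGalois K K' := hcyc.galois
  haveI : FiniteDimensional K K' :=
    Module.finite_of_finrank_pos (by rw [hcyc.degree]; exact hcyc.prime.pos)
  obtain ⟨w, hw⟩ := comap_surjective (k := K) (K := K') v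
  have hw' : w.comap (algebraMap K K') = v := hw
  -- the fibre is the orbit
  have hfib : {w' : InfinitePlace K' // w'.comap (algebraMap K K') = v}
      = ↥(MulAction.orbit Gal(K'/K) w) := by
    congr 1
    ext w'
    rw [mem_orbit_iff (k := K), hw']
    exact eq_comm
  rw [hfib]
  -- the stabiliser is trivial
  have hunr : IsUnramified K w := by
    rw [isUnramified_iff]
    right
    rw [hw']
    exact htc v
  have hstab : Nat.card (MulAction.stabilizer Gal(K'/K) w) = 1 :=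
    (isUnramified_iff_card_stabilizer_eq_one (k := K) (w := w)).mp hunr
  have horb := MulAction.card_orbit_mul_card_stabilizer_eq_card_group Gal(K'/K) w
  rw [← Nat.card_eq_fintype_card, ← Nat.card_eq_fintype_card, ← Nat.card_eq_fintype_card,
    hstab, mul_one, IsGalois.card_aut_eq_finrank K K', hcyc.degree] at horb
  exact horb

end Fermat.Agent.LT.T7.H952

end

end
-- ===== PACK-END LT/T7/H952/FibCard.lean

-- ===== PACK-BEGIN LT/T7/H886/SubSeqQ.lean
section





/-!
# Row LT, tower T7, leaf T7.L2Q.3.7.7 `SDQ140.SubSeqQC` (helper886, registry row 2352)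

OFF-MAIN.  `subSeqQC886 (n) : SDQ140.SubSeqQC n`, VERBATIM against
`LT/T7/H140/DownBasisQSpec.lean` (helper140), UNCONDITIONAL, both `K_∞`-types `n : QWt`.

Proof (the one of `SD534.SubSeqC`; the type plays no role): `GL₂(𝔸_ℚ)` is second countable
(`H11.SC`, helper11), so its Borel `σ`-algebra is countably generated and `L²(F, μ)` is separable
(`μ F < ∞`); the members of `S` are cusp functions, hence continuous and bounded, hence square
integrable on `F`; Gram--Schmidt on a dense sequence of the image of `S` in `L²(F, μ)`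
(`H497.exists_orthoSeq_fn497`, helper497, Mathlib only, byte-identical copy).
-/

set_option autoImplicit false

open AutomorphicForm IsDedekindDomain NumberField MeasureTheory
open scoped ComplexConjugate

noncomputable section

namespace Fermat.Agent.LT.T7.H886

open Fermat.Agent.LT.H556 Fermat.Agent.LT.H556.A0 Fermat.Agent.LT.T7

attribute [local instance] Fermat.Agent.LT.T5.instMeasurableSpaceG

/-- **T7.L2Q.3.7.7 `SubSeqQC`**: every linear subspace of the cusp functions over `ℚ` of type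
`n` has a complete orthonormal sequence (zero vectors allowed). -/
theorem subSeqQC886 (n : L2Q.QWt) : SDQ140.SubSeqQC n := by
  intro μ F r 𝔫 _ _ hFr _ S hSV hS0 hSadd hSsmul
  have : SecondCountableTopology (G ℚ) :=
    Fermat.Agent.LT.H11.SC.secondCountableTopology_GL2_adeleRing_h11 ℚ
  have : BorelSpace (G ℚ) := ⟨rfl⟩
  have : MeasurableSpace.CountablyGenerated (G ℚ) := inferInstance
  have : IsFiniteMeasure (μ.restrict F) := ⟨by
    rw [Measure.restrict_apply_univ]
    exact hFr.finite⟩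
  let Sm : Submodule ℂ (G ℚ → ℂ) :=
    { carrier := {f | S f}
      add_mem' := fun {f f'} hf hf' => hSadd f f' hf hf'
      zero_mem' := hS0
      smul_mem' := fun a f hf => hSsmul a f hf }
  obtain ⟨p, hpS, hpo, hpn, hpp⟩ := H497.exists_orthoSeq_fn497 (μ.restrict F) Sm
    (fun f hf => (hSV f hf).cont.aestronglyMeasurable)
    (fun f hf => (hSV f hf).bdd)
  exact ⟨p, hpS, hpo, hpn, hpp⟩

end Fermat.Agent.LT.T7.H886

end

end
-- ===== PACK-END LT/T7/H886/SubSeqQ.lean

-- ===== PACK-BEGIN LT/T7/H899/FinAvgHecke.lean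
section




/-!
# Row LT, tower T7, leaf T7.L2.3.5.4.B2 `FinAvgHeckeC776` (helper899)

OFF-MAIN.  `finAvgHeckeC899 (K) : T7.WB776.FinAvgHeckeC776 K`, VERBATIM against
`LT/T7/H776/WBasisSpec.lean` (helper776@c8c37e749, sha256 ebd5d61e), unconditional.
Asset (byte-identical copy): `LT/T7/H543/HGroup.lean` (helper543@d9c18a4ed, sha256 62384838):
the components of `GL₂(𝔸_K)` are multiplicative, an Iwahori element of the orbit and an element
of a level group are integral with integral inverse at every finite place.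
Nothing is assumed and every proof is complete.

Proof.  A member `h` of `Rep` is `i · u` (`IsFinData.mem`), trivial at infinity and integral
with integral inverse at `v`.  So `k ↦ h⁻¹ k h` maps a Hecke coset system at `v` to a Hecke
coset system at `v` and a scalar uniformiser at `v` to a scalar uniformiser at `v`, and
`ψ (g k h) = ψ ((g h) (h⁻¹ k h))`.
-/

set_option autoImplicit false
set_option linter.unusedSectionVars false

open AutomorphicForm IsDedekindDomain NumberField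

noncomputable section

namespace Fermat.Agent.LT.T7.H899

open Fermat.Agent.LT Fermat.Agent.LT.H556 Fermat.Agent.LT.H556.A0 Fermat.Agent.LT.T7
  Fermat.Agent.LT.T7.H193 Fermat.Agent.LT.T7.H543

variable {K : Type} [Field K] [NumberField K]

/-! ## 1. The members of `Rep` -/

theorem finAvg_apply899 (Rep : Finset (G K)) (ψ : G K → ℂ) (g : G K) :
    finAvg Rep ψ g = ((Rep.card : ℂ))⁻¹ * ∑ h ∈ Rep, ψ (g * h) := rfl

/-- An element of a level group is integral with integral inverse at every finite place. -/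
theorem level_int899 {𝔑 : Ideal (𝓞 K)} {u : G K} (hu : InLevelGroup 𝔑 u)
    (v : HeightOneSpectrum (𝓞 K)) : IsIntegralAt v u ∧ IsIntegralAt v u⁻¹ := by
  have h := ((inLevelGroup_iff543 𝔑 u).mp hu).2 v
  exact ⟨intM_of_idM543 h.1, intM_of_idM543 h.2⟩

/-- A member of `Rep` is trivial at infinity and integral with integral inverse at every finite
place. -/
theorem rep_int899 {𝔑 𝔑₀ : Ideal (𝓞 K)} {l : ℕ} {o : ℕ → HeightOneSpectrum (𝓞 K)}
    {Rep : Finset (G K)} (hRep : IsFinData 𝔑 𝔑₀ l o Rep) {h : G K} (hh : h ∈ Rep) :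
    (∀ w : InfinitePlace K, TrivAtInf w h) ∧
      ∀ v : HeightOneSpectrum (𝓞 K), IsIntegralAt v h ∧ IsIntegralAt v h⁻¹ := by
  obtain ⟨i, u, hi, hu, rfl⟩ := hRep.mem h hh
  refine ⟨fun w => trivAtInf_mul543 (hi.1 w) (hu.1 w), fun v => ?_⟩
  obtain ⟨i1, i2⟩ := isIwElt_int543 hi v
  obtain ⟨u1, u2⟩ := level_int899 hu v
  refine ⟨isIntegralAt_mul543 i1 u1, ?_⟩
  rw [mul_inv_rev]
  exact isIntegralAt_mul543 u2 i2

/-! ## 2. Conjugation -/

/-- The conjugate `h⁻¹ k h`. -/
def cj899 (h k : G K) : G K := h⁻¹ * k * h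

theorem cj_injective899 (h : G K) : Function.Injective (cj899 h) := by
  intro k k' e
  have e' : h⁻¹ * k * h = h⁻¹ * k' * h := e
  exact mul_left_cancel (mul_right_cancel e')

theorem mul_cj899 (g h k : G K) : g * h * cj899 h k = g * k * h := by
  show g * h * (h⁻¹ * k * h) = g * k * h
  group

theorem finComp_cj899 (v : HeightOneSpectrum (𝓞 K)) (h k : G K) :
    finComp v (cj899 h k) = finComp v h⁻¹ * finComp v k * finComp v h := by
  show finComp v (h⁻¹ * k * h) = _
  rw [finComp_mul543, finComp_mul543]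

theorem cj_local899 {v : HeightOneSpectrum (𝓞 K)} {h k : G K}
    (hh : ∀ w : InfinitePlace K, TrivAtInf w h) (hk : IsLocalAtFin v k) :
    IsLocalAtFin v (cj899 h k) := by
  refine ⟨fun w => ?_, fun v' hv' => ?_⟩
  · exact trivAtInf_mul543 (trivAtInf_mul543 (trivAtInf_inv543 (hh w)) (hk.1 w)) (hh w)
  · show finComp v' (cj899 h k) = 1
    have h1 : finComp v' k = 1 := hk.2 v' hv'
    rw [finComp_cj899, h1, mul_one, finComp_inv_mul543]

theorem cj_int899 {v : HeightOneSpectrum (𝓞 K)} {h k : G K} (h1 : IsIntegralAt v h)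
    (h2 : IsIntegralAt v h⁻¹) (hk : IsIntegralAt v k) : IsIntegralAt v (cj899 h k) :=
  isIntegralAt_mul543 (isIntegralAt_mul543 h2 hk) h1

theorem cj_det899 (v : HeightOneSpectrum (𝓞 K)) (h k : G K) :
    (finComp v (cj899 h k)).det = (finComp v k).det := by
  rw [finComp_cj899, Matrix.det_mul, Matrix.det_mul]
  have h1 : (finComp v h⁻¹).det * (finComp v h).det = 1 := by
    rw [← Matrix.det_mul, finComp_inv_mul543, Matrix.det_one]
  calc (finComp v h⁻¹).det * (finComp v k).det * (finComp v h).det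
      = (finComp v k).det * ((finComp v h⁻¹).det * (finComp v h).det) := by ring
    _ = (finComp v k).det := by rw [h1, mul_one]

/-- `k₁⁻¹ k₂ = h (cj k₁)⁻¹ (cj k₂) h⁻¹`. -/
theorem cj_quot899 (h k₁ k₂ : G K) :
    k₁⁻¹ * k₂ = h * ((cj899 h k₁)⁻¹ * cj899 h k₂) * h⁻¹ := by
  show k₁⁻¹ * k₂ = h * ((h⁻¹ * k₁ * h)⁻¹ * (h⁻¹ * k₂ * h)) * h⁻¹
  group

/-- Conjugation by an element which is trivial at infinity and integral with integral inverse
at `v` maps a Hecke coset system at `v` to a Hecke coset system at `v`. -/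
theorem cj_cosets899 [DecidableEq (G K)] {v : HeightOneSpectrum (𝓞 K)} {h : G K}
    (hh : ∀ w : InfinitePlace K, TrivAtInf w h) (h1 : IsIntegralAt v h)
    (h2 : IsIntegralAt v h⁻¹) {H : Finset (G K)} (hH : IsHeckeCosetSystem v H) :
    IsHeckeCosetSystem v (H.image (cj899 h)) := by
  obtain ⟨hc, hm, hd⟩ := hH
  refine ⟨?_, ?_, ?_⟩
  · rw [Finset.card_image_of_injective H (cj_injective899 h), hc]
  · intro k hk
    obtain ⟨k₀, hk₀, rfl⟩ := Finset.mem_image.mp hk
    obtain ⟨m1, m2, m3⟩ := hm k₀ hk₀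
    exact ⟨cj_local899 hh m1, cj_int899 h1 h2 m2, by rw [cj_det899]; exact m3⟩
  · intro k hk k' hk' hne hint
    obtain ⟨k₀, hk₀, rfl⟩ := Finset.mem_image.mp hk
    obtain ⟨k₁, hk₁, rfl⟩ := Finset.mem_image.mp hk'
    have hne' : k₀ ≠ k₁ := fun e => hne (by rw [e])
    apply hd k₀ hk₀ k₁ hk₁ hne'
    rw [cj_quot899 h k₀ k₁]
    exact isIntegralAt_mul543 (isIntegralAt_mul543 h1 hint) h2

/-- Conjugation maps a scalar uniformiser at `v` to a scalar uniformiser at `v`. -/
theorem cj_unif899 {v : HeightOneSpectrum (𝓞 K)} {h z : G K}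
    (hh : ∀ w : InfinitePlace K, TrivAtInf w h) (hz : IsScalarUniformizerAt v z) :
    IsScalarUniformizerAt v (cj899 h z) := by
  obtain ⟨z1, c, hc, hzc⟩ := hz
  refine ⟨cj_local899 hh z1, c, hc, ?_⟩
  have e : (Matrix.diagonal fun _ => c : Matrix (Fin 2) (Fin 2) (v.adicCompletion K))
      = c • (1 : Matrix (Fin 2) (Fin 2) (v.adicCompletion K)) := by
    ext i j
    by_cases hij : i = j
    · subst hij
      simp
    · simp [Matrix.diagonal_apply_ne _ hij, Matrix.one_apply_ne hij]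
  rw [finComp_cj899, hzc, e, Matrix.mul_smul, Matrix.smul_mul, mul_one, finComp_inv_mul543]

/-! ## 3. The leaf -/

theorem finAvgHeckeC899 (K : Type) [Field K] [NumberField K] : WB776.FinAvgHeckeC776 K := by
  classical
  intro 𝔑 𝔑₀ l o Rep hRep ψ v a b hψ
  obtain ⟨hT, hS⟩ := hψ
  refine ⟨?_, ?_⟩
  · intro H hH g
    have key : ∀ h ∈ Rep, ∑ k ∈ H, ψ (g * k * h)
        = ((Real.sqrt (Ideal.absNorm v.asIdeal : ℝ) : ℝ) : ℂ) * a * ψ (g * h) := by
      intro h hh
      obtain ⟨r1, r2⟩ := rep_int899 hRep hh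
      have h1 := hT (H.image (cj899 h)) (cj_cosets899 r1 (r2 v).1 (r2 v).2 hH) (g * h)
      rw [Finset.sum_image (fun x _ y _ e => cj_injective899 h e)] at h1
      rw [← h1]
      exact Finset.sum_congr rfl fun k _ => by rw [mul_cj899]
    calc ∑ k ∈ H, finAvg Rep ψ (g * k)
        = ∑ k ∈ H, ((Rep.card : ℂ))⁻¹ * ∑ h ∈ Rep, ψ (g * k * h) :=
          Finset.sum_congr rfl fun k _ => finAvg_apply899 Rep ψ (g * k)
      _ = ((Rep.card : ℂ))⁻¹ * ∑ h ∈ Rep, ∑ k ∈ H, ψ (g * k * h) := by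
          rw [← Finset.mul_sum, Finset.sum_comm]
      _ = ((Rep.card : ℂ))⁻¹ * ∑ h ∈ Rep,
            ((Real.sqrt (Ideal.absNorm v.asIdeal : ℝ) : ℝ) : ℂ) * a * ψ (g * h) := by
          rw [Finset.sum_congr rfl key]
      _ = ((Real.sqrt (Ideal.absNorm v.asIdeal : ℝ) : ℝ) : ℂ) * a * finAvg Rep ψ g := by
          rw [finAvg_apply899, ← Finset.mul_sum]
          ring
  · intro z hz g
    have key : ∀ h ∈ Rep, ψ (g * z * h) = b * ψ (g * h) := by
      intro h hh
      obtain ⟨r1, -⟩ := rep_int899 hRep hh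
      have h1 := hS (cj899 h z) (cj_unif899 r1 hz) (g * h)
      rw [mul_cj899] at h1
      exact h1
    calc finAvg Rep ψ (g * z)
        = ((Rep.card : ℂ))⁻¹ * ∑ h ∈ Rep, ψ (g * z * h) := finAvg_apply899 Rep ψ (g * z)
      _ = ((Rep.card : ℂ))⁻¹ * ∑ h ∈ Rep, b * ψ (g * h) := by
          rw [Finset.sum_congr rfl key]
      _ = b * finAvg Rep ψ g := by
          rw [finAvg_apply899, ← Finset.mul_sum]
          ring

/-- The leaf, against the frozen Prop of the spec. -/
example (K : Type) [Field K] [NumberField K] : WB776.FinAvgHeckeC776 K := finAvgHeckeC899 K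

end Fermat.Agent.LT.T7.H899

end

end
-- ===== PACK-END LT/T7/H899/FinAvgHecke.lean

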