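import Mathlib
import Fermat.Agent.Pack.LT3.E24L2
import Fermat.Agent.Pack.LT3.E23L2
import Fermat.Agent.Pack.LT3.E24L0
import Fermat.Agent.Pack.LT3.E24L3
import Fermat.Agent.Pack.LT3.E24L1
import Fermat.Agent.Pack.LT3.E22L0
import Fermat.Agent.Pack.LT2.E4L2
import Fermat.Agent.Pack.LT3.E5L2
import Fermat.Agent.Pack.LT3.E2L2
import Fermat.Agent.Pack.LT3.E2L1
import Fermat.Agent.Pack.LT3.E23L3
import Fermat.Agent.Pack.LT2.E7L1
import Fermat.Agent.Pack.LT3.E23L0
import Fermat.Agent.Pack.LT3.E10L0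
import Fermat.Agent.Pack.LT2.E10L0
import Fermat.Agent.Pack.LT2.E0L2
import Fermat.Agent.Pack.LT2.E3L1
import Fermat.Agent.Pack.LT3.E22L1
import Fermat.Agent.Pack.LT3.E23L1
import Fermat.Agent.Pack.LT2.E3L0
import Fermat.Agent.Pack.LT3.E21L1
import Fermat.Agent.Pack.LT3.E25L0
import Fermat.Agent.Pack.LT3.E25L1

set_option linter.all false

-- ===== PACK-BEGIN LT/T7/H816/IotaClosed.lean
section














/-!
# Row LT, tower T7, node T7.L2.1 `SupplyC`, leaf C2.4 `IotaC305` [XL] -- CLOSED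
(helper816, cut `IotaSpec.lean` + `IotaTop.lean`; registry row 2468)

OFF-MAIN.  ONE import closure, byte-identical copies of the owners' files (base Spec files =
MASTER bytes of helper17).

    iotaC_closed816 (K K') : H305.IotaC305 K K'        VERBATIM vs helper305 `MatchSpec.lean`,
                                                       UNCONDITIONAL

| leaf | proof | owner |
|---|---|---|
| I.1 PreFinC816   | `H327.preFinC327`   | helper327 (row 2469) |
| I.2 PreInfC816   | `H62I.preInfC62`    | helper62  (row 2470) |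
| I.3 FixedC816    | `H190.fixedC190`    | helper190 (row 2471) |
| I.4 OntoFinC816  | `H816.ontoFinC816`  | helper816 (row 2477) |
| I.5 OntoInfC816  | `H124.ontoInfC124`  | helper124 (row 2472) |
| I.6 OntoGlueC816 | `H286.ontoGlueC286` | helper286 (row 2473) |
| I.7 NormInfC816  | `H271.normInfC271`  | helper271 (row 2474) |
| I.8 NormFinC816  | `H301.normFinC301`  | helper301 (row 2475) |
| I.9 ClosedC816   | `H127.closedC127`   | helper127 (row 2476) |
| SigmaLocC305 K'  | `H558.sigmaLocC558` | helper558 |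
| T1.LocCompC      | `T1.H11.locCompC_h11` | helper11 (closed tower T1) |
-/

set_option autoImplicit false

namespace Fermat.Agent.LT.T7.H816

/-- **LEAF C2.4 `IotaC305` of helper305, CLOSED**: the base change of adeles
`ι : 𝔸_K → 𝔸_{K'}` exists, for every pair of number fields. -/
theorem iotaC_closed816 (K K' : Type) [Field K] [NumberField K] [Field K'] [NumberField K']
    [Algebra K K'] : Fermat.Agent.LT.T7.H305.IotaC305 K K' :=
  iotaC_of816
    (Fermat.Agent.LT.T7.H327.preFinC327 K K')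
    (Fermat.Agent.LT.T7.H62I.preInfC62 K K')
    (Fermat.Agent.LT.T7.H190.fixedC190 K K')
    (ontoFinC816 K K')
    (Fermat.Agent.LT.T7.H124.ontoInfC124 K K')
    (Fermat.Agent.LT.T7.H286.ontoGlueC286 K K')
    (Fermat.Agent.LT.T7.H271.normInfC271 K K')
    (Fermat.Agent.LT.T7.H301.normFinC301 K K')
    (Fermat.Agent.LT.T7.H127.closedC127 K K')
    (Fermat.Agent.LT.T7.H558.sigmaLocC558 (K := K'))
    (Fermat.Agent.LT.T1.H11.locCompC_h11 K)
    (Fermat.Agent.LT.T1.H11.locCompC_h11 K')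

end Fermat.Agent.LT.T7.H816

end
-- ===== PACK-END LT/T7/H816/IotaClosed.lean

-- ===== PACK-BEGIN LT/T7/H615/TorCommId.lean
section



/-!
# Row LT, tower T7, leaf T7.L2.1.C2.7.7.3 `H558.TorCommIdC558` (helper615, registry 2638)

OFF-MAIN.  PROVED VERBATIM: `torCommIdC615 (K) : H558.TorCommIdC558 K` -- the centraliser of an
elliptic `γ ∈ GL₂(K)` in `GL₂(𝔸_K)` (the twisted centraliser for the trivial automorphism) is
commutative.  No hole, nothing assumed.  ADDITIVE (new names only, suffix `615`).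
Imports: Mathlib + `T7/H558/FactDownSpec.lean` (helper558, sha256 8043f526, byte-identical copy).

Route: `(id).onG x = x`, so `x⁻¹ γ x = γ`, i.e. `x γ = γ x`; the discriminant of `γ` is a unit of
`K` (`T6.IsReg`), hence a unit of `𝔸_K`; two matrices which commute with a `2 × 2` matrix with
invertible discriminant over a commutative ring commute (Cramer; the argument of helper233
`comm_of_comm_disc233`, repeated here under new names so that this file imports the Spec only).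
-/

set_option autoImplicit false

open AutomorphicForm IsDedekindDomain NumberField MeasureTheory

noncomputable section

namespace Fermat.Agent.LT.T7.H615

open Fermat.Agent.LT.H556 Fermat.Agent.LT.H556.A0 Fermat.Agent.LT.T7

/-! ## 1. Cramer (Mathlib only) -/

theorem eq_zero_of_sq_mul615 {A : Type*} [CommRing A] {D Di X : A} (hDi : D * Di = 1)
    (h : D ^ 2 * X = 0) : X = 0 := by
  linear_combination Di ^ 2 * h - X * (D * Di + 1) * hDi

/-- The coordinates `(t, q, r)` of a matrix commuting with `g` are proportional to those of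
`g`. -/
theorem prop_of_comm615 {A : Type*} [CommRing A] (g x : Matrix (Fin 2) (Fin 2) A)
    (hx : x * g = g * x) :
    (x 0 0 - x 1 1) * ((g 0 0 - g 1 1) ^ 2 + 4 * g 0 1 * g 1 0)
        = ((x 0 0 - x 1 1) * (g 0 0 - g 1 1) + 2 * x 0 1 * g 1 0 + 2 * x 1 0 * g 0 1)
          * (g 0 0 - g 1 1) ∧
      x 0 1 * ((g 0 0 - g 1 1) ^ 2 + 4 * g 0 1 * g 1 0)
        = ((x 0 0 - x 1 1) * (g 0 0 - g 1 1) + 2 * x 0 1 * g 1 0 + 2 * x 1 0 * g 0 1)
          * g 0 1 ∧
      x 1 0 * ((g 0 0 - g 1 1) ^ 2 + 4 * g 0 1 * g 1 0)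
        = ((x 0 0 - x 1 1) * (g 0 0 - g 1 1) + 2 * x 0 1 * g 1 0 + 2 * x 1 0 * g 0 1)
          * g 1 0 := by
  have e00 := congrFun (congrFun hx 0) 0
  have e01 := congrFun (congrFun hx 0) 1
  have e10 := congrFun (congrFun hx 1) 0
  simp only [Matrix.mul_apply, Fin.sum_univ_two] at e00 e01 e10
  refine ⟨?_, ?_, ?_⟩
  · linear_combination (2 * g 1 0) * e01 + (-2 * g 0 1) * e10
  · linear_combination (-(g 0 0 - g 1 1)) * e01 + (2 * g 0 1) * e00
  · linear_combination (g 0 0 - g 1 1) * e10 + (-2 * g 1 0) * e00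

/-- **Cramer.**  Two matrices which commute with a `2 × 2` matrix with invertible discriminant
over a commutative ring commute. -/
theorem comm_of_comm_disc615 {A : Type*} [CommRing A] (g x y : Matrix (Fin 2) (Fin 2) A)
    (hD : IsUnit ((g 0 0 - g 1 1) ^ 2 + 4 * g 0 1 * g 1 0))
    (hx : x * g = g * x) (hy : y * g = g * y) : x * y = y * x := by
  obtain ⟨Di, hDi⟩ := hD.exists_right_inv
  obtain ⟨ht, hq, hr⟩ := prop_of_comm615 g x hx
  obtain ⟨ht', hq', hr'⟩ := prop_of_comm615 g y hy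
  set D := (g 0 0 - g 1 1) ^ 2 + 4 * g 0 1 * g 1 0 with hDdef
  set μ := (x 0 0 - x 1 1) * (g 0 0 - g 1 1) + 2 * x 0 1 * g 1 0 + 2 * x 1 0 * g 0 1
  set μ' := (y 0 0 - y 1 1) * (g 0 0 - g 1 1) + 2 * y 0 1 * g 1 0 + 2 * y 1 0 * g 0 1
  have h1 : x 0 1 * y 1 0 - y 0 1 * x 1 0 = 0 := by
    apply eq_zero_of_sq_mul615 hDi
    linear_combination (y 1 0 * D) * hq + (μ * g 0 1) * hr' - (x 1 0 * D) * hq'
      - (μ' * g 0 1) * hr
  have h2 : (x 0 0 - x 1 1) * y 0 1 - (y 0 0 - y 1 1) * x 0 1 = 0 := by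
    apply eq_zero_of_sq_mul615 hDi
    linear_combination (y 0 1 * D) * ht + (μ * (g 0 0 - g 1 1)) * hq' - (x 0 1 * D) * ht'
      - (μ' * (g 0 0 - g 1 1)) * hq
  have h3 : x 1 0 * (y 0 0 - y 1 1) - y 1 0 * (x 0 0 - x 1 1) = 0 := by
    apply eq_zero_of_sq_mul615 hDi
    linear_combination ((y 0 0 - y 1 1) * D) * hr + (μ * g 1 0) * ht'
      - ((x 0 0 - x 1 1) * D) * hr' - (μ' * g 1 0) * ht
  ext i j
  fin_cases i <;> fin_cases j
  · simp only [Fin.zero_eta, Matrix.mul_apply, Fin.sum_univ_two]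
    linear_combination h1
  · simp only [Fin.zero_eta, Fin.mk_one, Matrix.mul_apply, Fin.sum_univ_two]
    linear_combination h2
  · simp only [Fin.zero_eta, Fin.mk_one, Matrix.mul_apply, Fin.sum_univ_two]
    linear_combination h3
  · simp only [Fin.mk_one, Matrix.mul_apply, Fin.sum_univ_two]
    linear_combination (-1 : A) * h1

/-! ## 2. The leaf -/

section Leaf

variable {K : Type} [Field K] [NumberField K]

/-- The trivial automorphism acts trivially on `GL₂(𝔸_K)`. -/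
theorem onG_id615 (x : G K) : (T5.AdelicAut.id K).onG x = x := by
  apply Units.ext
  ext i j
  rfl

theorem mem_tA_id_iff615 (γ : GL (Fin 2) K) (x : G K) :
    x ∈ H305.tA305 (T5.AdelicAut.id K) γ ↔ x⁻¹ * T5.ratG γ * x = T5.ratG γ := by
  have h : x ∈ H305.tA305 (T5.AdelicAut.id K) γ
      ↔ x⁻¹ * T5.ratG γ * (T5.AdelicAut.id K).onG x = T5.ratG γ := Iff.rfl
  rw [h, onG_id615]

/-- The members of the centraliser commute with `γ`. -/
theorem comm_of_mem_id615 (γ : GL (Fin 2) K) (x : G K)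
    (hx : x ∈ H305.tA305 (T5.AdelicAut.id K) γ) :
    x * T5.ratG γ = T5.ratG γ * x := by
  have h := (mem_tA_id_iff615 γ x).1 hx
  calc x * T5.ratG γ = x * (x⁻¹ * T5.ratG γ * x) := by rw [h]
    _ = T5.ratG γ * x := by group

theorem ratG_coe615 (γ : GL (Fin 2) K) (i j : Fin 2) :
    ((T5.ratG γ : G K) : Matrix (Fin 2) (Fin 2) (Adl K)) i j
      = algebraMap K (Adl K) ((γ : Matrix (Fin 2) (Fin 2) K) i j) := rfl

/-- The discriminant in coordinates. -/
theorem disc_eq615 (γ : GL (Fin 2) K) :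
    T6.disc γ = ((γ : Matrix (Fin 2) (Fin 2) K) 0 0 - (γ : Matrix (Fin 2) (Fin 2) K) 1 1) ^ 2
      + 4 * (γ : Matrix (Fin 2) (Fin 2) K) 0 1 * (γ : Matrix (Fin 2) (Fin 2) K) 1 0 := by
  unfold T6.disc
  rw [Matrix.trace_fin_two, Matrix.det_fin_two]
  ring

variable (K)

/-- **LEAF T7.L2.1.C2.7.7.3 `TorCommIdC558`, VERBATIM.** -/
theorem torCommIdC615 : H558.TorCommIdC558 K := by
  intro γ hell x hx y hy
  have hxg := comm_of_mem_id615 γ x hx
  have hyg := comm_of_mem_id615 γ y hy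
  have hreg : IsUnit (T6.disc γ) := hell.1
  rw [disc_eq615] at hreg
  have hDu : IsUnit
      ((((T5.ratG γ : G K) : Matrix (Fin 2) (Fin 2) (Adl K)) 0 0
        - ((T5.ratG γ : G K) : Matrix (Fin 2) (Fin 2) (Adl K)) 1 1) ^ 2
        + 4 * ((T5.ratG γ : G K) : Matrix (Fin 2) (Fin 2) (Adl K)) 0 1
          * ((T5.ratG γ : G K) : Matrix (Fin 2) (Fin 2) (Adl K)) 1 0) := by
    have h := hreg.map (algebraMap K (Adl K))
    simpa only [ratG_coe615, map_add, map_sub, map_mul, map_pow, map_ofNat] using h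
  have hxm : (x : Matrix (Fin 2) (Fin 2) (Adl K)) * ((T5.ratG γ : G K) : Matrix _ _ _)
      = ((T5.ratG γ : G K) : Matrix _ _ _) * (x : Matrix (Fin 2) (Fin 2) (Adl K)) := by
    have := congrArg (fun g : G K => (g : Matrix (Fin 2) (Fin 2) (Adl K))) hxg
    simpa only [Units.val_mul] using this
  have hym : (y : Matrix (Fin 2) (Fin 2) (Adl K)) * ((T5.ratG γ : G K) : Matrix _ _ _)
      = ((T5.ratG γ : G K) : Matrix _ _ _) * (y : Matrix (Fin 2) (Fin 2) (Adl K)) := by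
    have := congrArg (fun g : G K => (g : Matrix (Fin 2) (Fin 2) (Adl K))) hyg
    simpa only [Units.val_mul] using this
  have hcomm := comm_of_comm_disc615 _ _ _ hDu hxm hym
  apply Units.ext
  simpa only [Units.val_mul] using hcomm

end Leaf

end Fermat.Agent.LT.T7.H615

end

end
-- ===== PACK-END LT/T7/H615/TorCommId.lean

-- ===== PACK-BEGIN LT/T7/H555/ChainFubini.lean
section




/-!
# Row LT, tower T7, leaves C2.7.13.3 / C2.7.13.4 (`LocEqSplitC340`, `LocEqArchC340`), ASSET: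
# FUBINI FOR THE SPLIT INTEGRAL `H340.splitInt340` (helper555), OFF-MAIN

Any second countable topological group `H` with a left invariant measure `μ` which is finite on
compact sets; `Φ j` continuous with compact support, `β ≥ 0` continuous, `P = δ_0 ⋯ δ_{l-1}`.
If `a ↦ 1_K(a⁻¹ P a) β(a)` is integrable for every compact `K` (convergence of the orbital
integral at `P`), then

    ∫_{H^l} ∏_j Φ_j(y_j⁻¹ δ_j y_{j+1}) β(y_0) dμ^l(y)
        = ∫_H (Φ_0 * ⋯ * Φ_{l-1})(a⁻¹ P a) β(a) dμ(a)          (`splitInt_eq555`)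

(left nested convolution integral `H159.convL159`).  The inner integral over
`y_1, …, y_{l-1}` is the iterated integral `H159.iterL159` (`integral_ch555`), which is
`convL159` at `a⁻¹ P b` (`H159.iterL_eq159`).
-/

set_option autoImplicit false

open MeasureTheory
open scoped ENNReal Pointwise

noncomputable section

namespace Fermat.Agent.LT.T7.H555

open Fermat.Agent.LT Fermat.Agent.LT.T7.H159 Fermat.Agent.LT.T7.H340

/-! ## 1. The chain -/

section Chain

variable {H : Type} [Group H]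

/-- The chain `Φ_0(a⁻¹ δ_0 y_0) Φ_1(y_0⁻¹ δ_1 y_1) ⋯ Φ_n(y_{n-1}⁻¹ δ_n b)`. -/
def ch555 (Φ : ℕ → H → ℂ) (δ : ℕ → H) : (n : ℕ) → H → H → (Fin n → H) → ℂ
  | 0, a, b, _ => Φ 0 (a⁻¹ * δ 0 * b)
  | n + 1, a, b, y => ch555 Φ δ n a (y (Fin.last n)) (fun j => y j.castSucc)
      * Φ (n + 1) ((y (Fin.last n))⁻¹ * δ (n + 1) * b)

theorem ch_eqns_realised555 : True := by
  have _h0 := @ch555.eq_def
  have _h1 := @ch555.eq_1
  have _h2 := @ch555.eq_2
  trivial

theorem ch_zero555 (Φ : ℕ → H → ℂ) (δ : ℕ → H) (a b : H) (y : Fin 0 → H) :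
    ch555 Φ δ 0 a b y = Φ 0 (a⁻¹ * δ 0 * b) := rfl

theorem ch_succ555 (Φ : ℕ → H → ℂ) (δ : ℕ → H) (n : ℕ) (a b : H) (y : Fin (n + 1) → H) :
    ch555 Φ δ (n + 1) a b y = ch555 Φ δ n a (y (Fin.last n)) (fun j => y j.castSucc)
      * Φ (n + 1) ((y (Fin.last n))⁻¹ * δ (n + 1) * b) := rfl

theorem prod_eq_ch555 (Φ : ℕ → H → ℂ) (δ : ℕ → H) : ∀ (n : ℕ) (y : Fin (n + 1) → H) (b : H),
    (∏ j : Fin n, Φ j ((y j.castSucc)⁻¹ * δ j * y j.succ))
        * Φ n ((y (Fin.last n))⁻¹ * δ n * b)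
      = ch555 Φ δ n (y 0) b (fun j => y j.succ)
  | 0, y, b => by
    rw [ch_zero555]
    simp
  | n + 1, y, b => by
    have ih := prod_eq_ch555 Φ δ n (fun j => y j.castSucc) (y (Fin.last (n + 1)))
    rw [ch_succ555, Fin.prod_univ_castSucc]
    have e1 : (fun j : Fin n => y (j.castSucc.succ)) = fun j : Fin n => y (j.succ.castSucc) := by
      funext j
      rw [Fin.succ_castSucc]
    have e2 : (Fin.last n).succ = Fin.last (n + 1) := Fin.succ_last n
    simp only [e2, Fin.val_last, Fin.val_castSucc, Fin.castSucc_zero] at ih ⊢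
    rw [e1, ← ih]
    simp only [Fin.succ_castSucc]

theorem cycSucc_castSucc555 {n : ℕ} (j : Fin n) :
    cycSucc340 (j.castSucc : Fin (n + 1)) = j.succ := by
  apply Fin.ext
  show (j.1 + 1) % (n + 1) = j.1 + 1
  exact Nat.mod_eq_of_lt (by omega)

theorem cycSucc_last555 (n : ℕ) : cycSucc340 (Fin.last n) = 0 := by
  apply Fin.ext
  show (n + 1) % (n + 1) = 0
  exact Nat.mod_self _

theorem cyc_prod_eq_ch555 (Φ : ℕ → H → ℂ) (δ : ℕ → H) (n : ℕ) (y : Fin (n + 1) → H) :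
    ∏ j : Fin (n + 1), Φ j ((y j)⁻¹ * δ j * y (cycSucc340 j))
      = ch555 Φ δ n (y 0) (y 0) (fun j => y j.succ) := by
  rw [← prod_eq_ch555, Fin.prod_univ_castSucc]
  simp only [cycSucc_castSucc555, cycSucc_last555, Fin.val_last, Fin.val_castSucc]

/-- The product of the supports. -/
def suppProd555 (Φ : ℕ → H → ℂ) [TopologicalSpace H] : ℕ → Set H
  | 0 => tsupport (Φ 0)
  | n + 1 => suppProd555 Φ n * tsupport (Φ (n + 1))

theorem suppProd_eqns_realised555 [TopologicalSpace H] : True := by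
  have _h0 := @suppProd555.eq_def
  have _h1 := @suppProd555.eq_1
  have _h2 := @suppProd555.eq_2
  trivial

theorem isCompact_suppProd555 [TopologicalSpace H] [IsTopologicalGroup H] (Φ : ℕ → H → ℂ)
    (hΦs : ∀ j, HasCompactSupport (Φ j)) : ∀ n, IsCompact (suppProd555 Φ n)
  | 0 => hΦs 0
  | n + 1 => (isCompact_suppProd555 Φ hΦs n).mul (hΦs (n + 1))

theorem mem_suppProd_of_ch_ne555 [TopologicalSpace H] (Φ : ℕ → H → ℂ) (δ : ℕ → H) :
    ∀ (n : ℕ) (a b : H) (y : Fin n → H), ch555 Φ δ n a b y ≠ 0 →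
      a⁻¹ * prodFrom159 δ (n + 1) 0 * b ∈ suppProd555 Φ n
  | 0, a, b, y, h => by
    rw [ch_zero555] at h
    have : prodFrom159 δ 1 0 = δ 0 := by
      show δ 0 * 1 = δ 0
      rw [mul_one]
    rw [this]
    exact subset_tsupport _ h
  | n + 1, a, b, y, h => by
    rw [ch_succ555] at h
    have h1 := mem_suppProd_of_ch_ne555 Φ δ n a (y (Fin.last n)) _ (left_ne_zero_of_mul h)
    have h2 : (y (Fin.last n))⁻¹ * δ (n + 1) * b ∈ tsupport (Φ (n + 1)) :=
      subset_tsupport _ (right_ne_zero_of_mul h)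
    have e : a⁻¹ * prodFrom159 δ (n + 1 + 1) 0 * b
        = (a⁻¹ * prodFrom159 δ (n + 1) 0 * y (Fin.last n))
          * ((y (Fin.last n))⁻¹ * δ (n + 1) * b) := by
      rw [prodFrom_succ_right159]
      simp only [zero_add]
      group
    rw [e]
    exact Set.mul_mem_mul h1 h2

end Chain

/-! ## 2. Continuity, the uniform bound -/

section Top

variable {H : Type} [Group H] [TopologicalSpace H] [IsTopologicalGroup H]

theorem continuous_ch555 (Φ : ℕ → H → ℂ) (δ : ℕ → H) (hΦ : ∀ j, Continuous (Φ j)) :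
    ∀ n : ℕ, Continuous (fun p : H × H × (Fin n → H) => ch555 Φ δ n p.1 p.2.1 p.2.2)
  | 0 => by
    show Continuous (fun p : H × H × (Fin 0 → H) => Φ 0 (p.1⁻¹ * δ 0 * p.2.1))
    exact (hΦ 0).comp (by fun_prop)
  | n + 1 => by
    have ih := continuous_ch555 Φ δ hΦ n
    show Continuous (fun p : H × H × (Fin (n + 1) → H) =>
      ch555 Φ δ n p.1 (p.2.2 (Fin.last n)) (fun j => p.2.2 j.castSucc)
        * Φ (n + 1) ((p.2.2 (Fin.last n))⁻¹ * δ (n + 1) * p.2.1))
    refine Continuous.mul ?_ ?_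
    · exact ih.comp (by fun_prop :
        Continuous fun p : H × H × (Fin (n + 1) → H) =>
          (p.1, p.2.2 (Fin.last n), fun j : Fin n => p.2.2 j.castSucc))
    · exact (hΦ (n + 1)).comp (by fun_prop)

theorem continuous_ch_right555 (Φ : ℕ → H → ℂ) (δ : ℕ → H) (hΦ : ∀ j, Continuous (Φ j))
    (n : ℕ) (a b : H) : Continuous (fun y : Fin n → H => ch555 Φ δ n a b y) :=
  (continuous_ch555 Φ δ hΦ n).comp (by fun_prop : Continuous fun y : Fin n → H => (a, b, y))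

variable [SecondCountableTopology H] [MeasurableSpace H] [BorelSpace H]

/-- The peeling of the last variable. -/
theorem lintegral_peel_last555 (μ : Measure H) [SigmaFinite μ] (n : ℕ)
    (g : H × (Fin n → H) → ℝ≥0∞) :
    ∫⁻ y : Fin (n + 1) → H, g (y (Fin.last n), fun j => y j.castSucc)
        ∂(Measure.pi fun _ : Fin (n + 1) => μ)
      = ∫⁻ p : H × (Fin n → H), g p ∂(μ.prod (Measure.pi fun _ : Fin n => μ)) := by
  have hmp := measurePreserving_piFinSuccAbove (fun _ : Fin (n + 1) => μ) (Fin.last n)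
  have h := hmp.lintegral_comp_emb (MeasurableEquiv.measurableEmbedding _) g
  rw [← h]
  refine lintegral_congr fun y => ?_
  congr 2
  funext j
  first
    | (show y (Fin.castSucc j) = y ((Fin.last n).succAbove j); rw [Fin.succAbove_last])
    | (show y ((Fin.last n).succAbove j) = y (Fin.castSucc j); rw [Fin.succAbove_last])

theorem integral_peel_last555 (μ : Measure H) [SigmaFinite μ] (n : ℕ)
    (g : H × (Fin n → H) → ℂ) :
    ∫ y : Fin (n + 1) → H, g (y (Fin.last n), fun j => y j.castSucc)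
        ∂(Measure.pi fun _ : Fin (n + 1) => μ)
      = ∫ p : H × (Fin n → H), g p ∂(μ.prod (Measure.pi fun _ : Fin n => μ)) := by
  have hmp := measurePreserving_piFinSuccAbove (fun _ : Fin (n + 1) => μ) (Fin.last n)
  have h := hmp.integral_comp' (f := MeasurableEquiv.piFinSuccAbove (fun _ => H) (Fin.last n)) g
  rw [← h]
  refine integral_congr_ae (ae_of_all _ fun y => ?_)
  show g _ = g _
  congr 2
  funext j
  first
    | (show y (Fin.castSucc j) = y ((Fin.last n).succAbove j); rw [Fin.succAbove_last])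
    | (show y ((Fin.last n).succAbove j) = y (Fin.castSucc j); rw [Fin.succAbove_last])

theorem integral_peel_zero555 (μ : Measure H) [SigmaFinite μ] (n : ℕ)
    (g : H × (Fin n → H) → ℂ) :
    ∫ y : Fin (n + 1) → H, g (y 0, fun j => y j.succ)
        ∂(Measure.pi fun _ : Fin (n + 1) => μ)
      = ∫ p : H × (Fin n → H), g p ∂(μ.prod (Measure.pi fun _ : Fin n => μ)) := by
  have hmp := measurePreserving_piFinSuccAbove (fun _ : Fin (n + 1) => μ) 0
  have h := hmp.integral_comp' (f := MeasurableEquiv.piFinSuccAbove (fun _ => H) 0) g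
  rw [← h]
  refine integral_congr_ae (ae_of_all _ fun y => ?_)
  rfl

theorem integrable_peel_last555 (μ : Measure H) [SigmaFinite μ] (n : ℕ)
    (g : H × (Fin n → H) → ℂ)
    (h : Integrable (fun y : Fin (n + 1) → H => g (y (Fin.last n), fun j => y j.castSucc))
      (Measure.pi fun _ : Fin (n + 1) => μ)) :
    Integrable g (μ.prod (Measure.pi fun _ : Fin n => μ)) := by
  have hmp := measurePreserving_piFinSuccAbove (fun _ : Fin (n + 1) => μ) (Fin.last n)
  refine (hmp.integrable_comp_emb (MeasurableEquiv.measurableEmbedding _)).1 ?_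
  refine h.congr (ae_of_all _ fun y => ?_)
  show g _ = g _
  congr 2
  funext j
  first
    | (show y (Fin.castSucc j) = y ((Fin.last n).succAbove j); rw [Fin.succAbove_last])
    | (show y ((Fin.last n).succAbove j) = y (Fin.castSucc j); rw [Fin.succAbove_last])

theorem pi_univ_zero555 (μ : Measure H) [SigmaFinite μ] :
    (Measure.pi fun _ : Fin 0 => μ) Set.univ = 1 := by
  rw [Measure.pi_univ]
  simp

variable (μ : Measure H) [μ.IsMulLeftInvariant] [SigmaFinite μ] [IsFiniteMeasureOnCompacts μ]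

/-- The uniform bound for the `L¹`-norm of the chain. -/
theorem lintegral_ch_le555 (Φ : ℕ → H → ℂ) (δ : ℕ → H) (hΦ : ∀ j, Continuous (Φ j))
    (hΦs : ∀ j, HasCompactSupport (Φ j)) :
    ∀ n : ℕ, ∃ C : ℝ≥0∞, C < ⊤ ∧ ∀ a b : H,
      ∫⁻ y : Fin n → H, ‖ch555 Φ δ n a b y‖ₑ ∂(Measure.pi fun _ : Fin n => μ) ≤ C
  | 0 => by
    obtain ⟨M, hM⟩ := (hΦs 0).exists_bound_of_continuous (hΦ 0)
    refine ⟨ENNReal.ofReal M, ENNReal.ofReal_lt_top, fun a b => ?_⟩
    simp only [ch_zero555]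
    rw [lintegral_const, pi_univ_zero555, mul_one, ← ofReal_norm_eq_enorm]
    exact ENNReal.ofReal_le_ofReal (hM _)
  | n + 1 => by
    obtain ⟨C, hC, hCb⟩ := lintegral_ch_le555 Φ δ hΦ hΦs n
    obtain ⟨M, hM⟩ := (hΦs (n + 1)).exists_bound_of_continuous (hΦ (n + 1))
    refine ⟨C * (ENNReal.ofReal M * μ (tsupport (Φ (n + 1)))⁻¹), ?_, fun a b => ?_⟩
    · exact ENNReal.mul_lt_top hC
        (ENNReal.mul_lt_top ENNReal.ofReal_lt_top (hΦs (n + 1)).inv.measure_lt_top)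
    · simp only [ch_succ555, enorm_mul]
      rw [lintegral_peel_last555 μ n
        (fun p => ‖ch555 Φ δ n a p.1 p.2‖ₑ * ‖Φ (n + 1) (p.1⁻¹ * δ (n + 1) * b)‖ₑ)]
      have hc1 : Continuous (fun p : H × (Fin n → H) => ch555 Φ δ n a p.1 p.2) :=
        (continuous_ch555 Φ δ hΦ n).comp
          (by fun_prop : Continuous fun p : H × (Fin n → H) => (a, p.1, p.2))
      have hc2 : Continuous (fun p : H × (Fin n → H) => Φ (n + 1) (p.1⁻¹ * δ (n + 1) * b)) :=
        (hΦ (n + 1)).comp (by fun_prop)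
      have hmeas : AEMeasurable (fun p : H × (Fin n → H) =>
          ‖ch555 Φ δ n a p.1 p.2‖ₑ * ‖Φ (n + 1) (p.1⁻¹ * δ (n + 1) * b)‖ₑ)
          (μ.prod (Measure.pi fun _ : Fin n => μ)) :=
        (hc1.enorm.measurable.mul hc2.enorm.measurable).aemeasurable
      rw [lintegral_prod _ hmeas]
      set S : Set H := {x | x⁻¹ * δ (n + 1) * b ∈ tsupport (Φ (n + 1))} with hS
      have hSeq : S = (fun x => (δ (n + 1) * b)⁻¹ * x) ⁻¹' (tsupport (Φ (n + 1)))⁻¹ := by
        ext x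
        simp only [hS, Set.mem_setOf_eq, Set.mem_preimage, Set.mem_inv, mul_inv_rev, inv_inv,
          mul_assoc]
      have hSm : MeasurableSet S := by
        rw [hSeq]
        exact (measurable_const_mul _) (isClosed_tsupport _).inv.measurableSet
      have hSμ : μ S = μ (tsupport (Φ (n + 1)))⁻¹ := by
        rw [hSeq, measure_preimage_mul]
      calc ∫⁻ x, ∫⁻ y', ‖ch555 Φ δ n a x y'‖ₑ * ‖Φ (n + 1) (x⁻¹ * δ (n + 1) * b)‖ₑ
              ∂(Measure.pi fun _ : Fin n => μ) ∂μ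
          ≤ ∫⁻ x, C * S.indicator (fun _ => ENNReal.ofReal M) x ∂μ := by
            refine lintegral_mono fun x => ?_
            have hcx : Continuous (fun y' : Fin n → H => ch555 Φ δ n a x y') :=
              continuous_ch_right555 Φ δ hΦ n a x
            rw [lintegral_mul_const _ hcx.enorm.measurable]
            by_cases hx : x ∈ S
            · rw [Set.indicator_of_mem hx]
              refine mul_le_mul' (hCb a x) ?_
              rw [← ofReal_norm_eq_enorm]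
              exact ENNReal.ofReal_le_ofReal (hM _)
            · have h0 : Φ (n + 1) (x⁻¹ * δ (n + 1) * b) = 0 :=
                image_eq_zero_of_notMem_tsupport hx
              rw [h0, enorm_zero, mul_zero]
              exact zero_le
        _ = C * (ENNReal.ofReal M * μ (tsupport (Φ (n + 1)))⁻¹) := by
            rw [lintegral_const_mul' _ _ hC.ne, lintegral_indicator_const hSm, hSμ]

theorem integrable_ch555 (Φ : ℕ → H → ℂ) (δ : ℕ → H) (hΦ : ∀ j, Continuous (Φ j))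
    (hΦs : ∀ j, HasCompactSupport (Φ j)) (n : ℕ) (a b : H) :
    Integrable (fun y : Fin n → H => ch555 Φ δ n a b y) (Measure.pi fun _ : Fin n => μ) := by
  obtain ⟨C, hC, hCb⟩ := lintegral_ch_le555 μ Φ δ hΦ hΦs n
  exact ⟨(continuous_ch_right555 Φ δ hΦ n a b).aestronglyMeasurable,
    lt_of_le_of_lt (hCb a b) hC⟩

/-- **The inner integral is the iterated integral.** -/
theorem integral_ch555 (Φ : ℕ → H → ℂ) (δ : ℕ → H) (hΦ : ∀ j, Continuous (Φ j))
    (hΦs : ∀ j, HasCompactSupport (Φ j)) :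
    ∀ (n : ℕ) (a b : H),
      ∫ y : Fin n → H, ch555 Φ δ n a b y ∂(Measure.pi fun _ : Fin n => μ)
        = iterL159 μ Φ δ n a b
  | 0, a, b => by
    simp only [ch_zero555]
    rw [integral_const]
    simp only [Measure.real, pi_univ_zero555, ENNReal.toReal_one, one_smul]
    rfl
  | n + 1, a, b => by
    have hI := integrable_ch555 μ Φ δ hΦ hΦs (n + 1) a b
    simp only [ch_succ555] at hI ⊢
    have hI' := integrable_peel_last555 μ n
      (fun p => ch555 Φ δ n a p.1 p.2 * Φ (n + 1) (p.1⁻¹ * δ (n + 1) * b)) hI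
    rw [integral_peel_last555 μ n
      (fun p => ch555 Φ δ n a p.1 p.2 * Φ (n + 1) (p.1⁻¹ * δ (n + 1) * b)),
      integral_prod _ hI']
    show _ = ∫ x, iterL159 μ Φ δ n a x * Φ (n + 1) (x⁻¹ * δ (n + 1) * b) ∂μ
    refine integral_congr_ae (ae_of_all _ fun x => ?_)
    show ∫ y', ch555 Φ δ n a x y' * Φ (n + 1) (x⁻¹ * δ (n + 1) * b)
        ∂(Measure.pi fun _ : Fin n => μ) = _
    rw [integral_mul_const, integral_ch555 Φ δ hΦ hΦs n a x]

/-- **FUBINI FOR THE SPLIT INTEGRAL.** -/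
theorem splitInt_eq555 (n : ℕ) (Φ : ℕ → H → ℂ) (δ : ℕ → H) (hΦ : ∀ j, Continuous (Φ j))
    (hΦs : ∀ j, HasCompactSupport (Φ j)) (β : H → ℝ) (hβ : Continuous β) (hβ0 : ∀ x, 0 ≤ β x)
    (hint : ∀ K : Set H, IsCompact K →
      Integrable (fun a => K.indicator (fun _ => (1 : ℝ)) (a⁻¹ * prodFrom159 δ (n + 1) 0 * a)
        * β a) μ) :
    ∫ y : Fin (n + 1) → H,
        (∏ j : Fin (n + 1), Φ j ((y j)⁻¹ * δ j * y (cycSucc340 j))) * ((β (y 0) : ℝ) : ℂ)
        ∂(Measure.pi fun _ : Fin (n + 1) => μ)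
      = ∫ a, convL159 μ Φ n (a⁻¹ * prodFrom159 δ (n + 1) 0 * a) * ((β a : ℝ) : ℂ) ∂μ := by
  simp only [cyc_prod_eq_ch555]
  obtain ⟨C, hC, hCb⟩ := lintegral_ch_le555 μ Φ δ hΦ hΦs n
  have hcont : Continuous (fun p : H × (Fin n → H) =>
      ch555 Φ δ n p.1 p.1 p.2 * ((β p.1 : ℝ) : ℂ)) := by
    refine Continuous.mul ?_ ?_
    · exact (continuous_ch555 Φ δ hΦ n).comp
        (by fun_prop : Continuous fun p : H × (Fin n → H) => (p.1, p.1, p.2))
    · exact Complex.continuous_ofReal.comp (hβ.comp continuous_fst)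
  have hK := isCompact_suppProd555 Φ hΦs n
  have hI : Integrable (fun p : H × (Fin n → H) =>
      ch555 Φ δ n p.1 p.1 p.2 * ((β p.1 : ℝ) : ℂ))
      (μ.prod (Measure.pi fun _ : Fin n => μ)) := by
    refine (integrable_prod_iff hcont.aestronglyMeasurable).2 ⟨ae_of_all _ fun a => ?_, ?_⟩
    · show Integrable (fun y : Fin n → H => ch555 Φ δ n a a y * ((β a : ℝ) : ℂ)) _
      exact (integrable_ch555 μ Φ δ hΦ hΦs n a a).mul_const _
    · refine Integrable.mono' ((hint _ hK).const_mul C.toReal)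
        hcont.aestronglyMeasurable.norm.integral_prod_right' (ae_of_all _ fun a => ?_)
      have hnn : 0 ≤ ∫ y : Fin n → H, ‖ch555 Φ δ n a a y * ((β a : ℝ) : ℂ)‖
          ∂(Measure.pi fun _ : Fin n => μ) := integral_nonneg fun _ => norm_nonneg _
      rw [Real.norm_of_nonneg hnn]
      have e1 : ∀ y : Fin n → H, ‖ch555 Φ δ n a a y * ((β a : ℝ) : ℂ)‖
          = ‖ch555 Φ δ n a a y‖ * β a := by
        intro y
        rw [norm_mul, Complex.norm_real, Real.norm_of_nonneg (hβ0 a)]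
      simp only [e1]
      rw [integral_mul_const]
      by_cases ha : a⁻¹ * prodFrom159 δ (n + 1) 0 * a ∈ suppProd555 Φ n
      · rw [Set.indicator_of_mem ha, one_mul]
        refine mul_le_mul_of_nonneg_right ?_ (hβ0 a)
        rw [integral_norm_eq_lintegral_enorm
          (continuous_ch_right555 Φ δ hΦ n a a).aestronglyMeasurable]
        exact ENNReal.toReal_mono hC.ne (hCb a a)
      · have h0 : ∀ y : Fin n → H, ch555 Φ δ n a a y = 0 := by
          intro y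
          by_contra hne
          exact ha (mem_suppProd_of_ch_ne555 Φ δ n a a y hne)
        simp [h0, Set.indicator_of_notMem ha]
  rw [integral_peel_zero555 μ n (fun p => ch555 Φ δ n p.1 p.1 p.2 * ((β p.1 : ℝ) : ℂ)),
    integral_prod _ hI]
  refine integral_congr_ae (ae_of_all _ fun a => ?_)
  show ∫ y', ch555 Φ δ n a a y' * ((β a : ℝ) : ℂ) ∂(Measure.pi fun _ : Fin n => μ) = _
  rw [integral_mul_const, integral_ch555 μ Φ δ hΦ hΦs n a a, iterL_eq159]

end Top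

/-! ## 3. The form of `H340.splitInt340` (Borel σ-algebra) -/

section Split

variable {H : Type} [Group H] [TopologicalSpace H] [IsTopologicalGroup H]
  [SecondCountableTopology H]

/-- **`H340.splitInt340` is the orbital integral of the convolution.** -/
theorem splitInt340_eq555 (l : ℕ) (hl : 0 < l) (μ : @Measure H (borel H))
    (hμ1 : @Measure.IsMulLeftInvariant H (borel H) _ μ)
    (hμ2 : @SigmaFinite H (borel H) μ)
    (hμ3 : @IsFiniteMeasureOnCompacts H (borel H) _ μ)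
    (Φ : ℕ → H → ℂ) (δ : ℕ → H) (hΦ : ∀ j, Continuous (Φ j))
    (hΦs : ∀ j, HasCompactSupport (Φ j)) (β : H → ℝ) (hβ : Continuous β) (hβ0 : ∀ x, 0 ≤ β x)
    (hint : ∀ K : Set H, IsCompact K →
      Integrable
        (fun a => K.indicator (fun _ => (1 : ℝ)) (a⁻¹ * prodFrom159 δ l 0 * a) * β a) μ) :
    splitInt340 l hl μ β Φ δ
      = ∫ a, @convL159 H _ (borel H) μ Φ (l - 1) (a⁻¹ * prodFrom159 δ l 0 * a)
            * ((β a : ℝ) : ℂ) ∂μ := by
  letI : MeasurableSpace H := borel H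
  haveI : BorelSpace H := ⟨rfl⟩
  obtain ⟨n, rfl⟩ : ∃ n, l = n + 1 := ⟨l - 1, by omega⟩
  exact splitInt_eq555 μ n Φ δ hΦ hΦs β hβ hβ0 hint

end Split

end Fermat.Agent.LT.T7.H555

end

end
-- ===== PACK-END LT/T7/H555/ChainFubini.lean

-- ===== PACK-BEGIN LT/T7/H176/FD/ArchIntbl.lean
section





/-!
# Row LT, tower T7, node C2.7.7 `FactDownC305`, leaf FD.8 = `ArchIntblC558` (helper176)

OFF-MAIN.  `archIntblC176 : H558.ArchIntblC558`, VERBATIM, unconditional.

For `F` continuous with compact support on `GL₂(ℂ)`, `γ₀` regular, `z` central and a continuous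
cut-off function `β` for the centraliser `T` of `γ₀`: `y ↦ F(y⁻¹ γ₀ z y) β(y)` is integrable.

* `CutAbs.lean` (`integrable_of_cut176`, Mathlib only): integrability from `{f ≠ 0} ⊆ T C`, `C`
  compact (Tonelli, left invariance only).
* `OrbitC.lean` (`exists_compact_orbit176`, Mathlib only): `{y : y⁻¹ γ₀ y ∈ Ω} ⊆ T C`.
* here: `y⁻¹ γ₀ z y ∈ supp F ⟺ y⁻¹ γ₀ y ∈ (supp F) z⁻¹` (`z` central).
-/

set_option autoImplicit false

open AutomorphicForm IsDedekindDomain NumberField MeasureTheory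

noncomputable section

namespace Fermat.Agent.LT.T7.H176

open Fermat.Agent.LT.H556 Fermat.Agent.LT.H556.A0 Fermat.Agent.LT.T7 Fermat.Agent.LT.T7.H305
  Fermat.Agent.LT.T7.H558

theorem secondCountable_GL2C176 : SecondCountableTopology (GL (Fin 2) ℂ) := by
  have : SecondCountableTopology (Matrix (Fin 2) (Fin 2) ℂ) :=
    inferInstanceAs (SecondCountableTopology (Fin 2 → Fin 2 → ℂ))
  have : SecondCountableTopology (Matrix (Fin 2) (Fin 2) ℂ)ᵐᵒᵖ :=
    MulOpposite.opHomeomorph.symm.secondCountableTopology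
  exact (Units.isEmbedding_embedProduct (M := Matrix (Fin 2) (Fin 2) ℂ)).secondCountableTopology

theorem locallyCompact_GL2C176 : LocallyCompactSpace (GL (Fin 2) ℂ) := by
  have : LocallyCompactSpace (Matrix (Fin 2) (Fin 2) ℂ) :=
    inferInstanceAs (LocallyCompactSpace (Fin 2 → Fin 2 → ℂ))
  exact (Units.isClosedEmbedding_embedProduct (α := Matrix (Fin 2) (Fin 2) ℂ)).locallyCompactSpace

/-- The centraliser is closed. -/
theorem isClosed_cent176 {H : Type} [Group H] [TopologicalSpace H] [IsTopologicalGroup H]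
    [T2Space H] (γ : H) : IsClosed ((cent305 γ : Subgroup H) : Set H) := by
  have h : ((cent305 γ : Subgroup H) : Set H) = {x : H | x⁻¹ * γ * x = γ} := by
    ext x; rfl
  rw [h]
  exact isClosed_eq ((continuous_inv.mul continuous_const).mul continuous_id) continuous_const

/-- **LEAF FD.8 = ARCH-INTBL**, verbatim. -/
theorem archIntblC176 : ArchIntblC558 := by
  intro μc hμc F hF hFs γ₀ hreg z hz μT hμT β hβ
  let _ : MeasurableSpace (GL (Fin 2) ℂ) := borel _
  have : BorelSpace (GL (Fin 2) ℂ) := ⟨rfl⟩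
  let _ : MeasurableSpace (cent305 γ₀) := borel _
  have : BorelSpace (cent305 γ₀) := ⟨rfl⟩
  have := secondCountable_GL2C176
  have := locallyCompact_GL2C176
  have : μc.IsHaarMeasure := hμc
  have : μT.IsHaarMeasure := hμT
  obtain ⟨hβc, hβ0, hβ1⟩ := hβ
  obtain ⟨M, hM⟩ := hF.bounded_above_of_compact_support hFs
  -- the compact set
  have hΩ : IsCompact ((fun x : GL (Fin 2) ℂ => x * z⁻¹) '' tsupport F) :=
    hFs.image (continuous_id.mul continuous_const)
  have hdisc : (γ₀ : Matrix (Fin 2) (Fin 2) ℂ).trace ^ 2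
      - 4 * (γ₀ : Matrix (Fin 2) (Fin 2) ℂ).det ≠ 0 := hreg.ne_zero
  obtain ⟨C, hC, hCy⟩ := exists_compact_orbit176 γ₀ hdisc _ hΩ
  have hmain := integrable_of_cut176 μc (cent305 γ₀) (isClosed_cent176 γ₀) μT β hβc hβ0 hβ1
    (fun y => F (y⁻¹ * (γ₀ * z) * y))
    (hF.comp ((continuous_inv.mul continuous_const).mul continuous_id)) M
    (fun y => hM _) C hC (by
      intro y hy
      have h1 : y⁻¹ * (γ₀ * z) * y ∈ tsupport F := subset_tsupport F hy
      have h2 : y⁻¹ * γ₀ * y = (y⁻¹ * (γ₀ * z) * y) * z⁻¹ := by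
        have hzy : z * y = y * z := hz y
        calc y⁻¹ * γ₀ * y = y⁻¹ * γ₀ * (y * z) * z⁻¹ := by group
          _ = y⁻¹ * γ₀ * (z * y) * z⁻¹ := by rw [hzy]
          _ = (y⁻¹ * (γ₀ * z) * y) * z⁻¹ := by group
      obtain ⟨t, c, ht, hc, hyc⟩ := hCy y ⟨_, h1, h2.symm⟩
      exact ⟨t, ht, c, hc, hyc⟩)
  exact hmain

end Fermat.Agent.LT.T7.H176

end

end
-- ===== PACK-END LT/T7/H176/FD/ArchIntbl.lean

-- ===== PACK-BEGIN LT/T7/H389/WAsm.lean
section



/-!
# Row LT, tower T7, leaf T7.L2.3.5.4.C2 = `WB776.WAsmC776` (helper389): PROVED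

OFF-MAIN.  Every proof is complete, nothing assumed.  ADDITIVE (new names only, all ending in
`389`).  Spec: `T7/H776/WBasisSpec.lean` of helper776 (sha256 ebd5d61eb0d68155), byte-identical
copy; imports only the closure of the spec.

    wAsmC389 (K) : WB776.WAsmC776 K
      = W0BasisC776 K → IwAvgC776 K → ProjSeqC776 → CuspFormC K → WSubC K → WBasisC K

The plug of the docstring: `ProjSeqC776` for `M = G K → ℂ`, `form = T5.innerD μ F`,
`Vm` = the cusp functions, `Wm` = the invariant cusp functions, `A = EigData K`, `u = w₀`,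
`cl = c₀`, `P`; the new sequence `w`, `J ⊆ J₀`, `c = c₀`.
-/

set_option autoImplicit false

open AutomorphicForm IsDedekindDomain NumberField MeasureTheory
open scoped ComplexConjugate

noncomputable section

namespace Fermat.Agent.LT.T7.H389

open Fermat.Agent.LT Fermat.Agent.LT.H556 Fermat.Agent.LT.H556.A0 Fermat.Agent.LT.T7
open Fermat.Agent.LT.T7.SD534 Fermat.Agent.LT.T7.H193 Fermat.Agent.LT.T7.WB776

attribute [local instance] Fermat.Agent.LT.T5.instMeasurableSpaceG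

variable {K : Type} [Field K] [NumberField K]

/-- The cusp functions as a submodule. -/
def vSub389 {𝔫 : Ideal (𝓞 K)} {r : G K} {u : HeightOneSpectrum (𝓞 K)} (h : IsWSub 𝔫 r u) :
    Submodule ℂ (G K → ℂ) where
  carrier := {f | InV 𝔫 r f}
  add_mem' := fun {f f'} hf hf' => h.addV f f' hf hf'
  zero_mem' := h.zeroW.inV
  smul_mem' := fun a f hf => h.smulV a f hf

/-- The invariant cusp functions as a submodule. -/
def wSub389 {𝔫 : Ideal (𝓞 K)} {r : G K} {u : HeightOneSpectrum (𝓞 K)} (h : IsWSub 𝔫 r u) :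
    Submodule ℂ (G K → ℂ) where
  carrier := {f | InW 𝔫 r u f}
  add_mem' := fun {f f'} hf hf' => h.addW f f' hf hf'
  zero_mem' := h.zeroW
  smul_mem' := fun a f hf => h.smulW a f hf

theorem mem_vSub389 {𝔫 : Ideal (𝓞 K)} {r : G K} {u : HeightOneSpectrum (𝓞 K)}
    (h : IsWSub 𝔫 r u) (f : G K → ℂ) : f ∈ vSub389 h ↔ InV 𝔫 r f := Iff.rfl

theorem mem_wSub389 {𝔫 : Ideal (𝓞 K)} {r : G K} {u : HeightOneSpectrum (𝓞 K)}
    (h : IsWSub 𝔫 r u) (f : G K → ℂ) : f ∈ wSub389 h ↔ InW 𝔫 r u f := Iff.rfl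

/-- A member of the span of members of a class is a member of the class (the class is not
empty). -/
theorem inCls_of_span389 {𝔫 : Ideal (𝓞 K)} {r : G K} {u : HeightOneSpectrum (𝓞 K)}
    (h : IsWSub 𝔫 r u) (c : EigData K) (S : Set (G K → ℂ))
    (hS : ∀ f ∈ S, InCls 𝔫 r u c f) {f₀ : G K → ℂ} (h₀ : InCls 𝔫 r u c f₀)
    {x : G K → ℂ} (hx : x ∈ Submodule.span ℂ S) : InCls 𝔫 r u c x := by
  induction hx using Submodule.span_induction with
  | mem y hy => exact hS y hy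
  | zero =>
    have h1 := h.smulC c 0 f₀ h₀
    rw [zero_smul] at h1
    exact h1
  | add y z _ _ hy hz => exact h.addC c y z hy hz
  | smul a y _ hy => exact h.smulC c a y hy

variable (K)

/-- **LEAF T7.L2.3.5.4.C2 = W-ASM** (statement of helper776, `T7/H776/WBasisSpec.lean`). -/
theorem wAsmC389 : WAsmC776 K := by
  intro hW0 hIw hPS hForm hSub μ F r 𝔫 u h𝔫 hF hr _ hcplx
  obtain ⟨w₀, J₀, c₀, hB⟩ := hW0 μ F r 𝔫 u h𝔫 hF hr hcplx
  obtain ⟨P, hP⟩ := hIw μ F r 𝔫 u h𝔫 hF hr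
  have hfm : IsCuspForm μ F r 𝔫 := hForm μ F r 𝔫 h𝔫 hF hr
  have hs : IsWSub 𝔫 r u := hSub 𝔫 r u
  -- the members of the old basis
  have hu0 : ∀ j ∈ J₀, IsWFn 𝔫 r 0 (fun _ => u) (w₀ j) := fun j hj => (hB.eig j hj).inv
  have huV : ∀ j ∈ J₀, InV 𝔫 r (w₀ j) := fun j hj => (hu0 j hj).cusp
  have hPc : ∀ j ∈ J₀, InCls 𝔫 r u (c₀ j) (P (w₀ j)) := fun j hj =>
    hP.eig (w₀ j) (c₀ j) (hB.eig j hj)
  obtain ⟨w, J, hJ, hspan, hnorm, horth, hpars, hexh⟩ :=
    hPS (G K → ℂ) (T5.innerD μ F) (vSub389 hs) (wSub389 hs) (EigData K) w₀ J₀ c₀ P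
      (fun f hf => InW.inV hf)
      (fun x hx y hy z hz => hfm.add_left x y z hx hy hz)
      (fun a x hx y hy => hfm.smul_left a x y hx hy)
      (fun x hx y hy => hfm.conj_symm x y hx hy)
      (fun x hx => hfm.nonneg x hx)
      (fun x hx h0 => hfm.definite x hx h0)
      huV
      (fun j hj => hB.norm_one j hj)
      (fun i hi j hj hij => hB.orth i hi j hj hij)
      (fun χ hχ => hB.parseval χ (isWFn_zero_of776 hχ))
      (fun j₀ hj₀ => hB.finite j₀ hj₀)
      (fun j hj => (hPc j hj).inW)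
      (fun j hj => hB.exhaust j hj (P (w₀ j)) (isEigFn_zero_of776 (hPc j hj)))
      (fun χ hχ => hP.fix χ hχ)
      (fun χ hχ j hj => hP.inner χ (w₀ j) hχ (hu0 j hj))
  refine ⟨w, J, c₀, ?_⟩
  have heig : ∀ j, j ∈ J → InCls 𝔫 r u (c₀ j) (w j) := by
    intro j hj
    refine inCls_of_span389 hs (c₀ j) _ ?_ (hPc j (hJ hj)) (hspan j hj)
    rintro f ⟨i, hi, hci, rfl⟩
    have h1 := hPc i hi
    rw [hci] at h1
    exact h1
  refine ⟨heig, fun j hj => hB.unit j (hJ hj), hnorm, horth, fun χ hχ => hpars χ hχ, ?_, ?_⟩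
  · intro j₀ hj₀
    exact (hB.finite j₀ (hJ hj₀)).subset (fun j hj => ⟨hJ hj.1, hj.2⟩)
  · intro j₀ hj₀ ψ hψ
    exact hexh j₀ (hJ hj₀) ψ hψ.inW
      (hB.exhaust j₀ (hJ hj₀) ψ (isEigFn_zero_of776 hψ))

end Fermat.Agent.LT.T7.H389

end

end
-- ===== PACK-END LT/T7/H389/WAsm.lean

-- ===== PACK-BEGIN LT/T7/H510/IwSysExists.lean
section



/-!
# Row LT, tower T7, leaf T7.L2.2.B4.1 `IwSysExistsC561` — helper510, OFF-MAIN

    iwSysExistsC_h510 (K K') : Fermat.Agent.LT.T7.H561.IwSysExistsC561 K K'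

verbatim against `LT/T7/H561/OpsSpec.lean` (helper561@62b060f4f, sha256 17293f38),
UNCONDITIONAL (the hypothesis `IsSetup561` is not used).  Toolbox: `LT/H129/HeckeExists.lean`
(helper129, sha256 283484f0: `locFin129`, `rep129`, `exists_unif129`).

At a finite place `v` with uniformiser `π`: `ω = !![0, 1; π, 0]` and the `q = N v` elements
`h_a = !![a, 1; 1, 0]` (`a` a system of representatives of `𝒪/v`), embedded at `v` (`1`
elsewhere).  `h_a⁻¹ h_b = !![1, 0; b - a, 1]` and `b - a` is a unit for `a ≠ b`.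
-/

set_option autoImplicit false
set_option linter.style.haveILetI false
set_option linter.unusedSectionVars false

open AutomorphicForm IsDedekindDomain NumberField MeasureTheory

noncomputable section

namespace Fermat.Agent.LT.T7.H510

open Fermat.Agent.LT.H556 Fermat.Agent.LT.H556.A0 Fermat.Agent.LT.H129 Fermat.Agent.LT

variable {K : Type} [Field K] [NumberField K] (v : HeightOneSpectrum (𝓞 K))

/-- `!![b, 1; 1, 0] = !![a, 1; 1, 0] * !![1, 0; b - a, 1]`. -/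
theorem swapU_eq_mul_lower_h510 {F : Type*} [Field F] (a b : F) :
    mkGL129 b 1 1 0 (by simp) = mkGL129 a 1 1 0 (by simp) * lowerU129 (b - a) := by
  apply ext_mat129
  unfold lowerU129
  rw [Matrix.GeneralLinearGroup.coe_mul, coe_mkGL129, coe_mkGL129, coe_mkGL129]
  ext i j
  fin_cases i <;> fin_cases j <;> simp [Matrix.mul_apply, Fin.sum_univ_two]

/-- The element `!![a, 1; 1, 0]` at `v`, `a` the representative of a residue class. -/
def iwElt_h510 (c : 𝓞 K ⧸ v.asIdeal) : G K :=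
  locFin129 v (mkGL129 (rep129 v c) 1 1 0 (by simp))

theorem iwElt_inv_mul_h510 (c c' : 𝓞 K ⧸ v.asIdeal) :
    (iwElt_h510 v c)⁻¹ * iwElt_h510 v c' = locFin129 v (lowerU129 (rep129 v c' - rep129 v c)) := by
  unfold iwElt_h510
  rw [← map_inv, ← map_mul, swapU_eq_mul_lower_h510 (rep129 v c) (rep129 v c'),
    inv_mul_cancel_left]

theorem iwElt_not_iwahori_h510 {c c' : 𝓞 K ⧸ v.asIdeal} (h : c ≠ c') :
    ¬ T5.InIwahori v ((iwElt_h510 v c)⁻¹ * iwElt_h510 v c') := by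
  intro hI
  have h3 := hI.2.2
  rw [iwElt_inv_mul_h510, finComp_locFin129] at h3
  have h0 : ((lowerU129 (rep129 v c' - rep129 v c) : GL (Fin 2) (v.adicCompletion K)) :
      Matrix (Fin 2) (Fin 2) (v.adicCompletion K)) 1 0 = rep129 v c' - rep129 v c := by
    unfold lowerU129
    rw [coe_mkGL129]
    rfl
  rw [h0, valued_rep129_sub v h] at h3
  exact lt_irrefl _ h3

theorem iwElt_injective_h510 : Function.Injective (iwElt_h510 v) := by
  intro c c' hcc
  by_contra hne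
  apply iwElt_not_iwahori_h510 v hne
  rw [hcc, inv_mul_cancel]
  have hint : IsIntegralAt v (1 : G K) := by
    rw [← isInt129_finCompHom_iff, map_one]
    exact isInt129_one _
  refine ⟨hint, by rw [inv_one]; exact hint, ?_⟩
  have h1 : finComp v (1 : G K) = 1 := by
    rw [← coe_finCompHom129, map_one]
    rfl
  rw [h1, Matrix.one_apply_ne (by decide), map_zero]
  exact zero_lt_one

/-- The explicit system at one place. -/
theorem exists_iwSys_at_h510 :
    ∃ (H : Finset (G K)) (ω : G K),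
      IsLocalAtFin v ω ∧
      (∃ c : v.adicCompletion K, Valued.v c = WithZero.exp (-1 : ℤ) ∧
        finComp v ω = !![0, 1; c, 0]) ∧
      H.card = Ideal.absNorm v.asIdeal ∧
      (∀ h ∈ H, IsLocalAtFin v h) ∧
      (∀ h ∈ H, ∃ a : v.adicCompletion K,
        a ∈ v.adicCompletionIntegers K ∧ finComp v h = !![a, 1; 1, 0]) ∧
      ∀ h ∈ H, ∀ h' ∈ H, h ≠ h' → ¬ T5.InIwahori v (h⁻¹ * h') := by
  classical
  obtain ⟨π, hπ⟩ := exists_unif129 v
  have hπ0 := unif_ne_zero129 v hπ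
  haveI : Finite (𝓞 K ⧸ v.asIdeal) := by
    apply Nat.finite_of_card_ne_zero
    rw [← Submodule.cardQuot_apply, ← Ideal.absNorm_apply]
    exact ne_of_gt (lt_trans Nat.zero_lt_one (NumberField.HeightOneSpectrum.one_lt_absNorm v))
  letI : Fintype (𝓞 K ⧸ v.asIdeal) := Fintype.ofFinite _
  refine ⟨Finset.univ.image (iwElt_h510 v),
    locFin129 v (mkGL129 0 1 π 0 (by simpa using hπ0)), isLocalAtFin_locFin129 v _,
    ⟨π, hπ, by rw [finComp_locFin129, coe_mkGL129]⟩, ?_, ?_, ?_, ?_⟩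
  · rw [Finset.card_image_of_injective _ (iwElt_injective_h510 v), Finset.card_univ,
      Ideal.absNorm_apply, Submodule.cardQuot_apply, Nat.card_eq_fintype_card]
  · intro h hh
    obtain ⟨c, -, rfl⟩ := Finset.mem_image.mp hh
    exact isLocalAtFin_locFin129 v _
  · intro h hh
    obtain ⟨c, -, rfl⟩ := Finset.mem_image.mp hh
    refine ⟨rep129 v c, rep129_mem v c, ?_⟩
    unfold iwElt_h510
    rw [finComp_locFin129, coe_mkGL129]
  · intro h hh h' hh' hne
    obtain ⟨c, -, rfl⟩ := Finset.mem_image.mp hh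
    obtain ⟨c', -, rfl⟩ := Finset.mem_image.mp hh'
    exact iwElt_not_iwahori_h510 v (fun e => hne (by rw [e]))

/-- **T7.L2.2.B4.1 `IwSysExistsC561`**, unconditional. -/
theorem iwSysExistsC_h510 (K K' : Type) [Field K] [NumberField K] [Field K'] [NumberField K']
    [Algebra K K'] : H561.IwSysExistsC561 K K' := by
  intro ℓ Φ Dt _
  choose Hs ω h1 h2 h3 h4 h5 h6 using fun j : ℕ => exists_iwSys_at_h510 (Dt.o j)
  exact ⟨Hs, ω, ⟨h1, h2, h3, h4, h5, h6⟩⟩

end Fermat.Agent.LT.T7.H510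

end
end
-- ===== PACK-END LT/T7/H510/IwSysExists.lean

-- ===== PACK-BEGIN LT/T7/H582/ProjBasis.lean
section




/-!
# Row LT, tower T7, leaf T7.L2.3.5.4.4 `SD534.ProjBasisC` (registry row 2357, helper582): PROVED

OFF-MAIN.  `projBasisC582 : SD534.ProjBasisC` VERBATIM vs `T7/H534/WBasisSpec.lean`
(sha256 c7027808d11f4314, helper534@f2b76c564), UNCONDITIONAL.  The proof is the Mathlib-only
core `projBasis_core582` (`ProjBasisCore.lean`); `SD534.clsSpan` and `H566.cSpan566` have the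
same body.
-/

set_option autoImplicit false

noncomputable section

namespace Fermat.Agent.LT.T7.H582

/-- **WB.4 PROJ-BASIS**, closed. -/
theorem projBasisC582 : Fermat.Agent.LT.T7.SD534.ProjBasisC := by
  intro M _ _ form V W A v J₀ cl₀ P hWV hadd hsmul hconj hnn hdef hvV hv1 hv0 hpars hfin hPadd
    hPsmul hPW hPin hPE
  exact projBasis_core582 form V W A v J₀ cl₀ P hWV hadd hsmul hconj hnn hdef hvV hv1 hv0 hpars
    hfin hPadd hPsmul hPW hPin hPE

end Fermat.Agent.LT.T7.H582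

end

end
-- ===== PACK-END LT/T7/H582/ProjBasis.lean

-- ===== PACK-BEGIN LT/T7/H929/OpsComm.lean
section



/-!
# Row LT, tower T7, leaf T7.L2.2.B4.4 = `OpsCommC561` (registry row 2425; helper929)

OFF-MAIN.  `opsCommC929 : T7.H561.OpsCommC561 K K'`: the operators at two different places of the
orbit commute.  Proof: the orbit places `o j`, `j < ℓ`, are pairwise different (`orbit_rel` is
injective, `orbit_ne`), and two elements of `GL₂(𝔸)` supported at different finite places commute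
(componentwise).  Theorems only, every name ends in `929`.
-/

set_option autoImplicit false

open AutomorphicForm IsDedekindDomain NumberField MeasureTheory
open scoped ComplexConjugate Matrix

noncomputable section

namespace Fermat.Agent.LT.T7.H929

open Fermat.Agent.LT.H556 Fermat.Agent.LT.H556.A0 Fermat.Agent.LT.T7 Fermat.Agent.LT.T7.H561

section Local

variable {K : Type} [Field K] [NumberField K]

/-- The finite component of a product. -/
theorem finComp_mul929 (v : HeightOneSpectrum (𝓞 K)) (g h : G K) :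
    finComp v (g * h) = finComp v g * finComp v h := by
  ext i j
  simp only [finComp, Matrix.GeneralLinearGroup.coe_mul, Matrix.mul_apply, Fin.sum_univ_two]
  rfl

/-- The infinite component of a product. -/
theorem infEntry_mul929 (w : InfinitePlace K) (g h : G K) (i j : Fin 2) :
    (((g * h : G K) : Matrix (Fin 2) (Fin 2) (Adl K)) i j).1 w
      = ((g : Matrix (Fin 2) (Fin 2) (Adl K)) i 0).1 w
          * ((h : Matrix (Fin 2) (Fin 2) (Adl K)) 0 j).1 w
        + ((g : Matrix (Fin 2) (Fin 2) (Adl K)) i 1).1 w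
          * ((h : Matrix (Fin 2) (Fin 2) (Adl K)) 1 j).1 w := by
  simp only [Matrix.GeneralLinearGroup.coe_mul, Matrix.mul_apply, Fin.sum_univ_two]
  rfl

/-- Two adeles with the same components are equal. -/
theorem adl_ext929 {a b : Adl K} (h1 : ∀ w : InfinitePlace K, a.1 w = b.1 w)
    (h2 : ∀ v : HeightOneSpectrum (𝓞 K), a.2 v = b.2 v) : a = b :=
  Prod.ext (funext h1) (FiniteAdeleRing.ext (K := K) h2)

/-- **Elements supported at different finite places commute.** -/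
theorem comm_of_local929 {v v' : HeightOneSpectrum (𝓞 K)} (hv : v ≠ v') {g h : G K}
    (hg : IsLocalAtFin v g) (hh : IsLocalAtFin v' h) : g * h = h * g := by
  apply Units.ext
  ext i j
  apply adl_ext929
  · intro w
    have e1 := infEntry_mul929 w g h i j
    have e2 := infEntry_mul929 w h g i j
    have hgw := hg.1 w
    have hhw := hh.1 w
    unfold TrivAtInf at hgw hhw
    change (((g * h : G K) : Matrix (Fin 2) (Fin 2) (Adl K)) i j).1 w
      = (((h * g : G K) : Matrix (Fin 2) (Fin 2) (Adl K)) i j).1 w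
    rw [e1, e2, hgw, hgw, hhw, hhw, hgw, hgw, hhw, hhw]
  · intro p
    have key : finComp p (g * h) = finComp p (h * g) := by
      rw [finComp_mul929, finComp_mul929]
      by_cases hp : p = v
      · have hp' : p ≠ v' := fun e => hv (hp.symm.trans e)
        have h1 : finComp p h = 1 := hh.2 p hp'
        rw [h1, mul_one, one_mul]
      · have h1 : finComp p g = 1 := hg.2 p hp
        rw [h1, mul_one, one_mul]
    exact congrFun (congrFun key i) j

end Local

section Orbit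

variable {K : Type} [Field K] [NumberField K]

/-- `PlaceRel` is injective in the source. -/
theorem placeRel_inj929 (s : T5.AdelicAut K) {w₁ w₂ w' : HeightOneSpectrum (𝓞 K)}
    (h₁ : T5.PlaceRel s w₁ w') (h₂ : T5.PlaceRel s w₂ w') : w₁ = w₂ := by
  unfold T5.PlaceRel at h₁ h₂
  have e : Ideal.map (NumberField.RingOfIntegers.mapRingEquiv s.σ) w₁.asIdeal
      = Ideal.map (NumberField.RingOfIntegers.mapRingEquiv s.σ) w₂.asIdeal := h₁.symm.trans h₂
  have inj : Function.Injective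
      (Ideal.map (NumberField.RingOfIntegers.mapRingEquiv s.σ)) := by
    intro I J hIJ
    have := congrArg (Ideal.comap (NumberField.RingOfIntegers.mapRingEquiv s.σ)) hIJ
    rwa [Ideal.comap_map_of_bijective _ (RingEquiv.bijective _),
      Ideal.comap_map_of_bijective _ (RingEquiv.bijective _)] at this
  exact HeightOneSpectrum.ext (inj e)

/-- The places of the orbit are pairwise different below the period. -/
theorem orbit_lt_ne929 (s : T5.AdelicAut K) (o : ℕ → HeightOneSpectrum (𝓞 K)) (ℓ : ℕ)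
    (hrel : ∀ j : ℕ, T5.PlaceRel s (o j) (o (j + 1)))
    (hne : ∀ j : ℕ, 0 < j → j < ℓ → o j ≠ o 0) :
    ∀ j j' : ℕ, j < j' → j' < ℓ → o j ≠ o j' := by
  intro j
  induction j with
  | zero =>
    intro j' h0 hl e
    exact hne j' h0 hl e.symm
  | succ n ih =>
    intro j' hlt hl e
    obtain ⟨m, rfl⟩ : ∃ m, j' = m + 1 := ⟨j' - 1, by omega⟩
    have hnm : n < m := by omega
    have hml : m < ℓ := by omega
    have h1 : T5.PlaceRel s (o n) (o (n + 1)) := hrel n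
    have h2 : T5.PlaceRel s (o m) (o (n + 1)) := by
      have := hrel m
      rwa [← e] at this
    exact ih m hnm hml (placeRel_inj929 s h1 h2)

/-- The places of the orbit are pairwise different below the period (symmetric form). -/
theorem orbit_ne929 (s : T5.AdelicAut K) (o : ℕ → HeightOneSpectrum (𝓞 K)) (ℓ : ℕ)
    (hrel : ∀ j : ℕ, T5.PlaceRel s (o j) (o (j + 1)))
    (hne : ∀ j : ℕ, 0 < j → j < ℓ → o j ≠ o 0)
    {j j' : ℕ} (hj : j < ℓ) (hj' : j' < ℓ) (hjj : j ≠ j') : o j ≠ o j' := by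
  rcases Nat.lt_or_gt_of_ne hjj with h | h
  · exact orbit_lt_ne929 s o ℓ hrel hne j j' h hj'
  · exact fun e => orbit_lt_ne929 s o ℓ hrel hne j' j h hj e.symm

end Orbit

section Leaf

variable (K K' : Type) [Field K] [NumberField K] [Field K'] [NumberField K'] [Algebra K K']

/-- **LEAF T7.L2.2.B4.4 = OPS-COMM** (registry row 2425). -/
theorem opsCommC929 : OpsCommC561 K K' := by
  intro ℓ Φ Dt hs Hs ω hsys j j' hj hj' hjj ψ x
  have hne : Dt.o j ≠ Dt.o j' :=
    orbit_ne929 Dt.s Dt.o ℓ hs.data.orbit_rel hs.data.orbit_ne hj hj' hjj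
  have cHH : ∀ h ∈ Hs j, ∀ h' ∈ Hs j', h * h' = h' * h := fun h hh h' hh' =>
    comm_of_local929 hne (hsys.Hs_local j h hh) (hsys.Hs_local j' h' hh')
  have cHω : ∀ h ∈ Hs j, h * ω j' = ω j' * h := fun h hh =>
    comm_of_local929 hne (hsys.Hs_local j h hh) (hsys.ω_local j')
  have cωω : ω j * ω j' = ω j' * ω j :=
    comm_of_local929 hne (hsys.ω_local j) (hsys.ω_local j')
  refine ⟨?_, ?_, ?_⟩
  · simp only [cosetOp]
    rw [Finset.sum_comm]
    refine Finset.sum_congr rfl fun h' hh' => Finset.sum_congr rfl fun h hh => ?_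
    rw [mul_assoc, mul_assoc, cHH h hh h' hh']
  · simp only [cosetOp, trOp561]
    refine Finset.sum_congr rfl fun h hh => ?_
    rw [mul_assoc, mul_assoc, cHω h hh]
  · simp only [trOp561]
    rw [mul_assoc, mul_assoc, cωω]

end Leaf

end Fermat.Agent.LT.T7.H929

end

end
-- ===== PACK-END LT/T7/H929/OpsComm.lean

-- ===== PACK-BEGIN LT/T7/H215/OpsSigLocal.lean
section






/-!
# Row LT, tower T7, leaf T7.L2.2.B4.7 = OPS-SIGMA (helper215): local part

OFF-MAIN.  Every proof is complete, nothing assumed.  ADDITIVE (new names only, all ending in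
`215`).  Vocabulary: A0, `T5/Spec.lean`, assets helper415 (`T5/H415/AutT5.lean`), helper129
(`H129/ResidueCard.lean`), helper942 (`H942/AdelicComp.lean`), byte-identical copies.

* `invAut215 s`: the inverse of an `AdelicAut`; `(invAut215 s).onG = s.onGinv`;
* `isLocalAtFin_onGinv215`: `σ⁻¹` maps an element supported at `σ v` to an element supported at `v`;
* `finComp_onGinv_one215`, `finComp_onGinv_zero215`, `valued_onGinv215`: the entries;
* `inIwahori_of_triv215`, `inIwahori_lower215`, `inIwahori_diag215`: Iwahori membership;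
* `absNorm_placeRel215`: `N (σ v) = N v`;
* `exists_residue215`: a system of `N v` pairwise inequivalent elements `!![a,1;1,0]` is complete.
-/

set_option autoImplicit false

open AutomorphicForm IsDedekindDomain NumberField
open scoped Matrix

noncomputable section

namespace Fermat.Agent.LT.T7.H215

open Fermat.Agent.LT.H556 Fermat.Agent.LT.H556.A0 Fermat.Agent.LT.T5 Fermat.Agent.LT.T5.H415
open Fermat.Agent.LT.H415 Fermat.Agent.LT.H942

variable {K : Type} [Field K] [NumberField K]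

/-! ## The inverse automorphism -/

/-- The inverse of an adelic automorphism. -/
def invAut215 (s : AdelicAut K) : AdelicAut K where
  σ := s.σ.symm
  σA := s.σA.symm
  continuous_σA := s.continuous_symm
  continuous_symm := s.continuous_σA
  compat := fun x => by
    rw [RingEquiv.symm_apply_eq, s.compat, RingEquiv.apply_symm_apply]

theorem invAut_onG215 (s : AdelicAut K) (g : G K) : (invAut215 s).onG g = s.onGinv g := rfl

theorem placeRel_inv215 (s : AdelicAut K) (v v' : HeightOneSpectrum (𝓞 K))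
    (h : PlaceRel s v v') : PlaceRel (invAut215 s) v' v :=
  finRel_symm415 s.σ v v' h

theorem onG_onGinv215 (s : AdelicAut K) (g : G K) : s.onG (s.onGinv g) = g := by
  apply Units.ext
  ext i j
  exact s.σA.apply_symm_apply _

/-! ## Triviality and locality -/

theorem trivAtFin_iff215 (v : HeightOneSpectrum (𝓞 K)) (g : G K) :
    TrivAtFin v g ↔ finComp v g = finComp v (1 : G K) := by
  rw [finComp_one942]
  rfl

theorem one_entry_inf215 (w : InfinitePlace K) (i j : Fin 2) :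
    (((1 : G K) : Matrix (Fin 2) (Fin 2) (Adl K)) i j).1 w
      = (1 : Matrix (Fin 2) (Fin 2) w.Completion) i j := by
  rw [Units.val_one, Matrix.one_apply, Matrix.one_apply]
  split_ifs <;> rfl

theorem trivAtInf_iff215 (w : InfinitePlace K) (g : G K) :
    TrivAtInf w g ↔ infComp w g = infComp w (1 : G K) := by
  rw [infComp_eq_iff415]
  constructor
  · intro h i j
    rw [h i j, one_entry_inf215]
  · intro h i j
    rw [h i j, one_entry_inf215]

/-- `σ⁻¹` maps an element supported at `σ v` to an element supported at `v`. -/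
theorem isLocalAtFin_onGinv215 (s : AdelicAut K) (v v' : HeightOneSpectrum (𝓞 K))
    (h : PlaceRel s v v') (g : G K) (hg : IsLocalAtFin v' g) :
    IsLocalAtFin v (s.onGinv g) := by
  refine ⟨fun w => ?_, fun u hu => ?_⟩
  · obtain ⟨w₀, rfl⟩ := infImage_surjective415 (invAut215 s).σ w
    rw [trivAtInf_iff215]
    have h1 := infComp_onG_congr415 (invAut215 s) w₀ g 1 ((trivAtInf_iff215 w₀ g).1 (hg.1 w₀))
    rw [map_one] at h1
    exact h1
  · obtain ⟨u', hu'⟩ := finRel_exists_image415 s.σ u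
    have hne : u' ≠ v' := by
      rintro rfl
      exact hu (finRel_inj415 s.σ u v u' hu' h)
    rw [trivAtFin_iff215]
    have h1 := finComp_onG_congr415 (invAut215 s) u' u (placeRel_inv215 s u u' hu') g 1
      ((trivAtFin_iff215 u' g).1 (hg.2 u' hne))
    rw [map_one] at h1
    exact h1

/-! ## The entries at the place -/

theorem valued_onGinv215 (s : AdelicAut K) (v v' : HeightOneSpectrum (𝓞 K))
    (h : PlaceRel s v v') (g : G K) (i j : Fin 2) :
    Valued.v (finComp v (s.onGinv g) i j) = Valued.v (finComp v' g i j) :=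
  valued_onG415 (invAut215 s) v' v (placeRel_inv215 s v v' h) g i j

theorem finComp_onGinv_entry215 (s : AdelicAut K) (v v' : HeightOneSpectrum (𝓞 K))
    (h : PlaceRel s v v') (g : G K) (i j : Fin 2) (b : Adl K)
    (hb : finComp v' g i j = b.2 v') :
    finComp v (s.onGinv g) i j = (s.σA.symm b).2 v :=
  tau_fin_congr415 (invAut215 s).σ (hom415 (invAut215 s)) (continuous_hom415 (invAut215 s))
    (compat_hom415 (invAut215 s)) (injective_hom415 (invAut215 s)) v' v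
    (placeRel_inv215 s v v' h) _ _ hb

theorem finComp_onGinv_one215 (s : AdelicAut K) (v v' : HeightOneSpectrum (𝓞 K))
    (h : PlaceRel s v v') (g : G K) (i j : Fin 2) (hb : finComp v' g i j = 1) :
    finComp v (s.onGinv g) i j = 1 := by
  have := finComp_onGinv_entry215 s v v' h g i j 1 (by rw [hb]; rfl)
  rw [map_one] at this
  exact this

theorem finComp_onGinv_zero215 (s : AdelicAut K) (v v' : HeightOneSpectrum (𝓞 K))
    (h : PlaceRel s v v') (g : G K) (i j : Fin 2) (hb : finComp v' g i j = 0) :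
    finComp v (s.onGinv g) i j = 0 := by
  have := finComp_onGinv_entry215 s v v' h g i j 0 (by rw [hb]; rfl)
  rw [map_zero] at this
  exact this

/-! ## Iwahori membership -/

theorem finComp_inv_eq215 (v : HeightOneSpectrum (𝓞 K)) (g : G K)
    (N : Matrix (Fin 2) (Fin 2) (v.adicCompletion K)) (h : finComp v g * N = 1) :
    finComp v g⁻¹ = N := by
  have h1 := finComp_inv_mul942 v g
  calc finComp v g⁻¹ = finComp v g⁻¹ * (finComp v g * N) := by rw [h, mul_one]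
    _ = (finComp v g⁻¹ * finComp v g) * N := by rw [mul_assoc]
    _ = N := by rw [h1, one_mul]

theorem isIntegralAt_of_eq215 (v : HeightOneSpectrum (𝓞 K)) (g : G K)
    (M : Matrix (Fin 2) (Fin 2) (v.adicCompletion K)) (h : finComp v g = M)
    (h00 : Valued.v (M 0 0) ≤ 1) (h01 : Valued.v (M 0 1) ≤ 1) (h10 : Valued.v (M 1 0) ≤ 1)
    (h11 : Valued.v (M 1 1) ≤ 1) : IsIntegralAt v g := by
  intro i j
  rw [h, HeightOneSpectrum.mem_adicCompletionIntegers]
  fin_cases i <;> fin_cases j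
  · exact h00
  · exact h01
  · exact h10
  · exact h11

/-- An element which is trivial at `v` lies in the Iwahori subgroup at `v`. -/
theorem inIwahori_of_triv215 (v : HeightOneSpectrum (𝓞 K)) (u : G K) (h : TrivAtFin v u) :
    InIwahori v u := by
  have h1 : finComp v u = 1 := h
  have h2 : finComp v u⁻¹ = 1 := finComp_inv_eq215 v u 1 (by rw [h1, mul_one])
  refine ⟨isIntegralAt_of_eq215 v u 1 h1 ?_ ?_ ?_ ?_, isIntegralAt_of_eq215 v u⁻¹ 1 h2 ?_ ?_ ?_ ?_,
    ?_⟩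
  all_goals first
    | (rw [h1]; simp)
    | simp

/-- The lower unipotent elements with lower left entry in the maximal ideal. -/
theorem inIwahori_lower215 (v : HeightOneSpectrum (𝓞 K)) (u : G K) (d : v.adicCompletion K)
    (hd : Valued.v d < 1) (h : finComp v u = !![1, 0; d, 1]) : InIwahori v u := by
  have h2 : finComp v u⁻¹ = !![1, 0; -d, 1] := by
    apply finComp_inv_eq215
    rw [h]
    ext i j
    fin_cases i <;> fin_cases j <;> simp [Matrix.mul_apply, Fin.sum_univ_two]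
  refine ⟨isIntegralAt_of_eq215 v u _ h ?_ ?_ ?_ ?_, isIntegralAt_of_eq215 v u⁻¹ _ h2 ?_ ?_ ?_ ?_,
    ?_⟩
  all_goals first
    | (rw [h]; simpa using hd)
    | (simpa using hd.le)
    | simp

/-- The diagonal elements `diag(e, 1)`, `e` a unit. -/
theorem inIwahori_diag215 (v : HeightOneSpectrum (𝓞 K)) (u : G K) (e : v.adicCompletion K)
    (he : Valued.v e = 1) (h : finComp v u = !![e, 0; 0, 1]) : InIwahori v u := by
  have hne : e ≠ 0 := by
    rintro rfl
    rw [map_zero] at he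
    exact zero_ne_one he
  have h2 : finComp v u⁻¹ = !![e⁻¹, 0; 0, 1] := by
    apply finComp_inv_eq215
    rw [h]
    ext i j
    fin_cases i <;> fin_cases j <;> simp [Matrix.mul_apply, Fin.sum_univ_two, hne]
  refine ⟨isIntegralAt_of_eq215 v u _ h ?_ ?_ ?_ ?_, isIntegralAt_of_eq215 v u⁻¹ _ h2 ?_ ?_ ?_ ?_,
    ?_⟩
  all_goals first
    | (rw [h]; simp)
    | (simp [he])
    | simp

/-- The quotient of two elements `!![a,1;1,0]`. -/
theorem finComp_inv_mul_s215 (v : HeightOneSpectrum (𝓞 K)) (g₁ g₂ : G K)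
    (a₁ a₂ : v.adicCompletion K) (h₁ : finComp v g₁ = !![a₁, 1; 1, 0])
    (h₂ : finComp v g₂ = !![a₂, 1; 1, 0]) :
    finComp v (g₁⁻¹ * g₂) = !![1, 0; a₂ - a₁, 1] := by
  have h3 : finComp v g₁⁻¹ = !![0, 1; 1, -a₁] := by
    apply finComp_inv_eq215
    rw [h₁]
    ext i j
    fin_cases i <;> fin_cases j <;> simp [Matrix.mul_apply, Fin.sum_univ_two]
  rw [finComp_mul942, h3, h₂, Matrix.mul_fin_two]
  simp only [zero_mul, one_mul, mul_one, mul_zero, zero_add, add_zero, sub_eq_add_neg]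

theorem inIwahori_s_iff215 (v : HeightOneSpectrum (𝓞 K)) (g₁ g₂ : G K)
    (a₁ a₂ : v.adicCompletion K) (h₁ : finComp v g₁ = !![a₁, 1; 1, 0])
    (h₂ : finComp v g₂ = !![a₂, 1; 1, 0]) :
    InIwahori v (g₁⁻¹ * g₂) ↔ Valued.v (a₂ - a₁) < 1 := by
  have h := finComp_inv_mul_s215 v g₁ g₂ a₁ a₂ h₁ h₂
  constructor
  · intro hI
    have := hI.2.2
    rw [h] at this
    simpa using this
  · intro hd
    exact inIwahori_lower215 v _ _ hd h

/-- The quotient of two elements `!![0,1;c,0]`. -/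
theorem finComp_inv_mul_w215 (v : HeightOneSpectrum (𝓞 K)) (g₁ g₂ : G K)
    (c₁ c₂ : v.adicCompletion K) (hc₁ : c₁ ≠ 0) (h₁ : finComp v g₁ = !![0, 1; c₁, 0])
    (h₂ : finComp v g₂ = !![0, 1; c₂, 0]) :
    finComp v (g₁⁻¹ * g₂) = !![c₁⁻¹ * c₂, 0; 0, 1] := by
  have h3 : finComp v g₁⁻¹ = !![0, c₁⁻¹; 1, 0] := by
    apply finComp_inv_eq215
    rw [h₁]
    ext i j
    fin_cases i <;> fin_cases j <;> simp [Matrix.mul_apply, Fin.sum_univ_two, hc₁]
  rw [finComp_mul942, h3, h₂]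
  ext i j
  fin_cases i <;> fin_cases j <;> simp [Matrix.mul_apply, Fin.sum_univ_two]

/-- The product of two elements supported at `v` is supported at `v`. -/
theorem isLocalAtFin_inv_mul215 (v : HeightOneSpectrum (𝓞 K)) (g₁ g₂ : G K)
    (h₁ : IsLocalAtFin v g₁) (h₂ : IsLocalAtFin v g₂) : IsLocalAtFin v (g₁⁻¹ * g₂) := by
  refine ⟨fun w => ?_, fun u hu => ?_⟩
  · rw [trivAtInf_iff215, infComp_mul942, infComp_one942]
    have e1 : infComp w g₁ = 1 := by
      rw [(trivAtInf_iff215 w g₁).1 (h₁.1 w), infComp_one942]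
    have e2 : infComp w g₂ = 1 := by
      rw [(trivAtInf_iff215 w g₂).1 (h₂.1 w), infComp_one942]
    have e3 : infComp w g₁⁻¹ = 1 := by
      have := infComp_inv_mul942 w g₁
      rw [e1, mul_one] at this
      exact this
    rw [e3, e2, mul_one]
  · have e1 : finComp u g₁ = 1 := h₁.2 u hu
    have e2 : finComp u g₂ = 1 := h₂.2 u hu
    have e3 : finComp u g₁⁻¹ = 1 := finComp_inv_eq215 u g₁ 1 (by rw [e1, mul_one])
    show finComp u (g₁⁻¹ * g₂) = 1
    rw [finComp_mul942, e3, e2, mul_one]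

/-! ## The norm of `σ v` -/

theorem absNorm_placeRel215 (s : AdelicAut K) (v v' : HeightOneSpectrum (𝓞 K))
    (h : PlaceRel s v v') : Ideal.absNorm v'.asIdeal = Ideal.absNorm v.asIdeal := by
  have h' : v'.asIdeal = Ideal.map (NumberField.RingOfIntegers.mapRingEquiv s.σ) v.asIdeal := h
  rw [Ideal.absNorm_apply, Ideal.absNorm_apply, Submodule.cardQuot_apply,
    Submodule.cardQuot_apply]
  exact (Nat.card_congr (Ideal.quotientEquiv v.asIdeal v'.asIdeal
    (NumberField.RingOfIntegers.mapRingEquiv s.σ) h').toEquiv).symm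

/-! ## A system of `N v` pairwise inequivalent elements `!![a,1;1,0]` is complete -/

theorem entry_of_s215 (v : HeightOneSpectrum (𝓞 K)) (h : G K) (a : v.adicCompletion K)
    (ha : finComp v h = !![a, 1; 1, 0]) : finComp v h 0 0 = a := by
  rw [ha]
  rfl

theorem exists_residue215 (v : HeightOneSpectrum (𝓞 K)) (H : Finset (G K))
    (hcard : H.card = Ideal.absNorm v.asIdeal)
    (hcomp : ∀ h ∈ H, ∃ a : v.adicCompletion K,
      a ∈ v.adicCompletionIntegers K ∧ finComp v h = !![a, 1; 1, 0])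
    (hinj : ∀ h ∈ H, ∀ h' ∈ H, h ≠ h' → ¬ InIwahori v (h⁻¹ * h'))
    (a' : v.adicCompletion K) (ha' : Valued.v a' ≤ 1) :
    ∃ h ∈ H, Valued.v (a' - finComp v h 0 0) < 1 := by
  classical
  haveI : Finite (IsLocalRing.ResidueField (v.adicCompletionIntegers K)) :=
    Fermat.Agent.LT.H129.finite_residueField129 K v
  haveI : Fintype (IsLocalRing.ResidueField (v.adicCompletionIntegers K)) := Fintype.ofFinite _
  -- the residue of the upper left entry
  let r : G K → IsLocalRing.ResidueField (v.adicCompletionIntegers K) := fun h =>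
    if hh : Valued.v (finComp v h 0 0) ≤ 1 then
      IsLocalRing.residue (v.adicCompletionIntegers K)
        ⟨finComp v h 0 0, (HeightOneSpectrum.mem_adicCompletionIntegers _ _ _).2 hh⟩
    else 0
  have hr : ∀ h ∈ H, ∀ hh : Valued.v (finComp v h 0 0) ≤ 1, r h =
      IsLocalRing.residue (v.adicCompletionIntegers K)
        ⟨finComp v h 0 0, (HeightOneSpectrum.mem_adicCompletionIntegers _ _ _).2 hh⟩ := by
    intro h _ hh
    simp only [r, dif_pos hh]
  have hint : ∀ h ∈ H, Valued.v (finComp v h 0 0) ≤ 1 := by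
    intro h hh
    obtain ⟨a, ha, hM⟩ := hcomp h hh
    rw [entry_of_s215 v h a hM]
    exact (HeightOneSpectrum.mem_adicCompletionIntegers _ _ _).1 ha
  have hres : ∀ (x y : v.adicCompletion K) (hx : Valued.v x ≤ 1) (hy : Valued.v y ≤ 1),
      IsLocalRing.residue (v.adicCompletionIntegers K)
          ⟨x, (HeightOneSpectrum.mem_adicCompletionIntegers _ _ _).2 hx⟩
        = IsLocalRing.residue (v.adicCompletionIntegers K)
          ⟨y, (HeightOneSpectrum.mem_adicCompletionIntegers _ _ _).2 hy⟩ →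
      Valued.v (y - x) < 1 := by
    intro x y hx hy hxy
    have h0 : IsLocalRing.residue (v.adicCompletionIntegers K)
        (⟨y, (HeightOneSpectrum.mem_adicCompletionIntegers _ _ _).2 hy⟩
          - ⟨x, (HeightOneSpectrum.mem_adicCompletionIntegers _ _ _).2 hx⟩) = 0 := by
      rw [map_sub, hxy, sub_self]
    have := (Fermat.Agent.LT.H129.residue_eq_zero_iff_valued129 K v _).1 h0
    exact this
  have hrinj : Set.InjOn r (H : Set (G K)) := by
    intro h hh h' hh' hrr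
    by_contra hne
    apply hinj h hh h' hh' hne
    obtain ⟨a, _, hM⟩ := hcomp h hh
    obtain ⟨b, _, hM'⟩ := hcomp h' hh'
    rw [inIwahori_s_iff215 v h h' a b hM hM']
    have e1 := hr h hh (hint h hh)
    have e2 := hr h' hh' (hint h' hh')
    have := hres _ _ (hint h hh) (hint h' hh') (by rw [← e1, ← e2, hrr])
    rw [entry_of_s215 v h a hM, entry_of_s215 v h' b hM'] at this
    exact this
  have himg : H.image r = Finset.univ := by
    apply Finset.eq_univ_of_card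
    rw [Finset.card_image_of_injOn hrinj, hcard, ← Fermat.Agent.LT.H129.card_residueField129 K v,
      Nat.card_eq_fintype_card]
  have hmem : IsLocalRing.residue (v.adicCompletionIntegers K)
      ⟨a', (HeightOneSpectrum.mem_adicCompletionIntegers _ _ _).2 ha'⟩ ∈ H.image r := by
    rw [himg]
    exact Finset.mem_univ _
  obtain ⟨h, hh, hrh⟩ := Finset.mem_image.1 hmem
  refine ⟨h, hh, ?_⟩
  have e1 := hr h hh (hint h hh)
  exact hres _ _ (hint h hh) ha' (by rw [← e1, hrh])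

end Fermat.Agent.LT.T7.H215

end
end
-- ===== PACK-END LT/T7/H215/OpsSigLocal.lean

-- ===== PACK-BEGIN LT/T7/H865/UpBasisU.lean
section





/-!
# Row LT, tower T7, node T7.L2.2.E.2c `UpBasisUC` (CORE FORM, over `K'` alone; deputy
# sub-architect helper865): THE CUT with a PROVED top

OFF-MAIN.  Definitions, frozen Props, PROVED tops.  Nothing assumed, no hole.  ADDITIVE (new names
only, all ending in `865`).  Against `T7/H736/UpS.lean` (helper736@ef7c01058, sha256 98771005),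
`T7/H29/UpCore.lean` c2d817fc + `UpCore2.lean` 5e142413, `T7/H561/SpecUpSpec.lean` 383e6674 +
`BlocksSpec.lean` 5ceeaa4d + `OpsSpec.lean` 17293f38; byte-identical copies.

Ruling of helper797 (15:58Z): SPEC-UP IS PROVED ONCE, OVER `K'` ALONE (`H29.UpData`), so that the
cyclic step and the step `F/ℚ` (`ℓ = 2`) use the same proof.  The node of record is
`SU736.UpBasisUC K'`.  Its leaves are the leaves of the cut of helper561, which are typed on
`L2Data K K'` (cyclic case only).  THIS FILE restates them VERBATIM on `H29.UpData K'`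
(`Dt ↦ U`, hypotheses `ℓ.Prime`, `TotCplx K'`, `H29.IsUpData ℓ Φ U`, `H29.BaseStableU U`) and
proves the tops:

    upBasisUC_of865 : SU736.StfUC K' → BlocksUC865 K' → H561.ChangeC561 K' → H561.AtomsC561
                        → SigmaUC865 K' → IwSysUp865 K' → SU736.UpBasisUC K'
    blocksUC_of865  : BlocksAsmUC865 K' → WSpecUC865 K' → CompleteUC865 K' → SigmaUC865 K'
                        → OpsUC865 K' → PhiUC865 K' → OffWUC865 K' → BlocksUC865 K'
    opsUC_of865     : IwSysExistsUC865 K' → OpsEigUC865 K' → OpsRelUC865 K' → OpsCommUC865 K'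
                        → OpsPerUC865 K' → OpsAdjUC865 K' → OpsSigUC865 K' → OpsLinkUC865 K'
                        → BadOpUC865 K' → OpsUC865 K'
    upBasisUC_of_leaves865 : the 15 leaves + the closed ones → SU736.UpBasisUC K'

and the ADAPTERS to the forms of helper561 (`…C561_of_U865`): a proof of a core form gives the
form typed on `L2Data` for free (`H29.upOf`, `H29.isUpData_upOf`), so NOTHING is proved twice:
the owners of the leaves of helper561 prove the CORE form (same proof with `U` in place of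
`Dt`: every field of `IsL2Data` which is used is a field of `H29.IsUpData`; `const` is in the
form `T5.PlaceRel`).

`H561.ChangeC561 K'`, `H561.AtomsC561` are over `K'` alone already (closed: helper362,
helper899); `IwSysUp865 K'` is the closed leaf `SD534.IwSysC K' K'`; `SU736.StfUC K'` is closed
(T5).
-/

set_option autoImplicit false
set_option linter.unusedSectionVars false
set_option linter.unusedVariables false

open AutomorphicForm IsDedekindDomain NumberField MeasureTheory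
open scoped ComplexConjugate Matrix

noncomputable section

namespace Fermat.Agent.LT.T7.H865

open Fermat.Agent.LT.H556 Fermat.Agent.LT.H556.A0 Fermat.Agent.LT Fermat.Agent.LT.T7
open Fermat.Agent.LT.T7.H561

attribute [local instance] Fermat.Agent.LT.T5.instMeasurableSpaceG

/-! ## 1. The structures, on the upstairs data -/

section Structs

variable {K' : Type} [Field K'] [NumberField K']

/-- `v` is an orthonormal basis of the class of `C`: the invariant cusp functions of the base (core form) -/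
structure IsClassBasisU865 (U : H29.UpData K') (ℓ : ℕ) (C : EigData K') (n : ℕ)
    (v : Fin n → G K' → ℂ) : Prop where
  eig : ∀ a, IsEigFn U.𝔑₀ U.R'.r ℓ U.o (v a) C
  orth : ∀ a b, T5.innerD U.R'.μ U.R'.F (v a) (v b) = if a = b then 1 else 0
  span : ∀ (ψ : G K' → ℂ) (C' : EigData K'), IsEigFn U.𝔑₀ U.R'.r ℓ U.o ψ C' →
    C'.AgreeOut U.S' C → ∃ c : Fin n → ℂ, ∀ x : G K', ψ x = ∑ a, c a * v a x

/-- The properties of the blocks for the bad element `g` in the complete orthonormal sequence (core form) -/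
structure IsBlocksU865 (ℓ : ℕ) (Φ : HeckeEigensystem K' ℂ) (U : H29.UpData K') (g : G K')
    (e₀ : ℕ → G K' → ℂ) (𝔅 : Blocks561 K') : Prop where
  onb : T5.IsCuspONB (U.𝔑 g) T5.trivType U.R'.r U.R'.μ U.R'.F e₀
  inj : ∀ (i : 𝔅.ι) (a : Fin (𝔅.n i)) (i' : 𝔅.ι) (a' : Fin (𝔅.n i')),
    𝔅.idx i a = 𝔅.idx i' a' → (⟨i, a⟩ : Σ i, Fin (𝔅.n i)) = ⟨i', a'⟩
  unitary : ∀ i, (𝔅.C i).IsUnitaryOut U.S'
  distinct : ∀ i i', (𝔅.C i).AgreeOut U.S' (𝔅.C i') → i = i'
  basis : ∀ i, IsClassBasisU865 U ℓ (𝔅.C i) (𝔅.n i) (fun a => e₀ (𝔅.idx i a))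
  phi : ∃ i, (𝔅.C i).AgreeOut U.S' (eigOf Φ)
  iw : ∀ i, IsIwBlock561 ℓ ((Ideal.absNorm (U.o 0).asIdeal : ℕ) : ℝ)
    (𝔅.A i) (𝔅.B i) (𝔅.S i) (𝔅.ρ i)
  /-- the matrix coefficients inside a block -/
  coeff : ∀ X : List (Gen K'), (∀ x ∈ X, x.Out U.S') →
    ∀ (k : ℤ) (m : ℕ) (i : 𝔅.ι) (a b : Fin (𝔅.n i)),
      T5.innerD U.R'.μ U.R'.F
          (T5.Rconv U.R'.μ (U.φ' g X k m) (T5.Rsig U.s (e₀ (𝔅.idx i a))))
          (e₀ (𝔅.idx i b))
        = wordEv X (𝔅.C i)
          * (𝔅.B i * (𝔅.ρ i 0 * 𝔅.ρ i 0) ^ k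
              * (((Real.sqrt ((Ideal.absNorm (U.o 0).asIdeal : ℕ) : ℝ) : ℝ) : ℂ)⁻¹
                  • (𝔅.S i 0 * 𝔅.ρ i 0)) ^ m
              * 𝔅.A i) b a
  /-- the diagonal coefficients outside the blocks vanish -/
  off : ∀ X : List (Gen K'), (∀ x ∈ X, x.Out U.S') → ∀ (k : ℤ) (m : ℕ) (j : ℕ),
    (∀ (i : 𝔅.ι) (a : Fin (𝔅.n i)), 𝔅.idx i a ≠ j) →
    T5.diagCoeff U.s U.R'.μ U.R'.F (U.φ' g X k m) (e₀ j) = 0

/-- **The spectrum of the invariant cusp functions of the base level**  CORE FORM (on `H29.UpData`) of the declaration of the same name of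
helper561 (`T7/H561/{SpecUpSpec, BlocksSpec, OpsSpec}.lean`): see the proof sketch there. -/
structure IsWSpecU865 (U : H29.UpData K') (ℓ : ℕ) (ι : Type) (n : ι → ℕ) (C : ι → EigData K')
    (v : (i : ι) → Fin (n i) → G K' → ℂ) : Prop where
  countable : Countable ι
  unitary : ∀ i, (C i).IsUnitaryOut U.S'
  distinct : ∀ i i', (C i).AgreeOut U.S' (C i') → i = i'
  basis : ∀ i, IsClassBasisU865 U ℓ (C i) (n i) (v i)
  orth : ∀ (i i' : ι) (a : Fin (n i)) (a' : Fin (n i')), i ≠ i' →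
    T5.innerD U.R'.μ U.R'.F (v i a) (v i' a') = 0
  complete : ∀ ψ : G K' → ℂ, IsWFn U.𝔑₀ U.R'.r ℓ U.o ψ →
    HasSum (fun p : Σ i, Fin (n i) => ‖T5.innerD U.R'.μ U.R'.F ψ (v p.1 p.2)‖ ^ 2)
      (T5.innerD U.R'.μ U.R'.F ψ ψ).re
  cover : ∀ (ψ : G K' → ℂ) (C' : EigData K'), IsEigFn U.𝔑₀ U.R'.r ℓ U.o ψ C' →
    (∃ x : G K', ψ x ≠ 0) → ∃ i, C'.AgreeOut U.S' (C i)

/-- **The operators on the invariant cusp functions of the base level**  CORE FORM (on `H29.UpData`) of the declaration of the same name of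
helper561 (`T7/H561/{SpecUpSpec, BlocksSpec, OpsSpec}.lean`): see the proof sketch there. -/
structure IsWOpsU865 (U : H29.UpData K') (ℓ : ℕ) (g : G K') (Hs : ℕ → Finset (G K'))
    (ω : ℕ → G K') (Hg : Finset (G K')) : Prop where
  S_eig : ∀ (j : ℕ) (ψ : G K' → ℂ) (C : EigData K'), IsEigFn U.𝔑₀ U.R'.r ℓ U.o ψ C →
    IsEigFn U.𝔑₀ U.R'.r ℓ U.o (cosetOp (Hs j) ψ) C
  ρ_eig : ∀ (j : ℕ) (ψ : G K' → ℂ) (C : EigData K'), IsEigFn U.𝔑₀ U.R'.r ℓ U.o ψ C →
    IsEigFn U.𝔑₀ U.R'.r ℓ U.o (trOp561 (ω j) ψ) C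
  B_eig : ∀ (ψ : G K' → ℂ) (C : EigData K'), IsEigFn U.𝔑₀ U.R'.r ℓ U.o ψ C →
    IsEigFn U.𝔑₀ U.R'.r ℓ U.o (cosetOp Hg ψ) C
  S_quad : ∀ (j : ℕ) (ψ : G K' → ℂ), IsWFn U.𝔑₀ U.R'.r ℓ U.o ψ → ∀ x : G K',
    cosetOp (Hs j) (cosetOp (Hs j) ψ) x
      = (((Ideal.absNorm (U.o 0).asIdeal : ℕ) : ℂ) - 1) * cosetOp (Hs j) ψ x
        + ((Ideal.absNorm (U.o 0).asIdeal : ℕ) : ℂ) * ψ x
  ρ_central : ∀ (j : ℕ) (ψ : G K' → ℂ), IsWFn U.𝔑₀ U.R'.r ℓ U.o ψ → ∀ x : G K',
    trOp561 (ω j) (trOp561 (ω j) (cosetOp (Hs j) ψ)) x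
      = cosetOp (Hs j) (trOp561 (ω j) (trOp561 (ω j) ψ)) x
  comm_SS : ∀ j j' : ℕ, j < ℓ → j' < ℓ → j ≠ j' →
    ∀ ψ : G K' → ℂ, IsWFn U.𝔑₀ U.R'.r ℓ U.o ψ → ∀ x : G K',
      cosetOp (Hs j) (cosetOp (Hs j') ψ) x = cosetOp (Hs j') (cosetOp (Hs j) ψ) x
  comm_Sρ : ∀ j j' : ℕ, j < ℓ → j' < ℓ → j ≠ j' →
    ∀ ψ : G K' → ℂ, IsWFn U.𝔑₀ U.R'.r ℓ U.o ψ → ∀ x : G K',
      cosetOp (Hs j) (trOp561 (ω j') ψ) x = trOp561 (ω j') (cosetOp (Hs j) ψ) x
  comm_ρρ : ∀ j j' : ℕ, j < ℓ → j' < ℓ → j ≠ j' →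
    ∀ ψ : G K' → ℂ, IsWFn U.𝔑₀ U.R'.r ℓ U.o ψ → ∀ x : G K',
      trOp561 (ω j) (trOp561 (ω j') ψ) x = trOp561 (ω j') (trOp561 (ω j) ψ) x
  per_S : ∀ (j : ℕ) (ψ : G K' → ℂ), IsWFn U.𝔑₀ U.R'.r ℓ U.o ψ → ∀ x : G K',
    cosetOp (Hs (j + ℓ)) ψ x = cosetOp (Hs j) ψ x
  per_ρ : ∀ (j : ℕ) (ψ : G K' → ℂ), IsWFn U.𝔑₀ U.R'.r ℓ U.o ψ → ∀ x : G K',
    trOp561 (ω (j + ℓ)) ψ x = trOp561 (ω j) ψ x
  B_S : ∀ (j : ℕ) (ψ : G K' → ℂ), IsWFn U.𝔑₀ U.R'.r ℓ U.o ψ → ∀ x : G K',
    cosetOp Hg (cosetOp (Hs j) ψ) x = cosetOp (Hs j) (cosetOp Hg ψ) x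
  B_ρ : ∀ (j : ℕ) (ψ : G K' → ℂ), IsWFn U.𝔑₀ U.R'.r ℓ U.o ψ → ∀ x : G K',
    cosetOp Hg (trOp561 (ω j) ψ) x = trOp561 (ω j) (cosetOp Hg ψ) x
  S_adj : ∀ (j : ℕ) (ψ χ : G K' → ℂ), IsWFn U.𝔑₀ U.R'.r ℓ U.o ψ →
    IsWFn U.𝔑₀ U.R'.r ℓ U.o χ →
    T5.innerD U.R'.μ U.R'.F (cosetOp (Hs j) ψ) χ
      = T5.innerD U.R'.μ U.R'.F ψ (cosetOp (Hs j) χ)
  ρ_iso : ∀ (j : ℕ) (ψ χ : G K' → ℂ), IsWFn U.𝔑₀ U.R'.r ℓ U.o ψ →
    IsWFn U.𝔑₀ U.R'.r ℓ U.o χ →
    T5.innerD U.R'.μ U.R'.F (trOp561 (ω j) ψ) (trOp561 (ω j) χ)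
      = T5.innerD U.R'.μ U.R'.F ψ χ
  σ_S : ∀ (j : ℕ) (ψ : G K' → ℂ), IsWFn U.𝔑₀ U.R'.r ℓ U.o ψ → ∀ x : G K',
    T5.Rsig U.s (cosetOp (Hs j) ψ) x = cosetOp (Hs (j + 1)) (T5.Rsig U.s ψ) x
  σ_ρ : ∀ (j : ℕ) (ψ : G K' → ℂ), IsWFn U.𝔑₀ U.R'.r ℓ U.o ψ → ∀ x : G K',
    T5.Rsig U.s (trOp561 (ω j) ψ) x = trOp561 (ω (j + 1)) (T5.Rsig U.s ψ) x
  dbl : IsDblCosetSystem U.𝔑₀ g Hg
  iwsys : IsIwCosetSystem (U.o 0) ((Hs 0).map (mulRightEmbedding (ω 0)))
  unif : IsScalarUniformizerAt (U.o 0) (ω 0 * ω 0)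

/-- The hypotheses of the core nodes on the data (`ℓ = 2` allowed). -/
structure IsSetupU865 (ℓ : ℕ) (Φ : HeckeEigensystem K' ℂ) (U : H29.UpData K') : Prop where
  prime : ℓ.Prime
  cplx : TotCplx K'
  cusp : A0.IsCuspAdelicSph0 K' Φ
  data : H29.IsUpData ℓ Φ U

/-- **The explicit systems along the orbit.**  CORE FORM (on `H29.UpData`) of the declaration of the same name of
helper561 (`T7/H561/{SpecUpSpec, BlocksSpec, OpsSpec}.lean`): see the proof sketch there. -/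
structure IsIwSysU865 (U : H29.UpData K') (Hs : ℕ → Finset (G K')) (ω : ℕ → G K') : Prop where
  ω_local : ∀ j, IsLocalAtFin (U.o j) (ω j)
  ω_comp : ∀ j, ∃ c : (U.o j).adicCompletion K', Valued.v c = WithZero.exp (-1 : ℤ) ∧
    finComp (U.o j) (ω j) = !![0, 1; c, 0]
  Hs_card : ∀ j, (Hs j).card = Ideal.absNorm (U.o j).asIdeal
  Hs_local : ∀ j, ∀ h ∈ Hs j, IsLocalAtFin (U.o j) h
  Hs_comp : ∀ j, ∀ h ∈ Hs j, ∃ a : (U.o j).adicCompletion K',
    a ∈ (U.o j).adicCompletionIntegers K' ∧ finComp (U.o j) h = !![a, 1; 1, 0]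
  Hs_inj : ∀ j, ∀ h ∈ Hs j, ∀ h' ∈ Hs j, h ≠ h' → ¬ T5.InIwahori (U.o j) (h⁻¹ * h')

end Structs

/-! ## 2. The Props, core form -/

section Props

variable (K' : Type) [Field K'] [NumberField K']

/-- **NODE T7.L2.2.B = BLOCKS.**  CORE FORM (on `H29.UpData`) of the declaration of the same name of
helper561 (`T7/H561/{SpecUpSpec, BlocksSpec, OpsSpec}.lean`): see the proof sketch there. -/
def BlocksUC865 : Prop :=
  ∀ ℓ : ℕ, ℓ.Prime → TotCplx K' →
    ∀ Φ : HeckeEigensystem K' ℂ, A0.IsCuspAdelicSph0 K' Φ →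
      ∀ U : H29.UpData K', H29.IsUpData ℓ Φ U → H29.BaseStableU U →
      ∀ g : G K', U.IsBad g →
        ∃ (e₀ : ℕ → G K' → ℂ) (𝔅 : Blocks561 K'), IsBlocksU865 ℓ Φ U g e₀ 𝔅

/-- **LEAF T7.L2.2.B1 = W-SPEC.**  CORE FORM (on `H29.UpData`) of the declaration of the same name of
helper561 (`T7/H561/{SpecUpSpec, BlocksSpec, OpsSpec}.lean`): see the proof sketch there. -/
def WSpecUC865 : Prop :=
  ∀ ℓ : ℕ, ℓ.Prime → TotCplx K' →
    ∀ Φ : HeckeEigensystem K' ℂ, A0.IsCuspAdelicSph0 K' Φ →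
      ∀ U : H29.UpData K', H29.IsUpData ℓ Φ U →
        ∃ (ι : Type) (n : ι → ℕ) (C : ι → EigData K') (v : (i : ι) → Fin (n i) → G K' → ℂ),
          IsWSpecU865 U ℓ ι n C v

/-- **LEAF T7.L2.2.B2 = COMPLETE.**  CORE FORM (on `H29.UpData`) of the declaration of the same name of
helper561 (`T7/H561/{SpecUpSpec, BlocksSpec, OpsSpec}.lean`): see the proof sketch there. -/
def CompleteUC865 : Prop :=
  ∀ ℓ : ℕ, ℓ.Prime → TotCplx K' →
    ∀ Φ : HeckeEigensystem K' ℂ, A0.IsCuspAdelicSph0 K' Φ →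
      ∀ U : H29.UpData K', H29.IsUpData ℓ Φ U → ∀ g : G K', U.IsBad g →
      ∀ (ι : Type) (n : ι → ℕ) (C : ι → EigData K') (v : (i : ι) → Fin (n i) → G K' → ℂ),
        IsWSpecU865 U ℓ ι n C v →
        ∃ (e₀ : ℕ → G K' → ℂ) (idx : (i : ι) → Fin (n i) → ℕ),
          T5.IsCuspONB (U.𝔑 g) T5.trivType U.R'.r U.R'.μ U.R'.F e₀ ∧
          (∀ (i : ι) (a : Fin (n i)) (i' : ι) (a' : Fin (n i')), idx i a = idx i' a' →
            (⟨i, a⟩ : Σ i, Fin (n i)) = ⟨i', a'⟩) ∧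
          (∀ (i : ι) (a : Fin (n i)), e₀ (idx i a) = v i a) ∧
          ∀ j : ℕ, (∀ (i : ι) (a : Fin (n i)), idx i a ≠ j) →
            ∀ χ : G K' → ℂ, IsWFn U.𝔑₀ U.R'.r ℓ U.o χ →
              T5.innerD U.R'.μ U.R'.F (e₀ j) χ = 0

/-- **LEAF T7.L2.2.B3 = SIGMA.**  CORE FORM (on `H29.UpData`) of the declaration of the same name of
helper561 (`T7/H561/{SpecUpSpec, BlocksSpec, OpsSpec}.lean`): see the proof sketch there. -/
def SigmaUC865 : Prop :=
  ∀ ℓ : ℕ, ℓ.Prime → TotCplx K' →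
    ∀ Φ : HeckeEigensystem K' ℂ, A0.IsCuspAdelicSph0 K' Φ →
      ∀ U : H29.UpData K', H29.IsUpData ℓ Φ U → H29.BaseStableU U →
        ∃ σC : EigData K' → EigData K',
          (∀ C C' : EigData K', C.AgreeOut U.S' C' → (σC C).AgreeOut U.S' (σC C')) ∧
          (∀ (ψ : G K' → ℂ) (C : EigData K'), IsEigFn U.𝔑₀ U.R'.r ℓ U.o ψ C →
            IsEigFn U.𝔑₀ U.R'.r ℓ U.o (T5.Rsig U.s ψ) (σC C)) ∧
          (σC (eigOf Φ)).AgreeOut U.S' (eigOf Φ)

/-- **NODE T7.L2.2.B4 = OPS.**  CORE FORM (on `H29.UpData`) of the declaration of the same name of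
helper561 (`T7/H561/{SpecUpSpec, BlocksSpec, OpsSpec}.lean`): see the proof sketch there. -/
def OpsUC865 : Prop :=
  ∀ ℓ : ℕ, ℓ.Prime → TotCplx K' →
    ∀ Φ : HeckeEigensystem K' ℂ, A0.IsCuspAdelicSph0 K' Φ →
      ∀ U : H29.UpData K', H29.IsUpData ℓ Φ U → H29.BaseStableU U → ∀ g : G K', U.IsBad g →
        ∃ (Hs : ℕ → Finset (G K')) (ω : ℕ → G K') (Hg : Finset (G K')),
          IsWOpsU865 U ℓ g Hs ω Hg

/-- **LEAF T7.L2.2.B5 = PHI.**  CORE FORM (on `H29.UpData`) of the declaration of the same name of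
helper561 (`T7/H561/{SpecUpSpec, BlocksSpec, OpsSpec}.lean`): see the proof sketch there. -/
def PhiUC865 : Prop :=
  ∀ ℓ : ℕ, ℓ.Prime → TotCplx K' →
    ∀ Φ : HeckeEigensystem K' ℂ, A0.IsCuspAdelicSph0 K' Φ →
      ∀ U : H29.UpData K', H29.IsUpData ℓ Φ U →
        ∃ ψ : G K' → ℂ, IsEigFn U.𝔑₀ U.R'.r ℓ U.o ψ (eigOf Φ) ∧ ∃ x : G K', ψ x ≠ 0

/-- **LEAF T7.L2.2.B6 = OFF-W.**  CORE FORM (on `H29.UpData`) of the declaration of the same name of
helper561 (`T7/H561/{SpecUpSpec, BlocksSpec, OpsSpec}.lean`): see the proof sketch there. -/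
def OffWUC865 : Prop :=
  ∀ ℓ : ℕ, ℓ.Prime → TotCplx K' →
    ∀ Φ : HeckeEigensystem K' ℂ, A0.IsCuspAdelicSph0 K' Φ →
      ∀ U : H29.UpData K', H29.IsUpData ℓ Φ U → ∀ g : G K', U.IsBad g →
      ∀ (ι : Type) (n : ι → ℕ) (C : ι → EigData K') (v : (i : ι) → Fin (n i) → G K' → ℂ),
        IsWSpecU865 U ℓ ι n C v →
        (∀ X : List (Gen K'), (∀ x ∈ X, x.Out U.S') → ∀ (k : ℤ) (m : ℕ) (ψ : G K' → ℂ)
          (C' : EigData K'), IsEigFn U.𝔑₀ U.R'.r ℓ U.o ψ C' →
            IsWFn U.𝔑₀ U.R'.r ℓ U.o (T5.Rconv U.R'.μ (U.φ' g X k m) ψ)) →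
        ∀ e : G K' → ℂ, T5.IsCuspFn (U.𝔑 g) T5.trivType U.R'.r e →
          (∀ χ : G K' → ℂ, IsWFn U.𝔑₀ U.R'.r ℓ U.o χ →
            T5.innerD U.R'.μ U.R'.F e χ = 0) →
          ∀ X : List (Gen K'), (∀ x ∈ X, x.Out U.S') → ∀ (k : ℤ) (m : ℕ),
            T5.diagCoeff U.s U.R'.μ U.R'.F (U.φ' g X k m) e = 0

/-- **LEAF T7.L2.2.B7 = BLOCKS-ASSEMBLY.**  CORE FORM (on `H29.UpData`) of the declaration of the same name of
helper561 (`T7/H561/{SpecUpSpec, BlocksSpec, OpsSpec}.lean`): see the proof sketch there. -/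
def BlocksAsmUC865 : Prop :=
  WSpecUC865 K' → CompleteUC865 K' → SigmaUC865 K' → OpsUC865 K' → PhiUC865 K' →
    OffWUC865 K' → BlocksUC865 K'

/-- **LEAF B4.1 = IW-SYS-EXISTS.**  CORE FORM (on `H29.UpData`) of the declaration of the same name of
helper561 (`T7/H561/{SpecUpSpec, BlocksSpec, OpsSpec}.lean`): see the proof sketch there. -/
def IwSysExistsUC865 : Prop :=
  ∀ (ℓ : ℕ) (Φ : HeckeEigensystem K' ℂ) (U : H29.UpData K'), IsSetupU865 ℓ Φ U →
    ∃ (Hs : ℕ → Finset (G K')) (ω : ℕ → G K'), IsIwSysU865 U Hs ω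

/-- **LEAF B4.2 = OPS-EIG.**  CORE FORM (on `H29.UpData`) of the declaration of the same name of
helper561 (`T7/H561/{SpecUpSpec, BlocksSpec, OpsSpec}.lean`): see the proof sketch there. -/
def OpsEigUC865 : Prop :=
  ∀ (ℓ : ℕ) (Φ : HeckeEigensystem K' ℂ) (U : H29.UpData K'), IsSetupU865 ℓ Φ U →
    ∀ (Hs : ℕ → Finset (G K')) (ω : ℕ → G K'), IsIwSysU865 U Hs ω →
      ∀ (j : ℕ) (ψ : G K' → ℂ) (C : EigData K'), IsEigFn U.𝔑₀ U.R'.r ℓ U.o ψ C →
        IsEigFn U.𝔑₀ U.R'.r ℓ U.o (cosetOp (Hs j) ψ) C ∧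
        IsEigFn U.𝔑₀ U.R'.r ℓ U.o (trOp561 (ω j) ψ) C

/-- **LEAF B4.3 = OPS-REL.**  CORE FORM (on `H29.UpData`) of the declaration of the same name of
helper561 (`T7/H561/{SpecUpSpec, BlocksSpec, OpsSpec}.lean`): see the proof sketch there. -/
def OpsRelUC865 : Prop :=
  ∀ (ℓ : ℕ) (Φ : HeckeEigensystem K' ℂ) (U : H29.UpData K'), IsSetupU865 ℓ Φ U →
    ∀ (Hs : ℕ → Finset (G K')) (ω : ℕ → G K'), IsIwSysU865 U Hs ω →
      ∀ (j : ℕ) (ψ : G K' → ℂ), IsWFn U.𝔑₀ U.R'.r ℓ U.o ψ → ∀ x : G K',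
        cosetOp (Hs j) (cosetOp (Hs j) ψ) x
          = (((Ideal.absNorm (U.o 0).asIdeal : ℕ) : ℂ) - 1) * cosetOp (Hs j) ψ x
            + ((Ideal.absNorm (U.o 0).asIdeal : ℕ) : ℂ) * ψ x ∧
        trOp561 (ω j) (trOp561 (ω j) (cosetOp (Hs j) ψ)) x
          = cosetOp (Hs j) (trOp561 (ω j) (trOp561 (ω j) ψ)) x

/-- **LEAF B4.4 = OPS-COMM.**  CORE FORM (on `H29.UpData`) of the declaration of the same name of
helper561 (`T7/H561/{SpecUpSpec, BlocksSpec, OpsSpec}.lean`): see the proof sketch there. -/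
def OpsCommUC865 : Prop :=
  ∀ (ℓ : ℕ) (Φ : HeckeEigensystem K' ℂ) (U : H29.UpData K'), IsSetupU865 ℓ Φ U →
    ∀ (Hs : ℕ → Finset (G K')) (ω : ℕ → G K'), IsIwSysU865 U Hs ω →
      ∀ j j' : ℕ, j < ℓ → j' < ℓ → j ≠ j' → ∀ (ψ : G K' → ℂ) (x : G K'),
        cosetOp (Hs j) (cosetOp (Hs j') ψ) x = cosetOp (Hs j') (cosetOp (Hs j) ψ) x ∧
        cosetOp (Hs j) (trOp561 (ω j') ψ) x = trOp561 (ω j') (cosetOp (Hs j) ψ) x ∧
        trOp561 (ω j) (trOp561 (ω j') ψ) x = trOp561 (ω j') (trOp561 (ω j) ψ) x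

/-- **LEAF B4.5 = OPS-PER.**  CORE FORM (on `H29.UpData`) of the declaration of the same name of
helper561 (`T7/H561/{SpecUpSpec, BlocksSpec, OpsSpec}.lean`): see the proof sketch there. -/
def OpsPerUC865 : Prop :=
  ∀ (ℓ : ℕ) (Φ : HeckeEigensystem K' ℂ) (U : H29.UpData K'), IsSetupU865 ℓ Φ U →
    ∀ (Hs : ℕ → Finset (G K')) (ω : ℕ → G K'), IsIwSysU865 U Hs ω →
      ∀ (j : ℕ) (ψ : G K' → ℂ), IsWFn U.𝔑₀ U.R'.r ℓ U.o ψ → ∀ x : G K',
        cosetOp (Hs (j + ℓ)) ψ x = cosetOp (Hs j) ψ x ∧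
        trOp561 (ω (j + ℓ)) ψ x = trOp561 (ω j) ψ x

/-- **LEAF B4.6 = OPS-ADJ.**  CORE FORM (on `H29.UpData`) of the declaration of the same name of
helper561 (`T7/H561/{SpecUpSpec, BlocksSpec, OpsSpec}.lean`): see the proof sketch there. -/
def OpsAdjUC865 : Prop :=
  ∀ (ℓ : ℕ) (Φ : HeckeEigensystem K' ℂ) (U : H29.UpData K'), IsSetupU865 ℓ Φ U →
    ∀ (Hs : ℕ → Finset (G K')) (ω : ℕ → G K'), IsIwSysU865 U Hs ω →
      ∀ (j : ℕ) (ψ χ : G K' → ℂ), IsWFn U.𝔑₀ U.R'.r ℓ U.o ψ →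
        IsWFn U.𝔑₀ U.R'.r ℓ U.o χ →
        T5.innerD U.R'.μ U.R'.F (cosetOp (Hs j) ψ) χ
          = T5.innerD U.R'.μ U.R'.F ψ (cosetOp (Hs j) χ) ∧
        T5.innerD U.R'.μ U.R'.F (trOp561 (ω j) ψ) (trOp561 (ω j) χ)
          = T5.innerD U.R'.μ U.R'.F ψ χ

/-- **LEAF B4.7 = OPS-SIGMA.**  CORE FORM (on `H29.UpData`) of the declaration of the same name of
helper561 (`T7/H561/{SpecUpSpec, BlocksSpec, OpsSpec}.lean`): see the proof sketch there. -/
def OpsSigUC865 : Prop :=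
  ∀ (ℓ : ℕ) (Φ : HeckeEigensystem K' ℂ) (U : H29.UpData K'), IsSetupU865 ℓ Φ U →
    H29.BaseStableU U →
    ∀ (Hs : ℕ → Finset (G K')) (ω : ℕ → G K'), IsIwSysU865 U Hs ω →
      ∀ (j : ℕ) (ψ : G K' → ℂ), IsWFn U.𝔑₀ U.R'.r ℓ U.o ψ → ∀ x : G K',
        T5.Rsig U.s (cosetOp (Hs j) ψ) x = cosetOp (Hs (j + 1)) (T5.Rsig U.s ψ) x ∧
        T5.Rsig U.s (trOp561 (ω j) ψ) x = trOp561 (ω (j + 1)) (T5.Rsig U.s ψ) x

/-- **LEAF B4.8 = OPS-LINK.**  CORE FORM (on `H29.UpData`) of the declaration of the same name of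
helper561 (`T7/H561/{SpecUpSpec, BlocksSpec, OpsSpec}.lean`): see the proof sketch there. -/
def OpsLinkUC865 : Prop :=
  ∀ (ℓ : ℕ) (Φ : HeckeEigensystem K' ℂ) (U : H29.UpData K'), IsSetupU865 ℓ Φ U →
    ∀ (Hs : ℕ → Finset (G K')) (ω : ℕ → G K'), IsIwSysU865 U Hs ω →
      IsIwCosetSystem (U.o 0) ((Hs 0).map (mulRightEmbedding (ω 0))) ∧
      IsScalarUniformizerAt (U.o 0) (ω 0 * ω 0)

/-- **LEAF B4.9 = BAD-OP.**  CORE FORM (on `H29.UpData`) of the declaration of the same name of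
helper561 (`T7/H561/{SpecUpSpec, BlocksSpec, OpsSpec}.lean`): see the proof sketch there. -/
def BadOpUC865 : Prop :=
  ∀ (ℓ : ℕ) (Φ : HeckeEigensystem K' ℂ) (U : H29.UpData K'), IsSetupU865 ℓ Φ U →
    ∀ g : G K', U.IsBad g →
      ∃ Hg : Finset (G K'), IsDblCosetSystem U.𝔑₀ g Hg ∧
        (∀ (ψ : G K' → ℂ) (C : EigData K'), IsEigFn U.𝔑₀ U.R'.r ℓ U.o ψ C →
          IsEigFn U.𝔑₀ U.R'.r ℓ U.o (cosetOp Hg ψ) C) ∧
        ∀ (Hs : ℕ → Finset (G K')) (ω : ℕ → G K'), IsIwSysU865 U Hs ω →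
          ∀ (j : ℕ) (ψ : G K' → ℂ), IsWFn U.𝔑₀ U.R'.r ℓ U.o ψ → ∀ x : G K',
            cosetOp Hg (cosetOp (Hs j) ψ) x = cosetOp (Hs j) (cosetOp Hg ψ) x ∧
            cosetOp Hg (trOp561 (ω j) ψ) x = trOp561 (ω j) (cosetOp Hg ψ) x

end Props

/-! ## 3. The tops -/

section Tops

variable {K' : Type} [Field K'] [NumberField K']

/-- **THE TOP OF THE NODE `BlocksUC865`.** -/
theorem blocksUC_of865 (hZ : BlocksAsmUC865 K') (hW : WSpecUC865 K') (hC : CompleteUC865 K')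
    (hS : SigmaUC865 K') (hO : OpsUC865 K') (hP : PhiUC865 K') (hF : OffWUC865 K') :
    BlocksUC865 K' :=
  hZ hW hC hS hO hP hF

/-- **THE TOP OF THE NODE `OpsUC865`.** -/
theorem opsUC_of865 (hX : IwSysExistsUC865 K') (hE : OpsEigUC865 K') (hR : OpsRelUC865 K')
    (hM : OpsCommUC865 K') (hP : OpsPerUC865 K') (hA : OpsAdjUC865 K')
    (hS : OpsSigUC865 K') (hL : OpsLinkUC865 K') (hB : BadOpUC865 K') : OpsUC865 K' := by
  intro ℓ hℓ hcplx Φ hΦ U hU hst g hg
  have hs : IsSetupU865 ℓ Φ U := ⟨hℓ, hcplx, hΦ, hU⟩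
  obtain ⟨Hs, ω, hsys⟩ := hX ℓ Φ U hs
  obtain ⟨Hg, hdbl, hBe, hBc⟩ := hB ℓ Φ U hs g hg
  refine ⟨Hs, ω, Hg, ?_⟩
  exact
    { S_eig := fun j ψ C h => (hE ℓ Φ U hs Hs ω hsys j ψ C h).1
      ρ_eig := fun j ψ C h => (hE ℓ Φ U hs Hs ω hsys j ψ C h).2
      B_eig := hBe
      S_quad := fun j ψ h x => (hR ℓ Φ U hs Hs ω hsys j ψ h x).1
      ρ_central := fun j ψ h x => (hR ℓ Φ U hs Hs ω hsys j ψ h x).2
      comm_SS := fun j j' h1 h2 h3 ψ _ x => (hM ℓ Φ U hs Hs ω hsys j j' h1 h2 h3 ψ x).1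
      comm_Sρ := fun j j' h1 h2 h3 ψ _ x => (hM ℓ Φ U hs Hs ω hsys j j' h1 h2 h3 ψ x).2.1
      comm_ρρ := fun j j' h1 h2 h3 ψ _ x => (hM ℓ Φ U hs Hs ω hsys j j' h1 h2 h3 ψ x).2.2
      per_S := fun j ψ h x => (hP ℓ Φ U hs Hs ω hsys j ψ h x).1
      per_ρ := fun j ψ h x => (hP ℓ Φ U hs Hs ω hsys j ψ h x).2
      B_S := fun j ψ h x => (hBc Hs ω hsys j ψ h x).1
      B_ρ := fun j ψ h x => (hBc Hs ω hsys j ψ h x).2
      S_adj := fun j ψ χ h1 h2 => (hA ℓ Φ U hs Hs ω hsys j ψ χ h1 h2).1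
      ρ_iso := fun j ψ χ h1 h2 => (hA ℓ Φ U hs Hs ω hsys j ψ χ h1 h2).2
      σ_S := fun j ψ h x => (hS ℓ Φ U hs hst Hs ω hsys j ψ h x).1
      σ_ρ := fun j ψ h x => (hS ℓ Φ U hs hst Hs ω hsys j ψ h x).2
      dbl := hdbl
      iwsys := (hL ℓ Φ U hs Hs ω hsys).1
      unif := (hL ℓ Φ U hs Hs ω hsys).2 }

/-- **THE TOP OF THE NODE `UpBasisUC`** (core form): the bridge to the core forms of the leaves
of helper561. -/
theorem upBasisUC_of865 (hStf : SU736.StfUC K') (hB : BlocksUC865 K')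
    (hCh : H561.ChangeC561 K') (hA : H561.AtomsC561) (hS : SigmaUC865 K')
    (hIw : IwSysUp865 K') : SU736.UpBasisUC K' := by
  classical
  intro ℓ hℓp hcplx Φ hΦ U hU hst g hg
  obtain ⟨e₀, 𝔅, hBl⟩ := hB ℓ hℓp hcplx Φ hΦ U hU hst g hg
  obtain ⟨σC, -, hσ2, hσ3⟩ := hS ℓ hℓp hcplx Φ hΦ U hU hst
  obtain ⟨⟨H, hH⟩, ⟨z, hz⟩⟩ := hIw (U.o 0)
  obtain ⟨i₀, hi₀⟩ := hBl.phi
  -- abbreviations
  set μ := U.R'.μ with hμ
  set F := U.R'.F with hF
  set q : ℝ := ((Ideal.absNorm (U.o 0).asIdeal : ℕ) : ℝ) with hq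
  have hℓ0 : 0 < ℓ := hℓp.pos
  have hq1 : 1 ≤ q := by
    have h0 : Ideal.absNorm (U.o 0).asIdeal ≠ 0 := by
      rw [Ne, Ideal.absNorm_eq_zero_iff]
      exact (U.o 0).ne_bot
    have : 1 ≤ Ideal.absNorm (U.o 0).asIdeal := Nat.one_le_iff_ne_zero.2 h0
    rw [hq]
    exact_mod_cast this
  have hsq1 : 1 ≤ Real.sqrt q := by
    rw [← Real.sqrt_one]
    exact Real.sqrt_le_sqrt hq1
  -- the atoms of the blocks
  have hat : ∀ i : 𝔅.ι, ∃ (Q : Matrix (Fin (𝔅.n i)) (Fin (𝔅.n i)) ℂ)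
      (t b l : Fin (𝔅.n i) → ℂ),
      Q ∈ Matrix.unitaryGroup (Fin (𝔅.n i)) ℂ ∧
      (∀ a, t a = 0 ∨ t a = (Qᴴ * (𝔅.B i * 𝔅.A i) * Q) a a) ∧
      (∀ a, IsRegParam (Real.sqrt q) (b a) (l a)) ∧
      ∀ (k : ℤ) (m : ℕ),
        Matrix.trace (𝔅.B i * (𝔅.ρ i 0 * 𝔅.ρ i 0) ^ k
            * (((Real.sqrt q : ℝ) : ℂ)⁻¹ • (𝔅.S i 0 * 𝔅.ρ i 0)) ^ m * 𝔅.A i)
          = ∑ a, t a * b a ^ k * l a ^ m :=
    fun i => hA (𝔅.n i) ℓ q (𝔅.A i) (𝔅.B i) (𝔅.S i) (𝔅.ρ i) hℓ0 hq1 (hBl.iw i)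
  choose Q t bb ll hQ ht hreg htr using hat
  -- the changed sequence (used for the summability only)
  have hnorm : ∀ (i : 𝔅.ι) (a : Fin (𝔅.n i)),
      T5.innerD μ F (e₀ (𝔅.idx i a)) (e₀ (𝔅.idx i a)) = 1 := by
    intro i a
    have := (hBl.basis i).orth a a
    rwa [if_pos rfl] at this
  obtain ⟨e', hONB', -, -, hdiag'⟩ := hCh U.s (U.𝔑 g) μ F U.R'.r hU.frame'.frame
    hU.frame'.ray (hU.aut g hg) e₀ hBl.onb 𝔅.ι 𝔅.n 𝔅.idx hBl.inj hnorm Q hQ
  -- the index bookkeeping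
  set f : (Σ i, Fin (𝔅.n i)) → ℕ := fun p => 𝔅.idx p.1 p.2 with hf
  have hfinj : Function.Injective f := by
    rintro ⟨i, a⟩ ⟨i', a'⟩ h
    exact hBl.inj i a i' a' h
  set dat : ℕ → Option (Σ i, Fin (𝔅.n i)) := Function.partialInv f with hdat
  have hdat_some : ∀ (i : 𝔅.ι) (a : Fin (𝔅.n i)), dat (𝔅.idx i a) = some ⟨i, a⟩ :=
    fun i a => Function.partialInv_left hfinj ⟨i, a⟩
  have hdat_inv : ∀ (j : ℕ) (p : Σ i, Fin (𝔅.n i)), dat j = some p → 𝔅.idx p.1 p.2 = j :=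
    fun j p h => (hfinj.isPartialInv p j).1 h
  have hidx_inj : ∀ i : 𝔅.ι, Function.Injective (𝔅.idx i) := by
    intro i a a' h
    have := hfinj (a₁ := ⟨i, a⟩) (a₂ := ⟨i, a'⟩) h
    exact eq_of_heq (Sigma.mk.inj this).2
  -- the data
  set I : Set ℕ := Set.range f with hI
  set blk : ℕ → Finset ℕ := fun j =>
    (dat j).elim ∅ (fun p => Finset.univ.image (𝔅.idx p.1)) with hblk
  set C : ℕ → EigData K' := fun j => (dat j).elim (𝔅.C i₀) (fun p => 𝔅.C p.1) with hC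
  set y : ℕ → ℂ := fun j => (dat j).elim 0 (fun p => t p.1 p.2) with hy
  set b : ℕ → ℂ := fun j => (dat j).elim 1 (fun p => bb p.1 p.2) with hb
  set l : ℕ → ℂ := fun j => (dat j).elim 1 (fun p => ll p.1 p.2) with hl
  set J : Finset ℕ := Finset.univ.image (𝔅.idx i₀) with hJ
  have hnone : ∀ j, j ∉ I → dat j = none := by
    intro j hj
    cases hd : dat j with
    | none => rfl
    | some p => exact absurd ⟨p, hdat_inv j p hd⟩ hj
  have hblk_idx : ∀ (i : 𝔅.ι) (a : Fin (𝔅.n i)),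
      blk (𝔅.idx i a) = Finset.univ.image (𝔅.idx i) := by
    intro i a
    show (dat (𝔅.idx i a)).elim ∅ (fun p => Finset.univ.image (𝔅.idx p.1)) = _
    rw [hdat_some]
    rfl
  have hC_idx : ∀ (i : 𝔅.ι) (a : Fin (𝔅.n i)), C (𝔅.idx i a) = 𝔅.C i := by
    intro i a
    show (dat (𝔅.idx i a)).elim (𝔅.C i₀) (fun p => 𝔅.C p.1) = _
    rw [hdat_some]
    rfl
  have hy_idx : ∀ (i : 𝔅.ι) (a : Fin (𝔅.n i)), y (𝔅.idx i a) = t i a := by
    intro i a
    show (dat (𝔅.idx i a)).elim 0 (fun p => t p.1 p.2) = _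
    rw [hdat_some]
    rfl
  have hb_idx : ∀ (i : 𝔅.ι) (a : Fin (𝔅.n i)), b (𝔅.idx i a) = bb i a := by
    intro i a
    show (dat (𝔅.idx i a)).elim 1 (fun p => bb p.1 p.2) = _
    rw [hdat_some]
    rfl
  have hl_idx : ∀ (i : 𝔅.ι) (a : Fin (𝔅.n i)), l (𝔅.idx i a) = ll i a := by
    intro i a
    show (dat (𝔅.idx i a)).elim 1 (fun p => ll p.1 p.2) = _
    rw [hdat_some]
    rfl
  have hy_out : ∀ j, j ∉ I → y j = 0 := by
    intro j hj
    show (dat j).elim 0 (fun p => t p.1 p.2) = 0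
    rw [hnone j hj]
    rfl
  -- the test functions
  have htest : ∀ (X : List (Gen K')) (k : ℤ) (m : ℕ), (∀ x ∈ X, x.Out U.S') →
      T5.IsTestFn (U.𝔑 g) T5.trivType (U.φ' g X k m) :=
    fun X k m hX => (hU.ekprod_up g X k m hg hX).1
  have hnil : ∀ x ∈ ([] : List (Gen K')), x.Out U.S' := fun x hx => absurd hx (List.not_mem_nil)
  -- the sum of the diagonal coefficients over a block is a trace
  have hblock : ∀ (i : 𝔅.ι) (X : List (Gen K')) (k : ℤ) (m : ℕ), (∀ x ∈ X, x.Out U.S') →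
      ∑ a, T5.diagCoeff U.s μ F (U.φ' g X k m) (e₀ (𝔅.idx i a))
        = ∑ a, wordEv X (𝔅.C i) * t i a * bb i a ^ k * ll i a ^ m := by
    intro i X k m hX
    have h1 : ∀ a, T5.diagCoeff U.s μ F (U.φ' g X k m) (e₀ (𝔅.idx i a))
        = wordEv X (𝔅.C i) * (𝔅.B i * (𝔅.ρ i 0 * 𝔅.ρ i 0) ^ k
            * (((Real.sqrt q : ℝ) : ℂ)⁻¹ • (𝔅.S i 0 * 𝔅.ρ i 0)) ^ m * 𝔅.A i) a a :=
      fun a => hBl.coeff X hX k m i a a
    rw [Finset.sum_congr rfl fun a _ => h1 a, ← Finset.mul_sum]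
    have h2 : ∑ a, (𝔅.B i * (𝔅.ρ i 0 * 𝔅.ρ i 0) ^ k
        * (((Real.sqrt q : ℝ) : ℂ)⁻¹ • (𝔅.S i 0 * 𝔅.ρ i 0)) ^ m * 𝔅.A i) a a
        = ∑ a, t i a * bb i a ^ k * ll i a ^ m := htr i k m
    rw [h2, Finset.mul_sum]
    refine Finset.sum_congr rfl fun a _ => ?_
    ring
  -- the class of `Φ`
  have hmemS := hU.mem_S'
  have heig0 : ∀ a : Fin (𝔅.n i₀),
      IsEigFn U.𝔑₀ U.R'.r ℓ U.o (e₀ (𝔅.idx i₀ a)) (eigOf Φ) :=
    fun a => isEigFn_congr865 hmemS ((hBl.basis i₀).eig a) hi₀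
  have heigσ : ∀ a : Fin (𝔅.n i₀),
      IsEigFn U.𝔑₀ U.R'.r ℓ U.o (T5.Rsig U.s (e₀ (𝔅.idx i₀ a))) (eigOf Φ) :=
    fun a => isEigFn_congr865 hmemS (hσ2 _ _ (heig0 a)) hσ3
  refine ⟨e₀, I, blk, C, b, l, y, Real.sqrt q, J, ?_⟩
  refine
    { onb := hBl.onb
      zero_out := ?_
      y_out := hy_out
      mem_blk := ?_
      blk_sub := ?_
      block := ?_
      summ := ?_
      unit := ?_
      reg := ?_
      cls_mem := ?_
      cls_agree := ?_
      cls_basis := ?_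
      cls_trace := ?_ }
  · -- zero_out
    intro j hj X k m hX
    refine hBl.off X hX k m j fun i a h => hj ⟨⟨i, a⟩, h⟩
  · -- mem_blk
    rintro j ⟨⟨i, a⟩, rfl⟩
    show 𝔅.idx i a ∈ blk (𝔅.idx i a)
    rw [hblk_idx]
    exact Finset.mem_image_of_mem _ (Finset.mem_univ a)
  · -- blk_sub
    rintro j ⟨⟨i, a⟩, rfl⟩ j' hj'
    have hj'' : j' ∈ blk (𝔅.idx i a) := hj'
    rw [hblk_idx, Finset.mem_image] at hj''
    obtain ⟨a', -, rfl⟩ := hj''
    refine ⟨⟨⟨i, a'⟩, rfl⟩, ?_⟩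
    show blk (𝔅.idx i a') = blk (𝔅.idx i a)
    rw [hblk_idx, hblk_idx]
  · -- block
    rintro j ⟨⟨i, a⟩, rfl⟩ X k m hX
    show ∑ j' ∈ blk (𝔅.idx i a), T5.diagCoeff U.s μ F (U.φ' g X k m) (e₀ j')
      = ∑ j' ∈ blk (𝔅.idx i a), wordEv X (C j') * y j' * b j' ^ k * l j' ^ m
    rw [hblk_idx, Finset.sum_image fun x _ x' _ h => hidx_inj i h,
      Finset.sum_image fun x _ x' _ h => hidx_inj i h, hblock i X k m hX]
    refine Finset.sum_congr rfl fun a' _ => ?_
    rw [hC_idx, hy_idx, hb_idx, hl_idx]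
  · -- summ
    have hs1 : Summable fun j => ‖T5.diagCoeff U.s μ F (U.φ' g [] 0 0) (e' j)‖ := by
      obtain ⟨-, φ₁, φ₂, t₁, t₂, k₁, k₁', k₂, k₂', hconv⟩ := hU.ekprod_up g [] 0 0 hg hnil
      rw [hconv]
      exact ((hStf U.s U.l U.k (U.𝔑 g) (hU.level_ne g hg) hU.cyc U.R'.μ U.R'.F U.R'.r
        hU.frame'.frame hU.frame'.ray (hU.aut g hg) e' hONB' φ₁ φ₂ t₁ t₂ k₁ k₁' k₂
        k₂').1).norm
    refine Summable.of_nonneg_of_le (fun j => norm_nonneg _) (fun j => ?_) hs1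
    by_cases hj : j ∈ I
    · obtain ⟨⟨i, a⟩, rfl⟩ := hj
      show ‖y (𝔅.idx i a)‖ ≤ ‖T5.diagCoeff U.s μ F (U.φ' g [] 0 0) (e' (𝔅.idx i a))‖
      rw [hy_idx]
      rcases ht i a with h0 | h1
      · rw [h0, norm_zero]
        exact norm_nonneg _
      · refine le_of_eq ?_
        rw [h1, hdiag' (U.φ' g [] 0 0) (htest [] 0 0 hnil) i a, conj_diag865]
        refine congrArg _ (Finset.sum_congr rfl fun b' _ => Finset.sum_congr rfl fun c' _ => ?_)
        have := hBl.coeff [] hnil 0 0 i b' c'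
        rw [wordEv_nil865, one_mul, zpow_zero, pow_zero, mul_one, mul_one] at this
        rw [this]
    · rw [hy_out j hj, norm_zero]
      exact norm_nonneg _
  · -- unit
    intro j
    show ((dat j).elim (𝔅.C i₀) (fun p => 𝔅.C p.1)).IsUnitaryOut U.S'
    cases dat j with
    | none => exact hBl.unitary i₀
    | some p => exact hBl.unitary p.1
  · -- reg
    intro j
    show IsRegParam (Real.sqrt q) ((dat j).elim 1 (fun p => bb p.1 p.2))
      ((dat j).elim 1 (fun p => ll p.1 p.2))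
    cases dat j with
    | none =>
      show IsRegParam (Real.sqrt q) 1 1
      refine ⟨norm_one, ?_, Or.inl norm_one⟩
      rw [norm_one]
      exact hsq1
    | some p => exact hreg p.1 p.2
  · -- cls_mem
    intro j hagree hyj
    have hjI : j ∈ I := by
      by_contra hj
      exact hyj (hy_out j hj)
    obtain ⟨⟨i, a⟩, rfl⟩ := hjI
    have hagree' : (C (𝔅.idx i a)).AgreeOut U.S' (eigOf Φ) := hagree
    rw [hC_idx] at hagree'
    have hii : i = i₀ := hBl.distinct i i₀ (agreeOut_trans865 hagree' (agreeOut_symm865 hi₀))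
    subst hii
    exact Finset.mem_image_of_mem _ (Finset.mem_univ a)
  · -- cls_agree
    intro j hj
    rw [hJ, Finset.mem_image] at hj
    obtain ⟨a, -, rfl⟩ := hj
    show (C (𝔅.idx i₀ a)).AgreeOut U.S' (eigOf Φ)
    rw [hC_idx]
    exact hi₀
  · -- cls_basis
    refine ⟨?_, ?_, ?_, ?_⟩
    · intro j hj
      rw [hJ, Finset.mem_image] at hj
      obtain ⟨a, -, rfl⟩ := hj
      exact heig0 a
    · intro i hi j hj hij
      rw [hJ, Finset.mem_image] at hi hj
      obtain ⟨a, -, rfl⟩ := hi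
      obtain ⟨a', -, rfl⟩ := hj
      have haa : a ≠ a' := fun h => hij (by rw [h])
      have := (hBl.basis i₀).orth a a'
      rwa [if_neg haa] at this
    · intro j hj
      rw [hJ, Finset.mem_image] at hj
      obtain ⟨a, -, rfl⟩ := hj
      exact hnorm i₀ a
    · intro ψ hψ
      obtain ⟨c, hc⟩ := (hBl.basis i₀).span ψ (eigOf Φ) hψ (agreeOut_symm865 hi₀)
      refine ⟨fun j => ∑ a' : Fin (𝔅.n i₀), if 𝔅.idx i₀ a' = j then c a' else 0, fun x => ?_⟩
      rw [hc x, hJ, Finset.sum_image fun x _ x' _ h => hidx_inj i₀ h]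
      refine Finset.sum_congr rfl fun a _ => ?_
      congr 1
      show c a = ∑ a' : Fin (𝔅.n i₀), if 𝔅.idx i₀ a' = 𝔅.idx i₀ a then c a' else 0
      rw [Finset.sum_eq_single a]
      · rw [if_pos rfl]
      · intro a' _ ha'
        rw [if_neg fun h => ha' (hidx_inj i₀ h)]
      · intro h
        exact absurd (Finset.mem_univ a) h
  · -- cls_trace
    intro Hg hHg
    show ∑ j ∈ J, y j = U.c g (eigOf Φ)
      * ∑ j ∈ J, T5.innerD U.R'.μ U.R'.F (cosetOp Hg (T5.Rsig U.s (e₀ j))) (e₀ j)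
    rw [hJ, Finset.sum_image fun x _ x' _ h => hidx_inj i₀ h,
      Finset.sum_image fun x _ x' _ h => hidx_inj i₀ h, Finset.mul_sum]
    have h1 := hblock i₀ [] 0 0 hnil
    have h2 : ∑ a, y (𝔅.idx i₀ a) = ∑ a, wordEv [] (𝔅.C i₀) * t i₀ a * bb i₀ a ^ (0 : ℤ)
        * ll i₀ a ^ 0 := by
      refine Finset.sum_congr rfl fun a _ => ?_
      rw [hy_idx, wordEv_nil865, one_mul, zpow_zero, pow_zero, mul_one, mul_one]
    rw [h2, ← h1]
    refine Finset.sum_congr rfl fun a _ => ?_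
    -- OP-up for `R(σ) e₀_a`
    have hop := hU.op_up g [] 0 0 hg hnil (T5.Rsig U.s (e₀ (𝔅.idx i₀ a))) (eigOf Φ)
      (heigσ a) Hg H z hHg hH hz
    show T5.innerD μ F (T5.Rconv μ (U.φ' g [] 0 0) (T5.Rsig U.s (e₀ (𝔅.idx i₀ a))))
        (e₀ (𝔅.idx i₀ a))
      = U.c g (eigOf Φ)
        * T5.innerD μ F (cosetOp Hg (T5.Rsig U.s (e₀ (𝔅.idx i₀ a)))) (e₀ (𝔅.idx i₀ a))
    show (∫ x in F, T5.Rconv μ (U.φ' g [] 0 0) (T5.Rsig U.s (e₀ (𝔅.idx i₀ a))) x
          * conj (e₀ (𝔅.idx i₀ a) x) ∂μ)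
      = U.c g (eigOf Φ)
        * ∫ x in F, cosetOp Hg (T5.Rsig U.s (e₀ (𝔅.idx i₀ a))) x
          * conj (e₀ (𝔅.idx i₀ a) x) ∂μ
    rw [← integral_const_mul]
    refine integral_congr_ae (Filter.Eventually.of_forall fun x => ?_)
    show T5.Rconv μ (U.φ' g [] 0 0) (T5.Rsig U.s (e₀ (𝔅.idx i₀ a))) x
        * conj (e₀ (𝔅.idx i₀ a) x)
      = U.c g (eigOf Φ) * (cosetOp Hg (T5.Rsig U.s (e₀ (𝔅.idx i₀ a))) x
        * conj (e₀ (𝔅.idx i₀ a) x))
    rw [hop x, wordEv_nil865, one_mul, ← mul_assoc]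
    congr 2
    show ∑ h ∈ Hg, ((iwOp (U.o 0) H)^[0] (T5.Rsig U.s (e₀ (𝔅.idx i₀ a))))
        (x * h * z ^ (0 : ℤ))
      = ∑ h ∈ Hg, T5.Rsig U.s (e₀ (𝔅.idx i₀ a)) (x * h)
    refine Finset.sum_congr rfl fun h _ => ?_
    rw [zpow_zero, mul_one]
    rfl


/-- **`UpBasisUC` from the leaves.** -/
theorem upBasisUC_of_leaves865 (hStf : SU736.StfUC K') (hCh : H561.ChangeC561 K')
    (hA : H561.AtomsC561) (hIw : IwSysUp865 K')
    (hZ : BlocksAsmUC865 K') (hW : WSpecUC865 K') (hC : CompleteUC865 K')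
    (hS : SigmaUC865 K') (hP : PhiUC865 K') (hF : OffWUC865 K')
    (hX : IwSysExistsUC865 K') (hE : OpsEigUC865 K') (hR : OpsRelUC865 K')
    (hM : OpsCommUC865 K') (hPe : OpsPerUC865 K') (hAd : OpsAdjUC865 K')
    (hSg : OpsSigUC865 K') (hL : OpsLinkUC865 K') (hBd : BadOpUC865 K') :
    SU736.UpBasisUC K' :=
  upBasisUC_of865 hStf
    (blocksUC_of865 hZ hW hC hS (opsUC_of865 hX hE hR hM hPe hAd hSg hL hBd) hP hF)
    hCh hA hS hIw

end Tops

/-! ## 4. The adapters: the forms of helper561 (typed on `L2Data`) FROM the core forms -/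

section Adapters

variable {K K' : Type} [Field K] [NumberField K] [Field K'] [NumberField K'] [Algebra K K']

theorem isClassBasis561_of_U865 {Dt : L2Data K K'} {ℓ : ℕ} {C : EigData K'} {n : ℕ}
    {v : Fin n → G K' → ℂ} (h : IsClassBasisU865 (H29.upOf Dt) ℓ C n v) :
    IsClassBasis561 Dt ℓ C n v :=
  ⟨h.eig, h.orth, h.span⟩

theorem isClassBasisU_of_561_865 {Dt : L2Data K K'} {ℓ : ℕ} {C : EigData K'} {n : ℕ}
    {v : Fin n → G K' → ℂ} (h : IsClassBasis561 Dt ℓ C n v) :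
    IsClassBasisU865 (H29.upOf Dt) ℓ C n v :=
  ⟨h.eig, h.orth, h.span⟩

theorem isBlocks561_of_U865 {ℓ : ℕ} {Φ : HeckeEigensystem K' ℂ} {Dt : L2Data K K'} {g : G K'}
    {e₀ : ℕ → G K' → ℂ} {𝔅 : Blocks561 K'} (h : IsBlocksU865 ℓ Φ (H29.upOf Dt) g e₀ 𝔅) :
    IsBlocks561 ℓ Φ Dt g e₀ 𝔅 where
  onb := h.onb
  inj := h.inj
  unitary := h.unitary
  distinct := h.distinct
  basis := fun i => isClassBasis561_of_U865 (h.basis i)
  phi := h.phi
  iw := h.iw
  coeff := h.coeff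
  off := h.off

theorem isWSpec561_of_U865 {Dt : L2Data K K'} {ℓ : ℕ} {ι : Type} {n : ι → ℕ}
    {C : ι → EigData K'} {v : (i : ι) → Fin (n i) → G K' → ℂ}
    (h : IsWSpecU865 (H29.upOf Dt) ℓ ι n C v) : IsWSpec561 Dt ℓ ι n C v where
  countable := h.countable
  unitary := h.unitary
  distinct := h.distinct
  basis := fun i => isClassBasis561_of_U865 (h.basis i)
  orth := h.orth
  complete := h.complete
  cover := h.cover

theorem isWSpecU_of_561_865 {Dt : L2Data K K'} {ℓ : ℕ} {ι : Type} {n : ι → ℕ}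
    {C : ι → EigData K'} {v : (i : ι) → Fin (n i) → G K' → ℂ}
    (h : IsWSpec561 Dt ℓ ι n C v) : IsWSpecU865 (H29.upOf Dt) ℓ ι n C v where
  countable := h.countable
  unitary := h.unitary
  distinct := h.distinct
  basis := fun i => isClassBasisU_of_561_865 (h.basis i)
  orth := h.orth
  complete := h.complete
  cover := h.cover

theorem isWOps561_of_U865 {Dt : L2Data K K'} {ℓ : ℕ} {g : G K'} {Hs : ℕ → Finset (G K')}
    {ω : ℕ → G K'} {Hg : Finset (G K')} (h : IsWOpsU865 (H29.upOf Dt) ℓ g Hs ω Hg) :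
    IsWOps561 Dt ℓ g Hs ω Hg where
  S_eig := h.S_eig
  ρ_eig := h.ρ_eig
  B_eig := h.B_eig
  S_quad := h.S_quad
  ρ_central := h.ρ_central
  comm_SS := h.comm_SS
  comm_Sρ := h.comm_Sρ
  comm_ρρ := h.comm_ρρ
  per_S := h.per_S
  per_ρ := h.per_ρ
  B_S := h.B_S
  B_ρ := h.B_ρ
  S_adj := h.S_adj
  ρ_iso := h.ρ_iso
  σ_S := h.σ_S
  σ_ρ := h.σ_ρ
  dbl := h.dbl
  iwsys := h.iwsys
  unif := h.unif

theorem isIwSys561_of_U865 {Dt : L2Data K K'} {Hs : ℕ → Finset (G K')} {ω : ℕ → G K'}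
    (h : IsIwSysU865 (H29.upOf Dt) Hs ω) : IsIwSys561 Dt Hs ω :=
  ⟨h.ω_local, h.ω_comp, h.Hs_card, h.Hs_local, h.Hs_comp, h.Hs_inj⟩

theorem isIwSysU_of_561_865 {Dt : L2Data K K'} {Hs : ℕ → Finset (G K')} {ω : ℕ → G K'}
    (h : IsIwSys561 Dt Hs ω) : IsIwSysU865 (H29.upOf Dt) Hs ω :=
  ⟨h.ω_local, h.ω_comp, h.Hs_card, h.Hs_local, h.Hs_comp, h.Hs_inj⟩

theorem isSetupU_of_561_865 {ℓ : ℕ} {Φ : HeckeEigensystem K' ℂ} {Dt : L2Data K K'}
    (h : IsSetup561 ℓ Φ Dt) : IsSetupU865 ℓ Φ (H29.upOf Dt) :=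
  ⟨h.cyc.prime, H29.totCplx_of_base h.cplx, h.cusp, H29.isUpData_upOf h.data⟩

/-- `BaseStable561` (the level group) gives `H29.BaseStableU` (the other fields of
`T5.AutPreserves` do not depend on the level). -/
theorem baseStableU_of_561_865 {ℓ : ℕ} {Φ : HeckeEigensystem K' ℂ} {Dt : L2Data K K'}
    (hDt : IsL2Data ℓ Φ Dt) (h : BaseStable561 Dt) : H29.BaseStableU (H29.upOf Dt) :=
  let a := (hDt.comp 1 (H29.isBad_one Dt)).aut
  { left_inverse := a.left_inverse
    right_inverse := a.right_inverse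
    rat := a.rat
    cont := a.cont
    measure := a.measure
    ray := a.ray
    slab := a.slab
    level := h
    arch := a.arch }

theorem blocksC561_of_U865 (h : BlocksUC865 K') : BlocksC561 K K' := by
  intro ℓ hcyc _ hcplx Φ hΦ _ Dt hDt hst g hg
  obtain ⟨e₀, 𝔅, hB⟩ := h ℓ hcyc.prime (H29.totCplx_of_base hcplx) Φ hΦ (H29.upOf Dt)
    (H29.isUpData_upOf hDt) (baseStableU_of_561_865 hDt hst) g hg
  exact ⟨e₀, 𝔅, isBlocks561_of_U865 hB⟩

theorem wSpecC561_of_U865 (h : WSpecUC865 K') : WSpecC561 K K' := by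
  intro ℓ hcyc _ hcplx Φ hΦ _ Dt hDt
  obtain ⟨ι, n, C, v, hW⟩ := h ℓ hcyc.prime (H29.totCplx_of_base hcplx) Φ hΦ (H29.upOf Dt)
    (H29.isUpData_upOf hDt)
  exact ⟨ι, n, C, v, isWSpec561_of_U865 hW⟩

theorem completeC561_of_U865 (h : CompleteUC865 K') : CompleteC561 K K' := by
  intro ℓ hcyc _ hcplx Φ hΦ _ Dt hDt g hg ι n C v hW
  exact h ℓ hcyc.prime (H29.totCplx_of_base hcplx) Φ hΦ (H29.upOf Dt)
    (H29.isUpData_upOf hDt) g hg ι n C v (isWSpecU_of_561_865 hW)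

theorem sigmaC561_of_U865 (h : SigmaUC865 K') : SigmaC561 K K' := by
  intro ℓ hcyc _ hcplx Φ hΦ _ Dt hDt hst
  exact h ℓ hcyc.prime (H29.totCplx_of_base hcplx) Φ hΦ (H29.upOf Dt)
    (H29.isUpData_upOf hDt) (baseStableU_of_561_865 hDt hst)

theorem opsC561_of_U865 (h : OpsUC865 K') : OpsC561 K K' := by
  intro ℓ hcyc _ hcplx Φ hΦ _ Dt hDt hst g hg
  obtain ⟨Hs, ω, Hg, hO⟩ := h ℓ hcyc.prime (H29.totCplx_of_base hcplx) Φ hΦ (H29.upOf Dt)
    (H29.isUpData_upOf hDt) (baseStableU_of_561_865 hDt hst) g hg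
  exact ⟨Hs, ω, Hg, isWOps561_of_U865 hO⟩

theorem phiC561_of_U865 (h : PhiUC865 K') : PhiC561 K K' := by
  intro ℓ hcyc _ hcplx Φ hΦ _ Dt hDt
  exact h ℓ hcyc.prime (H29.totCplx_of_base hcplx) Φ hΦ (H29.upOf Dt) (H29.isUpData_upOf hDt)

theorem offWC561_of_U865 (h : OffWUC865 K') : OffWC561 K K' := by
  intro ℓ hcyc _ hcplx Φ hΦ _ Dt hDt g hg ι n C v hW
  exact h ℓ hcyc.prime (H29.totCplx_of_base hcplx) Φ hΦ (H29.upOf Dt)
    (H29.isUpData_upOf hDt) g hg ι n C v (isWSpecU_of_561_865 hW)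

theorem iwSysExistsC561_of_U865 (h : IwSysExistsUC865 K') : IwSysExistsC561 K K' := by
  intro ℓ Φ Dt hs
  obtain ⟨Hs, ω, hsys⟩ := h ℓ Φ (H29.upOf Dt) (isSetupU_of_561_865 hs)
  exact ⟨Hs, ω, isIwSys561_of_U865 hsys⟩

theorem opsEigC561_of_U865 (h : OpsEigUC865 K') : OpsEigC561 K K' :=
  fun ℓ Φ Dt hs Hs ω hsys =>
    h ℓ Φ (H29.upOf Dt) (isSetupU_of_561_865 hs) Hs ω (isIwSysU_of_561_865 hsys)

theorem opsRelC561_of_U865 (h : OpsRelUC865 K') : OpsRelC561 K K' :=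
  fun ℓ Φ Dt hs Hs ω hsys =>
    h ℓ Φ (H29.upOf Dt) (isSetupU_of_561_865 hs) Hs ω (isIwSysU_of_561_865 hsys)

theorem opsCommC561_of_U865 (h : OpsCommUC865 K') : OpsCommC561 K K' :=
  fun ℓ Φ Dt hs Hs ω hsys =>
    h ℓ Φ (H29.upOf Dt) (isSetupU_of_561_865 hs) Hs ω (isIwSysU_of_561_865 hsys)

theorem opsPerC561_of_U865 (h : OpsPerUC865 K') : OpsPerC561 K K' :=
  fun ℓ Φ Dt hs Hs ω hsys =>
    h ℓ Φ (H29.upOf Dt) (isSetupU_of_561_865 hs) Hs ω (isIwSysU_of_561_865 hsys)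

theorem opsAdjC561_of_U865 (h : OpsAdjUC865 K') : OpsAdjC561 K K' :=
  fun ℓ Φ Dt hs Hs ω hsys =>
    h ℓ Φ (H29.upOf Dt) (isSetupU_of_561_865 hs) Hs ω (isIwSysU_of_561_865 hsys)

theorem opsSigC561_of_U865 (h : OpsSigUC865 K') : OpsSigC561 K K' :=
  fun ℓ Φ Dt hs hst Hs ω hsys =>
    h ℓ Φ (H29.upOf Dt) (isSetupU_of_561_865 hs) (baseStableU_of_561_865 hs.data hst) Hs ω
      (isIwSysU_of_561_865 hsys)

theorem opsLinkC561_of_U865 (h : OpsLinkUC865 K') : OpsLinkC561 K K' :=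
  fun ℓ Φ Dt hs Hs ω hsys =>
    h ℓ Φ (H29.upOf Dt) (isSetupU_of_561_865 hs) Hs ω (isIwSysU_of_561_865 hsys)

theorem badOpC561_of_U865 (h : BadOpUC865 K') : BadOpC561 K K' := by
  intro ℓ Φ Dt hs g hg
  obtain ⟨Hg, h1, h2, h3⟩ := h ℓ Φ (H29.upOf Dt) (isSetupU_of_561_865 hs) g hg
  exact ⟨Hg, h1, h2, fun Hs ω hsys => h3 Hs ω (isIwSysU_of_561_865 hsys)⟩

end Adapters

/-! ## Appendix: the equation lemmas of the definitions are realised HERE -/

theorem eqns_realised_upBasisU865 : True := by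
  have _a0 := @BlocksUC865.eq_1
  have _b0 := @BlocksUC865.eq_def
  have _c0 := @BlocksUC865.eq_unfold
  have _a1 := @WSpecUC865.eq_1
  have _b1 := @WSpecUC865.eq_def
  have _c1 := @WSpecUC865.eq_unfold
  have _a2 := @CompleteUC865.eq_1
  have _b2 := @CompleteUC865.eq_def
  have _c2 := @CompleteUC865.eq_unfold
  have _a3 := @SigmaUC865.eq_1
  have _b3 := @SigmaUC865.eq_def
  have _c3 := @SigmaUC865.eq_unfold
  have _a4 := @OpsUC865.eq_1
  have _b4 := @OpsUC865.eq_def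
  have _c4 := @OpsUC865.eq_unfold
  have _a5 := @PhiUC865.eq_1
  have _b5 := @PhiUC865.eq_def
  have _c5 := @PhiUC865.eq_unfold
  have _a6 := @OffWUC865.eq_1
  have _b6 := @OffWUC865.eq_def
  have _c6 := @OffWUC865.eq_unfold
  have _a7 := @BlocksAsmUC865.eq_1
  have _b7 := @BlocksAsmUC865.eq_def
  have _c7 := @BlocksAsmUC865.eq_unfold
  have _a8 := @IwSysExistsUC865.eq_1
  have _b8 := @IwSysExistsUC865.eq_def
  have _c8 := @IwSysExistsUC865.eq_unfold
  have _a9 := @OpsEigUC865.eq_1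
  have _b9 := @OpsEigUC865.eq_def
  have _c9 := @OpsEigUC865.eq_unfold
  have _a10 := @OpsRelUC865.eq_1
  have _b10 := @OpsRelUC865.eq_def
  have _c10 := @OpsRelUC865.eq_unfold
  have _a11 := @OpsCommUC865.eq_1
  have _b11 := @OpsCommUC865.eq_def
  have _c11 := @OpsCommUC865.eq_unfold
  have _a12 := @OpsPerUC865.eq_1
  have _b12 := @OpsPerUC865.eq_def
  have _c12 := @OpsPerUC865.eq_unfold
  have _a13 := @OpsAdjUC865.eq_1
  have _b13 := @OpsAdjUC865.eq_def
  have _c13 := @OpsAdjUC865.eq_unfold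
  have _a14 := @OpsSigUC865.eq_1
  have _b14 := @OpsSigUC865.eq_def
  have _c14 := @OpsSigUC865.eq_unfold
  have _a15 := @OpsLinkUC865.eq_1
  have _b15 := @OpsLinkUC865.eq_def
  have _c15 := @OpsLinkUC865.eq_unfold
  have _a16 := @BadOpUC865.eq_1
  have _b16 := @BadOpUC865.eq_def
  have _c16 := @BadOpUC865.eq_unfold
  trivial

end Fermat.Agent.LT.T7.H865

end

end
-- ===== PACK-END LT/T7/H865/UpBasisU.lean

-- ===== PACK-BEGIN LT/T7/H157/BlkEig.lean
section




/-!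
# Row LT, tower T7, leaf T7.L2.2.B7 (helper157): stability of the classes

OFF-MAIN.  ADDITIVE (new names only, all ending in `157`).  Every proof is complete, nothing
assumed.  Agreement of eigen-data outside `S'`, scalar multiples and central translates of the
invariant cusp functions with joint eigen-data.
-/

set_option autoImplicit false

open AutomorphicForm IsDedekindDomain NumberField MeasureTheory
open scoped ComplexConjugate Matrix

noncomputable section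

namespace Fermat.Agent.LT.T7.H157

open Fermat.Agent.LT.H556 Fermat.Agent.LT.H556.A0 Fermat.Agent.LT.T7 Fermat.Agent.LT.T7.H561

attribute [local instance] Fermat.Agent.LT.T5.instMeasurableSpaceG

variable {K : Type} [Field K] [NumberField K]

/-! ## 1. Agreement outside `S` -/

theorem agreeOut_refl157 (S : Finset (HeightOneSpectrum (𝓞 K))) (D : EigData K) :
    D.AgreeOut S D := ⟨fun _ _ => ⟨rfl, rfl⟩, fun _ _ _ => rfl⟩

theorem agreeOut_symm157 {S : Finset (HeightOneSpectrum (𝓞 K))} {D D' : EigData K}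
    (h : D.AgreeOut S D') : D'.AgreeOut S D :=
  ⟨fun w hw => ⟨(h.1 w hw).1.symm, (h.1 w hw).2.symm⟩, fun w d hd => (h.2 w d hd).symm⟩

theorem agreeOut_trans157 {S : Finset (HeightOneSpectrum (𝓞 K))} {D D' D'' : EigData K}
    (h : D.AgreeOut S D') (h' : D'.AgreeOut S D'') : D.AgreeOut S D'' :=
  ⟨fun w hw => ⟨(h.1 w hw).1.trans (h'.1 w hw).1, (h.1 w hw).2.trans (h'.1 w hw).2⟩,
    fun w d hd => (h.2 w d hd).trans (h'.2 w d hd)⟩

/-- An eigenfunction for `C'` is one for every `C` agreeing with `C'` outside the divisors of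
the level. -/
theorem isEigFn_of_agree157 {𝔫 : Ideal (𝓞 K)} {r : G K} {l : ℕ}
    {o : ℕ → HeightOneSpectrum (𝓞 K)} {S : Finset (HeightOneSpectrum (𝓞 K))}
    (hS : ∀ w : HeightOneSpectrum (𝓞 K), w ∈ S ↔ w.asIdeal ∣ 𝔫) {ψ : G K → ℂ}
    {C' C : EigData K} (h : IsEigFn 𝔫 r l o ψ C') (hC : C'.AgreeOut S C) :
    IsEigFn 𝔫 r l o ψ C := by
  refine ⟨h.inv, fun v hv => ?_, fun w => ?_⟩
  · have hv' : v ∉ S := fun hm => hv ((hS v).1 hm)
    rw [← (hC.1 v hv').1, ← (hC.1 v hv').2]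
    exact h.hecke v hv
  · intro d hd Y hY g
    rw [← hC.2 w d hd]
    exact h.mean w d hd Y hY g

/-! ## 2. Scalar multiples -/

theorem isWFn_smul157 {𝔫 : Ideal (𝓞 K)} {r : G K} {l : ℕ}
    {o : ℕ → HeightOneSpectrum (𝓞 K)} {ψ : G K → ℂ} (h : IsWFn 𝔫 r l o ψ) (t : ℂ) :
    IsWFn 𝔫 r l o (fun x => t * ψ x) := by
  refine ⟨⟨continuous_const.mul h.cusp.cont, ?_, ⟨?_, ?_, ?_, ?_⟩, ?_⟩, ?_, ?_⟩
  · obtain ⟨C, hC⟩ := h.cusp.bdd
    refine ⟨‖t‖ * C, fun g => ?_⟩
    rw [norm_mul]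
    exact mul_le_mul_of_nonneg_left (hC g) (norm_nonneg _)
  · intro γ g
    show t * ψ _ = t * ψ _
    rw [h.cusp.aut.left_inv]
  · intro u hu g
    show t * ψ _ = t * ψ _
    rw [h.cusp.aut.level_inv u hu]
  · intro w k hk g
    show t * ψ _ = T5.trivType k * (t * ψ _)
    rw [h.cusp.aut.arch_compact w k hk]
    simp only [T5.trivType, one_mul]
  · intro g
    show t * ψ _ = t * ψ _
    rw [h.cusp.aut.ray]
  · have hc := h.cusp.cuspidal
    unfold IsCuspidalFn at hc ⊢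
    intro μ hμ D hD n hn g
    show ∫ x in D, t * ψ (n x * g) ∂μ = 0
    rw [integral_const_mul, hc μ hμ D hD n hn g, mul_zero]
  · intro w z hz g
    show t * ψ _ = t * ψ _
    rw [h.arch_scalar w z hz]
  · intro u h1 h2 h3 x
    show t * ψ _ = t * ψ _
    rw [h.iw u h1 h2 h3]

theorem isEigFn_smul157 {𝔫 : Ideal (𝓞 K)} {r : G K} {l : ℕ}
    {o : ℕ → HeightOneSpectrum (𝓞 K)} {ψ : G K → ℂ} {C : EigData K}
    (h : IsEigFn 𝔫 r l o ψ C) (t : ℂ) : IsEigFn 𝔫 r l o (fun x => t * ψ x) C := by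
  refine ⟨isWFn_smul157 h.inv t, fun v hv => ⟨?_, ?_⟩, fun w => ?_⟩
  · intro H hH g
    show ∑ u ∈ H, t * ψ (g * u) = _ * (t * ψ g)
    rw [← Finset.mul_sum, (h.hecke v hv).1 H hH g]
    ring
  · intro z hz g
    show t * ψ (g * z) = _ * (t * ψ g)
    rw [(h.hecke v hv).2 z hz g]
    ring
  · intro d hd Y hY g
    show (∫ α in (0 : ℝ)..(2 * Real.pi), ∫ β in (0 : ℝ)..Real.pi,
        t * ψ (g * Y α β) * ((Real.sin β : ℝ) : ℂ)) = C.m w d * (t * ψ g)
    simp only [mul_assoc t, intervalIntegral.integral_const_mul]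
    rw [h.mean w d hd Y hY g]
    ring

/-! ## 3. Central translates -/

/-- A scalar uniformiser is central. -/
theorem central_of_scalarUnif157 {v : HeightOneSpectrum (𝓞 K)} {z : G K}
    (hz : IsScalarUniformizerAt v z) (x : G K) : x * z = z * x := by
  obtain ⟨⟨hinf, hfin⟩, c, -, hc⟩ := hz
  have hent : ∀ i j : Fin 2, i ≠ j → (z : Matrix (Fin 2) (Fin 2) (Adl K)) i j = 0 := by
    intro i j hij
    refine Prod.ext (funext fun w => ?_) (FiniteAdeleRing.ext K fun v' => ?_)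
    · rw [hinf w i j, Matrix.one_apply_ne hij]
      rfl
    · by_cases hv : v' = v
      · subst hv
        have := congrFun (congrFun hc i) j
        rw [Matrix.diagonal_apply_ne _ hij] at this
        exact this
      · have := congrFun (congrFun (hfin v' hv) i) j
        rw [Matrix.one_apply_ne hij] at this
        exact this
  have hdiag : (z : Matrix (Fin 2) (Fin 2) (Adl K)) 1 1
      = (z : Matrix (Fin 2) (Fin 2) (Adl K)) 0 0 := by
    refine Prod.ext (funext fun w => ?_) (FiniteAdeleRing.ext K fun v' => ?_)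
    · rw [hinf w 1 1, hinf w 0 0, Matrix.one_apply_eq, Matrix.one_apply_eq]
    · by_cases hv : v' = v
      · subst hv
        have h1 := congrFun (congrFun hc 1) 1
        have h0 := congrFun (congrFun hc 0) 0
        rw [Matrix.diagonal_apply_eq] at h1 h0
        exact h1.trans h0.symm
      · have h1 := congrFun (congrFun (hfin v' hv) 1) 1
        have h0 := congrFun (congrFun (hfin v' hv) 0) 0
        rw [Matrix.one_apply_eq] at h1 h0
        exact h1.trans h0.symm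
  apply Units.ext
  rw [Units.val_mul, Units.val_mul]
  ext i j
  rw [Matrix.mul_apply, Matrix.mul_apply, Fin.sum_univ_two, Fin.sum_univ_two]
  fin_cases i <;> fin_cases j <;>
    simp [hent 0 1 (by decide), hent 1 0 (by decide), hdiag, mul_comm]

theorem isWFn_tr_central157 {𝔫 : Ideal (𝓞 K)} {r : G K} {l : ℕ}
    {o : ℕ → HeightOneSpectrum (𝓞 K)} {ψ : G K → ℂ} (h : IsWFn 𝔫 r l o ψ) {z : G K}
    (hz : ∀ x : G K, x * z = z * x) : IsWFn 𝔫 r l o (fun x => ψ (x * z)) := by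
  have sw : ∀ g u : G K, g * u * z = g * z * u := fun g u => by
    rw [mul_assoc, hz u, ← mul_assoc]
  refine ⟨⟨h.cusp.cont.comp (continuous_mul_const z), ?_, ⟨?_, ?_, ?_, ?_⟩, ?_⟩, ?_, ?_⟩
  · obtain ⟨C, hC⟩ := h.cusp.bdd
    exact ⟨C, fun g => hC _⟩
  · intro γ g
    show ψ _ = ψ _
    rw [mul_assoc, h.cusp.aut.left_inv]
  · intro u hu g
    show ψ _ = ψ _
    rw [sw, h.cusp.aut.level_inv u hu]
  · intro w k hk g
    show ψ _ = T5.trivType k * ψ _
    rw [sw, h.cusp.aut.arch_compact w k hk]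
  · intro g
    show ψ _ = ψ _
    rw [sw, h.cusp.aut.ray]
  · have hc := h.cusp.cuspidal
    unfold IsCuspidalFn at hc ⊢
    intro μ hμ D hD n hn g
    show ∫ x in D, ψ (n x * g * z) ∂μ = 0
    simp only [mul_assoc]
    exact hc μ hμ D hD n hn (g * z)
  · intro w u hu g
    show ψ _ = ψ _
    rw [sw, h.arch_scalar w u hu]
  · intro u h1 h2 h3 x
    show ψ _ = ψ _
    rw [sw, h.iw u h1 h2 h3]

theorem isEigFn_tr_central157 {𝔫 : Ideal (𝓞 K)} {r : G K} {l : ℕ}
    {o : ℕ → HeightOneSpectrum (𝓞 K)} {ψ : G K → ℂ} {C : EigData K}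
    (h : IsEigFn 𝔫 r l o ψ C) {z : G K} (hz : ∀ x : G K, x * z = z * x) :
    IsEigFn 𝔫 r l o (fun x => ψ (x * z)) C := by
  have sw : ∀ g u : G K, g * u * z = g * z * u := fun g u => by
    rw [mul_assoc, hz u, ← mul_assoc]
  refine ⟨isWFn_tr_central157 h.inv hz, fun v hv => ⟨?_, ?_⟩, fun w => ?_⟩
  · intro H hH g
    show ∑ u ∈ H, ψ (g * u * z) = _ * ψ (g * z)
    simp only [sw]
    exact (h.hecke v hv).1 H hH (g * z)
  · intro u hu g
    show ψ (g * u * z) = _ * ψ (g * z)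
    rw [sw]
    exact (h.hecke v hv).2 u hu (g * z)
  · intro d hd Y hY g
    show (∫ α in (0 : ℝ)..(2 * Real.pi), ∫ β in (0 : ℝ)..Real.pi,
        ψ (g * Y α β * z) * ((Real.sin β : ℝ) : ℂ)) = C.m w d * ψ (g * z)
    simp only [sw]
    exact h.mean w d hd Y hY (g * z)

theorem isEigFn_shift157 {𝔫 : Ideal (𝓞 K)} {r : G K} {l : ℕ}
    {o : ℕ → HeightOneSpectrum (𝓞 K)} {ψ : G K → ℂ} {C : EigData K}
    (h : IsEigFn 𝔫 r l o ψ C) {v : HeightOneSpectrum (𝓞 K)} {z : G K}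
    (hz : IsScalarUniformizerAt v z) (k : ℤ) : IsEigFn 𝔫 r l o (shiftOp z k ψ) C := by
  have hc : ∀ x : G K, x * z ^ k = z ^ k * x := fun x =>
    ((show Commute x z from central_of_scalarUnif157 hz x).zpow_right k)
  exact isEigFn_tr_central157 h hc

end Fermat.Agent.LT.T7.H157

end

end
-- ===== PACK-END LT/T7/H157/BlkEig.lean

-- ===== PACK-BEGIN LT/T7/H887/CommGI.lean
section




/-!
# Row LT, tower T7, node T7.L2.2 `SpecUpC`, leaf T7.L2.2.N.1.05 `CM616.CommGIC616` (helper887)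

OFF-MAIN.  On the functions `ψ` such that `ψ` and `cosetOp H ψ` are right invariant under
`U(𝔑₀)`, the double coset operator of a bad element `g` commutes with the sum of the right
translates by a finite set `H` of elements supported at the place `v = o j` of the orbit.

Proof.  A member of the system is `h = u₁ g u₂`, `u₁, u₂ ∈ U(𝔑₀)`.  Let `u₁''` be the component
of `u₁` at `v` (an element supported at `v`, again in `U(𝔑₀)`) and `u₁' = u₁ u₁''⁻¹` (trivial at
`v`).  As `g` is trivial at `v`, `h = h₀ u₁'' u₂` with `h₀ = u₁' g` trivial at `v`; hence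
`f (x h) = f (x h₀)` for every right `U(𝔑₀)`-invariant `f`, and `h₀` commutes with the elements
supported at `v`.  So
`∑_h ∑_k ψ(x h k) = ∑_h ∑_k ψ(x h₀ k) = ∑_h ∑_k ψ(x k h₀) = ∑_h ∑_k ψ(x k h)`.
-/

set_option autoImplicit false

open IsDedekindDomain NumberField

noncomputable section

namespace Fermat.Agent.LT.T7.H887

open Fermat.Agent.LT.H556 Fermat.Agent.LT.H556.A0 Fermat.Agent.LT Fermat.Agent.LT.T7
  Fermat.Agent.LT.T7.CM616 Fermat.Agent.LT.H129

section Local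

variable {K : Type} [Field K] [NumberField K]

/-- The component at `v` of an element of the level group is in the level group. -/
theorem inLevelGroup_locFin887 {𝔫 : Ideal (𝓞 K)} {u : G K} (hu : InLevelGroup 𝔫 u)
    (v : HeightOneSpectrum (𝓞 K)) : InLevelGroup 𝔫 (locFin129 v (finCompHom129 v u)) := by
  refine ⟨fun w => (trivAtInf_iff129 w _).2 (infCompHom129_locFin129 v _ w), fun v' i j => ?_⟩
  by_cases h : v' = v
  · subst h
    have e1 : finComp v' (locFin129 v' (finCompHom129 v' u)) = finComp v' u := by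
      rw [← coe_finCompHom129, finCompHom129_locFin129, coe_finCompHom129]
    have e2 : finComp v' (locFin129 v' (finCompHom129 v' u))⁻¹ = finComp v' u⁻¹ := by
      rw [← map_inv, ← map_inv, ← coe_finCompHom129, finCompHom129_locFin129,
        coe_finCompHom129]
    rw [e1, e2]
    exact hu.2 v' i j
  · have e1 : finComp v' (locFin129 v (finCompHom129 v u)) = 1 := by
      rw [← coe_finCompHom129, finCompHom129_locFin129_of_ne v _ h]
      rfl
    have e2 : finComp v' (locFin129 v (finCompHom129 v u))⁻¹ = 1 := by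
      rw [← map_inv, ← coe_finCompHom129, finCompHom129_locFin129_of_ne v _ h]
      rfl
    have h0 : (0 : v'.adicCompletion K) ∈ idealClosure 𝔫 v' := by
      apply subset_closure
      exact ⟨0, 𝔫.zero_mem, by simp⟩
    rw [e1, e2, sub_self]
    exact ⟨h0, h0⟩

/-- An element which is trivial at `v` commutes with the elements supported at `v`. -/
theorem commute_of_triv_of_local887 {v : HeightOneSpectrum (𝓞 K)} {a k : G K}
    (ha : finCompHom129 v a = 1) (hk : IsLocalAtFin v k) : a * k = k * a := by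
  rw [isLocalAtFin_iff129] at hk
  apply G_ext129
  · intro w
    rw [map_mul, map_mul, hk.1 w, mul_one, one_mul]
  · intro v'
    by_cases h : v' = v
    · subst h
      rw [map_mul, map_mul, ha, mul_one, one_mul]
    · rw [map_mul, map_mul, hk.2 v' h, mul_one, one_mul]

/-- The reduction of a member `u₁ g u₂` of a double coset system, `g` trivial at `v`: it is
`h₀ u'' u₂` with `h₀` trivial at `v` and `u'', u₂` in the level group. -/
theorem exists_reduction887 {𝔫 : Ideal (𝓞 K)} {v : HeightOneSpectrum (𝓞 K)} {g u₁ u₂ : G K}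
    (hg : TrivAtFin v g) (hu₁ : InLevelGroup 𝔫 u₁) :
    ∃ h₀ u'' : G K, finCompHom129 v h₀ = 1 ∧ InLevelGroup 𝔫 u'' ∧
      u₁ * g * u₂ = h₀ * u'' * u₂ := by
  have hg1 : finCompHom129 v g = 1 := (trivAtFin_iff129 v g).1 hg
  set u'' : G K := locFin129 v (finCompHom129 v u₁) with hu''
  have hloc : IsLocalAtFin v u'' := isLocalAtFin_locFin129 v _
  have hcomm : g * u'' = u'' * g := commute_of_triv_of_local887 hg1 hloc
  refine ⟨u₁ * u''⁻¹ * g, u'', ?_, inLevelGroup_locFin887 hu₁ v, ?_⟩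
  · rw [map_mul, map_mul, map_inv, hg1, mul_one, hu'', finCompHom129_locFin129,
      mul_inv_cancel]
  · rw [mul_assoc (u₁ * u''⁻¹) g u'', hcomm, ← mul_assoc, inv_mul_cancel_right]

end Local

section Leaf

variable (K K' : Type) [Field K] [NumberField K] [Field K'] [NumberField K'] [Algebra K K']

/-- **Leaf T7.L2.2.N.1.05 `CommGIC616`.** -/
theorem commGIC887 : CommGIC616 K K' := by
  intro ℓ Φ Dt hctx g Hg hbad hsys j hj H hH ψ hψ hHψ x
  have hjl : j < Dt.l := by rw [hctx.data.deg]; exact hj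
  have hgv : TrivAtFin (Dt.o j) g := hbad.2 (Dt.o j) (Or.inr ⟨j, hjl, rfl⟩)
  -- the reduction of the members of the system
  have hred : ∀ h ∈ Hg, ∃ h₀ : G K', finCompHom129 (Dt.o j) h₀ = 1 ∧
      ∀ f : G K' → ℂ, IsLevelInv616 Dt.𝔑₀ f → ∀ y : G K', f (y * h) = f (y * h₀) := by
    intro h hh
    obtain ⟨u₁, u₂, hu₁, hu₂, rfl⟩ := hsys.1 h hh
    obtain ⟨h₀, u'', h1, hu'', heq⟩ := exists_reduction887 (u₂ := u₂) hgv hu₁
    refine ⟨h₀, h1, fun f hf y => ?_⟩
    rw [heq, ← mul_assoc, ← mul_assoc, hf u₂ hu₂, hf u'' hu'']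
  show (∑ h ∈ Hg, ∑ k ∈ H, ψ (x * h * k)) = ∑ k ∈ H, ∑ h ∈ Hg, ψ (x * k * h)
  conv_rhs => rw [Finset.sum_comm]
  refine Finset.sum_congr rfl fun h hh => ?_
  obtain ⟨h₀, h1, hinv⟩ := hred h hh
  have e1 : ∑ k ∈ H, ψ (x * h * k) = ∑ k ∈ H, ψ (x * h₀ * k) := hinv (cosetOp H ψ) hHψ x
  rw [e1]
  refine Finset.sum_congr rfl fun k hk => ?_
  have hcomm : h₀ * k = k * h₀ := commute_of_triv_of_local887 h1 (hH k hk)
  rw [hinv ψ hψ (x * k), mul_assoc x h₀ k, hcomm, ← mul_assoc]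

end Leaf

end Fermat.Agent.LT.T7.H887

end
end
-- ===== PACK-END LT/T7/H887/CommGI.lean

-- ===== PACK-BEGIN LT/T7/H893/SupplyPreTop.lean
section





/-!
# Row LT, tower T7, node T7.L2.1 `SupplySC` (sub-architect helper893): THIRD CUT -- proved tops

OFF-MAIN.  No `sorry`, nothing assumed.  ADDITIVE.

    preC_of893        : PreGeoC P K K' → RegSuppC K' → RegSupp0C K → PreC P K K'
    supplySC_of_geo893 : SetupC → ProjC K' → ProjC K → PreGeoC P → RegSuppC K' → RegSupp0C K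
                           → (8 leaves of the second cut) → SupplySC P K K'

Regularity: `T5.H32.exists_depth_conv32` / `exists_depth_conv_id32` (helper32, closed).
-/

set_option autoImplicit false

open AutomorphicForm IsDedekindDomain NumberField MeasureTheory
open scoped ComplexConjugate

noncomputable section

namespace Fermat.Agent.LT.T7.H893

open Fermat.Agent.LT.H556 Fermat.Agent.LT.H556.A0 Fermat.Agent.LT.T7

attribute [local instance] Fermat.Agent.LT.T5.instMeasurableSpaceG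

section Top

variable {P : EKCond}
variable {K K' : Type} [Field K] [NumberField K] [Field K'] [NumberField K'] [Algebra K K']

/-- **Regularity upstairs from the supports**: one depth for every word. -/
theorem exists_depth_up893 {ℓ : ℕ} {Φ : HeckeEigensystem K' ℂ} {B : L2Base K K'}
    (hB : IsL2Base ℓ Φ B) {g : G K'} (hg : B.IsBad g) {E : L2Pre K K'}
    (hOp : IsL2PreOp ℓ Φ B g E) (hSupp : IsL2PreSupp ℓ B E) (hR : RegSuppC K') (hℓ : 0 < ℓ) :
    ∃ mu : List (Gen K') → ℕ, ∀ (X : List (Gen K')) (k : ℤ) (m : ℕ),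
      (∀ x ∈ X, x.Out B.S') → mu X ≤ m → T5.IsTwRegular B.s B.l B.k (E.up B X k m) := by
  have hdeg := hB.deg
  subst hdeg
  obtain ⟨C₂, hC₂, hφ₂⟩ := hSupp.up2_supp
  obtain ⟨C₂', hC₂', hreg⟩ := hR B.𝔑₀ B.l B.o hℓ
    (fun j => (hB.mem_S' _).1 (hB.orbit_level j)) g hg.1
    (fun j hj => hg.2 (B.o j) (Or.inr ⟨j, hj, rfl⟩)) E.Hg E.H' E.z' hOp.sysg hOp.sys' hOp.unif'
    E.φ₂ C₂ hC₂ hφ₂
  have hex : ∀ X : List (Gen K'), ∃ mu : ℕ, (∀ x ∈ X, x.Out B.S') →
      ∀ (k : ℤ) (m : ℕ), mu ≤ m → T5.IsTwRegular B.s B.l B.k (E.up B X k m) := by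
    intro X
    by_cases hX : ∀ x ∈ X, x.Out B.S'
    · obtain ⟨C₁, hC₁, hΦ₁⟩ := hSupp.up1_supp X hX
      obtain ⟨m₀, hm₀⟩ := T5.H32.exists_depth_conv32 hB.cyc B.o hB.orbit_rel hB.orbit_ne
        hC₁ hC₂' B.R'.μ
      exact ⟨m₀, fun _ k m hm => (hm₀ m hm (E.Φ₁ X) _ hΦ₁ (hreg k m)).1⟩
    · exact ⟨0, fun h => absurd h hX⟩
  choose mu hmu using hex
  exact ⟨mu, fun X k m hX hm => hmu X hX k m hm⟩

/-- **Regularity downstairs from the supports**: one depth for every word. -/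
theorem exists_depth_down893 {ℓ : ℕ} {Φ : HeckeEigensystem K' ℂ} {B : L2Base K K'}
    {g : G K'} {E : L2Pre K K'}
    (hOp : IsL2PreOp ℓ Φ B g E) (hSupp : IsL2PreSupp ℓ B E) (hR0 : RegSupp0C K) :
    ∃ md : List (Gen K') → ℕ, ∀ (X : List (Gen K')) (k : ℤ) (m : ℕ),
      (∀ x ∈ X, x.Out B.S') → md X ≤ m →
        T5.IsTwRegular (T5.AdelicAut.id K) 1 ⊤ (E.down B X k m) := by
  obtain ⟨C₂, hC₂, hf₂⟩ := hSupp.dn2_supp
  have hreg := hR0 B.u E.H E.z hOp.sys hOp.unif E.f₂ C₂ hC₂ hf₂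
  have hex : ∀ X : List (Gen K'), ∃ md : ℕ, (∀ x ∈ X, x.Out B.S') →
      ∀ (k : ℤ) (m : ℕ), md ≤ m →
        T5.IsTwRegular (T5.AdelicAut.id K) 1 ⊤ (E.down B X k m) := by
    intro X
    by_cases hX : ∀ x ∈ X, x.Out B.S'
    · obtain ⟨C₁, hC₁, hF₁⟩ := hSupp.dn1_supp X hX
      obtain ⟨m₀, hm₀⟩ := T5.H32.exists_depth_conv_id32 B.u hC₁ hC₂ B.R.μ
      exact ⟨m₀, fun _ k m hm => (hm₀ m hm (E.F₁ X) _ hF₁ (hreg k m)).1⟩
    · exact ⟨0, fun h => absurd h hX⟩
  choose md hmd using hex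
  exact ⟨md, fun X k m hX hm => hmd X hX k m hm⟩

/-- **THE TOP OF THE THIRD CUT**: the pre-data from the construction with matching, and the two
support leaves. -/
theorem preC_of893 (h0 : PreGeoC P K K') (hR : RegSuppC K') (hR0 : RegSupp0C K) :
    PreC P K K' := by
  intro ℓ hcyc hℓ hcplx Φ hΦ hconst hPΦ B hB g hg
  obtain ⟨E, hOp, hSupp, m₂, hM⟩ := h0 ℓ hcyc hℓ hcplx Φ hΦ hconst hPΦ B hB g hg
  obtain ⟨mu, hmu⟩ := exists_depth_up893 hB hg hOp hSupp hR hcyc.prime.pos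
  obtain ⟨md, hmd⟩ := exists_depth_down893 hOp hSupp hR0
  refine ⟨{ E with m₀ := fun X => max (m₂ X) (max (mu X) (md X)) }, ?_⟩
  exact
    { level_ne := hOp.level_ne
      level_g := hOp.level_g
      mem_S'_g := hOp.mem_S'_g
      u_level := hOp.u_level
      sysg := hOp.sysg
      sys' := hOp.sys'
      unif' := hOp.unif'
      sys := hOp.sys
      unif := hOp.unif
      up1_test := hOp.up1_test
      up1_ek := hOp.up1_ek
      up1_op := hOp.up1_op
      up2_test := hOp.up2_test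
      up2_ek := hOp.up2_ek
      up2_inv := hOp.up2_inv
      up2_op := hOp.up2_op
      up2_kill := hOp.up2_kill
      up_ne := hOp.up_ne
      dn1_test := hOp.dn1_test
      dn1_ek := hOp.dn1_ek
      dn1_op := hOp.dn1_op
      dn1_wfn := hOp.dn1_wfn
      dn1_class := hOp.dn1_class
      dn1_comm := hOp.dn1_comm
      dn2_test := hOp.dn2_test
      dn2_ek := hOp.dn2_ek
      dn2_inv := hOp.dn2_inv
      dn2_wfn := hOp.dn2_wfn
      dn2_class := hOp.dn2_class
      dn2_comm := hOp.dn2_comm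
      dn2_kill := hOp.dn2_kill
      reg_up := fun X k m hX hm =>
        hmu X k m hX (le_trans (le_trans (le_max_left _ _) (le_max_right _ _)) hm)
      reg_down := fun X k m hX hm =>
        hmd X k m hX (le_trans (le_trans (le_max_right _ _) (le_max_right _ _)) hm)
      matched := fun X k m hX hm => hM X k m hX (le_trans (le_max_left _ _) hm) }

/-- **THE STABLE SUPPLY from the leaves of the three cuts.** -/
theorem supplySC_of_geo893 (hS : SetupC K K') (hP' : ProjC K') (hP : ProjC K)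
    (h0 : PreGeoC P K K') (hR : RegSuppC K') (hR0 : RegSupp0C K)
    (h1 : EkProdUpC K K') (h2 : EkProdDownC K K') (h3 : OpUpC K K') (h4 : KillUpC K K')
    (h5 : OpDownC K K') (h6 : ClassDownC K K') (h7 : CommDownC K K') (h8 : KillDownC K K') :
    SupplySC P K K' :=
  supplySC_of_leaves893 hS hP' hP (preC_of893 h0 hR hR0) h1 h2 h3 h4 h5 h6 h7 h8

end Top

end Fermat.Agent.LT.T7.H893

end

end
-- ===== PACK-END LT/T7/H893/SupplyPreTop.lean

-- ===== PACK-BEGIN LT/T7/H811/OpUpQ.lean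
section



/-!
# Row LT, tower T7, leaf T7.L2Q.1.F3 `OpUpQC732` (registry 2316): TOP from the six sub-leaves of
# helper281 -- helper811, OFF-MAIN

    opUpQC_of811 : RconvOpsC281 F → TranslEigC281 F → IwInvC281 F → DblInvC281 F
                     → ShiftInvC281 F → IndepC281 F → H732.OpUpQC732 F

Mirror of `H281.opUpC_of281` (cyclic case) for the quadratic step (`ℓ = 2`, the common part
`H962.L2QBase962`, the pre-data `H732.L2QPre732`).  The six sub-leaves of `H281/OpUpSpec.lean`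
are statements about ONE number field, so they are used AS THEY ARE (for the field `F`).
-/

set_option autoImplicit false

open AutomorphicForm IsDedekindDomain NumberField MeasureTheory
open scoped ComplexConjugate

noncomputable section

namespace Fermat.Agent.LT.T7.H811

open Fermat.Agent.LT.H556 Fermat.Agent.LT.H556.A0 Fermat.Agent.LT.T7 Fermat.Agent.LT.T7.L2Q
  Fermat.Agent.LT.T7.H893 Fermat.Agent.LT.T7.H962 Fermat.Agent.LT.T7.H732
  Fermat.Agent.LT.T7.H281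

attribute [local instance] Fermat.Agent.LT.T5.instMeasurableSpaceG

variable {F : Type} [Field F] [NumberField F]

/-- **THE TOP OF THE LEAF T7.L2Q.1.F3.** -/
theorem opUpQC_of811 (hA : RconvOpsC281 F) (hB : TranslEigC281 F) (hC : IwInvC281 F)
    (hD : DblInvC281 F) (hS : ShiftInvC281 F) (hI : IndepC281 F) : OpUpQC732 F := by
  intro Φ B hBase g hg E hE X k m hX ψ C hψ Hg H z hHg hH hz x
  have hr : T5.IsRayGen B.R'.r := hBase.frame'.ray
  have hl : 0 < 2 := by norm_num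
  have ho : ∀ j < 2, (B.o j).asIdeal ∣ B.𝔑₀ := fun j _ =>
    (hBase.mem_S' (B.o j)).1 (hBase.orbit_level j)
  have hg1 : ∀ w : InfinitePlace F, TrivAtInf w g := hg.1
  have hg2 : ∀ v : HeightOneSpectrum (𝓞 F),
      (¬ v.asIdeal ∣ B.𝔑₀ ∨ ∃ j < 2, v = B.o j) → TrivAtFin v g := by
    intro v hv
    refine hg.2 v ?_
    rcases hv with hv | ⟨j, hj, hv⟩
    · exact Or.inl fun h => hv ((hBase.mem_S' v).1 h)
    · exact Or.inr ⟨j, hj, hv⟩
  have hΦ₁ := hE.up1_test X hX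
  have hφ₂ := hE.up2_test
  -- Fubini and the translations
  have e1 := hA B.R'.μ B.R'.F hBase.frame'.frame (E.Φ₁ X) E.φ₂ ψ hΦ₁.cont hΦ₁.supp hφ₂.cont
    hφ₂.supp hψ.inv.cusp.cont (B.o 0) E.Hg E.H' E.z' k m x
  -- the scalar of `φ₂`
  have e2 : T5.Rconv B.R'.μ E.φ₂ ψ = fun y => E.c₂ C * ψ y :=
    funext fun y => hE.up2_op ψ C hψ y
  -- stability
  have hst := isEigFn_ops281 hB hC hD hS hr hl ho hg1 hg2 hE.sysg hE.sys' hE.unif' k m hψ
  -- the scalar of `Φ₁ X`
  have e3 := hE.up1_op X hX _ C hst x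
  -- independence
  have e4 := ops_indep281 hB hC hS hI hr hl ho hE.sysg hE.sys' hE.unif' hHg hH hz k m hψ x
  show T5.Rconv B.R'.μ
      (T5.conv B.R'.μ (E.Φ₁ X) (lsum E.Hg (regL (B.o 0) E.z' E.H' k m E.φ₂))) ψ x = _
  rw [e1, e2, ops_const_mul281, Rconv_const_mul281, e3, e4]
  ring

end Fermat.Agent.LT.T7.H811

end

end
-- ===== PACK-END LT/T7/H811/OpUpQ.lean

-- ===== PACK-BEGIN LT/T7/H938/Complete.lean
section






/-!
# Row LT, tower T7, leaf T7.L2.2.B2 `CompleteC561` (helper938, SPARE of registry row 2274)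

OFF-MAIN.  `completeC938 (K K') : H561.CompleteC561 K K'`, VERBATIM vs
`T7/H561/BlocksSpec.lean` (helper561), UNCONDITIONAL.

Route: `S` = the cusp functions of level `𝔑_g` which are orthogonal to `W`; a complete
orthonormal sequence `h` of `S` (`SD534.SubSeqC`, proof of helper128); the family `v` of the
spectrum of `W`, enumerated by an injection `enc` into `ℕ` and extended by zero; `e₀ (2 m)` = the
extended family, `e₀ (2 k + 1) = h k`.  Parseval: `f = ψ₁ + d`, `ψ₁ ∈ W` (the field `proj_up` of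
`IsL2Data`), `d ∈ S`, `‖f‖² = ‖ψ₁‖² + ‖d‖²`.  The hermitian form: `SD534.CuspFormC` (proof of
helper76); the subspaces: `SD534.WSubC` (proof of helper863).
-/

set_option autoImplicit false
set_option linter.unusedSectionVars false
set_option linter.unusedVariables false

open AutomorphicForm IsDedekindDomain NumberField MeasureTheory
open scoped ComplexConjugate

noncomputable section

namespace Fermat.Agent.LT.T7.H938

open Fermat.Agent.LT Fermat.Agent.LT.H556 Fermat.Agent.LT.H556.A0 Fermat.Agent.LT.T7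
open Fermat.Agent.LT.T7.H561

attribute [local instance] Fermat.Agent.LT.T5.instMeasurableSpaceG

section OneField

variable {K : Type} [Field K] [NumberField K]

/-- The level group is monotone in the level. -/
theorem inLevelGroup_mono938 {𝔫 𝔪 : Ideal (𝓞 K)} (h : 𝔫 ≤ 𝔪) {u : G K}
    (hu : InLevelGroup 𝔫 u) : InLevelGroup 𝔪 u := by
  have hsub : ∀ v : HeightOneSpectrum (𝓞 K), idealClosure 𝔫 v ⊆ idealClosure 𝔪 v :=
    fun v => closure_mono (Set.image_mono h)
  exact ⟨hu.1, fun v i j => ⟨hsub v (hu.2 v i j).1, hsub v (hu.2 v i j).2⟩⟩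

/-- A cusp function of level `𝔪` is a cusp function of every smaller level. -/
theorem isCuspFn_level938 {𝔫 𝔪 : Ideal (𝓞 K)} (h : 𝔫 ≤ 𝔪) {τ : G K → ℂ} {r : G K}
    {e : G K → ℂ} (he : T5.IsCuspFn 𝔪 τ r e) : T5.IsCuspFn 𝔫 τ r e :=
  ⟨he.cont, he.bdd,
    ⟨he.aut.left_inv, fun u hu g => he.aut.level_inv u (inLevelGroup_mono938 h hu) g,
      he.aut.arch_compact, he.aut.ray⟩,
    he.cuspidal⟩

theorem innerD_zero_left938 (μ : Measure (G K)) (F : Set (G K)) (χ : G K → ℂ) :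
    T5.innerD μ F (0 : G K → ℂ) χ = 0 := by
  simp [T5.innerD]

theorem innerD_zero_right938 (μ : Measure (G K)) (F : Set (G K)) (χ : G K → ℂ) :
    T5.innerD μ F χ (0 : G K → ℂ) = 0 := by
  simp [T5.innerD]

/-- **Abstract completion.**  A positive hermitian form `ip` on a class `V` of functions, a
subclass `W` with a projection, a complete orthonormal family `vv` of `W` indexed by a countable
type, and a complete orthonormal sequence `h` (zeros allowed) of `V ∩ W^⊥`: the interleaved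
sequence is complete in `V`. -/
theorem exists_interleave938 {X P : Type} [Countable P]
    (ip : (X → ℂ) → (X → ℂ) → ℂ) (V W : (X → ℂ) → Prop)
    (hadd : ∀ f f' f'' : X → ℂ, V f → V f' → V f'' → ip (f + f') f'' = ip f f'' + ip f' f'')
    (hconj : ∀ f f' : X → ℂ, V f → V f' → ip f' f = conj (ip f f'))
    (hz1 : ∀ χ : X → ℂ, ip 0 χ = 0) (hz2 : ∀ χ : X → ℂ, ip χ 0 = 0)
    (hV0 : V 0)
    (hVadd : ∀ f f' : X → ℂ, V f → V f' → V (f + f'))
    (hVsmul : ∀ (a : ℂ) (f : X → ℂ), V f → V (a • f))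
    (hWV : ∀ χ, W χ → V χ)
    (hproj : ∀ f, V f → ∃ ψ₁, W ψ₁ ∧ ∀ χ, W χ → ip (fun x => f x - ψ₁ x) χ = 0)
    (vv : P → X → ℂ) (hvW : ∀ p, W (vv p))
    (hvo : ∀ p q, p ≠ q → ip (vv p) (vv q) = 0) (hvn : ∀ p, ip (vv p) (vv p) = 1)
    (hvc : ∀ ψ, W ψ → HasSum (fun p => ‖ip ψ (vv p)‖ ^ 2) (ip ψ ψ).re)
    (h : ℕ → X → ℂ) (hhV : ∀ k, V (h k)) (hhW : ∀ k χ, W χ → ip (h k) χ = 0)
    (hho : ∀ k k', k ≠ k' → ip (h k) (h k') = 0)
    (hhn : ∀ k, ip (h k) (h k) = 1 ∨ h k = 0)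
    (hhc : ∀ f, V f → (∀ χ, W χ → ip f χ = 0) →
      HasSum (fun k => ‖ip f (h k)‖ ^ 2) (ip f f).re) :
    ∃ (e₀ : ℕ → X → ℂ) (idx : P → ℕ),
      (∀ j, V (e₀ j)) ∧ (∀ i j, i ≠ j → ip (e₀ i) (e₀ j) = 0) ∧
      (∀ j, ip (e₀ j) (e₀ j) = 1 ∨ ∀ x, e₀ j x = 0) ∧
      (∀ f, V f → HasSum (fun j => ‖ip f (e₀ j)‖ ^ 2) (ip f f).re) ∧
      Function.Injective idx ∧ (∀ p, e₀ (idx p) = vv p) ∧
      ∀ j, (∀ p, idx p ≠ j) → ∀ χ, W χ → ip (e₀ j) χ = 0 := by
  classical
  obtain ⟨enc, henc⟩ := exists_injective_nat P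
  -- the family extended by zero
  set ve : ℕ → X → ℂ := Function.extend enc vv 0 with hve
  have hve1 : ∀ p, ve (enc p) = vv p := fun p => henc.extend_apply vv 0 p
  have hve0 : ∀ m, (¬ ∃ p, enc p = m) → ve m = 0 := fun m hm => by
    rw [hve, Function.extend_apply' _ _ _ hm]; rfl
  have hve_cases : ∀ m, (∃ p, enc p = m ∧ ve m = vv p) ∨ ((¬ ∃ p, enc p = m) ∧ ve m = 0) := by
    intro m
    by_cases hm : ∃ p, enc p = m
    · obtain ⟨p, hp⟩ := hm
      exact Or.inl ⟨p, hp, by rw [← hp]; exact hve1 p⟩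
    · exact Or.inr ⟨hm, hve0 m hm⟩
  have hveV : ∀ m, V (ve m) := by
    intro m
    rcases hve_cases m with ⟨p, -, hp⟩ | ⟨-, h0⟩
    · rw [hp]; exact hWV _ (hvW p)
    · rw [h0]; exact hV0
  have hveo : ∀ m m', m ≠ m' → ip (ve m) (ve m') = 0 := by
    intro m m' hmm
    rcases hve_cases m with ⟨p, hpm, hp⟩ | ⟨-, h0⟩
    · rcases hve_cases m' with ⟨q, hqm, hq⟩ | ⟨-, h0'⟩
      · rw [hp, hq]
        apply hvo
        intro hpq
        apply hmm
        rw [← hpm, ← hqm, hpq]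
      · rw [h0']; exact hz2 _
    · rw [h0]; exact hz1 _
  have hve_h : ∀ m k, ip (ve m) (h k) = 0 := by
    intro m k
    rcases hve_cases m with ⟨p, -, hp⟩ | ⟨-, h0⟩
    · rw [hp, hconj (h k) (vv p) (hhV k) (hWV _ (hvW p)), hhW k _ (hvW p), map_zero]
    · rw [h0]; exact hz1 _
  have hh_ve : ∀ m k, ip (h k) (ve m) = 0 := by
    intro m k
    rcases hve_cases m with ⟨p, -, hp⟩ | ⟨-, h0⟩
    · rw [hp]; exact hhW k _ (hvW p)
    · rw [h0]; exact hz2 _
  -- the interleaved sequence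
  set e₀ : ℕ → X → ℂ := fun j => if j % 2 = 0 then ve (j / 2) else h (j / 2) with he₀
  have he_even : ∀ m, e₀ (2 * m) = ve m := by
    intro m
    simp only [he₀]
    rw [if_pos (by omega)]
    congr 1
    omega
  have he_odd : ∀ k, e₀ (2 * k + 1) = h k := by
    intro k
    simp only [he₀]
    rw [if_neg (by omega)]
    congr 1
    omega
  have hcases : ∀ j, (∃ m, j = 2 * m) ∨ (∃ k, j = 2 * k + 1) := by
    intro j
    rcases Nat.even_or_odd' j with ⟨m, hm | hm⟩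
    · exact Or.inl ⟨m, hm⟩
    · exact Or.inr ⟨m, hm⟩
  refine ⟨e₀, fun p => 2 * enc p, ?_, ?_, ?_, ?_, ?_, ?_, ?_⟩
  · intro j
    rcases hcases j with ⟨m, rfl⟩ | ⟨k, rfl⟩
    · rw [he_even]; exact hveV m
    · rw [he_odd]; exact hhV k
  · intro i j hij
    rcases hcases i with ⟨m, rfl⟩ | ⟨k, rfl⟩
    · rcases hcases j with ⟨m', rfl⟩ | ⟨k', rfl⟩
      · rw [he_even, he_even]
        exact hveo m m' (fun h => hij (by rw [h]))
      · rw [he_even, he_odd]
        exact hve_h m k'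
    · rcases hcases j with ⟨m', rfl⟩ | ⟨k', rfl⟩
      · rw [he_odd, he_even]
        exact hh_ve m' k
      · rw [he_odd, he_odd]
        exact hho k k' (fun h => hij (by rw [h]))
  · intro j
    rcases hcases j with ⟨m, rfl⟩ | ⟨k, rfl⟩
    · rw [he_even]
      rcases hve_cases m with ⟨p, -, hp⟩ | ⟨-, h0⟩
      · left; rw [hp]; exact hvn p
      · right; intro x; rw [h0]; rfl
    · rw [he_odd]
      rcases hhn k with h1 | h0
      · exact Or.inl h1
      · right; intro x; rw [h0]; rfl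
  · intro f hf
    obtain ⟨ψ₁, hψ₁, hd⟩ := hproj f hf
    have hψ₁V : V ψ₁ := hWV _ hψ₁
    set d : X → ℂ := fun x => f x - ψ₁ x with hddef
    have hdV : V d := by
      have h1 : d = f + (-1 : ℂ) • ψ₁ := by
        funext x
        simp [hddef, sub_eq_add_neg]
      rw [h1]
      exact hVadd _ _ hf (hVsmul _ _ hψ₁V)
    have hfd : f = ψ₁ + d := by
      funext x
      simp [hddef]
    have hsplit : ∀ χ, V χ → ip f χ = ip ψ₁ χ + ip d χ := by
      intro χ hχ
      have := hadd ψ₁ d χ hψ₁V hdV hχ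
      rw [← hfd] at this
      exact this
    have hdψ : ip d ψ₁ = 0 := hd ψ₁ hψ₁
    have hψd : ip ψ₁ d = 0 := by
      rw [hconj d ψ₁ hdV hψ₁V, hdψ, map_zero]
    have hnorm : (ip f f).re = (ip ψ₁ ψ₁).re + (ip d d).re := by
      have h1 : ip f f = ip ψ₁ f + ip d f := hsplit f hf
      have h2 : ip ψ₁ f = conj (ip f ψ₁) := hconj f ψ₁ hf hψ₁V
      have h3 : ip d f = conj (ip f d) := hconj f d hf hdV
      have h4 : ip f ψ₁ = ip ψ₁ ψ₁ + ip d ψ₁ := hsplit ψ₁ hψ₁V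
      have h5 : ip f d = ip ψ₁ d + ip d d := hsplit d hdV
      rw [h1, h2, h3, h4, h5, hdψ, hψd, add_zero, zero_add, Complex.add_re, Complex.conj_re,
        Complex.conj_re]
    rw [hnorm]
    -- the even part
    have hev : HasSum (fun m => ‖ip f (ve m)‖ ^ 2) (ip ψ₁ ψ₁).re := by
      have h1 : HasSum (fun p => ‖ip ψ₁ (vv p)‖ ^ 2) (ip ψ₁ ψ₁).re := hvc ψ₁ hψ₁
      have h2 : (fun p => ‖ip ψ₁ (vv p)‖ ^ 2) = (fun m => ‖ip f (ve m)‖ ^ 2) ∘ enc := by
        funext p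
        simp only [Function.comp_apply]
        rw [hve1 p, hsplit _ (hWV _ (hvW p)), hd _ (hvW p), add_zero]
      rw [h2] at h1
      refine (henc.hasSum_iff ?_).1 h1
      intro m hm
      have : ¬ ∃ p, enc p = m := fun ⟨p, hp⟩ => hm ⟨p, hp⟩
      rw [hve0 m this, hz2]
      simp
    have hod : HasSum (fun k => ‖ip f (h k)‖ ^ 2) (ip d d).re := by
      have h1 := hhc d hdV hd
      have h2 : (fun k => ‖ip f (h k)‖ ^ 2) = fun k => ‖ip d (h k)‖ ^ 2 := by
        funext k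
        rw [hsplit _ (hhV k), hconj (h k) ψ₁ (hhV k) hψ₁V, hhW k ψ₁ hψ₁, map_zero, zero_add]
      rw [h2]
      exact h1
    have hev' : HasSum (fun m => (fun j => ‖ip f (e₀ j)‖ ^ 2) (2 * m)) (ip ψ₁ ψ₁).re := by
      have : (fun m => (fun j => ‖ip f (e₀ j)‖ ^ 2) (2 * m)) = fun m => ‖ip f (ve m)‖ ^ 2 := by
        funext m
        simp only [he_even]
      rw [this]
      exact hev
    have hod' : HasSum (fun k => (fun j => ‖ip f (e₀ j)‖ ^ 2) (2 * k + 1)) (ip d d).re := by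
      have : (fun k => (fun j => ‖ip f (e₀ j)‖ ^ 2) (2 * k + 1))
          = fun k => ‖ip f (h k)‖ ^ 2 := by
        funext k
        simp only [he_odd]
      rw [this]
      exact hod
    exact HasSum.even_add_odd hev' hod'
  · intro p q hpq
    apply henc
    have : 2 * enc p = 2 * enc q := hpq
    omega
  · intro p
    show e₀ (2 * enc p) = vv p
    rw [he_even, hve1]
  · intro j hj χ hχ
    rcases hcases j with ⟨m, rfl⟩ | ⟨k, rfl⟩
    · rw [he_even]
      have : ¬ ∃ p, enc p = m := fun ⟨p, hp⟩ => hj p (by show 2 * enc p = 2 * m; rw [hp])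
      rw [hve0 m this]
      exact hz1 _
    · rw [he_odd]
      exact hhW k χ hχ

end OneField

section TwoFields

variable (K K' : Type) [Field K] [NumberField K] [Field K'] [NumberField K'] [Algebra K K']

/-- **LEAF T7.L2.2.B2 = COMPLETE** (cut of helper561), VERBATIM, UNCONDITIONAL. -/
theorem completeC938 : H561.CompleteC561 K K' := by
  intro ℓ hcyc hℓ2 hcplx Φ hΦ hconst Dt hDt g hg ι n C v hW
  have hcomp := hDt.comp g hg
  have hfr : T5.IsFrame Dt.R'.μ Dt.R'.F := hcomp.frame'.frame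
  have hray : T5.IsRayGen Dt.R'.r := hcomp.frame'.ray
  have hne : Dt.𝔑 g ≠ ⊥ := by
    show Ideal.map (algebraMap (𝓞 K) (𝓞 K')) (Dt.𝔫 g) ≠ ⊥
    rw [Ne, Ideal.map_eq_bot_iff_of_injective (RingOfIntegers.algebraMap.injective K K')]
    exact hcomp.level_ne
  have hform := H76.cuspFormC76 K' Dt.R'.μ Dt.R'.F Dt.R'.r (Dt.𝔑 g) hne hfr hray
  have hsub := H863.wSubC_863 K' (Dt.𝔑 g) Dt.R'.r (Dt.o 0)
  have hcount : Countable ι := hW.countable
  have hWV : ∀ χ, IsWFn Dt.𝔑₀ Dt.R'.r ℓ Dt.o χ →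
      T5.IsCuspFn (Dt.𝔑 g) T5.trivType Dt.R'.r χ :=
    fun χ h => isCuspFn_level938 (hDt.level_g g hg) h.cusp
  have hV0 : T5.IsCuspFn (Dt.𝔑 g) T5.trivType Dt.R'.r (0 : G K' → ℂ) := hsub.zeroW.cusp
  -- a complete orthonormal sequence of the orthogonal complement of `W`
  obtain ⟨h, hhS, hho, hhn, hhc⟩ := H128.subSeqC128 K' Dt.R'.μ Dt.R'.F Dt.R'.r (Dt.𝔑 g) hne
    hfr hray
    (fun f => T5.IsCuspFn (Dt.𝔑 g) T5.trivType Dt.R'.r f ∧
      ∀ χ, IsWFn Dt.𝔑₀ Dt.R'.r ℓ Dt.o χ → T5.innerD Dt.R'.μ Dt.R'.F f χ = 0)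
    (fun f hf => hf.1) ⟨hV0, fun χ _ => innerD_zero_left938 _ _ _⟩
    (fun f f' hf hf' => ⟨hsub.addV f f' hf.1 hf'.1, fun χ hχ => by
      rw [hform.add_left f f' χ hf.1 hf'.1 (hWV χ hχ), hf.2 χ hχ, hf'.2 χ hχ, add_zero]⟩)
    (fun a f hf => ⟨hsub.smulV a f hf.1, fun χ hχ => by
      rw [hform.smul_left a f χ hf.1 (hWV χ hχ), hf.2 χ hχ, mul_zero]⟩)
  obtain ⟨e₀, idx, h1, h2, h3, h4, h5, h6, h7⟩ :=
    exists_interleave938 (P := Σ i, Fin (n i)) (T5.innerD Dt.R'.μ Dt.R'.F)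
      (fun f => T5.IsCuspFn (Dt.𝔑 g) T5.trivType Dt.R'.r f)
      (fun χ => IsWFn Dt.𝔑₀ Dt.R'.r ℓ Dt.o χ)
      (fun f f' f'' hf hf' hf'' => hform.add_left f f' f'' hf hf' hf'')
      (fun f f' hf hf' => hform.conj_symm f f' hf hf')
      (fun χ => innerD_zero_left938 _ _ χ) (fun χ => innerD_zero_right938 _ _ χ)
      hV0 (fun f f' hf hf' => hsub.addV f f' hf hf') (fun a f hf => hsub.smulV a f hf)
      hWV (fun f hf => hDt.proj_up g hg f hf)
      (fun p => v p.1 p.2) (fun p => ((hW.basis p.1).eig p.2).inv)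
      (by
        rintro ⟨i, a⟩ ⟨i', a'⟩ hpq
        by_cases hi : i = i'
        · subst hi
          have ha : a ≠ a' := fun h => hpq (by rw [h])
          have := (hW.basis i).orth a a'
          rw [if_neg ha] at this
          exact this
        · exact hW.orth i i' a a' hi)
      (by
        rintro ⟨i, a⟩
        have := (hW.basis i).orth a a
        rw [if_pos rfl] at this
        exact this)
      (fun ψ hψ => hW.complete ψ hψ)
      h (fun k => (hhS k).1) (fun k χ hχ => (hhS k).2 χ hχ) hho hhn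
      (fun f hf hf' => hhc f ⟨hf, hf'⟩)
  refine ⟨e₀, fun i a => idx ⟨i, a⟩, ⟨h1, h2, h3, h4⟩, ?_, ?_, ?_⟩
  · intro i a i' a' hia
    exact h5 hia
  · intro i a
    exact h6 ⟨i, a⟩
  · intro j hj χ hχ
    exact h7 j (fun p => hj p.1 p.2) χ hχ

end TwoFields

end Fermat.Agent.LT.T7.H938

end
end
-- ===== PACK-END LT/T7/H938/Complete.lean

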