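import Mathlib
import Fermat.Agent.Pack.LT3.E24L2
import Fermat.Agent.Pack.LT3.E24L3
import Fermat.Agent.Pack.LT3.E5L2
import Fermat.Agent.Pack.LT3.E23L0
import Fermat.Agent.Pack.LT3.E24L0
import Fermat.Agent.Pack.LT3.E22L0
import Fermat.Agent.Pack.LT3.E24L1
import Fermat.Agent.Pack.LT3.E23L1
import Fermat.Agent.Pack.LT2.E2L0
import Fermat.Agent.Pack.LT2.E10L0
import Fermat.Agent.Pack.LT3.E21L2
import Fermat.Agent.Pack.LT3.E23L3
import Fermat.Agent.Pack.LT3.E17L2
import Fermat.Agent.Pack.LT2.E0L2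
import Fermat.Agent.Pack.LT3.E21L1
import Fermat.Agent.Pack.LT2.E2L2
import Fermat.Agent.Pack.LT3.E25L2

set_option linter.all false

-- ===== PACK-BEGIN LT/T7/H221/SuppOut.lean
section



/-!
# Row LT, tower T7, leaf T7.L2.1.C2.7.7.4 (FD.4) `SuppOutC558` (helper221, registry 2639)

OFF-MAIN.  ADDITIVE (new names only, suffix `221`).  Spec: `T7/H558/FactDownSpec.lean`
(helper558@b6c4c8a4b, sha256 8043f526), byte-identical copy.

    suppOutC221 (K) : H558.SuppOutC558 K        (VERBATIM, unconditional)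

Proof.  `twTerm r id φ γ x = ∑' m : ℤ, φ (x⁻¹ γ x rᵐ)` (`(id).onG x = x`); a non-zero `tsum` has a
non-zero term; `pure305 S f₀ F h ≠ 0` gives `OutT305 S h`; `rᵐ` is trivial at the finite places,
so the components of `x⁻¹ γ x rᵐ` and of its inverse at `v` are those of `x⁻¹ γ x`.
-/

set_option autoImplicit false

open AutomorphicForm IsDedekindDomain NumberField MeasureTheory

noncomputable section

namespace Fermat.Agent.LT.T7.H221

open Fermat.Agent.LT.H556 Fermat.Agent.LT.H556.A0 Fermat.Agent.LT.T7 Fermat.Agent.LT.T7.H305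

variable {K : Type} [Field K] [NumberField K]

/-- `finComp v g` is the matrix of `finGL305 v g`. -/
theorem finComp_eq_finGL221 (v : HeightOneSpectrum (𝓞 K)) (g : G K) :
    finComp v g = ((finGL305 v g : GL (Fin 2) (v.adicCompletion K)) :
      Matrix (Fin 2) (Fin 2) (v.adicCompletion K)) := rfl

/-- An element which is trivial at `v` has trivial component at `v`. -/
theorem finGL_eq_one_of_triv221 (v : HeightOneSpectrum (𝓞 K)) (r : G K) (h : TrivAtFin v r) :
    finGL305 v r = 1 := by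
  apply Units.ext
  rw [← finComp_eq_finGL221]
  exact h

/-- Integrality at `v` depends on the component at `v` only. -/
theorem isIntegralAt_congr221 (v : HeightOneSpectrum (𝓞 K)) (g h : G K)
    (hgh : finGL305 v g = finGL305 v h) : IsIntegralAt v g ↔ IsIntegralAt v h := by
  unfold IsIntegralAt
  rw [finComp_eq_finGL221, finComp_eq_finGL221, hgh]

/-- The trivial adelic automorphism acts trivially on `GL₂(𝔸_K)`. -/
theorem onG_id221 (x : G K) : (T5.AdelicAut.id K).onG x = x := by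
  apply Units.ext
  ext i j
  rfl

/-- `Out_T` is stable under right multiplication by an element which is trivial at the finite
places (both directions). -/
theorem outT_mul_triv_iff221 (T : Finset (HeightOneSpectrum (𝓞 K))) (h z : G K)
    (hz : ∀ v : HeightOneSpectrum (𝓞 K), TrivAtFin v z) :
    OutT305 T (h * z) ↔ OutT305 T h := by
  have key : ∀ v : HeightOneSpectrum (𝓞 K),
      finGL305 v (h * z) = finGL305 v h ∧ finGL305 v (h * z)⁻¹ = finGL305 v h⁻¹ := by
    intro v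
    have hzv : finGL305 v z = 1 := finGL_eq_one_of_triv221 v z (hz v)
    constructor
    · rw [map_mul, hzv, mul_one]
    · rw [mul_inv_rev, map_mul, map_inv, hzv, inv_one, one_mul]
  constructor
  · intro hout v hv
    exact ⟨(isIntegralAt_congr221 v _ _ (key v).1).1 (hout v hv).1,
      (isIntegralAt_congr221 v _ _ (key v).2).1 (hout v hv).2⟩
  · intro hout v hv
    exact ⟨(isIntegralAt_congr221 v _ _ (key v).1).2 (hout v hv).1,
      (isIntegralAt_congr221 v _ _ (key v).2).2 (hout v hv).2⟩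

/-- The powers of an element which is trivial at the finite places are trivial there. -/
theorem trivAtFin_zpow221 (r : G K) (hr : ∀ v : HeightOneSpectrum (𝓞 K), TrivAtFin v r)
    (m : ℤ) (v : HeightOneSpectrum (𝓞 K)) : TrivAtFin v (r ^ m) := by
  have h1 : finGL305 v (r ^ m) = 1 := by
    rw [map_zpow, finGL_eq_one_of_triv221 v r (hr v), one_zpow]
  show finComp v (r ^ m) = 1
  rw [finComp_eq_finGL221, h1]
  rfl

/-- A non-zero value of the pure tensor: the argument lies in `Out_T`. -/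
theorem outT_of_pure_ne_zero221 (T : Finset (HeightOneSpectrum (𝓞 K)))
    (f₀ : ∀ v : HeightOneSpectrum (𝓞 K), GL (Fin 2) (v.adicCompletion K) → ℂ)
    (F : InfinitePlace K → GL (Fin 2) ℂ → ℂ) (h : G K) (hne : pure305 T f₀ F h ≠ 0) :
    OutT305 T h := by
  by_contra hno
  apply hne
  unfold pure305
  rw [if_neg hno]

/-- **LEAF FD.4 = SUPP-OUT** (`H558.SuppOutC558`, VERBATIM). -/
theorem suppOutC221 (K : Type) [Field K] [NumberField K] : H558.SuppOutC558 K := by
  intro r hr S f₀ F γ x hne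
  have h1 : ∃ m : ℤ, pure305 S f₀ F
      (x⁻¹ * T5.ratG γ * (T5.AdelicAut.id K).onG x * r ^ m) ≠ 0 := by
    by_contra hcon
    simp only [not_exists, ne_eq, not_not] at hcon
    apply hne
    show (∑' m : ℤ, pure305 S f₀ F
      (x⁻¹ * T5.ratG γ * (T5.AdelicAut.id K).onG x * r ^ m)) = 0
    simp only [hcon]
    exact tsum_zero
  obtain ⟨m, hm⟩ := h1
  rw [onG_id221] at hm
  have hout : OutT305 S (x⁻¹ * T5.ratG γ * x * r ^ m) := outT_of_pure_ne_zero221 S f₀ F _ hm
  exact (outT_mul_triv_iff221 S _ _ (trivAtFin_zpow221 r hr.1 m)).1 hout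

end Fermat.Agent.LT.T7.H221

end

end
-- ===== PACK-END LT/T7/H221/SuppOut.lean

-- ===== PACK-BEGIN LT/T7/H582/ArchAlg.lean
section




/-!
# Row LT, tower T7, leaf C2.7.13.4 `LocEqArchC340` (helper582, registry row 2623), OFF-MAIN

PART 4: **the algebra at the infinite places**: in the `K`-coordinates the product of the
components of `δ r'^j` at the places over `v` is the component of `γ r^j` at `v`.
-/

set_option autoImplicit false

open AutomorphicForm IsDedekindDomain NumberField MeasureTheory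
open scoped ComplexConjugate

noncomputable section

namespace Fermat.Agent.LT.T7.H582

open Fermat.Agent.LT.H556 Fermat.Agent.LT.H556.A0 Fermat.Agent.LT.T7 Fermat.Agent.LT.T7.H305
open Fermat.Agent.LT.T7.H340 Fermat.Agent.LT.T7.H159

section OneField

variable {K : Type} [Field K] [NumberField K]

/-- The component of a rational adele at the infinite place `w`. -/
theorem infHom_rat582 (w : InfinitePlace K) (x : K) :
    T5.infHom w (algebraMap K (Adl K) x) = w.embedding x := by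
  show InfinitePlace.Completion.extensionEmbedding w
    ((algebraMap K (Adl K) x).1 w) = w.embedding x
  rw [NumberField.AdeleRing.algebraMap_fst_apply]
  simp

end OneField

section Grp

variable {H : Type} [Group H]

/-- The product of `A a * Z` with `Z` central. -/
theorem prodFrom_central582 (A : ℕ → H) (Z : H) (hZ : ∀ x : H, Z * x = x * Z) (n i : ℕ) :
    prodFrom159 (fun a => A a * Z) n i = prodFrom159 A n i * Z ^ n := by
  induction n generalizing i with
  | zero =>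
    show (1 : H) = 1 * Z ^ 0
    simp
  | succ n ih =>
    show A i * Z * prodFrom159 (fun a => A a * Z) n (i + 1)
      = A i * prodFrom159 A n (i + 1) * Z ^ (n + 1)
    rw [ih (i + 1)]
    have hc : Z * prodFrom159 A n (i + 1) = prodFrom159 A n (i + 1) * Z := hZ _
    calc A i * Z * (prodFrom159 A n (i + 1) * Z ^ n)
        = A i * (Z * prodFrom159 A n (i + 1)) * Z ^ n := by simp only [mul_assoc]
      _ = A i * (prodFrom159 A n (i + 1) * Z) * Z ^ n := by rw [hc]
      _ = A i * prodFrom159 A n (i + 1) * Z ^ (n + 1) := by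
          rw [pow_succ']
          simp only [mul_assoc]

end Grp

section TwoFields

variable {K K' : Type} [Field K] [NumberField K] [Field K'] [NumberField K'] [Algebra K K']

theorem sigma_fix582 (D : CompData K K') (hD : IsCompData D) (x : K) :
    D.s.σ (algebraMap K K' x) = algebraMap K K' x :=
  (hD.cyc.fixed _).1 ((hD.base _).2 ⟨x, rfl⟩)

theorem finrank_up582 (l : ℕ) (hcyc : IsCycExt K K' l) :
    Module.finrank ℚ K' = Module.finrank ℚ K * l := by
  rw [← hcyc.degree]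
  exact (Module.finrank_mul_finrank ℚ K K').symm

/-- The embedding `e_a = d_a ∘ (component at w_a)` of `K'`. -/
abbrev embA582 (w' : ℕ → InfinitePlace K') (d : ℕ → ℂ →+* ℂ) (a : ℕ) : K' →+* ℂ :=
  (d a).comp ((T5.infHom (w' a)).comp (algebraMap K' (Adl K')))

theorem embA_eqns_realised582 : True := by
  have _a1 := @embA582.eq_1
  have _a2 := @embA582.eq_def
  have _a3 := @embA582.eq_unfold
  trivial

variable (D : CompData K K') (ι : Adl K →+* Adl K') (w : InfinitePlace K)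
  (w' : ℕ → InfinitePlace K') (d : ℕ → ℂ →+* ℂ)

theorem d_invol582 (hd : ∀ a : ℕ, d a = RingHom.id ℂ ∨ d a = starRingEnd ℂ) (a : ℕ) (z : ℂ) :
    d a (d a z) = z := by
  rcases hd a with h | h <;> rw [h] <;> simp

theorem d_real582 (hd : ∀ a : ℕ, d a = RingHom.id ℂ ∨ d a = starRingEnd ℂ) (a : ℕ) (t : ℝ) :
    d a (t : ℂ) = (t : ℂ) := by
  rcases hd a with h | h <;> rw [h] <;> simp

/-- `e_a` restricted to `K` is the embedding of `w`. -/
theorem embA_base582 (hι : IsAdeleBase305 D.s D.l ι)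
    (hd : ∀ a : ℕ, d a = RingHom.id ℂ ∨ d a = starRingEnd ℂ)
    (hdι : ∀ (a : ℕ) (x : Adl K), T5.infHom (w' a) (ι x) = d a (T5.infHom w x))
    (a : ℕ) (x : K) :
    embA582 w' d a (algebraMap K K' x) = w.embedding x := by
  show d a (T5.infHom (w' a) (algebraMap K' (Adl K') (algebraMap K K' x))) = _
  rw [← hι.rat, hdι, d_invol582 d hd, infHom_rat582]

/-- The place of `e_a` is `w_a`. -/
theorem mk_embA582 (hd : ∀ a : ℕ, d a = RingHom.id ℂ ∨ d a = starRingEnd ℂ) (a : ℕ) :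
    InfinitePlace.mk (embA582 w' d a) = w' a := by
  have h1 : (T5.infHom (w' a)).comp (algebraMap K' (Adl K')) = (w' a).embedding := by
    ext x
    exact infHom_rat582 (w' a) x
  rcases hd a with h | h
  · have : embA582 w' d a = (w' a).embedding := by
      show (d a).comp _ = _
      rw [h, h1]
      rfl
    rw [this, InfinitePlace.mk_embedding]
  · have : embA582 w' d a = ComplexEmbedding.conjugate (w' a).embedding := by
      show (d a).comp _ = _
      rw [h, h1]
      rfl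
    rw [this, InfinitePlace.mk_conjugate_eq, InfinitePlace.mk_embedding]

/-- `e_{a+1} = e_a ∘ σ`. -/
theorem embA_succ582 (hD : IsCompData D) (htc : TotCplx K) (hι : IsAdeleBase305 D.s D.l ι)
    (hsucc : ∀ a : ℕ, w' (a + 1) = (w' a).comap (D.s.σ : K' →+* K'))
    (hd : ∀ a : ℕ, d a = RingHom.id ℂ ∨ d a = starRingEnd ℂ)
    (hdι : ∀ (a : ℕ) (x : Adl K), T5.infHom (w' a) (ι x) = d a (T5.infHom w x))
    (a : ℕ) :
    embA582 w' d (a + 1) = (embA582 w' d a).comp (D.s.σ : K' →+* K') := by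
  have hmk : InfinitePlace.mk (embA582 w' d (a + 1))
      = InfinitePlace.mk ((embA582 w' d a).comp (D.s.σ : K' →+* K')) := by
    rw [mk_embA582 w' d hd, hsucc a, ← InfinitePlace.comap_mk, mk_embA582 w' d hd]
  rcases InfinitePlace.mk_eq_iff.1 hmk with h | h
  · exact h
  · exfalso
    have hreal : ComplexEmbedding.IsReal w.embedding := by
      rw [ComplexEmbedding.isReal_iff]
      ext x
      have h1 := RingHom.congr_fun h (algebraMap K K' x)
      have h2 : (D.s.σ : K' →+* K') (algebraMap K K' x) = algebraMap K K' x :=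
        sigma_fix582 D hD x
      change conj (embA582 w' d (a + 1) (algebraMap K K' x))
        = embA582 w' d a ((D.s.σ : K' →+* K') (algebraMap K K' x)) at h1
      rw [h2, embA_base582 D ι w w' d hι hd hdι, embA_base582 D ι w w' d hι hd hdι] at h1
      rw [ComplexEmbedding.conjugate_coe_eq]
      exact h1
    exact (InfinitePlace.isComplex_iff.1 (htc w)) hreal

/-- The product of the `e_a(δ)` is `e_j` of the norm. -/
theorem prod_embA582 (hD : IsCompData D) (htc : TotCplx K) (hι : IsAdeleBase305 D.s D.l ι)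
    (hsucc : ∀ a : ℕ, w' (a + 1) = (w' a).comap (D.s.σ : K' →+* K'))
    (hd : ∀ a : ℕ, d a = RingHom.id ℂ ∨ d a = starRingEnd ℂ)
    (hdι : ∀ (a : ℕ) (x : Adl K), T5.infHom (w' a) (ι x) = d a (T5.infHom w x))
    (δ : GL (Fin 2) K') (n j : ℕ) :
    prodFrom159 (fun a => Matrix.GeneralLinearGroup.map (embA582 w' d a) δ) n j
      = Matrix.GeneralLinearGroup.map (embA582 w' d j) (D.s.normUpTo n δ) := by
  induction n generalizing j with
  | zero =>
    show (1 : GL (Fin 2) ℂ) = Matrix.GeneralLinearGroup.map (embA582 w' d j) 1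
    rw [map_one]
  | succ n ih =>
    show Matrix.GeneralLinearGroup.map (embA582 w' d j) δ
        * prodFrom159 (fun a => Matrix.GeneralLinearGroup.map (embA582 w' d a) δ) n (j + 1)
      = Matrix.GeneralLinearGroup.map (embA582 w' d j)
          (δ * D.s.onRat (D.s.normUpTo n δ))
    rw [ih (j + 1), map_mul, embA_succ582 D ι w w' d hD htc hι hsucc hd hdι j]
    rfl

/-- The component of a point of the central ray. -/
theorem ray_val582 {F : Type} [Field F] [NumberField F] (r : G F) (t : ℝ)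
    (ht : ∀ w : InfinitePlace F, infComp w r = Matrix.diagonal (fun _ => (t : ℂ)))
    (w : InfinitePlace F) :
    ((infGL305 w r : GL (Fin 2) ℂ) : Matrix (Fin 2) (Fin 2) ℂ)
      = Matrix.diagonal (fun _ => (t : ℂ)) := by
  rw [← ht w]
  rfl

theorem diag_central582 (c : ℂ) (Z x : GL (Fin 2) ℂ)
    (hZ : (Z : Matrix (Fin 2) (Fin 2) ℂ) = Matrix.diagonal (fun _ => c)) : Z * x = x * Z := by
  apply Units.ext
  rw [Units.val_mul, Units.val_mul, hZ]
  ext i j
  simp [Matrix.mul_apply, Matrix.diagonal_apply]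
  fin_cases i <;> simp <;> ring

/-- **THE ALGEBRA AT THE INFINITE PLACES.** -/
theorem prod_arch582 (hD : IsCompData D) (hcyc : IsCycExt K K' D.l) (htc : TotCplx K)
    (hι : IsAdeleBase305 D.s D.l ι)
    (hsucc : ∀ a : ℕ, w' (a + 1) = (w' a).comap (D.s.σ : K' →+* K'))
    (hd : ∀ a : ℕ, d a = RingHom.id ℂ ∨ d a = starRingEnd ℂ)
    (hdι : ∀ (a : ℕ) (x : Adl K), T5.infHom (w' a) (ι x) = d a (T5.infHom w x))
    (δ : GL (Fin 2) K') (γ : GL (Fin 2) K)
    (hnorm : D.s.normUpTo D.l δ = Matrix.GeneralLinearGroup.map (algebraMap K K') γ) (j : ℤ) :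
    prodFrom159 (fun a => Matrix.GeneralLinearGroup.map (d a)
        (infGL305 (w' a) (T5.ratG δ * D.R'.r ^ j))) D.l 0
      = infGL305 w (T5.ratG γ * D.R.r ^ j) := by
  obtain ⟨-, t', ht'pos, ht'pow, ht'⟩ := hD.frame'.ray
  obtain ⟨-, t, htpos, htpow, ht⟩ := hD.frame.ray
  have htt : t' ^ D.l = t := by
    have h1 : (t' ^ D.l) ^ (2 * Module.finrank ℚ K) = t ^ (2 * Module.finrank ℚ K) := by
      rw [← pow_mul, htpow, ← ht'pow, finrank_up582 D.l hcyc]
      congr 1
      ring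
    have hpos : 2 * Module.finrank ℚ K ≠ 0 := by
      have := Module.finrank_pos (R := ℚ) (M := K)
      omega
    exact (pow_left_inj₀ (pow_nonneg ht'pos.le _) htpos.le hpos).1 h1
  set Z : GL (Fin 2) ℂ :=
    Matrix.GeneralLinearGroup.map (d 0) (infGL305 (w' 0) D.R'.r) with hZ
  have hZval : ∀ a : ℕ, ((Matrix.GeneralLinearGroup.map (d a) (infGL305 (w' a) D.R'.r) :
      GL (Fin 2) ℂ) : Matrix (Fin 2) (Fin 2) ℂ) = Matrix.diagonal (fun _ => (t' : ℂ)) := by
    intro a
    have h1 : ((Matrix.GeneralLinearGroup.map (d a) (infGL305 (w' a) D.R'.r) :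
        GL (Fin 2) ℂ) : Matrix (Fin 2) (Fin 2) ℂ)
        = ((infGL305 (w' a) D.R'.r : GL (Fin 2) ℂ) : Matrix (Fin 2) (Fin 2) ℂ).map (d a) := rfl
    rw [h1, ray_val582 D.R'.r t' ht' (w' a), Matrix.diagonal_map (map_zero _)]
    congr 1
    funext _
    exact d_real582 d hd a t'
  have hZa : ∀ a : ℕ, Matrix.GeneralLinearGroup.map (d a) (infGL305 (w' a) D.R'.r) = Z :=
    fun a => Units.ext (by rw [hZval a, hZ, hZval 0])
  have hZc : ∀ x : GL (Fin 2) ℂ, Z ^ j * x = x * Z ^ j := by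
    intro x
    have hc : Commute Z x := diag_central582 (t' : ℂ) Z x (hZval 0)
    exact (hc.zpow_left j).eq
  have hfun : (fun a => Matrix.GeneralLinearGroup.map (d a)
        (infGL305 (w' a) (T5.ratG δ * D.R'.r ^ j)))
      = fun a => Matrix.GeneralLinearGroup.map (embA582 w' d a) δ * Z ^ j := by
    funext a
    rw [map_mul, map_mul, map_zpow, map_zpow, hZa a]
    rfl
  rw [hfun, prodFrom_central582 _ (Z ^ j) hZc D.l 0,
    prod_embA582 D ι w w' d hD htc hι hsucc hd hdι, hnorm, map_mul, map_zpow]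
  have he : (embA582 w' d 0).comp (algebraMap K K')
      = (T5.infHom w).comp (algebraMap K (Adl K)) := by
    ext x
    rw [RingHom.comp_apply, embA_base582 D ι w w' d hι hd hdι, RingHom.comp_apply,
      infHom_rat582]
  have h1 : Matrix.GeneralLinearGroup.map (embA582 w' d 0)
      (Matrix.GeneralLinearGroup.map (algebraMap K K') γ) = infGL305 w (T5.ratG γ) := by
    show Matrix.GeneralLinearGroup.map ((embA582 w' d 0).comp (algebraMap K K')) γ
      = Matrix.GeneralLinearGroup.map ((T5.infHom w).comp (algebraMap K (Adl K))) γ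
    rw [he]
  have hZl : Z ^ D.l = infGL305 w D.R.r := by
    apply Units.ext
    rw [Units.val_pow_eq_pow_val, hZval 0, Matrix.diagonal_pow, ray_val582 D.R.r t ht w]
    congr 1
    funext _
    show ((t' : ℂ)) ^ D.l = (t : ℂ)
    rw [← htt]
    push_cast
    rfl
  rw [h1, ← hZl]
  congr 1
  rw [← zpow_natCast, ← zpow_natCast, ← zpow_mul, ← zpow_mul, mul_comm]

end TwoFields

end Fermat.Agent.LT.T7.H582

end

end
-- ===== PACK-END LT/T7/H582/ArchAlg.lean

-- ===== PACK-BEGIN LT/T7/H140/DownBasisQTop.lean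
section




/-!
# Row LT, tower T7, NODE T7.L2Q.3.7 `SDQ140.DownBasisQC` -- THE ASSEMBLY (helper140)

OFF-MAIN.  PROVED: `downBasisQC_of140`, from the seven leaves of `DownBasisQSpec.lean` and the
fields `proj_down`, `class_down`, `comm_down`, `ekprod_down`, `u_level`, `comp` of `IsL2QData`;
`specDownQC_of_leaves140` = the node `L2Q.SpecDownQC F` from all its leaves.
No hole, nothing assumed.  ADDITIVE.  Typed mirror of `LT/T7/H534/DownBasisTop.lean`
(helper534@9a502f8aa, byte-identical copy), whose generic lemmas are reused.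
-/

set_option autoImplicit false
set_option linter.unusedSectionVars false
set_option linter.unusedVariables false

open AutomorphicForm IsDedekindDomain NumberField MeasureTheory
open scoped ComplexConjugate

noncomputable section

namespace Fermat.Agent.LT.T7.SDQ140

open Fermat.Agent.LT.H556 Fermat.Agent.LT.H556.A0 Fermat.Agent.LT.H670 Fermat.Agent.LT.T7
open Fermat.Agent.LT.T7.L2Q

attribute [local instance] Fermat.Agent.LT.T5.instMeasurableSpaceG

/-- `W` as a submodule of the functions. -/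
def wSubQ140 {ty : QWt} {𝔫 : Ideal (𝓞 ℚ)} {r : G ℚ} {u : HeightOneSpectrum (𝓞 ℚ)} (h : IsWSubQ ty 𝔫 r u) :
    Submodule ℂ (G ℚ → ℂ) where
  carrier := {χ | InWQ ty 𝔫 r u χ}
  zero_mem' := h.zeroW
  add_mem' := fun {a b} ha hb => h.addW a b ha hb
  smul_mem' := fun a f hf => h.smulW a f hf

theorem mem_wSubQ140 {ty : QWt} {𝔫 : Ideal (𝓞 ℚ)} {r : G ℚ} {u : HeightOneSpectrum (𝓞 ℚ)}
    (h : IsWSubQ ty 𝔫 r u) (χ : G ℚ → ℂ) : χ ∈ wSubQ140 h ↔ InWQ ty 𝔫 r u χ := Iff.rfl

/-- The class spans are contained in `W`. -/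
theorem clsSpan_leQ140 {ty : QWt} {𝔫 : Ideal (𝓞 ℚ)} {r : G ℚ} {u : HeightOneSpectrum (𝓞 ℚ)}
    (hS : IsWSubQ ty 𝔫 r u) (w : ℕ → G ℚ → ℂ) (J : Set ℕ) (c : ℕ → EigData ℚ)
    (heig : ∀ j, j ∈ J → InClsQ ty 𝔫 r u (c j) (w j)) (a : EigData ℚ) :
    SD534.clsSpan w J c a ≤ wSubQ140 hS := by
  unfold SD534.clsSpan
  rw [Submodule.span_le]
  rintro f ⟨j, hj, -, rfl⟩
  exact (heig j hj).inW

/-- The members of a class span are eigenfunctions with the data of the class. -/
theorem inCls_of_memQ140 {ty : QWt} {𝔫 : Ideal (𝓞 ℚ)} {r : G ℚ} {u : HeightOneSpectrum (𝓞 ℚ)}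
    (hS : IsWSubQ ty 𝔫 r u) (w : ℕ → G ℚ → ℂ) (J : Set ℕ) (c : ℕ → EigData ℚ)
    (heig : ∀ j, j ∈ J → InClsQ ty 𝔫 r u (c j) (w j)) (j₀ : ℕ) (hj₀ : j₀ ∈ J)
    (x : G ℚ → ℂ) (hx : x ∈ SD534.clsSpan w J c (c j₀)) : InClsQ ty 𝔫 r u (c j₀) x := by
  unfold SD534.clsSpan at hx
  induction hx using Submodule.span_induction with
  | mem f hf =>
    obtain ⟨j, hj, hc, rfl⟩ := hf
    rw [← hc]
    exact heig j hj
  | zero =>
    have h := hS.smulC (c j₀) 0 (w j₀) (heig j₀ hj₀)
    rwa [zero_smul] at h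
  | add f f' _ _ hf hf' => exact hS.addC (c j₀) f f' hf hf'
  | smul a f _ hf => exact hS.smulC (c j₀) a f hf

/-- Parseval for the interleaved sequence. -/
theorem complete_mixQ140 {ty : QWt} {μ : Measure (G ℚ)} {F : Set (G ℚ)} {r : G ℚ} {𝔫 : Ideal (𝓞 ℚ)}
    {u : HeightOneSpectrum (𝓞 ℚ)} (hF : IsCuspFormQ ty μ F r 𝔫) (hS : IsWSubQ ty 𝔫 r u)
    (e p : ℕ → G ℚ → ℂ) (J : Set ℕ)
    (he : ∀ j, j ∈ J → InWQ ty 𝔫 r u (e j))
    (hePars : ∀ χ : G ℚ → ℂ, InWQ ty 𝔫 r u χ →
      HasSum (fun j : J => ‖T5.innerD μ F χ (e j)‖ ^ 2) (T5.innerD μ F χ χ).re)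
    (hpV : ∀ n, InVQ ty 𝔫 r (p n))
    (hpW : ∀ n, ∀ χ : G ℚ → ℂ, InWQ ty 𝔫 r u χ → T5.innerD μ F (p n) χ = 0)
    (hpPars : ∀ f : G ℚ → ℂ, InVQ ty 𝔫 r f →
      (∀ χ : G ℚ → ℂ, InWQ ty 𝔫 r u χ → T5.innerD μ F f χ = 0) →
      HasSum (fun n => ‖T5.innerD μ F f (p n)‖ ^ 2) (T5.innerD μ F f f).re)
    (f : G ℚ → ℂ) (hf : InVQ ty 𝔫 r f)
    (hproj : ∃ f₁ : G ℚ → ℂ, InWQ ty 𝔫 r u f₁ ∧
      ∀ χ : G ℚ → ℂ, InWQ ty 𝔫 r u χ → T5.innerD μ F (fun x => f x - f₁ x) χ = 0) :
    HasSum (fun i => ‖T5.innerD μ F f (SD534.mix534 e p J i)‖ ^ 2) (T5.innerD μ F f f).re := by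
  classical
  obtain ⟨f₁, hf₁, hperp⟩ := hproj
  set d : G ℚ → ℂ := fun x => f x - f₁ x with hd
  have hf₁V : InVQ ty 𝔫 r f₁ := hf₁.inV
  have hdV : InVQ ty 𝔫 r d := by
    have h1 : d = f + (-1 : ℂ) • f₁ := by
      funext x
      simp only [hd, Pi.add_apply, Pi.smul_apply, smul_eq_mul]
      ring
    rw [h1]
    exact hS.addV _ _ hf (hS.smulV _ _ hf₁V)
  have hfd : f = f₁ + d := by
    funext x
    simp only [hd, Pi.add_apply]
    ring
  -- the coefficients
  have hcoefW : ∀ χ : G ℚ → ℂ, InWQ ty 𝔫 r u χ → T5.innerD μ F f χ = T5.innerD μ F f₁ χ := by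
    intro χ hχ
    have h := hF.add_left f₁ d χ hf₁V hdV hχ.inV
    rw [← hfd] at h
    rw [h, hperp χ hχ, add_zero]
  have hcoefP : ∀ n, T5.innerD μ F f (p n) = T5.innerD μ F d (p n) := by
    intro n
    have h := hF.add_left f₁ d (p n) hf₁V hdV (hpV n)
    rw [← hfd] at h
    have h0 : T5.innerD μ F f₁ (p n) = 0 := by
      rw [hF.conj_symm (p n) f₁ (hpV n) hf₁V, hpW n f₁ hf₁, map_zero]
    rw [h, h0, zero_add]
  -- Pythagoras
  have hpyth : (T5.innerD μ F f f).re = (T5.innerD μ F f₁ f₁).re + (T5.innerD μ F d d).re := by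
    have h1 : T5.innerD μ F f f = T5.innerD μ F f₁ f + T5.innerD μ F d f := by
      have h := hF.add_left f₁ d f hf₁V hdV hf
      rwa [← hfd] at h
    have h2 : T5.innerD μ F f₁ f = conj (T5.innerD μ F f₁ f₁) := by
      rw [hF.conj_symm f f₁ hf hf₁V, hcoefW f₁ hf₁]
    have h3 : T5.innerD μ F d f = conj (T5.innerD μ F d d) := by
      rw [hF.conj_symm f d hf hdV]
      have h := hF.add_left f₁ d d hf₁V hdV hdV
      rw [← hfd] at h
      have h0 : T5.innerD μ F f₁ d = 0 := by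
        rw [hF.conj_symm d f₁ hdV hf₁V, hperp f₁ hf₁, map_zero]
      rw [h, h0, zero_add]
    rw [h1, h2, h3, Complex.add_re, Complex.conj_re, Complex.conj_re]
  rw [hpyth]
  refine HasSum.even_add_odd ?_ ?_
  · -- the even part
    have h1 := hePars f₁ hf₁
    have h2 := (hasSum_subtype_iff_indicator
      (f := fun n => ‖T5.innerD μ F f₁ (e n)‖ ^ 2) (s := J)).1 h1
    have h3 : (fun k => ‖T5.innerD μ F f (SD534.mix534 e p J (2 * k))‖ ^ 2)
        = J.indicator (fun n => ‖T5.innerD μ F f₁ (e n)‖ ^ 2) := by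
      funext n
      rw [SD534.mix_even534]
      by_cases hn : n ∈ J
      · rw [if_pos hn, Set.indicator_of_mem hn, hcoefW (e n) (he n hn)]
      · rw [if_neg hn, Set.indicator_of_notMem hn, SD534.innerD_zero_right534, norm_zero]
        norm_num
    rw [h3]
    exact h2
  · have h3 : (fun k => ‖T5.innerD μ F f (SD534.mix534 e p J (2 * k + 1))‖ ^ 2)
        = fun n => ‖T5.innerD μ F d (p n)‖ ^ 2 := by
      funext n
      rw [SD534.mix_odd534, hcoefP n]
    rw [h3]
    exact hpPars d hdV hperp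

variable {F : Type} [Field F] [NumberField F]

/-- **THE ASSEMBLY of the node DOWN-BASIS over `ℚ`, type `n`.** -/
theorem downBasisQC_of140 (ty : QWt) (hForm : CuspFormQC ty) (hSub : WSubQC ty)
    (hOps : OpsClassQC ty) (hWB : WBasisQC ty) (hSchur : SD534.SchurSeqC) (hReg : RegParamFnQC ty)
    (hSeq : SubSeqQC ty) : DownBasisQC F ty := by
  classical
  intro h3 hquad Φ hΦ hconst Dt hDt g hg H z hH hz
  have hcomp : IsCompData (Dt.comp g) := hDt.comp g hg
  have hlev : Dt.𝔫 g ≠ ⊥ := hcomp.level_ne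
  have hfr : T5.IsFrame Dt.R.μ Dt.R.F := hcomp.frame.frame
  have hray : T5.IsRayGen Dt.R.r := hcomp.frame.ray
  have hu : Dt.u.asIdeal ∣ Dt.𝔫 g := hDt.u_level g hg
  have htest : T5.IsTestFn (Dt.𝔫 g) ty.type (Dt.f ty g [] 0 0) :=
    (hDt.ekprod_down ty g [] 0 0 hg (fun x hx => absurd hx (List.not_mem_nil))).1
  have hkt : T5.IsKType ty.type := htest.ktype
  have hF := hForm Dt.R.μ Dt.R.F Dt.R.r (Dt.𝔫 g) hlev hkt hfr hray
  have hS := hSub (Dt.𝔫 g) Dt.R.r Dt.u
  have hO := hOps (Dt.𝔫 g) Dt.R.r Dt.u H z hlev hkt hray hu hH hz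
  obtain ⟨w, J, c, hW⟩ := hWB Dt.R.μ Dt.R.F Dt.R.r (Dt.𝔫 g) Dt.u hlev hkt hfr hray hu
  have hmemW : ∀ a, ∀ x ∈ SD534.clsSpan w J c a, InWQ ty (Dt.𝔫 g) Dt.R.r Dt.u x :=
    fun a x hx => clsSpan_leQ140 hS w J c hW.eig a hx
  -- the hypotheses of the Schur leaf
  have hadd : ∀ a : EigData ℚ, ∀ x ∈ SD534.clsSpan w J c a, ∀ y ∈ SD534.clsSpan w J c a,
      iwOp Dt.u H (x + y) = iwOp Dt.u H x + iwOp Dt.u H y ∧
      T5.Rconv Dt.R.μ (Dt.f ty g [] 0 0) (x + y)
        = T5.Rconv Dt.R.μ (Dt.f ty g [] 0 0) x + T5.Rconv Dt.R.μ (Dt.f ty g [] 0 0) y ∧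
      ∀ k : ℤ, shiftOp z k (x + y) = shiftOp z k x + shiftOp z k y := by
    intro a x hx y hy
    exact ⟨SD534.iwOp_add534 _ _ x y,
      hF.conv_add _ x y htest (hmemW a x hx).inV (hmemW a y hy).inV,
      fun k => SD534.shiftOp_add534 z k x y⟩
  have hsmul : ∀ (a : EigData ℚ) (t : ℂ), ∀ x ∈ SD534.clsSpan w J c a,
      iwOp Dt.u H (t • x) = t • iwOp Dt.u H x ∧
      T5.Rconv Dt.R.μ (Dt.f ty g [] 0 0) (t • x) = t • T5.Rconv Dt.R.μ (Dt.f ty g [] 0 0) x ∧
      ∀ k : ℤ, shiftOp z k (t • x) = t • shiftOp z k x := by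
    intro a t x hx
    exact ⟨SD534.iwOp_smul534 _ _ t x, hF.conv_smul _ t x htest (hmemW a x hx).inV,
      fun k => SD534.shiftOp_smul534 z k t x⟩
  have hpres : ∀ a : EigData ℚ, ∀ x ∈ SD534.clsSpan w J c a,
      iwOp Dt.u H x ∈ SD534.clsSpan w J c a ∧
      T5.Rconv Dt.R.μ (Dt.f ty g [] 0 0) x ∈ SD534.clsSpan w J c a ∧
      ∀ k : ℤ, shiftOp z k x ∈ SD534.clsSpan w J c a := by
    intro a x hx
    by_cases hne : ∃ j, j ∈ J ∧ c j = a
    · obtain ⟨j₀, hj₀, rfl⟩ := hne
      have hxc := inCls_of_memQ140 hS w J c hW.eig j₀ hj₀ x hx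
      exact ⟨hW.exhaust j₀ hj₀ _ (hO.iw _ _ hxc),
        hW.exhaust j₀ hj₀ _ (hDt.class_down ty g hg x (c j₀) hxc),
        fun k => hW.exhaust j₀ hj₀ _ (hO.shift _ _ k hxc)⟩
    · rw [SD534.clsSpan_eq_bot534 w J c a hne] at hx ⊢
      rw [Submodule.mem_bot] at hx
      subst hx
      simp only [Submodule.mem_bot]
      exact ⟨SD534.iwOp_zero534 _ _, SD534.rconv_zero534 _ _, fun k => SD534.shiftOp_zero0_534 z k⟩
  have hcomm : ∀ a : EigData ℚ, ∀ x ∈ SD534.clsSpan w J c a,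
      T5.Rconv Dt.R.μ (Dt.f ty g [] 0 0) (iwOp Dt.u H x)
        = iwOp Dt.u H (T5.Rconv Dt.R.μ (Dt.f ty g [] 0 0) x) ∧
      (∀ k : ℤ, T5.Rconv Dt.R.μ (Dt.f ty g [] 0 0) (shiftOp z k x)
        = shiftOp z k (T5.Rconv Dt.R.μ (Dt.f ty g [] 0 0) x)) ∧
      ∀ k : ℤ, iwOp Dt.u H (shiftOp z k x) = shiftOp z k (iwOp Dt.u H x) := by
    intro a x hx
    have hc := hDt.comm_down ty g hg x (hmemW a x hx) H z hH hz
    exact ⟨funext hc.1, fun k => funext (hc.2 k), fun k => hO.comm x k⟩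
  have hgrp : ∀ a : EigData ℚ, ∀ x ∈ SD534.clsSpan w J c a,
      shiftOp z 0 x = x ∧ ∀ k k' : ℤ, shiftOp z (k + k') x = shiftOp z k (shiftOp z k' x) :=
    fun a x _ => ⟨SD534.shiftOp_zero534 z x, fun k k' => SD534.shiftOp_shiftOp534 z k k' x⟩
  obtain ⟨e, b, l, x, he, hnorm, horth, hpars, htri, hjoint⟩ :=
    hSchur (G ℚ → ℂ) (T5.innerD Dt.R.μ Dt.R.F) (wSubQ140 hS) (EigData ℚ) w J c
      (shiftOp z) (iwOp Dt.u H) (T5.Rconv Dt.R.μ (Dt.f ty g [] 0 0))
      (fun x hx y hy z hz => hF.add_left x y z (InWQ.inV hx) (InWQ.inV hy) (InWQ.inV hz))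
      (fun a x hx y hy => hF.smul_left a x y (InWQ.inV hx) (InWQ.inV hy))
      (fun x hx y hy => hF.conj_symm x y (InWQ.inV hx) (InWQ.inV hy))
      (fun x hx => hF.nonneg x (InWQ.inV hx))
      (fun x hx => hF.definite x (InWQ.inV hx))
      (fun j hj => (hW.eig j hj).inW)
      hW.norm_one hW.orth
      (fun χ hχ => hW.parseval χ hχ)
      hW.finite hadd hsmul hpres hcomm hgrp
  have heW : ∀ j, j ∈ J → InWQ ty (Dt.𝔫 g) Dt.R.r Dt.u (e j) := fun j hj => hmemW _ _ (he j hj)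
  -- the complement
  obtain ⟨p, hpS, hporth, hpnorm, hppars⟩ :=
    hSeq Dt.R.μ Dt.R.F Dt.R.r (Dt.𝔫 g) hlev hkt hfr hray
      (fun f => InVQ ty (Dt.𝔫 g) Dt.R.r f ∧
        ∀ χ : G ℚ → ℂ, InWQ ty (Dt.𝔫 g) Dt.R.r Dt.u χ → T5.innerD Dt.R.μ Dt.R.F f χ = 0)
      (fun f hf => hf.1)
      ⟨hS.zeroW.inV, fun χ _ => SD534.innerD_zero_left0_534 _ _ χ⟩
      (fun f f' hf hf' => ⟨hS.addV _ _ hf.1 hf'.1, fun χ hχ => by
        rw [hF.add_left f f' χ hf.1 hf'.1 hχ.inV, hf.2 χ hχ, hf'.2 χ hχ, add_zero]⟩)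
      (fun a f hf => ⟨hS.smulV a f hf.1, fun χ hχ => by
        rw [hF.smul_left a f χ hf.1 hχ.inV, hf.2 χ hχ, mul_zero]⟩)
  -- the sequence
  have hmixI : ∀ i, (i % 2 = 0 ∧ i / 2 ∈ J) → SD534.mix534 e p J i = e (i / 2) := by
    intro i hi
    unfold SD534.mix534
    rw [if_pos hi.1, if_pos hi.2]
  refine ⟨SD534.mix534 e p J, {i | i % 2 = 0 ∧ i / 2 ∈ J}, fun i => c (i / 2), fun i => b (i / 2),
    fun i => l (i / 2), fun i => x (i / 2), Real.sqrt (Ideal.absNorm Dt.u.asIdeal : ℝ),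
    ⟨⟨?_, ?_, ?_, ?_⟩, ?_, ?_, ?_, ?_, ?_, ?_⟩⟩
  · -- cusp
    intro i
    rcases SD534.mix_cases534 e p J i with ⟨n, -, hn, h⟩ | ⟨n, -, -, h⟩ | ⟨n, -, h⟩
    · rw [h]; exact (heW n hn).inV
    · rw [h]; exact hS.zeroW.inV
    · rw [h]; exact (hpS n).1
  · -- orth
    intro i j hij
    rcases SD534.mix_cases534 e p J i with ⟨n, hi, hn, h⟩ | ⟨n, hi, -, h⟩ | ⟨n, hi, h⟩ <;>
    rcases SD534.mix_cases534 e p J j with ⟨n', hj, hn', h'⟩ | ⟨n', hj, -, h'⟩ | ⟨n', hj, h'⟩ <;>
    rw [h, h']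
    · exact horth n hn n' hn' (fun hnn => hij (by rw [hi, hj, hnn]))
    · exact SD534.innerD_zero_right534 _ _ _
    · rw [hF.conj_symm (p n') (e n) (hpS n').1 (heW n hn).inV, (hpS n').2 (e n) (heW n hn),
        map_zero]
    · exact SD534.innerD_zero_left0_534 _ _ _
    · exact SD534.innerD_zero_left0_534 _ _ _
    · exact SD534.innerD_zero_left0_534 _ _ _
    · exact (hpS n).2 (e n') (heW n' hn')
    · exact SD534.innerD_zero_right534 _ _ _
    · exact hporth n n' (fun hnn => hij (by rw [hi, hj, hnn]))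
  · -- norm
    intro i
    rcases SD534.mix_cases534 e p J i with ⟨n, -, hn, h⟩ | ⟨n, -, -, h⟩ | ⟨n, -, h⟩
    · rw [h]; exact Or.inl (hnorm n hn)
    · rw [h]; exact Or.inr (fun _ => rfl)
    · rw [h]
      rcases hpnorm n with h1 | h0
      · exact Or.inl h1
      · exact Or.inr (fun y => by rw [h0]; rfl)
  · -- complete
    intro f hf
    exact complete_mixQ140 hF hS e p J heW hpars (fun n => (hpS n).1) (fun n => (hpS n).2)
      (fun f hf h => hppars f ⟨hf, h⟩) f hf (hDt.proj_down ty g hg f hf)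
  · -- perp
    intro i hi χ hχ
    rcases SD534.mix_cases534 e p J i with ⟨n, hin, hn, h⟩ | ⟨n, -, -, h⟩ | ⟨n, -, h⟩
    · exfalso
      apply hi
      refine ⟨by omega, ?_⟩
      have : i / 2 = n := by omega
      rw [this]
      exact hn
    · rw [h]; exact SD534.innerD_zero_left0_534 _ _ _
    · rw [h]; exact (hpS n).2 χ hχ
  · -- eig
    intro i hi
    rw [hmixI i hi]
    exact inCls_of_memQ140 hS w J c hW.eig (i / 2) hi.2 _ (he (i / 2) hi.2)
  · -- ne
    intro i hi
    rw [hmixI i hi]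
    by_contra hcon
    have h0 : e (i / 2) = 0 := by
      funext y
      by_contra hy
      exact hcon ⟨y, hy⟩
    have h1 := hnorm (i / 2) hi.2
    rw [h0, SD534.innerD_zero_left0_534] at h1
    exact zero_ne_one h1
  · -- unit
    intro i hi
    exact hW.unit (i / 2) hi.2
  · -- tri
    intro i hi k m
    rw [hmixI i hi]
    exact htri (i / 2) hi.2 k m
  · -- reg
    intro i hi
    obtain ⟨y, hy, hy0, hyZ, hyU⟩ := hjoint (i / 2) hi.2
    refine hReg Dt.R.μ Dt.R.F Dt.R.r (Dt.𝔫 g) Dt.u H z hlev hkt hfr hray hu hH hz y _ _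
      (hmemW _ y hy) ?_ hyZ hyU
    by_contra hcon
    apply hy0
    funext t
    by_contra ht
    exact hcon ⟨t, ht⟩


/-- **THE NODE T7.L2Q.3 FROM ALL ITS LEAVES.** -/
theorem specDownQC_of_leaves140 {F : Type} [Field F] [NumberField F]
    (hStf : ∀ n, StfQC n) (hIw : SD534.IwSysC ℚ) (hSph : ∀ n, SphFormQC n)
    (hBC : ∀ n, BCDataQC F n) (hBU : ∀ n, BCUnitQC F n) (hReal : ∀ n, RealQC n)
    (hUni : T6.Inf.UpUnitaryC) (hVal : T6.Inf.SphValuesC) (hPar : T6.Inf.Sph0ParamC)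
    (hW1 : RealWtOneC) (hForm : ∀ n, CuspFormQC n) (hSub : ∀ n, WSubQC n)
    (hOps : ∀ n, OpsClassQC n) (hWB : ∀ n, WBasisQC n) (hSchur : SD534.SchurSeqC)
    (hReg : ∀ n, RegParamFnQC n) (hSeq : ∀ n, SubSeqQC n) : SpecDownQC F :=
  specDownQC_of140 hStf hIw hSph hBC hBU hReal hUni hVal hPar hW1
    (fun n => downBasisQC_of140 n (hForm n) (hSub n) (hOps n) (hWB n) hSchur (hReg n) (hSeq n))

end Fermat.Agent.LT.T7.SDQ140

end

end
-- ===== PACK-END LT/T7/H140/DownBasisQTop.lean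

-- ===== PACK-BEGIN LT/T7/H419/KillUpQ.lean
section




/-!
# Row LT, tower T7, node T7.L2Q.1.F, LEAF T7.L2Q.1.F4 `KillUpQC732` (helper419)

OFF-MAIN.  `killUpQC419 F : H732.KillUpQC732 F` VERBATIM (`T7/H732/SupplyQFamSpec.lean` of
helper732, sha256 7e4f04b4), UNCONDITIONAL.

Proof.  The mirror of `H570.killUpC570` (helper570): the class `H570.Kills570 μ ψ` of the
continuous functions `φ` with compact support and `R(φ) ψ = 0` is stable under `lsum`, `regL`
(`H570.kills_lsum570`, `H570.kills_regL570`), the second base function upstairs is in the class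
by `up2_kill`, and `R(Φ₁ X ⋆ φ) ψ = R(Φ₁ X) (R(φ) ψ) = 0` (`H570.Rconv_conv_kills570`, which
rests on `T5.H277.Rconv_Rconv277` of helper277).  Only the fields upstairs of the pre-data and
the frame upstairs of the common part are used.
-/

set_option autoImplicit false

open AutomorphicForm IsDedekindDomain NumberField MeasureTheory
open scoped ComplexConjugate

noncomputable section

namespace Fermat.Agent.LT.T7.H419

open Fermat.Agent.LT.H556 Fermat.Agent.LT.H556.A0 Fermat.Agent.LT.T7 Fermat.Agent.LT.T7.L2Q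
  Fermat.Agent.LT.T7.H893 Fermat.Agent.LT.T7.H962 Fermat.Agent.LT.T7.H732
  Fermat.Agent.LT.T7.H570

attribute [local instance] Fermat.Agent.LT.T5.instMeasurableSpaceG

variable (F : Type) [Field F] [NumberField F]

/-- **LEAF T7.L2Q.1.F4 = KILL-UP over `F`**, VERBATIM. -/
theorem killUpQC419 : KillUpQC732 F := by
  intro Φ B hB g hg E hE X k m hX ψ hψ horth x
  have hF := hB.frame'.frame
  have := hF.haar
  have h2 : Kills570 B.R'.μ ψ E.φ₂ :=
    ⟨hE.up2_test.cont, hE.up2_test.supp, hE.up2_kill ψ hψ horth⟩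
  have h3 := kills_lsum570 hψ.cont E.Hg (kills_regL570 hψ.cont (B.o 0) E.z' E.H' k m h2)
  exact Rconv_conv_kills570 hF hψ.cont (hE.up1_test X hX).cont (hE.up1_test X hX).supp h3 x

end Fermat.Agent.LT.T7.H419

end

end
-- ===== PACK-END LT/T7/H419/KillUpQ.lean

-- ===== PACK-BEGIN LT/T7/H922/ClassComm.lean
section




/-!
# Row LT, tower T7, node T7.L2.1.F `FamC`, LEAVES T7.L2.1.F6 `ClassDownC` and T7.L2.1.F7
`CommDownC` (helper922, SPARES of rows 2254, 2255)

OFF-MAIN.  VERBATIM against `LT/T7/H893/SupplyFamSpec.lean` (helper893@5a34c9a24,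
sha256 32dee4c883d1), unconditional:

* `classDownC922 : H893.ClassDownC K K'`;
* `commDownC922 : H893.CommDownC K K'`.

`f [] 0 0 = F₁ [] ⋆ f₂` and `R(F₁ [] ⋆ f₂) = R(F₁ []) R(f₂)` on continuous functions.
-/

set_option autoImplicit false

open AutomorphicForm IsDedekindDomain NumberField MeasureTheory
open scoped ComplexConjugate

noncomputable section

namespace Fermat.Agent.LT.T7.H922

open Fermat.Agent.LT.H556 Fermat.Agent.LT.H556.A0 Fermat.Agent.LT.T7 Fermat.Agent.LT.T7.H893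

attribute [local instance] Fermat.Agent.LT.T5.instMeasurableSpaceG
attribute [local instance] borelSpaceG922

section One

variable {K : Type} [Field K] [NumberField K]

theorem regL_zero922 (w : HeightOneSpectrum (𝓞 K)) (z : G K) (H : Finset (G K))
    (φ : G K → ℂ) : regL w z H 0 0 φ = φ := by
  funext y
  simp [regL, ltr]

theorem continuous_iwOp922 {ψ : G K → ℂ} (h : Continuous ψ) (w : HeightOneSpectrum (𝓞 K))
    (H : Finset (G K)) : Continuous (iwOp w H ψ) :=
  continuous_const.mul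
    (continuous_finsetSum _ fun _ _ => h.comp (continuous_id.mul continuous_const))

theorem continuous_shiftOp922 {ψ : G K → ℂ} (h : Continuous ψ) (z : G K) (k : ℤ) :
    Continuous (shiftOp z k ψ) :=
  h.comp (continuous_id.mul continuous_const)

end One

variable (K K' : Type) [Field K] [NumberField K] [Field K'] [NumberField K'] [Algebra K K']

/-- `R(f [] 0 0) = R(F₁ []) R(f₂)` on continuous functions. -/
theorem rconv_down_nil922 {ℓ : ℕ} {Φ : HeckeEigensystem K' ℂ} {B : L2Base K K'}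
    (hB : IsL2Base ℓ Φ B) {g : G K'} {E : L2Pre K K'} (hE : IsL2Pre ℓ Φ B g E)
    {ψ : G K → ℂ} (hψ : Continuous ψ) :
    T5.Rconv B.R.μ (E.down B [] 0 0) ψ
      = T5.Rconv B.R.μ (E.F₁ []) (T5.Rconv B.R.μ E.f₂ ψ) := by
  have : B.R.μ.IsHaarMeasure := hB.frame.frame.haar
  have hnil : ∀ x ∈ ([] : List (Gen K')), x.Out B.S' := fun x hx => by simp at hx
  have h1 := hE.dn1_test [] hnil
  have h2 := hE.dn2_test
  funext x
  show T5.Rconv B.R.μ (T5.conv B.R.μ (E.F₁ []) (regL B.u E.z E.H 0 0 E.f₂)) ψ x = _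
  rw [regL_zero922]
  exact rconv_conv922 B.R.μ h1.cont h1.supp h2.cont h2.supp hψ x

/-- **LEAF T7.L2.1.F6 = CLASS-DOWN** (`H893.ClassDownC`, verbatim). -/
theorem classDownC922 : ClassDownC K K' := by
  intro ℓ Φ B hB g _ E hE ψ c hψ
  rw [rconv_down_nil922 K K' hB hE hψ.inv.cusp.cont]
  exact hE.dn1_class _ c (hE.dn2_class ψ c hψ)

/-- **LEAF T7.L2.1.F7 = COMM-DOWN** (`H893.CommDownC`, verbatim). -/
theorem commDownC922 : CommDownC K K' := by
  intro ℓ Φ B hB g _ E hE ψ hψ H z hH hz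
  have hc : Continuous ψ := hψ.cusp.cont
  have h2 := hE.dn2_comm ψ hψ H z hH hz
  have h1 := hE.dn1_comm _ (hE.dn2_wfn ψ hψ) H z hH hz
  constructor
  · intro x
    rw [rconv_down_nil922 K K' hB hE (continuous_iwOp922 hc B.u H),
      rconv_down_nil922 K K' hB hE hc]
    have e : T5.Rconv B.R.μ E.f₂ (iwOp B.u H ψ) = iwOp B.u H (T5.Rconv B.R.μ E.f₂ ψ) :=
      funext h2.1
    rw [e]
    exact h1.1 x
  · intro k x
    rw [rconv_down_nil922 K K' hB hE (continuous_shiftOp922 hc z k),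
      rconv_down_nil922 K K' hB hE hc]
    have e : T5.Rconv B.R.μ E.f₂ (shiftOp z k ψ) = shiftOp z k (T5.Rconv B.R.μ E.f₂ ψ) :=
      funext (h2.2 k)
    rw [e]
    exact h1.2 k x

end Fermat.Agent.LT.T7.H922

end

end
-- ===== PACK-END LT/T7/H922/ClassComm.lean

-- ===== PACK-BEGIN LT/T7/H534/V2Sub.lean
section





/-!
# Row LT, tower T7, LEAF T7.L2.3.5.4.1 `SD534.V2SubC` (helper534, registry row 2354)

OFF-MAIN.  PROVED: `v2SubC534 (K) : SD534.V2SubC K`, UNCONDITIONAL, on the lemmas of helper863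
(`LT/T7/H863/WSub.lean`, byte-identical copy) and of helper129 (`LT/H129/Comp.lean`).
No hole, nothing assumed.  ADDITIVE.
-/

set_option autoImplicit false
set_option linter.unusedSectionVars false
set_option linter.unusedVariables false

open AutomorphicForm IsDedekindDomain NumberField MeasureTheory
open scoped ComplexConjugate

noncomputable section

namespace Fermat.Agent.LT.T7.SD534

open Fermat.Agent.LT.H556 Fermat.Agent.LT.H556.A0 Fermat.Agent.LT.T7

attribute [local instance] Fermat.Agent.LT.T5.instMeasurableSpaceG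

variable {K : Type} [Field K] [NumberField K]

/-- An element which is trivial at every place is `1`. -/
theorem eq_one_of_triv534 {h : G K} (hI : ∀ w : InfinitePlace K, TrivAtInf w h)
    (hF : ∀ v : HeightOneSpectrum (𝓞 K), TrivAtFin v h) : h = 1 := by
  refine Fermat.Agent.LT.H129.G_ext129 (fun w => ?_) (fun v => ?_)
  · rw [map_one]
    exact (Fermat.Agent.LT.H129.trivAtInf_iff129 w h).1 (hI w)
  · rw [map_one]
    exact (Fermat.Agent.LT.H129.trivAtFin_iff129 v h).1 (hF v)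

/-- The Iwahori condition for the empty orbit is void. -/
theorem isIwInv_zero534 (o : ℕ → HeightOneSpectrum (𝓞 K)) (ψ : G K → ℂ) : IsIwInv 0 o ψ := by
  intro h hI hF _ x
  have h1 : h = 1 :=
    eq_one_of_triv534 hI (fun v => hF v (fun j hj => absurd hj (Nat.not_lt_zero j)))
  rw [h1, mul_one]

/-- **T7.L2.3.5.4.1** (`SD534.V2SubC`): `V₂` and its eigen-classes are linear subspaces and
`W ⊆ V₂`. -/
theorem v2SubC534 (K : Type) [Field K] [NumberField K] : V2SubC K := fun 𝔫 r u =>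
  { zero2 := Fermat.Agent.LT.T7.H863.isWFn_zero_863 𝔫 r 0 (fun _ => u)
    add2 := fun _ _ h h' => Fermat.Agent.LT.T7.H863.isWFn_add_863 h h'
    smul2 := fun a _ h => Fermat.Agent.LT.T7.H863.isWFn_smul_863 a h
    addC2 := fun _ _ _ h h' => Fermat.Agent.LT.T7.H863.isEigFn_add_863 h h'
    smulC2 := fun _ a _ h => Fermat.Agent.LT.T7.H863.isEigFn_smul_863 a h
    w_le := fun χ h => ⟨h.cusp, h.arch_scalar, isIwInv_zero534 _ χ⟩ }

end Fermat.Agent.LT.T7.SD534

end

end
-- ===== PACK-END LT/T7/H534/V2Sub.lean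

-- ===== PACK-BEGIN LT/T7/H616/ClassModelLeavesA.lean
section




/-!
# Row LT, tower T7, node `ClassModelC`: the leaves CM.06, CM.07, CM.08 (helper616)

OFF-MAIN.  PROVED (no hole, nothing assumed), from the assets AUT-UNIQUE (helper415,
`T5/H415/AutT5.lean`) and IW-KIT (helper83, `T7/H83/IwKit.lean`), vendored byte-identically:

    locCommC616_proved : LocCommC616 K K'      (CM.06)
    locMoveC616_proved : LocMoveC616 K K'      (CM.07)
    powC616_proved     : PowC616 K K'          (CM.08)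
-/

set_option autoImplicit false

open AutomorphicForm IsDedekindDomain NumberField MeasureTheory

noncomputable section

namespace Fermat.Agent.LT.T7.CM616

open Fermat.Agent.LT.H556 Fermat.Agent.LT.H556.A0 Fermat.Agent.LT.T7 Fermat.Agent.LT.T7.SU736
open Fermat.Agent.LT.H415 Fermat.Agent.LT.T5.H415

/-! ## 1. The inverse automorphism -/

section Inv

variable {K : Type} [Field K] [NumberField K]

/-- The inverse of an adelic automorphism. -/
def invAut616 (s : T5.AdelicAut K) : T5.AdelicAut K where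
  σ := s.σ.symm
  σA := s.σA.symm
  continuous_σA := s.continuous_symm
  continuous_symm := s.continuous_σA
  compat := fun x => by
    apply s.σA.injective
    rw [RingEquiv.apply_symm_apply, s.compat, RingEquiv.apply_symm_apply]

theorem invAut616_onG (s : T5.AdelicAut K) : (invAut616 s).onG = s.onGinv := rfl

/-- The equation lemmas of `invAut616` are realised here (kernel-checker collision rule). -/
theorem eqns_realised_invAut616 : True := by
  have _a1 := @invAut616.eq_1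
  have _a2 := @invAut616.eq_def
  have _a3 := @invAut616.eq_unfold
  trivial

theorem placeRel_inv616 (s : T5.AdelicAut K) (v v' : HeightOneSpectrum (𝓞 K))
    (h : T5.PlaceRel s v v') : T5.PlaceRel (invAut616 s) v' v :=
  finRel_symm415 s.σ v v' h

theorem trivAtInf_iff616 (w : InfinitePlace K) (g : G K) :
    TrivAtInf w g ↔ infComp w g = infComp w (1 : G K) := by
  rw [infComp_eq_iff415]
  constructor
  · intro h i j
    rw [h i j]
    exact ((show TrivAtInf w (1 : G K) from by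
      intro i j
      rw [Units.val_one, Matrix.one_apply, Matrix.one_apply]
      split_ifs <;> rfl) i j).symm
  · intro h i j
    rw [h i j]
    exact (show TrivAtInf w (1 : G K) from by
      intro i j
      rw [Units.val_one, Matrix.one_apply, Matrix.one_apply]
      split_ifs <;> rfl) i j

theorem trivAtFin_iff616 (v : HeightOneSpectrum (𝓞 K)) (g : G K) :
    TrivAtFin v g ↔ finComp v g = finComp v (1 : G K) := by
  have h1 : finComp v (1 : G K) = 1 := by
    unfold finComp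
    ext i j
    rw [Units.val_one, Matrix.one_apply, Matrix.one_apply]
    split_ifs <;> rfl
  rw [h1]
  rfl

/-- **`σ⁻¹` moves the elements supported at `σ w` to elements supported at `w`.** -/
theorem isLocalAtFin_onGinv616 (s : T5.AdelicAut K) (w w' : HeightOneSpectrum (𝓞 K))
    (hrel : T5.PlaceRel s w w') (h : G K) (hh : IsLocalAtFin w' h) :
    IsLocalAtFin w (s.onGinv h) := by
  refine ⟨fun winf => ?_, fun v' hv' => ?_⟩
  · obtain ⟨w₀, rfl⟩ := infImage_surjective415 (invAut616 s).σ winf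
    rw [trivAtInf_iff616]
    have h1 := infComp_onG_congr415 (invAut616 s) w₀ h 1 ((trivAtInf_iff616 w₀ h).1 (hh.1 w₀))
    rw [invAut616_onG, map_one] at h1
    exact h1
  · obtain ⟨v, hv⟩ := finRel_exists_image415 s.σ v'
    have hne : v ≠ w' := by
      rintro rfl
      exact hv' (finRel_inj415 s.σ v' w v hv hrel)
    rw [trivAtFin_iff616]
    have h1 := finComp_onG_congr415 (invAut616 s) v v' (placeRel_inv616 s v' v hv) h 1
      ((trivAtFin_iff616 v h).1 (hh.2 v hne))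
    rw [invAut616_onG, map_one] at h1
    exact h1

/-- The places of the orbit are pairwise different. -/
theorem orbit_injective616 (s : T5.AdelicAut K) (l : ℕ) (o : ℕ → HeightOneSpectrum (𝓞 K))
    (ho : ∀ j : ℕ, T5.PlaceRel s (o j) (o (j + 1)))
    (hne : ∀ j : ℕ, 0 < j → j < l → o j ≠ o 0) :
    ∀ i < l, ∀ j < l, i ≠ j → o i ≠ o j := by
  have key : ∀ i j : ℕ, i < j → j < l → o i ≠ o j := by
    intro i j hij hj heq
    have h1 := finRel_pow415 s.σ o ho i
    have h2 := finRel_pow415 s.σ (fun n => o (n + (j - i)))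
      (fun n => by
        have := ho (n + (j - i))
        rw [show n + (j - i) + 1 = n + 1 + (j - i) by omega] at this
        exact this) i
    simp only [zero_add] at h2
    rw [show i + (j - i) = j by omega, ← heq] at h2
    have h3 := finRel_inj415 (s.σ ^ i) (o 0) (o (j - i)) (o i) h1 h2
    exact hne (j - i) (by omega) (by omega) h3.symm
  intro i hi j hj hij
  rcases Nat.lt_or_gt_of_ne hij with h | h
  · exact key i j h hj
  · exact fun e => key j i h hi e.symm

end Inv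

/-! ## 2. The leaves -/

section Leaves

variable {K K' : Type} [Field K] [NumberField K] [Field K'] [NumberField K'] [Algebra K K']

omit [Algebra K K'] in
theorem isBad_one616' (Dt : L2Data K K') : Dt.IsBad (1 : G K') :=
  ⟨fun w i j => by
      rw [Units.val_one, Matrix.one_apply, Matrix.one_apply]
      split_ifs <;> rfl,
    fun v _ => by
      unfold TrivAtFin finComp
      ext i j
      rw [Units.val_one, Matrix.one_apply, Matrix.one_apply]
      split_ifs <;> rfl⟩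

/-- The generator is cyclic of degree `ℓ`. -/
theorem cyc_of_ctx616 {ℓ : ℕ} {Φ : HeckeEigensystem K' ℂ} {Dt : L2Data K K'}
    (ctx : Ctx616 K K' ℓ Φ Dt) : T5.IsCyclicOfDegree Dt.s ℓ Dt.k := by
  have h := (ctx.data.comp 1 (isBad_one616' Dt)).cyc
  have hd := ctx.data.deg
  change T5.IsCyclicOfDegree Dt.s Dt.l Dt.k at h
  rw [hd] at h
  exact h

/-- **LEAF CM.06.** -/
theorem locCommC616_proved : LocCommC616 K K' := by
  intro ℓ Φ Dt ctx i hi j hj hij h h' hh hh'
  have hne : Dt.o j ≠ Dt.o i :=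
    orbit_injective616 Dt.s ℓ Dt.o ctx.data.orbit_rel ctx.data.orbit_ne j hj i hi
      (fun e => hij e.symm)
  exact H83.mul_comm_of_local83 (Dt.o i) hh (hh'.2 (Dt.o i) (fun e => hne e.symm))

/-- **LEAF CM.07.** -/
theorem locMoveC616_proved : LocMoveC616 K K' := by
  intro ℓ Φ Dt ctx
  have hc := cyc_of_ctx616 ctx
  refine ⟨fun j _ h hh => isLocalAtFin_onGinv616 Dt.s (Dt.o j) (Dt.o (j + 1))
    (ctx.data.orbit_rel j) h hh, fun h hh => ?_⟩
  have hrel : T5.PlaceRel Dt.s (Dt.o (ℓ - 1)) (Dt.o 0) := by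
    have := ctx.data.orbit_rel (ℓ - 1)
    rw [Nat.sub_add_cancel hc.pos, orbit_period415 Dt.s ℓ Dt.k hc Dt.o ctx.data.orbit_rel]
      at this
    exact this
  exact isLocalAtFin_onGinv616 Dt.s (Dt.o (ℓ - 1)) (Dt.o 0) hrel h hh

/-- **LEAF CM.08.** -/
theorem powC616_proved : PowC616 K K' := by
  intro ℓ Φ Dt ctx x
  have hc := cyc_of_ctx616 ctx
  have hleft : Function.LeftInverse (⇑Dt.s.onGinv) (⇑Dt.s.onG) := ctx.stable.left_inverse
  have h1 := onG_iterate415 Dt.s ℓ Dt.k hc x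
  have h2 := (hleft.iterate ℓ) x
  rw [h1] at h2
  exact h2

end Leaves

end Fermat.Agent.LT.T7.CM616

end

end
-- ===== PACK-END LT/T7/H616/ClassModelLeavesA.lean

-- ===== PACK-BEGIN LT/T7/H276/IwSys.lean
section



/-!
# Row LT, tower T7, leaf T7.L2.2.B4.1 `IwSysExistsC561` (helper276, OFF-MAIN)

    iwSysExistsC276 (K K') : H561.IwSysExistsC561 K K'     -- VERBATIM, UNCONDITIONAL

The explicit systems along the orbit exist: at every finite place `w`, `ω = !![0,1;ϖ,0]` for a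
uniformiser `ϖ`, and `Hs = {!![a,1;1,0]}`, `a` running over the representatives `rep129` of the
residue field (assets of helper129: `locFin129`, `rep129`, `valued_rep129_sub`,
`exists_unif129`).  The hypotheses on the data are not used.
-/

set_option autoImplicit false

open IsDedekindDomain NumberField IsDedekindDomain.HeightOneSpectrum
open Fermat.Agent.LT.H556.A0 Fermat.Agent.LT.H129

noncomputable section

namespace Fermat.Agent.LT.T7.H276

variable {K : Type} [Field K] [NumberField K] (v : HeightOneSpectrum (𝓞 K))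

theorem finite_resField276 : Finite (𝓞 K ⧸ v.asIdeal) := by
  apply Nat.finite_of_card_ne_zero
  rw [← Submodule.cardQuot_apply, ← Ideal.absNorm_apply]
  exact ne_of_gt (lt_trans Nat.zero_lt_one (NumberField.HeightOneSpectrum.one_lt_absNorm v))

theorem iwRep276_injective : Function.Injective (iwRep276 v) := by
  intro c c' h
  by_contra hne
  have h1 := valued_rep129_sub v hne
  have e1 := finComp_iwRep276 v c
  have e2 := finComp_iwRep276 v c'
  rw [h] at e1
  rw [e1] at e2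
  have := congrFun (congrFun e2 0) 0
  simp only [Matrix.of_apply, Matrix.cons_val', Matrix.cons_val_zero,
    Matrix.cons_val_fin_one] at this
  rw [this, sub_self, map_zero] at h1
  exact zero_ne_one h1

open Classical in
/-- **The explicit system at one place.** -/
theorem exists_iwSys_at276 :
    ∃ (H : Finset (G K)) (ω : G K),
      IsLocalAtFin v ω ∧
      (∃ c : v.adicCompletion K, Valued.v c = WithZero.exp (-1 : ℤ) ∧
        finComp v ω = !![0, 1; c, 0]) ∧
      H.card = Ideal.absNorm v.asIdeal ∧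
      (∀ h ∈ H, IsLocalAtFin v h) ∧
      (∀ h ∈ H, ∃ a : v.adicCompletion K,
        a ∈ v.adicCompletionIntegers K ∧ finComp v h = !![a, 1; 1, 0]) ∧
      ∀ h ∈ H, ∀ h' ∈ H, h ≠ h' → ¬ T5.InIwahori v (h⁻¹ * h') := by
  obtain ⟨π, hπ⟩ := exists_unif129 v
  haveI : Finite (𝓞 K ⧸ v.asIdeal) := finite_resField276 v
  letI : Fintype (𝓞 K ⧸ v.asIdeal) := Fintype.ofFinite _
  refine ⟨Finset.univ.image (iwRep276 v), iwOmega276 v π (unif_ne_zero129 v hπ),
    isLocalAtFin_locFin129 v _, ⟨π, hπ, finComp_iwOmega276 v π _⟩, ?_, ?_, ?_, ?_⟩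
  · rw [Finset.card_image_of_injective _ (iwRep276_injective v), Finset.card_univ,
      Ideal.absNorm_apply, Submodule.cardQuot_apply, Nat.card_eq_fintype_card]
  · intro h hh
    obtain ⟨c, -, rfl⟩ := Finset.mem_image.mp hh
    exact isLocalAtFin_locFin129 v _
  · intro h hh
    obtain ⟨c, -, rfl⟩ := Finset.mem_image.mp hh
    exact ⟨rep129 v c, rep129_mem v c, finComp_iwRep276 v c⟩
  · intro h hh h' hh' hne
    obtain ⟨c, -, rfl⟩ := Finset.mem_image.mp hh
    obtain ⟨c', -, rfl⟩ := Finset.mem_image.mp hh'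
    have hcc : c ≠ c' := fun e => hne (by rw [e])
    exact not_inIwahori_of_val276 v (finComp_iwRep276 v c) (finComp_iwRep276 v c')
      (valued_rep129_sub v hcc)

variable (K)
variable (K' : Type) [Field K'] [NumberField K'] [Algebra K K']

/-- **LEAF T7.L2.2.B4.1 = IW-SYS-EXISTS, VERBATIM.** -/
theorem iwSysExistsC276 : H561.IwSysExistsC561 K K' := by
  intro ℓ Φ Dt _
  choose H ω h1 h2 h3 h4 h5 h6 using fun w : HeightOneSpectrum (𝓞 K') => exists_iwSys_at276 w
  exact ⟨fun j => H (Dt.o j), fun j => ω (Dt.o j),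
    { ω_local := fun j => h1 (Dt.o j)
      ω_comp := fun j => h2 (Dt.o j)
      Hs_card := fun j => h3 (Dt.o j)
      Hs_local := fun j => h4 (Dt.o j)
      Hs_comp := fun j => h5 (Dt.o j)
      Hs_inj := fun j => h6 (Dt.o j) }⟩

end Fermat.Agent.LT.T7.H276

end

end
-- ===== PACK-END LT/T7/H276/IwSys.lean

-- ===== PACK-BEGIN LT/T7/H346/OpsPer.lean
section





/-!
# Row LT, tower T7, leaf T7.L2.2.B4.5 = `OpsPerC561` (helper346)

OFF-MAIN.  `opsPerC346 : H561.OpsPerC561 K K'`, unconditional.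

* `o (j + ℓ) = o j`: `T5.H415.orbit_period415` for the shifted orbit (`IsCompData.cyc` for the
  bad element `1`).
* two explicit systems at the same place `w` define the same operators on the functions which
  are invariant under the Iwahori subgroup at `w`: the components are `!![a, 1; 1, 0]`, the class
  modulo the Iwahori subgroup is the residue of `a`, each system meets every residue class once
  (`H129.card_residueField129`); `(ω)⁻¹ ω' = diag(c⁻¹ c', 1)` is in the Iwahori subgroup.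
-/

set_option autoImplicit false

open AutomorphicForm IsDedekindDomain NumberField MeasureTheory
open scoped ComplexConjugate Matrix

noncomputable section

namespace Fermat.Agent.LT.T7.H346

open Fermat.Agent.LT.H556 Fermat.Agent.LT.H556.A0 Fermat.Agent.LT.T7 Fermat.Agent.LT.T7.H561

section Basic

variable {K : Type} [Field K] [NumberField K]

/-- The raw component at the infinite place `w`. -/
def infRaw346 (w : InfinitePlace K) : Adl K →+* w.Completion :=
  (Pi.evalRingHom (fun v : InfinitePlace K => v.Completion) w).comp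
    (RingHom.fst (InfiniteAdeleRing K) (FiniteAdeleRing (𝓞 K) K))

theorem trivAtInf_iff346 (w : InfinitePlace K) (g : G K) :
    TrivAtInf w g ↔ (g : Matrix (Fin 2) (Fin 2) (Adl K)).map (infRaw346 w) = 1 := by
  constructor
  · intro h
    exact Matrix.ext (fun i j => h i j)
  · intro h i j
    have := congrFun (congrFun h i) j
    exact this

theorem trivAtInf_one346 (w : InfinitePlace K) : TrivAtInf w (1 : G K) := by
  rw [trivAtInf_iff346, Units.val_one, Matrix.map_one _ (map_zero _) (map_one _)]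

theorem trivAtInf_mul346 (w : InfinitePlace K) {g h : G K} (hg : TrivAtInf w g)
    (hh : TrivAtInf w h) : TrivAtInf w (g * h) := by
  rw [trivAtInf_iff346] at hg hh ⊢
  rw [Units.val_mul, Matrix.map_mul, hg, hh, mul_one]

theorem trivAtInf_inv346 (w : InfinitePlace K) {g : G K} (hg : TrivAtInf w g) :
    TrivAtInf w g⁻¹ := by
  rw [trivAtInf_iff346] at hg ⊢
  have h1 : ((g⁻¹ * g : G K) : Matrix (Fin 2) (Fin 2) (Adl K)).map (infRaw346 w) = 1 := by
    rw [inv_mul_cancel, Units.val_one, Matrix.map_one _ (map_zero _) (map_one _)]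
  rw [Units.val_mul, Matrix.map_mul, hg, mul_one] at h1
  exact h1

theorem finComp_mul346 (v : HeightOneSpectrum (𝓞 K)) (g h : G K) :
    finComp v (g * h) = finComp v g * finComp v h := by
  rw [T5.finComp_eq_map, T5.finComp_eq_map, T5.finComp_eq_map, Units.val_mul, Matrix.map_mul]

theorem finComp_one346 (v : HeightOneSpectrum (𝓞 K)) : finComp v (1 : G K) = 1 := by
  rw [T5.finComp_eq_map, Units.val_one, Matrix.map_one _ (map_zero _) (map_one _)]

theorem finComp_inv_mul346 (v : HeightOneSpectrum (𝓞 K)) (g : G K) :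
    finComp v g⁻¹ * finComp v g = 1 := by
  rw [← finComp_mul346, inv_mul_cancel, finComp_one346]

theorem trivAtFin_one346 (v : HeightOneSpectrum (𝓞 K)) : TrivAtFin v (1 : G K) :=
  finComp_one346 v

theorem trivAtFin_mul346 (v : HeightOneSpectrum (𝓞 K)) {g h : G K} (hg : TrivAtFin v g)
    (hh : TrivAtFin v h) : TrivAtFin v (g * h) := by
  unfold TrivAtFin at hg hh ⊢
  rw [finComp_mul346, hg, hh, mul_one]

theorem trivAtFin_inv346 (v : HeightOneSpectrum (𝓞 K)) {g : G K} (hg : TrivAtFin v g) :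
    TrivAtFin v g⁻¹ := by
  unfold TrivAtFin at hg ⊢
  have := finComp_inv_mul346 v g
  rw [hg, mul_one] at this
  exact this

theorem isLocalAtFin_inv_mul346 {v : HeightOneSpectrum (𝓞 K)} {g h : G K}
    (hg : IsLocalAtFin v g) (hh : IsLocalAtFin v h) : IsLocalAtFin v (g⁻¹ * h) :=
  ⟨fun w => trivAtInf_mul346 w (trivAtInf_inv346 w (hg.1 w)) (hh.1 w),
    fun v' hv' => trivAtFin_mul346 v' (trivAtFin_inv346 v' (hg.2 v' hv')) (hh.2 v' hv')⟩

/-- An element which is trivial at `v` is in the Iwahori subgroup at `v`. -/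
theorem inIwahori_of_triv346 (v : HeightOneSpectrum (𝓞 K)) {g : G K} (hg : TrivAtFin v g) :
    T5.InIwahori v g := by
  have hg' : TrivAtFin v g⁻¹ := trivAtFin_inv346 v hg
  unfold TrivAtFin at hg hg'
  have hone : ∀ i j : Fin 2,
      (1 : Matrix (Fin 2) (Fin 2) (v.adicCompletion K)) i j ∈ v.adicCompletionIntegers K := by
    intro i j
    by_cases hij : i = j
    · rw [hij, Matrix.one_apply_eq]
      exact one_mem _
    · rw [Matrix.one_apply_ne hij]
      exact zero_mem _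
  refine ⟨fun i j => ?_, fun i j => ?_, ?_⟩
  · rw [hg]
    exact hone i j
  · rw [hg']
    exact hone i j
  · rw [hg]
    simp

/-- The inverse of `!![a, 1; 1, 0]`. -/
theorem finComp_inv_of_s346 (v : HeightOneSpectrum (𝓞 K)) {h : G K} {a : v.adicCompletion K}
    (hc : finComp v h = !![a, 1; 1, 0]) : finComp v h⁻¹ = !![0, 1; 1, -a] := by
  have h1 := finComp_inv_mul346 v h
  rw [hc] at h1
  have h2 : (!![a, 1; 1, 0] : Matrix (Fin 2) (Fin 2) (v.adicCompletion K)) * !![0, 1; 1, -a]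
      = 1 := by
    refine Matrix.ext (fun i j => ?_)
    fin_cases i <;> fin_cases j <;> simp [Matrix.mul_apply, Fin.sum_univ_two]
  calc finComp v h⁻¹ = finComp v h⁻¹ * (!![a, 1; 1, 0] * !![0, 1; 1, -a]) := by
        rw [h2, mul_one]
    _ = (finComp v h⁻¹ * !![a, 1; 1, 0]) * !![0, 1; 1, -a] := by rw [Matrix.mul_assoc]
    _ = !![0, 1; 1, -a] := by rw [h1, one_mul]

theorem finComp_inv_mul_s346 (v : HeightOneSpectrum (𝓞 K)) {h h' : G K}
    {a a' : v.adicCompletion K} (hc : finComp v h = !![a, 1; 1, 0])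
    (hc' : finComp v h' = !![a', 1; 1, 0]) :
    finComp v (h⁻¹ * h') = !![1, 0; a' - a, 1] := by
  rw [finComp_mul346, finComp_inv_of_s346 v hc, hc']
  refine Matrix.ext (fun i j => ?_)
  fin_cases i <;> fin_cases j <;>
    simp [Matrix.mul_apply, Fin.sum_univ_two, sub_eq_add_neg, add_comm]

/-- Two elements of shape `!![a, 1; 1, 0]` with congruent `a` differ by an element of the Iwahori
subgroup. -/
theorem inIwahori_s346 (v : HeightOneSpectrum (𝓞 K)) {h h' : G K}
    {a a' : v.adicCompletion K} (hc : finComp v h = !![a, 1; 1, 0])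
    (hc' : finComp v h' = !![a', 1; 1, 0]) (hv : Valued.v (a' - a) < 1) :
    T5.InIwahori v (h⁻¹ * h') := by
  have e1 := finComp_inv_mul_s346 v hc hc'
  have e2 : finComp v (h⁻¹ * h')⁻¹ = !![1, 0; a - a', 1] := by
    rw [mul_inv_rev, inv_inv]
    exact finComp_inv_mul_s346 v hc' hc
  have hv' : Valued.v (a - a') < 1 := by
    rw [← neg_sub, Valuation.map_neg]
    exact hv
  have hint : ∀ b : v.adicCompletion K, Valued.v b < 1 → ∀ i j : Fin 2,
      (!![1, 0; b, 1] : Matrix (Fin 2) (Fin 2) (v.adicCompletion K)) i j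
        ∈ v.adicCompletionIntegers K := by
    intro b hb i j
    fin_cases i <;> fin_cases j
    · exact one_mem _
    · exact zero_mem _
    · exact (HeightOneSpectrum.mem_adicCompletionIntegers _ _ _).2 hb.le
    · exact one_mem _
  refine ⟨fun i j => ?_, fun i j => ?_, ?_⟩
  · rw [e1]
    exact hint _ hv i j
  · rw [e2]
    exact hint _ hv' i j
  · rw [e1]
    exact hv

/-- The inverse of `!![0, 1; c, 0]`. -/
theorem finComp_inv_of_w346 (v : HeightOneSpectrum (𝓞 K)) {h : G K} {c : v.adicCompletion K}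
    (hc0 : c ≠ 0) (hc : finComp v h = !![0, 1; c, 0]) : finComp v h⁻¹ = !![0, c⁻¹; 1, 0] := by
  have h1 := finComp_inv_mul346 v h
  rw [hc] at h1
  have h2 : (!![0, 1; c, 0] : Matrix (Fin 2) (Fin 2) (v.adicCompletion K)) * !![0, c⁻¹; 1, 0]
      = 1 := by
    refine Matrix.ext (fun i j => ?_)
    fin_cases i <;> fin_cases j <;> simp [Matrix.mul_apply, Fin.sum_univ_two, hc0]
  calc finComp v h⁻¹ = finComp v h⁻¹ * (!![0, 1; c, 0] * !![0, c⁻¹; 1, 0]) := by
        rw [h2, mul_one]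
    _ = (finComp v h⁻¹ * !![0, 1; c, 0]) * !![0, c⁻¹; 1, 0] := by rw [Matrix.mul_assoc]
    _ = !![0, c⁻¹; 1, 0] := by rw [h1, one_mul]

theorem finComp_inv_mul_w346 (v : HeightOneSpectrum (𝓞 K)) {h h' : G K}
    {c c' : v.adicCompletion K} (hc0 : c ≠ 0) (hc : finComp v h = !![0, 1; c, 0])
    (hc' : finComp v h' = !![0, 1; c', 0]) :
    finComp v (h⁻¹ * h') = !![c⁻¹ * c', 0; 0, 1] := by
  rw [finComp_mul346, finComp_inv_of_w346 v hc0 hc, hc']
  refine Matrix.ext (fun i j => ?_)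
  fin_cases i <;> fin_cases j <;> simp [Matrix.mul_apply, Fin.sum_univ_two]

/-- Two normalisers `!![0, 1; ϖ, 0]` differ by an element of the Iwahori subgroup. -/
theorem inIwahori_w346 (v : HeightOneSpectrum (𝓞 K)) {h h' : G K}
    {c c' : v.adicCompletion K} (hv : Valued.v c = WithZero.exp (-1 : ℤ))
    (hv' : Valued.v c' = WithZero.exp (-1 : ℤ)) (hc : finComp v h = !![0, 1; c, 0])
    (hc' : finComp v h' = !![0, 1; c', 0]) : T5.InIwahori v (h⁻¹ * h') := by
  have hne : (WithZero.exp (-1 : ℤ) : WithZero (Multiplicative ℤ)) ≠ 0 := WithZero.exp_ne_zero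
  have hc0 : c ≠ 0 := by
    intro h0
    rw [h0, map_zero] at hv
    exact hne hv.symm
  have hc0' : c' ≠ 0 := by
    intro h0
    rw [h0, map_zero] at hv'
    exact hne hv'.symm
  have e1 := finComp_inv_mul_w346 v hc0 hc hc'
  have e2 : finComp v (h⁻¹ * h')⁻¹ = !![c'⁻¹ * c, 0; 0, 1] := by
    rw [mul_inv_rev, inv_inv]
    exact finComp_inv_mul_w346 v hc0' hc' hc
  have hu : Valued.v (c⁻¹ * c') = 1 := by
    rw [map_mul, map_inv₀, hv, hv']
    exact inv_mul_cancel₀ hne
  have hu' : Valued.v (c'⁻¹ * c) = 1 := by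
    rw [map_mul, map_inv₀, hv, hv']
    exact inv_mul_cancel₀ hne
  have hint : ∀ b : v.adicCompletion K, Valued.v b = 1 → ∀ i j : Fin 2,
      (!![b, 0; 0, 1] : Matrix (Fin 2) (Fin 2) (v.adicCompletion K)) i j
        ∈ v.adicCompletionIntegers K := by
    intro b hb i j
    fin_cases i <;> fin_cases j
    · exact (HeightOneSpectrum.mem_adicCompletionIntegers _ _ _).2 hb.le
    · exact zero_mem _
    · exact zero_mem _
    · exact one_mem _
  refine ⟨fun i j => ?_, fun i j => ?_, ?_⟩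
  · rw [e1]
    exact hint _ hu i j
  · rw [e2]
    exact hint _ hu' i j
  · rw [e1]
    simp

end Basic

/-! ## Two explicit systems at the same place -/

section Sys

variable {K : Type} [Field K] [NumberField K]

/-- An explicit system of representatives of `I s I / I` at `w` (the four fields of
`H561.IsIwSys561` on `Hs j`). -/
def IsSysAt346 (w : HeightOneSpectrum (𝓞 K)) (H : Finset (G K)) : Prop :=
  H.card = Ideal.absNorm w.asIdeal ∧ (∀ h ∈ H, IsLocalAtFin w h) ∧
    (∀ h ∈ H, ∃ a : w.adicCompletion K,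
      a ∈ w.adicCompletionIntegers K ∧ finComp w h = !![a, 1; 1, 0]) ∧
    ∀ h ∈ H, ∀ h' ∈ H, h ≠ h' → ¬ T5.InIwahori w (h⁻¹ * h')

/-- A normaliser `!![0, 1; ϖ, 0]` at `w`. -/
def IsNormAt346 (w : HeightOneSpectrum (𝓞 K)) (ω : G K) : Prop :=
  IsLocalAtFin w ω ∧ ∃ c : w.adicCompletion K, Valued.v c = WithZero.exp (-1 : ℤ) ∧
    finComp w ω = !![0, 1; c, 0]

open Classical in
/-- The residue of the upper left entry. -/
def resOf346 (w : HeightOneSpectrum (𝓞 K)) (h : G K) :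
    IsLocalRing.ResidueField (w.adicCompletionIntegers K) :=
  if hm : finComp w h 0 0 ∈ w.adicCompletionIntegers K then
    IsLocalRing.residue (w.adicCompletionIntegers K) ⟨finComp w h 0 0, hm⟩
  else 0

theorem resOf_eq346 (w : HeightOneSpectrum (𝓞 K)) {h : G K} {a : w.adicCompletion K}
    (ha : a ∈ w.adicCompletionIntegers K) (hc : finComp w h = !![a, 1; 1, 0]) :
    resOf346 w h = IsLocalRing.residue (w.adicCompletionIntegers K) ⟨a, ha⟩ := by
  have e : finComp w h 0 0 = a := by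
    rw [hc]
    rfl
  unfold resOf346
  rw [dif_pos (by rw [e]; exact ha)]
  congr 1
  exact Subtype.ext e

theorem valued_lt_of_res_eq346 (w : HeightOneSpectrum (𝓞 K)) {a a' : w.adicCompletion K}
    (ha : a ∈ w.adicCompletionIntegers K) (ha' : a' ∈ w.adicCompletionIntegers K)
    (h : IsLocalRing.residue (w.adicCompletionIntegers K) ⟨a, ha⟩
      = IsLocalRing.residue (w.adicCompletionIntegers K) ⟨a', ha'⟩) :
    Valued.v (a' - a) < 1 := by
  have h0 : IsLocalRing.residue (w.adicCompletionIntegers K)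
      ((⟨a', ha'⟩ : w.adicCompletionIntegers K) - ⟨a, ha⟩) = 0 := by
    rw [map_sub, h, sub_self]
  rw [Fermat.Agent.LT.H129.residue_eq_zero_iff_valued129] at h0
  exact h0

theorem resOf_injOn346 (w : HeightOneSpectrum (𝓞 K)) {H : Finset (G K)}
    (hH : IsSysAt346 w H) : Set.InjOn (resOf346 w) (H : Set (G K)) := by
  intro h hh h' hh' e
  by_contra hne
  obtain ⟨a, ha, hc⟩ := hH.2.2.1 h hh
  obtain ⟨a', ha', hc'⟩ := hH.2.2.1 h' hh'
  rw [resOf_eq346 w ha hc, resOf_eq346 w ha' hc'] at e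
  exact hH.2.2.2 h hh h' hh' hne (inIwahori_s346 w hc hc' (valued_lt_of_res_eq346 w ha ha' e))

theorem resOf_surj346 (w : HeightOneSpectrum (𝓞 K)) {H : Finset (G K)}
    (hH : IsSysAt346 w H) (c : IsLocalRing.ResidueField (w.adicCompletionIntegers K)) :
    ∃ h ∈ H, resOf346 w h = c := by
  classical
  haveI : Finite (IsLocalRing.ResidueField (w.adicCompletionIntegers K)) :=
    Fermat.Agent.LT.H129.finite_residueField129 K w
  haveI : Fintype (IsLocalRing.ResidueField (w.adicCompletionIntegers K)) := Fintype.ofFinite _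
  have hcard : (H.image (resOf346 w)).card
      = Fintype.card (IsLocalRing.ResidueField (w.adicCompletionIntegers K)) := by
    rw [Finset.card_image_of_injOn (resOf_injOn346 w hH), hH.1,
      ← Fermat.Agent.LT.H129.card_residueField129 K w, Nat.card_eq_fintype_card]
  have huniv : H.image (resOf346 w) = Finset.univ := Finset.eq_univ_of_card _ hcard
  have hc : c ∈ H.image (resOf346 w) := by
    rw [huniv]
    exact Finset.mem_univ c
  obtain ⟨h, hh, e⟩ := Finset.mem_image.1 hc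
  exact ⟨h, hh, e⟩

/-- **Two explicit systems at the same place define the same operator** on the functions
invariant under the Iwahori subgroup at the place. -/
theorem cosetOp_indep346 (w : HeightOneSpectrum (𝓞 K)) {H H' : Finset (G K)}
    (hH : IsSysAt346 w H) (hH' : IsSysAt346 w H') (ψ : G K → ℂ)
    (hψ : ∀ g : G K, IsLocalAtFin w g → T5.InIwahori w g → ∀ x : G K, ψ (x * g) = ψ x)
    (x : G K) : cosetOp H' ψ x = cosetOp H ψ x := by
  classical
  unfold cosetOp
  refine Finset.sum_bij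
    (fun h' _ => Classical.choose (resOf_surj346 w hH (resOf346 w h'))) ?_ ?_ ?_ ?_
  · intro h' _
    exact (Classical.choose_spec (resOf_surj346 w hH (resOf346 w h'))).1
  · intro h₁ hh₁ h₂ hh₂ e
    have e1 := (Classical.choose_spec (resOf_surj346 w hH (resOf346 w h₁))).2
    have e2 := (Classical.choose_spec (resOf_surj346 w hH (resOf346 w h₂))).2
    apply resOf_injOn346 w hH' hh₁ hh₂
    rw [← e1, ← e2]
    exact congrArg (resOf346 w) e
  · intro h hh
    obtain ⟨h', hh', e⟩ := resOf_surj346 w hH' (resOf346 w h)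
    refine ⟨h', hh', ?_⟩
    have e1 := Classical.choose_spec (resOf_surj346 w hH (resOf346 w h'))
    exact resOf_injOn346 w hH e1.1 hh (e1.2.trans e)
  · intro h' hh'
    have e1 := Classical.choose_spec (resOf_surj346 w hH (resOf346 w h'))
    obtain ⟨a, ha, hc⟩ := hH.2.2.1 _ e1.1
    obtain ⟨a', ha', hc'⟩ := hH'.2.2.1 h' hh'
    have e := e1.2
    rw [resOf_eq346 w ha hc, resOf_eq346 w ha' hc'] at e
    have hI := inIwahori_s346 w hc hc' (valued_lt_of_res_eq346 w ha ha' e)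
    have hloc := isLocalAtFin_inv_mul346 (hH.2.1 _ e1.1) (hH'.2.1 h' hh')
    have key := hψ _ hloc hI (x * Classical.choose (resOf_surj346 w hH (resOf346 w h')))
    rw [mul_assoc, mul_inv_cancel_left] at key
    exact key

theorem cosetOp_indep_eq346 (w w' : HeightOneSpectrum (𝓞 K)) (e : w' = w)
    {H H' : Finset (G K)} (hH : IsSysAt346 w H) (hH' : IsSysAt346 w' H') (ψ : G K → ℂ)
    (hψ : ∀ g : G K, IsLocalAtFin w g → T5.InIwahori w g → ∀ x : G K, ψ (x * g) = ψ x)
    (x : G K) : cosetOp H' ψ x = cosetOp H ψ x := by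
  subst e
  exact cosetOp_indep346 w' hH hH' ψ hψ x

/-- **Two normalisers at the same place define the same translation** on the functions invariant
under the Iwahori subgroup at the place. -/
theorem trOp_indep346 (w : HeightOneSpectrum (𝓞 K)) {ω ω' : G K}
    (hω : IsNormAt346 w ω) (hω' : IsNormAt346 w ω') (ψ : G K → ℂ)
    (hψ : ∀ g : G K, IsLocalAtFin w g → T5.InIwahori w g → ∀ x : G K, ψ (x * g) = ψ x)
    (x : G K) : trOp561 ω' ψ x = trOp561 ω ψ x := by
  obtain ⟨hl, c, hv, hc⟩ := hω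
  obtain ⟨hl', c', hv', hc'⟩ := hω'
  have hI := inIwahori_w346 w hv hv' hc hc'
  have hloc := isLocalAtFin_inv_mul346 hl hl'
  have key := hψ _ hloc hI (x * ω)
  rw [mul_assoc, mul_inv_cancel_left] at key
  exact key

theorem trOp_indep_eq346 (w w' : HeightOneSpectrum (𝓞 K)) (e : w' = w) {ω ω' : G K}
    (hω : IsNormAt346 w ω) (hω' : IsNormAt346 w' ω') (ψ : G K → ℂ)
    (hψ : ∀ g : G K, IsLocalAtFin w g → T5.InIwahori w g → ∀ x : G K, ψ (x * g) = ψ x)
    (x : G K) : trOp561 ω' ψ x = trOp561 ω ψ x := by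
  subst e
  exact trOp_indep346 w' hω hω' ψ hψ x

end Sys

/-! ## The orbit and the leaf -/

section Main

variable {K K' : Type} [Field K] [NumberField K] [Field K'] [NumberField K'] [Algebra K K']

theorem isBad_one346 (Dt : L2Data K K') : Dt.IsBad 1 :=
  ⟨fun w => trivAtInf_one346 w, fun v _ => trivAtFin_one346 v⟩

theorem cyc346 {ℓ : ℕ} {Φ : HeckeEigensystem K' ℂ} {Dt : L2Data K K'}
    (hD : IsL2Data ℓ Φ Dt) : T5.IsCyclicOfDegree Dt.s Dt.l Dt.k :=
  (hD.comp 1 (isBad_one346 Dt)).cyc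

theorem pos346 {ℓ : ℕ} {Φ : HeckeEigensystem K' ℂ} {Dt : L2Data K K'}
    (hD : IsL2Data ℓ Φ Dt) : 0 < ℓ := by
  rw [← hD.deg]
  exact (cyc346 hD).pos

/-- `o (j + ℓ) = o j`. -/
theorem orbit_add346 {ℓ : ℕ} {Φ : HeckeEigensystem K' ℂ} {Dt : L2Data K K'}
    (hD : IsL2Data ℓ Φ Dt) (j : ℕ) : Dt.o (j + ℓ) = Dt.o j := by
  have h := T5.H415.orbit_period415 Dt.s Dt.l Dt.k (cyc346 hD) (fun n => Dt.o (j + n))
    (fun n => hD.orbit_rel (j + n))
  rw [hD.deg] at h
  simpa using h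

/-- `o j = o (j mod ℓ)`. -/
theorem orbit_mod346 {ℓ : ℕ} {Φ : HeckeEigensystem K' ℂ} {Dt : L2Data K K'}
    (hD : IsL2Data ℓ Φ Dt) (j : ℕ) : Dt.o j = Dt.o (j % ℓ) := by
  have key : ∀ m r : ℕ, Dt.o (r + ℓ * m) = Dt.o r := by
    intro m
    induction m with
    | zero => intro r; simp
    | succ m ih =>
      intro r
      rw [Nat.mul_succ, ← add_assoc, orbit_add346 hD, ih]
  conv_lhs => rw [← Nat.mod_add_div j ℓ]
  exact key _ _

/-- A function invariant under the Iwahori subgroups along the orbit is invariant under the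
Iwahori subgroup at `o j` for EVERY `j`. -/
theorem iwInv_at346 {ℓ : ℕ} {Φ : HeckeEigensystem K' ℂ} {Dt : L2Data K K'}
    (hD : IsL2Data ℓ Φ Dt) {ψ : G K' → ℂ} (hψ : IsIwInv ℓ Dt.o ψ) (j : ℕ) (g : G K')
    (hl : IsLocalAtFin (Dt.o j) g) (hI : T5.InIwahori (Dt.o j) g) (x : G K') :
    ψ (x * g) = ψ x := by
  refine hψ g hl.1 ?_ ?_ x
  · intro v hv
    apply hl.2
    rw [orbit_mod346 hD j]
    exact hv (j % ℓ) (Nat.mod_lt _ (pos346 hD))
  · intro j' _
    by_cases e : Dt.o j' = Dt.o j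
    · rw [e]
      exact hI
    · exact inIwahori_of_triv346 _ (hl.2 _ e)

variable (K K')

/-- **LEAF T7.L2.2.B4.5 = OPS-PER**, VERBATIM. -/
theorem opsPerC346 : OpsPerC561 K K' := by
  intro ℓ Φ Dt hs Hs ω hsys j ψ hψ x
  have hD := hs.data
  have hper : Dt.o (j + ℓ) = Dt.o j := orbit_add346 hD j
  have hinv : ∀ g : G K', IsLocalAtFin (Dt.o j) g → T5.InIwahori (Dt.o j) g →
      ∀ x : G K', ψ (x * g) = ψ x := fun g hl hI x => iwInv_at346 hD hψ.iw j g hl hI x
  constructor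
  · exact cosetOp_indep_eq346 (Dt.o j) (Dt.o (j + ℓ)) hper
      ⟨hsys.Hs_card j, hsys.Hs_local j, hsys.Hs_comp j, hsys.Hs_inj j⟩
      ⟨hsys.Hs_card (j + ℓ), hsys.Hs_local (j + ℓ), hsys.Hs_comp (j + ℓ), hsys.Hs_inj (j + ℓ)⟩
      ψ hinv x
  · exact trOp_indep_eq346 (Dt.o j) (Dt.o (j + ℓ)) hper
      ⟨hsys.ω_local j, hsys.ω_comp j⟩ ⟨hsys.ω_local (j + ℓ), hsys.ω_comp (j + ℓ)⟩ ψ hinv x

example : OpsPerC561 K K' = (∀ (ℓ : ℕ) (Φ : HeckeEigensystem K' ℂ) (Dt : L2Data K K'),
    IsSetup561 ℓ Φ Dt →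
    ∀ (Hs : ℕ → Finset (G K')) (ω : ℕ → G K'), IsIwSys561 Dt Hs ω →
      ∀ (j : ℕ) (ψ : G K' → ℂ), IsWFn Dt.𝔑₀ Dt.R'.r ℓ Dt.o ψ → ∀ x : G K',
        cosetOp (Hs (j + ℓ)) ψ x = cosetOp (Hs j) ψ x ∧
        trOp561 (ω (j + ℓ)) ψ x = trOp561 (ω j) ψ x) := rfl

end Main

end Fermat.Agent.LT.T7.H346

end

end
-- ===== PACK-END LT/T7/H346/OpsPer.lean

-- ===== PACK-BEGIN LT/T7/H440/Dict.lean
section


/-!
# Row LT, tower T7, node T7.L2.2.N.1 `ClassModelC`, leaf CM.11 = `DictC616` (helper440, row 2406)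

OFF-MAIN.  On `T7/H616/ClassModelSpec.lean` of helper616 (commit 6a81e5a09, sha256
8568bae74116f37c), imported as it is.

    dictC_of440 : StabGC616 K K' → StabSC616 K K' → DictC616 K K'

`DictC616` is stated with `restr616`, which is `0` when the operator does not preserve the class
space; so the two stability leaves CM.03 and CM.04 are hypotheses here (they are hypotheses of the
top `classModelC_of616` as well, so nothing is lost).

Proof.  By CM.03 and CM.04 the two restrictions are genuine restrictions.  The family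
`(q j)_{j ∈ J}` spans the class space (`IsClassBasisOn.span`) and the coefficient of `q j` in a
linear combination `∑ a_i q_i` is `⟨∑ a_i q_i, q_j⟩ = a_j` (orthonormality; the functions are
continuous and bounded and `μ F < ∞`, so the inner product is linear on finite sums).  Hence the
family is a basis and the trace of an endomorphism `T` is `∑_j ⟨T q_j, q_j⟩`.
-/

set_option autoImplicit false

open AutomorphicForm IsDedekindDomain NumberField MeasureTheory
open scoped ComplexConjugate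

noncomputable section

namespace Fermat.Agent.LT.T7.H440

open Fermat.Agent.LT.H556 Fermat.Agent.LT.H556.A0 Fermat.Agent.LT.T7 Fermat.Agent.LT.T7.SU736
  Fermat.Agent.LT.T7.CM616

attribute [local instance] Fermat.Agent.LT.T5.instMeasurableSpaceG

/-! ## 1. Linear algebra: the trace in a spanning family with a dual family -/

/-- If `b` spans `V` and `c j (∑ a_i b_i) = a_j`, then `tr T = ∑_j c_j (T b_j)`. -/
theorem trace_eq_sum_dual440 {V : Type*} [AddCommGroup V] [Module ℂ V] {ι : Type*} [Fintype ι]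
    [DecidableEq ι] (b : ι → V) (c : ι → V → ℂ)
    (hc : ∀ (a : ι → ℂ) (j : ι), c j (∑ i, a i • b i) = a j)
    (hspan : ∀ v : V, ∃ a : ι → ℂ, v = ∑ i, a i • b i) (T : Module.End ℂ V) :
    LinearMap.trace ℂ V T = ∑ j, c j (T (b j)) := by
  have hli : LinearIndependent ℂ b := by
    rw [Fintype.linearIndependent_iff]
    intro a ha j
    have h1 := hc a j
    rw [ha] at h1
    have h0 := hc (fun _ => 0) j
    simp only [zero_smul, Finset.sum_const_zero] at h0
    rw [← h1, h0]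
  have hsp : ⊤ ≤ Submodule.span ℂ (Set.range b) := by
    intro v _
    obtain ⟨a, rfl⟩ := hspan v
    exact Submodule.sum_mem _ fun i _ =>
      Submodule.smul_mem _ _ (Submodule.subset_span ⟨i, rfl⟩)
  have hB : ∀ i, Module.Basis.mk hli hsp i = b i := fun i => Module.Basis.mk_apply hli hsp i
  rw [LinearMap.trace_eq_matrix_trace ℂ (Module.Basis.mk hli hsp), Matrix.trace]
  refine Finset.sum_congr rfl fun j _ => ?_
  rw [Matrix.diag_apply, LinearMap.toMatrix_apply, hB j]
  have hv : T (b j) = ∑ i, ((Module.Basis.mk hli hsp).repr (T (b j)) i) • b i := by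
    conv_lhs => rw [← (Module.Basis.mk hli hsp).sum_repr (T (b j))]
    simp only [hB]
  conv_rhs => rw [hv]
  rw [hc]

/-! ## 2. The inner product on finite sums -/

section Inner

variable {K : Type} [Field K] [NumberField K]

/-- The product of two bounded continuous functions is integrable on the fundamental domain. -/
theorem integrableOn_mul_conj440 {μ : Measure (G K)} {F : Set (G K)} (hF : T5.IsFrame μ F)
    {e f : G K → ℂ} (he : Continuous e) (hf : Continuous f) (heb : ∃ C : ℝ, ∀ g, ‖e g‖ ≤ C)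
    (hfb : ∃ C : ℝ, ∀ g, ‖f g‖ ≤ C) : IntegrableOn (fun x => e x * conj (f x)) F μ := by
  have : BorelSpace (G K) := ⟨rfl⟩
  obtain ⟨C, hC⟩ := heb
  obtain ⟨C', hC'⟩ := hfb
  refine Measure.integrableOn_of_bounded (M := C * C') hF.finite.ne
    (he.mul (Complex.continuous_conj.comp hf)).aestronglyMeasurable ?_
  refine Filter.Eventually.of_forall (fun x => ?_)
  rw [norm_mul, RCLike.norm_conj]
  exact mul_le_mul (hC x) (hC' x) (norm_nonneg _) ((norm_nonneg _).trans (hC x))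

/-- The inner product is linear on finite sums of bounded continuous functions. -/
theorem innerD_sum440 {μ : Measure (G K)} {F : Set (G K)} (hF : T5.IsFrame μ F) {ι : Type*}
    [Fintype ι] (q : ι → G K → ℂ) (hq : ∀ i, Continuous (q i))
    (hqb : ∀ i, ∃ C : ℝ, ∀ g, ‖q i g‖ ≤ C) {f : G K → ℂ} (hf : Continuous f)
    (hfb : ∃ C : ℝ, ∀ g, ‖f g‖ ≤ C) (a : ι → ℂ) :
    T5.innerD μ F (fun x => ∑ i, a i * q i x) f = ∑ i, a i * T5.innerD μ F (q i) f := by
  unfold T5.innerD
  have h1 : (fun x => (∑ i, a i * q i x) * conj (f x))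
      = fun x => ∑ i, a i * (q i x * conj (f x)) := by
    funext x
    rw [Finset.sum_mul]
    exact Finset.sum_congr rfl fun i _ => mul_assoc _ _ _
  rw [h1, integral_finsetSum]
  · exact Finset.sum_congr rfl fun i _ => integral_const_mul _ _
  · intro i _
    exact (integrableOn_mul_conj440 hF (hq i) hf (hqb i) hfb).const_mul (a i)

end Inner

/-! ## 3. The leaf -/

section Leaf

variable (K K' : Type) [Field K] [NumberField K] [Field K'] [NumberField K'] [Algebra K K']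

/-- A linear map which maps eigenfunctions to eigenfunctions preserves the class space. -/
theorem mem_cls_of_map440 {K' : Type} [Field K'] [NumberField K'] {𝔫 : Ideal (𝓞 K')} {r : G K'}
    {l : ℕ} {o : ℕ → HeightOneSpectrum (𝓞 K')} {C : EigData K'}
    (f : (G K' → ℂ) →ₗ[ℂ] (G K' → ℂ))
    (hf : ∀ ψ, IsEigFn 𝔫 r l o ψ C → IsEigFn 𝔫 r l o (f ψ) C) :
    ∀ ψ ∈ classSp616 𝔫 r l o C, f ψ ∈ classSp616 𝔫 r l o C := by
  intro ψ hψ
  unfold classSp616 at hψ ⊢
  induction hψ using Submodule.span_induction with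
  | mem x hx => exact Submodule.subset_span (hf x hx)
  | zero => rw [map_zero]; exact Submodule.zero_mem _
  | add x y _ _ hx hy => rw [map_add]; exact Submodule.add_mem _ hx hy
  | smul c x _ hx => rw [map_smul]; exact Submodule.smul_mem _ c hx

/-- **LEAF CM.11 = DICT**, from the stability leaves CM.03 and CM.04. -/
theorem dictC_of440 (hG : StabGC616 K K') (hS : StabSC616 K K') : DictC616 K K' := by
  intro ℓ Φ Dt hctx g Hg hbad hsys q J hq
  have hF : T5.IsFrame Dt.R'.μ Dt.R'.F := (hctx.data.comp g hbad).frame'.frame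
  have hGp : ∀ ψ ∈ cls616 Dt ℓ Φ, cosetLin616 Hg ψ ∈ cls616 Dt ℓ Φ :=
    mem_cls_of_map440 (cosetLin616 Hg) (fun ψ hψ => hG ℓ Φ Dt hctx g Hg hbad hsys ψ hψ)
  have hSp : ∀ ψ ∈ cls616 Dt ℓ Φ, rsigLin616 Dt.s ψ ∈ cls616 Dt ℓ Φ :=
    mem_cls_of_map440 (rsigLin616 Dt.s) (fun ψ hψ => (hS ℓ Φ Dt hctx ψ hψ).1)
  have hmem : ∀ j : J, q j ∈ cls616 Dt ℓ Φ := fun j =>
    Submodule.subset_span (hq.eig j j.2)
  have hcont : ∀ j : J, Continuous (q j) := fun j => (hq.eig j j.2).inv.cusp.cont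
  have hbdd : ∀ j : J, ∃ C : ℝ, ∀ x, ‖q j x‖ ≤ C := fun j => (hq.eig j j.2).inv.cusp.bdd
  -- the family spans
  have hle : cls616 Dt ℓ Φ ≤ Submodule.span ℂ (Set.range (fun j : J => q j)) := by
    unfold cls616 classSp616
    rw [Submodule.span_le]
    intro ψ hψ
    obtain ⟨a, ha⟩ := hq.span ψ hψ
    rw [SetLike.mem_coe, Submodule.mem_span_range_iff_exists_fun]
    refine ⟨fun j => a j, ?_⟩
    funext x
    rw [ha x, Finset.sum_apply, ← Finset.sum_coe_sort J (fun j => a j * q j x)]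
    rfl
  -- the operator of the model
  have hval : ∀ v : cls616 Dt ℓ Φ,
      (((restr616 (cls616 Dt ℓ Φ) (cosetLin616 Hg) * sOp616 Dt ℓ Φ) v : cls616 Dt ℓ Φ) :
        G K' → ℂ) = cosetOp Hg (T5.Rsig Dt.s v) := by
    intro v
    rw [Module.End.mul_apply]
    unfold sOp616 restr616
    rw [dif_pos hGp, dif_pos hSp]
    rfl
  -- the abstract trace formula
  have key := trace_eq_sum_dual440 (V := cls616 Dt ℓ Φ) (ι := J)
    (fun j => (⟨q j, hmem j⟩ : cls616 Dt ℓ Φ))
    (fun j v => T5.innerD Dt.R'.μ Dt.R'.F (v : G K' → ℂ) (q j)) ?_ ?_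
    (restr616 (cls616 Dt ℓ Φ) (cosetLin616 Hg) * sOp616 Dt ℓ Φ)
  · rw [key]
    unfold twTrace
    rw [← Finset.sum_coe_sort]
    refine Finset.sum_congr rfl fun j _ => ?_
    rw [hval]
  · intro a j
    have h1 : ((∑ i, a i • (⟨q i, hmem i⟩ : cls616 Dt ℓ Φ) : cls616 Dt ℓ Φ) : G K' → ℂ)
        = fun x => ∑ i : J, a i * q i x := by
      funext x
      rw [Submodule.coe_sum, Finset.sum_apply]
      rfl
    simp only [h1]
    rw [innerD_sum440 hF (fun i : J => q i) hcont hbdd (hcont j) (hbdd j) a]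
    rw [Finset.sum_eq_single j]
    · rw [hq.norm j j.2, mul_one]
    · intro i _ hij
      rw [hq.orth i i.2 j j.2 (fun h => hij (Subtype.ext h)), mul_zero]
    · intro h
      exact absurd (Finset.mem_univ j) h
  · intro v
    obtain ⟨a, ha⟩ := (Submodule.mem_span_range_iff_exists_fun ℂ).1 (hle v.2)
    refine ⟨a, Subtype.ext ?_⟩
    rw [← ha, Submodule.coe_sum]
    rfl

end Leaf

end Fermat.Agent.LT.T7.H440

end

end
-- ===== PACK-END LT/T7/H440/Dict.lean

-- ===== PACK-BEGIN LT/T7/H75/IwAvgAsm.lean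
section


/-!
# Row LT, tower T7, leaf T7.L2.3.5.4.B4 `IwAvgAsmC776` (registry row 2392; helper75)

OFF-MAIN.  `iwAvgAsmC75 (K) : WB776.IwAvgAsmC776 K` VERBATIM vs `LT/T7/H776/WBasisSpec.lean`
(helper776@c8c37e749, sha256 ebd5d61e), byte-identical spec closure.  ASSEMBLY: the projector is
`P = finAvg Rep` as a linear map, `Rep` from `FinDataC K 𝔫 𝔫 _ le_rfl 1 (fun _ => u)`.

* `eig`  : `FinAvgCuspC` (cusp function, Iwahori invariant), `FinAvgPosC776`, `FinAvgHeckeC776`,
  `FinAvgMeanC776`;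
* `fix`  : `χ(g i u₀) = χ(g)` for the members `i u₀` of `Rep` (`IsFinData.mem`);
* `inner`: `FinAvgOrthC` for the frame `⟨μ, F, r⟩` and the form `CuspFormC` (`conj_symm`,
  `add_left`), the subspace `WSubC` (`addV`, `smulV`).
`T1.T1Out`, `TranslInvC` are passed to the leaves as they are.
-/

set_option autoImplicit false

open AutomorphicForm IsDedekindDomain NumberField MeasureTheory
open scoped ComplexConjugate

noncomputable section

namespace Fermat.Agent.LT.T7.H75

open Fermat.Agent.LT Fermat.Agent.LT.H556 Fermat.Agent.LT.H556.A0 Fermat.Agent.LT.T7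
open Fermat.Agent.LT.T7.SD534 Fermat.Agent.LT.T7.H193 Fermat.Agent.LT.T7.WB776

attribute [local instance] Fermat.Agent.LT.T5.instMeasurableSpaceG

variable {K : Type} [Field K] [NumberField K]

/-- `finAvg Rep` as a linear map. -/
def finAvgLin75 (Rep : Finset (G K)) : (G K → ℂ) →ₗ[ℂ] (G K → ℂ) where
  toFun := finAvg Rep
  map_add' := by
    intro ψ ψ'
    funext g
    show ((Rep.card : ℂ))⁻¹ * ∑ h ∈ Rep, (ψ (g * h) + ψ' (g * h))
      = ((Rep.card : ℂ))⁻¹ * ∑ h ∈ Rep, ψ (g * h) + ((Rep.card : ℂ))⁻¹ * ∑ h ∈ Rep, ψ' (g * h)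
    rw [Finset.sum_add_distrib, mul_add]
  map_smul' := by
    intro a ψ
    funext g
    show ((Rep.card : ℂ))⁻¹ * ∑ h ∈ Rep, a * ψ (g * h)
      = a * (((Rep.card : ℂ))⁻¹ * ∑ h ∈ Rep, ψ (g * h))
    rw [← Finset.mul_sum]
    ring

theorem finAvgLin75_apply (Rep : Finset (G K)) (ψ : G K → ℂ) :
    finAvgLin75 Rep ψ = finAvg Rep ψ := rfl

/-- The finite average fixes the functions which are invariant under the level group and under
the Iwahori elements of the orbit. -/
theorem finAvg_fix75 {𝔑 𝔑₀ : Ideal (𝓞 K)} {l : ℕ} {o : ℕ → HeightOneSpectrum (𝓞 K)}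
    {Rep : Finset (G K)} (hRep : IsFinData 𝔑 𝔑₀ l o Rep) {χ : G K → ℂ}
    (hlev : ∀ u : G K, InLevelGroup 𝔑₀ u → ∀ g : G K, χ (g * u) = χ g)
    (hiw : IsIwInv l o χ) : finAvg Rep χ = χ := by
  funext g
  have hsum : ∑ h ∈ Rep, χ (g * h) = ∑ _h ∈ Rep, χ g := by
    refine Finset.sum_congr rfl fun h hh => ?_
    obtain ⟨i, u, hi, hu, rfl⟩ := hRep.mem h hh
    rw [← mul_assoc, hlev u hu, isIwInv_iff.1 hiw i hi]
  have hcard : (Rep.card : ℂ) ≠ 0 :=
    Nat.cast_ne_zero.2 (Finset.card_ne_zero.2 hRep.nonempty)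
  show ((Rep.card : ℂ))⁻¹ * ∑ h ∈ Rep, χ (g * h) = χ g
  rw [hsum, Finset.sum_const, nsmul_eq_mul, ← mul_assoc, inv_mul_cancel₀ hcard, one_mul]

/-- **T7.L2.3.5.4.B4 = WB.B4 `IwAvgAsmC776` (ASSEMBLY).** -/
theorem iwAvgAsmC75 (K : Type) [Field K] [NumberField K] : IwAvgAsmC776 K := by
  intro hT1 hFD hFC hFO hTI hPos hHe hMe hForm hSub μ F r 𝔫 u h𝔫 hframe hray
  obtain ⟨Rep, hRep⟩ := hFD 𝔫 𝔫 h𝔫 le_rfl 1 (fun _ => u)
  have hcusp : ∀ ψ : G K → ℂ, T5.IsCuspFn 𝔫 T5.trivType r ψ →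
      T5.IsCuspFn 𝔫 T5.trivType r (finAvg Rep ψ) ∧ IsIwInv 1 (fun _ => u) (finAvg Rep ψ) :=
    fun ψ hψ => hFC hT1 𝔫 𝔫 1 (fun _ => u) Rep hRep r hray ψ hψ
  have hform := hForm μ F r 𝔫 h𝔫 hframe hray
  have hsub := hSub 𝔫 r u
  refine ⟨finAvgLin75 Rep, ?_, ?_, ?_⟩
  · -- `eig`
    intro ψ c hψ
    rw [finAvgLin75_apply]
    exact
      { inv :=
          { cusp := (hcusp ψ hψ.inv.cusp).1
            arch_scalar := hPos 𝔫 𝔫 1 (fun _ => u) Rep hRep ψ hψ.inv.arch_scalar
            iw := (hcusp ψ hψ.inv.cusp).2 }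
        hecke := fun v hv => hHe 𝔫 𝔫 1 (fun _ => u) Rep hRep ψ v (c.a v) (c.b v) (hψ.hecke v hv)
        mean := fun w => hMe 𝔫 𝔫 1 (fun _ => u) Rep hRep ψ w (c.m w) hψ.inv.cusp.cont
          (hψ.mean w) }
  · -- `fix`
    intro χ hχ
    rw [finAvgLin75_apply]
    exact finAvg_fix75 hRep hχ.cusp.aut.level_inv hχ.iw
  · -- `inner`
    intro χ ψ hχ hψ
    rw [finAvgLin75_apply]
    have hψV : InV 𝔫 r ψ := hψ.cusp
    have hPV : InV 𝔫 r (finAvg Rep ψ) := (hcusp ψ hψ.cusp).1
    have hχV : InV 𝔫 r χ := hχ.cusp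
    have hdV : InV 𝔫 r (ψ + (-1 : ℂ) • finAvg Rep ψ) :=
      hsub.addV _ _ hψV (hsub.smulV _ _ hPV)
    have hd : (ψ + (-1 : ℂ) • finAvg Rep ψ) = fun x => ψ x - finAvg Rep ψ x := by
      funext x
      simp [sub_eq_add_neg]
    have h0 : T5.innerD μ F (fun x => ψ x - finAvg Rep ψ x) χ = 0 :=
      hFO hT1 hTI ⟨μ, F, r⟩ ⟨hframe, hray⟩ 𝔫 𝔫 1 (fun _ => u) Rep hRep ψ hψ.cusp χ hχ.cusp
        hχ.iw
    have hsplit : (ψ + (-1 : ℂ) • finAvg Rep ψ) + finAvg Rep ψ = ψ := by
      funext x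
      simp
    have h1 : T5.innerD μ F ψ χ = T5.innerD μ F (finAvg Rep ψ) χ := by
      have := hform.add_left _ _ χ hdV hPV hχV
      rw [hsplit, hd, h0, zero_add] at this
      exact this
    rw [hform.conj_symm (finAvg Rep ψ) χ hPV hχV, hform.conj_symm ψ χ hψV hχV, h1]

end Fermat.Agent.LT.T7.H75

end

end
-- ===== PACK-END LT/T7/H75/IwAvgAsm.lean

-- ===== PACK-BEGIN LT/T7/H271/Indep.lean
section




/-!
# Row LT, tower T7, sub-leaf T7.L2.1.F3.I `IndepC281` (helper271)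

OFF-MAIN.  `indepC271 K : H281.IndepC281 K`, exact type of `LT/T7/H281/OpUpSpec.lean`
(helper281@a99fa3f20, sha256 2dcc737e).

* First half (`iwOp (o 0) H ψ` does not depend on the Iwahori coset system `H` for an Iwahori
  invariant `ψ`): `iwOp_indep340` and `isIwInv_local340` (asset helper340@78085a8e5
  `LT/T7/H340/IwKit.lean`, byte-identical copy).
* Second half (`cosetOp Hg χ` does not depend on the system `Hg` of `U(𝔫₀) g U(𝔫₀) / U(𝔫₀)` for a
  right `U(𝔫₀)`-invariant `χ`): `U(𝔫₀)` is a group (`inLevelGroup_mul271`: the closure of the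
  ideal in the completion is closed under addition and multiplication); for `a ∈ Hg`,
  `a = u₁ g u₂`, the third clause of `Hg'` for `u₁` gives `a' ∈ Hg'` with `a'⁻¹ a ∈ U(𝔫₀)`; the
  maps `a ↦ a'` are inverse to each other (second clause); `Finset.sum_nbij'`.
-/

set_option autoImplicit false
set_option linter.unusedSectionVars false

open IsDedekindDomain NumberField

noncomputable section

namespace Fermat.Agent.LT.T7.H271

open Fermat.Agent.LT.H556 Fermat.Agent.LT.H556.A0 Fermat.Agent.LT.H129 Fermat.Agent.LT.T7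

variable {K : Type} [Field K] [NumberField K]

/-! ## The level group is a group -/

theorem idealClosure_add271 {𝔫 : Ideal (𝓞 K)} {v : HeightOneSpectrum (𝓞 K)}
    {x y : v.adicCompletion K} (hx : x ∈ idealClosure 𝔫 v) (hy : y ∈ idealClosure 𝔫 v) :
    x + y ∈ idealClosure 𝔫 v := by
  refine map_mem_closure₂ (f := fun a b : v.adicCompletion K => a + b) continuous_add hx hy ?_
  rintro _ ⟨a, ha, rfl⟩ _ ⟨b, hb, rfl⟩
  exact ⟨a + b, 𝔫.add_mem ha hb, by simp only [map_add]⟩

theorem idealClosure_mul271 {𝔫 : Ideal (𝓞 K)} {v : HeightOneSpectrum (𝓞 K)}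
    {x y : v.adicCompletion K} (hx : x ∈ idealClosure 𝔫 v) (hy : y ∈ idealClosure 𝔫 v) :
    x * y ∈ idealClosure 𝔫 v := by
  refine map_mem_closure₂ (f := fun a b : v.adicCompletion K => a * b) continuous_mul hx hy ?_
  rintro _ ⟨a, ha, rfl⟩ _ ⟨b, _, rfl⟩
  exact ⟨a * b, 𝔫.mul_mem_right b ha, by simp only [map_mul]⟩

theorem finComp_mul271 (v : HeightOneSpectrum (𝓞 K)) (a b : G K) :
    finComp v (a * b) = finComp v a * finComp v b := by
  rw [← coe_finCompHom129, map_mul, Units.val_mul, coe_finCompHom129, coe_finCompHom129]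

theorem levelFin_mul271 {𝔫 : Ideal (𝓞 K)} (v : HeightOneSpectrum (𝓞 K)) (a b : G K)
    (ha : ∀ i j, (finComp v a - 1) i j ∈ idealClosure 𝔫 v)
    (hb : ∀ i j, (finComp v b - 1) i j ∈ idealClosure 𝔫 v) (i j : Fin 2) :
    (finComp v (a * b) - 1) i j ∈ idealClosure 𝔫 v := by
  have e : finComp v (a * b) - 1
      = (finComp v a - 1) * (finComp v b - 1) + (finComp v a - 1) + (finComp v b - 1) := by
    rw [finComp_mul271]
    noncomm_ring
  rw [e, Matrix.add_apply, Matrix.add_apply, Matrix.mul_apply, Fin.sum_univ_two]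
  exact idealClosure_add271 (idealClosure_add271 (idealClosure_add271
    (idealClosure_mul271 (ha i 0) (hb 0 j)) (idealClosure_mul271 (ha i 1) (hb 1 j)))
    (ha i j)) (hb i j)

/-- `U(𝔫)` is closed under multiplication. -/
theorem inLevelGroup_mul271 {𝔫 : Ideal (𝓞 K)} {u u' : G K} (hu : InLevelGroup 𝔫 u)
    (hu' : InLevelGroup 𝔫 u') : InLevelGroup 𝔫 (u * u') := by
  refine ⟨fun w => ?_, fun v i j => ⟨?_, ?_⟩⟩
  · rw [trivAtInf_iff129, map_mul, (trivAtInf_iff129 w u).1 (hu.1 w),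
      (trivAtInf_iff129 w u').1 (hu'.1 w), one_mul]
  · exact levelFin_mul271 v u u' (fun i j => (hu.2 v i j).1) (fun i j => (hu'.2 v i j).1) i j
  · rw [mul_inv_rev]
    exact levelFin_mul271 v u'⁻¹ u⁻¹ (fun i j => (hu'.2 v i j).2) (fun i j => (hu.2 v i j).2)
      i j

/-! ## Independence of the system of representatives of a double coset -/

theorem dbl_key271 {𝔫 : Ideal (𝓞 K)} {g : G K} {A B : Finset (G K)}
    (hA : IsDblCosetSystem 𝔫 g A) (hB : IsDblCosetSystem 𝔫 g B) :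
    ∀ a ∈ A, ∃ b ∈ B, InLevelGroup 𝔫 (b⁻¹ * a) := by
  intro a ha
  obtain ⟨u₁, u₂, h1, h2, rfl⟩ := hA.1 a ha
  obtain ⟨b, hb, hbu⟩ := hB.2.2 u₁ h1
  refine ⟨b, hb, ?_⟩
  have e : b⁻¹ * (u₁ * g * u₂) = (b⁻¹ * (u₁ * g)) * u₂ := by group
  rw [e]
  exact inLevelGroup_mul271 hbu h2

theorem dbl_inv271 {𝔫 : Ideal (𝓞 K)} {g : G K} {A B : Finset (G K)}
    (hA : IsDblCosetSystem 𝔫 g A) (σ τ : G K → G K)
    (hσ : ∀ a ∈ A, σ a ∈ B ∧ InLevelGroup 𝔫 ((σ a)⁻¹ * a))
    (hτ : ∀ b ∈ B, τ b ∈ A ∧ InLevelGroup 𝔫 ((τ b)⁻¹ * b)) :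
    ∀ a ∈ A, τ (σ a) = a := by
  intro a ha
  by_contra hne
  have h1 := (hτ (σ a) (hσ a ha).1).2
  have h2 := (hσ a ha).2
  have e : (τ (σ a))⁻¹ * a = ((τ (σ a))⁻¹ * σ a) * ((σ a)⁻¹ * a) := by group
  refine hA.2.1 (τ (σ a)) (hτ (σ a) (hσ a ha).1).1 a ha hne ?_
  rw [e]
  exact inLevelGroup_mul271 h1 h2

theorem cosetOp_indep271 {𝔫 : Ideal (𝓞 K)} {g : G K} {Hg Hg' : Finset (G K)}
    (h : IsDblCosetSystem 𝔫 g Hg) (h' : IsDblCosetSystem 𝔫 g Hg') (χ : G K → ℂ)
    (hχ : H281.IsRInv281 𝔫 χ) (x : G K) : cosetOp Hg χ x = cosetOp Hg' χ x := by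
  classical
  choose! σ hσ using dbl_key271 h h'
  choose! τ hτ using dbl_key271 h' h
  show ∑ a ∈ Hg, χ (x * a) = ∑ a ∈ Hg', χ (x * a)
  refine Finset.sum_nbij' σ τ (fun a ha => (hσ a ha).1) (fun a ha => (hτ a ha).1)
    (dbl_inv271 h σ τ hσ hτ) (dbl_inv271 h' τ σ hτ hσ) ?_
  intro a ha
  have e : x * a = (x * σ a) * ((σ a)⁻¹ * a) := by group
  rw [e]
  exact hχ _ (hσ a ha).2 _

/-! ## The sub-leaf -/

/-- **SUB-LEAF T7.L2.1.F3.I `IndepC281`.** -/
theorem indepC271 (K : Type) [Field K] [NumberField K] : H281.IndepC281 K := by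
  intro 𝔫₀ l o hl
  refine ⟨fun H H' hH hH' ψ hψ x => ?_,
    fun g Hg Hg' h h' χ hχ x => cosetOp_indep271 h h' χ hχ x⟩
  exact congrFun (H340.iwOp_indep340 hH hH' ψ
    (fun u hu huI y => H340.isIwInv_local340 hψ hl u hu huI y)) x

end Fermat.Agent.LT.T7.H271

end

end
-- ===== PACK-END LT/T7/H271/Indep.lean

-- ===== PACK-BEGIN LT/T7/H812/Stable.lean
section




/-!
# Row LT, tower T7, leaf T7.L2.2.S `StableC561` (helper812)

OFF-MAIN.  ADDITIVE.  Every proof is complete, nothing assumed.  Target: `StableC561 K K'` of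
`T7/H561/SpecUpTop.lean` (helper561@fa57d28b6) VERBATIM:

    stableC812 (K K') : Fermat.Agent.LT.T7.H561.StableC561 K K'

## The proof

No structure theory of the automorphisms of the adele ring is needed: the data give the stability
of a DEEPER level for free, and the base level is recovered from it by a colon ideal.

* `1` is a bad element, so `IsL2Data.comp 1` gives `IsCompData`: `σ` fixes the image of `K`
  (`cyc.fixed`, `base`), and `aut.level` says that `U(𝔑₁)` is stable under `σ` for the level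
  `𝔑₁ = (𝔫 1) 𝒪_{K'} ≠ 0`;  `IsL2Data.level_g 1` gives `𝔑₁ ≤ 𝔑₀`.
* `Lset812 𝔑` : the adeles `x` with `x_∞ = 0` and `x_v ∈ 𝔑 𝒪_v` for all `v`.  `u ∈ U(𝔑)` iff the
  entries of `u - 1` and `u⁻¹ - 1` lie in `Lset812 𝔑` (`inLevelGroup_iff812`), and
  `x ∈ Lset812 𝔑` iff the transvection `1 + x E₁₂` lies in `U(𝔑)`
  (`inLevelGroup_upper_iff812`); so `Lset812 𝔑₁` is stable under `σ_𝔸`.
* colon ideal `𝔠 = (𝔑₁ : 𝔑₀)`: `x ∈ Lset812 𝔑₀` iff `c x ∈ Lset812 𝔑₁` for all `c ∈ 𝔠`
  (`lset_colon_iff812`, from the local statement of `StableLocal.lean`: Dedekind);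
  `𝔠` is `σ`-stable because `𝔑₀` and `𝔑₁` are extended from `K`; and
  `σ_𝔸 (c x) = σ(c) σ_𝔸(x)`.  Hence `Lset812 𝔑₀` is stable under `σ_𝔸`.
-/

set_option autoImplicit false
set_option linter.unusedSectionVars false

open AutomorphicForm IsDedekindDomain NumberField MeasureTheory

noncomputable section

namespace Fermat.Agent.LT.T7.H812

open Fermat.Agent.LT.H556 Fermat.Agent.LT.H556.A0 Fermat.Agent.LT.T7 Fermat.Agent.LT.T7.H561

section OneField

variable {K : Type} [Field K] [NumberField K]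

/-! ## 1. Components -/

/-- The component at the infinite place `w`, as a ring homomorphism. -/
def infC812 (w : InfinitePlace K) : Adl K →+* w.Completion :=
  (Pi.evalRingHom (fun v : InfinitePlace K => v.Completion) w).comp
    (RingHom.fst (InfiniteAdeleRing K) (FiniteAdeleRing (𝓞 K) K))

/-- The component at the finite place `v`, as a ring homomorphism. -/
def finC812 (v : HeightOneSpectrum (𝓞 K)) : Adl K →+* v.adicCompletion K :=
  (RestrictedProduct.evalRingHom (fun v : HeightOneSpectrum (𝓞 K) => v.adicCompletion K) v).comp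
    (RingHom.snd (InfiniteAdeleRing K) (FiniteAdeleRing (𝓞 K) K))

theorem infC812_apply (w : InfinitePlace K) (x : Adl K) : infC812 w x = x.1 w := rfl

theorem finC812_apply (v : HeightOneSpectrum (𝓞 K)) (x : Adl K) : finC812 v x = x.2 v := rfl

/-- The entries of the identity matrix are preserved by a ring homomorphism. -/
theorem map_one_entry812 {A B : Type*} [Semiring A] [Semiring B] (f : A →+* B) (i j : Fin 2) :
    f ((1 : Matrix (Fin 2) (Fin 2) A) i j) = (1 : Matrix (Fin 2) (Fin 2) B) i j := by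
  by_cases h : i = j
  · subst h
    rw [Matrix.one_apply_eq, Matrix.one_apply_eq, map_one]
  · rw [Matrix.one_apply_ne h, Matrix.one_apply_ne h, map_zero]

/-- The entries of the image of `g` under `GL₂(f)`. -/
theorem glMap_entry812 {A B : Type*} [CommRing A] [CommRing B] (f : A →+* B)
    (g : GL (Fin 2) A) (i j : Fin 2) :
    ((Matrix.GeneralLinearGroup.map f g : GL (Fin 2) B) : Matrix (Fin 2) (Fin 2) B) i j
      = f ((g : Matrix (Fin 2) (Fin 2) A) i j) := rfl

/-- If `u` is trivial at `w`, so is `u⁻¹`. -/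
theorem trivAtInf_inv812 (w : InfinitePlace K) (u : G K) (h : TrivAtInf w u) :
    TrivAtInf w u⁻¹ := by
  have h1 : Matrix.GeneralLinearGroup.map (infC812 w) u = 1 := by
    apply Units.ext
    refine Matrix.ext (fun i j => ?_)
    exact h i j
  have h2 : Matrix.GeneralLinearGroup.map (infC812 w) u⁻¹ = 1 := by
    rw [map_inv, h1, inv_one]
  intro i j
  have h3 := congrArg (fun g : GL (Fin 2) w.Completion =>
    (g : Matrix (Fin 2) (Fin 2) w.Completion) i j) h2
  exact h3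

/-! ## 2. The additive form of the level group -/

/-- The adeles with trivial infinite part whose component at every finite place `v` lies in the
closure `𝔫 𝒪_v`. -/
def Lset812 (𝔫 : Ideal (𝓞 K)) : Set (Adl K) :=
  {x | (∀ w : InfinitePlace K, x.1 w = 0) ∧
    ∀ v : HeightOneSpectrum (𝓞 K), x.2 v ∈ idealClosure 𝔫 v}

theorem mem_Lset812 (𝔫 : Ideal (𝓞 K)) (x : Adl K) :
    x ∈ Lset812 𝔫 ↔ (∀ w : InfinitePlace K, x.1 w = 0) ∧
      ∀ v : HeightOneSpectrum (𝓞 K), x.2 v ∈ idealClosure 𝔫 v := Iff.rfl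

theorem zero_mem_Lset812 (𝔫 : Ideal (𝓞 K)) : (0 : Adl K) ∈ Lset812 𝔫 :=
  ⟨fun _ => rfl, fun v => subset_closure ⟨0, 𝔫.zero_mem, by
    show algebraMap K (v.adicCompletion K) (algebraMap (𝓞 K) K 0) = 0
    rw [map_zero, map_zero]⟩⟩

theorem neg_mem_Lset812 (𝔫 : Ideal (𝓞 K)) {x : Adl K} (hx : x ∈ Lset812 𝔫) :
    -x ∈ Lset812 𝔫 := by
  refine ⟨fun w => ?_, fun v => ?_⟩
  · show -(x.1 w) = 0
    rw [hx.1 w, neg_zero]
  · show -(x.2 v) ∈ idealClosure 𝔫 v
    refine map_mem_closure (f := fun a : v.adicCompletion K => -a) continuous_neg (hx.2 v) ?_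
    rintro _ ⟨a, ha, rfl⟩
    refine ⟨-a, 𝔫.neg_mem ha, ?_⟩
    show algebraMap K (v.adicCompletion K) (algebraMap (𝓞 K) K (-a)) = _
    rw [map_neg, map_neg]

/-- The entry of `u - 1` at the finite place `v`. -/
theorem finComp_sub_one812 (v : HeightOneSpectrum (𝓞 K)) (u : G K) (i j : Fin 2) :
    (finComp v u - 1) i j
      = ((u : Matrix (Fin 2) (Fin 2) (Adl K)) i j - (1 : Matrix (Fin 2) (Fin 2) (Adl K)) i j).2 v := by
  have h := map_one_entry812 (finC812 v) i j
  rw [finC812_apply] at h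
  show ((u : Matrix (Fin 2) (Fin 2) (Adl K)) i j).2 v
      - (1 : Matrix (Fin 2) (Fin 2) (v.adicCompletion K)) i j = _
  rw [← h]
  rfl

/-- `u ∈ U(𝔫)` iff the entries of `u - 1` and of `u⁻¹ - 1` lie in `Lset812 𝔫`. -/
theorem inLevelGroup_iff812 (𝔫 : Ideal (𝓞 K)) (u : G K) :
    InLevelGroup 𝔫 u ↔ ∀ i j : Fin 2,
      ((u : Matrix (Fin 2) (Fin 2) (Adl K)) i j - (1 : Matrix (Fin 2) (Fin 2) (Adl K)) i j)
          ∈ Lset812 𝔫 ∧
      (((u⁻¹ : G K) : Matrix (Fin 2) (Fin 2) (Adl K)) i j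
          - (1 : Matrix (Fin 2) (Fin 2) (Adl K)) i j) ∈ Lset812 𝔫 := by
  have hone : ∀ (w : InfinitePlace K) (i j : Fin 2),
      ((1 : Matrix (Fin 2) (Fin 2) (Adl K)) i j).1 w
        = (1 : Matrix (Fin 2) (Fin 2) w.Completion) i j := fun w i j =>
    map_one_entry812 (infC812 w) i j
  constructor
  · rintro ⟨hinf, hfin⟩ i j
    refine ⟨⟨fun w => ?_, fun v => ?_⟩, ⟨fun w => ?_, fun v => ?_⟩⟩
    · show ((u : Matrix (Fin 2) (Fin 2) (Adl K)) i j).1 w
          - ((1 : Matrix (Fin 2) (Fin 2) (Adl K)) i j).1 w = 0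
      rw [hone, hinf w i j, sub_self]
    · rw [← finComp_sub_one812]
      exact (hfin v i j).1
    · show (((u⁻¹ : G K) : Matrix (Fin 2) (Fin 2) (Adl K)) i j).1 w
          - ((1 : Matrix (Fin 2) (Fin 2) (Adl K)) i j).1 w = 0
      rw [hone, trivAtInf_inv812 w u (hinf w) i j, sub_self]
    · rw [← finComp_sub_one812]
      exact (hfin v i j).2
  · intro h
    refine ⟨fun w i j => ?_, fun v i j => ⟨?_, ?_⟩⟩
    · have h1 := (h i j).1.1 w
      have h2 : ((u : Matrix (Fin 2) (Fin 2) (Adl K)) i j).1 w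
          - ((1 : Matrix (Fin 2) (Fin 2) (Adl K)) i j).1 w = 0 := h1
      rw [hone] at h2
      exact sub_eq_zero.1 h2
    · rw [finComp_sub_one812]
      exact (h i j).1.2 v
    · rw [finComp_sub_one812]
      exact (h i j).2.2 v

/-! ## 3. Transvections -/

/-- The transvection `1 + x E₁₂`. -/
def upper812 (x : Adl K) : G K where
  val := !![1, x; 0, 1]
  inv := !![1, -x; 0, 1]
  val_inv := by
    ext i j
    fin_cases i <;> fin_cases j <;> simp [Matrix.mul_apply, Fin.sum_univ_two]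
  inv_val := by
    ext i j
    fin_cases i <;> fin_cases j <;> simp [Matrix.mul_apply, Fin.sum_univ_two]

theorem upper812_val (x : Adl K) :
    ((upper812 x : G K) : Matrix (Fin 2) (Fin 2) (Adl K)) = !![1, x; 0, 1] := rfl

theorem upper812_inv (x : Adl K) : (upper812 x)⁻¹ = upper812 (-x) := by
  apply Units.ext
  show !![1, -x; 0, 1] = !![1, -x; 0, 1]
  rfl

/-- The entries of `upper812 x - 1`. -/
theorem upper812_sub_one (x : Adl K) (i j : Fin 2) :
    ((upper812 x : G K) : Matrix (Fin 2) (Fin 2) (Adl K)) i j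
        - (1 : Matrix (Fin 2) (Fin 2) (Adl K)) i j = 0 ∨
      ((upper812 x : G K) : Matrix (Fin 2) (Fin 2) (Adl K)) i j
        - (1 : Matrix (Fin 2) (Fin 2) (Adl K)) i j = x := by
  rw [upper812_val]
  fin_cases i <;> fin_cases j <;> simp

theorem upper812_sub_one_01 (x : Adl K) :
    ((upper812 x : G K) : Matrix (Fin 2) (Fin 2) (Adl K)) 0 1
        - (1 : Matrix (Fin 2) (Fin 2) (Adl K)) 0 1 = x := by
  rw [upper812_val]
  simp

/-- `1 + x E₁₂ ∈ U(𝔫)` iff `x ∈ Lset812 𝔫`. -/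
theorem inLevelGroup_upper_iff812 (𝔫 : Ideal (𝓞 K)) (x : Adl K) :
    InLevelGroup 𝔫 (upper812 x) ↔ x ∈ Lset812 𝔫 := by
  rw [inLevelGroup_iff812]
  constructor
  · intro h
    have h1 := (h 0 1).1
    rwa [upper812_sub_one_01] at h1
  · intro hx i j
    constructor
    · rcases upper812_sub_one x i j with h | h
      · rw [h]; exact zero_mem_Lset812 𝔫
      · rw [h]; exact hx
    · rw [upper812_inv]
      rcases upper812_sub_one (-x) i j with h | h
      · rw [h]; exact zero_mem_Lset812 𝔫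
      · rw [h]; exact neg_mem_Lset812 𝔫 hx

/-- The automorphism maps the transvection of `x` to the transvection of `σ_𝔸 x`. -/
theorem onG_upper812 (s : T5.AdelicAut K) (x : Adl K) :
    s.onG (upper812 x) = upper812 (s.σA x) := by
  apply Units.ext
  ext i j
  show (s.σA : Adl K →+* Adl K) (((upper812 x : G K) : Matrix (Fin 2) (Fin 2) (Adl K)) i j)
    = ((upper812 (s.σA x) : G K) : Matrix (Fin 2) (Fin 2) (Adl K)) i j
  rw [upper812_val, upper812_val]
  fin_cases i <;> fin_cases j <;> simp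

/-- If `U(𝔫)` is stable under `σ`, then `Lset812 𝔫` is stable under `σ_𝔸`. -/
theorem lset_iff_of_level812 (s : T5.AdelicAut K) (𝔫 : Ideal (𝓞 K))
    (hlev : ∀ u : G K, InLevelGroup 𝔫 u ↔ InLevelGroup 𝔫 (s.onG u)) (x : Adl K) :
    x ∈ Lset812 𝔫 ↔ s.σA x ∈ Lset812 𝔫 := by
  rw [← inLevelGroup_upper_iff812, ← inLevelGroup_upper_iff812, ← onG_upper812]
  exact hlev (upper812 x)

/-! ## 4. The colon ideal -/

/-- The principal adele of an integer. -/
def intAdele812 (c : 𝓞 K) : Adl K := algebraMap K (Adl K) (algebraMap (𝓞 K) K c)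

theorem intAdele812_mul_fin (c : 𝓞 K) (x : Adl K) (v : HeightOneSpectrum (𝓞 K)) :
    (intAdele812 c * x).2 v = iota812 v c * x.2 v := rfl

theorem intAdele812_mul_inf (c : 𝓞 K) (x : Adl K) (w : InfinitePlace K) :
    (intAdele812 c * x).1 w
      = algebraMap K w.Completion (algebraMap (𝓞 K) K c) * x.1 w := rfl

/-- **The colon characterisation of `Lset812`.** -/
theorem lset_colon_iff812 (𝔑₀ 𝔑₁ : Ideal (𝓞 K)) (hle : 𝔑₁ ≤ 𝔑₀) (hne : ∃ z ∈ 𝔑₁, z ≠ 0)
    (x : Adl K) :
    x ∈ Lset812 𝔑₀ ↔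
      ∀ c : 𝓞 K, (∀ z ∈ 𝔑₀, c * z ∈ 𝔑₁) → intAdele812 c * x ∈ Lset812 𝔑₁ := by
  constructor
  · rintro ⟨hinf, hfin⟩ c hc
    refine ⟨fun w => ?_, fun v => ?_⟩
    · rw [intAdele812_mul_inf, hinf w, mul_zero]
    · rw [intAdele812_mul_fin]
      exact colon_mul_mem_idealClosure812 𝔑₀ 𝔑₁ v hc (hfin v)
  · intro h
    refine ⟨fun w => ?_, fun v => ?_⟩
    · obtain ⟨z, hz, hz0⟩ := hne
      have h1 := (h z (fun z' _ => 𝔑₁.mul_mem_right z' hz)).1 w
      rw [intAdele812_mul_inf] at h1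
      have hz1 : algebraMap K w.Completion (algebraMap (𝓞 K) K z) ≠ 0 := by
        intro h0
        have h2 : algebraMap (𝓞 K) K z = 0 :=
          (map_eq_zero (algebraMap K w.Completion)).1 h0
        exact hz0 (RingOfIntegers.coe_eq_zero_iff.1 h2)
      exact (mul_eq_zero.1 h1).resolve_left hz1
    · refine mem_idealClosure_of_colon812 𝔑₀ 𝔑₁ hle hne v (fun c hc => ?_)
      rw [← intAdele812_mul_fin]
      exact (h c hc).2 v

/-- **The key step.**  If `𝔑₁ ≤ 𝔑₀` are non-zero ideals stable under `σ` and `U(𝔑₁)` is stable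
under the automorphism, then `Lset812 𝔑₀` goes into itself. -/
theorem lset_map_of_level812 (s : T5.AdelicAut K) (𝔑₀ 𝔑₁ : Ideal (𝓞 K)) (hle : 𝔑₁ ≤ 𝔑₀)
    (hne : ∃ z ∈ 𝔑₁, z ≠ 0)
    (h₀ : ∀ z : 𝓞 K, z ∈ 𝔑₀ ↔ RingOfIntegers.mapRingEquiv s.σ z ∈ 𝔑₀)
    (h₁ : ∀ z : 𝓞 K, z ∈ 𝔑₁ ↔ RingOfIntegers.mapRingEquiv s.σ z ∈ 𝔑₁)
    (hlev : ∀ u : G K, InLevelGroup 𝔑₁ u ↔ InLevelGroup 𝔑₁ (s.onG u)) (x : Adl K) :
    x ∈ Lset812 𝔑₀ ↔ s.σA x ∈ Lset812 𝔑₀ := by
  -- the action of `σ` on the principal adeles of integers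
  have hσ : ∀ (c : 𝓞 K) (y : Adl K),
      s.σA (intAdele812 c * y) = intAdele812 (RingOfIntegers.mapRingEquiv s.σ c) * s.σA y := by
    intro c y
    rw [map_mul]
    congr 1
    exact s.compat _
  -- the colon ideal is stable
  have hcol : ∀ c : 𝓞 K, (∀ z ∈ 𝔑₀, c * z ∈ 𝔑₁) ↔
      (∀ z ∈ 𝔑₀, RingOfIntegers.mapRingEquiv s.σ c * z ∈ 𝔑₁) := by
    intro c
    constructor
    · intro hc z hz
      have hz' : (RingOfIntegers.mapRingEquiv s.σ).symm z ∈ 𝔑₀ := by
        rw [h₀, RingEquiv.apply_symm_apply]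
        exact hz
      have h2 := (h₁ _).1 (hc _ hz')
      rwa [map_mul, RingEquiv.apply_symm_apply] at h2
    · intro hc z hz
      rw [h₁, map_mul]
      exact hc _ ((h₀ z).1 hz)
  rw [lset_colon_iff812 𝔑₀ 𝔑₁ hle hne x, lset_colon_iff812 𝔑₀ 𝔑₁ hle hne (s.σA x)]
  constructor
  · intro h c hc
    have hc' : ∀ z ∈ 𝔑₀, (RingOfIntegers.mapRingEquiv s.σ).symm c * z ∈ 𝔑₁ := by
      rw [hcol, RingEquiv.apply_symm_apply]
      exact hc
    have h1 := (lset_iff_of_level812 s 𝔑₁ hlev _).1 (h _ hc')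
    rwa [hσ, RingEquiv.apply_symm_apply] at h1
  · intro h c hc
    rw [lset_iff_of_level812 s 𝔑₁ hlev, hσ]
    exact h _ ((hcol c).1 hc)

/-- **Stability of the level group**: if `𝔑₁ ≤ 𝔑₀` are non-zero ideals stable under `σ` and
`U(𝔑₁)` is stable under the automorphism, then so is `U(𝔑₀)`. -/
theorem level_of_level812 (s : T5.AdelicAut K) (𝔑₀ 𝔑₁ : Ideal (𝓞 K)) (hle : 𝔑₁ ≤ 𝔑₀)
    (hne : ∃ z ∈ 𝔑₁, z ≠ 0)
    (h₀ : ∀ z : 𝓞 K, z ∈ 𝔑₀ ↔ RingOfIntegers.mapRingEquiv s.σ z ∈ 𝔑₀)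
    (h₁ : ∀ z : 𝓞 K, z ∈ 𝔑₁ ↔ RingOfIntegers.mapRingEquiv s.σ z ∈ 𝔑₁)
    (hlev : ∀ u : G K, InLevelGroup 𝔑₁ u ↔ InLevelGroup 𝔑₁ (s.onG u)) (u : G K) :
    InLevelGroup 𝔑₀ u ↔ InLevelGroup 𝔑₀ (s.onG u) := by
  have hent : ∀ (g : G K) (i j : Fin 2),
      ((s.onG g : G K) : Matrix (Fin 2) (Fin 2) (Adl K)) i j
          - (1 : Matrix (Fin 2) (Fin 2) (Adl K)) i j
        = s.σA ((g : Matrix (Fin 2) (Fin 2) (Adl K)) i j
          - (1 : Matrix (Fin 2) (Fin 2) (Adl K)) i j) := by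
    intro g i j
    rw [map_sub]
    congr 1
    exact (map_one_entry812 (s.σA : Adl K →+* Adl K) i j).symm
  have hinv : (s.onG u)⁻¹ = s.onG u⁻¹ := (map_inv _ _).symm
  rw [inLevelGroup_iff812, inLevelGroup_iff812, hinv]
  refine forall_congr' (fun i => forall_congr' (fun j => ?_))
  rw [hent, hent]
  exact and_congr (lset_map_of_level812 s 𝔑₀ 𝔑₁ hle hne h₀ h₁ hlev _)
    (lset_map_of_level812 s 𝔑₀ 𝔑₁ hle hne h₀ h₁ hlev _)

end OneField

/-! ## 5. Ideals extended from the base field -/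

section TwoFields

variable {K K' : Type} [Field K] [NumberField K] [Field K'] [NumberField K'] [Algebra K K']

/-- An ideal extended from `K` goes into itself under an automorphism fixing `K`. -/
theorem map_mem_of_fix812 (σ : K' ≃+* K') (hσ : ∀ y : K, σ (algebraMap K K' y) = algebraMap K K' y)
    (𝔫 : Ideal (𝓞 K)) {z : 𝓞 K'} (hz : z ∈ Ideal.map (algebraMap (𝓞 K) (𝓞 K')) 𝔫) :
    RingOfIntegers.mapRingEquiv σ z ∈ Ideal.map (algebraMap (𝓞 K) (𝓞 K')) 𝔫 := by
  have hle : Ideal.map (algebraMap (𝓞 K) (𝓞 K')) 𝔫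
      ≤ Ideal.comap (RingOfIntegers.mapRingEquiv σ : 𝓞 K' →+* 𝓞 K')
        (Ideal.map (algebraMap (𝓞 K) (𝓞 K')) 𝔫) := by
    rw [Ideal.map_le_iff_le_comap]
    intro y hy
    rw [Ideal.mem_comap, Ideal.mem_comap]
    have e : (RingOfIntegers.mapRingEquiv σ : 𝓞 K' →+* 𝓞 K') (algebraMap (𝓞 K) (𝓞 K') y)
        = algebraMap (𝓞 K) (𝓞 K') y := by
      apply RingOfIntegers.ext
      exact hσ (algebraMap (𝓞 K) K y)
    rw [e]
    exact Ideal.mem_map_of_mem _ hy
  exact hle hz

/-- An ideal extended from `K` is stable under an automorphism fixing `K`. -/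
theorem map_mem_iff_of_fix812 (σ : K' ≃+* K')
    (hσ : ∀ y : K, σ (algebraMap K K' y) = algebraMap K K' y)
    (𝔫 : Ideal (𝓞 K)) (z : 𝓞 K') :
    z ∈ Ideal.map (algebraMap (𝓞 K) (𝓞 K')) 𝔫 ↔
      RingOfIntegers.mapRingEquiv σ z ∈ Ideal.map (algebraMap (𝓞 K) (𝓞 K')) 𝔫 := by
  refine ⟨fun h => map_mem_of_fix812 σ hσ 𝔫 h, fun h => ?_⟩
  have hσ' : ∀ y : K, σ.symm (algebraMap K K' y) = algebraMap K K' y := by
    intro y
    rw [RingEquiv.symm_apply_eq]
    exact (hσ y).symm
  have h1 := map_mem_of_fix812 σ.symm hσ' 𝔫 h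
  have e : RingOfIntegers.mapRingEquiv σ.symm (RingOfIntegers.mapRingEquiv σ z) = z := by
    apply RingOfIntegers.ext
    show σ.symm (σ (z : K')) = (z : K')
    exact σ.symm_apply_apply _
  rwa [e] at h1

/-- The identity is a bad element. -/
theorem isBad_one812 (Dt : L2Data K K') : Dt.IsBad 1 := by
  refine ⟨fun w i j => ?_, fun v _ => ?_⟩
  · exact map_one_entry812 (infC812 w) i j
  · funext i j
    exact map_one_entry812 (finC812 v) i j

/-- **LEAF T7.L2.2.S = STABLE.** -/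
theorem stableC812 (K K' : Type) [Field K] [NumberField K] [Field K'] [NumberField K']
    [Algebra K K'] : StableC561 K K' := by
  intro ℓ Φ Dt hDt hst u
  have hbad : Dt.IsBad 1 := isBad_one812 Dt
  have hcomp : IsCompData (Dt.comp 1) := hDt.comp 1 hbad
  have hle : Dt.𝔑 1 ≤ Dt.𝔑₀ := hDt.level_g 1 hbad
  obtain ⟨𝔫₀, -, h𝔑₀⟩ := hst
  -- `σ` fixes the image of `K`
  have hσ : ∀ y : K, Dt.s.σ (algebraMap K K' y) = algebraMap K K' y := by
    intro y
    have h1 : algebraMap K K' y ∈ (Dt.comp 1).k := (hcomp.base _).2 ⟨y, rfl⟩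
    exact (hcomp.cyc.fixed _).1 h1
  -- the deeper level is not zero
  have hne : ∃ z ∈ Dt.𝔑 1, z ≠ 0 := by
    have h1 : Dt.𝔫 1 ≠ ⊥ := hcomp.level_ne
    obtain ⟨y, hy, hy0⟩ := Submodule.exists_mem_ne_zero_of_ne_bot h1
    refine ⟨algebraMap (𝓞 K) (𝓞 K') y, Ideal.mem_map_of_mem _ hy, ?_⟩
    intro h0
    exact hy0 (RingOfIntegers.algebraMap.injective K K' (h0.trans (map_zero _).symm))
  have hlev : ∀ u : G K', InLevelGroup (Dt.𝔑 1) u ↔ InLevelGroup (Dt.𝔑 1) (Dt.s.onG u) :=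
    hcomp.aut.level
  have h₀ : ∀ z : 𝓞 K', z ∈ Dt.𝔑₀ ↔ RingOfIntegers.mapRingEquiv Dt.s.σ z ∈ Dt.𝔑₀ := by
    intro z
    rw [h𝔑₀]
    exact map_mem_iff_of_fix812 Dt.s.σ hσ 𝔫₀ z
  have h₁ : ∀ z : 𝓞 K', z ∈ Dt.𝔑 1 ↔ RingOfIntegers.mapRingEquiv Dt.s.σ z ∈ Dt.𝔑 1 :=
    fun z => map_mem_iff_of_fix812 Dt.s.σ hσ (Dt.𝔫 1) z
  exact level_of_level812 Dt.s Dt.𝔑₀ (Dt.𝔑 1) hle hne h₀ h₁ hlev u

end TwoFields

end Fermat.Agent.LT.T7.H812

end

end
-- ===== PACK-END LT/T7/H812/Stable.lean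

-- ===== PACK-BEGIN LT/T7/H190/SubSeqClosed.lean
section




/-!
# Row LT, tower T7, leaf T7.L2.3.5.7 `SD534.SubSeqC`: CLOSED, unconditional (helper190)

OFF-MAIN.  `subSeqC190 K : SD534.SubSeqC K`, VERBATIM against `LT/T7/H534/DownBasisSpec.lean`
(helper534@b2ea72787, sha256 b2d5929f5cd243f8).  The second countability of `GL₂(𝔸_K)` is
helper11's `secondCountableTopology_GL2_adeleRing_h11` (`LT/H11/SC.lean`, Mathlib only).
-/

set_option autoImplicit false

namespace Fermat.Agent.LT.T7.H190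

/-- **Leaf T7.L2.3.5.7 `SubSeqC`**, unconditional. -/
theorem subSeqC190 (K : Type) [Field K] [NumberField K] :
    Fermat.Agent.LT.T7.SD534.SubSeqC K :=
  subSeqC_of_sc190 (Fermat.Agent.LT.H11.SC.secondCountableTopology_GL2_adeleRing_h11 K)

end Fermat.Agent.LT.T7.H190

end
-- ===== PACK-END LT/T7/H190/SubSeqClosed.lean

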