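import Mathlib
import Fermat.Agent.Pack.LT3.E22L2
import Fermat.Agent.Pack.LT3.E23L1
import Fermat.Agent.Pack.LT3.E22L3
import Fermat.Agent.Pack.LT3.E22L1
import Fermat.Agent.Pack.LT3.E22L0
import Fermat.Agent.Pack.LT3.E23L3
import Fermat.Agent.Pack.LT3.E23L2
import Fermat.Agent.Pack.LT3.E24L1
import Fermat.Agent.Pack.LT3.E24L2
import Fermat.Agent.Pack.LT2.E4L2
import Fermat.Agent.Pack.LT3.E24L0
import Fermat.Agent.Pack.LT3.E21L1
import Fermat.Agent.Pack.LT3.E10L2
import Fermat.Agent.Pack.LT2.E6L2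
import Fermat.Agent.Pack.LT2.E3L0
import Fermat.Agent.Pack.LT3.E11L3
import Fermat.Agent.Pack.LT2.E6L1
import Fermat.Agent.Pack.LT2.E10L0
import Fermat.Agent.Pack.LT3.E23L0
import Fermat.Agent.Pack.LT3.E24L3
import Fermat.Agent.Pack.LT2.E7L1
import Fermat.Agent.Pack.LT3.E25L3

set_option linter.all false

-- ===== PACK-BEGIN LT/T7/H305/MatchClosed.lean
section


















/-!
# Row LT, tower T7, station C2 (field `matched`, helper305): INTEGRATION v1

OFF-MAIN.  Complete proofs, nothing assumed.  ADDITIVE.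

CLOSED leaves (vendored byte-identical, ONE closure with the two cuts):

* first cut: `UnfoldC305` helper627, `TorCommC305` helper233, `TwistRepC305` helper655,
  `EllRegC305` helper277, `TorHaarC305` helper149, `TorMeasC305` helper787, `TorCompC305`
  helper119;
* second cut: `GoodSetC305` helper532, `PureExtC305` helper82, `LocMeasC305` helper729,
  `LocCutC305` helper543, `ArchMeasC305` helper709, `LocVanC305` helper385, `NonNormLocC305`
  helper857 (+ helper584).

OPEN (the structure `OpenMatch305`): `T6.T6Out` (closed by the tower T6, supplied by the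
master), `IotaC305` (helper185, cut), `UnitMatchC305` (helper195), `TorSplitC305` (helper589),
`FactDownC305` (helper558, cut), `FactUpC305` (helper340, cut).

    cutIntC_of_open305   : OpenMatch305 K K' → CutIntC305 K K'
    globMatchC_of_open305 : OpenMatch305 K K' → GlobMatchC305 K K'
-/

set_option autoImplicit false

open AutomorphicForm IsDedekindDomain NumberField MeasureTheory
open scoped ComplexConjugate

noncomputable section

namespace Fermat.Agent.LT.T7.H305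

open Fermat.Agent.LT.H556 Fermat.Agent.LT.H556.A0 Fermat.Agent.LT.T7

attribute [local instance] Fermat.Agent.LT.T5.instMeasurableSpaceG

variable (K K' : Type) [Field K] [NumberField K] [Field K'] [NumberField K'] [Algebra K K']

/-- **THE OPEN WALL of the station C2** (integration v1). -/
structure OpenMatch305 : Prop where
  t6 : T6.T6Out
  iota : IotaC305 K K'
  unit : UnitMatchC305 K K'
  torSplit : TorSplitC305 K
  factDown : FactDownC305 K
  factUp : FactUpC305 K K'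

variable {K K'}

/-- The core node from the open wall. -/
theorem cutIntC_of_open305 (h : OpenMatch305 K K') : CutIntC305 K K' :=
  cutIntC_of305 h.t6 (H532.goodSetC532 K K') h.unit (H82.pureExtC82 K) (H82.pureExtC82 K')
    LocMeas729.locMeasC729 H543C.locCutC543 H709.archMeasC709 h.torSplit h.factDown h.factUp
    H385.locVanC385 (H857.nonNormLocC857 K K')

/-- **GLOBAL MATCHING FROM LOCAL MATCHING, from the open wall.** -/
theorem globMatchC_of_open305 (h : OpenMatch305 K K') : GlobMatchC305 K K' :=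
  globMatch_of305 h.iota (H627.unfoldC627 K) (H627.unfoldC627 K') (H233.torCommC233 K)
    (H233.torCommC233 K') (H655.twistRepC655 K') (H277.ellRegC277 K K') (H149.torHaarC149 K)
    (H787.torMeasC787 K K') H119.torCompC119 (cutIntC_of_open305 h)

end Fermat.Agent.LT.T7.H305

end

end
-- ===== PACK-END LT/T7/H305/MatchClosed.lean

-- ===== PACK-BEGIN LT/T7/H301/RayFin.lean
section



/-!
# Row LT, tower T7, node C2.7.7 `FactDownC305`, leaf FD.6 `RayFinC558` (helper301)

OFF-MAIN.  Registry row 2641.  Spec: `LT/T7/H558/FactDownSpec.lean` (helper558, sha256 8043f526).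

    rayFinC301 (K) : H558.RayFinC558 K        VERBATIM, UNCONDITIONAL

## Proof

`|det (z⁻¹ γ_w r_w^j z)| = |det γ_w| · (t²)^j` with `t > 1` (`t ^ (2 [K:ℚ]) = 2`, `0 < t`).
On the compact support of `F w` the continuous functions `|det|` and `|det|⁻¹` are bounded
(`IsCompact.bddAbove_image`; no case distinction on the support being empty), so
`|det γ_w| (t²)^j ≤ b` and `(|det γ_w| (t²)^j)⁻¹ ≤ b'`, which fails for `|j| > N` as soon as
`(t²)^N > max (b / c) (b' c)`.  `J` is the union over `w` of the intervals `[-N_w, N_w]`.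

Only Mathlib and the Spec are imported.  Every declaration of this file is in the namespace
`Fermat.Agent.LT.T7.H301`; no equation lemma of an imported definition is used.
-/

set_option autoImplicit false
set_option linter.unusedSectionVars false

open IsDedekindDomain NumberField

noncomputable section

namespace Fermat.Agent.LT.T7.H301

open Fermat.Agent.LT.H556 Fermat.Agent.LT.H556.A0 Fermat.Agent.LT.T7 Fermat.Agent.LT.T7.H305

/-- `|det|` on `GL₂(ℂ)`. -/
def absDet301 (B : GL (Fin 2) ℂ) : ℝ := ‖(B : Matrix (Fin 2) (Fin 2) ℂ).det‖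

theorem absDet_pos301 (B : GL (Fin 2) ℂ) : 0 < absDet301 B := by
  have h : IsUnit (B : Matrix (Fin 2) (Fin 2) ℂ).det :=
    (Matrix.isUnit_iff_isUnit_det _).1 B.isUnit
  exact norm_pos_iff.2 h.ne_zero

theorem absDet_mul301 (A B : GL (Fin 2) ℂ) : absDet301 (A * B) = absDet301 A * absDet301 B := by
  simp only [absDet301, Units.val_mul, Matrix.det_mul, norm_mul]

theorem absDet_one301 : absDet301 (1 : GL (Fin 2) ℂ) = 1 := by
  simp [absDet301]

/-- `|det|` as a homomorphism to the positive reals (as units of `ℝ`). -/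
def absDetHom301 : GL (Fin 2) ℂ →* ℝˣ where
  toFun B := Units.mk0 (absDet301 B) (absDet_pos301 B).ne'
  map_one' := Units.ext absDet_one301
  map_mul' A B := Units.ext (absDet_mul301 A B)

theorem absDet_zpow301 (A : GL (Fin 2) ℂ) (j : ℤ) : absDet301 (A ^ j) = absDet301 A ^ j := by
  have h := map_zpow absDetHom301 A j
  have h2 := congrArg (fun u : ℝˣ => (u : ℝ)) h
  simpa [absDetHom301] using h2

theorem absDet_conj301 (z A : GL (Fin 2) ℂ) : absDet301 (z⁻¹ * A * z) = absDet301 A := by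
  rw [absDet_mul301, absDet_mul301]
  have h := absDet_mul301 z⁻¹ z
  rw [inv_mul_cancel, absDet_one301] at h
  calc absDet301 z⁻¹ * absDet301 A * absDet301 z
      = (absDet301 z⁻¹ * absDet301 z) * absDet301 A := by ring
    _ = absDet301 A := by rw [← h, one_mul]

theorem continuous_absDet301 : Continuous absDet301 :=
  continuous_norm.comp (Continuous.matrix_det Units.continuous_val)

/-- The bound on a compact set. -/
theorem bounds_on_support301 (f : GL (Fin 2) ℂ → ℂ) (hf : HasCompactSupport f) :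
    ∃ b b' : ℝ, ∀ B : GL (Fin 2) ℂ, f B ≠ 0 → absDet301 B ≤ b ∧ (absDet301 B)⁻¹ ≤ b' := by
  have hK : IsCompact (tsupport f) := hf
  obtain ⟨b, hb⟩ := hK.bddAbove_image continuous_absDet301.continuousOn
  have hc' : Continuous fun B : GL (Fin 2) ℂ => (absDet301 B)⁻¹ :=
    continuous_absDet301.inv₀ (fun B => (absDet_pos301 B).ne')
  obtain ⟨b', hb'⟩ := hK.bddAbove_image hc'.continuousOn
  refine ⟨b, b', fun B hB => ?_⟩
  have hmem : B ∈ tsupport f := subset_tsupport f hB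
  exact ⟨hb (Set.mem_image_of_mem _ hmem), hb' (Set.mem_image_of_mem _ hmem)⟩

variable {K : Type} [Field K] [NumberField K]

/-- The determinant of the ray generator at an infinite place. -/
theorem absDet_rayGen301 {r : G K} {t : ℝ} (ht0 : 0 < t) (w : InfinitePlace K)
    (htw : infComp w r = Matrix.diagonal (fun _ => (t : ℂ))) :
    absDet301 (infGL305 w r) = t ^ 2 := by
  have h1 : ((infGL305 w r : GL (Fin 2) ℂ) : Matrix (Fin 2) (Fin 2) ℂ) = infComp w r := rfl
  rw [absDet301, h1, htw, Matrix.det_diagonal]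
  simp [abs_of_pos ht0]

theorem one_lt_of_rayGen301 {t : ℝ} (ht0 : 0 < t) (ht2 : t ^ (2 * Module.finrank ℚ K) = 2) :
    1 < t := by
  by_contra h
  rw [not_lt] at h
  have h1 : t ^ (2 * Module.finrank ℚ K) ≤ 1 := pow_le_one₀ ht0.le h
  rw [ht2] at h1
  norm_num at h1

/-- Integers of large absolute value are excluded. -/
theorem zpow_out301 {s c b b' : ℝ} (hs : 1 < s) (hc : 0 < c) :
    ∃ N : ℕ, ∀ j : ℤ, (N : ℤ) < |j| → ¬ (c * s ^ j ≤ b ∧ (c * s ^ j)⁻¹ ≤ b') := by
  obtain ⟨N, hN⟩ := pow_unbounded_of_one_lt (max (b / c) (b' * c)) hs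
  have hs0 : 0 < s := lt_trans zero_lt_one hs
  refine ⟨N, fun j hj h => ?_⟩
  have hN1 : b / c < s ^ N := lt_of_le_of_lt (le_max_left _ _) hN
  have hN2 : b' * c < s ^ N := lt_of_le_of_lt (le_max_right _ _) hN
  rcases lt_abs.1 hj with hpos | hneg
  · -- `N < j`
    have h1 : s ^ (N : ℤ) ≤ s ^ j := zpow_le_zpow_right₀ hs.le hpos.le
    rw [zpow_natCast] at h1
    have h2 : b / c < s ^ j := lt_of_lt_of_le hN1 h1
    rw [div_lt_iff₀ hc] at h2
    have := h.1
    linarith [mul_comm c (s ^ j)]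
  · -- `N < -j`
    have h1 : s ^ (N : ℤ) ≤ s ^ (-j) := zpow_le_zpow_right₀ hs.le hneg.le
    rw [zpow_natCast, zpow_neg] at h1
    have hsj : 0 < s ^ j := zpow_pos hs0 j
    have h2 : b' * c < (s ^ j)⁻¹ := lt_of_lt_of_le hN2 h1
    have h3 : (c * s ^ j)⁻¹ = (s ^ j)⁻¹ / c := by
      rw [mul_inv, div_eq_mul_inv, mul_comm]
    have h4 : b' < (s ^ j)⁻¹ / c := by
      rw [lt_div_iff₀ hc]; exact h2
    have := h.2
    rw [h3] at this
    linarith

theorem rayFinC301 (K : Type) [Field K] [NumberField K] : H558.RayFinC558 K := by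
  classical
  intro r hr F hF γ
  obtain ⟨_, t, ht0, ht2, htw⟩ := hr
  have ht1 : 1 < t := one_lt_of_rayGen301 (K := K) ht0 ht2
  have hs : (1 : ℝ) < t ^ 2 := one_lt_pow₀ ht1 (by norm_num)
  have key : ∀ w : InfinitePlace K, ∃ N : ℕ, ∀ j : ℤ, (N : ℤ) < |j| →
      ∀ z : GL (Fin 2) ℂ, F w (z⁻¹ * infGL305 w (T5.ratG γ * r ^ j) * z) = 0 := by
    intro w
    obtain ⟨b, b', hbb⟩ := bounds_on_support301 (F w) (hF w).2
    obtain ⟨N, hN⟩ := zpow_out301 (b := b) (b' := b') hs (absDet_pos301 (infGL305 w (T5.ratG γ)))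
    refine ⟨N, fun j hj z => ?_⟩
    by_contra hne
    have h1 := hbb _ hne
    rw [absDet_conj301, map_mul, map_zpow, absDet_mul301, absDet_zpow301,
      absDet_rayGen301 ht0 w (htw w)] at h1
    exact hN j hj h1
  choose N hN using key
  refine ⟨Finset.univ.biUnion fun w => Finset.Icc (-(N w : ℤ)) (N w), fun j hj w z => ?_⟩
  apply hN w
  have hjw : j ∉ Finset.Icc (-(N w : ℤ)) (N w) := fun h =>
    hj (Finset.mem_biUnion.2 ⟨w, Finset.mem_univ _, h⟩)
  rw [Finset.mem_Icc, not_and_or, not_le, not_le] at hjw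
  rw [lt_abs]
  rcases hjw with h | h
  · right; linarith
  · left; exact h

end Fermat.Agent.LT.T7.H301

end
end
-- ===== PACK-END LT/T7/H301/RayFin.lean

-- ===== PACK-BEGIN LT/T7/H16/BiInvCont.lean
section




/-!
# Row LT, tower T7, node C2.7.7 `FactDownC305` (cut of helper558): leaf FD.10 `BiInvContC558`,
# VERBATIM (helper16, spare)

OFF-MAIN.  Unconditional.  `U(n)` is open in `GL₂(k)` for every valued field `k` with values in
`ℤᵐ⁰` (`isOpen_inU16`), a right `U(n)`-invariant function is locally constant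
(`continuous_of_rightInv16`).
-/

set_option autoImplicit false
set_option linter.unusedSectionVars false

open IsDedekindDomain NumberField

noncomputable section

namespace Fermat.Agent.LT.T7.H16

open Fermat.Agent.LT Fermat.Agent.LT.H556 Fermat.Agent.LT.H556.A0 Fermat.Agent.LT.T7
open Fermat.Agent.LT.T7.H305

section Local

variable {k : Type} [Field k] [Valued k T6.Γ₀]

/-- The closed balls of radius `exp (-n)` are open. -/
theorem isOpen_cball16 (n : ℕ) (c : k) :
    IsOpen {x : k | Valued.v (x - c) ≤ WithZero.exp (-(n : ℤ))} := by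
  rw [isOpen_iff_mem_nhds]
  intro x hx
  have hx' : Valued.v (x - c) ≤ WithZero.exp (-(n : ℤ)) := hx
  by_cases hz : ∃ z : k, z ≠ 0 ∧ Valued.v z ≤ WithZero.exp (-(n : ℤ))
  · obtain ⟨z, hz0, hzv⟩ := hz
    refine Filter.mem_of_superset (T2.H131.ball_mem_nhds_h131 x z hz0) fun y hy => ?_
    have hy' : Valued.v (y - x) < Valued.v z := hy
    have e : y - c = (y - x) + (x - c) := by ring
    show Valued.v (y - c) ≤ WithZero.exp (-(n : ℤ))
    rw [e]
    exact (Valuation.map_add _ _ _).trans (max_le (hy'.le.trans hzv) hx')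
  · push Not at hz
    refine Filter.mem_of_superset (T2.H131.ball_mem_nhds_h131 x 1 one_ne_zero) fun y hy => ?_
    have hy' : Valued.v (y - x) < Valued.v (1 : k) := hy
    rw [map_one] at hy'
    have hyx : y = x := by
      by_contra hne
      have h0 : y - x ≠ 0 := sub_ne_zero.2 hne
      have h1 : Valued.v (y - x) ≤ WithZero.exp (-1 : ℤ) := by
        have h3 := WithZero.lt_mul_exp_iff_le (x := Valued.v (y - x))
          (y := WithZero.exp (-1 : ℤ)) WithZero.exp_ne_zero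
        rw [← WithZero.exp_add] at h3
        have h4 : WithZero.exp ((-1 : ℤ) + 1) = (1 : T6.Γ₀) := by simp
        rw [h4] at h3
        exact h3.1 hy'
      by_cases hn : n = 0
      · subst hn
        have := hz (y - x) h0
        rw [Nat.cast_zero, neg_zero, WithZero.exp_zero] at this
        exact absurd hy' (not_lt.2 this.le)
      · have h2 : Valued.v ((y - x) ^ n) ≤ WithZero.exp (-(n : ℤ)) := by
          rw [map_pow]
          calc Valued.v (y - x) ^ n ≤ WithZero.exp (-1 : ℤ) ^ n := pow_le_pow_left' h1 n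
            _ = WithZero.exp (-(n : ℤ)) := by
                rw [← WithZero.exp_nsmul]
                congr 1
                rw [nsmul_eq_mul]
                ring
        exact absurd h2 (not_le.2 (hz _ (pow_ne_zero n h0)))
    rw [hyx]
    exact hx

/-- `U(n)` is open in `GL₂(k)`. -/
theorem isOpen_inU16 (n : ℕ) : IsOpen {u : GL (Fin 2) k | T6.InU n u} := by
  have hball : ∀ c : k, IsOpen {x : k | Valued.v (x - c) ≤ WithZero.exp (-(n : ℤ))} :=
    isOpen_cball16 n
  have e : {u : GL (Fin 2) k | T6.InU n u}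
      = ⋂ i : Fin 2, ⋂ j : Fin 2,
        ((fun u : GL (Fin 2) k => (u : Matrix (Fin 2) (Fin 2) k) i j) ⁻¹'
            {x : k | Valued.v (x - (1 : Matrix (Fin 2) (Fin 2) k) i j)
              ≤ WithZero.exp (-(n : ℤ))}) ∩
          ((fun u : GL (Fin 2) k => ((u⁻¹ : GL (Fin 2) k) : Matrix (Fin 2) (Fin 2) k) i j) ⁻¹'
            {x : k | Valued.v (x - (1 : Matrix (Fin 2) (Fin 2) k) i j)
              ≤ WithZero.exp (-(n : ℤ))}) := by
    ext u
    simp only [Set.mem_iInter, Set.mem_inter_iff, Set.mem_preimage]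
    exact Iff.rfl
  rw [e]
  refine isOpen_iInter_of_finite fun i => isOpen_iInter_of_finite fun j => IsOpen.inter ?_ ?_
  · exact (hball _).preimage ((Units.continuous_val).matrix_elem i j)
  · exact (hball _).preimage ((Units.continuous_coe_inv).matrix_elem i j)

theorem inU_one16 (n : ℕ) : T6.InU n (1 : GL (Fin 2) k) := by
  intro i j
  rw [inv_one, Units.val_one, sub_self, map_zero]
  exact ⟨zero_le, zero_le⟩

/-- A function which is right invariant under `U(n)` is continuous. -/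
theorem continuous_of_rightInv16 (n : ℕ) (f : GL (Fin 2) k → ℂ)
    (hf : ∀ g u : GL (Fin 2) k, T6.InU n u → f (g * u) = f g) : Continuous f := by
  rw [continuous_iff_continuousAt]
  intro g
  have hopen : IsOpen ((fun h : GL (Fin 2) k => g⁻¹ * h) ⁻¹' {u | T6.InU n u}) :=
    (isOpen_inU16 n).preimage (continuous_const.mul continuous_id)
  have hmem : g ∈ (fun h : GL (Fin 2) k => g⁻¹ * h) ⁻¹' {u | T6.InU n u} := by
    show T6.InU n (g⁻¹ * g)
    rw [inv_mul_cancel]
    exact inU_one16 n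
  have hev : f =ᶠ[nhds g] fun _ => f g := by
    filter_upwards [hopen.mem_nhds hmem] with h hh
    have e : h = g * (g⁻¹ * h) := by group
    rw [e]
    exact hf g _ hh
  exact (continuousAt_const.congr hev.symm)

end Local

variable (K : Type) [Field K] [NumberField K]

/-- **LEAF FD.10 = BI-INV-CONT of helper558, VERBATIM.** -/
theorem biInvContC558_16 : H558.BiInvContC558 K := by
  intro v n f hf
  refine continuous_of_rightInv16 n f fun g u hu => ?_
  have h := hf 1 u g (inU_one16 n) hu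
  rwa [one_mul] at h

end Fermat.Agent.LT.T7.H16

end

end
-- ===== PACK-END LT/T7/H16/BiInvCont.lean

-- ===== PACK-BEGIN LT/T7/H999/EnumCore.lean
section



/-!
# Row LT, tower T7: ENUMERATION OF THE PLACES OVER A SPLIT PLACE, GENERAL FORM (helper999)

OFF-MAIN.  Complete proof, nothing assumed.  ADDITIVE (new names only, suffix `999`).

    exists_enum999 : IsCompData D → IsCycExt K K' D.l →
        (two different places of `K'` over `v`) →
        ∃ w i, (w j over v) ∧ (w j = σ(w (j+1))) ∧ (w j ≠ w 0 for 0 < j < l) ∧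
          (i j : K_v ≃ K'_{w j} extends K → K') ∧ (i j preserves the valuation)

NO hypothesis of non-ramification: `e f g = l`, `g ≥ 2`, `l` prime gives `e = f = 1`
(`split_ram_inertia999`), and `e = 1` gives an element of `v` which is not in `w²`.  Serves
`H311.EnumExistsC311` (cubic step) and `FUQ514.SplitEnumExQC514` (quadratic step over `ℚ`).
-/

set_option autoImplicit false
set_option linter.deprecated false
set_option linter.style.haveILetI false
set_option linter.unusedVariables false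
set_option linter.unusedSectionVars false

open AutomorphicForm IsDedekindDomain NumberField

namespace Fermat.Agent.LT.T7.H999

open Fermat.Agent.LT.H556 Fermat.Agent.LT.H556.A0 Fermat.Agent.LT.T7 Fermat.Agent.LT.T7.H305

variable {K K' : Type} [Field K] [NumberField K] [Field K'] [NumberField K'] [Algebra K K']

/-- The inverse of the generator fixes `K`. -/
theorem sigma_symm_algebraMapG999 {D : CompData K K'} (hD : IsCompData D) (x : K) :
    D.s.σ.symm (algebraMap K K' x) = algebraMap K K' x := by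
  rw [RingEquiv.symm_apply_eq, sigma_algebraMap999 hD]

/-- The places `σ⁻ʲ(w)` are over `v`. -/
theorem placeOver_iterate_symmG999 {D : CompData K K'} (hD : IsCompData D)
    {v : HeightOneSpectrum (𝓞 K)} {w : HeightOneSpectrum (𝓞 K')} (h : PlaceOver K K' v w)
    (j : ℕ) : PlaceOver K K' v ((sigPlace999 D.s.σ.symm)^[j] w) := by
  induction j with
  | zero => exact h
  | succ j ih =>
    rw [Function.iterate_succ_apply']
    exact placeOver_sigPlace999 D.s.σ.symm (sigma_symm_algebraMapG999 hD) ih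

/-- `σʲ(σ⁻ʲ(w)) = w`. -/
theorem iterate_sig_iterate_symmG999 (σ : K' ≃+* K') (w : HeightOneSpectrum (𝓞 K')) (j : ℕ) :
    (sigPlace999 σ)^[j] ((sigPlace999 σ.symm)^[j] w) = w := by
  have hl : Function.LeftInverse (sigPlace999 σ) (sigPlace999 σ.symm) :=
    fun w' => sigPlace_symm999 σ w'
  exact (hl.iterate j) w

/-- A power of the generator with exponent `0 < j < l` which fixes a place over `v` forces ONE
place over `v`. -/
theorem eq_of_iterate_fixedG999 (D : CompData K K') (hD : IsCompData D)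
    (hcyc : IsCycExt K K' D.l) {v : HeightOneSpectrum (𝓞 K)}
    {w w' : HeightOneSpectrum (𝓞 K')} (h : PlaceOver K K' v w) (h' : PlaceOver K K' v w')
    (j : ℕ) (hj0 : 0 < j) (hjl : j < D.l) (hfix : (sigPlace999 D.s.σ)^[j] w = w) :
    w' = w := by
  haveI := hcyc.galois
  haveI := liesOver_of_placeOver999 h
  haveI := liesOver_of_placeOver999 h'
  haveI : Fact D.l.Prime := ⟨hcyc.prime⟩
  have hmax : v.asIdeal.IsMaximal := v.isMaximal
  set t : K' ≃ₐ[K] K' := galGen999 D hD ^ j with ht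
  have hne : t ≠ 1 := by
    intro h1
    obtain ⟨x, hx⟩ := hD.cyc.faithful j hj0 hjl
    apply hx
    have h2 := congrArg (fun u : K' ≃ₐ[K] K' => u x) h1
    have h3 : ∀ (n : ℕ) (y : K'), (galGen999 D hD ^ n) y = (D.s.σ ^ n) y := by
      intro n
      induction n with
      | zero => intro y; rfl
      | succ n ih =>
        intro y
        rw [pow_succ, pow_succ]
        show (galGen999 D hD ^ n) (galGen999 D hD y) = (D.s.σ ^ n) (D.s.σ y)
        rw [ih]
        rfl
    have h4 : t x = x := h2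
    rw [ht, h3] at h4
    exact h4
  have htw : sigPlace999 (t : K' ≃+* K') w = w := by
    rw [ht, sigPlace_pow999, galGen_coe999]
    exact hfix
  have hcard : Nat.card (K' ≃ₐ[K] K') = D.l := by
    rw [IsGalois.card_aut_eq_finrank K K', hcyc.degree]
  obtain ⟨g, hg⟩ := Ideal.exists_smul_eq_of_isGaloisGroup v.asIdeal w.asIdeal w'.asIdeal
    (K' ≃ₐ[K] K')
  have hgt : g ∈ Subgroup.zpowers t := mem_zpowers_of_prime_card hcard hne
  rw [← mem_powers_iff_mem_zpowers] at hgt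
  obtain ⟨n, rfl⟩ := hgt
  have h1 : w' = sigPlace999 ((t ^ n : K' ≃ₐ[K] K') : K' ≃+* K') w :=
    HeightOneSpectrum.ext hg.symm
  rw [h1, sigPlace_pow999]
  exact Function.iterate_fixed htw n

/-- At a split place of a Galois extension of prime degree the completions are isomorphic
(no hypothesis of non-ramification). -/
theorem exists_iso_of_split999 [IsGalois K K'] (hl : (Module.finrank K K').Prime)
    (v : HeightOneSpectrum (𝓞 K)) (w w' : HeightOneSpectrum (𝓞 K'))
    (hw : PlaceOver K K' v w) (hw' : PlaceOver K K' v w') (hne : w ≠ w') :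
    ∃ i : v.adicCompletion K ≃+* w.adicCompletion K',
      (∀ x : K, i (algebraMap K (v.adicCompletion K) x)
        = algebraMap K' (w.adicCompletion K') (algebraMap K K' x)) ∧
      ∀ x : v.adicCompletion K, Valued.v (i x) = Valued.v x := by
  haveI := liesOver_of_placeOver999 hw
  haveI := liesOver_of_placeOver999 hw'
  obtain ⟨h1, h2⟩ := split_ram_inertia999 hl v w w' hne
  have hvw := mem_iff_of_liesOver999 v w
  have hN : Ideal.absNorm w.asIdeal = Ideal.absNorm v.asIdeal := by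
    rw [T6.H267.absNorm_eq_pow_inertia v w, h2, pow_one]
  have hπ : ∃ x : 𝓞 K, x ∈ v.asIdeal ∧ algebraMap (𝓞 K) (𝓞 K') x ∉ w.asIdeal ^ 2 := by
    by_contra hcon
    push Not at hcon
    have hle : Ideal.map (algebraMap (𝓞 K) (𝓞 K')) v.asIdeal ≤ w.asIdeal := by
      rw [Ideal.map_le_iff_le_comap]
      intro x hx
      exact (hvw x).1 hx
    have hle2 : Ideal.map (algebraMap (𝓞 K) (𝓞 K')) v.asIdeal ≤ w.asIdeal ^ 2 := by
      rw [Ideal.map_le_iff_le_comap]
      intro x hx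
      exact hcon x hx
    exact (Ideal.ramificationIdx'_ne_one_iff hle).2 hle2 h1
  exact T6.H116.instSplitC_h116 K K' v w hvw hN hπ

/-- **THE ENUMERATION OF THE PLACES OVER A SPLIT PLACE**, general form. -/
theorem exists_enum999 (D : CompData K K') (hD : IsCompData D) (hcyc : IsCycExt K K' D.l)
    (v : HeightOneSpectrum (𝓞 K))
    (hex : ∃ w₁ w₂ : HeightOneSpectrum (𝓞 K'),
      PlaceOver K K' v w₁ ∧ PlaceOver K K' v w₂ ∧ w₁ ≠ w₂) :
    ∃ (w : ℕ → HeightOneSpectrum (𝓞 K'))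
      (i : ∀ j : ℕ, v.adicCompletion K ≃+* (w j).adicCompletion K'),
      (∀ j : ℕ, PlaceOver K K' v (w j)) ∧ (∀ j : ℕ, T5.PlaceRel D.s (w (j + 1)) (w j)) ∧
      (∀ j : ℕ, 0 < j → j < D.l → w j ≠ w 0) ∧
      (∀ (j : ℕ) (x : K), i j (algebraMap K (v.adicCompletion K) x)
        = algebraMap K' ((w j).adicCompletion K') (algebraMap K K' x)) ∧
      (∀ (j : ℕ) (x : v.adicCompletion K), Valued.v (i j x) = Valued.v x) := by
  obtain ⟨w₁, w₂, hw₁, hw₂, hne⟩ := hex
  haveI := hcyc.galois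
  have hprime : (Module.finrank K K').Prime := by
    rw [hcyc.degree]
    exact hcyc.prime
  have hover : ∀ j : ℕ, PlaceOver K K' v ((sigPlace999 D.s.σ.symm)^[j] w₁) :=
    fun j => placeOver_iterate_symmG999 hD hw₁ j
  have hiso : ∀ w : HeightOneSpectrum (𝓞 K'), PlaceOver K K' v w →
      ∃ i : v.adicCompletion K ≃+* w.adicCompletion K',
        (∀ x : K, i (algebraMap K (v.adicCompletion K) x)
          = algebraMap K' (w.adicCompletion K') (algebraMap K K' x)) ∧
        ∀ x : v.adicCompletion K, Valued.v (i x) = Valued.v x := by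
    intro w hw
    obtain ⟨w', hw', hww'⟩ : ∃ w' : HeightOneSpectrum (𝓞 K'), PlaceOver K K' v w' ∧ w ≠ w' := by
      by_cases h : w = w₁
      · exact ⟨w₂, hw₂, by rw [h]; exact hne⟩
      · exact ⟨w₁, hw₁, h⟩
    exact exists_iso_of_split999 hprime v w w' hw hw' hww'
  choose i hi hiv using fun j : ℕ => hiso _ (hover j)
  refine ⟨fun j => (sigPlace999 D.s.σ.symm)^[j] w₁, i, hover, ?_, ?_, hi, hiv⟩
  · intro j
    have h : sigPlace999 D.s.σ ((sigPlace999 D.s.σ.symm)^[j + 1] w₁)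
        = (sigPlace999 D.s.σ.symm)^[j] w₁ := by
      rw [Function.iterate_succ_apply']
      exact sigPlace_symm999 _ _
    have h0 := placeRel_sigPlace999 D.s ((sigPlace999 D.s.σ.symm)^[j + 1] w₁)
    rw [h] at h0
    exact h0
  · intro j hj0 hjl heq
    have heq' : (sigPlace999 D.s.σ.symm)^[j] w₁ = w₁ := heq
    have hfix : (sigPlace999 D.s.σ)^[j] w₁ = w₁ := by
      have := iterate_sig_iterate_symmG999 D.s.σ w₁ j
      rw [heq'] at this
      exact this
    exact hne (eq_of_iterate_fixedG999 D hD hcyc hw₁ hw₂ j hj0 hjl hfix).symm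

end Fermat.Agent.LT.T7.H999

end
-- ===== PACK-END LT/T7/H999/EnumCore.lean

-- ===== PACK-BEGIN LT/T7/H736/Core/Ops.lean
section



/-!
# Row LT, tower T7, node T7.L2.2.B4 `OpsC561`: THE CUT IN CORE FORM (over `K'` alone)

OFF-MAIN.  Definitions, frozen Props, PROVED top and PROVED bridges.  No hole, nothing assumed.
ADDITIVE (new names only: namespace `Fermat.Agent.LT.T7.CU736`).

MECHANICAL RETYPING (helper736) of `T7/H561/OpsSpec.lean` (helper561, 17293f38) onto
`H29.UpData K'` / `H29.IsUpData`; see the header of `T7/H736/Core/Blocks.lean` for the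
substitution.  `IsSetup561 ℓ Φ U` = `ℓ.Prime`, `TotCplx K'`, `IsCuspAdelicSph0 K' Φ`,
`IsUpData ℓ Φ U`.

    opsC_of561 : IwSysExistsC561 K' → OpsEigC561 K' → OpsRelC561 K' → OpsCommC561 K'
                   → OpsPerC561 K' → OpsAdjC561 K' → OpsSigC561 K' → OpsLinkC561 K'
                   → BadOpC561 K' → OpsC561 K'                       (PROVED, core form)
    …_of_core   : CU736.X K' → H561.X K K'   for each of the 9 leaves  (PROVED bridges)
-/

set_option autoImplicit false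

open AutomorphicForm IsDedekindDomain NumberField MeasureTheory
open scoped ComplexConjugate Matrix

noncomputable section

namespace Fermat.Agent.LT.T7.CU736

open Fermat.Agent.LT.H556 Fermat.Agent.LT.H556.A0 Fermat.Agent.LT.T7

attribute [local instance] Fermat.Agent.LT.T5.instMeasurableSpaceG

section Ops

variable {K' : Type} [Field K'] [NumberField K']

/-- The hypotheses of the core node on the data. -/
structure IsSetup561 (ℓ : ℕ) (Φ : HeckeEigensystem K' ℂ) (U : H29.UpData K') : Prop where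
  prime : ℓ.Prime
  cplx : TotCplx K'
  cusp : A0.IsCuspAdelicSph0 K' Φ
  data : H29.IsUpData ℓ Φ U

/-- **The explicit systems along the orbit.** -/
structure IsIwSys561 (U : H29.UpData K') (Hs : ℕ → Finset (G K')) (ω : ℕ → G K') : Prop where
  ω_local : ∀ j, IsLocalAtFin (U.o j) (ω j)
  ω_comp : ∀ j, ∃ c : (U.o j).adicCompletion K', Valued.v c = WithZero.exp (-1 : ℤ) ∧
    finComp (U.o j) (ω j) = !![0, 1; c, 0]
  Hs_card : ∀ j, (Hs j).card = Ideal.absNorm (U.o j).asIdeal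
  Hs_local : ∀ j, ∀ h ∈ Hs j, IsLocalAtFin (U.o j) h
  Hs_comp : ∀ j, ∀ h ∈ Hs j, ∃ a : (U.o j).adicCompletion K',
    a ∈ (U.o j).adicCompletionIntegers K' ∧ finComp (U.o j) h = !![a, 1; 1, 0]
  Hs_inj : ∀ j, ∀ h ∈ Hs j, ∀ h' ∈ Hs j, h ≠ h' → ¬ T5.InIwahori (U.o j) (h⁻¹ * h')

variable (K')

/-- **LEAF B4.1 = IW-SYS-EXISTS.**  Uniformisers exist, the residue field has `N w` elements
with integral representatives, an adele with one prescribed component (an idele for an
invertible matrix) exists. -/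
def IwSysExistsC561 : Prop :=
  ∀ (ℓ : ℕ) (Φ : HeckeEigensystem K' ℂ) (U : H29.UpData K'), IsSetup561 ℓ Φ U →
    ∃ (Hs : ℕ → Finset (G K')) (ω : ℕ → G K'), IsIwSys561 U Hs ω

/-- **LEAF B4.2 = OPS-EIG.**  `S_j` and `ρ_j` preserve the classes.
Proof.  A finite sum of right translations by elements supported at finite places preserves
continuity, boundedness, the left invariance, the vanishing of the constant term, the
`K_∞`-type, the invariance under the ray generator and the positive scalars at infinity; the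
elements commute with the Hecke coset systems at `v ∉ S'` (`orbit_level`: `o j ∈ S'`) and with
the spheres at infinity (sums and integrals commute: continuous integrands).  Level `𝔑₀` and
Iwahori invariance: for `u` in the level group, resp. in the Iwahori subgroups along the orbit,
`u h = h' u'` with `h ↦ h'` a permutation of `Hs j` (`I s I = ⨆ h I`; the level group at `o j` is
contained in `I` and normal in `GL₂(𝒪)`; `ω` normalises `I`). -/
def OpsEigC561 : Prop :=
  ∀ (ℓ : ℕ) (Φ : HeckeEigensystem K' ℂ) (U : H29.UpData K'), IsSetup561 ℓ Φ U →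
    ∀ (Hs : ℕ → Finset (G K')) (ω : ℕ → G K'), IsIwSys561 U Hs ω →
      ∀ (j : ℕ) (ψ : G K' → ℂ) (C : EigData K'), IsEigFn U.𝔑₀ U.R'.r ℓ U.o ψ C →
        IsEigFn U.𝔑₀ U.R'.r ℓ U.o (cosetOp (Hs j) ψ) C ∧
        IsEigFn U.𝔑₀ U.R'.r ℓ U.o (H561.trOp561 (ω j) ψ) C

/-- **LEAF B4.3 = OPS-REL.**  `S_j² = (q-1) S_j + q` and `ρ_j² S_j = S_j ρ_j²` on `W`
(`q = N (o 0) = N (o j)`: `orbit_rel`).
Proof.  `!![a,1;1,0] !![b,1;1,0] = !![ab+1, a; b, 1]`: in `I` iff `b ∈ 𝔭`, i.e. for ONE `b`;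
otherwise in `!![c,1;1,0] I` with `c = a + b⁻¹`, each `c ≠ a` once.  `ω² = ϖ` is central. -/
def OpsRelC561 : Prop :=
  ∀ (ℓ : ℕ) (Φ : HeckeEigensystem K' ℂ) (U : H29.UpData K'), IsSetup561 ℓ Φ U →
    ∀ (Hs : ℕ → Finset (G K')) (ω : ℕ → G K'), IsIwSys561 U Hs ω →
      ∀ (j : ℕ) (ψ : G K' → ℂ), IsWFn U.𝔑₀ U.R'.r ℓ U.o ψ → ∀ x : G K',
        cosetOp (Hs j) (cosetOp (Hs j) ψ) x
          = (((Ideal.absNorm (U.o 0).asIdeal : ℕ) : ℂ) - 1) * cosetOp (Hs j) ψ x
            + ((Ideal.absNorm (U.o 0).asIdeal : ℕ) : ℂ) * ψ x ∧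
        H561.trOp561 (ω j) (H561.trOp561 (ω j) (cosetOp (Hs j) ψ)) x
          = cosetOp (Hs j) (H561.trOp561 (ω j) (H561.trOp561 (ω j) ψ)) x

/-- **LEAF B4.4 = OPS-COMM.**  The operators at two different places of the orbit commute
(`o j ≠ o j'` for `j ≠ j' < ℓ`: `orbit_ne`, `orbit_rel`; elements supported at different places
commute). -/
def OpsCommC561 : Prop :=
  ∀ (ℓ : ℕ) (Φ : HeckeEigensystem K' ℂ) (U : H29.UpData K'), IsSetup561 ℓ Φ U →
    ∀ (Hs : ℕ → Finset (G K')) (ω : ℕ → G K'), IsIwSys561 U Hs ω →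
      ∀ j j' : ℕ, j < ℓ → j' < ℓ → j ≠ j' → ∀ (ψ : G K' → ℂ) (x : G K'),
        cosetOp (Hs j) (cosetOp (Hs j') ψ) x = cosetOp (Hs j') (cosetOp (Hs j) ψ) x ∧
        cosetOp (Hs j) (H561.trOp561 (ω j') ψ) x = H561.trOp561 (ω j') (cosetOp (Hs j) ψ) x ∧
        H561.trOp561 (ω j) (H561.trOp561 (ω j') ψ) x = H561.trOp561 (ω j') (H561.trOp561 (ω j) ψ) x

/-- **LEAF B4.5 = OPS-PER.**  `o (j + ℓ) = o j` (`σ^ℓ = 1`, asset helper415) and two systems at
the same place define the same operators on `W`. -/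
def OpsPerC561 : Prop :=
  ∀ (ℓ : ℕ) (Φ : HeckeEigensystem K' ℂ) (U : H29.UpData K'), IsSetup561 ℓ Φ U →
    ∀ (Hs : ℕ → Finset (G K')) (ω : ℕ → G K'), IsIwSys561 U Hs ω →
      ∀ (j : ℕ) (ψ : G K' → ℂ), IsWFn U.𝔑₀ U.R'.r ℓ U.o ψ → ∀ x : G K',
        cosetOp (Hs (j + ℓ)) ψ x = cosetOp (Hs j) ψ x ∧
        H561.trOp561 (ω (j + ℓ)) ψ x = H561.trOp561 (ω j) ψ x

/-- **LEAF B4.6 = OPS-ADJ.**  `S_j` is symmetric and `ρ_j` is an isometry on `W`.
Proof.  `⟨R(h) ψ, R(h) χ⟩ = ⟨ψ, χ⟩` for automorphic functions invariant under the ray generator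
(T2 `OpsAdjT`: `F h` is a fundamental domain of a translate of the slab, cut and move by powers
of `r`).  `⟨R(h_a) ψ, χ⟩ = ⟨ψ, R(h_a⁻¹) χ⟩`, `h_a⁻¹ = s x_{-a}`, `R(h_a⁻¹) χ = R(s) χ` on `W`;
`⟨ψ, R(s) χ⟩ = ⟨R(x_b⁻¹) ψ, R(s) χ⟩ = ⟨ψ, R(x_b s) χ⟩` for every `b`: `q ⟨ψ, R(s) χ⟩ = ⟨ψ, S χ⟩`. -/
def OpsAdjC561 : Prop :=
  ∀ (ℓ : ℕ) (Φ : HeckeEigensystem K' ℂ) (U : H29.UpData K'), IsSetup561 ℓ Φ U →
    ∀ (Hs : ℕ → Finset (G K')) (ω : ℕ → G K'), IsIwSys561 U Hs ω →
      ∀ (j : ℕ) (ψ χ : G K' → ℂ), IsWFn U.𝔑₀ U.R'.r ℓ U.o ψ →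
        IsWFn U.𝔑₀ U.R'.r ℓ U.o χ →
        T5.innerD U.R'.μ U.R'.F (cosetOp (Hs j) ψ) χ
          = T5.innerD U.R'.μ U.R'.F ψ (cosetOp (Hs j) χ) ∧
        T5.innerD U.R'.μ U.R'.F (H561.trOp561 (ω j) ψ) (H561.trOp561 (ω j) χ)
          = T5.innerD U.R'.μ U.R'.F ψ χ

/-- **LEAF B4.7 = OPS-SIGMA.**  `R(σ) S_j = S_{j+1} R(σ)`, `R(σ) ρ_j = ρ_{j+1} R(σ)` on `W`.
Proof.  `R(σ) R(h) = R(σ h) R(σ)`; `σ (Hs j)`, `σ (ω j)` is a system at `o (j+1)` up to the
Iwahori subgroup (asset helper415: `valued_onG415`, `inIwahori_onG415`, locality); `R(σ) ψ ∈ W`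
(`BaseStable561`); two systems at the same place define the same operators on `W`. -/
def OpsSigC561 : Prop :=
  ∀ (ℓ : ℕ) (Φ : HeckeEigensystem K' ℂ) (U : H29.UpData K'), IsSetup561 ℓ Φ U →
    BaseStable561 U →
    ∀ (Hs : ℕ → Finset (G K')) (ω : ℕ → G K'), IsIwSys561 U Hs ω →
      ∀ (j : ℕ) (ψ : G K' → ℂ), IsWFn U.𝔑₀ U.R'.r ℓ U.o ψ → ∀ x : G K',
        T5.Rsig U.s (cosetOp (Hs j) ψ) x = cosetOp (Hs (j + 1)) (T5.Rsig U.s ψ) x ∧
        T5.Rsig U.s (H561.trOp561 (ω j) ψ) x = H561.trOp561 (ω (j + 1)) (T5.Rsig U.s ψ) x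

/-- **LEAF B4.8 = OPS-LINK.**  `!![a,1;1,0] !![0,1;ϖ,0] = !![ϖ,a;0,1] = !![1,a;0,1] !![ϖ,0;0,1]`
is in `I t I`; `ω² = ϖ`. -/
def OpsLinkC561 : Prop :=
  ∀ (ℓ : ℕ) (Φ : HeckeEigensystem K' ℂ) (U : H29.UpData K'), IsSetup561 ℓ Φ U →
    ∀ (Hs : ℕ → Finset (G K')) (ω : ℕ → G K'), IsIwSys561 U Hs ω →
      IsIwCosetSystem (U.o 0) ((Hs 0).map (mulRightEmbedding (ω 0))) ∧
      IsScalarUniformizerAt (U.o 0) (ω 0 * ω 0)

/-- **LEAF B4.9 = BAD-OP.**  The Hecke operator of a bad element: a finite system of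
representatives of `U g U / U` exists (`U = U(𝔑₀)` is compact open in the finite adelic group,
`g` is trivial at infinity), the operator preserves the classes (as in B4.2: `g` is supported at
the places of `S'` outside the orbit) and commutes with the operators along the orbit
(`u h = h' u'` with `u` in the Iwahori subgroups along the orbit, which normalise the level
group). -/
def BadOpC561 : Prop :=
  ∀ (ℓ : ℕ) (Φ : HeckeEigensystem K' ℂ) (U : H29.UpData K'), IsSetup561 ℓ Φ U →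
    ∀ g : G K', U.IsBad g →
      ∃ Hg : Finset (G K'), IsDblCosetSystem U.𝔑₀ g Hg ∧
        (∀ (ψ : G K' → ℂ) (C : EigData K'), IsEigFn U.𝔑₀ U.R'.r ℓ U.o ψ C →
          IsEigFn U.𝔑₀ U.R'.r ℓ U.o (cosetOp Hg ψ) C) ∧
        ∀ (Hs : ℕ → Finset (G K')) (ω : ℕ → G K'), IsIwSys561 U Hs ω →
          ∀ (j : ℕ) (ψ : G K' → ℂ), IsWFn U.𝔑₀ U.R'.r ℓ U.o ψ → ∀ x : G K',
            cosetOp Hg (cosetOp (Hs j) ψ) x = cosetOp (Hs j) (cosetOp Hg ψ) x ∧
            cosetOp Hg (H561.trOp561 (ω j) ψ) x = H561.trOp561 (ω j) (cosetOp Hg ψ) x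

variable {K'}

/-- **THE TOP OF THE NODE T7.L2.2.B4.** -/
theorem opsC_of561 (hX : IwSysExistsC561 K') (hE : OpsEigC561 K') (hR : OpsRelC561 K')
    (hM : OpsCommC561 K') (hP : OpsPerC561 K') (hA : OpsAdjC561 K')
    (hS : OpsSigC561 K') (hL : OpsLinkC561 K') (hB : BadOpC561 K') : OpsC561 K' := by
  intro ℓ hℓ hcplx Φ hΦ U hU hst g hg
  have hs : IsSetup561 ℓ Φ U := ⟨hℓ, hcplx, hΦ, hU⟩
  obtain ⟨Hs, ω, hsys⟩ := hX ℓ Φ U hs
  obtain ⟨Hg, hdbl, hBe, hBc⟩ := hB ℓ Φ U hs g hg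
  refine ⟨Hs, ω, Hg, ?_⟩
  exact
    { S_eig := fun j ψ C h => (hE ℓ Φ U hs Hs ω hsys j ψ C h).1
      ρ_eig := fun j ψ C h => (hE ℓ Φ U hs Hs ω hsys j ψ C h).2
      B_eig := hBe
      S_quad := fun j ψ h x => (hR ℓ Φ U hs Hs ω hsys j ψ h x).1
      ρ_central := fun j ψ h x => (hR ℓ Φ U hs Hs ω hsys j ψ h x).2
      comm_SS := fun j j' h1 h2 h3 ψ _ x => (hM ℓ Φ U hs Hs ω hsys j j' h1 h2 h3 ψ x).1
      comm_Sρ := fun j j' h1 h2 h3 ψ _ x => (hM ℓ Φ U hs Hs ω hsys j j' h1 h2 h3 ψ x).2.1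
      comm_ρρ := fun j j' h1 h2 h3 ψ _ x => (hM ℓ Φ U hs Hs ω hsys j j' h1 h2 h3 ψ x).2.2
      per_S := fun j ψ h x => (hP ℓ Φ U hs Hs ω hsys j ψ h x).1
      per_ρ := fun j ψ h x => (hP ℓ Φ U hs Hs ω hsys j ψ h x).2
      B_S := fun j ψ h x => (hBc Hs ω hsys j ψ h x).1
      B_ρ := fun j ψ h x => (hBc Hs ω hsys j ψ h x).2
      S_adj := fun j ψ χ h1 h2 => (hA ℓ Φ U hs Hs ω hsys j ψ χ h1 h2).1
      ρ_iso := fun j ψ χ h1 h2 => (hA ℓ Φ U hs Hs ω hsys j ψ χ h1 h2).2
      σ_S := fun j ψ h x => (hS ℓ Φ U hs hst Hs ω hsys j ψ h x).1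
      σ_ρ := fun j ψ h x => (hS ℓ Φ U hs hst Hs ω hsys j ψ h x).2
      dbl := hdbl
      iwsys := (hL ℓ Φ U hs Hs ω hsys).1
      unif := (hL ℓ Φ U hs Hs ω hsys).2 }

end Ops

/-! ## Bridges: every core leaf implies the leaf of helper561 (cyclic step) -/

section Bridges

variable {K K' : Type} [Field K] [NumberField K] [Field K'] [NumberField K'] [Algebra K K']

theorem isSetup_to_core {ℓ : ℕ} {Φ : HeckeEigensystem K' ℂ} {Dt : L2Data K K'}
    (h : H561.IsSetup561 ℓ Φ Dt) : IsSetup561 ℓ Φ (H29.upOf Dt) where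
  prime := h.cyc.prime
  cplx := H29.totCplx_of_base h.cplx
  cusp := h.cusp
  data := H29.isUpData_upOf h.data

theorem isIwSys_of_core {Dt : L2Data K K'} {Hs : ℕ → Finset (G K')} {ω : ℕ → G K'}
    (h : IsIwSys561 (H29.upOf Dt) Hs ω) : H561.IsIwSys561 Dt Hs ω where
  ω_local := h.ω_local
  ω_comp := h.ω_comp
  Hs_card := h.Hs_card
  Hs_local := h.Hs_local
  Hs_comp := h.Hs_comp
  Hs_inj := h.Hs_inj

theorem isIwSys_to_core {Dt : L2Data K K'} {Hs : ℕ → Finset (G K')} {ω : ℕ → G K'}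
    (h : H561.IsIwSys561 Dt Hs ω) : IsIwSys561 (H29.upOf Dt) Hs ω where
  ω_local := h.ω_local
  ω_comp := h.ω_comp
  Hs_card := h.Hs_card
  Hs_local := h.Hs_local
  Hs_comp := h.Hs_comp
  Hs_inj := h.Hs_inj

theorem iwSysExistsC_of_core (hC : IwSysExistsC561 K') : H561.IwSysExistsC561 K K' := by
  intro ℓ Φ Dt hs
  obtain ⟨Hs, ω, h⟩ := hC ℓ Φ (H29.upOf Dt) (isSetup_to_core hs)
  exact ⟨Hs, ω, isIwSys_of_core h⟩

theorem opsEigC_of_core (hC : OpsEigC561 K') : H561.OpsEigC561 K K' :=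
  fun ℓ Φ Dt hs Hs ω hsys => hC ℓ Φ (H29.upOf Dt) (isSetup_to_core hs) Hs ω (isIwSys_to_core hsys)

theorem opsRelC_of_core (hC : OpsRelC561 K') : H561.OpsRelC561 K K' :=
  fun ℓ Φ Dt hs Hs ω hsys => hC ℓ Φ (H29.upOf Dt) (isSetup_to_core hs) Hs ω (isIwSys_to_core hsys)

theorem opsCommC_of_core (hC : OpsCommC561 K') : H561.OpsCommC561 K K' :=
  fun ℓ Φ Dt hs Hs ω hsys => hC ℓ Φ (H29.upOf Dt) (isSetup_to_core hs) Hs ω (isIwSys_to_core hsys)

theorem opsPerC_of_core (hC : OpsPerC561 K') : H561.OpsPerC561 K K' :=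
  fun ℓ Φ Dt hs Hs ω hsys => hC ℓ Φ (H29.upOf Dt) (isSetup_to_core hs) Hs ω (isIwSys_to_core hsys)

theorem opsAdjC_of_core (hC : OpsAdjC561 K') : H561.OpsAdjC561 K K' :=
  fun ℓ Φ Dt hs Hs ω hsys => hC ℓ Φ (H29.upOf Dt) (isSetup_to_core hs) Hs ω (isIwSys_to_core hsys)

theorem opsSigC_of_core (hC : OpsSigC561 K') : H561.OpsSigC561 K K' :=
  fun ℓ Φ Dt hs hst Hs ω hsys =>
    hC ℓ Φ (H29.upOf Dt) (isSetup_to_core hs) hst Hs ω (isIwSys_to_core hsys)

theorem opsLinkC_of_core (hC : OpsLinkC561 K') : H561.OpsLinkC561 K K' :=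
  fun ℓ Φ Dt hs Hs ω hsys => hC ℓ Φ (H29.upOf Dt) (isSetup_to_core hs) Hs ω (isIwSys_to_core hsys)

theorem badOpC_of_core (hC : BadOpC561 K') : H561.BadOpC561 K K' := by
  intro ℓ Φ Dt hs g hg
  obtain ⟨Hg, hdbl, hB, hcomm⟩ := hC ℓ Φ (H29.upOf Dt) (isSetup_to_core hs) g hg
  exact ⟨Hg, hdbl, hB, fun Hs ω hsys => hcomm Hs ω (isIwSys_to_core hsys)⟩

end Bridges

/-! ## Appendix: the equation lemmas of the definitions of this file are realised HERE -/

theorem eqns_realised_coreOps736 : True := by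
  have _a1 := @IwSysExistsC561.eq_1
  have _a2 := @IwSysExistsC561.eq_def
  have _a3 := @IwSysExistsC561.eq_unfold
  have _b1 := @OpsEigC561.eq_1
  have _b2 := @OpsEigC561.eq_def
  have _b3 := @OpsEigC561.eq_unfold
  have _c1 := @OpsRelC561.eq_1
  have _c2 := @OpsRelC561.eq_def
  have _c3 := @OpsRelC561.eq_unfold
  have _d1 := @OpsCommC561.eq_1
  have _d2 := @OpsCommC561.eq_def
  have _d3 := @OpsCommC561.eq_unfold
  have _e1 := @OpsPerC561.eq_1
  have _e2 := @OpsPerC561.eq_def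
  have _e3 := @OpsPerC561.eq_unfold
  have _f1 := @OpsAdjC561.eq_1
  have _f2 := @OpsAdjC561.eq_def
  have _f3 := @OpsAdjC561.eq_unfold
  have _g1 := @OpsSigC561.eq_1
  have _g2 := @OpsSigC561.eq_def
  have _g3 := @OpsSigC561.eq_unfold
  have _h1 := @OpsLinkC561.eq_1
  have _h2 := @OpsLinkC561.eq_def
  have _h3 := @OpsLinkC561.eq_unfold
  have _i1 := @BadOpC561.eq_1
  have _i2 := @BadOpC561.eq_def
  have _i3 := @BadOpC561.eq_unfold
  trivial

end Fermat.Agent.LT.T7.CU736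

end

end
-- ===== PACK-END LT/T7/H736/Core/Ops.lean

-- ===== PACK-BEGIN LT/T7/H439/OpsClass.lean
section






/-!
# Row LT, tower T7, leaf T7.L2.3.5.3 `SD534.OpsClassC` (helper439, OFF-MAIN, spare of row 2181)

VERBATIM vs `T7/H534/DownBasisSpec.lean` (helper534@b2ea72787), unconditional.

`Z^k = shiftOp z k` and `𝒰 = iwOp u H` at a place `u ∣ 𝔫` map a member of `W` with eigen-data `c`
to a member of `W` with eigen-data `c`, and commute.

* `IsPre439` = every condition of `IsEigFn` except the invariance under `U(𝔫)` and under the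
  Iwahori subgroup: stable under the right translations by the elements SUPPORTED AT `u`
  (`IsPre439.translate`: such an element commutes with the ray generator, the compact groups and
  the positive scalars at infinity, the Hecke coset systems and the scalar uniformisers at
  `v ∤ 𝔫`, the spheres at infinity), under sums and scalar multiples (assets of helper863,
  helper886).
* the invariance under `U(𝔫)` of `𝒰 ψ`: `k = k_u k'`, `k_u` in the Iwahori subgroup (`u ∣ 𝔫`,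
  `ic_lt_one439`), `k'` in `U(𝔫)` trivial at `u`; left multiplication by `k_u` permutes the coset
  system modulo `I` (kit of helper340: `iwSum_indep340`, `isIwCosetSystem_translate340`);
* `z` is central.
-/

set_option autoImplicit false
set_option linter.unusedSectionVars false

open AutomorphicForm IsDedekindDomain NumberField MeasureTheory
open scoped ComplexConjugate
open Fermat.Agent.LT.H556 Fermat.Agent.LT.H556.A0 Fermat.Agent.LT.H129

noncomputable section

namespace Fermat.Agent.LT.T7.H439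

open Fermat.Agent.LT Fermat.Agent.LT.T7 Fermat.Agent.LT.T7.SD534 Fermat.Agent.LT.T7.H340

variable {K : Type} [Field K] [NumberField K]

/-- Every condition of `IsEigFn` except the invariance under `U(𝔫)` and under the Iwahori
subgroups. -/
structure IsPre439 (𝔫 : Ideal (𝓞 K)) (r : G K) (c : EigData K) (ψ : G K → ℂ) : Prop where
  cont : Continuous ψ
  bdd : ∃ C : ℝ, ∀ g : G K, ‖ψ g‖ ≤ C
  left_inv : ∀ (γ : GL (Fin 2) K) (g : G K), ψ (T5.ratG γ * g) = ψ g
  arch_compact : ∀ (w : InfinitePlace K) (k : G K), IsArchCompact w k →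
    ∀ g : G K, ψ (g * k) = ψ g
  ray : ∀ g : G K, ψ (g * r) = ψ g
  cuspidal : IsCuspidalFn ψ
  arch_scalar : ∀ (w : InfinitePlace K) (z : G K), IsArchPosScalar w z →
    ∀ g : G K, ψ (g * z) = ψ g
  hecke : ∀ v : HeightOneSpectrum (𝓞 K), ¬ v.asIdeal ∣ 𝔫 → IsHeckeEigenAt ψ v (c.a v) (c.b v)
  mean : ∀ w : InfinitePlace K, MeanEig ψ w (c.m w)

theorem isPre_of_eig439 {𝔫 : Ideal (𝓞 K)} {r : G K} {l : ℕ}
    {o : ℕ → HeightOneSpectrum (𝓞 K)} {ψ : G K → ℂ} {c : EigData K}
    (h : IsEigFn 𝔫 r l o ψ c) : IsPre439 𝔫 r c ψ where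
  cont := h.inv.cusp.cont
  bdd := h.inv.cusp.bdd
  left_inv := h.inv.cusp.aut.left_inv
  arch_compact := fun w k hk g => by
    have := h.inv.cusp.aut.arch_compact w k hk g
    simpa [T5.trivType] using this
  ray := h.inv.cusp.aut.ray
  cuspidal := h.inv.cusp.cuspidal
  arch_scalar := h.inv.arch_scalar
  hecke := h.hecke
  mean := h.mean

theorem isEig_of_pre439 {𝔫 : Ideal (𝓞 K)} {r : G K} {l : ℕ}
    {o : ℕ → HeightOneSpectrum (𝓞 K)} {ψ : G K → ℂ} {c : EigData K}
    (h : IsPre439 𝔫 r c ψ)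
    (hl : ∀ u : G K, InLevelGroup 𝔫 u → ∀ g : G K, ψ (g * u) = ψ g)
    (hi : IsIwInv l o ψ) : IsEigFn 𝔫 r l o ψ c where
  inv :=
    { cusp :=
        { cont := h.cont
          bdd := h.bdd
          aut :=
            { left_inv := h.left_inv
              level_inv := hl
              arch_compact := fun w k hk g => by
                rw [h.arch_compact w k hk g]
                simp [T5.trivType]
              ray := h.ray }
          cuspidal := h.cuspidal }
      arch_scalar := h.arch_scalar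
      iw := hi }
  hecke := h.hecke
  mean := h.mean

/-! ## Linearity -/

theorem isPre_zero439 (𝔫 : Ideal (𝓞 K)) (r : G K) (c : EigData K) :
    IsPre439 𝔫 r c (0 : G K → ℂ) where
  cont := continuous_const
  bdd := ⟨0, fun g => by simp⟩
  left_inv := fun _ _ => rfl
  arch_compact := fun _ _ _ _ => rfl
  ray := fun _ => rfl
  cuspidal := T2.H886.isCuspidalFn_zero886
  arch_scalar := fun _ _ _ _ => rfl
  hecke := fun v _ => by
    refine ⟨fun H _ g => ?_, fun z _ g => ?_⟩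
    · simp
    · simp
  mean := fun w => by
    intro d _ Y _ g
    simp

theorem isPre_add439 {𝔫 : Ideal (𝓞 K)} {r : G K} {c : EigData K} {ψ ψ' : G K → ℂ}
    (h : IsPre439 𝔫 r c ψ) (h' : IsPre439 𝔫 r c ψ') : IsPre439 𝔫 r c (ψ + ψ') where
  cont := h.cont.add h'.cont
  bdd := by
    obtain ⟨C, hC⟩ := h.bdd
    obtain ⟨C', hC'⟩ := h'.bdd
    exact ⟨C + C', fun g => (norm_add_le _ _).trans (add_le_add (hC g) (hC' g))⟩
  left_inv := fun γ g => by simp only [Pi.add_apply, h.left_inv γ g, h'.left_inv γ g]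
  arch_compact := fun w k hk g => by
    simp only [Pi.add_apply, h.arch_compact w k hk g, h'.arch_compact w k hk g]
  ray := fun g => by simp only [Pi.add_apply, h.ray g, h'.ray g]
  cuspidal := by
    obtain ⟨C, hC⟩ := h.bdd
    obtain ⟨C', hC'⟩ := h'.bdd
    exact T2.H886.isCuspidalFn_add886 h.cont hC h'.cont hC' h.cuspidal h'.cuspidal
  arch_scalar := fun w z hz g => by
    simp only [Pi.add_apply, h.arch_scalar w z hz g, h'.arch_scalar w z hz g]
  hecke := fun v hv => H863.isHeckeEigenAt_add_863 (h.hecke v hv) (h'.hecke v hv)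
  mean := fun w => H863.meanEig_add_863 h.cont h'.cont (h.mean w) (h'.mean w)

theorem isPre_smul439 {𝔫 : Ideal (𝓞 K)} {r : G K} {c : EigData K} {ψ : G K → ℂ} (a : ℂ)
    (h : IsPre439 𝔫 r c ψ) : IsPre439 𝔫 r c (a • ψ) where
  cont := h.cont.const_smul a
  bdd := by
    obtain ⟨C, hC⟩ := h.bdd
    refine ⟨‖a‖ * C, fun g => ?_⟩
    rw [Pi.smul_apply, norm_smul]
    exact mul_le_mul_of_nonneg_left (hC g) (norm_nonneg a)
  left_inv := fun γ g => by simp only [Pi.smul_apply, h.left_inv γ g]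
  arch_compact := fun w k hk g => by simp only [Pi.smul_apply, h.arch_compact w k hk g]
  ray := fun g => by simp only [Pi.smul_apply, h.ray g]
  cuspidal := T2.H886.isCuspidalFn_const_mul886 a h.cuspidal
  arch_scalar := fun w z hz g => by simp only [Pi.smul_apply, h.arch_scalar w z hz g]
  hecke := fun v hv => H863.isHeckeEigenAt_smul_863 a (h.hecke v hv)
  mean := fun w => H863.meanEig_smul_863 a (h.mean w)

theorem isPre_sum439 {𝔫 : Ideal (𝓞 K)} {r : G K} {c : EigData K} {ι : Type} (s : Finset ι)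
    (f : ι → G K → ℂ) (h : ∀ i ∈ s, IsPre439 𝔫 r c (f i)) :
    IsPre439 𝔫 r c (∑ i ∈ s, f i) := by
  classical
  induction s using Finset.induction_on with
  | empty =>
    rw [Finset.sum_empty]
    exact isPre_zero439 𝔫 r c
  | insert a s ha ih =>
    rw [Finset.sum_insert ha]
    exact isPre_add439 (h a (Finset.mem_insert_self a s))
      (ih fun i hi => h i (Finset.mem_insert_of_mem hi))

/-! ## Right translation by an element supported at `u ∣ 𝔫` -/

theorem mul_comm_of_local439 {u : HeightOneSpectrum (𝓞 K)} {b k : G K}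
    (hb : IsLocalAtFin u b) (hk : TrivAtFin u k) (x : G K) : x * k * b = x * b * k := by
  have h := commute_of_local340 hb ((trivAtFin_iff129 u k).1 hk)
  rw [mul_assoc, ← h, ← mul_assoc]

theorem isPre_translate439 {𝔫 : Ideal (𝓞 K)} {r : G K} {c : EigData K} {ψ : G K → ℂ}
    (h : IsPre439 𝔫 r c ψ) (hr : T5.IsRayGen r) {u : HeightOneSpectrum (𝓞 K)}
    (hu : u.asIdeal ∣ 𝔫) {b : G K} (hb : IsLocalAtFin u b) :
    IsPre439 𝔫 r c (fun x => ψ (x * b)) where
  cont := h.cont.comp (continuous_id.mul continuous_const)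
  bdd := by
    obtain ⟨C, hC⟩ := h.bdd
    exact ⟨C, fun g => hC _⟩
  left_inv := fun γ g => by
    rw [mul_assoc]
    exact h.left_inv γ (g * b)
  arch_compact := fun w k hk g => by
    show ψ (g * k * b) = ψ (g * b)
    rw [mul_comm_of_local439 hb (hk.1.2 u)]
    exact h.arch_compact w k hk (g * b)
  ray := fun g => by
    show ψ (g * r * b) = ψ (g * b)
    rw [mul_comm_of_local439 hb (hr.1 u)]
    exact h.ray (g * b)
  cuspidal := T2.H886.isCuspidalFn_shift886 b h.cuspidal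
  arch_scalar := fun w z hz g => by
    show ψ (g * z * b) = ψ (g * b)
    rw [mul_comm_of_local439 hb (hz.1.2 u)]
    exact h.arch_scalar w z hz (g * b)
  hecke := fun v hv => by
    have hne : u ≠ v := by
      rintro rfl
      exact hv hu
    refine ⟨fun H hH g => ?_, fun z hz g => ?_⟩
    · have e : ∀ x ∈ H, ψ (g * x * b) = ψ (g * b * x) := fun x hx =>
        by rw [mul_comm_of_local439 hb ((hH.2.1 x hx).1.2 u hne)]
      show ∑ x ∈ H, ψ (g * x * b) = _
      rw [Finset.sum_congr rfl e]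
      exact (h.hecke v hv).1 H hH (g * b)
    · show ψ (g * z * b) = _
      rw [mul_comm_of_local439 hb (hz.1.2 u hne)]
      exact (h.hecke v hv).2 z hz (g * b)
  mean := fun w => by
    intro d hd Y hY g
    have e : ∀ α β : ℝ, ψ (g * Y α β * b) = ψ (g * b * Y α β) := fun α β => by
      rw [mul_comm_of_local439 hb ((hY α β).1.2 u)]
    simp only [e]
    exact h.mean w d hd Y hY (g * b)

/-! ## The Iwahori operator -/

theorem iwOp_eq_sum439 (u : HeightOneSpectrum (𝓞 K)) (H : Finset (G K)) (ψ : G K → ℂ) :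
    iwOp u H ψ = (((Real.sqrt (Ideal.absNorm u.asIdeal : ℝ) : ℝ) : ℂ)⁻¹)
      • ∑ h ∈ H, fun x => ψ (x * h) := by
  funext x
  simp only [iwOp, Pi.smul_apply, Finset.sum_apply, smul_eq_mul]

theorem zero_mem_ic439 (𝔫 : Ideal (𝓞 K)) (v : HeightOneSpectrum (𝓞 K)) :
    (0 : v.adicCompletion K) ∈ idealClosure 𝔫 v := by
  have h := embO_mem_ic439 v (𝔫.zero_mem)
  have e : embO439 v (0 : 𝓞 K) = 0 := by simp [embO439]
  rwa [e] at h

/-- The level group at a place dividing the level lies in the Iwahori subgroup. -/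
theorem inIwahori_of_level439 {𝔫 : Ideal (𝓞 K)} {u : HeightOneSpectrum (𝓞 K)}
    (hu : u.asIdeal ∣ 𝔫) {k : G K} (hk : InLevelGroup 𝔫 k) : T5.InIwahori u k := by
  have hint : ∀ (M : Matrix (Fin 2) (Fin 2) (u.adicCompletion K)),
      (∀ i j, (M - 1) i j ∈ idealClosure 𝔫 u) → ∀ i j, Valued.v (M i j) ≤ 1 := by
    intro M hM i j
    have e : M i j = (M - 1) i j + (1 : Matrix (Fin 2) (Fin 2) (u.adicCompletion K)) i j := by
      rw [Matrix.sub_apply, sub_add_cancel]
    rw [e]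
    refine (Valuation.map_add _ _ _).trans (max_le (ic_lt_one439 hu (hM i j)).le ?_)
    by_cases hij : i = j
    · subst hij
      rw [Matrix.one_apply_eq, map_one]
    · rw [Matrix.one_apply_ne hij, map_zero]
      exact zero_le
  refine ⟨fun i j => ?_, fun i j => ?_, ?_⟩
  · rw [HeightOneSpectrum.mem_adicCompletionIntegers]
    exact hint _ (fun i j => (hk.2 u i j).1) i j
  · rw [HeightOneSpectrum.mem_adicCompletionIntegers]
    exact hint _ (fun i j => (hk.2 u i j).2) i j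
  · have h := ic_lt_one439 hu (hk.2 u 1 0).1
    rwa [Matrix.sub_apply, Matrix.one_apply_ne (by decide), sub_zero] at h

/-- `𝒰 ψ` is invariant under `U(𝔫)`. -/
theorem level_inv_iwOp439 {𝔫 : Ideal (𝓞 K)} {u : HeightOneSpectrum (𝓞 K)}
    (hu : u.asIdeal ∣ 𝔫) {H : Finset (G K)} (hH : IsIwCosetSystem u H) {ψ : G K → ℂ}
    (hl : ∀ k : G K, InLevelGroup 𝔫 k → ∀ g : G K, ψ (g * k) = ψ g)
    (hi : IsIwInv 1 (fun _ => u) ψ) (k : G K) (hk : InLevelGroup 𝔫 k) (x : G K) :
    iwOp u H ψ (x * k) = iwOp u H ψ x := by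
  classical
  unfold iwOp
  congr 1
  set kw : G K := locFin129 u (finCompHom129 u k) with hkw
  set k' : G K := kw⁻¹ * k with hk'
  have hkwloc : IsLocalAtFin u kw := isLocalAtFin_locFin129 _ _
  have hkwI : T5.InIwahori u kw := by
    rw [inIwahori_iff340, hkw, finCompHom129_locFin129, ← inIwahori_iff340]
    exact inIwahori_of_level439 hu hk
  have hk'w : finCompHom129 u k' = 1 := by
    rw [hk', map_mul, map_inv, hkw, finCompHom129_locFin129, inv_mul_cancel]
  have hk'v : ∀ v : HeightOneSpectrum (𝓞 K), v ≠ u →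
      finCompHom129 v k' = finCompHom129 v k := by
    intro v hv
    rw [hk', map_mul, map_inv, hkw, finCompHom129_locFin129_of_ne _ _ hv, inv_one, one_mul]
  have hk'inf : ∀ w : InfinitePlace K, TrivAtInf w k' := by
    intro w
    rw [trivAtInf_iff129, hk', map_mul, map_inv, hkw, infCompHom129_locFin129, inv_one,
      one_mul, ← trivAtInf_iff129]
    exact hk.1 w
  have hk'L : InLevelGroup 𝔫 k' := by
    refine ⟨hk'inf, fun v i j => ?_⟩
    by_cases hv : v = u
    · subst hv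
      have e1 : finComp v k' = 1 := by
        rw [← coe_finCompHom129, hk'w]; rfl
      have e2 : finComp v k'⁻¹ = 1 := by
        rw [← coe_finCompHom129, map_inv, hk'w, inv_one]; rfl
      rw [e1, e2, sub_self]
      exact ⟨zero_mem_ic439 𝔫 v, zero_mem_ic439 𝔫 v⟩
    · have e1 : finComp v k' = finComp v k := by
        rw [← coe_finCompHom129, hk'v v hv]; rfl
      have e2 : finComp v k'⁻¹ = finComp v k⁻¹ := by
        rw [← coe_finCompHom129, map_inv, hk'v v hv, ← map_inv]; rfl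
      rw [e1, e2]
      exact hk.2 v i j
  have hkk : k = kw * k' := by rw [hk']; group
  have hterm : ∀ h ∈ H, ψ (x * k * h) = ψ (x * (kw * h)) := by
    intro h hh
    have hcomm : k' * h = h * k' := (commute_of_local340 (hH.2.1 h hh).1 hk'w).symm
    have e : x * k * h = x * (kw * h) * k' := by
      rw [hkk, mul_assoc, mul_assoc kw, hcomm]
      group
    rw [e]
    exact hl k' hk'L _
  rw [Finset.sum_congr rfl hterm]
  have himg : ∑ h ∈ H, ψ (x * (kw * h)) = ∑ h ∈ H.image (fun h => kw * h), ψ (x * h) := by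
    rw [Finset.sum_image (fun a _ b _ hab => mul_right_injective kw hab)]
  rw [himg]
  exact iwSum_indep340 (isIwCosetSystem_translate340 hH hkwloc hkwI) hH ψ
    (fun b hb hbI g => isIwInv_local340 (o := fun _ => u) hi Nat.one_pos b hb hbI g) x

/-! ## The shift -/

/-- A scalar uniformiser is central. -/
theorem central_scalar439 {u : HeightOneSpectrum (𝓞 K)} {z : G K}
    (hz : IsScalarUniformizerAt u z) (g : G K) : z * g = g * z := by
  obtain ⟨hzloc, c, -, hzc⟩ := hz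
  rw [isLocalAtFin_iff129] at hzloc
  apply G_ext129
  · intro w
    rw [map_mul, map_mul, hzloc.1 w, one_mul, mul_one]
  · intro v
    by_cases hv : v = u
    · subst hv
      apply Units.ext
      rw [map_mul, map_mul, Matrix.GeneralLinearGroup.coe_mul,
        Matrix.GeneralLinearGroup.coe_mul, coe_finCompHom129, coe_finCompHom129, hzc]
      ext i j
      rw [Matrix.diagonal_mul, Matrix.mul_diagonal, mul_comm]
    · rw [map_mul, map_mul, hzloc.2 v hv, one_mul, mul_one]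

theorem central_zpow439 {u : HeightOneSpectrum (𝓞 K)} {z : G K}
    (hz : IsScalarUniformizerAt u z) (k : ℤ) (g x : G K) : x * g * z ^ k = x * z ^ k * g := by
  have hc : Commute z g := central_scalar439 hz g
  have := (hc.zpow_left k).eq
  rw [mul_assoc, ← this, ← mul_assoc]

theorem isLocalAtFin_zpow439 {u : HeightOneSpectrum (𝓞 K)} {z : G K}
    (hz : IsLocalAtFin u z) (k : ℤ) : IsLocalAtFin u (z ^ k) := by
  rw [isLocalAtFin_iff129] at *
  exact ⟨fun w => by rw [map_zpow, hz.1 w, one_zpow],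
    fun v hv => by rw [map_zpow, hz.2 v hv, one_zpow]⟩

/-! ## The leaf -/

/-- **LEAF T7.L2.3.5.3 = DB.3 OPS**, verbatim. -/
theorem opsClassC439 (K : Type) [Field K] [NumberField K] : OpsClassC K := by
  intro 𝔫 r u H z _ hr hu hH hz
  refine ⟨fun c ψ k hψ => ?_, fun c ψ hψ => ?_, fun ψ k => ?_⟩
  · -- the shift
    have hpre := isPre_translate439 (isPre_of_eig439 hψ) hr hu (isLocalAtFin_zpow439 hz.1 k)
    refine isEig_of_pre439 (ψ := shiftOp z k ψ) hpre (fun k' hk' g => ?_) ?_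
    · show ψ (g * k' * z ^ k) = ψ (g * z ^ k)
      rw [central_zpow439 hz]
      exact hψ.inv.cusp.aut.level_inv k' hk' _
    · intro h h1 h2 h3 x
      show ψ (x * h * z ^ k) = ψ (x * z ^ k)
      rw [central_zpow439 hz]
      exact hψ.inv.iw h h1 h2 h3 _
  · -- the Iwahori operator
    have hpre : IsPre439 𝔫 r c (iwOp u H ψ) := by
      rw [iwOp_eq_sum439]
      exact isPre_smul439 _ (isPre_sum439 H _ fun h hh =>
        isPre_translate439 (isPre_of_eig439 hψ) hr hu (hH.2.1 h hh).1)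
    exact isEig_of_pre439 hpre
      (fun k hk g => level_inv_iwOp439 hu hH hψ.inv.cusp.aut.level_inv hψ.inv.iw k hk g)
      (isIwInv_iwOp340 (o := fun _ => u) Nat.one_pos hH hψ.inv.iw)
  · exact (shiftOp_iwOp_comm340 hz hH k ψ).symm

end Fermat.Agent.LT.T7.H439

end

end
-- ===== PACK-END LT/T7/H439/OpsClass.lean

-- ===== PACK-BEGIN LT/T7/H281/TranslEig.lean
section






/-!
# Row LT, tower T7, sub-leaf T7.L2.1.F3.B `TranslEigC281` (helper281, registry row 2438)

OFF-MAIN.  `translEigC281 K : TranslEigC281 K`, VERBATIM against `LT/T7/H281/OpUpSpec.lean`.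
No `sorry`, nothing assumed.  ADDITIVE (new names only, all ending in `281`).

Assets (byte-identical copies): helper129 kit `LT/H129/*` (components of `GL₂(𝔸)`), helper472
`LT/T2/H472/LocCont.lean` (`locCont472`: families supported at an infinite place with continuous
components are continuous), helper886 `LT/T2/H886/CuspAlg.lean` (closure of `A0.IsCuspidalFn`
under sums of continuous bounded functions and right translations).
-/

set_option autoImplicit false

open AutomorphicForm IsDedekindDomain NumberField MeasureTheory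
open scoped ComplexConjugate

noncomputable section

namespace Fermat.Agent.LT.T7.H281

open Fermat.Agent.LT.H556 Fermat.Agent.LT.H556.A0 Fermat.Agent.LT.T7 Fermat.Agent.LT.T7.H893
open Fermat.Agent.LT.H129

variable {K : Type} [Field K] [NumberField K]

/-! ## 1. Commutation -/

/-- An element which is trivial at infinity commutes with an element which is trivial at the
finite places. -/
theorem commute_fin_inf281 {t k : G K} (ht : ∀ w : InfinitePlace K, TrivAtInf w t)
    (hk : ∀ v : HeightOneSpectrum (𝓞 K), TrivAtFin v k) : k * t = t * k := by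
  apply G_ext129
  · intro w
    rw [map_mul, map_mul, (trivAtInf_iff129 w t).1 (ht w), one_mul, mul_one]
  · intro v
    rw [map_mul, map_mul, (trivAtFin_iff129 v k).1 (hk v), one_mul, mul_one]

/-- A scalar uniformiser is central. -/
theorem commute_scalar_all281 {v : HeightOneSpectrum (𝓞 K)} {z : G K}
    (hz : IsScalarUniformizerAt v z) (h : G K) : z * h = h * z := by
  obtain ⟨hzloc, c, -, hzc⟩ := hz
  rw [isLocalAtFin_iff129] at hzloc
  apply G_ext129
  · intro u
    rw [map_mul, map_mul, hzloc.1 u, one_mul, mul_one]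
  · intro v'
    by_cases hv : v' = v
    · subst hv
      apply Units.ext
      rw [map_mul, map_mul, Matrix.GeneralLinearGroup.coe_mul,
        Matrix.GeneralLinearGroup.coe_mul, coe_finCompHom129, coe_finCompHom129, hzc]
      ext i j
      rw [Matrix.diagonal_mul, Matrix.mul_diagonal, mul_comm]
    · rw [map_mul, map_mul, hzloc.2 v' hv, one_mul, mul_one]

/-! ## 2. The elementary fields -/

theorem continuous_sum_transl281 {ψ : G K → ℂ} (hψ : Continuous ψ) (T : Finset (G K)) :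
    Continuous fun x : G K => ∑ t ∈ T, ψ (x * t) :=
  continuous_finset_sum _ fun t _ => hψ.comp (continuous_id.mul continuous_const)

theorem bdd_sum_transl281 {ψ : G K → ℂ} {C : ℝ} (hψ : ∀ g : G K, ‖ψ g‖ ≤ C)
    (T : Finset (G K)) (x : G K) : ‖∑ t ∈ T, ψ (x * t)‖ ≤ T.card * C := by
  calc ‖∑ t ∈ T, ψ (x * t)‖ ≤ ∑ t ∈ T, ‖ψ (x * t)‖ := norm_sum_le _ _
    _ ≤ ∑ _t ∈ T, C := Finset.sum_le_sum fun _ _ => hψ _
    _ = T.card * C := by rw [Finset.sum_const, nsmul_eq_mul]

/-- Cuspidality of a finite sum of right translates. -/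
theorem cuspidal_sum_transl281 {ψ : G K → ℂ} (hc : Continuous ψ) {C : ℝ}
    (hb : ∀ g : G K, ‖ψ g‖ ≤ C) (hψ : IsCuspidalFn ψ) (T : Finset (G K)) :
    IsCuspidalFn fun x : G K => ∑ t ∈ T, ψ (x * t) := by
  classical
  induction T using Finset.induction_on with
  | empty =>
    simp only [Finset.sum_empty]
    exact T2.H886.isCuspidalFn_zero886
  | insert a s ha ih =>
    have e : (fun x : G K => ∑ t ∈ insert a s, ψ (x * t))
        = fun x : G K => ψ (x * a) + ∑ t ∈ s, ψ (x * t) := by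
      funext x
      rw [Finset.sum_insert ha]
    rw [e]
    exact T2.H886.isCuspidalFn_add886 (φ := fun x => ψ (x * a))
      (ψ := fun x => ∑ t ∈ s, ψ (x * t)) (hc.comp (continuous_id.mul continuous_const))
      (fun g => hb _) (continuous_sum_transl281 hc s) (bdd_sum_transl281 hb s)
      (T2.H886.isCuspidalFn_shift886 a hψ) ih

/-- The cusp-function part. -/
theorem isCuspFn_translOp281 {𝔫₀ : Ideal (𝓞 K)} {r : G K} (hr : T5.IsRayGen r)
    {T : Finset (G K)} (c : ℂ) (hT : ∀ t ∈ T, ∀ w : InfinitePlace K, TrivAtInf w t)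
    {ψ : G K → ℂ} (hψ : T5.IsCuspFn 𝔫₀ T5.trivType r ψ)
    (hinv : IsRInv281 𝔫₀ (translOp281 T c ψ)) :
    T5.IsCuspFn 𝔫₀ T5.trivType r (translOp281 T c ψ) := by
  obtain ⟨C, hC⟩ := hψ.bdd
  refine ⟨?_, ?_, ⟨?_, ?_, ?_, ?_⟩, ?_⟩
  · exact continuous_const.mul (continuous_sum_transl281 hψ.cont T)
  · refine ⟨‖c‖ * (T.card * C), fun g => ?_⟩
    unfold translOp281
    rw [norm_mul]
    exact mul_le_mul_of_nonneg_left (bdd_sum_transl281 hC T g) (norm_nonneg c)
  · intro γ g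
    unfold translOp281
    congr 1
    refine Finset.sum_congr rfl fun t _ => ?_
    rw [mul_assoc]
    exact hψ.aut.left_inv γ (g * t)
  · exact fun u hu g => hinv u hu g
  · intro w k hk g
    unfold translOp281
    have e : ∀ t ∈ T, ψ (g * k * t) = T5.trivType k * ψ (g * t) := by
      intro t ht
      rw [mul_assoc, commute_fin_inf281 (hT t ht) hk.1.2, ← mul_assoc]
      exact hψ.aut.arch_compact w k hk (g * t)
    rw [Finset.sum_congr rfl e, ← Finset.mul_sum]
    ring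
  · intro g
    unfold translOp281
    congr 1
    refine Finset.sum_congr rfl fun t ht => ?_
    rw [mul_assoc, commute_fin_inf281 (hT t ht) hr.1, ← mul_assoc]
    exact hψ.aut.ray (g * t)
  · exact T2.H886.isCuspidalFn_const_mul886 c (cuspidal_sum_transl281 hψ.cont hC hψ.cuspidal T)

/-- The invariant-cusp-function part. -/
theorem isWFn_translOp281 {𝔫₀ : Ideal (𝓞 K)} {r : G K} {l : ℕ}
    {o : ℕ → HeightOneSpectrum (𝓞 K)} (hr : T5.IsRayGen r)
    {T : Finset (G K)} (c : ℂ) (hT : ∀ t ∈ T, ∀ w : InfinitePlace K, TrivAtInf w t)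
    {ψ : G K → ℂ} (hψ : IsWFn 𝔫₀ r l o ψ)
    (hinv : IsRInv281 𝔫₀ (translOp281 T c ψ)) (hiw : IsIwInv l o (translOp281 T c ψ)) :
    IsWFn 𝔫₀ r l o (translOp281 T c ψ) := by
  refine ⟨isCuspFn_translOp281 hr c hT hψ.cusp hinv, ?_, hiw⟩
  intro w z hz g
  unfold translOp281
  congr 1
  refine Finset.sum_congr rfl fun t ht => ?_
  rw [mul_assoc, commute_fin_inf281 (hT t ht) hz.1.2, ← mul_assoc]
  exact hψ.arch_scalar w z hz (g * t)

/-! ## 3. The Hecke operators at the places prime to the level -/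

theorem conj_injective281 (t : G K) : Function.Injective fun h : G K => t⁻¹ * h * t :=
  fun _ _ hab => mul_left_cancel (mul_right_cancel hab)

/-- The conjugate of a Hecke coset system at `v` by an element whose component at `v` lies in
`GL₂(𝒪_v)` is a Hecke coset system at `v`. -/
theorem isHeckeCosetSystem_conj281 [DecidableEq (G K)] {v : HeightOneSpectrum (𝓞 K)}
    {H : Finset (G K)} (hH : IsHeckeCosetSystem v H) {t : G K} (ht : IsIntegralAt v t)
    (ht' : IsIntegralAt v t⁻¹) : IsHeckeCosetSystem v (H.image fun h => t⁻¹ * h * t) := by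
  obtain ⟨hcard, hmem, hne⟩ := hH
  have hti : IsInt129 (v.adicCompletionIntegers K) (finCompHom129 v t) := ht
  have hti' : IsInt129 (v.adicCompletionIntegers K) (finCompHom129 v t)⁻¹ := by
    rw [← map_inv]
    exact ht'
  refine ⟨?_, ?_, ?_⟩
  · rw [Finset.card_image_of_injective _ (conj_injective281 t), hcard]
  · intro h hh
    obtain ⟨a, ha, rfl⟩ := Finset.mem_image.mp hh
    obtain ⟨haloc, haint, hadet⟩ := hmem a ha
    refine ⟨?_, ?_, ?_⟩
    · rw [isLocalAtFin_iff129] at haloc ⊢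
      refine ⟨fun w => ?_, fun v' hv' => ?_⟩
      · rw [map_mul, map_mul, map_inv, haloc.1 w, mul_one, inv_mul_cancel]
      · rw [map_mul, map_mul, map_inv, haloc.2 v' hv', mul_one, inv_mul_cancel]
    · rw [← isInt129_finCompHom_iff, map_mul, map_mul, map_inv]
      exact isInt129_mul (isInt129_mul hti' haint) hti
    · rw [← coe_finCompHom129, map_mul, map_mul, map_inv, Matrix.GeneralLinearGroup.coe_mul,
        Matrix.GeneralLinearGroup.coe_mul, Matrix.det_units_conj', coe_finCompHom129]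
      exact hadet
  · intro h hh h' hh' hhh hint
    obtain ⟨a, ha, rfl⟩ := Finset.mem_image.mp hh
    obtain ⟨b, hb, rfl⟩ := Finset.mem_image.mp hh'
    have hab : a ≠ b := fun e => hhh (by rw [e])
    apply hne a ha b hb hab
    have e : a⁻¹ * b = t * ((t⁻¹ * a * t)⁻¹ * (t⁻¹ * b * t)) * t⁻¹ := by group
    rw [e, ← isInt129_finCompHom_iff, map_mul, map_mul, map_inv]
    exact isInt129_mul (isInt129_mul hti hint) hti'

/-- The Hecke field. -/
theorem hecke_translOp281 {𝔫₀ : Ideal (𝓞 K)} {T : Finset (G K)} (c : ℂ)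
    (hT : ∀ t ∈ T, IsGoodTransl281 𝔫₀ t) {ψ : G K → ℂ} {v : HeightOneSpectrum (𝓞 K)}
    (hv : ¬ v.asIdeal ∣ 𝔫₀) {a b : ℂ} (hψ : IsHeckeEigenAt ψ v a b) :
    IsHeckeEigenAt (translOp281 T c ψ) v a b := by
  classical
  refine ⟨?_, ?_⟩
  · intro H hH g
    unfold translOp281
    have e : ∀ t ∈ T, ∑ h ∈ H, ψ (g * h * t)
        = ((Real.sqrt (Ideal.absNorm v.asIdeal : ℝ) : ℝ) : ℂ) * a * ψ (g * t) := by
      intro t ht
      have hsys := isHeckeCosetSystem_conj281 hH ((hT t ht).2 v hv).1 ((hT t ht).2 v hv).2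
      have h1 := hψ.1 _ hsys (g * t)
      rw [Finset.sum_image (fun x _ y _ hxy => conj_injective281 t hxy)] at h1
      rw [← h1]
      refine Finset.sum_congr rfl fun h _ => ?_
      congr 1
      group
    rw [← Finset.mul_sum, Finset.sum_comm, Finset.sum_congr rfl e, ← Finset.mul_sum]
    ring
  · intro z hz g
    unfold translOp281
    have e : ∀ t ∈ T, ψ (g * z * t) = b * ψ (g * t) := by
      intro t _
      rw [mul_assoc, commute_scalar_all281 hz t, ← mul_assoc]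
      exact hψ.2 z hz (g * t)
    rw [Finset.sum_congr rfl e, ← Finset.mul_sum]
    ring

/-! ## 4. The sphere means -/

/-- The entries of `rotZ α * rotY β * torus d` are continuous in `(α, β)`. -/
theorem continuous_sphere_entry281 (d : ℝ) (i j : Fin 2) :
    Continuous fun p : ℝ × ℝ => (rotZ p.1 * rotY p.2 * torus d) i j := by
  have h1 : Continuous fun p : ℝ × ℝ => rotZ p.1 := by
    unfold rotZ
    apply continuous_matrix
    intro i j
    fin_cases i <;> fin_cases j <;> simp <;> fun_prop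
  have h2 : Continuous fun p : ℝ × ℝ => rotY p.2 := by
    unfold rotY
    apply continuous_matrix
    intro i j
    fin_cases i <;> fin_cases j <;> simp <;> fun_prop
  have h3 : Continuous fun p : ℝ × ℝ => rotZ p.1 * rotY p.2 * torus d :=
    (h1.matrix_mul h2).matrix_mul continuous_const
  exact h3.matrix_elem i j

/-- The parametrisation of a sphere is continuous. -/
theorem continuous_sphere281 {w : InfinitePlace K} {d : ℝ} {Y : ℝ → ℝ → G K}
    (hY : ∀ α β : ℝ, IsLocalAtInf w (Y α β) ∧ infComp w (Y α β) = rotZ α * rotY β * torus d) :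
    Continuous fun p : ℝ × ℝ => Y p.1 p.2 := by
  apply T2.H472.locCont472 K w (ℝ × ℝ) (fun p : ℝ × ℝ => Y p.1 p.2) (fun p => (hY p.1 p.2).1)
  intro i j
  have : (fun p : ℝ × ℝ => infComp w (Y p.1 p.2) i j)
      = fun p : ℝ × ℝ => (rotZ p.1 * rotY p.2 * torus d) i j := by
    funext p
    rw [(hY p.1 p.2).2]
  rw [this]
  exact continuous_sphere_entry281 d i j

/-- The sphere-mean field. -/
theorem mean_translOp281 {T : Finset (G K)} (c : ℂ)
    (hT : ∀ t ∈ T, ∀ w : InfinitePlace K, TrivAtInf w t) {ψ : G K → ℂ} (hc : Continuous ψ)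
    {w : InfinitePlace K} {m : ℝ → ℂ} (hψ : MeanEig ψ w m) :
    MeanEig (translOp281 T c ψ) w m := by
  intro d hd Y hY g
  have hYc := continuous_sphere281 hY
  -- the integrands
  obtain ⟨F, hF⟩ : ∃ F : G K → ℝ → ℝ → ℂ,
      F = fun t α β => ψ (g * t * Y α β) * ((Real.sin β : ℝ) : ℂ) := ⟨_, rfl⟩
  have hFc : ∀ t : G K, Continuous (Function.uncurry (F t)) := by
    intro t
    rw [hF]
    have h1 : Continuous fun p : ℝ × ℝ => ψ (g * t * Y p.1 p.2) :=
      hc.comp (continuous_const.mul hYc)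
    have h2 : Continuous fun p : ℝ × ℝ => ((Real.sin p.2 : ℝ) : ℂ) := by fun_prop
    exact h1.mul h2
  have hFi : ∀ (t : G K) (α : ℝ), Continuous fun β : ℝ => F t α β := fun t α =>
    (hFc t).comp (Continuous.prodMk_right α)
  have hGc : ∀ t : G K, Continuous fun α : ℝ => ∫ β in (0 : ℝ)..Real.pi, F t α β := fun t =>
    intervalIntegral.continuous_parametric_intervalIntegral_of_continuous' (hFc t) 0 Real.pi
  -- the eigen-equation for each translate
  have hev : ∀ t : G K,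
      (∫ α in (0 : ℝ)..(2 * Real.pi), ∫ β in (0 : ℝ)..Real.pi, F t α β) = m d * ψ (g * t) := by
    intro t
    rw [hF]
    exact hψ d hd Y hY (g * t)
  -- the pointwise identity
  have hpt : ∀ α β : ℝ, translOp281 T c ψ (g * Y α β) * ((Real.sin β : ℝ) : ℂ)
      = ∑ t ∈ T, c * F t α β := by
    intro α β
    unfold translOp281
    rw [Finset.mul_sum, Finset.sum_mul]
    refine Finset.sum_congr rfl fun t ht => ?_
    rw [hF]
    simp only
    rw [mul_assoc g, commute_fin_inf281 (hT t ht) (hY α β).1.2, ← mul_assoc, mul_assoc c]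
  have hin : ∀ α : ℝ,
      (∫ β in (0 : ℝ)..Real.pi, translOp281 T c ψ (g * Y α β) * ((Real.sin β : ℝ) : ℂ))
        = ∑ t ∈ T, c * ∫ β in (0 : ℝ)..Real.pi, F t α β := by
    intro α
    have e : (fun β : ℝ => translOp281 T c ψ (g * Y α β) * ((Real.sin β : ℝ) : ℂ))
        = fun β : ℝ => ∑ t ∈ T, c * F t α β := funext fun β => hpt α β
    have hint : ∀ t ∈ T, IntervalIntegrable (fun β : ℝ => c * F t α β) volume 0 Real.pi :=
      fun t _ => (Continuous.mul continuous_const (hFi t α)).intervalIntegrable _ _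
    rw [e, intervalIntegral.integral_finset_sum hint]
    refine Finset.sum_congr rfl fun t _ => ?_
    rw [intervalIntegral.integral_const_mul]
  have e2 : (fun α : ℝ =>
      ∫ β in (0 : ℝ)..Real.pi, translOp281 T c ψ (g * Y α β) * ((Real.sin β : ℝ) : ℂ))
        = fun α : ℝ => ∑ t ∈ T, c * ∫ β in (0 : ℝ)..Real.pi, F t α β := funext hin
  have hint2 : ∀ t ∈ T, IntervalIntegrable
      (fun α : ℝ => c * ∫ β in (0 : ℝ)..Real.pi, F t α β) volume 0 (2 * Real.pi) :=
    fun t _ => (Continuous.mul continuous_const (hGc t)).intervalIntegrable _ _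
  rw [e2, intervalIntegral.integral_finset_sum hint2]
  have e3 : ∀ t ∈ T, (∫ α in (0 : ℝ)..(2 * Real.pi), c * ∫ β in (0 : ℝ)..Real.pi, F t α β)
      = m d * (c * ψ (g * t)) := by
    intro t _
    rw [intervalIntegral.integral_const_mul, hev t]
    ring
  rw [Finset.sum_congr rfl e3]
  unfold translOp281
  rw [Finset.mul_sum, Finset.mul_sum]

/-! ## 5. The sub-leaf -/

/-- **SUB-LEAF T7.L2.1.F3.B `TranslEigC281`.** -/
theorem translEigC281 (K : Type) [Field K] [NumberField K] : TranslEigC281 K := by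
  intro 𝔫₀ r l o hr T c hT ψ C hψ hinv hiw
  have hT' : ∀ t ∈ T, ∀ w : InfinitePlace K, TrivAtInf w t := fun t ht => (hT t ht).1
  refine ⟨isWFn_translOp281 hr c hT' hψ.inv hinv hiw, ?_, ?_⟩
  · intro v hv
    exact hecke_translOp281 c hT hv (hψ.hecke v hv)
  · intro w
    exact mean_translOp281 c hT' hψ.inv.cusp.cont (hψ.mean w)

end Fermat.Agent.LT.T7.H281

end

end
-- ===== PACK-END LT/T7/H281/TranslEig.lean

-- ===== PACK-BEGIN LT/T7/H675/BlocksU.lean
section



/-!
# Row LT, tower T7, registry 2152 (helper675): THE CUT OF `BlocksC561` / `OpsC561` (helper561)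
# IN CORE FORM (over `K'` alone, on `H29.UpData`)

OFF-MAIN.  Definitions, frozen Props, PROVED tops and bridges.  No hole, nothing assumed.
ADDITIVE (new names only, all ending in `675`, namespace `Fermat.Agent.LT.T7.UB675`) to
`T7/H561/SpecUpSpec.lean` 383e6674, `BlocksSpec.lean` 5ceeaa4d, `OpsSpec.lean` 17293f38
(helper561), `T7/H736/UpS.lean` 98771005 (helper736) and `T7/H29/UpCore.lean` c2d817fc +
`UpCore2.lean` 5e142413 (helper29, the core of record; ruling of the architect helper797, 15:58Z).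

The statements are those of helper561 VERBATIM after the renaming `Dt ↦ U`
(`L2Data K K'` ↦ `H29.UpData K'`, `IsL2Data ℓ Φ Dt` ↦ `H29.IsUpData ℓ Φ U`; the hypotheses
`IsCycExt K K' ℓ`, `ℓ ≠ 2`, `TotCplx K`, `ConstOnFibres K Φ` ↦ `ℓ.Prime`, `TotCplx K'`; the
`σ`-invariance of `Φ` outside `S'` is the field `H29.IsUpData.const`).  Names: `X561 ↦ XU675`,
`XC561 ↦ XUC675`.  The one-field objects of helper561 (`Blocks561`, `IsIwBlock561`, `trOp561`,
`AtomsC561`, `ChangeC561`) are used as they are.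

    blocksUC_of675 : BlocksAsmUC675 K' → WSpecUC675 K' → CompleteUC675 K' → SigmaUC675 K'
                       → OpsUC675 K' → PhiUC675 K' → OffWUC675 K' → BlocksUC675 K'
    opsUC_of675    : IwSysExistsUC675 K' → OpsEigUC675 K' → OpsRelUC675 K' → OpsCommUC675 K'
                       → OpsPerUC675 K' → OpsAdjUC675 K' → OpsSigUC675 K' → OpsLinkUC675 K'
                       → BadOpUC675 K' → OpsUC675 K'
    xC561_of_U675  : XUC675 K' → H561.XC561 K K'     (THE LEAVES OF helper561 FOLLOW, for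
        X = Blocks, WSpec, Complete, Sigma, Ops, Phi, OffW, IwSysExists, OpsEig, OpsRel,
        OpsComm, OpsPer, OpsAdj, OpsSig, OpsLink, BadOp)

So the owner of a leaf proves the CORE form (the same proof after the renaming): the cyclic leaf
follows by the bridge and the quadratic step `F / ℚ` needs no second proof.  The assembly leaf
`BlocksAsmC561` is an implication between nodes: its core form `BlocksAsmUC675` has the same
proof after the renaming (no bridge).
-/

set_option autoImplicit false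

open AutomorphicForm IsDedekindDomain NumberField MeasureTheory
open scoped ComplexConjugate Matrix

noncomputable section

namespace Fermat.Agent.LT.T7.UB675

open Fermat.Agent.LT.H556 Fermat.Agent.LT.H556.A0 Fermat.Agent.LT.T7 Fermat.Agent.LT.T7.H561

attribute [local instance] Fermat.Agent.LT.T5.instMeasurableSpaceG

/-! ## 1. The structures, on the upstairs data -/

section Defs

variable {K' : Type} [Field K'] [NumberField K']

/-- **The base level is `σ`-stable** (see the header: ruling needed). -/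
def BaseStableU675 (U : H29.UpData K') : Prop :=
  ∀ u : G K', InLevelGroup U.𝔑₀ u ↔ InLevelGroup U.𝔑₀ (U.s.onG u)

/-- `v` is an orthonormal basis of the class of `C`: the invariant cusp functions of the base
level with joint eigen-data `C` outside `S'`. -/
structure IsClassBasisU675 (U : H29.UpData K') (ℓ : ℕ) (C : EigData K') (n : ℕ)
    (v : Fin n → G K' → ℂ) : Prop where
  eig : ∀ a, IsEigFn U.𝔑₀ U.R'.r ℓ U.o (v a) C
  orth : ∀ a b, T5.innerD U.R'.μ U.R'.F (v a) (v b) = if a = b then 1 else 0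
  span : ∀ (ψ : G K' → ℂ) (C' : EigData K'), IsEigFn U.𝔑₀ U.R'.r ℓ U.o ψ C' →
    C'.AgreeOut U.S' C → ∃ c : Fin n → ℂ, ∀ x : G K', ψ x = ∑ a, c a * v a x

/-- The properties of the blocks for the bad element `g` in the complete orthonormal sequence
`e₀`. -/
structure IsBlocksU675 (ℓ : ℕ) (Φ : HeckeEigensystem K' ℂ) (U : H29.UpData K') (g : G K')
    (e₀ : ℕ → G K' → ℂ) (𝔅 : Blocks561 K') : Prop where
  onb : T5.IsCuspONB (U.𝔑 g) T5.trivType U.R'.r U.R'.μ U.R'.F e₀
  inj : ∀ (i : 𝔅.ι) (a : Fin (𝔅.n i)) (i' : 𝔅.ι) (a' : Fin (𝔅.n i')),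
    𝔅.idx i a = 𝔅.idx i' a' → (⟨i, a⟩ : Σ i, Fin (𝔅.n i)) = ⟨i', a'⟩
  unitary : ∀ i, (𝔅.C i).IsUnitaryOut U.S'
  distinct : ∀ i i', (𝔅.C i).AgreeOut U.S' (𝔅.C i') → i = i'
  basis : ∀ i, IsClassBasisU675 U ℓ (𝔅.C i) (𝔅.n i) (fun a => e₀ (𝔅.idx i a))
  phi : ∃ i, (𝔅.C i).AgreeOut U.S' (eigOf Φ)
  iw : ∀ i, IsIwBlock561 ℓ ((Ideal.absNorm (U.o 0).asIdeal : ℕ) : ℝ)
    (𝔅.A i) (𝔅.B i) (𝔅.S i) (𝔅.ρ i)
  /-- the matrix coefficients inside a block -/
  coeff : ∀ X : List (Gen K'), (∀ x ∈ X, x.Out U.S') →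
    ∀ (k : ℤ) (m : ℕ) (i : 𝔅.ι) (a b : Fin (𝔅.n i)),
      T5.innerD U.R'.μ U.R'.F
          (T5.Rconv U.R'.μ (U.φ' g X k m) (T5.Rsig U.s (e₀ (𝔅.idx i a))))
          (e₀ (𝔅.idx i b))
        = wordEv X (𝔅.C i)
          * (𝔅.B i * (𝔅.ρ i 0 * 𝔅.ρ i 0) ^ k
              * (((Real.sqrt ((Ideal.absNorm (U.o 0).asIdeal : ℕ) : ℝ) : ℝ) : ℂ)⁻¹
                  • (𝔅.S i 0 * 𝔅.ρ i 0)) ^ m
              * 𝔅.A i) b a
  /-- the diagonal coefficients outside the blocks vanish -/
  off : ∀ X : List (Gen K'), (∀ x ∈ X, x.Out U.S') → ∀ (k : ℤ) (m : ℕ) (j : ℕ),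
    (∀ (i : 𝔅.ι) (a : Fin (𝔅.n i)), 𝔅.idx i a ≠ j) →
    T5.diagCoeff U.s U.R'.μ U.R'.F (U.φ' g X k m) (e₀ j) = 0

/-- **The spectrum of the invariant cusp functions of the base level**: classes `i : ι` with
eigen-data `C i` and orthonormal bases `v i`. -/
structure IsWSpecU675 (U : H29.UpData K') (ℓ : ℕ) (ι : Type) (n : ι → ℕ) (C : ι → EigData K')
    (v : (i : ι) → Fin (n i) → G K' → ℂ) : Prop where
  countable : Countable ι
  unitary : ∀ i, (C i).IsUnitaryOut U.S'
  distinct : ∀ i i', (C i).AgreeOut U.S' (C i') → i = i'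
  basis : ∀ i, IsClassBasisU675 U ℓ (C i) (n i) (v i)
  orth : ∀ (i i' : ι) (a : Fin (n i)) (a' : Fin (n i')), i ≠ i' →
    T5.innerD U.R'.μ U.R'.F (v i a) (v i' a') = 0
  complete : ∀ ψ : G K' → ℂ, IsWFn U.𝔑₀ U.R'.r ℓ U.o ψ →
    HasSum (fun p : Σ i, Fin (n i) => ‖T5.innerD U.R'.μ U.R'.F ψ (v p.1 p.2)‖ ^ 2)
      (T5.innerD U.R'.μ U.R'.F ψ ψ).re
  cover : ∀ (ψ : G K' → ℂ) (C' : EigData K'), IsEigFn U.𝔑₀ U.R'.r ℓ U.o ψ C' →
    (∃ x : G K', ψ x ≠ 0) → ∃ i, C'.AgreeOut U.S' (C i)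

/-- **The operators on the invariant cusp functions of the base level**: `S_j = cosetOp (Hs j)`,
`ρ_j = trOp561 (ω j)` along the orbit, `B = cosetOp Hg` at the bad places. -/
structure IsWOpsU675 (U : H29.UpData K') (ℓ : ℕ) (g : G K') (Hs : ℕ → Finset (G K'))
    (ω : ℕ → G K') (Hg : Finset (G K')) : Prop where
  S_eig : ∀ (j : ℕ) (ψ : G K' → ℂ) (C : EigData K'), IsEigFn U.𝔑₀ U.R'.r ℓ U.o ψ C →
    IsEigFn U.𝔑₀ U.R'.r ℓ U.o (cosetOp (Hs j) ψ) C
  ρ_eig : ∀ (j : ℕ) (ψ : G K' → ℂ) (C : EigData K'), IsEigFn U.𝔑₀ U.R'.r ℓ U.o ψ C →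
    IsEigFn U.𝔑₀ U.R'.r ℓ U.o (trOp561 (ω j) ψ) C
  B_eig : ∀ (ψ : G K' → ℂ) (C : EigData K'), IsEigFn U.𝔑₀ U.R'.r ℓ U.o ψ C →
    IsEigFn U.𝔑₀ U.R'.r ℓ U.o (cosetOp Hg ψ) C
  S_quad : ∀ (j : ℕ) (ψ : G K' → ℂ), IsWFn U.𝔑₀ U.R'.r ℓ U.o ψ → ∀ x : G K',
    cosetOp (Hs j) (cosetOp (Hs j) ψ) x
      = (((Ideal.absNorm (U.o 0).asIdeal : ℕ) : ℂ) - 1) * cosetOp (Hs j) ψ x
        + ((Ideal.absNorm (U.o 0).asIdeal : ℕ) : ℂ) * ψ x
  ρ_central : ∀ (j : ℕ) (ψ : G K' → ℂ), IsWFn U.𝔑₀ U.R'.r ℓ U.o ψ → ∀ x : G K',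
    trOp561 (ω j) (trOp561 (ω j) (cosetOp (Hs j) ψ)) x
      = cosetOp (Hs j) (trOp561 (ω j) (trOp561 (ω j) ψ)) x
  comm_SS : ∀ j j' : ℕ, j < ℓ → j' < ℓ → j ≠ j' →
    ∀ ψ : G K' → ℂ, IsWFn U.𝔑₀ U.R'.r ℓ U.o ψ → ∀ x : G K',
      cosetOp (Hs j) (cosetOp (Hs j') ψ) x = cosetOp (Hs j') (cosetOp (Hs j) ψ) x
  comm_Sρ : ∀ j j' : ℕ, j < ℓ → j' < ℓ → j ≠ j' →
    ∀ ψ : G K' → ℂ, IsWFn U.𝔑₀ U.R'.r ℓ U.o ψ → ∀ x : G K',
      cosetOp (Hs j) (trOp561 (ω j') ψ) x = trOp561 (ω j') (cosetOp (Hs j) ψ) x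
  comm_ρρ : ∀ j j' : ℕ, j < ℓ → j' < ℓ → j ≠ j' →
    ∀ ψ : G K' → ℂ, IsWFn U.𝔑₀ U.R'.r ℓ U.o ψ → ∀ x : G K',
      trOp561 (ω j) (trOp561 (ω j') ψ) x = trOp561 (ω j') (trOp561 (ω j) ψ) x
  per_S : ∀ (j : ℕ) (ψ : G K' → ℂ), IsWFn U.𝔑₀ U.R'.r ℓ U.o ψ → ∀ x : G K',
    cosetOp (Hs (j + ℓ)) ψ x = cosetOp (Hs j) ψ x
  per_ρ : ∀ (j : ℕ) (ψ : G K' → ℂ), IsWFn U.𝔑₀ U.R'.r ℓ U.o ψ → ∀ x : G K',
    trOp561 (ω (j + ℓ)) ψ x = trOp561 (ω j) ψ x
  B_S : ∀ (j : ℕ) (ψ : G K' → ℂ), IsWFn U.𝔑₀ U.R'.r ℓ U.o ψ → ∀ x : G K',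
    cosetOp Hg (cosetOp (Hs j) ψ) x = cosetOp (Hs j) (cosetOp Hg ψ) x
  B_ρ : ∀ (j : ℕ) (ψ : G K' → ℂ), IsWFn U.𝔑₀ U.R'.r ℓ U.o ψ → ∀ x : G K',
    cosetOp Hg (trOp561 (ω j) ψ) x = trOp561 (ω j) (cosetOp Hg ψ) x
  S_adj : ∀ (j : ℕ) (ψ χ : G K' → ℂ), IsWFn U.𝔑₀ U.R'.r ℓ U.o ψ →
    IsWFn U.𝔑₀ U.R'.r ℓ U.o χ →
    T5.innerD U.R'.μ U.R'.F (cosetOp (Hs j) ψ) χ
      = T5.innerD U.R'.μ U.R'.F ψ (cosetOp (Hs j) χ)
  ρ_iso : ∀ (j : ℕ) (ψ χ : G K' → ℂ), IsWFn U.𝔑₀ U.R'.r ℓ U.o ψ →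
    IsWFn U.𝔑₀ U.R'.r ℓ U.o χ →
    T5.innerD U.R'.μ U.R'.F (trOp561 (ω j) ψ) (trOp561 (ω j) χ)
      = T5.innerD U.R'.μ U.R'.F ψ χ
  σ_S : ∀ (j : ℕ) (ψ : G K' → ℂ), IsWFn U.𝔑₀ U.R'.r ℓ U.o ψ → ∀ x : G K',
    T5.Rsig U.s (cosetOp (Hs j) ψ) x = cosetOp (Hs (j + 1)) (T5.Rsig U.s ψ) x
  σ_ρ : ∀ (j : ℕ) (ψ : G K' → ℂ), IsWFn U.𝔑₀ U.R'.r ℓ U.o ψ → ∀ x : G K',
    T5.Rsig U.s (trOp561 (ω j) ψ) x = trOp561 (ω (j + 1)) (T5.Rsig U.s ψ) x
  dbl : IsDblCosetSystem U.𝔑₀ g Hg
  iwsys : IsIwCosetSystem (U.o 0) ((Hs 0).map (mulRightEmbedding (ω 0)))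
  unif : IsScalarUniformizerAt (U.o 0) (ω 0 * ω 0)

/-- The hypotheses of the core node on the upstairs data (core form of `H561.IsSetup561`). -/
structure IsSetupU675 (ℓ : ℕ) (Φ : HeckeEigensystem K' ℂ) (U : H29.UpData K') : Prop where
  prime : ℓ.Prime
  cplx : TotCplx K'
  cusp : A0.IsCuspAdelicSph0 K' Φ
  data : H29.IsUpData ℓ Φ U

/-- **The explicit systems along the orbit.** -/
structure IsIwSysU675 (U : H29.UpData K') (Hs : ℕ → Finset (G K')) (ω : ℕ → G K') : Prop where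
  ω_local : ∀ j, IsLocalAtFin (U.o j) (ω j)
  ω_comp : ∀ j, ∃ c : (U.o j).adicCompletion K', Valued.v c = WithZero.exp (-1 : ℤ) ∧
    finComp (U.o j) (ω j) = !![0, 1; c, 0]
  Hs_card : ∀ j, (Hs j).card = Ideal.absNorm (U.o j).asIdeal
  Hs_local : ∀ j, ∀ h ∈ Hs j, IsLocalAtFin (U.o j) h
  Hs_comp : ∀ j, ∀ h ∈ Hs j, ∃ a : (U.o j).adicCompletion K',
    a ∈ (U.o j).adicCompletionIntegers K' ∧ finComp (U.o j) h = !![a, 1; 1, 0]
  Hs_inj : ∀ j, ∀ h ∈ Hs j, ∀ h' ∈ Hs j, h ≠ h' → ¬ T5.InIwahori (U.o j) (h⁻¹ * h')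

end Defs

/-! ## 2. The nodes and the leaves, core form -/

section Nodes

variable (K' : Type) [Field K'] [NumberField K']

/-- **NODE T7.L2.2.B = BLOCKS.**  See the header.
Proof (sketch; to be cut).  (1) `T2` (`cuspSpecPlus_closed`, `finite_class130`): the cusp
functions of level `𝔑₀` have an orthonormal basis of joint eigenfunctions of the Hecke operators
outside `S'` and of the sphere means, the classes have finite dimension; the projector on the
functions invariant under the positive scalars at infinity and the Iwahori subgroups along the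
orbit commutes with these operators: orthonormal bases of the classes of the INVARIANT cusp
functions, the eigen-data of a class normalised at the places of `S'` and the radii `d ≤ 0`.
(2) Complete by an orthonormal basis of the orthogonal complement in the cusp functions of level
`𝔑_g` (PROJ-up, `T5.CuspONBExistsC`, Gram--Schmidt).  (3) `R(σ)` preserves the invariant cusp
functions of the base level (`BaseStableU675`, `IsCompData.aut`, orbit) and moves the eigen-data
by `σ` (asset helper930 `T7/H930/RsigOps.lean`); the blocks are the classes with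
`C ∘ σ ∼ C`; the class of `Φ` is one (`ConstOnFibres`, `orbit_good`, `level_le`).  (4) On a
block: OP-up for `ψ = R(σ) e_a`; the operators `[U g U]`, `Z`, `𝒰` preserve the classes; matrices
in the basis of the block.  (5) Outside the blocks: KILL-up and the range of `R(φ')` (in the
invariant functions) for the complement; `R(σ) e ⊥ ` class of `e` for a class which is not
stable.  (6) Iwahori--Hecke relations at `o j`: `S_j` = the operator of `I s I`, `ρ_j` = the
translation by `!![0, 1; ϖ, 0]`, `I t I = I s I · ω`, `S² = (q-1) S + q`, `ρ²` = the scalar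
uniformiser; adjoints for the inner product on the fundamental domain; `R(σ)` moves the place
`o j` to `o (j+1)`. -/
def BlocksUC675 : Prop :=
  ∀ ℓ : ℕ, ℓ.Prime → TotCplx K' →
    ∀ Φ : HeckeEigensystem K' ℂ, A0.IsCuspAdelicSph0 K' Φ →
      ∀ U : H29.UpData K', H29.IsUpData ℓ Φ U → BaseStableU675 U →
      ∀ g : G K', U.IsBad g →
        ∃ (e₀ : ℕ → G K' → ℂ) (𝔅 : Blocks561 K'), IsBlocksU675 ℓ Φ U g e₀ 𝔅

/-- **LEAF T7.L2.2.B1 = W-SPEC.**
Proof.  `T2.cuspSpecPlus_closed` for the level `𝔑₀` (`𝔑₀ ≠ ⊥`: `level_g` and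
`IsCompData.level_ne` for the bad element `1`): an orthonormal complete family of joint
eigenfunctions of EVERY operator of the tower (Hecke operators outside `S'`, sphere means), with
unitary eigen-data; classes of finite dimension (`finite_class130`).  The projector on the
Iwahori invariants along the orbit (a finite average of right translations, `I / U` is finite)
is self-adjoint, commutes with the operators and maps the class of `C` onto the functions of
`W` in the class; Gram--Schmidt in each class; eigen-data normalised (`0` at the places of `S'`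
and the radii `d ≤ 0`) to get `distinct`. -/
def WSpecUC675 : Prop :=
  ∀ ℓ : ℕ, ℓ.Prime → TotCplx K' →
    ∀ Φ : HeckeEigensystem K' ℂ, A0.IsCuspAdelicSph0 K' Φ →
      ∀ U : H29.UpData K', H29.IsUpData ℓ Φ U →
        ∃ (ι : Type) (n : ι → ℕ) (C : ι → EigData K') (v : (i : ι) → Fin (n i) → G K' → ℂ),
          IsWSpecU675 U ℓ ι n C v

/-- **LEAF T7.L2.2.B2 = COMPLETE.**
Proof.  `W` consists of cusp functions of level `𝔑_g` (`level_g`).  Take a complete orthonormal
sequence `f_k` of level `𝔑_g` (`T5.CuspONBExistsC`, closed in tower T5 / T2), `h_k` =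
Gram--Schmidt of `f_k - P f_k` (`P` = PROJ-up); `e₀` = the family `v` (enumerated by
countability) interleaved with `h_k`; Parseval: `‖f‖² = ‖P f‖² + ‖f - P f‖²`. -/
def CompleteUC675 : Prop :=
  ∀ ℓ : ℕ, ℓ.Prime → TotCplx K' →
    ∀ Φ : HeckeEigensystem K' ℂ, A0.IsCuspAdelicSph0 K' Φ →
      ∀ U : H29.UpData K', H29.IsUpData ℓ Φ U → ∀ g : G K', U.IsBad g →
      ∀ (ι : Type) (n : ι → ℕ) (C : ι → EigData K') (v : (i : ι) → Fin (n i) → G K' → ℂ),
        IsWSpecU675 U ℓ ι n C v →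
        ∃ (e₀ : ℕ → G K' → ℂ) (idx : (i : ι) → Fin (n i) → ℕ),
          T5.IsCuspONB (U.𝔑 g) T5.trivType U.R'.r U.R'.μ U.R'.F e₀ ∧
          (∀ (i : ι) (a : Fin (n i)) (i' : ι) (a' : Fin (n i')), idx i a = idx i' a' →
            (⟨i, a⟩ : Σ i, Fin (n i)) = ⟨i', a'⟩) ∧
          (∀ (i : ι) (a : Fin (n i)), e₀ (idx i a) = v i a) ∧
          ∀ j : ℕ, (∀ (i : ι) (a : Fin (n i)), idx i a ≠ j) →
            ∀ χ : G K' → ℂ, IsWFn U.𝔑₀ U.R'.r ℓ U.o χ →
              T5.innerD U.R'.μ U.R'.F (e₀ j) χ = 0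

/-- **LEAF T7.L2.2.B3 = SIGMA.**
Proof.  `R(σ)` preserves the cusp functions of the base level (`BaseStableU675`,
`IsCompData.aut` for the bad element `1`), the invariance under the positive scalars at
infinity and under the Iwahori subgroups along the orbit (`orbit_rel`, `σ^ℓ = 1`); it moves the
Hecke operators at `w ∉ S'` to those at `σ w ∉ S'` (`mem_S'_g`: `S'` = the places over the
divisors of `𝔫 g`) and the sphere means at `w` to those at `σ w`: `σC C` = the eigen-data moved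
by `σ` (asset helper930 `T7/H930/RsigOps.lean`).  The class of `Φ`: `IsL2Data.const`, and `sph0`
at every infinite place. -/
def SigmaUC675 : Prop :=
  ∀ ℓ : ℕ, ℓ.Prime → TotCplx K' →
    ∀ Φ : HeckeEigensystem K' ℂ, A0.IsCuspAdelicSph0 K' Φ →
      ∀ U : H29.UpData K', H29.IsUpData ℓ Φ U → BaseStableU675 U →
        ∃ σC : EigData K' → EigData K',
          (∀ C C' : EigData K', C.AgreeOut U.S' C' → (σC C).AgreeOut U.S' (σC C')) ∧
          (∀ (ψ : G K' → ℂ) (C : EigData K'), IsEigFn U.𝔑₀ U.R'.r ℓ U.o ψ C →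
            IsEigFn U.𝔑₀ U.R'.r ℓ U.o (T5.Rsig U.s ψ) (σC C)) ∧
          (σC (eigOf Φ)).AgreeOut U.S' (eigOf Φ)

/-- **NODE T7.L2.2.B4 = OPS.**  See the header and `IsWOpsU675`.
Proof (sketch; to be cut: local group theory at `o j` + operators on functions).  At the place
`w = o j` with uniformiser `ϖ`: `I` = the Iwahori subgroup (`T5.InIwahori`), `s = !![0,1;1,0]`,
`ω = !![0,1;ϖ,0]`, `t = !![ϖ,0;0,1] = s ω`, `ω I ω⁻¹ = I`, `ω² = ϖ`,
`I s I = ⨆_{a mod ϖ} !![1,a;0,1] s I` (`q` cosets), `I t I = (I s I) ω`,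
`(I s I)(I s I) = I ⊔ I s I` with `1_{IsI} ⋆ 1_{IsI} = (q-1) 1_{IsI} + q 1_I`.  The operators are
finite sums of right translations by elements supported at ONE place of `S'`: they preserve the
cusp functions, commute with the Hecke operators outside `S'`, the sphere means and the
operators at the other places; adjoints: `∫_F ψ(x h) conj χ(x) = ∫_F ψ(x) conj χ(x h⁻¹)` for
automorphic functions (fundamental domain, ray; T2 `OpsAdjT`), `(I s I)⁻¹ = I s I`; `R(σ) R(h)
= R(σ h) R(σ)` and `σ` maps the Iwahori subgroup at `o j` onto the one at `o (j+1)`. -/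
def OpsUC675 : Prop :=
  ∀ ℓ : ℕ, ℓ.Prime → TotCplx K' →
    ∀ Φ : HeckeEigensystem K' ℂ, A0.IsCuspAdelicSph0 K' Φ →
      ∀ U : H29.UpData K', H29.IsUpData ℓ Φ U → BaseStableU675 U → ∀ g : G K', U.IsBad g →
        ∃ (Hs : ℕ → Finset (G K')) (ω : ℕ → G K') (Hg : Finset (G K')),
          IsWOpsU675 U ℓ g Hs ω Hg

/-- **LEAF T7.L2.2.B5 = PHI.**
Proof.  The form `φ` of `Φ` (`A0.IsSph0CuspFormFor`): of level `Φ.level ⊇ 𝔑₀` (`level_le`),
invariant under `GL₂(𝒪_w)` at the places of the orbit (`orbit_good`), in particular under the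
Iwahori subgroups; invariant under the ray generator (a product of positive scalars at the
infinite places); `MeanValueComplex` = `MeanEig · sph0` (`K'` is totally complex); Hecke
eigenfunction at `v ∤ 𝔑₀` (then `v ∤ Φ.level`). -/
def PhiUC675 : Prop :=
  ∀ ℓ : ℕ, ℓ.Prime → TotCplx K' →
    ∀ Φ : HeckeEigensystem K' ℂ, A0.IsCuspAdelicSph0 K' Φ →
      ∀ U : H29.UpData K', H29.IsUpData ℓ Φ U →
        ∃ ψ : G K' → ℂ, IsEigFn U.𝔑₀ U.R'.r ℓ U.o ψ (eigOf Φ) ∧ ∃ x : G K', ψ x ≠ 0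

/-- **LEAF T7.L2.2.B6 = OFF-W.**  If `R(φ' g X k m)` maps the eigenfunctions of `W` into `W`, the
diagonal coefficient of a cusp function of level `𝔑_g` orthogonal to `W` vanishes.
Proof.  `f = R(σ) e` is a cusp function of level `𝔑_g` (`IsCompData.aut`); `f = f₁ + f₂`,
`f₁ ∈ W`, `f₂ ⊥ W` (PROJ-up); `R(φ') f₂ = 0` (KILL-up); `⟨R(φ') f₁, e⟩ = ⟨f₁, R(φ'*) e⟩`
(adjoint of a convolution operator, T2 `OpsAdjT`) `= ∑_p ⟨f₁, v_p⟩ conj ⟨R(φ'*) e, v_p⟩`
(Parseval in `W`, polarised; `R(φ'*) e` is a cusp function, its component orthogonal to `W`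
does not contribute) and `⟨R(φ'*) e, v_p⟩ = ⟨e, R(φ') v_p⟩ = 0`. -/
def OffWUC675 : Prop :=
  ∀ ℓ : ℕ, ℓ.Prime → TotCplx K' →
    ∀ Φ : HeckeEigensystem K' ℂ, A0.IsCuspAdelicSph0 K' Φ →
      ∀ U : H29.UpData K', H29.IsUpData ℓ Φ U → ∀ g : G K', U.IsBad g →
      ∀ (ι : Type) (n : ι → ℕ) (C : ι → EigData K') (v : (i : ι) → Fin (n i) → G K' → ℂ),
        IsWSpecU675 U ℓ ι n C v →
        (∀ X : List (Gen K'), (∀ x ∈ X, x.Out U.S') → ∀ (k : ℤ) (m : ℕ) (ψ : G K' → ℂ)
          (C' : EigData K'), IsEigFn U.𝔑₀ U.R'.r ℓ U.o ψ C' →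
            IsWFn U.𝔑₀ U.R'.r ℓ U.o (T5.Rconv U.R'.μ (U.φ' g X k m) ψ)) →
        ∀ e : G K' → ℂ, T5.IsCuspFn (U.𝔑 g) T5.trivType U.R'.r e →
          (∀ χ : G K' → ℂ, IsWFn U.𝔑₀ U.R'.r ℓ U.o χ →
            T5.innerD U.R'.μ U.R'.F e χ = 0) →
          ∀ X : List (Gen K'), (∀ x ∈ X, x.Out U.S') → ∀ (k : ℤ) (m : ℕ),
            T5.diagCoeff U.s U.R'.μ U.R'.F (U.φ' g X k m) e = 0

/-- **LEAF T7.L2.2.B7 = BLOCKS-ASSEMBLY.**
Proof.  `ι, n, C, v` from `WSpecUC675`; `e₀, idx` from `CompleteUC675`; `σC` from `SigmaUC675`;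
`Hs, ω, Hg` from `OpsUC675`.  Blocks: `ι' = {i // (σC (C i)).AgreeOut S' (C i)}`.  In a block
every operator `T` among `R(σ)`, `S_j`, `ρ_j`, `B` maps the class into itself (an eigenfunction
for `C'` is one for every `C''` agreeing with `C'` outside `S'`: `mem_S'`, radii `d > 0`), so
`T v_a = ∑_b M_T(b,a) v_b` pointwise with `M_T(b,a) = ⟨T v_a, v_b⟩` (`span`, `orth`, additivity
of the inner product on bounded continuous functions); `M_{T T'} = M_T M_{T'}` (the operators
are additive: finite sums of translations); `A = M_{R(σ)}`, `B = c_g(C) M_{cosetOp Hg}`,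
`S j = M_{S_j}`, `ρ j = M_{ρ_j}`: `IsIwBlock561` from `IsWOpsU675` (`S_adj` gives `Sᴴ = S`,
`ρ_iso` gives `ρᴴ ρ = 1`).  `coeff`: OP-up for `ψ = R(σ) v_a` with `H = (Hs 0) · ω 0`,
`z = ω 0 ²`: `iwOp = q^{-1/2} S₀ ρ₀`, `shiftOp z k = (ρ₀²)^k` (`k ∈ ℤ`; `ρ₀` is invertible on the
class).  `off`: outside the range of `idx`: `OffWUC675` (its hypothesis from OP-up and
`S_eig`, `ρ_eig`, `B_eig`); in a class which is not stable: `R(φ') R(σ) v_a` is an
eigenfunction for `σC (C i)`, hence `0` or in another class (`cover`, `distinct`), orthogonal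
to `v_a` (`orth`).  `phi`: `PhiUC675`, `cover`, `SigmaUC675`. -/
def BlocksAsmUC675 : Prop :=
  WSpecUC675 K' → CompleteUC675 K' → SigmaUC675 K' → OpsUC675 K' → PhiUC675 K' →
    OffWUC675 K' → BlocksUC675 K'

/-- **LEAF B4.1 = IW-SYS-EXISTS.**  Uniformisers exist, the residue field has `N w` elements
with integral representatives, an adele with one prescribed component (an idele for an
invertible matrix) exists. -/
def IwSysExistsUC675 : Prop :=
  ∀ (ℓ : ℕ) (Φ : HeckeEigensystem K' ℂ) (U : H29.UpData K'), IsSetupU675 ℓ Φ U →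
    ∃ (Hs : ℕ → Finset (G K')) (ω : ℕ → G K'), IsIwSysU675 U Hs ω

/-- **LEAF B4.2 = OPS-EIG.**  `S_j` and `ρ_j` preserve the classes.
Proof.  A finite sum of right translations by elements supported at finite places preserves
continuity, boundedness, the left invariance, the vanishing of the constant term, the
`K_∞`-type, the invariance under the ray generator and the positive scalars at infinity; the
elements commute with the Hecke coset systems at `v ∉ S'` (`orbit_level`: `o j ∈ S'`) and with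
the spheres at infinity (sums and integrals commute: continuous integrands).  Level `𝔑₀` and
Iwahori invariance: for `u` in the level group, resp. in the Iwahori subgroups along the orbit,
`u h = h' u'` with `h ↦ h'` a permutation of `Hs j` (`I s I = ⨆ h I`; the level group at `o j` is
contained in `I` and normal in `GL₂(𝒪)`; `ω` normalises `I`). -/
def OpsEigUC675 : Prop :=
  ∀ (ℓ : ℕ) (Φ : HeckeEigensystem K' ℂ) (U : H29.UpData K'), IsSetupU675 ℓ Φ U →
    ∀ (Hs : ℕ → Finset (G K')) (ω : ℕ → G K'), IsIwSysU675 U Hs ω →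
      ∀ (j : ℕ) (ψ : G K' → ℂ) (C : EigData K'), IsEigFn U.𝔑₀ U.R'.r ℓ U.o ψ C →
        IsEigFn U.𝔑₀ U.R'.r ℓ U.o (cosetOp (Hs j) ψ) C ∧
        IsEigFn U.𝔑₀ U.R'.r ℓ U.o (trOp561 (ω j) ψ) C

/-- **LEAF B4.3 = OPS-REL.**  `S_j² = (q-1) S_j + q` and `ρ_j² S_j = S_j ρ_j²` on `W`
(`q = N (o 0) = N (o j)`: `orbit_rel`).
Proof.  `!![a,1;1,0] !![b,1;1,0] = !![ab+1, a; b, 1]`: in `I` iff `b ∈ 𝔭`, i.e. for ONE `b`;
otherwise in `!![c,1;1,0] I` with `c = a + b⁻¹`, each `c ≠ a` once.  `ω² = ϖ` is central. -/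
def OpsRelUC675 : Prop :=
  ∀ (ℓ : ℕ) (Φ : HeckeEigensystem K' ℂ) (U : H29.UpData K'), IsSetupU675 ℓ Φ U →
    ∀ (Hs : ℕ → Finset (G K')) (ω : ℕ → G K'), IsIwSysU675 U Hs ω →
      ∀ (j : ℕ) (ψ : G K' → ℂ), IsWFn U.𝔑₀ U.R'.r ℓ U.o ψ → ∀ x : G K',
        cosetOp (Hs j) (cosetOp (Hs j) ψ) x
          = (((Ideal.absNorm (U.o 0).asIdeal : ℕ) : ℂ) - 1) * cosetOp (Hs j) ψ x
            + ((Ideal.absNorm (U.o 0).asIdeal : ℕ) : ℂ) * ψ x ∧
        trOp561 (ω j) (trOp561 (ω j) (cosetOp (Hs j) ψ)) x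
          = cosetOp (Hs j) (trOp561 (ω j) (trOp561 (ω j) ψ)) x

/-- **LEAF B4.4 = OPS-COMM.**  The operators at two different places of the orbit commute
(`o j ≠ o j'` for `j ≠ j' < ℓ`: `orbit_ne`, `orbit_rel`; elements supported at different places
commute). -/
def OpsCommUC675 : Prop :=
  ∀ (ℓ : ℕ) (Φ : HeckeEigensystem K' ℂ) (U : H29.UpData K'), IsSetupU675 ℓ Φ U →
    ∀ (Hs : ℕ → Finset (G K')) (ω : ℕ → G K'), IsIwSysU675 U Hs ω →
      ∀ j j' : ℕ, j < ℓ → j' < ℓ → j ≠ j' → ∀ (ψ : G K' → ℂ) (x : G K'),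
        cosetOp (Hs j) (cosetOp (Hs j') ψ) x = cosetOp (Hs j') (cosetOp (Hs j) ψ) x ∧
        cosetOp (Hs j) (trOp561 (ω j') ψ) x = trOp561 (ω j') (cosetOp (Hs j) ψ) x ∧
        trOp561 (ω j) (trOp561 (ω j') ψ) x = trOp561 (ω j') (trOp561 (ω j) ψ) x

/-- **LEAF B4.5 = OPS-PER.**  `o (j + ℓ) = o j` (`σ^ℓ = 1`, asset helper415) and two systems at
the same place define the same operators on `W`. -/
def OpsPerUC675 : Prop :=
  ∀ (ℓ : ℕ) (Φ : HeckeEigensystem K' ℂ) (U : H29.UpData K'), IsSetupU675 ℓ Φ U →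
    ∀ (Hs : ℕ → Finset (G K')) (ω : ℕ → G K'), IsIwSysU675 U Hs ω →
      ∀ (j : ℕ) (ψ : G K' → ℂ), IsWFn U.𝔑₀ U.R'.r ℓ U.o ψ → ∀ x : G K',
        cosetOp (Hs (j + ℓ)) ψ x = cosetOp (Hs j) ψ x ∧
        trOp561 (ω (j + ℓ)) ψ x = trOp561 (ω j) ψ x

/-- **LEAF B4.6 = OPS-ADJ.**  `S_j` is symmetric and `ρ_j` is an isometry on `W`.
Proof.  `⟨R(h) ψ, R(h) χ⟩ = ⟨ψ, χ⟩` for automorphic functions invariant under the ray generator
(T2 `OpsAdjT`: `F h` is a fundamental domain of a translate of the slab, cut and move by powers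
of `r`).  `⟨R(h_a) ψ, χ⟩ = ⟨ψ, R(h_a⁻¹) χ⟩`, `h_a⁻¹ = s x_{-a}`, `R(h_a⁻¹) χ = R(s) χ` on `W`;
`⟨ψ, R(s) χ⟩ = ⟨R(x_b⁻¹) ψ, R(s) χ⟩ = ⟨ψ, R(x_b s) χ⟩` for every `b`: `q ⟨ψ, R(s) χ⟩ = ⟨ψ, S χ⟩`. -/
def OpsAdjUC675 : Prop :=
  ∀ (ℓ : ℕ) (Φ : HeckeEigensystem K' ℂ) (U : H29.UpData K'), IsSetupU675 ℓ Φ U →
    ∀ (Hs : ℕ → Finset (G K')) (ω : ℕ → G K'), IsIwSysU675 U Hs ω →
      ∀ (j : ℕ) (ψ χ : G K' → ℂ), IsWFn U.𝔑₀ U.R'.r ℓ U.o ψ →
        IsWFn U.𝔑₀ U.R'.r ℓ U.o χ →
        T5.innerD U.R'.μ U.R'.F (cosetOp (Hs j) ψ) χ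
          = T5.innerD U.R'.μ U.R'.F ψ (cosetOp (Hs j) χ) ∧
        T5.innerD U.R'.μ U.R'.F (trOp561 (ω j) ψ) (trOp561 (ω j) χ)
          = T5.innerD U.R'.μ U.R'.F ψ χ

/-- **LEAF B4.7 = OPS-SIGMA.**  `R(σ) S_j = S_{j+1} R(σ)`, `R(σ) ρ_j = ρ_{j+1} R(σ)` on `W`.
Proof.  `R(σ) R(h) = R(σ h) R(σ)`; `σ (Hs j)`, `σ (ω j)` is a system at `o (j+1)` up to the
Iwahori subgroup (asset helper415: `valued_onG415`, `inIwahori_onG415`, locality); `R(σ) ψ ∈ W`
(`BaseStableU675`); two systems at the same place define the same operators on `W`. -/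
def OpsSigUC675 : Prop :=
  ∀ (ℓ : ℕ) (Φ : HeckeEigensystem K' ℂ) (U : H29.UpData K'), IsSetupU675 ℓ Φ U →
    BaseStableU675 U →
    ∀ (Hs : ℕ → Finset (G K')) (ω : ℕ → G K'), IsIwSysU675 U Hs ω →
      ∀ (j : ℕ) (ψ : G K' → ℂ), IsWFn U.𝔑₀ U.R'.r ℓ U.o ψ → ∀ x : G K',
        T5.Rsig U.s (cosetOp (Hs j) ψ) x = cosetOp (Hs (j + 1)) (T5.Rsig U.s ψ) x ∧
        T5.Rsig U.s (trOp561 (ω j) ψ) x = trOp561 (ω (j + 1)) (T5.Rsig U.s ψ) x

/-- **LEAF B4.8 = OPS-LINK.**  `!![a,1;1,0] !![0,1;ϖ,0] = !![ϖ,a;0,1] = !![1,a;0,1] !![ϖ,0;0,1]`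
is in `I t I`; `ω² = ϖ`. -/
def OpsLinkUC675 : Prop :=
  ∀ (ℓ : ℕ) (Φ : HeckeEigensystem K' ℂ) (U : H29.UpData K'), IsSetupU675 ℓ Φ U →
    ∀ (Hs : ℕ → Finset (G K')) (ω : ℕ → G K'), IsIwSysU675 U Hs ω →
      IsIwCosetSystem (U.o 0) ((Hs 0).map (mulRightEmbedding (ω 0))) ∧
      IsScalarUniformizerAt (U.o 0) (ω 0 * ω 0)

/-- **LEAF B4.9 = BAD-OP.**  The Hecke operator of a bad element: a finite system of
representatives of `U g U / U` exists (`U = U(𝔑₀)` is compact open in the finite adelic group,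
`g` is trivial at infinity), the operator preserves the classes (as in B4.2: `g` is supported at
the places of `S'` outside the orbit) and commutes with the operators along the orbit
(`u h = h' u'` with `u` in the Iwahori subgroups along the orbit, which normalise the level
group). -/
def BadOpUC675 : Prop :=
  ∀ (ℓ : ℕ) (Φ : HeckeEigensystem K' ℂ) (U : H29.UpData K'), IsSetupU675 ℓ Φ U →
    ∀ g : G K', U.IsBad g →
      ∃ Hg : Finset (G K'), IsDblCosetSystem U.𝔑₀ g Hg ∧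
        (∀ (ψ : G K' → ℂ) (C : EigData K'), IsEigFn U.𝔑₀ U.R'.r ℓ U.o ψ C →
          IsEigFn U.𝔑₀ U.R'.r ℓ U.o (cosetOp Hg ψ) C) ∧
        ∀ (Hs : ℕ → Finset (G K')) (ω : ℕ → G K'), IsIwSysU675 U Hs ω →
          ∀ (j : ℕ) (ψ : G K' → ℂ), IsWFn U.𝔑₀ U.R'.r ℓ U.o ψ → ∀ x : G K',
            cosetOp Hg (cosetOp (Hs j) ψ) x = cosetOp (Hs j) (cosetOp Hg ψ) x ∧
            cosetOp Hg (trOp561 (ω j) ψ) x = trOp561 (ω j) (cosetOp Hg ψ) x

end Nodes

/-! ## 3. The tops, core form -/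

section Tops

variable {K' : Type} [Field K'] [NumberField K']

/-- **THE TOP OF THE NODE T7.L2.2.B.** -/
theorem blocksUC_of675 (hZ : BlocksAsmUC675 K') (hW : WSpecUC675 K') (hC : CompleteUC675 K')
    (hS : SigmaUC675 K') (hO : OpsUC675 K') (hP : PhiUC675 K') (hF : OffWUC675 K') :
    BlocksUC675 K' :=
  hZ hW hC hS hO hP hF


/-- **THE TOP OF THE NODE T7.L2.2.B4.** -/
theorem opsUC_of675 (hX : IwSysExistsUC675 K') (hE : OpsEigUC675 K') (hR : OpsRelUC675 K')
    (hM : OpsCommUC675 K') (hP : OpsPerUC675 K') (hA : OpsAdjUC675 K')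
    (hS : OpsSigUC675 K') (hL : OpsLinkUC675 K') (hB : BadOpUC675 K') : OpsUC675 K' := by
  intro ℓ hℓ hcplx Φ hΦ U hU hst g hg
  have hs : IsSetupU675 ℓ Φ U := ⟨hℓ, hcplx, hΦ, hU⟩
  obtain ⟨Hs, ω, hsys⟩ := hX ℓ Φ U hs
  obtain ⟨Hg, hdbl, hBe, hBc⟩ := hB ℓ Φ U hs g hg
  refine ⟨Hs, ω, Hg, ?_⟩
  exact
    { S_eig := fun j ψ C h => (hE ℓ Φ U hs Hs ω hsys j ψ C h).1
      ρ_eig := fun j ψ C h => (hE ℓ Φ U hs Hs ω hsys j ψ C h).2
      B_eig := hBe
      S_quad := fun j ψ h x => (hR ℓ Φ U hs Hs ω hsys j ψ h x).1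
      ρ_central := fun j ψ h x => (hR ℓ Φ U hs Hs ω hsys j ψ h x).2
      comm_SS := fun j j' h1 h2 h3 ψ _ x => (hM ℓ Φ U hs Hs ω hsys j j' h1 h2 h3 ψ x).1
      comm_Sρ := fun j j' h1 h2 h3 ψ _ x => (hM ℓ Φ U hs Hs ω hsys j j' h1 h2 h3 ψ x).2.1
      comm_ρρ := fun j j' h1 h2 h3 ψ _ x => (hM ℓ Φ U hs Hs ω hsys j j' h1 h2 h3 ψ x).2.2
      per_S := fun j ψ h x => (hP ℓ Φ U hs Hs ω hsys j ψ h x).1
      per_ρ := fun j ψ h x => (hP ℓ Φ U hs Hs ω hsys j ψ h x).2
      B_S := fun j ψ h x => (hBc Hs ω hsys j ψ h x).1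
      B_ρ := fun j ψ h x => (hBc Hs ω hsys j ψ h x).2
      S_adj := fun j ψ χ h1 h2 => (hA ℓ Φ U hs Hs ω hsys j ψ χ h1 h2).1
      ρ_iso := fun j ψ χ h1 h2 => (hA ℓ Φ U hs Hs ω hsys j ψ χ h1 h2).2
      σ_S := fun j ψ h x => (hS ℓ Φ U hs hst Hs ω hsys j ψ h x).1
      σ_ρ := fun j ψ h x => (hS ℓ Φ U hs hst Hs ω hsys j ψ h x).2
      dbl := hdbl
      iwsys := (hL ℓ Φ U hs Hs ω hsys).1
      unif := (hL ℓ Φ U hs Hs ω hsys).2 }


end Tops

/-! ## 4. The cyclic step: the structures and the leaves of helper561 from the core forms -/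

section Cyclic

variable {K K' : Type} [Field K] [NumberField K] [Field K'] [NumberField K'] [Algebra K K']

theorem baseStableU_iff675 {Dt : L2Data K K'} :
    BaseStableU675 (H29.upOf Dt) ↔ BaseStable561 Dt := Iff.rfl

theorem isClassBasisU_iff675 {Dt : L2Data K K'} {ℓ : ℕ} {C : EigData K'} {n : ℕ}
    {v : Fin n → G K' → ℂ} :
    IsClassBasisU675 (H29.upOf Dt) ℓ C n v ↔ IsClassBasis561 Dt ℓ C n v :=
  ⟨fun h => ⟨h.eig, h.orth, h.span⟩, fun h => ⟨h.eig, h.orth, h.span⟩⟩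

theorem isBlocksU_iff675 {ℓ : ℕ} {Φ : HeckeEigensystem K' ℂ} {Dt : L2Data K K'} {g : G K'}
    {e₀ : ℕ → G K' → ℂ} {𝔅 : Blocks561 K'} :
    IsBlocksU675 ℓ Φ (H29.upOf Dt) g e₀ 𝔅 ↔ IsBlocks561 ℓ Φ Dt g e₀ 𝔅 :=
  ⟨fun h => ⟨h.onb, h.inj, h.unitary, h.distinct, fun i => isClassBasisU_iff675.1 (h.basis i),
      h.phi, h.iw, h.coeff, h.off⟩,
    fun h => ⟨h.onb, h.inj, h.unitary, h.distinct, fun i => isClassBasisU_iff675.2 (h.basis i),
      h.phi, h.iw, h.coeff, h.off⟩⟩

theorem isWSpecU_iff675 {Dt : L2Data K K'} {ℓ : ℕ} {ι : Type} {n : ι → ℕ} {C : ι → EigData K'}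
    {v : (i : ι) → Fin (n i) → G K' → ℂ} :
    IsWSpecU675 (H29.upOf Dt) ℓ ι n C v ↔ IsWSpec561 Dt ℓ ι n C v :=
  ⟨fun h => ⟨h.countable, h.unitary, h.distinct, fun i => isClassBasisU_iff675.1 (h.basis i),
      h.orth, h.complete, h.cover⟩,
    fun h => ⟨h.countable, h.unitary, h.distinct, fun i => isClassBasisU_iff675.2 (h.basis i),
      h.orth, h.complete, h.cover⟩⟩

theorem isWOpsU_iff675 {Dt : L2Data K K'} {ℓ : ℕ} {g : G K'} {Hs : ℕ → Finset (G K')}
    {ω : ℕ → G K'} {Hg : Finset (G K')} :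
    IsWOpsU675 (H29.upOf Dt) ℓ g Hs ω Hg ↔ IsWOps561 Dt ℓ g Hs ω Hg :=
  ⟨fun h => ⟨h.S_eig, h.ρ_eig, h.B_eig, h.S_quad, h.ρ_central, h.comm_SS, h.comm_Sρ,
      h.comm_ρρ, h.per_S, h.per_ρ, h.B_S, h.B_ρ, h.S_adj, h.ρ_iso, h.σ_S, h.σ_ρ, h.dbl,
      h.iwsys, h.unif⟩,
    fun h => ⟨h.S_eig, h.ρ_eig, h.B_eig, h.S_quad, h.ρ_central, h.comm_SS, h.comm_Sρ,
      h.comm_ρρ, h.per_S, h.per_ρ, h.B_S, h.B_ρ, h.S_adj, h.ρ_iso, h.σ_S, h.σ_ρ, h.dbl,
      h.iwsys, h.unif⟩⟩

theorem isIwSysU_iff675 {Dt : L2Data K K'} {Hs : ℕ → Finset (G K')} {ω : ℕ → G K'} :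
    IsIwSysU675 (H29.upOf Dt) Hs ω ↔ IsIwSys561 Dt Hs ω :=
  ⟨fun h => ⟨h.ω_local, h.ω_comp, h.Hs_card, h.Hs_local, h.Hs_comp, h.Hs_inj⟩,
    fun h => ⟨h.ω_local, h.ω_comp, h.Hs_card, h.Hs_local, h.Hs_comp, h.Hs_inj⟩⟩

theorem isSetupU_of675 {ℓ : ℕ} {Φ : HeckeEigensystem K' ℂ} {Dt : L2Data K K'}
    (h : IsSetup561 ℓ Φ Dt) : IsSetupU675 ℓ Φ (H29.upOf Dt) :=
  ⟨h.cyc.prime, H29.totCplx_of_base h.cplx, h.cusp, H29.isUpData_upOf h.data⟩

/-- **`H561.BlocksC561` from the core form.** -/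
theorem blocksC561_of_U675 (h : BlocksUC675 K') : BlocksC561 K K' := by
  intro ℓ hcyc _ hcplx Φ hΦ _ Dt hDt hst g hg
  obtain ⟨e₀, 𝔅, hB⟩ := h ℓ hcyc.prime (H29.totCplx_of_base hcplx) Φ hΦ (H29.upOf Dt)
    (H29.isUpData_upOf hDt) hst g hg
  exact ⟨e₀, 𝔅, isBlocksU_iff675.1 hB⟩

/-- **`H561.WSpecC561` from the core form.** -/
theorem wSpecC561_of_U675 (h : WSpecUC675 K') : WSpecC561 K K' := by
  intro ℓ hcyc _ hcplx Φ hΦ _ Dt hDt
  obtain ⟨ι, n, C, v, hW⟩ := h ℓ hcyc.prime (H29.totCplx_of_base hcplx) Φ hΦ (H29.upOf Dt)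
    (H29.isUpData_upOf hDt)
  exact ⟨ι, n, C, v, isWSpecU_iff675.1 hW⟩

/-- **`H561.CompleteC561` from the core form.** -/
theorem completeC561_of_U675 (h : CompleteUC675 K') : CompleteC561 K K' := by
  intro ℓ hcyc _ hcplx Φ hΦ _ Dt hDt g hg ι n C v hW
  exact h ℓ hcyc.prime (H29.totCplx_of_base hcplx) Φ hΦ (H29.upOf Dt) (H29.isUpData_upOf hDt)
    g hg ι n C v (isWSpecU_iff675.2 hW)

/-- **`H561.SigmaC561` from the core form.** -/
theorem sigmaC561_of_U675 (h : SigmaUC675 K') : SigmaC561 K K' := by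
  intro ℓ hcyc _ hcplx Φ hΦ _ Dt hDt hst
  exact h ℓ hcyc.prime (H29.totCplx_of_base hcplx) Φ hΦ (H29.upOf Dt) (H29.isUpData_upOf hDt)
    hst

/-- **`H561.OpsC561` from the core form.** -/
theorem opsC561_of_U675 (h : OpsUC675 K') : OpsC561 K K' := by
  intro ℓ hcyc _ hcplx Φ hΦ _ Dt hDt hst g hg
  obtain ⟨Hs, ω, Hg, hO⟩ := h ℓ hcyc.prime (H29.totCplx_of_base hcplx) Φ hΦ (H29.upOf Dt)
    (H29.isUpData_upOf hDt) hst g hg
  exact ⟨Hs, ω, Hg, isWOpsU_iff675.1 hO⟩

/-- **`H561.PhiC561` from the core form.** -/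
theorem phiC561_of_U675 (h : PhiUC675 K') : PhiC561 K K' := by
  intro ℓ hcyc _ hcplx Φ hΦ _ Dt hDt
  exact h ℓ hcyc.prime (H29.totCplx_of_base hcplx) Φ hΦ (H29.upOf Dt) (H29.isUpData_upOf hDt)

/-- **`H561.OffWC561` from the core form.** -/
theorem offWC561_of_U675 (h : OffWUC675 K') : OffWC561 K K' := by
  intro ℓ hcyc _ hcplx Φ hΦ _ Dt hDt g hg ι n C v hW
  exact h ℓ hcyc.prime (H29.totCplx_of_base hcplx) Φ hΦ (H29.upOf Dt) (H29.isUpData_upOf hDt)
    g hg ι n C v (isWSpecU_iff675.2 hW)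

/-- **`H561.IwSysExistsC561` from the core form.** -/
theorem iwSysExistsC561_of_U675 (h : IwSysExistsUC675 K') : IwSysExistsC561 K K' := by
  intro ℓ Φ Dt hs
  obtain ⟨Hs, ω, hsys⟩ := h ℓ Φ (H29.upOf Dt) (isSetupU_of675 hs)
  exact ⟨Hs, ω, isIwSysU_iff675.1 hsys⟩

/-- **`H561.OpsEigC561` from the core form.** -/
theorem opsEigC561_of_U675 (h : OpsEigUC675 K') : OpsEigC561 K K' :=
  fun ℓ Φ Dt hs Hs ω hsys =>
    h ℓ Φ (H29.upOf Dt) (isSetupU_of675 hs) Hs ω (isIwSysU_iff675.2 hsys)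

/-- **`H561.OpsRelC561` from the core form.** -/
theorem opsRelC561_of_U675 (h : OpsRelUC675 K') : OpsRelC561 K K' :=
  fun ℓ Φ Dt hs Hs ω hsys =>
    h ℓ Φ (H29.upOf Dt) (isSetupU_of675 hs) Hs ω (isIwSysU_iff675.2 hsys)

/-- **`H561.OpsCommC561` from the core form.** -/
theorem opsCommC561_of_U675 (h : OpsCommUC675 K') : OpsCommC561 K K' :=
  fun ℓ Φ Dt hs Hs ω hsys =>
    h ℓ Φ (H29.upOf Dt) (isSetupU_of675 hs) Hs ω (isIwSysU_iff675.2 hsys)

/-- **`H561.OpsPerC561` from the core form.** -/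
theorem opsPerC561_of_U675 (h : OpsPerUC675 K') : OpsPerC561 K K' :=
  fun ℓ Φ Dt hs Hs ω hsys =>
    h ℓ Φ (H29.upOf Dt) (isSetupU_of675 hs) Hs ω (isIwSysU_iff675.2 hsys)

/-- **`H561.OpsAdjC561` from the core form.** -/
theorem opsAdjC561_of_U675 (h : OpsAdjUC675 K') : OpsAdjC561 K K' :=
  fun ℓ Φ Dt hs Hs ω hsys =>
    h ℓ Φ (H29.upOf Dt) (isSetupU_of675 hs) Hs ω (isIwSysU_iff675.2 hsys)

/-- **`H561.OpsSigC561` from the core form.** -/
theorem opsSigC561_of_U675 (h : OpsSigUC675 K') : OpsSigC561 K K' :=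
  fun ℓ Φ Dt hs hst Hs ω hsys =>
    h ℓ Φ (H29.upOf Dt) (isSetupU_of675 hs) hst Hs ω (isIwSysU_iff675.2 hsys)

/-- **`H561.OpsLinkC561` from the core form.** -/
theorem opsLinkC561_of_U675 (h : OpsLinkUC675 K') : OpsLinkC561 K K' :=
  fun ℓ Φ Dt hs Hs ω hsys =>
    h ℓ Φ (H29.upOf Dt) (isSetupU_of675 hs) Hs ω (isIwSysU_iff675.2 hsys)

/-- **`H561.BadOpC561` from the core form.** -/
theorem badOpC561_of_U675 (h : BadOpUC675 K') : BadOpC561 K K' := by
  intro ℓ Φ Dt hs g hg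
  obtain ⟨Hg, h1, h2, h3⟩ := h ℓ Φ (H29.upOf Dt) (isSetupU_of675 hs) g hg
  exact ⟨Hg, h1, h2, fun Hs ω hsys => h3 Hs ω (isIwSysU_iff675.2 hsys)⟩

end Cyclic

/-! ## Appendix: the equation lemmas of the definitions of this file are realised HERE -/

theorem eqns_realised_blocksU675 : True := by
  have _a0_1 := @BaseStableU675.eq_1
  have _a0_2 := @BaseStableU675.eq_def
  have _a0_3 := @BaseStableU675.eq_unfold
  have _a1_1 := @BlocksUC675.eq_1
  have _a1_2 := @BlocksUC675.eq_def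
  have _a1_3 := @BlocksUC675.eq_unfold
  have _a2_1 := @WSpecUC675.eq_1
  have _a2_2 := @WSpecUC675.eq_def
  have _a2_3 := @WSpecUC675.eq_unfold
  have _a3_1 := @CompleteUC675.eq_1
  have _a3_2 := @CompleteUC675.eq_def
  have _a3_3 := @CompleteUC675.eq_unfold
  have _a4_1 := @SigmaUC675.eq_1
  have _a4_2 := @SigmaUC675.eq_def
  have _a4_3 := @SigmaUC675.eq_unfold
  have _a5_1 := @OpsUC675.eq_1
  have _a5_2 := @OpsUC675.eq_def
  have _a5_3 := @OpsUC675.eq_unfold
  have _a6_1 := @PhiUC675.eq_1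
  have _a6_2 := @PhiUC675.eq_def
  have _a6_3 := @PhiUC675.eq_unfold
  have _a7_1 := @OffWUC675.eq_1
  have _a7_2 := @OffWUC675.eq_def
  have _a7_3 := @OffWUC675.eq_unfold
  have _a8_1 := @BlocksAsmUC675.eq_1
  have _a8_2 := @BlocksAsmUC675.eq_def
  have _a8_3 := @BlocksAsmUC675.eq_unfold
  have _a9_1 := @IwSysExistsUC675.eq_1
  have _a9_2 := @IwSysExistsUC675.eq_def
  have _a9_3 := @IwSysExistsUC675.eq_unfold
  have _a10_1 := @OpsEigUC675.eq_1
  have _a10_2 := @OpsEigUC675.eq_def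
  have _a10_3 := @OpsEigUC675.eq_unfold
  have _a11_1 := @OpsRelUC675.eq_1
  have _a11_2 := @OpsRelUC675.eq_def
  have _a11_3 := @OpsRelUC675.eq_unfold
  have _a12_1 := @OpsCommUC675.eq_1
  have _a12_2 := @OpsCommUC675.eq_def
  have _a12_3 := @OpsCommUC675.eq_unfold
  have _a13_1 := @OpsPerUC675.eq_1
  have _a13_2 := @OpsPerUC675.eq_def
  have _a13_3 := @OpsPerUC675.eq_unfold
  have _a14_1 := @OpsAdjUC675.eq_1
  have _a14_2 := @OpsAdjUC675.eq_def
  have _a14_3 := @OpsAdjUC675.eq_unfold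
  have _a15_1 := @OpsSigUC675.eq_1
  have _a15_2 := @OpsSigUC675.eq_def
  have _a15_3 := @OpsSigUC675.eq_unfold
  have _a16_1 := @OpsLinkUC675.eq_1
  have _a16_2 := @OpsLinkUC675.eq_def
  have _a16_3 := @OpsLinkUC675.eq_unfold
  have _a17_1 := @BadOpUC675.eq_1
  have _a17_2 := @BadOpUC675.eq_def
  have _a17_3 := @BadOpUC675.eq_unfold
  trivial

end Fermat.Agent.LT.T7.UB675

end

end
-- ===== PACK-END LT/T7/H675/BlocksU.lean

-- ===== PACK-BEGIN LT/T7/H16/OpsAdj561.lean
section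






/-!
# Row LT, tower T7, node T7.L2.2.B4 `OpsC561`: leaf B4.6 `OpsAdjC561`, VERBATIM (helper16)

OFF-MAIN.  Unconditional.

    opsAdjC561_16 : H561.OpsAdjC561 K K'     (`LT/T7/H561/OpsSpec.lean`, sha256 17293f38)

`S_j = cosetOp (Hs j)` is symmetric and `ρ_j = trOp561 (ω j)` is an isometry on the invariant
cusp functions of the base level, for EVERY `j : ℕ` (the orbit is periodic: `orbit_mem16`).
From `cosetOp_symm16`, `innerD_translate16` (`OpsAdj.lean`) and the closed leaf `T1.AdNormC`.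
-/

set_option autoImplicit false

open IsDedekindDomain NumberField MeasureTheory

noncomputable section

namespace Fermat.Agent.LT.T7.H16

open Fermat.Agent.LT.H556 Fermat.Agent.LT.H556.A0 Fermat.Agent.LT.T5 Fermat.Agent.LT.H129
open Fermat.Agent.LT.T7

attribute [local instance] Fermat.Agent.LT.T5.instMeasurableSpaceG

/-- Every place `o j` of the orbit is one of `o 0, …, o (l - 1)`. -/
theorem orbit_mem16 {K : Type} [Field K] [NumberField K] (s : AdelicAut K) (l : ℕ)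
    (k : Subfield K) (hc : IsCyclicOfDegree s l k) (o : ℕ → HeightOneSpectrum (𝓞 K))
    (ho : ∀ j : ℕ, PlaceRel s (o j) (o (j + 1))) (j : ℕ) : ∃ i < l, o j = o i := by
  induction j with
  | zero => exact ⟨0, hc.pos, rfl⟩
  | succ j ih =>
    obtain ⟨i, hi, e⟩ := ih
    have h1 : o (j + 1) = o (i + 1) :=
      LT.H415.finRel_unique415 s.σ (o j) _ _ (ho j) (by rw [e]; exact ho i)
    rcases Nat.lt_or_ge (i + 1) l with h | h
    · exact ⟨i + 1, h, h1⟩
    · have h2 : i + 1 = l := le_antisymm hi h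
      refine ⟨0, hc.pos, ?_⟩
      rw [h1, h2]
      exact T5.H415.orbit_period415 s l k hc o ho

theorem trivAtInf_one16 {K : Type} [Field K] [NumberField K] (w : InfinitePlace K) :
    TrivAtInf w (1 : G K) := by
  rw [trivAtInf_iff129, map_one]

theorem isBad_one16 {K K' : Type} [Field K] [NumberField K] [Field K'] [NumberField K']
    [Algebra K K'] (Dt : L2Data K K') : Dt.IsBad 1 :=
  ⟨fun w => trivAtInf_one16 w, fun v _ => finComp_one16 v⟩

variable (K K' : Type) [Field K] [NumberField K] [Field K'] [NumberField K'] [Algebra K K']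

/-- **Leaf B4.6 `OpsAdjC561` of helper561, VERBATIM.** -/
theorem opsAdjC561_16 : H561.OpsAdjC561 K K' := by
  intro ℓ Φ Dt hs Hs ω hsys j ψ χ hψ hχ
  have hDt := hs.data
  have hcomp := hDt.comp 1 (isBad_one16 Dt)
  have hF : IsFrame Dt.R'.μ Dt.R'.F := hcomp.frame'.frame
  have hr : IsRayGen Dt.R'.r := hcomp.frame'.ray
  have hcyc : IsCyclicOfDegree Dt.s Dt.l Dt.k := hcomp.cyc
  have hN := T1.H309.adNormC309 (K := K')
  obtain ⟨i, hi, e⟩ := orbit_mem16 Dt.s Dt.l Dt.k hcyc Dt.o hDt.orbit_rel j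
  have hi' : i < ℓ := by rw [← hDt.deg]; exact hi
  have hAψ := isAutBdd16_of_cusp hψ.cusp
  have hAχ := isAutBdd16_of_cusp hχ.cusp
  refine ⟨?_, ?_⟩
  · refine cosetOp_symm16 (w := Dt.o j) hN hF hr hAψ hAχ (iwInv_local16 hψ.iw hi' e)
      (iwInv_local16 hχ.iw hi' e) (Hs j) fun h hh => ⟨hsys.Hs_local j h hh, ?_⟩
    obtain ⟨a, ha, hc⟩ := hsys.Hs_comp j h hh
    rw [hc]
    exact isJ16_weylRep ((HeightOneSpectrum.mem_adicCompletionIntegers _ _ _).1 ha)
  · exact innerD_translate16 hN hF hr hAψ hAχ (ω j)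

end Fermat.Agent.LT.T7.H16

end

end
-- ===== PACK-END LT/T7/H16/OpsAdj561.lean

-- ===== PACK-BEGIN LT/T7/H729/SphFormQ.lean
section




/-!
# Row LT, tower T7, leaf T7.L2Q.3.3 `SDQ140.SphFormQC` (helper729)

OFF-MAIN.  PROVED (no hole, nothing assumed beyond the hypothesis `T6.ArchClassC`, which is closed
elsewhere).  ADDITIVE (new names only).  Spec: `LT/T7/H140/SpecDownQSpec.lean`
(helper140@26e3e6c54, sha256 7aa829b7), byte-identical copy.

    sphFormQC729 : T6.ArchClassC → ∀ n : L2Q.QWt, SDQ140.SphFormQC n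

Route (as in the docstring of the leaf): `e x = ψ (y₀ · locInf x)` with `ψ y₀ ≠ 0`; `e` is
continuous, of weight `n.wt` for `T6.wtChar`, invariant under the positive scalars; the circle
means of `T6.ArchClassC` are those of `L2Q.MeanEigR0` (substitution `θ = 2 φ`, the integrand is
`π`-periodic) resp. `L2Q.MeanEigR1` (substitution `θ ↦ -θ`, `2π`-periodic).
-/

set_option autoImplicit false

open AutomorphicForm IsDedekindDomain NumberField MeasureTheory
open scoped ComplexConjugate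

noncomputable section

namespace Fermat.Agent.LT.T7.SphQ729

open Fermat.Agent.LT.H556 Fermat.Agent.LT.H556.A0 Fermat.Agent.LT.H670 Fermat.Agent.LT.T7
open Fermat.Agent.LT.T7.L2Q Fermat.Agent.LT.T7.SDQ140

/-- **LEAF T7.L2Q.3.3, type `w0`.** -/
theorem sphFormQC_w0_729 (hArch : T6.ArchClassC) : SphFormQC QWt.w0 := by
  intro 𝔫 r u ψ c _ hE hne
  have hw : ∀ w : InfinitePlace ℚ, w = Rat.infinitePlace := fun w => Subsingleton.elim _ _
  have hwt : ∀ k : G ℚ, IsArchCompact Rat.infinitePlace k →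
      ∀ g : G ℚ, ψ (g * k) = T5.trivType k * ψ g :=
    hE.inv.cusp.aut.arch_compact Rat.infinitePlace
  have hmean : MeanEigR0 ψ Rat.infinitePlace (c.m Rat.infinitePlace) :=
    hE.mean Rat.infinitePlace
  obtain ⟨s, hs⟩ := archClass_apply729 hArch 0 (Or.inl rfl) ψ T5.trivType
    (c.m Rat.infinitePlace) hE.inv.cusp.cont hne
    (fun k _ => by rw [wtChar_zero729]; rfl) hwt
    (hE.inv.arch_scalar Rat.infinitePlace)
    (fun t ht g => mean_w0_729 hE.inv.cusp.cont hwt hmean t ht g)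
  refine ⟨s, fun w t ht => ?_⟩
  rw [hw w]
  exact hs t ht

/-- **LEAF T7.L2Q.3.3, type `w1`.** -/
theorem sphFormQC_w1_729 (hArch : T6.ArchClassC) : SphFormQC QWt.w1 := by
  intro 𝔫 r u ψ c _ hE hne
  have hw : ∀ w : InfinitePlace ℚ, w = Rat.infinitePlace := fun w => Subsingleton.elim _ _
  have hwt : ∀ k : G ℚ, IsArchCompact Rat.infinitePlace k →
      ∀ g : G ℚ, ψ (g * k) = wtOne k * ψ g :=
    hE.inv.cusp.aut.arch_compact Rat.infinitePlace
  have hmean : MeanEigR1 ψ Rat.infinitePlace (c.m Rat.infinitePlace) :=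
    hE.mean Rat.infinitePlace
  obtain ⟨s, hs⟩ := archClass_apply729 hArch (-1) (Or.inr (Or.inr rfl)) ψ wtOne
    (c.m Rat.infinitePlace) hE.inv.cusp.cont hne
    (fun k hk => wtOne_locInf729 hk) hwt
    (hE.inv.arch_scalar Rat.infinitePlace)
    (fun t ht g => mean_w1_729 hmean t ht g)
  refine ⟨s, fun w t ht => ?_⟩
  rw [hw w]
  exact hs t ht

/-- **LEAF T7.L2Q.3.3 `SDQ140.SphFormQC`** (both types), from the closed leaf
`T6.ArchClassC`. -/
theorem sphFormQC729 (hArch : T6.ArchClassC) : ∀ n : QWt, SphFormQC n := by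
  intro n
  cases n with
  | w0 => exact sphFormQC_w0_729 hArch
  | w1 => exact sphFormQC_w1_729 hArch

end Fermat.Agent.LT.T7.SphQ729

end

end
-- ===== PACK-END LT/T7/H729/SphFormQ.lean

-- ===== PACK-BEGIN LT/T7/H771/RegSupp0.lean
section



/-!
# Row LT, tower T7, leaf T7.L2.1.G2 `RegSupp0C` (registry 2295) -- helper771

OFF-MAIN.  `regSupp0C771 (K) : H893.RegSupp0C K`, VERBATIM (frozen Prop of
`LT/T7/H893/SupplyPreSpec.lean`, helper893@100cdf206, sha256 37db5856), unconditional, every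
number field.  Imports: byte copies of the Spec closure of helper893 and of the Iwahori kit of
helper340 (`T7/H340/IwKit.lean` 93078bb8, `IwLocal.lean` f1cf3d73, local kit of helper129).

## Proof

The SHAPE of the elements of `I diag(ϖ^m, 1) I` (`IsShape771 v m M`): integral entries,
`v (det M) = exp (-m)`, lower left entry in the maximal ideal, lower right entry a unit.
* the Iwahori subgroup has shape `0`, the double coset `I diag(ϖ, 1) I` has shape `1` (kit);
* shape `1` times shape `m` is shape `m + 1` (`isShape_mul771`);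
* a scalar multiple `s M` of a matrix of shape `m` is `n⁺(x) diag(c, d) n⁻(y)` with `x` integral,
  `y` in the maximal ideal, `v c = exp (-m) v d` (`isShape_factor771`).
A point `y` of the support of `regL u z H k m φ` is `z^k h₁ ⋯ h_m y₀` with `h_i ∈ H` and `y₀` in
the support of `φ` (`supp_iterate771`); all factors but `y₀` are local at `u`.
-/

set_option autoImplicit false

open IsDedekindDomain NumberField IsDedekindDomain.HeightOneSpectrum
open Fermat.Agent.LT.H556 Fermat.Agent.LT.H556.A0 Fermat.Agent.LT.H129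

noncomputable section

namespace Fermat.Agent.LT.T7.H771

open Fermat.Agent.LT.T7 Fermat.Agent.LT.T7.H340 Fermat.Agent.LT.T7.H893

/-! ## 1. Local algebra -/

section Local

variable {F : Type*} [Field F] {v : Valuation F (WithZero (Multiplicative ℤ))}

/-- The shape of the elements of `I diag(ϖ^m, 1) I`. -/
def IsShape771 (v : Valuation F (WithZero (Multiplicative ℤ))) (m : ℕ) (M : GL (Fin 2) F) :
    Prop :=
  (∀ i j, v ((M : Matrix (Fin 2) (Fin 2) F) i j) ≤ 1) ∧
    v (M : Matrix (Fin 2) (Fin 2) F).det = WithZero.exp (-(m : ℤ)) ∧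
    v ((M : Matrix (Fin 2) (Fin 2) F) 1 0) < 1 ∧
    v ((M : Matrix (Fin 2) (Fin 2) F) 1 1) = 1

theorem isShape_zero771 {M : GL (Fin 2) F} (h : IsIwG340 v M) : IsShape771 v 0 M :=
  ⟨h.1, by rw [h.val_det]; simp, h.2.2, h.val_11⟩

theorem isShape_one771 {M : GL (Fin 2) F} (h : IsIwT340 v M) : IsShape771 v 1 M :=
  ⟨h.1, by simpa using h.2.1, h.2.2.2.1, h.2.2.2.2⟩

theorem mul_lt_one771 {a b : WithZero (Multiplicative ℤ)} (ha : a < 1) (hb : b ≤ 1) :
    a * b < 1 :=
  lt_of_le_of_lt (by simpa using mul_le_mul' (le_refl a) hb) ha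

theorem mul_lt_one'771 {a b : WithZero (Multiplicative ℤ)} (ha : a ≤ 1) (hb : b < 1) :
    a * b < 1 := by
  rw [mul_comm]
  exact mul_lt_one771 hb ha

theorem isShape_mul771 {A B : GL (Fin 2) F} {m : ℕ} (hA : IsShape771 v 1 A)
    (hB : IsShape771 v m B) : IsShape771 v (m + 1) (A * B) := by
  obtain ⟨hA1, hA2, hA3, hA4⟩ := hA
  obtain ⟨hB1, hB2, hB3, hB4⟩ := hB
  have hent : ∀ i j, ((A * B : GL (Fin 2) F) : Matrix (Fin 2) (Fin 2) F) i j
      = (A : Matrix (Fin 2) (Fin 2) F) i 0 * (B : Matrix (Fin 2) (Fin 2) F) 0 j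
        + (A : Matrix (Fin 2) (Fin 2) F) i 1 * (B : Matrix (Fin 2) (Fin 2) F) 1 j := by
    intro i j
    rw [Matrix.GeneralLinearGroup.coe_mul, Matrix.mul_apply, Fin.sum_univ_two]
  refine ⟨?_, ?_, ?_, ?_⟩
  · intro i j
    rw [hent]
    refine le_trans (Valuation.map_add _ _ _) (max_le ?_ ?_)
    · rw [map_mul]; exact mul_le_one' (hA1 i 0) (hB1 0 j)
    · rw [map_mul]; exact mul_le_one' (hA1 i 1) (hB1 1 j)
  · rw [Matrix.GeneralLinearGroup.coe_mul, Matrix.det_mul, map_mul, hA2, hB2,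
      ← WithZero.exp_add]
    congr 1
    push_cast
    ring
  · rw [hent]
    refine Valuation.map_add_lt _ ?_ ?_
    · rw [map_mul]; exact mul_lt_one771 hA3 (hB1 0 0)
    · rw [map_mul]; exact mul_lt_one'771 (hA1 1 1) hB3
  · rw [hent]
    have h1 : v ((A : Matrix (Fin 2) (Fin 2) F) 1 0 * (B : Matrix (Fin 2) (Fin 2) F) 0 1) < 1 := by
      rw [map_mul]; exact mul_lt_one771 hA3 (hB1 0 1)
    have h2 : v ((A : Matrix (Fin 2) (Fin 2) F) 1 1 * (B : Matrix (Fin 2) (Fin 2) F) 1 1) = 1 := by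
      rw [map_mul, hA4, hB4, one_mul]
    rw [Valuation.map_add_eq_of_lt_right v (by rw [h2]; exact h1), h2]

theorem isIwG340_lower771 {r : F} (hr : v r < 1) : IsIwG340 v (lowerU129 r) := by
  have key : ∀ x : F, v x ≤ 1 →
      ∀ i j, v (((lowerU129 x : GL (Fin 2) F) : Matrix (Fin 2) (Fin 2) F) i j) ≤ 1 := by
    intro x hx i j
    fin_cases i <;> fin_cases j <;> simp [lowerU129, hx]
  refine ⟨key r hr.le, ?_, ?_⟩
  · rw [lowerU129_inv]
    exact key (-r) (by rw [Valuation.map_neg]; exact hr.le)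
  · simpa [lowerU129] using hr

/-- A scalar multiple of a matrix of shape `m` is `n⁺(x) diag(c, d) n⁻(y)`. -/
theorem isShape_factor771 {M : GL (Fin 2) F} {m : ℕ} (h : IsShape771 v m M) (s : F)
    (hs : s ≠ 0) :
    ∃ x y c d : F, v x ≤ 1 ∧ v y < 1 ∧ d ≠ 0 ∧ v c = WithZero.exp (-(m : ℤ)) * v d ∧
      s • (M : Matrix (Fin 2) (Fin 2) F)
        = ((upperU129 x : GL (Fin 2) F) : Matrix (Fin 2) (Fin 2) F) * !![c, 0; 0, d]
          * ((lowerU129 y : GL (Fin 2) F) : Matrix (Fin 2) (Fin 2) F) := by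
  obtain ⟨h1, h2, h3, h4⟩ := h
  set a := (M : Matrix (Fin 2) (Fin 2) F) 0 0 with ha
  set b := (M : Matrix (Fin 2) (Fin 2) F) 0 1 with hb
  set c' := (M : Matrix (Fin 2) (Fin 2) F) 1 0 with hc'
  set d' := (M : Matrix (Fin 2) (Fin 2) F) 1 1 with hd'
  have hd0 : d' ≠ 0 := by
    intro h0
    rw [h0, map_zero] at h4
    exact zero_ne_one h4
  have hdet : (M : Matrix (Fin 2) (Fin 2) F).det = a * d' - b * c' := Matrix.det_fin_two _
  refine ⟨b / d', c' / d', s * (a * d' - b * c') / d', s * d', ?_, ?_, mul_ne_zero hs hd0, ?_, ?_⟩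
  · rw [map_div₀, h4, div_one]; exact h1 0 1
  · rw [map_div₀, h4, div_one]; exact h3
  · rw [map_div₀, map_mul, map_mul, h4, div_one, mul_one, ← hdet, h2, mul_comm]
  · ext i j
    fin_cases i <;> fin_cases j
    · simp [upperU129, lowerU129, Matrix.mul_apply, Fin.sum_univ_two, ← ha]
      field_simp
      ring
    · simp [upperU129, lowerU129, Matrix.mul_apply, Fin.sum_univ_two, ← hb]
      field_simp
    · simp [upperU129, lowerU129, Matrix.mul_apply, Fin.sum_univ_two, ← hc']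
      field_simp
    · simp [upperU129, lowerU129, Matrix.mul_apply, Fin.sum_univ_two, ← hd']

end Local

/-! ## 2. The support of the regular member -/

section Global

variable {K : Type} [Field K] [NumberField K]

theorem agree_trans771 {O : Set (HeightOneSpectrum (𝓞 K))} {a b c : G K}
    (h1 : T5.AgreeOutside O a b) (h2 : T5.AgreeOutside O b c) : T5.AgreeOutside O a c :=
  ⟨fun w => (h1.1 w).trans (h2.1 w), fun v hv => (h1.2 v hv).trans (h2.2 v hv)⟩

/-- Left multiplication by an element which is local at `u` does not change the components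
outside `u`. -/
theorem agree_of_local771 {u : HeightOneSpectrum (𝓞 K)} {h : G K} (hh : IsLocalAtFin u h)
    (y : G K) :
    T5.AgreeOutside {v | ∃ j < 1, v = (fun _ : ℕ => u) j} (h * y) y := by
  have h1 : T5.AgreeOutside {v | ∃ j < 1, v = (fun _ : ℕ => u) j} h 1 := by
    refine ⟨fun w => ?_, fun v hv => ?_⟩
    · funext i j
      have e1 := hh.1 w i j
      have e2 := (isLocalAtFin_one129 u).1 w i j
      unfold infComp
      rw [e1, e2]
    · have hne : v ≠ u := fun e => hv ⟨0, Nat.one_pos, e⟩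
      rw [Fermat.Agent.LT.H942.finComp_one942]
      exact hh.2 v hne
  have h2 := T5.H942.agreeOutside_mul942 _ h1 (T5.H942.agreeOutside_refl942 _ y)
  rwa [one_mul] at h2

theorem isLocalAtFin_zpow771 {u : HeightOneSpectrum (𝓞 K)} {z : G K} (hz : IsLocalAtFin u z)
    (k : ℤ) : IsLocalAtFin u (z ^ k) := by
  rw [isLocalAtFin_iff129] at *
  exact ⟨fun w => by rw [map_zpow, hz.1 w, one_zpow],
    fun v' hv => by rw [map_zpow, hz.2 v' hv, one_zpow]⟩

/-- The points of the support of `(iwL u H)^[m] φ`. -/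
theorem supp_iterate771 {u : HeightOneSpectrum (𝓞 K)} {H : Finset (G K)}
    (hH : IsIwCosetSystem u H) {φ : G K → ℂ} {C : Set (G K)}
    (hφ : T5.H32.IsIwSupported32 1 (fun _ => u) C φ) :
    ∀ (m : ℕ) (y : G K), ((iwL u H)^[m] φ) y ≠ 0 →
      IsShape771 (vw340 u) m (finCompHom129 u y) ∧
        ∃ c ∈ C, T5.AgreeOutside {v | ∃ j < 1, v = (fun _ : ℕ => u) j} y c := by
  intro m
  induction m with
  | zero =>
    intro y hy
    rw [Function.iterate_zero, id] at hy
    obtain ⟨h1, h2⟩ := hφ y hy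
    exact ⟨isShape_zero771 ((inIwahori_iff340 u y).1 (h1 0 Nat.one_pos)), h2⟩
  | succ m ih =>
    intro y hy
    rw [Function.iterate_succ_apply'] at hy
    unfold iwL at hy
    have hsum := right_ne_zero_of_mul hy
    obtain ⟨h, hhH, hne⟩ := Finset.exists_ne_zero_of_sum_ne_zero hsum
    obtain ⟨hsh, c, hcC, hag⟩ := ih (h⁻¹ * y) hne
    obtain ⟨hloc, hcos⟩ := hH.2.1 h hhH
    have ey : y = h * (h⁻¹ * y) := by rw [mul_inv_cancel_left]
    refine ⟨?_, c, hcC, ?_⟩
    · have e : finCompHom129 u y = finCompHom129 u h * finCompHom129 u (h⁻¹ * y) := by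
        rw [← map_mul, mul_inv_cancel_left]
      rw [e]
      exact isShape_mul771 (isShape_one771 (isIwT340_of_inIwahoriCoset hcos)) hsh
    · have := agree_of_local771 hloc (h⁻¹ * y)
      rw [mul_inv_cancel_left] at this
      exact agree_trans771 this hag

/-- **T7.L2.1.G2 `RegSupp0C`**, VERBATIM. -/
theorem regSupp0C771 (K : Type) [Field K] [NumberField K] : RegSupp0C K := by
  intro u H z hH hz φ C _ hφ k m y hy
  unfold regL ltr at hy
  obtain ⟨hsh, c, hcC, hag⟩ := supp_iterate771 hH hφ m ((z ^ k)⁻¹ * y) hy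
  obtain ⟨hzloc, cz, hcz, hzmat⟩ := hz
  have hcz0 : cz ≠ 0 := by
    intro h0
    rw [h0, map_zero] at hcz
    exact WithZero.exp_ne_zero.symm hcz
  have hagy : T5.AgreeOutside {v | ∃ j < 1, v = (fun _ : ℕ => u) j} y c := by
    have := agree_of_local771 (isLocalAtFin_zpow771 hzloc k) ((z ^ k)⁻¹ * y)
    rw [mul_inv_cancel_left] at this
    exact agree_trans771 this hag
  refine ⟨?_, ?_, c, hcC, hagy⟩
  · -- the component at `u`
    have ez : finCompHom129 u z
        = Matrix.GeneralLinearGroup.scalar (Fin 2) (Units.mk0 cz hcz0) := by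
      apply Units.ext
      rw [coe_finCompHom129, hzmat, Matrix.GeneralLinearGroup.coe_scalar]
      rfl
    have ezk : finCompHom129 u (z ^ k)
        = Matrix.GeneralLinearGroup.scalar (Fin 2) ((Units.mk0 cz hcz0) ^ k) := by
      rw [map_zpow, ez, map_zpow]
    set s : (u.adicCompletion K)ˣ := (Units.mk0 cz hcz0) ^ k with hs
    obtain ⟨x, y', c', d', hx, hy', hd', hcd, hfac⟩ :=
      isShape_factor771 hsh (s : u.adicCompletion K) s.ne_zero
    have ey : finComp u y
        = (s : u.adicCompletion K) • finComp u ((z ^ k)⁻¹ * y) := by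
      have e1 : y = z ^ k * ((z ^ k)⁻¹ * y) := by rw [mul_inv_cancel_left]
      conv_lhs => rw [e1]
      rw [Fermat.Agent.LT.H942.finComp_mul942, ← coe_finCompHom129 u (z ^ k), ezk,
        Matrix.GeneralLinearGroup.coe_scalar, Matrix.scalar_apply, ← Matrix.smul_eq_diagonal_mul]
    refine ⟨locFin129 u (upperU129 x), locFin129 u (lowerU129 y'), c', d', ?_, ?_, hd', hcd, ?_⟩
    · rw [inIwahori_iff340, finCompHom129_locFin129]
      exact isIwG340_upper hx
    · rw [inIwahori_iff340, finCompHom129_locFin129]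
      exact isIwG340_lower771 hy'
    · show finComp u y = _
      rw [ey, finComp_locFin129, finComp_locFin129, ← coe_finCompHom129]
      exact hfac
  · intro j hj0 hj1
    omega

end Global

end Fermat.Agent.LT.T7.H771

end

end
-- ===== PACK-END LT/T7/H771/RegSupp0.lean

-- ===== PACK-BEGIN LT/T7/H409/StabG.lean
section



/-!
# Row LT, tower T7, leaf T7.L2.2.N.1.03 `StabGC616` (registry 2398; helper409, OFF-MAIN)

`stabGC409 K K' : Fermat.Agent.LT.T7.CM616.StabGC616 K K'`, VERBATIM against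
`LT/T7/H616/ClassModelSpec.lean` (helper616@6a81e5a09, sha256 8568bae7), UNCONDITIONAL.
= `cosetOp_isEigFn409` (`StabGCore.lean`): a bad element is trivial at infinity, at the places
outside `S'` (= the places prime to `𝔑₀`, `IsL2Data.mem_S'`) and along the orbit
(`IsL2Data.deg`); the ray generator of the frame is a ray generator (`IsCompData.frame'`).
-/

set_option autoImplicit false

open IsDedekindDomain NumberField

noncomputable section

namespace Fermat.Agent.LT.T7.H409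

open Fermat.Agent.LT.H556 Fermat.Agent.LT.H556.A0 Fermat.Agent.LT Fermat.Agent.LT.T7

/-- **LEAF CM.03 = STAB-G.** -/
theorem stabGC409 (K K' : Type) [Field K] [NumberField K] [Field K'] [NumberField K']
    [Algebra K K'] : CM616.StabGC616 K K' := by
  intro ℓ Φ Dt hctx g Hg hbad hH ψ hψ
  have hd := hctx.data
  refine cosetOp_isEigFn409 Dt.𝔑₀ Dt.R'.r ℓ Dt.o (eigOf Φ) ((hd.comp g hbad).frame').ray g Hg
    hbad.1 (fun v hv => hbad.2 v (Or.inl ?_)) (fun j hj => hbad.2 _ (Or.inr ⟨j, ?_, rfl⟩))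
    hH ψ hψ
  · intro hmem
    exact hv ((hd.mem_S' v).1 hmem)
  · rw [hd.deg]
    exact hj

end Fermat.Agent.LT.T7.H409

end

end
-- ===== PACK-END LT/T7/H409/StabG.lean

-- ===== PACK-BEGIN LT/T7/H281/RconvOps.lean
section




/-!
# Row LT, tower T7, sub-leaf T7.L2.1.F3.A `RconvOpsC281` (helper281; spare of registry row 2437)

OFF-MAIN.  `rconvOpsC281 K : RconvOpsC281 K`, VERBATIM against `LT/T7/H281/OpUpSpec.lean`:
the asset `T7.H277.Rconv_up277` of helper277 (origin/helper277@d4a616ce6 `LT/T7/H277/ROps.lean`,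
byte-identical copy with its closure `LT/T5/H277/*`) evaluated at a point.
No `sorry`, nothing assumed.
-/

set_option autoImplicit false

open AutomorphicForm IsDedekindDomain NumberField MeasureTheory

noncomputable section

namespace Fermat.Agent.LT.T7.H281

open Fermat.Agent.LT.H556 Fermat.Agent.LT.H556.A0 Fermat.Agent.LT.T7 Fermat.Agent.LT.T7.H893

attribute [local instance] Fermat.Agent.LT.T5.instMeasurableSpaceG

/-- **SUB-LEAF T7.L2.1.F3.A `RconvOpsC281`.** -/
theorem rconvOpsC281 (K : Type) [Field K] [NumberField K] : RconvOpsC281 K := by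
  intro μ F hF φ₁ φ₂ ψ h1c h1s h2c h2s hψ w Hg H z k m x
  exact congrFun (Fermat.Agent.LT.T7.H277.Rconv_up277 hF Hg w z H k m h1c h1s h2c h2s hψ) x

end Fermat.Agent.LT.T7.H281

end

end
-- ===== PACK-END LT/T7/H281/RconvOps.lean

-- ===== PACK-BEGIN LT/T7/H510/ShiftInv.lean
section



/-!
# Row LT, tower T7, sub-leaf T7.L2.1.F3.S `ShiftInvC281` — helper510, OFF-MAIN

    shiftInvC_h510 (K) : Fermat.Agent.LT.T7.H281.ShiftInvC281 K

verbatim against `LT/T7/H281/OpUpSpec.lean` (helper281@a99fa3f20, sha256 2dcc737e),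
UNCONDITIONAL.  Toolbox: `LT/H129/HeckeExists.lean` (helper129, sha256 283484f0).

A scalar uniformiser `z` at `v = o 0` is central (`central_of_unif_S510`); `z ^ k` is trivial
outside `v`; for two scalar uniformisers `z, z'` the quotient `t = z⁻¹ z'` is a scalar unit at
`v`, so `t ^ k` lies in the Iwahori subgroups along the orbit and `z' ^ k = z ^ k * t ^ k`.
-/

set_option autoImplicit false
set_option linter.style.haveILetI false
set_option linter.unusedSectionVars false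

open AutomorphicForm IsDedekindDomain NumberField MeasureTheory

noncomputable section

namespace Fermat.Agent.LT.T7.H510

open Fermat.Agent.LT.H556 Fermat.Agent.LT.H556.A0 Fermat.Agent.LT.H129 Fermat.Agent.LT

/-! ## 1. Scalar matrices -/

section LocalAlg

variable {F : Type*} [Field F]

/-- The scalar matrices of `GL₂(F)`. -/
def scalGL_S510 : Fˣ →* GL (Fin 2) F :=
  Units.map (Matrix.scalar (Fin 2) : F →+* Matrix (Fin 2) (Fin 2) F).toMonoidHom

theorem coe_scalGL_S510 (y : Fˣ) :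
    ((scalGL_S510 y : GL (Fin 2) F) : Matrix (Fin 2) (Fin 2) F)
      = Matrix.diagonal (fun _ => (y : F)) := rfl

theorem scalGL_central_S510 (y : Fˣ) (g : GL (Fin 2) F) :
    scalGL_S510 y * g = g * scalGL_S510 y :=
  Units.ext (Matrix.scalar_commute (y : F) (fun _ => Commute.all _ _)
    (g : Matrix (Fin 2) (Fin 2) F)).eq

theorem scalGL_apply_S510 (y : Fˣ) (i j : Fin 2) :
    ((scalGL_S510 y : GL (Fin 2) F) : Matrix (Fin 2) (Fin 2) F) i j
      = if i = j then (y : F) else 0 := by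
  rw [coe_scalGL_S510, Matrix.diagonal_apply]

end LocalAlg

/-! ## 2. Scalar uniformisers -/

variable {K : Type} [Field K] [NumberField K] (v : HeightOneSpectrum (𝓞 K))

/-- The component of a scalar uniformiser. -/
theorem exists_scal_of_unif_S510 {z : G K} (hz : IsScalarUniformizerAt v z) :
    ∃ y : (v.adicCompletion K)ˣ, Valued.v (y : v.adicCompletion K) = WithZero.exp (-1 : ℤ) ∧
      finCompHom129 v z = scalGL_S510 y := by
  obtain ⟨c, hc, hcomp⟩ := hz.2
  have hc0 : c ≠ 0 := unif_ne_zero129 v hc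
  refine ⟨Units.mk0 c hc0, hc, ext_mat129 ?_⟩
  rw [coe_finCompHom129, hcomp, coe_scalGL_S510]
  rfl

/-- A scalar uniformiser is central. -/
theorem central_of_unif_S510 {z : G K} (hz : IsScalarUniformizerAt v z) (g : G K) :
    z * g = g * z := by
  obtain ⟨y, -, hy⟩ := exists_scal_of_unif_S510 v hz
  have hl := (isLocalAtFin_iff129 v z).mp hz.1
  apply G_ext129
  · intro w
    rw [map_mul, map_mul, hl.1 w, one_mul, mul_one]
  · intro u
    rw [map_mul, map_mul]
    by_cases hu : u = v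
    · subst hu
      rw [hy]
      exact scalGL_central_S510 _ _
    · rw [hl.2 u hu, one_mul, mul_one]

theorem central_zpow_S510 {z : G K} (hz : IsScalarUniformizerAt v z) (k : ℤ) (g : G K) :
    g * z ^ k = z ^ k * g :=
  (Commute.zpow_right (show Commute g z from (central_of_unif_S510 v hz g).symm) k).eq

/-- An element whose component at `u` is a scalar unit lies in the Iwahori subgroup at `u`. -/
theorem inIwahori_of_scal_S510 {u : HeightOneSpectrum (𝓞 K)} {g : G K}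
    {y : (u.adicCompletion K)ˣ} (hy : Valued.v (y : u.adicCompletion K) = 1)
    (hg : finCompHom129 u g = scalGL_S510 y) : T5.InIwahori u g := by
  have hint : ∀ y' : (u.adicCompletion K)ˣ, Valued.v (y' : u.adicCompletion K) = 1 →
      IsInt129 (u.adicCompletionIntegers K) (scalGL_S510 y') := by
    intro y' hy' i j
    rw [scalGL_apply_S510]
    split_ifs
    · rw [HeightOneSpectrum.mem_adicCompletionIntegers, hy']
    · exact (u.adicCompletionIntegers K).zero_mem
  refine ⟨?_, ?_, ?_⟩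
  · rw [← isInt129_finCompHom_iff, hg]
    exact hint y hy
  · rw [← isInt129_finCompHom_iff, map_inv, hg, ← map_inv]
    refine hint y⁻¹ ?_
    rw [Units.val_inv_eq_inv_val, map_inv₀, hy, inv_one]
  · rw [← coe_finCompHom129, hg, scalGL_apply_S510, if_neg (by decide), map_zero]
    exact zero_lt_one

/-- An element with trivial component at `u` lies in the Iwahori subgroup at `u`. -/
theorem inIwahori_of_triv_S510 {u : HeightOneSpectrum (𝓞 K)} {g : G K}
    (hg : finCompHom129 u g = 1) : T5.InIwahori u g := by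
  refine inIwahori_of_scal_S510 (y := 1) ?_ ?_
  · rw [Units.val_one, map_one]
  · rw [hg, map_one]

/-! ## 3. The sub-leaf -/

/-- **T7.L2.1.F3.S `ShiftInvC281`**, unconditional. -/
theorem shiftInvC_h510 (K : Type) [Field K] [NumberField K] : H281.ShiftInvC281 K := by
  intro 𝔫₀ l o hl ho z hz k
  have hzl := (isLocalAtFin_iff129 (o 0) z).mp hz.1
  have hzk_inf : ∀ w : InfinitePlace K, infCompHom129 w (z ^ k) = 1 := fun w => by
    rw [map_zpow, hzl.1 w, one_zpow]
  have hzk_fin : ∀ u : HeightOneSpectrum (𝓞 K), u ≠ o 0 → finCompHom129 u (z ^ k) = 1 :=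
    fun u hu => by rw [map_zpow, hzl.2 u hu, one_zpow]
  refine ⟨⟨fun w => (trivAtInf_iff129 w _).mpr (hzk_inf w), fun u hu => ?_⟩, ?_, ?_, ?_⟩
  · have hne : u ≠ o 0 := fun e => hu (e ▸ ho 0 hl)
    have h1 := hzk_fin u hne
    constructor
    · rw [← isInt129_finCompHom_iff, h1]
      exact isInt129_one _
    · rw [← isInt129_finCompHom_iff, map_inv, h1, inv_one]
      exact isInt129_one _
  · intro ψ hψ t ht x
    show ψ (x * t * z ^ k) = ψ (x * z ^ k)
    rw [mul_assoc, central_zpow_S510 (o 0) hz k t, ← mul_assoc]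
    exact hψ t ht (x * z ^ k)
  · intro ψ hψ h h1 h2 h3 x
    show ψ (x * h * z ^ k) = ψ (x * z ^ k)
    rw [mul_assoc, central_zpow_S510 (o 0) hz k h, ← mul_assoc]
    exact hψ h h1 h2 h3 (x * z ^ k)
  · intro z' hz' ψ hψ x
    show ψ (x * z ^ k) = ψ (x * z' ^ k)
    obtain ⟨y, hy, hzy⟩ := exists_scal_of_unif_S510 (o 0) hz
    obtain ⟨y', hy', hzy'⟩ := exists_scal_of_unif_S510 (o 0) hz'
    have hz'l := (isLocalAtFin_iff129 (o 0) z').mp hz'.1
    have hcomm : Commute z⁻¹ z' :=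
      (show Commute z z' from central_of_unif_S510 (o 0) hz z').inv_left
    have e : z' ^ k = z ^ k * (z⁻¹ * z') ^ k := by
      rw [hcomm.mul_zpow, inv_zpow, mul_inv_cancel_left]
    have hval : Valued.v (((y⁻¹ * y') ^ k : ((o 0).adicCompletion K)ˣ) :
        (o 0).adicCompletion K) = 1 := by
      rw [Units.val_zpow_eq_zpow_val, map_zpow₀, Units.val_mul, map_mul,
        Units.val_inv_eq_inv_val, map_inv₀, hy, hy',
        inv_mul_cancel₀ (WithZero.exp_ne_zero), one_zpow]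
    have hcomp : finCompHom129 (o 0) ((z⁻¹ * z') ^ k) = scalGL_S510 ((y⁻¹ * y') ^ k) := by
      rw [map_zpow, map_mul, map_inv, hzy, hzy', map_zpow, map_mul, map_inv]
    rw [e, ← mul_assoc]
    refine (hψ ((z⁻¹ * z') ^ k) ?_ ?_ ?_ (x * z ^ k)).symm
    · intro w
      rw [trivAtInf_iff129, map_zpow, map_mul, map_inv, hzl.1 w, hz'l.1 w, inv_one, one_mul,
        one_zpow]
    · intro u hu
      have hne : u ≠ o 0 := hu 0 hl
      rw [trivAtFin_iff129, map_zpow, map_mul, map_inv, hzl.2 u hne, hz'l.2 u hne, inv_one,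
        one_mul, one_zpow]
    · intro j hj
      by_cases hoj : o j = o 0
      · rw [hoj]
        exact inIwahori_of_scal_S510 hval hcomp
      · refine inIwahori_of_triv_S510 ?_
        rw [map_zpow, map_mul, map_inv, hzl.2 _ hoj, hz'l.2 _ hoj, inv_one, one_mul, one_zpow]

end Fermat.Agent.LT.T7.H510

end
end
-- ===== PACK-END LT/T7/H510/ShiftInv.lean

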