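import Mathlib
import Fermat.Agent.Pack.LT3.E25L2
import Fermat.Agent.Pack.LT3.E11L3
import Fermat.Agent.Pack.LT2.E2L1
import Fermat.Agent.Pack.LT3.E21L0
import Fermat.Agent.Pack.LT3.E25L3
import Fermat.Agent.Pack.LT3.E25L1
import Fermat.Agent.Pack.LT3.E23L0
import Fermat.Agent.Pack.LT3.E26L2
import Fermat.Agent.Pack.LT2.E3L0
import Fermat.Agent.Pack.LT3.E26L0
import Fermat.Agent.Pack.LT2.E10L0
import Fermat.Agent.Pack.LT3.E26L3

set_option linter.all false

-- ===== PACK-BEGIN LT/T7/H157/V2SubQ.lean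
section





/-!
# Row LT, tower T7, leaf T7.L2Q.3.7.4.1 = `WBQ341.V2SubQC341 n` (helper157)

OFF-MAIN.  ADDITIVE (new names only, all ending in `157`).  Every proof is complete, nothing
assumed.  Target: `WBQ341.V2SubQC341 n` of `T7/H341/WBasisQSpec.lean`
(helper341@5d9a56aeb, sha256 2acd5e1828b68f54) VERBATIM, for both `n : L2Q.QWt`.

    v2SubQC157 (n) : WBQ341.V2SubQC341 n

Assets: `T2.H886.isCuspidalFn_add886` (the constant term is additive on bounded continuous
functions: a fundamental domain of `ℚ` in `𝔸_ℚ` has finite measure), `A2.H751.continuous_of_local751`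
(a family supported at one infinite place with continuous component of determinant `1` is
continuous: the circle of the mean values is a continuous family).
-/

set_option autoImplicit false

open AutomorphicForm IsDedekindDomain NumberField MeasureTheory
open scoped ComplexConjugate

noncomputable section

namespace Fermat.Agent.LT.T7.H157

open Fermat.Agent.LT.H556 Fermat.Agent.LT.H556.A0 Fermat.Agent.LT.H670 Fermat.Agent.LT.T7
open Fermat.Agent.LT.T7.L2Q Fermat.Agent.LT.T7.SDQ140 Fermat.Agent.LT.T7.WBQ341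

attribute [local instance] Fermat.Agent.LT.T5.instMeasurableSpaceG

/-! ## 1. Cusp functions of a given type -/

section Cusp

variable {K : Type} [Field K] [NumberField K]

theorem isCuspFn5_zero157 (𝔫 : Ideal (𝓞 K)) (τ : G K → ℂ) (r : G K) :
    T5.IsCuspFn 𝔫 τ r (fun _ : G K => (0 : ℂ)) where
  cont := continuous_const
  bdd := ⟨0, fun _ => by simp⟩
  aut :=
    { left_inv := fun _ _ => rfl
      level_inv := fun _ _ _ => rfl
      arch_compact := fun _ _ _ _ => (mul_zero _).symm
      ray := fun _ => rfl }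
  cuspidal := T2.H886.isCuspidalFn_zero886

theorem isCuspFn5_add157 {𝔫 : Ideal (𝓞 K)} {τ : G K → ℂ} {r : G K} {f f' : G K → ℂ}
    (h : T5.IsCuspFn 𝔫 τ r f) (h' : T5.IsCuspFn 𝔫 τ r f') :
    T5.IsCuspFn 𝔫 τ r (fun g => f g + f' g) where
  cont := h.cont.add h'.cont
  bdd := by
    obtain ⟨C, hC⟩ := h.bdd
    obtain ⟨C', hC'⟩ := h'.bdd
    exact ⟨C + C', fun g => le_trans (norm_add_le _ _) (add_le_add (hC g) (hC' g))⟩
  aut :=
    { left_inv := fun γ g => by rw [h.aut.left_inv γ g, h'.aut.left_inv γ g]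
      level_inv := fun u hu g => by rw [h.aut.level_inv u hu g, h'.aut.level_inv u hu g]
      arch_compact := fun w k hk g => by
        rw [h.aut.arch_compact w k hk g, h'.aut.arch_compact w k hk g, mul_add]
      ray := fun g => by rw [h.aut.ray g, h'.aut.ray g] }
  cuspidal := by
    obtain ⟨C, hC⟩ := h.bdd
    obtain ⟨C', hC'⟩ := h'.bdd
    exact T2.H886.isCuspidalFn_add886 h.cont hC h'.cont hC' h.cuspidal h'.cuspidal

theorem isCuspFn5_smul157 {𝔫 : Ideal (𝓞 K)} {τ : G K → ℂ} {r : G K} {f : G K → ℂ}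
    (a : ℂ) (h : T5.IsCuspFn 𝔫 τ r f) : T5.IsCuspFn 𝔫 τ r (fun g => a * f g) where
  cont := continuous_const.mul h.cont
  bdd := by
    obtain ⟨C, hC⟩ := h.bdd
    refine ⟨‖a‖ * C, fun g => ?_⟩
    rw [norm_mul]
    exact mul_le_mul_of_nonneg_left (hC g) (norm_nonneg a)
  aut :=
    { left_inv := fun γ g => by rw [h.aut.left_inv γ g]
      level_inv := fun u hu g => by rw [h.aut.level_inv u hu g]
      arch_compact := fun w k hk g => by
        rw [h.aut.arch_compact w k hk g, mul_left_comm]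
      ray := fun g => by rw [h.aut.ray g] }
  cuspidal := T2.H886.isCuspidalFn_const_mul886 a h.cuspidal

theorem isHeckeEigenAt_add157 {f f' : G K → ℂ} {v : HeightOneSpectrum (𝓞 K)} {a b : ℂ}
    (h : IsHeckeEigenAt f v a b) (h' : IsHeckeEigenAt f' v a b) :
    IsHeckeEigenAt (fun g => f g + f' g) v a b := by
  refine ⟨fun H hH g => ?_, fun z hz g => ?_⟩
  · rw [Finset.sum_add_distrib, h.1 H hH g, h'.1 H hH g, mul_add]
  · show f (g * z) + f' (g * z) = _
    rw [h.2 z hz g, h'.2 z hz g, mul_add]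

theorem isHeckeEigenAt_smul157 {f : G K → ℂ} {v : HeightOneSpectrum (𝓞 K)} {a b : ℂ} (t : ℂ)
    (h : IsHeckeEigenAt f v a b) : IsHeckeEigenAt (fun g => t * f g) v a b := by
  refine ⟨fun H hH g => ?_, fun z hz g => ?_⟩
  · rw [← Finset.mul_sum, h.1 H hH g]
    ring
  · show t * f (g * z) = _
    rw [h.2 z hz g]
    ring

end Cusp

/-! ## 2. The circles of the mean values are continuous families -/

section Circle

theorem continuous_rotY157 : Continuous A0.rotY := by
  unfold A0.rotY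
  refine continuous_matrix fun i j => ?_
  fin_cases i <;> fin_cases j <;> simp <;> fun_prop

theorem continuous_rotC157 : Continuous QOut.rotC := by
  unfold QOut.rotC
  refine continuous_matrix fun i j => ?_
  fin_cases i <;> fin_cases j <;> simp <;> fun_prop

theorem det_rotY157 (β : ℝ) : (A0.rotY β).det = 1 := by
  unfold A0.rotY
  rw [Matrix.det_fin_two_of]
  have := Real.cos_sq_add_sin_sq (β / 2)
  have e : ((Real.cos (β / 2) : ℝ) : ℂ) * ((Real.cos (β / 2) : ℝ) : ℂ)
      - -((Real.sin (β / 2) : ℝ) : ℂ) * ((Real.sin (β / 2) : ℝ) : ℂ)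
      = ((Real.cos (β / 2) ^ 2 + Real.sin (β / 2) ^ 2 : ℝ) : ℂ) := by
    push_cast
    ring
  rw [e, this, Complex.ofReal_one]

theorem det_rotC157 (θ : ℝ) : (QOut.rotC θ).det = 1 := by
  unfold QOut.rotC
  rw [Matrix.det_fin_two_of]
  have := Real.cos_sq_add_sin_sq θ
  have e : ((Real.cos θ : ℝ) : ℂ) * ((Real.cos θ : ℝ) : ℂ)
      - ((Real.sin θ : ℝ) : ℂ) * -((Real.sin θ : ℝ) : ℂ)
      = ((Real.cos θ ^ 2 + Real.sin θ ^ 2 : ℝ) : ℂ) := by
    push_cast
    ring
  rw [e, this, Complex.ofReal_one]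

theorem det_torus157 (t : ℝ) : (A0.torus t).det = 1 := by
  unfold A0.torus
  rw [Matrix.det_fin_two_of, mul_zero, sub_zero, ← Complex.ofReal_mul, ← Real.exp_add]
  simp

variable {K : Type} [Field K] [NumberField K]

/-- A family supported at `w` with component `M θ * N` (`M` continuous, determinants `1`) is
continuous. -/
theorem continuous_circle157 (w : InfinitePlace K) {M : ℝ → Matrix (Fin 2) (Fin 2) ℂ}
    (hM : Continuous M) (hMd : ∀ θ, (M θ).det = 1) {N : Matrix (Fin 2) (Fin 2) ℂ}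
    (hN : N.det = 1) {Y : ℝ → G K}
    (hY : ∀ θ : ℝ, IsLocalAtInf w (Y θ) ∧ infComp w (Y θ) = M θ * N) : Continuous Y := by
  have e : (fun θ => infComp w (Y θ)) = fun θ => M θ * N := funext fun θ => (hY θ).2
  refine A2.H751.continuous_of_local751 w Y (fun θ => (hY θ).1) ?_ fun θ => ?_
  · rw [e]
    exact hM.matrix_mul continuous_const
  · rw [(hY θ).2, Matrix.det_mul, hMd θ, hN, mul_one]

end Circle

/-! ## 3. `V₂` and its classes are linear -/

section V2

variable {n : QWt} {𝔫 : Ideal (𝓞 ℚ)} {r : G ℚ}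

theorem inV2Q_zero157 (n : QWt) (𝔫 : Ideal (𝓞 ℚ)) (r : G ℚ) :
    InV2Q341 n 𝔫 r (0 : G ℚ → ℂ) :=
  ⟨isCuspFn5_zero157 𝔫 n.type r, fun _ _ _ _ => rfl⟩

theorem inV2Q_add157 {f f' : G ℚ → ℂ} (h : InV2Q341 n 𝔫 r f) (h' : InV2Q341 n 𝔫 r f') :
    InV2Q341 n 𝔫 r (f + f') :=
  ⟨isCuspFn5_add157 h.cusp h'.cusp, fun w z hz g => by
    show f (g * z) + f' (g * z) = f g + f' g
    rw [h.arch_scalar w z hz g, h'.arch_scalar w z hz g]⟩

theorem inV2Q_smul157 (a : ℂ) {f : G ℚ → ℂ} (h : InV2Q341 n 𝔫 r f) :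
    InV2Q341 n 𝔫 r (a • f) :=
  ⟨isCuspFn5_smul157 a h.cusp, fun w z hz g => by
    show a * f (g * z) = a * f g
    rw [h.arch_scalar w z hz g]⟩

theorem meanEig_add157 (n : QWt) {f f' : G ℚ → ℂ} (hf : Continuous f) (hf' : Continuous f')
    {w : InfinitePlace ℚ} {m : ℝ → ℂ} (h : n.MeanEig f w m) (h' : n.MeanEig f' w m) :
    n.MeanEig (f + f') w m := by
  cases n with
  | w0 =>
    intro t ht Y hY g
    have hYc : Continuous Y :=
      continuous_circle157 w continuous_rotY157 det_rotY157 (det_torus157 t) hY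
    have c1 : Continuous fun θ => f (g * Y θ) := hf.comp (continuous_const.mul hYc)
    have c2 : Continuous fun θ => f' (g * Y θ) := hf'.comp (continuous_const.mul hYc)
    show (∫ θ in (0 : ℝ)..(2 * Real.pi), (f (g * Y θ) + f' (g * Y θ))) = m t * (f g + f' g)
    rw [intervalIntegral.integral_add (c1.intervalIntegrable _ _) (c2.intervalIntegrable _ _),
      h t ht Y hY g, h' t ht Y hY g, mul_add]
  | w1 =>
    intro t ht Y hY g
    have hYc : Continuous Y :=
      continuous_circle157 w continuous_rotC157 det_rotC157 (det_torus157 t) hY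
    have ce : Continuous fun θ : ℝ => Complex.exp (-(Complex.I * ((θ : ℝ) : ℂ))) := by
      fun_prop
    have c1 : Continuous fun θ => Complex.exp (-(Complex.I * ((θ : ℝ) : ℂ))) * f (g * Y θ) :=
      ce.mul (hf.comp (continuous_const.mul hYc))
    have c2 : Continuous fun θ => Complex.exp (-(Complex.I * ((θ : ℝ) : ℂ))) * f' (g * Y θ) :=
      ce.mul (hf'.comp (continuous_const.mul hYc))
    show (∫ θ in (0 : ℝ)..(2 * Real.pi),
        Complex.exp (-(Complex.I * ((θ : ℝ) : ℂ))) * (f (g * Y θ) + f' (g * Y θ)))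
      = m t * (f g + f' g)
    simp only [mul_add]
    rw [intervalIntegral.integral_add (c1.intervalIntegrable _ _) (c2.intervalIntegrable _ _),
      h t ht Y hY g, h' t ht Y hY g]

theorem meanEig_smul157 (n : QWt) (a : ℂ) {f : G ℚ → ℂ} {w : InfinitePlace ℚ} {m : ℝ → ℂ}
    (h : n.MeanEig f w m) : n.MeanEig (a • f) w m := by
  cases n with
  | w0 =>
    intro t ht Y hY g
    show (∫ θ in (0 : ℝ)..(2 * Real.pi), a * f (g * Y θ)) = m t * (a * f g)
    rw [intervalIntegral.integral_const_mul, h t ht Y hY g]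
    ring
  | w1 =>
    intro t ht Y hY g
    show (∫ θ in (0 : ℝ)..(2 * Real.pi),
        Complex.exp (-(Complex.I * ((θ : ℝ) : ℂ))) * (a * f (g * Y θ))) = m t * (a * f g)
    simp only [mul_left_comm _ a]
    rw [intervalIntegral.integral_const_mul, h t ht Y hY g]

theorem inCls2Q_add157 {c : EigData ℚ} {f f' : G ℚ → ℂ} (h : InCls2Q341 n 𝔫 r c f)
    (h' : InCls2Q341 n 𝔫 r c f') : InCls2Q341 n 𝔫 r c (f + f') :=
  ⟨inV2Q_add157 h.inv h'.inv,
    fun v hv => isHeckeEigenAt_add157 (h.hecke v hv) (h'.hecke v hv),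
    fun w => meanEig_add157 n h.inv.cusp.cont h'.inv.cusp.cont (h.mean w) (h'.mean w)⟩

theorem inCls2Q_smul157 {c : EigData ℚ} (a : ℂ) {f : G ℚ → ℂ} (h : InCls2Q341 n 𝔫 r c f) :
    InCls2Q341 n 𝔫 r c (a • f) :=
  ⟨inV2Q_smul157 a h.inv, fun v hv => isHeckeEigenAt_smul157 a (h.hecke v hv),
    fun w => meanEig_smul157 n a (h.mean w)⟩

/-- **LEAF T7.L2Q.3.7.4.1 = WBQ.1: `V₂` and its classes are linear subspaces.** -/
theorem v2SubQC157 (n : QWt) : V2SubQC341 n := fun 𝔫 r _ =>
  { zero2 := inV2Q_zero157 n 𝔫 r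
    add2 := fun _ _ h h' => inV2Q_add157 h h'
    smul2 := fun a _ h => inV2Q_smul157 a h
    addC2 := fun _ _ _ h h' => inCls2Q_add157 h h'
    smulC2 := fun _ a _ h => inCls2Q_smul157 a h }

end V2

end Fermat.Agent.LT.T7.H157

end

end
-- ===== PACK-END LT/T7/H157/V2SubQ.lean

-- ===== PACK-BEGIN LT/T7/H193/ProjFor893.lean
section




/-!
# Row LT, tower T7, node T7.L2.1 `SupplyC`: the leaf `H893.ProjC` (registry row 2110) VERBATIM
(helper193)

OFF-MAIN.  Complete proof, nothing assumed; the only hypothesis is the output `T1.T1Out K` of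
the closed tower T1.  On `T7/H893/SupplySpec.lean` of helper893 (byte-identical copy).
-/

set_option autoImplicit false

open IsDedekindDomain NumberField MeasureTheory

noncomputable section

namespace Fermat.Agent.LT.T7.H193

open Fermat.Agent.LT.H556 Fermat.Agent.LT.H556.A0 Fermat.Agent.LT

/-- **`H893.ProjC K`, VERBATIM** (the divisibility hypothesis is not used). -/
theorem projC893_193 (K : Type) [Field K] [NumberField K] (hT1 : T1.T1Out K) :
    H893.ProjC K :=
  fun R hR 𝔫₀ 𝔫 h𝔫 hle l o _ ψ hψ => exists_proj_closed193 hT1 R hR 𝔫 𝔫₀ h𝔫 hle l o ψ hψ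

end Fermat.Agent.LT.T7.H193

end

end
-- ===== PACK-END LT/T7/H193/ProjFor893.lean

-- ===== PACK-BEGIN LT/T7/H325/ReContQ.lean
section



/-!
# Row LT, tower T7, asset leaf T7.L2Q.1.H1.5.7.2 `H751.ReContQC751` (helper325)

OFF-MAIN.  `reContQC325 : H751.ReContQC751`: the real component
`MQ298.reGLQ298 : GL₂(𝔸_ℚ) → GL₂(ℝ)` is continuous.

Proof: `MQ298.reHomQ298` is a continuous ring homomorphism (first projection, evaluation at the
real place, `extensionEmbeddingOfIsReal` is an isometry); `M ↦ M.map f` is continuous on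
matrices; `Units.map` of a continuous monoid homomorphism is continuous.
-/

set_option autoImplicit false

open AutomorphicForm IsDedekindDomain NumberField

noncomputable section

namespace Fermat.Agent.LT.T7.H325

open Fermat.Agent.LT.H556 Fermat.Agent.LT.H556.A0 Fermat.Agent.LT.T7

/-- The real component `𝔸_ℚ → ℝ` is continuous. -/
theorem continuous_reHomQ325 : Continuous (MQ298.reHomQ298 : Adl ℚ → ℝ) := by
  show Continuous fun x : Adl ℚ =>
    InfinitePlace.Completion.extensionEmbeddingOfIsReal Rat.isReal_infinitePlace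
      (x.1 Rat.infinitePlace)
  exact (InfinitePlace.Completion.isometry_extensionEmbeddingOfIsReal
    Rat.isReal_infinitePlace).continuous.comp ((continuous_apply _).comp continuous_fst)

/-- **ASSET LEAF FDQ.2 = RE-CONT**, verbatim. -/
theorem reContQC325 : H751.ReContQC751 := by
  show Continuous (MQ298.reGLQ298 : G ℚ → GL (Fin 2) ℝ)
  have h : Continuous (RingHom.mapMatrix (m := Fin 2) MQ298.reHomQ298) :=
    Continuous.matrix_map continuous_id continuous_reHomQ325
  exact Continuous.units_map (RingHom.mapMatrix (m := Fin 2) MQ298.reHomQ298).toMonoidHom h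

/-- The statement of the leaf, verbatim. -/
example : Fermat.Agent.LT.T7.H751.ReContQC751 := reContQC325

end Fermat.Agent.LT.T7.H325

end

end
-- ===== PACK-END LT/T7/H325/ReContQ.lean

-- ===== PACK-BEGIN LT/T7/H567/HaarSigmaR.lean
section



/-!
# Row LT, tower T7, node Q2.7.7, leaf FDQ.9 `HaarSigmaRC751` (helper567, SPARE of row 2703)

OFF-MAIN, ADDITIVE.  Spec: `T7/H751/FactDownQSpec.lean` (helper751), byte-identical copy.

`haarSigmaRC567 : T7.H751.HaarSigmaRC751`, VERBATIM, UNCONDITIONAL: the Haar measures (Borel) of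
`GL₂(ℝ)` are σ-finite, and so are the images in `GL₂(ℝ)` of the Haar measures of the centralisers.

Proof (mirror of the complex case of helper729): `GL₂(ℝ)` is σ-compact (closed in `M₂ × M₂ᵐᵒᵖ`),
a centraliser is a closed subgroup, a Haar measure is finite on compact sets, a closed embedding
is a measurable embedding.
-/

set_option autoImplicit false

open MeasureTheory

noncomputable section

namespace Fermat.Agent.LT.T7.H567

open Fermat.Agent.LT.T7 Fermat.Agent.LT.T7.H305

/-- A Haar measure (Borel) of a σ-compact group is σ-finite. -/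
theorem sigmaFinite_haar567 {G : Type} [Group G] [TopologicalSpace G] [IsTopologicalGroup G]
    [SigmaCompactSpace G] (μ : @Measure G (borel G))
    (hμ : @Measure.IsHaarMeasure G _ _ (borel G) μ) : @SigmaFinite G (borel G) μ := by
  letI : MeasurableSpace G := borel G
  haveI : BorelSpace G := ⟨rfl⟩
  haveI := hμ
  infer_instance

/-- The image in the group of a Haar measure of a closed subgroup of a σ-compact group is
σ-finite. -/
theorem sigmaFinite_map_val567 {G : Type} [Group G] [TopologicalSpace G]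
    [IsTopologicalGroup G] [SigmaCompactSpace G] (T : Subgroup G) (hT : IsClosed (T : Set G))
    (μT : @Measure T (borel T)) (hμ : @Measure.IsHaarMeasure T _ _ (borel T) μT) :
    @SigmaFinite G (borel G) (@Measure.map T G (borel T) (borel G) Subtype.val μT) := by
  letI : MeasurableSpace G := borel G
  haveI : BorelSpace G := ⟨rfl⟩
  letI : MeasurableSpace T := borel T
  haveI : BorelSpace T := ⟨rfl⟩
  haveI : SigmaCompactSpace T := hT.isClosedEmbedding_subtypeVal.sigmaCompactSpace
  haveI := hμ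
  exact (hT.isClosedEmbedding_subtypeVal.measurableEmbedding).sigmaFinite_map

theorem sigmaCompact_GL2R567 : SigmaCompactSpace (GL (Fin 2) ℝ) := by
  haveI : SigmaCompactSpace (Matrix (Fin 2) (Fin 2) ℝ) :=
    inferInstanceAs (SigmaCompactSpace (Fin 2 → Fin 2 → ℝ))
  haveI : SigmaCompactSpace (Matrix (Fin 2) (Fin 2) ℝ)ᵐᵒᵖ :=
    MulOpposite.opHomeomorph.symm.isClosedEmbedding.sigmaCompactSpace
  exact Units.isClosedEmbedding_embedProduct.sigmaCompactSpace

theorem isClosed_cent567 {H : Type} [Group H] [TopologicalSpace H] [IsTopologicalGroup H]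
    [T2Space H] (γ : H) : IsClosed ((cent305 γ : Subgroup H) : Set H) := by
  have h : ((cent305 γ : Subgroup H) : Set H) = {x : H | x⁻¹ * γ * x = γ} := rfl
  rw [h]
  exact isClosed_eq ((continuous_inv.mul continuous_const).mul continuous_id) continuous_const

/-- **LEAF FDQ.9 `HaarSigmaRC751`, VERBATIM.** -/
theorem haarSigmaRC567 : H751.HaarSigmaRC751 := by
  haveI := sigmaCompact_GL2R567
  exact ⟨fun μ hμ => sigmaFinite_haar567 μ hμ,
    fun γ₀ μT hμT => sigmaFinite_map_val567 _ (isClosed_cent567 γ₀) μT hμT⟩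

end Fermat.Agent.LT.T7.H567

end
end
-- ===== PACK-END LT/T7/H567/HaarSigmaR.lean

-- ===== PACK-BEGIN LT/T7/H1U/UpFactQSpec.lean
section



/-!
# Row LT, tower T7, node Q2.7.13.1 `FUQ514.UpFactQC514` (registry row 2708, owner helper1):
# THE CUT (global → local upstairs over `ℚ`) -- Spec

OFF-MAIN.  Definitions and frozen Props only (the proved top is `UpFactQTop.lean`).  No hole,
nothing assumed.  ADDITIVE (new names only, namespace `Fermat.Agent.LT.T7.H1U`).  Vocabulary:
`T7/H514/FactUpQSpec.lean` (helper514@c4d7f196f, sha256 01844c0a) and its imports, byte-identical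
copies.  Model: the cut of `H305.FactDownC305` by helper558 (Part A cut-on / Part B integral).

    upFactQW_of   : UpDatExistsQC F → CutOnUpQC F → FactIntUpQC F → UpFactQWC F
    upFactQC_of   : UpDatExistsQC F → CutOnUpQC F → FactIntUpQC F → FUQ514.UpFactQC514 F  (VERBATIM)

## The data

`UpDatQ F`: for every place `v` of `ℚ` ONE place `w0 v` of `F` and a function `bet v` on
`GL₂(F_{w0 v})` (the cut-off of the block over `v`), the infinite place `winf` of `F` and a
cut-off function `βc` on `GL₂(ℂ)`.  THE PRODUCT CUT-OFF UPSTAIRS: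

    prodCutUpQ S' S cT U y = c_T⁻¹ 1_{Out_{S'}}(y) ∏_{v ∈ S} bet_v(y_{w0 v}) · βc(y_winf).

`IsUpDatQ`: at every `v ∈ S` EITHER `w0 v` is the only place over `v`, `bet v` is a continuous
cut-off function for the normalised Haar measure of the twisted centraliser of `δ_w` and
`J v` is the local twisted integral (`IsInertAtQ` = `H340.IsInertVal340` with `w`, `β'` NAMED), OR
`v` splits, there is an enumeration `w 0 = w0 v, w 1` of the places over `v`
(`w j = σ(w (j+1))`) with `i j : ℚ_v ≃ F_{w j}`, the levels agree, `bet v = L.βv v ∘ (i 0)⁻¹` (the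
cut-off DOWNSTAIRS in the coordinate of `w 0`) and `J v` is the split integral (`IsSplitAtQ` =
`FUQ514.IsSplitValQ514` with the FIRST place NAMED: this is the form needed by the
one-enumeration local hypotheses, helper467 / helper893 v2); at infinity `βc` is normalised
against `L.μtr` and `Jc j` is the twisted integral on `GL₂(ℂ)` (`IsArchAtQ`).

## The cut

* **`UpDatExistsQC F`** (LEAF [L], local existence): for every choice `w0c` of places over the
  places of `S` there are data with `U.w0 = w0c`.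
* **`CutOnUpQC F`** (NODE [L], Part A): the product cut-off is a cut-off function for
  `T_𝔸(δ)`, `μT'` on the support of the integrand.
* **`FactIntUpQC F`** (NODE [XL], Part B): the cut-off integral is
  `(c'_G / c_T) ∑_j ∏_{v ∈ S} J_v · Jc_j`; `c'_G` depends on `D`, `μc`, `T₀`, `n`, `m` only.

Parts A and B use of the local hypotheses ONLY: `inv_up` (bi-invariance, finite support
upstairs) and the continuity / compact support of `Φ`.  So the node is proved in the form
`UpFactQWC` (no `LocHypQ298`; the caller names the first places) AND in the form of helper514.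

## Proofs (sketches) and FALSITY CHECKS (helper1)

`UpDatExistsQC`: `v ∈ S`.  If `w0c v` is the only place over `v`: `(e, i, s_w)` from
`T6.InstExtC` (`σ` generates the Galois group: order `2`, `σ ≠ 1`), `μ'` and `μt'` from
`H305.LocMeasC305` (`T6.InstLocalC`; `N δ_w = i(γ_v)` is regular), `β'` from `H305.LocCutC305`.
Otherwise there is `w₁ ≠ w0c v` over `v`; the Galois group is transitive on the places over `v`,
so `w₁ = σ⁻¹(w0c v)`, `σ⁻¹(w₁) = w0c v`: `w (2k) = w0c v`, `w (2k+1) = w₁`; `e = f = 1`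
(`∑ e f = 2`), `i j` from `T6.InstSplitC`; the levels by hypothesis; `bet v := L.βv v ∘ (i 0)⁻¹`.
Infinity: the image of the centraliser of `γ_∞` in `GL₂(ℂ)` is a closed commutative subgroup,
`exists_cutoff584` (helper584) for the image of `L.μtr`.

`CutOnUpQC`: measurable: `Out_{S'}` is open, the components are continuous (`H558.OutOpenC558 F`,
`H558.CompContC558 F`), `bet v ∘ (component)` is continuous in both cases.  `≥ 0`: clear.
Normalisation: (1) on the support `x⁻¹ δ σ(x) ∈ Out_{S'}` (`r'` is trivial at the finite places);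
(2) TWISTED SUPPORT: then `x = t x'`, `t ∈ T_𝔸(δ)`, `x' ∈ Out_{S'}` (local statement at `v ∉ S`,
unramified in `F`, `N δ = γ` good, `δ` integral: helper159 `GoodUnitTw.lean`,
`GoodUnitSplit.lean`); (3) `T_𝔸(δ)` is commutative (`H305.TorCommC305 F`), so `μT'` is right
invariant; (4) for `x' ∈ Out_{S'}`: `μT'` is the image of `μT` (`IsTorLinked305`),
`ι(t) x' ∈ Out_{S'} ⟺ t ∈ Out_S` (`|i x| = |x|^e`), `(ι t)_{w0 v} = i_v(t_v)`,
`(ι t)_winf = (t_∞)_ℂ` (the real place: `conj` is trivial on `ℝ`), `IsTorConstQ298` (`c_T`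
cancels), Fubini for a product of functions; local factors `= 1`: inert `v`: `i_v` maps the
centraliser of `γ_v` onto the twisted centraliser of `δ_w` (`T6.TwCentC`) and the normalised
measures correspond (`i⁻¹(T'^c) = T^c`); split `v`: `bet v (i_0(t) x) = L.βv v (t · i_0⁻¹ x)`,
`IsLocCut305` downstairs; infinity: the normalisation of `βc`.  The local maps of `ι`, of the
inert datum and of the split datum agree: ring homomorphisms `ℚ_v → F_w` which agree on `ℚ` and
satisfy `|i x| = |x|^e` are equal (helper1 `T7/H1G/Fixed.lean`, `eq_of_val_of_rat_H1G`).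

`FactIntUpQC`: `c'_G` = the constant of `H305.HaarSplitC305 F` (`F` is totally complex) for
`D.R'.μ`, `μc`, the places over `T₀` and the levels `n`.  Local Haar measures upstairs: the `μ'`
of the datum at the inert places of `S`, the images of `L.μv v` under `i j` at the split places
(normalised: `n (w j) = m v`), arbitrary normalised measures elsewhere.  For `y ∈ Out_{S'}`:
`σ(y) ∈ Out_{S'}` (`S'` is `σ`-stable, `H305.SigmaLocC305 F`), `y⁻¹ δ σ(y) r'^j ∈ Out_{S'}`, and
the integrand is the product over `v ∈ S` of the block integrands and of the integrand at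
infinity (`(σ y)_w = s_{w' → w}(y_{w'})`, `w = σ(w')`; at infinity `σ_𝔸` is the complex
conjugation: `σ ≠ 1` and `F` has ONE infinite place); block Fubini (helper159
`T7/H159/BlockFubini.lean`; no integrability needed for products); the block integral is
`locTwInt340` (one place; the `s_w` of the datum is the component of `σ_𝔸`: density) resp.
`splitInt340` in the coordinates `y_j = (i j)⁻¹(x_{w j})` (`s_{w_{j+1} → w_j} ∘ i_{j+1} = i_j`).
The sum over the ray is finite, uniformly (`|det| = t'^{2j} |det δ_w|`), and the integrands at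
infinity are integrable (twisted form of `H558.ArchIntblC558`).  CONVENTION: if a block
integrand is not integrable both sides vanish.
-/

set_option autoImplicit false

open AutomorphicForm IsDedekindDomain NumberField MeasureTheory
open scoped ComplexConjugate

noncomputable section

namespace Fermat.Agent.LT.T7.H1U

open Fermat.Agent.LT.H556 Fermat.Agent.LT.H556.A0 Fermat.Agent.LT.T7 Fermat.Agent.LT.T7.H305
open Fermat.Agent.LT.T7.MQ298 Fermat.Agent.LT.T7.H340 Fermat.Agent.LT.T7.FUQ514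

attribute [local instance] Fermat.Agent.LT.T5.instMeasurableSpaceG

/-! ## 1. The data upstairs -/

/-- **CUT-OFF DATA UPSTAIRS over `ℚ`**: one place of `F` and a function on `GL₂(F_w)` for every
place of `ℚ`; an infinite place of `F` and a function on `GL₂(ℂ)`. -/
structure UpDatQ (F : Type) [Field F] [NumberField F] where
  /-- the place of `F` which carries the cut-off of the block over `v` -/
  w0 : HeightOneSpectrum (𝓞 ℚ) → HeightOneSpectrum (𝓞 F)
  /-- the cut-off function of the block over `v`, a function of the component at `w0 v` -/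
  bet : ∀ v : HeightOneSpectrum (𝓞 ℚ), GL (Fin 2) ((w0 v).adicCompletion F) → ℝ
  /-- the infinite place of `F` -/
  winf : InfinitePlace F
  /-- the cut-off function at the infinite place -/
  βc : GL (Fin 2) ℂ → ℝ

section Defs

variable {F : Type} [Field F] [NumberField F]

open Classical in
/-- THE PRODUCT CUT-OFF UPSTAIRS: `β' = c_T⁻¹ 1_{Out_{S'}} ∏_{v ∈ S} bet_v(y_{w0 v}) · βc(y_∞)`. -/
def prodCutUpQ (S' : Finset (HeightOneSpectrum (𝓞 F))) (S : Finset (HeightOneSpectrum (𝓞 ℚ)))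
    (cT : ℝ) (U : UpDatQ F) (y : G F) : ℝ :=
  if OutT305 S' y then
    cT⁻¹ * (∏ v ∈ S, U.bet v (finGL305 (U.w0 v) y)) * U.βc (infGL305 U.winf y)
  else 0

/-- `J` is the local twisted integral upstairs at `v`, `w` is the ONLY place over `v` and `β'`
the cut-off function (`H340.IsInertVal340` with `w` and `β'` named). -/
def IsInertAtQ (D : CompData ℚ F) (n : HeightOneSpectrum (𝓞 F) → ℕ)
    (φ₀ : ∀ w : HeightOneSpectrum (𝓞 F), GL (Fin 2) (w.adicCompletion F) → ℂ)
    (δ : GL (Fin 2) F) (v : HeightOneSpectrum (𝓞 ℚ)) (w : HeightOneSpectrum (𝓞 F))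
    (β' : GL (Fin 2) (w.adicCompletion F) → ℝ) (J : ℂ) : Prop :=
  ∃ (e : ℕ) (i : v.adicCompletion ℚ →+* w.adicCompletion F)
    (sw : w.adicCompletion F ≃+* w.adicCompletion F)
    (μ' : @Measure (GL (Fin 2) (w.adicCompletion F)) (borel _))
    (μt' : @Measure (T6.twCentSub (T6.glAut sw) (locG305 w δ)) (borel _)),
    PlaceOver ℚ F v w ∧
    (∀ w' : HeightOneSpectrum (𝓞 F), PlaceOver ℚ F v w' → w' = w) ∧
    (∀ x : ℚ, i (algebraMap ℚ (v.adicCompletion ℚ) x)
      = algebraMap F (w.adicCompletion F) (algebraMap ℚ F x)) ∧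
    (∀ y : F, sw (algebraMap F (w.adicCompletion F) y)
      = algebraMap F (w.adicCompletion F) (D.s.σ y)) ∧
    T6.IsLocalExt (v.adicCompletion ℚ) (w.adicCompletion F) D.l e i sw ∧
    IsLocHaar305 (n w) μ' ∧ IsLocTor305 sw (locG305 w δ) μt' ∧
    IsLocCut305 sw (locG305 w δ) μt' β' ∧
    J = locTwInt340 sw μ' β' (φ₀ w) (locG305 w δ)

/-- `J` is the local twisted integral upstairs at the SPLIT place `v`, for an enumeration of the
places over `v` which starts with `w0`; the levels agree and `β'` is the cut-off function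
downstairs in the coordinate of `w0` (`FUQ514.IsSplitValQ514` with the first place named). -/
def IsSplitAtQ (D : CompData ℚ F) (n : HeightOneSpectrum (𝓞 F) → ℕ)
    (m : HeightOneSpectrum (𝓞 ℚ) → ℕ)
    (φ₀ : ∀ w : HeightOneSpectrum (𝓞 F), GL (Fin 2) (w.adicCompletion F) → ℂ)
    (δ : GL (Fin 2) F) {γ : GL (Fin 2) ℚ} (L : LocDataQ298 γ)
    (v : HeightOneSpectrum (𝓞 ℚ)) (w0 : HeightOneSpectrum (𝓞 F))
    (β' : GL (Fin 2) (w0.adicCompletion F) → ℝ) (J : ℂ) : Prop :=
  ∃ (hl : 0 < D.l) (w : ℕ → HeightOneSpectrum (𝓞 F))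
    (i : ∀ j : ℕ, v.adicCompletion ℚ ≃+* (w j).adicCompletion F),
    w 0 = w0 ∧ (∀ j : ℕ, n (w j) = m v) ∧
    (∀ y : G F, β' (finGL305 w0 y)
      = L.βv v (Matrix.GeneralLinearGroup.map
          (((i 0).symm : (w 0).adicCompletion F ≃+* _) :
            (w 0).adicCompletion F →+* v.adicCompletion ℚ) (finGL305 (w 0) y))) ∧
    (∀ j : ℕ, PlaceOver ℚ F v (w j)) ∧
    (∀ j : ℕ, T5.PlaceRel D.s (w (j + 1)) (w j)) ∧
    (∀ j : ℕ, 0 < j → j < D.l → w j ≠ w 0) ∧
    (∀ (j : ℕ) (x : ℚ), i j (algebraMap ℚ (v.adicCompletion ℚ) x)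
      = algebraMap F ((w j).adicCompletion F) (algebraMap ℚ F x)) ∧
    (∀ (j : ℕ) (x : v.adicCompletion ℚ), Valued.v (i j x) = Valued.v x) ∧
    J = splitInt340 D.l hl (L.μv v) (L.βv v)
        (fun j g => φ₀ (w j)
          (Matrix.GeneralLinearGroup.map ((i j : v.adicCompletion ℚ ≃+* _) :
            v.adicCompletion ℚ →+* (w j).adicCompletion F) g))
        (fun j => Matrix.GeneralLinearGroup.map
          (((i j).symm : (w j).adicCompletion F ≃+* _) :
            (w j).adicCompletion F →+* v.adicCompletion ℚ) (locG305 (w j) δ))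

/-- `Jc j` are the local twisted integrals upstairs at the infinite place `w` for the cut-off
function `β'`, normalised against the torus measure `L.μtr` downstairs
(`FUQ514.IsArchValQ514` with `w` and `β'` named, the same for all `j`). -/
def IsArchAtQ (D : CompData ℚ F) (Φ : InfinitePlace F → GL (Fin 2) ℂ → ℂ)
    (δ : GL (Fin 2) F) {γ : GL (Fin 2) ℚ} (L : LocDataQ298 γ)
    (μc : @Measure (GL (Fin 2) ℂ) (borel _)) (w : InfinitePlace F)
    (β' : GL (Fin 2) ℂ → ℝ) (Jc : ℤ → ℂ) : Prop :=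
  Continuous β' ∧ (∀ x, 0 ≤ β' x) ∧
    (∀ x : GL (Fin 2) ℂ,
      @integral _ _ _ _ (borel _) L.μtr
        (fun t : cent305 (reGLQ298 (T5.ratG γ)) =>
          β' (Matrix.GeneralLinearGroup.map (algebraMap ℝ ℂ) (t : GL (Fin 2) ℝ) * x)) = 1) ∧
    ∀ j : ℤ, Jc j = @integral _ _ _ _ (borel _) μc
        (fun x : GL (Fin 2) ℂ =>
          Φ w (x⁻¹ * infGL305 w (T5.ratG δ * D.R'.r ^ j)
              * T6.glAut (starRingAut : ℂ ≃+* ℂ) x) * ((β' x : ℝ) : ℂ))

/-- **THE PROPERTIES OF THE DATA UPSTAIRS** for the places of `S`, with the values `J`, `Jc`. -/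
def IsUpDatQ (D : CompData ℚ F) (n : HeightOneSpectrum (𝓞 F) → ℕ)
    (m : HeightOneSpectrum (𝓞 ℚ) → ℕ)
    (φ₀ : ∀ w : HeightOneSpectrum (𝓞 F), GL (Fin 2) (w.adicCompletion F) → ℂ)
    (Φ : InfinitePlace F → GL (Fin 2) ℂ → ℂ)
    (δ : GL (Fin 2) F) {γ : GL (Fin 2) ℚ} (L : LocDataQ298 γ)
    (μc : @Measure (GL (Fin 2) ℂ) (borel _)) (S : Finset (HeightOneSpectrum (𝓞 ℚ)))
    (U : UpDatQ F) (J : HeightOneSpectrum (𝓞 ℚ) → ℂ) (Jc : ℤ → ℂ) : Prop :=
  (∀ v ∈ S, IsInertAtQ D n φ₀ δ v (U.w0 v) (U.bet v) (J v) ∨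
      IsSplitAtQ D n m φ₀ δ L v (U.w0 v) (U.bet v) (J v)) ∧
    IsArchAtQ D Φ δ L μc U.winf U.βc Jc

/-- The levels agree at the split places of `S`, for the enumerations which start with the
place named by `w0c` (consequence of the clause `split` of the local hypotheses, in the form
of ALL enumerations and in the form of ONE enumeration). -/
def LevelsAtSplitQ (D : CompData ℚ F) (n : HeightOneSpectrum (𝓞 F) → ℕ)
    (m : HeightOneSpectrum (𝓞 ℚ) → ℕ) (S : Finset (HeightOneSpectrum (𝓞 ℚ)))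
    (w0c : HeightOneSpectrum (𝓞 ℚ) → HeightOneSpectrum (𝓞 F)) : Prop :=
  ∀ v ∈ S, ∀ (w : ℕ → HeightOneSpectrum (𝓞 F))
    (i : ∀ j : ℕ, v.adicCompletion ℚ ≃+* (w j).adicCompletion F),
    w 0 = w0c v →
    (∀ j : ℕ, PlaceOver ℚ F v (w j)) → (∀ j : ℕ, T5.PlaceRel D.s (w (j + 1)) (w j)) →
    (∀ j : ℕ, 0 < j → j < D.l → w j ≠ w 0) →
    (∀ (j : ℕ) (x : ℚ), i j (algebraMap ℚ (v.adicCompletion ℚ) x)
      = algebraMap F ((w j).adicCompletion F) (algebraMap ℚ F x)) →
    (∀ (j : ℕ) (x : v.adicCompletion ℚ), Valued.v (i j x) = Valued.v x) →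
    ∀ j : ℕ, n (w j) = m v

end Defs

/-! ## 2. The leaf and the two nodes -/

section Leaves

variable (F : Type) [Field F] [NumberField F]

/-- **LEAF U.1 = UP-DAT-EXISTS (local existence).**  See the header. -/
def UpDatExistsQC : Prop :=
  T6.T6Out → IsImagQuad F →
  ∀ D : CompData ℚ F, IsCompData D → IsCycExt ℚ F D.l → D.l = 2 →
    ∀ μc : @Measure (GL (Fin 2) ℂ) (borel _), @Measure.IsHaarMeasure _ _ _ (borel _) μc →
    ∀ (n : HeightOneSpectrum (𝓞 F) → ℕ) (m : HeightOneSpectrum (𝓞 ℚ) → ℕ)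
      (S : Finset (HeightOneSpectrum (𝓞 ℚ)))
      (φ₀ : ∀ w : HeightOneSpectrum (𝓞 F), GL (Fin 2) (w.adicCompletion F) → ℂ)
      (Φ : InfinitePlace F → GL (Fin 2) ℂ → ℂ)
      (w0c : HeightOneSpectrum (𝓞 ℚ) → HeightOneSpectrum (𝓞 F)),
      (∀ v ∈ S, PlaceOver ℚ F v (w0c v)) → LevelsAtSplitQ D n m S w0c →
    ∀ (δ : GL (Fin 2) F) (γ : GL (Fin 2) ℚ), T6.IsEll γ →
      D.s.normUpTo D.l δ = Matrix.GeneralLinearGroup.map (algebraMap ℚ F) γ →
    ∀ L : LocDataQ298 γ, IsLocDataQ298 m L →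
      ∃ (U : UpDatQ F) (J : HeightOneSpectrum (𝓞 ℚ) → ℂ) (Jc : ℤ → ℂ),
        U.w0 = w0c ∧ IsUpDatQ D n m φ₀ Φ δ L μc S U J Jc

/-- **NODE U.2 = CUT-ON-UP (Part A: the cut-off part).**  See the header. -/
def CutOnUpQC : Prop :=
  T6.T6Out → IsImagQuad F →
  ∀ D : CompData ℚ F, IsCompData D → IsCycExt ℚ F D.l → D.l = 2 →
    ∀ ι : Adl ℚ →+* Adl F, IsAdeleBase305 D.s D.l ι →
    ∀ μc : @Measure (GL (Fin 2) ℂ) (borel _), @Measure.IsHaarMeasure _ _ _ (borel _) μc →
    ∀ (T₀ : Finset (HeightOneSpectrum (𝓞 ℚ))), UnramOut305 (K' := F) T₀ →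
    ∀ (n : HeightOneSpectrum (𝓞 F) → ℕ) (m : HeightOneSpectrum (𝓞 ℚ) → ℕ)
      (S : Finset (HeightOneSpectrum (𝓞 ℚ))) (S' : Finset (HeightOneSpectrum (𝓞 F))),
      T₀ ⊆ S → IsOver305 S S' →
    ∀ (φ₀ : ∀ w : HeightOneSpectrum (𝓞 F), GL (Fin 2) (w.adicCompletion F) → ℂ)
      (Φ : InfinitePlace F → GL (Fin 2) ℂ → ℂ),
    ∀ (δ : GL (Fin 2) F) (γ : GL (Fin 2) ℚ), T6.IsEll γ →
      D.s.normUpTo D.l δ = Matrix.GeneralLinearGroup.map (algebraMap ℚ F) γ →
      GoodOut305 S γ → IntOut305 S' δ →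
    ∀ (μT : @Measure (tA305 (T5.AdelicAut.id ℚ) γ) (borel _))
      (μT' : @Measure (tA305 D.s δ) (borel _)),
      @Measure.IsHaarMeasure _ _ _ (borel _) μT →
      @Measure.IsHaarMeasure _ _ _ (borel _) μT' →
      IsTorLinked305 ι D.s δ γ μT μT' →
    ∀ (L : LocDataQ298 γ) (cT : ℝ), IsLocDataQ298 m L → 0 < cT → IsTorConstQ298 γ μT L cT →
    ∀ (U : UpDatQ F) (J : HeightOneSpectrum (𝓞 ℚ) → ℂ) (Jc : ℤ → ℂ),
      IsUpDatQ D n m φ₀ Φ δ L μc S U J Jc →
      IsCutOn305 D.s δ μT' (prodCutUpQ S' S cT U)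
        {x | T5.twTerm D.R'.r D.s (pure305 S' φ₀ Φ) δ x ≠ 0}

/-- **NODE U.3 = FACT-INT-UP (Part B: the integral part).**  See the header. -/
def FactIntUpQC : Prop :=
  T6.T6Out → IsImagQuad F →
  ∀ D : CompData ℚ F, IsCompData D → IsCycExt ℚ F D.l → D.l = 2 →
    ∀ μc : @Measure (GL (Fin 2) ℂ) (borel _), @Measure.IsHaarMeasure _ _ _ (borel _) μc →
    ∀ (T₀ : Finset (HeightOneSpectrum (𝓞 ℚ))), UnramOut305 (K' := F) T₀ →
    ∀ (n : HeightOneSpectrum (𝓞 F) → ℕ) (m : HeightOneSpectrum (𝓞 ℚ) → ℕ),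
      IsLevelAt305 T₀ n m →
    ∃ cG' : ℝ, 0 < cG' ∧
      ∀ (S : Finset (HeightOneSpectrum (𝓞 ℚ))) (S' : Finset (HeightOneSpectrum (𝓞 F))),
        T₀ ⊆ S → IsOver305 S S' →
      ∀ (φ₀ : ∀ w : HeightOneSpectrum (𝓞 F), GL (Fin 2) (w.adicCompletion F) → ℂ)
        (Φ : InfinitePlace F → GL (Fin 2) ℂ → ℂ),
        (∀ v ∈ S, ∀ w : HeightOneSpectrum (𝓞 F), PlaceOver ℚ F v w →
          T6.IsBiInv (T6.InU (n w)) (φ₀ w) ∧ T6.HasFinSupp (T6.InU (n w)) (φ₀ w)) →
        (∀ w : InfinitePlace F, Continuous (Φ w) ∧ HasCompactSupport (Φ w)) →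
      ∀ (δ : GL (Fin 2) F) (γ : GL (Fin 2) ℚ), T6.IsEll γ →
        D.s.normUpTo D.l δ = Matrix.GeneralLinearGroup.map (algebraMap ℚ F) γ →
        GoodOut305 S γ → IntOut305 S' δ →
      ∀ (L : LocDataQ298 γ) (cT : ℝ), IsLocDataQ298 m L → 0 < cT →
      ∀ (U : UpDatQ F) (J : HeightOneSpectrum (𝓞 ℚ) → ℂ) (Jc : ℤ → ℂ),
        IsUpDatQ D n m φ₀ Φ δ L μc S U J Jc →
        cutInt305 D.R'.r D.s (pure305 S' φ₀ Φ) δ D.R'.μ (prodCutUpQ S' S cT U)
          = ((cG' / cT : ℝ) : ℂ) * ∑' j : ℤ, (∏ v ∈ S, J v) * Jc j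

/-- **THE NODE IN THE FORM WITHOUT LOCAL HYPOTHESES (`W`-form).**  The caller names the first
places `w0c`; of the local hypotheses only the bi-invariance and finite support upstairs, the
continuity and compact support at infinity and the levels at the split places are used.  The
values are `IsInertAtQ` / `IsSplitAtQ` (first place `w0c v`) / `IsArchAtQ`. -/
def UpFactQWC : Prop :=
  T6.T6Out → IsImagQuad F →
  ∀ D : CompData ℚ F, IsCompData D → IsCycExt ℚ F D.l → D.l = 2 →
    ∀ ι : Adl ℚ →+* Adl F, IsAdeleBase305 D.s D.l ι →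
    ∀ μc : @Measure (GL (Fin 2) ℂ) (borel _), @Measure.IsHaarMeasure _ _ _ (borel _) μc →
    ∀ (T₀ : Finset (HeightOneSpectrum (𝓞 ℚ))), UnramOut305 (K' := F) T₀ →
    ∀ (n : HeightOneSpectrum (𝓞 F) → ℕ) (m : HeightOneSpectrum (𝓞 ℚ) → ℕ),
      IsLevelAt305 T₀ n m →
    ∃ cG' : ℝ, 0 < cG' ∧
      ∀ (S : Finset (HeightOneSpectrum (𝓞 ℚ))) (S' : Finset (HeightOneSpectrum (𝓞 F))),
        T₀ ⊆ S → IsOver305 S S' →
      ∀ (φ₀ : ∀ w : HeightOneSpectrum (𝓞 F), GL (Fin 2) (w.adicCompletion F) → ℂ)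
        (Φ : InfinitePlace F → GL (Fin 2) ℂ → ℂ),
        (∀ v ∈ S, ∀ w : HeightOneSpectrum (𝓞 F), PlaceOver ℚ F v w →
          T6.IsBiInv (T6.InU (n w)) (φ₀ w) ∧ T6.HasFinSupp (T6.InU (n w)) (φ₀ w)) →
        (∀ w : InfinitePlace F, Continuous (Φ w) ∧ HasCompactSupport (Φ w)) →
      ∀ w0c : HeightOneSpectrum (𝓞 ℚ) → HeightOneSpectrum (𝓞 F),
        (∀ v ∈ S, PlaceOver ℚ F v (w0c v)) → LevelsAtSplitQ D n m S w0c →
      ∀ (δ : GL (Fin 2) F) (γ : GL (Fin 2) ℚ), T6.IsEll γ →
        D.s.normUpTo D.l δ = Matrix.GeneralLinearGroup.map (algebraMap ℚ F) γ →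
        GoodOut305 S γ → IntOut305 S' δ →
      ∀ (μT : @Measure (tA305 (T5.AdelicAut.id ℚ) γ) (borel _))
        (μT' : @Measure (tA305 D.s δ) (borel _)),
        @Measure.IsHaarMeasure _ _ _ (borel _) μT →
        @Measure.IsHaarMeasure _ _ _ (borel _) μT' →
        IsTorLinked305 ι D.s δ γ μT μT' →
      ∀ (L : LocDataQ298 γ) (cT : ℝ), IsLocDataQ298 m L → 0 < cT → IsTorConstQ298 γ μT L cT →
        ∃ (U : UpDatQ F) (J : HeightOneSpectrum (𝓞 ℚ) → ℂ) (Jc : ℤ → ℂ),
          U.w0 = w0c ∧ IsUpDatQ D n m φ₀ Φ δ L μc S U J Jc ∧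
          IsCutOn305 D.s δ μT' (prodCutUpQ S' S cT U)
              {x | T5.twTerm D.R'.r D.s (pure305 S' φ₀ Φ) δ x ≠ 0} ∧
            cutInt305 D.R'.r D.s (pure305 S' φ₀ Φ) δ D.R'.μ (prodCutUpQ S' S cT U)
              = ((cG' / cT : ℝ) : ℂ) * ∑' j : ℤ, (∏ v ∈ S, J v) * Jc j

end Leaves

/-! ## Appendix: the equation lemmas of the definitions are realised HERE -/

theorem eqns_realised_H1U : True := by
  have _a1 := @prodCutUpQ.eq_1
  have _a2 := @prodCutUpQ.eq_def
  have _a3 := @prodCutUpQ.eq_unfold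
  have _b1 := @IsInertAtQ.eq_1
  have _b2 := @IsInertAtQ.eq_def
  have _b3 := @IsInertAtQ.eq_unfold
  have _c1 := @IsSplitAtQ.eq_1
  have _c2 := @IsSplitAtQ.eq_def
  have _c3 := @IsSplitAtQ.eq_unfold
  have _d1 := @IsArchAtQ.eq_1
  have _d2 := @IsArchAtQ.eq_def
  have _d3 := @IsArchAtQ.eq_unfold
  have _e1 := @IsUpDatQ.eq_1
  have _e2 := @IsUpDatQ.eq_def
  have _e3 := @IsUpDatQ.eq_unfold
  have _f1 := @LevelsAtSplitQ.eq_1
  have _f2 := @LevelsAtSplitQ.eq_def
  have _f3 := @LevelsAtSplitQ.eq_unfold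
  have _g1 := @UpDatExistsQC.eq_1
  have _g2 := @UpDatExistsQC.eq_def
  have _g3 := @UpDatExistsQC.eq_unfold
  have _h1 := @CutOnUpQC.eq_1
  have _h2 := @CutOnUpQC.eq_def
  have _h3 := @CutOnUpQC.eq_unfold
  have _i1 := @FactIntUpQC.eq_1
  have _i2 := @FactIntUpQC.eq_def
  have _i3 := @FactIntUpQC.eq_unfold
  have _j1 := @UpFactQWC.eq_1
  have _j2 := @UpFactQWC.eq_def
  have _j3 := @UpFactQWC.eq_unfold
  trivial

end Fermat.Agent.LT.T7.H1U

end

end
-- ===== PACK-END LT/T7/H1U/UpFactQSpec.lean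

-- ===== PACK-BEGIN LT/T7/H757/LocEqInertQ.lean
section



/-!
# Row LT, tower T7, leaf Q2.7.13.2 `FUQ514.LocEqInertQC514` (cut of helper514, registry row 2709)

OFF-MAIN.  `locEqInertQC757 F : FUQ514.LocEqInertQC514 F` VERBATIM, for every number field `F`.
Spec: `T7/H514/FactUpQSpec.lean` (helper514@c4d7f196f, sha256 01844c0a365a9314).

Proof = the proof of the cubic leaf `H340.LocEqInertC340` by helper555
(`T7/H555/LocEqInert.lean`), ported to `K = ℚ`, `K' = F`, with `LocHypQ298.inert` in place of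
`LocHyp305.inert`.  `T6.InstLocalC`: `ℚ_v`, `F_w` are local fields; `T6.InstExtC` for a generator
of the Galois group gives the residue field of `F_w` (`N w = N v ^ (l / e₀)`), and `e₀` is the `e`
of the given local extension datum (both are the valuation of the image of a uniformiser of
`ℚ`).  `T6.OrbSumExC` gives orbit sums upstairs (twisted) and downstairs (`k' = k`,
`l = e = 1`), `T6.OrbSumIntC` identifies them with the two integrals, and `LocHypQ298.inert`
says that they agree (`N δ_w = i(γ_v)`).  Neither `D.l = 2` nor `IsImagQuad F` is used.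

SELF-CONTAINED: imports the Spec only.  The auxiliary statements are stated for a general
extension `K'/K` (names with the suffix `757`).  NO equation lemma of a foreign definition is
realised here (foreign definitions are opened by definitional unfolding only).
-/

set_option autoImplicit false
set_option linter.style.haveILetI false
set_option linter.unusedSectionVars false

open AutomorphicForm IsDedekindDomain NumberField MeasureTheory
open scoped ComplexConjugate

noncomputable section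

namespace Fermat.Agent.LT.T7.H757

open Fermat.Agent.LT.H556 Fermat.Agent.LT.H556.A0 Fermat.Agent.LT Fermat.Agent.LT.T7
open Fermat.Agent.LT.T7.H305 Fermat.Agent.LT.T7.H340 Fermat.Agent.LT.T7.MQ298
open Fermat.Agent.LT.T7.FUQ514

/-! ## 1. Algebra of `GL₂` under ring homomorphisms -/

theorem disc_map757 {R S : Type} [CommRing R] [CommRing S] (f : R →+* S) (γ : GL (Fin 2) R) :
    T6.disc (Matrix.GeneralLinearGroup.map f γ) = f (T6.disc γ) := by
  show ((γ : Matrix (Fin 2) (Fin 2) R).map f).trace ^ 2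
      - 4 * ((γ : Matrix (Fin 2) (Fin 2) R).map f).det
    = f ((γ : Matrix (Fin 2) (Fin 2) R).trace ^ 2 - 4 * (γ : Matrix (Fin 2) (Fin 2) R).det)
  simp [Matrix.trace_fin_two, Matrix.det_fin_two, map_ofNat]

theorem isReg_map757 {R S : Type} [CommRing R] [CommRing S] (f : R →+* S) {γ : GL (Fin 2) R}
    (h : T6.IsReg γ) : T6.IsReg (Matrix.GeneralLinearGroup.map f γ) := by
  have h0 : IsUnit (T6.disc γ) := h
  show IsUnit (T6.disc (Matrix.GeneralLinearGroup.map f γ))
  rw [disc_map757]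
  exact h0.map f

theorem glAut_refl757 {R : Type} [CommRing R] (x : GL (Fin 2) R) :
    T6.glAut (RingEquiv.refl R) x = x := by
  apply Matrix.GeneralLinearGroup.ext
  intro a b
  rfl

theorem twNorm_one757 {R : Type} [CommRing R] (s : R ≃+* R) (δ : GL (Fin 2) R) :
    T6.twNorm s 1 δ = δ := by
  show δ * T6.glAut s 1 = δ
  rw [map_one, mul_one]

theorem isLocalExt_refl757 (k : Type) [Field k] [Valued k T6.Γ₀] :
    T6.IsLocalExt k k 1 1 (RingHom.id k) (RingEquiv.refl k) where
  cyc :=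
    { pos := Nat.one_pos
      fix_i := fun _ => rfl
      fixed := fun y _ => ⟨y, rfl⟩
      order := fun y => by simp
      faithful := fun m h1 h2 => by omega }
  e_pos := Nat.one_pos
  val_i := fun x => by simp
  val_s := fun _ => rfl

theorem locInt_refl757 {k : Type} [Field k] [Valued k T6.Γ₀]
    (μ : @Measure (GL (Fin 2) k) (borel _)) (β : GL (Fin 2) k → ℝ) (f : GL (Fin 2) k → ℂ)
    (γ : GL (Fin 2) k) :
    locTwInt340 (RingEquiv.refl k) μ β f γ = locInt305 μ β f γ := by
  show @integral _ _ _ _ (borel _) μ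
      (fun x : GL (Fin 2) k => f (x⁻¹ * γ * T6.glAut (RingEquiv.refl k) x) * ((β x : ℝ) : ℂ))
    = @integral _ _ _ _ (borel _) μ (fun y : GL (Fin 2) k => f (y⁻¹ * γ * y) * ((β y : ℝ) : ℂ))
  simp only [glAut_refl757]

section TwoFields

variable {K K' : Type} [Field K] [NumberField K] [Field K'] [NumberField K'] [Algebra K K']

theorem locG_onRat757 (s : T5.AdelicAut K') (w : HeightOneSpectrum (𝓞 K'))
    (sw : w.adicCompletion K' ≃+* w.adicCompletion K')
    (hsw : ∀ y : K', sw (algebraMap K' (w.adicCompletion K') y)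
      = algebraMap K' (w.adicCompletion K') (s.σ y)) (x : GL (Fin 2) K') :
    locG305 w (s.onRat x) = T6.glAut sw (locG305 w x) := by
  apply Matrix.GeneralLinearGroup.ext
  intro a b
  exact (hsw _).symm

theorem locG_normUpTo757 (s : T5.AdelicAut K') (w : HeightOneSpectrum (𝓞 K'))
    (sw : w.adicCompletion K' ≃+* w.adicCompletion K')
    (hsw : ∀ y : K', sw (algebraMap K' (w.adicCompletion K') y)
      = algebraMap K' (w.adicCompletion K') (s.σ y)) (l : ℕ) (δ : GL (Fin 2) K') :
    locG305 w (s.normUpTo l δ) = T6.twNorm sw l (locG305 w δ) := by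
  induction l with
  | zero =>
    show locG305 w 1 = 1
    exact map_one _
  | succ n ih =>
    show locG305 w (δ * s.onRat (s.normUpTo n δ))
      = locG305 w δ * T6.glAut sw (T6.twNorm sw n (locG305 w δ))
    rw [map_mul, locG_onRat757 s w sw hsw, ih]

theorem locG_base757 (v : HeightOneSpectrum (𝓞 K)) (w : HeightOneSpectrum (𝓞 K'))
    (i : v.adicCompletion K →+* w.adicCompletion K')
    (hi : ∀ x : K, i (algebraMap K (v.adicCompletion K) x)
      = algebraMap K' (w.adicCompletion K') (algebraMap K K' x)) (γ : GL (Fin 2) K) :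
    locG305 w (Matrix.GeneralLinearGroup.map (algebraMap K K') γ)
      = Matrix.GeneralLinearGroup.map i (locG305 v γ) := by
  apply Matrix.GeneralLinearGroup.ext
  intro a b
  exact (hi _).symm

/-- The ramification index of a local embedding is determined by its restriction to `K`. -/
theorem ramIdx_unique757 (v : HeightOneSpectrum (𝓞 K)) (w : HeightOneSpectrum (𝓞 K'))
    (e e₀ : ℕ) (i i₀ : v.adicCompletion K →+* w.adicCompletion K')
    (hi : ∀ x : K, i (algebraMap K (v.adicCompletion K) x)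
      = algebraMap K' (w.adicCompletion K') (algebraMap K K' x))
    (hi₀ : ∀ x : K, i₀ (algebraMap K (v.adicCompletion K) x)
      = algebraMap K' (w.adicCompletion K') (algebraMap K K' x))
    (hv : ∀ x : v.adicCompletion K, Valued.v (i x) = Valued.v x ^ e)
    (hv₀ : ∀ x : v.adicCompletion K, Valued.v (i₀ x) = Valued.v x ^ e₀) : e = e₀ := by
  obtain ⟨π, hπ⟩ := v.valuation_exists_uniformizer K
  have h1 := hv (algebraMap K _ π)
  have h2 := hv₀ (algebraMap K _ π)
  rw [hi] at h1
  rw [hi₀] at h2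
  have h3 : Valued.v (algebraMap K (v.adicCompletion K) π) = WithZero.exp (-1 : ℤ) := by
    rw [← hπ]
    exact v.valuedAdicCompletion_eq_valuation' π
  rw [h3] at h1 h2
  have h4 : WithZero.exp (-1 : ℤ) ^ e = WithZero.exp (-1 : ℤ) ^ e₀ := h1.symm.trans h2
  rw [← WithZero.exp_nsmul, ← WithZero.exp_nsmul, WithZero.exp_inj] at h4
  have h5 : (e : ℤ) * (-1) = (e₀ : ℤ) * (-1) := by simpa using h4
  omega

theorem exists_gen757 (l : ℕ) (h : IsCycExt K K' l) :
    ∃ s : K' ≃ₐ[K] K', ∀ t : K' ≃ₐ[K] K', t ∈ Subgroup.zpowers s := by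
  haveI := h.galois
  haveI : Fact l.Prime := ⟨h.prime⟩
  have hcard : Nat.card (K' ≃ₐ[K] K') = l := by
    rw [IsGalois.card_aut_eq_finrank, h.degree]
  haveI : IsCyclic (K' ≃ₐ[K] K') := isCyclic_of_prime_card hcard
  exact IsCyclic.exists_generator

theorem coe_algebraMap757 (x : 𝓞 K) :
    ((algebraMap (𝓞 K) (𝓞 K') x : 𝓞 K') : K') = algebraMap K K' (x : K) := rfl

theorem placeOver_iff757 {v : HeightOneSpectrum (𝓞 K)} {w : HeightOneSpectrum (𝓞 K')}
    (h : PlaceOver K K' v w) (x : 𝓞 K) :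
    x ∈ v.asIdeal ↔ algebraMap (𝓞 K) (𝓞 K') x ∈ w.asIdeal :=
  h x _ (coe_algebraMap757 x)

theorem placeOver_of_le757 {v : HeightOneSpectrum (𝓞 K)} {w : HeightOneSpectrum (𝓞 K')}
    (h : ∀ x : 𝓞 K, x ∈ v.asIdeal → algebraMap (𝓞 K) (𝓞 K') x ∈ w.asIdeal) :
    PlaceOver K K' v w := by
  intro x y hxy
  have hy : y = algebraMap (𝓞 K) (𝓞 K') x := by
    exact RingOfIntegers.ext (hxy.trans (coe_algebraMap757 x).symm)
  subst hy
  refine ⟨h x, fun hx => ?_⟩
  by_contra hxv
  haveI : v.asIdeal.IsMaximal := v.isMaximal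
  obtain ⟨a, b, hb, hab⟩ := Ideal.IsMaximal.exists_inv (I := v.asIdeal) inferInstance hxv
  have h1 : algebraMap (𝓞 K) (𝓞 K') (a * x + b) ∈ w.asIdeal := by
    rw [map_add, map_mul]
    exact w.asIdeal.add_mem (w.asIdeal.mul_mem_left _ hx) (h b hb)
  rw [hab, map_one] at h1
  exact w.isPrime.ne_top ((Ideal.eq_top_iff_one _).mpr h1)

end TwoFields

/-! ## 2. The leaf -/

/-- **LEAF Q2.7.13.2 = LOC-EQ-INERT over `ℚ`**, VERBATIM. -/
theorem locEqInertQC757 (F : Type) [Field F] [NumberField F] : LocEqInertQC514 F := by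
  intro hT6 _hIQ D _hD hcyc _hl2 μr μc S n m φ₀ Φ f₀ F0 F1 hLoc δ γ hEll hN L hL v hv J hJ
  obtain ⟨_, _, _, _, _, hInstLoc, hInstExt, _, hEx, _, hInt, _⟩ := hT6
  obtain ⟨w, e, i, sw, μ', μt', β', hvw, huniq, hi, hsw, hext, hμ', hμt', hβ', rfl⟩ := hJ
  obtain ⟨hμ'1, hμ'2⟩ := hμ'
  obtain ⟨hμt'1, hμt'2⟩ := hμt'
  obtain ⟨hβ'1, hβ'2, hβ'3⟩ := hβ'
  obtain ⟨hμ1, hμ2⟩ := hL.haar v
  obtain ⟨hμt1, hμt2⟩ := hL.tor v
  obtain ⟨hβ1, hβ2, hβ3⟩ := hL.cut v
  obtain ⟨hup1, hup2⟩ := hLoc.inv_up v hv w hvw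
  obtain ⟨hdn1, hdn2⟩ := hLoc.inv_down v hv
  -- regularity
  have hregγ : T6.IsReg (locG305 v γ) := isReg_map757 _ hEll.1
  have hnorm : T6.twNorm sw D.l (locG305 w δ)
      = Matrix.GeneralLinearGroup.map i (locG305 v γ) := by
    rw [← locG_normUpTo757 D.s w sw hsw, hN, locG_base757 v w i hi]
  have hregδ : T6.IsReg (T6.twNorm sw D.l (locG305 w δ)) := by
    rw [hnorm]
    exact isReg_map757 _ hregγ
  -- the local fields
  have hkv := hInstLoc ℚ v
  have hkw := hInstLoc F w
  have hkw' : T6.IsLocalField (w.adicCompletion F)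
      (Ideal.absNorm v.asIdeal ^ (D.l / e)) := by
    haveI := hcyc.galois
    obtain ⟨s, hs⟩ := exists_gen757 D.l hcyc
    obtain ⟨e₀, i₀, sw₀, hi₀, _, hext₀, hN₀⟩ :=
      hInstExt ℚ F s hs (hcyc.degree ▸ hcyc.prime) v w (placeOver_iff757 hvw)
        (fun w' hw' => huniq w' (placeOver_of_le757 hw'))
    have he : e = e₀ := ramIdx_unique757 v w e e₀ i i₀ hi hi₀ hext.val_i hext₀.val_i
    rw [he, ← hcyc.degree, ← hN₀]
    exact hkw
  -- orbit sums
  obtain ⟨c, hc⟩ := hEx (v.adicCompletion ℚ) (w.adicCompletion F) (Ideal.absNorm v.asIdeal)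
    D.l e i sw hkv hkw' hext (n w) (φ₀ w) hup1 hup2 (locG305 w δ) hregδ
  have hkv1 : T6.IsLocalField (v.adicCompletion ℚ) (Ideal.absNorm v.asIdeal ^ (1 / 1)) := by
    have : Ideal.absNorm v.asIdeal ^ (1 / 1) = Ideal.absNorm v.asIdeal := by norm_num
    rw [this]
    exact hkv
  have hregγ1 : T6.IsReg (T6.twNorm (RingEquiv.refl (v.adicCompletion ℚ)) 1 (locG305 v γ)) := by
    rw [twNorm_one757]
    exact hregγ
  obtain ⟨c', hc'⟩ := hEx (v.adicCompletion ℚ) (v.adicCompletion ℚ) (Ideal.absNorm v.asIdeal)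
    1 1 (RingHom.id _) (RingEquiv.refl _) hkv hkv1 (isLocalExt_refl757 _) (m v) (f₀ v) hdn1 hdn2
    (locG305 v γ) hregγ1
  -- the integrals
  have hJc : locTwInt340 sw μ' β' (φ₀ w) (locG305 w δ) = c :=
    hInt (w.adicCompletion F) (Ideal.absNorm w.asIdeal) D.l sw hkw hext.val_s hext.cyc.pos
      hext.cyc.order (n w) (φ₀ w) hup1 hup2 (locG305 w δ) c hregδ hc μ' hμ'1 hμ'2 μt' hμt'1 hμt'2
      β' hβ'1 hβ'2 hβ'3
  have hIc : locInt305 (L.μv v) (L.βv v) (f₀ v) (locG305 v γ) = c' := by
    have h := hInt (v.adicCompletion ℚ) (Ideal.absNorm v.asIdeal) 1 (RingEquiv.refl _) hkv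
      (fun _ => rfl) Nat.one_pos (fun y => by simp) (m v) (f₀ v) hdn1 hdn2 (locG305 v γ) c'
      hregγ1 hc' (L.μv v) hμ1 hμ2 (L.μt v) hμt1 hμt2 (L.βv v) hβ1 hβ2 hβ3
    rw [← h]
    exact (locInt_refl757 _ _ _ _).symm
  -- matching
  have hcc' : c = c' :=
    (hLoc.inert v hv w hvw huniq e i sw hi hsw hext).1 (locG305 w δ) (locG305 v γ) c c' hregγ
      (hnorm ▸ IsConj.refl _) hc hc'
  rw [hJc, hIc, hcc']

/-- Example check: the statement is the frozen Prop of the Spec, verbatim. -/
example (F : Type) [Field F] [NumberField F] : FUQ514.LocEqInertQC514 F := locEqInertQC757 F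

end Fermat.Agent.LT.T7.H757

end

end
-- ===== PACK-END LT/T7/H757/LocEqInertQ.lean

-- ===== PACK-BEGIN LT/T7/H385/CutOnOutQ.lean
section




/-!
# Row LT, tower T7, node `FactDownQC298`, leaf FDQ.5 `CutOnOutQC751` (registry 2699, SPARE)

OFF-MAIN (helper385, owner of the cubic mirror row 2640).  `cutOnOutQC385 : H751.CutOnOutQC751`,
UNCONDITIONAL, VERBATIM Prop of `LT/T7/H751/FactDownQSpec.lean` (helper751@9f5415940).

Same proof as `cutOnOutC385` (`CutOnOut.lean`); the second factor is the single group `GL₂(ℝ)`.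
-/

set_option autoImplicit false
set_option linter.style.haveILetI false

open AutomorphicForm IsDedekindDomain NumberField MeasureTheory

noncomputable section

namespace Fermat.Agent.LT.T7.H385

open Fermat.Agent.LT Fermat.Agent.LT.H556 Fermat.Agent.LT.H556.A0 Fermat.Agent.LT.T7
open Fermat.Agent.LT.T7.H305 Fermat.Agent.LT.T7.H558 Fermat.Agent.LT.T7.H751

open Classical in
/-- Fubini for a cut-off of product form, one extra factor. -/
theorem integral_cut_absQ385 {X : Type*} [MeasurableSpace X] {ι : Type*} [Fintype ι]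
    {Y : ι → Type*} [∀ i, MeasurableSpace (Y i)] {Z : Type*} [MeasurableSpace Z]
    (μ : Measure X) (A : Set X) (hA : MeasurableSet A)
    (φ : X → (∀ i, Y i) × Z) (hφ : Measurable φ)
    (ν : ∀ i, Measure (Y i)) (ρ : Measure Z) [∀ i, SigmaFinite (ν i)] [SigmaFinite ρ]
    (c : ℝ) (hc : 0 < c)
    (hmap : Measure.map φ (μ.restrict A) = ENNReal.ofReal c • ((Measure.pi ν).prod ρ))
    (a : ∀ i, Y i → ℝ) (b : Z → ℝ) (ha : ∀ i, Measurable (a i)) (hb : Measurable b)
    (ha1 : ∀ i, ∫ y, a i y ∂ν i = 1) (hb1 : ∫ z, b z ∂ρ = 1) :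
    ∫ x, (if x ∈ A then c⁻¹ * (∏ i, a i ((φ x).1 i)) * b (φ x).2 else 0) ∂μ = 1 := by
  set g : (∀ i, Y i) × Z → ℝ := fun p => c⁻¹ * (∏ i, a i (p.1 i)) * b p.2 with hg
  have hgm : Measurable g := by
    refine (measurable_const.mul ?_).mul (hb.comp measurable_snd)
    exact Finset.measurable_prod _ fun i _ =>
      (ha i).comp ((measurable_pi_apply i).comp measurable_fst)
  have e1 : (fun x => if x ∈ A then c⁻¹ * (∏ i, a i ((φ x).1 i)) * b (φ x).2 else 0)
      = A.indicator (fun x => g (φ x)) := by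
    funext x
    by_cases hx : x ∈ A
    · rw [if_pos hx, Set.indicator_of_mem hx]
    · rw [if_neg hx, Set.indicator_of_notMem hx]
  rw [e1, integral_indicator hA, ← integral_map hφ.aemeasurable hgm.aestronglyMeasurable, hmap,
    integral_smul_measure, ENNReal.toReal_ofReal hc.le]
  have e2 : ∫ p, g p ∂((Measure.pi ν).prod ρ)
      = c⁻¹ * ((∫ y, ∏ i, a i (y i) ∂(Measure.pi ν)) * ∫ z, b z ∂ρ) := by
    rw [← integral_prod_mul, ← integral_const_mul]
    congr 1
    funext p
    show (c⁻¹ * ∏ i, a i (p.1 i)) * b p.2 = _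
    rw [mul_assoc]
  rw [e2, integral_fintype_prod_eq_prod]
  simp only [ha1, hb1, Finset.prod_const_one, mul_one, smul_eq_mul]
  exact mul_inv_cancel₀ hc.ne'

/-- **Leaf FDQ.5 `CutOnOutQC751`**, unconditional. -/
theorem cutOnOutQC385 : CutOnOutQC751 := by
  intro hσv hσr hfin hre m S γ hell hgood μT hμT L cT hL hcT hconst x' hx'
  classical
  letI iT : MeasurableSpace (tA305 (T5.AdelicAut.id ℚ) γ) := borel _
  haveI bT : BorelSpace (tA305 (T5.AdelicAut.id ℚ) γ) := ⟨rfl⟩
  letI iv : ∀ v : HeightOneSpectrum (𝓞 ℚ), MeasurableSpace (GL (Fin 2) (v.adicCompletion ℚ)) :=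
    fun _ => borel _
  haveI bv : ∀ v : HeightOneSpectrum (𝓞 ℚ), BorelSpace (GL (Fin 2) (v.adicCompletion ℚ)) :=
    fun _ => ⟨rfl⟩
  letI ic : MeasurableSpace (GL (Fin 2) ℝ) := borel _
  haveI bc : BorelSpace (GL (Fin 2) ℝ) := ⟨rfl⟩
  letI itv : ∀ v : HeightOneSpectrum (𝓞 ℚ), MeasurableSpace
      (T6.twCentSub (T6.glAut (RingEquiv.refl (v.adicCompletion ℚ))) (locG305 v γ)) :=
    fun _ => borel _
  haveI btv : ∀ v : HeightOneSpectrum (𝓞 ℚ), BorelSpace
      (T6.twCentSub (T6.glAut (RingEquiv.refl (v.adicCompletion ℚ))) (locG305 v γ)) :=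
    fun _ => ⟨rfl⟩
  letI itc : MeasurableSpace (cent305 (MQ298.reGLQ298 (T5.ratG γ))) := borel _
  haveI btc : BorelSpace (cent305 (MQ298.reGLQ298 (T5.ratG γ))) := ⟨rfl⟩
  have hmap := hconst S hgood
  have hAo : IsOpen {t : tA305 (T5.AdelicAut.id ℚ) γ | OutT305 S (t : G ℚ)} :=
    (H942.isOpen_integralOutside942 S).preimage continuous_subtype_val
  have hAm : MeasurableSet {t : tA305 (T5.AdelicAut.id ℚ) γ | OutT305 S (t : G ℚ)} :=
    hAo.measurableSet
  haveI sν : ∀ i : S, SigmaFinite (Measure.map Subtype.val (L.μt i.1)) :=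
    fun i => hσv i.1 (locG305 i.1 γ) (L.μt i.1) (hL.tor i.1).1
  haveI sρ : SigmaFinite (Measure.map Subtype.val L.μtr) :=
    hσr (MQ298.reGLQ298 (T5.ratG γ)) L.μtr hL.torr
  have hφ : Measurable
      (fun t : tA305 (T5.AdelicAut.id ℚ) γ => MQ298.compSQ298 S (t : G ℚ)) := by
    refine Measurable.prodMk ?_ ?_
    · exact measurable_pi_lambda _ fun i =>
        ((hfin i.1).comp continuous_subtype_val).measurable
    · exact (hre.comp continuous_subtype_val).measurable
  have ha : ∀ i : S, Measurable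
      (fun y : GL (Fin 2) (i.1.adicCompletion ℚ) => L.βv i.1 (y * finGL305 i.1 x')) :=
    fun i => ((hL.cut i.1).1.comp (continuous_mul_const _)).measurable
  have hb : Measurable (fun y : GL (Fin 2) ℝ => L.βr (y * MQ298.reGLQ298 x')) :=
    (hL.cutr.1.comp (continuous_mul_const _)).measurable
  have ha1 : ∀ i : S, ∫ y, L.βv i.1 (y * finGL305 i.1 x')
      ∂(Measure.map Subtype.val (L.μt i.1)) = 1 := by
    intro i
    rw [integral_map continuous_subtype_val.measurable.aemeasurable
      (ha i).aestronglyMeasurable]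
    exact (hL.cut i.1).2.2 (finGL305 i.1 x')
  have hb1 : ∫ y, L.βr (y * MQ298.reGLQ298 x') ∂(Measure.map Subtype.val L.μtr) = 1 := by
    rw [integral_map continuous_subtype_val.measurable.aemeasurable hb.aestronglyMeasurable]
    exact hL.cutr.2.2 (MQ298.reGLQ298 x')
  have key := integral_cut_absQ385 (Y := fun i : S => GL (Fin 2) (i.1.adicCompletion ℚ))
    (Z := GL (Fin 2) ℝ) μT _ hAm _ hφ
    (fun i : S => Measure.map Subtype.val (L.μt i.1)) (Measure.map Subtype.val L.μtr)
    cT hcT hmap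
    (fun i y => L.βv i.1 (y * finGL305 i.1 x')) (fun y => L.βr (y * MQ298.reGLQ298 x'))
    ha hb ha1 hb1
  rw [← key]
  congr 1
  funext t
  unfold MQ298.prodCutQ298
  by_cases ht : OutT305 S (t : G ℚ)
  · rw [if_pos ((outT_mul_iff385 hx').2 ht), if_pos (show t ∈ {t : tA305 (T5.AdelicAut.id ℚ) γ |
      OutT305 S (t : G ℚ)} from ht)]
    have e1 : ∀ v : HeightOneSpectrum (𝓞 ℚ),
        finGL305 v ((t : G ℚ) * x') = finGL305 v (t : G ℚ) * finGL305 v x' :=
      fun v => map_mul _ _ _
    have e2 : MQ298.reGLQ298 ((t : G ℚ) * x')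
        = MQ298.reGLQ298 (t : G ℚ) * MQ298.reGLQ298 x' := map_mul _ _ _
    simp only [e1, e2]
    rw [← Finset.prod_coe_sort S (fun v => L.βv v (finGL305 v (t : G ℚ) * finGL305 v x'))]
    rfl
  · rw [if_neg (fun h => ht ((outT_mul_iff385 hx').1 h)),
      if_neg (show ¬ t ∈ {t : tA305 (T5.AdelicAut.id ℚ) γ | OutT305 S (t : G ℚ)} from ht)]

end Fermat.Agent.LT.T7.H385

end

end
-- ===== PACK-END LT/T7/H385/CutOnOutQ.lean

-- ===== PACK-BEGIN LT/T7/H269/CutOnOutUp.lean
section




/-!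
# Row LT, tower T7, node C2.7.13.1 `UpFactC340`, leaf UF.A3 `CutOnOutUpC340` (registry row 2747)

OFF-MAIN (helper269).  `cutOnOutUpC269 (K K') : H340.CutOnOutUpC340 K K'`, UNCONDITIONAL, VERBATIM
Prop of `LT/T7/H340/UpFactSpec.lean` (helper340@4a08d18e4, sha256 04981afb).

Proof.  (1) `IsTorLinked305`: the image of `μT'` in `GL₂(𝔸_{K'})` is the image of `μT` under
`t ↦ GL₂(ι)(t)`; the function `y ↦ upCut340 (y x')` is Borel (`Out_{S'}` is open, the local
cut-off functions and the components are continuous), so the integral is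
`∫_{T_𝔸(γ)} upCut340 (GL₂(ι)(t) x') dμT(t)`.  (2) `GL₂(ι)(t) x' ∈ Out_{S'} ⟺ t ∈ Out_S`
(`IsAdeleBase305.fin`: `v(i x) = v(x)^e`, `e > 0`; lying over).  (3) For `t ∈ Out_S` the integrand
is `c_T⁻¹ ∏_{v ∈ S} a_v(t_v) ∏_{w ∣ ∞} b_w(t_w)` (the fields `iot` of the local data upstairs;
`d₀ ∘ d₀ = 1`).  (4) The abstract Fubini computation of helper385 (`integral_cut_abs385`) with
`IsTorConst305`; the local integrals are `1`: `link` + `IsLocCut305` upstairs at the places with
ONE place over them, `IsLocCut305` downstairs at the split places, `IsCut305` at the infinite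
places.
-/

set_option autoImplicit false
set_option linter.style.haveILetI false
set_option linter.unusedSectionVars false

open AutomorphicForm IsDedekindDomain NumberField MeasureTheory

noncomputable section

namespace Fermat.Agent.LT.T7.H269

open Fermat.Agent.LT Fermat.Agent.LT.H556 Fermat.Agent.LT.H556.A0 Fermat.Agent.LT.T7
open Fermat.Agent.LT.T7.H305 Fermat.Agent.LT.T7.H558 Fermat.Agent.LT.T7.H340

attribute [local instance] Fermat.Agent.LT.T5.instMeasurableSpaceG

/-! ## 1. Continuity -/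

/-- A ring homomorphism of completions of number fields at finite places with
`v (i x) = v x ^ e`, `e > 0`, is continuous. -/
theorem continuous_of_val_cu269 {K₁ K₂ : Type} [Field K₁] [NumberField K₁] [Field K₂]
    [NumberField K₂] {v : HeightOneSpectrum (𝓞 K₁)} {w : HeightOneSpectrum (𝓞 K₂)}
    (i : v.adicCompletion K₁ →+* w.adicCompletion K₂) (e : ℕ) (he : 0 < e)
    (hval : ∀ x : v.adicCompletion K₁, Valued.v (i x) = Valued.v x ^ e) : Continuous i := by
  refine continuous_of_continuousAt_zero i ?_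
  rw [ContinuousAt, map_zero, (Valued.hasBasis_nhds_zero _ _).tendsto_iff
    (Valued.hasBasis_nhds_zero _ _)]
  intro γ _
  obtain ⟨z, hz⟩ := HeightOneSpectrum.valuedAdicCompletion_surjective K₁ v
    (min 1 (MonoidWithZeroHom.ValueGroup₀.embedding γ.val))
  have hγ0 : MonoidWithZeroHom.ValueGroup₀.embedding γ.val ≠ 0 := by
    simp
  have hz0 : Valued.v z ≠ 0 := by
    rw [hz]
    exact (lt_min zero_lt_one (zero_lt_iff.2 hγ0)).ne'
  refine ⟨Units.mk0 (Valued.v.restrict z) ?_, trivial, ?_⟩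
  · rw [Ne, ← MonoidWithZeroHom.ValueGroup₀.embedding_inj]
    simpa using hz0
  intro x hx
  simp only [Set.mem_ofPred_eq, Units.val_mk0] at hx ⊢
  rw [Valuation.restrict_lt_iff_lt_embedding] at hx ⊢
  rw [Valuation.embedding_restrict, hz] at hx
  rw [hval x]
  have hx1 : Valued.v x < 1 := lt_of_lt_of_le hx (min_le_left _ _)
  have hx2 : Valued.v x < MonoidWithZeroHom.ValueGroup₀.embedding γ.val :=
    lt_of_lt_of_le hx (min_le_right _ _)
  calc Valued.v x ^ e ≤ Valued.v x ^ 1 := pow_le_pow_of_le_one zero_le hx1.le he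
    _ = Valued.v x := pow_one _
    _ < _ := hx2

/-- `GL₂` of a continuous ring homomorphism is continuous. -/
theorem continuous_glMap_cu269 {R R' : Type} [CommRing R] [CommRing R'] [TopologicalSpace R]
    [TopologicalSpace R'] (f : R →+* R') (hf : Continuous f) :
    Continuous (Matrix.GeneralLinearGroup.map (n := Fin 2) f) := by
  have h : Continuous (f.mapMatrix : Matrix (Fin 2) (Fin 2) R → Matrix (Fin 2) (Fin 2) R') :=
    continuous_id.matrix_map hf
  exact Continuous.units_map _ h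

/-- Composition of `GL₂` of ring homomorphisms, pointwise form. -/
theorem glMap_glMap_cu269 {R₁ R₂ R₃ : Type} [CommRing R₁] [CommRing R₂] [CommRing R₃]
    (f : R₂ →+* R₃) (g : R₁ →+* R₂) (k : R₁ →+* R₃) (h : ∀ x, f (g x) = k x)
    (t : GL (Fin 2) R₁) :
    Matrix.GeneralLinearGroup.map f (Matrix.GeneralLinearGroup.map g t)
      = Matrix.GeneralLinearGroup.map k t := by
  apply Matrix.GeneralLinearGroup.ext
  intro i j
  simp only [Matrix.GeneralLinearGroup.map_apply]
  exact h _

/-! ## 2. Change of variables along linked measures -/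

/-- Two measures with the same image have the same integrals. -/
theorem integral_link_cu269 {X X' Z : Type*} [MeasurableSpace X] [MeasurableSpace X']
    [MeasurableSpace Z] (μ : Measure X) (μ' : Measure X') (p : X → Z) (p' : X' → Z)
    (hp : Measurable p) (hp' : Measurable p')
    (hlink : ∀ A : Set Z, MeasurableSet A → μ' (p' ⁻¹' A) = μ (p ⁻¹' A))
    (g : Z → ℝ) (hg : Measurable g) :
    ∫ x', g (p' x') ∂μ' = ∫ x, g (p x) ∂μ := by
  have hm : Measure.map p' μ' = Measure.map p μ := by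
    ext A hA
    rw [Measure.map_apply hp' hA, Measure.map_apply hp hA, hlink A hA]
  rw [← integral_map hp'.aemeasurable hg.aestronglyMeasurable,
    ← integral_map hp.aemeasurable hg.aestronglyMeasurable, hm]

/-! ## 3. Places, integrality along `ι` -/

section Places

variable {K K' : Type} [Field K] [NumberField K] [Field K'] [NumberField K'] [Algebra K K']

/-- Every finite place of `K'` lies over a place of `K`. -/
theorem exists_placeUnder_cu269 (w : HeightOneSpectrum (𝓞 K')) :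
    ∃ v : HeightOneSpectrum (𝓞 K), PlaceOver K K' v w := by
  refine ⟨⟨w.asIdeal.under (𝓞 K), Ideal.IsPrime.under (𝓞 K) w.asIdeal, ?_⟩, ?_⟩
  · obtain ⟨x, hx, hx0⟩ := Submodule.exists_mem_ne_zero_of_ne_bot w.ne_bot
    exact Ideal.comap_ne_bot_of_integral_mem hx0 hx (Algebra.IsIntegral.isIntegral x)
  · rw [H557.placeOver_iff_557]

/-- Integrality at `w` of `GL₂(ι)(t)` is integrality at `v` of `t`. -/
theorem isIntegralAt_map_iff_cu269 {ι : Adl K →+* Adl K'} {v : HeightOneSpectrum (𝓞 K)}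
    {w : HeightOneSpectrum (𝓞 K')} {e : ℕ} {i : v.adicCompletion K →+* w.adicCompletion K'}
    (he : 0 < e) (hval : ∀ x : v.adicCompletion K, Valued.v (i x) = Valued.v x ^ e)
    (hio : ∀ x : Adl K, T5.finHom w (ι x) = i (T5.finHom v x)) (t : G K) :
    IsIntegralAt w (Matrix.GeneralLinearGroup.map ι t) ↔ IsIntegralAt v t := by
  unfold IsIntegralAt
  refine forall_congr' fun a => forall_congr' fun b => ?_
  have h1 : finComp w (Matrix.GeneralLinearGroup.map ι t) a b = i (finComp v t a b) :=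
    hio _
  rw [h1, HeightOneSpectrum.mem_adicCompletionIntegers,
    HeightOneSpectrum.mem_adicCompletionIntegers, hval]
  exact pow_le_one_iff he.ne'

/-- `GL₂(ι)(t) ∈ Out_{S'} ⟺ t ∈ Out_S`. -/
theorem outT_map_iff_cu269 {s : T5.AdelicAut K'} {l : ℕ} {ι : Adl K →+* Adl K'}
    (hι : IsAdeleBase305 s l ι) {S : Finset (HeightOneSpectrum (𝓞 K))}
    {S' : Finset (HeightOneSpectrum (𝓞 K'))} (hOver : IsOver305 S S') (t : G K) :
    OutT305 S' (Matrix.GeneralLinearGroup.map ι t) ↔ OutT305 S t := by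
  constructor
  · intro h v hv
    obtain ⟨w, hvw⟩ := H557.exists_placeOver_557 (K' := K') v
    have hw : w ∉ S' := by
      intro hw
      obtain ⟨v₁, hv₁, hv₁w⟩ := (hOver w).1 hw
      have hvv : v = v₁ := H557.placeOver_unique_557 hvw hv₁w
      exact hv (hvv ▸ hv₁)
    obtain ⟨e, i, he, -, hval, hio⟩ := hι.fin v w hvw
    have h' := h w hw
    rw [← map_inv] at h'
    exact ⟨(isIntegralAt_map_iff_cu269 he hval hio t).1 h'.1,
      (isIntegralAt_map_iff_cu269 he hval hio t⁻¹).1 h'.2⟩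
  · intro h w hw
    obtain ⟨v, hvw⟩ := exists_placeUnder_cu269 (K := K) w
    have hv : v ∉ S := fun hv => hw ((hOver w).2 ⟨v, hv, hvw⟩)
    obtain ⟨e, i, he, -, hval, hio⟩ := hι.fin v w hvw
    have h' := h v hv
    rw [← map_inv]
    exact ⟨(isIntegralAt_map_iff_cu269 he hval hio t).2 h'.1,
      (isIntegralAt_map_iff_cu269 he hval hio t⁻¹).2 h'.2⟩

end Places

/-! ## 4. Algebra of the components, products over `S = S_in ⊔ S_sp` -/

/-- `GL₂(f) ∘ GL₂(g) = GL₂(f') ∘ GL₂(g')` if `f ∘ g = f' ∘ g'`. -/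
theorem glMap_comm_cu269 {R₁ R₂ R₃ R₄ : Type} [CommRing R₁] [CommRing R₂] [CommRing R₃]
    [CommRing R₄] (f : R₂ →+* R₄) (g : R₁ →+* R₂) (f' : R₃ →+* R₄) (g' : R₁ →+* R₃)
    (h : ∀ x, f (g x) = f' (g' x)) (t : GL (Fin 2) R₁) :
    Matrix.GeneralLinearGroup.map f (Matrix.GeneralLinearGroup.map g t)
      = Matrix.GeneralLinearGroup.map f' (Matrix.GeneralLinearGroup.map g' t) := by
  apply Matrix.GeneralLinearGroup.ext
  intro i j
  simp only [Matrix.GeneralLinearGroup.map_apply]
  exact h _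

/-- `GL₂(f) ∘ GL₂(g) = 1` if `f ∘ g = 1`. -/
theorem glMap_cancel_cu269 {R₁ R₂ : Type} [CommRing R₁] [CommRing R₂] (f : R₂ →+* R₁)
    (g : R₁ →+* R₂) (h : ∀ x, f (g x) = x) (t : GL (Fin 2) R₁) :
    Matrix.GeneralLinearGroup.map f (Matrix.GeneralLinearGroup.map g t) = t := by
  apply Matrix.GeneralLinearGroup.ext
  intro i j
  simp only [Matrix.GeneralLinearGroup.map_apply]
  exact h _

/-- The product over `S = A ⊔ B` of a function defined by cases. -/
theorem prod_dite_split_cu269 {α : Type*} (S A B : Finset α)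
    (hu : ∀ x, x ∈ S ↔ x ∈ A ∨ x ∈ B) (hd : ∀ x, x ∈ A → x ∉ B)
    [∀ x, Decidable (x ∈ A)] [∀ x, Decidable (x ∈ B)] (P : A → ℝ) (Q : B → ℝ) :
    ∏ i : S, (if h : i.1 ∈ A then P ⟨i.1, h⟩ else if h' : i.1 ∈ B then Q ⟨i.1, h'⟩ else 1)
      = (∏ v : A, P v) * ∏ v : B, Q v := by
  classical
  set F : α → ℝ :=
    fun x => if h : x ∈ A then P ⟨x, h⟩ else if h' : x ∈ B then Q ⟨x, h'⟩ else 1 with hF
  have hS : S = A ∪ B := by
    ext x
    rw [Finset.mem_union]
    exact hu x
  have e1 : ∏ i : S, F i.1 = ∏ x ∈ S, F x := Finset.prod_coe_sort S F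
  have e2 : ∏ v : A, P v = ∏ x ∈ A, F x := by
    rw [← Finset.prod_coe_sort A F]
    refine Finset.prod_congr rfl fun v _ => ?_
    simp only [hF, dif_pos v.2]
  have e3 : ∏ v : B, Q v = ∏ x ∈ B, F x := by
    rw [← Finset.prod_coe_sort B F]
    refine Finset.prod_congr rfl fun v _ => ?_
    simp only [hF, dif_neg (fun h => hd v.1 h v.2), dif_pos v.2]
  show ∏ i : S, F i.1 = _
  rw [e1, e2, e3, hS, Finset.prod_union (Finset.disjoint_left.2 hd)]

/-! ## 5. The leaf -/

/-- **Leaf UF.A3 `CutOnOutUpC340`**, unconditional. -/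
theorem cutOnOutUpC269 (K K' : Type) [Field K] [NumberField K] [Field K'] [NumberField K']
    [Algebra K K'] : CutOnOutUpC340 K K' := by
  intro hHS hCK hCK' D hD hc hl2 hTC ι hι n m S S' hOver δ γ hell hN hgood μT μT' hμT hμT'
    hlink L cT hL hcT hconst U hU x' hx'
  classical
  letI iT : MeasurableSpace (tA305 (T5.AdelicAut.id K) γ) := borel _
  haveI bT : BorelSpace (tA305 (T5.AdelicAut.id K) γ) := ⟨rfl⟩
  letI iT' : MeasurableSpace (tA305 D.s δ) := borel _
  haveI bT' : BorelSpace (tA305 D.s δ) := ⟨rfl⟩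
  haveI bG' : BorelSpace (G K') := ⟨rfl⟩
  letI iv : ∀ v : HeightOneSpectrum (𝓞 K), MeasurableSpace (GL (Fin 2) (v.adicCompletion K)) :=
    fun _ => borel _
  haveI bv : ∀ v : HeightOneSpectrum (𝓞 K), BorelSpace (GL (Fin 2) (v.adicCompletion K)) :=
    fun _ => ⟨rfl⟩
  letI iw : ∀ w : HeightOneSpectrum (𝓞 K'),
      MeasurableSpace (GL (Fin 2) (w.adicCompletion K')) := fun _ => borel _
  haveI bw : ∀ w : HeightOneSpectrum (𝓞 K'), BorelSpace (GL (Fin 2) (w.adicCompletion K')) :=
    fun _ => ⟨rfl⟩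
  letI ic : MeasurableSpace (GL (Fin 2) ℂ) := borel _
  haveI bc : BorelSpace (GL (Fin 2) ℂ) := ⟨rfl⟩
  letI itv : ∀ v : HeightOneSpectrum (𝓞 K), MeasurableSpace
      (T6.twCentSub (T6.glAut (RingEquiv.refl (v.adicCompletion K))) (locG305 v γ)) :=
    fun _ => borel _
  haveI btv : ∀ v : HeightOneSpectrum (𝓞 K), BorelSpace
      (T6.twCentSub (T6.glAut (RingEquiv.refl (v.adicCompletion K))) (locG305 v γ)) :=
    fun _ => ⟨rfl⟩
  letI itc : ∀ w : InfinitePlace K, MeasurableSpace (cent305 (archG305 w γ)) := fun _ => borel _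
  haveI btc : ∀ w : InfinitePlace K, BorelSpace (cent305 (archG305 w γ)) := fun _ => ⟨rfl⟩
  -- continuity of the maps between the local groups
  have hιc : Continuous (Matrix.GeneralLinearGroup.map (n := Fin 2) ι) :=
    continuous_glMap_cu269 ι hι.cont
  have hci : ∀ v : U.Sin,
      Continuous (Matrix.GeneralLinearGroup.map (n := Fin 2) (U.dI v).i) := fun v =>
    continuous_glMap_cu269 _ (continuous_of_val_cu269 _ (U.dI v).e (hU.inert v).ext.e_pos
      (hU.inert v).ext.val_i)
  have hcs : ∀ v : U.Ssp, Continuous (Matrix.GeneralLinearGroup.map (n := Fin 2)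
      ((((U.dS v).i 0).symm : ((U.dS v).w 0).adicCompletion K' ≃+* _) :
        ((U.dS v).w 0).adicCompletion K' →+* (v.1).adicCompletion K)) := fun v => by
    refine continuous_glMap_cu269 _ (continuous_of_val_cu269 _ 1 one_pos fun y => ?_)
    have h := (hU.split v).val_i 0 (((U.dS v).i 0).symm y)
    rw [RingEquiv.apply_symm_apply] at h
    rw [pow_one]
    exact h.symm
  have hd2 : ∀ (v : InfinitePlace K) (z : ℂ), (U.dA v).d 0 ((U.dA v).d 0 z) = z := by
    intro v z
    rcases (hU.arch v).typ 0 with h | h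
    · rw [h]
      rfl
    · rw [h]
      exact Complex.conj_conj z
  have hca : ∀ v : InfinitePlace K,
      Continuous (Matrix.GeneralLinearGroup.map (n := Fin 2) ((U.dA v).d 0)) := fun v => by
    apply continuous_glMap_cu269
    rcases (hU.arch v).typ 0 with h | h
    · rw [h]
      exact continuous_id
    · rw [h]
      exact Complex.continuous_conj
  -- the components of `GL₂(ι)(t) x'`
  have eI : ∀ (v : U.Sin) (t : G K),
      finGL305 (U.dI v).w (Matrix.GeneralLinearGroup.map ι t * x')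
        = Matrix.GeneralLinearGroup.map (U.dI v).i (finGL305 v.1 t)
          * finGL305 (U.dI v).w x' := by
    intro v t
    rw [map_mul]
    congr 1
    exact glMap_comm_cu269 _ _ _ _ (hU.inert v).iot t
  have eS : ∀ (v : U.Ssp) (t : G K),
      Matrix.GeneralLinearGroup.map
          ((((U.dS v).i 0).symm : ((U.dS v).w 0).adicCompletion K' ≃+* _) :
            ((U.dS v).w 0).adicCompletion K' →+* (v.1).adicCompletion K)
          (finGL305 ((U.dS v).w 0) (Matrix.GeneralLinearGroup.map ι t * x'))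
        = finGL305 v.1 t * Matrix.GeneralLinearGroup.map
          ((((U.dS v).i 0).symm : ((U.dS v).w 0).adicCompletion K' ≃+* _) :
            ((U.dS v).w 0).adicCompletion K' →+* (v.1).adicCompletion K)
          (finGL305 ((U.dS v).w 0) x') := by
    intro v t
    rw [map_mul, map_mul]
    congr 1
    have h1 : finGL305 ((U.dS v).w 0) (Matrix.GeneralLinearGroup.map ι t)
        = Matrix.GeneralLinearGroup.map
            (((U.dS v).i 0 : (v.1).adicCompletion K ≃+* _) :
              (v.1).adicCompletion K →+* ((U.dS v).w 0).adicCompletion K')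
            (finGL305 v.1 t) :=
      glMap_comm_cu269 _ _ _ _ ((hU.split v).iot 0) t
    rw [h1]
    exact glMap_cancel_cu269 _ _ (fun x => RingEquiv.symm_apply_apply _ x) _
  have eA : ∀ (v : InfinitePlace K) (t : G K),
      Matrix.GeneralLinearGroup.map ((U.dA v).d 0)
          (infGL305 ((U.dA v).w 0) (Matrix.GeneralLinearGroup.map ι t * x'))
        = infGL305 v t * Matrix.GeneralLinearGroup.map ((U.dA v).d 0)
          (infGL305 ((U.dA v).w 0) x') := by
    intro v t
    rw [map_mul, map_mul]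
    congr 1
    have h1 : infGL305 ((U.dA v).w 0) (Matrix.GeneralLinearGroup.map ι t)
        = Matrix.GeneralLinearGroup.map ((U.dA v).d 0) (infGL305 v t) :=
      glMap_comm_cu269 _ _ _ _ ((hU.arch v).iot 0) t
    rw [h1]
    exact glMap_cancel_cu269 _ _ (hd2 v) _
  -- Step 1: the function `y ↦ upCut340 (y x')` is Borel
  have hgm : Measurable (fun y : G K' => upCut340 S' cT L U (y * x')) := by
    have hOm : MeasurableSet {y : G K' | OutT305 S' (y * x')} :=
      ((H942.isOpen_integralOutside942 S').preimage (continuous_mul_right x')).measurableSet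
    unfold upCut340
    refine Measurable.ite hOm ?_ measurable_const
    refine ((measurable_const.mul ?_).mul ?_).mul ?_
    · exact Finset.measurable_prod _ fun v _ =>
        ((hU.inert v).cut.1.comp ((hCK'.1 _).comp (continuous_mul_right x'))).measurable
    · exact Finset.measurable_prod _ fun v _ =>
        ((hL.cut v.1).1.comp ((hcs v).comp
          ((hCK'.1 _).comp (continuous_mul_right x')))).measurable
    · exact Finset.measurable_prod _ fun v _ =>
        ((hL.cutc v).1.comp ((hca v).comp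
          ((hCK'.2 _).comp (continuous_mul_right x')))).measurable
  -- Step 2: transport to `T_𝔸(γ)`
  have hstep1 : (∫ t : tA305 D.s δ, upCut340 S' cT L U ((t : G K') * x') ∂μT')
      = ∫ t : tA305 (T5.AdelicAut.id K) γ,
          upCut340 S' cT L U (Matrix.GeneralLinearGroup.map ι (t : G K) * x') ∂μT :=
    integral_link_cu269 μT μT' (fun t => Matrix.GeneralLinearGroup.map ι (t : G K))
      (fun t => (t : G K')) (hιc.comp continuous_subtype_val).measurable
      continuous_subtype_val.measurable (fun A hA => hlink A hA)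
      (fun y : G K' => upCut340 S' cT L U (y * x')) hgm
  rw [hstep1]
  -- Step 3: the abstract computation downstairs
  have hmap := hconst S hgood
  have hAm : MeasurableSet {t : tA305 (T5.AdelicAut.id K) γ | OutT305 S (t : G K)} :=
    ((H942.isOpen_integralOutside942 S).preimage continuous_subtype_val).measurableSet
  haveI sν : ∀ i : S, SigmaFinite (Measure.map Subtype.val (L.μt i.1)) :=
    fun i => hHS.2.2.1 i.1 (locG305 i.1 γ) (L.μt i.1) (hL.tor i.1).1
  haveI sρ : ∀ w : InfinitePlace K, SigmaFinite (Measure.map Subtype.val (L.μtc w)) :=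
    fun w => hHS.2.2.2 (archG305 w γ) (L.μtc w) (hL.torc w)
  have hφ : Measurable (fun t : tA305 (T5.AdelicAut.id K) γ => compS305 S (t : G K)) := by
    refine Measurable.prodMk ?_ ?_
    · exact measurable_pi_lambda _ fun i =>
        ((hCK.1 i.1).comp continuous_subtype_val).measurable
    · exact measurable_pi_lambda _ fun w =>
        ((hCK.2 w).comp continuous_subtype_val).measurable
  -- the local functions
  obtain ⟨a, ha_def⟩ : ∃ a : ∀ i : S, GL (Fin 2) (i.1.adicCompletion K) → ℝ, ∀ i y, a i y =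
      if h : i.1 ∈ U.Sin then
        (U.dI ⟨i.1, h⟩).β' (Matrix.GeneralLinearGroup.map (U.dI ⟨i.1, h⟩).i y
          * finGL305 (U.dI ⟨i.1, h⟩).w x')
      else if h' : i.1 ∈ U.Ssp then
        L.βv i.1 (y * Matrix.GeneralLinearGroup.map
          ((((U.dS ⟨i.1, h'⟩).i 0).symm : ((U.dS ⟨i.1, h'⟩).w 0).adicCompletion K' ≃+* _) :
            ((U.dS ⟨i.1, h'⟩).w 0).adicCompletion K' →+* (i.1).adicCompletion K)
          (finGL305 ((U.dS ⟨i.1, h'⟩).w 0) x'))
      else 1 := ⟨_, fun _ _ => rfl⟩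
  obtain ⟨b, hb_def⟩ : ∃ b : InfinitePlace K → GL (Fin 2) ℂ → ℝ, ∀ w y, b w y =
      L.βc w (y * Matrix.GeneralLinearGroup.map ((U.dA w).d 0)
        (infGL305 ((U.dA w).w 0) x')) := ⟨_, fun _ _ => rfl⟩
  have hb : ∀ w : InfinitePlace K, Measurable (b w) := by
    intro w
    have e : b w = fun y => L.βc w (y * Matrix.GeneralLinearGroup.map ((U.dA w).d 0)
        (infGL305 ((U.dA w).w 0) x')) := funext fun y => hb_def w y
    rw [e]
    exact ((hL.cutc w).1.comp (continuous_mul_const _)).measurable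
  have hb1 : ∀ w : InfinitePlace K,
      ∫ y, b w y ∂(Measure.map Subtype.val (L.μtc w)) = 1 := by
    intro w
    rw [integral_map continuous_subtype_val.measurable.aemeasurable
      (hb w).aestronglyMeasurable]
    simp only [hb_def]
    exact (hL.cutc w).2.2 _
  have ha_both : ∀ i : S, Measurable (a i) ∧
      ∫ y, a i y ∂(Measure.map Subtype.val (L.μt i.1)) = 1 := by
    intro i
    by_cases h : i.1 ∈ U.Sin
    · have e : a i = fun y => (U.dI ⟨i.1, h⟩).β'
          (Matrix.GeneralLinearGroup.map (U.dI ⟨i.1, h⟩).i y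
            * finGL305 (U.dI ⟨i.1, h⟩).w x') := funext fun y => by
        rw [ha_def, dif_pos h]
      have hm : Measurable (a i) := by
        rw [e]
        exact ((hU.inert ⟨i.1, h⟩).cut.1.comp
          ((hci ⟨i.1, h⟩).mul continuous_const)).measurable
      refine ⟨hm, ?_⟩
      rw [integral_map continuous_subtype_val.measurable.aemeasurable hm.aestronglyMeasurable]
      letI iT'w : MeasurableSpace (T6.twCentSub (T6.glAut (U.dI ⟨i.1, h⟩).sw)
          (locG305 (U.dI ⟨i.1, h⟩).w δ)) := borel _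
      haveI bT'w : BorelSpace (T6.twCentSub (T6.glAut (U.dI ⟨i.1, h⟩).sw)
          (locG305 (U.dI ⟨i.1, h⟩).w δ)) := ⟨rfl⟩
      have hl := integral_link_cu269 (L.μt i.1) (U.dI ⟨i.1, h⟩).μt'
        (fun t => Matrix.GeneralLinearGroup.map (U.dI ⟨i.1, h⟩).i
          (t : GL (Fin 2) (i.1.adicCompletion K)))
        (fun t => (t : GL (Fin 2) ((U.dI ⟨i.1, h⟩).w.adicCompletion K')))
        ((hci ⟨i.1, h⟩).comp continuous_subtype_val).measurable
        continuous_subtype_val.measurable
        (fun A hA => (hU.inert ⟨i.1, h⟩).link A hA)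
        (fun y => (U.dI ⟨i.1, h⟩).β' (y * finGL305 (U.dI ⟨i.1, h⟩).w x'))
        ((hU.inert ⟨i.1, h⟩).cut.1.comp (continuous_mul_const _)).measurable
      simp only [e]
      rw [← hl]
      exact (hU.inert ⟨i.1, h⟩).cut.2.2 _
    · by_cases h' : i.1 ∈ U.Ssp
      · have e : a i = fun y => L.βv i.1 (y * Matrix.GeneralLinearGroup.map
            ((((U.dS ⟨i.1, h'⟩).i 0).symm :
                ((U.dS ⟨i.1, h'⟩).w 0).adicCompletion K' ≃+* _) :
              ((U.dS ⟨i.1, h'⟩).w 0).adicCompletion K' →+* (i.1).adicCompletion K)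
            (finGL305 ((U.dS ⟨i.1, h'⟩).w 0) x')) := funext fun y => by
          rw [ha_def, dif_neg h, dif_pos h']
        have hm : Measurable (a i) := by
          rw [e]
          exact ((hL.cut i.1).1.comp (continuous_mul_const _)).measurable
        refine ⟨hm, ?_⟩
        rw [integral_map continuous_subtype_val.measurable.aemeasurable
          hm.aestronglyMeasurable]
        simp only [e]
        exact (hL.cut i.1).2.2 _
      · exact absurd ((hU.union i.1).1 i.2) (by tauto)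
  have key := H385.integral_cut_abs385 (Y := fun i : S => GL (Fin 2) (i.1.adicCompletion K))
    (Z := fun _ : InfinitePlace K => GL (Fin 2) ℂ) μT _ hAm _ hφ
    (fun i : S => Measure.map Subtype.val (L.μt i.1))
    (fun w : InfinitePlace K => Measure.map Subtype.val (L.μtc w)) cT hcT hmap
    a b (fun i => (ha_both i).1) hb (fun i => (ha_both i).2) hb1
  rw [← key]
  congr 1
  funext t
  unfold upCut340
  by_cases ht : OutT305 S (t : G K)
  · have ht' : OutT305 S' (Matrix.GeneralLinearGroup.map ι (t : G K) * x') :=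
      (H385.outT_mul_iff385 hx').2 ((outT_map_iff_cu269 hι hOver _).2 ht)
    rw [if_pos ht', if_pos (show t ∈ {t : tA305 (T5.AdelicAut.id K) γ |
      OutT305 S (t : G K)} from ht)]
    have hprod : (∏ i : S, a i ((compS305 S (t : G K)).1 i))
        = (∏ v : U.Sin, (U.dI v).β' (finGL305 (U.dI v).w
              (Matrix.GeneralLinearGroup.map ι (t : G K) * x')))
          * ∏ v : U.Ssp, L.βv v.1 (Matrix.GeneralLinearGroup.map
              ((((U.dS v).i 0).symm : ((U.dS v).w 0).adicCompletion K' ≃+* _) :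
                ((U.dS v).w 0).adicCompletion K' →+* (v.1).adicCompletion K)
              (finGL305 ((U.dS v).w 0) (Matrix.GeneralLinearGroup.map ι (t : G K) * x'))) := by
      simp only [eI, eS]
      have := prod_dite_split_cu269 S U.Sin U.Ssp hU.union hU.disj
        (fun v : U.Sin => (U.dI v).β' (Matrix.GeneralLinearGroup.map (U.dI v).i
          (finGL305 v.1 (t : G K)) * finGL305 (U.dI v).w x'))
        (fun v : U.Ssp => L.βv v.1 (finGL305 v.1 (t : G K) * Matrix.GeneralLinearGroup.map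
          ((((U.dS v).i 0).symm : ((U.dS v).w 0).adicCompletion K' ≃+* _) :
            ((U.dS v).w 0).adicCompletion K' →+* (v.1).adicCompletion K)
          (finGL305 ((U.dS v).w 0) x')))
      rw [← this]
      refine Finset.prod_congr rfl fun i _ => ?_
      rw [ha_def]
      rfl
    have hprodb : (∏ w : InfinitePlace K, b w ((compS305 S (t : G K)).2 w))
        = ∏ v : InfinitePlace K, L.βc v (Matrix.GeneralLinearGroup.map ((U.dA v).d 0)
            (infGL305 ((U.dA v).w 0) (Matrix.GeneralLinearGroup.map ι (t : G K) * x'))) := by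
      refine Finset.prod_congr rfl fun w _ => ?_
      rw [hb_def, eA]
      rfl
    rw [hprod, hprodb]
    ring
  · have ht' : ¬ OutT305 S' (Matrix.GeneralLinearGroup.map ι (t : G K) * x') :=
      fun h => ht ((outT_map_iff_cu269 hι hOver _).1 ((H385.outT_mul_iff385 hx').1 h))
    rw [if_neg ht', if_neg (show ¬ t ∈ {t : tA305 (T5.AdelicAut.id K) γ |
      OutT305 S (t : G K)} from ht)]

end Fermat.Agent.LT.T7.H269

end

end
-- ===== PACK-END LT/T7/H269/CutOnOutUp.lean

-- ===== PACK-BEGIN LT/T7/H751/LeafQ/ReCont.lean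
section



/-!
# Row LT, tower T7, node Q2.7.7 `MQ298.FactDownQC298`, asset leaf FDQ.2 (helper751, SPARE of
registry row 2697): `ReContQC751` PROVED

OFF-MAIN.  No hole, nothing assumed.  ADDITIVE (new names only, suffix `751`).

    reContQC751 : ReContQC751

The real component `GL₂(𝔸_ℚ) → GL₂(ℝ)` is continuous: `MQ298.reHomQ298` is a continuous ring
homomorphism (projection, evaluation, `extensionEmbeddingOfIsReal` is an isometry), the map of
matrices of a continuous map is continuous, `Units.map` of a continuous homomorphism of monoids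
is continuous.  Mirror of `compContC409` (helper409).
-/

set_option autoImplicit false

open IsDedekindDomain NumberField Topology

noncomputable section

namespace Fermat.Agent.LT.T7.H751

open Fermat.Agent.LT.H556 Fermat.Agent.LT.H556.A0 Fermat.Agent.LT.T7 Fermat.Agent.LT.T7.H305

/-- The component at the real place of `ℚ` is continuous on the adeles. -/
theorem continuous_reHomQ751 : Continuous (MQ298.reHomQ298) := by
  have h1 : Continuous
      (InfinitePlace.Completion.extensionEmbeddingOfIsReal Rat.isReal_infinitePlace) :=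
    (InfinitePlace.Completion.isometry_extensionEmbeddingOfIsReal
      Rat.isReal_infinitePlace).continuous
  have h2 : Continuous fun x : InfiniteAdeleRing ℚ => x Rat.infinitePlace :=
    continuous_apply (A := fun v : InfinitePlace ℚ => v.Completion) Rat.infinitePlace
  exact h1.comp (h2.comp continuous_fst)

/-- `GL_n` of a continuous ring homomorphism is continuous. -/
theorem continuous_glMap751 {n : Type} [Fintype n] [DecidableEq n]
    {R S : Type} [CommRing R] [CommRing S] [TopologicalSpace R] [TopologicalSpace S]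
    [IsTopologicalRing R] [IsTopologicalRing S] (f : R →+* S) (hf : Continuous f) :
    Continuous (Matrix.GeneralLinearGroup.map (n := n) f) := by
  have hm : Continuous ((RingHom.mapMatrix (m := n) f).toMonoidHom) := by
    have : Continuous fun A : Matrix n n R => A.map f := continuous_id.matrix_map hf
    exact this
  exact Continuous.units_map ((RingHom.mapMatrix (m := n) f).toMonoidHom) hm

/-- **ASSET LEAF FDQ.2 = RE-CONT of the cut of `MQ298.FactDownQC298`: PROVED.** -/
theorem reContQC751 : ReContQC751 :=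
  continuous_glMap751 MQ298.reHomQ298 continuous_reHomQ751

end Fermat.Agent.LT.T7.H751

end

end
-- ===== PACK-END LT/T7/H751/LeafQ/ReCont.lean

-- ===== PACK-BEGIN LT/T7/H340/UpFactTop.lean
section



/-!
# Row LT, tower T7, node C2.7.13.1 `UpFactC340` (owner helper340, registry row 2620):
# THE SECOND CUT -- proved top

OFF-MAIN.  No hole, nothing assumed.

    upFactC_of_parts340 : UpDatC340 K K' → CutOnUpC340 K K' → FactIntUpC340 K K'
                            → UpFactC340 K K'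
-/

set_option autoImplicit false

open AutomorphicForm IsDedekindDomain NumberField MeasureTheory
open scoped ComplexConjugate

noncomputable section

namespace Fermat.Agent.LT.T7.H340

open Fermat.Agent.LT.H556 Fermat.Agent.LT.H556.A0 Fermat.Agent.LT.T7 Fermat.Agent.LT.T7.H305

attribute [local instance] Fermat.Agent.LT.T5.instMeasurableSpaceG

variable {K K' : Type} [Field K] [NumberField K] [Field K'] [NumberField K'] [Algebra K K']

/-- The value of `upJ340` at a place of `Sin`. -/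
theorem upJ_inert340 (l : ℕ) (hl : 0 < l)
    (φ₀ : ∀ w : HeightOneSpectrum (𝓞 K'), GL (Fin 2) (w.adicCompletion K') → ℂ)
    {γ : GL (Fin 2) K} (L : LocData305 K γ) {δ : GL (Fin 2) K'} (U : UpDat340 K δ)
    (v : HeightOneSpectrum (𝓞 K)) (h : v ∈ U.Sin) :
    upJ340 l hl φ₀ L U v
      = locTwInt340 (U.dI ⟨v, h⟩).sw (U.dI ⟨v, h⟩).μ' (U.dI ⟨v, h⟩).β' (φ₀ (U.dI ⟨v, h⟩).w)
          (locG305 (U.dI ⟨v, h⟩).w δ) := by
  unfold upJ340
  exact dif_pos h

/-- The value of `upJ340` at a place of `Ssp`. -/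
theorem upJ_split340 (l : ℕ) (hl : 0 < l)
    (φ₀ : ∀ w : HeightOneSpectrum (𝓞 K'), GL (Fin 2) (w.adicCompletion K') → ℂ)
    {γ : GL (Fin 2) K} (L : LocData305 K γ) {δ : GL (Fin 2) K'} (U : UpDat340 K δ)
    (v : HeightOneSpectrum (𝓞 K)) (h : v ∉ U.Sin) (h' : v ∈ U.Ssp) :
    upJ340 l hl φ₀ L U v
      = splitInt340 l hl (L.μv v) (L.βv v) (phiS340 φ₀ (U.dS ⟨v, h'⟩))
          (delS340 δ (U.dS ⟨v, h'⟩)) := by
  unfold upJ340
  rw [dif_neg h, dif_pos h']

/-- **THE TOP OF THE NODE C2.7.13.1**: `UpFactC340` from the three parts. -/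
theorem upFactC_of_parts340 (hDat : UpDatC340 K K') (hA : CutOnUpC340 K K')
    (hB : FactIntUpC340 K K') : UpFactC340 K K' := by
  intro hT6 D hD hcyc hl hcplx ι hι μc hμc T₀ hT₀ n m hlev
  obtain ⟨cG', hcG', hfact⟩ := hB hT6 D hD hcyc hl hcplx ι hι μc hμc T₀ hT₀ n m hlev
  refine ⟨cG', hcG', ?_⟩
  intro S S' hTS hSS' φ₀ Φ f₀ F hloc δ γ hγ hN hgood hint μT μT' hμT hμT' hlink L cT hL hcT hTor
  obtain ⟨U, hU⟩ := hDat hT6 D hD hcyc hl hcplx ι hι T₀ hT₀ n m hlev S S' hTS hSS' δ γ hγ hN L hL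
  refine ⟨upCut340 S' cT L U, upJ340 D.l hU.pos φ₀ L U, upJc340 D.l hU.pos D.R'.r Φ L μc U,
    ?_, ?_, ?_, ?_⟩
  · exact hA hT6 D hD hcyc hl hcplx ι hι T₀ hT₀ n m hlev S S' hTS hSS' φ₀ Φ δ γ hγ hN hgood hint
      μT μT' hμT hμT' hlink L cT hL hcT hTor U hU
  · exact hfact S S' hTS hSS' φ₀ Φ f₀ F hloc δ γ hγ hN hgood hint L cT hL hcT U hU
  · intro v hv
    rcases (hU.union v).1 hv with h | h
    · left
      have hd := hU.inert ⟨v, h⟩
      exact ⟨(U.dI ⟨v, h⟩).w, (U.dI ⟨v, h⟩).e, (U.dI ⟨v, h⟩).i, (U.dI ⟨v, h⟩).sw,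
        (U.dI ⟨v, h⟩).μ', (U.dI ⟨v, h⟩).μt', (U.dI ⟨v, h⟩).β', hd.ovr, hd.uniq, hd.rat_i,
        hd.rat_s, hd.ext, hd.haar, hd.tor, hd.cut, upJ_inert340 D.l hU.pos φ₀ L U v h⟩
    · right
      have hnot : v ∉ U.Sin := fun h1 => hU.disj v h1 h
      have hd := hU.split ⟨v, h⟩
      exact ⟨hU.pos, (U.dS ⟨v, h⟩).w, (U.dS ⟨v, h⟩).i, hd.ovr, hd.rel, hd.ne, hd.rat_i,
        hd.val_i, upJ_split340 D.l hU.pos φ₀ L U v hnot h⟩
  · intro w j
    have hd := hU.arch w
    exact ⟨hU.pos, (U.dA w).w, (U.dA w).d, hd.ovr, hd.rel, hd.inj, hd.typ, hd.iot, rfl⟩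

end Fermat.Agent.LT.T7.H340

end

end
-- ===== PACK-END LT/T7/H340/UpFactTop.lean

-- ===== PACK-BEGIN LT/T7/H322/CutOnUp.lean
section



/-!
# Row LT, tower T7, node C2.7.13.1.A (registry row 2743, helper322): the top of PART A upstairs

OFF-MAIN.  Complete proof, nothing assumed.  Port of helper558 `FactDownTopA.lean` to the
cut-off upstairs `upCut340` of helper340 (`T7/H340/UpFactSpec.lean`, sha256 04981afb).

    cutOnUpC_of322 : SuppOutUpC340 K' → SuppUpC340 K K' → CutOnOutUpC340 K K' →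
        TorCommC305 K' → EllRegC305 K K' → OutOpenC558 K' → CompContC558 K → CompContC558 K' →
        HaarSigmaC558 K → IsoContC340 → CutOnUpC340 K K'

Measurability: `upCut340` is the indicator of the open set `Out_{S'}` of a continuous function
(`upCutCore322`); non-negativity; right invariance of `μT'` (the twisted torus is commutative:
`TorCommC305 K'` for `N δ = γ` elliptic, `EllRegC305`); then `SuppOutUpC340`, `SuppUpC340`,
`CutOnOutUpC340`.
-/

set_option autoImplicit false

open AutomorphicForm IsDedekindDomain NumberField MeasureTheory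
open scoped ComplexConjugate

noncomputable section

namespace Fermat.Agent.LT.T7.H322

open Fermat.Agent.LT.H556 Fermat.Agent.LT.H556.A0 Fermat.Agent.LT.T7 Fermat.Agent.LT.T7.H305
open Fermat.Agent.LT.T7.H558 Fermat.Agent.LT.T7.H340

attribute [local instance] Fermat.Agent.LT.T5.instMeasurableSpaceG

/-- `GL₂` of a continuous ring homomorphism is continuous. -/
theorem continuous_glMap322 {A B : Type} [CommRing A] [CommRing B] [TopologicalSpace A]
    [TopologicalSpace B] (f : A →+* B) (hf : Continuous f) :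
    Continuous (Matrix.GeneralLinearGroup.map (n := Fin 2) f) := by
  have h : Continuous ((RingHom.mapMatrix f : Matrix (Fin 2) (Fin 2) A →+* _) :
      Matrix (Fin 2) (Fin 2) A →* Matrix (Fin 2) (Fin 2) B) :=
    Continuous.matrix_map continuous_id hf
  exact Continuous.units_map _ h

variable {K K' : Type} [Field K] [NumberField K] [Field K'] [NumberField K'] [Algebra K K']

open Classical in
/-- The continuous factor of the cut-off upstairs. -/
def upCutCore322 (cT : ℝ) {γ : GL (Fin 2) K} (L : LocData305 K γ) {δ : GL (Fin 2) K'}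
    (U : UpDat340 K δ) (y : G K') : ℝ :=
  cT⁻¹ * (∏ v : U.Sin, (U.dI v).β' (finGL305 (U.dI v).w y))
    * (∏ v : U.Ssp, L.βv v.1
        (Matrix.GeneralLinearGroup.map
          ((((U.dS v).i 0).symm : ((U.dS v).w 0).adicCompletion K' ≃+* _) :
            ((U.dS v).w 0).adicCompletion K' →+* (v.1).adicCompletion K)
          (finGL305 ((U.dS v).w 0) y)))
    * ∏ v : InfinitePlace K, L.βc v
        (Matrix.GeneralLinearGroup.map ((U.dA v).d 0) (infGL305 ((U.dA v).w 0) y))

theorem upCut_eq_indicator322 (S' : Finset (HeightOneSpectrum (𝓞 K'))) (cT : ℝ)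
    {γ : GL (Fin 2) K} (L : LocData305 K γ) {δ : GL (Fin 2) K'} (U : UpDat340 K δ) :
    upCut340 S' cT L U = Set.indicator {y : G K' | OutT305 S' y} (upCutCore322 cT L U) := by
  classical
  funext y
  by_cases h : OutT305 S' y
  · rw [Set.indicator_of_mem (show y ∈ {y : G K' | OutT305 S' y} from h)]
    change (if OutT305 S' y then _ else _) = _
    rw [if_pos h]
    rfl
  · rw [Set.indicator_of_notMem (show y ∉ {y : G K' | OutT305 S' y} from h)]
    change (if OutT305 S' y then _ else _) = _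
    rw [if_neg h]

theorem continuous_upCutCore322 (hCont' : CompContC558 K') (hIso : IsoContC340)
    (D : CompData K K') (ι : Adl K →+* Adl K') (n : HeightOneSpectrum (𝓞 K') → ℕ)
    (m : HeightOneSpectrum (𝓞 K) → ℕ) (S : Finset (HeightOneSpectrum (𝓞 K))) (cT : ℝ)
    {γ : GL (Fin 2) K} (L : LocData305 K γ) (hL : IsLocData305 m L) {δ : GL (Fin 2) K'}
    (U : UpDat340 K δ) (hU : IsUpDat340 D ι n L S U) :
    Continuous (upCutCore322 cT L U) := by
  unfold upCutCore322
  refine ((continuous_const.mul (continuous_finset_prod _ fun v _ => ?_)).mul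
    (continuous_finset_prod _ fun v _ => ?_)).mul (continuous_finset_prod _ fun v _ => ?_)
  · exact (hU.inert v).cut.1.comp (hCont'.1 _)
  · have hval : ∀ x : ((U.dS v).w 0).adicCompletion K',
        Valued.v ((((U.dS v).i 0).symm : ((U.dS v).w 0).adicCompletion K' ≃+* _) x)
          = Valued.v x ^ 1 := by
      intro x
      have h := (hU.split v).val_i 0 (((U.dS v).i 0).symm x)
      rw [RingEquiv.apply_symm_apply] at h
      rw [pow_one]
      exact h.symm
    have hc := (hIso _ _ 1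
      ((((U.dS v).i 0).symm : ((U.dS v).w 0).adicCompletion K' ≃+* _) :
        ((U.dS v).w 0).adicCompletion K' →+* (v.1).adicCompletion K) one_pos hval).2
    exact (hL.cut v.1).1.comp (hc.comp (hCont'.1 _))
  · have hd : Continuous ((U.dA v).d 0) := by
      rcases (hU.arch v).typ 0 with h | h
      · rw [h]; exact continuous_id
      · rw [h]; exact Complex.continuous_conj
    exact (hL.cutc v).1.comp ((continuous_glMap322 _ hd).comp (hCont'.2 _))

theorem upCut_nonneg322 (D : CompData K K') (ι : Adl K →+* Adl K')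
    (n : HeightOneSpectrum (𝓞 K') → ℕ)
    (m : HeightOneSpectrum (𝓞 K) → ℕ) (S : Finset (HeightOneSpectrum (𝓞 K)))
    (S' : Finset (HeightOneSpectrum (𝓞 K'))) (cT : ℝ) (hcT : 0 < cT)
    {γ : GL (Fin 2) K} (L : LocData305 K γ) (hL : IsLocData305 m L) {δ : GL (Fin 2) K'}
    (U : UpDat340 K δ) (hU : IsUpDat340 D ι n L S U) (y : G K') :
    0 ≤ upCut340 S' cT L U y := by
  classical
  rw [upCut_eq_indicator322]
  refine Set.indicator_nonneg (fun y _ => ?_) y
  unfold upCutCore322
  refine mul_nonneg (mul_nonneg (mul_nonneg (inv_nonneg.2 hcT.le)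
    (Finset.prod_nonneg fun v _ => ?_)) (Finset.prod_nonneg fun v _ => ?_))
    (Finset.prod_nonneg fun v _ => ?_)
  · exact (hU.inert v).cut.2.1 _
  · exact (hL.cut v.1).2.1 _
  · exact (hL.cutc v).2.1 _

/-- Right translation by an element of the (commutative) twisted torus does not change the
orbital average. -/
theorem torus_transl322 (s : T5.AdelicAut K') (δ : GL (Fin 2) K')
    (hComm : ∀ x ∈ tA305 s δ, ∀ y ∈ tA305 s δ, x * y = y * x)
    (μT : @Measure (tA305 s δ) (borel _))
    (hμT : @Measure.IsHaarMeasure _ _ _ (borel _) μT) (β : G K' → ℝ) (t : G K')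
    (ht : t ∈ tA305 s δ) (x : G K') :
    @integral _ _ _ _ (borel _) μT (fun t₁ : tA305 s δ => β ((t₁ : G K') * (t * x)))
      = @integral _ _ _ _ (borel _) μT (fun t₁ : tA305 s δ => β ((t₁ : G K') * x)) := by
  letI : MeasurableSpace (tA305 s δ) := borel _
  haveI : BorelSpace (tA305 s δ) := ⟨rfl⟩
  haveI := hμT
  have h := integral_mul_left_eq_self (μ := μT)
    (fun t₁ : tA305 s δ => β ((t₁ : G K') * x)) (⟨t, ht⟩ : tA305 s δ)
  rw [← h]
  congr 1
  funext t₁
  have hc : (t₁ : G K') * t = t * (t₁ : G K') := hComm _ t₁.2 _ ht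
  change β ((t₁ : G K') * (t * x)) = β ((t * (t₁ : G K')) * x)
  rw [← mul_assoc, hc]

/-- **THE TOP OF PART A UPSTAIRS** (registry row 2743). -/
theorem cutOnUpC_of322 (hSO : SuppOutUpC340 K') (hSU : SuppUpC340 K K')
    (hCut : CutOnOutUpC340 K K') (hComm : TorCommC305 K') (hEll : EllRegC305 K K')
    (hOpen : OutOpenC558 K') (hCont : CompContC558 K) (hCont' : CompContC558 K')
    (hσ : HaarSigmaC558 K) (hIso : IsoContC340) : CutOnUpC340 K K' := by
  intro hT6 D hD hcyc hl hcplx ι hι T₀ hT₀ n m hlev S S' hTS hSS' φ₀ Φ δ γ hγ hN hgood hint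
    μT μT' hμT hμT' hlink L cT hL hcT hTor U hU
  refine ⟨?_, upCut_nonneg322 D ι n m S S' cT hcT L hL U hU, ?_⟩
  · rw [upCut_eq_indicator322]
    haveI : BorelSpace (G K') := ⟨rfl⟩
    exact (continuous_upCutCore322 hCont' hIso D ι n m S cT L hL U hU).measurable.indicator
      (hOpen S').measurableSet
  · intro x hx
    have h1 : OutT305 S' (x⁻¹ * T5.ratG δ * D.s.onG x) :=
      hSO D.R'.r hD.frame'.ray D.s S' φ₀ Φ δ x hx
    obtain ⟨t, ht, hout⟩ :=
      hSU hT6 D hD hcyc hl hcplx T₀ hT₀ S S' hTS hSS' δ γ hγ hN hgood hint x h1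
    have hone := hCut hσ hCont hCont' D hD hcyc hl hcplx ι hι n m S S' hSS' δ γ hγ hN hgood
      μT μT' hμT hμT' hlink L cT hL hcT hTor U hU (t⁻¹ * x) hout
    have hreg : T5.IsEllRegOver D.k (D.s.normUpTo D.l δ) := by
      rw [hN]
      exact (hEll D hD γ hγ).1
    have hcomm := hComm D.R' hD.frame' D.s D.l D.k D.𝔑 hD.cyc hD.aut δ hreg
    have htr := torus_transl322 D.s δ hcomm μT' hμT' (upCut340 S' cT L U) t ht (t⁻¹ * x)
    rw [mul_inv_cancel_left] at htr
    rw [htr]
    exact hone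

end Fermat.Agent.LT.T7.H322

end

end
-- ===== PACK-END LT/T7/H322/CutOnUp.lean

-- ===== PACK-BEGIN LT/T7/H426/OpDownQ.lean
section






/-!
# Row LT, tower T7, leaf T7.L2Q.1.F5 `OpDownQC732` (helper426, registry row 2318)

OFF-MAIN.  No hole, nothing assumed.  ADDITIVE (new names only, all ending in `426`).

    opDownQC426 (F) : H732.OpDownQC732 F            (VERBATIM, unconditional)

Spec: `T7/H732/SupplyQFamSpec.lean` (helper732@d2eb0c98b, sha256 7e4f04b4), byte-identical copy.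

## Proof

`R(f n X k m) ψ = R(F₁ n X) (Z_E^k 𝒰_E^m (R(f₂ n) ψ))` (operator formulas of helper922,
`T7/H922/FamOps.lean`), `(E.H, E.z)` the coset system of the pre-data.  The operators `𝒰`, `Z^k`
do not depend on the coset system on Iwahori-invariant functions (kit of helper83 and
`shiftOp_indep426`), and they PRESERVE the eigen-classes `L2Q.IsEigFnQ n 𝔫 r u · c`
(`isEigFnQ_iwOp426`, `isEigFnQ_shiftOp426`: translations by elements supported at `u ∣ 𝔫` commute
with the `K_∞`-type, the ray, the positive scalars, the Hecke operators at the `v ∤ 𝔫` and the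
circle means; cuspidality of finite sums: helper886; continuity of the circles: helper472).
Hence `dn1_op` applies to `Z^k 𝒰^m (R(f₂ n) ψ)`, and `dn2_comm` moves `R(f₂ n)` back to the left.
-/

set_option autoImplicit false

open AutomorphicForm IsDedekindDomain NumberField MeasureTheory
open scoped ComplexConjugate

noncomputable section

namespace Fermat.Agent.LT.T7.H426

open Fermat.Agent.LT.H556 Fermat.Agent.LT.H556.A0 Fermat.Agent.LT.T7 Fermat.Agent.LT.T7.L2Q
  Fermat.Agent.LT.T7.H893 Fermat.Agent.LT.T7.H962 Fermat.Agent.LT.T7.H732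
  Fermat.Agent.LT.H129 Fermat.Agent.LT.T7.H83 Fermat.Agent.LT.T7.H922 Fermat.Agent.LT.H670

attribute [local instance] Fermat.Agent.LT.T5.instMeasurableSpaceG

/-! ## 1. The circles are continuous -/

theorem continuous_rotY_torus426 (t : ℝ) (i j : Fin 2) :
    Continuous fun θ : ℝ => (rotY θ * torus t) i j := by
  have h : Continuous fun θ : ℝ => rotY θ := by
    refine continuous_matrix fun a b => ?_
    fin_cases a <;> fin_cases b <;> simp [rotY] <;> fun_prop
  exact (h.matrix_mul continuous_const).matrix_elem i j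

theorem continuous_rotC_torus426 (t : ℝ) (i j : Fin 2) :
    Continuous fun θ : ℝ => (QOut.rotC θ * torus t) i j := by
  have h : Continuous fun θ : ℝ => QOut.rotC θ := by
    refine continuous_matrix fun a b => ?_
    fin_cases a <;> fin_cases b <;> simp [QOut.rotC] <;> fun_prop
  exact (h.matrix_mul continuous_const).matrix_elem i j

/-- A family of elements supported at the infinite place with prescribed continuous components
is continuous. -/
theorem continuous_family426 {w : InfinitePlace ℚ} {Y : ℝ → G ℚ}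
    {M : ℝ → Matrix (Fin 2) (Fin 2) ℂ} (hM : ∀ i j, Continuous fun θ => M θ i j)
    (hY : ∀ θ : ℝ, IsLocalAtInf w (Y θ) ∧ infComp w (Y θ) = M θ) : Continuous Y := by
  refine T2.H472.locCont472 ℚ w ℝ Y (fun θ => (hY θ).1) fun i j => ?_
  have e : (fun θ => infComp w (Y θ) i j) = fun θ => M θ i j := by
    funext θ
    rw [(hY θ).2]
  rw [e]
  exact hM i j

/-! ## 2. The translation operators preserve the eigen-classes over `ℚ` -/

section Eig

variable {n : QWt} {𝔫 : Ideal (𝓞 ℚ)} {r : G ℚ} {u : HeightOneSpectrum (𝓞 ℚ)}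

theorem isWFnQ_trOp426 {ψ : G ℚ → ℂ} (hr : T5.IsRayGen r) (hψ : IsWFnQ n 𝔫 r u ψ)
    (T : Finset (G ℚ)) (κ : ℂ) (hT : ∀ t ∈ T, IsLocalAtFin u t)
    (hlev : ∀ k : G ℚ, InLevelGroup 𝔫 k → ∀ g : G ℚ, trOp426 T κ ψ (g * k) = trOp426 T κ ψ g)
    (hiw : IsIwInvAt u (trOp426 T κ ψ)) : IsWFnQ n 𝔫 r u (trOp426 T κ ψ) where
  cusp := isCuspFn_trOp426 hr hψ.cusp T κ (fun t ht => (hT t ht).1) hlev
  arch_scalar := fun w z hz g => by
    rw [trOp_apply426, trOp_apply426]
    congr 1
    refine Finset.sum_congr rfl fun t ht => ?_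
    rw [mul_assoc, comm_inf_fin426 (hT t ht).1 hz.1.2, ← mul_assoc]
    exact hψ.arch_scalar w z hz (g * t)
  iw := isIwInvAt_iff426.2 hiw

theorem intervalIntegral_trOp426 {ψ : G ℚ → ℂ} (hc : Continuous ψ) (T : Finset (G ℚ)) (κ : ℂ)
    (hT : ∀ t ∈ T, ∀ w : InfinitePlace ℚ, TrivAtInf w t) {Y : ℝ → G ℚ} (hYc : Continuous Y)
    (hYf : ∀ θ (v : HeightOneSpectrum (𝓞 ℚ)), TrivAtFin v (Y θ)) {e : ℝ → ℂ}
    (he : Continuous e) (g : G ℚ) (a b : ℝ) :
    (∫ θ in a..b, e θ * trOp426 T κ ψ (g * Y θ))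
      = κ * ∑ t ∈ T, ∫ θ in a..b, e θ * ψ (g * t * Y θ) := by
  have e1 : (fun θ => e θ * trOp426 T κ ψ (g * Y θ))
      = fun θ => κ * ∑ t ∈ T, e θ * ψ (g * t * Y θ) := by
    funext θ
    rw [trOp_apply426, Finset.mul_sum, Finset.mul_sum, Finset.mul_sum]
    refine Finset.sum_congr rfl fun t ht => ?_
    have e2 : g * Y θ * t = g * t * Y θ := by
      rw [mul_assoc, comm_inf_fin426 (hT t ht) (hYf θ), ← mul_assoc]
    rw [e2]
    ring
  rw [e1, intervalIntegral.integral_const_mul, intervalIntegral.integral_finsetSum]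
  intro t _
  exact (he.mul (hc.comp (continuous_const.mul hYc))).intervalIntegrable a b

/-- **The translation operators supported at `u ∣ 𝔫` preserve the eigen-classes.** -/
theorem isEigFnQ_trOp426 {ψ : G ℚ → ℂ} {c : EigData ℚ} (hr : T5.IsRayGen r)
    (hu : u.asIdeal ∣ 𝔫) (hψ : IsEigFnQ n 𝔫 r u ψ c)
    (T : Finset (G ℚ)) (κ : ℂ) (hT : ∀ t ∈ T, IsLocalAtFin u t)
    (hlev : ∀ k : G ℚ, InLevelGroup 𝔫 k → ∀ g : G ℚ, trOp426 T κ ψ (g * k) = trOp426 T κ ψ g)
    (hiw : IsIwInvAt u (trOp426 T κ ψ)) : IsEigFnQ n 𝔫 r u (trOp426 T κ ψ) c where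
  inv := isWFnQ_trOp426 hr hψ.inv T κ hT hlev hiw
  hecke := fun v hv => by
    have hvu : v ≠ u := fun e => hv (e ▸ hu)
    obtain ⟨h1, h2⟩ := hψ.hecke v hv
    refine ⟨fun H hH g => ?_, fun z hz g => ?_⟩
    · have e1 : ∀ h ∈ H, trOp426 T κ ψ (g * h) = κ * ∑ t ∈ T, ψ (g * t * h) := by
        intro h hh
        rw [trOp_apply426]
        congr 1
        refine Finset.sum_congr rfl fun t ht => ?_
        rw [mul_assoc, mul_comm_of_local83 v (hH.2.1 h hh).1 ((hT t ht).2 v hvu), ← mul_assoc]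
      rw [Finset.sum_congr rfl e1, ← Finset.mul_sum, Finset.sum_comm,
        Finset.sum_congr rfl fun t _ => h1 H hH (g * t), ← Finset.mul_sum, trOp_apply426]
      ring
    · rw [trOp_apply426, trOp_apply426]
      have e1 : ∀ t ∈ T, ψ (g * z * t) = c.b v * ψ (g * t) := by
        intro t ht
        rw [mul_assoc, mul_comm_of_local83 v hz.1 ((hT t ht).2 v hvu), ← mul_assoc]
        exact h2 z hz (g * t)
      rw [Finset.sum_congr rfl e1, ← Finset.mul_sum]
      ring
  mean := fun w => by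
    have hTi : ∀ t ∈ T, ∀ w : InfinitePlace ℚ, TrivAtInf w t := fun t ht => (hT t ht).1
    have hm := hψ.mean w
    cases n with
    | w0 =>
      intro t ht Y hY g
      have hYc : Continuous Y := continuous_family426 (continuous_rotY_torus426 t) hY
      have key := intervalIntegral_trOp426 hψ.inv.cusp.cont T κ hTi hYc
        (fun θ v => (hY θ).1.2 v) (e := fun _ => (1 : ℂ)) continuous_const g 0 (2 * Real.pi)
      simp only [one_mul] at key
      rw [key, Finset.sum_congr rfl fun s _ => hm t ht Y hY (g * s), ← Finset.mul_sum,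
        trOp_apply426]
      ring
    | w1 =>
      intro t ht Y hY g
      have hYc : Continuous Y := continuous_family426 (continuous_rotC_torus426 t) hY
      have key := intervalIntegral_trOp426 hψ.inv.cusp.cont T κ hTi hYc
        (fun θ v => (hY θ).1.2 v)
        (e := fun θ : ℝ => Complex.exp (-(Complex.I * ((θ : ℝ) : ℂ)))) (by fun_prop) g 0
        (2 * Real.pi)
      rw [key, Finset.sum_congr rfl fun s _ => hm t ht Y hY (g * s), ← Finset.mul_sum,
        trOp_apply426]
      ring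

theorem isEigFnQ_iwOp426 {ψ : G ℚ → ℂ} {c : EigData ℚ} (hr : T5.IsRayGen r)
    (hu : u.asIdeal ∣ 𝔫) (hψ : IsEigFnQ n 𝔫 r u ψ c) {H : Finset (G ℚ)}
    (hH : IsIwCosetSystem u H) : IsEigFnQ n 𝔫 r u (iwOp u H ψ) c := by
  have hiw : IsIwInvAt u ψ := isIwInvAt_iff426.1 hψ.inv.iw
  rw [iwOp_eq_trOp426]
  refine isEigFnQ_trOp426 hr hu hψ H _ (fun h hh => (hH.2.1 h hh).1) ?_ ?_
  · intro k hk g
    exact iwOp_levelInv426 hu hH hψ.inv.cusp.aut.level_inv hiw k hk g
  · exact iwOp_isIwInvAt83 u hH hiw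

theorem isEigFnQ_iwOp_iter426 {ψ : G ℚ → ℂ} {c : EigData ℚ} (hr : T5.IsRayGen r)
    (hu : u.asIdeal ∣ 𝔫) (hψ : IsEigFnQ n 𝔫 r u ψ c) {H : Finset (G ℚ)}
    (hH : IsIwCosetSystem u H) (m : ℕ) : IsEigFnQ n 𝔫 r u ((iwOp u H)^[m] ψ) c := by
  induction m with
  | zero => exact hψ
  | succ m ih =>
    rw [Function.iterate_succ_apply']
    exact isEigFnQ_iwOp426 hr hu ih hH

theorem isEigFnQ_shiftOp426 {ψ : G ℚ → ℂ} {c : EigData ℚ} (hr : T5.IsRayGen r)
    (hu : u.asIdeal ∣ 𝔫) (hψ : IsEigFnQ n 𝔫 r u ψ c) {z : G ℚ}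
    (hz : IsScalarUniformizerAt u z) (k : ℤ) : IsEigFnQ n 𝔫 r u (shiftOp z k ψ) c := by
  have hiw : IsIwInvAt u ψ := isIwInvAt_iff426.1 hψ.inv.iw
  have h1 : ∀ a : G ℚ, InLevelGroup 𝔫 a → ∀ g : G ℚ,
      shiftOp z k ψ (g * a) = shiftOp z k ψ g := fun a ha g =>
    shiftOp_inv426 hz k (fun y => hψ.inv.cusp.aut.level_inv a ha y) g
  have h2 : IsIwInvAt u (shiftOp z k ψ) := isIwInvAt_shiftOp426 hz k hiw
  rw [shiftOp_eq_trOp426] at h1 h2 ⊢
  refine isEigFnQ_trOp426 hr hu hψ _ _ (fun t ht => ?_) h1 h2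
  rw [Finset.mem_singleton] at ht
  rw [ht]
  exact isLocalAtFin_zpow426 hz.1 k

end Eig

/-! ## 3. The leaf -/

section Leaf

attribute [local instance] Fermat.Agent.LT.T7.H922.borelSpaceG922

variable (F : Type) [Field F] [NumberField F]

/-- `R(f₂ n)` commutes with the iterates of the Iwahori operator on the eigen-classes. -/
theorem rconv_iwOp_iter426 {Φ : HeckeEigensystem F ℂ} {B : L2QBase962 F}
    (hB : IsL2QBase962 Φ B) {g : G F} {E : L2QPre732 F} (hE : IsL2QPre732 Φ B g E) (n : QWt)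
    {ψ : G ℚ → ℂ} {c : EigData ℚ} (hψ : IsEigFnQ n E.𝔫 B.R.r B.u ψ c) {H : Finset (G ℚ)}
    {z : G ℚ} (hH : IsIwCosetSystem B.u H) (hz : IsScalarUniformizerAt B.u z) (m : ℕ) :
    T5.Rconv B.R.μ (E.f₂ n) ((iwOp B.u H)^[m] ψ)
      = (iwOp B.u H)^[m] (T5.Rconv B.R.μ (E.f₂ n) ψ) := by
  induction m with
  | zero => rfl
  | succ m ih =>
    rw [Function.iterate_succ_apply', Function.iterate_succ_apply', ← ih]
    exact funext (hE.dn2_comm n _
      (isEigFnQ_iwOp_iter426 hB.frame.ray hE.u_level hψ hH m).inv H z hH hz).1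

/-- **LEAF T7.L2Q.1.F5 = OP-DOWN over `ℚ`, both types** (`H732.OpDownQC732`, verbatim). -/
theorem opDownQC426 : OpDownQC732 F := by
  intro Φ B hB g _ E hE n X k m hX ψ c C hψ hBC H z hH hz x
  have hHaar : B.R.μ.IsHaarMeasure := hB.frame.frame.haar
  have hr : T5.IsRayGen B.R.r := hB.frame.ray
  have hu : B.u.asIdeal ∣ E.𝔫 := hE.u_level
  have hnil : ∀ x ∈ ([] : List (Gen F)), x.Out B.S' := fun x hx => by simp at hx
  have h1X := hE.dn1_test n X hX
  have h1n := hE.dn1_test n [] hnil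
  have h2 := hE.dn2_test n
  have hψc : Continuous ψ := hψ.inv.cusp.cont
  -- the eigen-classes
  have hm : IsEigFnQ n E.𝔫 B.R.r B.u ((iwOp B.u H)^[m] ψ) c :=
    isEigFnQ_iwOp_iter426 hr hu hψ hH m
  have hψ' : IsEigFnQ n E.𝔫 B.R.r B.u (shiftOp z k ((iwOp B.u H)^[m] ψ)) c :=
    isEigFnQ_shiftOp426 hr hu hm hz k
  have hχ₀ : IsEigFnQ n E.𝔫 B.R.r B.u (T5.Rconv B.R.μ (E.f₂ n) ψ) c := hE.dn2_class n ψ c hψ
  have hiw₀ : IsIwInvAt B.u (T5.Rconv B.R.μ (E.f₂ n) ψ) := isIwInvAt_iff426.1 hχ₀.inv.iw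
  -- the operator of the regular member, for the coset system of the pre-data
  have e1 : T5.Rconv B.R.μ (regL B.u E.z E.H k m (E.f₂ n)) ψ
      = T5.Rconv B.R.μ (E.f₂ n) (shiftOp z k ((iwOp B.u H)^[m] ψ)) := by
    rw [rconv_regL922 B.R.μ h2.cont h2.supp hψc B.u E.z E.H k m,
      iwOp_iterate_indep83 B.u hE.sys hH hiw₀ m,
      shiftOp_indep426 hE.unif hz (iwOp_iterate_isIwInvAt83 B.u hH hiw₀ m) k,
      ← rconv_iwOp_iter426 F hB hE n hψ hH hz m]
    exact (funext ((hE.dn2_comm n _ hm.inv H z hH hz).2 k)).symm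
  -- the left side
  have eL : T5.Rconv B.R.μ (E.down B n X k m) ψ x
      = T5.Rconv B.R.μ (E.F₁ n X)
          (T5.Rconv B.R.μ (E.f₂ n) (shiftOp z k ((iwOp B.u H)^[m] ψ))) x := by
    rw [← e1]
    exact rconv_conv922 B.R.μ h1X.cont h1X.supp (continuous_regL922 h2.cont B.u E.z E.H k m)
      (hasCompactSupport_regL922 h2.supp B.u E.z E.H k m) hψc x
  -- the right side
  have eR : T5.Rconv B.R.μ (E.down B n [] 0 0) (shiftOp z k ((iwOp B.u H)^[m] ψ)) x
      = T5.Rconv B.R.μ (E.F₁ n [])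
          (T5.Rconv B.R.μ (E.f₂ n) (shiftOp z k ((iwOp B.u H)^[m] ψ))) x := by
    show T5.Rconv B.R.μ (T5.conv B.R.μ (E.F₁ n []) (regL B.u E.z E.H 0 0 (E.f₂ n)))
      (shiftOp z k ((iwOp B.u H)^[m] ψ)) x = _
    rw [regL_zero922]
    exact rconv_conv922 B.R.μ h1n.cont h1n.supp h2.cont h2.supp hψ'.inv.cusp.cont x
  rw [eL, eR]
  exact hE.dn1_op n X hX _ c C (hE.dn2_class n _ c hψ') hBC x

end Leaf

end Fermat.Agent.LT.T7.H426

end

end
-- ===== PACK-END LT/T7/H426/OpDownQ.lean

-- ===== PACK-BEGIN LT/T7/H276/IwAlg.lean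
section



/-!
# Row LT, tower T7, node T7.L2.2.B4 `OpsC561` (helper276, OFF-MAIN): the Iwahori algebra at one
# place and the orbit

* `inIwahori_of_mats276` : Iwahori membership from the matrix and its inverse;
* `inIwahori_mul_small276` : `!![a,1;1,0] !![b,1;1,0] ∈ I` if `|b| < 1`;
* `inIwahori_shift276` : `!![c,1;1,0]⁻¹ !![a,1;1,0] !![b,1;1,0] ∈ I` if `|ab + 1 - cb| < 1`;
* `iwInv_local276` : an `IsIwInv` function is invariant under the local Iwahori elements at the
  places of the orbit;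
* `orbit_mem276`, `orbit_add_period276`, `absNorm_orbit276` : the orbit is periodic and the
  norm is constant along the orbit;
* `central_of_scalar276` : a local element with scalar component is central.
-/

set_option autoImplicit false

open IsDedekindDomain NumberField IsDedekindDomain.HeightOneSpectrum
open Fermat.Agent.LT.H556.A0 Fermat.Agent.LT.H129

noncomputable section

namespace Fermat.Agent.LT.T7.H276

section Generic

variable {F : Type*} [Field F]

theorem coe_inv_of_mul_eq_one276 (g : GL (Fin 2) F) {M N : Matrix (Fin 2) (Fin 2) F}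
    (hg : (g : Matrix (Fin 2) (Fin 2) F) = M) (hMN : M * N = 1) :
    ((g⁻¹ : GL (Fin 2) F) : Matrix (Fin 2) (Fin 2) F) = N := by
  rw [Matrix.coe_units_inv, hg]
  exact Matrix.inv_eq_right_inv hMN

theorem iw_prod_mat276 (a b : F) :
    (!![a, 1; 1, 0] : Matrix (Fin 2) (Fin 2) F) * !![b, 1; 1, 0] = !![a * b + 1, a; b, 1] := by
  ext i j
  fin_cases i <;> fin_cases j <;> simp [Matrix.mul_apply, Fin.sum_univ_two]

theorem iw_prod_inv276 (a b : F) :
    (!![a * b + 1, a; b, 1] : Matrix (Fin 2) (Fin 2) F) * !![1, -a; -b, a * b + 1] = 1 := by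
  ext i j
  fin_cases i <;> fin_cases j <;> simp [Matrix.mul_apply, Fin.sum_univ_two] <;> ring

theorem iw_rep_inv276 (c : F) :
    (!![c, 1; 1, 0] : Matrix (Fin 2) (Fin 2) F) * !![0, 1; 1, -c] = 1 := by
  ext i j
  fin_cases i <;> fin_cases j <;> simp [Matrix.mul_apply, Fin.sum_univ_two]

theorem iw_shift_mat276 (a b c : F) :
    (!![0, 1; 1, -c] : Matrix (Fin 2) (Fin 2) F) * !![a * b + 1, a; b, 1]
      = !![b, 1; a * b + 1 - c * b, a - c] := by
  ext i j
  fin_cases i <;> fin_cases j <;> simp [Matrix.mul_apply, Fin.sum_univ_two] <;> ring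

theorem iw_shift_inv276 (a b c : F) :
    (!![b, 1; a * b + 1 - c * b, a - c] : Matrix (Fin 2) (Fin 2) F)
      * !![c - a, 1; a * b + 1 - c * b, -b] = 1 := by
  ext i j
  fin_cases i <;> fin_cases j <;> simp [Matrix.mul_apply, Fin.sum_univ_two] <;> ring

end Generic

variable {K : Type} [Field K] [NumberField K] (v : HeightOneSpectrum (𝓞 K))

/-- The component of the inverse. -/
theorem finComp_inv276 (g : G K) {M N : Matrix (Fin 2) (Fin 2) (v.adicCompletion K)}
    (hg : finComp v g = M) (hMN : M * N = 1) : finComp v g⁻¹ = N := by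
  rw [← coe_finCompHom129, map_inv]
  exact coe_inv_of_mul_eq_one276 _ (by rw [coe_finCompHom129, hg]) hMN

/-- Iwahori membership from the matrix and its inverse. -/
theorem inIwahori_of_mats276 {g : G K} {M N : Matrix (Fin 2) (Fin 2) (v.adicCompletion K)}
    (hg : finComp v g = M) (hMN : M * N = 1)
    (hM : ∀ i j, M i j ∈ v.adicCompletionIntegers K)
    (hN : ∀ i j, N i j ∈ v.adicCompletionIntegers K)
    (h10 : Valued.v (M 1 0) < 1) : T5.InIwahori v g := by
  refine ⟨fun i j => ?_, fun i j => ?_, ?_⟩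
  · rw [hg]; exact hM i j
  · rw [finComp_inv276 v g hg hMN]; exact hN i j
  · rw [hg]; exact h10

/-- An element which is trivial at `v` is in the Iwahori subgroup at `v`. -/
theorem inIwahori_of_triv276 {u : G K} (hu : TrivAtFin v u) : T5.InIwahori v u := by
  have h1 : (1 : v.adicCompletion K) ∈ v.adicCompletionIntegers K :=
    (v.adicCompletionIntegers K).one_mem
  have h0 : (0 : v.adicCompletion K) ∈ v.adicCompletionIntegers K :=
    (v.adicCompletionIntegers K).zero_mem
  have hint : ∀ i j : Fin 2,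
      (1 : Matrix (Fin 2) (Fin 2) (v.adicCompletion K)) i j ∈ v.adicCompletionIntegers K := by
    intro i j
    by_cases hij : i = j
    · subst hij; simp
    · simp [hij]
  refine inIwahori_of_mats276 v (M := 1) (N := 1) hu (one_mul 1) hint hint ?_
  simp

/-- `!![a,1;1,0] !![b,1;1,0] ∈ I` if `|b| < 1`. -/
theorem inIwahori_mul_small276 {h h' : G K} {a b : v.adicCompletion K}
    (ha : a ∈ v.adicCompletionIntegers K) (hb : b ∈ v.adicCompletionIntegers K)
    (hh : finComp v h = !![a, 1; 1, 0]) (hh' : finComp v h' = !![b, 1; 1, 0])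
    (hsmall : Valued.v b < 1) : T5.InIwahori v (h * h') := by
  have h1 : (1 : v.adicCompletion K) ∈ v.adicCompletionIntegers K :=
    (v.adicCompletionIntegers K).one_mem
  have hab : a * b + 1 ∈ v.adicCompletionIntegers K :=
    (v.adicCompletionIntegers K).add_mem _ _ ((v.adicCompletionIntegers K).mul_mem _ _ ha hb) h1
  have hna : -a ∈ v.adicCompletionIntegers K := (v.adicCompletionIntegers K).neg_mem _ ha
  have hnb : -b ∈ v.adicCompletionIntegers K := (v.adicCompletionIntegers K).neg_mem _ hb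
  refine inIwahori_of_mats276 v (M := !![a * b + 1, a; b, 1]) (N := !![1, -a; -b, a * b + 1])
    ?_ (iw_prod_inv276 a b) ?_ ?_ ?_
  · rw [finComp_mul276, hh, hh', iw_prod_mat276]
  · intro i j
    fin_cases i <;> fin_cases j <;> simp <;> assumption
  · intro i j
    fin_cases i <;> fin_cases j <;> simp <;> assumption
  · simpa using hsmall

/-- `!![c,1;1,0]⁻¹ !![a,1;1,0] !![b,1;1,0] ∈ I` if `|ab + 1 - cb| < 1`. -/
theorem inIwahori_shift276 {h h' h'' : G K} {a b c : v.adicCompletion K}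
    (ha : a ∈ v.adicCompletionIntegers K) (hb : b ∈ v.adicCompletionIntegers K)
    (hc : c ∈ v.adicCompletionIntegers K)
    (hh : finComp v h = !![a, 1; 1, 0]) (hh' : finComp v h' = !![b, 1; 1, 0])
    (hh'' : finComp v h'' = !![c, 1; 1, 0])
    (hsmall : Valued.v (a * b + 1 - c * b) < 1) : T5.InIwahori v (h''⁻¹ * (h * h')) := by
  have h1 : (1 : v.adicCompletion K) ∈ v.adicCompletionIntegers K :=
    (v.adicCompletionIntegers K).one_mem
  have hx : a * b + 1 - c * b ∈ v.adicCompletionIntegers K :=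
    (v.adicCompletionIntegers K).sub_mem
      ((v.adicCompletionIntegers K).add_mem _ _ ((v.adicCompletionIntegers K).mul_mem _ _ ha hb)
        h1) ((v.adicCompletionIntegers K).mul_mem _ _ hc hb)
  have hac : a - c ∈ v.adicCompletionIntegers K := (v.adicCompletionIntegers K).sub_mem ha hc
  have hca : c - a ∈ v.adicCompletionIntegers K := (v.adicCompletionIntegers K).sub_mem hc ha
  have hnb : -b ∈ v.adicCompletionIntegers K := (v.adicCompletionIntegers K).neg_mem _ hb
  refine inIwahori_of_mats276 v (M := !![b, 1; a * b + 1 - c * b, a - c])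
    (N := !![c - a, 1; a * b + 1 - c * b, -b]) ?_ (iw_shift_inv276 a b c) ?_ ?_ ?_
  · rw [finComp_mul276, finComp_inv276 v h'' hh'' (iw_rep_inv276 c), finComp_mul276, hh, hh',
      iw_prod_mat276, iw_shift_mat276]
  · intro i j
    fin_cases i <;> fin_cases j <;> simp <;> assumption
  · intro i j
    fin_cases i <;> fin_cases j <;> simp <;> assumption
  · simpa using hsmall

/-- An `IsIwInv` function is invariant under the local Iwahori elements at the places of the
orbit. -/
theorem iwInv_local276 {l : ℕ} {o : ℕ → HeightOneSpectrum (𝓞 K)} {ψ : G K → ℂ}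
    (hψ : IsIwInv l o ψ) {j : ℕ} (hj : j < l) {u : G K} (hloc : IsLocalAtFin (o j) u)
    (hI : T5.InIwahori (o j) u) (x : G K) : ψ (x * u) = ψ x := by
  apply hψ u hloc.1
  · intro w hw
    exact hloc.2 w (hw j hj)
  · intro j' _
    by_cases h : o j' = o j
    · rw [h]; exact hI
    · exact inIwahori_of_triv276 _ (hloc.2 _ h)

/-! ## The orbit -/

theorem orbit_add_period276 (s : T5.AdelicAut K) (l : ℕ) (k : Subfield K)
    (hc : T5.IsCyclicOfDegree s l k) (o : ℕ → HeightOneSpectrum (𝓞 K))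
    (ho : ∀ j : ℕ, T5.PlaceRel s (o j) (o (j + 1))) (j : ℕ) : o (j + l) = o j := by
  have := T5.H415.orbit_period415 s l k hc (fun i => o (j + i)) (fun i => ho (j + i))
  simpa using this

theorem orbit_add_mul276 (s : T5.AdelicAut K) (l : ℕ) (k : Subfield K)
    (hc : T5.IsCyclicOfDegree s l k) (o : ℕ → HeightOneSpectrum (𝓞 K))
    (ho : ∀ j : ℕ, T5.PlaceRel s (o j) (o (j + 1))) (j n : ℕ) : o (j + l * n) = o j := by
  induction n with
  | zero => simp
  | succ n ih =>
    rw [Nat.mul_succ, ← Nat.add_assoc, orbit_add_period276 s l k hc o ho, ih]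

/-- Every place of the orbit is one of `o 0, …, o (l - 1)`. -/
theorem orbit_mem276 (s : T5.AdelicAut K) (l : ℕ) (k : Subfield K)
    (hc : T5.IsCyclicOfDegree s l k) (o : ℕ → HeightOneSpectrum (𝓞 K))
    (ho : ∀ j : ℕ, T5.PlaceRel s (o j) (o (j + 1))) (j : ℕ) : ∃ j₀ < l, o j = o j₀ := by
  refine ⟨j % l, Nat.mod_lt _ hc.pos, ?_⟩
  have := orbit_add_mul276 s l k hc o ho (j % l) (j / l)
  rw [Nat.mod_add_div] at this
  exact this

theorem absNorm_map_equiv276 (e : 𝓞 K ≃+* 𝓞 K)
    (I : Ideal (𝓞 K)) : Ideal.absNorm (Ideal.map e I) = Ideal.absNorm I := by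
  rw [Ideal.absNorm_apply, Ideal.absNorm_apply, Submodule.cardQuot_apply,
    Submodule.cardQuot_apply]
  exact (Nat.card_congr (Ideal.quotientEquiv I (Ideal.map e I) e rfl).toEquiv).symm

/-- The norm is constant along the orbit. -/
theorem absNorm_orbit276 (s : T5.AdelicAut K) (o : ℕ → HeightOneSpectrum (𝓞 K))
    (ho : ∀ j : ℕ, T5.PlaceRel s (o j) (o (j + 1))) (j : ℕ) :
    Ideal.absNorm (o j).asIdeal = Ideal.absNorm (o 0).asIdeal := by
  induction j with
  | zero => rfl
  | succ j ih =>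
    have h := ho j
    unfold T5.PlaceRel at h
    rw [h, absNorm_map_equiv276, ih]

/-! ## Central elements -/

/-- A local element with scalar component is central. -/
theorem central_of_scalar276 {z : G K} (hloc : IsLocalAtFin v z) {c : v.adicCompletion K}
    (hz : finComp v z = Matrix.diagonal (fun _ => c)) (g : G K) : z * g = g * z := by
  rw [isLocalAtFin_iff129] at hloc
  apply G_ext129
  · intro w
    rw [map_mul, map_mul, hloc.1 w, one_mul, mul_one]
  · intro v'
    by_cases h : v' = v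
    · subst h
      apply Units.ext
      rw [map_mul, map_mul, Matrix.GeneralLinearGroup.coe_mul, Matrix.GeneralLinearGroup.coe_mul,
        coe_finCompHom129, coe_finCompHom129, hz]
      ext i j
      rw [Matrix.diagonal_mul, Matrix.mul_diagonal, mul_comm]
    · rw [map_mul, map_mul, hloc.2 v' h, one_mul, mul_one]

end Fermat.Agent.LT.T7.H276

end

end
-- ===== PACK-END LT/T7/H276/IwAlg.lean

-- ===== PACK-BEGIN LT/T7/H771/RegSuppFalse.lean
section


/-!
# Row LT, tower T7, leaf T7.L2.1.G1 `RegSuppC`: FALSE AS TYPED (helper771, referee)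

OFF-MAIN.  `regSuppC_false771 (u) : ¬ H893.RegSuppC K` for every number field `K` and every finite
place `u` of `K`: the frozen Prop `RegSuppC` of `LT/T7/H893/SupplyPreSpec.lean` (37db5856) does
not ask the places `o j`, `0 < j < l`, to be different from `o 0`.

Witness: `l = 2`, `o = fun _ => u`, `𝔫₀ = u`, `g = 1`, `Hg = {1}`, `φ` = the indicator of `{1}`,
`C = {1}`, `k = 0`, `m = 1`.  The function `lsum {1} (regL u z H 0 1 φ)` does not vanish at
`h₀ ∈ H`; `HasRegularSupportZ 2 o 1 C'` asks `h₀` to be in the Iwahori subgroup at `o 1 = u`, but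
`h₀ ∈ I diag(ϖ, 1) I` has a determinant of valuation `exp (-1)`.

The corrected Prop (with `orbit_ne`, which `IsL2Base` provides) is proved in `RegSuppNe.lean`.
-/

set_option autoImplicit false

open IsDedekindDomain NumberField IsDedekindDomain.HeightOneSpectrum
open Fermat.Agent.LT.H556 Fermat.Agent.LT.H556.A0 Fermat.Agent.LT.H129

noncomputable section

namespace Fermat.Agent.LT.T7.H771

open Fermat.Agent.LT.T7 Fermat.Agent.LT.T7.H340 Fermat.Agent.LT.T7.H893

variable {K : Type} [Field K] [NumberField K]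

theorem zero_mem_idealClosure771 (𝔫 : Ideal (𝓞 K)) (v : HeightOneSpectrum (𝓞 K)) :
    (0 : v.adicCompletion K) ∈ idealClosure 𝔫 v := by
  unfold idealClosure
  refine subset_closure ⟨0, 𝔫.zero_mem, ?_⟩
  simp

theorem inLevelGroup_one771 (𝔫 : Ideal (𝓞 K)) : InLevelGroup 𝔫 (1 : G K) := by
  refine ⟨fun w => (trivAtInf_iff129 w 1).2 (map_one _), fun v i j => ?_⟩
  rw [inv_one, Fermat.Agent.LT.H942.finComp_one942, sub_self]
  exact ⟨zero_mem_idealClosure771 𝔫 v, zero_mem_idealClosure771 𝔫 v⟩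

/-- An element of `I diag(ϖ, 1) I` is not in the Iwahori subgroup. -/
theorem not_inIwahori_of_coset771 {u : HeightOneSpectrum (𝓞 K)} {h : G K}
    (hc : T5.InIwahoriCoset u 1 h) : ¬ T5.InIwahori u h := by
  intro hi
  have h1 := ((inIwahori_iff340 u h).1 hi).val_det
  have h2 := (isIwT340_of_inIwahoriCoset hc).2.1
  rw [h1] at h2
  have : (WithZero.exp (0 : ℤ) : WithZero (Multiplicative ℤ)) = WithZero.exp (-1 : ℤ) := by
    rw [WithZero.exp_zero]; exact h2
  have := WithZero.exp_injective this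
  omega

/-- **`RegSuppC` is FALSE as typed.** -/
theorem regSuppC_false771 (u : HeightOneSpectrum (𝓞 K)) : ¬ RegSuppC K := by
  classical
  intro hR
  obtain ⟨H, hH⟩ := exists_iwCosetSystem340 u
  obtain ⟨z, hz⟩ := exists_scalarUniformizer129 (K := K) u
  set φ : G K → ℂ := fun y => if y = 1 then 1 else 0 with hφ
  have hdbl : IsDblCosetSystem u.asIdeal (1 : G K) ({1} : Finset (G K)) := by
    refine ⟨?_, ?_, ?_⟩
    · intro h hh
      rw [Finset.mem_singleton] at hh
      exact ⟨1, 1, inLevelGroup_one771 _, inLevelGroup_one771 _, by rw [hh]; simp⟩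
    · intro h hh h' hh' hne
      rw [Finset.mem_singleton] at hh hh'
      exact absurd (hh.trans hh'.symm) hne
    · intro u' hu'
      exact ⟨1, Finset.mem_singleton_self _, by simpa using hu'⟩
  have hsupp : T5.H32.IsIwSupported32 2 (fun _ => u) ({1} : Set (G K)) φ := by
    intro y hy
    have hy1 : y = 1 := by
      by_contra hne
      exact hy (by simp [hφ, hne])
    subst hy1
    exact ⟨fun _ _ => inIwahori_one340 u, 1, rfl, T5.H942.agreeOutside_refl942 _ _⟩
  obtain ⟨C', -, hC'⟩ := hR u.asIdeal 2 (fun _ => u) (by norm_num) (fun _ => dvd_rfl) 1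
    (fun w => (isLocalAtFin_one129 u).1 w)
    (fun _ _ => Fermat.Agent.LT.H942.finComp_one942 u) {1} H z hdbl hH hz φ {1}
    isCompact_singleton hsupp
  have hcard : 0 < H.card := by
    rw [hH.1]
    exact lt_trans Nat.zero_lt_one (NumberField.HeightOneSpectrum.one_lt_absNorm u)
  obtain ⟨h₀, hh₀⟩ := Finset.card_pos.1 hcard
  have hval : lsum ({1} : Finset (G K)) (regL u z H 0 1 φ) h₀ ≠ 0 := by
    unfold lsum regL ltr
    rw [Finset.sum_singleton, Function.iterate_one]
    unfold iwL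
    have hq : ((Real.sqrt (Ideal.absNorm u.asIdeal : ℝ) : ℝ) : ℂ)⁻¹ ≠ 0 := by
      apply inv_ne_zero
      have : (0 : ℝ) < Real.sqrt (Ideal.absNorm u.asIdeal : ℝ) := by
        apply Real.sqrt_pos.2
        exact_mod_cast lt_trans Nat.zero_lt_one (NumberField.HeightOneSpectrum.one_lt_absNorm u)
      exact_mod_cast this.ne'
    refine mul_ne_zero hq ?_
    have e : ∀ h ∈ H, φ (h⁻¹ * ((z ^ (0 : ℤ))⁻¹ * ((1 : G K)⁻¹ * h₀)))
        = if h = h₀ then 1 else 0 := by
      intro h _
      simp only [hφ, zpow_zero, inv_one, one_mul]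
      by_cases hh : h = h₀
      · subst hh; simp
      · have : h⁻¹ * h₀ ≠ 1 := by
          intro h1
          apply hh
          have := inv_mul_eq_one.1 h1
          exact this
        simp [this, hh]
    rw [Finset.sum_congr rfl e, Finset.sum_ite_eq' H h₀]
    simp [hh₀]
  have hI := (hC' 0 1 h₀ hval).2.1 1 Nat.one_pos (by norm_num)
  exact not_inIwahori_of_coset771 (hH.2.1 h₀ hh₀).2 hI

end Fermat.Agent.LT.T7.H771

end

end
-- ===== PACK-END LT/T7/H771/RegSuppFalse.lean

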