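import Mathlib
import Fermat.Agent.Pack.LT3.E25L0
import Fermat.Agent.Pack.LT2.E13L3
import Fermat.Agent.Pack.LT2.E11L3
import Fermat.Agent.Pack.LT2.E11L1
import Fermat.Agent.Pack.LT3.E21L3
import Fermat.Agent.Pack.LT3.E25L1
import Fermat.Agent.Pack.LT3.E25L3
import Fermat.Agent.Pack.LT3.E22L0
import Fermat.Agent.Pack.LT3.E23L1
import Fermat.Agent.Pack.LT3.E25L2
import Fermat.Agent.Pack.LT3.E10L2
import Fermat.Agent.Pack.LT3.E2L1
import Fermat.Agent.Pack.LT2.E7L2
import Fermat.Agent.Pack.LT3.E24L3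
import Fermat.Agent.Pack.LT3.E7L1
import Fermat.Agent.Pack.LT3.E2L2
import Fermat.Agent.Pack.LT3.E26L2
import Fermat.Agent.Pack.LT3.E21L1
import Fermat.Agent.Pack.LT3.E26L3
import Fermat.Agent.Pack.LT3.E23L3
import Fermat.Agent.Pack.LT3.E26L0
import Fermat.Agent.Pack.LT3.E22L1
import Fermat.Agent.Pack.LT3.E26L1
import Fermat.Agent.Pack.LT3.E24L2
import Fermat.Agent.Pack.LT3.E24L0

set_option linter.all false

-- ===== PACK-BEGIN LT/T2/H386/Leaf03Closed.lean
section






/-!
# Row LT, T2.03 (owner helper386): `Leaf03` = `GPSCore` CLOSED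

OFF-MAIN.  ONE import closure with the byte-identical files of the leaf owners:

* T2.03a (registry 1117, helper511@b9949f8d8): `H511.leafFD_of_us511` with the leaves
  CONTR (helper729), ALG (helper988), CPT (helper793) and
  US (registry 1225, helper437@1a8b3f3f3 `leafUnifSmooth_of_leaves437`; sub-leaves
  FDCalc helper8@8a9bafacc, LevelNhds helper187@a84f1e2f5),
* T2.03b (registry 1118, helper386): `leafSoft1_386`,
* T2.03c (registry 1119, helper767@84f973682; count by helper868@d29b270f6):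
  `H767.leafLocalL2_767`.

Result: `leaf03_386 K : T2.Leaf03 K` for every number field `K`, nothing assumed.
-/

set_option autoImplicit false

open IsDedekindDomain NumberField

noncomputable section

namespace Fermat.Agent.LT.T2.H386

open Fermat.Agent.LT.T2

/-- T2.03a.2 (US) with its three inputs plugged in. -/
theorem leafUnifSmooth_386 (K : Type) [Field K] [NumberField K] : H511.LeafUnifSmooth K :=
  H437.leafUnifSmooth_of_leaves437 H8.fdCalcC437_h8 (H187.levelNhdsC187 K) (H793.cptC793 K)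

/-- T2.03a CLOSED: the finite-difference bound for test functions. -/
theorem leafFD_386 (K : Type) [Field K] [NumberField K] : LeafFD K :=
  H511.leafFD_of_us511 K (leafUnifSmooth_386 K)

/-- **T2.03 CLOSED**: `Leaf03 K` (the estimate `GPSCore`, constant term subtracted) for every
number field `K`. -/
theorem leaf03_386 (K : Type) [Field K] [NumberField K] : Leaf03 K :=
  leaf03_of_us386 K (leafUnifSmooth_386 K)

/-- Type check against the Spec of the tower architect (T2/Spec v3). -/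
example (K : Type) [Field K] [NumberField K] :
    T1.T1Out K → ∀ 𝔫 : Ideal (𝓞 K), 𝔫 ≠ ⊥ → GPSCore K 𝔫 := leaf03_386 K

end Fermat.Agent.LT.T2.H386

end

end
-- ===== PACK-END LT/T2/H386/Leaf03Closed.lean

-- ===== PACK-BEGIN LT/T7/H893/SupplyConstrSpec.lean
section




/-!
# Row LT, tower T7, node T7.L2.1.H2 `ConstrC` (sub-architect helper893): FIFTH CUT -- Spec

OFF-MAIN.  Definitions and frozen Props only (the proved tops are `SupplyConstrTop.lean`).  No
`sorry`, nothing assumed.  ADDITIVE.  Vocabulary: the four cuts of `SupplySC` (same directory),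
`T7/H305/MatchSpec.lean` (helper305, sha256 541c6ac7fb6d: `pure305`, `LocHyp305`,
`GlobMatchC305`), byte-identical copies.

    supplySC_ofR893 : SetupRC K K' → ProjC K' → ProjC K → GlobMatchC305 K K' → AvgMatchC893 K K'
        → BaseC P K K' → (∀ κ, (∀ D μc T₀ n m, κ D μc T₀ n m ≠ 0) → ProdMtC K K' κ)
        → (the bookkeeping leaves of the second and third cut) → T7.SupplySC P K K'

## 0. CORRECTION of the first cut (additive): the ramified places

A test function downstairs whose level is trivial at a place `v` which RAMIFIES in `K'` cannot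
be matched with a non-zero spherical function upstairs (its traces on `π_v` and `π_v ⊗ χ`,
`χ` ramified, would agree).  So the base level must contain the ramified places:
`L2Base.RamIn B`.  `IsL2Base` does not say it; the SUPPLY chooses the common part, so the setup
is asked for it (`SetupRC`; the construction of helper644 gives it when the exceptional set is
enlarged by the ramified places) and the construction may use it (`ConstrRC`).  All other
leaves are unchanged (they hold for every common part).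

## 1. The relation of record `Mt893 κ`

`GlobMatchC305` (helper305) gives, for `(D, μc, T₀, n, m)`, a constant `κ ≠ 0` such that
locally matched PURE TENSORS `(pure305 T' φ₀ Φ, κ · pure305 T f₀ F)` are matched.  The families
of the supply are NOT pure tensors: the Eisenstein-killing functions are finite sums of pure
tensors, and the `♮`-average at infinity is an integral over a compact torus (a pure tensor at
infinity cannot kill all non-trivial characters of `A_∞ / ⟨r⟩ Λ` when there are at least two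
infinite places).  So the relation is the closure under AVERAGES over a compact parameter space
with a finite measure (`IsAvgPure`; finite sums are the case of a finite discrete space).

* **`AvgMatchC893 K K'`** (LEAF, analysis): `T7.IsGlobMatch` is closed under such averages.
* `globC_of893` (PROVED): `GoodKap893 κ → AvgMatchC893 → GlobC (Mt893 κ)`; `exists_goodKap893`
  (PROVED): `GlobMatchC305 → ∃ κ` good and nowhere zero.

## 2. The cut of the construction

* **`BaseC P K K'`** (NODE; T3 + T6 + `♮`): the level `𝔫`, a Haar measure `μc` of `GL₂(ℂ)`, and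
  for EVERY constant `a ≠ 0` pre-data `E` of level `𝔫` with the operator properties
  (`IsL2PreOp`), the supports (`IsL2PreSupp`) and the LOCAL SHAPE `IsDecomp893 μc a B g E`:
  the four base functions are averages of pure tensors with explicit local components
  (unit / Iwahori / double coset of `g` at the places of the level, spherical with Satake
  transforms related by base change outside, convolution products at infinity); `a` is the
  constant of `f₂`.
* **`ProdMtC K K' κ`** (NODE; the calculus of pure tensors): for the level `𝔫` and `μc` there is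
  a constant `a ≠ 0` such that for all pre-data of this level with the local shape for `a` the
  members `Φ₁ X ⋆ lsum Hg (regL … φ₂)`, `F₁ X ⋆ regL … f₂` are in the relation `Mt893 κ`.

FALSITY CHECKS (helper893).  (a) The constants: `conv μ'` of two pure tensors is `c'_G` times
the pure tensor of the local convolutions (normalised by `vol U(n_w) = 1`), the same
downstairs with `c_G`; at `u` the convolution product of the `ℓ` components upstairs is
`[I : U(m_u)]^{ℓ-1}` times the component downstairs; all constants are independent of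
`X, k, m` and of the parameter, and are absorbed in `a` (`a = κ c'_G / (c_G [I:U]^{ℓ-1})` up to
the conventions).  (b) At the places of the level the first pair has UNIT components
(`1_{U(n_w)}`, `1_{U(m_v)}`: the shape of `T3.M.pureFnM`), so the product with the second pair
has the components of the second pair.  (c) At the bad places the component downstairs of the
SECOND pair is a partner of the double coset function `1_{U₀ g_w U₀}` (the component upstairs
of `lsum Hg φ₂`), not of `1_{U₀}`.  (d) Outside the level the Satake transforms multiply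
(inert: `T6.IsBC` is multiplicative; split: the spherical Hecke algebra is commutative), at
infinity the bi-`U(2)`-invariant functions commute.  (e) `a = 0` is excluded only for
convenience.
-/

set_option autoImplicit false

open AutomorphicForm IsDedekindDomain NumberField MeasureTheory
open scoped ComplexConjugate

noncomputable section

namespace Fermat.Agent.LT.T7.H893

open Fermat.Agent.LT.H556 Fermat.Agent.LT.H556.A0 Fermat.Agent.LT.T7
open Fermat.Agent.LT.T7.H305

attribute [local instance] Fermat.Agent.LT.T5.instMeasurableSpaceG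

/-! ## 0. The ramified places -/

section Ram

variable {K K' : Type} [Field K] [NumberField K] [Field K'] [NumberField K'] [Algebra K K']

/-- Every place of `K'` outside `S'` is unramified over `K`. -/
def L2Base.RamIn (B : L2Base K K') : Prop :=
  ∀ (v : HeightOneSpectrum (𝓞 K)) (w : HeightOneSpectrum (𝓞 K')), PlaceOver K K' v w →
    w ∉ B.S' → ∃ x : 𝓞 K, x ∈ v.asIdeal ∧ algebraMap (𝓞 K) (𝓞 K') x ∉ w.asIdeal ^ 2

end Ram

section RamNodes

variable (P : EKCond)
variable (K K' : Type) [Field K] [NumberField K] [Field K'] [NumberField K'] [Algebra K K']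

/-- **LEAF T7.L2.1.C0R = SETUP with the ramified places.**  As `SetupC`, and the base level
contains the places which ramify in `K'` (enlarge the exceptional set of `ConstOnFibres` by the
finitely many ramified places; `exists_setupNT644` of helper644 takes any finite set). -/
def SetupRC : Prop :=
  ∀ ℓ : ℕ, IsCycExt K K' ℓ → ℓ ≠ 2 → TotCplx K →
    ∀ Φ : HeckeEigensystem K' ℂ, A0.IsCuspAdelicSph0 K' Φ → ConstOnFibres K Φ →
      ∃ B : L2Base K K', IsL2Base ℓ Φ B ∧ B.RamIn

/-- **NODE T7.L2.1.H2R = CONSTR** for the common parts which contain the ramified places. -/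
def ConstrRC (Mt : MtRel K K') : Prop :=
  ∀ ℓ : ℕ, IsCycExt K K' ℓ → ℓ ≠ 2 → TotCplx K →
    ∀ Φ : HeckeEigensystem K' ℂ, A0.IsCuspAdelicSph0 K' Φ → ConstOnFibres K Φ → P K' Φ →
      ∀ B : L2Base K K', IsL2Base ℓ Φ B → B.RamIn → ∀ g : G K', B.IsBad g →
        ∃ E : L2Pre K K', IsL2PreOp ℓ Φ B g E ∧ IsL2PreSupp ℓ B E ∧
          ∀ (X : List (Gen K')) (k : ℤ) (m : ℕ), (∀ x ∈ X, x.Out B.S') →
            Mt B E.𝔫 (E.up B X k m) (E.down B X k m)

end RamNodes

/-! ## 1. Averages of pure tensors, the relation of record -/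

section Avg

variable (K K' : Type) [Field K] [NumberField K] [Field K'] [NumberField K'] [Algebra K K']

/-- The type of the local conditions on the components of a pair of pure tensors. -/
abbrev LocCond : Type :=
  Finset (HeightOneSpectrum (𝓞 K)) →
    (∀ w : HeightOneSpectrum (𝓞 K'), GL (Fin 2) (w.adicCompletion K') → ℂ) →
    (InfinitePlace K' → GL (Fin 2) ℂ → ℂ) →
    (∀ v : HeightOneSpectrum (𝓞 K), GL (Fin 2) (v.adicCompletion K) → ℂ) →
    (InfinitePlace K → GL (Fin 2) ℂ → ℂ) → Prop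

/-- The type of the constants of the matching theorem. -/
abbrev KapFn : Type :=
  CompData K K' → @Measure (GL (Fin 2) ℂ) (borel _) → Finset (HeightOneSpectrum (𝓞 K)) →
    (HeightOneSpectrum (𝓞 K') → ℕ) → (HeightOneSpectrum (𝓞 K) → ℕ) → ℂ

variable {K K'}

/-- **AVERAGE OF PURE TENSORS.**  `φ'` (over `K'`) and `f` (over `K`) are the integrals over a
compact (Hausdorff, second countable) parameter space `Ω` with a finite measure `ν` of pure
tensors `pure305 (T' a) …`, resp.
`c · pure305 (T a) …`, whose components satisfy the local condition `L` for every parameter;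
every member is a test function of the level, the members are jointly continuous and supported
in one compact set. -/
def IsAvgPure (𝔑 : Ideal (𝓞 K')) (𝔫 : Ideal (𝓞 K)) (T₀ : Finset (HeightOneSpectrum (𝓞 K)))
    (L : LocCond K K') (c : ℂ) (φ' : G K' → ℂ) (f : G K → ℂ) : Prop :=
  ∃ (Ω : Type) (_ : TopologicalSpace Ω) (_ : CompactSpace Ω) (_ : T2Space Ω)
    (_ : SecondCountableTopology Ω) (_ : MeasurableSpace Ω)
    (_ : BorelSpace Ω) (ν : Measure Ω) (_ : IsFiniteMeasure ν)
    (T : Ω → Finset (HeightOneSpectrum (𝓞 K))) (T' : Ω → Finset (HeightOneSpectrum (𝓞 K')))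
    (φ₀ : Ω → ∀ w : HeightOneSpectrum (𝓞 K'), GL (Fin 2) (w.adicCompletion K') → ℂ)
    (Φ : Ω → InfinitePlace K' → GL (Fin 2) ℂ → ℂ)
    (f₀ : Ω → ∀ v : HeightOneSpectrum (𝓞 K), GL (Fin 2) (v.adicCompletion K) → ℂ)
    (F : Ω → InfinitePlace K → GL (Fin 2) ℂ → ℂ),
    (∀ a : Ω, T₀ ⊆ T a ∧ IsOver305 (T a) (T' a) ∧ L (T a) (φ₀ a) (Φ a) (f₀ a) (F a)) ∧
    (∀ a : Ω, T5.IsTestFn 𝔑 T5.trivType (pure305 (T' a) (φ₀ a) (Φ a))) ∧
    (∀ a : Ω, T5.IsTestFn 𝔫 T5.trivType (fun h => c * pure305 (T a) (f₀ a) (F a) h)) ∧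
    Continuous (fun p : Ω × G K' => pure305 (T' p.1) (φ₀ p.1) (Φ p.1) p.2) ∧
    Continuous (fun p : Ω × G K => c * pure305 (T p.1) (f₀ p.1) (F p.1) p.2) ∧
    (∃ C : Set (G K'), IsCompact C ∧
      ∀ (a : Ω) (h : G K'), pure305 (T' a) (φ₀ a) (Φ a) h ≠ 0 → h ∈ C) ∧
    (∃ C : Set (G K), IsCompact C ∧
      ∀ (a : Ω) (h : G K), pure305 (T a) (f₀ a) (F a) h ≠ 0 → h ∈ C) ∧
    (∀ h : G K', φ' h = ∫ a, pure305 (T' a) (φ₀ a) (Φ a) h ∂ν) ∧
    ∀ h : G K, f h = ∫ a, c * pure305 (T a) (f₀ a) (F a) h ∂ν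

/-- **THE RELATION OF RECORD**: averages of locally matched pure tensors (local matching in the
form of T6: `H305.LocHyp305`), with the constant `κ` of the matching theorem downstairs. -/
def Mt893 (κ : KapFn K K') : MtRel K K' := fun B 𝔫 φ' f =>
  ∃ (μc : @Measure (GL (Fin 2) ℂ) (borel _)) (T₀ : Finset (HeightOneSpectrum (𝓞 K)))
    (n : HeightOneSpectrum (𝓞 K') → ℕ) (m : HeightOneSpectrum (𝓞 K) → ℕ),
    @Measure.IsHaarMeasure _ _ _ (borel _) μc ∧ UnramOut305 (K' := K') T₀ ∧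
      IsLevelAt305 T₀ n m ∧
      IsAvgPure (upI (K' := K') 𝔫) 𝔫 T₀
        (fun T φ₀ Φ f₀ F => LocHyp305 (B.comp 𝔫) μc T n m φ₀ Φ f₀ F)
        (κ (B.comp 𝔫) μc T₀ n m) φ' f

/-- `κ` is a family of constants of the matching theorem (`GlobMatchC305` with the constant
chosen). -/
def GoodKap893 (κ : KapFn K K') : Prop :=
  ∀ D : CompData K K', IsCompData D → IsCycExt K K' D.l → D.l ≠ 2 → TotCplx K →
    ∀ μc : @Measure (GL (Fin 2) ℂ) (borel _), @Measure.IsHaarMeasure _ _ _ (borel _) μc →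
    ∀ (T₀ : Finset (HeightOneSpectrum (𝓞 K))), UnramOut305 (K' := K') T₀ →
    ∀ (n : HeightOneSpectrum (𝓞 K') → ℕ) (m : HeightOneSpectrum (𝓞 K) → ℕ),
      IsLevelAt305 T₀ n m →
      ∀ (T : Finset (HeightOneSpectrum (𝓞 K))) (T' : Finset (HeightOneSpectrum (𝓞 K'))),
        T₀ ⊆ T → IsOver305 T T' →
      ∀ (φ₀ : ∀ w : HeightOneSpectrum (𝓞 K'), GL (Fin 2) (w.adicCompletion K') → ℂ)
        (Φ : InfinitePlace K' → GL (Fin 2) ℂ → ℂ)
        (f₀ : ∀ v : HeightOneSpectrum (𝓞 K), GL (Fin 2) (v.adicCompletion K) → ℂ)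
        (F : InfinitePlace K → GL (Fin 2) ℂ → ℂ),
        LocHyp305 D μc T n m φ₀ Φ f₀ F →
        ∀ (φ' : G K' → ℂ) (f : G K → ℂ),
          (∀ h : G K', φ' h = pure305 T' φ₀ Φ h) →
          (∀ h : G K, f h = κ D μc T₀ n m * pure305 T f₀ F h) →
          T5.IsTestFn D.𝔑 T5.trivType φ' → T5.IsTestFn D.𝔫 T5.trivType f →
          IsGlobMatch D φ' f

variable (K K')

/-- **LEAF T7.L2.1.H1b = AVG-MATCH (analysis; closure of the matching under averages).**
Let `(φs a, fs a)`, `a ∈ Ω` (compact, Hausdorff, second countable, finite measure `ν`), be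
MATCHED pairs of test functions,
jointly continuous in `(a, h)` and supported in one compact set.  Then the averages
`(∫ φs a dν, ∫ fs a dν)` are matched.
Proof.  `twTerm` of the average is the average of the `twTerm`s (for fixed `x` the sum over the
ray is finite, uniformly in `a`); Fubini on `F_δ × Ω`: the integrand is dominated by
`M · twTerm(1_C)`, `C` compact, and the orbital integral of `1_C` at an elliptic regular
element converges (`1_C` is dominated by a non-negative pure tensor; the `σ`-conjugacy class of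
`δ` is closed, `T(K) ⟨r⟩ \ T_𝔸` is compact: `H305.UnfoldC305`, `T6.OrbSumExC`,
`T6.OrbSumIntC`; kit of helper584 `T7/H584/{Cutoff,UnfoldAbs}.lean`, helper947).  Finite sums
are the case of a finite discrete `Ω`. -/
def AvgMatchC893 : Prop :=
  ∀ D : CompData K K', IsCompData D → IsCycExt K K' D.l → D.l ≠ 2 → TotCplx K →
    ∀ (Ω : Type) (_ : TopologicalSpace Ω) (_ : CompactSpace Ω) (_ : T2Space Ω)
      (_ : SecondCountableTopology Ω) (_ : MeasurableSpace Ω)
      (_ : BorelSpace Ω) (ν : Measure Ω) (_ : IsFiniteMeasure ν)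
      (φs : Ω → G K' → ℂ) (fs : Ω → G K → ℂ),
      (∀ a : Ω, T5.IsTestFn D.𝔑 T5.trivType (φs a)) →
      (∀ a : Ω, T5.IsTestFn D.𝔫 T5.trivType (fs a)) →
      Continuous (fun p : Ω × G K' => φs p.1 p.2) →
      Continuous (fun p : Ω × G K => fs p.1 p.2) →
      (∃ C : Set (G K'), IsCompact C ∧ ∀ (a : Ω) (h : G K'), φs a h ≠ 0 → h ∈ C) →
      (∃ C : Set (G K), IsCompact C ∧ ∀ (a : Ω) (h : G K), fs a h ≠ 0 → h ∈ C) →
      (∀ a : Ω, IsGlobMatch D (φs a) (fs a)) →
      IsGlobMatch D (fun h => ∫ a, φs a h ∂ν) (fun h => ∫ a, fs a h ∂ν)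

end Avg

/-! ## 2. The local shape of the pre-data -/

section Local

variable {k : Type} [Field k] [Valued k T6.Γ₀]

open Classical in
/-- The indicator function of the principal congruence subgroup `U(n)` of `GL₂(k)` (the unit of
the Hecke algebra of level `n` for `vol U(n) = 1`). -/
def unitFn893 (n : ℕ) : GL (Fin 2) k → ℂ := fun x => if T6.InU n x then 1 else 0

/-- The Iwahori subgroup of `GL₂(k)` (integral, integral inverse, lower left entry in the
maximal ideal): the local form of `T5.InIwahori`. -/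
def InIw893 (x : GL (Fin 2) k) : Prop :=
  (∀ i j : Fin 2, Valued.v ((x : Matrix (Fin 2) (Fin 2) k) i j) ≤ 1) ∧
    (∀ i j : Fin 2, Valued.v (((x⁻¹ : GL (Fin 2) k) : Matrix (Fin 2) (Fin 2) k) i j) ≤ 1) ∧
    Valued.v ((x : Matrix (Fin 2) (Fin 2) k) 1 0) < 1

open Classical in
/-- The indicator function of the Iwahori subgroup. -/
def iwFn893 : GL (Fin 2) k → ℂ := fun x => if InIw893 x then 1 else 0

open Classical in
/-- The indicator function of the double coset `U(n) y U(n)`. -/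
def dblFn893 (n : ℕ) (y : GL (Fin 2) k) : GL (Fin 2) k → ℂ := fun x =>
  if ∃ u₁ u₂ : GL (Fin 2) k, T6.InU n u₁ ∧ T6.InU n u₂ ∧ x = u₁ * y * u₂ then 1 else 0

/-- The Satake transform of a spherical function given by its values on the Cartan
invariants. -/
def satT893 (q : ℕ) (A : (ℤ × ℤ) →₀ ℂ) (x y : ℂ) : ℂ :=
  A.sum fun lam c => c * T6.satake q lam x y

/-- `φ` is the spherical function with the values `A` on the Cartan invariants. -/
def IsSphFn893 (φ : GL (Fin 2) k → ℂ) (A : (ℤ × ℤ) →₀ ℂ) : Prop :=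
  T6.IsDominant A ∧ ∀ x : GL (Fin 2) k, φ x = A (T6.cartan x)

end Local

section Shape

variable {K K' : Type} [Field K] [NumberField K] [Field K'] [NumberField K'] [Algebra K K']

/-- `m v` is the exponent of the level `𝔫` at `v`: the closure of `𝔫` in `K_v` is the ball of
radius `exp (- m v)`. -/
def IsLevelOf893 {F : Type} [Field F] [NumberField F] (𝔫 : Ideal (𝓞 F))
    (m : HeightOneSpectrum (𝓞 F) → ℕ) : Prop :=
  ∀ (v : HeightOneSpectrum (𝓞 F)) (x : v.adicCompletion F),
    x ∈ idealClosure 𝔫 v ↔ Valued.v x ≤ WithZero.exp (-(m v : ℤ))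

/-- **The components OUTSIDE THE LEVEL are spherical and matched** (Satake form).  At a place
`v ∈ T`, `v ∉ T₀` (unramified in `K'`): the components are spherical functions; if `v` is inert
the Satake transforms are related by the base change `T6.IsBC`; if `v` splits the Satake
transform downstairs is the product of the Satake transforms upstairs. -/
def SphOut893 (ℓ : ℕ) (T₀ T : Finset (HeightOneSpectrum (𝓞 K)))
    (φ₀ : ∀ w : HeightOneSpectrum (𝓞 K'), GL (Fin 2) (w.adicCompletion K') → ℂ)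
    (f₀ : ∀ v : HeightOneSpectrum (𝓞 K), GL (Fin 2) (v.adicCompletion K) → ℂ) : Prop :=
  ∀ v ∈ T, v ∉ T₀ →
    ∃ (A : HeightOneSpectrum (𝓞 K') → (ℤ × ℤ) →₀ ℂ) (Av : (ℤ × ℤ) →₀ ℂ),
      IsSphFn893 (f₀ v) Av ∧
      (∀ w : HeightOneSpectrum (𝓞 K'), PlaceOver K K' v w → IsSphFn893 (φ₀ w) (A w)) ∧
      (∀ w : HeightOneSpectrum (𝓞 K'), PlaceOver K K' v w →
        (∀ w' : HeightOneSpectrum (𝓞 K'), PlaceOver K K' v w' → w' = w) →
        T6.IsBC ℓ (Ideal.absNorm v.asIdeal) (A w) Av) ∧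
      ∀ w : ℕ → HeightOneSpectrum (𝓞 K'), (∀ j : ℕ, PlaceOver K K' v (w j)) →
        (∀ j j' : ℕ, j < ℓ → j' < ℓ → w j = w j' → j = j') →
        ∀ x y : ℂ, x ≠ 0 → y ≠ 0 →
          satT893 (Ideal.absNorm v.asIdeal) Av x y
            = ∏ j ∈ Finset.range ℓ, satT893 (Ideal.absNorm v.asIdeal) (A (w j)) x y

/-- **The components AT INFINITY**: continuous, compact support, bi-invariant under `U(2)`,
matched (the clauses `arch_up`, `arch_down`, `arch` of `H305.LocHyp305`, which is asked for the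
empty set of finite places). -/
def ArchOk893 (D : CompData K K') (μc : @Measure (GL (Fin 2) ℂ) (borel _))
    (n : HeightOneSpectrum (𝓞 K') → ℕ) (m : HeightOneSpectrum (𝓞 K) → ℕ)
    (φ₀ : ∀ w : HeightOneSpectrum (𝓞 K'), GL (Fin 2) (w.adicCompletion K') → ℂ)
    (Φ : InfinitePlace K' → GL (Fin 2) ℂ → ℂ)
    (f₀ : ∀ v : HeightOneSpectrum (𝓞 K), GL (Fin 2) (v.adicCompletion K) → ℂ)
    (F : InfinitePlace K → GL (Fin 2) ℂ → ℂ) : Prop :=
  LocHyp305 D μc ∅ n m φ₀ Φ f₀ F ∧
    (∀ (w : InfinitePlace K') (k₁ k₂ g : GL (Fin 2) ℂ),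
      (k₁ : Matrix (Fin 2) (Fin 2) ℂ) * (k₁ : Matrix (Fin 2) (Fin 2) ℂ).conjTranspose = 1 →
      (k₂ : Matrix (Fin 2) (Fin 2) ℂ) * (k₂ : Matrix (Fin 2) (Fin 2) ℂ).conjTranspose = 1 →
      Φ w (k₁ * g * k₂) = Φ w g) ∧
    ∀ (v : InfinitePlace K) (k₁ k₂ g : GL (Fin 2) ℂ),
      (k₁ : Matrix (Fin 2) (Fin 2) ℂ) * (k₁ : Matrix (Fin 2) (Fin 2) ℂ).conjTranspose = 1 →
      (k₂ : Matrix (Fin 2) (Fin 2) ℂ) * (k₂ : Matrix (Fin 2) (Fin 2) ℂ).conjTranspose = 1 →
      F v (k₁ * g * k₂) = F v g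

/-- **THE LOCAL SHAPE OF THE FIRST PAIR** `(Φ₁ X, F₁ X)`: UNIT components at the places of the
level, spherical matched components outside, matched components at infinity. -/
def LocA893 (B : L2Base K K') (𝔫 : Ideal (𝓞 K)) (μc : @Measure (GL (Fin 2) ℂ) (borel _))
    (T₀ : Finset (HeightOneSpectrum (𝓞 K)))
    (n : HeightOneSpectrum (𝓞 K') → ℕ) (m : HeightOneSpectrum (𝓞 K) → ℕ) : LocCond K K' :=
  fun T φ₀ Φ f₀ F =>
    (∀ v ∈ T₀, f₀ v = unitFn893 (m v)) ∧
    (∀ v ∈ T₀, ∀ w : HeightOneSpectrum (𝓞 K'), PlaceOver K K' v w → φ₀ w = unitFn893 (n w)) ∧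
    SphOut893 B.l T₀ T φ₀ f₀ ∧ ArchOk893 (B.comp 𝔫) μc n m φ₀ Φ f₀ F

open Classical in
/-- **THE LOCAL SHAPE OF THE SECOND PAIR** `(φ₂, f₂)` for the bad element `g`.
* bad places `v ∈ T₀`, `v ≠ u`: upstairs the unit `1_{U₀}` of the BASE level (`n₀`);
  downstairs a PARTNER of the double coset function `1_{U₀ g_w U₀}` (the clauses of
  `H305.LocHyp305` for the set `T₀ ∖ {u}` and the double coset functions upstairs);
* the place `u` and its orbit: the indicator functions of the Iwahori subgroups;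
* outside the level and at infinity: as for the first pair. -/
def LocB893 (B : L2Base K K') (g : G K') (𝔫 : Ideal (𝓞 K))
    (μc : @Measure (GL (Fin 2) ℂ) (borel _)) (T₀ : Finset (HeightOneSpectrum (𝓞 K)))
    (n n₀ : HeightOneSpectrum (𝓞 K') → ℕ) (m : HeightOneSpectrum (𝓞 K) → ℕ) : LocCond K K' :=
  fun T φ₀ Φ f₀ F =>
    LocHyp305 (B.comp 𝔫) μc (T₀.erase B.u) n m
      (fun w => dblFn893 (n₀ w) (finGL305 w g)) Φ f₀ F ∧
    (∀ v ∈ T₀, v ≠ B.u → ∀ w : HeightOneSpectrum (𝓞 K'), PlaceOver K K' v w →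
      φ₀ w = unitFn893 (n₀ w)) ∧
    f₀ B.u = iwFn893 ∧
    (∀ w : HeightOneSpectrum (𝓞 K'), PlaceOver K K' B.u w → φ₀ w = iwFn893) ∧
    SphOut893 B.l T₀ T φ₀ f₀ ∧ ArchOk893 (B.comp 𝔫) μc n m φ₀ Φ f₀ F

/-- **THE LOCAL SHAPE OF THE PRE-DATA** (for the Haar measure `μc` of `GL₂(ℂ)` and the constant
`a` of `f₂`). -/
def IsDecomp893 (μc : @Measure (GL (Fin 2) ℂ) (borel _)) (a : ℂ) (B : L2Base K K') (g : G K')
    (E : L2Pre K K') : Prop :=
  ∃ (T₀ : Finset (HeightOneSpectrum (𝓞 K)))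
    (n n₀ : HeightOneSpectrum (𝓞 K') → ℕ) (m : HeightOneSpectrum (𝓞 K) → ℕ),
    (∀ v : HeightOneSpectrum (𝓞 K), v ∈ T₀ ↔ v.asIdeal ∣ E.𝔫) ∧
    IsLevelOf893 E.𝔫 m ∧ IsLevelOf893 (upI (K' := K') E.𝔫) n ∧ IsLevelOf893 B.𝔑₀ n₀ ∧
    (∀ X : List (Gen K'), (∀ x ∈ X, x.Out B.S') →
      IsAvgPure (upI (K' := K') E.𝔫) E.𝔫 T₀ (LocA893 B E.𝔫 μc T₀ n m) 1 (E.Φ₁ X) (E.F₁ X)) ∧
    IsAvgPure (upI (K' := K') E.𝔫) E.𝔫 T₀ (LocB893 B g E.𝔫 μc T₀ n n₀ m) a E.φ₂ E.f₂

end Shape

/-! ## 3. The nodes of the fifth cut -/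

section Nodes

variable (P : EKCond)
variable (K K' : Type) [Field K] [NumberField K] [Field K'] [NumberField K'] [Algebra K K']

/-- **NODE T7.L2.1.H2a = BASE (T3 + T6 + `♮`; existence).**  For a common part which contains
the ramified places and one bad element `g`: a level `𝔫` and a Haar measure `μc` of `GL₂(ℂ)`
such that for EVERY constant `a ≠ 0` there are pre-data of level `𝔫` with the operator
properties, the supports and the local shape.
Construction.  `𝔫 = 𝔫₀ ^ d`, `d` so large that the partners `f_v` of `1_{U₀ g_w U₀}` at the bad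
places (`T6.BadMatchC`, closed; split bad places: convolution products) are bi-invariant under
`U(𝔫)_v`.  Eisenstein-killing datum for `𝔑 = 𝔫 𝒪_{K'}` and `S'` from `P = T7.ekMulti`
(`T7.GoodEKM`), downstairs the norm datum.  `Φ₁ X`: the word `X` applied to the
Eisenstein-killing function of T3 (`T3.M`, closed station of helper14: finite sum of
`pureFnM`, unit components at the level); `F₁ X`: the components downstairs are the base change
(`T6.BCExistsC`) resp. the convolution products of the components upstairs; `φ₂`: the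
`♮`-average (finite group `H / U(𝔑)` and the torus `A_∞ / ⟨r⟩ Λ`: kit of helper40,
`T7/H40/ProjClosed.lean`) of an Eisenstein-killing function; `f₂`: `a` times the function with
the partners at the bad places, the Iwahori function at `u`, the base change outside, the
push-forward average at infinity.  Eisenstein-killing downstairs: the Abel transform of the base
change is the push-forward of the Abel transform under the norm, the ray sums vanish again
(or: `f ⋆ T` and `T ⋆ f` are Eisenstein-killing with Eisenstein-killing adjoints when `f` is). -/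
def BaseC : Prop :=
  ∀ ℓ : ℕ, IsCycExt K K' ℓ → ℓ ≠ 2 → TotCplx K →
    ∀ Φ : HeckeEigensystem K' ℂ, A0.IsCuspAdelicSph0 K' Φ → ConstOnFibres K Φ → P K' Φ →
      ∀ B : L2Base K K', IsL2Base ℓ Φ B → B.RamIn → ∀ g : G K', B.IsBad g →
        ∃ (𝔫 : Ideal (𝓞 K)) (μc : @Measure (GL (Fin 2) ℂ) (borel _)),
          @Measure.IsHaarMeasure _ _ _ (borel _) μc ∧
          ∀ a : ℂ, a ≠ 0 → ∃ E : L2Pre K K', E.𝔫 = 𝔫 ∧
            IsL2PreOp ℓ Φ B g E ∧ IsL2PreSupp ℓ B E ∧ IsDecomp893 μc a B g E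

/-- **NODE T7.L2.1.H2b = PROD-MT (the calculus of pure tensors).**  For a common part which
contains the ramified places, a bad element, a level and a Haar measure of `GL₂(ℂ)` there is a
constant `a ≠ 0` such that for all pre-data of this level with the operator properties and the
local shape for `a` the members of the families are in the relation `Mt893 κ`.
Proof.  `conv` of two pure tensors is a constant times the pure tensor of the local
convolutions (splitting of the Haar measure: helper947 `AdelicSplit`, helper719 `ProdHaarM`);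
`lsum Hg`, `ltr`, `iwL` of a pure tensor with unit / Iwahori components at the level is the
pure tensor with the components `1_{U₀ g_w U₀}`, `q^{-m/2} 1_{z^k I t^m I}`; Fubini for the
parameters; the local conditions `LocHyp305` of the products: unit times partner at the bad
places, `T6.SplitMatchC`-form at `u` (Iwahori–Hecke algebra) and at the split places,
`T6.FundLemmaC` + multiplicativity of the Satake transform at the inert places,
commutativity of the bi-`U(2)`-invariant functions at infinity; `UnramOut305 T₀` from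
`RamIn`. -/
def ProdMtC (κ : KapFn K K') : Prop :=
  ∀ ℓ : ℕ, IsCycExt K K' ℓ → ℓ ≠ 2 → TotCplx K →
    ∀ (Φ : HeckeEigensystem K' ℂ) (B : L2Base K K'), IsL2Base ℓ Φ B → B.RamIn →
    ∀ g : G K', B.IsBad g →
    ∀ (𝔫 : Ideal (𝓞 K)) (μc : @Measure (GL (Fin 2) ℂ) (borel _)),
      @Measure.IsHaarMeasure _ _ _ (borel _) μc →
      ∃ a : ℂ, a ≠ 0 ∧
        ∀ E : L2Pre K K', E.𝔫 = 𝔫 → IsL2PreOp ℓ Φ B g E → IsDecomp893 μc a B g E →
          ∀ (X : List (Gen K')) (k : ℤ) (m : ℕ), (∀ x ∈ X, x.Out B.S') →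
            Mt893 κ B 𝔫 (E.up B X k m) (E.down B X k m)

end Nodes

end Fermat.Agent.LT.T7.H893

end

end
-- ===== PACK-END LT/T7/H893/SupplyConstrSpec.lean

-- ===== PACK-BEGIN LT/T7/H193/NatTools.lean
section





/-!
# Row LT, tower T7, node T7.L2.1 `SupplyC`: TOOLS for the construction (sub-architect helper193)

OFF-MAIN.  Complete proofs, nothing assumed; the only hypothesis is the output `T1.T1Out K` of
the closed tower T1.

* `killing_of_torus193`: THE KILLING TOOL, PARAMETRIC in the torus data `(a, D)` (so that the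
  compatible data of `RelTorusC` can be used upstairs and downstairs): for an Eisenstein-killing
  test function `φ₀` which is bi-invariant under `U(𝔑₀)` and the Iwahori subgroups along the
  orbit, `nat193 a D φ₀` has the same properties, the same action on the functions invariant
  under the positive scalars at infinity, and KILLS the cusp functions orthogonal to the
  invariant ones (the fields `up2_*` / `dn2_*` of `H893.IsL2PreOp`).
* `nat193` and `trl193` commute with the operations `H893.ltr`, `H893.lsum`, `H893.iwL`,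
  `H893.regL` and with the convolution: the families of helper893 built on `nat193 a D φ₀` are
  the torus means of the families built on `φ₀`:

      up_nat193 : conv μ Φ₁ (lsum Hg (regL w z H k m (nat193 a D φ₀)))
                    = nat193 a D (conv μ Φ₁ (lsum Hg (regL w z H k m φ₀)))
      up_trl193 : conv μ Φ₁ (lsum Hg (regL w z H k m (trl193 c φ₀)))
                    = trl193 c (conv μ Φ₁ (lsum Hg (regL w z H k m φ₀)))
-/

set_option autoImplicit false

open IsDedekindDomain NumberField MeasureTheory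
open scoped ComplexConjugate

noncomputable section

namespace Fermat.Agent.LT.T7.H193

open Fermat.Agent.LT.H556 Fermat.Agent.LT.H556.A0 Fermat.Agent.LT

attribute [local instance] Fermat.Agent.LT.T5.instMeasurableSpaceG

variable {K : Type} [Field K] [NumberField K]

/-! ## 1. The killing tool, parametric in the torus data -/

/-- **THE KILLING TOOL, parametric in `(a, D)`.** -/
theorem killing_of_torus193 (hT1 : T1.T1Out K) (R : Frame5 K)
    (hR : IsFrame5 R) (𝔑 𝔑₀ : Ideal (𝓞 K)) (h𝔑 : 𝔑 ≠ ⊥) (hle : 𝔑 ≤ 𝔑₀) (l : ℕ)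
    (o : ℕ → HeightOneSpectrum (𝓞 K))
    {a : (InfinitePlace K → ℝ) → G K} {D : Set (InfinitePlace K → ℝ)}
    (hD : IsTorusData 𝔑₀ R.r a D) (φ₀ : G K → ℂ)
    (htest : T5.IsTestFn 𝔑 T5.trivType φ₀) (hek : T5.IsEK R.μ φ₀)
    (hadj : T5.IsEK R.μ (T5.adjointFn φ₀)) (hinv : IsBiHInv 𝔑₀ l o φ₀) :
    T5.IsTestFn 𝔑 T5.trivType (nat193 a D φ₀) ∧ T5.IsEK R.μ (nat193 a D φ₀) ∧
      T5.IsEK R.μ (T5.adjointFn (nat193 a D φ₀)) ∧ IsBiHInv 𝔑₀ l o (nat193 a D φ₀) ∧
      (∀ e : G K → ℂ, Continuous e →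
        (∀ (w : InfinitePlace K) (z : G K), IsArchPosScalar w z →
          ∀ g : G K, e (g * z) = e g) →
        ∀ x : G K, T5.Rconv R.μ (nat193 a D φ₀) e x = T5.Rconv R.μ φ₀ e x) ∧
      ∀ ψ : G K → ℂ, T5.IsCuspFn 𝔑 T5.trivType R.r ψ →
        (∀ χ : G K → ℂ, IsWFn 𝔑₀ R.r l o χ → T5.innerD R.μ R.F ψ χ = 0) →
        ∀ x : G K, T5.Rconv R.μ (nat193 a D φ₀) ψ x = 0 := by
  have L := projLeaves193 K
  have N := natLeaves193 K
  have ht : T5.IsTestFn 𝔑 T5.trivType (nat193 a D φ₀) := isTestFn_nat193 hT1 N hD htest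
  have hr : IsRightHInv 𝔑₀ l o (nat193 a D φ₀) :=
    N.hInv 𝔑₀ R.r a D hD 𝔑₀ l o φ₀ (isRightHInv_of_biHInv193 hinv)
  have hbi : IsBiHInv 𝔑₀ l o (nat193 a D φ₀) :=
    ⟨fun u hu y => ⟨nat_left_inv193 a D (fun y => (hinv.1 u hu y).1) y, hr.1 u hu y⟩,
      fun h h1 h2 h3 y =>
        ⟨nat_left_inv193 a D (fun y => (hinv.2 h h1 h2 h3 y).1) y, hr.2 h ⟨h1, h2, h3⟩ y⟩⟩
  have habs : AbsorbsPos R.μ 𝔑₀ R.r (nat193 a D φ₀) :=
    N.absorb hT1 N.op R hR 𝔑₀ a D hD φ₀ htest.cont htest.supp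
  refine ⟨ht, N.ek hT1 N.op R hR 𝔑₀ R.r a D hD φ₀ htest.cont htest.supp hek,
    N.adjEK hT1 R hR 𝔑₀ R.r a D hD φ₀ htest.cont htest.supp hadj, hbi, ?_, ?_⟩
  · intro e he hi x
    rw [N.op hT1 R hR 𝔑₀ R.r a D hD φ₀ htest.cont htest.supp e he x]
    have hfix : torAvg a D e = e := funext fun g => N.fix 𝔑₀ R.r a D hD e hi g
    rw [hfix]
  · exact kill193 hT1 L (killLeaves193 K) R hR 𝔑 𝔑₀ h𝔑 hle l o _ ht.cont ht.supp hr habs

/-! ## 2. Translates and torus means commute with the operations of the families -/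

/-- A continuous function is integrable on a bounded measurable set of `ℝ^ι`. -/
theorem integrableOn_of_continuous193 {ι : Type} [Fintype ι] {g : (ι → ℝ) → ℂ}
    (hg : Continuous g) {D : Set (ι → ℝ)} (hDb : Bornology.IsBounded D) :
    IntegrableOn g D volume :=
  (hg.continuousOn.integrableOn_compact hDb.isCompact_closure).mono_set subset_closure

theorem trl_ltr193 (c b : G K) (φ : G K → ℂ) :
    trl193 c (H893.ltr b φ) = H893.ltr b (trl193 c φ) := by
  funext g
  show φ (b⁻¹ * (g * c⁻¹)) = φ (b⁻¹ * g * c⁻¹)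
  rw [mul_assoc]

theorem trl_lsum193 (c : G K) (H : Finset (G K)) (φ : G K → ℂ) :
    trl193 c (H893.lsum H φ) = H893.lsum H (trl193 c φ) := by
  funext g
  show ∑ h ∈ H, φ (h⁻¹ * (g * c⁻¹)) = ∑ h ∈ H, φ (h⁻¹ * g * c⁻¹)
  simp only [mul_assoc]

theorem trl_iwL193 (c : G K) (w : HeightOneSpectrum (𝓞 K)) (H : Finset (G K)) (φ : G K → ℂ) :
    trl193 c (H893.iwL w H φ) = H893.iwL w H (trl193 c φ) := by
  funext g
  show _ * ∑ h ∈ H, φ (h⁻¹ * (g * c⁻¹)) = _ * ∑ h ∈ H, φ (h⁻¹ * g * c⁻¹)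
  simp only [mul_assoc]

theorem trl_iwL_iter193 (c : G K) (w : HeightOneSpectrum (𝓞 K)) (H : Finset (G K)) (m : ℕ)
    (φ : G K → ℂ) :
    trl193 c ((H893.iwL w H)^[m] φ) = (H893.iwL w H)^[m] (trl193 c φ) := by
  induction m with
  | zero => rfl
  | succ m ih =>
    rw [Function.iterate_succ_apply', Function.iterate_succ_apply', trl_iwL193, ih]

theorem trl_regL193 (c : G K) (w : HeightOneSpectrum (𝓞 K)) (z : G K) (H : Finset (G K))
    (k : ℤ) (m : ℕ) (φ : G K → ℂ) :
    trl193 c (H893.regL w z H k m φ) = H893.regL w z H k m (trl193 c φ) := by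
  unfold H893.regL
  rw [trl_ltr193, trl_iwL_iter193]

theorem trl_conv193 (μ : Measure (G K)) (c : G K) (φ₁ φ₂ : G K → ℂ) :
    T5.conv μ φ₁ (trl193 c φ₂) = trl193 c (T5.conv μ φ₁ φ₂) := by
  funext g
  show ∫ y, φ₁ y * φ₂ (y⁻¹ * g * c⁻¹) ∂μ = ∫ y, φ₁ y * φ₂ (y⁻¹ * (g * c⁻¹)) ∂μ
  simp only [mul_assoc]

/-- The member of the family upstairs built on a translate is the translate of the member. -/
theorem up_trl193 (μ : Measure (G K)) (c : G K) (Φ₁ : G K → ℂ) (Hg : Finset (G K))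
    (w : HeightOneSpectrum (𝓞 K)) (z : G K) (H : Finset (G K)) (k : ℤ) (m : ℕ) (φ₀ : G K → ℂ) :
    T5.conv μ Φ₁ (H893.lsum Hg (H893.regL w z H k m (trl193 c φ₀)))
      = trl193 c (T5.conv μ Φ₁ (H893.lsum Hg (H893.regL w z H k m φ₀))) := by
  rw [← trl_regL193, ← trl_lsum193, trl_conv193]

/-- The member of the family downstairs built on a translate is the translate of the member. -/
theorem down_trl193 (μ : Measure (G K)) (c : G K) (F₁ : G K → ℂ)
    (w : HeightOneSpectrum (𝓞 K)) (z : G K) (H : Finset (G K)) (k : ℤ) (m : ℕ) (f₀ : G K → ℂ) :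
    T5.conv μ F₁ (H893.regL w z H k m (trl193 c f₀))
      = trl193 c (T5.conv μ F₁ (H893.regL w z H k m f₀)) := by
  rw [← trl_regL193, trl_conv193]

section Nat

variable {a : (InfinitePlace K → ℝ) → G K} {D : Set (InfinitePlace K → ℝ)}

theorem nat_ltr193 (b : G K) (φ : G K → ℂ) :
    nat193 a D (H893.ltr b φ) = H893.ltr b (nat193 a D φ) := by
  funext g
  show _ * ∫ t in D, φ (b⁻¹ * (g * (a t)⁻¹)) = _ * ∫ t in D, φ (b⁻¹ * g * (a t)⁻¹)
  simp only [mul_assoc]

theorem continuous_arg193 (ha : Continuous a) {φ : G K → ℂ} (hφ : Continuous φ) (b g : G K) :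
    Continuous fun t : InfinitePlace K → ℝ => φ (b * g * (a t)⁻¹) :=
  hφ.comp (continuous_const.mul ha.inv)

theorem nat_lsum193 (ha : Continuous a) (hDb : Bornology.IsBounded D) (H : Finset (G K))
    {φ : G K → ℂ} (hφ : Continuous φ) :
    nat193 a D (H893.lsum H φ) = H893.lsum H (nat193 a D φ) := by
  funext g
  show _ * ∫ t in D, ∑ h ∈ H, φ (h⁻¹ * (g * (a t)⁻¹))
    = ∑ h ∈ H, _ * ∫ t in D, φ (h⁻¹ * g * (a t)⁻¹)
  rw [integral_finsetSum, Finset.mul_sum]
  · simp only [mul_assoc]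
  · intro h _
    have : IntegrableOn (fun t => φ (h⁻¹ * g * (a t)⁻¹)) D volume :=
      integrableOn_of_continuous193 (continuous_arg193 ha hφ h⁻¹ g) hDb
    have e : (fun t => φ (h⁻¹ * (g * (a t)⁻¹))) = fun t => φ (h⁻¹ * g * (a t)⁻¹) :=
      funext fun t => by rw [mul_assoc]
    rw [e]
    exact this

theorem continuous_ltr193 (b : G K) {φ : G K → ℂ} (hφ : Continuous φ) :
    Continuous (H893.ltr b φ) :=
  hφ.comp (continuous_const.mul continuous_id)

theorem continuous_lsum193 (H : Finset (G K)) {φ : G K → ℂ} (hφ : Continuous φ) :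
    Continuous (H893.lsum H φ) :=
  continuous_finsetSum _ fun _ _ => hφ.comp (continuous_const.mul continuous_id)

theorem continuous_iwL193 (w : HeightOneSpectrum (𝓞 K)) (H : Finset (G K)) {φ : G K → ℂ}
    (hφ : Continuous φ) : Continuous (H893.iwL w H φ) :=
  continuous_const.mul (continuous_lsum193 H hφ)

theorem continuous_iwL_iter193 (w : HeightOneSpectrum (𝓞 K)) (H : Finset (G K)) (m : ℕ)
    {φ : G K → ℂ} (hφ : Continuous φ) : Continuous ((H893.iwL w H)^[m] φ) := by
  induction m with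
  | zero => exact hφ
  | succ m ih =>
    rw [Function.iterate_succ_apply']
    exact continuous_iwL193 w H ih

theorem nat_iwL193 (ha : Continuous a) (hDb : Bornology.IsBounded D)
    (w : HeightOneSpectrum (𝓞 K)) (H : Finset (G K)) {φ : G K → ℂ} (hφ : Continuous φ) :
    nat193 a D (H893.iwL w H φ) = H893.iwL w H (nat193 a D φ) := by
  have h1 : H893.iwL w H φ
      = fun y => ((Real.sqrt (Ideal.absNorm w.asIdeal : ℝ) : ℝ) : ℂ)⁻¹ * H893.lsum H φ y := rfl
  have h2 : H893.iwL w H (nat193 a D φ)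
      = fun y => ((Real.sqrt (Ideal.absNorm w.asIdeal : ℝ) : ℝ) : ℂ)⁻¹
          * H893.lsum H (nat193 a D φ) y := rfl
  rw [h1, h2, ← nat_lsum193 ha hDb H hφ]
  funext g
  show _ * ∫ t in D, _ * H893.lsum H φ (g * (a t)⁻¹) = _ * (_ * ∫ t in D, H893.lsum H φ (g * (a t)⁻¹))
  rw [integral_const_mul]
  ring

theorem nat_iwL_iter193 (ha : Continuous a) (hDb : Bornology.IsBounded D)
    (w : HeightOneSpectrum (𝓞 K)) (H : Finset (G K)) (m : ℕ) {φ : G K → ℂ}
    (hφ : Continuous φ) :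
    nat193 a D ((H893.iwL w H)^[m] φ) = (H893.iwL w H)^[m] (nat193 a D φ) := by
  induction m with
  | zero => rfl
  | succ m ih =>
    rw [Function.iterate_succ_apply', Function.iterate_succ_apply',
      nat_iwL193 ha hDb w H (continuous_iwL_iter193 w H m hφ), ih]

theorem nat_regL193 (ha : Continuous a) (hDb : Bornology.IsBounded D)
    (w : HeightOneSpectrum (𝓞 K)) (z : G K) (H : Finset (G K)) (k : ℤ) (m : ℕ) {φ : G K → ℂ}
    (hφ : Continuous φ) :
    nat193 a D (H893.regL w z H k m φ) = H893.regL w z H k m (nat193 a D φ) := by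
  unfold H893.regL
  rw [nat_ltr193, nat_iwL_iter193 ha hDb w H m hφ]

end Nat

/-! ## 3. Compact supports, and the families built on a torus mean -/

theorem hasCompactSupport_ltr193 (b : G K) {φ : G K → ℂ} (hφ : HasCompactSupport φ) :
    HasCompactSupport (H893.ltr b φ) :=
  hφ.comp_homeomorph (Homeomorph.mulLeft b⁻¹)

theorem hasCompactSupport_lsum193 (H : Finset (G K)) {φ : G K → ℂ} (hφ : HasCompactSupport φ) :
    HasCompactSupport (H893.lsum H φ) := by
  classical
  have key : ∀ S : Finset (G K), HasCompactSupport fun y : G K => ∑ h ∈ S, φ (h⁻¹ * y) := by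
    intro S
    induction S using Finset.induction_on with
    | empty =>
      simp only [Finset.sum_empty]
      exact HasCompactSupport.zero
    | insert b S hb ih =>
      have e : (fun y : G K => ∑ h ∈ insert b S, φ (h⁻¹ * y))
          = (fun y => φ (b⁻¹ * y)) + fun y => ∑ h ∈ S, φ (h⁻¹ * y) := by
        funext y
        rw [Finset.sum_insert hb]
        rfl
      rw [e]
      exact (hasCompactSupport_ltr193 b hφ).add ih
  exact key H

theorem hasCompactSupport_iwL193 (w : HeightOneSpectrum (𝓞 K)) (H : Finset (G K))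
    {φ : G K → ℂ} (hφ : HasCompactSupport φ) : HasCompactSupport (H893.iwL w H φ) := by
  refine (hasCompactSupport_lsum193 H hφ).mono fun y hy => ?_
  intro h0
  apply hy
  show _ * H893.lsum H φ y = 0
  rw [h0, mul_zero]

theorem hasCompactSupport_iwL_iter193 (w : HeightOneSpectrum (𝓞 K)) (H : Finset (G K)) (m : ℕ)
    {φ : G K → ℂ} (hφ : HasCompactSupport φ) : HasCompactSupport ((H893.iwL w H)^[m] φ) := by
  induction m with
  | zero => exact hφ
  | succ m ih =>
    rw [Function.iterate_succ_apply']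
    exact hasCompactSupport_iwL193 w H ih

theorem continuous_regL193 (w : HeightOneSpectrum (𝓞 K)) (z : G K) (H : Finset (G K)) (k : ℤ)
    (m : ℕ) {φ : G K → ℂ} (hφ : Continuous φ) : Continuous (H893.regL w z H k m φ) :=
  continuous_ltr193 _ (continuous_iwL_iter193 w H m hφ)

theorem hasCompactSupport_regL193 (w : HeightOneSpectrum (𝓞 K)) (z : G K) (H : Finset (G K))
    (k : ℤ) (m : ℕ) {φ : G K → ℂ} (hφ : HasCompactSupport φ) :
    HasCompactSupport (H893.regL w z H k m φ) :=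
  hasCompactSupport_ltr193 _ (hasCompactSupport_iwL_iter193 w H m hφ)

/-- **The member of the family upstairs built on a torus mean is the torus mean of the member
built on the function itself.** -/
theorem up_nat193 (hT1 : T1.T1Out K) (R : Frame5 K) (hR : IsFrame5 R) {𝔑 : Ideal (𝓞 K)}
    {a : (InfinitePlace K → ℝ) → G K} {D : Set (InfinitePlace K → ℝ)}
    (hD : IsTorusData 𝔑 R.r a D) (Φ₁ : G K → ℂ) (hΦc : Continuous Φ₁)
    (hΦs : HasCompactSupport Φ₁) (Hg : Finset (G K))
    (w : HeightOneSpectrum (𝓞 K)) (z : G K) (H : Finset (G K)) (k : ℤ) (m : ℕ) (φ₀ : G K → ℂ)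
    (hφc : Continuous φ₀) (hφs : HasCompactSupport φ₀) :
    T5.conv R.μ Φ₁ (H893.lsum Hg (H893.regL w z H k m (nat193 a D φ₀)))
      = nat193 a D (T5.conv R.μ Φ₁ (H893.lsum Hg (H893.regL w z H k m φ₀))) := by
  rw [← nat_regL193 hD.cont hD.bdd w z H k m hφc,
    ← nat_lsum193 hD.cont hD.bdd Hg (continuous_regL193 w z H k m hφc)]
  funext g
  exact ((natLeaves193 K).conv hT1 R hR 𝔑 R.r a D hD Φ₁ _ hΦc hΦs
    (continuous_lsum193 Hg (continuous_regL193 w z H k m hφc))
    (hasCompactSupport_lsum193 Hg (hasCompactSupport_regL193 w z H k m hφs))).2 g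

/-- **The member of the family downstairs built on a torus mean.** -/
theorem down_nat193 (hT1 : T1.T1Out K) (R : Frame5 K) (hR : IsFrame5 R) {𝔑 : Ideal (𝓞 K)}
    {a : (InfinitePlace K → ℝ) → G K} {D : Set (InfinitePlace K → ℝ)}
    (hD : IsTorusData 𝔑 R.r a D) (F₁ : G K → ℂ) (hFc : Continuous F₁)
    (hFs : HasCompactSupport F₁)
    (w : HeightOneSpectrum (𝓞 K)) (z : G K) (H : Finset (G K)) (k : ℤ) (m : ℕ) (f₀ : G K → ℂ)
    (hfc : Continuous f₀) (hfs : HasCompactSupport f₀) :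
    T5.conv R.μ F₁ (H893.regL w z H k m (nat193 a D f₀))
      = nat193 a D (T5.conv R.μ F₁ (H893.regL w z H k m f₀)) := by
  rw [← nat_regL193 hD.cont hD.bdd w z H k m hfc]
  funext g
  exact ((natLeaves193 K).conv hT1 R hR 𝔑 R.r a D hD F₁ _ hFc hFs
    (continuous_regL193 w z H k m hfc) (hasCompactSupport_regL193 w z H k m hfs)).2 g

/-! ## 4. For compatible torus data the torus mean downstairs is the PUSH-FORWARD average -/

section Push

variable {K' : Type} [Field K'] [NumberField K'] [Algebra K K']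

/-- **For compatible torus data the torus mean downstairs is the push-forward average**: the
mean over `t' ∈ D'` (the parameter space UPSTAIRS) of the translates by `a (N t')`.  So
`nat193 a' D' φ'` and `nat193 a D f` are averages over the SAME parameter space `D'` of the
translates `trl193 (a' t') φ'`, `trl193 (a (N t')) f` (the shape of `H893.IsAvgPure`), and
`nat193 a D f` has the killing properties of `killing_of_torus193`. -/
theorem nat_eq_push193 {𝔫 : Ideal (𝓞 K)} {r : G K} {r' : G K'}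
    {a : (InfinitePlace K → ℝ) → G K} {D : Set (InfinitePlace K → ℝ)}
    {a' : (InfinitePlace K' → ℝ) → G K'} {D' : Set (InfinitePlace K' → ℝ)}
    (hrel : IsRelTorus 𝔫 r r' a D a' D') {f : G K → ℂ} (hf : Continuous f) (g : G K) :
    nat193 a D f g
      = (((volume D').toReal : ℝ) : ℂ)⁻¹
        * ∫ t' in D', trl193 (a (fibSum193 (K := K) t')) f g := by
  have hint : IntegrableOn (fun t => f (g * (a t)⁻¹)) D volume :=
    integrableOn_of_continuous193 (hf.comp (continuous_const.mul hrel.down.cont.inv))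
      hrel.down.bdd
  exact (hrel.push (fun t => f (g * (a t)⁻¹)) hint).symm

end Push

end Fermat.Agent.LT.T7.H193

end

end
-- ===== PACK-END LT/T7/H193/NatTools.lean

-- ===== PACK-BEGIN LT/T7/H468/OpsClass.lean
section




/-!
# Row LT, tower T7, leaf T7.L2.3.5.3 `SD534.OpsClassC` -- PROVED (helper468)

OFF-MAIN.  `opsClassC468 K : SD534.OpsClassC K` VERBATIM against
`LT/T7/H534/DownBasisSpec.lean` (helper534), UNCONDITIONAL, every number field.

* `shift`, `comm` : a scalar uniformiser is central (`OpsShift.lean`);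
* `iw` : an Iwahori coset system is complete (`IwPerm.lean`, pigeonhole on the invariant
  `M₀₁ / M₁₁ mod 𝔭`), so `𝒰 ψ` is invariant under the Iwahori subgroup at `u` and under `U(𝔫)`
  (`u ∣ 𝔫`); all the other conditions concern elements which are trivial at `u`, which commute
  with the members of `H`; constant term: `T1.AddFundDomC`; sphere means: `T2.H472.locCont472`
  (`OpsIw.lean`).
-/

set_option autoImplicit false
set_option linter.unusedSectionVars false
set_option linter.unusedVariables false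
set_option linter.style.haveILetI false

open AutomorphicForm IsDedekindDomain NumberField MeasureTheory Matrix
open scoped ComplexConjugate

noncomputable section

namespace Fermat.Agent.LT.T7.H468

open Fermat.Agent.LT.H556 Fermat.Agent.LT.H556.A0 Fermat.Agent.LT.T7
open Fermat.Agent.LT.T8.H864

variable {K : Type} [Field K] [NumberField K]

/-- **The Iwahori operator preserves the classes.** -/
theorem iw_inCls468 {𝔫 : Ideal (𝓞 K)} {r : G K} {u : HeightOneSpectrum (𝓞 K)}
    {H : Finset (G K)} (hu : u.asIdeal ∣ 𝔫) (hr : T5.IsRayGen r) (hH : IsIwCosetSystem u H)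
    {c : EigData K} {ψ : G K → ℂ} (hψ : SD534.InCls 𝔫 r u c ψ) :
    SD534.InCls 𝔫 r u c (iwOp u H ψ) := by
  have hloc : ∀ h ∈ H, IsLocalAtFin u h := fun h hh => (hH.2.1 h hh).1
  refine ⟨⟨⟨?_, ?_, ⟨?_, ?_, ?_, ?_⟩, ?_⟩, ?_, ?_⟩, ?_, ?_⟩
  · exact continuous_iwOp468 u H hψ.inv.cusp.cont
  · exact bdd_iwOp468 u H hψ.inv.cusp.bdd
  · intro γ g
    rw [iwOp_apply468, iwOp_apply468]
    congr 1
    refine Finset.sum_congr rfl fun h _ => ?_
    rw [mul_assoc]
    exact hψ.inv.cusp.aut.left_inv γ _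
  · intro u' hu' g
    exact iwOp_level468 hu hH hψ.inv.iw hψ.inv.cusp.aut.level_inv hu' g
  · intro w k hk g
    exact iwOp_eigen468 hloc (hk.1.2 u)
      (fun g => hψ.inv.cusp.aut.arch_compact w k hk g) g
  · intro g
    have := iwOp_eigen468 hloc (hr.1 u) (c := 1)
      (fun g => by rw [one_mul]; exact hψ.inv.cusp.aut.ray g) g
    rwa [one_mul] at this
  · exact isCuspidalFn_iwOp468 u H hψ.inv.cusp.cont hψ.inv.cusp.bdd hψ.inv.cusp.cuspidal
  · intro w z' hz' g
    have := iwOp_eigen468 hloc (hz'.1.2 u) (c := 1)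
      (fun g => by rw [one_mul]; exact hψ.inv.arch_scalar w z' hz' g) g
    rwa [one_mul] at this
  · intro κ h1 h2 h3 x
    exact iwOp_iw468 hH hψ.inv.iw ⟨h1, fun v hv => h2 v (fun j _ => hv)⟩
      (h3 0 Nat.zero_lt_one) x
  · intro v hv
    have hvu : u ≠ v := fun e => hv (e ▸ hu)
    obtain ⟨hT, hS⟩ := hψ.hecke v hv
    refine ⟨fun H' hH' g => ?_, fun z' hz' g => ?_⟩
    · exact iwOp_sum_eigen468 hloc (fun h' hh' => (hH'.2.1 h' hh').1.2 u hvu) (hT H' hH') g
    · exact iwOp_eigen468 hloc (hz'.1.2 u hvu) (hS z' hz') g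
  · intro w
    exact meanEig_iwOp468 hloc hψ.inv.cusp.cont (hψ.mean w)

variable (K)

/-- **LEAF T7.L2.3.5.3 = DB.3 OPS, PROVED.** -/
theorem opsClassC468 : SD534.OpsClassC K := by
  intro 𝔫 r u H z h𝔫 hr hu hH hz
  exact ⟨fun c ψ k hψ => shift_inCls468 hz k hψ, fun c ψ hψ => iw_inCls468 hu hr hH hψ,
    fun ψ k => iwOp_shiftOp468 hz H ψ k⟩

end Fermat.Agent.LT.T7.H468

end

end
-- ===== PACK-END LT/T7/H468/OpsClass.lean

-- ===== PACK-BEGIN LT/T7/H732/SupplyQFam60.lean
section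




/-!
# Row LT, tower T7, node T7.L2Q.1 `SupplyQC`: the SECOND CUT on the first cut of helper60
(helper732, registry rows 2262 / 2322)

OFF-MAIN.  Definitions, ONE frozen node, PROVED tops.  No hole, nothing assumed.  ADDITIVE.

The first cut of record of `L2Q.SupplyQC` is the one of the owner of the node, helper60
(`T7/H60/SupplyQSpec.lean`, sha256 945eb304, helper60@6e0b580ad): its common part `IsL2QBase` has
the field `under_exact` (`S` is EXACTLY the set of the primes under `S'`).  Without this field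
the pre-data cannot exist in general: the relation `L2Q.IsBCDataQ n c C S` says nothing at the
primes of `S`, a word may live at a place outside `S'` over a prime of `S`, and then `dn1_op`
would hold for arbitrary values of `C` at that place.  So:

* the 8 bookkeeping LEAVES of `SupplyQFamSpec.lean` (rows 2314-2321) are kept AS THEY ARE (they
  are implications from the pre-data, true for every common part);
* THE NODE is `PreQ60C732` = the pre-data exist for the common parts OF HELPER60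
  (`PreQC732`, which quantifies over the larger class `H962.IsL2QBase962`, is NOT used);
* `famQC60_of732 : PreQ60C732 P F → 8 leaves → L2Q.H60.FamQC P F` and the supply in the stable
  form `supplyQSC_of_leaves732 : … → L2Q.H60.SupplyQSC P F` are PROVED here, through the
  comparison `isL2QBase962_of60_732` of the two common parts (the only point: `fibre`, from the
  form with prime numbers to the form with `PlaceOver`).
-/

set_option autoImplicit false

open AutomorphicForm IsDedekindDomain NumberField MeasureTheory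
open scoped ComplexConjugate

noncomputable section

namespace Fermat.Agent.LT.T7.H732

open Fermat.Agent.LT.H556 Fermat.Agent.LT.H556.A0 Fermat.Agent.LT.T7 Fermat.Agent.LT.T7.L2Q
  Fermat.Agent.LT.T7.H893 Fermat.Agent.LT.T7.H962

attribute [local instance] Fermat.Agent.LT.T5.instMeasurableSpaceG

/-! ## 1. Prime numbers in prime ideals -/

/-- A prime ideal which contains a natural number `n ≥ 2` contains a prime number. -/
theorem exists_prime_natCast_mem732 {R : Type*} [CommRing R] (I : Ideal R) [I.IsPrime] :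
    ∀ n : ℕ, 2 ≤ n → ((n : ℕ) : R) ∈ I → ∃ p : ℕ, p.Prime ∧ ((p : ℕ) : R) ∈ I := by
  intro n
  induction n using Nat.strong_induction_on with
  | _ n ih =>
    intro hn hmem
    by_cases hp : n.Prime
    · exact ⟨n, hp, hmem⟩
    · have hn1 : n ≠ 1 := by omega
      have hq : (n.minFac).Prime := Nat.minFac_prime hn1
      obtain ⟨m, hm⟩ := Nat.minFac_dvd n
      have hmul : ((n.minFac : ℕ) : R) * ((m : ℕ) : R) ∈ I := by
        rw [← Nat.cast_mul, ← hm]
        exact hmem
      rcases (Ideal.IsPrime.mem_or_mem inferInstance hmul) with h | h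
      · exact ⟨n.minFac, hq, h⟩
      · have hq2 : 2 ≤ n.minFac := hq.two_le
        have hm0 : m ≠ 0 := by
          rintro rfl
          rw [mul_zero] at hm
          omega
        have hm1 : m ≠ 1 := by
          rintro rfl
          rw [mul_one] at hm
          exact hp (hm ▸ hq)
        have hlt : m < n := by
          have : m * 2 ≤ n.minFac * m := by
            rw [mul_comm n.minFac m]
            exact Nat.mul_le_mul_left m hq2
          omega
        exact ih m hlt (by omega) h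

/-- A finite place of `ℚ` contains a prime number. -/
theorem exists_prime_mem_place732 (v : HeightOneSpectrum (𝓞 ℚ)) :
    ∃ p : ℕ, p.Prime ∧ ((p : ℕ) : 𝓞 ℚ) ∈ v.asIdeal := by
  have hprime : v.asIdeal.IsPrime := v.isPrime
  have h0 : Ideal.absNorm v.asIdeal ≠ 0 := by
    rw [Ne, Ideal.absNorm_eq_zero_iff]
    exact v.ne_bot
  have h1 : Ideal.absNorm v.asIdeal ≠ 1 := by
    rw [Ne, Ideal.absNorm_eq_one_iff]
    exact hprime.ne_top
  have hmem : ((Ideal.absNorm v.asIdeal : ℕ) : 𝓞 ℚ) ∈ v.asIdeal := Ideal.absNorm_mem v.asIdeal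
  exact exists_prime_natCast_mem732 v.asIdeal _ (by omega) hmem

section Compare

variable {F : Type} [Field F] [NumberField F]

/-- A prime number of a place of `ℚ` lies in every place of `F` over it. -/
theorem natCast_mem_of_placeOver732 {v : HeightOneSpectrum (𝓞 ℚ)} {w : HeightOneSpectrum (𝓞 F)}
    (h : PlaceOver ℚ F v w) {p : ℕ} (hp : ((p : ℕ) : 𝓞 ℚ) ∈ v.asIdeal) :
    ((p : ℕ) : 𝓞 F) ∈ w.asIdeal := by
  refine (h ((p : ℕ) : 𝓞 ℚ) ((p : ℕ) : 𝓞 F) ?_).1 hp
  simp

/-! ## 2. The two common parts -/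

/-- The common part of helper60 as a common part of helper962 (the same data). -/
def toBase962_732 (B : L2Q.H60.L2QBase F) : L2QBase962 F where
  s := B.s
  k := B.k
  R := B.R
  R' := B.R'
  𝔑₀ := B.𝔑₀
  S' := B.S'
  S := B.S
  u := B.u
  o := B.o

/-- The `g`-part of helper962 as a `g`-part of helper60 (the same data). -/
def toFam60_732 (Fm : L2QFam962 F) : L2Q.H60.L2QFam F where
  𝔫 := Fm.𝔫
  c := Fm.c
  φ' := Fm.φ'
  f := Fm.f
  m₀ := Fm.m₀

/-- A good common part of helper60 is a good common part of helper962. -/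
theorem isL2QBase962_of60_732 {Φ : HeckeEigensystem F ℂ} {B : L2Q.H60.L2QBase F}
    (hB : L2Q.H60.IsL2QBase Φ B) : IsL2QBase962 Φ (toBase962_732 B) where
  cyc := hB.cyc
  base := hB.base
  frame := hB.frame
  frame' := hB.frame'
  aut := hB.aut
  level_le := hB.level_le
  mem_S' := hB.mem_S'
  under := hB.under
  const := hB.const
  orbit_rel := hB.orbit_rel
  orbit_ne := hB.orbit_ne
  orbit_over := hB.orbit_over
  orbit_level := hB.orbit_level
  orbit_good := hB.orbit_good
  base_level := hB.base_level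
  orbit_all := hB.orbit_all
  fibre := fun v w w' hw hw' hS => by
    obtain ⟨p, hp, hpv⟩ := exists_prime_mem_place732 v
    exact hB.fibre p hp w w' (natCast_mem_of_placeOver732 hw hpv)
      (natCast_mem_of_placeOver732 hw' hpv) hS

/-- A good `g`-part for the common part of helper962 is a good `g`-part for helper60. -/
theorem isL2QFam60_of962_732 {Φ : HeckeEigensystem F ℂ} {B : L2Q.H60.L2QBase F} {g : G F}
    {Fm : L2QFam962 F} (h : IsL2QFam962 Φ (toBase962_732 B) g Fm) :
    L2Q.H60.IsL2QFam Φ B g (toFam60_732 Fm) where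
  level_ne := h.level_ne
  level_g := h.level_g
  mem_S'_g := h.mem_S'_g
  u_level := h.u_level
  ekprod_up := h.ekprod_up
  ekprod_down := h.ekprod_down
  reg_up := h.reg_up
  reg_down := h.reg_down
  matched := h.matched
  base_ne := h.base_ne
  op_up := h.op_up
  kill_up := h.kill_up
  op_down := h.op_down
  class_down := h.class_down
  comm_down := h.comm_down
  kill_down := h.kill_down

end Compare

/-! ## 3. The node and the tops -/

section Node

variable (P : EKCond)
variable (F : Type) [Field F] [NumberField F]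

/-- **NODE T7.L2Q.1.F0 = PRE over `ℚ` (construction + geometry), on the first cut of helper60.**
For a common part of helper60 (`S` = exactly the primes under `S'`) and one bad element the
pre-data of `SupplyQFamSpec.lean` exist.  Mirror of `H893.PreC`. -/
def PreQ60C732 : Prop :=
  HasSqrtNegThree F → IsImagQuad F →
    ∀ Φ : HeckeEigensystem F ℂ, A0.IsCuspAdelicSph0 F Φ → ConstOnFibresQ Φ → P F Φ →
      ∀ B : L2Q.H60.L2QBase F, L2Q.H60.IsL2QBase Φ B → ∀ g : G F, B.IsBad g →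
        ∃ E : L2QPre732 F, IsL2QPre732 Φ (toBase962_732 B) g E

variable {P F}

/-- The node for the larger class of common parts gives the node of record. -/
theorem preQ60C_of_preQC732 (h : PreQC732 P F) : PreQ60C732 P F :=
  fun h3 hq Φ hΦ hc hP B hB g hg =>
    h h3 hq Φ hΦ hc hP (toBase962_732 B) (isL2QBase962_of60_732 hB) g hg

/-- **THE TOP OF THE SECOND CUT on the first cut of helper60**: the node `L2Q.H60.FamQC` from the
pre-data and the eight bookkeeping leaves. -/
theorem famQC60_of732 (h0 : PreQ60C732 P F)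
    (h1 : EkProdUpQC732 F) (h2 : EkProdDownQC732 F) (h3 : OpUpQC732 F) (h4 : KillUpQC732 F)
    (h5 : OpDownQC732 F) (h6 : ClassDownQC732 F) (h7 : CommDownQC732 F)
    (h8 : KillDownQC732 F) : L2Q.H60.FamQC P F := by
  intro h3' hquad Φ hΦ hconst hPΦ B hB g hg
  obtain ⟨E, hE⟩ := h0 h3' hquad Φ hΦ hconst hPΦ B hB g hg
  exact ⟨toFam60_732 (E.toFam (toBase962_732 B)),
    isL2QFam60_of962_732
      (isL2QFam_toFam732 (isL2QBase962_of60_732 hB) hg hE h1 h2 h3 h4 h5 h6 h7 h8)⟩

/-- **THE STABLE SUPPLY OVER `ℚ` from the leaves of the two cuts** (first cut: helper60). -/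
theorem supplyQSC_of_leaves732 (hS : L2Q.H60.SetupQC F) (hP' : H893.ProjC F)
    (hP0 : H893.ProjC ℚ) (hP1 : L2Q.H60.ProjW1C) (h0 : PreQ60C732 P F)
    (h1 : EkProdUpQC732 F) (h2 : EkProdDownQC732 F) (h3 : OpUpQC732 F) (h4 : KillUpQC732 F)
    (h5 : OpDownQC732 F) (h6 : ClassDownQC732 F) (h7 : CommDownQC732 F)
    (h8 : KillDownQC732 F) : L2Q.H60.SupplyQSC P F :=
  L2Q.H60.supplyQSC_of60 hS hP' hP0 hP1 (famQC60_of732 h0 h1 h2 h3 h4 h5 h6 h7 h8)

theorem eqns_realised_supplyQFam60_732 : True := by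
  have _h1 := @PreQ60C732.eq_1
  have _h2 := @PreQ60C732.eq_def
  have _h3 := @PreQ60C732.eq_unfold
  have _h4 := @toBase962_732.eq_1
  have _h5 := @toBase962_732.eq_def
  have _h6 := @toBase962_732.eq_unfold
  have _h7 := @toFam60_732.eq_1
  have _h8 := @toFam60_732.eq_def
  have _h9 := @toFam60_732.eq_unfold
  trivial

end Node

end Fermat.Agent.LT.T7.H732

end

end
-- ===== PACK-END LT/T7/H732/SupplyQFam60.lean

-- ===== PACK-BEGIN LT/T7/H925/TorSplitQ.lean
section





/-!
# Row LT, tower T7, Q-mirror, leaf Q2.7.5 `TorSplitQC298` (helper925)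

OFF-MAIN.  No hole, nothing assumed.  ADDITIVE (suffix `Q925`).

`torSplitQC925 : MQ298.TorSplitQC298`, VERBATIM (cut of helper298, `T7/H298/MatchQCut.lean`),
unconditional.  Mirror over `ℚ` (one real place, `GL₂(ℝ)`) of `torSplitC925`
(`T7/H925/TorSplit.lean`): the same proof, with the restricted product structure of
`GL₂(𝔸_ℚ)` of helper973 (`T7/H973/RestrGLQ.lean`: `reGLQ_mkGL973`, `proper_restrQ973`).

`q_S : T_𝔸(γ) → H_S = ∏_{v ∈ S} T_v × T_∞` is a continuous homomorphism, onto and proper on the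
open subgroup `E_S`, so `(q_S)_* μT|_{E_S}` is a Haar measure of `H_S`: `c_S` times the product
measure.  `c_S = c_{S'}` for `S ⊆ S'`, `S` good (boxes; `T_v ∩ GL₂(ℤ_v) = {tr integral, det a
unit}` has volume `1`).  The image in the product of the local GROUPS: `Measure.map_prod_map`,
`Measure.pi_map_pi`.  (`γ` elliptic is not used.)
-/

set_option autoImplicit false

open AutomorphicForm IsDedekindDomain NumberField MeasureTheory

noncomputable section

namespace Fermat.Agent.LT.T7.H925.TorSplit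

open Fermat.Agent.LT Fermat.Agent.LT.H556 Fermat.Agent.LT.H556.A0 Fermat.Agent.LT.T7
open Fermat.Agent.LT.T7.H305 Fermat.Agent.LT.T7.H159 Fermat.Agent.LT.T7.H973

attribute [local instance] instMeasSub925 instBorelSub925 locallyCompact_Tv925
  secondCountable_Tv925

/-! ## 1. The real torus, the components -/

/-- The local torus at the real place of `ℚ`. -/
abbrev TrQ925 (γ : GL (Fin 2) ℚ) : Subgroup (GL (Fin 2) ℝ) :=
  cent305 (MQ298.reGLQ298 (T5.ratG γ))

theorem reGL_eqQ925 : MQ298.reGLQ298 = reGLQ973 := rfl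

theorem isClosed_TrQ925 (γ : GL (Fin 2) ℚ) : IsClosed (TrQ925 γ : Set (GL (Fin 2) ℝ)) :=
  isClosed_twCentSub925 _ continuous_id _

theorem locallyCompact_TrQ925 (γ : GL (Fin 2) ℚ) : LocallyCompactSpace (TrQ925 γ) :=
  haveI := locallyCompactSpace_GLR973
  (isClosed_TrQ925 γ).isClosedEmbedding_subtypeVal.locallyCompactSpace

theorem secondCountable_TrQ925 (γ : GL (Fin 2) ℚ) : SecondCountableTopology (TrQ925 γ) :=
  haveI := secondCountable_GLR973
  Topology.IsEmbedding.subtypeVal.secondCountableTopology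

attribute [local instance] locallyCompact_TrQ925 secondCountable_TrQ925

theorem reGL_memQ925 (γ : GL (Fin 2) ℚ) (t : G ℚ) (ht : t ∈ TA925 γ) :
    MQ298.reGLQ298 t ∈ TrQ925 γ :=
  mem_twCentSub_map925 MQ298.reGLQ298 (T5.AdelicAut.id ℚ).onG
    (MonoidHom.id _) (T5.ratG γ) t (by rw [onG_id925]; rfl) ht

/-- The complex component of an element of `GL₂(𝔸_ℚ)` is its real component. -/
theorem infGL_eq_ofRealQ925 (w : InfinitePlace ℚ) (x : G ℚ) :
    infGL305 w x = Matrix.GeneralLinearGroup.map Complex.ofRealHom (MQ298.reGLQ298 x) := by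
  apply Units.ext
  refine Matrix.ext fun i j => ?_
  exact infHom_eq_reHomQ973 w _

theorem mem_TA_ofQ925 (γ : GL (Fin 2) ℚ) (g : G ℚ)
    (hF : ∀ v : HeightOneSpectrum (𝓞 ℚ), finGL305 v g ∈ Tv925 γ v)
    (hR : MQ298.reGLQ298 g ∈ TrQ925 γ) : g ∈ TA925 γ := by
  refine mem_TA_of925 γ g hF (fun w => ?_)
  have h := mem_twCentSub_map925 (Matrix.GeneralLinearGroup.map (n := Fin 2) Complex.ofRealHom)
    (MonoidHom.id _) (MonoidHom.id _) (MQ298.reGLQ298 (T5.ratG γ)) (MQ298.reGLQ298 g) rfl hR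
  rw [← infGL_eq_ofRealQ925 w, ← infGL_eq_ofRealQ925 w] at h
  exact h

/-- The component of `T_𝔸(γ)` at the real place. -/
def prQ925 (γ : GL (Fin 2) ℚ) : TA925 γ →* TrQ925 γ :=
  (MQ298.reGLQ298.comp (TA925 γ).subtype).codRestrict (TrQ925 γ)
    (fun t => reGL_memQ925 γ t.1 t.2)

theorem continuous_prQ925 (γ : GL (Fin 2) ℚ) : Continuous (prQ925 γ) :=
  Continuous.subtype_mk (continuous_reGLQ973.comp continuous_subtype_val) _

/-- `∏_{v ∈ S} T_v × T_∞`. -/
abbrev HSQ925 (γ : GL (Fin 2) ℚ) (S : Finset (HeightOneSpectrum (𝓞 ℚ))) : Type :=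
  (∀ v : S, Tv925 γ v.1) × TrQ925 γ

/-- The projection `T_𝔸(γ) → ∏_{v ∈ S} T_v × T_∞`. -/
def qSQ925 (γ : GL (Fin 2) ℚ) (S : Finset (HeightOneSpectrum (𝓞 ℚ))) :
    TA925 γ →* HSQ925 γ S :=
  MonoidHom.prod (MonoidHom.pi fun v : S => pv925 γ v.1) (prQ925 γ)

theorem continuous_qSQ925 (γ : GL (Fin 2) ℚ) (S : Finset (HeightOneSpectrum (𝓞 ℚ))) :
    Continuous (qSQ925 γ S) :=
  Continuous.prodMk (continuous_pi fun v => continuous_pv925 γ v.1) (continuous_prQ925 γ)

/-! ## 2. `q_S` is onto and proper on `E_S` -/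

open Classical in
theorem surj_qSQ925 (γ : GL (Fin 2) ℚ) (S : Finset (HeightOneSpectrum (𝓞 ℚ)))
    (h : HSQ925 γ S) : ∃ e ∈ ES925 γ S, qSQ925 γ S e = h := by
  set a : ∀ w : InfinitePlace ℚ, GL (Fin 2) w.Completion := fun w =>
    Matrix.GeneralLinearGroup.map
      ((InfinitePlace.Completion.ringEquivRealOfIsReal (isReal_ratPlace973 w)).symm :
        ℝ →+* w.Completion)
      ((h.2 : TrQ925 γ) : GL (Fin 2) ℝ) with ha
  set b : ∀ v : HeightOneSpectrum (𝓞 ℚ), GL (Fin 2) (v.adicCompletion ℚ) := fun v =>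
    if hv : v ∈ S then ((h.1 ⟨v, hv⟩ : Tv925 γ v) : GL (Fin 2) (v.adicCompletion ℚ))
    else 1 with hb
  have hb1 : ∀ v : HeightOneSpectrum (𝓞 ℚ), v ∉ S → b v = 1 := fun v hv => dif_neg hv
  have hb0 : ∀ (v : HeightOneSpectrum (𝓞 ℚ)) (hv : v ∈ S),
      b v = ((h.1 ⟨v, hv⟩ : Tv925 γ v) : GL (Fin 2) (v.adicCompletion ℚ)) :=
    fun v hv => dif_pos hv
  have hbint : ∀ᶠ v in Filter.cofinite, b v ∈ intGL159 ℚ v := by
    rw [Filter.eventually_cofinite]
    refine S.finite_toSet.subset fun v hv => ?_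
    by_contra hvS
    refine hv ?_
    rw [hb1 v hvS]
    exact (intGL159 ℚ v).one_mem
  have hgF : ∀ v : HeightOneSpectrum (𝓞 ℚ), finGL305 v (mkGL159 a b hbint) = b v :=
    fun v => mkGL_fin159 a b hbint v
  have hgR : MQ298.reGLQ298 (mkGL159 a b hbint) = ((h.2 : TrQ925 γ) : GL (Fin 2) ℝ) := by
    have e : MQ298.reGLQ298 (mkGL159 a b hbint)
        = Matrix.GeneralLinearGroup.map
          (InfinitePlace.Completion.extensionEmbeddingOfIsReal Rat.isReal_infinitePlace)
          (a Rat.infinitePlace) :=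
      reGLQ_mkGL973 a b hbint
    rw [e]
    refine Units.ext ?_
    refine Matrix.ext fun k l => ?_
    simp only [ha, Matrix.GeneralLinearGroup.map_apply]
    exact (InfinitePlace.Completion.ringEquivRealOfIsReal
      Rat.isReal_infinitePlace).apply_symm_apply _
  have hg : mkGL159 a b hbint ∈ TA925 γ := by
    refine mem_TA_ofQ925 γ _ (fun v => ?_) ?_
    · rw [hgF]
      by_cases hv : v ∈ S
      · rw [hb0 v hv]
        exact (h.1 ⟨v, hv⟩).2
      · rw [hb1 v hv]
        exact (Tv925 γ v).one_mem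
    · rw [hgR]
      exact h.2.2
  refine ⟨⟨mkGL159 a b hbint, hg⟩, ?_, ?_⟩
  · rw [mem_ES_iff925]
    intro v hv
    change T6.InU 0 (finGL305 v (mkGL159 a b hbint))
    rw [hgF, hb1 v hv]
    exact (mem_intGL_iff925 v 1).1 (intGL159 ℚ v).one_mem
  · refine Prod.ext (funext fun v => Subtype.ext ?_) (Subtype.ext ?_)
    · change finGL305 v.1 (mkGL159 a b hbint) = _
      rw [hgF, hb0 v.1 v.2]
    · exact hgR

open Classical in
theorem proper_qSQ925 (γ : GL (Fin 2) ℚ) (S : Finset (HeightOneSpectrum (𝓞 ℚ)))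
    (C : Set (HSQ925 γ S)) (hC : IsCompact C) :
    ∃ C' : Set (TA925 γ), IsCompact C' ∧
      (qSQ925 γ S) ⁻¹' C ∩ (ES925 γ S : Set (TA925 γ)) ⊆ C' := by
  set C'' : ∀ i : PlQ973, Set (LocGLQ973 i) := fun i =>
    match i with
    | Sum.inl _ => (fun x : HSQ925 γ S => ((x.2 : TrQ925 γ) : GL (Fin 2) ℝ)) '' C
    | Sum.inr v =>
      if hv : v ∈ S then
        (fun x : HSQ925 γ S =>
          ((x.1 ⟨v, hv⟩ : Tv925 γ v) : GL (Fin 2) (v.adicCompletion ℚ))) '' C
      else ∅ with hC''def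
  have hCl : ∀ u : Unit, C'' (Sum.inl u)
      = (fun x : HSQ925 γ S => ((x.2 : TrQ925 γ) : GL (Fin 2) ℝ)) '' C := fun _ => rfl
  have hCr : ∀ (v : HeightOneSpectrum (𝓞 ℚ)) (hv : v ∈ S), C'' (Sum.inr v)
      = (fun x : HSQ925 γ S =>
          ((x.1 ⟨v, hv⟩ : Tv925 γ v) : GL (Fin 2) (v.adicCompletion ℚ))) '' C :=
    fun v hv => dif_pos hv
  have hcomp : ∀ i ∈ baseSetQ973 S, IsCompact (C'' i) := by
    intro i hi
    cases i with
    | inl u =>
      rw [hCl u]
      have hc : Continuous (fun x : HSQ925 γ S => ((x.2 : TrQ925 γ) : GL (Fin 2) ℝ)) :=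
        continuous_subtype_val.comp continuous_snd
      exact hC.image hc
    | inr v =>
      have hv := (inr_mem_baseSetQ973 S v).1 hi
      rw [hCr v hv]
      have hc : Continuous (fun x : HSQ925 γ S =>
          ((x.1 ⟨v, hv⟩ : Tv925 γ v) : GL (Fin 2) (v.adicCompletion ℚ))) :=
        continuous_subtype_val.comp
          ((continuous_apply (A := fun v : S => Tv925 γ v.1) (⟨v, hv⟩ : S)).comp continuous_fst)
      exact hC.image hc
  obtain ⟨C₀, hC₀, hsub⟩ := proper_restrQ973 (baseSetQ973 S)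
    (inl_mem_baseSetQ973 S ()) C'' hcomp
  refine ⟨Subtype.val ⁻¹' C₀,
    (isClosed_TA925 γ).isClosedEmbedding_subtypeVal.isCompact_preimage hC₀, ?_⟩
  rintro t ⟨ht1, ht2⟩
  apply hsub
  refine ⟨(mem_restrSubQ_base973 S _).2 ((mem_ES_iff_out925 γ S t).1 ht2), fun i hi => ?_⟩
  cases i with
  | inl u =>
    rw [hCl u]
    exact ⟨qSQ925 γ S t, ht1, rfl⟩
  | inr v =>
    have hv := (inr_mem_baseSetQ973 S v).1 hi
    rw [hCr v hv]
    exact ⟨qSQ925 γ S t, ht1, rfl⟩

/-! ## 3. The constants -/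

/-- The image of `μT|_{E_S}` in `∏_{v ∈ S} T_v × T_∞`. -/
def nuSQ925 (γ : GL (Fin 2) ℚ) (μT : Measure (TA925 γ)) (S : Finset (HeightOneSpectrum (𝓞 ℚ))) :
    Measure (HSQ925 γ S) :=
  Measure.map (qSQ925 γ S) (μT.restrict (ES925 γ S : Set (TA925 γ)))

theorem isHaar_nuSQ925 (γ : GL (Fin 2) ℚ) (μT : Measure (TA925 γ))
    [μT.IsHaarMeasure] (S : Finset (HeightOneSpectrum (𝓞 ℚ))) :
    (nuSQ925 γ μT S).IsHaarMeasure :=
  isHaarMeasure_map_restrict159 μT (ES925 γ S) (isOpen_ES925 γ S) (qSQ925 γ S)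
    (continuous_qSQ925 γ S) (surj_qSQ925 γ S) (fun C hC _ => proper_qSQ925 γ S C hC)

/-- The product of the local torus measures. -/
def prSQ925 (γ : GL (Fin 2) ℚ) (μt : ∀ v : HeightOneSpectrum (𝓞 ℚ), Measure (Tv925 γ v))
    (μtr : Measure (TrQ925 γ)) (S : Finset (HeightOneSpectrum (𝓞 ℚ))) :
    Measure (HSQ925 γ S) :=
  (Measure.pi fun v : S => μt v.1).prod μtr

instance isHaar_prSQ925 (γ : GL (Fin 2) ℚ)
    (μt : ∀ v : HeightOneSpectrum (𝓞 ℚ), Measure (Tv925 γ v))
    (μtr : Measure (TrQ925 γ))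
    [∀ v, (μt v).IsHaarMeasure] [μtr.IsHaarMeasure]
    (S : Finset (HeightOneSpectrum (𝓞 ℚ))) : (prSQ925 γ μt μtr S).IsHaarMeasure := by
  unfold prSQ925
  have h1 : ∀ v : S, SigmaFinite (μt v.1) := fun v => inferInstance
  have h2 : ∀ v : S, MeasurableMul (Tv925 γ v.1) := fun v => inferInstance
  have h3 : (Measure.pi fun v : S => μt v.1).IsHaarMeasure := inferInstance
  have h5 : SFinite (Measure.pi fun v : S => μt v.1) := inferInstance
  have h6 : MeasurableMul (∀ v : S, Tv925 γ v.1) := inferInstance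
  infer_instance

theorem exists_smulQ925 (γ : GL (Fin 2) ℚ) (μT : Measure (TA925 γ))
    [μT.IsHaarMeasure] (μt : ∀ v : HeightOneSpectrum (𝓞 ℚ), Measure (Tv925 γ v))
    (μtr : Measure (TrQ925 γ))
    [∀ v, (μt v).IsHaarMeasure] [μtr.IsHaarMeasure]
    (S : Finset (HeightOneSpectrum (𝓞 ℚ))) :
    ∃ c : NNReal, 0 < c ∧ nuSQ925 γ μT S = c • prSQ925 γ μt μtr S := by
  have := isHaar_nuSQ925 γ μT S
  exact ⟨Measure.haarScalarFactor (nuSQ925 γ μT S) (prSQ925 γ μt μtr S),
    Measure.haarScalarFactor_pos_of_isHaarMeasure _ _, Measure.isMulLeftInvariant_eq_smul _ _⟩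

/-- The box `∏_{v ∈ S} C_v × D`. -/
def boxQ925 (γ : GL (Fin 2) ℚ) (S : Finset (HeightOneSpectrum (𝓞 ℚ)))
    (C : ∀ v : HeightOneSpectrum (𝓞 ℚ), Set (Tv925 γ v))
    (D : Set (TrQ925 γ)) : Set (HSQ925 γ S) :=
  (Set.pi Set.univ fun v : S => C v.1) ×ˢ D

theorem measurableSet_boxQ925 (γ : GL (Fin 2) ℚ) (S : Finset (HeightOneSpectrum (𝓞 ℚ)))
    (C : ∀ v : HeightOneSpectrum (𝓞 ℚ), Set (Tv925 γ v))
    (D : Set (TrQ925 γ))
    (hC : ∀ v ∈ S, MeasurableSet (C v)) (hD : MeasurableSet D) :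
    MeasurableSet (boxQ925 γ S C D) :=
  (MeasurableSet.univ_pi fun v : S => hC v.1 v.2).prod hD

theorem nuS_boxQ925 (γ : GL (Fin 2) ℚ) (μT : Measure (TA925 γ))
    (S : Finset (HeightOneSpectrum (𝓞 ℚ)))
    (C : ∀ v : HeightOneSpectrum (𝓞 ℚ), Set (Tv925 γ v))
    (D : Set (TrQ925 γ))
    (hC : ∀ v ∈ S, MeasurableSet (C v)) (hD : MeasurableSet D) :
    nuSQ925 γ μT S (boxQ925 γ S C D)
      = μT {t | t ∈ ES925 γ S ∧ (∀ v ∈ S, pv925 γ v t ∈ C v) ∧ prQ925 γ t ∈ D} := by
  rw [nuSQ925, map_restrict_apply159 μT _ _ (continuous_qSQ925 γ S)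
    (measurableSet_boxQ925 γ S C D hC hD)]
  congr 1
  ext t
  constructor
  · rintro ⟨⟨h1, h2⟩, h3⟩
    exact ⟨h3, fun v hv => h1 ⟨v, hv⟩ (Set.mem_univ _), h2⟩
  · rintro ⟨h1, h2, h3⟩
    exact ⟨⟨fun v _ => h2 v.1 v.2, h3⟩, h1⟩

theorem prS_boxQ925 (γ : GL (Fin 2) ℚ)
    (μt : ∀ v : HeightOneSpectrum (𝓞 ℚ), Measure (Tv925 γ v))
    (μtr : Measure (TrQ925 γ))
    [∀ v, (μt v).IsHaarMeasure] [μtr.IsHaarMeasure]
    (S : Finset (HeightOneSpectrum (𝓞 ℚ)))
    (C : ∀ v : HeightOneSpectrum (𝓞 ℚ), Set (Tv925 γ v))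
    (D : Set (TrQ925 γ)) :
    prSQ925 γ μt μtr S (boxQ925 γ S C D) = (∏ v ∈ S, μt v (C v)) * μtr D := by
  have h1 : ∀ v : S, SigmaFinite (μt v.1) := fun v => inferInstance
  rw [prSQ925, boxQ925, Measure.prod_prod, Measure.pi_pi]
  congr 1
  exact Finset.prod_coe_sort S fun v => μt v (C v)

open Classical in
/-- THE CONSTANT DOES NOT DEPEND ON `S`. -/
theorem const_uniqueQ925 (γ : GL (Fin 2) ℚ) (μT : Measure (TA925 γ))
    (μt : ∀ v : HeightOneSpectrum (𝓞 ℚ), Measure (Tv925 γ v))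
    (μtr : Measure (TrQ925 γ))
    [∀ v, (μt v).IsHaarMeasure] [μtr.IsHaarMeasure]
    (S S' : Finset (HeightOneSpectrum (𝓞 ℚ))) (hSS' : S ⊆ S')
    (hgood : ∀ v : HeightOneSpectrum (𝓞 ℚ), v ∉ S → μt v (Kc925 γ v) = 1)
    (c c' : NNReal) (hc : nuSQ925 γ μT S = c • prSQ925 γ μt μtr S)
    (hc' : nuSQ925 γ μT S' = c' • prSQ925 γ μt μtr S') : c' = c := by
  choose C hCm hC0 hCt using fun v => exists_nice925 (μt v)
  obtain ⟨D, hDm, hD0, hDt⟩ := exists_nice925 μtr
  set C' : ∀ v, Set (Tv925 γ v) := fun v => if v ∈ S then C v else Kc925 γ v with hC'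
  have hC'm : ∀ v ∈ S', MeasurableSet (C' v) := by
    intro v _
    by_cases hv : v ∈ S
    · simp only [hC', if_pos hv]; exact hCm v
    · simp only [hC', if_neg hv]; exact measurableSet_Kc925 γ v
  have hset : {t | t ∈ ES925 γ S' ∧ (∀ v ∈ S', pv925 γ v t ∈ C' v) ∧ prQ925 γ t ∈ D}
      = {t | t ∈ ES925 γ S ∧ (∀ v ∈ S, pv925 γ v t ∈ C v) ∧ prQ925 γ t ∈ D} := by
    ext t
    simp only [Set.mem_ofPred_eq, mem_ES_iff925]
    constructor
    · rintro ⟨h1, h2, h3⟩
      refine ⟨fun v hv => ?_, fun v hv => ?_, h3⟩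
      · by_cases hv' : v ∈ S'
        · have := h2 v hv'
          simp only [hC', if_neg hv] at this
          exact this
        · exact h1 v hv'
      · have := h2 v (hSS' hv)
        simpa only [hC', if_pos hv] using this
    · rintro ⟨h1, h2, h3⟩
      refine ⟨fun v hv => h1 v fun hvS => hv (hSS' hvS), fun v _ => ?_, h3⟩
      by_cases hv : v ∈ S
      · simp only [hC', if_pos hv]; exact h2 v hv
      · simp only [hC', if_neg hv]; exact h1 v hv
  have e1 := nuS_boxQ925 γ μT S C D (fun v _ => hCm v) hDm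
  have e2 := nuS_boxQ925 γ μT S' C' D hC'm hDm
  rw [hset, ← e1, hc, hc'] at e2
  simp only [Measure.smul_apply, prS_boxQ925] at e2
  have hprod : ∏ v ∈ S', μt v (C' v) = ∏ v ∈ S, μt v (C v) := by
    rw [← Finset.prod_sdiff hSS']
    have h1 : ∏ v ∈ S' \ S, μt v (C' v) = 1 := by
      refine Finset.prod_eq_one fun v hv => ?_
      have hv' := (Finset.mem_sdiff.mp hv).2
      simp only [hC', if_neg hv']
      exact hgood v hv'
    have h2 : ∏ v ∈ S, μt v (C' v) = ∏ v ∈ S, μt v (C v) := by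
      refine Finset.prod_congr rfl fun v hv => ?_
      simp only [hC', if_pos hv]
    rw [h1, h2, one_mul]
  rw [hprod] at e2
  have hP0 : (∏ v ∈ S, μt v (C v)) * μtr D ≠ 0 :=
    mul_ne_zero (Finset.prod_ne_zero_iff.mpr fun v _ => hC0 v) hD0
  have hPt : (∏ v ∈ S, μt v (C v)) * μtr D ≠ ⊤ :=
    ENNReal.mul_ne_top (ENNReal.prod_ne_top fun v _ => hCt v) hDt
  simp only [ENNReal.smul_def, smul_eq_mul] at e2
  have := (ENNReal.mul_left_inj hP0 hPt).mp e2
  exact_mod_cast this

/-- **THE TORUS CONSTANT over `ℚ`** (on the product of the local tori). -/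
theorem torSplit_prodQ925 (γ : GL (Fin 2) ℚ) (μT : Measure (TA925 γ))
    [μT.IsHaarMeasure] (μt : ∀ v : HeightOneSpectrum (𝓞 ℚ), Measure (Tv925 γ v))
    (μtr : Measure (TrQ925 γ))
    [∀ v, (μt v).IsHaarMeasure] [μtr.IsHaarMeasure]
    (hnorm : ∀ v : HeightOneSpectrum (𝓞 ℚ),
      μt v {t | Valued.v ((t : GL (Fin 2) (v.adicCompletion ℚ)) :
          Matrix (Fin 2) (Fin 2) (v.adicCompletion ℚ)).trace ≤ 1 ∧
        Valued.v ((t : GL (Fin 2) (v.adicCompletion ℚ)) :
          Matrix (Fin 2) (Fin 2) (v.adicCompletion ℚ)).det = 1} = 1) :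
    ∃ c : NNReal, 0 < c ∧ ∀ S : Finset (HeightOneSpectrum (𝓞 ℚ)), GoodOut305 S γ →
      nuSQ925 γ μT S = c • prSQ925 γ μt μtr S := by
  classical
  have hgood : ∀ S : Finset (HeightOneSpectrum (𝓞 ℚ)), GoodOut305 S γ →
      ∀ v : HeightOneSpectrum (𝓞 ℚ), v ∉ S → μt v (Kc925 γ v) = 1 := by
    intro S hS v hv
    obtain ⟨hU, hd⟩ := hS v hv
    rw [← hnorm v]
    congr 1
    ext t
    exact (locTor_compact_iff925 (locG305 v γ) (t : GL (Fin 2) (v.adicCompletion ℚ)) hU hd
      t.2).symm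
  by_cases hex : ∃ S₁ : Finset (HeightOneSpectrum (𝓞 ℚ)), GoodOut305 S₁ γ
  · obtain ⟨S₁, hS₁⟩ := hex
    obtain ⟨c₁, hc₁0, hc₁⟩ := exists_smulQ925 γ μT μt μtr S₁
    refine ⟨c₁, hc₁0, fun S hS => ?_⟩
    obtain ⟨c, -, hc⟩ := exists_smulQ925 γ μT μt μtr S
    obtain ⟨c₂, -, hc₂⟩ := exists_smulQ925 γ μT μt μtr (S ∪ S₁)
    have e1 : c₂ = c := const_uniqueQ925 γ μT μt μtr S (S ∪ S₁) Finset.subset_union_left
      (hgood S hS) c c₂ hc hc₂
    have e2 : c₂ = c₁ := const_uniqueQ925 γ μT μt μtr S₁ (S ∪ S₁) Finset.subset_union_right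
      (hgood S₁ hS₁) c₁ c₂ hc₁ hc₂
    rw [hc, ← e1, e2]
  · exact ⟨1, one_pos, fun S hS => absurd ⟨S, hS⟩ hex⟩

/-! ## 4. The image in the product of the local groups -/

attribute [local instance] instMeasGLv925 instBorelGLv925

/-- The Borel σ-algebra of `GL₂(ℝ)` (local instance of this file). -/
local instance instMeasGLRQ925 : MeasurableSpace (GL (Fin 2) ℝ) := borel _

local instance instBorelGLRQ925 : BorelSpace (GL (Fin 2) ℝ) := ⟨rfl⟩

/-- The inclusion of the product of the local tori in the product of the local groups. -/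
def jSQ925 (γ : GL (Fin 2) ℚ) (S : Finset (HeightOneSpectrum (𝓞 ℚ))) :
    HSQ925 γ S → (∀ v : S, GL (Fin 2) ((v : HeightOneSpectrum (𝓞 ℚ)).adicCompletion ℚ)) ×
      GL (Fin 2) ℝ :=
  Prod.map (fun a v => ((a v : Tv925 γ v.1) : GL (Fin 2) (v.1.adicCompletion ℚ)))
    (fun b => ((b : TrQ925 γ) : GL (Fin 2) ℝ))

theorem measurable_val_TrQ925 (γ : GL (Fin 2) ℚ) :
    @Measurable (TrQ925 γ) (GL (Fin 2) ℝ) (borel _) (borel _) Subtype.val :=
  continuous_subtype_val.measurable

theorem measurableEmbedding_val_TrQ925 (γ : GL (Fin 2) ℚ) :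
    @MeasurableEmbedding (TrQ925 γ) (GL (Fin 2) ℝ) (borel _) (borel _) Subtype.val :=
  @Topology.IsClosedEmbedding.measurableEmbedding (TrQ925 γ)
    (GL (Fin 2) ℝ) _ (borel _) ⟨rfl⟩ _ (borel _) ⟨rfl⟩ Subtype.val
    (isClosed_TrQ925 γ).isClosedEmbedding_subtypeVal

theorem measurable_jSQ925 (γ : GL (Fin 2) ℚ) (S : Finset (HeightOneSpectrum (𝓞 ℚ))) :
    Measurable (jSQ925 γ S) := by
  have m1 : Measurable (fun (a : ∀ v : S, Tv925 γ v.1) (v : S) =>
      ((a v : Tv925 γ v.1) : GL (Fin 2) (v.1.adicCompletion ℚ))) :=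
    measurable_pi_lambda _ fun v => (measurable_val_Tv925 γ v.1).comp (measurable_pi_apply v)
  exact m1.prodMap (measurable_val_TrQ925 γ)

theorem map_jS_prSQ925 (γ : GL (Fin 2) ℚ)
    (μt : ∀ v : HeightOneSpectrum (𝓞 ℚ), Measure (Tv925 γ v))
    (μtr : Measure (TrQ925 γ))
    [∀ v, (μt v).IsHaarMeasure] [μtr.IsHaarMeasure]
    (S : Finset (HeightOneSpectrum (𝓞 ℚ))) :
    Measure.map (jSQ925 γ S) (prSQ925 γ μt μtr S)
      = (Measure.pi fun v : S => Measure.map Subtype.val (μt v.1)).prod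
          (Measure.map Subtype.val μtr) := by
  have h1 : ∀ v : S, SigmaFinite (μt v.1) := fun v => inferInstance
  have h2 : ∀ v : S, SigmaFinite (Measure.map Subtype.val (μt v.1)) :=
    fun v => (measurableEmbedding_val_Tv925 γ v.1).sigmaFinite_map
  have m1 : Measurable (fun (a : ∀ v : S, Tv925 γ v.1) (v : S) =>
      ((a v : Tv925 γ v.1) : GL (Fin 2) (v.1.adicCompletion ℚ))) :=
    measurable_pi_lambda _ fun v => (measurable_val_Tv925 γ v.1).comp (measurable_pi_apply v)
  rw [prSQ925, jSQ925, ← Measure.map_prod_map _ _ m1 (measurable_val_TrQ925 γ),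
    Measure.pi_map_pi (fun v : S => (measurable_val_Tv925 γ v.1).aemeasurable)]

/-- **THE TORUS CONSTANT over `ℚ`** (in the product of the local groups). -/
theorem torSplit_ambQ925 (γ : GL (Fin 2) ℚ) (μT : Measure (TA925 γ))
    [μT.IsHaarMeasure] (μt : ∀ v : HeightOneSpectrum (𝓞 ℚ), Measure (Tv925 γ v))
    (μtr : Measure (TrQ925 γ))
    [∀ v, (μt v).IsHaarMeasure] [μtr.IsHaarMeasure]
    (hnorm : ∀ v : HeightOneSpectrum (𝓞 ℚ),
      μt v {t | Valued.v ((t : GL (Fin 2) (v.adicCompletion ℚ)) :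
          Matrix (Fin 2) (Fin 2) (v.adicCompletion ℚ)).trace ≤ 1 ∧
        Valued.v ((t : GL (Fin 2) (v.adicCompletion ℚ)) :
          Matrix (Fin 2) (Fin 2) (v.adicCompletion ℚ)).det = 1} = 1) :
    ∃ c : ℝ, 0 < c ∧ ∀ S : Finset (HeightOneSpectrum (𝓞 ℚ)), GoodOut305 S γ →
      Measure.map (fun t : TA925 γ => MQ298.compSQ298 S (t : G ℚ))
          (μT.restrict {t | OutT305 S (t : G ℚ)})
        = ENNReal.ofReal c •
          ((Measure.pi fun v : S => Measure.map Subtype.val (μt v.1)).prod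
            (Measure.map Subtype.val μtr)) := by
  obtain ⟨c, hc0, hc⟩ := torSplit_prodQ925 γ μT μt μtr hnorm
  refine ⟨(c : ℝ), by exact_mod_cast hc0, fun S hS => ?_⟩
  have e := hc S hS
  have hset : {t : TA925 γ | OutT305 S (t : G ℚ)} = (ES925 γ S : Set (TA925 γ)) :=
    Set.ext fun t => (mem_ES_iff_out925 γ S t).symm
  have hfun : (fun t : TA925 γ => MQ298.compSQ298 S (t : G ℚ)) = jSQ925 γ S ∘ qSQ925 γ S := rfl
  rw [hset, hfun, ← Measure.map_map (measurable_jSQ925 γ S) (continuous_qSQ925 γ S).measurable,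
    ← map_jS_prSQ925, ENNReal.ofReal_coe_nnreal]
  have e' : Measure.map (qSQ925 γ S) (μT.restrict (ES925 γ S : Set (TA925 γ)))
      = c • prSQ925 γ μt μtr S := e
  rw [e']
  refine Measure.ext fun A hA => ?_
  rw [Measure.map_apply (measurable_jSQ925 γ S) hA, Measure.smul_apply, Measure.smul_apply,
    Measure.map_apply (measurable_jSQ925 γ S) hA]
  rfl

/-! ## 5. The leaf -/

/-- **Q2.7.5 `MQ298.TorSplitQC298`**, verbatim, unconditional. -/
theorem torSplitQC925 : MQ298.TorSplitQC298 := by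
  intro γ _ μT hμT L hLt hLr
  have i1 : μT.IsHaarMeasure := hμT
  have i2 : ∀ v : HeightOneSpectrum (𝓞 ℚ), (L.μt v).IsHaarMeasure := fun v => (hLt v).1
  have i3 : L.μtr.IsHaarMeasure := hLr
  obtain ⟨c, hc0, hc⟩ := torSplit_ambQ925 γ μT L.μt L.μtr (fun v => (hLt v).2)
  exact ⟨c, hc0, fun S hS => hc S hS⟩

end Fermat.Agent.LT.T7.H925.TorSplit

end

end
-- ===== PACK-END LT/T7/H925/TorSplitQ.lean

-- ===== PACK-BEGIN LT/T7/H751/FactDownQTopB.lean
section





/-!
# Row LT, tower T7, node Q2.7.7 `MQ298.FactDownQC298` (helper751, registry 2675 / 2704):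
# the top of PART B (the integral part)

OFF-MAIN.  Complete proof, nothing assumed.

    factIntDownQC_of751 : MQ298.HaarSplitQC298 → H558.OutOpenC558 ℚ → H558.CompContC558 ℚ →
        ReContQC751 → H558.BiInvContC558 ℚ → RayFinQC751 → PtFactQC751 → ArchIntblRC751 →
        H558.HaarSigmaC558 ℚ → HaarSigmaRC751 → FactIntDownQC751

Route.  On `Out_S` the integrand is `c_T⁻¹ ∏_v a_v(y_v) ∑_{j ∈ J} b_j(y_∞)` (`PtFactQC751`,
`RayFinQC751`), `0` outside; `HaarSplitQC298` and the abstract Fubini step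
`integral_split751` (`FactAbs.lean`, Mathlib only); the real factors are integrable
(`ArchIntblRC751`; the real component of `r^j` is a scalar matrix).
-/

set_option autoImplicit false

open AutomorphicForm IsDedekindDomain NumberField MeasureTheory
open scoped ComplexConjugate

noncomputable section

namespace Fermat.Agent.LT.T7.H751

open Fermat.Agent.LT.H556 Fermat.Agent.LT.H556.A0 Fermat.Agent.LT.T7 Fermat.Agent.LT.T7.H305

attribute [local instance] Fermat.Agent.LT.T5.instMeasurableSpaceG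

/-! ## 1. The real component of the ray -/

theorem reHomQ_ofReal751 (x : Adl ℚ) :
    ((MQ298.reHomQ298 x : ℝ) : ℂ) = T5.infHom Rat.infinitePlace x :=
  InfinitePlace.Completion.extensionEmbeddingOfIsReal_apply Rat.isReal_infinitePlace _

/-- The real component of the ray generator is a scalar matrix. -/
theorem reGL_ray_scalar751 {r : G ℚ} (hr : T5.IsRayGen r) :
    ∃ t : ℝ, ((MQ298.reGLQ298 r : GL (Fin 2) ℝ) : Matrix (Fin 2) (Fin 2) ℝ)
      = Matrix.diagonal fun _ => t := by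
  obtain ⟨-, t, -, -, hinf⟩ := hr
  refine ⟨t, ?_⟩
  ext a b
  have h1 := congrFun (congrFun (hinf Rat.infinitePlace) a) b
  have h2 : infComp Rat.infinitePlace r a b
      = ((MQ298.reHomQ298 ((r : Matrix (Fin 2) (Fin 2) (Adl ℚ)) a b) : ℝ) : ℂ) :=
    (reHomQ_ofReal751 _).symm
  rw [h2] at h1
  have h3 : ((MQ298.reGLQ298 r : GL (Fin 2) ℝ) : Matrix (Fin 2) (Fin 2) ℝ) a b
      = MQ298.reHomQ298 ((r : Matrix (Fin 2) (Fin 2) (Adl ℚ)) a b) := rfl
  rw [h3]
  apply Complex.ofReal_injective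
  rw [h1]
  by_cases hab : a = b
  · subst hab
    simp
  · simp [Matrix.diagonal_apply_ne _ hab]

theorem reGL_ray_comm751 {r : G ℚ} (hr : T5.IsRayGen r) (g : GL (Fin 2) ℝ) :
    MQ298.reGLQ298 r * g = g * MQ298.reGLQ298 r := by
  obtain ⟨t, ht⟩ := reGL_ray_scalar751 hr
  apply Units.ext
  change ((MQ298.reGLQ298 r : GL (Fin 2) ℝ) : Matrix (Fin 2) (Fin 2) ℝ)
      * (g : Matrix (Fin 2) (Fin 2) ℝ)
    = (g : Matrix (Fin 2) (Fin 2) ℝ) * ((MQ298.reGLQ298 r : GL (Fin 2) ℝ) : Matrix (Fin 2) (Fin 2) ℝ)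
  rw [ht]
  ext i j
  simp [Matrix.diagonal_mul, Matrix.mul_diagonal, mul_comm]

theorem reGL_ray_zpow_comm751 {r : G ℚ} (hr : T5.IsRayGen r) (j : ℤ) (g : GL (Fin 2) ℝ) :
    MQ298.reGLQ298 (r ^ j) * g = g * MQ298.reGLQ298 (r ^ j) := by
  rw [map_zpow]
  exact (Commute.zpow_left (show Commute (MQ298.reGLQ298 r) g from reGL_ray_comm751 hr g) j).eq

/-! ## 2. The local integrands -/

/-- The local integrand at the finite place `v`. -/
def aFn751 {γ : GL (Fin 2) ℚ} (L : MQ298.LocDataQ298 γ)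
    (f₀ : ∀ v : HeightOneSpectrum (𝓞 ℚ), GL (Fin 2) (v.adicCompletion ℚ) → ℂ)
    (v : HeightOneSpectrum (𝓞 ℚ)) : GL (Fin 2) (v.adicCompletion ℚ) → ℂ :=
  H558.locFn558 (L.βv v) (f₀ v) (locG305 v γ)

/-- The local integrand at the real place, term `j` of the ray. -/
def bFn751 (r : G ℚ) {γ : GL (Fin 2) ℚ} (L : MQ298.LocDataQ298 γ) (Fr : GL (Fin 2) ℝ → ℂ)
    (j : ℤ) : GL (Fin 2) ℝ → ℂ :=
  H558.locFn558 L.βr Fr (MQ298.reGLQ298 (T5.ratG γ * r ^ j))

theorem continuous_locFn751 {H : Type} [Group H] [TopologicalSpace H] [IsTopologicalGroup H]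
    {β : H → ℝ} {f : H → ℂ} (hβ : Continuous β) (hf : Continuous f) (γ : H) :
    Continuous (H558.locFn558 β f γ) := by
  unfold H558.locFn558
  exact (hf.comp ((continuous_inv.mul continuous_const).mul continuous_id)).mul
    (Complex.continuous_ofReal.comp hβ)

/-- The pointwise form of the integrand on `Out_S`. -/
theorem integrand_eq751 (hPF : PtFactQC751)
    (R : Frame5 ℚ) (hR : IsFrame5 R) (S : Finset (HeightOneSpectrum (𝓞 ℚ)))
    (f₀ : ∀ v : HeightOneSpectrum (𝓞 ℚ), GL (Fin 2) (v.adicCompletion ℚ) → ℂ)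
    (Fr : GL (Fin 2) ℝ → ℂ) (γ : GL (Fin 2) ℚ) (hint : IntOut305 S γ)
    (L : MQ298.LocDataQ298 γ) (cT : ℝ) (J : Finset ℤ)
    (hJ : ∀ j : ℤ, j ∉ J →
      ∀ z : GL (Fin 2) ℝ, Fr (z⁻¹ * MQ298.reGLQ298 (T5.ratG γ * R.r ^ j) * z) = 0)
    (y : G ℚ) :
    T5.twTerm R.r (T5.AdelicAut.id ℚ) (MQ298.pureQ298 S f₀ Fr) γ y
        * ((MQ298.prodCutQ298 S cT L y : ℝ) : ℂ)
      = Set.indicator {y : G ℚ | OutT305 S y}
          (fun y => ((cT⁻¹ : ℝ) : ℂ) *
            ((∏ v : S, aFn751 L f₀ v.1 ((MQ298.compSQ298 S y).1 v))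
              * ∑ j ∈ J, bFn751 R.r L Fr j (MQ298.compSQ298 S y).2)) y := by
  classical
  by_cases hy : OutT305 S y
  · rw [Set.indicator_of_mem (show y ∈ {y : G ℚ | OutT305 S y} from hy)]
    have h1 : T5.twTerm R.r (T5.AdelicAut.id ℚ) (MQ298.pureQ298 S f₀ Fr) γ y
        = ∑ j ∈ J, (∏ v ∈ S, f₀ v ((finGL305 v y)⁻¹ * locG305 v γ * finGL305 v y)) *
            Fr ((MQ298.reGLQ298 y)⁻¹ * MQ298.reGLQ298 (T5.ratG γ * R.r ^ j)
              * MQ298.reGLQ298 y) := by
      show (∑' j : ℤ, MQ298.pureQ298 S f₀ Fr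
        (y⁻¹ * T5.ratG γ * (T5.AdelicAut.id ℚ).onG y * R.r ^ j)) = _
      rw [tsum_eq_sum (s := J)]
      · exact Finset.sum_congr rfl fun j _ => hPF R.r hR.ray S f₀ Fr γ hint y j hy
      · intro j hj
        rw [hPF R.r hR.ray S f₀ Fr γ hint y j hy, hJ j hj, mul_zero]
    have h2 : MQ298.prodCutQ298 S cT L y
        = cT⁻¹ * (∏ v ∈ S, L.βv v (finGL305 v y)) * L.βr (MQ298.reGLQ298 y) := by
      show (if OutT305 S y then _ else _) = _
      rw [if_pos hy]
    have h3 : (∏ v : S, aFn751 L f₀ v.1 ((MQ298.compSQ298 S y).1 v))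
        = (∏ v ∈ S, f₀ v ((finGL305 v y)⁻¹ * locG305 v γ * finGL305 v y))
          * ((∏ v ∈ S, L.βv v (finGL305 v y) : ℝ) : ℂ) := by
      rw [Complex.ofReal_prod, ← Finset.prod_mul_distrib]
      exact Finset.prod_coe_sort S
        (fun v => f₀ v ((finGL305 v y)⁻¹ * locG305 v γ * finGL305 v y)
          * ((L.βv v (finGL305 v y) : ℝ) : ℂ))
    have h4 : (∑ j ∈ J, bFn751 R.r L Fr j (MQ298.compSQ298 S y).2)
        = (∑ j ∈ J, Fr ((MQ298.reGLQ298 y)⁻¹ * MQ298.reGLQ298 (T5.ratG γ * R.r ^ j)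
              * MQ298.reGLQ298 y)) * ((L.βr (MQ298.reGLQ298 y) : ℝ) : ℂ) := by
      rw [Finset.sum_mul]
      rfl
    rw [h1, h2, h3, h4, ← Finset.mul_sum]
    push_cast
    ring
  · rw [Set.indicator_of_notMem (show y ∉ {y : G ℚ | OutT305 S y} from hy)]
    have h2 : MQ298.prodCutQ298 S cT L y = 0 := by
      show (if OutT305 S y then _ else _) = _
      rw [if_neg hy]
    rw [h2, Complex.ofReal_zero, mul_zero]

/-! ## 3. The top of PART B -/

/-- **THE TOP OF PART B.** -/
theorem factIntDownQC_of751 (hHS : MQ298.HaarSplitQC298) (hOpen : H558.OutOpenC558 ℚ)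
    (hCont : H558.CompContC558 ℚ) (hRe : ReContQC751) (hBI : H558.BiInvContC558 ℚ)
    (hRF : RayFinQC751) (hPF : PtFactQC751) (hAI : ArchIntblRC751)
    (hσ : H558.HaarSigmaC558 ℚ) (hσR : HaarSigmaRC751) : FactIntDownQC751 := by
  classical
  intro R hR μr hμr T₀ m hm
  obtain ⟨c, hc, hsplit⟩ := hHS R.μ hR.frame.haar μr hμr T₀ m hm
  refine ⟨c, hc, ?_⟩
  intro S hS f₀ Fr hf₀ hFc hFs γ hγ hgood μT _hμT L cT hL _hcT _hT
  have hsp := hsplit S hS L.μv hL.haar
  have hint : IntOut305 S γ := fun v hv => (hgood v hv).1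
  obtain ⟨J, hJ⟩ := hRF R.r hR.ray Fr hFc hFs γ
  -- measurable structures
  have hBG : BorelSpace (G ℚ) := ⟨rfl⟩
  let mv : ∀ v : HeightOneSpectrum (𝓞 ℚ), MeasurableSpace (GL (Fin 2) (v.adicCompletion ℚ)) :=
    fun _ => borel _
  let mr : MeasurableSpace (GL (Fin 2) ℝ) := borel _
  have hBv : ∀ v : HeightOneSpectrum (𝓞 ℚ), BorelSpace (GL (Fin 2) (v.adicCompletion ℚ)) :=
    fun _ => ⟨rfl⟩
  have hBr : BorelSpace (GL (Fin 2) ℝ) := ⟨rfl⟩
  have hσv : ∀ v : S, SigmaFinite (L.μv v.1) := fun v => hσ.1 v.1 (L.μv v.1) (hL.haar v.1).1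
  have hσr : SigmaFinite μr := hσR.1 μr hμr
  -- the components are measurable
  have hcomp : Measurable (MQ298.compSQ298 S) := by
    refine Measurable.prodMk ?_ ?_
    · exact measurable_pi_lambda _ fun v => (hCont.1 v.1).measurable
    · exact hRe.measurable
  -- the local integrands
  have ha : ∀ v : S, Measurable (aFn751 L f₀ v.1) := fun v =>
    (continuous_locFn751 (hL.cut v.1).1 (hBI v.1 (m v.1) (f₀ v.1) (hf₀ v.1 v.2).1)
      (locG305 v.1 γ)).measurable
  have hbc : ∀ j : ℤ, Continuous (bFn751 R.r L Fr j) := fun j =>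
    continuous_locFn751 hL.cutr.1 hFc _
  have hbi : ∀ j ∈ J, Integrable (bFn751 R.r L Fr j) μr := by
    intro j _
    have h := hAI μr hμr Fr hFc hFs (MQ298.reGLQ298 (T5.ratG γ)) (MQ298.isReg_reGLQ298 hγ)
      (MQ298.reGLQ298 (R.r ^ j)) (reGL_ray_zpow_comm751 hR.ray j) L.μtr hL.torr L.βr hL.cutr
    have e : MQ298.reGLQ298 (T5.ratG γ) * MQ298.reGLQ298 (R.r ^ j)
        = MQ298.reGLQ298 (T5.ratG γ * R.r ^ j) := (map_mul _ _ _).symm
    rw [e] at h
    exact h
  -- the integral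
  have key := integral_split751 R.μ (fun v : S => L.μv v.1) μr {y : G ℚ | OutT305 S y}
    (MQ298.compSQ298 S) hcomp c hc.le hsp (fun v : S => aFn751 L f₀ v.1) ha J
    (fun j => bFn751 R.r L Fr j) (fun j _ => (hbc j).measurable) hbi
  have hL1 : cutInt305 R.r (T5.AdelicAut.id ℚ) (MQ298.pureQ298 S f₀ Fr) γ R.μ
        (MQ298.prodCutQ298 S cT L)
      = ((cT⁻¹ : ℝ) : ℂ) * ((c : ℂ) * ((∏ v : S, ∫ y, aFn751 L f₀ v.1 y ∂(L.μv v.1))
          * ∑ j ∈ J, ∫ z, bFn751 R.r L Fr j z ∂μr)) := by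
    unfold cutInt305
    rw [← key, ← integral_const_mul, ← integral_indicator (hOpen S).measurableSet]
    refine integral_congr_ae (Filter.Eventually.of_forall fun y => ?_)
    exact integrand_eq751 hPF R hR S f₀ Fr γ hint L cT J hJ y
  have hR1 : MQ298.factValQ298 R.r S L f₀ μr Fr
      = (∏ v : S, ∫ y, aFn751 L f₀ v.1 y ∂(L.μv v.1))
          * ∑ j ∈ J, ∫ z, bFn751 R.r L Fr j z ∂μr := by
    unfold MQ298.factValQ298
    have e1 : (∏ v ∈ S, locInt305 (L.μv v) (L.βv v) (f₀ v) (locG305 v γ))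
        = ∏ v : S, ∫ y, aFn751 L f₀ v.1 y ∂(L.μv v.1) :=
      (Finset.prod_coe_sort S
        (fun v => locInt305 (L.μv v) (L.βv v) (f₀ v) (locG305 v γ))).symm
    rw [tsum_eq_sum (s := J), ← Finset.mul_sum, e1]
    · rfl
    · intro j hj
      have h0 : locInt305 μr L.βr Fr (MQ298.reGLQ298 (T5.ratG γ * R.r ^ j)) = 0 := by
        unfold locInt305
        have : (fun y : GL (Fin 2) ℝ =>
            Fr (y⁻¹ * MQ298.reGLQ298 (T5.ratG γ * R.r ^ j) * y) * ((L.βr y : ℝ) : ℂ))
            = fun _ => 0 := by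
          funext y
          rw [hJ j hj y, zero_mul]
        rw [this, integral_zero]
      rw [h0, mul_zero]
  rw [hL1, hR1]
  push_cast
  ring

end Fermat.Agent.LT.T7.H751

end

end
-- ===== PACK-END LT/T7/H751/FactDownQTopB.lean

-- ===== PACK-BEGIN LT/T7/H949/CutOnOutQ.lean
section




/-!
# Row LT, tower T7, node Q2.7.7 `MQ298.FactDownQC298`, leaf FDQ.5 `H751.CutOnOutQC751`
# (registry 2699) -- helper949

OFF-MAIN.  `cutOnOutQC949 : H751.CutOnOutQC751`, UNCONDITIONAL, VERBATIM Prop of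
`LT/T7/H751/FactDownQSpec.lean` (helper751@e9ffa788e, sha256 aa280353).

MIRROR over `ℚ` of the proof of the cubic leaf `H558.CutOnOutC558` by helper385
(`T7/H385/CutOnOut.lean`), ported to ONE real place, `GL₂(ℝ)`.

Proof.  `Out_S` is an open subgroup (`H942.isOpen_integralOutside942`), so for `x' ∈ Out_S`:
`t x' ∈ Out_S ⟺ t ∈ Out_S`, and `A = {t ∈ T_𝔸(γ) : t ∈ Out_S}` is measurable.  The integrand is
`1_A(t) g(compSQ298 S t)`, `g(a, b) = cT⁻¹ ∏_v β_v(a_v x'_v) β_r(b x'_∞)`; the image of `μT|_A`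
under `compSQ298 S` is `cT` times the product of the local torus measures (`IsTorConstQ298`);
Fubini for products (`integral_prod_mul`, `integral_fintype_prod_eq_prod`); the local integrals
are `1` (`IsLocCut305`, `IsCut305`).
-/

set_option autoImplicit false
set_option linter.style.haveILetI false

open AutomorphicForm IsDedekindDomain NumberField MeasureTheory

noncomputable section

namespace Fermat.Agent.LT.T7.H949

open Fermat.Agent.LT Fermat.Agent.LT.H556 Fermat.Agent.LT.H556.A0 Fermat.Agent.LT.T7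
open Fermat.Agent.LT.T7.H305 Fermat.Agent.LT.T7.H558 Fermat.Agent.LT.T7.H751

/-! ## 1. The abstract computation -/

open Classical in
/-- Fubini for a cut-off of product form (finite product times one factor). -/
theorem integral_cutQ_abs949 {X : Type*} [MeasurableSpace X] {ι : Type*} [Fintype ι]
    {Y : ι → Type*} [∀ i, MeasurableSpace (Y i)] {Z : Type*} [MeasurableSpace Z]
    (μ : Measure X) (A : Set X) (hA : MeasurableSet A)
    (φ : X → (∀ i, Y i) × Z) (hφ : Measurable φ)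
    (ν : ∀ i, Measure (Y i)) (ρ : Measure Z) [∀ i, SigmaFinite (ν i)] [SigmaFinite ρ]
    (c : ℝ) (hc : 0 < c)
    (hmap : Measure.map φ (μ.restrict A) = ENNReal.ofReal c • ((Measure.pi ν).prod ρ))
    (a : ∀ i, Y i → ℝ) (b : Z → ℝ) (ha : ∀ i, Measurable (a i)) (hb : Measurable b)
    (ha1 : ∀ i, ∫ y, a i y ∂ν i = 1) (hb1 : ∫ z, b z ∂ρ = 1) :
    ∫ x, (if x ∈ A then c⁻¹ * (∏ i, a i ((φ x).1 i)) * b (φ x).2 else 0) ∂μ = 1 := by
  set g : (∀ i, Y i) × Z → ℝ := fun p => c⁻¹ * (∏ i, a i (p.1 i)) * b p.2 with hg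
  have hgm : Measurable g := by
    refine (measurable_const.mul ?_).mul ?_
    · exact Finset.measurable_prod _ fun i _ =>
        (ha i).comp ((measurable_pi_apply i).comp measurable_fst)
    · exact hb.comp measurable_snd
  have e1 : (fun x => if x ∈ A then c⁻¹ * (∏ i, a i ((φ x).1 i)) * b (φ x).2 else 0)
      = A.indicator (fun x => g (φ x)) := by
    funext x
    by_cases hx : x ∈ A
    · rw [if_pos hx, Set.indicator_of_mem hx]
    · rw [if_neg hx, Set.indicator_of_notMem hx]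
  rw [e1, integral_indicator hA, ← integral_map hφ.aemeasurable hgm.aestronglyMeasurable, hmap,
    integral_smul_measure, ENNReal.toReal_ofReal hc.le]
  have e2 : ∫ p, g p ∂((Measure.pi ν).prod ρ)
      = c⁻¹ * ((∫ y, ∏ i, a i (y i) ∂(Measure.pi ν)) * ∫ z, b z ∂ρ) := by
    rw [← integral_prod_mul, ← integral_const_mul]
    congr 1
    funext p
    show (c⁻¹ * ∏ i, a i (p.1 i)) * b p.2 = _
    rw [mul_assoc]
  rw [e2, integral_fintype_prod_eq_prod]
  simp only [ha1, hb1, Finset.prod_const_one, mul_one, smul_eq_mul]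
  exact mul_inv_cancel₀ hc.ne'

/-! ## 2. `Out_S` is a subgroup -/

section Out

variable {K : Type} [Field K] [NumberField K]

theorem isIntegralAt_mulQ949 {v : HeightOneSpectrum (𝓞 K)} {a b : G K}
    (ha : IsIntegralAt v a) (hb : IsIntegralAt v b) : IsIntegralAt v (a * b) := by
  intro i j
  rw [H942.finComp_mul942, Matrix.mul_apply]
  exact sum_mem fun k _ => mul_mem (ha i k) (hb k j)

theorem outT_mulQ949 {S : Finset (HeightOneSpectrum (𝓞 K))} {a b : G K}
    (ha : OutT305 S a) (hb : OutT305 S b) : OutT305 S (a * b) := fun v hv =>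
  ⟨isIntegralAt_mulQ949 (ha v hv).1 (hb v hv).1, by
    rw [mul_inv_rev]
    exact isIntegralAt_mulQ949 (hb v hv).2 (ha v hv).2⟩

theorem outT_invQ949 {S : Finset (HeightOneSpectrum (𝓞 K))} {a : G K}
    (ha : OutT305 S a) : OutT305 S a⁻¹ := fun v hv =>
  ⟨(ha v hv).2, by rw [inv_inv]; exact (ha v hv).1⟩

theorem outT_mul_iffQ949 {S : Finset (HeightOneSpectrum (𝓞 K))} {t x : G K}
    (hx : OutT305 S x) : OutT305 S (t * x) ↔ OutT305 S t := by
  constructor
  · intro h
    have := outT_mulQ949 h (outT_invQ949 hx)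
    rwa [mul_inv_cancel_right] at this
  · intro h
    exact outT_mulQ949 h hx

end Out

/-! ## 3. The leaf -/

/-- **Leaf FDQ.5 `CutOnOutQC751`**, unconditional. -/
theorem cutOnOutQC949 : CutOnOutQC751 := by
  intro hσv hσr hcontv hre m S γ hell hgood μT hμT L cT hL hcT hconst x' hx'
  classical
  letI iT : MeasurableSpace (tA305 (T5.AdelicAut.id ℚ) γ) := borel _
  haveI bT : BorelSpace (tA305 (T5.AdelicAut.id ℚ) γ) := ⟨rfl⟩
  letI iv : ∀ v : HeightOneSpectrum (𝓞 ℚ), MeasurableSpace (GL (Fin 2) (v.adicCompletion ℚ)) :=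
    fun _ => borel _
  haveI bv : ∀ v : HeightOneSpectrum (𝓞 ℚ), BorelSpace (GL (Fin 2) (v.adicCompletion ℚ)) :=
    fun _ => ⟨rfl⟩
  letI ic : MeasurableSpace (GL (Fin 2) ℝ) := borel _
  haveI bc : BorelSpace (GL (Fin 2) ℝ) := ⟨rfl⟩
  letI itv : ∀ v : HeightOneSpectrum (𝓞 ℚ), MeasurableSpace
      (T6.twCentSub (T6.glAut (RingEquiv.refl (v.adicCompletion ℚ))) (locG305 v γ)) :=
    fun _ => borel _
  haveI btv : ∀ v : HeightOneSpectrum (𝓞 ℚ), BorelSpace
      (T6.twCentSub (T6.glAut (RingEquiv.refl (v.adicCompletion ℚ))) (locG305 v γ)) :=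
    fun _ => ⟨rfl⟩
  letI itc : MeasurableSpace (cent305 (MQ298.reGLQ298 (T5.ratG γ))) := borel _
  haveI btc : BorelSpace (cent305 (MQ298.reGLQ298 (T5.ratG γ))) := ⟨rfl⟩
  have hmap := hconst S hgood
  -- the set `A`
  have hAo : IsOpen {t : tA305 (T5.AdelicAut.id ℚ) γ | OutT305 S (t : G ℚ)} :=
    (H942.isOpen_integralOutside942 S).preimage continuous_subtype_val
  have hAm : MeasurableSet {t : tA305 (T5.AdelicAut.id ℚ) γ | OutT305 S (t : G ℚ)} :=
    hAo.measurableSet
  -- σ-finiteness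
  haveI sν : ∀ i : S, SigmaFinite (Measure.map Subtype.val (L.μt i.1)) :=
    fun i => hσv i.1 (locG305 i.1 γ) (L.μt i.1) (hL.tor i.1).1
  haveI sρ : SigmaFinite (Measure.map Subtype.val L.μtr) :=
    hσr (MQ298.reGLQ298 (T5.ratG γ)) L.μtr hL.torr
  -- measurability of the components
  have hφ : Measurable (fun t : tA305 (T5.AdelicAut.id ℚ) γ => MQ298.compSQ298 S (t : G ℚ)) := by
    refine Measurable.prodMk ?_ ?_
    · exact measurable_pi_lambda _ fun i =>
        ((hcontv i.1).comp continuous_subtype_val).measurable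
    · exact (hre.comp continuous_subtype_val).measurable
  have ha : ∀ i : S, Measurable
      (fun y : GL (Fin 2) (i.1.adicCompletion ℚ) => L.βv i.1 (y * finGL305 i.1 x')) :=
    fun i => ((hL.cut i.1).1.comp (continuous_mul_const _)).measurable
  have hb : Measurable (fun y : GL (Fin 2) ℝ => L.βr (y * MQ298.reGLQ298 x')) :=
    (hL.cutr.1.comp (continuous_mul_const _)).measurable
  -- the local integrals
  have ha1 : ∀ i : S, ∫ y, L.βv i.1 (y * finGL305 i.1 x')
      ∂(Measure.map Subtype.val (L.μt i.1)) = 1 := by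
    intro i
    rw [integral_map continuous_subtype_val.measurable.aemeasurable
      (ha i).aestronglyMeasurable]
    exact (hL.cut i.1).2.2 (finGL305 i.1 x')
  have hb1 : ∫ y, L.βr (y * MQ298.reGLQ298 x') ∂(Measure.map Subtype.val L.μtr) = 1 := by
    rw [integral_map continuous_subtype_val.measurable.aemeasurable hb.aestronglyMeasurable]
    exact hL.cutr.2.2 (MQ298.reGLQ298 x')
  have key := integral_cutQ_abs949 (Y := fun i : S => GL (Fin 2) (i.1.adicCompletion ℚ))
    (Z := GL (Fin 2) ℝ) μT _ hAm _ hφ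
    (fun i : S => Measure.map Subtype.val (L.μt i.1))
    (Measure.map Subtype.val L.μtr) cT hcT hmap
    (fun i y => L.βv i.1 (y * finGL305 i.1 x')) (fun y => L.βr (y * MQ298.reGLQ298 x'))
    ha hb ha1 hb1
  rw [← key]
  congr 1
  funext t
  unfold MQ298.prodCutQ298
  by_cases ht : OutT305 S (t : G ℚ)
  · rw [if_pos ((outT_mul_iffQ949 hx').2 ht), if_pos (show t ∈ {t : tA305 (T5.AdelicAut.id ℚ) γ |
      OutT305 S (t : G ℚ)} from ht)]
    have e1 : ∀ v : HeightOneSpectrum (𝓞 ℚ),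
        finGL305 v ((t : G ℚ) * x') = finGL305 v (t : G ℚ) * finGL305 v x' :=
      fun v => map_mul _ _ _
    have e2 : MQ298.reGLQ298 ((t : G ℚ) * x')
        = MQ298.reGLQ298 (t : G ℚ) * MQ298.reGLQ298 x' := map_mul _ _ _
    simp only [e1, e2]
    rw [← Finset.prod_coe_sort S (fun v => L.βv v (finGL305 v (t : G ℚ) * finGL305 v x'))]
    rfl
  · rw [if_neg (fun h => ht ((outT_mul_iffQ949 hx').1 h)),
      if_neg (show ¬ t ∈ {t : tA305 (T5.AdelicAut.id ℚ) γ | OutT305 S (t : G ℚ)} from ht)]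

end Fermat.Agent.LT.T7.H949

end

end
-- ===== PACK-END LT/T7/H949/CutOnOutQ.lean

-- ===== PACK-BEGIN LT/T7/H78/RayFinQ.lean
section



/-!
# Row LT, tower T7, node Q2.7.7 `MQ298.FactDownQC298`, leaf FDQ.6 `RayFinQC751` (helper78)

OFF-MAIN.  Registry row 2700.  Spec: `LT/T7/H751/FactDownQSpec.lean` (helper751, sha256 aa280353).

    rayFinQC78 : H751.RayFinQC751        VERBATIM, UNCONDITIONAL

## Proof

Mirror of `H301.rayFinC301` (helper301, the cubic leaf `H558.RayFinC558`) with `K = ℚ`, ONE real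
place and `GL₂(ℝ)` instead of `GL₂(ℂ)`.  The real component of `r` is the scalar matrix `t`
(`extensionEmbeddingOfIsReal_apply`: the coercion to `ℂ` of the real component is the complex
component `infComp`), so `|det (z⁻¹ (γ r^j)_∞ z)| = |det γ_∞| · (t²)^j` with `t > 1`
(`t ^ (2 [ℚ:ℚ]) = 2`, `0 < t`).  On the compact support of `Fr` the continuous functions `|det|`
and `|det|⁻¹` are bounded (`IsCompact.bddAbove_image`; no case distinction on the support being
empty), so `|det γ_∞| (t²)^j ≤ b` and `(|det γ_∞| (t²)^j)⁻¹ ≤ b'`, which fails for `|j| > N` as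
soon as `(t²)^N > max (b / c) (b' c)`.  `J = [-N, N]`.  The continuity of `Fr` is not used.

Only Mathlib and the Spec are imported.  Every declaration of this file is in the namespace
`Fermat.Agent.LT.T7.H78`; no equation lemma of an imported definition is used (the definitions
of the Spec are unfolded by `rfl` only).
-/

set_option autoImplicit false
set_option linter.unusedSectionVars false

open IsDedekindDomain NumberField

noncomputable section

namespace Fermat.Agent.LT.T7.H78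

open Fermat.Agent.LT.H556 Fermat.Agent.LT.H556.A0 Fermat.Agent.LT.T7 Fermat.Agent.LT.T7.H305

/-- `|det|` on `GL₂(ℝ)`. -/
def absDetR78 (B : GL (Fin 2) ℝ) : ℝ := |(B : Matrix (Fin 2) (Fin 2) ℝ).det|

theorem absDetR_pos78 (B : GL (Fin 2) ℝ) : 0 < absDetR78 B := by
  have h : IsUnit (B : Matrix (Fin 2) (Fin 2) ℝ).det :=
    (Matrix.isUnit_iff_isUnit_det _).1 B.isUnit
  exact abs_pos.2 h.ne_zero

theorem absDetR_mul78 (A B : GL (Fin 2) ℝ) :
    absDetR78 (A * B) = absDetR78 A * absDetR78 B := by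
  simp only [absDetR78, Units.val_mul, Matrix.det_mul, abs_mul]

theorem absDetR_one78 : absDetR78 (1 : GL (Fin 2) ℝ) = 1 := by
  simp [absDetR78]

/-- `|det|` as a homomorphism to the positive reals (as units of `ℝ`). -/
def absDetRHom78 : GL (Fin 2) ℝ →* ℝˣ where
  toFun B := Units.mk0 (absDetR78 B) (absDetR_pos78 B).ne'
  map_one' := Units.ext absDetR_one78
  map_mul' A B := Units.ext (absDetR_mul78 A B)

theorem absDetR_zpow78 (A : GL (Fin 2) ℝ) (j : ℤ) : absDetR78 (A ^ j) = absDetR78 A ^ j := by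
  have h := map_zpow absDetRHom78 A j
  have h2 := congrArg (fun u : ℝˣ => (u : ℝ)) h
  simpa [absDetRHom78] using h2

theorem absDetR_conj78 (z A : GL (Fin 2) ℝ) : absDetR78 (z⁻¹ * A * z) = absDetR78 A := by
  rw [absDetR_mul78, absDetR_mul78]
  have h := absDetR_mul78 z⁻¹ z
  rw [inv_mul_cancel, absDetR_one78] at h
  calc absDetR78 z⁻¹ * absDetR78 A * absDetR78 z
      = (absDetR78 z⁻¹ * absDetR78 z) * absDetR78 A := by ring
    _ = absDetR78 A := by rw [← h, one_mul]

theorem continuous_absDetR78 : Continuous absDetR78 :=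
  continuous_abs.comp (Continuous.matrix_det Units.continuous_val)

/-- The bound on a compact set. -/
theorem bounds_on_supportR78 (f : GL (Fin 2) ℝ → ℂ) (hf : HasCompactSupport f) :
    ∃ b b' : ℝ, ∀ B : GL (Fin 2) ℝ, f B ≠ 0 → absDetR78 B ≤ b ∧ (absDetR78 B)⁻¹ ≤ b' := by
  have hK : IsCompact (tsupport f) := hf
  obtain ⟨b, hb⟩ := hK.bddAbove_image continuous_absDetR78.continuousOn
  have hc' : Continuous fun B : GL (Fin 2) ℝ => (absDetR78 B)⁻¹ :=
    continuous_absDetR78.inv₀ (fun B => (absDetR_pos78 B).ne')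
  obtain ⟨b', hb'⟩ := hK.bddAbove_image hc'.continuousOn
  refine ⟨b, b', fun B hB => ?_⟩
  have hmem : B ∈ tsupport f := subset_tsupport f hB
  exact ⟨hb (Set.mem_image_of_mem _ hmem), hb' (Set.mem_image_of_mem _ hmem)⟩

/-- The real component of a matrix whose complex component at the real place of `ℚ` is the
scalar `t`. -/
theorem reGLQ_rayGen78 {r : G ℚ} {t : ℝ}
    (htw : infComp Rat.infinitePlace r = Matrix.diagonal (fun _ => (t : ℂ))) :
    ((MQ298.reGLQ298 r : GL (Fin 2) ℝ) : Matrix (Fin 2) (Fin 2) ℝ)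
      = Matrix.diagonal (fun _ => t) := by
  ext i j
  have h1 : ((MQ298.reGLQ298 r : GL (Fin 2) ℝ) : Matrix (Fin 2) (Fin 2) ℝ) i j
      = InfinitePlace.Completion.extensionEmbeddingOfIsReal Rat.isReal_infinitePlace
          (((r : Matrix (Fin 2) (Fin 2) (Adl ℚ)) i j).1 Rat.infinitePlace) := rfl
  have h2 : infComp Rat.infinitePlace r i j
      = InfinitePlace.Completion.extensionEmbedding Rat.infinitePlace
          (((r : Matrix (Fin 2) (Fin 2) (Adl ℚ)) i j).1 Rat.infinitePlace) := rfl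
  have h3 := InfinitePlace.Completion.extensionEmbeddingOfIsReal_apply
    Rat.isReal_infinitePlace (((r : Matrix (Fin 2) (Fin 2) (Adl ℚ)) i j).1 Rat.infinitePlace)
  have h4 : (((MQ298.reGLQ298 r : GL (Fin 2) ℝ) : Matrix (Fin 2) (Fin 2) ℝ) i j : ℂ)
      = Matrix.diagonal (fun _ => (t : ℂ)) i j := by
    rw [h1, h3, ← h2, htw]
  have h5 : Matrix.diagonal (fun _ : Fin 2 => (t : ℂ)) i j
      = ((Matrix.diagonal (fun _ : Fin 2 => t) i j : ℝ) : ℂ) := by
    by_cases hij : i = j
    · subst hij; simp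
    · simp [Matrix.diagonal_apply_ne _ hij]
  rw [h5] at h4
  exact Complex.ofReal_injective h4

/-- The determinant of the ray generator at the real place. -/
theorem absDetR_rayGen78 {r : G ℚ} {t : ℝ} (ht0 : 0 < t)
    (htw : infComp Rat.infinitePlace r = Matrix.diagonal (fun _ => (t : ℂ))) :
    absDetR78 (MQ298.reGLQ298 r) = t ^ 2 := by
  rw [absDetR78, reGLQ_rayGen78 htw, Matrix.det_diagonal]
  simp [abs_of_pos ht0]

theorem one_lt_of_rayGenQ78 {t : ℝ} (ht0 : 0 < t) (ht2 : t ^ (2 * Module.finrank ℚ ℚ) = 2) :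
    1 < t := by
  by_contra h
  rw [not_lt] at h
  have h1 : t ^ (2 * Module.finrank ℚ ℚ) ≤ 1 := pow_le_one₀ ht0.le h
  rw [ht2] at h1
  norm_num at h1

/-- Integers of large absolute value are excluded. -/
theorem zpow_outR78 {s c b b' : ℝ} (hs : 1 < s) (hc : 0 < c) :
    ∃ N : ℕ, ∀ j : ℤ, (N : ℤ) < |j| → ¬ (c * s ^ j ≤ b ∧ (c * s ^ j)⁻¹ ≤ b') := by
  obtain ⟨N, hN⟩ := pow_unbounded_of_one_lt (max (b / c) (b' * c)) hs
  have hs0 : 0 < s := lt_trans zero_lt_one hs
  refine ⟨N, fun j hj h => ?_⟩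
  have hN1 : b / c < s ^ N := lt_of_le_of_lt (le_max_left _ _) hN
  have hN2 : b' * c < s ^ N := lt_of_le_of_lt (le_max_right _ _) hN
  rcases lt_abs.1 hj with hpos | hneg
  · -- `N < j`
    have h1 : s ^ (N : ℤ) ≤ s ^ j := zpow_le_zpow_right₀ hs.le hpos.le
    rw [zpow_natCast] at h1
    have h2 : b / c < s ^ j := lt_of_lt_of_le hN1 h1
    rw [div_lt_iff₀ hc] at h2
    have := h.1
    linarith [mul_comm c (s ^ j)]
  · -- `N < -j`
    have h1 : s ^ (N : ℤ) ≤ s ^ (-j) := zpow_le_zpow_right₀ hs.le hneg.le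
    rw [zpow_natCast, zpow_neg] at h1
    have hsj : 0 < s ^ j := zpow_pos hs0 j
    have h2 : b' * c < (s ^ j)⁻¹ := lt_of_lt_of_le hN2 h1
    have h3 : (c * s ^ j)⁻¹ = (s ^ j)⁻¹ / c := by
      rw [mul_inv, div_eq_mul_inv, mul_comm]
    have h4 : b' < (s ^ j)⁻¹ / c := by
      rw [lt_div_iff₀ hc]; exact h2
    have := h.2
    rw [h3] at this
    linarith

/-- **LEAF FDQ.6 = RAY-FIN over `ℚ`** (registry row 2700), VERBATIM, UNCONDITIONAL. -/
theorem rayFinQC78 : H751.RayFinQC751 := by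
  classical
  intro r hr Fr _hFc hFs γ
  obtain ⟨_, t, ht0, ht2, htw⟩ := hr
  have ht1 : 1 < t := one_lt_of_rayGenQ78 ht0 ht2
  have hs : (1 : ℝ) < t ^ 2 := one_lt_pow₀ ht1 (by norm_num)
  obtain ⟨b, b', hbb⟩ := bounds_on_supportR78 Fr hFs
  obtain ⟨N, hN⟩ :=
    zpow_outR78 (b := b) (b' := b') hs (absDetR_pos78 (MQ298.reGLQ298 (T5.ratG γ)))
  refine ⟨Finset.Icc (-(N : ℤ)) N, fun j hj z => ?_⟩
  have hjN : (N : ℤ) < |j| := by
    rw [Finset.mem_Icc, not_and_or, not_le, not_le] at hj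
    rw [lt_abs]
    rcases hj with h | h
    · right; linarith
    · left; exact h
  by_contra hne
  have h1 := hbb _ hne
  rw [absDetR_conj78, map_mul, map_zpow, absDetR_mul78, absDetR_zpow78,
    absDetR_rayGen78 ht0 (htw Rat.infinitePlace)] at h1
  exact hN j hjN h1

example : Fermat.Agent.LT.T7.H751.RayFinQC751 := rayFinQC78

end Fermat.Agent.LT.T7.H78

end
end
-- ===== PACK-END LT/T7/H78/RayFinQ.lean

-- ===== PACK-BEGIN LT/T7/H582/LocEqArch.lean
section







/-!
# Row LT, tower T7, leaf C2.7.13.4 `LocEqArchC340` (helper582, registry row 2623), OFF-MAIN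

**CLOSED, UNCONDITIONAL**: `locEqArchC582 : H340.LocEqArchC340 K K'` (VERBATIM, helper340
`FactUpSpec.lean` sha256 786596dd).

Proof.  (algebra, `ArchAlg.lean`) in the `K`-coordinates the product of the components of
`δ r'^j` at the places over `v` is the component of `γ r^j` at `v`.  (integrability,
`ArchOrbit.lean`, `CutFinite.lean`) the orbit of the regular element `γ_v` of `GL₂(ℂ)` is closed,
so the cut-off function is integrable on the sets `{z : z⁻¹ γ_v r^j z ∈ C}`, `C` compact.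
(Fubini, `ChainFubini.lean`, helper159 `iterL_eq159`) the cyclic chain integral is the cut-off
integral of the iterated convolution.  (`LocHyp305.arch`) the iterated convolution is `F v`.
-/

set_option autoImplicit false

open AutomorphicForm IsDedekindDomain NumberField MeasureTheory
open scoped ComplexConjugate Pointwise

noncomputable section

namespace Fermat.Agent.LT.T7.H582

open Fermat.Agent.LT.H556 Fermat.Agent.LT.H556.A0 Fermat.Agent.LT.T7 Fermat.Agent.LT.T7.H305
open Fermat.Agent.LT.T7.H340 Fermat.Agent.LT.T7.H159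

theorem secondCountable_GL2C582 : SecondCountableTopology (GL (Fin 2) ℂ) := by
  have h1 : SecondCountableTopology (Matrix (Fin 2) (Fin 2) ℂ) :=
    inferInstanceAs (SecondCountableTopology (Fin 2 → Fin 2 → ℂ))
  have : SecondCountableTopology (Matrix (Fin 2) (Fin 2) ℂ)ᵐᵒᵖ :=
    MulOpposite.opHomeomorph.symm.secondCountableTopology
  exact (Units.isEmbedding_embedProduct (M := Matrix (Fin 2) (Fin 2) ℂ)).secondCountableTopology

theorem locallyCompact_GL2C582 : LocallyCompactSpace (GL (Fin 2) ℂ) := by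
  have h1 : LocallyCompactSpace (Matrix (Fin 2) (Fin 2) ℂ) :=
    inferInstanceAs (LocallyCompactSpace (Fin 2 → Fin 2 → ℂ))
  exact (Units.isClosedEmbedding_embedProduct (α := Matrix (Fin 2) (Fin 2) ℂ)).locallyCompactSpace

/-- The two forms of the iterated convolution agree. -/
theorem convL_eq582 (μc : @Measure (GL (Fin 2) ℂ) (borel _)) (Φ : ℕ → GL (Fin 2) ℂ → ℂ)
    (n : ℕ) : convL305 μc Φ n = @convL159 _ _ (borel _) μc Φ n := by
  induction n with
  | zero => rfl
  | succ n ih =>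
    show @T6.convInt _ _ (borel _) μc (convL305 μc Φ n) (Φ (n + 1))
      = @T6.convInt _ _ (borel _) μc (@convL159 _ _ (borel _) μc Φ n) (Φ (n + 1))
    rw [ih]

section OneField

variable {K : Type} [Field K] [NumberField K]

/-- The image of an elliptic element at an infinite place is regular. -/
theorem arch_reg582 (w : InfinitePlace K) (γ : GL (Fin 2) K) (hell : T6.IsEll γ) :
    ((archG305 w γ : GL (Fin 2) ℂ) : Matrix (Fin 2) (Fin 2) ℂ).trace ^ 2
      - 4 * ((archG305 w γ : GL (Fin 2) ℂ) : Matrix (Fin 2) (Fin 2) ℂ).det ≠ 0 := by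
  set e : K →+* ℂ := (T5.infHom w).comp (algebraMap K (Adl K)) with he
  have hval : ((archG305 w γ : GL (Fin 2) ℂ) : Matrix (Fin 2) (Fin 2) ℂ)
      = e.mapMatrix (γ : Matrix (Fin 2) (Fin 2) K) := rfl
  have hdisc : IsUnit ((γ : Matrix (Fin 2) (Fin 2) K).trace ^ 2
      - 4 * (γ : Matrix (Fin 2) (Fin 2) K).det) := hell.1
  have h0 : (γ : Matrix (Fin 2) (Fin 2) K).trace ^ 2
      - 4 * (γ : Matrix (Fin 2) (Fin 2) K).det ≠ 0 := hdisc.ne_zero
  have htr : (e.mapMatrix (γ : Matrix (Fin 2) (Fin 2) K)).trace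
      = e (γ : Matrix (Fin 2) (Fin 2) K).trace := by
    simp [Matrix.trace_fin_two]
  rw [hval, ← RingHom.map_det, htr]
  intro h
  apply h0
  apply e.injective
  rw [map_zero, map_sub, map_pow, map_mul]
  have h4 : e 4 = 4 := map_ofNat e 4
  rw [h4]
  exact h

end OneField

section TwoFields

variable (K K' : Type) [Field K] [NumberField K] [Field K'] [NumberField K'] [Algebra K K']

/-- **LEAF C2.7.13.4 = LOC-EQ-ARCH, CLOSED.** -/
theorem locEqArchC582 : LocEqArchC340 K K' := by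
  intro D hD hcyc _hl2 htc ι hι μc hμc S n m φ₀ Φ f₀ F hloc δ γ hell hnorm L hL w j J hJ
  obtain ⟨hl, w', d, hover, hsucc, hinj, hd, hdι, rfl⟩ := hJ
  letI : MeasurableSpace (GL (Fin 2) ℂ) := borel _
  haveI : BorelSpace (GL (Fin 2) ℂ) := ⟨rfl⟩
  haveI : SecondCountableTopology (GL (Fin 2) ℂ) := secondCountable_GL2C582
  haveI : LocallyCompactSpace (GL (Fin 2) ℂ) := locallyCompact_GL2C582
  haveI : μc.IsHaarMeasure := hμc
  obtain ⟨hβc, hβ0, hβ1⟩ := hL.cutc w
  -- the algebra
  set δ' : ℕ → GL (Fin 2) ℂ := fun a => Matrix.GeneralLinearGroup.map (d a)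
    (infGL305 (w' a) (T5.ratG δ * D.R'.r ^ j)) with hδ'
  have hprod : prodFrom159 δ' D.l 0 = infGL305 w (T5.ratG γ * D.R.r ^ j) :=
    prod_arch582 D ι w w' d hD hcyc htc hι hsucc hd hdι δ γ hnorm j
  -- the ray is central
  set γw : GL (Fin 2) ℂ := archG305 w γ with hγw
  set s : GL (Fin 2) ℂ := (infGL305 w D.R.r) ^ j with hs
  have hgs : infGL305 w (T5.ratG γ * D.R.r ^ j) = γw * s := by
    rw [map_mul, map_zpow]
    rfl
  have hsc : ∀ x : GL (Fin 2) ℂ, s * x = x * s := by
    intro x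
    obtain ⟨-, t, -, -, ht⟩ := hD.frame.ray
    have hc : Commute (infGL305 w D.R.r) x :=
      diag_central582 (t : ℂ) _ x (ray_val582 D.R.r t ht w)
    exact (hc.zpow_left j).eq
  -- integrability
  have hT : IsClosed ((cent305 γw : Subgroup (GL (Fin 2) ℂ)) : Set (GL (Fin 2) ℂ)) := by
    have hc : Continuous (fun x : GL (Fin 2) ℂ => x⁻¹ * γw * x) :=
      (continuous_inv.mul continuous_const).mul continuous_id
    exact isClosed_eq hc continuous_const
  have hfin : ∀ C : Set (GL (Fin 2) ℂ), IsCompact C →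
      ∫⁻ z in {z : GL (Fin 2) ℂ | z⁻¹ * prodFrom159 δ' D.l 0 * z ∈ C},
        ENNReal.ofReal (L.βc w z) ∂μc < ⊤ := by
    intro C hC
    rw [hprod, hgs]
    have hC2 : IsCompact ((fun x : GL (Fin 2) ℂ => x * s⁻¹) '' C) :=
      hC.image (continuous_id.mul continuous_const)
    obtain ⟨Ω, hΩ, hcov⟩ := orbit_cover582 γw (arch_reg582 w γ hell) _ hC2
    have hE : MeasurableSet {z : GL (Fin 2) ℂ | z⁻¹ * (γw * s) * z ∈ C} := by
      have hc : Continuous (fun z : GL (Fin 2) ℂ => z⁻¹ * (γw * s) * z) :=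
        (continuous_inv.mul continuous_const).mul continuous_id
      exact hc.measurable hC.isClosed.measurableSet
    refine lintegral_cut_lt_top582 μc (cent305 γw) hT (L.μtc w) (hL.torc w) (L.βc w)
      hβc.measurable hβ0 hβ1 Ω hΩ _ hE ?_
    intro z hz
    have hz2 : z⁻¹ * γw * z ∈ (fun x : GL (Fin 2) ℂ => x * s⁻¹) '' C := by
      refine ⟨z⁻¹ * (γw * s) * z, hz, ?_⟩
      show z⁻¹ * (γw * s) * z * s⁻¹ = z⁻¹ * γw * z
      have h1 : z⁻¹ * (γw * s) * z = z⁻¹ * γw * z * s := by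
        calc z⁻¹ * (γw * s) * z = z⁻¹ * γw * (s * z) := by simp only [mul_assoc]
          _ = z⁻¹ * γw * (z * s) := by rw [hsc z]
          _ = z⁻¹ * γw * z * s := by simp only [mul_assoc]
      rw [h1, mul_inv_cancel_right]
    obtain ⟨t, ht1, ht2⟩ := hcov z hz2
    exact ⟨⟨t, ht1⟩, ht2⟩
  -- Fubini
  have hΦ : ∀ a : ℕ, Continuous (Φ (w' a)) ∧ HasCompactSupport (Φ (w' a)) :=
    fun a => ⟨(hloc.arch_up (w' a)).1, (hloc.arch_up (w' a)).2.1⟩
  have hF : F w = convL305 μc (fun a => Φ (w' a)) (D.l - 1) := hloc.arch w w' hover hinj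
  have hmain := cyclic_integral_eq582 μc (fun a => Φ (w' a)) hΦ δ' (L.βc w) hβc hβ0 D.l hl hfin
  rw [hprod, ← convL_eq582 μc (fun a => Φ (w' a)) (D.l - 1), ← hF] at hmain
  exact hmain

end TwoFields

end Fermat.Agent.LT.T7.H582

end

end
-- ===== PACK-END LT/T7/H582/LocEqArch.lean

-- ===== PACK-BEGIN LT/T7/H341/WBasisQTop.lean
section





/-!
# Row LT, tower T7, NODE T7.L2Q.3.7.4 `SDQ140.WBasisQC` -- THE ASSEMBLY (helper341)

OFF-MAIN.  PROVED: `wBasisQC_of341 : CuspFormQC n → WSubQC n → V2SubQC341 n → V2BasisQC341 n →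
IwProjQC341 n → SD534.ProjBasisC → SDQ140.WBasisQC n` (VERBATIM vs `H140/DownBasisQSpec.lean`
ccac08d3).  No hole, nothing assumed.  ADDITIVE.  Mirror of `wBasisC_of534` (helper534).
-/

set_option autoImplicit false
set_option linter.unusedSectionVars false
set_option linter.unusedVariables false

open AutomorphicForm IsDedekindDomain NumberField MeasureTheory
open scoped ComplexConjugate

noncomputable section

namespace Fermat.Agent.LT.T7.WBQ341

open Fermat.Agent.LT.H556 Fermat.Agent.LT.H556.A0 Fermat.Agent.LT.H670 Fermat.Agent.LT.T7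
open Fermat.Agent.LT.T7.L2Q Fermat.Agent.LT.T7.SDQ140

attribute [local instance] Fermat.Agent.LT.T5.instMeasurableSpaceG

section Top

/-- `V₂` as a submodule of the functions. -/
def v2SubQ341 {n : QWt} {𝔫 : Ideal (𝓞 ℚ)} {r : G ℚ} {u : HeightOneSpectrum (𝓞 ℚ)}
    (h : IsV2SubQ341 n 𝔫 r u) : Submodule ℂ (G ℚ → ℂ) where
  carrier := {ψ | InV2Q341 n 𝔫 r ψ}
  zero_mem' := h.zero2
  add_mem' := fun {a b} ha hb => h.add2 a b ha hb
  smul_mem' := fun a f hf => h.smul2 a f hf

/-- The members of a class span of `V₂` are eigenfunctions with the data of the class. -/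
theorem inCls2Q_of_mem341 {n : QWt} {𝔫 : Ideal (𝓞 ℚ)} {r : G ℚ} {u : HeightOneSpectrum (𝓞 ℚ)}
    (h2 : IsV2SubQ341 n 𝔫 r u) (v : ℕ → G ℚ → ℂ) (J : Set ℕ) (c : ℕ → EigData ℚ)
    (heig : ∀ j, j ∈ J → InCls2Q341 n 𝔫 r (c j) (v j)) (j₀ : ℕ) (hj₀ : j₀ ∈ J)
    (x : G ℚ → ℂ) (hx : x ∈ SD534.clsSpan v J c (c j₀)) : InCls2Q341 n 𝔫 r (c j₀) x := by
  unfold SD534.clsSpan at hx
  induction hx using Submodule.span_induction with
  | mem f hf =>
    obtain ⟨j, hj, hc, rfl⟩ := hf
    rw [← hc]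
    exact heig j hj
  | zero =>
    have h := h2.smulC2 (c j₀) 0 (v j₀) (heig j₀ hj₀)
    rwa [zero_smul] at h
  | add f f' _ _ hf hf' => exact h2.addC2 (c j₀) f f' hf hf'
  | smul a f _ hf => exact h2.smulC2 (c j₀) a f hf

/-- **THE ASSEMBLY of the node W-BASIS over `ℚ`.** -/
theorem wBasisQC_of341 (n : QWt) (hForm : CuspFormQC n) (hSub : WSubQC n)
    (hV2 : V2SubQC341 n) (hV2B : V2BasisQC341 n) (hIw : IwProjQC341 n)
    (hPB : SD534.ProjBasisC) : WBasisQC n := by
  classical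
  intro μ F r 𝔫 u hlev hty hfr hray hu
  have hF := hForm μ F r 𝔫 hlev hty hfr hray
  have hS := hSub 𝔫 r u
  have h2 := hV2 𝔫 r u
  obtain ⟨v, J₀, c₀, hv⟩ := hV2B μ F r 𝔫 hlev hty hfr hray
  obtain ⟨P, hP⟩ := hIw μ F r 𝔫 u hlev hty hfr hray hu
  have hP0 : P 0 = 0 := by
    have h := hP.smul 0 0
    rwa [zero_smul, zero_smul] at h
  have hPcls : ∀ a : EigData ℚ, ∀ x ∈ SD534.clsSpan v J₀ c₀ a,
      P x ∈ SD534.clsSpan v J₀ c₀ a := by
    intro a x hx
    by_cases hne : ∃ j, j ∈ J₀ ∧ c₀ j = a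
    · obtain ⟨j₀, hj₀, rfl⟩ := hne
      have hxc := inCls2Q_of_mem341 h2 v J₀ c₀ hv.eig j₀ hj₀ x hx
      exact hv.exhaust j₀ hj₀ _ (inCls2Q_of_inClsQ341 (hP.cls _ x hxc))
    · rw [SD534.clsSpan_eq_bot534 v J₀ c₀ a hne] at hx ⊢
      rw [Submodule.mem_bot] at hx
      subst hx
      rw [Submodule.mem_bot]
      exact hP0
  have hWV : wSubQ140 hS ≤ v2SubQ341 h2 := fun χ hχ => inV2Q_of_inWQ341 hχ
  obtain ⟨w, J, cl, hw, hcl, hnorm, horth, hpars, hfin, hexh⟩ :=
    hPB (G ℚ → ℂ) (T5.innerD μ F) (v2SubQ341 h2) (wSubQ140 hS) (EigData ℚ) v J₀ c₀ P hWV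
      (fun x hx y hy z hz =>
        hF.add_left x y z (InV2Q341.inV hx) (InV2Q341.inV hy) (InV2Q341.inV hz))
      (fun a x hx y hy => hF.smul_left a x y (InV2Q341.inV hx) (InV2Q341.inV hy))
      (fun x hx y hy => hF.conj_symm x y (InV2Q341.inV hx) (InV2Q341.inV hy))
      (fun x hx => hF.nonneg x (InV2Q341.inV hx))
      (fun x hx => hF.definite x (InV2Q341.inV hx))
      (fun j hj => (hv.eig j hj).inv)
      hv.norm_one hv.orth
      (fun ψ hψ => hv.parseval ψ hψ)
      hv.finite hP.add hP.smul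
      (fun x hx => hP.mem x hx)
      (fun x hx χ hχ => hP.inner x hx χ hχ)
      hPcls
  have heig : ∀ j, j ∈ J → InClsQ n 𝔫 r u (cl j) (w j) := by
    intro j hj
    obtain ⟨j₀, hj₀, hc⟩ := hcl j hj
    have h1 := (hw j hj).2
    rw [← hc] at h1 ⊢
    exact inClsQ_of_inCls2Q341 (inCls2Q_of_mem341 h2 v J₀ c₀ hv.eig j₀ hj₀ _ h1) (hw j hj).1
  refine ⟨w, J, cl, ⟨heig, ?_, hnorm, horth, fun χ hχ => hpars χ hχ, hfin, ?_⟩⟩
  · intro j hj
    obtain ⟨j₀, hj₀, hc⟩ := hcl j hj
    rw [← hc]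
    exact hv.unit j₀ hj₀
  · intro j₁ hj₁ ψ hψ
    obtain ⟨j₀, hj₀, hc⟩ := hcl j₁ hj₁
    have h1 : InCls2Q341 n 𝔫 r (c₀ j₀) ψ := by
      rw [hc]
      exact inCls2Q_of_inClsQ341 hψ
    have h3 := hv.exhaust j₀ hj₀ ψ h1
    rw [hc] at h3
    exact hexh (cl j₁) ψ hψ.inW h3

end Top

end Fermat.Agent.LT.T7.WBQ341

end

end
-- ===== PACK-END LT/T7/H341/WBasisQTop.lean

-- ===== PACK-BEGIN LT/T7/H16/OpsEig.lean
section






/-!
# Row LT, tower T7 (helper16): the operators `S = ∑_{h ∈ H} R(h)` and `ρ = R(ω)` of an explicit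
system at ONE place preserve the invariances

OFF-MAIN.  `w` a finite place, `ω` supported at `w` with component `antidiag(1, c)`, `H` such that
`H ω` is an Iwahori coset system at `w` (`isIwCosetSystem_link16`).  For a function `ψ` which is
right invariant under the Iwahori elements supported at `w`:

* `sum_left16` : `∑_{h ∈ H} ψ (x k h) = ∑_{h ∈ H} ψ (x h)` for `k ∈ I_w` supported at `w`
  (`R(ω⁻¹) ψ` is Iwahori invariant, `k H ω` is another coset system: kit of helper340);
* `split16` : `k = k_w k'`, `k_w` supported at `w`, `k'` trivial at `w`;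
* `cosetOp_inv16`, `trOp_inv16` : `S ψ`, `ρ ψ` are right invariant under every `k` which is
  Iwahori at `w` and whose part away from `w` fixes `ψ`;
* `inLevelGroup_away16`, `iwCond_away16` : the part away from `w` of a member of `U(𝔫)`, resp. of
  an element of the Iwahori subgroups along an orbit, is again such an element.
-/

set_option autoImplicit false
set_option linter.unusedSectionVars false

open IsDedekindDomain NumberField WithZero

noncomputable section

namespace Fermat.Agent.LT.T7.H16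

open Fermat.Agent.LT.H556 Fermat.Agent.LT.H556.A0 Fermat.Agent.LT.T5 Fermat.Agent.LT.H129
open Fermat.Agent.LT.T7 Fermat.Agent.LT.T7.H340

variable {K : Type} [Field K] [NumberField K] {w : HeightOneSpectrum (𝓞 K)}

/-- Conjugation by `ω` preserves the Iwahori elements supported at `w`. -/
theorem conj_local16 {ω : G K} (hωl : IsLocalAtFin w ω)
    (hωc : ∃ c : w.adicCompletion K, Valued.v c = WithZero.exp (-1 : ℤ) ∧
      finComp w ω = !![0, 1; c, 0]) {u : G K} (hu : IsLocalAtFin w u) (huI : InIwahori w u) :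
    (IsLocalAtFin w (ω * u * ω⁻¹) ∧ InIwahori w (ω * u * ω⁻¹)) ∧
      IsLocalAtFin w (ω⁻¹ * u * ω) ∧ InIwahori w (ω⁻¹ * u * ω) := by
  obtain ⟨c, hc, hω⟩ := hωc
  have hc' : vw16 w c = exp (-1 : ℤ) := hc
  have hc0 : c ≠ 0 := ne_zero_of_v16 hc'
  have hinv : (!![0, 1; c, 0] : Matrix (Fin 2) (Fin 2) (w.adicCompletion K))⁻¹
      = omegaInvM16 c := by
    apply Matrix.inv_eq_right_inv
    exact omegaM16_mul_inv hc0
  rw [inIwahori_iff16] at huI
  refine ⟨⟨isLocalAtFin_mul129 (isLocalAtFin_mul129 hωl hu) (isLocalAtFin_inv129 hωl), ?_⟩,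
    isLocalAtFin_mul129 (isLocalAtFin_mul129 (isLocalAtFin_inv129 hωl) hu) hωl, ?_⟩
  · rw [inIwahori_iff16, finComp_mul16, finComp_mul16, finComp_inv16' w ω, hω, hinv]
    exact isIw16_conj' hc' huI
  · rw [inIwahori_iff16, finComp_mul16, finComp_mul16, finComp_inv16' w ω, hω, hinv]
    exact isIw16_conj hc' huI

/-- `∑_{h ∈ H} ψ (x k h) = ∑_{h ∈ H} ψ (x h)` for `k ∈ I_w` supported at `w`. -/
theorem sum_left16 {H : Finset (G K)} {ω : G K} (hωl : IsLocalAtFin w ω)
    (hωc : ∃ c : w.adicCompletion K, Valued.v c = WithZero.exp (-1 : ℤ) ∧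
      finComp w ω = !![0, 1; c, 0])
    (hlink : IsIwCosetSystem w (H.map (mulRightEmbedding ω))) {ψ : G K → ℂ}
    (hψ : ∀ u : G K, IsLocalAtFin w u → InIwahori w u → ∀ g : G K, ψ (g * u) = ψ g)
    {k : G K} (hk : IsLocalAtFin w k) (hkI : InIwahori w k) (x : G K) :
    ∑ h ∈ H, ψ (x * (k * h)) = ∑ h ∈ H, ψ (x * h) := by
  classical
  set ψ' : G K → ℂ := fun g => ψ (g * ω⁻¹) with hψ'
  have hψ'I : ∀ u : G K, IsLocalAtFin w u → InIwahori w u → ∀ g : G K, ψ' (g * u) = ψ' g := by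
    intro u hu huI g
    have hcj := (conj_local16 hωl hωc hu huI).1
    have e : g * u * ω⁻¹ = g * ω⁻¹ * (ω * u * ω⁻¹) := by group
    show ψ (g * u * ω⁻¹) = ψ (g * ω⁻¹)
    rw [e]
    exact hψ _ hcj.1 hcj.2 _
  have e1 : ∀ y : G K, ∑ h ∈ H, ψ (y * h)
      = ∑ h ∈ H.map (mulRightEmbedding ω), ψ' (y * h) := by
    intro y
    rw [Finset.sum_map]
    refine Finset.sum_congr rfl fun h _ => ?_
    show ψ (y * h) = ψ (y * (h * ω) * ω⁻¹)
    congr 1
    group
  have e2 : ∑ h ∈ H, ψ (x * (k * h)) = ∑ h ∈ H, ψ (x * k * h) :=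
    Finset.sum_congr rfl fun h _ => by rw [mul_assoc]
  rw [e2, e1 (x * k), e1 x]
  have himg : ∑ h ∈ H.map (mulRightEmbedding ω), ψ' (x * k * h)
      = ∑ h ∈ (H.map (mulRightEmbedding ω)).image (fun h => k * h), ψ' (x * h) := by
    rw [Finset.sum_image (fun a _ b _ hab => mul_right_injective k hab)]
    exact Finset.sum_congr rfl fun h _ => by rw [mul_assoc]
  rw [himg]
  exact iwSum_indep340 (isIwCosetSystem_translate340 hlink hk hkI) hlink ψ' hψ'I x

/-- The decomposition `k = k_w k'`: `k_w` supported at `w`, `k'` trivial at `w`. -/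
theorem split16 (w : HeightOneSpectrum (𝓞 K)) (k : G K) :
    ∃ kw k' : G K, k = kw * k' ∧ IsLocalAtFin w kw ∧
      finCompHom129 w kw = finCompHom129 w k ∧ finCompHom129 w k' = 1 ∧
      (∀ v : HeightOneSpectrum (𝓞 K), v ≠ w → finCompHom129 v k' = finCompHom129 v k) ∧
      ∀ u : InfinitePlace K, infCompHom129 u k' = infCompHom129 u k := by
  refine ⟨locFin129 w (finCompHom129 w k), (locFin129 w (finCompHom129 w k))⁻¹ * k, by group,
    isLocalAtFin_locFin129 _ _, finCompHom129_locFin129 _ _, ?_, ?_, ?_⟩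
  · rw [map_mul, map_inv, finCompHom129_locFin129, inv_mul_cancel]
  · intro v hv
    rw [map_mul, map_inv, finCompHom129_locFin129_of_ne _ _ hv, inv_one, one_mul]
  · intro u
    rw [map_mul, map_inv, infCompHom129_locFin129, inv_one, one_mul]

theorem inIwahori_congr16 {g h : G K} (e : finCompHom129 w g = finCompHom129 w h) :
    InIwahori w g ↔ InIwahori w h := by
  rw [inIwahori_iff16, inIwahori_iff16, ← coe_finCompHom129, ← coe_finCompHom129, e]

/-- `S ψ` is right invariant under `k` if `k` is Iwahori at `w` and its part away from `w`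
fixes `ψ`. -/
theorem cosetOp_inv16 {H : Finset (G K)} {ω : G K} (hωl : IsLocalAtFin w ω)
    (hωc : ∃ c : w.adicCompletion K, Valued.v c = WithZero.exp (-1 : ℤ) ∧
      finComp w ω = !![0, 1; c, 0])
    (hloc : ∀ h ∈ H, IsLocalAtFin w h)
    (hlink : IsIwCosetSystem w (H.map (mulRightEmbedding ω))) {ψ : G K → ℂ}
    (hψ : ∀ u : G K, IsLocalAtFin w u → InIwahori w u → ∀ g : G K, ψ (g * u) = ψ g)
    {k : G K} (hkI : InIwahori w k)
    (hk' : ∀ k' : G K, finCompHom129 w k' = 1 →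
      (∀ v : HeightOneSpectrum (𝓞 K), v ≠ w → finCompHom129 v k' = finCompHom129 v k) →
      (∀ u : InfinitePlace K, infCompHom129 u k' = infCompHom129 u k) →
      ∀ g : G K, ψ (g * k') = ψ g) (x : G K) :
    cosetOp H ψ (x * k) = cosetOp H ψ x := by
  obtain ⟨kw, k', hkk, hkwl, hkww, hk'w, hk'v, hk'inf⟩ := split16 w k
  have hkwI : InIwahori w kw := (inIwahori_congr16 hkww).2 hkI
  unfold cosetOp
  have hterm : ∀ h ∈ H, ψ (x * k * h) = ψ (x * (kw * h)) := by
    intro h hh
    have hcomm : k' * h = h * k' := (commute_of_local340 (hloc h hh) hk'w).symm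
    have e : x * k * h = x * (kw * h) * k' := by
      rw [hkk, mul_assoc, mul_assoc kw, hcomm]
      group
    rw [e]
    exact hk' k' hk'w hk'v hk'inf _
  rw [Finset.sum_congr rfl hterm]
  exact sum_left16 hωl hωc hlink hψ hkwl hkwI x

/-- `ρ ψ` is right invariant under `k` if `k` is Iwahori at `w` and its part away from `w`
fixes `ψ`. -/
theorem trOp_inv16 {ω : G K} (hωl : IsLocalAtFin w ω)
    (hωc : ∃ c : w.adicCompletion K, Valued.v c = WithZero.exp (-1 : ℤ) ∧
      finComp w ω = !![0, 1; c, 0]) {ψ : G K → ℂ}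
    (hψ : ∀ u : G K, IsLocalAtFin w u → InIwahori w u → ∀ g : G K, ψ (g * u) = ψ g)
    {k : G K} (hkI : InIwahori w k)
    (hk' : ∀ k' : G K, finCompHom129 w k' = 1 →
      (∀ v : HeightOneSpectrum (𝓞 K), v ≠ w → finCompHom129 v k' = finCompHom129 v k) →
      (∀ u : InfinitePlace K, infCompHom129 u k' = infCompHom129 u k) →
      ∀ g : G K, ψ (g * k') = ψ g) (x : G K) :
    H561.trOp561 ω ψ (x * k) = H561.trOp561 ω ψ x := by
  obtain ⟨kw, k', hkk, hkwl, hkww, hk'w, hk'v, hk'inf⟩ := split16 w k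
  have hkwI : InIwahori w kw := (inIwahori_congr16 hkww).2 hkI
  show ψ (x * k * ω) = ψ (x * ω)
  have hcomm : k' * ω = ω * k' := (commute_of_local340 hωl hk'w).symm
  have hcj := (conj_local16 hωl hωc hkwl hkwI).2
  have e : x * k * ω = x * ω * (ω⁻¹ * kw * ω) * k' := by
    rw [hkk, mul_assoc x, mul_assoc kw, hcomm]
    group
  rw [e, hk' k' hk'w hk'v hk'inf, hψ _ hcj.1 hcj.2]

/-- The part away from `w` of a member of `U(𝔫)` is a member of `U(𝔫)`. -/
theorem inLevelGroup_away16 {𝔫 : Ideal (𝓞 K)} {k k' : G K} (hk : InLevelGroup 𝔫 k)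
    (hk'w : finCompHom129 w k' = 1)
    (hk'v : ∀ v : HeightOneSpectrum (𝓞 K), v ≠ w → finCompHom129 v k' = finCompHom129 v k)
    (hk'inf : ∀ u : InfinitePlace K, infCompHom129 u k' = infCompHom129 u k) :
    InLevelGroup 𝔫 k' := by
  refine ⟨fun u => ?_, fun v i j => ?_⟩
  · rw [trivAtInf_iff129, hk'inf u, ← trivAtInf_iff129]
    exact hk.1 u
  · by_cases hv : v = w
    · subst hv
      have e1 : finComp v k' = 1 := by
        rw [← coe_finCompHom129, hk'w]; rfl
      have e2 : finComp v k'⁻¹ = 1 := by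
        rw [← coe_finCompHom129, map_inv, hk'w, inv_one]; rfl
      rw [e1, e2, sub_self]
      exact ⟨H439.zero_mem_ic439 𝔫 v, H439.zero_mem_ic439 𝔫 v⟩
    · have e1 : finComp v k' = finComp v k := by
        rw [← coe_finCompHom129, hk'v v hv]; rfl
      have e2 : finComp v k'⁻¹ = finComp v k⁻¹ := by
        rw [← coe_finCompHom129, map_inv, hk'v v hv, ← map_inv]; rfl
      rw [e1, e2]
      exact hk.2 v i j

/-- The part away from `w` of an element of the Iwahori subgroups along the orbit fixes a member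
of `IsIwInv`. -/
theorem iwCond_away16 {l : ℕ} {o : ℕ → HeightOneSpectrum (𝓞 K)} {ψ : G K → ℂ}
    (hψ : IsIwInv l o ψ) {k k' : G K}
    (hkinf : ∀ u : InfinitePlace K, TrivAtInf u k)
    (hkout : ∀ v : HeightOneSpectrum (𝓞 K), (∀ j < l, v ≠ o j) → TrivAtFin v k)
    (hkI : ∀ j < l, InIwahori (o j) k)
    (hk'w : finCompHom129 w k' = 1)
    (hk'v : ∀ v : HeightOneSpectrum (𝓞 K), v ≠ w → finCompHom129 v k' = finCompHom129 v k)
    (hk'inf : ∀ u : InfinitePlace K, infCompHom129 u k' = infCompHom129 u k) (g : G K) :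
    ψ (g * k') = ψ g := by
  refine hψ k' (fun u => ?_) (fun v hv => ?_) (fun j hj => ?_) g
  · rw [trivAtInf_iff129, hk'inf u, ← trivAtInf_iff129]
    exact hkinf u
  · by_cases hvw : v = w
    · subst hvw
      rw [trivAtFin_iff129]
      exact hk'w
    · rw [trivAtFin_iff129, hk'v v hvw, ← trivAtFin_iff129]
      exact hkout v hv
  · by_cases hjw : o j = w
    · rw [hjw, inIwahori_iff16, ← coe_finCompHom129, hk'w]
      exact isIw16_one
    · rw [inIwahori_congr16 (hk'v _ hjw)]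
      exact hkI j hj

end Fermat.Agent.LT.T7.H16

end

end
-- ===== PACK-END LT/T7/H16/OpsEig.lean

-- ===== PACK-BEGIN LT/T7/H157/BlkClass.lean
section





/-!
# Row LT, tower T7, leaf T7.L2.2.B7 (helper157): the matrices of the operators in a class

OFF-MAIN.  ADDITIVE (new names only, all ending in `157`).  Every proof is complete, nothing
assumed.
-/

set_option autoImplicit false

open AutomorphicForm IsDedekindDomain NumberField MeasureTheory
open scoped ComplexConjugate Matrix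

noncomputable section

namespace Fermat.Agent.LT.T7.H157

open Fermat.Agent.LT.H556 Fermat.Agent.LT.H556.A0 Fermat.Agent.LT.T7 Fermat.Agent.LT.T7.H561

attribute [local instance] Fermat.Agent.LT.T5.instMeasurableSpaceG

section OneField

variable {K : Type} [Field K] [NumberField K]

/-- The matrix of `T` in the family `v` (entries `⟨T v_a, v_b⟩`). -/
def mat157 (μ : Measure (G K)) (F : Set (G K)) {n : ℕ} (v : Fin n → G K → ℂ)
    (T : (G K → ℂ) → (G K → ℂ)) : Matrix (Fin n) (Fin n) ℂ :=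
  Matrix.of fun b a => T5.innerD μ F (T (v a)) (v b)

theorem mat_apply157 (μ : Measure (G K)) (F : Set (G K)) {n : ℕ} (v : Fin n → G K → ℂ)
    (T : (G K → ℂ) → (G K → ℂ)) (b a : Fin n) :
    mat157 μ F v T b a = T5.innerD μ F (T (v a)) (v b) := rfl

variable {μ : Measure (G K)} {F : Set (G K)} {n : ℕ} {v : Fin n → G K → ℂ}

theorem IsON157.coeff_smul (hv : IsON157 μ F v) (t : ℂ) (c : Fin n → ℂ) (b : Fin n) :
    T5.innerD μ F (fun x => t * lin157 v c x) (v b) = t * c b := by
  have e : (fun x => t * lin157 v c x) = lin157 v (fun a => t * c a) := by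
    funext x
    simp only [lin157, Finset.mul_sum]
    exact Finset.sum_congr rfl fun a _ => by ring
  rw [e, hv.coeff]

theorem IsON157.inner_lin_lin (hv : IsON157 μ F v) (c d : Fin n → ℂ) :
    T5.innerD μ F (lin157 v c) (lin157 v d) = ∑ a, c a * conj (d a) := by
  have e : T5.innerD μ F (lin157 v c) (lin157 v d)
      = ∑ a, c a * T5.innerD μ F (v a) (lin157 v d) :=
    innerD_sum_left157 hv.fin c hv.nice (hv.nice_lin d)
  rw [e]
  refine Finset.sum_congr rfl fun a _ => ?_
  rw [← innerD_conj157, hv.coeff]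

/-- A linear combination of functions orthogonal to `h` is orthogonal to `h`. -/
theorem innerD_smul_lin_orth157 (hF : μ F < ⊤) {n' : ℕ} {v' : Fin n' → G K → ℂ}
    (hv' : ∀ b, Nice157 (v' b)) {h : G K → ℂ} (hh : Nice157 h)
    (horth : ∀ b, T5.innerD μ F (v' b) h = 0) (t : ℂ) (d : Fin n' → ℂ) :
    T5.innerD μ F (fun x => t * lin157 v' d x) h = 0 := by
  have e : (fun x => t * lin157 v' d x) = fun x => ∑ a, (t * d a) * v' a x := by
    funext x
    simp only [lin157, Finset.mul_sum]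
    exact Finset.sum_congr rfl fun a _ => by ring
  rw [e, innerD_sum_left157 hF _ hv' hh]
  simp only [horth, mul_zero, Finset.sum_const_zero]

theorem innerD_zero_left157 (μ : Measure (G K)) (F : Set (G K)) {e : G K → ℂ}
    (he : ∀ x, e x = 0) (h : G K → ℂ) : T5.innerD μ F e h = 0 := by
  unfold T5.innerD
  simp [he]

theorem Rconv_zero157 (μ : Measure (G K)) (φ : G K → ℂ) {e : G K → ℂ}
    (he : ∀ x, e x = 0) (x : G K) : T5.Rconv μ φ e x = 0 := by
  unfold T5.Rconv
  simp [he]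

end OneField

section Class

variable {K K' : Type} [Field K] [NumberField K] [Field K'] [NumberField K'] [Algebra K K']

/-- The context of one class. -/
structure Ctx157 (ℓ : ℕ) (Φ : HeckeEigensystem K' ℂ) (Dt : L2Data K K') (g : G K')
    (Hs : ℕ → Finset (G K')) (ω' : ℕ → G K') (Hg : Finset (G K')) (C : EigData K') (n : ℕ)
    (v : Fin n → G K' → ℂ) : Prop where
  data : IsL2Data ℓ Φ Dt
  bad : Dt.IsBad g
  ops : IsWOps561 Dt ℓ g Hs ω' Hg
  basis : IsClassBasis561 Dt ℓ C n v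

variable {ℓ : ℕ} {Φ : HeckeEigensystem K' ℂ} {Dt : L2Data K K'} {g : G K'}
  {Hs : ℕ → Finset (G K')} {ω' : ℕ → G K'} {Hg : Finset (G K')} {C : EigData K'} {n : ℕ}
  {v : Fin n → G K' → ℂ}

theorem finite_of_data157 (hDt : IsL2Data ℓ Φ Dt) (hg : Dt.IsBad g) :
    Dt.R'.μ Dt.R'.F < ⊤ :=
  (hDt.comp g hg).frame'.frame.finite

namespace Ctx157

variable (h : Ctx157 ℓ Φ Dt g Hs ω' Hg C n v)
include h

theorem on : IsON157 Dt.R'.μ Dt.R'.F v :=
  ⟨finite_of_data157 h.data h.bad, fun a => nice_of_cusp157 (h.basis.eig a).inv.cusp,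
    h.basis.orth⟩

theorem wfn (a : Fin n) : IsWFn Dt.𝔑₀ Dt.R'.r ℓ Dt.o (v a) := (h.basis.eig a).inv

/-- The matrix of an operator which maps the class into a class agreeing with it. -/
theorem rep_of_eig (T : (G K' → ℂ) → (G K' → ℂ)) (C' : EigData K')
    (hT : ∀ a, IsEigFn Dt.𝔑₀ Dt.R'.r ℓ Dt.o (T (v a)) C') (hC : C'.AgreeOut Dt.S' C) :
    Rep157 v T (mat157 Dt.R'.μ Dt.R'.F v T) :=
  rep_of_span157 h.on T fun a => h.basis.span _ C' (hT a) hC

theorem repS (j : ℕ) :
    Rep157 v (cosetOp (Hs j)) (mat157 Dt.R'.μ Dt.R'.F v (cosetOp (Hs j))) :=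
  h.rep_of_eig _ C (fun a => h.ops.S_eig j _ _ (h.basis.eig a)) (agreeOut_refl157 _ _)

theorem repρ (j : ℕ) :
    Rep157 v (trOp561 (ω' j)) (mat157 Dt.R'.μ Dt.R'.F v (trOp561 (ω' j))) :=
  h.rep_of_eig _ C (fun a => h.ops.ρ_eig j _ _ (h.basis.eig a)) (agreeOut_refl157 _ _)

theorem repB : Rep157 v (cosetOp Hg) (mat157 Dt.R'.μ Dt.R'.F v (cosetOp Hg)) :=
  h.rep_of_eig _ C (fun a => h.ops.B_eig _ _ (h.basis.eig a)) (agreeOut_refl157 _ _)

theorem repA (σC : EigData K' → EigData K')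
    (hσe : ∀ (ψ : G K' → ℂ) (C : EigData K'), IsEigFn Dt.𝔑₀ Dt.R'.r ℓ Dt.o ψ C →
      IsEigFn Dt.𝔑₀ Dt.R'.r ℓ Dt.o (T5.Rsig Dt.s ψ) (σC C))
    (hst : (σC C).AgreeOut Dt.S' C) :
    Rep157 v (T5.Rsig Dt.s) (mat157 Dt.R'.μ Dt.R'.F v (T5.Rsig Dt.s)) :=
  h.rep_of_eig _ (σC C) (fun a => hσe _ _ (h.basis.eig a)) hst

theorem ρ_unit (j : ℕ) :
    (mat157 Dt.R'.μ Dt.R'.F v (trOp561 (ω' j)))ᴴ * mat157 Dt.R'.μ Dt.R'.F v (trOp561 (ω' j))
      = 1 := by
  ext b a
  have e := h.ops.ρ_iso j (v a) (v b) (h.wfn a) (h.wfn b)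
  rw [h.repρ j a, h.repρ j b, h.on.inner_lin_lin, h.basis.orth] at e
  rw [Matrix.mul_apply, Matrix.one_apply]
  have e2 : ∀ c, (mat157 Dt.R'.μ Dt.R'.F v (trOp561 (ω' j)))ᴴ b c
        * mat157 Dt.R'.μ Dt.R'.F v (trOp561 (ω' j)) c a
      = mat157 Dt.R'.μ Dt.R'.F v (trOp561 (ω' j)) c a
        * conj (mat157 Dt.R'.μ Dt.R'.F v (trOp561 (ω' j)) c b) := by
    intro c
    rw [Matrix.conjTranspose_apply, mul_comm]
    rfl
  simp only [e2]
  rw [e]
  by_cases hab : a = b
  · subst hab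
    simp
  · rw [if_neg hab, if_neg (fun hba => hab hba.symm)]

theorem ρ_det (j : ℕ) : IsUnit (mat157 Dt.R'.μ Dt.R'.F v (trOp561 (ω' j))).det :=
  Matrix.isUnit_det_of_left_inverse (h.ρ_unit j)

theorem S_herm (j : ℕ) :
    (mat157 Dt.R'.μ Dt.R'.F v (cosetOp (Hs j)))ᴴ = mat157 Dt.R'.μ Dt.R'.F v (cosetOp (Hs j)) := by
  ext b a
  rw [Matrix.conjTranspose_apply, mat_apply157, mat_apply157]
  have e := h.ops.S_adj j (v a) (v b) (h.wfn a) (h.wfn b)
  rw [e]
  exact innerD_conj157 _ _ _ _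

/-- The Iwahori operator of the translated system. -/
theorem repIw :
    Rep157 v (iwOp (Dt.o 0) ((Hs 0).map (mulRightEmbedding (ω' 0))))
      ((((Real.sqrt ((Ideal.absNorm (Dt.o 0).asIdeal : ℕ) : ℝ) : ℝ) : ℂ)⁻¹)
        • (mat157 Dt.R'.μ Dt.R'.F v (cosetOp (Hs 0))
            * mat157 Dt.R'.μ Dt.R'.F v (trOp561 (ω' 0)))) :=
  rep_congr157
    (rep_smul157 (rep_comp157 (isLin_coset157 (Hs 0)) (h.repS 0) (h.repρ 0)) _)
    (fun a => iwOp_map157 (Dt.o 0) (Hs 0) (ω' 0) (v a))

theorem repZ :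
    Rep157 v (trOp561 (ω' 0 * ω' 0))
      (mat157 Dt.R'.μ Dt.R'.F v (trOp561 (ω' 0))
        * mat157 Dt.R'.μ Dt.R'.F v (trOp561 (ω' 0))) :=
  rep_congr157 (rep_comp157 (isLin_tr157 (ω' 0)) (h.repρ 0) (h.repρ 0))
    (fun a => trOp_mul157 (ω' 0) (ω' 0) (v a))

theorem repT (k : ℤ) (m : ℕ) :
    Rep157 v
      (fun ψ => cosetOp Hg (shiftOp (ω' 0 * ω' 0) k
        ((iwOp (Dt.o 0) ((Hs 0).map (mulRightEmbedding (ω' 0))))^[m] ψ)))
      (mat157 Dt.R'.μ Dt.R'.F v (cosetOp Hg)
        * (mat157 Dt.R'.μ Dt.R'.F v (trOp561 (ω' 0))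
            * mat157 Dt.R'.μ Dt.R'.F v (trOp561 (ω' 0))) ^ k
        * ((((Real.sqrt ((Ideal.absNorm (Dt.o 0).asIdeal : ℕ) : ℝ) : ℝ) : ℂ)⁻¹)
            • (mat157 Dt.R'.μ Dt.R'.F v (cosetOp (Hs 0))
                * mat157 Dt.R'.μ Dt.R'.F v (trOp561 (ω' 0)))) ^ m) := by
  have hU : IsUnit (mat157 Dt.R'.μ Dt.R'.F v (trOp561 (ω' 0))
      * mat157 Dt.R'.μ Dt.R'.F v (trOp561 (ω' 0))).det := by
    rw [Matrix.det_mul]
    exact (h.ρ_det 0).mul (h.ρ_det 0)
  have r1 := rep_iterate157 (isLin_iw157 (Dt.o 0) ((Hs 0).map (mulRightEmbedding (ω' 0))))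
    h.repIw m
  have r2 := rep_shift157 h.repZ hU k
  have r3 := rep_comp157 (isLin_coset157 Hg) h.repB
    (rep_comp157 (isLin_shift157 (ω' 0 * ω' 0) k) r2 r1)
  rw [← Matrix.mul_assoc] at r3
  exact r3

end Ctx157

theorem isLin_T157 (Hs : ℕ → Finset (G K')) (ω' : ℕ → G K') (Hg : Finset (G K'))
    (w : HeightOneSpectrum (𝓞 K')) (k : ℤ) (m : ℕ) :
    IsLin157 (fun ψ => cosetOp Hg (shiftOp (ω' 0 * ω' 0) k
        ((iwOp w ((Hs 0).map (mulRightEmbedding (ω' 0))))^[m] ψ))) :=
  isLin_comp157 (isLin_coset157 Hg)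
    (isLin_comp157 (isLin_shift157 _ k) (isLin_iterate157 (isLin_iw157 _ _) m))

omit [Algebra K K'] in
/-- The operators of OP-up preserve the eigenfunctions. -/
theorem isEigFn_T157 (hOps : IsWOps561 Dt ℓ g Hs ω' Hg) {ψ : G K' → ℂ} {C' : EigData K'}
    (hψ : IsEigFn Dt.𝔑₀ Dt.R'.r ℓ Dt.o ψ C') (k : ℤ) (m : ℕ) :
    IsEigFn Dt.𝔑₀ Dt.R'.r ℓ Dt.o
      (cosetOp Hg (shiftOp (ω' 0 * ω' 0) k
        ((iwOp (Dt.o 0) ((Hs 0).map (mulRightEmbedding (ω' 0))))^[m] ψ))) C' := by
  have h1 : ∀ m : ℕ, IsEigFn Dt.𝔑₀ Dt.R'.r ℓ Dt.o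
      ((iwOp (Dt.o 0) ((Hs 0).map (mulRightEmbedding (ω' 0))))^[m] ψ) C' := by
    intro m
    induction m with
    | zero => exact hψ
    | succ m ih =>
      rw [Function.iterate_succ_apply', iwOp_map157]
      exact isEigFn_smul157 (hOps.S_eig 0 _ _ (hOps.ρ_eig 0 _ _ ih)) _
  exact hOps.B_eig _ _ (isEigFn_shift157 (h1 m) hOps.unif k)

/-- The hypothesis of `OffWC561`. -/
theorem isWFn_Rconv157 (hDt : IsL2Data ℓ Φ Dt) (hg : Dt.IsBad g)
    (hOps : IsWOps561 Dt ℓ g Hs ω' Hg) (X : List (Gen K')) (hX : ∀ x ∈ X, x.Out Dt.S')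
    (k : ℤ) (m : ℕ) (ψ : G K' → ℂ) (C' : EigData K')
    (hψ : IsEigFn Dt.𝔑₀ Dt.R'.r ℓ Dt.o ψ C') :
    IsWFn Dt.𝔑₀ Dt.R'.r ℓ Dt.o (T5.Rconv Dt.R'.μ (Dt.φ' g X k m) ψ) := by
  have e : T5.Rconv Dt.R'.μ (Dt.φ' g X k m) ψ
      = fun x => (wordEv X C' * Dt.c g C') * cosetOp Hg (shiftOp (ω' 0 * ω' 0) k
        ((iwOp (Dt.o 0) ((Hs 0).map (mulRightEmbedding (ω' 0))))^[m] ψ)) x :=
    funext fun x => hDt.op_up g X k m hg hX ψ C' hψ Hg _ _ hOps.dbl hOps.iwsys hOps.unif x
  rw [e]
  exact isWFn_smul157 (isEigFn_T157 hOps hψ k m).inv _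

end Class

end Fermat.Agent.LT.T7.H157

end

end
-- ===== PACK-END LT/T7/H157/BlkClass.lean

-- ===== PACK-BEGIN LT/T7/H938/Nontriv.lean
section



/-!
# Row LT, tower T7, leaf T7.L2.2.N.1 CM.02 `NontrivC616` (helper938)

OFF-MAIN.  `nontrivC938 (K K') : CM616.NontrivC616 K K'`, VERBATIM vs
`T7/H616/ClassModelSpec.lean` (helper616), UNCONDITIONAL: the conclusion is the conclusion of the
CLOSED leaf `H561.PhiC561` (`H271.phiC271`, helper271), the hypotheses are fields of `Ctx616`.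
-/

set_option autoImplicit false

noncomputable section

namespace Fermat.Agent.LT.T7.H938

open Fermat.Agent.LT.T7

/-- **LEAF CM.02 = NON-TRIVIAL** (cut of helper616), from the closed leaf `PhiC561`. -/
theorem nontrivC938 (K K' : Type) [Field K] [NumberField K] [Field K'] [NumberField K']
    [Algebra K K'] : CM616.NontrivC616 K K' :=
  fun ℓ Φ Dt h =>
    H271.phiC271 K K' ℓ h.cyc h.odd h.cplx Φ h.cusp h.const Dt h.data

end Fermat.Agent.LT.T7.H938

end
end
-- ===== PACK-END LT/T7/H938/Nontriv.lean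

-- ===== PACK-BEGIN LT/T7/H984/FinAvgMean.lean
section



/-!
# Row LT, tower T7, leaf T7.L2.3.5.4.B3 `WB776.FinAvgMeanC776` (registry row 2391, helper984)

PROVED, verbatim the Prop of `LT/T7/H776/WBasisSpec.lean` (helper776, sha256 ebd5d61e):
`H193.finAvg Rep` preserves the eigenfunctions of the sphere means (continuous `ψ`).

The members of `Rep` are trivial at every infinite place (`IsFinData.mem`: product of an Iwahori
element of the orbit and an element of the level group), hence commute with the points `Y α β` of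
a sphere (supported at one infinite place); so every right translate `g ↦ ψ (g h)` is again an
eigenfunction of the sphere means, and `finAvg Rep ψ` is a linear combination of these translates
(`meanEig_add_863`, `meanEig_smul_863` of helper863, asset `continuous_sphere314` of helper314).
OFF-MAIN.
-/

set_option autoImplicit false

open AutomorphicForm IsDedekindDomain NumberField MeasureTheory

noncomputable section

namespace Fermat.Agent.LT.T7.H984

open Fermat.Agent.LT Fermat.Agent.LT.H556 Fermat.Agent.LT.H556.A0 Fermat.Agent.LT.T7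
open Fermat.Agent.LT.T7.H193

variable {K : Type} [Field K] [NumberField K]

/-- A product of two elements which are trivial at the infinite place `w` is trivial at `w`. -/
theorem trivAtInf_mul984 {w : InfinitePlace K} {a b : G K} (ha : TrivAtInf w a)
    (hb : TrivAtInf w b) : TrivAtInf w (a * b) := by
  intro i j
  rw [Units.val_mul, T2.H314.mul_inf314]
  have h1 : ∀ p q : Fin 2, ((a : Matrix (Fin 2) (Fin 2) (Adl K)) p q).1 w
      = (1 : Matrix (Fin 2) (Fin 2) w.Completion) p q := ha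
  have h2 : ∀ p q : Fin 2, ((b : Matrix (Fin 2) (Fin 2) (Adl K)) p q).1 w
      = (1 : Matrix (Fin 2) (Fin 2) w.Completion) p q := hb
  simp only [h1, h2, Matrix.one_apply]
  fin_cases i <;> fin_cases j <;> simp

/-- An element supported at an infinite place commutes with an element which is trivial at every
infinite place. -/
theorem commute_inf_triv984 {w : InfinitePlace K} {y h : G K} (hy : IsLocalAtInf w y)
    (hh : ∀ w' : InfinitePlace K, TrivAtInf w' h) : y * h = h * y := by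
  apply Units.ext
  rw [Units.val_mul, Units.val_mul]
  ext i j : 2
  apply T2.H314.adl_ext314
  · intro w'
    rw [T2.H314.mul_inf314, T2.H314.mul_inf314]
    have h1 : ∀ a b : Fin 2, ((h : Matrix (Fin 2) (Fin 2) (Adl K)) a b).1 w'
        = (1 : Matrix (Fin 2) (Fin 2) w'.Completion) a b := hh w'
    simp only [h1, Matrix.one_apply, mul_ite, mul_one, mul_zero, ite_mul, one_mul, zero_mul,
      Finset.sum_ite_eq, Finset.sum_ite_eq', Finset.mem_univ, if_true]
  · intro v'
    rw [T2.H314.mul_fin314, T2.H314.mul_fin314]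
    have h1 : ∀ a b : Fin 2, ((y : Matrix (Fin 2) (Fin 2) (Adl K)) a b).2 v'
        = (1 : Matrix (Fin 2) (Fin 2) (v'.adicCompletion K)) a b := fun a b =>
      congrFun (congrFun (hy.2 v') a) b
    simp only [h1, Matrix.one_apply, mul_ite, mul_one, mul_zero, ite_mul, one_mul, zero_mul,
      Finset.sum_ite_eq, Finset.sum_ite_eq', Finset.mem_univ, if_true]

/-- The members of a system `Rep` are trivial at every infinite place. -/
theorem rep_trivAtInf984 {𝔑 𝔑₀ : Ideal (𝓞 K)} {l : ℕ} {o : ℕ → HeightOneSpectrum (𝓞 K)}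
    {Rep : Finset (G K)} (hR : IsFinData 𝔑 𝔑₀ l o Rep) {h : G K} (hh : h ∈ Rep)
    (w : InfinitePlace K) : TrivAtInf w h := by
  obtain ⟨i, u, hi, hu, rfl⟩ := hR.mem h hh
  exact trivAtInf_mul984 (hi.1 w) (hu.1 w)

/-- The right translate by an element which is trivial at infinity of an eigenfunction of the
sphere means is an eigenfunction of the sphere means. -/
theorem meanEig_translate984 {ψ : G K → ℂ} {w : InfinitePlace K} {m : ℝ → ℂ}
    (hψ : MeanEig ψ w m) {h : G K} (hh : ∀ w' : InfinitePlace K, TrivAtInf w' h) :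
    MeanEig (fun g => ψ (g * h)) w m := by
  intro d hd Y hY g
  have key := hψ d hd Y hY (g * h)
  have e : ∀ α β : ℝ, ψ (g * Y α β * h) = ψ (g * h * Y α β) := by
    intro α β
    rw [mul_assoc g, commute_inf_triv984 (hY α β).1 hh, ← mul_assoc]
  simp only [e]
  exact key

theorem meanEig_zero984 (w : InfinitePlace K) (m : ℝ → ℂ) :
    MeanEig (0 : G K → ℂ) w m := by
  intro d _ Y _ g
  simp

/-- Finite sums of continuous eigenfunctions of the sphere means. -/
theorem meanEig_sum984 {ι : Type} (s : Finset ι) (f : ι → G K → ℂ) {w : InfinitePlace K}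
    {m : ℝ → ℂ} (hc : ∀ i ∈ s, Continuous (f i)) (hm : ∀ i ∈ s, MeanEig (f i) w m) :
    MeanEig (∑ i ∈ s, f i) w m := by
  classical
  induction s using Finset.induction_on with
  | empty =>
    rw [Finset.sum_empty]
    exact meanEig_zero984 w m
  | insert a s ha ih =>
    rw [Finset.sum_insert ha]
    have hcs : Continuous (∑ i ∈ s, f i) := by
      have h := continuous_finsetSum s fun i hi => hc i (Finset.mem_insert_of_mem hi)
      have e : (∑ i ∈ s, f i) = fun a => ∑ i ∈ s, f i a := by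
        funext a
        exact Finset.sum_apply a s f
      rw [e]
      exact h
    exact H863.meanEig_add_863 (hc a (Finset.mem_insert_self a s)) hcs
      (hm a (Finset.mem_insert_self a s))
      (ih (fun i hi => hc i (Finset.mem_insert_of_mem hi))
        (fun i hi => hm i (Finset.mem_insert_of_mem hi)))

/-- **WB.B3 = FIN-AVG-MEAN.** -/
theorem finAvgMeanC984 (K : Type) [Field K] [NumberField K] : WB776.FinAvgMeanC776 K := by
  intro 𝔑 𝔑₀ l o Rep hR ψ w m hc hψ
  have h1 : MeanEig (∑ h ∈ Rep, fun g : G K => ψ (g * h)) w m :=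
    meanEig_sum984 Rep (fun h g => ψ (g * h))
      (fun h _ => hc.comp (continuous_id.mul continuous_const))
      (fun h hh => meanEig_translate984 hψ (fun w' => rep_trivAtInf984 hR hh w'))
  have h2 := H863.meanEig_smul_863 (((Rep.card : ℂ))⁻¹) h1
  have e : finAvg Rep ψ = ((Rep.card : ℂ))⁻¹ • ∑ h ∈ Rep, fun g : G K => ψ (g * h) := by
    funext g
    simp only [finAvg, Pi.smul_apply, Finset.sum_apply, smul_eq_mul]
  rw [e]
  exact h2

end Fermat.Agent.LT.T7.H984

end
end
-- ===== PACK-END LT/T7/H984/FinAvgMean.lean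

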