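import Mathlib
import Fermat.Agent.Pack.LT3.E25L2
import Fermat.Agent.Pack.LT3.E25L1
import Fermat.Agent.Pack.LT2.E8L3
import Fermat.Agent.Pack.LT3.E22L3
import Fermat.Agent.Pack.LT3.E23L0
import Fermat.Agent.Pack.LT3.E23L3
import Fermat.Agent.Pack.LT3.E25L3
import Fermat.Agent.Pack.LT3.E22L0
import Fermat.Agent.Pack.LT3.E23L2
import Fermat.Agent.Pack.LT3.E23L1
import Fermat.Agent.Pack.LT3.E17L2
import Fermat.Agent.Pack.LT2.E4L2
import Fermat.Agent.Pack.LT3.E5L0
import Fermat.Agent.Pack.LT3.E2L1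
import Fermat.Agent.Pack.LT3.E26L1
import Fermat.Agent.Pack.LT3.E26L0
import Fermat.Agent.Pack.LT3.E20L3
import Fermat.Agent.Pack.LT3.E24L1
import Fermat.Agent.Pack.LT3.E24L3
import Fermat.Agent.Pack.LT3.E26L3
import Fermat.Agent.Pack.LT2.E9L3
import Fermat.Agent.Pack.LT3.E26L2

set_option linter.all false

-- ===== PACK-BEGIN LT/T6/H888/DbSmooth.lean
section



/-!
# Row LT, tower T6, leaf T6.22.B.1 (helper888, spare): `dbSmoothC888 : H683.DbSmoothC683`
-/

set_option autoImplicit false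

open MeasureTheory Set

noncomputable section

namespace Fermat.Agent.LT.T6.H888

open Fermat.Agent.LT.T6.H683

theorem two_pi_ne888 : ((2 * Real.pi : ℝ) : ℂ) ≠ 0 := by
  exact_mod_cast (by positivity : (2 * Real.pi : ℝ) ≠ 0)

theorem inv_two_pi_mul888 :
    ((1 / (2 * Real.pi) : ℝ) : ℂ) * ((2 * Real.pi : ℝ) : ℂ) = 1 := by
  have h : (1 / (2 * Real.pi)) * (2 * Real.pi) = (1 : ℝ) := by
    have := Real.pi_pos.ne'
    field_simp
  exact_mod_cast h

theorem kerW_cont_phi888 (n : ℤ) (t u : ℝ) : Continuous (fun φ : ℝ => kerW888 n t u φ) := by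
  by_cases h : n = 0
  · have : (fun φ : ℝ => kerW888 n t u φ) = fun _ => 1 := by funext φ; simp [kerW888, h]
    rw [this]; exact continuous_const
  · have : (fun φ : ℝ => kerW888 n t u φ)
        = fun φ => 1 + Real.tanh (t / 2) * Real.tanh (u / 2) * Real.cos φ := by
      funext φ; simp [kerW888, h]
    rw [this]; fun_prop

theorem kerW_at_zero888 (n : ℤ) (t φ : ℝ) : kerW888 n t 0 φ = 1 := by
  by_cases h : n = 0
  · simp [kerW888, h]
  · simp [kerW888, h]

theorem kerW_zero_left888 (n : ℤ) (u φ : ℝ) : kerW888 n 0 u φ = 1 := by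
  by_cases h : n = 0
  · simp [kerW888, h]
  · simp [kerW888, h]

theorem integral_kerW888 (n : ℤ) (t u : ℝ) :
    (∫ φ in (0:ℝ)..(2 * Real.pi), ((kerW888 n t u φ : ℝ) : ℂ)) = ((2 * Real.pi : ℝ) : ℂ) := by
  rw [intervalIntegral.integral_ofReal]
  congr 1
  by_cases h : n = 0
  · have : (fun φ : ℝ => kerW888 n t u φ) = fun _ => 1 := by funext φ; simp [kerW888, h]
    simp only [this]
    simp
  · have : (fun φ : ℝ => kerW888 n t u φ)
        = fun φ => 1 + Real.tanh (t / 2) * Real.tanh (u / 2) * Real.cos φ := by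
      funext φ; simp [kerW888, h]
    simp only [this]
    rw [intervalIntegral.integral_add intervalIntegrable_const
      ((by fun_prop : Continuous fun φ : ℝ =>
        Real.tanh (t / 2) * Real.tanh (u / 2) * Real.cos φ).intervalIntegrable _ _),
      intervalIntegral.integral_const_mul, integral_cos_2pi888]
    simp

section
variable {F F' F'' : ℝ → ℝ} (hF : ∀ x : ℝ, 0 < x → HasDerivAt F (F' x) x)
  (hF' : ∀ x : ℝ, 0 < x → HasDerivAt F' (F'' x) x) (hF'' : ContinuousOn F'' (Ioi 0))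
include hF hF' hF''

/-- The averaged identity, both weights. -/
theorem b_main888 (n : ℤ) (t U : ℝ) (hU : 0 ≤ U) :
    (∫ φ in (0:ℝ)..(2 * Real.pi), ((kerW888 n t U φ * F (rho888 t U φ) : ℝ) : ℂ))
      = ((2 * Real.pi : ℝ) : ℂ) * ((F (Real.cosh t) : ℝ) : ℂ)
        + gL888 n (fun q => ∫ φ in (0:ℝ)..(2 * Real.pi),
            ((kerW888 n t q φ * lop683 n F' F'' (rho888 t q φ) : ℝ) : ℂ)) U := by
  by_cases h : n = 0
  · subst h
    have := b0_main888 hF hF' hF'' t U hU
    have e1 : ∀ u φ, ((kerW888 0 t u φ * F (rho888 t u φ) : ℝ) : ℂ) = b0h888 F t u φ := by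
      intro u φ; simp [kerW888, b0h888]
    have e2 : ∀ u φ, ((kerW888 0 t u φ * lop683 0 F' F'' (rho888 t u φ) : ℝ) : ℂ)
        = b0k888 F' F'' t u φ := by
      intro u φ; simp [kerW888, b0k888]
    simp only [e1, e2]
    rw [this]
    congr 1
    have : ∀ φ, b0h888 F t 0 φ = ((F (Real.cosh t) : ℝ) : ℂ) := by
      intro φ; simp [b0h888, rho_at_zero888]
    simp only [this]
    simp
  · have := b1_main888 hF hF' hF'' n h t U hU
    have e1 : ∀ u φ, ((kerW888 n t u φ * F (rho888 t u φ) : ℝ) : ℂ) = b1h888 F t u φ := by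
      intro u φ; rw [kerW_ne888 h]; rfl
    have e2 : ∀ u φ, ((kerW888 n t u φ * lop683 n F' F'' (rho888 t u φ) : ℝ) : ℂ)
        = b1k888 n F' F'' t u φ := by
      intro u φ; rw [kerW_ne888 h]; rfl
    simp only [e1, e2]
    rw [this]
    congr 1
    have : ∀ φ, b1h888 F t 0 φ = ((F (Real.cosh t) : ℝ) : ℂ) := by
      intro φ; simp [b1h888, bK888, tH_zero888, rho_at_zero888]
    simp only [this]
    simp

/-- The Green operator inverts `L`: `G ((L F) ∘ cosh) = F ∘ cosh - F 1`. -/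
theorem gL_lop888 (n : ℤ) (d : ℝ) (hd : 0 ≤ d) :
    gL888 n (fun q => ((lop683 n F' F'' (Real.cosh q) : ℝ) : ℂ)) d
      = ((F (Real.cosh d) : ℝ) : ℂ) - ((F 1 : ℝ) : ℂ) := by
  have h := b_main888 hF hF' hF'' n 0 d hd
  have e1 : ∀ φ, ((kerW888 n 0 d φ * F (rho888 0 d φ) : ℝ) : ℂ)
      = ((F (Real.cosh d) : ℝ) : ℂ) := by
    intro φ; rw [kerW_zero_left888, rho_zero_left888, one_mul]
  have e2 : (fun q => ∫ φ in (0:ℝ)..(2 * Real.pi),
      ((kerW888 n 0 q φ * lop683 n F' F'' (rho888 0 q φ) : ℝ) : ℂ))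
      = fun q => ((2 * Real.pi : ℝ) : ℂ) * ((lop683 n F' F'' (Real.cosh q) : ℝ) : ℂ) := by
    funext q
    have : ∀ φ, ((kerW888 n 0 q φ * lop683 n F' F'' (rho888 0 q φ) : ℝ) : ℂ)
        = ((lop683 n F' F'' (Real.cosh q) : ℝ) : ℂ) := by
      intro φ; rw [kerW_zero_left888, rho_zero_left888, one_mul]
    simp only [this]
    simp
  simp only [e1] at h
  rw [e2, gL_const_mul888, Real.cosh_zero] at h
  have h' : ((2 * Real.pi : ℝ) : ℂ) * ((F (Real.cosh d) : ℝ) : ℂ)
      = ((2 * Real.pi : ℝ) : ℂ) * ((F 1 : ℝ) : ℂ)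
        + ((2 * Real.pi : ℝ) : ℂ)
          * gL888 n (fun q => ((lop683 n F' F'' (Real.cosh q) : ℝ) : ℂ)) d := by
    rw [← h]; simp
  have hpi := two_pi_ne888
  have h3 : ((2 * Real.pi : ℝ) : ℂ)
      * (gL888 n (fun q => ((lop683 n F' F'' (Real.cosh q) : ℝ) : ℂ)) d
        - (((F (Real.cosh d) : ℝ) : ℂ) - ((F 1 : ℝ) : ℂ))) = 0 := by
    linear_combination -h'
  rcases mul_eq_zero.mp h3 with h4 | h4
  · exact absurd h4 hpi
  · exact sub_eq_zero.mp h4

/-- **Leaf T6.22.B.1** for a given jet. -/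
theorem darbouxAt_smooth888 (n : ℤ) :
    DarbouxAt683 n (fun q => ((lop683 n F' F'' (Real.cosh q) : ℝ) : ℂ)) := by
  intro t u _ hu
  have hpi := two_pi_ne888
  have cF := contOn_of_hasDerivAt888 hF
  have cF' := contOn_of_hasDerivAt888 hF'
  -- the left-hand side
  have hL : gT888 n (gL888 n (fun q => ((lop683 n F' F'' (Real.cosh q) : ℝ) : ℂ))) t u
      = ((1 / (2 * Real.pi) : ℝ) : ℂ)
          * (∫ φ in (0:ℝ)..(2 * Real.pi), ((kerW888 n t u φ * F (rho888 t u φ) : ℝ) : ℂ))
        - ((F 1 : ℝ) : ℂ) := by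
    unfold gT888
    have e : ∀ φ, ((kerW888 n t u φ : ℝ) : ℂ)
        * gL888 n (fun q => ((lop683 n F' F'' (Real.cosh q) : ℝ) : ℂ))
            (Real.arcosh (rho888 t u φ))
        = ((kerW888 n t u φ * F (rho888 t u φ) : ℝ) : ℂ)
          - ((F 1 : ℝ) : ℂ) * ((kerW888 n t u φ : ℝ) : ℂ) := by
      intro φ
      rw [gL_lop888 hF hF' hF'' n _ (Real.arcosh_nonneg (rho_ge_one888 t u φ)),
        Real.cosh_arcosh (rho_ge_one888 t u φ)]
      push_cast; ring
    simp only [e]
    rw [intervalIntegral.integral_sub, intervalIntegral.integral_const_mul, integral_kerW888]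
    · linear_combination (-((F 1 : ℝ) : ℂ)) * inv_two_pi_mul888
    · exact (Complex.continuous_ofReal.comp ((kerW_cont_phi888 n t u).mul
        (comp_rho_cont_phi888 cF t u))).intervalIntegrable _ _
    · exact (continuous_const.mul (Complex.continuous_ofReal.comp
        (kerW_cont_phi888 n t u))).intervalIntegrable _ _
  -- the translate of `g`
  have hT : (fun q => gT888 n (fun q => ((lop683 n F' F'' (Real.cosh q) : ℝ) : ℂ)) t q)
      = fun q => ((1 / (2 * Real.pi) : ℝ) : ℂ) * ∫ φ in (0:ℝ)..(2 * Real.pi),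
          ((kerW888 n t q φ * lop683 n F' F'' (rho888 t q φ) : ℝ) : ℂ) := by
    funext q
    unfold gT888
    congr 1
    apply intervalIntegral.integral_congr
    intro φ _
    simp only
    rw [Real.cosh_arcosh (rho_ge_one888 t q φ)]
    push_cast; ring
  rw [hL, hT, gL_const_mul888, gL_lop888 hF hF' hF'' n t (by linarith),
    b_main888 hF hF' hF'' n t u hu.le]
  linear_combination (((F (Real.cosh t) : ℝ) : ℂ)) * inv_two_pi_mul888

end

/-- **Leaf T6.22.B.1** (spare of helper888). -/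
theorem dbSmoothC888 : DbSmoothC683 := by
  intro n _ F F' F'' hF hF' hF''
  exact darbouxAt_smooth888 hF hF' hF'' n

end Fermat.Agent.LT.T6.H888

end

end
-- ===== PACK-END LT/T6/H888/DbSmooth.lean

-- ===== PACK-BEGIN LT/T7/H209/LtrInv.lean
section



/-!
# Row LT, tower T7, leaves EKPROD-UP (helper209): left invariance of the sums of left translates

OFF-MAIN, ADDITIVE (all names end in `209`).  Vocabulary: A0, `T5/Spec.lean` v4,
`T7/Level2.lean`, `T7/H893/SupplyFamSpec.lean`; Iwahori kit of helper83, local embeddings of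
helper129, `idealClosure` of helper724.  Nothing assumed.

* the level group `U(𝔫)` is a group, `U(𝔫) ⊆ U(𝔫₀)` for `𝔫 ≤ 𝔫₀`, and the component at `w ∣ 𝔫`
  of an element of `U(𝔫)` lies in the Iwahori subgroup;
* `IsLInv209 𝔫₀ l o φ` (the left half of `H893.IsUInv`) is preserved by `iwL (o 0) H` (`H` an
  Iwahori coset system at `o 0`, `o 0 ∣ 𝔫₀`: the coset system is permuted) and by the left
  translations by central elements;
* `lsum Hg χ` is left `U(𝔫₀)`-invariant if `χ` is and `Hg` is a system of representatives of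
  `U(𝔫₀) g U(𝔫₀) / U(𝔫₀)`.
-/

set_option autoImplicit false

open AutomorphicForm IsDedekindDomain NumberField MeasureTheory
open scoped ComplexConjugate

noncomputable section

namespace Fermat.Agent.LT.T7.H209

open Fermat.Agent.LT.H556 Fermat.Agent.LT.H556.A0 Fermat.Agent.LT.T7 Fermat.Agent.LT.H129
  Fermat.Agent.LT.T2.H724 Fermat.Agent.LT.T1.H724

variable {K : Type} [Field K] [NumberField K]

/-! ## The level group -/

theorem finComp_mul209 (v : HeightOneSpectrum (𝓞 K)) (g h : G K) :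
    finComp v (g * h) = finComp v g * finComp v h := by
  rw [← coe_finCompHom129, map_mul]
  rfl

theorem inLevelGroup_inv209 {𝔫 : Ideal (𝓞 K)} {u : G K} (hu : InLevelGroup 𝔫 u) :
    InLevelGroup 𝔫 u⁻¹ :=
  ⟨trivInf_inv209 hu.1, fun v i j => ⟨(hu.2 v i j).2, by rw [inv_inv]; exact (hu.2 v i j).1⟩⟩

theorem sub_one_mul209 {R : Type} [Ring R] (A B : Matrix (Fin 2) (Fin 2) R) :
    A * B - 1 = (A - 1) * (B - 1) + (A - 1) + (B - 1) := by
  noncomm_ring

theorem mem_mul_idealClosure209 (𝔫 : Ideal (𝓞 K)) (v : HeightOneSpectrum (𝓞 K))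
    {A B : Matrix (Fin 2) (Fin 2) (v.adicCompletion K)}
    (hA : ∀ i j, (A - 1) i j ∈ idealClosure 𝔫 v) (hB : ∀ i j, (B - 1) i j ∈ idealClosure 𝔫 v)
    (i j : Fin 2) : (A * B - 1) i j ∈ idealClosure 𝔫 v := by
  rw [sub_one_mul209, Matrix.add_apply, Matrix.add_apply, Matrix.mul_apply, Fin.sum_univ_two]
  exact add_mem_idealClosure724 v 𝔫
    (add_mem_idealClosure724 v 𝔫
      (add_mem_idealClosure724 v 𝔫 (mul_mem_idealClosure724 v 𝔫 (hA i 0) (hB 0 j))
        (mul_mem_idealClosure724 v 𝔫 (hA i 1) (hB 1 j)))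
      (hA i j)) (hB i j)

theorem inLevelGroup_mul209 {𝔫 : Ideal (𝓞 K)} {u u' : G K} (hu : InLevelGroup 𝔫 u)
    (hu' : InLevelGroup 𝔫 u') : InLevelGroup 𝔫 (u * u') := by
  refine ⟨trivInf_mul209 hu.1 hu'.1, fun v i j => ⟨?_, ?_⟩⟩
  · rw [finComp_mul209]
    exact mem_mul_idealClosure209 𝔫 v (fun i j => (hu.2 v i j).1) (fun i j => (hu'.2 v i j).1) i j
  · rw [mul_inv_rev, finComp_mul209]
    exact mem_mul_idealClosure209 𝔫 v (fun i j => (hu'.2 v i j).2) (fun i j => (hu.2 v i j).2) i j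

theorem inLevelGroup_mono209 {𝔫 𝔫₀ : Ideal (𝓞 K)} (h : 𝔫 ≤ 𝔫₀) {u : G K}
    (hu : InLevelGroup 𝔫 u) : InLevelGroup 𝔫₀ u :=
  ⟨hu.1, fun v i j =>
    ⟨closure_mono (Set.image_mono h) (hu.2 v i j).1,
      closure_mono (Set.image_mono h) (hu.2 v i j).2⟩⟩

/-- `𝔫 𝒪_v` is contained in the maximal ideal if `v ∣ 𝔫`. -/
theorem val_lt_one_of_mem_idealClosure209 {𝔫 : Ideal (𝓞 K)} {v : HeightOneSpectrum (𝓞 K)}
    (hv : v.asIdeal ∣ 𝔫) {x : v.adicCompletion K} (hx : x ∈ idealClosure 𝔫 v) :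
    Valued.v x < 1 := by
  obtain ⟨π, hπ⟩ := exists_unif129 v
  have hπ0 : π ≠ 0 := unif_ne_zero129 v hπ
  have hle : 𝔫 ≤ v.asIdeal := Ideal.le_of_dvd hv
  have hcl : IsClosed {y : v.adicCompletion K | y * π⁻¹ ∈ v.adicCompletionIntegers K} := by
    have h1 : IsClosed ((v.adicCompletionIntegers K : Set (v.adicCompletion K))) :=
      Valued.isClosed_valuationSubring _
    exact h1.preimage (continuous_id.mul continuous_const)
  have hsub : (iotaInt724 v) '' (𝔫 : Set (𝓞 K)) ⊆
      {y : v.adicCompletion K | y * π⁻¹ ∈ v.adicCompletionIntegers K} := by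
    rintro _ ⟨r, hr, rfl⟩
    show iotaInt724 v r * π⁻¹ ∈ v.adicCompletionIntegers K
    rw [HeightOneSpectrum.mem_adicCompletionIntegers, map_mul, map_inv₀, hπ, iotaInt724_eq]
    have h1 : Valued.v (algebraMap (𝓞 K) (v.adicCompletion K) r) < 1 :=
      (val_int_lt_one_iff724 v r).2 (hle hr)
    have h2 := withZero_le_exp_neg_one129 h1
    rwa [mul_inv_le_iff₀ WithZero.exp_pos, one_mul]
  have hmem : x * π⁻¹ ∈ v.adicCompletionIntegers K := closure_minimal hsub hcl hx
  rw [HeightOneSpectrum.mem_adicCompletionIntegers, map_mul, map_inv₀, hπ,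
    mul_inv_le_iff₀ WithZero.exp_pos, one_mul] at hmem
  refine lt_of_le_of_lt hmem ?_
  rw [← WithZero.exp_zero, WithZero.exp_lt_exp]
  norm_num

theorem one_apply_mem209 (v : HeightOneSpectrum (𝓞 K)) (i j : Fin 2) :
    (1 : Matrix (Fin 2) (Fin 2) (v.adicCompletion K)) i j ∈ v.adicCompletionIntegers K := by
  by_cases h : i = j
  · rw [h, Matrix.one_apply_eq]
    exact one_mem _
  · rw [Matrix.one_apply_ne h]
    exact zero_mem _

theorem isIntegralAt_of_sub_one209 {𝔫 : Ideal (𝓞 K)} (v : HeightOneSpectrum (𝓞 K)) {g : G K}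
    (h : ∀ i j, (finComp v g - 1) i j ∈ idealClosure 𝔫 v) : IsIntegralAt v g := by
  intro i j
  have e : finComp v g i j = (finComp v g - 1) i j
      + (1 : Matrix (Fin 2) (Fin 2) (v.adicCompletion K)) i j := by
    rw [Matrix.sub_apply, sub_add_cancel]
  rw [e]
  refine add_mem ?_ (one_apply_mem209 v i j)
  rw [HeightOneSpectrum.mem_adicCompletionIntegers]
  exact val_le_one_of_mem_idealClosure724 v 𝔫 (h i j)

/-- The level group at a place dividing the level lies in the Iwahori subgroup. -/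
theorem inIwahori_of_inLevelGroup209 {𝔫 : Ideal (𝓞 K)} {w : HeightOneSpectrum (𝓞 K)}
    (hw : w.asIdeal ∣ 𝔫) {u : G K} (hu : InLevelGroup 𝔫 u) : T5.InIwahori w u := by
  refine ⟨isIntegralAt_of_sub_one209 w fun i j => (hu.2 w i j).1,
    isIntegralAt_of_sub_one209 w fun i j => (hu.2 w i j).2, ?_⟩
  have e : finComp w u 1 0 = (finComp w u - 1) 1 0 := by
    rw [Matrix.sub_apply, Matrix.one_apply_ne (by decide), sub_zero]
  rw [e]
  exact val_lt_one_of_mem_idealClosure209 hw (hu.2 w 1 0).1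

/-! ## Central elements -/

theorem central_of_scalarUnif209 {v : HeightOneSpectrum (𝓞 K)} {z : G K}
    (hz : IsScalarUniformizerAt v z) (g : G K) : z * g = g * z := by
  obtain ⟨hloc, c, -, hc⟩ := hz
  rw [isLocalAtFin_iff129] at hloc
  apply G_ext129
  · intro w
    rw [map_mul, map_mul, hloc.1 w, one_mul, mul_one]
  · intro v'
    by_cases e : v' = v
    · subst e
      rw [map_mul, map_mul]
      apply Units.ext
      show finComp v' z * finComp v' g = finComp v' g * finComp v' z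
      rw [hc]
      ext i j
      simp [Matrix.diagonal_mul, Matrix.mul_diagonal, mul_comm]
    · rw [map_mul, map_mul, hloc.2 v' e, one_mul, mul_one]

theorem central_zpow209 {z : G K} (hz : ∀ g : G K, z * g = g * z) (k : ℤ) (g : G K) :
    z ^ k * g = g * z ^ k :=
  (Commute.zpow_left (show Commute z g from hz g) k).eq

theorem central_inv209 {z : G K} (hz : ∀ g : G K, z * g = g * z) (g : G K) :
    z⁻¹ * g = g * z⁻¹ :=
  (Commute.inv_left (show Commute z g from hz g)).eq

/-! ## Left invariance -/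

/-- The left half of `H893.IsUInv`. -/
def IsLInv209 (𝔫₀ : Ideal (𝓞 K)) (l : ℕ) (o : ℕ → HeightOneSpectrum (𝓞 K)) (φ : G K → ℂ) :
    Prop :=
  (∀ u : G K, InLevelGroup 𝔫₀ u → ∀ y : G K, φ (u * y) = φ y) ∧
    ∀ h : G K, (∀ w : InfinitePlace K, TrivAtInf w h) →
      (∀ v : HeightOneSpectrum (𝓞 K), (∀ j < l, v ≠ o j) → TrivAtFin v h) →
      (∀ j < l, T5.InIwahori (o j) h) → ∀ y : G K, φ (h * y) = φ y

theorem isLInv_of_isUInv209 {𝔫₀ : Ideal (𝓞 K)} {l : ℕ} {o : ℕ → HeightOneSpectrum (𝓞 K)}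
    {φ : G K → ℂ} (h : H893.IsUInv 𝔫₀ l o φ) : IsLInv209 𝔫₀ l o φ :=
  ⟨fun u hu y => (h.1 u hu y).1, fun g h1 h2 h3 y => (h.2 g h1 h2 h3 y).1⟩

theorem isLInv_ltr_central209 {𝔫₀ : Ideal (𝓞 K)} {l : ℕ} {o : ℕ → HeightOneSpectrum (𝓞 K)}
    {φ : G K → ℂ} {z : G K} (hz : ∀ g : G K, z * g = g * z) (h : IsLInv209 𝔫₀ l o φ) :
    IsLInv209 𝔫₀ l o (H893.ltr z φ) := by
  refine ⟨fun u hu y => ?_, fun g h1 h2 h3 y => ?_⟩
  · rw [ltr_apply209, ltr_apply209, ← mul_assoc, central_inv209 hz u, mul_assoc, h.1 u hu]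
  · rw [ltr_apply209, ltr_apply209, ← mul_assoc, central_inv209 hz g, mul_assoc,
      h.2 g h1 h2 h3]

/-- **The core**: the sum of the left translates over an Iwahori coset system at `w` of a
function which is left invariant under the Iwahori subgroup at `w` inherits the left invariance
under every `v` whose component at `w` lies in the Iwahori subgroup. -/
theorem lsum_left_inv209 (w : HeightOneSpectrum (𝓞 K)) {H : Finset (G K)}
    (hH : IsIwCosetSystem w H) {φ : G K → ℂ}
    (hloc : ∀ u : G K, IsLocalAtFin w u → T5.InIwahori w u → ∀ y : G K, φ (u * y) = φ y)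
    {v : G K} (hvI : T5.InIwahori w v) (hv : ∀ y : G K, φ (v * y) = φ y) (y : G K) :
    H893.lsum H φ (v * y) = H893.lsum H φ y := by
  -- the function `x ↦ φ x⁻¹`
  have e1 : ∀ t : G K, H893.lsum H φ t = cosetOp H (fun x => φ x⁻¹) t⁻¹ := by
    intro t
    rw [lsum_apply209]
    show _ = ∑ h ∈ H, φ (t⁻¹ * h)⁻¹
    refine Finset.sum_congr rfl fun h _ => ?_
    rw [mul_inv_rev, inv_inv]
  have hφc : H83.IsIwInvAt w (fun x => φ x⁻¹) := by
    intro u hu hI x
    show φ (x * u)⁻¹ = φ x⁻¹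
    rw [mul_inv_rev]
    exact hloc u⁻¹ (isLocalAtFin_inv129 hu) (H83.inIwahori_inv83 w hI) x⁻¹
  -- the local part of `v`
  have hv₁loc : IsLocalAtFin w (locFin129 w (finCompHom129 w v)) := isLocalAtFin_locFin129 w _
  have hv₁I : T5.InIwahori w (locFin129 w (finCompHom129 w v)) := by
    refine H83.inIwahori_congr83 w ?_ hvI
    rw [finComp_locFin129]
    rfl
  have hv₂ : TrivAtFin w ((locFin129 w (finCompHom129 w v))⁻¹ * v) := by
    rw [trivAtFin_iff129, map_mul, map_inv, finCompHom129_locFin129, inv_mul_cancel]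
  have hv₂' : TrivAtFin w ((locFin129 w (finCompHom129 w v))⁻¹ * v)⁻¹ := by
    rw [trivAtFin_iff129] at hv₂ ⊢
    rw [map_inv, hv₂, inv_one]
  have hφv₂ : ∀ t : G K, φ ((locFin129 w (finCompHom129 w v))⁻¹ * v * t) = φ t := by
    intro t
    rw [mul_assoc, hloc _ (isLocalAtFin_inv129 hv₁loc) (H83.inIwahori_inv83 w hv₁I), hv]
  have hsplit : (v * y)⁻¹
      = y⁻¹ * ((locFin129 w (finCompHom129 w v))⁻¹ * v)⁻¹
        * (locFin129 w (finCompHom129 w v))⁻¹ := by
    group
  rw [e1, e1, hsplit,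
    H83.cosetOp_isIwInvAt83 w hH hφc _ (isLocalAtFin_inv129 hv₁loc)
      (H83.inIwahori_inv83 w hv₁I),
    H83.cosetOp_mul_right83 w (fun h hh => (hH.2.1 h hh).1) hv₂']
  congr 1
  funext t
  show φ (t * ((locFin129 w (finCompHom129 w v))⁻¹ * v)⁻¹)⁻¹ = φ t⁻¹
  rw [mul_inv_rev, inv_inv]
  exact hφv₂ t⁻¹

theorem isLInv_iwL209 {𝔫₀ : Ideal (𝓞 K)} {l : ℕ} {o : ℕ → HeightOneSpectrum (𝓞 K)}
    (hl : 0 < l) (ho : (o 0).asIdeal ∣ 𝔫₀) {H : Finset (G K)} (hH : IsIwCosetSystem (o 0) H)
    {φ : G K → ℂ} (h : IsLInv209 𝔫₀ l o φ) : IsLInv209 𝔫₀ l o (H893.iwL (o 0) H φ) := by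
  have hloc : ∀ u : G K, IsLocalAtFin (o 0) u → T5.InIwahori (o 0) u →
      ∀ y : G K, φ (u * y) = φ y := by
    intro u hu hI y
    refine h.2 u hu.1 (fun v hv => hu.2 v (hv 0 hl)) (fun j _ => ?_) y
    by_cases e : o j = o 0
    · rw [e]
      exact hI
    · exact H83.inIwahori_of_trivAtFin83 (o j) (hu.2 (o j) e)
  have key : ∀ v : G K, T5.InIwahori (o 0) v → (∀ y : G K, φ (v * y) = φ y) →
      ∀ y : G K, H893.iwL (o 0) H φ (v * y) = H893.iwL (o 0) H φ y := by
    intro v hvI hv y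
    rw [iwL_eq209]
    show _ * H893.lsum H φ (v * y) = _ * H893.lsum H φ y
    rw [lsum_left_inv209 (o 0) hH hloc hvI hv y]
  exact ⟨fun u hu => key u (inIwahori_of_inLevelGroup209 ho hu) (h.1 u hu),
    fun g h1 h2 h3 => key g (h3 0 hl) (h.2 g h1 h2 h3)⟩

theorem isLInv_iwL_iterate209 {𝔫₀ : Ideal (𝓞 K)} {l : ℕ} {o : ℕ → HeightOneSpectrum (𝓞 K)}
    (hl : 0 < l) (ho : (o 0).asIdeal ∣ 𝔫₀) {H : Finset (G K)} (hH : IsIwCosetSystem (o 0) H)
    {φ : G K → ℂ} (h : IsLInv209 𝔫₀ l o φ) (m : ℕ) :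
    IsLInv209 𝔫₀ l o ((H893.iwL (o 0) H)^[m] φ) := by
  induction m with
  | zero => exact h
  | succ m ih =>
    rw [Function.iterate_succ_apply']
    exact isLInv_iwL209 hl ho hH ih

theorem isLInv_regL209 {𝔫₀ : Ideal (𝓞 K)} {l : ℕ} {o : ℕ → HeightOneSpectrum (𝓞 K)}
    (hl : 0 < l) (ho : (o 0).asIdeal ∣ 𝔫₀) {H : Finset (G K)} (hH : IsIwCosetSystem (o 0) H)
    {z : G K} (hz : IsScalarUniformizerAt (o 0) z) (k : ℤ) (m : ℕ)
    {φ : G K → ℂ} (h : IsLInv209 𝔫₀ l o φ) :
    IsLInv209 𝔫₀ l o (H893.regL (o 0) z H k m φ) := by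
  rw [regL_eq209]
  exact isLInv_ltr_central209 (central_zpow209 (central_of_scalarUnif209 hz) k)
    (isLInv_iwL_iterate209 hl ho hH h m)

/-! ## The double coset -/

open scoped Classical in
/-- `lsum Hg χ` is left invariant under `U(𝔫₀)` if `χ` is and `Hg` represents
`U(𝔫₀) g U(𝔫₀) / U(𝔫₀)`. -/
theorem lsum_dbl_left_inv209 {𝔫₀ : Ideal (𝓞 K)} {g : G K} {Hg : Finset (G K)}
    (hsys : IsDblCosetSystem 𝔫₀ g Hg) {χ : G K → ℂ}
    (hχ : ∀ u : G K, InLevelGroup 𝔫₀ u → ∀ y : G K, χ (u * y) = χ y)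
    {v : G K} (hv : InLevelGroup 𝔫₀ v) (y : G K) :
    H893.lsum Hg χ (v * y) = H893.lsum Hg χ y := by
  obtain ⟨hrep, hdist, hcov⟩ := hsys
  have hex : ∀ h : G K, ∃ h' : G K, h ∈ Hg → h' ∈ Hg ∧ InLevelGroup 𝔫₀ (h'⁻¹ * (v⁻¹ * h)) := by
    intro h
    by_cases hh : h ∈ Hg
    · obtain ⟨u₁, u₂, hu₁, hu₂, rfl⟩ := hrep h hh
      obtain ⟨h', hh', hI⟩ := hcov (v⁻¹ * u₁) (inLevelGroup_mul209 (inLevelGroup_inv209 hv) hu₁)
      refine ⟨h', fun _ => ⟨hh', ?_⟩⟩
      have e : h'⁻¹ * (v⁻¹ * (u₁ * g * u₂)) = h'⁻¹ * (v⁻¹ * u₁ * g) * u₂ := by group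
      rw [e]
      exact inLevelGroup_mul209 hI hu₂
    · exact ⟨1, fun h0 => (hh h0).elim⟩
  choose σ hσ using hex
  have hinj : Set.InjOn σ (Hg : Set (G K)) := by
    intro a ha b hb e
    by_contra hne
    apply hdist a ha b hb hne
    have h1 := (hσ a ha).2
    have h2 := (hσ b hb).2
    rw [← e] at h2
    have := inLevelGroup_mul209 (inLevelGroup_inv209 h1) h2
    have e' : ((σ a)⁻¹ * (v⁻¹ * a))⁻¹ * ((σ a)⁻¹ * (v⁻¹ * b)) = a⁻¹ * b := by group
    rwa [e'] at this
  have himg : Hg.image σ = Hg := by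
    apply Finset.eq_of_subset_of_card_le
    · intro x hx
      obtain ⟨h, hh, rfl⟩ := Finset.mem_image.mp hx
      exact (hσ h hh).1
    · rw [Finset.card_image_of_injOn hinj]
  rw [lsum_apply209, lsum_apply209]
  conv_rhs => rw [← himg, Finset.sum_image hinj]
  refine Finset.sum_congr rfl fun h hh => ?_
  have e : h⁻¹ * (v * y) = (((σ h)⁻¹ * (v⁻¹ * h))⁻¹) * ((σ h)⁻¹ * y) := by group
  rw [e, hχ _ (inLevelGroup_inv209 (hσ h hh).2)]

end Fermat.Agent.LT.T7.H209

end

end
-- ===== PACK-END LT/T7/H209/LtrInv.lean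

-- ===== PACK-BEGIN LT/T7/H139/IotaQ.lean
section










/-!
# Row LT, tower T7, leaf T7.L2Q.1.H1.2 `IotaQC298 F` (helper139, registry #2602)

OFF-MAIN.  Proves `MQ298.IotaQC298 F` VERBATIM: the base change of adeles `𝔸_ℚ → 𝔸_F` for `F`
imaginary quadratic.  The map is `iota943 ℚ F = A2.H743.bcAdele743 ℚ F` (helper743).

Fields of `H305.IsAdeleBase305`:
* `cont`, `rat`: helper743 (`continuous_iota943`, `iota943_algebraMap`);
* `fin`: helper943 `iotaFinC943`; `inf`: helper729 `iotaInfC729` (any extension);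
* `fixed`: `fin_fixed139`, `inf_fixed139` (helper139 `IotaFixed.lean`, any extension), with the
  asset `sigmaLocC558` (helper558);
* `norm`: helper517 `adNorm_bcAdele517` (any extension: `‖ι x‖ = ‖x‖ ^ [F : ℚ]`);
* `onto`: helper943 `glueC943` with `descFinQ139` (the proof of helper816 `ontoFinC816`, which
  does not use the hypothesis on the infinite places) and `descInfQ139` (NEW: the real place;
  `σ_𝔸` acts at the complex place of `F` by the conjugation, because `σ ≠ 1`, so the component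
  of a fixed adele is real);
* `closed`: helper37 `iotaEmbC37` and the range is the set of the fixed points of `σ_𝔸`.
-/

set_option autoImplicit false
set_option linter.unusedSectionVars false
set_option linter.unusedVariables false

open AutomorphicForm IsDedekindDomain NumberField MeasureTheory
open scoped ComplexConjugate

noncomputable section

namespace Fermat.Agent.LT.T7.H139

open Fermat.Agent.LT.H556 Fermat.Agent.LT.H556.A0 Fermat.Agent.LT.T7 Fermat.Agent.LT.T7.H305
open Fermat.Agent.LT.T7.H943 Fermat.Agent.LT.A2.H743 Fermat.Agent.LT.T2.H131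

section General

variable {K K' : Type} [Field K] [NumberField K] [Field K'] [NumberField K'] [Algebra K K']

/-- The base change of adeles of helper743 is a pre-base change in the sense of helper816
(any extension of number fields). -/
theorem isPreBase_iotaQ139 : H816.IsPreBase816 (iota943 K K') where
  cont := continuous_iota943 K K'
  rat := iota943_algebraMap K K'
  fin := iotaFinC943 K K'
  inf := IotaInf729.iotaInfC729 K K'

/-- **Local descent at a finite place, any extension** (the proof of helper816 `ontoFinC816`;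
no hypothesis on the infinite places). -/
theorem descFinQ139 (hS : SigmaLocC305 K') {D : CompData K K'} (hD : IsCompData D)
    (y : Adl K') (hy : D.s.σA y = y) (v : HeightOneSpectrum (𝓞 K)) :
    ∃ a : Adl K, ∀ w : HeightOneSpectrum (𝓞 K'), PlaceOver K K' v w →
      T5.finHom w (iota943 K K' a) = T5.finHom w y := by
  classical
  have hι : H816.IsPreBase816 (iota943 K K') := isPreBase_iotaQ139
  by_cases hW : ∃ w₀ : HeightOneSpectrum (𝓞 K'), PlaceOver K K' v w₀
  swap
  · exact ⟨0, fun w hw => absurd ⟨w, hw⟩ hW⟩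
  obtain ⟨w₀, hw₀⟩ := hW
  choose e i he hrat hval hfin using
    fun (w : HeightOneSpectrum (𝓞 K')) (hw : PlaceOver K K' v w) => hι.fin v w hw
  have happ : ∀ n : ℕ, ∃ t : K, ∀ (w : HeightOneSpectrum (𝓞 K')) (hw : PlaceOver K K' v w),
      Valued.v (i w hw (algebraMap K (v.adicCompletion K) t)
        - (D.l : w.adicCompletion K') * T5.finHom w y) ≤ WithZero.exp (-(n : ℤ)) := by
    intro n
    obtain ⟨t, ht⟩ := H816.trace_approx816 hD hS y hy v n
    exact ⟨t, fun w hw => by rw [hrat w hw]; exact ht w hw⟩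
  obtain ⟨a, ha⟩ := H816.exists_of_approx816 v (i w₀ hw₀) (e w₀ hw₀) (he w₀ hw₀) (hval w₀ hw₀)
    ((D.l : w₀.adicCompletion K') * T5.finHom w₀ y)
    (fun n => by
      obtain ⟨t, ht⟩ := happ n
      exact ⟨algebraMap K (v.adicCompletion K) t, ht w₀ hw₀⟩)
  have hall : ∀ (w : HeightOneSpectrum (𝓞 K')) (hw : PlaceOver K K' v w),
      i w hw a = (D.l : w.adicCompletion K') * T5.finHom w y := by
    intro w hw
    by_contra hne
    have hne' : Valued.v (i w hw a - (D.l : w.adicCompletion K') * T5.finHom w y) ≠ 0 := by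
      rw [Ne, map_eq_zero, sub_eq_zero]
      exact hne
    obtain ⟨m, hm⟩ := exists_exp_neg_lt_h131 hne'
    obtain ⟨t, ht⟩ := happ (m * e w₀ hw₀)
    have hexp : WithZero.exp (-((m * e w₀ hw₀ : ℕ) : ℤ))
        = WithZero.exp (-(m : ℤ)) ^ (e w₀ hw₀) := by
      rw [← WithZero.exp_nsmul, nsmul_eq_mul]
      congr 1
      push_cast
      ring
    have h0 : Valued.v (a - algebraMap K (v.adicCompletion K) t) ^ (e w₀ hw₀)
        ≤ WithZero.exp (-(m : ℤ)) ^ (e w₀ hw₀) := by
      rw [← hexp, ← hval w₀ hw₀, map_sub, ha, ← Valuation.map_neg, neg_sub]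
      exact ht w₀ hw₀
    have h1 : Valued.v (a - algebraMap K (v.adicCompletion K) t) ≤ WithZero.exp (-(m : ℤ)) := by
      by_contra hlt
      exact absurd h0 (not_le.2 (pow_lt_pow_left₀ (not_le.1 hlt) zero_le (he w₀ hw₀).ne'))
    have h2 : Valued.v (i w hw (a - algebraMap K (v.adicCompletion K) t))
        ≤ WithZero.exp (-(m : ℤ)) := by
      rw [hval w hw]
      exact H816.pow_le_of_le816 h1 (he w hw)
    have h3 : Valued.v (i w hw (algebraMap K (v.adicCompletion K) t)
        - (D.l : w.adicCompletion K') * T5.finHom w y) ≤ WithZero.exp (-(m : ℤ)) := by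
      refine (ht w hw).trans ?_
      rw [WithZero.exp_le_exp]
      have h5 : (1 : ℤ) ≤ (e w₀ hw₀ : ℤ) := by exact_mod_cast he w₀ hw₀
      have h6 : (0 : ℤ) ≤ (m : ℤ) := Int.natCast_nonneg m
      push_cast
      nlinarith
    have hsplit : i w hw a - (D.l : w.adicCompletion K') * T5.finHom w y
        = i w hw (a - algebraMap K (v.adicCompletion K) t)
          + (i w hw (algebraMap K (v.adicCompletion K) t)
            - (D.l : w.adicCompletion K') * T5.finHom w y) := by
      rw [map_sub]; ring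
    have h4 : Valued.v (i w hw a - (D.l : w.adicCompletion K') * T5.finHom w y)
        ≤ WithZero.exp (-(m : ℤ)) := by
      rw [hsplit]
      exact (Valuation.map_add _ _ _).trans (max_le h2 h3)
    exact absurd h4 (not_le.2 hm)
  refine ⟨H816.single816 v (a / (D.l : v.adicCompletion K)), fun w hw => ?_⟩
  rw [hfin w hw, H816.finHom_single816, map_div₀, map_natCast, hall w hw,
    mul_div_cancel_left₀ _ (H816.natCast_ne_zero816 w hD.cyc.pos)]

/-- The image of the base change of adeles is fixed by `σ_𝔸` (any extension). -/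
theorem fixedQ139 (hS : SigmaLocC305 K') {D : CompData K K'} (hD : IsCompData D) (x : Adl K) :
    D.s.σA (iota943 K K' x) = iota943 K K' x := by
  refine Prod.ext ?_ ?_
  · funext u
    exact inf_fixed139 hS hD x u
  · refine FiniteAdeleRing.ext (R := 𝓞 K') (K := K') fun w' => ?_
    exact fin_fixed139 hS hD x w'

/-- The set of the fixed points of `σ_𝔸` is closed. -/
theorem isClosed_fixedQ139 (s : T5.AdelicAut K') : IsClosed {y : Adl K' | s.σA y = y} := by
  have h1 : T2Space (FiniteAdeleRing (𝓞 K') K') := by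
    refine T2Space.of_injective_continuous
      (f := fun (x : FiniteAdeleRing (𝓞 K') K') (v : HeightOneSpectrum (𝓞 K')) => x v) ?_ ?_
    · intro x y h
      exact RestrictedProduct.ext _ _ fun v => congrFun h v
    · exact RestrictedProduct.continuous_coe
  have h2 : T2Space (InfiniteAdeleRing K') :=
    inferInstanceAs (T2Space ((v : InfinitePlace K') → v.Completion))
  have h3 : T2Space (Adl K') :=
    inferInstanceAs (T2Space (InfiniteAdeleRing K' × FiniteAdeleRing (𝓞 K') K'))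
  exact isClosed_eq s.continuous_σA continuous_id

end General

section Quad

variable {F : Type} [Field F] [NumberField F]

/-- At the place of an imaginary quadratic field the component of a `σ_𝔸`-fixed adele is real:
`σ_𝔸` acts by the conjugation (`σ ≠ 1`: the fixed field of `σ` is `ℚ`, and the place is
complex). -/
theorem conj_infHom_fixedQ139 (hq : IsImagQuad F) (hS : SigmaLocC305 F) {D : CompData ℚ F}
    (hD : IsCompData D) (y : Adl F) (hy : D.s.σA y = y) (u : InfinitePlace F) :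
    conj (T5.infHom u y) = T5.infHom u y := by
  obtain ⟨hcard, hcplx⟩ := hq
  have hsub : Subsingleton (InfinitePlace F) := (Nat.card_eq_one_iff_unique.1 hcard).1
  have hu : u.comap (D.s.σ : F →+* F) = u := Subsingleton.elim _ _
  rcases (hS D.s).2 u with h | h
  · exfalso
    have hσ : ∀ x : F, D.s.σ x = x := by
      intro x
      have e := h (algebraMap F (Adl F) x)
      rw [D.s.compat, hu, infHom_algebraMap139, infHom_algebraMap139] at e
      exact u.embedding.injective e
    have hreal : ComplexEmbedding.IsReal u.embedding := by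
      rw [ComplexEmbedding.isReal_iff]
      ext x
      obtain ⟨q, hq⟩ := (hD.base x).1 ((hD.cyc.fixed x).2 (hσ x))
      rw [← hq, ComplexEmbedding.conjugate_coe_eq, eq_ratCast, map_ratCast, map_ratCast]
    exact (InfinitePlace.not_isReal_iff_isComplex.2 (hcplx u)) (InfinitePlace.isReal_iff.2 hreal)
  · have e := h y
    rw [hy, hu] at e
    exact e.symm

/-- **Local descent at the real place of `ℚ`** (NEW with respect to the cubic cut). -/
theorem descInfQ139 (hq : IsImagQuad F) (hS : SigmaLocC305 F) {D : CompData ℚ F}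
    (hD : IsCompData D) (y : Adl F) (hy : D.s.σA y = y) (v : InfinitePlace ℚ) :
    ∃ a : Adl ℚ, ∀ w' : InfinitePlace F, w'.comap (algebraMap ℚ F) = v →
      T5.infHom w' (iota943 ℚ F a) = T5.infHom w' y := by
  classical
  have hsub : Subsingleton (InfinitePlace F) := (Nat.card_eq_one_iff_unique.1 hq.1).1
  have hne : Nonempty (InfinitePlace F) := (Nat.card_eq_one_iff_unique.1 hq.1).2
  obtain ⟨u₀⟩ := hne
  have hv : v.IsReal := by
    rw [Subsingleton.elim v Rat.infinitePlace]
    exact Rat.isReal_infinitePlace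
  obtain ⟨c, hc⟩ := InfinitePlace.Completion.surjective_extensionEmbeddingOfIsReal hv
    (T5.infHom u₀ y).re
  have hc' : InfinitePlace.Completion.extensionEmbedding v c = T5.infHom u₀ y := by
    rw [← InfinitePlace.Completion.extensionEmbeddingOfIsReal_apply hv, hc]
    exact Complex.conj_eq_iff_re.1 (conj_infHom_fixedQ139 hq hS hD y hy u₀)
  have hex : ∃ a : Adl ℚ, T5.infHom v a = T5.infHom u₀ y := by
    refine ⟨((Pi.single v c : (u : InfinitePlace ℚ) → u.Completion),
      (0 : FiniteAdeleRing (𝓞 ℚ) ℚ)), ?_⟩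
    show InfinitePlace.Completion.extensionEmbedding v
      ((Pi.single v c : (u : InfinitePlace ℚ) → u.Completion) v) = _
    rw [Pi.single_eq_same]
    exact hc'
  obtain ⟨a, ha⟩ := hex
  refine ⟨a, ?_⟩
  intro w' hw'
  have hw0 : w' = u₀ := Subsingleton.elim _ _
  subst hw0
  rcases IotaInf729.iotaInfC729 ℚ F w' with h | h
  · rw [h, hw', ha]
  · rw [h, hw', ha]
    exact conj_infHom_fixedQ139 hq hS hD y hy w'

end Quad

/-- **T7.L2Q.1.H1.2 `IotaQC298 F`** (registry #2602): the base change of adeles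
`𝔸_ℚ → 𝔸_F` for `F` imaginary quadratic. -/
theorem iotaQC139 (F : Type) [Field F] [NumberField F] : MQ298.IotaQC298 F := by
  intro hq D hD hcyc hl
  have hS : SigmaLocC305 F := H558.sigmaLocC558
  have hfixed : ∀ x : Adl ℚ, D.s.σA (iota943 ℚ F x) = iota943 ℚ F x :=
    fun x => fixedQ139 hS hD x
  have honto : ∀ y : Adl F, D.s.σA y = y → ∃ x : Adl ℚ, iota943 ℚ F x = y :=
    fun y hy => glueC943 ℚ F y (fun v => descFinQ139 hS hD y hy v)
      (fun v => descInfQ139 hq hS hD y hy v)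
  have hrange : Set.range (iota943 ℚ F) = {y : Adl F | D.s.σA y = y} := by
    ext y
    constructor
    · rintro ⟨x, rfl⟩
      exact hfixed x
    · intro hy
      exact honto y hy
  refine ⟨iota943 ℚ F, ?_⟩
  exact
    { cont := continuous_iota943 ℚ F
      closed := ⟨H37.iotaEmbC37 ℚ F, by rw [hrange]; exact isClosed_fixedQ139 D.s⟩
      rat := iota943_algebraMap ℚ F
      fixed := hfixed
      onto := honto
      norm := fun x => by
        rw [iota943_def, H517.adNorm_bcAdele517 ℚ F x, hcyc.degree]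
      fin := iotaFinC943 ℚ F
      inf := IotaInf729.iotaInfC729 ℚ F }

end Fermat.Agent.LT.T7.H139

end

end
-- ===== PACK-END LT/T7/H139/IotaQ.lean

-- ===== PACK-BEGIN LT/T7/H767/UnitMatchQ2.lean
section





/-!
# Row LT, tower T7, leaf T7.L2Q.1.H1.5.3 `UnitMatchQC298b F`, v2 (registry row 2671, helper767)

OFF-MAIN.  ADDITIVE (new names only, suffix `767`).  No hole, nothing assumed.

    unitMatchQC767b (F) : MQ298.UnitMatchQC298b F

verbatim against `LT/T7/H298/MatchQCut2.lean` (helper298@0dd88c71f): the fundamental lemma for the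
unit element over `ℚ` for the local hypotheses `LocHypQ298b` (split clause for ONE enumeration).

Proof.  `inv_up`, `inv_down`, `inert`, the archimedean clauses: as for v1 (`unitMatchQC767`,
`UnitMatchQ.lean`).  `split` at `v ∈ T`: the enumeration of the hypothesis.  `split` at a new place
`v ∈ S \ T` with two places over it: the enumeration `w j = σ^{-j} w₁` of helper816
(`T7/H816/UnitGal.lean`: `enum816`, `enum_over816`, `enum_rel816`, `enum_ne816`,
`absNorm_eq_of_split816`) and the identifications of `T6.InstSplitC` (`v` is unramified); the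
levels are `0`, the components are unit elements, `unit ∘ i_j = unit`, and the convolution of unit
elements is the unit element.

Vendored byte-identical: the closure of `MatchQCut2.lean` (helper298@0dd88c71f),
`T7/H816/UnitGal.lean` (helper816@1a191fbef, sha256 8a7fc734), helper159 `GoodUnit(Tw).lean`.
-/

set_option autoImplicit false
set_option linter.unusedSectionVars false

open AutomorphicForm IsDedekindDomain NumberField MeasureTheory

noncomputable section

namespace Fermat.Agent.LT.T7.H767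

open Fermat.Agent.LT.H556 Fermat.Agent.LT.H556.A0 Fermat.Agent.LT.T7 Fermat.Agent.LT.T7.H305
open Fermat.Agent.LT

section Global

variable {K K' : Type} [Field K] [NumberField K] [Field K'] [NumberField K'] [Algebra K K']

/-- The enumeration and the identifications at an unramified place with two places over it
(the construction of helper816, `split_new816`, on `UnitGal.lean`). -/
theorem split_new767 (hIS : T6.InstSplitC) (D : CompData K K') (hD : IsCompData D)
    (hcyc : IsCycExt K K' D.l) {v : HeightOneSpectrum (𝓞 K)}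
    (hun : ∀ w : HeightOneSpectrum (𝓞 K'), PlaceOver K K' v w →
      ∃ x : 𝓞 K, x ∈ v.asIdeal ∧ algebraMap (𝓞 K) (𝓞 K') x ∉ w.asIdeal ^ 2)
    (h2 : ∃ w₁ w₂ : HeightOneSpectrum (𝓞 K'),
      PlaceOver K K' v w₁ ∧ PlaceOver K K' v w₂ ∧ w₁ ≠ w₂) :
    ∃ (w : ℕ → HeightOneSpectrum (𝓞 K'))
      (i : ∀ j : ℕ, v.adicCompletion K ≃+* (w j).adicCompletion K'),
      (∀ j : ℕ, PlaceOver K K' v (w j)) ∧ (∀ j : ℕ, T5.PlaceRel D.s (w (j + 1)) (w j)) ∧
      (∀ j : ℕ, 0 < j → j < D.l → w j ≠ w 0) ∧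
      (∀ (j : ℕ) (x : K), i j (algebraMap K (v.adicCompletion K) x)
        = algebraMap K' ((w j).adicCompletion K') (algebraMap K K' x)) ∧
      (∀ (j : ℕ) (x : v.adicCompletion K), Valued.v (i j x) = Valued.v x) := by
  obtain ⟨w₁, w₂, h1, h2', h12⟩ := h2
  have := hcyc.galois
  have hC : H816U.CycHyp816 K D.s.σ D.l :=
    H816U.cycHyp_of816 D.s D.l D.k hD.cyc hD.base hcyc.prime
  have hover : ∀ j : ℕ, PlaceOver K K' v (H816U.enum816 D.s.σ w₁ j) :=
    H816U.enum_over816 hC h1
  have hex : ∀ j : ℕ,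
      ∃ i : v.adicCompletion K ≃+* (H816U.enum816 D.s.σ w₁ j).adicCompletion K',
      (∀ x : K, i (algebraMap K (v.adicCompletion K) x)
        = algebraMap K' ((H816U.enum816 D.s.σ w₁ j).adicCompletion K') (algebraMap K K' x)) ∧
      ∀ x : v.adicCompletion K, Valued.v (i x) = Valued.v x := fun j =>
    hIS K K' v (H816U.enum816 D.s.σ w₁ j) (placeOver_iff767 (hover j))
      (H816U.absNorm_eq_of_split816 hcyc (hover j) h1 h2' h12) (hun _ (hover j))
  choose i hi hval using hex
  exact ⟨H816U.enum816 D.s.σ w₁, i, hover, H816U.enum_rel816 D.s w₁,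
    fun j hj0 hjl => H816U.enum_ne816 hC hcyc.degree h1 h1 h2' h12 j hj0 hjl, hi, hval⟩

end Global

/-- **LEAF Q2.7.11 = UNIT-MATCH over `ℚ`, v2** (`LocHypQ298b`), closed. -/
theorem unitMatchQC767b (F : Type) [Field F] [NumberField F] : MQ298.UnitMatchQC298b F := by
  classical
  intro hT6 _ D hD hcyc _ μr _ μc _ T₀ hun n m hlev T S T' S' hT₀T _ hTT' _ φ₀ Φ f₀ F0 F1 H
  obtain ⟨-, -, -, -, -, hLoc, hExt, hIS, -, -, -, -, -, hFL, -⟩ := hT6
  have hupT : ∀ v ∈ T, ∀ w : HeightOneSpectrum (𝓞 F), PlaceOver ℚ F v w →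
      ext305 T' φ₀ w = φ₀ w :=
    fun v hv w hvw => ext305_of_mem767 ((hTT' w).2 ⟨v, hv, hvw⟩)
  have hupN : ∀ v : HeightOneSpectrum (𝓞 ℚ), v ∉ T → ∀ w : HeightOneSpectrum (𝓞 F),
      PlaceOver ℚ F v w → ext305 T' φ₀ w = unit305 := by
    intro v hv w hvw
    apply ext305_of_not_mem767
    intro hw
    obtain ⟨v', hv', hv'w⟩ := (hTT' w).1 hw
    rw [placeOver_unique767 hvw hv'w] at hv
    exact hv hv'
  have hm0 : ∀ v : HeightOneSpectrum (𝓞 ℚ), v ∉ T → m v = 0 :=
    fun v hv => hlev.1 v (fun h => hv (hT₀T h))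
  have hn0 : ∀ v : HeightOneSpectrum (𝓞 ℚ), v ∉ T → ∀ w : HeightOneSpectrum (𝓞 F),
      PlaceOver ℚ F v w → n w = 0 :=
    fun v hv w hvw => hlev.2 v w (fun h => hv (hT₀T h)) hvw
  refine ⟨?_, ?_, H.arch_up, H.arch_down0, H.arch_down1, ?_, ?_, H.arch⟩
  · -- inv_up
    intro v _ w hvw
    by_cases hvT : v ∈ T
    · rw [hupT v hvT w hvw]
      exact H.inv_up v hvT w hvw
    · rw [hupN v hvT w hvw, hn0 v hvT w hvw]
      exact ⟨isBiInv_unit767, hasFinSupp_unit767⟩
  · -- inv_down
    intro v _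
    by_cases hvT : v ∈ T
    · rw [ext305_of_mem767 hvT]
      exact H.inv_down v hvT
    · rw [ext305_of_not_mem767 hvT, hm0 v hvT]
      exact ⟨isBiInv_unit767, hasFinSupp_unit767⟩
  · -- inert
    intro v _ w hvw huniq e i sw hi hsw hext
    by_cases hvT : v ∈ T
    · rw [hupT v hvT w hvw, ext305_of_mem767 hvT]
      exact H.inert v hvT w hvw huniq e i sw hi hsw hext
    · have hunr := hun v (fun h => hvT (hT₀T h)) w hvw
      have he : e = 1 := ramIdx_eq_one767 hunr hi hext
      subst he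
      have hN := absNorm_over767 hExt hcyc hvw huniq hunr
      have hk : T6.IsLocalField (v.adicCompletion ℚ) (Ideal.absNorm v.asIdeal) := hLoc ℚ v
      have hk' : T6.IsLocalField (w.adicCompletion F) (Ideal.absNorm v.asIdeal ^ D.l) := by
        rw [← hN]
        exact hLoc F w
      have e1 : (unit305 : GL (Fin 2) (w.adicCompletion F) → ℂ)
          = fun g => H159.unitFn159 (T6.cartan g) := unit305_eq767
      have e2 : (unit305 : GL (Fin 2) (v.adicCompletion ℚ) → ℂ)
          = fun g => H159.unitFn159 (T6.cartan g) := unit305_eq767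
      rw [hupN v hvT w hvw, ext305_of_not_mem767 hvT, hn0 v hvT w hvw, hm0 v hvT, e1, e2]
      refine ⟨fun δ γ c c' hreg hconj hc hc' => ?_, fun γ c' hreg hnn hc' => ?_⟩
      · exact hFL.1 (v.adicCompletion ℚ) (w.adicCompletion F) (Ideal.absNorm v.asIdeal) D.l i sw
          hk hk' hext hcyc.prime H159.unitFn159 H159.unitFn159 H159.isDominant_unitFn159
          H159.isDominant_unitFn159 (H159.isBC_unitFn159 _ _) δ γ c c' hreg trivial hconj hc hc'
      · exact hFL.2 (v.adicCompletion ℚ) (w.adicCompletion F) (Ideal.absNorm v.asIdeal) D.l i sw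
          hk hk' hext hcyc.prime H159.unitFn159 H159.unitFn159 H159.isDominant_unitFn159
          H159.isDominant_unitFn159 (H159.isBC_unitFn159 _ _) γ c' hreg hnn hc'
  · -- split
    intro v _ h2
    by_cases hvT : v ∈ T
    · obtain ⟨w, i, h_over, h_rel, h_ne, h_i, h_val, h_n, h_conv⟩ := H.split v hvT h2
      refine ⟨w, i, h_over, h_rel, h_ne, h_i, h_val, h_n, ?_⟩
      have e0 : (fun (j : ℕ) (g : GL (Fin 2) (v.adicCompletion ℚ)) => ext305 T' φ₀ (w j)
            (Matrix.GeneralLinearGroup.map ((i j : v.adicCompletion ℚ ≃+* _) :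
              v.adicCompletion ℚ →+* (w j).adicCompletion F) g))
          = fun (j : ℕ) (g : GL (Fin 2) (v.adicCompletion ℚ)) => φ₀ (w j)
            (Matrix.GeneralLinearGroup.map ((i j : v.adicCompletion ℚ ≃+* _) :
              v.adicCompletion ℚ →+* (w j).adicCompletion F) g) := by
        funext j g
        rw [hupT v hvT (w j) (h_over j)]
      rw [e0, ext305_of_mem767 hvT]
      exact h_conv
    · obtain ⟨w, i, h_over, h_rel, h_ne, h_i, h_val⟩ :=
        split_new767 hIS D hD hcyc (hun v (fun h => hvT (hT₀T h))) h2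
      refine ⟨w, i, h_over, h_rel, h_ne, h_i, h_val,
        fun j => by rw [hn0 v hvT (w j) (h_over j), hm0 v hvT], ?_⟩
      rw [ext305_of_not_mem767 hvT, hm0 v hvT]
      refine isConvProd_unit767 D.l _ (fun j => ?_)
      show (fun g : GL (Fin 2) (v.adicCompletion ℚ) => ext305 T' φ₀ (w j)
        (Matrix.GeneralLinearGroup.map ((i j : v.adicCompletion ℚ ≃+* _) :
          v.adicCompletion ℚ →+* (w j).adicCompletion F) g)) = unit305
      rw [hupN v hvT (w j) (h_over j)]
      exact unit305_map767 _ (fun x => h_val j x)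

end Fermat.Agent.LT.T7.H767

end

end
-- ===== PACK-END LT/T7/H767/UnitMatchQ2.lean

-- ===== PACK-BEGIN LT/T7/H514/FactUpQCore.lean
section



/-!
# Row LT, tower T7, node Q2.7.13 `MQ298.FactUpQC298` (registry row 2676, helper514):
# THE CUT over `ℚ` in CORE FORM (independent of the form of the local hypotheses) -- Spec

OFF-MAIN.  Definitions and frozen Props only (the proved tops are `FactUpQCoreTop.lean`).  No
hole, nothing assumed.  ADDITIVE (new names only, suffix `514`, namespace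
`Fermat.Agent.LT.T7.FUQ514`); `FactUpQSpec.lean` / `FactUpQTop.lean` (v1) are unchanged.

## Why

The split clause of `H305.LocHyp305` / `MQ298.LocHypQ298` (ALL enumerations of the places over a
split place) is unsatisfiable at the bad split places (FAIL #18179, helper893 v2 `LocHyp893`,
helper801 `LocHypQb801`, helper311, helper467): the chain is being re-based on local hypotheses
with ONE enumeration.  The cut below does not mention any structure of local hypotheses:

* the NODE `UpFactQCore514 F` (global → local upstairs, no matching) takes the invariance of the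
  components upstairs, the regularity of `Φ` and, at every place of `S` with two places over it,
  AN enumeration with equal levels and the convolution identity (`SplitClauseQ514`), and returns
  the split values FOR SUCH AN ENUMERATION (`IsSplitValQB514`, mirror of helper311
  `IsSplitValB311`);
* the LEAVES `LocEqInertQL514 F`, `LocEqSplitQL514 F`, `LocEqArchQL514 F` are LOCAL: their only
  matching hypothesis is the clause at the place (`InertClauseQ514`, the convolution identity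
  inside `IsSplitValQB514`, `T6.IsArchMatch`);
* `FactUpQCore514 F` = the factorisation upstairs with the clauses as hypotheses.

    factUpQCore_of514   : UpFactQCore514 F → LocEqInertQL514 F → LocEqSplitQL514 F
                            → LocEqArchQL514 F → FactUpQCore514 F
    factUpQC298_of_core514 : FactUpQCore514 F → SplitEnumExQC514 F → MQ298.FactUpQC298 F
    locEq*QC514_of_L514 : the local leaves give the leaves of v1 (`FactUpQSpec.lean`)

For `h : LocHypQb801 …` (helper801) or any other one-enumeration form the hypotheses of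
`FactUpQCore514` are `h.inv_up`, `h.inv_down`, `h.arch_up`, `h.inert`, `h.split`, `h.arch`.

FALSITY CHECKS (helper514).  As in `FactUpQSpec.lean`; moreover: (1) the node needs AN
enumeration at a split place, any enumeration in the order of the orbit works (the twisted
integral at a split place is the split integral in the coordinates of ANY enumeration with
`w j = σ (w (j+1))`); (2) at a place `v ∈ S` with ONE place over it `SplitClauseQ514` is not
asked (hypothesis "two places over `v`"), the value is `IsInertVal340`; (3) `l = 2`: every place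
of `ℚ` has one or two places of `F` over it.
-/

set_option autoImplicit false

open AutomorphicForm IsDedekindDomain NumberField MeasureTheory
open scoped ComplexConjugate

noncomputable section

namespace Fermat.Agent.LT.T7.FUQ514

open Fermat.Agent.LT.H556 Fermat.Agent.LT.H556.A0 Fermat.Agent.LT.T7 Fermat.Agent.LT.T7.H305
open Fermat.Agent.LT.T7.MQ298 Fermat.Agent.LT.T7.H340

attribute [local instance] Fermat.Agent.LT.T5.instMeasurableSpaceG

/-! ## 1. The clauses at one place, the split value for an enumeration with the identity -/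

section Defs

variable {F : Type} [Field F] [NumberField F]

/-- THE INERT CLAUSE at the place `v` (the clause `inert` of `MQ298.LocHypQ298`, VERBATIM, for
one `v`). -/
def InertClauseQ514 (D : CompData ℚ F)
    (n : HeightOneSpectrum (𝓞 F) → ℕ) (m : HeightOneSpectrum (𝓞 ℚ) → ℕ)
    (φ₀ : ∀ w : HeightOneSpectrum (𝓞 F), GL (Fin 2) (w.adicCompletion F) → ℂ)
    (f₀ : ∀ v : HeightOneSpectrum (𝓞 ℚ), GL (Fin 2) (v.adicCompletion ℚ) → ℂ)
    (v : HeightOneSpectrum (𝓞 ℚ)) : Prop :=
  ∀ w : HeightOneSpectrum (𝓞 F), PlaceOver ℚ F v w →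
    (∀ w' : HeightOneSpectrum (𝓞 F), PlaceOver ℚ F v w' → w' = w) →
    ∀ (e : ℕ) (i : v.adicCompletion ℚ →+* w.adicCompletion F)
      (sw : w.adicCompletion F ≃+* w.adicCompletion F),
      (∀ x : ℚ, i (algebraMap ℚ (v.adicCompletion ℚ) x)
        = algebraMap F (w.adicCompletion F) (algebraMap ℚ F x)) →
      (∀ y : F, sw (algebraMap F (w.adicCompletion F) y)
        = algebraMap F (w.adicCompletion F) (D.s.σ y)) →
      T6.IsLocalExt (v.adicCompletion ℚ) (w.adicCompletion F) D.l e i sw →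
      (∀ (δ : GL (Fin 2) (w.adicCompletion F)) (γ : GL (Fin 2) (v.adicCompletion ℚ))
          (c c' : ℂ), T6.IsReg γ →
          IsConj (T6.twNorm sw D.l δ) (Matrix.GeneralLinearGroup.map i γ) →
          T6.IsTwOrbSum sw (n w) (φ₀ w) δ c → T6.IsOrbSum (m v) (f₀ v) γ c' → c = c') ∧
        ∀ (γ : GL (Fin 2) (v.adicCompletion ℚ)) (c' : ℂ), T6.IsReg γ →
          ¬ T6.IsNormFrom D.l i sw γ → T6.IsOrbSum (m v) (f₀ v) γ c' → c' = 0

/-- THE SPLIT CLAUSE at the place `v`, ONE enumeration (the conclusion of the clause `split` of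
helper893 `LocHyp893` / helper801 `LocHypQb801`, VERBATIM, for one `v`). -/
def SplitClauseQ514 (D : CompData ℚ F)
    (n : HeightOneSpectrum (𝓞 F) → ℕ) (m : HeightOneSpectrum (𝓞 ℚ) → ℕ)
    (φ₀ : ∀ w : HeightOneSpectrum (𝓞 F), GL (Fin 2) (w.adicCompletion F) → ℂ)
    (f₀ : ∀ v : HeightOneSpectrum (𝓞 ℚ), GL (Fin 2) (v.adicCompletion ℚ) → ℂ)
    (v : HeightOneSpectrum (𝓞 ℚ)) : Prop :=
  ∃ (w : ℕ → HeightOneSpectrum (𝓞 F))
    (i : ∀ j : ℕ, v.adicCompletion ℚ ≃+* (w j).adicCompletion F),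
    (∀ j : ℕ, PlaceOver ℚ F v (w j)) ∧ (∀ j : ℕ, T5.PlaceRel D.s (w (j + 1)) (w j)) ∧
    (∀ j : ℕ, 0 < j → j < D.l → w j ≠ w 0) ∧
    (∀ (j : ℕ) (x : ℚ), i j (algebraMap ℚ (v.adicCompletion ℚ) x)
      = algebraMap F ((w j).adicCompletion F) (algebraMap ℚ F x)) ∧
    (∀ (j : ℕ) (x : v.adicCompletion ℚ), Valued.v (i j x) = Valued.v x) ∧
    (∀ j : ℕ, n (w j) = m v) ∧
      T6.IsConvProd (T6.InU (m v)) D.l
        (fun j g => φ₀ (w j)
          (Matrix.GeneralLinearGroup.map ((i j : v.adicCompletion ℚ ≃+* _) :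
            v.adicCompletion ℚ →+* (w j).adicCompletion F) g))
        (f₀ v)

/-- `J` is THE LOCAL TWISTED INTEGRAL UPSTAIRS at the SPLIT place `v` of `ℚ` for an enumeration
of the places over `v` FOR WHICH the levels agree and the convolution identity
`f₀ v = φ₀ (w 0) * φ₀ (w 1)` holds (mirror over `ℚ` of helper311 `IsSplitValB311`). -/
def IsSplitValQB514 (D : CompData ℚ F)
    (n : HeightOneSpectrum (𝓞 F) → ℕ) (m : HeightOneSpectrum (𝓞 ℚ) → ℕ)
    (φ₀ : ∀ w : HeightOneSpectrum (𝓞 F), GL (Fin 2) (w.adicCompletion F) → ℂ)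
    (f₀ : ∀ v : HeightOneSpectrum (𝓞 ℚ), GL (Fin 2) (v.adicCompletion ℚ) → ℂ)
    (δ : GL (Fin 2) F) {γ : GL (Fin 2) ℚ} (L : LocDataQ298 γ)
    (v : HeightOneSpectrum (𝓞 ℚ)) (J : ℂ) : Prop :=
  ∃ (hl : 0 < D.l) (w : ℕ → HeightOneSpectrum (𝓞 F))
    (i : ∀ j : ℕ, v.adicCompletion ℚ ≃+* (w j).adicCompletion F),
    (∀ j : ℕ, PlaceOver ℚ F v (w j)) ∧
    (∀ j : ℕ, T5.PlaceRel D.s (w (j + 1)) (w j)) ∧
    (∀ j : ℕ, 0 < j → j < D.l → w j ≠ w 0) ∧
    (∀ (j : ℕ) (x : ℚ), i j (algebraMap ℚ (v.adicCompletion ℚ) x)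
      = algebraMap F ((w j).adicCompletion F) (algebraMap ℚ F x)) ∧
    (∀ (j : ℕ) (x : v.adicCompletion ℚ), Valued.v (i j x) = Valued.v x) ∧
    (∀ j : ℕ, n (w j) = m v) ∧
    T6.IsConvProd (T6.InU (m v)) D.l
      (fun j g => φ₀ (w j)
        (Matrix.GeneralLinearGroup.map ((i j : v.adicCompletion ℚ ≃+* _) :
          v.adicCompletion ℚ →+* (w j).adicCompletion F) g))
      (f₀ v) ∧
    J = splitInt340 D.l hl (L.μv v) (L.βv v)
        (fun j g => φ₀ (w j)
          (Matrix.GeneralLinearGroup.map ((i j : v.adicCompletion ℚ ≃+* _) :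
            v.adicCompletion ℚ →+* (w j).adicCompletion F) g))
        (fun j => Matrix.GeneralLinearGroup.map
          (((i j).symm : (w j).adicCompletion F ≃+* _) :
            (w j).adicCompletion F →+* v.adicCompletion ℚ) (locG305 (w j) δ))

end Defs

/-! ## 2. The node and the leaves, core form -/

section Leaves

variable (F : Type) [Field F] [NumberField F]

/-- **NODE Q2.7.13.1c = UP-FACT over `ℚ`, CORE FORM (global → local upstairs, NO matching).**
`UpFactQC514` with the hypotheses which the proof uses: the components upstairs at the places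
over `S` are bi-invariant with finite support modulo `U(n)`, the `Φ w` are continuous with
compact support, at every place of `S` with two places over it there is an enumeration with
equal levels and the convolution identity (only passed on to `IsSplitValQB514`).
Proof.  As `H340.UpFactC340` / `UpFactQC514` (see there); at a split place take THE enumeration
of the hypothesis. -/
def UpFactQCore514 : Prop :=
  T6.T6Out → IsImagQuad F →
  ∀ D : CompData ℚ F, IsCompData D → IsCycExt ℚ F D.l → D.l = 2 →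
    ∀ ι : Adl ℚ →+* Adl F, IsAdeleBase305 D.s D.l ι →
    ∀ μc : @Measure (GL (Fin 2) ℂ) (borel _), @Measure.IsHaarMeasure _ _ _ (borel _) μc →
    ∀ (T₀ : Finset (HeightOneSpectrum (𝓞 ℚ))), UnramOut305 (K' := F) T₀ →
    ∀ (n : HeightOneSpectrum (𝓞 F) → ℕ) (m : HeightOneSpectrum (𝓞 ℚ) → ℕ),
      IsLevelAt305 T₀ n m →
    ∃ cG' : ℝ, 0 < cG' ∧
      ∀ (S : Finset (HeightOneSpectrum (𝓞 ℚ))) (S' : Finset (HeightOneSpectrum (𝓞 F))),
        T₀ ⊆ S → IsOver305 S S' →
      ∀ (φ₀ : ∀ w : HeightOneSpectrum (𝓞 F), GL (Fin 2) (w.adicCompletion F) → ℂ)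
        (Φ : InfinitePlace F → GL (Fin 2) ℂ → ℂ)
        (f₀ : ∀ v : HeightOneSpectrum (𝓞 ℚ), GL (Fin 2) (v.adicCompletion ℚ) → ℂ),
        (∀ v ∈ S, ∀ w : HeightOneSpectrum (𝓞 F), PlaceOver ℚ F v w →
          T6.IsBiInv (T6.InU (n w)) (φ₀ w) ∧ T6.HasFinSupp (T6.InU (n w)) (φ₀ w)) →
        (∀ w : InfinitePlace F, Continuous (Φ w) ∧ HasCompactSupport (Φ w)) →
        (∀ v ∈ S, (∃ w₁ w₂ : HeightOneSpectrum (𝓞 F),
            PlaceOver ℚ F v w₁ ∧ PlaceOver ℚ F v w₂ ∧ w₁ ≠ w₂) →
          SplitClauseQ514 D n m φ₀ f₀ v) →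
      ∀ (δ : GL (Fin 2) F) (γ : GL (Fin 2) ℚ), T6.IsEll γ →
        D.s.normUpTo D.l δ = Matrix.GeneralLinearGroup.map (algebraMap ℚ F) γ →
        GoodOut305 S γ → IntOut305 S' δ →
      ∀ (μT : @Measure (tA305 (T5.AdelicAut.id ℚ) γ) (borel _))
        (μT' : @Measure (tA305 D.s δ) (borel _)),
        @Measure.IsHaarMeasure _ _ _ (borel _) μT →
        @Measure.IsHaarMeasure _ _ _ (borel _) μT' →
        IsTorLinked305 ι D.s δ γ μT μT' →
      ∀ (L : LocDataQ298 γ) (cT : ℝ), IsLocDataQ298 m L → 0 < cT → IsTorConstQ298 γ μT L cT →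
        ∃ (β' : G F → ℝ) (J : HeightOneSpectrum (𝓞 ℚ) → ℂ) (Jc : ℤ → ℂ),
          IsCutOn305 D.s δ μT' β'
              {x | T5.twTerm D.R'.r D.s (pure305 S' φ₀ Φ) δ x ≠ 0} ∧
            cutInt305 D.R'.r D.s (pure305 S' φ₀ Φ) δ D.R'.μ β'
              = ((cG' / cT : ℝ) : ℂ) * ∑' j : ℤ, (∏ v ∈ S, J v) * Jc j ∧
            (∀ v ∈ S, IsInertVal340 D n φ₀ δ v (J v) ∨
              IsSplitValQB514 D n m φ₀ f₀ δ L v (J v)) ∧
            ∀ j : ℤ, IsArchValQ514 D Φ δ L μc j (Jc j)

/-- **LEAF Q2.7.13.2c = LOC-EQ-INERT over `ℚ`, LOCAL FORM.**  The proof of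
`H340.LocEqInertC340` (helper555) with the inert clause at `v` as hypothesis. -/
def LocEqInertQL514 : Prop :=
  T6.T6Out → IsImagQuad F →
  ∀ D : CompData ℚ F, IsCompData D → IsCycExt ℚ F D.l → D.l = 2 →
    ∀ (n : HeightOneSpectrum (𝓞 F) → ℕ) (m : HeightOneSpectrum (𝓞 ℚ) → ℕ)
      (φ₀ : ∀ w : HeightOneSpectrum (𝓞 F), GL (Fin 2) (w.adicCompletion F) → ℂ)
      (f₀ : ∀ v : HeightOneSpectrum (𝓞 ℚ), GL (Fin 2) (v.adicCompletion ℚ) → ℂ),
    ∀ (δ : GL (Fin 2) F) (γ : GL (Fin 2) ℚ), T6.IsEll γ →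
      D.s.normUpTo D.l δ = Matrix.GeneralLinearGroup.map (algebraMap ℚ F) γ →
    ∀ L : LocDataQ298 γ, IsLocDataQ298 m L →
    ∀ v : HeightOneSpectrum (𝓞 ℚ),
      (T6.IsBiInv (T6.InU (m v)) (f₀ v) ∧ T6.HasFinSupp (T6.InU (m v)) (f₀ v)) →
      (∀ w : HeightOneSpectrum (𝓞 F), PlaceOver ℚ F v w →
        T6.IsBiInv (T6.InU (n w)) (φ₀ w) ∧ T6.HasFinSupp (T6.InU (n w)) (φ₀ w)) →
      InertClauseQ514 D n m φ₀ f₀ v →
    ∀ J : ℂ, IsInertVal340 D n φ₀ δ v J →
      J = locInt305 (L.μv v) (L.βv v) (f₀ v) (locG305 v γ)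

/-- **LEAF Q2.7.13.3c = LOC-EQ-SPLIT over `ℚ`, LOCAL FORM** (mirror over `ℚ` of helper311
`LocEqSplitC311`, `l = 2`).  The convolution identity is part of `IsSplitValQB514`. -/
def LocEqSplitQL514 : Prop :=
  T6.T6Out → IsImagQuad F →
  ∀ D : CompData ℚ F, IsCompData D → IsCycExt ℚ F D.l → D.l = 2 →
    ∀ (n : HeightOneSpectrum (𝓞 F) → ℕ) (m : HeightOneSpectrum (𝓞 ℚ) → ℕ)
      (φ₀ : ∀ w : HeightOneSpectrum (𝓞 F), GL (Fin 2) (w.adicCompletion F) → ℂ)
      (f₀ : ∀ v : HeightOneSpectrum (𝓞 ℚ), GL (Fin 2) (v.adicCompletion ℚ) → ℂ),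
    ∀ (δ : GL (Fin 2) F) (γ : GL (Fin 2) ℚ), T6.IsEll γ →
      D.s.normUpTo D.l δ = Matrix.GeneralLinearGroup.map (algebraMap ℚ F) γ →
    ∀ L : LocDataQ298 γ, IsLocDataQ298 m L →
    ∀ v : HeightOneSpectrum (𝓞 ℚ),
      (T6.IsBiInv (T6.InU (m v)) (f₀ v) ∧ T6.HasFinSupp (T6.InU (m v)) (f₀ v)) →
      (∀ w : HeightOneSpectrum (𝓞 F), PlaceOver ℚ F v w →
        T6.IsBiInv (T6.InU (n w)) (φ₀ w) ∧ T6.HasFinSupp (T6.InU (n w)) (φ₀ w)) →
    ∀ J : ℂ, IsSplitValQB514 D n m φ₀ f₀ δ L v J →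
      J = locInt305 (L.μv v) (L.βv v) (f₀ v) (locG305 v γ)

/-- **LEAF Q2.7.13.4c = LOC-EQ-ARCH over `ℚ`, LOCAL FORM.**  `Fr` any function on `GL₂(ℝ)` which
is matched with the `Φ w` (`T6.IsArchMatch`; in the application `Fr = F0 + F1`).  Proof: see
`LocEqArchQC514`. -/
def LocEqArchQL514 : Prop :=
  IsImagQuad F →
  ∀ D : CompData ℚ F, IsCompData D → IsCycExt ℚ F D.l → D.l = 2 →
    ∀ ι : Adl ℚ →+* Adl F, IsAdeleBase305 D.s D.l ι →
    ∀ μr : @Measure (GL (Fin 2) ℝ) (borel _), @Measure.IsHaarMeasure _ _ _ (borel _) μr →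
    ∀ μc : @Measure (GL (Fin 2) ℂ) (borel _), @Measure.IsHaarMeasure _ _ _ (borel _) μc →
    ∀ (Φ : InfinitePlace F → GL (Fin 2) ℂ → ℂ) (Fr : GL (Fin 2) ℝ → ℂ),
      (∀ w : InfinitePlace F, T6.IsArchMatch μr μc (Φ w) Fr) →
    ∀ (δ : GL (Fin 2) F) (γ : GL (Fin 2) ℚ), T6.IsEll γ →
      D.s.normUpTo D.l δ = Matrix.GeneralLinearGroup.map (algebraMap ℚ F) γ →
    ∀ (m : HeightOneSpectrum (𝓞 ℚ) → ℕ) (L : LocDataQ298 γ), IsLocDataQ298 m L →
    ∀ (j : ℤ) (J : ℂ), IsArchValQ514 D Φ δ L μc j J →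
      J = locInt305 μr L.βr Fr (reGLQ298 (T5.ratG γ * D.R.r ^ j))

/-- **LEAF Q2.7.13.5 = SPLIT-ENUM-EX** (only for the form v1 with `MQ298.LocHypQ298`): a place
of `ℚ` with two places of `F` over it has an enumeration of the places over it in the order of
the orbit with identifications of the completions.
Proof.  `T6.InstSplitC` (in `T6Out`); `l = 2`: `w 0 = w₁`, `w 1 = σ⁻¹`-image, periodic. -/
def SplitEnumExQC514 : Prop :=
  T6.T6Out → IsImagQuad F →
  ∀ D : CompData ℚ F, IsCompData D → IsCycExt ℚ F D.l → D.l = 2 →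
    ∀ v : HeightOneSpectrum (𝓞 ℚ),
      (∃ w₁ w₂ : HeightOneSpectrum (𝓞 F),
        PlaceOver ℚ F v w₁ ∧ PlaceOver ℚ F v w₂ ∧ w₁ ≠ w₂) →
      ∃ (w : ℕ → HeightOneSpectrum (𝓞 F))
        (i : ∀ j : ℕ, v.adicCompletion ℚ ≃+* (w j).adicCompletion F),
        (∀ j : ℕ, PlaceOver ℚ F v (w j)) ∧ (∀ j : ℕ, T5.PlaceRel D.s (w (j + 1)) (w j)) ∧
        (∀ j : ℕ, 0 < j → j < D.l → w j ≠ w 0) ∧
        (∀ (j : ℕ) (x : ℚ), i j (algebraMap ℚ (v.adicCompletion ℚ) x)
          = algebraMap F ((w j).adicCompletion F) (algebraMap ℚ F x)) ∧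
        (∀ (j : ℕ) (x : v.adicCompletion ℚ), Valued.v (i j x) = Valued.v x)

/-- **THE NODE Q2.7.13 IN CORE FORM**: the factorisation upstairs with local matching, the
clauses of the local hypotheses being hypotheses (ONE enumeration at the split places). -/
def FactUpQCore514 : Prop :=
  T6.T6Out → IsImagQuad F →
  ∀ D : CompData ℚ F, IsCompData D → IsCycExt ℚ F D.l → D.l = 2 →
    ∀ ι : Adl ℚ →+* Adl F, IsAdeleBase305 D.s D.l ι →
    ∀ μr : @Measure (GL (Fin 2) ℝ) (borel _), @Measure.IsHaarMeasure _ _ _ (borel _) μr →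
    ∀ μc : @Measure (GL (Fin 2) ℂ) (borel _), @Measure.IsHaarMeasure _ _ _ (borel _) μc →
    ∀ (T₀ : Finset (HeightOneSpectrum (𝓞 ℚ))), UnramOut305 (K' := F) T₀ →
    ∀ (n : HeightOneSpectrum (𝓞 F) → ℕ) (m : HeightOneSpectrum (𝓞 ℚ) → ℕ),
      IsLevelAt305 T₀ n m →
    ∃ cG' : ℝ, 0 < cG' ∧
      ∀ (S : Finset (HeightOneSpectrum (𝓞 ℚ))) (S' : Finset (HeightOneSpectrum (𝓞 F))),
        T₀ ⊆ S → IsOver305 S S' →
      ∀ (φ₀ : ∀ w : HeightOneSpectrum (𝓞 F), GL (Fin 2) (w.adicCompletion F) → ℂ)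
        (Φ : InfinitePlace F → GL (Fin 2) ℂ → ℂ)
        (f₀ : ∀ v : HeightOneSpectrum (𝓞 ℚ), GL (Fin 2) (v.adicCompletion ℚ) → ℂ)
        (Fr : GL (Fin 2) ℝ → ℂ),
        (∀ v ∈ S, ∀ w : HeightOneSpectrum (𝓞 F), PlaceOver ℚ F v w →
          T6.IsBiInv (T6.InU (n w)) (φ₀ w) ∧ T6.HasFinSupp (T6.InU (n w)) (φ₀ w)) →
        (∀ v ∈ S, T6.IsBiInv (T6.InU (m v)) (f₀ v) ∧ T6.HasFinSupp (T6.InU (m v)) (f₀ v)) →
        (∀ w : InfinitePlace F, Continuous (Φ w) ∧ HasCompactSupport (Φ w)) →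
        (∀ v ∈ S, InertClauseQ514 D n m φ₀ f₀ v) →
        (∀ v ∈ S, (∃ w₁ w₂ : HeightOneSpectrum (𝓞 F),
            PlaceOver ℚ F v w₁ ∧ PlaceOver ℚ F v w₂ ∧ w₁ ≠ w₂) →
          SplitClauseQ514 D n m φ₀ f₀ v) →
        (∀ w : InfinitePlace F, T6.IsArchMatch μr μc (Φ w) Fr) →
      ∀ (δ : GL (Fin 2) F) (γ : GL (Fin 2) ℚ), T6.IsEll γ →
        D.s.normUpTo D.l δ = Matrix.GeneralLinearGroup.map (algebraMap ℚ F) γ →
        GoodOut305 S γ → IntOut305 S' δ →
      ∀ (μT : @Measure (tA305 (T5.AdelicAut.id ℚ) γ) (borel _))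
        (μT' : @Measure (tA305 D.s δ) (borel _)),
        @Measure.IsHaarMeasure _ _ _ (borel _) μT →
        @Measure.IsHaarMeasure _ _ _ (borel _) μT' →
        IsTorLinked305 ι D.s δ γ μT μT' →
      ∀ (L : LocDataQ298 γ) (cT : ℝ), IsLocDataQ298 m L → 0 < cT → IsTorConstQ298 γ μT L cT →
        ∃ β' : G F → ℝ,
          IsCutOn305 D.s δ μT' β'
              {x | T5.twTerm D.R'.r D.s (pure305 S' φ₀ Φ) δ x ≠ 0} ∧
            cutInt305 D.R'.r D.s (pure305 S' φ₀ Φ) δ D.R'.μ β'
              = ((cG' / cT : ℝ) : ℂ) * factValQ298 D.R.r S L f₀ μr Fr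

end Leaves

/-! ## Appendix: the equation lemmas of the definitions are realised HERE -/

theorem eqns_realisedFUQCore514 : True := by
  have _a1 := @InertClauseQ514.eq_1
  have _a2 := @InertClauseQ514.eq_def
  have _a3 := @InertClauseQ514.eq_unfold
  have _b1 := @SplitClauseQ514.eq_1
  have _b2 := @SplitClauseQ514.eq_def
  have _b3 := @SplitClauseQ514.eq_unfold
  have _c1 := @IsSplitValQB514.eq_1
  have _c2 := @IsSplitValQB514.eq_def
  have _c3 := @IsSplitValQB514.eq_unfold
  have _d1 := @UpFactQCore514.eq_1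
  have _d2 := @UpFactQCore514.eq_def
  have _d3 := @UpFactQCore514.eq_unfold
  have _e1 := @LocEqInertQL514.eq_1
  have _e2 := @LocEqInertQL514.eq_def
  have _e3 := @LocEqInertQL514.eq_unfold
  have _f1 := @LocEqSplitQL514.eq_1
  have _f2 := @LocEqSplitQL514.eq_def
  have _f3 := @LocEqSplitQL514.eq_unfold
  have _g1 := @LocEqArchQL514.eq_1
  have _g2 := @LocEqArchQL514.eq_def
  have _g3 := @LocEqArchQL514.eq_unfold
  have _h1 := @SplitEnumExQC514.eq_1
  have _h2 := @SplitEnumExQC514.eq_def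
  have _h3 := @SplitEnumExQC514.eq_unfold
  have _i1 := @FactUpQCore514.eq_1
  have _i2 := @FactUpQCore514.eq_def
  have _i3 := @FactUpQCore514.eq_unfold
  trivial

end Fermat.Agent.LT.T7.FUQ514

end

end
-- ===== PACK-END LT/T7/H514/FactUpQCore.lean

-- ===== PACK-BEGIN LT/T7/H16/UpLeaves.lean
section





/-!
# Row LT, tower T7, node C2.7.13.1 `UpFactC340` (second cut of helper340): leaves UF.A1
# `SuppOutUpC340` and UF.A4 `IsoContC340`, VERBATIM (helper16, spare)

OFF-MAIN.  Unconditional.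

    suppOutUpC340_16 : H340.SuppOutUpC340 K   (`LT/T7/H340/UpFactSpec.lean`, sha256 04981afb)
    isoContC340_16   : H340.IsoContC340
-/

set_option autoImplicit false
set_option linter.unusedSectionVars false

open IsDedekindDomain NumberField

noncomputable section

namespace Fermat.Agent.LT.T7.H16

open Fermat.Agent.LT Fermat.Agent.LT.H556 Fermat.Agent.LT.H556.A0 Fermat.Agent.LT.T7
open Fermat.Agent.LT.T7.H305 Fermat.Agent.LT.T7.H543

section Local

variable {k k' : Type} [Field k] [Field k'] [Valued k T6.Γ₀] [Valued k' T6.Γ₀]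

theorem pow_le_self16 {a : T6.Γ₀} (ha : a ≤ 1) {e : ℕ} (he : 0 < e) : a ^ e ≤ a := by
  obtain ⟨n, rfl⟩ : ∃ n, e = n + 1 := ⟨e - 1, by omega⟩
  rw [pow_succ]
  calc a ^ n * a ≤ 1 * a := mul_le_mul_left (pow_le_one' ha n) a
    _ = a := one_mul a

/-- A nonzero element of valuation `< 1` has powers of arbitrarily small valuation. -/
theorem exists_pow_le16 {t : k} (ht0 : t ≠ 0) (ht : Valued.v t < 1) {c : T6.Γ₀} (hc : c ≠ 0) :
    ∃ N : ℕ, Valued.v (t ^ N) ≤ c := by
  have h1 : Valued.v t ≤ WithZero.exp (-1 : ℤ) := by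
    have h3 := WithZero.lt_mul_exp_iff_le (x := Valued.v t)
      (y := WithZero.exp (-1 : ℤ)) WithZero.exp_ne_zero
    rw [← WithZero.exp_add] at h3
    have h4 : WithZero.exp ((-1 : ℤ) + 1) = (1 : T6.Γ₀) := by simp
    rw [h4] at h3
    exact h3.1 ht
  obtain ⟨b, rfl⟩ : ∃ b : ℤ, c = WithZero.exp b := by
    refine ⟨WithZero.log c, ?_⟩
    exact (WithZero.exp_log hc).symm
  refine ⟨b.natAbs, ?_⟩
  rw [map_pow]
  calc Valued.v t ^ b.natAbs ≤ WithZero.exp (-1 : ℤ) ^ b.natAbs := pow_le_pow_left' h1 _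
    _ = WithZero.exp (-(b.natAbs : ℤ)) := by
        rw [← WithZero.exp_nsmul]
        congr 1
        rw [nsmul_eq_mul]
        ring
    _ ≤ WithZero.exp b := by
        rw [WithZero.exp_le_exp]
        omega

/-- A ring homomorphism of valued fields with `v (i x) = v x ^ e`, `0 < e`, is continuous. -/
theorem continuous_of_val16 (e : ℕ) (i : k →+* k') (he : 0 < e)
    (hi : ∀ x : k, Valued.v (i x) = Valued.v x ^ e) : Continuous i := by
  rw [continuous_iff_continuousAt]
  intro x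
  intro s hs
  obtain ⟨c', hc', hsub⟩ := T2.H131.exists_ball_subset_h131 (i x) hs
  have hvc' : Valued.v c' ≠ 0 := (Valuation.ne_zero_iff _).2 hc'
  rw [Filter.mem_map]
  by_cases hz : ∃ z : k, z ≠ 0 ∧ Valued.v z ≤ 1 ∧ Valued.v z ≤ Valued.v c'
  · obtain ⟨z, hz0, hz1, hzc⟩ := hz
    refine Filter.mem_of_superset (T2.H131.ball_mem_nhds_h131 x z hz0) fun y hy => ?_
    have hy' : Valued.v (y - x) < Valued.v z := hy
    apply hsub
    show Valued.v (i y - i x) < Valued.v c'
    rw [← map_sub, hi]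
    exact ((pow_le_self16 (hy'.le.trans hz1) he).trans_lt hy').trans_le hzc
  · push Not at hz
    refine Filter.mem_of_superset (T2.H131.ball_mem_nhds_h131 x 1 one_ne_zero) fun y hy => ?_
    have hy' : Valued.v (y - x) < Valued.v (1 : k) := hy
    rw [map_one] at hy'
    have hyx : y = x := by
      by_contra hne
      have h0 : y - x ≠ 0 := sub_ne_zero.2 hne
      obtain ⟨N, hN⟩ := exists_pow_le16 h0 hy' hvc'
      have h2 : Valued.v ((y - x) ^ N) ≤ 1 := by
        rw [map_pow]
        exact pow_le_one' hy'.le N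
      exact absurd hN (not_le.2 (hz _ (pow_ne_zero N h0) h2))
    show i y ∈ s
    rw [hyx]
    exact mem_of_mem_nhds hs

end Local

/-- **ASSET LEAF UF.A4 = ISO-CONT of helper340, VERBATIM.** -/
theorem isoContC340_16 : H340.IsoContC340 := by
  intro k k' _ _ _ _ e i he hi
  have hc : Continuous i := continuous_of_val16 e i he hi
  refine ⟨hc, ?_⟩
  have hm : Continuous (RingHom.mapMatrix (m := Fin 2) i) := by
    show Continuous fun A : Matrix (Fin 2) (Fin 2) k => A.map i
    exact Continuous.matrix_map continuous_id hc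
  exact Continuous.units_map (RingHom.mapMatrix (m := Fin 2) i).toMonoidHom hm

variable (K : Type) [Field K] [NumberField K]

/-- **LEAF UF.A1 = SUPP-OUT-UP of helper340, VERBATIM.** -/
theorem suppOutUpC340_16 : H340.SuppOutUpC340 K := by
  intro r hr s S f₀ F δ x hx
  have hx' : (∑' m : ℤ, pure305 S f₀ F (x⁻¹ * T5.ratG δ * s.onG x * r ^ m)) ≠ 0 := hx
  have hex : ∃ m : ℤ, pure305 S f₀ F (x⁻¹ * T5.ratG δ * s.onG x * r ^ m) ≠ 0 := by
    by_contra hcon
    push Not at hcon
    apply hx'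
    rw [tsum_congr hcon, tsum_zero]
  obtain ⟨m, hm⟩ := hex
  have hout : OutT305 S (x⁻¹ * T5.ratG δ * s.onG x * r ^ m) := by
    by_contra hcon
    apply hm
    delta pure305
    rw [if_neg hcon]
  have h1 := outT_mul16 hout (outT_inv16 (outT_zpow16 hr S m))
  rwa [mul_inv_cancel_right] at h1

end Fermat.Agent.LT.T7.H16

end

end
-- ===== PACK-END LT/T7/H16/UpLeaves.lean

-- ===== PACK-BEGIN LT/T7/H341/UpDatSpec.lean
section



/-!
# Row LT, tower T7, node C2.7.13.1.0 `H340.UpDatC340` (helper341, registry 2742): THE CUT -- Spec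

OFF-MAIN.  Definitions and frozen Props only (the proved top `upDatC_of341` is in
`UpDatTop.lean`).  No hole, nothing assumed.  ADDITIVE (new names only, suffix `341`, namespace
`Fermat.Agent.LT.T7.UD341`).  Vocabulary: `T7/H340/UpFactSpec.lean` (helper340, sha256
04981afb) and its imports, byte-identical copies.

    upDatC_of341 : UpInertC341 K K' → UpSplitC341 K K' → UpArchC341 K K' → H340.UpDatC340 K K'

The local data upstairs are chosen PLACE BY PLACE; the three leaves are the three kinds of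
places.  `Sin` = the places of `S` with exactly one place over them, `Ssp` = the others.

* `UpInertC341` (ONE place `w` over `v`): `H340.InertDat340` with `H340.IsInertDat340`.
  Needs the elliptic `γ = N δ` and the local data `L` downstairs (the torus measure upstairs is
  the image of `L.μt v`).  NO hypothesis on `S`, `T₀`, the levels, `D.l ≠ 2`, `TotCplx K`.
* `UpSplitC341` (NOT exactly one place over `v`): `H340.SplitDat340` with `H340.IsSplitDat340`.
  Depends on `D`, `ι`, `v` only.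
* `UpArchC341` (`v` infinite, `K` totally complex): `H340.ArchDat340` with
  `H340.IsArchDat340`.  Depends on `D`, `ι`, `v` only.
-/

set_option autoImplicit false

open AutomorphicForm IsDedekindDomain NumberField MeasureTheory
open scoped ComplexConjugate

noncomputable section

namespace Fermat.Agent.LT.T7.UD341

open Fermat.Agent.LT.H556 Fermat.Agent.LT.H556.A0 Fermat.Agent.LT.T7 Fermat.Agent.LT.T7.H305
open Fermat.Agent.LT.T7.H340

attribute [local instance] Fermat.Agent.LT.T5.instMeasurableSpaceG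

section TwoFields

variable (K K' : Type) [Field K] [NumberField K] [Field K'] [NumberField K'] [Algebra K K']

/-- The finite place `v` of `K` has EXACTLY ONE place of `K'` over it. -/
def OnePlace341 (v : HeightOneSpectrum (𝓞 K)) : Prop :=
  ∃ w : HeightOneSpectrum (𝓞 K'), PlaceOver K K' v w ∧
    ∀ w' : HeightOneSpectrum (𝓞 K'), PlaceOver K K' v w' → w' = w

/-- **LEAF UD.1 = UP-INERT.**  At a finite place `v` with exactly one place `w` over it the
local data upstairs exist.
Proof.  `(e, i, s_w)` with `rat_i`, `rat_s`, `ext`: `T6.InstExtC` (field of `T6.T6Out`) for the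
generator `D.s.σ` of the Galois group (`IsCompData.cyc`, `IsCompData.base`, `IsCycExt`).
`sig`: `SigmaLocC305 K'` for `T5.PlaceRel D.s w w` (`σ(w)` is a place over `v`, so `σ(w) = w`)
gives `s'_w` with `(σ_𝔸 a)_w = s'_w(a_w)`; `s'_w = s_w` (both are continuous and agree on the
dense subfield `K'`).  `iot`: `IsAdeleBase305.fin` gives `i'` with `(ι x)_w = i'(x_v)`; `i' = i`
(continuous, agree on `K`).  `haar`: `LocMeasC305` (with `T6.InstLocalC`).  `tor`, `link`: `μt'`
= the image of `L.μt v` under `t ↦ GL₂(i)(t)`; `GL₂(i)` maps the centraliser of `γ_v` ONTO the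
twisted centraliser of `δ_w` (local `T6.TwCentC`: `N δ_w = i(γ_v)` is regular), it is a
homeomorphism onto (closed embedding: `val_i`), so the image is a Haar measure; it maps
`{tr integral, det unit}` onto itself (`v(i x) = v(x)^e`, `e > 0`), so the normalisation is
kept.  `cut`: `LocCutC305` for `(s_w, δ_w, μt')`. -/
def UpInertC341 : Prop :=
  T6.T6Out →
  ∀ D : CompData K K', IsCompData D → IsCycExt K K' D.l →
    ∀ ι : Adl K →+* Adl K', IsAdeleBase305 D.s D.l ι →
    ∀ (n : HeightOneSpectrum (𝓞 K') → ℕ) (m : HeightOneSpectrum (𝓞 K) → ℕ)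
      (δ : GL (Fin 2) K') (γ : GL (Fin 2) K), T6.IsEll γ →
      D.s.normUpTo D.l δ = Matrix.GeneralLinearGroup.map (algebraMap K K') γ →
    ∀ L : LocData305 K γ, IsLocData305 m L →
    ∀ (v : HeightOneSpectrum (𝓞 K)) (w : HeightOneSpectrum (𝓞 K')), PlaceOver K K' v w →
      (∀ w' : HeightOneSpectrum (𝓞 K'), PlaceOver K K' v w' → w' = w) →
      ∃ d : InertDat340 δ v, d.w = w ∧ IsInertDat340 D ι n L d

/-- **LEAF UD.2 = UP-SPLIT.**  At a finite place `v` which has NOT exactly one place over it the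
local data upstairs exist.
Proof.  `H584.SplitOrUniqueC584` (closed): there is a place `w₀` over `v` with residue degree
and ramification index `1`; `g e f = l`, `l` prime, `g ≠ 1`: `g = l` and EVERY place over `v`
has `e = f = 1`.  The Galois group `⟨σ⟩` acts transitively on the places over `v`:
`w_j = σ^{-j}(w₀)` (so `T5.PlaceRel D.s (w (j+1)) (w j)`), `w_0, …, w_{l-1}` are distinct
(the stabiliser of `w₀` is trivial: `g = l`) and are all the places over `v`.  `i_j`, `rat_i`,
`val_i`: `T6.InstSplitC`.  `iot`: `IsAdeleBase305.fin` and uniqueness of `i_j` (density of `K`,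
continuity).  `sig`: `SigmaLocC305 K'` for `PlaceRel D.s (w (a+1)) (w a)` gives
`s_a : K'_{w_{a+1}} ≃ K'_{w_a}` over `σ` with `(σ_𝔸 x)_{w_a} = s_a(x_{w_{a+1}})`;
`i_a⁻¹ ∘ s_a ∘ i_{a+1}` is a continuous automorphism of `K_v` which is the identity on `K`, so
the identity; for `a = l - 1` the index `a + 1` is read modulo `l`: `w_l = w_0` and `i_l`, `i_0`
agree (`cycSucc340`). -/
def UpSplitC341 : Prop :=
  T6.T6Out →
  ∀ D : CompData K K', IsCompData D → IsCycExt K K' D.l →
    ∀ ι : Adl K →+* Adl K', IsAdeleBase305 D.s D.l ι →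
    ∀ v : HeightOneSpectrum (𝓞 K), ¬ OnePlace341 K K' v →
      ∃ d : SplitDat340 K' v, IsSplitDat340 D ι d

/-- **LEAF UD.3 = UP-ARCH.**  `K` totally complex: at an infinite place `v` of `K` the local data
upstairs exist.
Proof.  `K'/K` Galois of degree `l`, `v` complex: there are exactly `l` places of `K'` over `v`
(`H193.FibCardC`, closed), permuted transitively by `⟨σ⟩`: `w_{a+1} = w_a ∘ σ`
(`InfinitePlace.comap`), `w_0, …, w_{l-1}` distinct, all the places over `v`.  `d_a`, `typ`,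
`iot`: `IsAdeleBase305.inf` (`d_a = id` or the complex conjugation).  `sig`: `SigmaLocC305 K'`
at `w_a` (`(σ_𝔸 x)_{w_a} = x_{w_a ∘ σ}` or its conjugate) and `IsAdeleBase305.fixed`
(`σ_𝔸 ι = ι`): on the image of `ι` the two sides agree, which fixes the type; the image of
`T5.infHom v` is `ℂ` (`v` complex). -/
def UpArchC341 : Prop :=
  ∀ D : CompData K K', IsCompData D → IsCycExt K K' D.l → TotCplx K →
    ∀ ι : Adl K →+* Adl K', IsAdeleBase305 D.s D.l ι →
    ∀ v : InfinitePlace K, ∃ d : ArchDat340 K', IsArchDat340 D ι v d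

end TwoFields

/-! ## Appendix: the equation lemmas of the definitions of this file are realised HERE -/

theorem eqns_realised_upDat341 : True := by
  have _h0 := @OnePlace341.eq_1
  have _h1 := @UpInertC341.eq_1
  have _h2 := @UpSplitC341.eq_1
  have _h3 := @UpArchC341.eq_1
  have _g0 := @OnePlace341.eq_def
  have _g1 := @UpInertC341.eq_def
  have _g2 := @UpSplitC341.eq_def
  have _g3 := @UpArchC341.eq_def
  trivial

end Fermat.Agent.LT.T7.UD341

end

end
-- ===== PACK-END LT/T7/H341/UpDatSpec.lean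

-- ===== PACK-BEGIN LT/T7/H751/LeafQ/HaarSigmaR.lean
section




/-!
# Row LT, tower T7, node Q2.7.7 `MQ298.FactDownQC298`, leaf FDQ.9 (helper751, SPARE of registry
row 2703): `HaarSigmaRC751` PROVED

OFF-MAIN.  No hole, nothing assumed.  ADDITIVE (new names only, suffix `751`).

    haarSigmaRC751 : HaarSigmaRC751

`GL₂(ℝ)` is σ-compact (closed in `M₂(ℝ) × M₂(ℝ)ᵐᵒᵖ`), a Haar measure is finite on compact sets;
a centraliser is a closed subgroup.  On the general lemmas of helper505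
(`T7/H505/HaarSigma.lean`, byte-identical copy): `sigmaCompactSpace_GL505`,
`sigmaFinite_haar505`, `sigmaFinite_map_val505`, `isClosed_twCentSub505`.
-/

set_option autoImplicit false

open IsDedekindDomain NumberField MeasureTheory

noncomputable section

namespace Fermat.Agent.LT.T7.H751

open Fermat.Agent.LT.H556 Fermat.Agent.LT.H556.A0 Fermat.Agent.LT.T7 Fermat.Agent.LT.T7.H305

theorem sigmaCompactSpace_GL_real751 : SigmaCompactSpace (GL (Fin 2) ℝ) :=
  H505.sigmaCompactSpace_GL505 ℝ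

/-- **LEAF FDQ.9 = HAAR-SIGMA at the real place: PROVED.** -/
theorem haarSigmaRC751 : HaarSigmaRC751 := by
  have hs : SigmaCompactSpace (GL (Fin 2) ℝ) := sigmaCompactSpace_GL_real751
  refine ⟨fun μ hμ => H505.sigmaFinite_haar505 μ hμ, fun γ₀ μT hμ => ?_⟩
  exact H505.sigmaFinite_map_val505 _
    (H505.isClosed_twCentSub505 (MonoidHom.id (GL (Fin 2) ℝ)) continuous_id γ₀) μT hμ

end Fermat.Agent.LT.T7.H751

end

end
-- ===== PACK-END LT/T7/H751/LeafQ/HaarSigmaR.lean

-- ===== PACK-BEGIN LT/T7/H102/IsoCont.lean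
section



/-!
# Row LT, tower T7, leaf UF.A4 = ISO-CONT (registry row 2748, helper102)

`isoContC102 : Fermat.Agent.LT.T7.H340.IsoContC340` VERBATIM against
`T7/H340/UpFactSpec.lean` (helper340@4a08d18e4, sha256 04981afb).

A ring homomorphism `i` of valued fields with `v (i x) = v x ^ e`, `e > 0`, is continuous, and so
is `GL₂(i)`.  Proof: if the valuation of `k` is trivial the topology of `k` is discrete;
otherwise pick `x₀ ≠ 0` with `v x₀ < 1` and `N` with `v x₀ ^ N < γ'`: the ball of radius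
`v (x₀ ^ N)` is mapped into the ball of radius `γ'` (`a ≤ 1 → a ^ e ≤ a`).  `Units.map` of a
continuous monoid homomorphism is continuous.  OFF-MAIN, additive, Mathlib + the Spec only.
-/

set_option autoImplicit false

open scoped Topology
open MonoidWithZeroHom

namespace Fermat.Agent.LT.T7.H102

/-- A ring homomorphism of `ℤᵐ⁰`-valued fields with `v (i x) = v x ^ e`, `0 < e`, is
continuous. -/
theorem continuous_of_val_pow102 (k k' : Type) [Field k] [Field k']
    [Valued k (WithZero (Multiplicative ℤ))] [Valued k' (WithZero (Multiplicative ℤ))] (e : ℕ)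
    (i : k →+* k') (he : 0 < e) (hv : ∀ x : k, Valued.v (i x) = Valued.v x ^ e) :
    Continuous i := by
  by_cases hk : ∃ x₀ : k, x₀ ≠ 0 ∧ (Valued.v x₀ : WithZero (Multiplicative ℤ)) < 1
  · obtain ⟨x₀, hx₀, hlt⟩ := hk
    have hcz : ContinuousAt (i.toAddMonoidHom) 0 := by
      rw [ContinuousAt, map_zero]
      rw [(Valued.hasBasis_nhds_zero k _).tendsto_iff (Valued.hasBasis_nhds_zero k' _)]
      intro γ' _
      obtain ⟨N, hN⟩ := exists_pow_lt₀ hlt
        (Units.map (ValueGroup₀.embedding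
          (f := (.ofClass (Valued.v : Valuation k' (WithZero (Multiplicative ℤ)))))) γ')
      have hne : (Valued.v : Valuation k (WithZero (Multiplicative ℤ))).restrict (x₀ ^ N) ≠ 0 := by
        rw [Ne, Valuation.restrict_eq_zero_iff]
        simpa using pow_ne_zero N hx₀
      refine ⟨Units.mk0 _ hne, trivial, ?_⟩
      intro x hx
      have hx' : (Valued.v x : WithZero (Multiplicative ℤ)) < Valued.v (x₀ ^ N) := by
        have h0 : (Valued.v : Valuation k (WithZero (Multiplicative ℤ))).restrict x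
            < (Valued.v : Valuation k (WithZero (Multiplicative ℤ))).restrict (x₀ ^ N) := hx
        exact (Valuation.restrict_lt_iff _).mp h0
      show (Valued.v : Valuation k' (WithZero (Multiplicative ℤ))).restrict (i x) < γ'.1
      rw [Valuation.restrict_lt_iff_lt_embedding]
      have hpow : (Valued.v (x₀ ^ N) : WithZero (Multiplicative ℤ)) = Valued.v x₀ ^ N :=
        map_pow _ _ _
      have h1 : (Valued.v x₀ : WithZero (Multiplicative ℤ)) ^ N ≤ 1 := pow_le_one' hlt.le N
      have hx1 : (Valued.v x : WithZero (Multiplicative ℤ)) ≤ 1 :=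
        (hx'.le.trans (hpow.le)).trans h1
      have hstep : (Valued.v x : WithZero (Multiplicative ℤ)) ^ e ≤ Valued.v x := by
        calc (Valued.v x : WithZero (Multiplicative ℤ)) ^ e ≤ Valued.v x ^ 1 :=
              pow_le_pow_right_of_le_one' hx1 he
          _ = Valued.v x := pow_one _
      calc (Valued.v (i x) : WithZero (Multiplicative ℤ)) = Valued.v x ^ e := hv x
        _ ≤ Valued.v x := hstep
        _ < Valued.v (x₀ ^ N) := hx'
        _ = Valued.v x₀ ^ N := hpow
        _ < _ := hN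
    exact continuous_of_continuousAt_zero i.toAddMonoidHom hcz
  · push Not at hk
    have hone : ∀ x : k, x ≠ 0 → (Valued.v x : WithZero (Multiplicative ℤ)) = 1 := by
      intro x hx
      refine le_antisymm ?_ (hk x hx)
      have h := hk x⁻¹ (inv_ne_zero hx)
      rw [map_inv₀] at h
      have hvx : (Valued.v x : WithZero (Multiplicative ℤ)) ≠ 0 := by
        simpa using hx
      exact (one_le_inv₀ (zero_lt_iff.mpr hvx)).mp h
    have : DiscreteTopology k := Valued.discreteTopology_of_forall_map_eq_one hone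
    exact continuous_of_discreteTopology

/-- `GL₂` of a continuous ring homomorphism is continuous. -/
theorem continuous_glMap102 (k k' : Type) [Field k] [Field k'] [TopologicalSpace k]
    [TopologicalSpace k'] (i : k →+* k') (hi : Continuous i) :
    Continuous (Matrix.GeneralLinearGroup.map (n := Fin 2) i) := by
  have hm : Continuous (RingHom.mapMatrix (m := Fin 2) i) := by
    show Continuous fun A : Matrix (Fin 2) (Fin 2) k => A.map i
    exact Continuous.matrix_map continuous_id hi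
  exact Continuous.units_map (RingHom.mapMatrix (m := Fin 2) i).toMonoidHom hm

/-- **LEAF UF.A4 = ISO-CONT**, verbatim. -/
theorem isoContC102 : Fermat.Agent.LT.T7.H340.IsoContC340 := by
  intro k k' _ _ _ _ e i he hv
  exact ⟨continuous_of_val_pow102 k k' e i he hv,
    continuous_glMap102 k k' i (continuous_of_val_pow102 k k' e i he hv)⟩

end Fermat.Agent.LT.T7.H102

end
-- ===== PACK-END LT/T7/H102/IsoCont.lean

-- ===== PACK-BEGIN LT/T7/H558/FactDownTopB.lean
section



/-!
# Row LT, tower T7, node C2.7.7 `FactDownC305` (helper558): the top of PART B (integral part)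

OFF-MAIN.  Complete proof, nothing assumed.

    factIntDownC_of558 : HaarSplitC305 K → OutOpenC558 K → CompContC558 K → BiInvContC558 K →
        RayFinC558 K → PtFactC558 K → ArchIntblC558 → HaarSigmaC558 K → FactIntDownC558 K
    factDownC_of558 : the node `FactDownC305 K` from the leaves
-/

set_option autoImplicit false

open AutomorphicForm IsDedekindDomain NumberField MeasureTheory
open scoped ComplexConjugate

noncomputable section

namespace Fermat.Agent.LT.T7.H558

open Fermat.Agent.LT.H556 Fermat.Agent.LT.H556.A0 Fermat.Agent.LT.T7 Fermat.Agent.LT.T7.H305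

attribute [local instance] Fermat.Agent.LT.T5.instMeasurableSpaceG

variable {K : Type} [Field K] [NumberField K]

/-! ## Small lemmas -/

/-- The discriminant commutes with ring homomorphisms. -/
theorem disc_map558 {R R' : Type} [CommRing R] [CommRing R'] (f : R →+* R')
    (γ : GL (Fin 2) R) :
    T6.disc (Matrix.GeneralLinearGroup.map f γ) = f (T6.disc γ) := by
  have h1 : ((Matrix.GeneralLinearGroup.map f γ : GL (Fin 2) R') : Matrix (Fin 2) (Fin 2) R')
      = (γ : Matrix (Fin 2) (Fin 2) R).map f := rfl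
  change ((Matrix.GeneralLinearGroup.map f γ : GL (Fin 2) R') :
      Matrix (Fin 2) (Fin 2) R').trace ^ 2
    - 4 * ((Matrix.GeneralLinearGroup.map f γ : GL (Fin 2) R') :
      Matrix (Fin 2) (Fin 2) R').det
    = f ((γ : Matrix (Fin 2) (Fin 2) R).trace ^ 2 - 4 * (γ : Matrix (Fin 2) (Fin 2) R).det)
  rw [h1]
  have h2 : ((γ : Matrix (Fin 2) (Fin 2) R).map f).trace
      = f (γ : Matrix (Fin 2) (Fin 2) R).trace := by
    simp [Matrix.trace, Matrix.diag]
  have h3 : ((γ : Matrix (Fin 2) (Fin 2) R).map f).det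
      = f (γ : Matrix (Fin 2) (Fin 2) R).det := by
    simp [Matrix.det_fin_two]
  rw [h2, h3, map_sub, map_pow, map_mul]
  congr 2
  exact (map_ofNat f 4).symm

/-- The archimedean component of an elliptic element is regular. -/
theorem isReg_arch558 (w : InfinitePlace K) (γ : GL (Fin 2) K) (hγ : T6.IsEll γ) :
    T6.IsReg (archG305 w γ) := by
  have h : archG305 w γ
      = Matrix.GeneralLinearGroup.map ((T5.infHom w).comp (algebraMap K (Adl K))) γ := rfl
  change IsUnit (T6.disc (archG305 w γ))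
  rw [h, disc_map558]
  exact (show IsUnit (T6.disc γ) from hγ.1).map _

/-- The archimedean components of the powers of the ray generator are central. -/
theorem ray_central558 (r : G K) (hr : T5.IsRayGen r) (w : InfinitePlace K) (j : ℤ)
    (g : GL (Fin 2) ℂ) : infGL305 w (r ^ j) * g = g * infGL305 w (r ^ j) := by
  obtain ⟨_, t, _, _, ht⟩ := hr
  have h1 : ((infGL305 w r : GL (Fin 2) ℂ) : Matrix (Fin 2) (Fin 2) ℂ)
      = Matrix.diagonal (fun _ => (t : ℂ)) := ht w
  have hc : Commute (infGL305 w r) g := by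
    apply Units.ext
    change ((infGL305 w r : GL (Fin 2) ℂ) : Matrix (Fin 2) (Fin 2) ℂ)
        * (g : Matrix (Fin 2) (Fin 2) ℂ)
      = (g : Matrix (Fin 2) (Fin 2) ℂ)
        * ((infGL305 w r : GL (Fin 2) ℂ) : Matrix (Fin 2) (Fin 2) ℂ)
    rw [h1]
    ext a b
    rw [Matrix.diagonal_mul, Matrix.mul_diagonal, mul_comm]
  rw [map_zpow]
  exact (hc.zpow_left j).eq

/-! ## The integrand -/

/-- The function on the product of the local groups whose pull-back is the integrand. -/
def prodFn558 (S : Finset (HeightOneSpectrum (𝓞 K))) (cT : ℝ) {γ : GL (Fin 2) K}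
    (L : LocData305 K γ)
    (f₀ : ∀ v : HeightOneSpectrum (𝓞 K), GL (Fin 2) (v.adicCompletion K) → ℂ)
    (F : InfinitePlace K → GL (Fin 2) ℂ → ℂ) (r : G K) (J : Finset ℤ)
    (p : (∀ v : S, GL (Fin 2) ((v : HeightOneSpectrum (𝓞 K)).adicCompletion K)) ×
      (InfinitePlace K → GL (Fin 2) ℂ)) : ℂ :=
  (((cT⁻¹ : ℝ) : ℂ) * ∏ v : S, locFn558 (L.βv v.1) (f₀ v.1) (locG305 v.1 γ) (p.1 v)) *
    ∑ j ∈ J, ∏ w : InfinitePlace K,
      locFn558 (L.βc w) (F w) (infGL305 w (T5.ratG γ * r ^ j)) (p.2 w)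

/-- **The integrand is the pull-back of `prodFn558`, cut off by `Out_S`.** -/
theorem integrand_eq558 (hPF : PtFactC558 K) (r : G K) (hr : T5.IsRayGen r)
    (S : Finset (HeightOneSpectrum (𝓞 K)))
    (f₀ : ∀ v : HeightOneSpectrum (𝓞 K), GL (Fin 2) (v.adicCompletion K) → ℂ)
    (F : InfinitePlace K → GL (Fin 2) ℂ → ℂ) (γ : GL (Fin 2) K) (hint : IntOut305 S γ)
    (cT : ℝ) (L : LocData305 K γ) (J : Finset ℤ)
    (hJ : ∀ j : ℤ, j ∉ J → ∀ (w : InfinitePlace K) (z : GL (Fin 2) ℂ),
      F w (z⁻¹ * infGL305 w (T5.ratG γ * r ^ j) * z) = 0) (y : G K) :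
    T5.twTerm r (T5.AdelicAut.id K) (pure305 S f₀ F) γ y * ((prodCut305 S cT L y : ℝ) : ℂ)
      = Set.indicator {y : G K | OutT305 S y}
          (fun y => prodFn558 S cT L f₀ F r J (compS305 S y)) y := by
  classical
  by_cases h : OutT305 S y
  · rw [Set.indicator_of_mem (show y ∈ {y : G K | OutT305 S y} from h)]
    have hterm : ∀ j : ℤ,
        pure305 S f₀ F (y⁻¹ * T5.ratG γ * (T5.AdelicAut.id K).onG y * r ^ j)
          = (∏ v ∈ S, f₀ v ((finGL305 v y)⁻¹ * locG305 v γ * finGL305 v y)) *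
            ∏ w : InfinitePlace K,
              F w ((infGL305 w y)⁻¹ * infGL305 w (T5.ratG γ * r ^ j) * infGL305 w y) :=
      fun j => hPF r hr S f₀ F γ hint y j h
    have hts : T5.twTerm r (T5.AdelicAut.id K) (pure305 S f₀ F) γ y
        = ∑ j ∈ J, (∏ v ∈ S, f₀ v ((finGL305 v y)⁻¹ * locG305 v γ * finGL305 v y)) *
            ∏ w : InfinitePlace K,
              F w ((infGL305 w y)⁻¹ * infGL305 w (T5.ratG γ * r ^ j) * infGL305 w y) := by
      change (∑' j : ℤ,
        pure305 S f₀ F (y⁻¹ * T5.ratG γ * (T5.AdelicAut.id K).onG y * r ^ j)) = _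
      rw [tsum_eq_sum (s := J)]
      · exact Finset.sum_congr rfl fun j _ => hterm j
      · intro j hj
        rw [hterm j]
        obtain ⟨w₀⟩ := (inferInstance : Nonempty (InfinitePlace K))
        rw [Finset.prod_eq_zero (Finset.mem_univ w₀) (hJ j hj w₀ _), mul_zero]
    have hcut : prodCut305 S cT L y
        = cT⁻¹ * (∏ v ∈ S, L.βv v (finGL305 v y)) *
          ∏ w : InfinitePlace K, L.βc w (infGL305 w y) := by
      change (if OutT305 S y then _ else _) = _
      rw [if_pos h]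
    rw [hts, hcut]
    change _ = (((cT⁻¹ : ℝ) : ℂ) * ∏ v : S, (f₀ v.1 ((finGL305 v.1 y)⁻¹ * locG305 v.1 γ
        * finGL305 v.1 y) * ((L.βv v.1 (finGL305 v.1 y) : ℝ) : ℂ))) *
      ∑ j ∈ J, ∏ w : InfinitePlace K,
        (F w ((infGL305 w y)⁻¹ * infGL305 w (T5.ratG γ * r ^ j) * infGL305 w y)
          * ((L.βc w (infGL305 w y) : ℝ) : ℂ))
    rw [Finset.prod_coe_sort S (fun v => f₀ v ((finGL305 v y)⁻¹ * locG305 v γ
        * finGL305 v y) * ((L.βv v (finGL305 v y) : ℝ) : ℂ))]
    rw [Finset.prod_mul_distrib]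
    simp only [Finset.prod_mul_distrib]
    rw [← Finset.mul_sum, ← Finset.sum_mul]
    push_cast
    ring
  · rw [Set.indicator_of_notMem (show y ∉ {y : G K | OutT305 S y} from h)]
    have hcut : prodCut305 S cT L y = 0 := by
      change (if OutT305 S y then _ else _) = _
      rw [if_neg h]
    rw [hcut]
    simp

/-! ## Measure theory on the product of the local groups (Mathlib only) -/

/-- Fubini for a product of functions of the coordinates, times a finite sum of such products: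
no integrability is needed for the first factor. -/
theorem integral_prod_sum558 {ι κ : Type} [Fintype ι] [Fintype κ] {E : ι → Type} {H : Type}
    [∀ i, MeasurableSpace (E i)] [MeasurableSpace H]
    (μ : ∀ i, Measure (E i)) [∀ i, SigmaFinite (μ i)] (ν : Measure H) [SigmaFinite ν]
    (c : ℂ) (g : ∀ i, E i → ℂ) (J : Finset ℤ) (h : κ → ℤ → H → ℂ)
    (hint : ∀ j ∈ J, ∀ w, Integrable (h w j) ν) :
    ∫ p : (∀ i, E i) × (κ → H), (c * ∏ i, g i (p.1 i)) * ∑ j ∈ J, ∏ w, h w j (p.2 w)
        ∂((Measure.pi μ).prod (Measure.pi fun _ : κ => ν))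
      = (c * ∏ i, ∫ x, g i x ∂μ i) * ∑ j ∈ J, ∏ w, ∫ x, h w j x ∂ν := by
  rw [integral_prod_mul (μ := Measure.pi μ) (ν := Measure.pi fun _ : κ => ν)
    (fun a : ∀ i, E i => c * ∏ i, g i (a i)) (fun b : κ → H => ∑ j ∈ J, ∏ w, h w j (b w))]
  congr 1
  · rw [integral_const_mul, integral_fintype_prod_eq_prod]
  · rw [integral_finset_sum]
    · refine Finset.sum_congr rfl fun j _ => ?_
      exact integral_fintype_prod_eq_prod (μ := fun _ : κ => ν) (fun w => h w j)
    · intro j hj
      exact Integrable.fintype_prod (μ := fun _ : κ => ν) (f := fun w => h w j)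
        (fun w => hint j hj w)

/-- The local integrand is continuous if its two factors are. -/
theorem continuous_locFn558 {H : Type} [Group H] [TopologicalSpace H] [IsTopologicalGroup H]
    (β : H → ℝ) (f : H → ℂ) (γ : H) (hβ : Continuous β) (hf : Continuous f) :
    Continuous (locFn558 β f γ) := by
  change Continuous fun y : H => f (y⁻¹ * γ * y) * ((β y : ℝ) : ℂ)
  exact (hf.comp ((continuous_inv.mul continuous_const).mul continuous_id)).mul
    (Complex.continuous_ofReal.comp hβ)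

/-! ## The top of part B -/

/-- **THE TOP OF PART B.** -/
theorem factIntDownC_of558 (hHS : HaarSplitC305 K) (hOpen : OutOpenC558 K)
    (hCont : CompContC558 K) (hBI : BiInvContC558 K) (hRF : RayFinC558 K)
    (hPF : PtFactC558 K) (hAI : ArchIntblC558) (hσ : HaarSigmaC558 K) :
    FactIntDownC558 K := by
  intro hK R hR μc hμc T₀ m hm
  obtain ⟨c, hc, hsplit⟩ := hHS hK R.μ hR.frame.haar μc hμc T₀ m hm
  refine ⟨c, hc, ?_⟩
  intro S hS f₀ F hf₀ hF γ hγ hgood μT hμT L cT hL hcT hT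
  classical
  letI iv : ∀ v : HeightOneSpectrum (𝓞 K),
      MeasurableSpace (GL (Fin 2) (v.adicCompletion K)) := fun _ => borel _
  letI ic : MeasurableSpace (GL (Fin 2) ℂ) := borel _
  haveI : ∀ v : HeightOneSpectrum (𝓞 K), BorelSpace (GL (Fin 2) (v.adicCompletion K)) :=
    fun _ => ⟨rfl⟩
  haveI : BorelSpace (GL (Fin 2) ℂ) := ⟨rfl⟩
  haveI : BorelSpace (G K) := ⟨rfl⟩
  have hr : T5.IsRayGen R.r := hR.ray
  obtain ⟨J, hJ⟩ := hRF R.r hr F hF γ
  have hint : IntOut305 S γ := fun v hv => (hgood v hv).1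
  have hsp := hsplit S hS L.μv hL.haar
  haveI hσv : ∀ v : S, SigmaFinite (L.μv v.1) := fun v => hσ.1 v.1 (L.μv v.1) (hL.haar v.1).1
  haveI hσc : SigmaFinite μc := hσ.2.1 μc hμc
  -- the integrand
  have h1 : cutInt305 R.r (T5.AdelicAut.id K) (pure305 S f₀ F) γ R.μ (prodCut305 S cT L)
      = ∫ y, (Set.indicator {y : G K | OutT305 S y}
          (fun y => prodFn558 S cT L f₀ F R.r J (compS305 S y)) y) ∂(R.μ) := by
    change (∫ y, (T5.twTerm R.r (T5.AdelicAut.id K) (pure305 S f₀ F) γ y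
      * ((prodCut305 S cT L y : ℝ) : ℂ)) ∂(R.μ)) = _
    exact integral_congr_ae (Filter.Eventually.of_forall
      (integrand_eq558 hPF R.r hr S f₀ F γ hint cT L J hJ))
  -- measurability
  have hcomp : Measurable (compS305 (K := K) S) := by
    change Measurable fun y : G K =>
      ((fun v : S => finGL305 v.1 y), (fun w : InfinitePlace K => infGL305 w y))
    exact Measurable.prodMk (measurable_pi_lambda _ fun v => (hCont.1 v.1).measurable)
      (measurable_pi_lambda _ fun w => (hCont.2 w).measurable)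
  have hgv : ∀ v : S, Measurable (locFn558 (L.βv v.1) (f₀ v.1) (locG305 v.1 γ)) := fun v =>
    (continuous_locFn558 _ _ _ (hL.cut v.1).1 (hBI v.1 (m v.1) (f₀ v.1) (hf₀ v.1 v.2).1)).measurable
  have hhw : ∀ (w : InfinitePlace K) (j : ℤ),
      Measurable (locFn558 (L.βc w) (F w) (infGL305 w (T5.ratG γ * R.r ^ j))) := fun w j =>
    (continuous_locFn558 _ _ _ (hL.cutc w).1 (hF w).1).measurable
  have hΦ : Measurable (prodFn558 S cT L f₀ F R.r J) := by
    change Measurable fun p : (∀ v : S, GL (Fin 2)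
        ((v : HeightOneSpectrum (𝓞 K)).adicCompletion K)) × (InfinitePlace K → GL (Fin 2) ℂ) =>
      (((cT⁻¹ : ℝ) : ℂ) * ∏ v : S, locFn558 (L.βv v.1) (f₀ v.1) (locG305 v.1 γ) (p.1 v)) *
        ∑ j ∈ J, ∏ w : InfinitePlace K,
          locFn558 (L.βc w) (F w) (infGL305 w (T5.ratG γ * R.r ^ j)) (p.2 w)
    refine Measurable.mul (Measurable.const_mul (Finset.measurable_prod _ fun v _ => ?_) _)
      (Finset.measurable_sum _ fun j _ => Finset.measurable_prod _ fun w _ => ?_)
    · exact (hgv v).comp ((measurable_pi_apply v).comp measurable_fst)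
    · exact (hhw w j).comp ((measurable_pi_apply w).comp measurable_snd)
  -- integrability at the infinite places
  have hintbl : ∀ j ∈ J, ∀ w : InfinitePlace K,
      Integrable (locFn558 (L.βc w) (F w) (infGL305 w (T5.ratG γ * R.r ^ j))) μc := by
    intro j _ w
    have h := hAI μc hμc (F w) (hF w).1 (hF w).2 (archG305 w γ) (isReg_arch558 w γ hγ)
      (infGL305 w (R.r ^ j)) (fun g => ray_central558 R.r hr w j g) (L.μtc w) (hL.torc w)
      (L.βc w) (hL.cutc w)
    have he : infGL305 w (T5.ratG γ * R.r ^ j) = archG305 w γ * infGL305 w (R.r ^ j) :=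
      map_mul _ _ _
    rw [he]
    exact h
  -- the computation
  rw [h1, integral_indicator (hOpen S).measurableSet,
    ← integral_map hcomp.aemeasurable hΦ.aestronglyMeasurable, hsp, integral_smul_measure,
    ENNReal.toReal_ofReal hc.le]
  have h2 := integral_prod_sum558 (fun v : S => L.μv v.1) μc ((cT⁻¹ : ℝ) : ℂ)
    (fun v : S => locFn558 (L.βv v.1) (f₀ v.1) (locG305 v.1 γ)) J
    (fun (w : InfinitePlace K) (j : ℤ) =>
      locFn558 (L.βc w) (F w) (infGL305 w (T5.ratG γ * R.r ^ j))) hintbl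
  change c • (∫ p : (∀ v : S, GL (Fin 2)
        ((v : HeightOneSpectrum (𝓞 K)).adicCompletion K)) × (InfinitePlace K → GL (Fin 2) ℂ),
      ((((cT⁻¹ : ℝ) : ℂ) * ∏ v : S, locFn558 (L.βv v.1) (f₀ v.1) (locG305 v.1 γ) (p.1 v)) *
        ∑ j ∈ J, ∏ w : InfinitePlace K,
          locFn558 (L.βc w) (F w) (infGL305 w (T5.ratG γ * R.r ^ j)) (p.2 w))
      ∂((Measure.pi fun v : S => L.μv v.1).prod (Measure.pi fun _ : InfinitePlace K => μc)))
    = _
  rw [h2]
  -- the factorised value
  have hfv : factVal305 R.r S L f₀ μc F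
      = (∏ v ∈ S, locInt305 (L.μv v) (L.βv v) (f₀ v) (locG305 v γ)) *
        ∑ j ∈ J, ∏ w : InfinitePlace K,
          locInt305 μc (L.βc w) (F w) (infGL305 w (T5.ratG γ * R.r ^ j)) := by
    change (∑' j : ℤ, (∏ v ∈ S, locInt305 (L.μv v) (L.βv v) (f₀ v) (locG305 v γ)) *
      ∏ w : InfinitePlace K,
        locInt305 μc (L.βc w) (F w) (infGL305 w (T5.ratG γ * R.r ^ j))) = _
    rw [tsum_eq_sum (s := J), Finset.mul_sum]
    intro j hj
    obtain ⟨w₀⟩ := (inferInstance : Nonempty (InfinitePlace K))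
    have hz : locInt305 μc (L.βc w₀) (F w₀) (infGL305 w₀ (T5.ratG γ * R.r ^ j)) = 0 := by
      change (∫ y : GL (Fin 2) ℂ,
        (F w₀ (y⁻¹ * infGL305 w₀ (T5.ratG γ * R.r ^ j) * y) * ((L.βc w₀ y : ℝ) : ℂ)) ∂μc) = 0
      have h0 : (fun y : GL (Fin 2) ℂ =>
          F w₀ (y⁻¹ * infGL305 w₀ (T5.ratG γ * R.r ^ j) * y) * ((L.βc w₀ y : ℝ) : ℂ))
          = fun _ => 0 := by
        funext y
        rw [hJ j hj w₀ y, zero_mul]
      rw [h0, integral_zero]
    rw [Finset.prod_eq_zero (Finset.mem_univ w₀) hz, mul_zero]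
  rw [hfv]
  have hprod : (∏ v : S, ∫ x, locFn558 (L.βv v.1) (f₀ v.1) (locG305 v.1 γ) x ∂(L.μv v.1))
      = ∏ v ∈ S, locInt305 (L.μv v) (L.βv v) (f₀ v) (locG305 v γ) :=
    Finset.prod_coe_sort S (fun v => locInt305 (L.μv v) (L.βv v) (f₀ v) (locG305 v γ))
  rw [hprod]
  change c • ((((cT⁻¹ : ℝ) : ℂ) *
      ∏ v ∈ S, locInt305 (L.μv v) (L.βv v) (f₀ v) (locG305 v γ)) *
      ∑ j ∈ J, ∏ w : InfinitePlace K,
        locInt305 μc (L.βc w) (F w) (infGL305 w (T5.ratG γ * R.r ^ j))) = _
  rw [Complex.real_smul]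
  push_cast
  field_simp

/-- **THE NODE `FactDownC305` FROM THE LEAVES.** -/
theorem factDownC_of558 (hSD : SuppDownC305 K) (hHS : HaarSplitC305 K) (hOpen : OutOpenC558 K)
    (hCont : CompContC558 K) (hComm : TorCommIdC558 K) (hSO : SuppOutC558 K)
    (hCut : CutOnOutC558 K) (hBI : BiInvContC558 K) (hRF : RayFinC558 K) (hPF : PtFactC558 K)
    (hAI : ArchIntblC558) (hσ : HaarSigmaC558 K) : FactDownC305 K := by
  have hA := cutOnDownC_of558 hSD hOpen hCont hComm hSO hσ hCut
  have hB := factIntDownC_of558 hHS hOpen hCont hBI hRF hPF hAI hσ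
  intro hK R hR μc hμc T₀ m hm
  obtain ⟨cG, hcG, hint⟩ := hB hK R hR μc hμc T₀ m hm
  refine ⟨cG, hcG, ?_⟩
  intro S hS f₀ F hf₀ hF γ hγ hgood μT hμT L cT hL hcT hT
  exact ⟨hA R hR m S f₀ F γ hγ hgood μT hμT L cT hL hcT hT,
    hint S hS f₀ F hf₀ hF γ hγ hgood μT hμT L cT hL hcT hT⟩

end Fermat.Agent.LT.T7.H558

end

end
-- ===== PACK-END LT/T7/H558/FactDownTopB.lean

-- ===== PACK-BEGIN LT/T7/H71/RayFinUp.lean
section



/-!
# Row LT, tower T7, node C2.7.13.1 `UpFactC340`, leaf UF.B3 `RayFinUpC340` (helper71)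

OFF-MAIN.  Registry row 2751.  Spec: `LT/T7/H340/UpFactSpec.lean` (helper340@4a08d18e4, sha256
04981afb).

    rayFinUpC71 (K K') : H340.RayFinUpC340 K K'        VERBATIM, UNCONDITIONAL

## Proof

Fix an infinite place `v` of `K`, the data `d = dA v` and `l = D.l > 0` (`IsArchDat340.pos`).
If the twisted product `∏_a Φ_{w_a}(Z_a⁻¹ δ_a Z_{a+1})` (indices modulo `l`) does not vanish,
every argument lies in the support of `Φ_{w_a}`, on which `|det|` and `|det|⁻¹` are bounded
(compact support).  The product of the `|det|` of the arguments telescopes (`cycSucc340` is a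
bijection of `Fin l`): it is `∏_a |det δ_a|`, and
`|det δ_a| = |det d_a((δ r'^j)_{w_a})| = |det δ_{w_a}| (t²)^j` (`d_a` is the identity or the
complex conjugation, `r'` is the scalar `t` at the infinite places, `t > 1`).  So
`c s^j ≤ B` and `(c s^j)⁻¹ ≤ B'` with `s = (t²)^l > 1`, `c > 0`: this excludes `|j| > N`.
`J` is the union over `v` of the intervals `[-N_v, N_v]`.

Only Mathlib and the Spec are imported.  Every declaration of this file is in the namespace
`Fermat.Agent.LT.T7.H71` and ends in `71`; no equation lemma of an imported definition is used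
(`show` / `rfl` only).
-/

set_option autoImplicit false
set_option linter.unusedSectionVars false

open IsDedekindDomain NumberField

noncomputable section

namespace Fermat.Agent.LT.T7.H71

open Fermat.Agent.LT.H556 Fermat.Agent.LT.H556.A0 Fermat.Agent.LT.T7 Fermat.Agent.LT.T7.H305
open Fermat.Agent.LT.T7.H340

/-! ## 1. `|det|` on `GL₂(ℂ)` -/

/-- `|det|` on `GL₂(ℂ)`, as a homomorphism to the multiplicative monoid of `ℝ`. -/
def absDetHom71 : GL (Fin 2) ℂ →* ℝ where
  toFun B := ‖(B : Matrix (Fin 2) (Fin 2) ℂ).det‖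
  map_one' := by simp
  map_mul' A B := by simp only [Units.val_mul, Matrix.det_mul, norm_mul]

theorem absDetHom_apply71 (B : GL (Fin 2) ℂ) :
    absDetHom71 B = ‖(B : Matrix (Fin 2) (Fin 2) ℂ).det‖ := rfl

theorem absDetHom_pos71 (B : GL (Fin 2) ℂ) : 0 < absDetHom71 B := by
  have h : IsUnit (B : Matrix (Fin 2) (Fin 2) ℂ).det :=
    (Matrix.isUnit_iff_isUnit_det _).1 B.isUnit
  rw [absDetHom_apply71]
  exact norm_pos_iff.2 h.ne_zero

theorem continuous_absDetHom71 : Continuous fun B : GL (Fin 2) ℂ => absDetHom71 B :=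
  continuous_norm.comp (Continuous.matrix_det Units.continuous_val)

/-- `|det|` is invariant under the identity and the complex conjugation of the entries. -/
theorem absDetHom_map71 (f : ℂ →+* ℂ) (hf : f = RingHom.id ℂ ∨ f = starRingEnd ℂ)
    (B : GL (Fin 2) ℂ) :
    absDetHom71 (Matrix.GeneralLinearGroup.map f B) = absDetHom71 B := by
  have h1 : ((Matrix.GeneralLinearGroup.map f B : GL (Fin 2) ℂ) : Matrix (Fin 2) (Fin 2) ℂ)
      = f.mapMatrix (B : Matrix (Fin 2) (Fin 2) ℂ) := rfl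
  rw [absDetHom_apply71, absDetHom_apply71, h1, ← RingHom.map_det]
  rcases hf with rfl | rfl
  · rfl
  · exact RCLike.norm_conj _

/-- The bounds on the support. -/
theorem bounds_on_support71 (f : GL (Fin 2) ℂ → ℂ) (hf : HasCompactSupport f) :
    ∃ b b' : ℝ, ∀ B : GL (Fin 2) ℂ, f B ≠ 0 → absDetHom71 B ≤ b ∧ (absDetHom71 B)⁻¹ ≤ b' := by
  have hK : IsCompact (tsupport f) := hf
  obtain ⟨b, hb⟩ := hK.bddAbove_image continuous_absDetHom71.continuousOn
  have hc' : Continuous fun B : GL (Fin 2) ℂ => (absDetHom71 B)⁻¹ :=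
    continuous_absDetHom71.inv₀ (fun B => (absDetHom_pos71 B).ne')
  obtain ⟨b', hb'⟩ := hK.bddAbove_image hc'.continuousOn
  refine ⟨b, b', fun B hB => ?_⟩
  have hmem : B ∈ tsupport f := subset_tsupport f hB
  exact ⟨hb (Set.mem_image_of_mem _ hmem), hb' (Set.mem_image_of_mem _ hmem)⟩

/-! ## 2. The cyclic successor and the telescoping product -/

theorem cycSucc_injective71 (l : ℕ) : Function.Injective (cycSucc340 (l := l)) := by
  intro a b hab
  have h1 : (a.1 + 1) % l = (b.1 + 1) % l := congrArg Fin.val hab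
  have h2 : a.1 ≡ b.1 [MOD l] := Nat.ModEq.add_right_cancel' 1 h1
  have h3 : a.1 % l = b.1 % l := h2
  rw [Nat.mod_eq_of_lt a.2, Nat.mod_eq_of_lt b.2] at h3
  exact Fin.ext h3

theorem cycSucc_bijective71 (l : ℕ) : Function.Bijective (cycSucc340 (l := l)) :=
  Finite.injective_iff_bijective.1 (cycSucc_injective71 l)

/-- The telescoping product along the cycle. -/
theorem prod_cycle71 (l : ℕ) (u d : Fin l → ℝ) (hu : ∀ a, 0 < u a) :
    ∏ a : Fin l, ((u a)⁻¹ * d a * u (cycSucc340 a)) = ∏ a : Fin l, d a := by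
  have h1 : ∏ a : Fin l, u (cycSucc340 a) = ∏ a : Fin l, u a :=
    (cycSucc_bijective71 l).prod_comp u
  have h2 : (∏ a : Fin l, u a) ≠ 0 := (Finset.prod_pos fun a _ => hu a).ne'
  rw [Finset.prod_mul_distrib, Finset.prod_mul_distrib, Finset.prod_inv_distrib, h1]
  field_simp

/-! ## 3. The ray generator -/

variable {K' : Type} [Field K'] [NumberField K']

/-- `|det|` of the ray generator at an infinite place. -/
theorem absDetHom_rayGen71 {r : G K'} {t : ℝ} (ht0 : 0 < t) (w : InfinitePlace K')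
    (htw : infComp w r = Matrix.diagonal (fun _ => (t : ℂ))) :
    absDetHom71 (infGL305 w r) = t ^ 2 := by
  have h1 : ((infGL305 w r : GL (Fin 2) ℂ) : Matrix (Fin 2) (Fin 2) ℂ) = infComp w r := rfl
  rw [absDetHom_apply71, h1, htw, Matrix.det_diagonal]
  simp [abs_of_pos ht0]

theorem one_lt_of_rayGen71 {t : ℝ} (ht0 : 0 < t) (ht2 : t ^ (2 * Module.finrank ℚ K') = 2) :
    1 < t := by
  by_contra h
  rw [not_lt] at h
  have h1 : t ^ (2 * Module.finrank ℚ K') ≤ 1 := pow_le_one₀ ht0.le h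
  rw [ht2] at h1
  norm_num at h1

/-- Integers of large absolute value are excluded. -/
theorem zpow_out71 {s c b b' : ℝ} (hs : 1 < s) (hc : 0 < c) :
    ∃ N : ℕ, ∀ j : ℤ, (N : ℤ) < |j| → ¬ (c * s ^ j ≤ b ∧ (c * s ^ j)⁻¹ ≤ b') := by
  obtain ⟨N, hN⟩ := pow_unbounded_of_one_lt (max (b / c) (b' * c)) hs
  have hs0 : 0 < s := lt_trans zero_lt_one hs
  refine ⟨N, fun j hj h => ?_⟩
  have hN1 : b / c < s ^ N := lt_of_le_of_lt (le_max_left _ _) hN
  have hN2 : b' * c < s ^ N := lt_of_le_of_lt (le_max_right _ _) hN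
  rcases lt_abs.1 hj with hpos | hneg
  · have h1 : s ^ (N : ℤ) ≤ s ^ j := zpow_le_zpow_right₀ hs.le hpos.le
    rw [zpow_natCast] at h1
    have h2 : b / c < s ^ j := lt_of_lt_of_le hN1 h1
    rw [div_lt_iff₀ hc] at h2
    have := h.1
    linarith [mul_comm c (s ^ j)]
  · have h1 : s ^ (N : ℤ) ≤ s ^ (-j) := zpow_le_zpow_right₀ hs.le hneg.le
    rw [zpow_natCast, zpow_neg] at h1
    have hsj : 0 < s ^ j := zpow_pos hs0 j
    have h2 : b' * c < (s ^ j)⁻¹ := lt_of_lt_of_le hN2 h1
    have h3 : (c * s ^ j)⁻¹ = (s ^ j)⁻¹ / c := by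
      rw [mul_inv, div_eq_mul_inv, mul_comm]
    have h4 : b' < (s ^ j)⁻¹ / c := by
      rw [lt_div_iff₀ hc]; exact h2
    have := h.2
    rw [h3] at this
    linarith

/-! ## 4. The leaf -/

variable (K : Type) [Field K] [NumberField K] (K' : Type) [Field K'] [NumberField K']
  [Algebra K K']

/-- **LEAF UF.B3 = RAY-FIN-UP**, verbatim and unconditional. -/
theorem rayFinUpC71 : H340.RayFinUpC340 K K' := by
  classical
  intro D hD ι Φ hΦ δ dA hdA
  obtain ⟨_, t, ht0, ht2, htw⟩ := hD.frame'.ray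
  have ht1 : 1 < t := one_lt_of_rayGen71 (K' := K') ht0 ht2
  have hb : ∀ w : InfinitePlace K', ∃ b b' : ℝ, ∀ B : GL (Fin 2) ℂ, Φ w B ≠ 0 →
      absDetHom71 B ≤ b ∧ (absDetHom71 B)⁻¹ ≤ b' :=
    fun w => bounds_on_support71 (Φ w) (hΦ w).2
  choose b b' hbb using hb
  have key : ∀ v : InfinitePlace K, ∃ N : ℕ, ∀ j : ℤ, (N : ℤ) < |j| →
      ∀ Z : Fin D.l → GL (Fin 2) ℂ,
        cycProd340 D.l (fun a => Φ ((dA v).w a)) (delA340 D.R'.r δ (dA v) j) Z = 0 := by
    intro v
    have hl : 0 < D.l := (hdA v).pos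
    have hs : (1 : ℝ) < (t ^ 2) ^ D.l := one_lt_pow₀ (one_lt_pow₀ ht1 two_ne_zero) hl.ne'
    have hc : 0 < ∏ a : Fin D.l, absDetHom71 (infGL305 ((dA v).w a) (T5.ratG δ)) :=
      Finset.prod_pos (fun a _ => absDetHom_pos71 _)
    obtain ⟨N, hN⟩ := zpow_out71 (b := ∏ a : Fin D.l, b ((dA v).w a))
      (b' := ∏ a : Fin D.l, b' ((dA v).w a)) hs hc
    refine ⟨N, fun j hj Z => ?_⟩
    by_contra hne
    have hfac : ∀ a : Fin D.l, Φ ((dA v).w a)
        ((Z a)⁻¹ * delA340 D.R'.r δ (dA v) j a * Z (cycSucc340 a)) ≠ 0 := by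
      intro a h0
      apply hne
      show (∏ a : Fin D.l, Φ ((dA v).w a)
        ((Z a)⁻¹ * delA340 D.R'.r δ (dA v) j a * Z (cycSucc340 a))) = 0
      exact Finset.prod_eq_zero (Finset.mem_univ a) h0
    have hdel : ∀ a : Fin D.l, absDetHom71 (delA340 D.R'.r δ (dA v) j a)
        = absDetHom71 (infGL305 ((dA v).w a) (T5.ratG δ)) * (t ^ 2) ^ j := by
      intro a
      have h0 : delA340 D.R'.r δ (dA v) j a
          = Matrix.GeneralLinearGroup.map ((dA v).d a)
              (infGL305 ((dA v).w a) (T5.ratG δ * D.R'.r ^ j)) := rfl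
      rw [h0, absDetHom_map71 _ ((hdA v).typ a), map_mul, map_zpow, map_mul, map_zpow,
        absDetHom_rayGen71 ht0 _ (htw _)]
    have hprod : ∏ a : Fin D.l, absDetHom71
        ((Z a)⁻¹ * delA340 D.R'.r δ (dA v) j a * Z (cycSucc340 a))
        = (∏ a : Fin D.l, absDetHom71 (infGL305 ((dA v).w a) (T5.ratG δ)))
            * ((t ^ 2) ^ D.l) ^ j := by
      have h1 : ∀ a : Fin D.l, absDetHom71
          ((Z a)⁻¹ * delA340 D.R'.r δ (dA v) j a * Z (cycSucc340 a))
          = (absDetHom71 (Z a))⁻¹ * absDetHom71 (delA340 D.R'.r δ (dA v) j a)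
              * absDetHom71 (Z (cycSucc340 a)) := by
        intro a
        rw [map_mul, map_mul, map_inv]
      rw [Finset.prod_congr rfl (fun a _ => h1 a),
        prod_cycle71 D.l (fun a => absDetHom71 (Z a)) _ (fun a => absDetHom_pos71 _),
        Finset.prod_congr rfl (fun a _ => hdel a), Finset.prod_mul_distrib,
        Finset.prod_const, Finset.card_univ, Fintype.card_fin]
      congr 1
      rw [← zpow_natCast ((t ^ 2) ^ j) D.l, ← zpow_mul, mul_comm j (D.l : ℤ), zpow_mul,
        zpow_natCast]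
    apply hN j hj
    constructor
    · rw [← hprod]
      exact Finset.prod_le_prod (fun a _ => (absDetHom_pos71 _).le)
        (fun a _ => (hbb _ _ (hfac a)).1)
    · rw [← hprod, ← Finset.prod_inv_distrib]
      exact Finset.prod_le_prod (fun a _ => (inv_pos.2 (absDetHom_pos71 _)).le)
        (fun a _ => (hbb _ _ (hfac a)).2)
  choose N hN using key
  refine ⟨Finset.univ.biUnion fun v => Finset.Icc (-(N v : ℤ)) (N v), fun j hj v Z => ?_⟩
  apply hN v
  have hjv : j ∉ Finset.Icc (-(N v : ℤ)) (N v) := fun h =>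
    hj (Finset.mem_biUnion.2 ⟨v, Finset.mem_univ _, h⟩)
  rw [Finset.mem_Icc, not_and_or, not_le, not_le] at hjv
  rw [lt_abs]
  rcases hjv with h | h
  · right; linarith
  · left; exact h

end Fermat.Agent.LT.T7.H71

end
end
-- ===== PACK-END LT/T7/H71/RayFinUp.lean

-- ===== PACK-BEGIN LT/T7/H176/FD/ArchIntblUp.lean
section






/-!
# Row LT, tower T7, node C2.7.13.1 `UpFactC340`, leaf UF.B4 = `ArchIntblUpC340` (helper176)

OFF-MAIN.  `archIntblUpC176 K K' : H340.ArchIntblUpC340 K K'`, VERBATIM, unconditional (the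
hypothesis `ArchIntblC558` is not used: the direct proof is shorter than the reduction).

The integrand at an infinite place `v` of `K` is
`y ↦ ∏_{a < l} Φ_{w_a}(y_a⁻¹ δ_a y_{a+1}) β(y_0)` on `GL₂(ℂ)^l` (indices modulo `l`),
`δ_a = d_a((δ r'^j)_{w_a})`.

* `d_{a+1} ∘ (·)_{w_{a+1}} = d_a ∘ (·)_{w_a} ∘ σ` on `K'` (`sig` on the rational adeles,
  `AdelicAut.compat`), the ray is the same real scalar matrix `ρ` at all places, so
  `δ_0 ⋯ δ_{l-1} = e_0(N δ) ρ^{jl} = e_0(γ) ρ^{jl} = γ_v ρ^{jl}` (`rat` of the base change of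
  adeles, `iot`, `d_0` is an involution).
* `γ_v` is regular (`γ` is elliptic, `K → ℂ` is injective): the orbit is closed
  (`exists_compact_orbit176`, `FD/OrbitC.lean`).
* `integrable_cyc176` (`FD/CycChain.lean`, Mathlib only).
-/

set_option autoImplicit false

open AutomorphicForm IsDedekindDomain NumberField MeasureTheory
open scoped ComplexConjugate

noncomputable section

namespace Fermat.Agent.LT.T7.H176

open Fermat.Agent.LT.H556 Fermat.Agent.LT.H556.A0 Fermat.Agent.LT.T7 Fermat.Agent.LT.T7.H305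
  Fermat.Agent.LT.T7.H558 Fermat.Agent.LT.T7.H340

attribute [local instance] Fermat.Agent.LT.T5.instMeasurableSpaceG

section NormChain

variable {K' : Type} [Field K'] [NumberField K']

/-- The append form of the norm: `N_{k+1} δ = N_k δ · σ^k δ`. -/
theorem normUpTo_succ_append176 (s : T5.AdelicAut K') (δ : GL (Fin 2) K') (k : ℕ) :
    s.normUpTo (k + 1) δ = s.normUpTo k δ * (s.onRat)^[k] δ := by
  induction k with
  | zero =>
    change δ * s.onRat 1 = 1 * δ
    simp
  | succ k ih =>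
    calc s.normUpTo (k + 1 + 1) δ = δ * s.onRat (s.normUpTo (k + 1) δ) := rfl
      _ = δ * s.onRat (s.normUpTo k δ * (s.onRat)^[k] δ) := by rw [ih]
      _ = (δ * s.onRat (s.normUpTo k δ)) * s.onRat ((s.onRat)^[k] δ) := by
          rw [map_mul, mul_assoc]
      _ = s.normUpTo (k + 1) δ * (s.onRat)^[k + 1] δ := by
          rw [Function.iterate_succ_apply']
          rfl

end NormChain

section Main

variable (K K' : Type) [Field K] [NumberField K] [Field K'] [NumberField K'] [Algebra K K']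

/-- **LEAF UF.B4 = ARCH-INTBL-UP**, verbatim. -/
theorem archIntblUpC176 : ArchIntblUpC340 K K' := by
  intro _ D hD _ _ _ ι hι μc hμc Φ hΦ δ γ hell hnorm m L hL v d hd hl j
  let _ : MeasurableSpace (GL (Fin 2) ℂ) := borel _
  have : BorelSpace (GL (Fin 2) ℂ) := ⟨rfl⟩
  have := secondCountable_GL2C176
  have := locallyCompact_GL2C176
  have : μc.IsHaarMeasure := hμc
  -- the ray
  obtain ⟨_, t, _, _, htw⟩ := hD.frame'.ray
  have hray : ∀ a : ℕ,
      ((Matrix.GeneralLinearGroup.map (d.d a) (infGL305 (d.w a) D.R'.r) : GL (Fin 2) ℂ) :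
        Matrix (Fin 2) (Fin 2) ℂ) = Matrix.diagonal (fun _ => (t : ℂ)) := by
    intro a
    ext i k
    have h2 : T5.infHom (d.w a) ((D.R'.r : Matrix (Fin 2) (Fin 2) (Adl K')) i k)
        = Matrix.diagonal (fun _ => (t : ℂ)) i k := by
      rw [← htw (d.w a)]
      rfl
    change d.d a (T5.infHom (d.w a) ((D.R'.r : Matrix (Fin 2) (Fin 2) (Adl K')) i k)) = _
    rw [h2]
    by_cases hik : i = k
    · subst hik
      rw [Matrix.diagonal_apply_eq]
      rcases hd.typ a with h | h
      · rw [h]; rfl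
      · rw [h]; exact Complex.conj_ofReal t
    · rw [Matrix.diagonal_apply_ne _ hik, map_zero]
  obtain ⟨ρ, hρ, hρv⟩ : ∃ ρ : GL (Fin 2) ℂ,
      (∀ a : ℕ, Matrix.GeneralLinearGroup.map (d.d a) (infGL305 (d.w a) D.R'.r) = ρ) ∧
        (ρ : Matrix (Fin 2) (Fin 2) ℂ) = Matrix.diagonal (fun _ => (t : ℂ)) :=
    ⟨Matrix.GeneralLinearGroup.map (d.d 0) (infGL305 (d.w 0) D.R'.r),
      fun a => Units.ext ((hray a).trans (hray 0).symm), hray 0⟩
  have hρc : ∀ g : GL (Fin 2) ℂ, Commute ρ g := by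
    intro g
    apply Units.ext
    rw [Units.val_mul, Units.val_mul, hρv]
    ext i k
    rw [Matrix.diagonal_mul, Matrix.mul_diagonal, mul_comm]
  -- the homomorphisms
  let F : ℕ → GL (Fin 2) K' →* GL (Fin 2) ℂ := fun a =>
    (Matrix.GeneralLinearGroup.map (d.d a)).comp ((infGL305 (d.w a)).comp T5.ratG)
  have hδ' : ∀ a : ℕ, delA340 D.R'.r δ d j a = F a δ * ρ ^ j := by
    intro a
    change Matrix.GeneralLinearGroup.map (d.d a) (infGL305 (d.w a) (T5.ratG δ * D.R'.r ^ j)) = _
    rw [map_mul, map_mul, map_zpow, map_zpow, hρ a]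
    rfl
  have hF : ∀ a : ℕ, a + 1 < D.l → ∀ g : GL (Fin 2) K', F (a + 1) g = F a (D.s.onRat g) := by
    intro a ha g
    apply Matrix.GeneralLinearGroup.ext
    intro i k
    have h1 := hd.sig ⟨a, by omega⟩
      (algebraMap K' (Adl K') ((g : Matrix (Fin 2) (Fin 2) K') i k))
    rw [D.s.compat] at h1
    have h2 : (cycSucc340 (⟨a, by omega⟩ : Fin D.l)).1 = a + 1 := Nat.mod_eq_of_lt ha
    rw [h2] at h1
    exact h1.symm
  have hFk : ∀ k : ℕ, k < D.l → ∀ g : GL (Fin 2) K', F k g = F 0 ((D.s.onRat)^[k] g) := by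
    intro k
    induction k with
    | zero => intro _ g; rfl
    | succ k ih =>
      intro hk g
      rw [hF k hk g, ih (by omega), Function.iterate_succ_apply]
  -- the prefix products
  obtain ⟨P, hP0, hPs⟩ : ∃ P : ℕ → GL (Fin 2) ℂ, P 0 = 1 ∧
      ∀ k, P (k + 1) = P k * delA340 D.R'.r δ d j k :=
    ⟨fun k => Nat.rec 1 (fun k p => p * delA340 D.R'.r δ d j k) k, rfl, fun k => rfl⟩
  have hPk : ∀ k : ℕ, k ≤ D.l → P k = F 0 (D.s.normUpTo k δ) * (ρ ^ j) ^ k := by
    intro k
    induction k with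
    | zero =>
      intro _
      rw [hP0, pow_zero, mul_one]
      exact (map_one (F 0)).symm
    | succ k ih =>
      intro hk
      have hc : Commute ((ρ ^ j) ^ k) (F 0 ((D.s.onRat)^[k] δ)) :=
        ((hρc _).zpow_left j).pow_left k
      rw [hPs, ih (by omega), hδ', hFk k (by omega), normUpTo_succ_append176, map_mul, pow_succ]
      calc F 0 (D.s.normUpTo k δ) * (ρ ^ j) ^ k * (F 0 ((D.s.onRat)^[k] δ) * ρ ^ j)
          = F 0 (D.s.normUpTo k δ) * ((ρ ^ j) ^ k * F 0 ((D.s.onRat)^[k] δ)) * ρ ^ j := by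
            group
        _ = F 0 (D.s.normUpTo k δ) * (F 0 ((D.s.onRat)^[k] δ) * (ρ ^ j) ^ k) * ρ ^ j := by
            rw [hc.eq]
        _ = _ := by group
  -- the base point
  have hbase : F 0 (Matrix.GeneralLinearGroup.map (algebraMap K K') γ) = archG305 v γ := by
    apply Matrix.GeneralLinearGroup.ext
    intro i k
    change d.d 0 (T5.infHom (d.w 0) (algebraMap K' (Adl K')
      (algebraMap K K' ((γ : Matrix (Fin 2) (Fin 2) K) i k))))
      = T5.infHom v (algebraMap K (Adl K) ((γ : Matrix (Fin 2) (Fin 2) K) i k))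
    rw [← hι.rat, hd.iot 0]
    rcases hd.typ 0 with h | h
    · rw [h]; rfl
    · rw [h]; exact Complex.conj_conj _
  have hPl : P D.l = archG305 v γ * (ρ ^ j) ^ D.l := by
    rw [hPk D.l le_rfl, hnorm, hbase]
  have hzc : ∀ g : GL (Fin 2) ℂ, (ρ ^ j) ^ D.l * g = g * (ρ ^ j) ^ D.l := fun g =>
    (((hρc g).zpow_left j).pow_left D.l).eq
  -- regularity
  have hdisc : ((archG305 v γ : GL (Fin 2) ℂ) : Matrix (Fin 2) (Fin 2) ℂ).trace ^ 2
      - 4 * ((archG305 v γ : GL (Fin 2) ℂ) : Matrix (Fin 2) (Fin 2) ℂ).det ≠ 0 := by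
    have h0 : T6.disc γ ≠ 0 := hell.1.ne_zero
    let f : K →+* ℂ := (T5.infHom v).comp (algebraMap K (Adl K))
    have hent : ∀ i k, ((archG305 v γ : GL (Fin 2) ℂ) : Matrix (Fin 2) (Fin 2) ℂ) i k
        = f ((γ : Matrix (Fin 2) (Fin 2) K) i k) := fun i k => rfl
    have h1 : ((archG305 v γ : GL (Fin 2) ℂ) : Matrix (Fin 2) (Fin 2) ℂ).trace ^ 2
        - 4 * ((archG305 v γ : GL (Fin 2) ℂ) : Matrix (Fin 2) (Fin 2) ℂ).det
        = f (T6.disc γ) := by
      rw [Matrix.trace_fin_two, Matrix.det_fin_two, hent, hent, hent, hent]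
      simp only [T6.disc, Matrix.trace_fin_two, Matrix.det_fin_two, map_sub, map_mul, map_add,
        map_pow, map_ofNat]
    rw [h1]
    exact (map_ne_zero f).2 h0
  -- the cut-off
  obtain ⟨hβc, hβ0, hβ1⟩ := hL.cutc v
  let _ : MeasurableSpace (cent305 (archG305 v γ)) := borel _
  have : BorelSpace (cent305 (archG305 v γ)) := ⟨rfl⟩
  have : (L.μtc v).IsHaarMeasure := hL.torc v
  -- the test functions
  have hbd : ∀ a : ℕ, ∃ M : ℝ, ∀ x, ‖Φ (d.w a) x‖ ≤ M := fun a =>
    (hΦ (d.w a)).1.bounded_above_of_compact_support (hΦ (d.w a)).2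
  choose M hM using hbd
  have hcont : Continuous (cycProd340 D.l (fun a => Φ (d.w a)) (delA340 D.R'.r δ d j)) := by
    change Continuous (fun y : Fin D.l → GL (Fin 2) ℂ =>
      ∏ a : Fin D.l, Φ (d.w a.1) ((y a)⁻¹ * delA340 D.R'.r δ d j a.1 * y (cycSucc340 a)))
    refine continuous_finsetProd _ fun a _ => ?_
    exact (hΦ (d.w a.1)).1.comp
      ((((continuous_apply a).inv).mul continuous_const).mul (continuous_apply _))
  have hbound : ∀ y : Fin D.l → GL (Fin 2) ℂ,
      ‖cycProd340 D.l (fun a => Φ (d.w a)) (delA340 D.R'.r δ d j) y‖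
        ≤ ∏ a : Fin D.l, M a.1 := by
    intro y
    unfold cycProd340
    rw [norm_prod]
    exact Finset.prod_le_prod (fun a _ => norm_nonneg _) (fun a _ => hM a.1 _)
  have hmain := integrable_cyc176 μc D.l hl (archG305 v γ) ((ρ ^ j) ^ D.l) hzc
    (cent305 (archG305 v γ)) (fun t => Iff.rfl) (L.μtc v)
    (fun Ω hΩ => exists_compact_orbit176 (archG305 v γ) hdisc Ω hΩ)
    (L.βc v) hβc hβ0 hβ1 (delA340 D.R'.r δ d j) P hP0 hPs hPl
    (fun a => tsupport (Φ (d.w a))) (fun a => (hΦ (d.w a)).2)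
    (cycProd340 D.l (fun a => Φ (d.w a)) (delA340 D.R'.r δ d j)) hcont _ hbound (by
      intro y hy a
      have h1 : Φ (d.w a.1) ((y a)⁻¹ * delA340 D.R'.r δ d j a.1 * y (cycSucc340 a)) ≠ 0 := by
        unfold cycProd340 at hy
        exact (Finset.prod_ne_zero_iff.1 hy) a (Finset.mem_univ a)
      exact subset_tsupport _ h1)
  exact hmain

end Main

end Fermat.Agent.LT.T7.H176

end

end
-- ===== PACK-END LT/T7/H176/FD/ArchIntblUp.lean

-- ===== PACK-BEGIN LT/T7/H311/EkProdDown.lean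
section



/-!
# Row LT, tower T7, leaf T7.L2.1.F2 `EkProdDownC` VERBATIM (helper311, registry row 2250)

OFF-MAIN.  `ekProdDownC311 K K' : T7.H893.EkProdDownC K K'` (SupplyFamSpec of helper893),
UNCONDITIONAL: the members downstairs `F₁ X ⋆ regL u z H k m f₂` are products of two
Eisenstein-killing test functions with Eisenstein-killing adjoints.

* `F₁ X` : fields `dn1_test`, `dn1_ek` of `IsL2Pre`.
* `regL u z H k m f₂ = ltr (z ^ k) ((iwL u H)^[m] f₂)` : `isEKTest_regL311` (`EkProdInv.lean`):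
  left translates by elements which are trivial at infinity preserve continuity, compact
  support, smoothness at infinity, the right invariances, the left `K_∞`-invariance and the two
  Eisenstein-killing clauses (`EkProdTools.lean`); the Iwahori sum preserves the left invariance
  under `U(𝔫)` and the local Iwahori elements at `u` (`u ∣ 𝔫`; completeness of the coset systems:
  kit of helper340), `z` is central.
* the product is a test function: `isTestFn_conv872` (helper872); assembly `isEKProd_mk32`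
  (helper32).
-/

set_option autoImplicit false

open IsDedekindDomain NumberField MeasureTheory
open Fermat.Agent.LT.H556 Fermat.Agent.LT.H556.A0

noncomputable section

namespace Fermat.Agent.LT.T7.H311

open Fermat.Agent.LT Fermat.Agent.LT.T7 Fermat.Agent.LT.T7.H893

attribute [local instance] Fermat.Agent.LT.T5.instMeasurableSpaceG

/-- **T7.L2.1.F2 EKPROD-DOWN**, verbatim. -/
theorem ekProdDownC311 (K K' : Type) [Field K] [NumberField K] [Field K'] [NumberField K']
    [Algebra K K'] : H893.EkProdDownC K K' := by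
  intro ℓ Φ B hB g hg E hE X k m hX
  have hF : IsFrame5 B.R := hB.frame
  have hT : H32.ConvTestC32 E.𝔫 B.R.μ := fun a b ha hb =>
    H872.isTestFn_conv872 hF.frame.haar hE.level_ne ha hb
  have h1 : H32.IsEKTest32 E.𝔫 B.R.μ (E.F₁ X) :=
    ⟨hE.dn1_test X hX, (hE.dn1_ek X hX).1, (hE.dn1_ek X hX).2⟩
  have hpre : IsPre311 E.𝔫 B.R.μ E.f₂ := isPre_of_test311 hE.dn2_test hE.dn2_ek.1 hE.dn2_ek.2
  have hL : IsLInv311 E.𝔫 B.u E.f₂ :=
    ⟨fun x hx y => (hE.dn2_inv.1 x hx y).1,
      fun h hl hI y => (hE.dn2_inv.2 h hl.1 (fun v hv => hl.2 v (hv 0 Nat.zero_lt_one))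
        (fun _ _ => hI) y).1⟩
  have h2 := isEKTest_regL311 hF.frame hpre hL hE.u_level hE.sys hE.unif k m
  exact H32.isEKProd_mk32 hT h1 h2

end Fermat.Agent.LT.T7.H311

end

end
-- ===== PACK-END LT/T7/H311/EkProdDown.lean

-- ===== PACK-BEGIN LT/T7/H49/OpsPer.lean
section


/-!
# Row LT, tower T7, leaf T7.L2.2.B4.5 `H561.OpsPerC561` (helper49, OFF-MAIN)

    opsPerC49 (K K') : H561.OpsPerC561 K K'        VERBATIM, UNCONDITIONAL

`o (j + ℓ) = o j` (`orbit_add49`) and two explicit systems at the same place define the same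
operators on the Iwahori invariant functions (`cosetOp_indepS49`, `trOp_indep49`).
-/

set_option autoImplicit false
set_option linter.unusedSectionVars false
set_option linter.unusedSimpArgs false
set_option linter.unusedVariables false

open Matrix
open AutomorphicForm IsDedekindDomain NumberField IsDedekindDomain.HeightOneSpectrum
open Fermat.Agent.LT.H556 Fermat.Agent.LT.H556.A0 Fermat.Agent.LT.H129
open Fermat.Agent.LT.T7 Fermat.Agent.LT.T7.H83

noncomputable section

namespace Fermat.Agent.LT.T7.H49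

section Local

variable {F : Type*} [Field F] {val : Valuation F (WithZero (Multiplicative ℤ))}

/-- `ω'⁻¹ ω = diag(c / c', 1)`. -/
theorem coe_om_inv_mul49 (c c' : F) (hc : c ≠ 0) (hc' : c' ≠ 0) :
    (((omL49 c' hc')⁻¹ * omL49 c hc : GL (Fin 2) F) : Matrix (Fin 2) (Fin 2) F)
      = !![c / c', 0; 0, 1] := by
  rw [om_inv49, Matrix.GeneralLinearGroup.coe_mul, coe_mkGL129, coe_omL49]
  ext i j
  fin_cases i <;> fin_cases j <;> simp [Matrix.mul_apply, Fin.sum_univ_two, div_eq_inv_mul]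

/-- Two normalisers differ by an element of the Iwahori subgroup. -/
theorem iwL_om_inv_mul49 {c c' : F} (hc : c ≠ 0) (hc' : c' ≠ 0) (h : val c = val c') :
    IwL val ((omL49 c' hc')⁻¹ * omL49 c hc) := by
  have hv0 : val c' ≠ 0 := (Valuation.ne_zero_iff val).2 hc'
  have hv : val (c / c') = 1 := by
    rw [map_div₀, h, div_self hv0]
  refine ⟨fun i j => ?_, ?_, ?_⟩
  · rw [coe_om_inv_mul49]
    fin_cases i <;> fin_cases j
    · simpa using hv.le
    · simp
    · simp
    · simp
  · rw [coe_om_inv_mul49, Matrix.det_fin_two_of]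
    simpa using hv
  · rw [coe_om_inv_mul49]
    simp

end Local

section Adelic

variable {K : Type} [Field K] [NumberField K] {w : HeightOneSpectrum (𝓞 K)}

/-- **Two explicit systems at `w` define the same operator** on the Iwahori invariant
functions. -/
theorem cosetOp_indepS49 {Hs Hs' : Finset (G K)} (hH : IsSSys49 w Hs) (hH' : IsSSys49 w Hs')
    {ψ : G K → ℂ} (hψ : IsIwInvAt w ψ) (x : G K) : cosetOp Hs ψ x = cosetOp Hs' ψ x := by
  classical
  have hex : ∀ h : G K, ∃ t : G K, h ∈ Hs →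
      t ∈ Hs' ∧ Valued.v (ent49 w h - ent49 w t) < 1 := by
    intro h
    by_cases hh : h ∈ Hs
    · obtain ⟨t, ht, hvt⟩ := hH'.complete (x := ent49 w h) (hH.val_le hh)
      exact ⟨t, fun _ => ⟨ht, hvt⟩⟩
    · exact ⟨h, fun h'' => absurd h'' hh⟩
  choose τ hτ using hex
  have hτinj : Set.InjOn τ (Hs : Set (G K)) := by
    intro h₁ hh₁ h₂ hh₂ e
    have h1 := (hτ h₁ hh₁).2
    have h2 := (hτ h₂ hh₂).2
    rw [← e] at h2
    apply hH.unique hh₁ hh₂
    have e3 : ent49 w h₂ - ent49 w h₁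
        = (ent49 w h₂ - ent49 w (τ h₁)) - (ent49 w h₁ - ent49 w (τ h₁)) := by ring
    rw [e3]
    exact val_sub_lt_one83 h2 h1
  have himg : Hs.image τ = Hs' := by
    apply Finset.eq_of_subset_of_card_le
    · intro t ht
      obtain ⟨h, hh, rfl⟩ := Finset.mem_image.1 ht
      exact (hτ h hh).1
    · rw [Finset.card_image_of_injOn hτinj, hH.card, hH'.card]
  have hterm : ∀ h ∈ Hs, ψ (x * h) = ψ (x * τ h) := by
    intro h hh
    have e : x * h = x * τ h * ((τ h)⁻¹ * h) := by group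
    rw [e]
    apply hψ ((τ h)⁻¹ * h)
      (isLocalAtFin_mul129 (isLocalAtFin_inv129 (hH'.loc _ (hτ h hh).1)) (hH.loc h hh))
    rw [inIwahori_iff83, map_mul, map_inv, hH.finCompHom_eq hh,
      hH'.finCompHom_eq (hτ h hh).1]
    exact iwL_sL_inv_sL49 (hτ h hh).2
  unfold cosetOp
  rw [Finset.sum_congr rfl hterm]
  conv_rhs => rw [← himg]
  rw [Finset.sum_image hτinj]

/-- **Two normalisers at `w` define the same operator** on the Iwahori invariant functions. -/
theorem trOp_indep49 {g g' : G K} (hg : IsLocalAtFin w g) (hg' : IsLocalAtFin w g')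
    {c c' : w.adicCompletion K} (hc : Valued.v c = WithZero.exp (-1 : ℤ))
    (hc' : Valued.v c' = WithZero.exp (-1 : ℤ))
    (hcomp : finComp w g = !![0, 1; c, 0]) (hcomp' : finComp w g' = !![0, 1; c', 0])
    {ψ : G K → ℂ} (hψ : IsIwInvAt w ψ) (x : G K) : ψ (x * g) = ψ (x * g') := by
  have hc0 : c ≠ 0 := unif_ne_zero129 w hc
  have hc0' : c' ≠ 0 := unif_ne_zero129 w hc'
  have e1 := eq_locFin_om49 hg hc0 hcomp
  have e2 := eq_locFin_om49 hg' hc0' hcomp'
  have e : x * g = x * g' * (g'⁻¹ * g) := by group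
  rw [e]
  apply hψ (g'⁻¹ * g) (isLocalAtFin_mul129 (isLocalAtFin_inv129 hg') hg)
  rw [inIwahori_iff83, map_mul, map_inv, e1, e2, finCompHom129_locFin129,
    finCompHom129_locFin129]
  exact iwL_om_inv_mul49 hc0 hc0' (hc.trans hc'.symm)

end Adelic

/-- **LEAF T7.L2.2.B4.5 = OPS-PER, VERBATIM.** -/
theorem opsPerC49 (K K' : Type) [Field K] [NumberField K] [Field K'] [NumberField K']
    [Algebra K K'] : H561.OpsPerC561 K K' := by
  intro ℓ Φ Dt hs Hs ω hsys j ψ hψ x
  have hper : Dt.o (j + ℓ) = Dt.o j := orbit_add49 hs j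
  have hinv := isIwInvAt_orbit49 hs hψ j
  constructor
  · have h1 : IsSSys49 (Dt.o j) (Hs (j + ℓ)) := hper ▸ isSSys_of561 hsys (j + ℓ)
    exact cosetOp_indepS49 h1 (isSSys_of561 hsys j) hinv x
  · have hl : IsLocalAtFin (Dt.o j) (ω (j + ℓ)) := hper ▸ hsys.ω_local (j + ℓ)
    have hcp : ∃ c : (Dt.o j).adicCompletion K', Valued.v c = WithZero.exp (-1 : ℤ) ∧
        finComp (Dt.o j) (ω (j + ℓ)) = !![0, 1; c, 0] := hper ▸ hsys.ω_comp (j + ℓ)
    obtain ⟨c', hc', hcc'⟩ := hcp
    obtain ⟨c, hc, hcc⟩ := hsys.ω_comp j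
    unfold H561.trOp561
    exact trOp_indep49 hl (hsys.ω_local j) hc' hc hcc' hcc hinv x

example (K K' : Type) [Field K] [NumberField K] [Field K'] [NumberField K'] [Algebra K K'] :
    H561.OpsPerC561 K K' := opsPerC49 K K'

end Fermat.Agent.LT.T7.H49

end

end
-- ===== PACK-END LT/T7/H49/OpsPer.lean

-- ===== PACK-BEGIN LT/T7/H439/OpUpLeaves.lean
section






/-!
# Row LT, tower T7, leaf T7.L2.1.F3 `OpUpC`, cut of helper281: sub-leaves A, C, S
# (helper439, OFF-MAIN, spare)

VERBATIM vs `T7/H281/OpUpSpec.lean` (helper281@a99fa3f20, sha256 2dcc737e), unconditional.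

* A `rconvOpsC439 : RconvOpsC281 K`   (`Rconv_Rconv277`, `Rconv_lsum439`, `Rconv_regL439`);
* C `iwInvC439 : IwInvC281 K`         (`level_inv_iwOp_gen439`, kit of helper340);
* S `shiftInvC439 : ShiftInvC281 K`   (`central_scalar439`; two scalar uniformisers differ by a
  unit scalar, which lies in the Iwahori subgroup).
-/

set_option autoImplicit false
set_option linter.unusedSectionVars false

open AutomorphicForm IsDedekindDomain NumberField MeasureTheory
open scoped ComplexConjugate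
open Fermat.Agent.LT.H556 Fermat.Agent.LT.H556.A0 Fermat.Agent.LT.H129

noncomputable section

namespace Fermat.Agent.LT.T7.H439

open Fermat.Agent.LT Fermat.Agent.LT.T7 Fermat.Agent.LT.T7.H893 Fermat.Agent.LT.T7.H340
open Fermat.Agent.LT.T7.H281

attribute [local instance] Fermat.Agent.LT.T5.instMeasurableSpaceG

variable {K : Type} [Field K] [NumberField K]

/-! ## A -/

/-- **SUB-LEAF A = RCONV-OPS**, verbatim. -/
theorem rconvOpsC439 (K : Type) [Field K] [NumberField K] : RconvOpsC281 K := by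
  intro μ F hF φ₁ φ₂ ψ h1c h1s h2c h2s hψ w Hg H z k m x
  have hrc := continuous_regL439 w z H k m h2c
  have hrs := hasCompactSupport_regL439 w z H k m h2s
  have e : T5.Rconv μ (lsum Hg (regL w z H k m φ₂)) ψ
      = cosetOp Hg (shiftOp z k ((iwOp w H)^[m] (T5.Rconv μ φ₂ ψ))) := by
    rw [Rconv_lsum439 hF Hg hrc hrs hψ, Rconv_regL439 hF w z H k m h2c h2s hψ]
  rw [← e]
  exact (T5.H277.Rconv_Rconv277 hF h1c h1s (continuous_lsum439 Hg hrc)
    (hasCompactSupport_lsum439 Hg hrs) hψ x).symm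

/-! ## C -/

theorem one_integral439 (v : HeightOneSpectrum (𝓞 K)) (i j : Fin 2) :
    (1 : Matrix (Fin 2) (Fin 2) (v.adicCompletion K)) i j ∈ v.adicCompletionIntegers K := by
  by_cases hij : i = j
  · subst hij
    rw [Matrix.one_apply_eq]
    exact one_mem _
  · rw [Matrix.one_apply_ne hij]
    exact zero_mem _

/-- An element supported at a place dividing the level is a good translation. -/
theorem isGood_of_local439 {𝔫₀ : Ideal (𝓞 K)} {u : HeightOneSpectrum (𝓞 K)}
    (hu : u.asIdeal ∣ 𝔫₀) {h : G K} (hh : IsLocalAtFin u h) : IsGoodTransl281 𝔫₀ h := by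
  refine ⟨hh.1, fun v hv => ?_⟩
  have hne : v ≠ u := by
    rintro rfl
    exact hv hu
  have e1 : finComp v h = 1 := hh.2 v hne
  have e2 : finComp v h⁻¹ = 1 := (isLocalAtFin_inv129 hh).2 v hne
  constructor
  · intro i j
    rw [e1]
    exact one_integral439 v i j
  · intro i j
    rw [e2]
    exact one_integral439 v i j

/-- `𝒰 ψ` is invariant under `U(𝔫)` (general form). -/
theorem level_inv_iwOp_gen439 {𝔫 : Ideal (𝓞 K)} {u : HeightOneSpectrum (𝓞 K)}
    (hu : u.asIdeal ∣ 𝔫) {H : Finset (G K)} (hH : IsIwCosetSystem u H) {ψ : G K → ℂ}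
    (hl : ∀ k : G K, InLevelGroup 𝔫 k → ∀ g : G K, ψ (g * k) = ψ g)
    (hloc : ∀ b : G K, IsLocalAtFin u b → T5.InIwahori u b → ∀ g : G K, ψ (g * b) = ψ g)
    (k : G K) (hk : InLevelGroup 𝔫 k) (x : G K) :
    iwOp u H ψ (x * k) = iwOp u H ψ x := by
  classical
  unfold iwOp
  congr 1
  set kw : G K := locFin129 u (finCompHom129 u k) with hkw
  set k' : G K := kw⁻¹ * k with hk'
  have hkwloc : IsLocalAtFin u kw := isLocalAtFin_locFin129 _ _
  have hkwI : T5.InIwahori u kw := by
    rw [inIwahori_iff340, hkw, finCompHom129_locFin129, ← inIwahori_iff340]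
    exact inIwahori_of_level439 hu hk
  have hk'w : finCompHom129 u k' = 1 := by
    rw [hk', map_mul, map_inv, hkw, finCompHom129_locFin129, inv_mul_cancel]
  have hk'v : ∀ v : HeightOneSpectrum (𝓞 K), v ≠ u →
      finCompHom129 v k' = finCompHom129 v k := by
    intro v hv
    rw [hk', map_mul, map_inv, hkw, finCompHom129_locFin129_of_ne _ _ hv, inv_one, one_mul]
  have hk'inf : ∀ w : InfinitePlace K, TrivAtInf w k' := by
    intro w
    rw [trivAtInf_iff129, hk', map_mul, map_inv, hkw, infCompHom129_locFin129, inv_one,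
      one_mul, ← trivAtInf_iff129]
    exact hk.1 w
  have hk'L : InLevelGroup 𝔫 k' := by
    refine ⟨hk'inf, fun v i j => ?_⟩
    by_cases hv : v = u
    · subst hv
      have e1 : finComp v k' = 1 := by
        rw [← coe_finCompHom129, hk'w]; rfl
      have e2 : finComp v k'⁻¹ = 1 := by
        rw [← coe_finCompHom129, map_inv, hk'w, inv_one]; rfl
      rw [e1, e2, sub_self]
      exact ⟨zero_mem_ic439 𝔫 v, zero_mem_ic439 𝔫 v⟩
    · have e1 : finComp v k' = finComp v k := by
        rw [← coe_finCompHom129, hk'v v hv]; rfl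
      have e2 : finComp v k'⁻¹ = finComp v k⁻¹ := by
        rw [← coe_finCompHom129, map_inv, hk'v v hv, ← map_inv]; rfl
      rw [e1, e2]
      exact hk.2 v i j
  have hkk : k = kw * k' := by rw [hk']; group
  have hterm : ∀ h ∈ H, ψ (x * k * h) = ψ (x * (kw * h)) := by
    intro h hh
    have hcomm : k' * h = h * k' := (commute_of_local340 (hH.2.1 h hh).1 hk'w).symm
    have e : x * k * h = x * (kw * h) * k' := by
      rw [hkk, mul_assoc, mul_assoc kw, hcomm]
      group
    rw [e]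
    exact hl k' hk'L _
  rw [Finset.sum_congr rfl hterm]
  have himg : ∑ h ∈ H, ψ (x * (kw * h)) = ∑ h ∈ H.image (fun h => kw * h), ψ (x * h) := by
    rw [Finset.sum_image (fun a _ b _ hab => mul_right_injective kw hab)]
  rw [himg]
  exact iwSum_indep340 (isIwCosetSystem_translate340 hH hkwloc hkwI) hH ψ hloc x

/-- **SUB-LEAF C = IW-INV**, verbatim. -/
theorem iwInvC439 (K : Type) [Field K] [NumberField K] : IwInvC281 K := by
  intro 𝔫₀ l o hl ho H hH
  refine ⟨fun h hh => isGood_of_local439 (ho 0 hl) (hH.2.1 h hh).1,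
    fun ψ hR hI => ⟨?_, isIwInv_iwOp340 hl hH hI⟩⟩
  intro k hk x
  exact level_inv_iwOp_gen439 (ho 0 hl) hH hR
    (fun b hb hbI g => isIwInv_local340 hI hl b hb hbI g) k hk x

/-! ## S -/

/-- Two scalar uniformisers at `v` differ by an element of the Iwahori subgroup. -/
theorem inIwahori_quot439 {v : HeightOneSpectrum (𝓞 K)} {z z₀ : G K}
    (hz : IsScalarUniformizerAt v z) (hz₀ : IsScalarUniformizerAt v z₀) :
    T5.InIwahori v (z₀⁻¹ * z) := by
  obtain ⟨hloc, c, hc, hzc⟩ := hz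
  obtain ⟨hloc₀, c₀, hc₀, hzc₀⟩ := hz₀
  have key : ∀ {a b : v.adicCompletion K} {x y : G K}, Valued.v a = WithZero.exp (-1 : ℤ) →
      Valued.v b = WithZero.exp (-1 : ℤ) → finComp v x = Matrix.diagonal (fun _ => a) →
      finComp v y = Matrix.diagonal (fun _ => b) →
      ∀ i j, finComp v (y⁻¹ * x) i j
        = (Matrix.diagonal (fun _ : Fin 2 => b * a)) i j / (b * b) := by
    intro a b x y ha hb hx hy i j
    have hx' : ((finCompHom129 v x : GL (Fin 2) (v.adicCompletion K)) :
        Matrix (Fin 2) (Fin 2) (v.adicCompletion K)) = Matrix.diagonal (fun _ => a) := hx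
    have hy' : ((finCompHom129 v y : GL (Fin 2) (v.adicCompletion K)) :
        Matrix (Fin 2) (Fin 2) (v.adicCompletion K)) = Matrix.diagonal (fun _ => b) := hy
    rw [← coe_finCompHom129, map_mul, map_inv, inv_mul_apply129, hx', hy']
    have hdet : (Matrix.diagonal (fun _ : Fin 2 => b)).det = b * b := by
      rw [Matrix.det_diagonal, Fin.prod_univ_two]
    have hadj : Matrix.adjugate (Matrix.diagonal (fun _ : Fin 2 => b))
        = Matrix.diagonal (fun _ : Fin 2 => b) := by
      rw [Matrix.adjugate_fin_two]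
      ext i j
      fin_cases i <;> fin_cases j <;> simp
    rw [hdet, hadj, Matrix.diagonal_mul_diagonal]
  have hint : ∀ {a b : v.adicCompletion K} {x y : G K}, Valued.v a = WithZero.exp (-1 : ℤ) →
      Valued.v b = WithZero.exp (-1 : ℤ) → finComp v x = Matrix.diagonal (fun _ => a) →
      finComp v y = Matrix.diagonal (fun _ => b) → IsIntegralAt v (y⁻¹ * x) := by
    intro a b x y ha hb hx hy i j
    rw [key ha hb hx hy i j]
    have hval : Valued.v (b * a / (b * b)) = 1 := by
      rw [map_div₀, map_mul, map_mul, ha, hb]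
      exact div_self (mul_ne_zero WithZero.exp_ne_zero WithZero.exp_ne_zero)
    by_cases hij : i = j
    · subst hij
      rw [Matrix.diagonal_apply_eq, HeightOneSpectrum.mem_adicCompletionIntegers, hval]
    · rw [Matrix.diagonal_apply_ne _ hij, zero_div]
      exact (v.adicCompletionIntegers K).zero_mem
  refine ⟨hint hc hc₀ hzc hzc₀, ?_, ?_⟩
  · have e : (z₀⁻¹ * z)⁻¹ = z⁻¹ * z₀ := by group
    rw [e]
    exact hint hc₀ hc hzc₀ hzc
  · rw [key hc hc₀ hzc hzc₀ 1 0, Matrix.diagonal_apply_ne _ (by decide), zero_div, map_zero]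
    exact zero_lt_one

/-- Invariance under the powers of an element under which `ψ` is invariant. -/
theorem inv_zpow439 {ψ : G K → ℂ} {b : G K} (h1 : ∀ x : G K, ψ (x * b) = ψ x) (k : ℤ)
    (x : G K) : ψ (x * b ^ k) = ψ x := by
  have h2 : ∀ x : G K, ψ (x * b⁻¹) = ψ x := fun x => by
    have := h1 (x * b⁻¹)
    rw [inv_mul_cancel_right] at this
    exact this.symm
  induction k using Int.induction_on generalizing x with
  | zero => simp
  | succ n ih =>
    rw [zpow_add_one, ← mul_assoc, h1, ih]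
  | pred n ih =>
    rw [zpow_sub_one, ← mul_assoc, h2, ih]

/-- **SUB-LEAF S = SHIFT-INV**, verbatim. -/
theorem shiftInvC439 (K : Type) [Field K] [NumberField K] : ShiftInvC281 K := by
  intro 𝔫₀ l o hl ho z hz k
  refine ⟨isGood_of_local439 (ho 0 hl) (isLocalAtFin_zpow439 hz.1 k), fun ψ hR => ?_,
    fun ψ hI => ?_, fun z' hz' ψ hI x => ?_⟩
  · intro u hu x
    show ψ (x * u * z ^ k) = ψ (x * z ^ k)
    rw [central_zpow439 hz]
    exact hR u hu _
  · intro h h1 h2 h3 x
    show ψ (x * h * z ^ k) = ψ (x * z ^ k)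
    rw [central_zpow439 hz]
    exact hI h h1 h2 h3 _
  · show ψ (x * z ^ k) = ψ (x * z' ^ k)
    have hb : ∀ y : G K, ψ (y * (z'⁻¹ * z)) = ψ y := fun y =>
      isIwInv_local340 hI hl (z'⁻¹ * z)
        (isLocalAtFin_mul129 (isLocalAtFin_inv129 hz'.1) hz.1) (inIwahori_quot439 hz hz') y
    have hc : Commute z'⁻¹ z := (show Commute z z'⁻¹ from
      (central_scalar439 hz z'⁻¹)).symm
    have e : z ^ k = z' ^ k * (z'⁻¹ * z) ^ k := by
      rw [hc.mul_zpow, ← mul_assoc, inv_zpow, mul_inv_cancel, one_mul]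
    rw [e, ← mul_assoc, inv_zpow439 hb]

end Fermat.Agent.LT.T7.H439

end

end
-- ===== PACK-END LT/T7/H439/OpUpLeaves.lean

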