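import Mathlib
import Fermat.Agent.Pack.LT3.E23L2
import Fermat.Agent.Pack.LT3.E25L2
import Fermat.Agent.Pack.LT3.E25L3
import Fermat.Agent.Pack.LT3.E25L1
import Fermat.Agent.Pack.LT3.E25L0
import Fermat.Agent.Pack.LT3.E4L3
import Fermat.Agent.Pack.LT3.E2L3
import Fermat.Agent.Pack.LT3.E22L0
import Fermat.Agent.Pack.LT3.E24L3
import Fermat.Agent.Pack.LT3.E5L2
import Fermat.Agent.Pack.LT3.E26L0
import Fermat.Agent.Pack.LT2.E9L3
import Fermat.Agent.Pack.LT3.E13L1
import Fermat.Agent.Pack.LT3.E26L1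
import Fermat.Agent.Pack.LT3.E7L1
import Fermat.Agent.Pack.LT3.E26L3

set_option linter.all false

-- ===== PACK-BEGIN LT/T7/H675/ClassModelU.lean
section



/-!
# Row LT, tower T7, registry 2152 (helper675): THE CUT OF `ClassModelC` (helper616) IN CORE FORM

OFF-MAIN.  Definitions, frozen Props, PROVED top and bridges.  No hole, nothing assumed.
ADDITIVE (new names only, all ending in `675`, namespace `Fermat.Agent.LT.T7.CMU675`) to
`T7/H616/ClassModelSpec.lean` 8568bae7 + `ClassModelTop.lean` baf76075 (helper616, the cut of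
`SU736.ClassModelC`), `T7/H736/UpS.lean` 98771005 (helper736, the nodes of level 5 in core form)
and `T7/H29/UpCore.lean` c2d817fc + `UpCore2.lean` 5e142413 (helper29, the core of record).

Ruling of the architect helper797 of 15:58Z: the upstairs half is proved ONCE, over `K'` alone,
on `H29.UpData`.  The eleven leaves CM.01 - CM.11 of helper616 are typed on `L2Data K K'` with the
hypotheses of the cyclic step (`CM616.Ctx616`).  Here they are typed on `H29.UpData K'`
(`CtxU675`: `ℓ` prime, `ℓ = 2` allowed, `K'` totally complex, `H29.IsUpData`, `H29.BaseStableU`):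

    classModelUC_of675 : FinDimUC675 K' → NontrivUC675 K' → StabGUC675 K' → StabSUC675 K'
        → CommGIUC675 K' → LocCommUC675 K' → LocMoveUC675 K' → PowUC675 K' → SimpleUC675 K'
        → MulGUC675 K' → DictUC675 K' → SU736.ClassModelUC K'              (THE TOP, core form)
    finDimC616_of_U675 : FinDimUC675 K' → CM616.FinDimC616 K K'   (and the ten other bridges:
                                                       the leaves of helper616 FOLLOW)
    classModelC_of_U675 : (the eleven core leaves) → SU736.ClassModelC K K'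

So the owner of a leaf CM.xx proves the CORE form (the SAME proof after the renaming `Dt ↦ U`;
only upstairs fields exist in `H29.IsUpData`): the cyclic leaf follows by the bridge, and the
quadratic step `F / ℚ` (registry 2152) needs no second proof.

The model is the model of helper616 verbatim (`CM616.classSp616`, `CM616.restr616`,
`CM616.cosetLin616`, `CM616.rsigLin616`, `CM616.rsigInvLin616` are one-field definitions and are
used as they are); `clsU675 (H29.upOf Dt) ℓ Φ` and `CM616.cls616 Dt ℓ Φ` are the same term after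
unfolding.
-/

set_option autoImplicit false

open AutomorphicForm IsDedekindDomain NumberField MeasureTheory
open scoped ComplexConjugate

noncomputable section

namespace Fermat.Agent.LT.T7.CMU675

open Fermat.Agent.LT.H556 Fermat.Agent.LT.H556.A0 Fermat.Agent.LT.T7 Fermat.Agent.LT.T7.SU736
open Fermat.Agent.LT.T7.CM616

attribute [local instance] Fermat.Agent.LT.T5.instMeasurableSpaceG

/-! ## 1. The model, on the upstairs data -/

section Model

variable {K' : Type} [Field K'] [NumberField K']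

/-- The class space of `Φ` at the base level. -/
def clsU675 (U : H29.UpData K') (ℓ : ℕ) (Φ : HeckeEigensystem K' ℂ) : Submodule ℂ (G K' → ℂ) :=
  classSp616 U.𝔑₀ U.R'.r ℓ U.o (eigOf Φ)

/-- The double coset operators of the bad elements on the class space. -/
def gSetU675 (U : H29.UpData K') (ℓ : ℕ) (Φ : HeckeEigensystem K' ℂ) :
    Set (Module.End ℂ (clsU675 U ℓ Φ)) :=
  {T | ∃ (g : G K') (Hg : Finset (G K')), U.IsBad g ∧ IsDblCosetSystem U.𝔑₀ g Hg ∧
    T = restr616 (clsU675 U ℓ Φ) (cosetLin616 Hg)}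

/-- The sums of right translates supported at `o j` which preserve the class space. -/
def iSetU675 (U : H29.UpData K') (ℓ : ℕ) (Φ : HeckeEigensystem K' ℂ) (j : ℕ) :
    Set (Module.End ℂ (clsU675 U ℓ Φ)) :=
  {T | ∃ H : Finset (G K'), (∀ h ∈ H, IsLocalAtFin (U.o j) h) ∧
    (∀ ψ ∈ clsU675 U ℓ Φ, cosetLin616 H ψ ∈ clsU675 U ℓ Φ) ∧
    T = restr616 (clsU675 U ℓ Φ) (cosetLin616 H)}

/-- `R(σ)` on the class space. -/
def sOpU675 (U : H29.UpData K') (ℓ : ℕ) (Φ : HeckeEigensystem K' ℂ) :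
    Module.End ℂ (clsU675 U ℓ Φ) :=
  restr616 (clsU675 U ℓ Φ) (rsigLin616 U.s)

/-- `R(σ)⁻¹` on the class space. -/
def sInvOpU675 (U : H29.UpData K') (ℓ : ℕ) (Φ : HeckeEigensystem K' ℂ) :
    Module.End ℂ (clsU675 U ℓ Φ) :=
  restr616 (clsU675 U ℓ Φ) (rsigInvLin616 U.s)

end Model

/-! ## 2. The context and the leaves, core form -/

section Leaves

variable (K' : Type) [Field K'] [NumberField K']

/-- The hypotheses of `SU736.ClassModelUC` (core form of `CM616.Ctx616`). -/
structure CtxU675 (ℓ : ℕ) (Φ : HeckeEigensystem K' ℂ) (U : H29.UpData K') : Prop where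
  prime : ℓ.Prime
  cplx : TotCplx K'
  cusp : A0.IsCuspAdelicSph0 K' Φ
  data : H29.IsUpData ℓ Φ U
  stable : H29.BaseStableU U

/-- **LEAF CM.01 = FIN-DIM.**  The class space is finite dimensional. -/
def FinDimUC675 : Prop :=
  ∀ (ℓ : ℕ) (Φ : HeckeEigensystem K' ℂ) (U : H29.UpData K'), CtxU675 K' ℓ Φ U →
    FiniteDimensional ℂ (clsU675 U ℓ Φ)

/-- **LEAF CM.02 = NON-TRIVIAL.**  There is a non-zero invariant eigenfunction with the data of
`Φ` at the base level (the form of `Φ`). -/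
def NontrivUC675 : Prop :=
  ∀ (ℓ : ℕ) (Φ : HeckeEigensystem K' ℂ) (U : H29.UpData K'), CtxU675 K' ℓ Φ U →
    ∃ ψ : G K' → ℂ, IsEigFn U.𝔑₀ U.R'.r ℓ U.o ψ (eigOf Φ) ∧ ∃ x : G K', ψ x ≠ 0

/-- **LEAF CM.03 = STAB-G.**  The double coset operator of a bad element maps the invariant
eigenfunctions with the data of `Φ` to such functions. -/
def StabGUC675 : Prop :=
  ∀ (ℓ : ℕ) (Φ : HeckeEigensystem K' ℂ) (U : H29.UpData K'), CtxU675 K' ℓ Φ U →
    ∀ (g : G K') (Hg : Finset (G K')), U.IsBad g → IsDblCosetSystem U.𝔑₀ g Hg →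
      ∀ ψ : G K' → ℂ, IsEigFn U.𝔑₀ U.R'.r ℓ U.o ψ (eigOf Φ) →
        IsEigFn U.𝔑₀ U.R'.r ℓ U.o (cosetOp Hg ψ) (eigOf Φ)

/-- **LEAF CM.04 = STAB-S.**  `R(σ)` and `R(σ)⁻¹` map the invariant eigenfunctions with the data
of `Φ` to such functions (`BaseStable`, `IsL2Data.const`). -/
def StabSUC675 : Prop :=
  ∀ (ℓ : ℕ) (Φ : HeckeEigensystem K' ℂ) (U : H29.UpData K'), CtxU675 K' ℓ Φ U →
    ∀ ψ : G K' → ℂ, IsEigFn U.𝔑₀ U.R'.r ℓ U.o ψ (eigOf Φ) →
      IsEigFn U.𝔑₀ U.R'.r ℓ U.o (T5.Rsig U.s ψ) (eigOf Φ) ∧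
        IsEigFn U.𝔑₀ U.R'.r ℓ U.o (fun x => ψ (U.s.onG x)) (eigOf Φ)

/-- **LEAF CM.05 = COMM-GI.**  On the functions `ψ` such that `ψ` and `cosetOp H ψ` are right
invariant under `U(𝔑₀)`, the double coset operator of a bad element commutes with the sum of the
right translates by a finite set `H` of elements supported at `o j`. -/
def CommGIUC675 : Prop :=
  ∀ (ℓ : ℕ) (Φ : HeckeEigensystem K' ℂ) (U : H29.UpData K'), CtxU675 K' ℓ Φ U →
    ∀ (g : G K') (Hg : Finset (G K')), U.IsBad g → IsDblCosetSystem U.𝔑₀ g Hg →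
      ∀ j < ℓ, ∀ H : Finset (G K'), (∀ h ∈ H, IsLocalAtFin (U.o j) h) →
        ∀ ψ : G K' → ℂ, IsLevelInv616 U.𝔑₀ ψ → IsLevelInv616 U.𝔑₀ (cosetOp H ψ) →
          ∀ x : G K', cosetOp Hg (cosetOp H ψ) x = cosetOp H (cosetOp Hg ψ) x

/-- **LEAF CM.06 = LOC-COMM.**  Elements supported at two different places of the orbit
commute. -/
def LocCommUC675 : Prop :=
  ∀ (ℓ : ℕ) (Φ : HeckeEigensystem K' ℂ) (U : H29.UpData K'), CtxU675 K' ℓ Φ U →
    ∀ i < ℓ, ∀ j < ℓ, i ≠ j → ∀ h h' : G K',
      IsLocalAtFin (U.o i) h → IsLocalAtFin (U.o j) h' → h * h' = h' * h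

/-- **LEAF CM.07 = LOC-MOVE.**  `σ⁻¹` maps the elements supported at `o (j+1)` to elements
supported at `o j`, and the elements supported at `o 0` to elements supported at `o (ℓ-1)`. -/
def LocMoveUC675 : Prop :=
  ∀ (ℓ : ℕ) (Φ : HeckeEigensystem K' ℂ) (U : H29.UpData K'), CtxU675 K' ℓ Φ U →
    (∀ j : ℕ, j + 1 < ℓ → ∀ h : G K', IsLocalAtFin (U.o (j + 1)) h →
      IsLocalAtFin (U.o j) (U.s.onGinv h)) ∧
    ∀ h : G K', IsLocalAtFin (U.o 0) h → IsLocalAtFin (U.o (ℓ - 1)) (U.s.onGinv h)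

/-- **LEAF CM.08 = POW.**  `σ⁻ℓ = 1` on `GL₂(𝔸_{K'})`. -/
def PowUC675 : Prop :=
  ∀ (ℓ : ℕ) (Φ : HeckeEigensystem K' ℂ) (U : H29.UpData K'), CtxU675 K' ℓ Φ U →
    ∀ x : G K', (⇑U.s.onGinv)^[ℓ] x = x

/-- **LEAF CM.09 = SIMPLE** (multiplicity one in module form).  A subspace of the class space
which is stable under the double coset operators of the bad elements and under the sums of right
translates supported at the places of the orbit (those which preserve the class space) is `0` or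
the class space. -/
def SimpleUC675 : Prop :=
  ∀ (ℓ : ℕ) (Φ : HeckeEigensystem K' ℂ) (U : H29.UpData K'), CtxU675 K' ℓ Φ U →
    ∀ W : Submodule ℂ (G K' → ℂ), W ≤ clsU675 U ℓ Φ →
      (∀ (g : G K') (Hg : Finset (G K')), U.IsBad g → IsDblCosetSystem U.𝔑₀ g Hg →
        ∀ ψ ∈ W, cosetOp Hg ψ ∈ W) →
      (∀ j < ℓ, ∀ H : Finset (G K'), (∀ h ∈ H, IsLocalAtFin (U.o j) h) →
        (∀ ψ ∈ clsU675 U ℓ Φ, cosetOp H ψ ∈ clsU675 U ℓ Φ) → ∀ ψ ∈ W, cosetOp H ψ ∈ W) →
      W = ⊥ ∨ W = clsU675 U ℓ Φ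

/-- **LEAF CM.10 = MUL-G.**  On the functions which are right invariant under `U(𝔑₀)` the
product of two double coset operators of bad elements is a linear combination of double coset
operators of bad elements. -/
def MulGUC675 : Prop :=
  ∀ (ℓ : ℕ) (Φ : HeckeEigensystem K' ℂ) (U : H29.UpData K'), CtxU675 K' ℓ Φ U →
    ∀ (g g' : G K') (Hg Hg' : Finset (G K')), U.IsBad g → IsDblCosetSystem U.𝔑₀ g Hg →
      U.IsBad g' → IsDblCosetSystem U.𝔑₀ g' Hg' →
      ∃ (n : ℕ) (c : Fin n → ℂ) (g'' : Fin n → G K') (H'' : Fin n → Finset (G K')),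
        (∀ i, U.IsBad (g'' i) ∧ IsDblCosetSystem U.𝔑₀ (g'' i) (H'' i)) ∧
        ∀ ψ : G K' → ℂ, IsLevelInv616 U.𝔑₀ ψ →
          ∀ x : G K', cosetOp Hg (cosetOp Hg' ψ) x = ∑ i, c i * cosetOp (H'' i) ψ x

/-- **LEAF CM.11 = DICT.**  For every finite orthonormal basis of the class space the twisted
trace of `[U g U] R(σ)` is the trace of the operator of the model. -/
def DictUC675 : Prop :=
  ∀ (ℓ : ℕ) (Φ : HeckeEigensystem K' ℂ) (U : H29.UpData K'), CtxU675 K' ℓ Φ U →
    ∀ (g : G K') (Hg : Finset (G K')), U.IsBad g → IsDblCosetSystem U.𝔑₀ g Hg →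
      ∀ (q : ℕ → G K' → ℂ) (J : Finset ℕ),
        IsClassBasisOn U.𝔑₀ U.R' ℓ U.o (eigOf Φ) q J →
          twTrace U.s U.R' Hg q J
            = LinearMap.trace ℂ (clsU675 U ℓ Φ)
                (restr616 (clsU675 U ℓ Φ) (cosetLin616 Hg) * sOpU675 U ℓ Φ)

end Leaves

/-! ## 3. The top, core form -/

section Top

variable {K' : Type} [Field K'] [NumberField K']

theorem isBad_oneU675 (U : H29.UpData K') : U.IsBad (1 : G K') :=
  ⟨fun w => trivAtInf_one616 w, fun v _ => trivAtFin_one616 v⟩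

/-- **THE TOP OF THE NODE `ClassModelC`.** -/
theorem classModelUC_of675 (h01 : FinDimUC675 K') (h02 : NontrivUC675 K')
    (h03 : StabGUC675 K') (h04 : StabSUC675 K') (h05 : CommGIUC675 K')
    (h06 : LocCommUC675 K') (h07 : LocMoveUC675 K') (h08 : PowUC675 K')
    (h09 : SimpleUC675 K') (h10 : MulGUC675 K') (h11 : DictUC675 K') :
    SU736.ClassModelUC K' := by
  classical
  intro ℓ hℓ hcplx Φ hΦ U hU hst
  have ctx : CtxU675 K' ℓ Φ U := ⟨hℓ, hcplx, hΦ, hU, hst⟩
  have hl : 0 < ℓ := hℓ.pos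
  -- stability of the class space
  have stS : ∀ ψ ∈ clsU675 U ℓ Φ, rsigLin616 U.s ψ ∈ clsU675 U ℓ Φ :=
    mem_classSp_of_map616 (rsigLin616 U.s) fun ψ hψ => (h04 ℓ Φ U ctx ψ hψ).1
  have stSi : ∀ ψ ∈ clsU675 U ℓ Φ, rsigInvLin616 U.s ψ ∈ clsU675 U ℓ Φ :=
    mem_classSp_of_map616 (rsigInvLin616 U.s) fun ψ hψ => (h04 ℓ Φ U ctx ψ hψ).2
  have stG : ∀ (g : G K') (Hg : Finset (G K')), U.IsBad g → IsDblCosetSystem U.𝔑₀ g Hg →
      ∀ ψ ∈ clsU675 U ℓ Φ, cosetLin616 Hg ψ ∈ clsU675 U ℓ Φ := fun g Hg hg hHg =>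
    mem_classSp_of_map616 (cosetLin616 Hg) fun ψ hψ => h03 ℓ Φ U ctx g Hg hg hHg ψ hψ
  have lev : ∀ ψ ∈ clsU675 U ℓ Φ, IsLevelInv616 U.𝔑₀ ψ := levelInv_of_mem616
  have hleft : ∀ g : G K', U.s.onGinv (U.s.onG g) = g := hst.left_inverse
  have hright : ∀ g : G K', U.s.onG (U.s.onGinv g) = g := hst.right_inverse
  have hfd : FiniteDimensional ℂ (clsU675 U ℓ Φ) := h01 ℓ Φ U ctx
  have hnt : Nontrivial (clsU675 U ℓ Φ) := by
    obtain ⟨ψ, hψ, x, hx⟩ := h02 ℓ Φ U ctx
    refine ⟨⟨⟨ψ, Submodule.subset_span hψ⟩, 0, fun h => hx ?_⟩⟩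
    have h' : ψ = 0 := congrArg Subtype.val h
    rw [h']
    rfl
  -- the conjugation by `R(σ)`
  have hconj : ∀ (w w' : HeightOneSpectrum (𝓞 K')),
      (∀ h : G K', IsLocalAtFin w' h → IsLocalAtFin w (U.s.onGinv h)) →
      ∀ H : Finset (G K'), (∀ h ∈ H, IsLocalAtFin w' h) →
        (∀ ψ ∈ clsU675 U ℓ Φ, cosetLin616 H ψ ∈ clsU675 U ℓ Φ) →
        ∃ H' : Finset (G K'), (∀ h ∈ H', IsLocalAtFin w h) ∧
          (∀ ψ ∈ clsU675 U ℓ Φ, cosetLin616 H' ψ ∈ clsU675 U ℓ Φ) ∧
          sInvOpU675 U ℓ Φ * restr616 (clsU675 U ℓ Φ) (cosetLin616 H) * sOpU675 U ℓ Φ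
            = restr616 (clsU675 U ℓ Φ) (cosetLin616 H') := by
    intro w w' hmove H hH hstH
    have key := conj_cosetOp616 U.s hleft hright H
    have hst' : ∀ ψ ∈ clsU675 U ℓ Φ,
        cosetLin616 (H.image U.s.onGinv) ψ ∈ clsU675 U ℓ Φ := by
      intro ψ hψ
      rw [← key ψ]
      exact stSi _ (hstH _ (stS ψ hψ))
    refine ⟨H.image U.s.onGinv, ?_, hst', ?_⟩
    · intro h hh
      obtain ⟨h₀, hh₀, rfl⟩ := Finset.mem_image.1 hh
      exact hmove h₀ (hH h₀ hh₀)
    · apply LinearMap.ext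
      intro v
      apply Subtype.ext
      rw [Module.End.mul_apply, Module.End.mul_apply]
      unfold sInvOpU675 sOpU675
      rw [restr616_apply _ _ stSi, restr616_apply _ _ hstH, restr616_apply _ _ stS,
        restr616_apply _ _ hst', key]
  -- `S ^ n`
  have hpow : ∀ (n : ℕ) (v : clsU675 U ℓ Φ),
      (((sOpU675 U ℓ Φ ^ n) v : clsU675 U ℓ Φ) : G K' → ℂ)
        = (rsigLin616 U.s)^[n] (v : G K' → ℂ) := by
    intro n
    induction n with
    | zero => intro v; rfl
    | succ n ih =>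
      intro v
      rw [pow_succ', Module.End.mul_apply, Function.iterate_succ_apply', ← ih v]
      unfold sOpU675
      rw [restr616_apply _ _ stS]
  have hSl : sOpU675 U ℓ Φ ^ ℓ = 1 := by
    apply LinearMap.ext
    intro v
    apply Subtype.ext
    rw [hpow ℓ v, Module.End.one_apply]
    funext x
    rw [iterate_rsig616, h08 ℓ Φ U ctx x]
  refine ⟨clsU675 U ℓ Φ, inferInstance, inferInstance, hfd, hnt, gSetU675 U ℓ Φ,
    iSetU675 U ℓ Φ, sOpU675 U ℓ Φ, sInvOpU675 U ℓ Φ, ?_⟩
  refine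
    { hS := ?_
      hS' := ?_
      hGI := ?_
      hII := ?_
      hdown := ?_
      hwrap := ?_
      hcent := ?_
      hirr := ?_
      h1 := ?_
      hmul := ?_
      dict := ?_ }
  · -- hS
    apply LinearMap.ext
    intro v
    apply Subtype.ext
    rw [Module.End.mul_apply, Module.End.one_apply]
    unfold sOpU675 sInvOpU675
    rw [restr616_apply _ _ stS, restr616_apply _ _ stSi]
    funext x
    rw [rsigLin616_apply, rsigInvLin616_apply, hright]
  · -- hS'
    apply LinearMap.ext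
    intro v
    apply Subtype.ext
    rw [Module.End.mul_apply, Module.End.one_apply]
    unfold sOpU675 sInvOpU675
    rw [restr616_apply _ _ stSi, restr616_apply _ _ stS]
    funext x
    rw [rsigInvLin616_apply, rsigLin616_apply, hleft]
  · -- hGI
    rintro j hj _ ⟨g, Hg, hg, hHg, rfl⟩ _ ⟨H, hH, hstH, rfl⟩
    apply LinearMap.ext
    intro v
    apply Subtype.ext
    rw [Module.End.mul_apply, Module.End.mul_apply, restr616_apply _ _ (stG g Hg hg hHg),
      restr616_apply _ _ hstH, restr616_apply _ _ hstH, restr616_apply _ _ (stG g Hg hg hHg)]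
    funext x
    exact h05 ℓ Φ U ctx g Hg hg hHg j hj H hH v.1 (lev v.1 v.2) (lev _ (hstH v.1 v.2)) x
  · -- hII
    rintro i hi j hj hij _ ⟨H, hH, hstH, rfl⟩ _ ⟨H', hH', hstH', rfl⟩
    apply LinearMap.ext
    intro v
    apply Subtype.ext
    rw [Module.End.mul_apply, Module.End.mul_apply, restr616_apply _ _ hstH,
      restr616_apply _ _ hstH', restr616_apply _ _ hstH', restr616_apply _ _ hstH]
    funext x
    exact cosetOp_comm616 H H'
      (fun a ha b hb => h06 ℓ Φ U ctx i hi j hj hij a b (hH a ha) (hH' b hb)) v.1 x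
  · -- hdown
    rintro j hj _ ⟨H, hH, hstH, rfl⟩
    obtain ⟨H', hH', hstH', heq⟩ := hconj (U.o j) (U.o (j + 1))
      ((h07 ℓ Φ U ctx).1 j hj) H hH hstH
    rw [heq]
    exact Algebra.subset_adjoin ⟨H', hH', hstH', rfl⟩
  · -- hwrap
    rintro _ ⟨H, hH, hstH, rfl⟩
    obtain ⟨H', hH', hstH', heq⟩ := hconj (U.o (ℓ - 1)) (U.o 0)
      ((h07 ℓ Φ U ctx).2) H hH hstH
    rw [heq]
    exact Algebra.subset_adjoin ⟨H', hH', hstH', rfl⟩
  · -- hcent
    intro h _
    rw [hSl, one_mul, mul_one]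
  · -- hirr
    intro W hG hI
    have h := h09 ℓ Φ U ctx (W.map (clsU675 U ℓ Φ).subtype)
      (Submodule.map_subtype_le _ W) ?_ ?_
    · rcases h with h | h
      · left
        rw [Submodule.eq_bot_iff]
        intro w hw
        have : ((w : clsU675 U ℓ Φ) : G K' → ℂ) ∈ W.map (clsU675 U ℓ Φ).subtype :=
          ⟨w, hw, rfl⟩
        rw [h, Submodule.mem_bot] at this
        exact Subtype.ext this
      · right
        rw [Submodule.eq_top_iff']
        intro v
        have : ((v : clsU675 U ℓ Φ) : G K' → ℂ) ∈ W.map (clsU675 U ℓ Φ).subtype := by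
          rw [h]
          exact v.2
        obtain ⟨w, hw, hwv⟩ := this
        have : w = v := Subtype.ext hwv
        rw [← this]
        exact hw
    · rintro g Hg hg hHg ψ ⟨w, hw, rfl⟩
      have := hG (restr616 (clsU675 U ℓ Φ) (cosetLin616 Hg)) ⟨g, Hg, hg, hHg, rfl⟩ hw
      exact ⟨_, this, restr616_apply _ _ (stG g Hg hg hHg) w⟩
    · rintro j hj H hH hstH ψ ⟨w, hw, rfl⟩
      have := hI j hj (restr616 (clsU675 U ℓ Φ) (cosetLin616 H)) ⟨H, hH, hstH, rfl⟩ hw
      exact ⟨_, this, restr616_apply _ _ hstH w⟩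
  · -- h1
    refine Submodule.subset_span ⟨1, {1}, isBad_oneU675 U, isDblCosetSystem_one616 _, ?_⟩
    apply LinearMap.ext
    intro v
    apply Subtype.ext
    rw [restr616_apply _ _ (stG 1 {1} (isBad_oneU675 U) (isDblCosetSystem_one616 _)),
      Module.End.one_apply, cosetLin616_apply, cosetOp_singleton_one616]
  · -- hmul
    rintro _ ⟨g, Hg, hg, hHg, rfl⟩ _ ⟨g', Hg', hg', hHg', rfl⟩
    obtain ⟨n, c, g'', H'', hbad, hprod⟩ := h10 ℓ Φ U ctx g g' Hg Hg' hg hHg hg' hHg'
    have heq : restr616 (clsU675 U ℓ Φ) (cosetLin616 Hg)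
          * restr616 (clsU675 U ℓ Φ) (cosetLin616 Hg')
        = ∑ i, c i • restr616 (clsU675 U ℓ Φ) (cosetLin616 (H'' i)) := by
      apply LinearMap.ext
      intro v
      apply Subtype.ext
      rw [Module.End.mul_apply, restr616_apply _ _ (stG g Hg hg hHg),
        restr616_apply _ _ (stG g' Hg' hg' hHg'), LinearMap.sum_apply, Submodule.coe_sum]
      funext x
      rw [Finset.sum_apply]
      rw [cosetLin616_apply, cosetLin616_apply, hprod v.1 (lev v.1 v.2) x]
      refine Finset.sum_congr rfl fun i _ => ?_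
      rw [LinearMap.smul_apply, Submodule.coe_smul, Pi.smul_apply, smul_eq_mul,
        restr616_apply _ _ (stG (g'' i) (H'' i) (hbad i).1 (hbad i).2), cosetLin616_apply]
    rw [heq]
    exact Submodule.sum_mem _ fun i _ => Submodule.smul_mem _ _
      (Submodule.subset_span ⟨g'' i, H'' i, (hbad i).1, (hbad i).2, rfl⟩)
  · -- dict
    rintro _ ⟨g, Hg, hg, hHg, rfl⟩
    exact ⟨g, Hg, hg, hHg, fun q J hq => h11 ℓ Φ U ctx g Hg hg hHg q J hq⟩

end Top

/-! ## 4. The cyclic step: the leaves of helper616 follow from the core forms -/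

section Cyclic

variable {K K' : Type} [Field K] [NumberField K] [Field K'] [NumberField K'] [Algebra K K']

/-- The context of the upstairs part. -/
theorem ctxU_of675 {ℓ : ℕ} {Φ : HeckeEigensystem K' ℂ} {Dt : L2Data K K'}
    (c : Ctx616 K K' ℓ Φ Dt) : CtxU675 K' ℓ Φ (H29.upOf Dt) :=
  ⟨c.cyc.prime, H29.totCplx_of_base c.cplx, c.cusp, H29.isUpData_upOf c.data,
    H29.baseStableU_upOf c.stable⟩

/-- **`CM616.FinDimC616` from the core form.** -/
theorem finDimC616_of_U675 (h : FinDimUC675 K') : FinDimC616 K K' :=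
  fun ℓ Φ Dt c => h ℓ Φ (H29.upOf Dt) (ctxU_of675 c)

/-- **`CM616.NontrivC616` from the core form.** -/
theorem nontrivC616_of_U675 (h : NontrivUC675 K') : NontrivC616 K K' :=
  fun ℓ Φ Dt c => h ℓ Φ (H29.upOf Dt) (ctxU_of675 c)

/-- **`CM616.StabGC616` from the core form.** -/
theorem stabGC616_of_U675 (h : StabGUC675 K') : StabGC616 K K' :=
  fun ℓ Φ Dt c => h ℓ Φ (H29.upOf Dt) (ctxU_of675 c)

/-- **`CM616.StabSC616` from the core form.** -/
theorem stabSC616_of_U675 (h : StabSUC675 K') : StabSC616 K K' :=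
  fun ℓ Φ Dt c => h ℓ Φ (H29.upOf Dt) (ctxU_of675 c)

/-- **`CM616.CommGIC616` from the core form.** -/
theorem commGIC616_of_U675 (h : CommGIUC675 K') : CommGIC616 K K' :=
  fun ℓ Φ Dt c => h ℓ Φ (H29.upOf Dt) (ctxU_of675 c)

/-- **`CM616.LocCommC616` from the core form.** -/
theorem locCommC616_of_U675 (h : LocCommUC675 K') : LocCommC616 K K' :=
  fun ℓ Φ Dt c => h ℓ Φ (H29.upOf Dt) (ctxU_of675 c)

/-- **`CM616.LocMoveC616` from the core form.** -/
theorem locMoveC616_of_U675 (h : LocMoveUC675 K') : LocMoveC616 K K' :=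
  fun ℓ Φ Dt c => h ℓ Φ (H29.upOf Dt) (ctxU_of675 c)

/-- **`CM616.PowC616` from the core form.** -/
theorem powC616_of_U675 (h : PowUC675 K') : PowC616 K K' :=
  fun ℓ Φ Dt c => h ℓ Φ (H29.upOf Dt) (ctxU_of675 c)

/-- **`CM616.SimpleC616` from the core form.** -/
theorem simpleC616_of_U675 (h : SimpleUC675 K') : SimpleC616 K K' :=
  fun ℓ Φ Dt c => h ℓ Φ (H29.upOf Dt) (ctxU_of675 c)

/-- **`CM616.MulGC616` from the core form.** -/
theorem mulGC616_of_U675 (h : MulGUC675 K') : MulGC616 K K' :=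
  fun ℓ Φ Dt c => h ℓ Φ (H29.upOf Dt) (ctxU_of675 c)

/-- **`CM616.DictC616` from the core form.** -/
theorem dictC616_of_U675 (h : DictUC675 K') : DictC616 K K' :=
  fun ℓ Φ Dt c => h ℓ Φ (H29.upOf Dt) (ctxU_of675 c)

/-- **`SU736.ClassModelC` (cyclic step) from the eleven core leaves.** -/
theorem classModelC_of_U675 (h01 : FinDimUC675 K') (h02 : NontrivUC675 K') (h03 : StabGUC675 K') (h04 : StabSUC675 K') (h05 : CommGIUC675 K') (h06 : LocCommUC675 K') (h07 : LocMoveUC675 K') (h08 : PowUC675 K') (h09 : SimpleUC675 K') (h10 : MulGUC675 K') (h11 : DictUC675 K') :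
    SU736.ClassModelC K K' :=
  SU736.classModelC_of_U (classModelUC_of675 h01 h02 h03 h04 h05 h06 h07 h08 h09 h10 h11)

end Cyclic

/-! ## Appendix: the equation lemmas of the definitions of this file are realised HERE -/

theorem eqns_realised_classModelU675 : True := by
  have _a0_1 := @clsU675.eq_1
  have _a0_2 := @clsU675.eq_def
  have _a0_3 := @clsU675.eq_unfold
  have _a1_1 := @gSetU675.eq_1
  have _a1_2 := @gSetU675.eq_def
  have _a1_3 := @gSetU675.eq_unfold
  have _a2_1 := @iSetU675.eq_1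
  have _a2_2 := @iSetU675.eq_def
  have _a2_3 := @iSetU675.eq_unfold
  have _a3_1 := @sOpU675.eq_1
  have _a3_2 := @sOpU675.eq_def
  have _a3_3 := @sOpU675.eq_unfold
  have _a4_1 := @sInvOpU675.eq_1
  have _a4_2 := @sInvOpU675.eq_def
  have _a4_3 := @sInvOpU675.eq_unfold
  have _a5_1 := @FinDimUC675.eq_1
  have _a5_2 := @FinDimUC675.eq_def
  have _a5_3 := @FinDimUC675.eq_unfold
  have _a6_1 := @NontrivUC675.eq_1
  have _a6_2 := @NontrivUC675.eq_def
  have _a6_3 := @NontrivUC675.eq_unfold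
  have _a7_1 := @StabGUC675.eq_1
  have _a7_2 := @StabGUC675.eq_def
  have _a7_3 := @StabGUC675.eq_unfold
  have _a8_1 := @StabSUC675.eq_1
  have _a8_2 := @StabSUC675.eq_def
  have _a8_3 := @StabSUC675.eq_unfold
  have _a9_1 := @CommGIUC675.eq_1
  have _a9_2 := @CommGIUC675.eq_def
  have _a9_3 := @CommGIUC675.eq_unfold
  have _a10_1 := @LocCommUC675.eq_1
  have _a10_2 := @LocCommUC675.eq_def
  have _a10_3 := @LocCommUC675.eq_unfold
  have _a11_1 := @LocMoveUC675.eq_1
  have _a11_2 := @LocMoveUC675.eq_def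
  have _a11_3 := @LocMoveUC675.eq_unfold
  have _a12_1 := @PowUC675.eq_1
  have _a12_2 := @PowUC675.eq_def
  have _a12_3 := @PowUC675.eq_unfold
  have _a13_1 := @SimpleUC675.eq_1
  have _a13_2 := @SimpleUC675.eq_def
  have _a13_3 := @SimpleUC675.eq_unfold
  have _a14_1 := @MulGUC675.eq_1
  have _a14_2 := @MulGUC675.eq_def
  have _a14_3 := @MulGUC675.eq_unfold
  have _a15_1 := @DictUC675.eq_1
  have _a15_2 := @DictUC675.eq_def
  have _a15_3 := @DictUC675.eq_unfold
  trivial

end Fermat.Agent.LT.T7.CMU675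

end

end
-- ===== PACK-END LT/T7/H675/ClassModelU.lean

-- ===== PACK-BEGIN LT/T7/H298/MatchQCutTop2.lean
section





/-!
# Row LT, tower T7, node Q2.7 `CutIntQC298b` (registry row 2605, owner helper298):
# SECOND CUT over `ℚ` -- the proved top, v2

OFF-MAIN.  Complete proof, nothing assumed.  The proof of `cutIntQC_of298` for the nodes of v2.

    cutIntQC_of298b : HasSqrtNegThree F → T6.T6Out → GoodSetC305 ℚ F → UnitMatchQC298b F →
        PureExtC305 ℚ → PureExtC305 F → LocMeasC305 → LocCutC305 → ArchMeasRC298 →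
        TorSplitQC298 → FactDownQC298 → FactUpQC298b F → LocVanC305 → ArchVanQC298 →
        NonNormLocQC298 F → CutIntQC298b F

    globMatchQ_of_cut298b : (the leaves of the two cuts) → GlobMatchQC298b F
-/

set_option autoImplicit false
set_option linter.unusedSectionVars false

open AutomorphicForm IsDedekindDomain NumberField MeasureTheory
open scoped ComplexConjugate

noncomputable section

namespace Fermat.Agent.LT.T7.MQ298

open Fermat.Agent.LT.H556 Fermat.Agent.LT.H556.A0 Fermat.Agent.LT.T7 Fermat.Agent.LT.T7.H305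

attribute [local instance] Fermat.Agent.LT.T5.instMeasurableSpaceG

variable {F : Type} [Field F] [NumberField F]

/-- **THE TOP OF THE SECOND CUT over `ℚ`, v2** (`LocHypQ298b`). -/
theorem cutIntQC_of298b (h3 : HasSqrtNegThree F) (hT6 : T6.T6Out) (hgood : GoodSetC305 ℚ F)
    (hunit : UnitMatchQC298b F) (hpure : PureExtC305 ℚ) (hpure' : PureExtC305 F)
    (hmeas : LocMeasC305) (hcut : LocCutC305) (harch : ArchMeasRC298)
    (htor : TorSplitQC298) (hdown : FactDownQC298) (hup : FactUpQC298b F)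
    (hvan : LocVanC305) (hvanr : ArchVanQC298) (hnn : NonNormLocQC298 F) :
    CutIntQC298b F := by
  classical
  intro hiq D hD hcyc hl2 ι hι μr hμr μc hμc T₀ hun n m hlev
  obtain ⟨cG, hcG, hdn⟩ := hdown D.R hD.frame μr hμr T₀ m hlev.1
  obtain ⟨cG', hcG', hupp⟩ := hup hT6 hiq D hD hcyc hl2 ι hι μr hμr μc hμc T₀ hun n m hlev
  have hloc : T6.InstLocalC := hT6.2.2.2.2.2.1
  refine ⟨((cG' / cG : ℝ) : ℂ), ?_, ?_⟩
  · exact_mod_cast (div_pos hcG' hcG).ne'
  intro T T' hT₀T hTT' φ₀ Φ f₀ F0 F1 hlocT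
  have hcont : Continuous (fun g => F0 g + F1 g) :=
    hlocT.arch_down0.cont.add hlocT.arch_down1.cont
  have hsupp : HasCompactSupport (fun g => F0 g + F1 g) :=
    hlocT.arch_down0.supp.add hlocT.arch_down1.supp
  constructor
  · -- the norms
    intro δ γ hell hN μT μT' hμT hμT' hlink
    obtain ⟨S, S', hTS, hSS', hgγ, hiδ⟩ := hgood γ δ hell T
    have hlocS := hunit hT6 hiq D hD hcyc hl2 μr hμr μc hμc T₀ hun n m hlev T S T' S' hT₀T hTS
      hTT' hSS' φ₀ Φ f₀ F0 F1 hlocT
    obtain ⟨L, hL⟩ := exists_locDataQ298 hT6 hmeas hcut harch m hell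
    obtain ⟨cT, hcT, hTC⟩ := htor γ hell μT hμT L hL.tor hL.torr
    obtain ⟨hβ, hval⟩ := hdn S (hT₀T.trans hTS) (ext305 T f₀) (fun g => F0 g + F1 g)
      hlocS.inv_down hcont hsupp γ hell hgγ μT hμT L cT hL hcT hTC
    obtain ⟨β', hβ', hval'⟩ := hupp S S' (hT₀T.trans hTS) hSS' (ext305 T' φ₀) Φ (ext305 T f₀)
      F0 F1 hlocS δ γ hell hN hgγ hiδ μT μT' hμT hμT' hlink L cT hL hcT hTC
    rw [pureQ_ext_fun298 hpure hTS] at hβ hval
    rw [pure_ext_fun305 hpure' (over_mono305 hTS hTT' hSS')] at hβ' hval'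
    refine ⟨β', prodCutQ298 S cT L, hβ', hβ, ?_⟩
    have h1 : cG ≠ 0 := hcG.ne'
    have h2 : cT ≠ 0 := hcT.ne'
    have h4 : cG' / cT = cG' / cG * (cG / cT) := by field_simp
    rw [hval', hval, ← mul_assoc, ← Complex.ofReal_mul, ← h4]
  · -- the elements which are not norms
    intro γ hell hnot μT hμT
    rcases hnn hT6 hiq h3 D hD hcyc hl2 γ hell hnot with
      ⟨v, w, e, i, sw, hvw, huniq, hi, hsw, hext, hnorm⟩ | hreal
    · -- a finite place
      obtain ⟨S, S', hTS, hSS', hgγ, -⟩ := hgood γ 1 hell (insert v T)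
      have hTS' : T ⊆ S := (Finset.subset_insert v T).trans hTS
      have hvS : v ∈ S := hTS (Finset.mem_insert_self v T)
      have hlocS := hunit hT6 hiq D hD hcyc hl2 μr hμr μc hμc T₀ hun n m hlev T S T' S' hT₀T
        hTS' hTT' hSS' φ₀ Φ f₀ F0 F1 hlocT
      obtain ⟨L, hL⟩ := exists_locDataQ298 hT6 hmeas hcut harch m hell
      obtain ⟨cT, hcT, hTC⟩ := htor γ hell μT hμT L hL.tor hL.torr
      obtain ⟨hβ, hval⟩ := hdn S (hT₀T.trans hTS') (ext305 T f₀) (fun g => F0 g + F1 g)
        hlocS.inv_down hcont hsupp γ hell hgγ μT hμT L cT hL hcT hTC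
      rw [pureQ_ext_fun298 hpure hTS'] at hβ hval
      refine ⟨prodCutQ298 S cT L, hβ, ?_⟩
      rw [hval]
      have hzero : locInt305 (L.μv v) (L.βv v) (ext305 T f₀ v) (locG305 v γ) = 0 := by
        refine hvan hT6 (v.adicCompletion ℚ) _ (hloc ℚ v) (m v) (ext305 T f₀ v)
          (hlocS.inv_down v hvS).1 (hlocS.inv_down v hvS).2 (locG305 v γ) (isReg_locG305 hell v)
          ?_ (L.μv v) (hL.haar v) (L.μt v) (hL.tor v) (L.βv v) (hL.cut v)
        intro c' hc'
        exact ((hlocS.inert v hvS w hvw huniq e i sw hi hsw hext).2 (locG305 v γ) c'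
          (isReg_locG305 hell v) hnorm hc')
      have hfact : factValQ298 D.R.r S L (ext305 T f₀) μr (fun g => F0 g + F1 g) = 0 := by
        unfold factValQ298
        rw [Finset.prod_eq_zero hvS hzero]
        simp
      rw [hfact, mul_zero]
    · -- the real place
      obtain ⟨S, S', hTS, hSS', hgγ, -⟩ := hgood γ 1 hell T
      have hlocS := hunit hT6 hiq D hD hcyc hl2 μr hμr μc hμc T₀ hun n m hlev T S T' S' hT₀T
        hTS hTT' hSS' φ₀ Φ f₀ F0 F1 hlocT
      obtain ⟨L, hL⟩ := exists_locDataQ298 hT6 hmeas hcut harch m hell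
      obtain ⟨cT, hcT, hTC⟩ := htor γ hell μT hμT L hL.tor hL.torr
      obtain ⟨hβ, hval⟩ := hdn S (hT₀T.trans hTS) (ext305 T f₀) (fun g => F0 g + F1 g)
        hlocS.inv_down hcont hsupp γ hell hgγ μT hμT L cT hL hcT hTC
      rw [pureQ_ext_fun298 hpure hTS] at hβ hval
      refine ⟨prodCutQ298 S cT L, hβ, ?_⟩
      rw [hval]
      obtain ⟨w₀⟩ : Nonempty (InfinitePlace F) := inferInstance
      have hzero : ∀ j : ℤ,
          locInt305 μr L.βr (fun g => F0 g + F1 g) (reGLQ298 (T5.ratG γ * D.R.r ^ j)) = 0 :=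
        fun j => hvanr D.R hD.frame μr μc (Φ w₀) (fun g => F0 g + F1 g) (hlocT.arch w₀) γ hell
          hreal L.μtr L.βr hL.torr hL.cutr j
      have hfact : factValQ298 D.R.r S L (ext305 T f₀) μr (fun g => F0 g + F1 g) = 0 := by
        unfold factValQ298
        simp only [hzero, mul_zero, tsum_zero]
      rw [hfact, mul_zero]

/-- **THE MATCHING THEOREM OVER `ℚ`, v2, FROM THE LEAVES OF THE TWO CUTS.** -/
theorem globMatchQ_of_cut298b (h3 : HasSqrtNegThree F) (hT6 : T6.T6Out)
    (hι : IotaQC298 F) (hU : UnfoldGC298 ℚ) (hU' : UnfoldC305 F)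
    (hTc : TorCommC305 ℚ) (hTc' : TorCommC305 F)
    (hRep : TwistRepC305 F) (hEll : EllRegC305 ℚ F) (hHaar : TorHaarC305 ℚ)
    (hMeas : TorMeasQC298 F) (hComp : TorCompQC298 F)
    (hgood : GoodSetC305 ℚ F)
    (hunit : UnitMatchQC298b F) (hpure : PureExtC305 ℚ) (hpure' : PureExtC305 F)
    (hmeas : LocMeasC305) (hcut : LocCutC305) (harch : ArchMeasRC298)
    (htor : TorSplitQC298) (hdown : FactDownQC298) (hup : FactUpQC298b F)
    (hvan : LocVanC305) (hvanr : ArchVanQC298) (hnn : NonNormLocQC298 F) :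
    GlobMatchQC298b F :=
  globMatchQ_of298b hι hU hU' hTc hTc' hRep hEll hHaar hMeas hComp
    (cutIntQC_of298b h3 hT6 hgood hunit hpure hpure' hmeas hcut harch htor hdown hup hvan
      hvanr hnn)

end Fermat.Agent.LT.T7.MQ298

end

end
-- ===== PACK-END LT/T7/H298/MatchQCutTop2.lean

-- ===== PACK-BEGIN LT/T7/H751/FactDownQTopA.lean
section




/-!
# Row LT, tower T7, node Q2.7.7 `MQ298.FactDownQC298` (helper751, registry 2675): the tops of the
# cut (level 1 and PART A)

OFF-MAIN.  Complete proofs, nothing assumed.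

    factDownQC_of_parts751 : CutOnDownQC751 → FactIntDownQC751 → MQ298.FactDownQC298
    cutOnDownQC_of751 : H305.SuppDownC305 ℚ → H558.OutOpenC558 ℚ → H558.CompContC558 ℚ →
        ReContQC751 → H558.TorCommIdC558 ℚ → SuppOutQC751 → H558.HaarSigmaC558 ℚ →
        HaarSigmaRC751 → CutOnOutQC751 → CutOnDownQC751

Mirror of `T7/H558/FactDownTop.lean`, `FactDownTopA.lean` (helper558); `H558.torus_transl558` is
used as it is (`K = ℚ`).
-/

set_option autoImplicit false

open AutomorphicForm IsDedekindDomain NumberField MeasureTheory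
open scoped ComplexConjugate

noncomputable section

namespace Fermat.Agent.LT.T7.H751

open Fermat.Agent.LT.H556 Fermat.Agent.LT.H556.A0 Fermat.Agent.LT.T7 Fermat.Agent.LT.T7.H305

attribute [local instance] Fermat.Agent.LT.T5.instMeasurableSpaceG

/-- **THE TOP (level 1).**  The node from its two parts. -/
theorem factDownQC_of_parts751 (hA : CutOnDownQC751) (hB : FactIntDownQC751) :
    MQ298.FactDownQC298 := by
  intro R hR μr hμr T₀ m hm
  obtain ⟨cG, hcG, hint⟩ := hB R hR μr hμr T₀ m hm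
  refine ⟨cG, hcG, ?_⟩
  intro S hS f₀ Fr hf₀ hFc hFs γ hγ hgood μT hμT L cT hL hcT hT
  exact ⟨hA R hR m S f₀ Fr γ hγ hgood μT hμT L cT hL hcT hT,
    hint S hS f₀ Fr hf₀ hFc hFs γ hγ hgood μT hμT L cT hL hcT hT⟩

/-- The continuous factor of the product cut-off over `ℚ`. -/
def prodCutCoreQ751 (S : Finset (HeightOneSpectrum (𝓞 ℚ))) (cT : ℝ) {γ : GL (Fin 2) ℚ}
    (L : MQ298.LocDataQ298 γ) (y : G ℚ) : ℝ :=
  cT⁻¹ * (∏ v ∈ S, L.βv v (finGL305 v y)) * L.βr (MQ298.reGLQ298 y)

theorem prodCutQ_eq_indicator751 (S : Finset (HeightOneSpectrum (𝓞 ℚ))) (cT : ℝ)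
    {γ : GL (Fin 2) ℚ} (L : MQ298.LocDataQ298 γ) :
    MQ298.prodCutQ298 S cT L
      = Set.indicator {y : G ℚ | OutT305 S y} (prodCutCoreQ751 S cT L) := by
  classical
  funext y
  by_cases h : OutT305 S y
  · rw [Set.indicator_of_mem (show y ∈ {y : G ℚ | OutT305 S y} from h)]
    change (if OutT305 S y then _ else _) = _
    rw [if_pos h]
    rfl
  · rw [Set.indicator_of_notMem (show y ∉ {y : G ℚ | OutT305 S y} from h)]
    change (if OutT305 S y then _ else _) = _
    rw [if_neg h]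

theorem continuous_prodCutCoreQ751
    (hfin : ∀ v : HeightOneSpectrum (𝓞 ℚ), Continuous (finGL305 (K := ℚ) v))
    (hRe : ReContQC751)
    (m : HeightOneSpectrum (𝓞 ℚ) → ℕ) (S : Finset (HeightOneSpectrum (𝓞 ℚ))) (cT : ℝ)
    {γ : GL (Fin 2) ℚ} (L : MQ298.LocDataQ298 γ) (hL : MQ298.IsLocDataQ298 m L) :
    Continuous (prodCutCoreQ751 S cT L) := by
  unfold prodCutCoreQ751
  refine (continuous_const.mul (continuous_finsetProd _ fun v _ => ?_)).mul ?_
  · exact (hL.cut v).1.comp (hfin v)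
  · exact hL.cutr.1.comp hRe

theorem prodCutQ_nonneg751 (m : HeightOneSpectrum (𝓞 ℚ) → ℕ)
    (S : Finset (HeightOneSpectrum (𝓞 ℚ))) (cT : ℝ) (hcT : 0 < cT)
    {γ : GL (Fin 2) ℚ} (L : MQ298.LocDataQ298 γ) (hL : MQ298.IsLocDataQ298 m L) (y : G ℚ) :
    0 ≤ MQ298.prodCutQ298 S cT L y := by
  classical
  rw [prodCutQ_eq_indicator751]
  refine Set.indicator_nonneg (fun y _ => ?_) y
  unfold prodCutCoreQ751
  refine mul_nonneg (mul_nonneg (inv_nonneg.2 hcT.le) (Finset.prod_nonneg fun v _ => ?_)) ?_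
  · exact (hL.cut v).2.1 _
  · exact hL.cutr.2.1 _

/-- **THE TOP OF PART A.** -/
theorem cutOnDownQC_of751 (hSD : SuppDownC305 ℚ) (hOpen : H558.OutOpenC558 ℚ)
    (hCont : H558.CompContC558 ℚ) (hRe : ReContQC751) (hComm : H558.TorCommIdC558 ℚ)
    (hSO : SuppOutQC751) (hσ : H558.HaarSigmaC558 ℚ) (hσR : HaarSigmaRC751)
    (hCut : CutOnOutQC751) : CutOnDownQC751 := by
  intro R hR m S f₀ Fr γ hγ hgood μT hμT L cT hL hcT hT
  refine ⟨?_, prodCutQ_nonneg751 m S cT hcT L hL, ?_⟩
  · rw [prodCutQ_eq_indicator751]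
    have : BorelSpace (G ℚ) := ⟨rfl⟩
    exact (continuous_prodCutCoreQ751 hCont.1 hRe m S cT L hL).measurable.indicator
      (hOpen S).measurableSet
  · intro x hx
    have h1 : OutT305 S (x⁻¹ * T5.ratG γ * x) := hSO R.r hR.ray S f₀ Fr γ x hx
    obtain ⟨t, ht, hout⟩ := hSD γ S hgood x h1
    have hone := hCut hσ.2.2.1 hσR.2 hCont.1 hRe m S γ hγ hgood μT hμT L cT hL hcT hT
      (t⁻¹ * x) hout
    have htr := H558.torus_transl558 hComm γ hγ μT hμT (MQ298.prodCutQ298 S cT L) t ht
      (t⁻¹ * x)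
    rw [mul_inv_cancel_left] at htr
    rw [htr]
    exact hone

end Fermat.Agent.LT.T7.H751

end

end
-- ===== PACK-END LT/T7/H751/FactDownQTopA.lean

-- ===== PACK-BEGIN LT/T7/H777/SuppOutQ.lean
section



/-!
# Row LT, tower T7, leaf T7.L2Q.1.H1.5.7.4 `SuppOutQC751` (registry 2698; helper777)

OFF-MAIN.  No hole.  `suppOutQC777 : H751.SuppOutQC751` VERBATIM vs `H751/FactDownQSpec.lean`
(aa280353, helper751@e9ffa788e), UNCONDITIONAL.

A non-zero `tsum` has a non-zero term: `pureQ298 S f₀ Fr (x⁻¹ γ x r^j) ≠ 0`, so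
`x⁻¹ γ x r^j ∈ Out_S`; `r^j` is trivial at the finite places.
No equation lemma of a spec function is realised in this module.
SPARE in the same module: `suppOutC777 K : H558.SuppOutC558 K` (the cubic original, registry 2639),
VERBATIM vs `H558/FactDownSpec.lean` (8043f526), every number field.
-/

set_option autoImplicit false

open AutomorphicForm IsDedekindDomain NumberField MeasureTheory
open scoped ComplexConjugate

noncomputable section

namespace Fermat.Agent.LT.T7.H777

open Fermat.Agent.LT.H556 Fermat.Agent.LT.H556.A0 Fermat.Agent.LT.T7 Fermat.Agent.LT.T7.H305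

attribute [local instance] Fermat.Agent.LT.T5.instMeasurableSpaceG

variable {K : Type} [Field K] [NumberField K]

/-- The component at `v` as the matrix of `finGL305`. -/
theorem finComp_eq_finGL777 (v : HeightOneSpectrum (𝓞 K)) (g : G K) :
    finComp v g = ((finGL305 v g : GL (Fin 2) (v.adicCompletion K)) :
      Matrix (Fin 2) (Fin 2) (v.adicCompletion K)) := rfl

/-- `finComp` is multiplicative. -/
theorem finComp_mul777 (v : HeightOneSpectrum (𝓞 K)) (g h : G K) :
    finComp v (g * h) = finComp v g * finComp v h := by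
  rw [finComp_eq_finGL777, finComp_eq_finGL777, finComp_eq_finGL777, map_mul,
    Matrix.GeneralLinearGroup.coe_mul]

/-- A power of an element which is trivial at `v` is trivial at `v`. -/
theorem finComp_zpow_of_triv777 (v : HeightOneSpectrum (𝓞 K)) (r : G K) (hr : TrivAtFin v r)
    (m : ℤ) : finComp v (r ^ m) = 1 := by
  have h1 : finGL305 v r = 1 := by
    apply Units.ext
    exact hr
  rw [finComp_eq_finGL777, map_zpow, h1, one_zpow]
  rfl

/-- Right multiplication by a power of the ray generator does not change the finite components. -/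
theorem finComp_mul_zpow777 (v : HeightOneSpectrum (𝓞 K)) (r : G K) (hr : TrivAtFin v r)
    (g : G K) (m : ℤ) : finComp v (g * r ^ m) = finComp v g := by
  rw [finComp_mul777, finComp_zpow_of_triv777 v r hr, mul_one]

/-- Left multiplication by a power of the ray generator does not change the finite components. -/
theorem finComp_zpow_mul777 (v : HeightOneSpectrum (𝓞 K)) (r : G K) (hr : TrivAtFin v r)
    (g : G K) (m : ℤ) : finComp v (r ^ m * g) = finComp v g := by
  rw [finComp_mul777, finComp_zpow_of_triv777 v r hr, one_mul]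

/-- `Out_S` is invariant under right multiplication by the powers of an element which is trivial
at the finite places. -/
theorem outT_of_mul_zpow777 (S : Finset (HeightOneSpectrum (𝓞 K))) (r : G K)
    (hr : ∀ v : HeightOneSpectrum (𝓞 K), TrivAtFin v r) (g : G K) (m : ℤ)
    (h : OutT305 S (g * r ^ m)) : OutT305 S g := by
  intro v hv
  obtain ⟨h1, h2⟩ := h v hv
  refine ⟨fun i j => ?_, fun i j => ?_⟩
  · have e := finComp_mul_zpow777 v r (hr v) g m
    rw [← e]
    exact h1 i j
  · have e : finComp v ((g * r ^ m)⁻¹) = finComp v g⁻¹ := by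
      rw [mul_inv_rev, ← zpow_neg, finComp_zpow_mul777 v r (hr v)]
    rw [← e]
    exact h2 i j

/-- **T7.L2Q.1.H1.5.7.4** `SuppOutQC751`, VERBATIM. -/
theorem suppOutQC777 : Fermat.Agent.LT.T7.H751.SuppOutQC751 := by
  intro r hr S f₀ Fr γ x hne
  have hne' : (∑' m : ℤ, MQ298.pureQ298 S f₀ Fr
      (x⁻¹ * T5.ratG γ * (T5.AdelicAut.id ℚ).onG x * r ^ m)) ≠ 0 := hne
  obtain ⟨m, hm⟩ : ∃ m : ℤ, MQ298.pureQ298 S f₀ Fr
      (x⁻¹ * T5.ratG γ * (T5.AdelicAut.id ℚ).onG x * r ^ m) ≠ 0 := by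
    by_contra hall
    apply hne'
    have hz : ∀ m : ℤ, MQ298.pureQ298 S f₀ Fr
        (x⁻¹ * T5.ratG γ * (T5.AdelicAut.id ℚ).onG x * r ^ m) = 0 :=
      fun m => by_contra fun hm => hall ⟨m, hm⟩
    rw [show (fun m : ℤ => MQ298.pureQ298 S f₀ Fr
        (x⁻¹ * T5.ratG γ * (T5.AdelicAut.id ℚ).onG x * r ^ m)) = fun _ => 0 from funext hz]
    exact tsum_zero
  rw [T5.onG_id] at hm
  have hout : OutT305 S (x⁻¹ * T5.ratG γ * x * r ^ m) := by
    by_contra hno
    apply hm
    exact if_neg hno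
  exact outT_of_mul_zpow777 S r hr.1 _ m hout

example : Fermat.Agent.LT.T7.H751.SuppOutQC751 := suppOutQC777

/-- **T7.L2.1 FD.4** `H558.SuppOutC558` (the cubic original of the leaf; SPARE), VERBATIM, for
every number field. -/
theorem suppOutC777 (K : Type) [Field K] [NumberField K] :
    Fermat.Agent.LT.T7.H558.SuppOutC558 K := by
  intro r hr S f₀ F γ x hne
  have hne' : (∑' m : ℤ, pure305 S f₀ F
      (x⁻¹ * T5.ratG γ * (T5.AdelicAut.id K).onG x * r ^ m)) ≠ 0 := hne
  obtain ⟨m, hm⟩ : ∃ m : ℤ, pure305 S f₀ F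
      (x⁻¹ * T5.ratG γ * (T5.AdelicAut.id K).onG x * r ^ m) ≠ 0 := by
    by_contra hall
    apply hne'
    have hz : ∀ m : ℤ, pure305 S f₀ F
        (x⁻¹ * T5.ratG γ * (T5.AdelicAut.id K).onG x * r ^ m) = 0 :=
      fun m => by_contra fun hm => hall ⟨m, hm⟩
    rw [show (fun m : ℤ => pure305 S f₀ F
        (x⁻¹ * T5.ratG γ * (T5.AdelicAut.id K).onG x * r ^ m)) = fun _ => 0 from funext hz]
    exact tsum_zero
  rw [T5.onG_id] at hm
  have hout : OutT305 S (x⁻¹ * T5.ratG γ * x * r ^ m) := by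
    by_contra hno
    apply hm
    exact if_neg hno
  exact outT_of_mul_zpow777 S r hr.1 _ m hout

example (K : Type) [Field K] [NumberField K] : Fermat.Agent.LT.T7.H558.SuppOutC558 K :=
  suppOutC777 K

end Fermat.Agent.LT.T7.H777

end

end
-- ===== PACK-END LT/T7/H777/SuppOutQ.lean

-- ===== PACK-BEGIN LT/T7/H453/PtFactQ.lean
section



/-!
# Row LT, tower T7, node Q2.7.7 `MQ298.FactDownQC298`, leaf FDQ.7 `PtFactQC751` (helper453)

OFF-MAIN.  No hole, nothing assumed.  Spec: `T7/H751/FactDownQSpec.lean` (sha256 aa280353,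
helper751@e9ffa788e), byte-identical copy, with its closure.  Mathlib + the definitions of the
spec only.  No definition is introduced here; no equation lemma of a foreign definition is
realised here (`rfl`, `show`, `exact`, `if_pos` only).

    ptFactQC453 : H751.PtFactQC751

For `y ∈ Out_S`, `γ` integral outside `S` and the ray generator `r`:
`pureQ298 S f₀ Fr (y⁻¹ γ y r^j) = ∏_{v ∈ S} f₀ v (y_v⁻¹ γ_v y_v) · Fr (y_∞⁻¹ (γ r^j)_∞ y_∞)`.
`Out_S` is a group which contains `γ` and `r^j` (trivial at the finite places); the components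
are homomorphisms; the real component of `r` is a scalar matrix.  Port of the proof of the cubic
mirror `H558.PtFactC558` by helper454 (`T7/H454/PtFact.lean`), one real place, `GL₂(ℝ)`.
-/

set_option autoImplicit false

open IsDedekindDomain NumberField

noncomputable section

namespace Fermat.Agent.LT.T7.H453.PtFactQ

open Fermat.Agent.LT.H556 Fermat.Agent.LT.H556.A0 Fermat.Agent.LT.T7 Fermat.Agent.LT.T7.H305

variable {K : Type} [Field K] [NumberField K]

/-! ## 1. Components -/

theorem onG_idQ453 (y : G K) : (T5.AdelicAut.id K).onG y = y := by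
  apply Units.ext
  ext i j
  rfl

theorem finGL_ratGQ453 (v : HeightOneSpectrum (𝓞 K)) (γ : GL (Fin 2) K) :
    finGL305 v (T5.ratG γ) = locG305 v γ := by
  apply Units.ext
  ext i j
  rfl

theorem finComp_eq_finGLQ453 (v : HeightOneSpectrum (𝓞 K)) (g : G K) :
    finComp v g = (finGL305 v g : Matrix (Fin 2) (Fin 2) (v.adicCompletion K)) := rfl

theorem finGL_eq_oneQ453 {v : HeightOneSpectrum (𝓞 K)} {g : G K} (h : TrivAtFin v g) :
    finGL305 v g = 1 := by
  apply Units.ext
  rw [← finComp_eq_finGLQ453]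
  exact h

theorem finComp_mulQ453 (v : HeightOneSpectrum (𝓞 K)) (g h : G K) :
    finComp v (g * h) = finComp v g * finComp v h := by
  rw [finComp_eq_finGLQ453, finComp_eq_finGLQ453, finComp_eq_finGLQ453, map_mul, Units.val_mul]

/-! ## 2. `Out_S` is a group -/

theorem isIntegralAt_mulQ453 (v : HeightOneSpectrum (𝓞 K)) {g h : G K} (hg : IsIntegralAt v g)
    (hh : IsIntegralAt v h) : IsIntegralAt v (g * h) := by
  intro i j
  rw [finComp_mulQ453, Matrix.mul_apply]
  exact sum_mem fun k _ => mul_mem (hg i k) (hh k j)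

theorem intAt_mulQ453 {v : HeightOneSpectrum (𝓞 K)} {g h : G K}
    (hg : IsIntegralAt v g ∧ IsIntegralAt v g⁻¹) (hh : IsIntegralAt v h ∧ IsIntegralAt v h⁻¹) :
    IsIntegralAt v (g * h) ∧ IsIntegralAt v (g * h)⁻¹ := by
  refine ⟨isIntegralAt_mulQ453 v hg.1 hh.1, ?_⟩
  rw [mul_inv_rev]
  exact isIntegralAt_mulQ453 v hh.2 hg.2

theorem intAt_invQ453 {v : HeightOneSpectrum (𝓞 K)} {g : G K}
    (hg : IsIntegralAt v g ∧ IsIntegralAt v g⁻¹) :
    IsIntegralAt v g⁻¹ ∧ IsIntegralAt v g⁻¹⁻¹ := by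
  refine ⟨hg.2, ?_⟩
  rw [inv_inv]
  exact hg.1

theorem isIntegralAt_of_trivQ453 {v : HeightOneSpectrum (𝓞 K)} {g : G K} (hg : TrivAtFin v g) :
    IsIntegralAt v g := by
  intro i j
  have h1 : finComp v g = 1 := hg
  rw [h1, Matrix.one_apply]
  split_ifs
  · exact one_mem _
  · exact zero_mem _

theorem trivAtFin_of_finGLQ453 {v : HeightOneSpectrum (𝓞 K)} {g : G K} (h : finGL305 v g = 1) :
    TrivAtFin v g := by
  show finComp v g = 1
  rw [finComp_eq_finGLQ453, h]
  rfl

theorem intAt_of_trivQ453 {v : HeightOneSpectrum (𝓞 K)} {g : G K} (hg : TrivAtFin v g) :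
    IsIntegralAt v g ∧ IsIntegralAt v g⁻¹ := by
  refine ⟨isIntegralAt_of_trivQ453 hg, isIntegralAt_of_trivQ453 (trivAtFin_of_finGLQ453 ?_)⟩
  rw [map_inv, finGL_eq_oneQ453 hg, inv_one]

/-- An element of `U(0)` has integral entries. -/
theorem mem_integers_of_sub_oneQ453 (v : HeightOneSpectrum (𝓞 K))
    (M : Matrix (Fin 2) (Fin 2) (v.adicCompletion K)) (i j : Fin 2)
    (h : Valued.v (M i j - (1 : Matrix (Fin 2) (Fin 2) (v.adicCompletion K)) i j)
      ≤ WithZero.exp (-((0 : ℕ) : ℤ))) :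
    M i j ∈ v.adicCompletionIntegers K := by
  have h0 : WithZero.exp (-((0 : ℕ) : ℤ)) = (1 : WithZero (Multiplicative ℤ)) := by
    rw [Nat.cast_zero, neg_zero, WithZero.exp_zero]
  rw [h0] at h
  have h1 : M i j - (1 : Matrix (Fin 2) (Fin 2) (v.adicCompletion K)) i j
      ∈ v.adicCompletionIntegers K :=
    (HeightOneSpectrum.mem_adicCompletionIntegers (𝓞 K) K v).mpr h
  have h2 : (1 : Matrix (Fin 2) (Fin 2) (v.adicCompletion K)) i j
      ∈ v.adicCompletionIntegers K := by
    rw [Matrix.one_apply]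
    split_ifs
    · exact one_mem _
    · exact zero_mem _
  have h3 := add_mem h1 h2
  rwa [sub_add_cancel] at h3

theorem intAt_ratGQ453 {v : HeightOneSpectrum (𝓞 K)} {γ : GL (Fin 2) K}
    (h : T6.InU 0 (locG305 v γ)) :
    IsIntegralAt v (T5.ratG γ) ∧ IsIntegralAt v (T5.ratG γ)⁻¹ := by
  constructor
  · intro i j
    rw [finComp_eq_finGLQ453, finGL_ratGQ453]
    exact mem_integers_of_sub_oneQ453 v _ i j (h i j).1
  · intro i j
    rw [finComp_eq_finGLQ453, map_inv, finGL_ratGQ453]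
    exact mem_integers_of_sub_oneQ453 v _ i j (h i j).2

theorem finGL_ray_zpowQ453 {r : G K} (hr : T5.IsRayGen r) (v : HeightOneSpectrum (𝓞 K))
    (j : ℤ) : finGL305 v (r ^ j) = 1 := by
  rw [map_zpow, finGL_eq_oneQ453 (hr.1 v), one_zpow]

/-! ## 3. The ray generator is central at the real place of `ℚ` -/

/-- The real component, seen in `ℂ`, is the component at the infinite place of `ℚ`. -/
theorem reGL_coeQ453 (g : G ℚ) (i k : Fin 2) :
    (((MQ298.reGLQ298 g : Matrix (Fin 2) (Fin 2) ℝ) i k : ℝ) : ℂ)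
      = infComp Rat.infinitePlace g i k :=
  InfinitePlace.Completion.extensionEmbeddingOfIsReal_apply Rat.isReal_infinitePlace _

theorem reGL_ray_diagQ453 {r : G ℚ} (hr : T5.IsRayGen r) :
    ∃ t : ℝ, (MQ298.reGLQ298 r : Matrix (Fin 2) (Fin 2) ℝ) = Matrix.diagonal fun _ => t := by
  obtain ⟨t, -, -, ht⟩ := hr.2
  refine ⟨t, ?_⟩
  ext i k
  apply Complex.ofReal_injective
  rw [reGL_coeQ453, ht Rat.infinitePlace]
  by_cases hik : i = k
  · subst hik
    rw [Matrix.diagonal_apply_eq, Matrix.diagonal_apply_eq]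
  · rw [Matrix.diagonal_apply_ne _ hik, Matrix.diagonal_apply_ne _ hik, Complex.ofReal_zero]

theorem commute_reGL_rayQ453 {r : G ℚ} (hr : T5.IsRayGen r) (Y : GL (Fin 2) ℝ) :
    Commute (MQ298.reGLQ298 r) Y := by
  obtain ⟨t, h1⟩ := reGL_ray_diagQ453 hr
  apply Units.ext
  rw [Units.val_mul, Units.val_mul, h1]
  ext i k
  rw [Matrix.diagonal_mul, Matrix.mul_diagonal, mul_comm]

/-! ## 4. The leaf -/

/-- **LEAF FDQ.7 = PT-FACT over `ℚ`.** -/
theorem ptFactQC453 : Fermat.Agent.LT.T7.H751.PtFactQC751 := by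
  intro r hr S f₀ Fr γ hγ y j hy
  rw [onG_idQ453]
  have hout : OutT305 S (y⁻¹ * T5.ratG γ * y * r ^ j) := by
    intro v hv
    have hyv : IsIntegralAt v y ∧ IsIntegralAt v y⁻¹ := hy v hv
    have hγv : IsIntegralAt v (T5.ratG γ) ∧ IsIntegralAt v (T5.ratG γ)⁻¹ :=
      intAt_ratGQ453 (hγ v hv)
    have hrv : IsIntegralAt v (r ^ j) ∧ IsIntegralAt v (r ^ j)⁻¹ :=
      intAt_of_trivQ453 (trivAtFin_of_finGLQ453 (finGL_ray_zpowQ453 hr v j))
    exact intAt_mulQ453 (intAt_mulQ453 (intAt_mulQ453 (intAt_invQ453 hyv) hγv) hyv) hrv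
  have e : MQ298.pureQ298 S f₀ Fr (y⁻¹ * T5.ratG γ * y * r ^ j)
      = (∏ v ∈ S, f₀ v (finGL305 v (y⁻¹ * T5.ratG γ * y * r ^ j))) *
        Fr (MQ298.reGLQ298 (y⁻¹ * T5.ratG γ * y * r ^ j)) :=
    if_pos hout
  rw [e]
  have hfin : ∀ v : HeightOneSpectrum (𝓞 ℚ), finGL305 v (y⁻¹ * T5.ratG γ * y * r ^ j)
      = (finGL305 v y)⁻¹ * locG305 v γ * finGL305 v y := by
    intro v
    rw [map_mul, map_mul, map_mul, map_inv, finGL_ratGQ453, finGL_ray_zpowQ453 hr v j, mul_one]
  have hre : MQ298.reGLQ298 (y⁻¹ * T5.ratG γ * y * r ^ j)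
      = (MQ298.reGLQ298 y)⁻¹ * MQ298.reGLQ298 (T5.ratG γ * r ^ j) * MQ298.reGLQ298 y := by
    have hc : Commute (MQ298.reGLQ298 r ^ j) (MQ298.reGLQ298 y) :=
      (commute_reGL_rayQ453 hr (MQ298.reGLQ298 y)).zpow_left j
    rw [map_mul, map_mul, map_mul, map_mul, map_inv, map_zpow, mul_assoc, mul_assoc, mul_assoc,
      mul_assoc, hc.eq]
  have e1 : (∏ v ∈ S, f₀ v (finGL305 v (y⁻¹ * T5.ratG γ * y * r ^ j)))
      = ∏ v ∈ S, f₀ v ((finGL305 v y)⁻¹ * locG305 v γ * finGL305 v y) :=
    Finset.prod_congr rfl fun v _ => by rw [hfin v]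
  rw [e1, hre]

/-- The statement of the leaf, unfolded (check of the frozen Prop). -/
example :
    ∀ r : G ℚ, T5.IsRayGen r →
      ∀ (S : Finset (HeightOneSpectrum (𝓞 ℚ)))
        (f₀ : ∀ v : HeightOneSpectrum (𝓞 ℚ), GL (Fin 2) (v.adicCompletion ℚ) → ℂ)
        (Fr : GL (Fin 2) ℝ → ℂ) (γ : GL (Fin 2) ℚ), IntOut305 S γ →
      ∀ (y : G ℚ) (j : ℤ), OutT305 S y →
        MQ298.pureQ298 S f₀ Fr (y⁻¹ * T5.ratG γ * (T5.AdelicAut.id ℚ).onG y * r ^ j)
          = (∏ v ∈ S, f₀ v ((finGL305 v y)⁻¹ * locG305 v γ * finGL305 v y)) *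
            Fr ((MQ298.reGLQ298 y)⁻¹ * MQ298.reGLQ298 (T5.ratG γ * r ^ j) *
              MQ298.reGLQ298 y) :=
  ptFactQC453

end Fermat.Agent.LT.T7.H453.PtFactQ

end

end
-- ===== PACK-END LT/T7/H453/PtFactQ.lean

-- ===== PACK-BEGIN LT/T7/H560/ArchIntblR.lean
section





/-!
# Row LT, tower T7, node Q2.7.7, leaf FDQ.8 `ArchIntblRC751` (helper560, registry 2702)

OFF-MAIN.  The frozen Prop is `Fermat.Agent.LT.T7.H751.ArchIntblRC751` of helper751's
`T7/H751/FactDownQSpec.lean` (sha256 aa280353, vendored byte-identical with its closure).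
Proved here with no hole: `archIntblRC560 : H751.ArchIntblRC751`.

The proof is the proof of helper194 for `GL₂(ℂ)` (`archIntegrable194`), with `ℝ` in the place of
`ℂ`: the two Mathlib-only assets of helper194 are stated for every topological field
(`Orb/SuppTop.lean`, `exists_compact_conj194`: closed orbits of regular elements, no
diagonalisation) and for every locally compact second countable group
(`Orb/IntegAbs.lean`, `integrable_mul_cut194`: Tonelli), byte-identical copies of
origin/helper194 (sha256 a277fc19, 3a70f0dc, a71e5879).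
-/

set_option autoImplicit false
set_option linter.unusedSectionVars false
set_option linter.unusedVariables false
set_option linter.style.haveILetI false

open MeasureTheory

noncomputable section

namespace Fermat.Agent.LT.T7.H560

open Fermat.Agent.LT Fermat.Agent.LT.T7 Fermat.Agent.LT.T7.H305 Fermat.Agent.LT.T7.H194

/-! ## `GL₂(ℝ)` -/

theorem secondCountable_GL2R560 : SecondCountableTopology (GL (Fin 2) ℝ) := by
  have : SecondCountableTopology (Matrix (Fin 2) (Fin 2) ℝ) :=
    inferInstanceAs (SecondCountableTopology (Fin 2 → Fin 2 → ℝ))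
  have : SecondCountableTopology (Matrix (Fin 2) (Fin 2) ℝ)ᵐᵒᵖ :=
    MulOpposite.opHomeomorph.symm.secondCountableTopology
  exact (Units.isEmbedding_embedProduct (M := Matrix (Fin 2) (Fin 2) ℝ)).secondCountableTopology

theorem locallyCompact_GL2R560 : LocallyCompactSpace (GL (Fin 2) ℝ) := by
  have : LocallyCompactSpace (Matrix (Fin 2) (Fin 2) ℝ) :=
    inferInstanceAs (LocallyCompactSpace (Fin 2 → Fin 2 → ℝ))
  exact (Units.isClosedEmbedding_embedProduct (α := Matrix (Fin 2) (Fin 2) ℝ)).locallyCompactSpace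

/-- The centraliser is closed (any Hausdorff topological group). -/
theorem isClosed_cent560 {H : Type} [Group H] [TopologicalSpace H] [IsTopologicalGroup H]
    [T2Space H] (γ : H) : IsClosed ((cent305 γ : Subgroup H) : Set H) := by
  have hc : Continuous (fun x : H => x⁻¹ * γ * x) :=
    (continuous_inv.mul continuous_const).mul continuous_id
  exact isClosed_eq hc continuous_const

theorem mem_cent_iff560 {H : Type} [Group H] (γ x : H) :
    x ∈ cent305 γ ↔ x⁻¹ * γ * x = γ := Iff.rfl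

/-! ## Integrability -/

/-- **The cut-off integrand at the real place is integrable.** -/
theorem archIntegrableR560 (γ : GL (Fin 2) ℝ) (hγ : T6.IsReg γ)
    (μr : @Measure (GL (Fin 2) ℝ) (borel _)) (hμr : @Measure.IsHaarMeasure _ _ _ (borel _) μr)
    (μT : @Measure (cent305 γ) (borel _)) (hμT : @Measure.IsHaarMeasure _ _ _ (borel _) μT)
    (β : GL (Fin 2) ℝ → ℝ) (hβ : IsCut305 γ μT β)
    (F : GL (Fin 2) ℝ → ℂ) (hF : Continuous F) (hFc : HasCompactSupport F)
    (z : GL (Fin 2) ℝ) (hz : ∀ x : GL (Fin 2) ℝ, z * x = x * z) :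
    @Integrable _ _ _ _ (borel _)
      (fun y : GL (Fin 2) ℝ => F (y⁻¹ * (γ * z) * y) * ((β y : ℝ) : ℂ)) μr := by
  letI : MeasurableSpace (GL (Fin 2) ℝ) := borel _
  haveI : BorelSpace (GL (Fin 2) ℝ) := ⟨rfl⟩
  letI : MeasurableSpace (cent305 γ) := borel _
  haveI : BorelSpace (cent305 γ) := ⟨rfl⟩
  haveI := secondCountable_GL2R560
  haveI := locallyCompact_GL2R560
  haveI : μr.IsHaarMeasure := hμr
  haveI : μT.IsHaarMeasure := hμT
  haveI : SigmaCompactSpace (cent305 γ) := (isClosed_cent560 γ).sigmaCompactSpace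
  obtain ⟨hβc, hβ0, hβ1⟩ := hβ
  -- the support
  have hdisc : (γ : Matrix (Fin 2) (Fin 2) ℝ).trace ^ 2
      - 4 * (γ : Matrix (Fin 2) (Fin 2) ℝ).det ≠ 0 := (isUnit_iff_ne_zero.1 hγ)
  have hKc : IsCompact ((fun h : GL (Fin 2) ℝ => h * z⁻¹) '' tsupport F) :=
    hFc.isCompact.image (continuous_id.mul continuous_const)
  obtain ⟨C, hC, hsupp⟩ := exists_compact_conj194 γ hdisc hKc
  obtain ⟨M, hM⟩ := hF.bounded_above_of_compact_support hFc
  have hΨc : Continuous (fun y : GL (Fin 2) ℝ => F (y⁻¹ * (γ * z) * y)) :=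
    hF.comp ((continuous_inv.mul continuous_const).mul continuous_id)
  refine integrable_mul_cut194 (cent305 γ) μr μT hβc.measurable hβ0 hβ1 hC hΨc.measurable
    (M := M) (fun y => hM _) ?_
  intro y hy
  have h1 : y⁻¹ * (γ * z) * y ∈ tsupport F := subset_tsupport F hy
  have h2 : y⁻¹ * γ * y ∈ (fun h : GL (Fin 2) ℝ => h * z⁻¹) '' tsupport F := by
    refine ⟨y⁻¹ * (γ * z) * y, h1, ?_⟩
    show y⁻¹ * (γ * z) * y * z⁻¹ = y⁻¹ * γ * y
    have e : y⁻¹ * (γ * z) * y = y⁻¹ * γ * y * z := by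
      calc y⁻¹ * (γ * z) * y = y⁻¹ * γ * (z * y) := by simp only [mul_assoc]
        _ = y⁻¹ * γ * (y * z) := by rw [hz y]
        _ = y⁻¹ * γ * y * z := by simp only [mul_assoc]
    rw [e, mul_inv_cancel_right]
  obtain ⟨t, ht, c, hc, hyc⟩ := hsupp y h2
  exact ⟨t, (mem_cent_iff560 γ t).2 ht, c, hc, hyc⟩

/-- **LEAF FDQ.8 = ARCH-INTBL (`GL₂(ℝ)`), unconditional.** -/
theorem archIntblRC560 : H751.ArchIntblRC751 :=
  fun μr hμr F hF hFc γ₀ hγ z hz μT hμT β hβ =>
    archIntegrableR560 γ₀ hγ μr hμr μT hμT β hβ F hF hFc z hz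

end Fermat.Agent.LT.T7.H560

end

end
-- ===== PACK-END LT/T7/H560/ArchIntblR.lean

-- ===== PACK-BEGIN LT/T7/H659/LocEqArchQ.lean
section



/-!
# Row LT, tower T7, node Q2.7.13 `FactUpQC298`, LEAF Q2.7.13.4 = `LocEqArchQC514`
(registry row 2711, owner helper659)

OFF-MAIN.  No hole, nothing assumed.
Spec: `LT/T7/H514/FactUpQSpec.lean` (helper514@c4d7f196f, sha256 01844c0a365a9314, byte-identical
copy).

    locEqArchQC659 (F) : T7.FUQ514.LocEqArchQC514 F                         (VERBATIM)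

Proof (the route of the Spec).  `γ' = (γ r^j)_∞ = γ_∞ · t^j` and `δ' = (δ r'^j)_w = δ_w · t'^j`
with the positive scalars `t² = 2` (`finrank ℚ ℚ = 1`), `t'⁴ = 2` (`finrank ℚ F = 2`), so
`t'² = t`.  `γ'` is regular with the centraliser of `γ_∞` (`twCentSub_mul_central659`: a scalar
is central), so the data `L.μtr`, `L.βr`, `β'` are data for `γ'` (`archMatch_of_cent_eq659`:
rewriting along the equality of the two subgroups, no transport of measures).
`N δ' = δ' conj(δ') = (δ σ(δ))_w t'^{2j} = (γ')_ℂ`: `w ∘ σ = conj ∘ w` (`embedding_conj659`: `F`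
has one infinite place and `σ ≠ 1`).  Then the FIRST clause of `T6.IsArchMatch`
(`LocHypQ298.arch w`).
-/

set_option autoImplicit false

open AutomorphicForm IsDedekindDomain NumberField MeasureTheory
open scoped ComplexConjugate

noncomputable section

namespace Fermat.Agent.LT.T7.H659

open Fermat.Agent.LT.H556 Fermat.Agent.LT.H556.A0 Fermat.Agent.LT.T7 Fermat.Agent.LT.T7.H305
open Fermat.Agent.LT.T7.MQ298 Fermat.Agent.LT.T7.H340

/-! ## 1. The transport along the equality of the centralisers -/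

/-- The first clause of `T6.IsArchMatch` at `γ'`, for data on the centraliser of `γ₀`, when the
two centralisers are the same subgroup. -/
theorem archMatch_of_cent_eq659 {μ : @Measure (GL (Fin 2) ℝ) (borel _)}
    {μ' : @Measure (GL (Fin 2) ℂ) (borel _)} {φ : GL (Fin 2) ℂ → ℂ} {f : GL (Fin 2) ℝ → ℂ}
    (hm : T6.IsArchMatch μ μ' φ f) {γ₀ γ' : GL (Fin 2) ℝ} (hreg : T6.IsReg γ')
    (hc : T6.twCentSub (MonoidHom.id (GL (Fin 2) ℝ)) γ'
      = T6.twCentSub (MonoidHom.id (GL (Fin 2) ℝ)) γ₀)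
    (μT : @Measure (T6.twCentSub (MonoidHom.id (GL (Fin 2) ℝ)) γ₀) (borel _))
    (hμT : @Measure.IsHaarMeasure _ _ _ (borel _) μT)
    (β : GL (Fin 2) ℝ → ℝ) (hβc : Continuous β) (hβ0 : ∀ x, 0 ≤ β x)
    (hβ : ∀ x : GL (Fin 2) ℝ, @integral _ _ _ _ (borel _) μT
      (fun t : T6.twCentSub (MonoidHom.id (GL (Fin 2) ℝ)) γ₀ => β ((t : GL (Fin 2) ℝ) * x)) = 1)
    (δ : GL (Fin 2) ℂ)
    (hδ : T6.twNorm (starRingAut : ℂ ≃+* ℂ) 2 δ
      = Matrix.GeneralLinearGroup.map (algebraMap ℝ ℂ) γ')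
    (β' : GL (Fin 2) ℂ → ℝ) (hβ'c : Continuous β') (hβ'0 : ∀ x, 0 ≤ β' x)
    (hβ' : ∀ x : GL (Fin 2) ℂ, @integral _ _ _ _ (borel _) μT
      (fun t : T6.twCentSub (MonoidHom.id (GL (Fin 2) ℝ)) γ₀ =>
        β' (Matrix.GeneralLinearGroup.map (algebraMap ℝ ℂ) (t : GL (Fin 2) ℝ) * x)) = 1) :
    @integral _ _ _ _ (borel _) μ (fun x : GL (Fin 2) ℝ => f (x⁻¹ * γ' * x) * (β x : ℂ))
      = @integral _ _ _ _ (borel _) μ'
          (fun x : GL (Fin 2) ℂ =>
            φ (x⁻¹ * δ * T6.glAut (starRingAut : ℂ ≃+* ℂ) x) * (β' x : ℂ)) := by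
  revert μT
  rw [← hc]
  intro μT hμT hβ hβ'
  exact (hm γ' hreg μT hμT β hβc hβ0 hβ).1 δ hδ β' hβ'c hβ'0 hβ'

/-! ## 2. Components -/

/-- The real component in `ℂ` is the component at the infinite place of `ℚ`. -/
theorem reHomQ_ofReal659 (x : Adl ℚ) :
    ((reHomQ298 x : ℝ) : ℂ) = T5.infHom Rat.infinitePlace x := by
  show ((InfinitePlace.Completion.extensionEmbeddingOfIsReal Rat.isReal_infinitePlace
    (x.1 Rat.infinitePlace) : ℝ) : ℂ) = _
  rw [InfinitePlace.Completion.extensionEmbeddingOfIsReal_apply]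
  rfl

/-- The real component of an element which is the scalar `t` at the infinite place. -/
theorem reGLQ_of_scalar659 {r : G ℚ} {t : ℝ} (ht : t ≠ 0)
    (h : infComp Rat.infinitePlace r = Matrix.diagonal (fun _ => (t : ℂ))) :
    reGLQ298 r = Matrix.GeneralLinearGroup.scalar (Fin 2) (Units.mk0 t ht) := by
  apply Units.ext
  ext i j
  have h1 := congrFun (congrFun h i) j
  have h2 : (((reGLQ298 r : GL (Fin 2) ℝ) : Matrix (Fin 2) (Fin 2) ℝ) i j : ℂ)
      = infComp Rat.infinitePlace r i j := reHomQ_ofReal659 _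
  rw [h1] at h2
  apply Complex.ofReal_injective
  rw [h2, Matrix.GeneralLinearGroup.coe_scalar]
  by_cases hij : i = j
  · subst hij
    simp
  · simp [hij]

variable {F : Type} [Field F] [NumberField F]

/-- The component at `w` of an element which is the scalar `t` at `w`. -/
theorem infGL_of_scalar659 {w : InfinitePlace F} {r : G F} {t : ℝ} (ht : (t : ℂ) ≠ 0)
    (h : infComp w r = Matrix.diagonal (fun _ => (t : ℂ))) :
    infGL305 w r = Matrix.GeneralLinearGroup.scalar (Fin 2) (Units.mk0 (t : ℂ) ht) := by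
  apply Units.ext
  ext i j
  have h1 := congrFun (congrFun h i) j
  have h2 : ((infGL305 w r : GL (Fin 2) ℂ) : Matrix (Fin 2) (Fin 2) ℂ) i j
      = infComp w r i j := rfl
  rw [h2, h1, Matrix.GeneralLinearGroup.coe_scalar]
  by_cases hij : i = j
  · subst hij
    simp
  · simp [hij]

/-- The component at `w` of a rational element. -/
theorem infHom_algebraMap659 (w : InfinitePlace F) (x : F) :
    T5.infHom w (algebraMap F (Adl F) x) = w.embedding x := by
  show InfinitePlace.Completion.extensionEmbedding w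
    ((algebraMap F (Adl F) x).1 w) = _
  exact InfinitePlace.Completion.extensionEmbedding_coe w _

theorem infGL_ratG659 (w : InfinitePlace F) (δ : GL (Fin 2) F) :
    infGL305 w (T5.ratG δ) = Matrix.GeneralLinearGroup.map w.embedding δ := by
  apply Units.ext
  ext i j
  exact infHom_algebraMap659 w _

theorem reHomQ_algebraMap659 (x : ℚ) : reHomQ298 (algebraMap ℚ (Adl ℚ) x) = (x : ℝ) := by
  apply Complex.ofReal_injective
  rw [reHomQ_ofReal659, infHom_algebraMap659]
  simp

theorem reGLQ_ratG659 (γ : GL (Fin 2) ℚ) :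
    reGLQ298 (T5.ratG γ) = Matrix.GeneralLinearGroup.map (algebraMap ℚ ℝ) γ := by
  apply Units.ext
  ext i j
  exact reHomQ_algebraMap659 _

/-! ## 3. Conjugation, discriminants, centralisers -/

omit [NumberField F] in
/-- In a field with ONE infinite place `w`, an automorphism `σ ≠ 1` is the complex conjugation in
the coordinate of `w`. -/
theorem embedding_conj659 (h1 : Nat.card (InfinitePlace F) = 1) (w : InfinitePlace F)
    (σ : F ≃+* F) (hσ : ∃ x : F, σ x ≠ x) (y : F) :
    w.embedding (σ y) = conj (w.embedding y) := by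
  have hsub : Subsingleton (InfinitePlace F) := by
    have : Finite (InfinitePlace F) := Nat.finite_of_card_ne_zero (by rw [h1]; exact one_ne_zero)
    exact (Nat.card_eq_one_iff_unique.1 h1).1
  have hmk : InfinitePlace.mk w.embedding
      = InfinitePlace.mk (w.embedding.comp (σ : F →+* F)) := Subsingleton.elim _ _
  rcases InfinitePlace.mk_eq_iff.1 hmk with h | h
  · exfalso
    obtain ⟨x, hx⟩ := hσ
    apply hx
    apply w.embedding.injective
    have := congrArg (fun f : F →+* ℂ => f x) h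
    exact this.symm
  · have := congrArg (fun f : F →+* ℂ => f y) h
    exact this.symm

/-- The discriminant of a scalar multiple. -/
theorem disc_mul_scalar659 {R : Type} [CommRing R] (γ : GL (Fin 2) R) (u : Rˣ) :
    T6.disc (γ * Matrix.GeneralLinearGroup.scalar (Fin 2) u) = (u : R) ^ 2 * T6.disc γ := by
  show ((γ * Matrix.GeneralLinearGroup.scalar (Fin 2) u : GL (Fin 2) R) :
      Matrix (Fin 2) (Fin 2) R).trace ^ 2
    - 4 * ((γ * Matrix.GeneralLinearGroup.scalar (Fin 2) u : GL (Fin 2) R) :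
      Matrix (Fin 2) (Fin 2) R).det
    = (u : R) ^ 2 * ((γ : Matrix (Fin 2) (Fin 2) R).trace ^ 2
      - 4 * (γ : Matrix (Fin 2) (Fin 2) R).det)
  rw [Units.val_mul, Matrix.GeneralLinearGroup.coe_scalar, Matrix.det_mul,
    Matrix.trace_fin_two, Matrix.trace_fin_two, Matrix.det_fin_two, Matrix.det_fin_two]
  simp only [Matrix.mul_apply, Fin.sum_univ_two, Matrix.scalar_apply, Matrix.diagonal_apply_eq,
    Matrix.diagonal_apply_ne, ne_eq, zero_ne_one, one_ne_zero, not_false_eq_true, mul_zero,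
    add_zero, zero_add, Fin.isValue]
  ring

/-- The discriminant of the image under a ring homomorphism. -/
theorem disc_map659 {R S : Type} [CommRing R] [CommRing S] (f : R →+* S) (γ : GL (Fin 2) R) :
    T6.disc (Matrix.GeneralLinearGroup.map f γ) = f (T6.disc γ) := by
  show ((Matrix.GeneralLinearGroup.map f γ : GL (Fin 2) S) : Matrix (Fin 2) (Fin 2) S).trace ^ 2
    - 4 * ((Matrix.GeneralLinearGroup.map f γ : GL (Fin 2) S) : Matrix (Fin 2) (Fin 2) S).det
    = f ((γ : Matrix (Fin 2) (Fin 2) R).trace ^ 2 - 4 * (γ : Matrix (Fin 2) (Fin 2) R).det)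
  rw [Matrix.trace_fin_two, Matrix.trace_fin_two, Matrix.det_fin_two, Matrix.det_fin_two]
  simp only [Matrix.GeneralLinearGroup.map_apply, map_sub, map_mul, map_pow, map_add,
    map_ofNat]

/-- The centraliser of a central multiple. -/
theorem twCentSub_mul_central659 {Γ : Type} [Group Γ] (γ c : Γ) (hc : ∀ x : Γ, c * x = x * c) :
    T6.twCentSub (MonoidHom.id Γ) (γ * c) = T6.twCentSub (MonoidHom.id Γ) γ := by
  ext x
  show x⁻¹ * (γ * c) * x = γ * c ↔ x⁻¹ * γ * x = γ
  have e : x⁻¹ * (γ * c) * x = x⁻¹ * γ * x * c := by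
    calc x⁻¹ * (γ * c) * x = x⁻¹ * γ * (c * x) := by simp only [mul_assoc]
      _ = x⁻¹ * γ * (x * c) := by rw [hc x]
      _ = x⁻¹ * γ * x * c := by simp only [mul_assoc]
  rw [e]
  exact mul_left_inj c

/-- The image of a scalar matrix under a ring homomorphism. -/
theorem map_scalar_eq659 {R S : Type} [CommRing R] [CommRing S] (f : R →+* S) (u : Rˣ) (v : Sˣ)
    (h : f (u : R) = (v : S)) :
    Matrix.GeneralLinearGroup.map f (Matrix.GeneralLinearGroup.scalar (Fin 2) u)
      = Matrix.GeneralLinearGroup.scalar (Fin 2) v := by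
  rw [Matrix.GeneralLinearGroup.map_scalar]
  congr 1
  exact Units.ext h

/-- The twisted norm of degree two of a central multiple. -/
theorem twNorm_core659 (A B Z G : GL (Fin 2) ℂ)
    (hA : T6.glAut (starRingAut : ℂ ≃+* ℂ) A = B) (hZ : T6.glAut (starRingAut : ℂ ≃+* ℂ) Z = Z)
    (hcomm : ∀ x : GL (Fin 2) ℂ, Z * x = x * Z) (hAB : A * B = G) :
    T6.twNorm (starRingAut : ℂ ≃+* ℂ) 2 (A * Z) = G * (Z * Z) := by
  show A * Z * T6.glAut (starRingAut : ℂ ≃+* ℂ)
      (A * Z * T6.glAut (starRingAut : ℂ ≃+* ℂ) 1) = G * (Z * Z)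
  rw [map_one, mul_one, map_mul, hA, hZ, ← hAB]
  calc A * Z * (B * Z) = A * (Z * B) * Z := by simp only [mul_assoc]
    _ = A * (B * Z) * Z := by rw [hcomm B]
    _ = A * B * (Z * Z) := by simp only [mul_assoc]

/-! ## 4. The leaf -/

/-- **LEAF Q2.7.13.4 = LOC-EQ-ARCH over `ℚ`** (VERBATIM). -/
theorem locEqArchQC659 (F : Type) [Field F] [NumberField F] : FUQ514.LocEqArchQC514 F := by
  intro hIQ D hD hcyc hl ι hι μr hμr μc hμc S n m φ₀ Φ f₀ F0 F1 hLoc δ γ hEll hN L hL j J hJ
  obtain ⟨w, β', hβ'c, hβ'0, hβ', rfl⟩ := hJ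
  -- the two rays
  obtain ⟨-, t, ht0, ht2, htr⟩ := hD.frame.ray
  obtain ⟨-, t', ht'0, ht'2, ht'r⟩ := hD.frame'.ray
  have hfr : Module.finrank ℚ F = 2 := by rw [hcyc.degree, hl]
  rw [Module.finrank_self] at ht2
  rw [hfr] at ht'2
  have htt : t' ^ 2 = t := by
    have h1 : (t' ^ 2) ^ 2 = t ^ 2 := by
      rw [← pow_mul]
      exact ht'2.trans ht2.symm
    exact (pow_left_inj₀ (by positivity) ht0.le (by norm_num)).1 h1
  have ht'C : (t' : ℂ) ≠ 0 := Complex.ofReal_ne_zero.2 ht'0.ne'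
  have hz : reGLQ298 D.R.r = Matrix.GeneralLinearGroup.scalar (Fin 2) (Units.mk0 t ht0.ne') :=
    reGLQ_of_scalar659 ht0.ne' (htr Rat.infinitePlace)
  have hz' : infGL305 w D.R'.r
      = Matrix.GeneralLinearGroup.scalar (Fin 2) (Units.mk0 (t' : ℂ) ht'C) :=
    infGL_of_scalar659 ht'C (ht'r w)
  -- the element downstairs
  have hγ' : reGLQ298 (T5.ratG γ * D.R.r ^ j)
      = Matrix.GeneralLinearGroup.map (algebraMap ℚ ℝ) γ
        * Matrix.GeneralLinearGroup.scalar (Fin 2) ((Units.mk0 t ht0.ne') ^ j) := by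
    rw [map_mul, map_zpow, hz, ← map_zpow, reGLQ_ratG659]
  have hc : T6.twCentSub (MonoidHom.id (GL (Fin 2) ℝ)) (reGLQ298 (T5.ratG γ * D.R.r ^ j))
      = T6.twCentSub (MonoidHom.id (GL (Fin 2) ℝ)) (reGLQ298 (T5.ratG γ)) := by
    rw [hγ', reGLQ_ratG659]
    exact twCentSub_mul_central659 _ _ (fun x => Matrix.GeneralLinearGroup.scalar_commute _ x)
  have hreg : T6.IsReg (reGLQ298 (T5.ratG γ * D.R.r ^ j)) := by
    rw [hγ']
    show IsUnit (T6.disc _)
    rw [disc_mul_scalar659, disc_map659]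
    exact IsUnit.mul (IsUnit.pow _ (Units.isUnit _))
      ((hEll.1 : IsUnit (T6.disc γ)).map (algebraMap ℚ ℝ))
  -- the element upstairs
  have hσ : ∃ x : F, D.s.σ x ≠ x := by
    obtain ⟨x, hx⟩ := hD.cyc.faithful 1 one_pos (by rw [hl]; norm_num)
    exact ⟨x, by simpa using hx⟩
  have hconj : ∀ y : F, w.embedding (D.s.σ y) = conj (w.embedding y) :=
    embedding_conj659 hIQ.1 w D.s.σ hσ
  have hδ0 : infGL305 w (T5.ratG δ * D.R'.r ^ j)
      = Matrix.GeneralLinearGroup.map w.embedding δ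
        * Matrix.GeneralLinearGroup.scalar (Fin 2) ((Units.mk0 (t' : ℂ) ht'C) ^ j) := by
    rw [map_mul, map_zpow, hz', ← map_zpow, infGL_ratG659]
  have hsc : T6.glAut (starRingAut : ℂ ≃+* ℂ)
      (Matrix.GeneralLinearGroup.scalar (Fin 2) ((Units.mk0 (t' : ℂ) ht'C) ^ j))
      = Matrix.GeneralLinearGroup.scalar (Fin 2) ((Units.mk0 (t' : ℂ) ht'C) ^ j) := by
    refine map_scalar_eq659 ((starRingAut : ℂ ≃+* ℂ) : ℂ →+* ℂ) _ _ ?_
    show conj (((Units.mk0 (t' : ℂ) ht'C) ^ j : ℂˣ) : ℂ) = _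
    rw [Units.val_zpow_eq_zpow_val, Units.val_mk0, map_zpow₀, Complex.conj_ofReal]
  have hemb : T6.glAut (starRingAut : ℂ ≃+* ℂ) (Matrix.GeneralLinearGroup.map w.embedding δ)
      = Matrix.GeneralLinearGroup.map w.embedding (D.s.onRat δ) := by
    apply Units.ext
    ext a b
    exact (hconj _).symm
  have hnorm : D.s.normUpTo 2 δ = δ * D.s.onRat δ := by
    show δ * D.s.onRat (δ * D.s.onRat 1) = δ * D.s.onRat δ
    rw [map_one, mul_one]
  have hQ : Matrix.GeneralLinearGroup.map w.embedding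
      (Matrix.GeneralLinearGroup.map (algebraMap ℚ F) γ)
      = Matrix.GeneralLinearGroup.map (algebraMap ℝ ℂ)
        (Matrix.GeneralLinearGroup.map (algebraMap ℚ ℝ) γ) := by
    apply Units.ext
    ext a b
    show w.embedding (algebraMap ℚ F _) = algebraMap ℝ ℂ (algebraMap ℚ ℝ _)
    simp
  have hAB : Matrix.GeneralLinearGroup.map w.embedding δ
      * Matrix.GeneralLinearGroup.map w.embedding (D.s.onRat δ)
      = Matrix.GeneralLinearGroup.map (algebraMap ℝ ℂ)
        (Matrix.GeneralLinearGroup.map (algebraMap ℚ ℝ) γ) := by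
    rw [← map_mul, ← hnorm, ← hQ, ← hN, hl]
  have hZ : Matrix.GeneralLinearGroup.map (algebraMap ℝ ℂ)
      (Matrix.GeneralLinearGroup.scalar (Fin 2) ((Units.mk0 t ht0.ne') ^ j))
      = Matrix.GeneralLinearGroup.scalar (Fin 2) ((Units.mk0 (t' : ℂ) ht'C) ^ j)
        * Matrix.GeneralLinearGroup.scalar (Fin 2) ((Units.mk0 (t' : ℂ) ht'C) ^ j) := by
    rw [← map_mul]
    refine map_scalar_eq659 (algebraMap ℝ ℂ) _ _ ?_
    show ((((Units.mk0 t ht0.ne') ^ j : ℝˣ) : ℝ) : ℂ) = _
    rw [Units.val_mul, Units.val_zpow_eq_zpow_val, Units.val_zpow_eq_zpow_val, Units.val_mk0,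
      Units.val_mk0, ← htt]
    push_cast
    rw [← mul_zpow, sq]
  have hδ' : T6.twNorm (starRingAut : ℂ ≃+* ℂ) 2 (infGL305 w (T5.ratG δ * D.R'.r ^ j))
      = Matrix.GeneralLinearGroup.map (algebraMap ℝ ℂ) (reGLQ298 (T5.ratG γ * D.R.r ^ j)) := by
    rw [hδ0, hγ', map_mul (Matrix.GeneralLinearGroup.map (algebraMap ℝ ℂ)), hZ]
    exact twNorm_core659 _ _ _ _ hemb hsc
      (fun x => Matrix.GeneralLinearGroup.scalar_commute _ x) hAB
  exact (archMatch_of_cent_eq659 (hLoc.arch w) hreg hc L.μtr hL.torr L.βr hL.cutr.1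
    hL.cutr.2.1 hL.cutr.2.2 _ hδ' β' hβ'c hβ'0 hβ').symm

end Fermat.Agent.LT.T7.H659

end

end
-- ===== PACK-END LT/T7/H659/LocEqArchQ.lean

-- ===== PACK-BEGIN LT/T7/H852/PtFactUp.lean
section





/-!
# Row LT, tower T7, leaf T7.L2.1.C2.7.13.1.B2 `PtFactUpC340` (registry 2750) -- helper852

OFF-MAIN.  No hole, nothing assumed.

    ptFactUpC852 (K K') : H340.PtFactUpC340 K K'        VERBATIM

Spec: `LT/T7/H340/UpFactSpec.lean` (helper340@4a08d18e4, sha256 04981afb), byte-identical copy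
with its closure.  Inputs (byte-identical copies): `sigmaLocC558` (helper558, the local form of
the adelic automorphism: `σ(y) ∈ Out_{S'}`), the component lemmas of helper454 (`PtFact.lean`).

For `y ∈ Out_{S'}` and `δ` integral outside `S'` the element `g = y⁻¹ δ σ(y) r'^j` lies in
`Out_{S'}` (`S'` is stable under `σ`), so the pure tensor at `g` is the product of its local
components over `S'` and over the infinite places of `K'`; `S'` is the disjoint union of the
fibres over `S = S_in ⊔ S_sp`, the infinite places of `K'` are the disjoint union of the fibres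
over the infinite places of `K`; the local components are computed by the fields `sig` of the
local data.  The module declares names under `Fermat.Agent.LT.T7.H852` only.
-/

set_option autoImplicit false
set_option linter.unusedSectionVars false

open IsDedekindDomain NumberField
open scoped ComplexConjugate

noncomputable section

namespace Fermat.Agent.LT.T7.H852

open Fermat.Agent.LT.H556 Fermat.Agent.LT.H556.A0 Fermat.Agent.LT.T7 Fermat.Agent.LT.T7.H305
open Fermat.Agent.LT.T7.H558 Fermat.Agent.LT.T7.H340 Fermat.Agent.LT.T7.H454.PtFact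

/-! ## 1. `σ` preserves `Out_{S'}` -/

section OneField

variable {K : Type} [Field K] [NumberField K]

/-- Every place is the image of a place under `σ`. -/
theorem exists_placeRel852 (s : T5.AdelicAut K) (w' : HeightOneSpectrum (𝓞 K)) :
    ∃ w : HeightOneSpectrum (𝓞 K), T5.PlaceRel s w w' := by
  set e : 𝓞 K ≃+* 𝓞 K := NumberField.RingOfIntegers.mapRingEquiv s.σ with he
  have hmc : Ideal.map (e : 𝓞 K →+* 𝓞 K) (Ideal.comap (e : 𝓞 K →+* 𝓞 K) w'.asIdeal)
      = w'.asIdeal := Ideal.map_comap_of_surjective _ e.surjective _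
  refine ⟨⟨Ideal.comap (e : 𝓞 K →+* 𝓞 K) w'.asIdeal, Ideal.comap_isPrime _ _, ?_⟩, ?_⟩
  · intro h
    rw [h, Ideal.map_bot] at hmc
    exact w'.ne_bot hmc.symm
  · exact hmc.symm

theorem finComp_onG852 (s : T5.AdelicAut K) (w : HeightOneSpectrum (𝓞 K)) (y : G K)
    (i k : Fin 2) :
    finComp w (s.onG y) i k
      = T5.finHom w (s.σA ((y : Matrix (Fin 2) (Fin 2) (Adl K)) i k)) := rfl

theorem finComp_apply852 (w : HeightOneSpectrum (𝓞 K)) (y : G K) (i k : Fin 2) :
    finComp w y i k = T5.finHom w ((y : Matrix (Fin 2) (Fin 2) (Adl K)) i k) := rfl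

/-- `σ` maps the elements which are integral at `w` to elements integral at `σ w`. -/
theorem isIntegralAt_onG852 (s : T5.AdelicAut K) {w w' : HeightOneSpectrum (𝓞 K)}
    (h : T5.PlaceRel s w w') {y : G K} (hy : IsIntegralAt w y) :
    IsIntegralAt w' (s.onG y) := by
  obtain ⟨sw, -, hval, hsig⟩ := (sigmaLocC558 (K := K) s).1 w w' h
  intro i k
  rw [finComp_onG852, hsig, HeightOneSpectrum.mem_adicCompletionIntegers, hval,
    ← HeightOneSpectrum.mem_adicCompletionIntegers, ← finComp_apply852]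
  exact hy i k

end OneField

section TwoFields

variable {K K' : Type} [Field K] [NumberField K] [Field K'] [NumberField K'] [Algebra K K']

/-- The generator fixes the image of `K`. -/
theorem sigma_algebraMap852 {D : CompData K K'} (hD : IsCompData D) (x : K) :
    D.s.σ (algebraMap K K' x) = algebraMap K K' x :=
  (hD.cyc.fixed _).1 ((hD.base _).2 ⟨x, rfl⟩)

/-- The place of `K` under a place of `K'` is unique. -/
theorem placeOver_down_unique852 {v v' : HeightOneSpectrum (𝓞 K)}
    {w : HeightOneSpectrum (𝓞 K')} (h : PlaceOver K K' v w) (h' : PlaceOver K K' v' w) :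
    v = v' := by
  apply HeightOneSpectrum.ext
  ext x
  have e : ((algebraMap (𝓞 K) (𝓞 K') x : 𝓞 K') : K') = algebraMap K K' (x : K) := rfl
  rw [h x _ e, h' x _ e]

/-- `σ w` lies over the same place as `w`. -/
theorem placeOver_of_rel852 {D : CompData K K'} (hD : IsCompData D)
    {v : HeightOneSpectrum (𝓞 K)} {w w' : HeightOneSpectrum (𝓞 K')}
    (h : T5.PlaceRel D.s w w') (hv : PlaceOver K K' v w) : PlaceOver K K' v w' := by
  intro x y hxy
  rw [hv x y hxy]
  have hfix : NumberField.RingOfIntegers.mapRingEquiv D.s.σ y = y := by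
    apply NumberField.RingOfIntegers.ext
    show D.s.σ (y : K') = (y : K')
    rw [hxy]
    exact sigma_algebraMap852 hD _
  have hsymm : (NumberField.RingOfIntegers.mapRingEquiv D.s.σ).symm y = y := by
    rw [RingEquiv.symm_apply_eq]
    exact hfix.symm
  have h1 : w'.asIdeal
      = Ideal.comap ((NumberField.RingOfIntegers.mapRingEquiv D.s.σ).symm : 𝓞 K' →+* 𝓞 K')
          w.asIdeal := by
    rw [h]
    exact Ideal.map_comap_of_equiv _
  rw [h1, Ideal.mem_comap]
  show y ∈ w.asIdeal ↔ (NumberField.RingOfIntegers.mapRingEquiv D.s.σ).symm y ∈ w.asIdeal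
  rw [hsymm]

/-- `σ` preserves `Out_{S'}` when `S'` is the set of the places over `S`. -/
theorem outT_onG852 {D : CompData K K'} (hD : IsCompData D)
    {S : Finset (HeightOneSpectrum (𝓞 K))} {S' : Finset (HeightOneSpectrum (𝓞 K'))}
    (hS : IsOver305 S S') {y : G K'} (hy : OutT305 S' y) : OutT305 S' (D.s.onG y) := by
  intro w' hw'
  obtain ⟨w, hw⟩ := exists_placeRel852 D.s w'
  have hwS : w ∉ S' := by
    intro hmem
    obtain ⟨v, hvS, hv⟩ := (hS w).1 hmem
    exact hw' ((hS w').2 ⟨v, hvS, placeOver_of_rel852 hD hw hv⟩)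
  refine ⟨isIntegralAt_onG852 D.s hw (hy w hwS).1, ?_⟩
  rw [← map_inv]
  exact isIntegralAt_onG852 D.s hw (hy w hwS).2

/-- `y⁻¹ δ σ(y) r'^j ∈ Out_{S'}`. -/
theorem outT_term852 {D : CompData K K'} (hD : IsCompData D)
    {S : Finset (HeightOneSpectrum (𝓞 K))} {S' : Finset (HeightOneSpectrum (𝓞 K'))}
    (hS : IsOver305 S S') {δ : GL (Fin 2) K'} (hδ : IntOut305 S' δ) {y : G K'}
    (hy : OutT305 S' y) (j : ℤ) :
    OutT305 S' (y⁻¹ * T5.ratG δ * D.s.onG y * D.R'.r ^ j) := by
  have hr : T5.IsRayGen D.R'.r := hD.frame'.ray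
  have hσ := outT_onG852 hD hS hy
  intro v hv
  have hyv : IntAt454 v y := hy v hv
  have hδv : IntAt454 v (T5.ratG δ) := intAt_ratG454 (hδ v hv)
  have hsv : IntAt454 v (D.s.onG y) := hσ v hv
  have hrv : IntAt454 v (D.R'.r ^ j) :=
    intAt_of_triv454 (trivAtFin_of_finGL454 (finGL_ray_zpow454 hr v j))
  exact intAt_mul454 (intAt_mul454 (intAt_mul454 (intAt_inv454 hyv) hδv) hsv) hrv

/-! ## 2. The fibres -/

/-- The finite product over `S'` is the product over the fibres. -/
theorem prod_fibres_fin852 {D : CompData K K'} {ι : Adl K →+* Adl K'}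
    {n : HeightOneSpectrum (𝓞 K') → ℕ} {S : Finset (HeightOneSpectrum (𝓞 K))}
    {S' : Finset (HeightOneSpectrum (𝓞 K'))} (hS : IsOver305 S S')
    {δ : GL (Fin 2) K'} {γ : GL (Fin 2) K} {L : LocData305 K γ} {U : UpDat340 K δ}
    (hU : IsUpDat340 D ι n L S U) (F : HeightOneSpectrum (𝓞 K') → ℂ) :
    ∏ w ∈ S', F w
      = (∏ v : U.Sin, F (U.dI v).w) * ∏ v : U.Ssp, ∏ a : Fin D.l, F ((U.dS v).w a.1) := by
  classical
  let p : U.Sin ⊕ (U.Ssp × Fin D.l) → HeightOneSpectrum (𝓞 K') := fun x =>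
    match x with
    | Sum.inl v => (U.dI v).w
    | Sum.inr x => (U.dS x.1).w x.2.1
  have hover : ∀ x : U.Sin ⊕ (U.Ssp × Fin D.l),
      ∃ v : HeightOneSpectrum (𝓞 K), v ∈ S ∧ PlaceOver K K' v (p x) ∧
        ((∃ h : v ∈ U.Sin, x = Sum.inl ⟨v, h⟩) ∨
          ∃ (h : v ∈ U.Ssp) (a : Fin D.l), x = Sum.inr (⟨v, h⟩, a)) := by
    rintro (v | ⟨v, a⟩)
    · exact ⟨v.1, (hU.union v.1).2 (Or.inl v.2), (hU.inert v).ovr, Or.inl ⟨v.2, rfl⟩⟩
    · exact ⟨v.1, (hU.union v.1).2 (Or.inr v.2), (hU.split v).ovr a.1, Or.inr ⟨v.2, a, rfl⟩⟩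
  have hinj : Function.Injective p := by
    intro x x' hxx
    obtain ⟨v, -, hv, hx⟩ := hover x
    obtain ⟨v', -, hv', hx'⟩ := hover x'
    rw [hxx] at hv
    have hvv : v = v' := placeOver_down_unique852 hv hv'
    subst hvv
    rcases hx with ⟨h, rfl⟩ | ⟨h, a, rfl⟩
    · rcases hx' with ⟨h', rfl⟩ | ⟨h', a', rfl⟩
      · rfl
      · exact absurd h' (hU.disj v h)
    · rcases hx' with ⟨h', rfl⟩ | ⟨h', a', rfl⟩
      · exact absurd h (hU.disj v h')
      · have e : a = a' :=
          Fin.ext ((hU.split ⟨v, h⟩).inj a.1 a'.1 a.2 a'.2 hxx)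
        rw [e]
  have himg : S' = Finset.univ.image p := by
    ext w
    rw [Finset.mem_image]
    constructor
    · intro hw
      obtain ⟨v, hvS, hv⟩ := (hS w).1 hw
      rcases (hU.union v).1 hvS with h | h
      · exact ⟨Sum.inl ⟨v, h⟩, Finset.mem_univ _, ((hU.inert ⟨v, h⟩).uniq w hv).symm⟩
      · obtain ⟨a, ha, hwa⟩ := (hU.split ⟨v, h⟩).exh w hv
        exact ⟨Sum.inr (⟨v, h⟩, ⟨a, ha⟩), Finset.mem_univ _, hwa.symm⟩
    · rintro ⟨x, -, rfl⟩
      obtain ⟨v, hvS, hv, -⟩ := hover x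
      exact (hS _).2 ⟨v, hvS, hv⟩
  rw [himg, Finset.prod_image (fun x _ x' _ h => hinj h), Fintype.prod_sum_type,
    Fintype.prod_prod_type]

/-- The product over the infinite places of `K'` is the product over the fibres. -/
theorem prod_fibres_inf852 {D : CompData K K'} {ι : Adl K →+* Adl K'}
    {n : HeightOneSpectrum (𝓞 K') → ℕ} {S : Finset (HeightOneSpectrum (𝓞 K))}
    {δ : GL (Fin 2) K'} {γ : GL (Fin 2) K} {L : LocData305 K γ} {U : UpDat340 K δ}
    (hU : IsUpDat340 D ι n L S U) (F : InfinitePlace K' → ℂ) :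
    ∏ w : InfinitePlace K', F w
      = ∏ v : InfinitePlace K, ∏ a : Fin D.l, F ((U.dA v).w a.1) := by
  classical
  let q : InfinitePlace K × Fin D.l → InfinitePlace K' := fun x => (U.dA x.1).w x.2.1
  have hq : Function.Bijective q := by
    constructor
    · rintro ⟨v, a⟩ ⟨v', a'⟩ h
      have h1 : ((U.dA v).w a.1).comap (algebraMap K K') = v := (hU.arch v).ovr a.1
      have h2 : ((U.dA v').w a'.1).comap (algebraMap K K') = v' := (hU.arch v').ovr a'.1
      have hvv : v = v' := by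
        rw [← h1, ← h2]
        exact congrArg (fun w : InfinitePlace K' => w.comap (algebraMap K K')) h
      subst hvv
      have e : a = a' := Fin.ext ((hU.arch v).inj a.1 a'.1 a.2 a'.2 h)
      rw [e]
    · intro w
      obtain ⟨a, ha, hwa⟩ := (hU.arch (w.comap (algebraMap K K'))).exh w rfl
      exact ⟨(w.comap (algebraMap K K'), ⟨a, ha⟩), hwa.symm⟩
  rw [← Fintype.prod_prod_type (f := fun x : InfinitePlace K × Fin D.l => F (q x))]
  exact (Fintype.prod_bijective q hq _ _ fun _ => rfl).symm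

/-! ## 3. The local components -/

/-- The finite components of `y⁻¹ δ σ(y) r'^j`. -/
theorem finGL_term852 {D : CompData K K'} (hD : IsCompData D) (w : HeightOneSpectrum (𝓞 K'))
    (δ : GL (Fin 2) K') (y : G K') (j : ℤ) :
    finGL305 w (y⁻¹ * T5.ratG δ * D.s.onG y * D.R'.r ^ j)
      = (finGL305 w y)⁻¹ * locG305 w δ * finGL305 w (D.s.onG y) := by
  rw [map_mul, map_mul, map_mul, map_inv, finGL_ratG454,
    finGL_ray_zpow454 hD.frame'.ray w j, mul_one]

/-- The infinite components of `y⁻¹ δ σ(y) r'^j`. -/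
theorem infGL_term852 {D : CompData K K'} (hD : IsCompData D) (w : InfinitePlace K')
    (δ : GL (Fin 2) K') (y : G K') (j : ℤ) :
    infGL305 w (y⁻¹ * T5.ratG δ * D.s.onG y * D.R'.r ^ j)
      = (infGL305 w y)⁻¹ * infGL305 w (T5.ratG δ * D.R'.r ^ j) * infGL305 w (D.s.onG y) := by
  have hc : Commute (infGL305 w D.R'.r ^ j) (infGL305 w (D.s.onG y)) :=
    (commute_infGL_ray454 hD.frame'.ray w (infGL305 w (D.s.onG y))).zpow_left j
  rw [map_mul, map_mul, map_mul, map_mul, map_inv, map_zpow, mul_assoc, mul_assoc, mul_assoc,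
    mul_assoc, hc.eq]

/-- The component of `σ(y)` at a place with ONE place over it. -/
theorem finGL_onG_inert852 {D : CompData K K'} {ι : Adl K →+* Adl K'}
    {n : HeightOneSpectrum (𝓞 K') → ℕ} {δ : GL (Fin 2) K'} {γ : GL (Fin 2) K}
    {L : LocData305 K γ} {v : HeightOneSpectrum (𝓞 K)} {d : InertDat340 δ v}
    (hd : IsInertDat340 D ι n L d) (y : G K') :
    finGL305 d.w (D.s.onG y) = T6.glAut d.sw (finGL305 d.w y) := by
  apply Units.ext
  refine Matrix.ext fun i k => ?_
  exact hd.sig _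

/-- The coordinates at a split place, back in `K'_{w_a}`. -/
theorem map_coordS852 {v : HeightOneSpectrum (𝓞 K)} (d : SplitDat340 K' v) (l : ℕ) (y : G K')
    (a : Fin l) :
    Matrix.GeneralLinearGroup.map
        ((d.i a.1 : v.adicCompletion K ≃+* _) : v.adicCompletion K →+* (d.w a.1).adicCompletion K')
        (coordS340 d l y a) = finGL305 (d.w a.1) y := by
  apply Units.ext
  refine Matrix.ext fun i k => ?_
  exact (d.i a.1).apply_symm_apply _

/-- The components of `δ` at a split place, back in `K'_{w_j}`. -/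
theorem map_delS852 (δ : GL (Fin 2) K') {v : HeightOneSpectrum (𝓞 K)} (d : SplitDat340 K' v)
    (j : ℕ) :
    Matrix.GeneralLinearGroup.map
        ((d.i j : v.adicCompletion K ≃+* _) : v.adicCompletion K →+* (d.w j).adicCompletion K')
        (delS340 δ d j) = locG305 (d.w j) δ := by
  apply Units.ext
  refine Matrix.ext fun i k => ?_
  exact (d.i j).apply_symm_apply _

/-- The component of `σ(y)` at a split place. -/
theorem finGL_onG_split852 {D : CompData K K'} {ι : Adl K →+* Adl K'}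
    {v : HeightOneSpectrum (𝓞 K)} {d : SplitDat340 K' v} (hd : IsSplitDat340 D ι d)
    (a : Fin D.l) (y : G K') :
    Matrix.GeneralLinearGroup.map
        ((d.i a.1 : v.adicCompletion K ≃+* _) : v.adicCompletion K →+* (d.w a.1).adicCompletion K')
        (coordS340 d D.l y (cycSucc340 a)) = finGL305 (d.w a.1) (D.s.onG y) := by
  apply Units.ext
  refine Matrix.ext fun i k => ?_
  have h := hd.sig a ((y : Matrix (Fin 2) (Fin 2) (Adl K')) i k)
  have h2 := congrArg (d.i a.1) h
  rw [RingEquiv.apply_symm_apply] at h2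
  exact h2.symm

/-- The local term at a split place. -/
theorem split_term852 {D : CompData K K'} (hD : IsCompData D) {ι : Adl K →+* Adl K'}
    {v : HeightOneSpectrum (𝓞 K)} {d : SplitDat340 K' v} (hd : IsSplitDat340 D ι d)
    (φ₀ : ∀ w : HeightOneSpectrum (𝓞 K'), GL (Fin 2) (w.adicCompletion K') → ℂ)
    (δ : GL (Fin 2) K') (y : G K') (j : ℤ) (a : Fin D.l) :
    φ₀ (d.w a.1) (finGL305 (d.w a.1) (y⁻¹ * T5.ratG δ * D.s.onG y * D.R'.r ^ j))
      = phiS340 φ₀ d a.1
          ((coordS340 d D.l y a)⁻¹ * delS340 δ d a.1 * coordS340 d D.l y (cycSucc340 a)) := by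
  have e : Matrix.GeneralLinearGroup.map
      ((d.i a.1 : v.adicCompletion K ≃+* _) :
        v.adicCompletion K →+* (d.w a.1).adicCompletion K')
      ((coordS340 d D.l y a)⁻¹ * delS340 δ d a.1 * coordS340 d D.l y (cycSucc340 a))
      = finGL305 (d.w a.1) (y⁻¹ * T5.ratG δ * D.s.onG y * D.R'.r ^ j) := by
    rw [finGL_term852 hD, map_mul, map_mul, map_inv, map_coordS852, map_delS852,
      finGL_onG_split852 hd]
  show _ = φ₀ (d.w a.1) (Matrix.GeneralLinearGroup.map
    ((d.i a.1 : v.adicCompletion K ≃+* _) : v.adicCompletion K →+* (d.w a.1).adicCompletion K')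
    ((coordS340 d D.l y a)⁻¹ * delS340 δ d a.1 * coordS340 d D.l y (cycSucc340 a)))
  rw [e]

/-- The coordinates of `σ(y)` at an infinite place. -/
theorem infGL_onG_arch852 {D : CompData K K'} {ι : Adl K →+* Adl K'} {v : InfinitePlace K}
    {d : ArchDat340 K'} (hd : IsArchDat340 D ι v d) (a : Fin D.l) (y : G K') :
    Matrix.GeneralLinearGroup.map (d.d a.1) (infGL305 (d.w a.1) (D.s.onG y))
      = coordA340 d D.l y (cycSucc340 a) := by
  apply Units.ext
  refine Matrix.ext fun i k => ?_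
  exact hd.sig a ((y : Matrix (Fin 2) (Fin 2) (Adl K')) i k)

/-- A conjugation-invariant function does not see the type. -/
theorem phi_map_type852 (Φ : GL (Fin 2) ℂ → ℂ) (hΦ : ∀ g : GL (Fin 2) ℂ, Φ (conjGL305 g) = Φ g)
    (c : ℂ →+* ℂ) (hc : c = RingHom.id ℂ ∨ c = starRingEnd ℂ) (X : GL (Fin 2) ℂ) :
    Φ (Matrix.GeneralLinearGroup.map c X) = Φ X := by
  rcases hc with rfl | rfl
  · have e : Matrix.GeneralLinearGroup.map (RingHom.id ℂ) X = X := by
      apply Units.ext
      ext i k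
      rfl
    rw [e]
  · exact hΦ X

/-- The local term at an infinite place. -/
theorem arch_term852 {D : CompData K K'} (hD : IsCompData D) {ι : Adl K →+* Adl K'}
    {v : InfinitePlace K} {d : ArchDat340 K'} (hd : IsArchDat340 D ι v d)
    (Φ : InfinitePlace K' → GL (Fin 2) ℂ → ℂ)
    (hΦ : ∀ (w : InfinitePlace K') (g : GL (Fin 2) ℂ), Φ w (conjGL305 g) = Φ w g)
    (δ : GL (Fin 2) K') (y : G K') (j : ℤ) (a : Fin D.l) :
    Φ (d.w a.1) (infGL305 (d.w a.1) (y⁻¹ * T5.ratG δ * D.s.onG y * D.R'.r ^ j))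
      = Φ (d.w a.1)
          ((coordA340 d D.l y a)⁻¹ * delA340 D.R'.r δ d j a.1
            * coordA340 d D.l y (cycSucc340 a)) := by
  have e : (coordA340 d D.l y a)⁻¹ * delA340 D.R'.r δ d j a.1
        * coordA340 d D.l y (cycSucc340 a)
      = Matrix.GeneralLinearGroup.map (d.d a.1)
          (infGL305 (d.w a.1) (y⁻¹ * T5.ratG δ * D.s.onG y * D.R'.r ^ j)) := by
    rw [infGL_term852 hD, map_mul, map_mul, map_inv, infGL_onG_arch852 hd]
    rfl
  rw [e, phi_map_type852 (Φ (d.w a.1)) (hΦ (d.w a.1)) (d.d a.1) (hd.typ a.1)]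

/-! ## 4. The leaf -/

/-- **LEAF UF.B2 = PT-FACT-UP.** -/
theorem ptFactUpC852 (K K' : Type) [Field K] [NumberField K] [Field K'] [NumberField K']
    [Algebra K K'] : PtFactUpC340 K K' := by
  intro D hD _ _ _ ι _ n S S' hS φ₀ Φ hΦ δ γ hδ L U hU y j hy
  have hout := outT_term852 hD hS hδ hy j
  have e : pure305 S' φ₀ Φ (y⁻¹ * T5.ratG δ * D.s.onG y * D.R'.r ^ j)
      = (∏ w ∈ S', φ₀ w (finGL305 w (y⁻¹ * T5.ratG δ * D.s.onG y * D.R'.r ^ j))) *
        ∏ w : InfinitePlace K',
          Φ w (infGL305 w (y⁻¹ * T5.ratG δ * D.s.onG y * D.R'.r ^ j)) :=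
    if_pos hout
  rw [e, prod_fibres_fin852 hS hU, prod_fibres_inf852 hU]
  have e1 : (∏ v : U.Sin, φ₀ (U.dI v).w
        (finGL305 (U.dI v).w (y⁻¹ * T5.ratG δ * D.s.onG y * D.R'.r ^ j)))
      = ∏ v : U.Sin, φ₀ (U.dI v).w
          ((finGL305 (U.dI v).w y)⁻¹ * locG305 (U.dI v).w δ
            * T6.glAut (U.dI v).sw (finGL305 (U.dI v).w y)) :=
    Finset.prod_congr rfl fun v _ => by
      rw [finGL_term852 hD, finGL_onG_inert852 (hU.inert v)]
  have e2 : (∏ v : U.Ssp, ∏ a : Fin D.l, φ₀ ((U.dS v).w a.1)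
        (finGL305 ((U.dS v).w a.1) (y⁻¹ * T5.ratG δ * D.s.onG y * D.R'.r ^ j)))
      = ∏ v : U.Ssp, cycProd340 D.l (phiS340 φ₀ (U.dS v)) (delS340 δ (U.dS v))
          (coordS340 (U.dS v) D.l y) :=
    Finset.prod_congr rfl fun v _ =>
      Finset.prod_congr rfl fun a _ => split_term852 hD (hU.split v) φ₀ δ y j a
  have e3 : (∏ v : InfinitePlace K, ∏ a : Fin D.l, Φ ((U.dA v).w a.1)
        (infGL305 ((U.dA v).w a.1) (y⁻¹ * T5.ratG δ * D.s.onG y * D.R'.r ^ j)))
      = ∏ v : InfinitePlace K, cycProd340 D.l (fun a => Φ ((U.dA v).w a))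
          (delA340 D.R'.r δ (U.dA v) j) (coordA340 (U.dA v) D.l y) :=
    Finset.prod_congr rfl fun v _ =>
      Finset.prod_congr rfl fun a _ => arch_term852 hD (hU.arch v) Φ hΦ δ y j a
  rw [e1, e2, e3]

end TwoFields

end Fermat.Agent.LT.T7.H852

end

end
-- ===== PACK-END LT/T7/H852/PtFactUp.lean

-- ===== PACK-BEGIN LT/T7/H941/SuppUpGlue.lean
section




/-!
# Row LT, tower T7, level 2, leaf T7.L2.1.C2.7.13.1.A2 `SuppUpC340` -- THE GLOBAL GLUE
(helper941, spare of row 2746)

OFF-MAIN.  PROVED, nothing assumed: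

    suppUp_glue941    : (∀ v ∉ S, LocSuppUp941 s δ v) → (twisted support statement for `S'`)
    suppUpC_of_loc941 : LocSuppUpC941 K K' → H340.SuppUpC340 K K'            (VERBATIM)

`LocSuppUp941 s δ v` is the LOCAL-TO-GLOBAL statement AT ONE PLACE `v` of `K`: if
`x⁻¹ δ σ(x) ∈ GL₂(𝒪_w)` at the places `w ∣ v`, there is `t ∈ T_𝔸(δ)` (the twisted centraliser),
supported at the places over `v`, with `(t⁻¹ x)_w ∈ GL₂(𝒪_w)` for `w ∣ v`.  (Inert `v`:
`locFin129 w t_w` with `t_w` of helper159 `goodUnit_up159`; split `v`: the product of the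
`locFin129 (w j) (i_j t_j)` with `t` of helper159 `goodUnit_split159`.)

Proof of the glue: as `SuppDownC305` (`SuppDown.lean`): `x_w ∈ GL₂(𝒪_w)` for almost all `w`;
induction on a finite set `B` of places of `K` such that `x_w ∈ GL₂(𝒪_w)` for the `w ∉ S'` which
do not lie over a place of `B`; `x⁻¹ δ σ(x)` does not change if `x` is replaced by `t⁻¹ x`,
`t ∈ T_𝔸(δ)`.
-/

set_option autoImplicit false

open AutomorphicForm IsDedekindDomain NumberField MeasureTheory

noncomputable section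

namespace Fermat.Agent.LT.T7.H941

open Fermat.Agent.LT Fermat.Agent.LT.H556 Fermat.Agent.LT.H556.A0 Fermat.Agent.LT.T7
open Fermat.Agent.LT.T7.H305 Fermat.Agent.LT.T7.H340

/-! ## The twisted centraliser -/

section OneField

variable {K : Type} [Field K] [NumberField K]

theorem mem_tA_tw941 (s : T5.AdelicAut K) (δ : GL (Fin 2) K) (t : G K) :
    t ∈ tA305 s δ ↔ t⁻¹ * T5.ratG δ * s.onG t = T5.ratG δ := Iff.rfl

/-- `x⁻¹ δ σ(x)` does not change if `x` is multiplied on the left by an element of `T_𝔸(δ)`. -/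
theorem twConj_inv_mul941 (s : T5.AdelicAut K) (δ : GL (Fin 2) K) {t : G K}
    (ht : t ∈ tA305 s δ) (x : G K) :
    (t⁻¹ * x)⁻¹ * T5.ratG δ * s.onG (t⁻¹ * x) = x⁻¹ * T5.ratG δ * s.onG x := by
  have h : t⁻¹ * T5.ratG δ * s.onG t = T5.ratG δ := ht
  have h' : t * T5.ratG δ * (s.onG t)⁻¹ = T5.ratG δ := by
    calc t * T5.ratG δ * (s.onG t)⁻¹
        = t * (t⁻¹ * T5.ratG δ * s.onG t) * (s.onG t)⁻¹ := by rw [h]
      _ = T5.ratG δ := by group
  calc (t⁻¹ * x)⁻¹ * T5.ratG δ * s.onG (t⁻¹ * x)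
      = x⁻¹ * (t * T5.ratG δ * (s.onG t)⁻¹) * s.onG x := by
        rw [map_mul, map_inv]
        group
    _ = x⁻¹ * T5.ratG δ * s.onG x := by rw [h']

end OneField

variable {K K' : Type} [Field K] [NumberField K] [Field K'] [NumberField K'] [Algebra K K']

/-! ## Places over places -/

/-- At most one place of `K` lies under a place of `K'`. -/
theorem placeOver_unique941 {v v' : HeightOneSpectrum (𝓞 K)} {w : HeightOneSpectrum (𝓞 K')}
    (h : PlaceOver K K' v w) (h' : PlaceOver K K' v' w) : v = v' := by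
  ext1
  ext x
  exact (h x (algebraMap (𝓞 K) (𝓞 K') x) rfl).trans (h' x (algebraMap (𝓞 K) (𝓞 K') x) rfl).symm

variable (K) in
/-- The place of `K` under a place of `K'`. -/
def under941 (w : HeightOneSpectrum (𝓞 K')) : HeightOneSpectrum (𝓞 K) where
  asIdeal := Ideal.comap (algebraMap (𝓞 K) (𝓞 K')) w.asIdeal
  isPrime := Ideal.comap_isPrime _ _
  ne_bot := Ideal.IsIntegral.comap_ne_bot (𝓞 K) w.ne_bot

theorem placeOver_under941 (w : HeightOneSpectrum (𝓞 K')) :
    PlaceOver K K' (under941 K w) w := by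
  intro x y hxy
  have hy : y = algebraMap (𝓞 K) (𝓞 K') x := by
    apply RingOfIntegers.ext
    exact hxy
  rw [hy]
  exact Ideal.mem_comap

/-- A place over a place outside `S` is outside `S'`. -/
theorem notMem_of_placeOver941 {S : Finset (HeightOneSpectrum (𝓞 K))}
    {S' : Finset (HeightOneSpectrum (𝓞 K'))} (hSS' : IsOver305 S S')
    {v : HeightOneSpectrum (𝓞 K)} {w : HeightOneSpectrum (𝓞 K')} (hv : v ∉ S)
    (hw : PlaceOver K K' v w) : w ∉ S' := by
  intro hwS
  obtain ⟨v', hv', hw'⟩ := (hSS' w).1 hwS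
  rw [placeOver_unique941 hw hw'] at hv
  exact hv hv'

/-! ## The local-to-global statement at one place -/

/-- **The local-to-global statement at the place `v` of `K`.** -/
def LocSuppUp941 (s : T5.AdelicAut K') (δ : GL (Fin 2) K') (v : HeightOneSpectrum (𝓞 K)) :
    Prop :=
  ∀ x : G K',
    (∀ w : HeightOneSpectrum (𝓞 K'), PlaceOver K K' v w →
      T6.InU 0 (finGL305 w (x⁻¹ * T5.ratG δ * s.onG x))) →
    ∃ t : G K', t ∈ tA305 s δ ∧
      (∀ w : HeightOneSpectrum (𝓞 K'), ¬ PlaceOver K K' v w → finGL305 w t = 1) ∧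
      ∀ w : HeightOneSpectrum (𝓞 K'), PlaceOver K K' v w → T6.InU 0 (finGL305 w (t⁻¹ * x))

/-! ## The induction -/

theorem suppUp_aux941 (s : T5.AdelicAut K') (δ : GL (Fin 2) K')
    (S : Finset (HeightOneSpectrum (𝓞 K))) (S' : Finset (HeightOneSpectrum (𝓞 K')))
    (hSS' : IsOver305 S S')
    (hloc : ∀ v : HeightOneSpectrum (𝓞 K), v ∉ S → LocSuppUp941 (K := K) s δ v)
    (B : Finset (HeightOneSpectrum (𝓞 K))) :
    ∀ x : G K',
      (∀ w : HeightOneSpectrum (𝓞 K'), w ∉ S' →
        T6.InU 0 (finGL305 w (x⁻¹ * T5.ratG δ * s.onG x))) →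
      (∀ w : HeightOneSpectrum (𝓞 K'), w ∉ S' →
        (∀ v ∈ B, ¬ PlaceOver K K' v w) → T6.InU 0 (finGL305 w x)) →
      ∃ t : G K', t ∈ tA305 s δ ∧
        ∀ w : HeightOneSpectrum (𝓞 K'), w ∉ S' → T6.InU 0 (finGL305 w (t⁻¹ * x)) := by
  classical
  induction B using Finset.induction_on with
  | empty =>
    intro x _ hx
    refine ⟨1, Subgroup.one_mem _, fun w hw => ?_⟩
    rw [inv_one, one_mul]
    exact hx w hw (fun v hv => absurd hv (Finset.notMem_empty v))
  | insert v₀ B' hv₀ ih =>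
    intro x hconj hx
    by_cases hS : v₀ ∈ S
    · apply ih x hconj
      intro w hw hB
      apply hx w hw
      intro v hv
      rcases Finset.mem_insert.1 hv with rfl | h
      · intro hvw
        exact hw ((hSS' w).2 ⟨v, hS, hvw⟩)
      · exact hB v h
    · obtain ⟨T, hT, hT1, hT2⟩ := hloc v₀ hS x
        (fun w hw => hconj w (notMem_of_placeOver941 hSS' hS hw))
      have h1 : ∀ w : HeightOneSpectrum (𝓞 K'), w ∉ S' →
          T6.InU 0 (finGL305 w ((T⁻¹ * x)⁻¹ * T5.ratG δ * s.onG (T⁻¹ * x))) := by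
        intro w hw
        rw [twConj_inv_mul941 s δ hT x]
        exact hconj w hw
      have h2 : ∀ w : HeightOneSpectrum (𝓞 K'), w ∉ S' →
          (∀ v ∈ B', ¬ PlaceOver K K' v w) → T6.InU 0 (finGL305 w (T⁻¹ * x)) := by
        intro w hw hB
        by_cases hvw : PlaceOver K K' v₀ w
        · exact hT2 w hvw
        · rw [map_mul, map_inv, hT1 w hvw, inv_one, one_mul]
          apply hx w hw
          intro v hv
          rcases Finset.mem_insert.1 hv with rfl | h
          · exact hvw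
          · exact hB v h
      obtain ⟨t', ht', hout⟩ := ih (T⁻¹ * x) h1 h2
      refine ⟨T * t', Subgroup.mul_mem _ hT ht', fun w hw => ?_⟩
      have e : (T * t')⁻¹ * x = t'⁻¹ * (T⁻¹ * x) := by group
      rw [e]
      exact hout w hw

/-- **THE GLOBAL GLUE.** -/
theorem suppUp_glue941 (s : T5.AdelicAut K') (δ : GL (Fin 2) K')
    (S : Finset (HeightOneSpectrum (𝓞 K))) (S' : Finset (HeightOneSpectrum (𝓞 K')))
    (hSS' : IsOver305 S S')
    (hloc : ∀ v : HeightOneSpectrum (𝓞 K), v ∉ S → LocSuppUp941 (K := K) s δ v)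
    (x : G K') (hx : OutT305 S' (x⁻¹ * T5.ratG δ * s.onG x)) :
    ∃ t : G K', t ∈ tA305 s δ ∧ OutT305 S' (t⁻¹ * x) := by
  classical
  obtain ⟨t, ht, hout⟩ := suppUp_aux941 s δ S S' hSS' hloc
    ((finite_nonint941 x).toFinset.image (under941 K)) x ((outT_iff941 S' _).1 hx)
    (fun w _ hB => by
      by_contra h
      refine hB (under941 K w) ?_ (placeOver_under941 w)
      exact Finset.mem_image.2 ⟨w, (Set.Finite.mem_toFinset _).2 h, rfl⟩)
  exact ⟨t, ht, (outT_iff941 S' _).2 hout⟩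

/-! ## The leaf from the local statement -/

variable (K K')

/-- **THE LOCAL STATEMENT**: under the hypotheses of `H340.SuppUpC340`, the local-to-global
statement at every place `v ∉ S`. -/
def LocSuppUpC941 : Prop :=
  T6.T6Out →
  ∀ D : CompData K K', IsCompData D → IsCycExt K K' D.l → D.l ≠ 2 → TotCplx K →
    ∀ (T₀ : Finset (HeightOneSpectrum (𝓞 K))), UnramOut305 (K' := K') T₀ →
    ∀ (S : Finset (HeightOneSpectrum (𝓞 K))) (S' : Finset (HeightOneSpectrum (𝓞 K'))),
      T₀ ⊆ S → IsOver305 S S' →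
    ∀ (δ : GL (Fin 2) K') (γ : GL (Fin 2) K), T6.IsEll γ →
      D.s.normUpTo D.l δ = Matrix.GeneralLinearGroup.map (algebraMap K K') γ →
      GoodOut305 S γ → IntOut305 S' δ →
    ∀ v : HeightOneSpectrum (𝓞 K), v ∉ S → LocSuppUp941 (K := K) D.s δ v

/-- **`H340.SuppUpC340` from the local statement**, verbatim. -/
theorem suppUpC_of_loc941 (h : LocSuppUpC941 K K') : SuppUpC340 K K' := by
  intro hT6 D hD hC hl hK T₀ hT₀ S S' hTS hSS' δ γ hγ hN hG hI x hx
  exact suppUp_glue941 D.s δ S S' hSS'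
    (fun v hv => h hT6 D hD hC hl hK T₀ hT₀ S S' hTS hSS' δ γ hγ hN hG hI v hv) x hx

end Fermat.Agent.LT.T7.H941

end

end
-- ===== PACK-END LT/T7/H941/SuppUpGlue.lean

-- ===== PACK-BEGIN LT/T7/H560/SuppOutUp.lean
section



/-!
# Row LT, tower T7, node C2.7.13.1, leaf UF.A1 `SuppOutUpC340` (helper560, registry 2745)

OFF-MAIN.  ADDITIVE (new names only, suffix `560`).  Spec: `T7/H340/UpFactSpec.lean`
(helper340@4a08d18e4, sha256 04981afb), byte-identical copy with its closure.

    suppOutUpC560 (K) : H340.SuppOutUpC340 K        (VERBATIM, unconditional)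

Proof (the proof of `SuppOutC558` with any adelic automorphism `s`).
`twTerm r s φ δ x = ∑' m : ℤ, φ (x⁻¹ δ s(x) rᵐ)`; a non-zero `tsum` has a non-zero term;
`pure305 S f₀ F h ≠ 0` gives `OutT305 S h`; `rᵐ` is trivial at the finite places, so the
components of `x⁻¹ δ s(x) rᵐ` and of its inverse at `v` are those of `x⁻¹ δ s(x)`.
-/

set_option autoImplicit false

open AutomorphicForm IsDedekindDomain NumberField MeasureTheory

noncomputable section

namespace Fermat.Agent.LT.T7.H560

open Fermat.Agent.LT.H556 Fermat.Agent.LT.H556.A0 Fermat.Agent.LT.T7 Fermat.Agent.LT.T7.H305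

variable {K : Type} [Field K] [NumberField K]

/-- `finComp v g` is the matrix of `finGL305 v g`. -/
theorem finComp_eq_finGL560 (v : HeightOneSpectrum (𝓞 K)) (g : G K) :
    finComp v g = ((finGL305 v g : GL (Fin 2) (v.adicCompletion K)) :
      Matrix (Fin 2) (Fin 2) (v.adicCompletion K)) := rfl

/-- An element which is trivial at `v` has trivial component at `v`. -/
theorem finGL_eq_one_of_triv560 (v : HeightOneSpectrum (𝓞 K)) (r : G K) (h : TrivAtFin v r) :
    finGL305 v r = 1 := by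
  apply Units.ext
  rw [← finComp_eq_finGL560]
  exact h

/-- Integrality at `v` depends on the component at `v` only. -/
theorem isIntegralAt_congr560 (v : HeightOneSpectrum (𝓞 K)) (g h : G K)
    (hgh : finGL305 v g = finGL305 v h) : IsIntegralAt v g ↔ IsIntegralAt v h := by
  unfold IsIntegralAt
  rw [finComp_eq_finGL560, finComp_eq_finGL560, hgh]

/-- `Out_T` is stable under right multiplication by an element which is trivial at the finite
places (both directions). -/
theorem outT_mul_triv_iff560 (T : Finset (HeightOneSpectrum (𝓞 K))) (h z : G K)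
    (hz : ∀ v : HeightOneSpectrum (𝓞 K), TrivAtFin v z) :
    OutT305 T (h * z) ↔ OutT305 T h := by
  have key : ∀ v : HeightOneSpectrum (𝓞 K),
      finGL305 v (h * z) = finGL305 v h ∧ finGL305 v (h * z)⁻¹ = finGL305 v h⁻¹ := by
    intro v
    have hzv : finGL305 v z = 1 := finGL_eq_one_of_triv560 v z (hz v)
    constructor
    · rw [map_mul, hzv, mul_one]
    · rw [mul_inv_rev, map_mul, map_inv, hzv, inv_one, one_mul]
  constructor
  · intro hout v hv
    exact ⟨(isIntegralAt_congr560 v _ _ (key v).1).1 (hout v hv).1,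
      (isIntegralAt_congr560 v _ _ (key v).2).1 (hout v hv).2⟩
  · intro hout v hv
    exact ⟨(isIntegralAt_congr560 v _ _ (key v).1).2 (hout v hv).1,
      (isIntegralAt_congr560 v _ _ (key v).2).2 (hout v hv).2⟩

/-- The powers of an element which is trivial at the finite places are trivial there. -/
theorem trivAtFin_zpow560 (r : G K) (hr : ∀ v : HeightOneSpectrum (𝓞 K), TrivAtFin v r)
    (m : ℤ) (v : HeightOneSpectrum (𝓞 K)) : TrivAtFin v (r ^ m) := by
  have h1 : finGL305 v (r ^ m) = 1 := by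
    rw [map_zpow, finGL_eq_one_of_triv560 v r (hr v), one_zpow]
  show finComp v (r ^ m) = 1
  rw [finComp_eq_finGL560, h1]
  rfl

/-- A non-zero value of the pure tensor: the argument lies in `Out_T`. -/
theorem outT_of_pure_ne_zero560 (T : Finset (HeightOneSpectrum (𝓞 K)))
    (f₀ : ∀ v : HeightOneSpectrum (𝓞 K), GL (Fin 2) (v.adicCompletion K) → ℂ)
    (F : InfinitePlace K → GL (Fin 2) ℂ → ℂ) (h : G K) (hne : pure305 T f₀ F h ≠ 0) :
    OutT305 T h := by
  by_contra hno
  apply hne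
  unfold pure305
  rw [if_neg hno]

/-- **LEAF UF.A1 = SUPP-OUT-UP** (`H340.SuppOutUpC340`, VERBATIM). -/
theorem suppOutUpC560 (K : Type) [Field K] [NumberField K] : H340.SuppOutUpC340 K := by
  intro r hr s S f₀ F δ x hne
  have h1 : ∃ m : ℤ, pure305 S f₀ F
      (x⁻¹ * T5.ratG δ * s.onG x * r ^ m) ≠ 0 := by
    by_contra hcon
    simp only [not_exists, ne_eq, not_not] at hcon
    apply hne
    show (∑' m : ℤ, pure305 S f₀ F
      (x⁻¹ * T5.ratG δ * s.onG x * r ^ m)) = 0
    simp only [hcon]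
    exact tsum_zero
  obtain ⟨m, hm⟩ := h1
  have hout : OutT305 S (x⁻¹ * T5.ratG δ * s.onG x * r ^ m) :=
    outT_of_pure_ne_zero560 S f₀ F _ hm
  exact (outT_mul_triv_iff560 S _ _ (trivAtFin_zpow560 r hr.1 m)).1 hout

end Fermat.Agent.LT.T7.H560

end

end
-- ===== PACK-END LT/T7/H560/SuppOutUp.lean

-- ===== PACK-BEGIN LT/T7/H453/IotaOnto.lean
section




/-!
# Row LT, tower T7, leaf T7.L2.1.C2.4.4 `H600.IotaOntoC600` (helper453)

OFF-MAIN.  Registry row 2551.  Spec: `T7/H600/IotaTop.lean` of helper600 (sha256 59f950efa88d4d99,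
origin/helper600@6643f774f) with its closure; assets `T6/H267/InstExt.lean` (helper267: `locIncl`,
`locAut`, `fixed_mem_range`) and `T6/H116/InstSplit.lean` (helper116: density of `K` in `K'_w` at a
place of ramification index and residue degree one); byte-identical copies.

    iotaOntoC453 K K' : H600.IotaOntoC600 K K'

i.e. (from `H305.SigmaLocC305 K'`, `IsCompData D`, `IsCycExt K K' D.l`, `TotCplx K`) every adele
`y` of `K'` with `σ_𝔸 y = y` is `iota600 K K' x` for an adele `x` of `K`.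

## Proof

* `exists_gen453`: `σ` is an automorphism of `K'` over `K` of order `l = [K' : K]`, so it
  generates the Galois group.
* `unique_or_split453` (fundamental identity for Galois extensions, `l` prime): a place `w` of
  `K'` is the only place over `v = w ∩ K`, or `e = f = 1`.
* LOCAL, one place above (`fixed_mem_range_locB453`): the local automorphism `s_w` of
  `SigmaLocC305` is `T6.H267.locAut` (density of `K'`, continuity), and the fixed points of
  `locAut` are in the range of the local inclusion (`T6.H267.fixed_mem_range`).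
* LOCAL, `e = f = 1` (`locB_surjective453`): `K` is dense in `K'_w` (`T6.H116.dense_h116`) and the
  range of the local inclusion is closed, so the local inclusion is onto.
* INFINITE places (`exists_goodInf453`): `K` is totally complex, the completions are `ℂ`.
* GLUE (`GoodFin453`, `GoodInf453`, cast-free: "EVERY continuous extension of `K → K'` maps `a` to
  the component of `y`"): the property passes from `w` to `σ w` (`goodFin_step453`,
  `goodInf_step453`, by `SigmaLocC305` and `σ_𝔸 y = y`), and the Galois group permutes the places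
  over `v` transitively (`exists_iterate_eq453`, `exists_iterate_inf453`).
* `x_v` is integral where `y_w` is (`locB600_mem_integers_iff`), so `x` is an adele.
-/

set_option autoImplicit false
set_option linter.unusedSectionVars false
set_option linter.unusedVariables false
set_option linter.style.haveILetI false

open IsDedekindDomain NumberField

noncomputable section

namespace Fermat.Agent.LT.T7.H453

open Fermat.Agent.LT.H556 Fermat.Agent.LT.H556.A0 Fermat.Agent.LT.T7 Fermat.Agent.LT.T6.H267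
open Fermat.Agent.LT.T7.H600
open scoped ComplexConjugate WithZero

variable {K K' : Type} [Field K] [NumberField K] [Field K'] [NumberField K'] [Algebra K K']

/-- Every finite place of `K` has a place of `K'` above it. -/
theorem exists_below_eq453 (v : HeightOneSpectrum (𝓞 K)) :
    ∃ w : HeightOneSpectrum (𝓞 K'), below600 K K' w = v := by
  have hmax : v.asIdeal.IsMaximal := v.isMaximal
  obtain ⟨P, hP, hPo⟩ := Ideal.exists_maximal_ideal_liesOver_of_isIntegral (S := 𝓞 K') v.asIdeal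
  have hne : P ≠ ⊥ := by
    rintro rfl
    apply v.ne_bot
    rw [hPo.over, eq_bot_iff]
    intro x hx
    rw [Ideal.under_def, Ideal.mem_comap, Ideal.mem_bot] at hx
    rw [Ideal.mem_bot]
    exact FaithfulSMul.algebraMap_injective (𝓞 K) (𝓞 K') (by rw [hx, map_zero])
  refine ⟨⟨P, hP.isPrime, hne⟩, ?_⟩
  ext x
  rw [mem_below600]
  show _ ↔ x ∈ v.asIdeal
  rw [hPo.over]
  rfl

/-- In a Galois extension of prime degree a place of `K'` is the only place over the place
below, or it has ramification index and residue degree one. -/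
theorem unique_or_split453 [IsGalois K K'] (hl : (Module.finrank K K').Prime)
    (w : HeightOneSpectrum (𝓞 K')) :
    (∀ w' : HeightOneSpectrum (𝓞 K'), below600 K K' w' = below600 K K' w → w' = w) ∨
      ((below600 K K' w).asIdeal.ramificationIdx' w.asIdeal = 1 ∧
        (below600 K K' w).asIdeal.inertiaDeg' w.asIdeal = 1) := by
  have hmax : (below600 K K' w).asIdeal.IsMaximal := (below600 K K' w).isMaximal
  have hwmax : w.asIdeal.IsMaximal := w.isMaximal
  have hfund := Ideal.ncard_primesOver_mul_ramificationIdxIn_mul_inertiaDegIn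
    (below600 K K' w).asIdeal (𝓞 K') (K' ≃ₐ[K] K')
  rw [IsGalois.card_aut_eq_finrank] at hfund
  have hw : w.asIdeal ∈ (below600 K K' w).asIdeal.primesOver (𝓞 K') :=
    ⟨w.isPrime, inferInstance⟩
  have hdvd : ((below600 K K' w).asIdeal.primesOver (𝓞 K')).ncard ∣ Module.finrank K K' :=
    Dvd.intro _ hfund
  rcases (Nat.dvd_prime hl).mp hdvd with h1 | h1
  · left
    intro w' hw'
    obtain ⟨P, hP⟩ := Set.ncard_eq_one.mp h1
    have e1 : w.asIdeal = P := by
      have := hw
      rw [hP] at this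
      exact this
    have hw'' : w'.asIdeal ∈ (below600 K K' w).asIdeal.primesOver (𝓞 K') := by
      refine ⟨w'.isPrime, ⟨?_⟩⟩
      rw [← hw']
      rfl
    rw [hP] at hw''
    have e2 : w'.asIdeal = P := hw''
    exact HeightOneSpectrum.ext (e2.trans e1.symm)
  · right
    rw [h1] at hfund
    have hef : Ideal.ramificationIdxIn (below600 K K' w).asIdeal (𝓞 K') *
        Ideal.inertiaDegIn (below600 K K' w).asIdeal (𝓞 K') = 1 := by
      have hpos : 0 < Module.finrank K K' := hl.pos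
      exact Nat.eq_of_mul_eq_mul_left hpos (by rw [hfund, mul_one])
    obtain ⟨he, hf⟩ := mul_eq_one.mp hef
    rw [Ideal.ramificationIdxIn_eq_ramificationIdx (below600 K K' w).asIdeal w.asIdeal
      (K' ≃ₐ[K] K')] at he
    rw [Ideal.inertiaDegIn_eq_inertiaDeg (below600 K K' w).asIdeal w.asIdeal
      (K' ≃ₐ[K] K')] at hf
    refine ⟨?_, ?_⟩
    · rw [Ideal.ramificationIdx'_eq_ramificationIdx (below600 K K' w).asIdeal w.asIdeal
        (below600 K K' w).ne_bot]
      exact he
    · rw [Ideal.inertiaDeg'_eq_inertiaDeg (below600 K K' w).asIdeal w.asIdeal]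
      exact hf

/-! ## Local facts at a finite place -/

/-- An additive map of valued fields (surjective valuations in `ℤᵐ⁰`) which preserves the
valuation is continuous. -/
theorem continuous_of_valued_eq453 {A B : Type} [Field A] [Field B] [Valued A ℤᵐ⁰]
    [Valued B ℤᵐ⁰]
    (hsA : Function.Surjective (Valued.v : A → ℤᵐ⁰))
    (hsB : Function.Surjective (Valued.v : B → ℤᵐ⁰))
    (f : A → B) (hsub : ∀ x y : A, f x - f y = f (x - y))
    (hf : ∀ x : A, Valued.v (f x) = Valued.v x) : Continuous f := by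
  have hu : UniformContinuous f := by
    rw [UniformContinuous, (T6.H116.unif_basis_h116 A hsA).tendsto_iff
      (T6.H116.unif_basis_h116 B hsB)]
    intro γ hγ
    refine ⟨γ, hγ, fun p hp => ?_⟩
    show Valued.v (f p.2 - f p.1) < γ
    rw [hsub, hf]
    exact hp
  exact hu.continuous

/-- Two continuous ring homomorphisms on `K_v` which agree on `K` are equal. -/
theorem eq_of_eq_on_K453 {B : Type} [TopologicalSpace B] [T2Space B] [Semiring B]
    (v : HeightOneSpectrum (𝓞 K)) (i j : v.adicCompletion K →+* B) (hi : Continuous i)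
    (hj : Continuous j)
    (h : ∀ k : K, i (algebraMap K (v.adicCompletion K) k) = j (algebraMap K (v.adicCompletion K) k))
    (a : v.adicCompletion K) : i a = j a := by
  have e : (⇑i : v.adicCompletion K → B) = ⇑j :=
    (HeightOneSpectrum.denseRange_algebraMap K v).equalizer hi hj (funext fun k => h k)
  exact congrFun e a

/-- At a place of ramification index and residue degree one the local inclusion is onto. -/
theorem locB_surjective453 (w : HeightOneSpectrum (𝓞 K'))
    (he : (below600 K K' w).asIdeal.ramificationIdx' w.asIdeal = 1)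
    (hf : (below600 K K' w).asIdeal.inertiaDeg' w.asIdeal = 1) :
    Function.Surjective (locB600 K K' w) := by
  have hvw : ∀ x : 𝓞 K, x ∈ (below600 K K' w).asIdeal ↔
      algebraMap (𝓞 K) (𝓞 K') x ∈ w.asIdeal := fun x => mem_below600 w x
  have hN : Ideal.absNorm w.asIdeal = Ideal.absNorm (below600 K K' w).asIdeal := by
    have h := absNorm_eq_pow_inertia (below600 K K' w) w
    rw [hf, pow_one] at h
    exact h
  have hle : Ideal.map (algebraMap (𝓞 K) (𝓞 K')) (below600 K K' w).asIdeal ≤ w.asIdeal := by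
    rw [Ideal.map_le_iff_le_comap]
    intro x hx
    exact (hvw x).1 hx
  have hπ : ∃ x : 𝓞 K, x ∈ (below600 K K' w).asIdeal ∧
      algebraMap (𝓞 K) (𝓞 K') x ∉ w.asIdeal ^ 2 := by
    by_contra hcon
    have h2 : Ideal.map (algebraMap (𝓞 K) (𝓞 K')) (below600 K K' w).asIdeal
        ≤ w.asIdeal ^ 2 := by
      rw [Ideal.map_le_iff_le_comap]
      intro x hx
      by_contra hx2
      exact hcon ⟨x, hx, hx2⟩
    exact ((Ideal.ramificationIdx'_ne_one_iff hle).2 h2) he
  obtain ⟨p, hp⟩ := T6.H116.unif_h116 (below600 K K' w) w hvw hπ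
  have happ : ∀ (y : K') (γ : ℤᵐ⁰), γ ≠ 0 →
      ∃ x : K, w.valuation K' (y - algebraMap K K' x) < γ :=
    T6.H116.approx_h116 (w.valuation K') p hp
      (T6.H116.res_approx_h116 (below600 K K' w) w hvw hN)
  have hd := T6.H116.dense_h116 (K := K) w happ
  intro z
  have hcl : IsClosed (Set.range (locB600 K K' w)) :=
    isClosed_range_locIncl (below600 K K' w) w
  have hsub : Set.range ((algebraMap K' (w.adicCompletion K')).comp (algebraMap K K'))
      ⊆ Set.range (locB600 K K' w) := by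
    rintro _ ⟨k, rfl⟩
    exact ⟨algebraMap K _ k, locB600_algebraMap w k⟩
  have hz : z ∈ closure (Set.range
      ((algebraMap K' (w.adicCompletion K')).comp (algebraMap K K'))) := hd z
  exact hcl.closure_subset_iff.mpr hsub hz

/-! ## The generator of the Galois group -/

theorem algEquiv_pow_apply453 (s : K' ≃ₐ[K] K') (σ : K' ≃+* K') (h : ∀ x : K', s x = σ x)
    (n : ℕ) (x : K') : (s ^ n) x = (σ ^ n) x := by
  induction n generalizing x with
  | zero => rw [pow_zero, pow_zero, AlgEquiv.one_apply, RingAut.one_apply]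
  | succ n ih => rw [pow_succ, pow_succ, AlgEquiv.mul_apply, RingAut.mul_apply, h, ih]

/-- The generator `σ` of the comparison data is an automorphism of `K'` over `K` which generates
the Galois group. -/
theorem exists_gen453 (D : CompData K K') (hD : IsCompData D) (hcyc : IsCycExt K K' D.l) :
    ∃ s : K' ≃ₐ[K] K', (∀ x : K', s x = D.s.σ x) ∧
      ∀ t : K' ≃ₐ[K] K', t ∈ Subgroup.zpowers s := by
  have hfix : ∀ k : K, D.s.σ (algebraMap K K' k) = algebraMap K K' k := fun k =>
    (hD.cyc.fixed _).1 ((hD.base _).2 ⟨k, rfl⟩)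
  let s : K' ≃ₐ[K] K' := AlgEquiv.ofRingEquiv (f := D.s.σ) hfix
  have hs : ∀ x : K', s x = D.s.σ x := fun x => rfl
  refine ⟨s, hs, ?_⟩
  haveI := hcyc.galois
  haveI : Fact D.l.Prime := ⟨hcyc.prime⟩
  have hpow : s ^ D.l = 1 := by
    ext x
    rw [algEquiv_pow_apply453 s D.s.σ hs, AlgEquiv.one_apply]
    exact hD.cyc.pow_eq x
  have hne : s ≠ 1 := by
    intro h1
    obtain ⟨x, hx⟩ := hD.cyc.faithful 1 Nat.one_pos hcyc.prime.one_lt
    apply hx
    rw [pow_one, ← hs, h1, AlgEquiv.one_apply]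
  have hord : orderOf s = D.l := orderOf_eq_prime hpow hne
  have hcard : Nat.card (Subgroup.zpowers s) = Nat.card (K' ≃ₐ[K] K') := by
    rw [Nat.card_zpowers, hord, IsGalois.card_aut_eq_finrank, hcyc.degree]
  have htop : Subgroup.zpowers s = ⊤ := Subgroup.eq_top_of_card_eq _ hcard
  intro t
  rw [htop]
  exact Subgroup.mem_top t

/-- Every element of the Galois group is a natural power of the generator. -/
theorem exists_pow_eq453 [IsGalois K K'] (s : K' ≃ₐ[K] K')
    (hgen : ∀ t : K' ≃ₐ[K] K', t ∈ Subgroup.zpowers s) (t : K' ≃ₐ[K] K') :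
    ∃ n : ℕ, s ^ n = t := by
  have h := hgen t
  rw [← mem_powers_iff_mem_zpowers] at h
  exact h

/-! ## Fixed points at a place with one place above -/

theorem fixed_mem_range_locB453 [IsGalois K K'] (s : K' ≃ₐ[K] K')
    (hgen : ∀ t : K' ≃ₐ[K] K', t ∈ Subgroup.zpowers s) (w : HeightOneSpectrum (𝓞 K'))
    (huniq : ∀ w' : HeightOneSpectrum (𝓞 K'), below600 K K' w' = below600 K K' w → w' = w)
    (sw : w.adicCompletion K' ≃+* w.adicCompletion K')
    (hsw : ∀ x : K', sw (algebraMap K' (w.adicCompletion K') x)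
      = algebraMap K' (w.adicCompletion K') (s x))
    (hval : ∀ x : w.adicCompletion K', Valued.v (sw x) = Valued.v x)
    (y : w.adicCompletion K') (hy : sw y = y) :
    ∃ a : (below600 K K' w).adicCompletion K, locB600 K K' w a = y := by
  have hvw : ∀ x : 𝓞 K, x ∈ (below600 K K' w).asIdeal ↔
      algebraMap (𝓞 K) (𝓞 K') x ∈ w.asIdeal := fun x => mem_below600 w x
  have huniq' : ∀ w' : HeightOneSpectrum (𝓞 K'),
      (∀ x : 𝓞 K, x ∈ (below600 K K' w).asIdeal → algebraMap (𝓞 K) (𝓞 K') x ∈ w'.asIdeal) →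
        w' = w := by
    intro w' hw'
    apply huniq
    apply HeightOneSpectrum.ext
    have hle : (below600 K K' w).asIdeal ≤ (below600 K K' w').asIdeal := fun x hx =>
      (mem_below600 w' x).2 (hw' x hx)
    exact ((below600 K K' w).isMaximal.eq_of_le (below600 K K' w').isPrime.ne_top hle).symm
  have hσ := valuation_aut_eq (below600 K K' w) w s hvw huniq'
  have hc : Continuous sw :=
    continuous_of_valued_eq453 (HeightOneSpectrum.valuedAdicCompletion_surjective K' w)
      (HeightOneSpectrum.valuedAdicCompletion_surjective K' w) (⇑sw)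
      (fun x y => (map_sub sw x y).symm) hval
  have e : (⇑(locAut w (s : K' ≃+* K') hσ) : w.adicCompletion K' → w.adicCompletion K') = ⇑sw := by
    refine (HeightOneSpectrum.denseRange_algebraMap K' w).equalizer
      (continuous_locAut w _ hσ) hc (funext fun k => ?_)
    simp only [Function.comp_apply]
    rw [locAut_algebraMap, hsw]
    rfl
  have hloc : locAut w (s : K' ≃+* K') hσ y = y := by
    rw [e]
    exact hy
  exact fixed_mem_range s (below600 K K' w) w hσ hgen y hloc

/-! ## The Galois group permutes the places over a place of `K` transitively -/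

open scoped Pointwise in
/-- The pointwise action of the Galois group on the ideals of `𝓞 K'`. -/
theorem smul_ideal_eq_map453 (t : K' ≃ₐ[K] K') (P : Ideal (𝓞 K')) :
    t • P = Ideal.map (RingOfIntegers.mapRingEquiv (t : K' ≃+* K')) P := by
  have hinv : ∀ z : 𝓞 K', t⁻¹ • (RingOfIntegers.mapRingEquiv (t : K' ≃+* K') z) = z := by
    intro z
    apply RingOfIntegers.ext
    show t⁻¹ (t (z : K')) = (z : K')
    exact t.symm_apply_apply _
  have hinv' : ∀ x : 𝓞 K', RingOfIntegers.mapRingEquiv (t : K' ≃+* K') (t⁻¹ • x) = x := by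
    intro x
    apply RingOfIntegers.ext
    show t (t⁻¹ (x : K')) = (x : K')
    exact t.apply_symm_apply _
  apply le_antisymm
  · intro x hx
    rw [Ideal.mem_pointwise_smul_iff_inv_smul_mem] at hx
    have := Ideal.mem_map_of_mem (RingOfIntegers.mapRingEquiv (t : K' ≃+* K')) hx
    rwa [hinv'] at this
  · rw [Ideal.map_le_iff_le_comap]
    intro z hz
    rw [Ideal.mem_comap, Ideal.mem_pointwise_smul_iff_inv_smul_mem, hinv]
    exact hz

/-- The image of a place under an automorphism. -/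
theorem exists_place_map453 (σ : K' ≃+* K') (w : HeightOneSpectrum (𝓞 K')) :
    ∃ w₁ : HeightOneSpectrum (𝓞 K'),
      w₁.asIdeal = Ideal.map (RingOfIntegers.mapRingEquiv σ) w.asIdeal := by
  have hp : (Ideal.map (RingOfIntegers.mapRingEquiv σ) w.asIdeal).IsPrime :=
    Ideal.map_isPrime_of_equiv (RingOfIntegers.mapRingEquiv σ)
  have hne : Ideal.map (RingOfIntegers.mapRingEquiv σ) w.asIdeal ≠ ⊥ := by
    intro h
    apply w.ne_bot
    rw [eq_bot_iff]
    intro x hx
    have h1 : RingOfIntegers.mapRingEquiv σ x ∈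
        Ideal.map (RingOfIntegers.mapRingEquiv σ) w.asIdeal := Ideal.mem_map_of_mem _ hx
    rw [h, Ideal.mem_bot] at h1
    rw [Ideal.mem_bot]
    exact (RingOfIntegers.mapRingEquiv σ).injective (by rw [h1, map_zero])
  exact ⟨⟨_, hp, hne⟩, rfl⟩

open scoped Pointwise in
/-- Two places of `K'` over the same place of `K` are linked by an iterate of `σ`. -/
theorem exists_iterate_eq453 [IsGalois K K'] (s : K' ≃ₐ[K] K') (σ : K' ≃+* K')
    (hs : ∀ x : K', s x = σ x) (hgen : ∀ t : K' ≃ₐ[K] K', t ∈ Subgroup.zpowers s)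
    (w w' : HeightOneSpectrum (𝓞 K')) (h : below600 K K' w' = below600 K K' w) :
    ∃ n : ℕ, w'.asIdeal
      = (fun I : Ideal (𝓞 K') => Ideal.map (RingOfIntegers.mapRingEquiv σ) I)^[n] w.asIdeal := by
  have hσ : (s : K' ≃+* K') = σ := RingEquiv.ext hs
  have hunder : w.asIdeal.under (𝓞 K) = w'.asIdeal.under (𝓞 K) :=
    (congrArg HeightOneSpectrum.asIdeal h).symm
  obtain ⟨t, ht⟩ := Algebra.IsInvariant.exists_smul_of_under_eq (𝓞 K) (𝓞 K') (K' ≃ₐ[K] K')
    w.asIdeal w'.asIdeal hunder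
  obtain ⟨n, rfl⟩ := exists_pow_eq453 s hgen t
  refine ⟨n, ?_⟩
  rw [ht]
  clear ht hunder h
  induction n with
  | zero => rw [pow_zero, one_smul, Function.iterate_zero, id]
  | succ n ih =>
    rw [pow_succ', mul_smul, Function.iterate_succ_apply', ← ih, smul_ideal_eq_map453, hσ]

/-! ## The finite places: the common preimage -/

/-- `a ∈ K_v` is mapped to the component of `y` at `w` by the continuous extension of `K → K'`
to `K_v → K'_w` (by EVERY continuous extension: there is at most one). -/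
def GoodFin453 (y : Adl K') (v : HeightOneSpectrum (𝓞 K)) (a : v.adicCompletion K)
    (w : HeightOneSpectrum (𝓞 K')) : Prop :=
  ∀ i : v.adicCompletion K →+* w.adicCompletion K', Continuous i →
    (∀ k : K, i (algebraMap K (v.adicCompletion K) k)
      = algebraMap K' (w.adicCompletion K') (algebraMap K K' k)) →
    i a = T5.finHom w y

theorem goodFin_of_locB453 (y : Adl K') (w : HeightOneSpectrum (𝓞 K'))
    (a : (below600 K K' w).adicCompletion K) (h : locB600 K K' w a = T5.finHom w y) :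
    GoodFin453 y (below600 K K' w) a w := by
  intro i hi hiK
  rw [← h]
  exact eq_of_eq_on_K453 (below600 K K' w) i (locB600 K K' w) hi (continuous_locB600 w)
    (fun k => by rw [hiK, locB600_algebraMap]) a

theorem locB_of_goodFin453 (y : Adl K') (w : HeightOneSpectrum (𝓞 K'))
    (a : (below600 K K' w).adicCompletion K) (h : GoodFin453 y (below600 K K' w) a w) :
    locB600 K K' w a = T5.finHom w y :=
  h (locB600 K K' w) (continuous_locB600 w) (fun k => locB600_algebraMap w k)

/-- `σ` fixes the image of `K`. -/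
theorem sigma_fix453 (D : CompData K K') (hD : IsCompData D) (k : K) :
    D.s.σ (algebraMap K K' k) = algebraMap K K' k :=
  (hD.cyc.fixed _).1 ((hD.base _).2 ⟨k, rfl⟩)

/-- One step: from `w` to `σ w`. -/
theorem goodFin_step453 (hS : H305.SigmaLocC305 K') (D : CompData K K') (hD : IsCompData D)
    (y : Adl K') (hy : D.s.σA y = y) (v : HeightOneSpectrum (𝓞 K)) (a : v.adicCompletion K)
    (w w' : HeightOneSpectrum (𝓞 K')) (hrel : T5.PlaceRel D.s w w')
    (hg : GoodFin453 y v a w) : GoodFin453 y v a w' := by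
  obtain ⟨sw, hsw, hval, hfin⟩ := (hS D.s).1 w w' hrel
  intro i' hi' hi'K
  have hvalsymm : ∀ x : w'.adicCompletion K', Valued.v (sw.symm x) = Valued.v x := by
    intro x
    have := hval (sw.symm x)
    rw [RingEquiv.apply_symm_apply] at this
    exact this.symm
  have hcs : Continuous sw.symm :=
    continuous_of_valued_eq453 (HeightOneSpectrum.valuedAdicCompletion_surjective K' w')
      (HeightOneSpectrum.valuedAdicCompletion_surjective K' w) (⇑sw.symm)
      (fun x y => (map_sub sw.symm x y).symm) hvalsymm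
  have hsymmK : ∀ k : K, sw.symm (algebraMap K' (w'.adicCompletion K') (algebraMap K K' k))
      = algebraMap K' (w.adicCompletion K') (algebraMap K K' k) := by
    intro k
    rw [RingEquiv.symm_apply_eq, hsw, sigma_fix453 D hD]
  have key := hg ((sw.symm : w'.adicCompletion K' →+* w.adicCompletion K').comp i')
    (hcs.comp hi') (fun k => by
      rw [RingHom.comp_apply, hi'K]
      exact hsymmK k)
  rw [RingHom.comp_apply] at key
  have key2 : i' a = sw (T5.finHom w y) := by
    rw [← key]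
    exact (sw.apply_symm_apply _).symm
  rw [key2, ← hfin, hy]

/-- The place below `σ w` is the place below `w`. -/
theorem below_map453 (D : CompData K K') (hD : IsCompData D) (w w₁ : HeightOneSpectrum (𝓞 K'))
    (h : w₁.asIdeal = Ideal.map (RingOfIntegers.mapRingEquiv D.s.σ) w.asIdeal) :
    below600 K K' w₁ = below600 K K' w := by
  have hfix : ∀ x : 𝓞 K, RingOfIntegers.mapRingEquiv D.s.σ (algebraMap (𝓞 K) (𝓞 K') x)
      = algebraMap (𝓞 K) (𝓞 K') x := by
    intro x
    apply RingOfIntegers.ext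
    show D.s.σ (algebraMap K K' (x : K)) = algebraMap K K' (x : K)
    exact sigma_fix453 D hD _
  apply HeightOneSpectrum.ext
  ext x
  rw [mem_below600, mem_below600, h]
  constructor
  · intro hx
    obtain ⟨z, hz, hzx⟩ := (Ideal.mem_map_of_equiv _ _).1 hx
    rw [← hfix x] at hzx
    rw [← (RingOfIntegers.mapRingEquiv D.s.σ).injective hzx]
    exact hz
  · intro hx
    rw [← hfix x]
    exact Ideal.mem_map_of_mem _ hx

/-- The base case: the component of a fixed adele at `w` comes from `K_v`. -/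
theorem exists_goodFin453 (hS : H305.SigmaLocC305 K') (D : CompData K K') (hD : IsCompData D)
    (hcyc : IsCycExt K K' D.l) (y : Adl K') (hy : D.s.σA y = y)
    (w : HeightOneSpectrum (𝓞 K')) :
    ∃ a : (below600 K K' w).adicCompletion K, GoodFin453 y (below600 K K' w) a w := by
  obtain ⟨s, hs, hgen⟩ := exists_gen453 D hD hcyc
  have hgal : IsGalois K K' := hcyc.galois
  have hl : (Module.finrank K K').Prime := by
    rw [hcyc.degree]
    exact hcyc.prime
  rcases unique_or_split453 hl w with huniq | ⟨he, hf⟩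
  · obtain ⟨w₁, hw₁⟩ := exists_place_map453 D.s.σ w
    have hw₁w : w₁ = w := huniq w₁ (below_map453 D hD w w₁ hw₁)
    have hrel : T5.PlaceRel D.s w w := by
      rw [hw₁w] at hw₁
      exact hw₁
    obtain ⟨sw, hsw, hval, hfin⟩ := (hS D.s).1 w w hrel
    have hfixed : sw (T5.finHom w y) = T5.finHom w y := by
      rw [← hfin, hy]
    obtain ⟨a, ha⟩ := fixed_mem_range_locB453 s hgen w huniq sw
      (fun x => by rw [hsw, hs]) hval (T5.finHom w y) hfixed
    exact ⟨a, goodFin_of_locB453 y w a ha⟩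
  · obtain ⟨a, ha⟩ := locB_surjective453 w he hf (T5.finHom w y)
    exact ⟨a, goodFin_of_locB453 y w a ha⟩

/-- The places `σ^n w`. -/
theorem exists_place_iterate453 (σ : K' ≃+* K') (w : HeightOneSpectrum (𝓞 K')) (n : ℕ) :
    ∃ w₁ : HeightOneSpectrum (𝓞 K'), w₁.asIdeal
      = (fun I : Ideal (𝓞 K') => Ideal.map (RingOfIntegers.mapRingEquiv σ) I)^[n] w.asIdeal := by
  induction n with
  | zero => exact ⟨w, rfl⟩
  | succ n ih =>
    obtain ⟨w₁, hw₁⟩ := ih
    obtain ⟨w₂, hw₂⟩ := exists_place_map453 σ w₁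
    refine ⟨w₂, ?_⟩
    rw [Function.iterate_succ_apply', ← hw₁, hw₂]

/-- The glue: ONE element of `K_v` for all the places over `v`. -/
theorem exists_goodFin_all453 (hS : H305.SigmaLocC305 K') (D : CompData K K')
    (hD : IsCompData D) (hcyc : IsCycExt K K' D.l) (y : Adl K') (hy : D.s.σA y = y)
    (v : HeightOneSpectrum (𝓞 K)) :
    ∃ a : v.adicCompletion K, ∀ w : HeightOneSpectrum (𝓞 K'), below600 K K' w = v →
      GoodFin453 y v a w := by
  obtain ⟨w₀, rfl⟩ := exists_below_eq453 (K' := K') v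
  obtain ⟨a, ha⟩ := exists_goodFin453 hS D hD hcyc y hy w₀
  obtain ⟨s, hs, hgen⟩ := exists_gen453 D hD hcyc
  have hgal : IsGalois K K' := hcyc.galois
  refine ⟨a, fun w hw => ?_⟩
  obtain ⟨n, hn⟩ := exists_iterate_eq453 s D.s.σ hs hgen w₀ w hw
  clear hw
  induction n generalizing w with
  | zero =>
    have : w = w₀ := HeightOneSpectrum.ext hn
    rw [this]
    exact ha
  | succ n ih =>
    obtain ⟨w₁, hw₁⟩ := exists_place_iterate453 D.s.σ w₀ n
    have hrel : T5.PlaceRel D.s w₁ w := by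
      show w.asIdeal = Ideal.map (RingOfIntegers.mapRingEquiv D.s.σ) w₁.asIdeal
      rw [hn, Function.iterate_succ_apply', ← hw₁]
    exact goodFin_step453 hS D hD y hy _ a w₁ w hrel (ih w₁ hw₁)

/-! ## The infinite places -/

/-- `a ∈ K_v` goes to the component of `y` at `u`, in the coordinates of `ℂ`: for EVERY continuous
endomorphism `c` of `ℂ` which intertwines the embeddings of `v` and `u` on `K`. -/
def GoodInf453 (y : Adl K') (v : InfinitePlace K) (a : v.Completion) (u : InfinitePlace K') :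
    Prop :=
  ∀ c : ℂ →+* ℂ, Continuous c →
    (∀ k : K, c (v.embedding k) = u.embedding (algebraMap K K' k)) →
    c (InfinitePlace.Completion.extensionEmbedding v a) = T5.infHom u y

theorem infHom_algebraMap453 (u : InfinitePlace K') (x : K') :
    T5.infHom u (algebraMap K' (Adl K') x) = u.embedding x :=
  extEmb_algebraMap600 u x

/-- Two continuous functions on `K_v` which agree on `K` are equal. -/
theorem eq_of_eq_on_K_inf453 (v : InfinitePlace K) (f g : v.Completion → ℂ)
    (hf : Continuous f) (hg : Continuous g)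
    (h : ∀ k : K, f (algebraMap K v.Completion k) = g (algebraMap K v.Completion k))
    (a : v.Completion) : f a = g a := by
  have hK : ∀ b : WithAbs v.1,
      (⟨(b : v.1.Completion)⟩ : v.Completion) = algebraMap K v.Completion (WithAbs.equiv _ b) := by
    intro b
    rw [InfinitePlace.Completion.algebraMap_apply]
    rfl
  induction a using InfinitePlace.Completion.induction_on with
  | hp => exact isClosed_eq hf hg
  | ih b =>
    rw [hK b]
    exact h _

/-- The coordinate of the local inclusion at an infinite place. -/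
theorem exists_conj_locInf453 (u : InfinitePlace K') :
    ∃ c : ℂ →+* ℂ, Continuous c ∧ (∀ z : ℂ, c (c z) = z) ∧
      ∀ x : (belowInf600 K K' u).Completion,
        InfinitePlace.Completion.extensionEmbedding u (locInf600 K K' u x)
          = c (InfinitePlace.Completion.extensionEmbedding (belowInf600 K K' u) x) := by
  rcases extEmb_locInf600 (K := K) u with h | h
  · exact ⟨RingHom.id ℂ, continuous_id, fun z => rfl, fun x => h x⟩
  · exact ⟨starRingEnd ℂ, Complex.continuous_conj, fun z => Complex.conj_conj z, fun x => h x⟩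

/-- The intertwining property of the coordinate of the local inclusion. -/
theorem conj_locInf_K453 (u : InfinitePlace K') (c : ℂ →+* ℂ)
    (hc : ∀ x : (belowInf600 K K' u).Completion,
        InfinitePlace.Completion.extensionEmbedding u (locInf600 K K' u x)
          = c (InfinitePlace.Completion.extensionEmbedding (belowInf600 K K' u) x)) (k : K) :
    c ((belowInf600 K K' u).embedding k) = u.embedding (algebraMap K K' k) := by
  rw [← extEmb_algebraMap600 (belowInf600 K K' u) k, ← hc, locInf600_algebraMap,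
    extEmb_algebraMap600]

theorem locInf_of_goodInf453 (y : Adl K') (u : InfinitePlace K')
    (a : (belowInf600 K K' u).Completion) (h : GoodInf453 y (belowInf600 K K' u) a u) :
    locInf600 K K' u a = y.1 u := by
  obtain ⟨c, hcc, -, hc⟩ := exists_conj_locInf453 (K := K) u
  have h1 := h c hcc (conj_locInf_K453 u c hc)
  rw [← hc] at h1
  exact (InfinitePlace.Completion.extensionEmbedding u).injective h1

/-- The base case at an infinite place (`K` totally complex). -/
theorem exists_goodInf453 (hcplx : TotCplx K) (y : Adl K') (u : InfinitePlace K') :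
    ∃ a : (belowInf600 K K' u).Completion, GoodInf453 y (belowInf600 K K' u) a u := by
  obtain ⟨c, hcc, hinv, hc⟩ := exists_conj_locInf453 (K := K) u
  obtain ⟨a, ha⟩ := InfinitePlace.Completion.surjective_extensionEmbedding_of_isComplex
    (hcplx (belowInf600 K K' u)) (c (T5.infHom u y))
  refine ⟨a, fun c' hc' hc'K => ?_⟩
  have e := eq_of_eq_on_K_inf453 (belowInf600 K K' u)
    (fun x => c' (InfinitePlace.Completion.extensionEmbedding (belowInf600 K K' u) x))
    (fun x => c (InfinitePlace.Completion.extensionEmbedding (belowInf600 K K' u) x))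
    (hc'.comp (InfinitePlace.Completion.isometry_extensionEmbedding _).continuous)
    (hcc.comp (InfinitePlace.Completion.isometry_extensionEmbedding _).continuous)
    (fun k => by
      show c' _ = c _
      rw [extEmb_algebraMap600, hc'K, conj_locInf_K453 u c hc]) a
  have e' : c' (InfinitePlace.Completion.extensionEmbedding (belowInf600 K K' u) a)
      = c (InfinitePlace.Completion.extensionEmbedding (belowInf600 K K' u) a) := e
  rw [e', ha, hinv]

/-- One step at an infinite place: from `u ∘ σ` to `u`. -/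
theorem goodInf_step453 (hS : H305.SigmaLocC305 K') (D : CompData K K') (hD : IsCompData D)
    (y : Adl K') (hy : D.s.σA y = y) (v : InfinitePlace K) (a : v.Completion)
    (u : InfinitePlace K')
    (hg : GoodInf453 y v a (u.comap (D.s.σ : K' →+* K'))) : GoodInf453 y v a u := by
  have hd : ∃ d : ℂ →+* ℂ, Continuous d ∧ (∀ z : ℂ, d (d z) = z) ∧
      ∀ a' : Adl K', T5.infHom u (D.s.σA a')
        = d (T5.infHom (u.comap (D.s.σ : K' →+* K')) a') := by
    rcases (hS D.s).2 u with h | h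
    · exact ⟨RingHom.id ℂ, continuous_id, fun z => rfl, fun a' => h a'⟩
    · exact ⟨starRingEnd ℂ, Complex.continuous_conj, fun z => Complex.conj_conj z,
        fun a' => h a'⟩
  obtain ⟨d, hdc, hdinv, hd⟩ := hd
  intro c hc hcK
  have hK : ∀ k : K, d (u.embedding (algebraMap K K' k))
      = (u.comap (D.s.σ : K' →+* K')).embedding (algebraMap K K' k) := by
    intro k
    have h1 := hd (algebraMap K' (Adl K') (algebraMap K K' k))
    rw [D.s.compat, sigma_fix453 D hD, infHom_algebraMap453, infHom_algebraMap453] at h1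
    rw [h1, hdinv]
  have key := hg (d.comp c) (hdc.comp hc) (fun k => by
    rw [RingHom.comp_apply, hcK, hK])
  rw [RingHom.comp_apply] at key
  rw [← hy, hd, ← key, hdinv]

theorem goodInf_iterate453 (hS : H305.SigmaLocC305 K') (D : CompData K K') (hD : IsCompData D)
    (y : Adl K') (hy : D.s.σA y = y) (v : InfinitePlace K) (a : v.Completion) (n : ℕ)
    (u : InfinitePlace K')
    (hg : GoodInf453 y v a
      ((fun u' : InfinitePlace K' => u'.comap (D.s.σ : K' →+* K'))^[n] u)) :
    GoodInf453 y v a u := by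
  induction n generalizing u with
  | zero => exact hg
  | succ n ih =>
    rw [Function.iterate_succ_apply] at hg
    exact goodInf_step453 hS D hD y hy v a u (ih _ hg)

/-- Two infinite places of `K'` over the same place of `K` are linked by an iterate of `σ`. -/
theorem exists_iterate_inf453 [IsGalois K K'] (s : K' ≃ₐ[K] K') (σ : K' ≃+* K')
    (hs : ∀ x : K', s x = σ x) (hgen : ∀ t : K' ≃ₐ[K] K', t ∈ Subgroup.zpowers s)
    (u u' : InfinitePlace K') (h : belowInf600 K K' u = belowInf600 K K' u') :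
    ∃ n : ℕ, u' = (fun w : InfinitePlace K' => w.comap (σ : K' →+* K'))^[n] u := by
  obtain ⟨t, ht⟩ := InfinitePlace.exists_smul_eq_of_comap_eq (k := K) h
  obtain ⟨n, hn⟩ := exists_pow_eq453 s hgen t⁻¹
  have ht' : t = (s⁻¹) ^ n := by
    rw [inv_pow, hn, inv_inv]
  refine ⟨n, ?_⟩
  rw [← ht, ht']
  clear ht ht' hn h
  have hstep : ∀ w : InfinitePlace K', s⁻¹ • w = w.comap (σ : K' →+* K') := by
    intro w
    rw [InfinitePlace.smul_eq_comap]
    congr 1
    exact RingHom.ext fun x => hs x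
  induction n with
  | zero => rw [pow_zero, one_smul, Function.iterate_zero, id]
  | succ n ih => rw [pow_succ', mul_smul, Function.iterate_succ_apply', ← ih, hstep]

/-- The glue at an infinite place. -/
theorem exists_goodInf_all453 (hS : H305.SigmaLocC305 K') (D : CompData K K')
    (hD : IsCompData D) (hcyc : IsCycExt K K' D.l) (hcplx : TotCplx K) (y : Adl K')
    (hy : D.s.σA y = y) (v : InfinitePlace K) :
    ∃ a : v.Completion, ∀ u : InfinitePlace K', belowInf600 K K' u = v → GoodInf453 y v a u := by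
  have hgal : IsGalois K K' := hcyc.galois
  obtain ⟨u₀, hu₀⟩ := InfinitePlace.comap_surjective (k := K) (K := K') v
  have hu₀' : belowInf600 K K' u₀ = v := hu₀
  subst hu₀'
  obtain ⟨a, ha⟩ := exists_goodInf453 hcplx y u₀
  obtain ⟨s, hs, hgen⟩ := exists_gen453 D hD hcyc
  refine ⟨a, fun u hu => ?_⟩
  obtain ⟨n, hn⟩ := exists_iterate_inf453 s D.s.σ hs hgen u u₀ hu
  apply goodInf_iterate453 hS D hD y hy _ a n u
  rw [← hn]
  exact ha

/-! ## The sub-leaf -/

/-- **Sub-leaf ONTO** (`H600.IotaOntoC600`, verbatim): every adele of `K'` fixed by `σ_𝔸` is in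
the image of the base change `iota600`. -/
theorem iotaOntoC453 (K K' : Type) [Field K] [NumberField K] [Field K'] [NumberField K']
    [Algebra K K'] : H600.IotaOntoC600 K K' := by
  intro hS D hD hcyc hcplx y hy
  choose xi hxi using exists_goodInf_all453 hS D hD hcyc hcplx y hy
  choose xf hxf using exists_goodFin_all453 hS D hD hcyc y hy
  have hloc : ∀ w : HeightOneSpectrum (𝓞 K'),
      locB600 K K' w (xf (below600 K K' w)) = y.2 w := fun w =>
    locB_of_goodFin453 y w _ (hxf _ w rfl)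
  have hint : ∀ᶠ v : HeightOneSpectrum (𝓞 K) in Filter.cofinite,
      xf v ∈ (v.adicCompletionIntegers K : Set (v.adicCompletion K)) := by
    have hy2 : ∀ᶠ w : HeightOneSpectrum (𝓞 K') in Filter.cofinite,
        y.2 w ∈ (w.adicCompletionIntegers K' : Set (w.adicCompletion K')) := y.2.2
    rw [Filter.eventually_cofinite] at hy2 ⊢
    refine (hy2.image (below600 K K')).subset ?_
    intro v hv
    obtain ⟨w, rfl⟩ := exists_below_eq453 (K' := K') v
    refine ⟨w, ?_, rfl⟩
    intro hw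
    apply hv
    have hw' : locB600 K K' w (xf (below600 K K' w)) ∈ w.adicCompletionIntegers K' := by
      rw [hloc]
      exact hw
    exact (locB600_mem_integers_iff w _).1 hw'
  refine ⟨(xi, ⟨xf, hint⟩), ?_⟩
  refine Prod.ext ?_ ?_
  · funext u
    exact locInf_of_goodInf453 y u _ (hxi _ u rfl)
  · refine RestrictedProduct.ext _ _ fun w => ?_
    exact hloc w

/-- The statement of the sub-leaf, unfolded (type check against the Prop of the spec). -/
example (K K' : Type) [Field K] [NumberField K] [Field K'] [NumberField K'] [Algebra K K'] :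
    H305.SigmaLocC305 K' →
    ∀ D : CompData K K', IsCompData D → IsCycExt K K' D.l → TotCplx K →
      ∀ y : Adl K', D.s.σA y = y → ∃ x : Adl K, iota600 K K' x = y :=
  iotaOntoC453 K K'

/-! ## Appendix: the equation lemmas of the definitions are realised HERE -/

theorem eqns_realised_iotaOnto453 : True := by
  have _a1 := @GoodFin453.eq_1
  have _a2 := @GoodFin453.eq_def
  have _a3 := @GoodFin453.eq_unfold
  have _a4 := @GoodInf453.eq_1
  have _a5 := @GoodInf453.eq_def
  have _a6 := @GoodInf453.eq_unfold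
  trivial

end Fermat.Agent.LT.T7.H453

end

end
-- ===== PACK-END LT/T7/H453/IotaOnto.lean

-- ===== PACK-BEGIN LT/T7/H117/GrpSplitA.lean
section





/-!
# Row LT, tower T7, leaf UF.B1 `GrpSplitC340` (helper117, OFF-MAIN): the group theory

* `exists_under117` : every finite place of `K'` lies over a place of `K`;
* `continuous_of_val117` : a ring homomorphism of completions which preserves the valuation is
  continuous; `inU_map_iff117` : it preserves `U(n)`;
* `exists_finI117` : an element of `GL₂(𝔸)` with prescribed components at finitely many places;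
* `upHom117 U l` : the grouped coordinates `upCoord340 U l` as a homomorphism, continuous, ONTO
  from `Out_{S'}`, kernel in `Out_{S'}` contained in the standard compact subgroup.
-/

set_option autoImplicit false
set_option linter.style.haveILetI false
set_option linter.unusedSectionVars false

open IsDedekindDomain NumberField MeasureTheory Set Topology
open scoped NNReal ENNReal

noncomputable section

namespace Fermat.Agent.LT.T7.H117

open Fermat.Agent.LT.H556 Fermat.Agent.LT.H556.A0 Fermat.Agent.LT.T7 Fermat.Agent.LT.T7.H305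
open Fermat.Agent.LT.T7.H340

/-! ## 1. One field: prescribed components -/

section OneField

variable {K : Type} [Field K] [NumberField K]

theorem exists_finI117 {I : Type} [DecidableEq I] (T : Finset I)
    (place : I → HeightOneSpectrum (𝓞 K)) (hinj : Function.Injective place)
    (g : ∀ i : I, GL (Fin 2) ((place i).adicCompletion K)) :
    ∃ x : G K, (∀ i ∈ T, finGL305 (place i) x = g i) ∧
      (∀ w : HeightOneSpectrum (𝓞 K), (∀ i ∈ T, place i ≠ w) → finGL305 w x = 1) ∧
      ∀ w : InfinitePlace K, infGL305 w x = 1 := by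
  classical
  induction T using Finset.induction_on with
  | empty => exact ⟨1, by simp, fun v _ => map_one _, fun w => map_one _⟩
  | insert i₀ T hi₀ ih =>
    obtain ⟨x, h1, h2, h3⟩ := ih
    refine ⟨T3.H57.finEmb57 (place i₀) (g i₀) * x, ?_, ?_, ?_⟩
    · intro i hi
      rw [map_mul]
      rcases Finset.mem_insert.1 hi with h | hi'
      · subst h
        rw [h2 (place i) (fun j hj hji => hi₀ (hinj hji ▸ hj)), mul_one]
        exact T3.H57.finGL_finEmb57 (place i) (g i)
      · have hne : place i ≠ place i₀ := fun h => hi₀ (hinj h ▸ hi')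
        rw [h1 i hi', show finGL305 (place i) (T3.H57.finEmb57 (place i₀) (g i₀)) = 1 from
          T3.H57.finGL_finEmb_ne57 (place i₀) (g i₀) (place i) hne, one_mul]
    · intro w hw
      rw [map_mul, h2 w (fun i hi => hw i (Finset.mem_insert_of_mem hi)), mul_one]
      exact T3.H57.finGL_finEmb_ne57 (place i₀) (g i₀) w
        (fun h => hw i₀ (Finset.mem_insert_self _ _) h.symm)
    · intro w
      rw [map_mul, h3 w, mul_one]
      exact T3.H57.infGL_finEmb57 (place i₀) (g i₀) w

end OneField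

/-! ## 2. Two fields -/

variable {K K' : Type} [Field K] [NumberField K] [Field K'] [NumberField K'] [Algebra K K']

/-- Every finite place of `K'` lies over a place of `K`. -/
theorem exists_under117 (w : HeightOneSpectrum (𝓞 K')) :
    ∃ v : HeightOneSpectrum (𝓞 K), PlaceOver K K' v w := by
  haveI := w.isPrime
  refine ⟨⟨Ideal.comap (algebraMap (𝓞 K) (𝓞 K')) w.asIdeal, inferInstance, ?_⟩, ?_⟩
  · intro h
    exact w.ne_bot (Ideal.eq_bot_of_comap_eq_bot h)
  · exact (H557.placeOver_iff_557 _ w).2 rfl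

/-- `K'` is totally complex if `K` is. -/
theorem totCplx_up117 (hK : TotCplx K) (w' : InfinitePlace K') : w'.IsComplex := by
  rw [← InfinitePlace.not_isReal_iff_isComplex]
  intro hr
  have h1 : (w'.comap (algebraMap K K')).IsReal := InfinitePlace.IsReal.comap _ hr
  exact InfinitePlace.not_isReal_iff_isComplex.2 (hK _) h1

/-- A ring homomorphism of completions which preserves the valuation is continuous. -/
theorem continuous_of_val117 {v : HeightOneSpectrum (𝓞 K)} {w : HeightOneSpectrum (𝓞 K')}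
    (f : w.adicCompletion K' →+* v.adicCompletion K)
    (hf : ∀ y : w.adicCompletion K', Valued.v (f y) = Valued.v y) : Continuous f := by
  have h0 : ContinuousAt f 0 := by
    rw [ContinuousAt, map_zero]
    intro s hs
    rw [Valued.mem_nhds_zero] at hs
    obtain ⟨γ, hγ⟩ := hs
    have hne : MonoidWithZeroHom.ValueGroup₀.embedding γ.1 ≠ 0 :=
      (map_ne_zero _).2 γ.ne_zero
    have hk := WithZero.exp_log hne
    set k : ℤ := WithZero.log (MonoidWithZeroHom.ValueGroup₀.embedding γ.1) with hkdef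
    set n : ℕ := (1 - k).toNat with hn
    have hnk : -(n : ℤ) < k := by
      have : (1 - k) ≤ ((1 - k).toNat : ℤ) := Int.self_le_toNat _
      omega
    show f ⁻¹' s ∈ 𝓝 (0 : w.adicCompletion K')
    refine Filter.mem_of_superset ((isOpen_valLe117 w n).mem_nhds ?_) ?_
    · simp
    · intro y hy
      apply hγ
      show Valued.v.restrict (f y) < γ.1
      rw [Valuation.restrict_lt_iff_lt_embedding, ← hk, hf]
      exact lt_of_le_of_lt hy (WithZero.exp_lt_exp.2 hnk)
  exact continuous_of_continuousAt_zero f h0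

theorem continuous_glMap117 {A B : Type} [CommRing A] [CommRing B]
    [TopologicalSpace A] [TopologicalSpace B] (f : A →+* B) (hf : Continuous f) :
    Continuous (Matrix.GeneralLinearGroup.map (n := Fin 2) f) := by
  refine Continuous.units_map _ ?_
  exact Continuous.matrix_map continuous_id hf

/-- A homomorphism which preserves the valuation preserves `U(n)`. -/
theorem inU_map_iff117 {k k' : Type} [Field k] [Valued k T6.Γ₀] [Field k'] [Valued k' T6.Γ₀]
    (f : k' →+* k) (hf : ∀ y : k', Valued.v (f y) = Valued.v y) (n : ℕ) (g : GL (Fin 2) k') :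
    T6.InU n (Matrix.GeneralLinearGroup.map f g) ↔ T6.InU n g := by
  have key : ∀ (h : GL (Fin 2) k') (i j : Fin 2),
      ((Matrix.GeneralLinearGroup.map f h : GL (Fin 2) k) : Matrix (Fin 2) (Fin 2) k) i j
          - (1 : Matrix (Fin 2) (Fin 2) k) i j
        = f ((h : Matrix (Fin 2) (Fin 2) k') i j - (1 : Matrix (Fin 2) (Fin 2) k') i j) := by
    intro h i j
    rw [map_sub]
    congr 1
    rw [Matrix.one_apply, Matrix.one_apply]
    split_ifs <;> simp
  constructor
  · intro h i j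
    have h1 := (h i j).1
    have h2 := (h i j).2
    rw [key, hf] at h1
    rw [← map_inv, key, hf] at h2
    exact ⟨h1, h2⟩
  · intro h i j
    refine ⟨?_, ?_⟩
    · rw [key, hf]
      exact (h i j).1
    · rw [← map_inv, key, hf]
      exact (h i j).2

end Fermat.Agent.LT.T7.H117

end

end
-- ===== PACK-END LT/T7/H117/GrpSplitA.lean

-- ===== PACK-BEGIN LT/T7/H208/SplitCore.lean
section





/-!
# Row LT, tower T7, station C2, leaf C2.7.13.3b `LocEqSplitC305b` (helper208, registry row 2741)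
# PART C: THE LOCAL CORE (abstract local field)

OFF-MAIN.  `k` a local field (`T6.IsLocalField k q`), `μ` the Haar measure of `GL₂(k)` with
`μ(U(m)) = 1`, `γ` regular, `(μT, β)` the torus measure and the cut-off function of `γ`;
`φ 0, φ 1, …` bi-`U(m)`-invariant of finite support, `f = φ 0 * ⋯ * φ (l-1)`
(`T6.IsConvProd`), `δ 0 ⋯ δ (l-1) = γ`.  Then

    locEqSplit_core208 :  H340.splitInt340 l hl μ β φ δ = H305.locInt305 μ β f γ.

This is the common core of `H340.LocEqSplitC340` (`LocHyp305.split` gives `IsConvProd`),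
`H305.LocEqSplitC305b` (`IsSplitVal305b` contains `IsConvProd`) and of the mirrors over `ℚ`.

Proof.  Fubini for the split integral (helper555 `splitInt340_eq555`, on helper159
`iterL_eq159`): the functions are continuous with compact support (`U(m)` is compact and open:
helper420, helper846); the orbital integral of the indicator function of a compact set converges
(`integrable_orb_compact208`: the orbit-sum bridge of helper846 and `T6.OrbSumExC`);
`T6.IsConvProd` is the convolution integral (helper584 `convL_eq_of_isConvProd584`).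

No hole, nothing assumed (`T6.OrbSumExC` is a hypothesis: it is a component of `T6.T6Out`).
-/

set_option autoImplicit false
set_option linter.unusedSectionVars false
set_option linter.style.haveILetI false

open MeasureTheory
open scoped ENNReal Pointwise

noncomputable section

namespace Fermat.Agent.LT.T7.H208

open Fermat.Agent.LT Fermat.Agent.LT.T6 Fermat.Agent.LT.T6.H846 Fermat.Agent.LT.T7.H305
  Fermat.Agent.LT.T7.H159

section Top

variable {k : Type} [Field k] [Valued k Γ₀]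

/-- `U(m)` is compact. -/
theorem isCompact_U208 {q : ℕ} (hk : IsLocalField k q) (m : ℕ) :
    IsCompact {g : GL (Fin 2) k | InU m g} :=
  T6.H420.isCompact_subU hk m

/-- The coset `x U(m)` is open. -/
theorem isOpen_coset208 {q : ℕ} (hk : IsLocalField k q) (m : ℕ) (x : GL (Fin 2) k) :
    IsOpen {y : GL (Fin 2) k | InU m (x⁻¹ * y)} :=
  (isOpen_InU846 hk m).preimage (continuous_const.mul continuous_id)

/-- A bi-`U(m)`-invariant function is continuous. -/
theorem continuous_of_biInv208 {q : ℕ} (hk : IsLocalField k q) (m : ℕ) (φ : GL (Fin 2) k → ℂ)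
    (hφ : IsBiInv (InU m) φ) : Continuous φ := by
  apply IsLocallyConstant.continuous
  rw [IsLocallyConstant.iff_exists_open]
  intro x
  refine ⟨{y | InU m (x⁻¹ * y)}, isOpen_coset208 hk m x, ?_, ?_⟩
  · show InU m (x⁻¹ * x)
    rw [inv_mul_cancel]
    exact inU_one846 m
  · intro y hy
    have h := hφ 1 (x⁻¹ * y) x (inU_one846 m) hy
    rw [one_mul, mul_inv_cancel_left] at h
    exact h

/-- A function of finite support modulo `U(m)` has compact support. -/
theorem hasCompactSupport_of_finSupp208 {q : ℕ} (hk : IsLocalField k q) (m : ℕ)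
    (φ : GL (Fin 2) k → ℂ) (hφs : HasFinSupp (InU m) φ) : HasCompactSupport φ := by
  obtain ⟨F, hF⟩ := hφs
  refine HasCompactSupport.intro
    (K := ⋃ x ∈ F, (fun u : GL (Fin 2) k => x * u) '' {g : GL (Fin 2) k | InU m g}) ?_ ?_
  · exact F.isCompact_biUnion fun x _ =>
      (isCompact_U208 hk m).image (continuous_const.mul continuous_id)
  · intro g hg
    by_contra hne
    obtain ⟨x, hx, u, hu, rfl⟩ := hF g hne
    exact hg (Set.mem_biUnion hx ⟨u, hu, rfl⟩)

/-- Every compact set is contained in the support of a bi-`U(m)`-invariant indicator function of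
finite support. -/
theorem exists_biInv_ge208 {q : ℕ} (hk : IsLocalField k q) (m : ℕ) (K : Set (GL (Fin 2) k))
    (hK : IsCompact K) :
    ∃ φ : GL (Fin 2) k → ℂ, IsBiInv (InU m) φ ∧ HasFinSupp (InU m) φ ∧ ∀ g ∈ K, φ g = 1 := by
  classical
  set Us : Set (GL (Fin 2) k) := {g | InU m g} with hUs
  set S : Set (GL (Fin 2) k) := Us * K * Us with hS
  have hSc : IsCompact S := ((isCompact_U208 hk m).mul hK).mul (isCompact_U208 hk m)
  have hmem : ∀ g : GL (Fin 2) k, g ∈ S ↔ ∃ a x b, InU m a ∧ x ∈ K ∧ InU m b ∧ g = a * x * b := by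
    intro g
    constructor
    · rintro ⟨ax, ⟨a, ha, x, hx, rfl⟩, b, hb, rfl⟩
      exact ⟨a, x, b, ha, hx, hb, rfl⟩
    · rintro ⟨a, x, b, ha, hx, hb, rfl⟩
      exact ⟨a * x, ⟨a, ha, x, hx, rfl⟩, b, hb, rfl⟩
  have hbi : ∀ u u' g : GL (Fin 2) k, InU m u → InU m u' → (u * g * u' ∈ S ↔ g ∈ S) := by
    intro u u' g hu hu'
    rw [hmem, hmem]
    constructor
    · rintro ⟨a, x, b, ha, hx, hb, he⟩
      refine ⟨u⁻¹ * a, x, b * u'⁻¹, inU_mul846 m _ _ (inU_inv846 m _ hu) ha, hx,
        inU_mul846 m _ _ hb (inU_inv846 m _ hu'), ?_⟩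
      have : g = u⁻¹ * (u * g * u') * u'⁻¹ := by group
      rw [this, he]
      group
    · rintro ⟨a, x, b, ha, hx, hb, rfl⟩
      exact ⟨u * a, x, b * u', inU_mul846 m _ _ hu ha, hx, inU_mul846 m _ _ hb hu', by group⟩
  obtain ⟨t, -, ht⟩ := hSc.elim_nhds_subcover (fun z => {y | InU m (z⁻¹ * y)}) (fun z _ =>
    (isOpen_coset208 hk m z).mem_nhds (by
      show InU m (z⁻¹ * z)
      rw [inv_mul_cancel]
      exact inU_one846 m))
  refine ⟨S.indicator fun _ => (1 : ℂ), ?_, ?_, ?_⟩
  · intro u u' g hu hu'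
    by_cases hg : g ∈ S
    · rw [Set.indicator_of_mem hg, Set.indicator_of_mem ((hbi u u' g hu hu').2 hg)]
    · rw [Set.indicator_of_notMem hg,
        Set.indicator_of_notMem (fun h => hg ((hbi u u' g hu hu').1 h))]
  · refine ⟨t, fun g hg => ?_⟩
    have hgS : g ∈ S := by
      by_contra h
      exact hg (Set.indicator_of_notMem h _)
    obtain ⟨z, hz, hgz⟩ := Set.mem_iUnion₂.1 (ht hgS)
    exact ⟨z, hz, z⁻¹ * g, hgz, by rw [mul_inv_cancel_left]⟩
  · intro g hg
    have hgS : g ∈ S := (hmem g).2 ⟨1, g, 1, inU_one846 m, hg, inU_one846 m, by simp⟩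
    exact Set.indicator_of_mem hgS _

/-- **The cut-off orbital integral of (the indicator function of) a compact set converges.** -/
theorem integrable_orb_compact208 (hEx : OrbSumExC) {q : ℕ} (hk : IsLocalField k q) (m : ℕ)
    (μ : @Measure (GL (Fin 2) k) (borel _))
    (hμ : @Measure.IsHaarMeasure _ _ _ (borel _) μ) (hμU : μ {g | InU m g} = 1)
    (γ : GL (Fin 2) k) (hγ : IsReg γ)
    (μT : @Measure (twCentSub (glAut (RingEquiv.refl k)) γ) (borel _))
    (hμT : @Measure.IsHaarMeasure _ _ _ (borel _) μT)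
    (hμTc : μT {t | Valued.v ((t : GL (Fin 2) k) : Matrix (Fin 2) (Fin 2) k).trace ≤ 1 ∧
        Valued.v ((t : GL (Fin 2) k) : Matrix (Fin 2) (Fin 2) k).det = 1} = 1)
    (β : GL (Fin 2) k → ℝ) (hβc : Continuous β) (hβ0 : ∀ x, 0 ≤ β x)
    (hβ1 : ∀ x : GL (Fin 2) k,
      @integral _ _ _ _ (borel _) μT
        (fun t : twCentSub (glAut (RingEquiv.refl k)) γ => β ((t : GL (Fin 2) k) * x)) = 1)
    (K : Set (GL (Fin 2) k)) (hK : IsCompact K) :
    @Integrable _ _ _ _ (borel _)
      (fun a : GL (Fin 2) k => K.indicator (fun _ => (1 : ℝ)) (a⁻¹ * γ * a) * β a) μ := by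
  classical
  obtain ⟨φ, hφ, hφs, hφK⟩ := exists_biInv_ge208 hk m K hK
  have h := integrable_orb208 hEx hk m μ hμ hμU γ hγ μT hμT hμTc β hβc hβ0 hβ1 φ hφ hφs
  haveI := secondCountable_GL846 hk
  letI : MeasurableSpace (GL (Fin 2) k) := borel _
  haveI : BorelSpace (GL (Fin 2) k) := ⟨rfl⟩
  have hconj : Continuous fun a : GL (Fin 2) k => a⁻¹ * γ * a :=
    (continuous_inv.mul continuous_const).mul continuous_id
  have hmeas : Measurable
      (fun a : GL (Fin 2) k => K.indicator (fun _ => (1 : ℝ)) (a⁻¹ * γ * a) * β a) := by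
    refine Measurable.mul ?_ hβc.measurable
    exact (measurable_const.indicator hK.isClosed.measurableSet).comp hconj.measurable
  refine Integrable.mono' h.norm hmeas.aestronglyMeasurable
    (Filter.Eventually.of_forall fun a => ?_)
  show ‖K.indicator (fun _ => (1 : ℝ)) (a⁻¹ * γ * a) * β a‖ ≤ ‖φ (a⁻¹ * γ * a) * (β a : ℂ)‖
  by_cases ha : a⁻¹ * γ * a ∈ K
  · rw [Set.indicator_of_mem ha, hφK _ ha, one_mul, one_mul, Complex.norm_real]
  · rw [Set.indicator_of_notMem ha, zero_mul, norm_zero]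
    exact norm_nonneg _

end Top

section Core

variable {k : Type} [Field k] [Valued k Γ₀]

/-- **THE LOCAL CORE of the equality at a split place.** -/
theorem locEqSplit_core208 (hEx : OrbSumExC) {q : ℕ} (hk : IsLocalField k q) (m l : ℕ)
    (hl : 0 < l)
    (μ : @Measure (GL (Fin 2) k) (borel _)) (hμ : IsLocHaar305 m μ)
    (γ : GL (Fin 2) k) (hγ : IsReg γ)
    (μT : @Measure (twCentSub (glAut (RingEquiv.refl k)) γ) (borel _))
    (hμT : IsLocTor305 (RingEquiv.refl k) γ μT)
    (β : GL (Fin 2) k → ℝ) (hβ : IsLocCut305 (RingEquiv.refl k) γ μT β)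
    (φ : ℕ → GL (Fin 2) k → ℂ) (hbi : ∀ j, IsBiInv (InU m) (φ j))
    (hfs : ∀ j, HasFinSupp (InU m) (φ j))
    (f : GL (Fin 2) k → ℂ) (hconv : IsConvProd (InU m) l φ f)
    (δ : ℕ → GL (Fin 2) k) (hδ : prodFrom159 δ l 0 = γ) :
    H340.splitInt340 l hl μ β φ δ = locInt305 μ β f γ := by
  obtain ⟨hμH, hμU⟩ := hμ
  obtain ⟨hμTH, hμTc⟩ := hμT
  obtain ⟨hβc, hβ0, hβ1⟩ := hβ
  haveI := secondCountable_GL846 hk
  have hint : ∀ K : Set (GL (Fin 2) k), IsCompact K →
      @Integrable _ _ _ _ (borel _)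
        (fun a : GL (Fin 2) k =>
          K.indicator (fun _ => (1 : ℝ)) (a⁻¹ * prodFrom159 δ l 0 * a) * β a) μ := by
    intro K hK
    rw [hδ]
    exact integrable_orb_compact208 hEx hk m μ hμH hμU γ hγ μT hμTH hμTc β hβc hβ0 hβ1 K hK
  letI : MeasurableSpace (GL (Fin 2) k) := borel _
  haveI : BorelSpace (GL (Fin 2) k) := ⟨rfl⟩
  haveI := hμH
  haveI : IsLocallyFiniteMeasure μ :=
    locallyFinite_G846 (subU846 k m) (isOpen_InU846 hk m) μ hμU
  have hUV : H584.IsUnitVol584 μ (InU m) :=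
    { one := inU_one846 m
      mul := fun a b ha hb => inU_mul846 m a b ha hb
      inv := fun a ha => inU_inv846 m a ha
      meas := (isOpen_InU846 hk m).measurableSet
      vol := hμU }
  have hf : f = convL159 μ φ (l - 1) := H584.convL_eq_of_isConvProd584 hUV l φ f hbi hconv
  have h := H555.splitInt340_eq555 l hl μ inferInstance inferInstance inferInstance φ δ
    (fun j => continuous_of_biInv208 hk m (φ j) (hbi j))
    (fun j => hasCompactSupport_of_finSupp208 hk m (φ j) (hfs j)) β hβc hβ0 hint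
  rw [h, hδ, ← hf]
  rfl

end Core

end Fermat.Agent.LT.T7.H208

end

end
-- ===== PACK-END LT/T7/H208/SplitCore.lean

-- ===== PACK-BEGIN LT/T7/H215/OpsSig.lean
section



/-!
# Row LT, tower T7, leaf T7.L2.2.B4.7 = OPS-SIGMA (helper215, registry row 2428)

OFF-MAIN.  Every proof is complete, nothing assumed.  ADDITIVE (new names only, all ending in
`215`).

    opsSigC215 K K' : T7.H561.OpsSigC561 K K'      VERBATIM (`T7/H561/OpsSpec.lean` of helper561)

Proof.  `R(σ) R(h) = R(σ h) R(σ)`: with `y = σ⁻¹ x`,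
`(R(σ) S_j ψ)(x) = ∑_{h ∈ Hs j} ψ(y h)` and `(S_{j+1} R(σ) ψ)(x) = ∑_{h' ∈ Hs (j+1)} ψ(y σ⁻¹ h')`.
The elements `σ⁻¹ h'` are supported at `o j` with components `!![a', 1; 1, 0]`, `a'` integral,
pairwise inequivalent modulo the Iwahori subgroup (`inIwahori_onG415`); `Hs j` is a complete
system (`exists_residue215`: the residue field has `N (o j)` elements), `N (o (j+1)) = N (o j)`,
so `h' ↦` the member of `Hs j` in the class of `σ⁻¹ h'` is a bijection, and `ψ` is invariant
under the Iwahori subgroup at `o j` (the orbit is periodic: `orbit_period415`).  The same for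
`ω`: `(ω j)⁻¹ σ⁻¹(ω (j+1)) = diag(unit, 1)`.  (The hypothesis `BaseStable561` is not used.)
-/

set_option autoImplicit false

open AutomorphicForm IsDedekindDomain NumberField
open scoped Matrix

noncomputable section

namespace Fermat.Agent.LT.T7.H215

open Fermat.Agent.LT.H556 Fermat.Agent.LT.H556.A0 Fermat.Agent.LT.T5 Fermat.Agent.LT.T5.H415
open Fermat.Agent.LT.H415 Fermat.Agent.LT.H942 Fermat.Agent.LT.T7

section OneField

variable {K : Type} [Field K] [NumberField K]

/-- Two systems at the same place define the same operator on the functions which are invariant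
under the Iwahori subgroup at that place. -/
theorem cosetSum_eq215 (v : HeightOneSpectrum (𝓞 K)) (H H' : Finset (G K)) (τ : G K → G K)
    (hcardH : H.card = Ideal.absNorm v.asIdeal) (hcardH' : H'.card = Ideal.absNorm v.asIdeal)
    (hcompH : ∀ h ∈ H, ∃ a : v.adicCompletion K,
      a ∈ v.adicCompletionIntegers K ∧ finComp v h = !![a, 1; 1, 0])
    (hlocH : ∀ h ∈ H, IsLocalAtFin v h)
    (hinjH : ∀ h ∈ H, ∀ h' ∈ H, h ≠ h' → ¬ InIwahori v (h⁻¹ * h'))
    (hcompH' : ∀ h ∈ H', ∃ a : v.adicCompletion K,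
      a ∈ v.adicCompletionIntegers K ∧ finComp v (τ h) = !![a, 1; 1, 0])
    (hlocH' : ∀ h ∈ H', IsLocalAtFin v (τ h))
    (hinjH' : ∀ h ∈ H', ∀ h' ∈ H', h ≠ h' → ¬ InIwahori v ((τ h)⁻¹ * τ h'))
    (ψ : G K → ℂ)
    (hψ : ∀ u : G K, IsLocalAtFin v u → InIwahori v u → ∀ y : G K, ψ (y * u) = ψ y)
    (y : G K) :
    ∑ h ∈ H, ψ (y * h) = ∑ h' ∈ H', ψ (y * τ h') := by
  classical
  -- the member of `H` in the class of `τ h'`
  have hex : ∀ h' ∈ H', ∃ h ∈ H, Valued.v (finComp v (τ h') 0 0 - finComp v h 0 0) < 1 := by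
    intro h' hh'
    obtain ⟨a, ha, hM⟩ := hcompH' h' hh'
    refine exists_residue215 v H hcardH hcompH hinjH _ ?_
    rw [entry_of_s215 v _ a hM]
    exact (HeightOneSpectrum.mem_adicCompletionIntegers _ _ _).1 ha
  let F : G K → G K := fun h' => if hh : h' ∈ H' then Classical.choose (hex h' hh) else 1
  have hF : ∀ h' ∈ H', F h' ∈ H ∧
      Valued.v (finComp v (τ h') 0 0 - finComp v (F h') 0 0) < 1 := by
    intro h' hh'
    have := Classical.choose_spec (hex h' hh')
    simp only [F, dif_pos hh']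
    exact ⟨this.1, this.2⟩
  -- equivalence
  have hIw : ∀ h' ∈ H', InIwahori v ((F h')⁻¹ * τ h') := by
    intro h' hh'
    obtain ⟨a, _, hM⟩ := hcompH (F h') (hF h' hh').1
    obtain ⟨b, _, hM'⟩ := hcompH' h' hh'
    rw [inIwahori_s_iff215 v (F h') (τ h') a b hM hM']
    have := (hF h' hh').2
    rw [entry_of_s215 v _ a hM, entry_of_s215 v _ b hM'] at this
    exact this
  have hval : ∀ h' ∈ H', ψ (y * τ h') = ψ (y * F h') := by
    intro h' hh'
    have h1 := hψ ((F h')⁻¹ * τ h')
      (isLocalAtFin_inv_mul215 v _ _ (hlocH _ (hF h' hh').1) (hlocH' h' hh')) (hIw h' hh')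
      (y * F h')
    rw [← h1]
    congr 1
    group
  -- injectivity
  have hFinj : Set.InjOn F (H' : Set (G K)) := by
    intro h₁ hh₁ h₂ hh₂ hFF
    by_contra hne
    apply hinjH' h₁ hh₁ h₂ hh₂ hne
    obtain ⟨a, _, hM⟩ := hcompH (F h₁) (hF h₁ hh₁).1
    obtain ⟨b₁, _, hM₁⟩ := hcompH' h₁ hh₁
    obtain ⟨b₂, _, hM₂⟩ := hcompH' h₂ hh₂
    rw [inIwahori_s_iff215 v (τ h₁) (τ h₂) b₁ b₂ hM₁ hM₂]
    have e1 := (hF h₁ hh₁).2
    have e2 := (hF h₂ hh₂).2
    rw [← hFF] at e2
    rw [entry_of_s215 v _ a hM, entry_of_s215 v _ b₁ hM₁] at e1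
    rw [entry_of_s215 v _ a hM, entry_of_s215 v _ b₂ hM₂] at e2
    have e3 : b₂ - b₁ = (b₂ - a) - (b₁ - a) := by ring
    rw [e3]
    exact lt_of_le_of_lt (Valuation.map_sub _ _ _) (max_lt e2 e1)
  -- the image
  have himg : H'.image F = H := by
    apply Finset.eq_of_subset_of_card_le
    · intro h hh
      obtain ⟨h', hh', rfl⟩ := Finset.mem_image.1 hh
      exact (hF h' hh').1
    · rw [Finset.card_image_of_injOn hFinj, hcardH, hcardH']
  rw [← himg, Finset.sum_image hFinj]
  exact Finset.sum_congr rfl fun h' hh' => (hval h' hh').symm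

/-- The orbit of `T5.RegularOfIwahori` is periodic. -/
theorem orbit_add_period215 (s : AdelicAut K) (l : ℕ) (k : Subfield K)
    (hc : IsCyclicOfDegree s l k) (o : ℕ → HeightOneSpectrum (𝓞 K))
    (ho : ∀ j : ℕ, PlaceRel s (o j) (o (j + 1))) (n : ℕ) : o (n + l) = o n := by
  have h := orbit_period415 s l k hc (fun m => o (n + m)) (fun m => ho (n + m))
  exact h

theorem orbit_mod215 (s : AdelicAut K) (l : ℕ) (k : Subfield K)
    (hc : IsCyclicOfDegree s l k) (o : ℕ → HeightOneSpectrum (𝓞 K))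
    (ho : ∀ j : ℕ, PlaceRel s (o j) (o (j + 1))) (n : ℕ) : o n = o (n % l) := by
  have h1 : ∀ q m : ℕ, o (m + q * l) = o m := by
    intro q
    induction q with
    | zero => intro m; simp
    | succ q ih =>
      intro m
      rw [Nat.succ_mul, ← add_assoc, orbit_add_period215 s l k hc o ho, ih]
  have h2 := h1 (n / l) (n % l)
  rw [Nat.mod_add_div' n l] at h2
  exact h2

/-- Invariance under the Iwahori subgroups along the orbit, at ONE place of the orbit. -/
theorem iwInv_local215 (s : AdelicAut K) (l : ℕ) (k : Subfield K)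
    (hc : IsCyclicOfDegree s l k) (o : ℕ → HeightOneSpectrum (𝓞 K))
    (ho : ∀ j : ℕ, PlaceRel s (o j) (o (j + 1))) (ψ : G K → ℂ) (hψ : IsIwInv l o ψ) (j : ℕ)
    (u : G K) (hu : IsLocalAtFin (o j) u) (hI : InIwahori (o j) u) (y : G K) :
    ψ (y * u) = ψ y := by
  have hj : o j = o (j % l) := orbit_mod215 s l k hc o ho j
  have hlt : j % l < l := Nat.mod_lt _ hc.pos
  refine hψ u hu.1 (fun v hv => hu.2 v ?_) (fun j' _ => ?_) y
  · rw [hj]
    exact hv (j % l) hlt
  · by_cases h : o j' = o j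
    · rw [h]
      exact hI
    · exact inIwahori_of_triv215 (o j') u (hu.2 (o j') h)

/-- The image under `σ⁻¹` of an element `!![a,1;1,0]` at `σ v`. -/
theorem finComp_onGinv_s215 (s : AdelicAut K) (v v' : HeightOneSpectrum (𝓞 K))
    (h : PlaceRel s v v') (g : G K) (a : v'.adicCompletion K)
    (ha : a ∈ v'.adicCompletionIntegers K) (hM : finComp v' g = !![a, 1; 1, 0]) :
    ∃ b : v.adicCompletion K, b ∈ v.adicCompletionIntegers K ∧
      finComp v (s.onGinv g) = !![b, 1; 1, 0] := by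
  refine ⟨finComp v (s.onGinv g) 0 0, ?_, ?_⟩
  · rw [HeightOneSpectrum.mem_adicCompletionIntegers, valued_onGinv215 s v v' h g 0 0,
      entry_of_s215 v' g a hM]
    exact (HeightOneSpectrum.mem_adicCompletionIntegers _ _ _).1 ha
  · have h01 : finComp v (s.onGinv g) 0 1 = 1 :=
      finComp_onGinv_one215 s v v' h g 0 1 (by rw [hM]; rfl)
    have h10 : finComp v (s.onGinv g) 1 0 = 1 :=
      finComp_onGinv_one215 s v v' h g 1 0 (by rw [hM]; rfl)
    have h11 : finComp v (s.onGinv g) 1 1 = 0 :=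
      finComp_onGinv_zero215 s v v' h g 1 1 (by rw [hM]; rfl)
    have e := Matrix.eta_fin_two (finComp v (s.onGinv g))
    rw [h01, h10, h11] at e
    exact e

/-- The image under `σ⁻¹` of an element `!![0,1;c,0]` at `σ v`. -/
theorem finComp_onGinv_w215 (s : AdelicAut K) (v v' : HeightOneSpectrum (𝓞 K))
    (h : PlaceRel s v v') (g : G K) (c : v'.adicCompletion K)
    (hc : Valued.v c = WithZero.exp (-1 : ℤ)) (hM : finComp v' g = !![0, 1; c, 0]) :
    ∃ b : v.adicCompletion K, Valued.v b = WithZero.exp (-1 : ℤ) ∧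
      finComp v (s.onGinv g) = !![0, 1; b, 0] := by
  refine ⟨finComp v (s.onGinv g) 1 0, ?_, ?_⟩
  · rw [valued_onGinv215 s v v' h g 1 0]
    have : finComp v' g 1 0 = c := by rw [hM]; rfl
    rw [this, hc]
  · have h00 : finComp v (s.onGinv g) 0 0 = 0 :=
      finComp_onGinv_zero215 s v v' h g 0 0 (by rw [hM]; rfl)
    have h01 : finComp v (s.onGinv g) 0 1 = 1 :=
      finComp_onGinv_one215 s v v' h g 0 1 (by rw [hM]; rfl)
    have h11 : finComp v (s.onGinv g) 1 1 = 0 :=
      finComp_onGinv_zero215 s v v' h g 1 1 (by rw [hM]; rfl)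
    have e := Matrix.eta_fin_two (finComp v (s.onGinv g))
    rw [h00, h01, h11] at e
    exact e

theorem inIwahori_onGinv215 (s : AdelicAut K) (v v' : HeightOneSpectrum (𝓞 K))
    (h : PlaceRel s v v') (g : G K) : InIwahori v (s.onGinv g) ↔ InIwahori v' g :=
  inIwahori_onG415 (invAut215 s) v' v (placeRel_inv215 s v v' h) g

end OneField

section Main

variable (K K' : Type) [Field K] [NumberField K] [Field K'] [NumberField K'] [Algebra K K']

theorem isBad_one215 (Dt : L2Data K K') : Dt.IsBad 1 :=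
  ⟨fun w i j => one_entry_inf215 w i j, fun v _ => finComp_one942 v⟩

/-- **LEAF T7.L2.2.B4.7 = OPS-SIGMA**, VERBATIM. -/
theorem opsSigC215 : H561.OpsSigC561 K K' := by
  intro ℓ Φ Dt hs _ Hs ω hsys j ψ hψ x
  have hD := hs.data
  have hcyc : IsCyclicOfDegree Dt.s ℓ Dt.k := by
    have h1 := (hD.comp 1 (isBad_one215 K K' Dt)).cyc
    have h2 : (Dt.comp 1).l = ℓ := hD.deg
    rw [h2] at h1
    exact h1
  have hrel := hD.orbit_rel
  have hinv : ∀ u : G K', IsLocalAtFin (Dt.o j) u → InIwahori (Dt.o j) u →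
      ∀ y : G K', ψ (y * u) = ψ y :=
    fun u hu hI y => iwInv_local215 Dt.s ℓ Dt.k hcyc Dt.o hrel ψ hψ.iw j u hu hI y
  constructor
  · show ∑ h ∈ Hs j, ψ (Dt.s.onGinv x * h)
      = ∑ h ∈ Hs (j + 1), ψ (Dt.s.onGinv (x * h))
    simp only [map_mul]
    refine cosetSum_eq215 (Dt.o j) (Hs j) (Hs (j + 1)) (fun h => Dt.s.onGinv h)
      (hsys.Hs_card j) ?_ (hsys.Hs_comp j) (hsys.Hs_local j) (hsys.Hs_inj j) ?_ ?_ ?_ ψ hinv _
    · rw [hsys.Hs_card (j + 1)]
      exact absNorm_placeRel215 Dt.s _ _ (hrel j)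
    · intro h hh
      obtain ⟨a, ha, hM⟩ := hsys.Hs_comp (j + 1) h hh
      exact finComp_onGinv_s215 Dt.s _ _ (hrel j) h a ha hM
    · intro h hh
      exact isLocalAtFin_onGinv215 Dt.s _ _ (hrel j) h (hsys.Hs_local (j + 1) h hh)
    · intro h₁ hh₁ h₂ hh₂ hne hI
      apply hsys.Hs_inj (j + 1) h₁ hh₁ h₂ hh₂ hne
      have e : (Dt.s.onGinv h₁)⁻¹ * Dt.s.onGinv h₂ = Dt.s.onGinv (h₁⁻¹ * h₂) := by
        rw [map_mul, map_inv]
      have hI' : InIwahori (Dt.o j) (Dt.s.onGinv (h₁⁻¹ * h₂)) := by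
        rw [← e]
        exact hI
      exact (inIwahori_onGinv215 Dt.s _ _ (hrel j) _).1 hI'
  · show ψ (Dt.s.onGinv x * ω j) = ψ (Dt.s.onGinv (x * ω (j + 1)))
    rw [map_mul]
    obtain ⟨c, hc, hM⟩ := hsys.ω_comp j
    obtain ⟨c₁, hc₁, hM₁⟩ := hsys.ω_comp (j + 1)
    obtain ⟨b, hb, hMb⟩ := finComp_onGinv_w215 Dt.s _ _ (hrel j) (ω (j + 1)) c₁ hc₁ hM₁
    have hcne : c ≠ 0 := by
      rintro rfl
      rw [map_zero] at hc
      exact WithZero.exp_ne_zero hc.symm
    have hu := finComp_inv_mul_w215 (Dt.o j) (ω j) (Dt.s.onGinv (ω (j + 1))) c b hcne hM hMb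
    have he : Valued.v (c⁻¹ * b) = 1 := by
      rw [map_mul, map_inv₀, hc, hb]
      exact inv_mul_cancel₀ WithZero.exp_ne_zero
    have hI := inIwahori_diag215 (Dt.o j) _ _ he hu
    have hloc := isLocalAtFin_inv_mul215 (Dt.o j) (ω j) (Dt.s.onGinv (ω (j + 1)))
      (hsys.ω_local j) (isLocalAtFin_onGinv215 Dt.s _ _ (hrel j) _ (hsys.ω_local (j + 1)))
    have h1 := hinv _ hloc hI (Dt.s.onGinv x * ω j)
    rw [← h1]
    congr 1
    group

end Main

end Fermat.Agent.LT.T7.H215

end
end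
-- ===== PACK-END LT/T7/H215/OpsSig.lean

-- ===== PACK-BEGIN LT/T7/H736/Core/ClassModel.lean
section



/-!
# Row LT, tower T7, node T7.L2.2.N.1 `ClassModelC`: THE CUT IN CORE FORM (over `K'` alone)

OFF-MAIN.  Definitions, frozen Props, PROVED top and PROVED bridges.  No hole, nothing assumed.
ADDITIVE (new names only: namespace `Fermat.Agent.LT.T7.CU736`).

MECHANICAL RETYPING (helper736) of the cut of helper616, `T7/H616/ClassModelSpec.lean` (8568bae7)
and `ClassModelTop.lean` (baf76075), onto `H29.UpData K'` / `H29.IsUpData` (see the header of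
`T7/H736/Core/Blocks.lean` for the substitution).  The definitions of helper616 over ONE field
(`CM616.cosetLin616`, `rsigLin616`, `classSp616`, `restr616`, `IsLevelInv616`, his tools) are used
as they are.  `Ctx616 K' ℓ Φ U` = `ℓ.Prime`, `TotCplx K'`, `IsCuspAdelicSph0 K' Φ`,
`IsUpData ℓ Φ U`, `BaseStableU U`.

    classModelUC_of : FinDimC616 K' → NontrivC616 K' → StabGC616 K' → StabSC616 K' → CommGIC616 K'
        → LocCommC616 K' → LocMoveC616 K' → PowC616 K' → SimpleC616 K' → MulGC616 K' → DictC616 K'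
        → SU736.ClassModelUC K'                                          (PROVED, core form)
    nonVanCoreC_of_leaves : … the same hypotheses … → H29.NonVanCoreC K'
    …_of_core : CU736.X K' → CM616.X K K'   for each of the 11 leaves    (PROVED bridges)
-/

set_option autoImplicit false

open AutomorphicForm IsDedekindDomain NumberField MeasureTheory
open scoped ComplexConjugate

noncomputable section

namespace Fermat.Agent.LT.T7.CU736

open Fermat.Agent.LT.H556 Fermat.Agent.LT.H556.A0 Fermat.Agent.LT.T7 Fermat.Agent.LT.T7.SU736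

attribute [local instance] Fermat.Agent.LT.T5.instMeasurableSpaceG

/-! ## 2. The model -/

section Model

variable {K' : Type} [Field K'] [NumberField K']

/-- The class space of `Φ` at the base level. -/
def cls616 (U : H29.UpData K') (ℓ : ℕ) (Φ : HeckeEigensystem K' ℂ) : Submodule ℂ (G K' → ℂ) :=
  CM616.classSp616 U.𝔑₀ U.R'.r ℓ U.o (eigOf Φ)

/-- The double coset operators of the bad elements on the class space. -/
def gSet616 (U : H29.UpData K') (ℓ : ℕ) (Φ : HeckeEigensystem K' ℂ) :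
    Set (Module.End ℂ (cls616 U ℓ Φ)) :=
  {T | ∃ (g : G K') (Hg : Finset (G K')), U.IsBad g ∧ IsDblCosetSystem U.𝔑₀ g Hg ∧
    T = CM616.restr616 (cls616 U ℓ Φ) (CM616.cosetLin616 Hg)}

/-- The sums of right translates supported at `o j` which preserve the class space. -/
def iSet616 (U : H29.UpData K') (ℓ : ℕ) (Φ : HeckeEigensystem K' ℂ) (j : ℕ) :
    Set (Module.End ℂ (cls616 U ℓ Φ)) :=
  {T | ∃ H : Finset (G K'), (∀ h ∈ H, IsLocalAtFin (U.o j) h) ∧
    (∀ ψ ∈ cls616 U ℓ Φ, CM616.cosetLin616 H ψ ∈ cls616 U ℓ Φ) ∧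
    T = CM616.restr616 (cls616 U ℓ Φ) (CM616.cosetLin616 H)}

/-- `R(σ)` on the class space. -/
def sOp616 (U : H29.UpData K') (ℓ : ℕ) (Φ : HeckeEigensystem K' ℂ) :
    Module.End ℂ (cls616 U ℓ Φ) :=
  CM616.restr616 (cls616 U ℓ Φ) (CM616.rsigLin616 U.s)

/-- `R(σ)⁻¹` on the class space. -/
def sInvOp616 (U : H29.UpData K') (ℓ : ℕ) (Φ : HeckeEigensystem K' ℂ) :
    Module.End ℂ (cls616 U ℓ Φ) :=
  CM616.restr616 (cls616 U ℓ Φ) (CM616.rsigInvLin616 U.s)

end Model

/-! ## 3. The context and the leaves -/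

section Leaves

variable (K' : Type) [Field K'] [NumberField K']

/-- The hypotheses of `SU736.ClassModelUC`. -/
structure Ctx616 (ℓ : ℕ) (Φ : HeckeEigensystem K' ℂ) (U : H29.UpData K') : Prop where
  prime : ℓ.Prime
  cplx : TotCplx K'
  cusp : A0.IsCuspAdelicSph0 K' Φ
  data : H29.IsUpData ℓ Φ U
  stable : H29.BaseStableU U

/-- **LEAF CM.01 = FIN-DIM.**  The class space is finite dimensional. -/
def FinDimC616 : Prop :=
  ∀ (ℓ : ℕ) (Φ : HeckeEigensystem K' ℂ) (U : H29.UpData K'), Ctx616 K' ℓ Φ U →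
    FiniteDimensional ℂ (cls616 U ℓ Φ)

/-- **LEAF CM.02 = NON-TRIVIAL.**  There is a non-zero invariant eigenfunction with the data of
`Φ` at the base level (the form of `Φ`). -/
def NontrivC616 : Prop :=
  ∀ (ℓ : ℕ) (Φ : HeckeEigensystem K' ℂ) (U : H29.UpData K'), Ctx616 K' ℓ Φ U →
    ∃ ψ : G K' → ℂ, IsEigFn U.𝔑₀ U.R'.r ℓ U.o ψ (eigOf Φ) ∧ ∃ x : G K', ψ x ≠ 0

/-- **LEAF CM.03 = STAB-G.**  The double coset operator of a bad element maps the invariant
eigenfunctions with the data of `Φ` to such functions. -/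
def StabGC616 : Prop :=
  ∀ (ℓ : ℕ) (Φ : HeckeEigensystem K' ℂ) (U : H29.UpData K'), Ctx616 K' ℓ Φ U →
    ∀ (g : G K') (Hg : Finset (G K')), U.IsBad g → IsDblCosetSystem U.𝔑₀ g Hg →
      ∀ ψ : G K' → ℂ, IsEigFn U.𝔑₀ U.R'.r ℓ U.o ψ (eigOf Φ) →
        IsEigFn U.𝔑₀ U.R'.r ℓ U.o (cosetOp Hg ψ) (eigOf Φ)

/-- **LEAF CM.04 = STAB-S.**  `R(σ)` and `R(σ)⁻¹` map the invariant eigenfunctions with the data
of `Φ` to such functions (`BaseStable`, `IsL2Data.const`). -/
def StabSC616 : Prop :=
  ∀ (ℓ : ℕ) (Φ : HeckeEigensystem K' ℂ) (U : H29.UpData K'), Ctx616 K' ℓ Φ U →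
    ∀ ψ : G K' → ℂ, IsEigFn U.𝔑₀ U.R'.r ℓ U.o ψ (eigOf Φ) →
      IsEigFn U.𝔑₀ U.R'.r ℓ U.o (T5.Rsig U.s ψ) (eigOf Φ) ∧
        IsEigFn U.𝔑₀ U.R'.r ℓ U.o (fun x => ψ (U.s.onG x)) (eigOf Φ)

/-- **LEAF CM.05 = COMM-GI.**  On the functions `ψ` such that `ψ` and `cosetOp H ψ` are right
invariant under `U(𝔑₀)`, the double coset operator of a bad element commutes with the sum of the
right translates by a finite set `H` of elements supported at `o j`. -/
def CommGIC616 : Prop :=
  ∀ (ℓ : ℕ) (Φ : HeckeEigensystem K' ℂ) (U : H29.UpData K'), Ctx616 K' ℓ Φ U →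
    ∀ (g : G K') (Hg : Finset (G K')), U.IsBad g → IsDblCosetSystem U.𝔑₀ g Hg →
      ∀ j < ℓ, ∀ H : Finset (G K'), (∀ h ∈ H, IsLocalAtFin (U.o j) h) →
        ∀ ψ : G K' → ℂ, CM616.IsLevelInv616 U.𝔑₀ ψ → CM616.IsLevelInv616 U.𝔑₀ (cosetOp H ψ) →
          ∀ x : G K', cosetOp Hg (cosetOp H ψ) x = cosetOp H (cosetOp Hg ψ) x

/-- **LEAF CM.06 = LOC-COMM.**  Elements supported at two different places of the orbit
commute. -/
def LocCommC616 : Prop :=
  ∀ (ℓ : ℕ) (Φ : HeckeEigensystem K' ℂ) (U : H29.UpData K'), Ctx616 K' ℓ Φ U →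
    ∀ i < ℓ, ∀ j < ℓ, i ≠ j → ∀ h h' : G K',
      IsLocalAtFin (U.o i) h → IsLocalAtFin (U.o j) h' → h * h' = h' * h

/-- **LEAF CM.07 = LOC-MOVE.**  `σ⁻¹` maps the elements supported at `o (j+1)` to elements
supported at `o j`, and the elements supported at `o 0` to elements supported at `o (ℓ-1)`. -/
def LocMoveC616 : Prop :=
  ∀ (ℓ : ℕ) (Φ : HeckeEigensystem K' ℂ) (U : H29.UpData K'), Ctx616 K' ℓ Φ U →
    (∀ j : ℕ, j + 1 < ℓ → ∀ h : G K', IsLocalAtFin (U.o (j + 1)) h →
      IsLocalAtFin (U.o j) (U.s.onGinv h)) ∧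
    ∀ h : G K', IsLocalAtFin (U.o 0) h → IsLocalAtFin (U.o (ℓ - 1)) (U.s.onGinv h)

/-- **LEAF CM.08 = POW.**  `σ⁻ℓ = 1` on `GL₂(𝔸_{K'})`. -/
def PowC616 : Prop :=
  ∀ (ℓ : ℕ) (Φ : HeckeEigensystem K' ℂ) (U : H29.UpData K'), Ctx616 K' ℓ Φ U →
    ∀ x : G K', (⇑U.s.onGinv)^[ℓ] x = x

/-- **LEAF CM.09 = SIMPLE** (multiplicity one in module form).  A subspace of the class space
which is stable under the double coset operators of the bad elements and under the sums of right
translates supported at the places of the orbit (those which preserve the class space) is `0` or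
the class space. -/
def SimpleC616 : Prop :=
  ∀ (ℓ : ℕ) (Φ : HeckeEigensystem K' ℂ) (U : H29.UpData K'), Ctx616 K' ℓ Φ U →
    ∀ W : Submodule ℂ (G K' → ℂ), W ≤ cls616 U ℓ Φ →
      (∀ (g : G K') (Hg : Finset (G K')), U.IsBad g → IsDblCosetSystem U.𝔑₀ g Hg →
        ∀ ψ ∈ W, cosetOp Hg ψ ∈ W) →
      (∀ j < ℓ, ∀ H : Finset (G K'), (∀ h ∈ H, IsLocalAtFin (U.o j) h) →
        (∀ ψ ∈ cls616 U ℓ Φ, cosetOp H ψ ∈ cls616 U ℓ Φ) → ∀ ψ ∈ W, cosetOp H ψ ∈ W) →
      W = ⊥ ∨ W = cls616 U ℓ Φ

/-- **LEAF CM.10 = MUL-G.**  On the functions which are right invariant under `U(𝔑₀)` the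
product of two double coset operators of bad elements is a linear combination of double coset
operators of bad elements. -/
def MulGC616 : Prop :=
  ∀ (ℓ : ℕ) (Φ : HeckeEigensystem K' ℂ) (U : H29.UpData K'), Ctx616 K' ℓ Φ U →
    ∀ (g g' : G K') (Hg Hg' : Finset (G K')), U.IsBad g → IsDblCosetSystem U.𝔑₀ g Hg →
      U.IsBad g' → IsDblCosetSystem U.𝔑₀ g' Hg' →
      ∃ (n : ℕ) (c : Fin n → ℂ) (g'' : Fin n → G K') (H'' : Fin n → Finset (G K')),
        (∀ i, U.IsBad (g'' i) ∧ IsDblCosetSystem U.𝔑₀ (g'' i) (H'' i)) ∧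
        ∀ ψ : G K' → ℂ, CM616.IsLevelInv616 U.𝔑₀ ψ →
          ∀ x : G K', cosetOp Hg (cosetOp Hg' ψ) x = ∑ i, c i * cosetOp (H'' i) ψ x

/-- **LEAF CM.11 = DICT.**  For every finite orthonormal basis of the class space the twisted
trace of `[U g U] R(σ)` is the trace of the operator of the model. -/
def DictC616 : Prop :=
  ∀ (ℓ : ℕ) (Φ : HeckeEigensystem K' ℂ) (U : H29.UpData K'), Ctx616 K' ℓ Φ U →
    ∀ (g : G K') (Hg : Finset (G K')), U.IsBad g → IsDblCosetSystem U.𝔑₀ g Hg →
      ∀ (q : ℕ → G K' → ℂ) (J : Finset ℕ),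
        IsClassBasisOn U.𝔑₀ U.R' ℓ U.o (eigOf Φ) q J →
          twTrace U.s U.R' Hg q J
            = LinearMap.trace ℂ (cls616 U ℓ Φ)
                (CM616.restr616 (cls616 U ℓ Φ) (CM616.cosetLin616 Hg) * sOp616 U ℓ Φ)

end Leaves

section Top

variable {K' : Type} [Field K'] [NumberField K']

theorem isBad_oneU (U : H29.UpData K') : U.IsBad (1 : G K') :=
  ⟨fun w => CM616.trivAtInf_one616 w, fun v _ => CM616.trivAtFin_one616 v⟩

/-- **THE TOP OF THE NODE `ClassModelC`.** -/
theorem classModelUC_of (h01 : FinDimC616 K') (h02 : NontrivC616 K')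
    (h03 : StabGC616 K') (h04 : StabSC616 K') (h05 : CommGIC616 K')
    (h06 : LocCommC616 K') (h07 : LocMoveC616 K') (h08 : PowC616 K')
    (h09 : SimpleC616 K') (h10 : MulGC616 K') (h11 : DictC616 K') :
    SU736.ClassModelUC K' := by
  classical
  intro ℓ hℓ hcplx Φ hΦ U hU hst
  have ctx : Ctx616 K' ℓ Φ U := ⟨hℓ, hcplx, hΦ, hU, hst⟩
  have hl : 0 < ℓ := hℓ.pos
  -- stability of the class space
  have stS : ∀ ψ ∈ cls616 U ℓ Φ, CM616.rsigLin616 U.s ψ ∈ cls616 U ℓ Φ :=
    CM616.mem_classSp_of_map616 (CM616.rsigLin616 U.s) fun ψ hψ => (h04 ℓ Φ U ctx ψ hψ).1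
  have stSi : ∀ ψ ∈ cls616 U ℓ Φ, CM616.rsigInvLin616 U.s ψ ∈ cls616 U ℓ Φ :=
    CM616.mem_classSp_of_map616 (CM616.rsigInvLin616 U.s) fun ψ hψ => (h04 ℓ Φ U ctx ψ hψ).2
  have stG : ∀ (g : G K') (Hg : Finset (G K')), U.IsBad g → IsDblCosetSystem U.𝔑₀ g Hg →
      ∀ ψ ∈ cls616 U ℓ Φ, CM616.cosetLin616 Hg ψ ∈ cls616 U ℓ Φ := fun g Hg hg hHg =>
    CM616.mem_classSp_of_map616 (CM616.cosetLin616 Hg) fun ψ hψ => h03 ℓ Φ U ctx g Hg hg hHg ψ hψ
  have lev : ∀ ψ ∈ cls616 U ℓ Φ, CM616.IsLevelInv616 U.𝔑₀ ψ := CM616.levelInv_of_mem616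
  have hleft : ∀ g : G K', U.s.onGinv (U.s.onG g) = g := hst.left_inverse
  have hright : ∀ g : G K', U.s.onG (U.s.onGinv g) = g := hst.right_inverse
  have hfd : FiniteDimensional ℂ (cls616 U ℓ Φ) := h01 ℓ Φ U ctx
  have hnt : Nontrivial (cls616 U ℓ Φ) := by
    obtain ⟨ψ, hψ, x, hx⟩ := h02 ℓ Φ U ctx
    refine ⟨⟨⟨ψ, Submodule.subset_span hψ⟩, 0, fun h => hx ?_⟩⟩
    have h' : ψ = 0 := congrArg Subtype.val h
    rw [h']
    rfl
  -- the conjugation by `R(σ)`
  have hconj : ∀ (w w' : HeightOneSpectrum (𝓞 K')),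
      (∀ h : G K', IsLocalAtFin w' h → IsLocalAtFin w (U.s.onGinv h)) →
      ∀ H : Finset (G K'), (∀ h ∈ H, IsLocalAtFin w' h) →
        (∀ ψ ∈ cls616 U ℓ Φ, CM616.cosetLin616 H ψ ∈ cls616 U ℓ Φ) →
        ∃ H' : Finset (G K'), (∀ h ∈ H', IsLocalAtFin w h) ∧
          (∀ ψ ∈ cls616 U ℓ Φ, CM616.cosetLin616 H' ψ ∈ cls616 U ℓ Φ) ∧
          sInvOp616 U ℓ Φ * CM616.restr616 (cls616 U ℓ Φ) (CM616.cosetLin616 H) * sOp616 U ℓ Φ
            = CM616.restr616 (cls616 U ℓ Φ) (CM616.cosetLin616 H') := by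
    intro w w' hmove H hH hstH
    have key := CM616.conj_cosetOp616 U.s hleft hright H
    have hst' : ∀ ψ ∈ cls616 U ℓ Φ,
        CM616.cosetLin616 (H.image U.s.onGinv) ψ ∈ cls616 U ℓ Φ := by
      intro ψ hψ
      rw [← key ψ]
      exact stSi _ (hstH _ (stS ψ hψ))
    refine ⟨H.image U.s.onGinv, ?_, hst', ?_⟩
    · intro h hh
      obtain ⟨h₀, hh₀, rfl⟩ := Finset.mem_image.1 hh
      exact hmove h₀ (hH h₀ hh₀)
    · apply LinearMap.ext
      intro v
      apply Subtype.ext
      rw [Module.End.mul_apply, Module.End.mul_apply]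
      unfold sInvOp616 sOp616
      rw [CM616.restr616_apply _ _ stSi, CM616.restr616_apply _ _ hstH, CM616.restr616_apply _ _ stS,
        CM616.restr616_apply _ _ hst', key]
  -- `S ^ n`
  have hpow : ∀ (n : ℕ) (v : cls616 U ℓ Φ),
      (((sOp616 U ℓ Φ ^ n) v : cls616 U ℓ Φ) : G K' → ℂ)
        = (CM616.rsigLin616 U.s)^[n] (v : G K' → ℂ) := by
    intro n
    induction n with
    | zero => intro v; rfl
    | succ n ih =>
      intro v
      rw [pow_succ', Module.End.mul_apply, Function.iterate_succ_apply', ← ih v]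
      unfold sOp616
      rw [CM616.restr616_apply _ _ stS]
  have hSl : sOp616 U ℓ Φ ^ ℓ = 1 := by
    apply LinearMap.ext
    intro v
    apply Subtype.ext
    rw [hpow ℓ v, Module.End.one_apply]
    funext x
    rw [CM616.iterate_rsig616, h08 ℓ Φ U ctx x]
  refine ⟨cls616 U ℓ Φ, inferInstance, inferInstance, hfd, hnt, gSet616 U ℓ Φ,
    iSet616 U ℓ Φ, sOp616 U ℓ Φ, sInvOp616 U ℓ Φ, ?_⟩
  refine
    { hS := ?_
      hS' := ?_
      hGI := ?_
      hII := ?_
      hdown := ?_
      hwrap := ?_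
      hcent := ?_
      hirr := ?_
      h1 := ?_
      hmul := ?_
      dict := ?_ }
  · -- hS
    apply LinearMap.ext
    intro v
    apply Subtype.ext
    rw [Module.End.mul_apply, Module.End.one_apply]
    unfold sOp616 sInvOp616
    rw [CM616.restr616_apply _ _ stS, CM616.restr616_apply _ _ stSi]
    funext x
    rw [CM616.rsigLin616_apply, CM616.rsigInvLin616_apply, hright]
  · -- hS'
    apply LinearMap.ext
    intro v
    apply Subtype.ext
    rw [Module.End.mul_apply, Module.End.one_apply]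
    unfold sOp616 sInvOp616
    rw [CM616.restr616_apply _ _ stSi, CM616.restr616_apply _ _ stS]
    funext x
    rw [CM616.rsigInvLin616_apply, CM616.rsigLin616_apply, hleft]
  · -- hGI
    rintro j hj _ ⟨g, Hg, hg, hHg, rfl⟩ _ ⟨H, hH, hstH, rfl⟩
    apply LinearMap.ext
    intro v
    apply Subtype.ext
    rw [Module.End.mul_apply, Module.End.mul_apply, CM616.restr616_apply _ _ (stG g Hg hg hHg),
      CM616.restr616_apply _ _ hstH, CM616.restr616_apply _ _ hstH, CM616.restr616_apply _ _ (stG g Hg hg hHg)]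
    funext x
    exact h05 ℓ Φ U ctx g Hg hg hHg j hj H hH v.1 (lev v.1 v.2) (lev _ (hstH v.1 v.2)) x
  · -- hII
    rintro i hi j hj hij _ ⟨H, hH, hstH, rfl⟩ _ ⟨H', hH', hstH', rfl⟩
    apply LinearMap.ext
    intro v
    apply Subtype.ext
    rw [Module.End.mul_apply, Module.End.mul_apply, CM616.restr616_apply _ _ hstH,
      CM616.restr616_apply _ _ hstH', CM616.restr616_apply _ _ hstH', CM616.restr616_apply _ _ hstH]
    funext x
    exact CM616.cosetOp_comm616 H H'
      (fun a ha b hb => h06 ℓ Φ U ctx i hi j hj hij a b (hH a ha) (hH' b hb)) v.1 x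
  · -- hdown
    rintro j hj _ ⟨H, hH, hstH, rfl⟩
    obtain ⟨H', hH', hstH', heq⟩ := hconj (U.o j) (U.o (j + 1))
      ((h07 ℓ Φ U ctx).1 j hj) H hH hstH
    rw [heq]
    exact Algebra.subset_adjoin ⟨H', hH', hstH', rfl⟩
  · -- hwrap
    rintro _ ⟨H, hH, hstH, rfl⟩
    obtain ⟨H', hH', hstH', heq⟩ := hconj (U.o (ℓ - 1)) (U.o 0)
      ((h07 ℓ Φ U ctx).2) H hH hstH
    rw [heq]
    exact Algebra.subset_adjoin ⟨H', hH', hstH', rfl⟩
  · -- hcent
    intro h _
    rw [hSl, one_mul, mul_one]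
  · -- hirr
    intro W hG hI
    have h := h09 ℓ Φ U ctx (W.map (cls616 U ℓ Φ).subtype)
      (Submodule.map_subtype_le _ W) ?_ ?_
    · rcases h with h | h
      · left
        rw [Submodule.eq_bot_iff]
        intro w hw
        have : ((w : cls616 U ℓ Φ) : G K' → ℂ) ∈ W.map (cls616 U ℓ Φ).subtype :=
          ⟨w, hw, rfl⟩
        rw [h, Submodule.mem_bot] at this
        exact Subtype.ext this
      · right
        rw [Submodule.eq_top_iff']
        intro v
        have : ((v : cls616 U ℓ Φ) : G K' → ℂ) ∈ W.map (cls616 U ℓ Φ).subtype := by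
          rw [h]
          exact v.2
        obtain ⟨w, hw, hwv⟩ := this
        have : w = v := Subtype.ext hwv
        rw [← this]
        exact hw
    · rintro g Hg hg hHg ψ ⟨w, hw, rfl⟩
      have := hG (CM616.restr616 (cls616 U ℓ Φ) (CM616.cosetLin616 Hg)) ⟨g, Hg, hg, hHg, rfl⟩ hw
      exact ⟨_, this, CM616.restr616_apply _ _ (stG g Hg hg hHg) w⟩
    · rintro j hj H hH hstH ψ ⟨w, hw, rfl⟩
      have := hI j hj (CM616.restr616 (cls616 U ℓ Φ) (CM616.cosetLin616 H)) ⟨H, hH, hstH, rfl⟩ hw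
      exact ⟨_, this, CM616.restr616_apply _ _ hstH w⟩
  · -- h1
    refine Submodule.subset_span ⟨1, {1}, isBad_oneU U, CM616.isDblCosetSystem_one616 _, ?_⟩
    apply LinearMap.ext
    intro v
    apply Subtype.ext
    rw [CM616.restr616_apply _ _ (stG 1 {1} (isBad_oneU U) (CM616.isDblCosetSystem_one616 _)),
      Module.End.one_apply, CM616.cosetLin616_apply, CM616.cosetOp_singleton_one616]
  · -- hmul
    rintro _ ⟨g, Hg, hg, hHg, rfl⟩ _ ⟨g', Hg', hg', hHg', rfl⟩
    obtain ⟨n, c, g'', H'', hbad, hprod⟩ := h10 ℓ Φ U ctx g g' Hg Hg' hg hHg hg' hHg'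
    have heq : CM616.restr616 (cls616 U ℓ Φ) (CM616.cosetLin616 Hg)
          * CM616.restr616 (cls616 U ℓ Φ) (CM616.cosetLin616 Hg')
        = ∑ i, c i • CM616.restr616 (cls616 U ℓ Φ) (CM616.cosetLin616 (H'' i)) := by
      apply LinearMap.ext
      intro v
      apply Subtype.ext
      rw [Module.End.mul_apply, CM616.restr616_apply _ _ (stG g Hg hg hHg),
        CM616.restr616_apply _ _ (stG g' Hg' hg' hHg'), LinearMap.sum_apply, Submodule.coe_sum]
      funext x
      rw [Finset.sum_apply]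
      rw [CM616.cosetLin616_apply, CM616.cosetLin616_apply, hprod v.1 (lev v.1 v.2) x]
      refine Finset.sum_congr rfl fun i _ => ?_
      rw [LinearMap.smul_apply, Submodule.coe_smul, Pi.smul_apply, smul_eq_mul,
        CM616.restr616_apply _ _ (stG (g'' i) (H'' i) (hbad i).1 (hbad i).2), CM616.cosetLin616_apply]
    rw [heq]
    exact Submodule.sum_mem _ fun i _ => Submodule.smul_mem _ _
      (Submodule.subset_span ⟨g'' i, H'' i, (hbad i).1, (hbad i).2, rfl⟩)
  · -- dict
    rintro _ ⟨g, Hg, hg, hHg, rfl⟩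
    exact ⟨g, Hg, hg, hHg, fun q J hq => h11 ℓ Φ U ctx g Hg hg hHg q J hq⟩

/-- **THE CORE NODE `H29.NonVanCoreC` from the eleven leaves in core form.** -/
theorem nonVanCoreC_of_leaves (h01 : FinDimC616 K') (h02 : NontrivC616 K')
    (h03 : StabGC616 K') (h04 : StabSC616 K') (h05 : CommGIC616 K')
    (h06 : LocCommC616 K') (h07 : LocMoveC616 K') (h08 : PowC616 K')
    (h09 : SimpleC616 K') (h10 : MulGC616 K') (h11 : DictC616 K') :
    H29.NonVanCoreC K' :=
  SU736.nonVanCoreC_of (classModelUC_of h01 h02 h03 h04 h05 h06 h07 h08 h09 h10 h11)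

end Top

/-! ## Bridges: every core leaf implies the leaf of helper616 (cyclic step) -/

section Bridges

variable {K K' : Type} [Field K] [NumberField K] [Field K'] [NumberField K'] [Algebra K K']

theorem ctx_to_core {ℓ : ℕ} {Φ : HeckeEigensystem K' ℂ} {Dt : L2Data K K'}
    (h : CM616.Ctx616 K K' ℓ Φ Dt) : Ctx616 K' ℓ Φ (H29.upOf Dt) where
  prime := h.cyc.prime
  cplx := H29.totCplx_of_base h.cplx
  cusp := h.cusp
  data := H29.isUpData_upOf h.data
  stable := H29.baseStableU_upOf h.stable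

theorem finDimC_of_core (hC : FinDimC616 K') : CM616.FinDimC616 K K' :=
  fun ℓ Φ Dt ctx => hC ℓ Φ (H29.upOf Dt) (ctx_to_core ctx)

theorem nontrivC_of_core (hC : NontrivC616 K') : CM616.NontrivC616 K K' :=
  fun ℓ Φ Dt ctx => hC ℓ Φ (H29.upOf Dt) (ctx_to_core ctx)

theorem stabGC_of_core (hC : StabGC616 K') : CM616.StabGC616 K K' :=
  fun ℓ Φ Dt ctx => hC ℓ Φ (H29.upOf Dt) (ctx_to_core ctx)

theorem stabSC_of_core (hC : StabSC616 K') : CM616.StabSC616 K K' :=
  fun ℓ Φ Dt ctx => hC ℓ Φ (H29.upOf Dt) (ctx_to_core ctx)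

theorem commGIC_of_core (hC : CommGIC616 K') : CM616.CommGIC616 K K' :=
  fun ℓ Φ Dt ctx => hC ℓ Φ (H29.upOf Dt) (ctx_to_core ctx)

theorem locCommC_of_core (hC : LocCommC616 K') : CM616.LocCommC616 K K' :=
  fun ℓ Φ Dt ctx => hC ℓ Φ (H29.upOf Dt) (ctx_to_core ctx)

theorem locMoveC_of_core (hC : LocMoveC616 K') : CM616.LocMoveC616 K K' :=
  fun ℓ Φ Dt ctx => hC ℓ Φ (H29.upOf Dt) (ctx_to_core ctx)

theorem powC_of_core (hC : PowC616 K') : CM616.PowC616 K K' :=
  fun ℓ Φ Dt ctx => hC ℓ Φ (H29.upOf Dt) (ctx_to_core ctx)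

theorem simpleC_of_core (hC : SimpleC616 K') : CM616.SimpleC616 K K' :=
  fun ℓ Φ Dt ctx => hC ℓ Φ (H29.upOf Dt) (ctx_to_core ctx)

theorem mulGC_of_core (hC : MulGC616 K') : CM616.MulGC616 K K' :=
  fun ℓ Φ Dt ctx => hC ℓ Φ (H29.upOf Dt) (ctx_to_core ctx)

theorem dictC_of_core (hC : DictC616 K') : CM616.DictC616 K K' :=
  fun ℓ Φ Dt ctx => hC ℓ Φ (H29.upOf Dt) (ctx_to_core ctx)

end Bridges

/-! ## Appendix: the equation lemmas of the definitions of this file are realised HERE -/

theorem eqns_realised_coreClassModel736 : True := by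
  have _m1 := @cls616.eq_1
  have _m2 := @cls616.eq_def
  have _m3 := @cls616.eq_unfold
  have _g1 := @gSet616.eq_1
  have _g2 := @gSet616.eq_def
  have _g3 := @gSet616.eq_unfold
  have _i1 := @iSet616.eq_1
  have _i2 := @iSet616.eq_def
  have _i3 := @iSet616.eq_unfold
  have _s1 := @sOp616.eq_1
  have _s2 := @sOp616.eq_def
  have _s3 := @sOp616.eq_unfold
  have _t1 := @sInvOp616.eq_1
  have _t2 := @sInvOp616.eq_def
  have _t3 := @sInvOp616.eq_unfold
  have _a1 := @FinDimC616.eq_1
  have _a2 := @FinDimC616.eq_def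
  have _a3 := @FinDimC616.eq_unfold
  have _b1 := @NontrivC616.eq_1
  have _b2 := @NontrivC616.eq_def
  have _b3 := @NontrivC616.eq_unfold
  have _c1 := @StabGC616.eq_1
  have _c2 := @StabGC616.eq_def
  have _c3 := @StabGC616.eq_unfold
  have _d1 := @StabSC616.eq_1
  have _d2 := @StabSC616.eq_def
  have _d3 := @StabSC616.eq_unfold
  have _e1 := @CommGIC616.eq_1
  have _e2 := @CommGIC616.eq_def
  have _e3 := @CommGIC616.eq_unfold
  have _f1 := @LocCommC616.eq_1
  have _f2 := @LocCommC616.eq_def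
  have _f3 := @LocCommC616.eq_unfold
  have _h1 := @LocMoveC616.eq_1
  have _h2 := @LocMoveC616.eq_def
  have _h3 := @LocMoveC616.eq_unfold
  have _j1 := @PowC616.eq_1
  have _j2 := @PowC616.eq_def
  have _j3 := @PowC616.eq_unfold
  have _k1 := @SimpleC616.eq_1
  have _k2 := @SimpleC616.eq_def
  have _k3 := @SimpleC616.eq_unfold
  have _l1 := @MulGC616.eq_1
  have _l2 := @MulGC616.eq_def
  have _l3 := @MulGC616.eq_unfold
  have _n1 := @DictC616.eq_1
  have _n2 := @DictC616.eq_def
  have _n3 := @DictC616.eq_unfold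
  trivial

end Fermat.Agent.LT.T7.CU736

end

end
-- ===== PACK-END LT/T7/H736/Core/ClassModel.lean

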