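import Mathlib
import Fermat.Prelude.Def_GaloisRep_Residual
import Fermat.Prelude.Def_Deformations_MatrixRepresentation
import Fermat.Prelude.Def_FLTPrelim_Ramification
import Fermat.Agent.Pack.LT2.E5L3
import Fermat.Agent.Pack.S44C.G0E26L3
import Fermat.Agent.Pack.S59C.E1L2
import Fermat.Agent.Pack.S44C.G0E6L2
import Fermat.Agent.Pack.LT3.E25L2
import Fermat.Agent.Pack.LT3.E27L1
import Fermat.Agent.Pack.LT3.E21L2
import Fermat.Agent.Pack.LT3.E27L3
import Fermat.Agent.Pack.LT3.E13L3
import Fermat.Agent.Pack.LT2.E8L3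
import Fermat.Agent.Pack.LT3.E27L2
import Fermat.Agent.Pack.LT3.E27L0
import Fermat.Agent.Pack.LT3.E25L1
import Fermat.Agent.Pack.LT3.E22L0
import Fermat.Agent.Pack.LT3.E26L3
import Fermat.Agent.Pack.LT3.E26L2
import Fermat.Agent.Pack.LT3.E26L1

set_option linter.all false

-- ===== PACK-BEGIN LT/T2/H894/SmoHH.lean
section









/-!
# Row LT, tower T2, registry row T2.11 (helper894): strong multiplicity one, holomorphic case

OFF-MAIN.  Leaf `T2.SMO_HH K` (both eigensystems are of the second alternative `A0.IsCuspHolQ`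
of `A0.notion556`: classical holomorphic eigenforms of weight one over a field of degree one).

* `smoHH_of_finrank_ne_one894`, `smoAH_of_finrank_ne_one894`: for a number field of degree `≠ 1`
  (the fields `E`, `F` of the wall) the leaves `T2.SMO_HH K` and `T2.SMO_AH K` hold trivially,
  the alternative `A0.IsCuspHolQ` being empty there.  So over `E` and `F`,
  `T2.SMO K` follows from `T2.SMO_AA K` alone (`smo_of_smoAA894`).
* `smoHH_of_s48_894 : S48Statement894 → T2.SMO_HH K` for every number field `K`: the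
  statement of the landed S48 (Deligne--Serre) gives the two Artin representations `r`, `r'`;
  by Chebotarev (`Lib.Cheb`, on main) applied to the pair `(r, r')` every Frobenius element at a
  good prime `p` has the same image under `(r, r')` as a Frobenius element at a prime `ℓ`
  outside any finite set; at `ℓ` the traces and determinants are the eigenvalues, which agree.
  No Brauer--Nesbitt is needed.

The arithmetic of a number field of degree one (`absNorm` of a place is a prime number, a natural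
number lies in a place iff the norm of the place divides it, a place of norm `q` exists for every
prime `q`) is proved from `Ideal.absNorm` only.
-/

set_option autoImplicit false

open IsDedekindDomain NumberField AutomorphicForm CongruenceSubgroup
open Fermat.Agent.LT.H556.A0
open scoped MatrixGroups

noncomputable section

namespace Fermat.Agent.LT.T2.H894

local notation "Γℚ" => (AlgebraicClosure ℚ ≃ₐ[ℚ] AlgebraicClosure ℚ)

/-- The frozen S48 (Deligne--Serre) as a Prop (the shape of `LT/H701/Ident.lean`). -/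
def S48Statement894 : Prop :=
  ∀ (N : ℕ) [NeZero N] (ε : DirichletCharacter ℂ N) (f : CuspForm (Gamma1 N) 1)
    (_ : ModularFormClass.qCoeff f 1 = 1)
    (_ : ∀ p : ℕ, p.Prime → ¬ p ∣ N → ∀ n : ℕ,
        ModularFormClass.qCoeff f (p * n) +
            ε (p : ZMod N) * (if p ∣ n then ModularFormClass.qCoeff f (n / p) else 0) =
          ModularFormClass.qCoeff f p * ModularFormClass.qCoeff f n),
    ∃ ρ : Γℚ →* GL (Fin 2) ℂ, GaloisFactorsThroughFiniteLevel ρ ∧
      (Deformation.matrixRepresentation ρ).IsIrreducible ∧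
      ∀ p : ℕ, p.Prime → ¬ p ∣ N →
        ∀ A : ValuationSubring (AlgebraicClosure ℚ), A.LiesOverPrime p →
          (∀ σ ∈ A.inertiaSubgroupIn ℚ, ρ σ = 1) ∧
          ∀ σ : Γℚ, A.IsFrobeniusAt σ p →
            ((ρ σ : GL (Fin 2) ℂ) : Matrix (Fin 2) (Fin 2) ℂ).trace = ModularFormClass.qCoeff f p ∧
            ((ρ σ : GL (Fin 2) ℂ) : Matrix (Fin 2) (Fin 2) ℂ).det = ε (p : ZMod N)

variable {K : Type} [Field K] [NumberField K]

/-! ## 1. The fields of degree `≠ 1` -/

/-- Over a number field of degree `≠ 1` the leaf `T2.SMO_HH` is empty. -/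
theorem smoHH_of_finrank_ne_one894 (h : Module.finrank ℚ K ≠ 1) : SMO_HH K :=
  fun _ _ hπ _ _ _ _ _ => absurd hπ.1 h

/-- Over a number field of degree `≠ 1` the leaf `T2.SMO_AH` is empty. -/
theorem smoAH_of_finrank_ne_one894 (h : Module.finrank ℚ K ≠ 1) : SMO_AH K :=
  fun _ _ _ hπ' _ _ _ _ => absurd hπ'.1 h

/-- Over a number field of degree `≠ 1`, `T2.SMO K` is `T2.SMO_AA K`. -/
theorem smo_of_smoAA894 (h : Module.finrank ℚ K ≠ 1) (hAA : SMO_AA K) : SMO K :=
  top_smo K hAA (smoHH_of_finrank_ne_one894 h) (smoAH_of_finrank_ne_one894 h)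

/-! ## 2. Places of a number field of degree one -/

/-- In a number field of degree one: if the natural number `a` lies in the ideal `P`, then the
absolute norm of `P` divides `a`. -/
theorem absNorm_dvd_of_natCast_mem894 (h1 : Module.finrank ℚ K = 1) (P : Ideal (𝓞 K)) (a : ℕ)
    (ha : (a : 𝓞 K) ∈ P) : Ideal.absNorm P ∣ a := by
  have hle : Ideal.span {(a : 𝓞 K)} ≤ P := (Ideal.span_singleton_le_iff_mem P).mpr ha
  have hdvd := Ideal.absNorm_dvd_absNorm_of_le hle
  rw [Ideal.absNorm_span_singleton] at hdvd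
  have hnorm : Algebra.norm ℤ (a : 𝓞 K) = (a : ℤ) := by
    have hcast : (a : 𝓞 K) = algebraMap ℤ (𝓞 K) (a : ℤ) := by simp
    rw [hcast, Algebra.norm_algebraMap, RingOfIntegers.rank, h1, pow_one]
  rw [hnorm, Int.natAbs_natCast] at hdvd
  exact hdvd

/-- If the absolute norm of `P` divides `a`, then `a` lies in `P`. -/
theorem natCast_mem_of_absNorm_dvd894 (P : Ideal (𝓞 K)) (a : ℕ)
    (ha : Ideal.absNorm P ∣ a) : (a : 𝓞 K) ∈ P := by
  obtain ⟨c, hc⟩ := ha
  rw [hc]
  push_cast
  exact Ideal.mul_mem_right _ _ (Ideal.absNorm_mem P)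

/-- In a number field of degree one the absolute norm of a finite place is a prime number. -/
theorem absNorm_prime894 (h1 : Module.finrank ℚ K = 1) (v : HeightOneSpectrum (𝓞 K)) :
    (Ideal.absNorm v.asIdeal).Prime := by
  rw [Nat.prime_iff]
  refine ⟨?_, ?_, ?_⟩
  · rw [Ne, Ideal.absNorm_eq_zero_iff]
    exact v.ne_bot
  · rw [Nat.isUnit_iff, Ideal.absNorm_eq_one_iff]
    exact v.isPrime.ne_top
  · intro a b hab
    have hmem : ((a * b : ℕ) : 𝓞 K) ∈ v.asIdeal := natCast_mem_of_absNorm_dvd894 _ _ hab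
    push_cast at hmem
    rcases v.isPrime.mem_or_mem hmem with h | h
    · exact Or.inl (absNorm_dvd_of_natCast_mem894 h1 _ a h)
    · exact Or.inr (absNorm_dvd_of_natCast_mem894 h1 _ b h)

/-- In a number field of degree one there is a finite place of absolute norm `q`, for every
prime number `q`. -/
theorem exists_place_absNorm894 (h1 : Module.finrank ℚ K = 1) (q : ℕ) (hq : q.Prime) :
    ∃ w : HeightOneSpectrum (𝓞 K), Ideal.absNorm w.asIdeal = q := by
  have hne : Ideal.span {(q : 𝓞 K)} ≠ ⊤ := by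
    intro h
    have h2 : Ideal.absNorm (⊤ : Ideal (𝓞 K)) ∣ q :=
      absNorm_dvd_of_natCast_mem894 h1 ⊤ q Submodule.mem_top
    have h3 := absNorm_dvd_of_natCast_mem894 h1 (Ideal.span {(q : 𝓞 K)}) q
      (Ideal.subset_span rfl)
    have h4 : (q : 𝓞 K) ∣ 1 := by
      have : (1 : 𝓞 K) ∈ Ideal.span {(q : 𝓞 K)} := by rw [h]; exact Submodule.mem_top
      exact Ideal.mem_span_singleton.mp this
    have h5 : IsUnit (q : 𝓞 K) := isUnit_of_dvd_one h4
    have h6 : Ideal.absNorm (Ideal.span {(q : 𝓞 K)}) = q := by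
      rw [Ideal.absNorm_span_singleton]
      have hcast : (q : 𝓞 K) = algebraMap ℤ (𝓞 K) (q : ℤ) := by simp
      rw [hcast, Algebra.norm_algebraMap, RingOfIntegers.rank, h1, pow_one, Int.natAbs_natCast]
    rw [h, Ideal.absNorm_top] at h6
    exact hq.one_lt.ne h6
  obtain ⟨P, hPmax, hle⟩ := Ideal.exists_le_maximal _ hne
  have hqP : (q : 𝓞 K) ∈ P := hle (Ideal.subset_span rfl)
  have hPbot : P ≠ ⊥ := by
    intro h
    rw [h, Ideal.mem_bot] at hqP
    have : (q : 𝓞 K) ≠ 0 := by
      exact_mod_cast hq.ne_zero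
    exact this hqP
  let w : HeightOneSpectrum (𝓞 K) := ⟨P, hPmax.isPrime, hPbot⟩
  refine ⟨w, ?_⟩
  have hd : Ideal.absNorm w.asIdeal ∣ q := absNorm_dvd_of_natCast_mem894 h1 P q hqP
  exact (Nat.prime_dvd_prime_iff_eq (absNorm_prime894 h1 w) hq).mp hd

/-! ## 3. The Galois side -/

/-- The kernel of a homomorphism factoring through a finite level is open. -/
theorem isOpen_ker894 {M : Type} [Group M] (r : Γℚ →* M)
    (hr : GaloisFactorsThroughFiniteLevel r) : IsOpen (r.ker : Set Γℚ) := by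
  obtain ⟨L, hL, hfix⟩ := hr
  haveI := hL
  have hle : L.fixingSubgroup ≤ r.ker := by
    intro σ hσ
    rw [MonoidHom.mem_ker]
    apply hfix
    intro x hx
    exact (IntermediateField.mem_fixingSubgroup_iff L σ).mp hσ x hx
  exact Subgroup.isOpen_mono hle L.fixingSubgroup_isOpen

/-- **Registry row T2.11**: strong multiplicity one for the classical holomorphic eigenforms of
weight one, at the good places, from the statement of the landed S48. -/
theorem smoHH_of_s48_894 (h48 : S48Statement894) (K : Type) [Field K] [NumberField K] :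
    SMO_HH K := by
  classical
  intro π π' hπ hπ' hag v hv hv'
  obtain ⟨h1, N, hN, ε, f, hf, hlev, hval⟩ := hπ
  obtain ⟨-, N', hN', ε', f', hf', hlev', hval'⟩ := hπ'
  have hNv : (N : 𝓞 K) ∉ v.asIdeal := fun h =>
    hv (Ideal.dvd_iff_le.mpr (hlev.trans ((Ideal.span_singleton_le_iff_mem _).mpr h)))
  have hN'v : (N' : 𝓞 K) ∉ v.asIdeal := fun h =>
    hv' (Ideal.dvd_iff_le.mpr (hlev'.trans ((Ideal.span_singleton_le_iff_mem _).mpr h)))
  obtain ⟨ha, hb⟩ := hval v hNv
  obtain ⟨ha', hb'⟩ := hval' v hN'v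
  rw [ha, hb, ha', hb']
  have hp : (Ideal.absNorm v.asIdeal).Prime := absNorm_prime894 h1 v
  have hpN : ¬ Ideal.absNorm v.asIdeal ∣ N := fun h =>
    hNv (natCast_mem_of_absNorm_dvd894 _ _ h)
  have hpN' : ¬ Ideal.absNorm v.asIdeal ∣ N' := fun h =>
    hN'v (natCast_mem_of_absNorm_dvd894 _ _ h)
  obtain ⟨r, hrfin, -, hr⟩ := h48 N ε f hf.1 hf.2
  obtain ⟨r', hrfin', -, hr'⟩ := h48 N' ε' f' hf'.1 hf'.2
  obtain ⟨S, hS⟩ := hag
  let T : Finset ℕ := S.image (fun w => Ideal.absNorm w.asIdeal) ∪ N.primeFactors ∪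
    N'.primeFactors
  obtain ⟨A, σ, hA, hσ⟩ := Fermat.Agent.S54.exists_frobenius _ hp
  obtain ⟨ℓ, A', τ, hℓ, hℓT, hA', hτ, -, hτr, hτr'⟩ :=
    Fermat.Agent.Lib.Cheb.H956.chebotarev_hom_pair Fermat.Agent.Lib.Cheb.chebotarev r r'
      (isOpen_ker894 r hrfin) (isOpen_ker894 r' hrfin') σ T
  have hℓN : ¬ ℓ ∣ N := fun h => hℓT (by
    simp only [T, Finset.mem_union, Nat.mem_primeFactors]
    exact Or.inl (Or.inr ⟨hℓ, h, NeZero.ne N⟩))
  have hℓN' : ¬ ℓ ∣ N' := fun h => hℓT (by
    simp only [T, Finset.mem_union, Nat.mem_primeFactors]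
    exact Or.inr ⟨hℓ, h, NeZero.ne N'⟩)
  obtain ⟨w, hw⟩ := exists_place_absNorm894 h1 ℓ hℓ
  have hwS : w ∉ S := fun h => hℓT (by
    simp only [T, Finset.mem_union, Finset.mem_image]
    exact Or.inl (Or.inl ⟨w, h, hw⟩))
  have hNw : (N : 𝓞 K) ∉ w.asIdeal := fun h =>
    hℓN (hw ▸ absNorm_dvd_of_natCast_mem894 h1 _ N h)
  have hN'w : (N' : 𝓞 K) ∉ w.asIdeal := fun h =>
    hℓN' (hw ▸ absNorm_dvd_of_natCast_mem894 h1 _ N' h)
  obtain ⟨hwa, hwb⟩ := hS w hwS
  rw [(hval w hNw).1, (hval' w hN'w).1, hw] at hwa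
  rw [(hval w hNw).2, (hval' w hN'w).2, hw] at hwb
  obtain ⟨htr, hdet⟩ := (hr _ hp hpN A hA).2 σ hσ
  obtain ⟨htr', hdet'⟩ := (hr' _ hp hpN' A hA).2 σ hσ
  obtain ⟨htrℓ, hdetℓ⟩ := (hr ℓ hℓ hℓN A' hA').2 τ hτ
  obtain ⟨htrℓ', hdetℓ'⟩ := (hr' ℓ hℓ hℓN' A' hA').2 τ hτ
  constructor
  · rw [← htr, ← htr', ← hτr, ← hτr', htrℓ, htrℓ', hwa]
  · rw [← hdet, ← hdet', ← hτr, ← hτr', hdetℓ, hdetℓ', hwb]

end Fermat.Agent.LT.T2.H894

end

end
-- ===== PACK-END LT/T2/H894/SmoHH.lean

-- ===== PACK-BEGIN LT/T7/H267/OpDown.lean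
section





/-!
# Row LT, tower T7, leaf T7.L2.1.F5 `OpDownC` (helper267, SPARE of row 2252)

OFF-MAIN.  `R(f X k m) ψ = X(Ĉ) R(f [] 0 0) (Z^k 𝒰^m ψ)` on the invariant eigenfunctions, for
EVERY choice of the coset system and of the scalar uniformiser at `u`.

Assets used (byte copies): `H468.opsClassC468 : SD534.OpsClassC K` (helper468: `Z^k`, `𝒰` preserve
the classes), `H83.iwOp_iterate_indep83` (helper83: independence of the coset system),
`rconv_conv267`, `rconv_regL267` (Fubini and left invariance).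

* `shiftOp_indep267` : on Iwahori-invariant functions `shiftOp z k` does not depend on the
  scalar uniformiser `z`.
* `opDownC267 : OpDownC K K'` (frozen Prop of `T7/H893/SupplyFamSpec.lean`).
-/

set_option autoImplicit false

open AutomorphicForm IsDedekindDomain NumberField MeasureTheory

noncomputable section

namespace Fermat.Agent.LT.T7.H893.H267

open Fermat.Agent.LT.H556 Fermat.Agent.LT.H556.A0 Fermat.Agent.LT.T7 Fermat.Agent.LT.T7.H893
open Fermat.Agent.LT.H129

attribute [local instance] Fermat.Agent.LT.T5.instMeasurableSpaceG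
attribute [local instance] borelSpaceG267

section OneField

variable {K : Type} [Field K] [NumberField K]

/-- The elements supported at `u` which lie in the Iwahori subgroup at `u`. -/
def iwLocSub267 (u : HeightOneSpectrum (𝓞 K)) : Subgroup (G K) where
  carrier := {h | IsLocalAtFin u h ∧ T5.InIwahori u h}
  one_mem' := ⟨isLocalAtFin_one129 u, H83.inIwahori_one83 u⟩
  mul_mem' := fun ha hb => ⟨isLocalAtFin_mul129 ha.1 hb.1, H83.inIwahori_mul83 u ha.2 hb.2⟩
  inv_mem' := fun ha => ⟨isLocalAtFin_inv129 ha.1, H83.inIwahori_inv83 u ha.2⟩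

theorem mem_iwLocSub267 (u : HeightOneSpectrum (𝓞 K)) (h : G K) :
    h ∈ iwLocSub267 u ↔ IsLocalAtFin u h ∧ T5.InIwahori u h := Iff.rfl

/-- The component at `u` of the quotient of two scalar uniformisers. -/
theorem finComp_ratio267 {u : HeightOneSpectrum (𝓞 K)} {z z' : G K}
    (hz : IsScalarUniformizerAt u z) (hz' : IsScalarUniformizerAt u z') :
    ∃ e : u.adicCompletion K, Valued.v e = 1 ∧
      finComp u (z⁻¹ * z') = Matrix.diagonal (fun _ => e) := by
  obtain ⟨-, c, hc, hzc⟩ := hz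
  obtain ⟨-, c', hc', hzc'⟩ := hz'
  have hc0 : c ≠ 0 := by
    intro h0
    rw [h0, map_zero] at hc
    exact WithZero.exp_ne_zero.symm hc
  refine ⟨c⁻¹ * c', ?_, ?_⟩
  · rw [map_mul, map_inv₀, hc, hc']
    exact inv_mul_cancel₀ WithZero.exp_ne_zero
  · have e1 : finComp u z * finComp u (z⁻¹ * z') = finComp u z' := by
      rw [← coe_finCompHom129, ← coe_finCompHom129, ← coe_finCompHom129, ← Units.val_mul,
        ← map_mul]
      congr 2
      group
    rw [hzc, hzc'] at e1
    ext i j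
    have e2 := congrFun (congrFun e1 i) j
    rw [Matrix.diagonal_mul] at e2
    have e3 : finComp u (z⁻¹ * z') i j = c⁻¹ * (c * finComp u (z⁻¹ * z') i j) := by
      rw [← mul_assoc, inv_mul_cancel₀ hc0, one_mul]
    rw [e3, e2]
    by_cases hij : i = j
    · subst hij
      simp
    · simp [Matrix.diagonal_apply_ne _ hij]

theorem ratio_mem267 {u : HeightOneSpectrum (𝓞 K)} {z z' : G K}
    (hz : IsScalarUniformizerAt u z) (hz' : IsScalarUniformizerAt u z') :
    z⁻¹ * z' ∈ iwLocSub267 u := by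
  have int : ∀ {a b : G K}, IsScalarUniformizerAt u a → IsScalarUniformizerAt u b →
      IsIntegralAt u (a⁻¹ * b) := by
    intro a b ha hb i j
    obtain ⟨e, he, hab⟩ := finComp_ratio267 ha hb
    rw [hab, HeightOneSpectrum.mem_adicCompletionIntegers]
    by_cases hij : i = j
    · subst hij
      simp [he]
    · simp [Matrix.diagonal_apply_ne _ hij]
  refine ⟨isLocalAtFin_mul129 (isLocalAtFin_inv129 hz.1) hz'.1, int hz hz', ?_, ?_⟩
  · have e : (z⁻¹ * z')⁻¹ = z'⁻¹ * z := by group
    rw [e]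
    exact int hz' hz
  · obtain ⟨e, -, hab⟩ := finComp_ratio267 hz hz'
    rw [hab]
    simp

/-- **Independence of the scalar uniformiser.** -/
theorem shiftOp_indep267 {u : HeightOneSpectrum (𝓞 K)} {z z' : G K}
    (hz : IsScalarUniformizerAt u z) (hz' : IsScalarUniformizerAt u z') {ψ : G K → ℂ}
    (hψ : IsIwInv 1 (fun _ => u) ψ) (k : ℤ) : shiftOp z k ψ = shiftOp z' k ψ := by
  funext x
  unfold shiftOp
  have hmem : (z⁻¹ * z') ^ k ∈ iwLocSub267 u := Subgroup.zpow_mem _ (ratio_mem267 hz hz') k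
  rw [mem_iwLocSub267] at hmem
  have hcomm : Commute z (z⁻¹ * z') := (H468.central_scalar468 hz (z⁻¹ * z')).symm
  have e : z' ^ k = z ^ k * (z⁻¹ * z') ^ k := by
    rw [← hcomm.mul_zpow]
    congr 1
    group
  rw [e, ← mul_assoc]
  exact (hψ _ hmem.1.1 (fun v hv => hmem.1.2 v (hv 0 Nat.one_pos)) (fun _ _ => hmem.2)
    (x * z ^ k)).symm

/-- The iterates of `𝒰` preserve the classes. -/
theorem iwOp_iterate_inCls267 {𝔫 : Ideal (𝓞 K)} {r : G K} {u : HeightOneSpectrum (𝓞 K)}
    {H : Finset (G K)} {z : G K} (ops : SD534.IsOpsClass 𝔫 r u H z) {c : EigData K}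
    {ψ : G K → ℂ} (hψ : IsEigFn 𝔫 r 1 (fun _ => u) ψ c) (m : ℕ) :
    IsEigFn 𝔫 r 1 (fun _ => u) ((iwOp u H)^[m] ψ) c := by
  induction m with
  | zero => simpa using hψ
  | succ m ih =>
    rw [Function.iterate_succ_apply']
    exact ops.iw c _ ih

end OneField

section Main

variable (K K' : Type) [Field K] [NumberField K] [Field K'] [NumberField K'] [Algebra K K']

/-- **LEAF T7.L2.1.F5 = OP-DOWN.** -/
theorem opDownC267 : OpDownC K K' := by
  intro ℓ Φ B hB g _ E hE X k m hX ψ c C hψ hBC H z hH hz x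
  have hhaar : B.R.μ.IsHaarMeasure := hB.frame.frame.haar
  have t1 := hE.dn1_test X hX
  have t10 := hE.dn1_test [] (by simp)
  have t2 := hE.dn2_test
  have opsE : SD534.IsOpsClass E.𝔫 B.R.r B.u E.H E.z :=
    H468.opsClassC468 (K := K) E.𝔫 B.R.r B.u E.H E.z hE.level_ne hB.frame.ray hE.u_level
      hE.sys hE.unif
  have opsH : SD534.IsOpsClass E.𝔫 B.R.r B.u H z :=
    H468.opsClassC468 (K := K) E.𝔫 B.R.r B.u H z hE.level_ne hB.frame.ray hE.u_level hH hz
  have hψc : Continuous ψ := hψ.inv.cusp.cont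
  -- the eigenfunction `R(f₂) ψ` and its images
  have h2 : IsEigFn E.𝔫 B.R.r 1 (fun _ => B.u) (T5.Rconv B.R.μ E.f₂ ψ) c :=
    hE.dn2_class ψ c hψ
  have hχ : IsEigFn E.𝔫 B.R.r 1 (fun _ => B.u)
      (shiftOp E.z k ((iwOp B.u E.H)^[m] (T5.Rconv B.R.μ E.f₂ ψ))) c :=
    opsE.shift c _ k (iwOp_iterate_inCls267 opsE h2 m)
  -- the left side
  have lhs : T5.Rconv B.R.μ (E.down B X k m) ψ x
      = T5.Rconv B.R.μ (E.F₁ X)
          (shiftOp E.z k ((iwOp B.u E.H)^[m] (T5.Rconv B.R.μ E.f₂ ψ))) x := by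
    unfold L2Pre.down
    rw [rconv_conv267 B.R.μ t1.cont t1.supp (continuous_regL267 B.u E.z E.H k m t2.cont)
      (hasCompactSupport_regL267 B.u E.z E.H k m t2.supp) hψc x,
      rconv_regL267 B.R.μ B.u E.z E.H k m t2.cont t2.supp hψc]
  -- the iterates commute with `R(f₂)`
  have iter : ∀ j : ℕ, T5.Rconv B.R.μ E.f₂ ((iwOp B.u H)^[j] ψ)
      = (iwOp B.u H)^[j] (T5.Rconv B.R.μ E.f₂ ψ) := by
    intro j
    induction j with
    | zero => rfl
    | succ j ih =>
      rw [Function.iterate_succ_apply', Function.iterate_succ_apply', ← ih]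
      funext y
      exact (hE.dn2_comm _ (iwOp_iterate_inCls267 opsH hψ j).inv H z hH hz).1 y
  have hm : IsEigFn E.𝔫 B.R.r 1 (fun _ => B.u) ((iwOp B.u H)^[m] ψ) c :=
    iwOp_iterate_inCls267 opsH hψ m
  have hψ' : IsEigFn E.𝔫 B.R.r 1 (fun _ => B.u) (shiftOp z k ((iwOp B.u H)^[m] ψ)) c :=
    opsH.shift c _ k hm
  -- the right side
  have hdown : E.down B [] 0 0 = T5.conv B.R.μ (E.F₁ []) E.f₂ := by
    unfold L2Pre.down
    rw [regL_zero267]
  have key : T5.Rconv B.R.μ E.f₂ (shiftOp z k ((iwOp B.u H)^[m] ψ))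
      = shiftOp E.z k ((iwOp B.u E.H)^[m] (T5.Rconv B.R.μ E.f₂ ψ)) := by
    have s1 : T5.Rconv B.R.μ E.f₂ (shiftOp z k ((iwOp B.u H)^[m] ψ))
        = shiftOp z k (T5.Rconv B.R.μ E.f₂ ((iwOp B.u H)^[m] ψ)) :=
      funext ((hE.dn2_comm _ hm.inv H z hH hz).2 k)
    have s2 : (iwOp B.u H)^[m] (T5.Rconv B.R.μ E.f₂ ψ)
        = (iwOp B.u E.H)^[m] (T5.Rconv B.R.μ E.f₂ ψ) :=
      H83.iwOp_iterate_indep83 B.u hH hE.sys
        (H83.isIwInvAt_of_isIwInv83 h2.inv.iw (j := 0) Nat.one_pos) m
    rw [s1, iter m, s2]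
    exact shiftOp_indep267 hz hE.unif (iwOp_iterate_inCls267 opsE h2 m).inv.iw k
  have rhs : T5.Rconv B.R.μ (E.down B [] 0 0) (shiftOp z k ((iwOp B.u H)^[m] ψ)) x
      = T5.Rconv B.R.μ (E.F₁ [])
          (shiftOp E.z k ((iwOp B.u E.H)^[m] (T5.Rconv B.R.μ E.f₂ ψ))) x := by
    rw [hdown, rconv_conv267 B.R.μ t10.cont t10.supp t2.cont t2.supp hψ'.inv.cusp.cont x, key]
  rw [lhs, rhs]
  exact hE.dn1_op X hX _ c C hχ hBC x

end Main

end Fermat.Agent.LT.T7.H893.H267

end

end
-- ===== PACK-END LT/T7/H267/OpDown.lean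

-- ===== PACK-BEGIN LT/T7/H296/Nontriv.lean
section






/-!
# Row LT, tower T7, node `ClassModelC`: leaf CM.02 NON-TRIVIAL, core form and cyclic form --
# helper296, OFF-MAIN

VERBATIM, unconditional:

* `nontrivUC296 (K') : CMU675.NontrivUC675 K'` (core form of helper675, `ClassModelU.lean`
  sha256 9a359011),
* `nontrivC296 (K K') : CM616.NontrivC616 K K'` (cut of helper616, `ClassModelSpec.lean`
  sha256 8568bae7), by the bridge `CMU675.nontrivC616_of_U675`.

The form `φ` of `A0.IsCuspAdelicSph0 K' Φ` is an invariant eigenfunction with the data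
`eigOf Φ` at every level `𝔑₀ ≤ Φ.level` whose orbit places do not divide `Φ.level`:

* `InLevelGroup` is monotone in the level (`inLevelGroup_mono296`),
* the invariance under the ray generator follows from the invariance under the positive scalars
  at the infinite places (`T2.H793.rayOfArch793`, helper793),
* an element which is trivial outside the orbit and lies in the Iwahori subgroups along the orbit
  lies in `U(Φ.level)` (`𝔫 𝒪_v = 𝒪_v` at `v ∤ 𝔫`: `T2.H724.mem_idealClosure_of_not_dvd724`,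
  helper724),
* all the infinite places are complex, so the mean value property is `A0.MeanValueComplex`.
-/

set_option autoImplicit false

open AutomorphicForm IsDedekindDomain NumberField

noncomputable section

namespace Fermat.Agent.LT.T7.H296

open Fermat.Agent.LT.H556 Fermat.Agent.LT.H556.A0 Fermat.Agent.LT.T7 Fermat.Agent.LT.T7.CMU675

section General

variable {K : Type} [Field K] [NumberField K]

/-- The closure of an ideal in the completion is monotone in the ideal. -/
theorem idealClosure_mono296 {𝔫 𝔪 : Ideal (𝓞 K)} (h : 𝔫 ≤ 𝔪) (v : HeightOneSpectrum (𝓞 K)) :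
    idealClosure 𝔫 v ⊆ idealClosure 𝔪 v :=
  closure_mono (Set.image_mono h)

/-- `U(𝔫) ⊆ U(𝔪)` if `𝔫 ≤ 𝔪`. -/
theorem inLevelGroup_mono296 {𝔫 𝔪 : Ideal (𝓞 K)} (h : 𝔫 ≤ 𝔪) {u : G K}
    (hu : InLevelGroup 𝔫 u) : InLevelGroup 𝔪 u :=
  ⟨hu.1, fun v i j =>
    ⟨idealClosure_mono296 h v (hu.2 v i j).1, idealClosure_mono296 h v (hu.2 v i j).2⟩⟩

/-- `finComp v h⁻¹ = 1` if `finComp v h = 1`. -/
theorem finComp_inv_of_triv296 (v : HeightOneSpectrum (𝓞 K)) {h : G K} (hh : TrivAtFin v h) :
    finComp v h⁻¹ = 1 := by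
  have h1 : finComp v (h * h⁻¹) = finComp v h * finComp v h⁻¹ := finComp_mul296 v h h⁻¹
  rw [mul_inv_cancel, finComp_one296] at h1
  have h2 : finComp v h = 1 := hh
  rw [h2, one_mul] at h1
  exact h1.symm

/-- An element which is trivial at infinity, trivial at the finite places outside a family of
places prime to `𝔫` and integral with integral inverse along the family lies in `U(𝔫)`. -/
theorem inLevelGroup_of_iw296 (𝔫 : Ideal (𝓞 K)) (l : ℕ) (o : ℕ → HeightOneSpectrum (𝓞 K))
    (hgood : ∀ j < l, ¬ (o j).asIdeal ∣ 𝔫) {h : G K}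
    (hinf : ∀ w : InfinitePlace K, TrivAtInf w h)
    (hout : ∀ v : HeightOneSpectrum (𝓞 K), (∀ j < l, v ≠ o j) → TrivAtFin v h)
    (hiw : ∀ j < l, T5.InIwahori (o j) h) : InLevelGroup 𝔫 h := by
  classical
  refine ⟨hinf, fun v a b => ?_⟩
  by_cases hv : ∀ j < l, v ≠ o j
  · have h1 : finComp v h = 1 := hout v hv
    have h2 : finComp v h⁻¹ = 1 := finComp_inv_of_triv296 v (hout v hv)
    rw [h1, h2, sub_self]
    exact ⟨Fermat.Agent.LT.T2.H724.zero_mem_idealClosure724 v 𝔫,
      Fermat.Agent.LT.T2.H724.zero_mem_idealClosure724 v 𝔫⟩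
  · push_neg at hv
    obtain ⟨j, hj, rfl⟩ := hv
    have hI := hiw j hj
    have hone : Valued.v ((1 : Matrix (Fin 2) (Fin 2) ((o j).adicCompletion K)) a b) ≤ 1 := by
      rw [Matrix.one_apply]
      split_ifs
      · rw [map_one]
      · rw [map_zero]
        exact zero_le'
    have key : ∀ g : G K, IsIntegralAt (o j) g →
        (finComp (o j) g - 1) a b ∈ idealClosure 𝔫 (o j) := by
      intro g hg
      refine Fermat.Agent.LT.T2.H724.mem_idealClosure_of_not_dvd724 (o j) 𝔫 (hgood j hj) ?_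
      rw [Matrix.sub_apply]
      have h1 : Valued.v (finComp (o j) g a b) ≤ 1 := hg a b
      exact (Valuation.map_sub _ _ _).trans (max_le h1 hone)
    exact ⟨key h hI.1, key h⁻¹ hI.2.1⟩

end General

variable (K' : Type) [Field K'] [NumberField K']

/-- **LEAF CM.02, core form `NontrivUC675`**, VERBATIM. -/
theorem nontrivUC296 : NontrivUC675 K' := by
  intro ℓ Φ U ctx
  obtain ⟨φ, hφ⟩ := ctx.cusp
  have hD := ctx.data
  have hle : U.𝔑₀ ≤ Φ.level := hD.level_le
  have hr : T5.IsRayGen U.R'.r := hD.frame'.ray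
  refine ⟨φ, ⟨⟨⟨hφ.cont, hφ.bdd, ⟨hφ.left_inv, ?_, ?_, ?_⟩, hφ.cuspidal⟩, hφ.arch_scalar, ?_⟩,
    ?_, ?_⟩, hφ.ne_zero⟩
  · intro u hu g
    exact hφ.level_inv u (inLevelGroup_mono296 hle hu) g
  · intro w k hk g
    rw [hφ.arch_compact w k hk g]
    simp [T5.trivType]
  · intro g
    exact Fermat.Agent.LT.T2.H793.rayOfArch793 K' φ hφ.arch_scalar U.R'.r hr g
  · intro h hinf hout hiw x
    exact hφ.level_inv h
      (inLevelGroup_of_iw296 Φ.level ℓ U.o (fun j _ => hD.orbit_good j) hinf hout hiw) x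
  · intro v hv
    refine hφ.hecke v (fun hdvd => hv ?_)
    exact hdvd.trans (Ideal.dvd_iff_le.2 hle)
  · intro w
    exact hφ.mean_complex w (ctx.cplx w)

variable (K : Type) [Field K] [NumberField K] [Algebra K K']

/-- **LEAF CM.02 `NontrivC616`**, VERBATIM (cut of helper616), from the core form. -/
theorem nontrivC296 : CM616.NontrivC616 K K' :=
  nontrivC616_of_U675 (nontrivUC296 K')

end Fermat.Agent.LT.T7.H296

end

end
-- ===== PACK-END LT/T7/H296/Nontriv.lean

-- ===== PACK-BEGIN LT/T7/H757/LocEqInertQL.lean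
section




/-!
# Row LT, tower T7, leaf Q2.7.13.2c `FUQ514.LocEqInertQL514` (CORE FORM of helper514, row 2676)

OFF-MAIN.  `locEqInertQL757 F : FUQ514.LocEqInertQL514 F` VERBATIM, for every number field `F`.
Spec: `T7/H514/FactUpQCore.lean` (helper514@311c23de3, sha256 1d26ea9e16687419).

The LOCAL FORM of the leaf `LocEqInertQC514` (`LocEqInertQ.lean`, same proof): the inert clause
at the place `v` and the invariance of the components at `v` are hypotheses; no structure of
local hypotheses is mentioned.  Auxiliary statements: `LocEqInertQ.lean` (suffix `757`).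
NO equation lemma of a foreign definition is realised here.
-/

set_option autoImplicit false
set_option linter.style.haveILetI false

open AutomorphicForm IsDedekindDomain NumberField MeasureTheory
open scoped ComplexConjugate

noncomputable section

namespace Fermat.Agent.LT.T7.H757

open Fermat.Agent.LT.H556 Fermat.Agent.LT.H556.A0 Fermat.Agent.LT Fermat.Agent.LT.T7
open Fermat.Agent.LT.T7.H305 Fermat.Agent.LT.T7.H340 Fermat.Agent.LT.T7.MQ298
open Fermat.Agent.LT.T7.FUQ514

/-- **LEAF Q2.7.13.2c = LOC-EQ-INERT over `ℚ`, LOCAL FORM**, VERBATIM. -/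
theorem locEqInertQL757 (F : Type) [Field F] [NumberField F] : LocEqInertQL514 F := by
  intro hT6 _hIQ D _hD hcyc _hl2 n m φ₀ f₀ δ γ hEll hN L hL v hdn hup hcl J hJ
  obtain ⟨_, _, _, _, _, hInstLoc, hInstExt, _, hEx, _, hInt, _⟩ := hT6
  obtain ⟨w, e, i, sw, μ', μt', β', hvw, huniq, hi, hsw, hext, hμ', hμt', hβ', rfl⟩ := hJ
  obtain ⟨hμ'1, hμ'2⟩ := hμ'
  obtain ⟨hμt'1, hμt'2⟩ := hμt'
  obtain ⟨hβ'1, hβ'2, hβ'3⟩ := hβ'
  obtain ⟨hμ1, hμ2⟩ := hL.haar v
  obtain ⟨hμt1, hμt2⟩ := hL.tor v
  obtain ⟨hβ1, hβ2, hβ3⟩ := hL.cut v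
  obtain ⟨hup1, hup2⟩ := hup w hvw
  obtain ⟨hdn1, hdn2⟩ := hdn
  -- regularity
  have hregγ : T6.IsReg (locG305 v γ) := isReg_map757 _ hEll.1
  have hnorm : T6.twNorm sw D.l (locG305 w δ)
      = Matrix.GeneralLinearGroup.map i (locG305 v γ) := by
    rw [← locG_normUpTo757 D.s w sw hsw, hN, locG_base757 v w i hi]
  have hregδ : T6.IsReg (T6.twNorm sw D.l (locG305 w δ)) := by
    rw [hnorm]
    exact isReg_map757 _ hregγ
  -- the local fields
  have hkv := hInstLoc ℚ v
  have hkw := hInstLoc F w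
  have hkw' : T6.IsLocalField (w.adicCompletion F)
      (Ideal.absNorm v.asIdeal ^ (D.l / e)) := by
    haveI := hcyc.galois
    obtain ⟨s, hs⟩ := exists_gen757 D.l hcyc
    obtain ⟨e₀, i₀, sw₀, hi₀, _, hext₀, hN₀⟩ :=
      hInstExt ℚ F s hs (hcyc.degree ▸ hcyc.prime) v w (placeOver_iff757 hvw)
        (fun w' hw' => huniq w' (placeOver_of_le757 hw'))
    have he : e = e₀ := ramIdx_unique757 v w e e₀ i i₀ hi hi₀ hext.val_i hext₀.val_i
    rw [he, ← hcyc.degree, ← hN₀]
    exact hkw
  -- orbit sums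
  obtain ⟨c, hc⟩ := hEx (v.adicCompletion ℚ) (w.adicCompletion F) (Ideal.absNorm v.asIdeal)
    D.l e i sw hkv hkw' hext (n w) (φ₀ w) hup1 hup2 (locG305 w δ) hregδ
  have hkv1 : T6.IsLocalField (v.adicCompletion ℚ) (Ideal.absNorm v.asIdeal ^ (1 / 1)) := by
    have : Ideal.absNorm v.asIdeal ^ (1 / 1) = Ideal.absNorm v.asIdeal := by norm_num
    rw [this]
    exact hkv
  have hregγ1 : T6.IsReg (T6.twNorm (RingEquiv.refl (v.adicCompletion ℚ)) 1 (locG305 v γ)) := by
    rw [twNorm_one757]
    exact hregγ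
  obtain ⟨c', hc'⟩ := hEx (v.adicCompletion ℚ) (v.adicCompletion ℚ) (Ideal.absNorm v.asIdeal)
    1 1 (RingHom.id _) (RingEquiv.refl _) hkv hkv1 (isLocalExt_refl757 _) (m v) (f₀ v) hdn1 hdn2
    (locG305 v γ) hregγ1
  -- the integrals
  have hJc : locTwInt340 sw μ' β' (φ₀ w) (locG305 w δ) = c :=
    hInt (w.adicCompletion F) (Ideal.absNorm w.asIdeal) D.l sw hkw hext.val_s hext.cyc.pos
      hext.cyc.order (n w) (φ₀ w) hup1 hup2 (locG305 w δ) c hregδ hc μ' hμ'1 hμ'2 μt' hμt'1 hμt'2
      β' hβ'1 hβ'2 hβ'3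
  have hIc : locInt305 (L.μv v) (L.βv v) (f₀ v) (locG305 v γ) = c' := by
    have h := hInt (v.adicCompletion ℚ) (Ideal.absNorm v.asIdeal) 1 (RingEquiv.refl _) hkv
      (fun _ => rfl) Nat.one_pos (fun y => by simp) (m v) (f₀ v) hdn1 hdn2 (locG305 v γ) c'
      hregγ1 hc' (L.μv v) hμ1 hμ2 (L.μt v) hμt1 hμt2 (L.βv v) hβ1 hβ2 hβ3
    rw [← h]
    exact (locInt_refl757 _ _ _ _).symm
  -- matching
  have hcc' : c = c' :=
    (hcl w hvw huniq e i sw hi hsw hext).1 (locG305 w δ) (locG305 v γ) c c' hregγ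
      (hnorm ▸ IsConj.refl _) hc hc'
  rw [hJc, hIc, hcc']

/-- Example check: the statement is the frozen Prop of the Spec, verbatim. -/
example (F : Type) [Field F] [NumberField F] : FUQ514.LocEqInertQL514 F := locEqInertQL757 F

end Fermat.Agent.LT.T7.H757

end

end
-- ===== PACK-END LT/T7/H757/LocEqInertQL.lean

-- ===== PACK-BEGIN LT/T7/H913/CutOnUpQSpec.lean
section




/-!
# Row LT, tower T7, node `H1U.CutOnUpQC` (registry row 2786, owner helper913): THE CUT -- Spec

OFF-MAIN.  Definitions and frozen Props only (the proved top is `CutOnUpQTop.lean`).  No hole,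
nothing assumed.  ADDITIVE (new names only, suffix `913`).  Vocabulary:
`T7/H1U/UpFactQSpec.lean` (helper1, sha256 88d08be1) and `T7/H340/UpFactSpec.lean` (helper340),
byte-identical copies.  MIRROR of Part A of the cubic cut of helper340 (`CutOnUpC340`), leaf by
leaf, for `F / ℚ` imaginary quadratic, `l = 2`.

    cutOnUpQC_of913 : H340.SuppOutUpC340 F → SuppUpQC913 F → CutOnOutUpQC913 F →
        H305.TorCommC305 F → H305.EllRegC305 ℚ F → H558.OutOpenC558 F → H558.CompContC558 F →
        H340.IsoContC340 → H1U.CutOnUpQC F                                        (VERBATIM)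

## REUSED VERBATIM

`H340.SuppOutUpC340 F` (ONE field, any automorphism), `H305.TorCommC305 F` (closed, helper233),
`H305.EllRegC305 ℚ F`, `H558.OutOpenC558 F`, `H558.CompContC558 F`, `H340.IsoContC340`.

## NEW

* `SuppUpQC913 F` (leaf [L]) = mirror of `H340.SuppUpC340` (twisted support): the SAME statement
  with `K = ℚ`, `IsImagQuad F`, `D.l = 2` instead of `D.l ≠ 2`, `TotCplx K`.  The proof is local
  at the finite places outside `S` (unramified) and does not see the infinite places: it ports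
  from the proof of `H340.SuppUpC340` (helper159 `GoodUnitTw.lean`, `GoodUnitSplit.lean`).
* `CutOnOutUpQC913 F` (node [L-XL]) = mirror of `H340.CutOnOutUpC340` for `H1U.prodCutUpQ` and the
  data `H1U.IsUpDatQ`: for `x' ∈ Out_{S'}` the integral over the twisted torus is `1`.

FALSITY CHECKS (helper913).  `SuppUpQC913`: as `H340.SuppUpC340`; at a split place `v ∉ S` the two
places over `v` are treated at once, at an inert place `F_w / ℚ_v` is unramified (`UnramOut305`,
`T₀ ⊆ S`).  `CutOnOutUpQC913`: `μT'` is the image of `μT` (`IsTorLinked305`), `ι(t) x' ∈ Out_{S'}`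
iff `t ∈ Out_S`, the value of the cut-off at `ι(t) x'` is
`c_T⁻¹ ∏_{v ∈ S} bet_v(i_v(t_v) x'_{w0 v}) · βc((t_∞)_ℂ x'_∞)`; as a function of `t` this is the
product cut-off DOWNSTAIRS of the local data `L'` = `L` with `βv v` replaced by
`g ↦ bet_v(i_v(g) x'_{w0 v})` and `βr` by `g ↦ βc(g_ℂ x'_∞)`, evaluated at `t · 1`; `L'` has the
measures of `L` (so `IsTorConstQ298` holds for `L'`) and its cut-off functions are normalised:
inert `v`: `i_v` maps the centraliser of `γ_v` onto the twisted centraliser of `δ_w` and the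
normalised Haar measures correspond; split `v`: `bet_v(i_0(g) z) = L.βv v (g · i_0⁻¹ z)`;
infinity: the clause of `IsArchAtQ`.  So the value is `1` by the closed leaf `H751.CutOnOutQC751`
at `x' = 1`.
-/

set_option autoImplicit false

open AutomorphicForm IsDedekindDomain NumberField MeasureTheory
open scoped ComplexConjugate

noncomputable section

namespace Fermat.Agent.LT.T7.H913

open Fermat.Agent.LT.H556 Fermat.Agent.LT.H556.A0 Fermat.Agent.LT.T7 Fermat.Agent.LT.T7.H305
open Fermat.Agent.LT.T7.MQ298 Fermat.Agent.LT.T7.H1U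

attribute [local instance] Fermat.Agent.LT.T5.instMeasurableSpaceG

variable (F : Type) [Field F] [NumberField F]

/-- **LEAF CU.1 = SUPP-UP over `ℚ`** (the twisted form of `SuppDownC305`; mirror of
`H340.SuppUpC340`).  If `N δ = γ` is good outside `S`, `δ` is integral outside `S'`, the places
outside `S` are unramified and `x⁻¹ δ σ(x)` is in `GL₂(𝒪_w)` for `w ∉ S'`, then `x = t x'` with
`t ∈ T_𝔸(δ)` and `x'_w ∈ GL₂(𝒪_w)` for `w ∉ S'`. -/
def SuppUpQC913 : Prop :=
  T6.T6Out → IsImagQuad F →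
  ∀ D : CompData ℚ F, IsCompData D → IsCycExt ℚ F D.l → D.l = 2 →
    ∀ (T₀ : Finset (HeightOneSpectrum (𝓞 ℚ))), UnramOut305 (K' := F) T₀ →
    ∀ (S : Finset (HeightOneSpectrum (𝓞 ℚ))) (S' : Finset (HeightOneSpectrum (𝓞 F))),
      T₀ ⊆ S → IsOver305 S S' →
    ∀ (δ : GL (Fin 2) F) (γ : GL (Fin 2) ℚ), T6.IsEll γ →
      D.s.normUpTo D.l δ = Matrix.GeneralLinearGroup.map (algebraMap ℚ F) γ →
      GoodOut305 S γ → IntOut305 S' δ →
    ∀ x : G F, OutT305 S' (x⁻¹ * T5.ratG δ * D.s.onG x) →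
      ∃ t : G F, t ∈ tA305 D.s δ ∧ OutT305 S' (t⁻¹ * x)

/-- **NODE CU.2 = CUT-ON-OUT-UP over `ℚ`** (mirror of `H340.CutOnOutUpC340`).  For
`x' ∈ Out_{S'}`: `∫_{T_𝔸(δ)} β'(t x') dμT'(t) = 1` for the cut-off `β' = H1U.prodCutUpQ S' S cT U`.
See the header. -/
def CutOnOutUpQC913 : Prop :=
  T6.T6Out → IsImagQuad F →
  ∀ D : CompData ℚ F, IsCompData D → IsCycExt ℚ F D.l → D.l = 2 →
    ∀ ι : Adl ℚ →+* Adl F, IsAdeleBase305 D.s D.l ι →
    ∀ μc : @Measure (GL (Fin 2) ℂ) (borel _), @Measure.IsHaarMeasure _ _ _ (borel _) μc →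
    ∀ (T₀ : Finset (HeightOneSpectrum (𝓞 ℚ))), UnramOut305 (K' := F) T₀ →
    ∀ (n : HeightOneSpectrum (𝓞 F) → ℕ) (m : HeightOneSpectrum (𝓞 ℚ) → ℕ)
      (S : Finset (HeightOneSpectrum (𝓞 ℚ))) (S' : Finset (HeightOneSpectrum (𝓞 F))),
      T₀ ⊆ S → IsOver305 S S' →
    ∀ (φ₀ : ∀ w : HeightOneSpectrum (𝓞 F), GL (Fin 2) (w.adicCompletion F) → ℂ)
      (Φ : InfinitePlace F → GL (Fin 2) ℂ → ℂ),
    ∀ (δ : GL (Fin 2) F) (γ : GL (Fin 2) ℚ), T6.IsEll γ →
      D.s.normUpTo D.l δ = Matrix.GeneralLinearGroup.map (algebraMap ℚ F) γ →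
      GoodOut305 S γ → IntOut305 S' δ →
    ∀ (μT : @Measure (tA305 (T5.AdelicAut.id ℚ) γ) (borel _))
      (μT' : @Measure (tA305 D.s δ) (borel _)),
      @Measure.IsHaarMeasure _ _ _ (borel _) μT →
      @Measure.IsHaarMeasure _ _ _ (borel _) μT' →
      IsTorLinked305 ι D.s δ γ μT μT' →
    ∀ (L : LocDataQ298 γ) (cT : ℝ), IsLocDataQ298 m L → 0 < cT → IsTorConstQ298 γ μT L cT →
    ∀ (U : UpDatQ F) (J : HeightOneSpectrum (𝓞 ℚ) → ℂ) (Jc : ℤ → ℂ),
      IsUpDatQ D n m φ₀ Φ δ L μc S U J Jc →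
    ∀ x' : G F, OutT305 S' x' →
      @integral _ _ _ _ (borel _) μT'
        (fun t : tA305 D.s δ => prodCutUpQ S' S cT U ((t : G F) * x')) = 1

/-! ## Appendix: the equation lemmas of the definitions of this file are realised HERE -/

theorem eqns_realised_cutOnUpQ913 : True := by
  have _a1 := @SuppUpQC913.eq_1
  have _a2 := @SuppUpQC913.eq_def
  have _a3 := @SuppUpQC913.eq_unfold
  have _b1 := @CutOnOutUpQC913.eq_1
  have _b2 := @CutOnOutUpQC913.eq_def
  have _b3 := @CutOnOutUpQC913.eq_unfold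
  trivial

end Fermat.Agent.LT.T7.H913

end

end
-- ===== PACK-END LT/T7/H913/CutOnUpQSpec.lean

-- ===== PACK-BEGIN LT/T7/H999/UpSplit.lean
section





/-!
# Row LT, tower T7, leaf UD.2 `UD341.UpSplitC341` (cut of helper341 of `H340.UpDatC340`;
# helper999, SPARE)

OFF-MAIN.  Complete proof, nothing assumed.  ADDITIVE (new names only, suffix `999`).

    upSplitC_of999 : H305.SigmaLocC305 K' → UD341.UpSplitC341 K K'       (VERBATIM)
    upSplitC999 (K K') : UD341.UpSplitC341 K K'                          (UNCONDITIONAL)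

`v` a finite place of `K` which has NOT exactly one place of `K'` over it.  `w₁` a place over
`v` (exists), `w₂ ≠ w₁` another one; `w j = σ⁻ʲ(w₁)`:

* `ovr`, `rel`, `ne`, `rat_i`, `val_i`: as in `exists_enum999` (`EnumCore.lean`); `e = f = 1`
  at every place over `v`, the completions are isomorphic (`T6.H116.instSplitC_h116`);
* `inj`: `σ⁻ᵃ` is injective on the places, and `ne`;
* `exh`: transitivity of the Galois group (`exists_iterate_sigPlace999`), `σ^l = 1`;
* `sig`: `SigmaLocC305 K'` gives `s : K'_{w_b} ≃ K'_{w_a}` over `σ` (`w_a = σ(w_b)`,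
  `b = a + 1` modulo `l`), and `i_a⁻¹ ∘ s ∘ i_b` is a continuous endomorphism of `K_v` which is
  the identity on `K`, so the identity;
* `iot`: `IsAdeleBase305.fin` and uniqueness (density of `K`, continuity).

The hypothesis `T6.T6Out` is not used.
-/

set_option autoImplicit false
set_option linter.deprecated false
set_option linter.style.haveILetI false
set_option linter.unusedVariables false
set_option linter.unusedSectionVars false

open AutomorphicForm IsDedekindDomain NumberField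

namespace Fermat.Agent.LT.T7.H999

open Fermat.Agent.LT.H556 Fermat.Agent.LT.H556.A0 Fermat.Agent.LT.T7 Fermat.Agent.LT.T7.H305
open Fermat.Agent.LT.T7.H340

variable {K K' : Type} [Field K] [NumberField K] [Field K'] [NumberField K'] [Algebra K K']

/-- `σ⁻¹(σ(w)) = w`. -/
theorem sigPlace_symm_sig999 (σ : K' ≃+* K') (w : HeightOneSpectrum (𝓞 K')) :
    sigPlace999 σ.symm (sigPlace999 σ w) = w := by
  have h := sigPlace_symm999 σ.symm w
  rw [RingEquiv.symm_symm] at h
  exact h

/-- The powers of the generator of the data as a `K`-automorphism. -/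
theorem galGen_pow_apply999 (D : CompData K K') (hD : IsCompData D) (n : ℕ) (y : K') :
    (galGen999 D hD ^ n) y = (D.s.σ ^ n) y := by
  induction n generalizing y with
  | zero => rfl
  | succ n ih =>
    rw [pow_succ, pow_succ]
    show (galGen999 D hD ^ n) (galGen999 D hD y) = (D.s.σ ^ n) (D.s.σ y)
    rw [ih]
    rfl

/-- `σ^l` acts trivially on the places. -/
theorem iterate_sigPlace_deg999 (D : CompData K K') (hD : IsCompData D)
    (w : HeightOneSpectrum (𝓞 K')) : (sigPlace999 D.s.σ)^[D.l] w = w := by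
  have h1 : galGen999 D hD ^ D.l = 1 := by
    apply AlgEquiv.ext
    intro x
    rw [galGen_pow_apply999, hD.cyc.pow_eq]
    rfl
  have h2 := sigPlace_pow999 (galGen999 D hD) D.l w
  rw [galGen_coe999, h1] at h2
  rw [← h2]
  apply HeightOneSpectrum.ext
  rw [← smul_asIdeal999, one_smul]

/-- `σ⁻ˡ` acts trivially on the places. -/
theorem iterate_symm_deg999 (D : CompData K K') (hD : IsCompData D)
    (w : HeightOneSpectrum (𝓞 K')) : (sigPlace999 D.s.σ.symm)^[D.l] w = w := by
  have hfg : Function.LeftInverse (sigPlace999 D.s.σ.symm) (sigPlace999 D.s.σ) :=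
    fun u => sigPlace_symm_sig999 D.s.σ u
  have h2 := (hfg.iterate D.l) w
  rw [iterate_sigPlace_deg999 D hD w] at h2
  exact h2

/-- Periodicity of the enumeration. -/
theorem iterate_symm_add_mul999 (D : CompData K K') (hD : IsCompData D)
    (w : HeightOneSpectrum (𝓞 K')) (q a : ℕ) :
    (sigPlace999 D.s.σ.symm)^[a + D.l * q] w = (sigPlace999 D.s.σ.symm)^[a] w := by
  induction q with
  | zero => rw [Nat.mul_zero, Nat.add_zero]
  | succ q ih =>
    rw [Nat.mul_succ, ← Nat.add_assoc, Function.iterate_add_apply, iterate_symm_deg999 D hD, ih]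

/-- **The local form of `σ_𝔸` in the coordinates of `K_v`**, at two places `u = σ(u')` over a
split place. -/
theorem sig_coord999 (D : CompData K K') (hD : IsCompData D) (hσ : SigmaLocC305 K')
    (v : HeightOneSpectrum (𝓞 K)) (u u' : HeightOneSpectrum (𝓞 K'))
    (hrel : T5.PlaceRel D.s u' u)
    (iu : v.adicCompletion K ≃+* u.adicCompletion K')
    (iu' : v.adicCompletion K ≃+* u'.adicCompletion K')
    (hu : ∀ x : K, iu (algebraMap K (v.adicCompletion K) x)
      = algebraMap K' (u.adicCompletion K') (algebraMap K K' x))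
    (hu' : ∀ x : K, iu' (algebraMap K (v.adicCompletion K) x)
      = algebraMap K' (u'.adicCompletion K') (algebraMap K K' x))
    (hv : ∀ x : v.adicCompletion K, Valued.v (iu x) = Valued.v x)
    (hv' : ∀ x : v.adicCompletion K, Valued.v (iu' x) = Valued.v x)
    (x : Adl K') :
    iu.symm (T5.finHom u (D.s.σA x)) = iu'.symm (T5.finHom u' x) := by
  obtain ⟨sw, hs1, hs2, hs3⟩ := (hσ D.s).1 u' u hrel
  rw [hs3]
  have hcs : Continuous (sw : u'.adicCompletion K' → u.adicCompletion K') :=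
    continuous_of_valued_pow999 u' u (sw : u'.adicCompletion K' →+* u.adicCompletion K') 1
      one_pos (fun z => by rw [pow_one]; exact hs2 z)
  have hcb : Continuous (iu' : v.adicCompletion K → u'.adicCompletion K') :=
    continuous_of_valued_pow999 v u' (iu' : v.adicCompletion K →+* u'.adicCompletion K') 1
      one_pos (fun z => by rw [pow_one]; exact hv' z)
  have hca : Continuous (iu.symm : u.adicCompletion K' → v.adicCompletion K) :=
    continuous_of_valued_pow999 u v (iu.symm : u.adicCompletion K' →+* v.adicCompletion K) 1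
      one_pos (fun z => by
        rw [pow_one]
        have h := hv (iu.symm z)
        rw [RingEquiv.apply_symm_apply] at h
        exact h.symm)
  have heq : (fun z : v.adicCompletion K => iu.symm (sw (iu' z)))
      = (fun z : v.adicCompletion K => z) :=
    eq_of_eqOn_rat999 v _ _ (hca.comp (hcs.comp hcb)) continuous_id (fun k => by
      show iu.symm (sw (iu' (algebraMap K (v.adicCompletion K) k)))
        = algebraMap K (v.adicCompletion K) k
      rw [hu', hs1, sigma_algebraMap999 hD, RingEquiv.symm_apply_eq, hu])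
  have h := congrFun heq (iu'.symm (T5.finHom u' x))
  simp only [RingEquiv.apply_symm_apply] at h
  exact h

/-- **The local form of `ι` in the coordinates of `K_v`**, at a place over a split place. -/
theorem iot_coord999 {D : CompData K K'} {ι : Adl K →+* Adl K'}
    (hι : IsAdeleBase305 D.s D.l ι)
    (v : HeightOneSpectrum (𝓞 K)) (u : HeightOneSpectrum (𝓞 K')) (hov : PlaceOver K K' v u)
    (iu : v.adicCompletion K ≃+* u.adicCompletion K')
    (hu : ∀ x : K, iu (algebraMap K (v.adicCompletion K) x)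
      = algebraMap K' (u.adicCompletion K') (algebraMap K K' x))
    (hv : ∀ x : v.adicCompletion K, Valued.v (iu x) = Valued.v x)
    (x : Adl K) : T5.finHom u (ι x) = iu (T5.finHom v x) := by
  obtain ⟨e, i', he, hi1, hi2, hi3⟩ := hι.fin v u hov
  rw [hi3]
  have hci' : Continuous i' := continuous_of_valued_pow999 v u i' e he hi2
  have hca : Continuous (iu : v.adicCompletion K → u.adicCompletion K') :=
    continuous_of_valued_pow999 v u (iu : v.adicCompletion K →+* u.adicCompletion K') 1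
      one_pos (fun z => by rw [pow_one]; exact hv z)
  have heq : (i' : v.adicCompletion K → u.adicCompletion K') = iu :=
    eq_of_eqOn_rat999 v _ _ hci' hca (fun k => by rw [hi1, hu])
  exact congrFun heq _

variable (K K')

/-- **LEAF UD.2 = UP-SPLIT** from `SigmaLocC305 K'`, VERBATIM. -/
theorem upSplitC_of999 (hσ : SigmaLocC305 K') :
    Fermat.Agent.LT.T7.UD341.UpSplitC341 K K' := by
  intro _ D hD hcyc ι hι v hnot
  haveI := hcyc.galois
  have hprime : (Module.finrank K K').Prime := by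
    rw [hcyc.degree]
    exact hcyc.prime
  obtain ⟨w₁, hw₁⟩ := exists_placeOver999 (K' := K') v
  obtain ⟨w₂, hw₂, hne⟩ : ∃ w₂ : HeightOneSpectrum (𝓞 K'), PlaceOver K K' v w₂ ∧ w₁ ≠ w₂ := by
    by_contra hcon
    push Not at hcon
    exact hnot ⟨w₁, hw₁, fun w' hw' => (hcon w' hw').symm⟩
  have hgf : Function.LeftInverse (sigPlace999 D.s.σ) (sigPlace999 D.s.σ.symm) :=
    fun u => sigPlace_symm999 D.s.σ u
  have hfg : Function.LeftInverse (sigPlace999 D.s.σ.symm) (sigPlace999 D.s.σ) :=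
    fun u => sigPlace_symm_sig999 D.s.σ u
  have hover : ∀ j : ℕ, PlaceOver K K' v ((sigPlace999 D.s.σ.symm)^[j] w₁) :=
    fun j => placeOver_iterate_symmG999 hD hw₁ j
  have hiso : ∀ w : HeightOneSpectrum (𝓞 K'), PlaceOver K K' v w →
      ∃ i : v.adicCompletion K ≃+* w.adicCompletion K',
        (∀ x : K, i (algebraMap K (v.adicCompletion K) x)
          = algebraMap K' (w.adicCompletion K') (algebraMap K K' x)) ∧
        ∀ x : v.adicCompletion K, Valued.v (i x) = Valued.v x := by
    intro w hw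
    obtain ⟨w', hw', hww'⟩ : ∃ w' : HeightOneSpectrum (𝓞 K'), PlaceOver K K' v w' ∧ w ≠ w' := by
      by_cases h : w = w₁
      · exact ⟨w₂, hw₂, by rw [h]; exact hne⟩
      · exact ⟨w₁, hw₁, h⟩
    exact exists_iso_of_split999 hprime v w w' hw hw' hww'
  choose i hi hiv using fun j : ℕ => hiso _ (hover j)
  have hrel : ∀ j : ℕ, T5.PlaceRel D.s ((sigPlace999 D.s.σ.symm)^[j + 1] w₁)
      ((sigPlace999 D.s.σ.symm)^[j] w₁) := by
    intro j
    have h : sigPlace999 D.s.σ ((sigPlace999 D.s.σ.symm)^[j + 1] w₁)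
        = (sigPlace999 D.s.σ.symm)^[j] w₁ := by
      rw [Function.iterate_succ_apply']
      exact sigPlace_symm999 _ _
    have h0 := placeRel_sigPlace999 D.s ((sigPlace999 D.s.σ.symm)^[j + 1] w₁)
    rw [h] at h0
    exact h0
  have hne0 : ∀ j : ℕ, 0 < j → j < D.l → (sigPlace999 D.s.σ.symm)^[j] w₁ ≠ w₁ := by
    intro j hj0 hjl heq
    have hfix : (sigPlace999 D.s.σ)^[j] w₁ = w₁ := by
      have := iterate_sig_iterate_symmG999 D.s.σ w₁ j
      rw [heq] at this
      exact this
    exact hne (eq_of_iterate_fixedG999 D hD hcyc hw₁ hw₂ j hj0 hjl hfix).symm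
  have hper0 : (sigPlace999 D.s.σ.symm)^[D.l] w₁ = w₁ := iterate_symm_deg999 D hD w₁
  have hkey : ∀ a b : ℕ, a < b → b < D.l →
      (sigPlace999 D.s.σ.symm)^[a] w₁ ≠ (sigPlace999 D.s.σ.symm)^[b] w₁ := by
    intro a b hab hb heq
    have hb' : b = a + (b - a) := by omega
    rw [hb', Function.iterate_add_apply] at heq
    have h1 := (hgf.iterate a).injective heq
    exact hne0 (b - a) (by omega) (by omega) h1.symm
  have hinj : ∀ a b : ℕ, a < D.l → b < D.l →
      (sigPlace999 D.s.σ.symm)^[a] w₁ = (sigPlace999 D.s.σ.symm)^[b] w₁ → a = b := by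
    intro a b ha hb heq
    rcases Nat.lt_trichotomy a b with h | h | h
    · exact absurd heq (hkey a b h hb)
    · exact h
    · exact absurd heq.symm (hkey b a h ha)
  have hexh : ∀ w' : HeightOneSpectrum (𝓞 K'), PlaceOver K K' v w' →
      ∃ a : ℕ, a < D.l ∧ w' = (sigPlace999 D.s.σ.symm)^[a] w₁ := by
    intro w' hw'
    obtain ⟨j, hj⟩ := exists_iterate_sigPlace999 D hD hcyc hw' hw₁
    have h1 : (sigPlace999 D.s.σ.symm)^[j] w₁ = w' := by
      rw [hj]
      exact (hfg.iterate j) w'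
    refine ⟨j % D.l, Nat.mod_lt _ hcyc.prime.pos, ?_⟩
    rw [← h1]
    have h2 := iterate_symm_add_mul999 D hD w₁ (j / D.l) (j % D.l)
    rw [Nat.mod_add_div] at h2
    exact h2
  have hrelc : ∀ a : Fin D.l, T5.PlaceRel D.s
      ((sigPlace999 D.s.σ.symm)^[(cycSucc340 a).1] w₁) ((sigPlace999 D.s.σ.symm)^[a.1] w₁) := by
    intro a
    have h1 : (cycSucc340 a).1 = (a.1 + 1) % D.l := rfl
    rw [h1]
    by_cases h : a.1 + 1 < D.l
    · rw [Nat.mod_eq_of_lt h]
      exact hrel a.1
    · have h2 : a.1 + 1 = D.l := by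
        have := a.2
        omega
      have h3 := hrel a.1
      rw [h2, hper0] at h3
      rw [h2, Nat.mod_self]
      exact h3
  refine ⟨⟨fun j => (sigPlace999 D.s.σ.symm)^[j] w₁, i⟩, ?_⟩
  exact
    { pos := hcyc.prime.pos
      ovr := hover
      rel := hrel
      ne := fun j hj0 hjl => hne0 j hj0 hjl
      rat_i := hi
      val_i := hiv
      inj := hinj
      exh := hexh
      sig := fun a x =>
        sig_coord999 D hD hσ v _ _ (hrelc a) (i a.1) (i (cycSucc340 a).1) (hi a.1)
          (hi (cycSucc340 a).1) (hiv a.1) (hiv (cycSucc340 a).1) x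
      iot := fun a x => iot_coord999 hι v _ (hover a) (i a) (hi a) (hiv a) x }

/-- **LEAF UD.2 = UP-SPLIT**, VERBATIM, unconditional. -/
theorem upSplitC999 : Fermat.Agent.LT.T7.UD341.UpSplitC341 K K' :=
  upSplitC_of999 K K' (Fermat.Agent.LT.T7.H558.sigmaLocC558 (K := K'))

end Fermat.Agent.LT.T7.H999

end
-- ===== PACK-END LT/T7/H999/UpSplit.lean

-- ===== PACK-BEGIN LT/T7/H887/UpArch.lean
section




/-!
# Row LT, tower T7, node C2.7.13.1.0 `H340.UpDatC340`, leaf UD.3 `UD341.UpArchC341` (helper887)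

OFF-MAIN (spare proof).  `upArchC887 K K' : UD341.UpArchC341 K K'`, VERBATIM, unconditional.

`σ` = the generator of `D`, as an element `σ_a` of `Gal(K'/K)` (it fixes `K`: `IsCompData.base`,
`IsCyclicOfDegree.fixed`); `Gal(K'/K)` has prime order `ℓ` and `σ_a ≠ 1`, so every element is a
power of `σ_a`.  `w₀` a place over `v`, `w a = w₀ ∘ σ^a` (`= (σ_a^a)⁻¹ • w₀`).  `exh`: the Galois
group is transitive on the fibre.  `inj`: `v` is complex, so `w₀` is unramified and its
stabiliser is trivial.  `d a` = the type of `ι` at `w a` (`IsAdeleBase305.inf`).  `sig`: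
`SigmaLocC305 K'` (closed by helper558) at `w a` gives `(σ_𝔸 x)_{w a} = c (x_{w (a+1)})`, `c` the
identity or the conjugation; on `ι z`, `z` rational with a non-real image at `v`, the relation
`σ_𝔸 ι = ι` gives `d a u = c (d (a+1) u)` for a non-real `u`, which fixes `c`.
-/

set_option autoImplicit false
set_option linter.unusedSectionVars false
set_option linter.style.haveILetI false

open AutomorphicForm IsDedekindDomain NumberField MeasureTheory
open scoped ComplexConjugate

noncomputable section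

namespace Fermat.Agent.LT.T7.H887

open Fermat.Agent.LT.H556 Fermat.Agent.LT.H556.A0 Fermat.Agent.LT.T7 Fermat.Agent.LT.T7.H305
open Fermat.Agent.LT.T7.H340 Fermat.Agent.LT.T7.UD341

section Orbit

variable {K K' : Type} [Field K] [NumberField K] [Field K'] [NumberField K'] [Algebra K K']

/-- The places `w₀ ∘ σ^a`. -/
def archW887 (σ : K' ≃+* K') (w₀ : InfinitePlace K') : ℕ → InfinitePlace K'
  | 0 => w₀
  | (a + 1) => (archW887 σ w₀ a).comap (σ : K' →+* K')

theorem archW_succ887 (σ : K' ≃+* K') (w₀ : InfinitePlace K') (a : ℕ) :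
    archW887 σ w₀ (a + 1) = (archW887 σ w₀ a).comap (σ : K' →+* K') := rfl

theorem archW_apply887 (σ : K' ≃+* K') (w₀ : InfinitePlace K') (a : ℕ) (x : K') :
    archW887 σ w₀ a x = w₀ (σ^[a] x) := by
  induction a generalizing x with
  | zero => rfl
  | succ a ih =>
    rw [archW_succ887, InfinitePlace.comap_apply, Function.iterate_succ_apply]
    exact ih (σ x)

theorem ringAut_pow_apply887 (σ : K' ≃+* K') (n : ℕ) (x : K') : (σ ^ n) x = σ^[n] x := by
  induction n generalizing x with
  | zero => rfl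
  | succ n ih =>
    rw [pow_succ, Function.iterate_succ_apply]
    exact ih (σ x)

theorem algEquiv_pow_apply887 (τ : K' ≃ₐ[K] K') (n : ℕ) (x : K') : (τ ^ n) x = τ^[n] x := by
  induction n generalizing x with
  | zero => rfl
  | succ n ih =>
    rw [pow_succ, Function.iterate_succ_apply, AlgEquiv.mul_apply]
    exact ih (τ x)

/-- The orbit in terms of the Galois action. -/
theorem archW_eq_smul887 (σ : K' ≃+* K') (τ : K' ≃ₐ[K] K') (hτ : ∀ x : K', τ x = σ x)
    (w₀ : InfinitePlace K') (a : ℕ) : archW887 σ w₀ a = (τ ^ a)⁻¹ • w₀ := by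
  refine InfinitePlace.ext _ _ fun x => ?_
  rw [archW_apply887, InfinitePlace.smul_apply]
  show w₀ (σ^[a] x) = w₀ ((τ ^ a) x)
  rw [algEquiv_pow_apply887]
  congr 1
  induction a generalizing x with
  | zero => rfl
  | succ a ih =>
    rw [Function.iterate_succ_apply, Function.iterate_succ_apply, hτ]
    exact ih (σ x)

/-- The two types commute and are involutions: the type of `σ_𝔸` is fixed by a non-real value. -/
theorem type_rel887 (d₁ d₂ c : ℂ →+* ℂ) (h₁ : d₁ = RingHom.id ℂ ∨ d₁ = starRingEnd ℂ)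
    (h₂ : d₂ = RingHom.id ℂ ∨ d₂ = starRingEnd ℂ) (hc : c = RingHom.id ℂ ∨ c = starRingEnd ℂ)
    (u : ℂ) (hu : conj u ≠ u) (h : d₁ u = c (d₂ u)) (t : ℂ) : d₁ (c t) = d₂ t := by
  rcases h₁ with rfl | rfl <;> rcases h₂ with rfl | rfl <;> rcases hc with rfl | rfl
  · rfl
  · exact absurd h.symm hu
  · exact absurd h.symm hu
  · rfl
  · exact absurd h hu
  · exact Complex.conj_conj t
  · rfl
  · exact absurd (h.trans (Complex.conj_conj u)) hu

end Orbit

section Leaf

variable (K K' : Type) [Field K] [NumberField K] [Field K'] [NumberField K'] [Algebra K K']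

/-- **LEAF UD.3 = UP-ARCH**, verbatim. -/
theorem upArchC887 : UpArchC341 K K' := by
  classical
  intro D hD hcyc htc ι hι v
  have hℓ : D.l.Prime := hcyc.prime
  have hℓpos : 0 < D.l := hℓ.pos
  haveI : IsGalois K K' := hcyc.galois
  haveI : FiniteDimensional K K' :=
    Module.finite_of_finrank_pos (by rw [hcyc.degree]; exact hℓpos)
  haveI : Fact D.l.Prime := ⟨hℓ⟩
  -- the generator as an element of the Galois group
  have hfix : ∀ y : K, D.s.σ (algebraMap K K' y) = algebraMap K K' y := fun y =>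
    (hD.cyc.fixed _).mp ((hD.base _).mpr ⟨y, rfl⟩)
  set τ : K' ≃ₐ[K] K' := AlgEquiv.ofRingEquiv (f := D.s.σ) hfix with hτdef
  have hτ : ∀ x : K', τ x = D.s.σ x := fun _ => rfl
  have hτpow : ∀ (n : ℕ) (x : K'), (τ ^ n) x = (D.s.σ ^ n) x := by
    intro n x
    rw [algEquiv_pow_apply887, ringAut_pow_apply887]
    induction n generalizing x with
    | zero => rfl
    | succ n ih =>
      rw [Function.iterate_succ_apply, Function.iterate_succ_apply, hτ]
      exact ih _
  have hτℓ : τ ^ D.l = 1 := by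
    refine AlgEquiv.ext fun x => ?_
    rw [hτpow, hD.cyc.pow_eq]
    rfl
  have hτne : ∀ j : ℕ, 0 < j → j < D.l → τ ^ j ≠ 1 := by
    intro j hj hjl h
    obtain ⟨x, hx⟩ := hD.cyc.faithful j hj hjl
    apply hx
    rw [← hτpow, h]
    rfl
  have hτ1 : τ ≠ 1 := by
    have h := hτne 1 Nat.one_pos hℓ.one_lt
    rwa [pow_one] at h
  have hcard : Nat.card (K' ≃ₐ[K] K') = D.l := by
    rw [IsGalois.card_aut_eq_finrank, hcyc.degree]
  have htop : Subgroup.zpowers τ = ⊤ := zpowers_eq_top_of_prime_card hcard hτ1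
  -- a place over `v`
  obtain ⟨w₀, hw₀⟩ := InfinitePlace.comap_surjective (k := K) (K := K') v
  have hw₀' : w₀.comap (algebraMap K K') = v := hw₀
  set w : ℕ → InfinitePlace K' := archW887 D.s.σ w₀ with hwdef
  have hwsmul : ∀ a : ℕ, w a = (τ ^ a)⁻¹ • w₀ := fun a =>
    archW_eq_smul887 D.s.σ τ hτ w₀ a
  have hovr : ∀ a : ℕ, (w a).comap (algebraMap K K') = v := by
    intro a
    rw [hwsmul, InfinitePlace.smul_eq_comap, ← InfinitePlace.comap_comp]
    rw [← hw₀']
    congr 1
    refine RingHom.ext fun y => ?_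
    show ((τ ^ a)⁻¹).symm (algebraMap K K' y) = algebraMap K K' y
    exact AlgEquiv.commutes _ y
  have hper : ∀ n : ℕ, w (n % D.l) = w n := by
    intro n
    rw [hwsmul, hwsmul, ← pow_eq_pow_mod n hτℓ]
  -- the stabiliser of `w₀` is trivial
  have hstab : MulAction.stabilizer (K' ≃ₐ[K] K') w₀ = ⊥ := by
    refine (InfinitePlace.isUnramified_iff_stabilizer_eq_bot (k := K) (w := w₀)).mp ?_
    refine InfinitePlace.isUnramified_iff.mpr (Or.inr ?_)
    rw [hw₀']
    exact htc v
  have hinj0 : ∀ a a' : ℕ, a < a' → a' < D.l → w a ≠ w a' := by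
    intro a a' haa' ha' h
    rw [hwsmul, hwsmul] at h
    have h1 : (τ ^ a' * (τ ^ a)⁻¹) • w₀ = w₀ := by
      rw [mul_smul, h, smul_smul, mul_inv_cancel, one_smul]
    have h2 : τ ^ a' * (τ ^ a)⁻¹ ∈ MulAction.stabilizer (K' ≃ₐ[K] K') w₀ :=
      MulAction.mem_stabilizer_iff.mpr h1
    rw [hstab, Subgroup.mem_bot] at h2
    have h3 : τ ^ (a' - a) = 1 := by
      have h4 : τ ^ a' = τ ^ (a' - a) * τ ^ a := by
        rw [← pow_add, Nat.sub_add_cancel haa'.le]
      rw [h4, mul_inv_cancel_right] at h2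
      exact h2
    exact hτne (a' - a) (Nat.sub_pos_of_lt haa') (lt_of_le_of_lt (Nat.sub_le _ _) ha') h3
  -- the types
  have hdex : ∀ a : ℕ, ∃ da : ℂ →+* ℂ, (da = RingHom.id ℂ ∨ da = starRingEnd ℂ) ∧
      ∀ x : Adl K, T5.infHom (w a) (ι x) = da (T5.infHom v x) := by
    intro a
    rcases hι.inf (w a) with h | h
    · refine ⟨RingHom.id ℂ, Or.inl rfl, fun x => ?_⟩
      rw [h x, hovr a]
      rfl
    · refine ⟨starRingEnd ℂ, Or.inr rfl, fun x => ?_⟩
      rw [h x, hovr a]
  choose d htyp hiot using hdex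
  -- a rational element with a non-real image at `v`
  have hnr : ∃ z : Adl K, conj (T5.infHom v z) ≠ T5.infHom v z := by
    have hv : ¬ ComplexEmbedding.IsReal v.embedding := InfinitePlace.isComplex_iff.mp (htc v)
    rw [ComplexEmbedding.isReal_iff] at hv
    have : ∃ y : K, conj (v.embedding y) ≠ v.embedding y := by
      by_contra hcon
      exact hv (RingHom.ext fun y => by_contra fun hne => hcon ⟨y, hne⟩)
    obtain ⟨y, hy⟩ := this
    refine ⟨algebraMap K (Adl K) y, ?_⟩
    have h1 : T5.infHom v (algebraMap K (Adl K) y) = v.embedding y :=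
      H558.ext_coe558 v y
    rw [h1]
    exact hy
  obtain ⟨z, hz⟩ := hnr
  refine ⟨⟨w, d⟩, ⟨hℓpos, hovr, fun a => rfl, ?_, htyp, hiot, ?_, ?_⟩⟩
  · -- inj
    intro a a' ha ha' h
    rcases lt_trichotomy a a' with h1 | h1 | h1
    · exact absurd h (hinj0 a a' h1 ha')
    · exact h1
    · exact absurd h.symm (hinj0 a' a h1 ha)
  · -- exh
    intro w' hw'
    obtain ⟨ρ, hρ⟩ := InfinitePlace.exists_smul_eq_of_comap_eq (k := K)
      (w := w₀) (w' := w') (by rw [hw₀', hw'])
    have hρmem : ρ ∈ Subgroup.zpowers τ := by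
      rw [htop]
      exact Subgroup.mem_top ρ
    obtain ⟨k, hk⟩ := Subgroup.mem_zpowers_iff.mp hρmem
    have hℓZ : (0 : ℤ) < (D.l : ℤ) := by exact_mod_cast hℓpos
    refine ⟨((-k) % (D.l : ℤ)).toNat, ?_, ?_⟩
    · have h1 : (-k) % (D.l : ℤ) < (D.l : ℤ) := Int.emod_lt_of_pos _ hℓZ
      have h2 : 0 ≤ (-k) % (D.l : ℤ) := Int.emod_nonneg _ hℓZ.ne'
      omega
    · have h2 : 0 ≤ (-k) % (D.l : ℤ) := Int.emod_nonneg _ hℓZ.ne'
      have h3 : τ ^ ((-k) % (D.l : ℤ)).toNat = τ ^ (-k) := by
        rw [← zpow_natCast, Int.toNat_of_nonneg h2]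
        have h4 : τ ^ (D.l : ℤ) = 1 := by rw [zpow_natCast, hτℓ]
        exact (zpow_eq_zpow_emod (-k) h4).symm
      show w' = w ((-k) % (D.l : ℤ)).toNat
      rw [hwsmul, h3, zpow_neg, inv_inv, hk, hρ]
  · -- sig
    intro a x
    have hσ := (H558.sigmaLocC558 (K := K') D.s).2 (w a.1)
    have hw1 : (w a.1).comap (D.s.σ : K' →+* K') = w (cycSucc340 a).1 := by
      show w (a.1 + 1) = w ((a.1 + 1) % D.l)
      exact (hper (a.1 + 1)).symm
    rw [hw1] at hσ
    -- the type `c` of `σ_𝔸` at `w a`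
    obtain ⟨c, hc, hcσ⟩ : ∃ c : ℂ →+* ℂ, (c = RingHom.id ℂ ∨ c = starRingEnd ℂ) ∧
        ∀ y : Adl K', T5.infHom (w a.1) (D.s.σA y) = c (T5.infHom (w (cycSucc340 a).1) y) := by
      rcases hσ with h | h
      · exact ⟨RingHom.id ℂ, Or.inl rfl, h⟩
      · exact ⟨starRingEnd ℂ, Or.inr rfl, h⟩
    have hrel : d a.1 (T5.infHom v z) = c (d (cycSucc340 a).1 (T5.infHom v z)) := by
      rw [← hiot a.1 z, ← hiot (cycSucc340 a).1 z, ← hcσ (ι z), hι.fixed z]
    rw [hcσ x]
    exact type_rel887 (d a.1) (d (cycSucc340 a).1) c (htyp _) (htyp _) hc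
      (T5.infHom v z) hz hrel _

end Leaf

end Fermat.Agent.LT.T7.H887

end
end
-- ===== PACK-END LT/T7/H887/UpArch.lean

-- ===== PACK-BEGIN LT/T7/H616/ClassModelLeavesU.lean
section



/-!
# Row LT, tower T7, node `ClassModelC`: the leaves CM.06, CM.07, CM.08 IN CORE FORM (helper616)

OFF-MAIN.  PROVED (no hole, nothing assumed), on `H29.UpData` (the core form of helper675,
`T7/H675/ClassModelU.lean` 9a359011):

    locCommUC616_proved : CMU675.LocCommUC675 K'      (CM.06, core form)
    locMoveUC616_proved : CMU675.LocMoveUC675 K'      (CM.07, core form)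
    powUC616_proved     : CMU675.PowUC675 K'          (CM.08, core form)
-/

set_option autoImplicit false

open AutomorphicForm IsDedekindDomain NumberField MeasureTheory

noncomputable section

namespace Fermat.Agent.LT.T7.CM616

open Fermat.Agent.LT.H556 Fermat.Agent.LT.H556.A0 Fermat.Agent.LT.T7 Fermat.Agent.LT.T7.SU736
open Fermat.Agent.LT.H415 Fermat.Agent.LT.T5.H415 Fermat.Agent.LT.T7.CMU675

variable {K' : Type} [Field K'] [NumberField K']

theorem cyc_of_ctxU616 {ℓ : ℕ} {Φ : HeckeEigensystem K' ℂ} {U : H29.UpData K'}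
    (ctx : CtxU675 K' ℓ Φ U) : T5.IsCyclicOfDegree U.s ℓ U.k := by
  have h := ctx.data.cyc
  rw [ctx.data.deg] at h
  exact h

/-- **LEAF CM.06, core form.** -/
theorem locCommUC616_proved : LocCommUC675 K' := by
  intro ℓ Φ U ctx i hi j hj hij h h' hh hh'
  have hne : U.o j ≠ U.o i :=
    orbit_injective616 U.s ℓ U.o ctx.data.orbit_rel ctx.data.orbit_ne j hj i hi
      (fun e => hij e.symm)
  exact H83.mul_comm_of_local83 (U.o i) hh (hh'.2 (U.o i) (fun e => hne e.symm))

/-- **LEAF CM.07, core form.** -/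
theorem locMoveUC616_proved : LocMoveUC675 K' := by
  intro ℓ Φ U ctx
  have hc := cyc_of_ctxU616 ctx
  refine ⟨fun j _ h hh => isLocalAtFin_onGinv616 U.s (U.o j) (U.o (j + 1))
    (ctx.data.orbit_rel j) h hh, fun h hh => ?_⟩
  have hrel : T5.PlaceRel U.s (U.o (ℓ - 1)) (U.o 0) := by
    have := ctx.data.orbit_rel (ℓ - 1)
    rw [Nat.sub_add_cancel hc.pos, orbit_period415 U.s ℓ U.k hc U.o ctx.data.orbit_rel]
      at this
    exact this
  exact isLocalAtFin_onGinv616 U.s (U.o (ℓ - 1)) (U.o 0) hrel h hh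

/-- **LEAF CM.08, core form.** -/
theorem powUC616_proved : PowUC675 K' := by
  intro ℓ Φ U ctx x
  have hc := cyc_of_ctxU616 ctx
  have hleft : Function.LeftInverse (⇑U.s.onGinv) (⇑U.s.onG) := ctx.stable.left_inverse
  have h1 := onG_iterate415 U.s ℓ U.k hc x
  have h2 := (hleft.iterate ℓ) x
  rw [h1] at h2
  exact h2

end Fermat.Agent.LT.T7.CM616

end

end
-- ===== PACK-END LT/T7/H616/ClassModelLeavesU.lean

-- ===== PACK-BEGIN LT/T7/H276/IwRes.lean
section


/-!
# Row LT, tower T7, node T7.L2.2.B4 `OpsC561` (helper276, OFF-MAIN): the quadratic relation of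
# the Iwahori--Hecke operator at one place

`IsSys276 v H` : `H` is an explicit system at `v` (`q = N v` elements supported at `v` with
components `!![a,1;1,0]`, `a` integral, pairwise inequivalent modulo the Iwahori subgroup).

    quad_rel276 : IsSys276 v H → (ψ invariant under the local Iwahori elements at v) →
      ∑ h ∈ H, ∑ h' ∈ H, ψ (x * h * h') = (q - 1) * ∑ h ∈ H, ψ (x * h) + q * ψ x

Proof.  The residues of the entries `a` run over the residue field `k` (injective, `#H = #k`;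
`card_residueField129` of helper129).  `!![a,1;1,0] !![b,1;1,0] = !![ab+1,a;b,1]` is in `I` if
the residue of `b` is `0`, and in `!![c,1;1,0] I` with `c = a + b⁻¹` otherwise.
-/

set_option autoImplicit false

open IsDedekindDomain NumberField IsDedekindDomain.HeightOneSpectrum
open Fermat.Agent.LT.H556.A0 Fermat.Agent.LT.H129

noncomputable section

namespace Fermat.Agent.LT.T7.H276

variable {K : Type} [Field K] [NumberField K] (v : HeightOneSpectrum (𝓞 K))

open Classical in
/-- The residue of an element of `K_v` (`0` if it is not integral). -/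
def resK276 (a : v.adicCompletion K) :
    IsLocalRing.ResidueField (v.adicCompletionIntegers K) :=
  if ha : a ∈ v.adicCompletionIntegers K then
    IsLocalRing.residue (v.adicCompletionIntegers K) ⟨a, ha⟩
  else 0

theorem resK276_of_mem {a : v.adicCompletion K} (ha : a ∈ v.adicCompletionIntegers K) :
    resK276 v a = IsLocalRing.residue (v.adicCompletionIntegers K) ⟨a, ha⟩ := by
  rw [resK276, dif_pos ha]

theorem resK276_eq_zero_iff {a : v.adicCompletion K} (ha : a ∈ v.adicCompletionIntegers K) :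
    resK276 v a = 0 ↔ Valued.v a < 1 := by
  rw [resK276_of_mem v ha, residue_eq_zero_iff_valued129]

theorem resK276_add {a b : v.adicCompletion K} (ha : a ∈ v.adicCompletionIntegers K)
    (hb : b ∈ v.adicCompletionIntegers K) :
    resK276 v (a + b) = resK276 v a + resK276 v b := by
  rw [resK276_of_mem v ha, resK276_of_mem v hb,
    resK276_of_mem v ((v.adicCompletionIntegers K).add_mem _ _ ha hb), ← map_add]
  rfl

theorem resK276_sub {a b : v.adicCompletion K} (ha : a ∈ v.adicCompletionIntegers K)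
    (hb : b ∈ v.adicCompletionIntegers K) :
    resK276 v (a - b) = resK276 v a - resK276 v b := by
  rw [resK276_of_mem v ha, resK276_of_mem v hb,
    resK276_of_mem v ((v.adicCompletionIntegers K).sub_mem ha hb), ← map_sub]
  rfl

theorem resK276_mul {a b : v.adicCompletion K} (ha : a ∈ v.adicCompletionIntegers K)
    (hb : b ∈ v.adicCompletionIntegers K) :
    resK276 v (a * b) = resK276 v a * resK276 v b := by
  rw [resK276_of_mem v ha, resK276_of_mem v hb,
    resK276_of_mem v ((v.adicCompletionIntegers K).mul_mem _ _ ha hb), ← map_mul]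
  rfl

theorem resK276_one : resK276 v (1 : v.adicCompletion K) = 1 := by
  rw [resK276_of_mem v (v.adicCompletionIntegers K).one_mem, ← map_one
    (IsLocalRing.residue (v.adicCompletionIntegers K))]
  rfl

/-- An explicit system at `v`. -/
structure IsSys276 (H : Finset (G K)) : Prop where
  card : H.card = Ideal.absNorm v.asIdeal
  loc : ∀ h ∈ H, IsLocalAtFin v h
  comp : ∀ h ∈ H, ∃ a : v.adicCompletion K,
    a ∈ v.adicCompletionIntegers K ∧ finComp v h = !![a, 1; 1, 0]
  inj : ∀ h ∈ H, ∀ h' ∈ H, h ≠ h' → ¬ T5.InIwahori v (h⁻¹ * h')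

/-- The upper left entry of the component at `v`. -/
def ent276 (h : G K) : v.adicCompletion K := finComp v h 0 0

variable {v}

theorem IsSys276.ent_mem {H : Finset (G K)} (hH : IsSys276 v H) {h : G K} (hh : h ∈ H) :
    ent276 v h ∈ v.adicCompletionIntegers K := by
  obtain ⟨a, ha, e⟩ := hH.comp h hh
  have : ent276 v h = a := by rw [ent276, e]; rfl
  rw [this]; exact ha

theorem IsSys276.finComp_eq {H : Finset (G K)} (hH : IsSys276 v H) {h : G K} (hh : h ∈ H) :
    finComp v h = !![ent276 v h, 1; 1, 0] := by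
  obtain ⟨a, ha, e⟩ := hH.comp h hh
  have : ent276 v h = a := by rw [ent276, e]; rfl
  rw [this]; exact e

theorem IsSys276.res_injOn {H : Finset (G K)} (hH : IsSys276 v H) {h h' : G K} (hh : h ∈ H)
    (hh' : h' ∈ H) (e : resK276 v (ent276 v h) = resK276 v (ent276 v h')) : h = h' := by
  by_contra hne
  have h1 := val_of_not_inIwahori276 v (hH.ent_mem hh) (hH.ent_mem hh') (hH.finComp_eq hh)
    (hH.finComp_eq hh') (hH.inj h hh h' hh' hne)
  have h2 : resK276 v (ent276 v h' - ent276 v h) = 0 := by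
    rw [resK276_sub v (hH.ent_mem hh') (hH.ent_mem hh), e, sub_self]
  rw [resK276_eq_zero_iff v ((v.adicCompletionIntegers K).sub_mem (hH.ent_mem hh')
    (hH.ent_mem hh))] at h2
  exact absurd h1 (not_le.mpr h2)

theorem IsSys276.exists_res {H : Finset (G K)} (hH : IsSys276 v H)
    (c : IsLocalRing.ResidueField (v.adicCompletionIntegers K)) :
    ∃ h ∈ H, resK276 v (ent276 v h) = c := by
  classical
  have : Finite (IsLocalRing.ResidueField (v.adicCompletionIntegers K)) :=
    finite_residueField129 K v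
  let _ : Fintype (IsLocalRing.ResidueField (v.adicCompletionIntegers K)) := Fintype.ofFinite _
  have hcard : (H.image (fun h => resK276 v (ent276 v h))).card
      = Fintype.card (IsLocalRing.ResidueField (v.adicCompletionIntegers K)) := by
    rw [Finset.card_image_of_injOn, hH.card, ← card_residueField129 K v,
      Nat.card_eq_fintype_card]
    intro h hh h' hh' e
    exact hH.res_injOn hh hh' e
  have huniv := Finset.eq_univ_of_card _ hcard
  have hc : c ∈ H.image (fun h => resK276 v (ent276 v h)) := by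
    rw [huniv]; exact Finset.mem_univ c
  obtain ⟨h, hh, e⟩ := Finset.mem_image.mp hc
  exact ⟨h, hh, e⟩

/-- **The quadratic relation** `S² = (q - 1) S + q` on the functions which are invariant under
the local Iwahori elements at `v`. -/
theorem quad_rel276 {H : Finset (G K)} (hH : IsSys276 v H) {ψ : G K → ℂ}
    (hinv : ∀ u : G K, IsLocalAtFin v u → T5.InIwahori v u → ∀ x : G K, ψ (x * u) = ψ x)
    (x : G K) :
    ∑ h ∈ H, ∑ h' ∈ H, ψ (x * h * h')
      = (((Ideal.absNorm v.asIdeal : ℕ) : ℂ) - 1) * ∑ h ∈ H, ψ (x * h)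
        + ((Ideal.absNorm v.asIdeal : ℕ) : ℂ) * ψ x := by
  classical
  have : Finite (IsLocalRing.ResidueField (v.adicCompletionIntegers K)) :=
    finite_residueField129 K v
  let _ : Fintype (IsLocalRing.ResidueField (v.adicCompletionIntegers K)) := Fintype.ofFinite _
  have hq : Fintype.card (IsLocalRing.ResidueField (v.adicCompletionIntegers K))
      = Ideal.absNorm v.asIdeal := by
    rw [← card_residueField129 K v, Nat.card_eq_fintype_card]
  choose pick hpickH hpick using hH.exists_res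
  have hpick_res : ∀ h ∈ H, pick (resK276 v (ent276 v h)) = h := fun h hh =>
    hH.res_injOn (hpickH _) hh (hpick _)
  -- sums over `H` are sums over the residue field
  have hsum : ∀ f : G K → ℂ, ∑ h ∈ H, f h = ∑ c, f (pick c) := by
    intro f
    symm
    refine Finset.sum_nbij pick (fun c _ => hpickH c) ?_ ?_ (fun c _ => rfl)
    · intro c _ c' _ e
      have := congrArg (fun h => resK276 v (ent276 v h)) e
      simpa only [hpick] using this
    · intro h hh
      exact ⟨resK276 v (ent276 v h), Finset.mem_coe.mpr (Finset.mem_univ _), hpick_res h hh⟩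
  -- the term `d = 0`
  have hzero : ∀ c, ψ (x * pick c * pick 0) = ψ x := by
    intro c
    rw [mul_assoc]
    apply hinv _ (isLocalAtFin_mul129 (hH.loc _ (hpickH c)) (hH.loc _ (hpickH 0)))
    refine inIwahori_mul_small276 v (hH.ent_mem (hpickH c)) (hH.ent_mem (hpickH 0))
      (hH.finComp_eq (hpickH c)) (hH.finComp_eq (hpickH 0)) ?_
    rw [← resK276_eq_zero_iff v (hH.ent_mem (hpickH 0)), hpick]
  -- the terms `d ≠ 0`
  have hne : ∀ c d, d ≠ 0 → ψ (x * pick c * pick d) = ψ (x * pick (c + d⁻¹)) := by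
    intro c d hd
    have e : x * pick c * pick d
        = x * pick (c + d⁻¹) * ((pick (c + d⁻¹))⁻¹ * (pick c * pick d)) := by group
    rw [e]
    apply hinv _ (isLocalAtFin_mul129 (isLocalAtFin_inv129 (hH.loc _ (hpickH _)))
      (isLocalAtFin_mul129 (hH.loc _ (hpickH c)) (hH.loc _ (hpickH d))))
    have ha := hH.ent_mem (hpickH c)
    have hb := hH.ent_mem (hpickH d)
    have hc := hH.ent_mem (hpickH (c + d⁻¹))
    refine inIwahori_shift276 v ha hb hc (hH.finComp_eq (hpickH c)) (hH.finComp_eq (hpickH d))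
      (hH.finComp_eq (hpickH (c + d⁻¹))) ?_
    have h1 : (1 : v.adicCompletion K) ∈ v.adicCompletionIntegers K :=
      (v.adicCompletionIntegers K).one_mem
    have hab := (v.adicCompletionIntegers K).mul_mem _ _ ha hb
    have hcb := (v.adicCompletionIntegers K).mul_mem _ _ hc hb
    have hab1 := (v.adicCompletionIntegers K).add_mem _ _ hab h1
    rw [← resK276_eq_zero_iff v ((v.adicCompletionIntegers K).sub_mem hab1 hcb),
      resK276_sub v hab1 hcb, resK276_add v hab h1, resK276_mul v ha hb, resK276_mul v hc hb,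
      resK276_one, hpick, hpick, hpick]
    field_simp
    ring
  have hshift : ∀ d, d ≠ 0 → ∑ c, ψ (x * pick c * pick d) = ∑ c, ψ (x * pick c) := by
    intro d hd
    rw [Finset.sum_congr rfl (fun c _ => hne c d hd)]
    exact Equiv.sum_comp (Equiv.addRight d⁻¹) (fun c => ψ (x * pick c))
  rw [hsum (fun h => ∑ h' ∈ H, ψ (x * h * h'))]
  simp only [hsum (fun h' => ψ (x * _ * h'))]
  rw [hsum (fun h => ψ (x * h)), Finset.sum_comm,
    ← Finset.add_sum_erase Finset.univ _ (Finset.mem_univ (0 : IsLocalRing.ResidueField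
      (v.adicCompletionIntegers K)))]
  rw [Finset.sum_congr rfl (fun c _ => hzero c), Finset.sum_const, Finset.card_univ, hq,
    Finset.sum_congr rfl (fun d hd => hshift d (Finset.ne_of_mem_erase hd)), Finset.sum_const,
    Finset.card_erase_of_mem (Finset.mem_univ _), Finset.card_univ, hq, nsmul_eq_mul,
    nsmul_eq_mul, Nat.cast_sub (Nat.one_le_iff_ne_zero.mpr (by
      rw [← hq]; exact Fintype.card_ne_zero)), Nat.cast_one]
  ring

/-! ## Appendix: the equation lemmas of the definitions are realised HERE -/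

theorem eqns_realisedRes276 : True := by
  have _a1 := @resK276.eq_1
  have _a2 := @resK276.eq_def
  have _a3 := @resK276.eq_unfold
  have _b1 := @ent276.eq_1
  have _b2 := @ent276.eq_def
  have _b3 := @ent276.eq_unfold
  trivial

end Fermat.Agent.LT.T7.H276

end

end
-- ===== PACK-END LT/T7/H276/IwRes.lean

-- ===== PACK-BEGIN LT/T7/H736/Port/CommStab.lean
section




/-!
# Row LT, tower T7, node T7.L2.2 `SpecUpC`: leaves CM.05 `CommGIC616` and CM.03 `StabGC616` IN CORE FORM (port by helper736)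

OFF-MAIN.  PROVED, no hole, nothing assumed.  ADDITIVE (namespace `Fermat.Agent.LT.T7.PU736`).

MECHANICAL PORT onto `H29.UpData K'` / `H29.IsUpData` of the proofs of helper887 (`T7/H887/CommGI.lean` 2141f183, `commGIC887`) and helper409 (`T7/H409/StabG.lean` 0a52a29b, `stabGC409`, core lemma `cosetOp_isEigFn409`): the same text after the
substitution of the header of `T7/H736/Core/Blocks.lean`; the lemmas of the source over ONE field
are used as they are.  The forms of record (`UB675` / `CMU675`) follow by `T7/H736/Core/Glue.lean`.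
-/

set_option autoImplicit false
set_option linter.unusedSectionVars false
set_option linter.unusedVariables false

open AutomorphicForm IsDedekindDomain NumberField MeasureTheory
open scoped ComplexConjugate

noncomputable section

namespace Fermat.Agent.LT.T7.PU736

open Fermat.Agent.LT.H556 Fermat.Agent.LT.H556.A0 Fermat.Agent.LT.T7
open Fermat.Agent.LT Fermat.Agent.LT.H129 Fermat.Agent.LT.T7.SU736 Fermat.Agent.LT.T7.H887 Fermat.Agent.LT.T7.H409 Fermat.Agent.LT.T7.CU736

attribute [local instance] Fermat.Agent.LT.T5.instMeasurableSpaceG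

section Leaf

variable (K' : Type) [Field K'] [NumberField K']

/-- **Leaf T7.L2.2.N.1.05 `CommGIC616`.** -/
theorem commGIC887 : CommGIC616 K' := by
  intro ℓ Φ U hctx g Hg hbad hsys j hj H hH ψ hψ hHψ x
  have hjl : j < U.l := by rw [hctx.data.deg]; exact hj
  have hgv : TrivAtFin (U.o j) g := hbad.2 (U.o j) (Or.inr ⟨j, hjl, rfl⟩)
  -- the reduction of the members of the system
  have hred : ∀ h ∈ Hg, ∃ h₀ : G K', finCompHom129 (U.o j) h₀ = 1 ∧
      ∀ f : G K' → ℂ, CM616.IsLevelInv616 U.𝔑₀ f → ∀ y : G K', f (y * h) = f (y * h₀) := by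
    intro h hh
    obtain ⟨u₁, u₂, hu₁, hu₂, rfl⟩ := hsys.1 h hh
    obtain ⟨h₀, u'', h1, hu'', heq⟩ := exists_reduction887 (u₂ := u₂) hgv hu₁
    refine ⟨h₀, h1, fun f hf y => ?_⟩
    rw [heq, ← mul_assoc, ← mul_assoc, hf u₂ hu₂, hf u'' hu'']
  show (∑ h ∈ Hg, ∑ k ∈ H, ψ (x * h * k)) = ∑ k ∈ H, ∑ h ∈ Hg, ψ (x * k * h)
  conv_rhs => rw [Finset.sum_comm]
  refine Finset.sum_congr rfl fun h hh => ?_
  obtain ⟨h₀, h1, hinv⟩ := hred h hh
  have e1 : ∑ k ∈ H, ψ (x * h * k) = ∑ k ∈ H, ψ (x * h₀ * k) := hinv (cosetOp H ψ) hHψ x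
  rw [e1]
  refine Finset.sum_congr rfl fun k hk => ?_
  have hcomm : h₀ * k = k * h₀ := commute_of_triv_of_local887 h1 (hH k hk)
  rw [hinv ψ hψ (x * k), mul_assoc x h₀ k, hcomm, ← mul_assoc]

end Leaf

/-- **LEAF CM.03 = STAB-G.** -/
theorem stabGC409 (K' : Type) [Field K'] [NumberField K'] : StabGC616 K' := by
  intro ℓ Φ U hctx g Hg hbad hH ψ hψ
  have hd := hctx.data
  refine cosetOp_isEigFn409 U.𝔑₀ U.R'.r ℓ U.o (eigOf Φ) (hd.frame').ray g Hg
    hbad.1 (fun v hv => hbad.2 v (Or.inl ?_)) (fun j hj => hbad.2 _ (Or.inr ⟨j, ?_, rfl⟩))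
    hH ψ hψ
  · intro hmem
    exact hv ((hd.mem_S' v).1 hmem)
  · rw [hd.deg]
    exact hj



end Fermat.Agent.LT.T7.PU736

end

end
-- ===== PACK-END LT/T7/H736/Port/CommStab.lean

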