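import Mathlib
import Fermat.Prelude.Def_EllipticCurve_FrobeniusTrace
import Fermat.Agent.Pack.S44C.G0E26L3
import Fermat.Agent.Pack.S44C.G0E14L2
import Fermat.Agent.Pack.S44C.G0E0L2
import Fermat.Agent.Pack.LT3.E27L2
import Fermat.Agent.Pack.LT3.E20L3
import Fermat.Agent.Pack.LT3.E27L3
import Fermat.Agent.Pack.LT3.E27L1
import Fermat.Agent.Pack.LT3.E27L0
import Fermat.Agent.Pack.LT3.E24L3
import Fermat.Agent.Pack.LT3.E26L3
import Fermat.Agent.Pack.LT3.E26L2
import Fermat.Agent.Pack.LT3.E23L0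
import Fermat.Agent.Pack.LT3.E25L3
import Fermat.Agent.Pack.LT3.E25L0
import Fermat.Agent.Pack.LT3.E23L2
import Fermat.Agent.Pack.LT3.E26L0
import Fermat.Agent.Pack.LT3.E25L1
import Fermat.Agent.Pack.LT3.E26L1

set_option linter.all false

-- ===== PACK-BEGIN LT/CFT/H983/ChebKCore.lean
section






/-!
# Row LT, tower CFT, leaf CFT.17 `ChebKC` (spare of helper983): the core

Chebotarev for `G_K` with DEGREE-ONE primes, from Chebotarev over `ℚ` (main `Lib.Cheb.chebotarev`):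
apply it to `E = M ⊔ j(K)` and `σ ∈ G_K`.  The Frobenius element `τ` at the valuation subring `A`
of `ℚ̄` over `ℓ` agrees with `σ` on `j(K)`, so it fixes `j(K)`; the contraction `w` of the maximal
ideal of `A` to `𝓞 K` is a prime of `𝓞 K`, and `x ^ ℓ ≡ τ x = x mod w` for every `x ∈ 𝓞 K`, so the
residue field of `w` has exactly `ℓ` elements.

This file does not import the CFT tower: the statement `chebK_core983` is the unfolded form of
`CFT.ChebKC` (definitions `galOf`, `UnderPlace`, `IsFrobAt` of `CFT/Spec.lean` unfolded).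
-/

set_option autoImplicit false
set_option linter.unusedSectionVars false
set_option linter.style.haveILetI false

open IsDedekindDomain NumberField

noncomputable section

namespace Fermat.Agent.LT.CFT.H983

local notation "Qb" => AlgebraicClosure ℚ
local notation "GQ" => (AlgebraicClosure ℚ ≃ₐ[ℚ] AlgebraicClosure ℚ)

variable {K : Type} [Field K] [NumberField K]

/-- `j` on the ring of integers. -/
def jInt983 (j : K →+* Qb) : 𝓞 K →+* Qb := j.comp (algebraMap (𝓞 K) K)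

theorem jInt_apply983 (j : K →+* Qb) (x : 𝓞 K) :
    jInt983 j x = j (algebraMap (𝓞 K) K x) := rfl

theorem jInt_isIntegral983 (j : K →+* Qb) (x : 𝓞 K) : IsIntegral ℤ (jInt983 j x) := by
  have h1 : IsIntegral ℤ (algebraMap (𝓞 K) K x) := RingOfIntegers.isIntegral_coe x
  exact h1.map (j : K →+* Qb).toIntAlgHom

theorem jInt_mem983 (j : K →+* Qb) (A : ValuationSubring Qb) (x : 𝓞 K) : jInt983 j x ∈ A :=
  Fermat.Agent.S54.isIntegral_mem_valuationSubring A (jInt_isIntegral983 j x)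

theorem jInt_val_le983 (j : K →+* Qb) (A : ValuationSubring Qb) (x : 𝓞 K) :
    A.valuation (jInt983 j x) ≤ 1 :=
  (A.valuation_le_one_iff _).mpr (jInt_mem983 j A x)

/-- The contraction to `𝓞 K` of the maximal ideal of a valuation subring of `ℚ̄`. -/
def contr983 (j : K →+* Qb) (A : ValuationSubring Qb) : Ideal (𝓞 K) where
  carrier := {x | jInt983 j x ∈ A.nonunits}
  add_mem' := by
    intro a b ha hb
    have ha' : A.valuation (jInt983 j a) < 1 := A.mem_nonunits_iff.mp ha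
    have hb' : A.valuation (jInt983 j b) < 1 := A.mem_nonunits_iff.mp hb
    show jInt983 j (a + b) ∈ A.nonunits
    rw [map_add]
    exact A.mem_nonunits_iff.mpr (lt_of_le_of_lt (A.valuation.map_add _ _) (max_lt ha' hb'))
  zero_mem' := by
    show jInt983 j 0 ∈ A.nonunits
    rw [map_zero]
    exact A.mem_nonunits_iff.mpr (by rw [map_zero]; exact zero_lt_one)
  smul_mem' := by
    intro c x hx
    have hx' : A.valuation (jInt983 j x) < 1 := A.mem_nonunits_iff.mp hx
    show jInt983 j (c • x) ∈ A.nonunits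
    rw [smul_eq_mul, map_mul]
    refine A.mem_nonunits_iff.mpr ?_
    rw [map_mul]
    exact mul_lt_of_le_one_of_lt (jInt_val_le983 j A c) hx'

theorem mem_contr983 (j : K →+* Qb) (A : ValuationSubring Qb) (x : 𝓞 K) :
    x ∈ contr983 j A ↔ j (algebraMap (𝓞 K) K x) ∈ A.nonunits := Iff.rfl

theorem contr_isPrime983 (j : K →+* Qb) (A : ValuationSubring Qb) : (contr983 j A).IsPrime := by
  refine ⟨?_, ?_⟩
  · intro h
    have h1 : (1 : 𝓞 K) ∈ contr983 j A := by rw [h]; trivial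
    have h2 : A.valuation (jInt983 j 1) < 1 := A.mem_nonunits_iff.mp h1
    rw [map_one, map_one] at h2
    exact lt_irrefl _ h2
  · intro x y hxy
    have h1 : A.valuation (jInt983 j (x * y)) < 1 := A.mem_nonunits_iff.mp hxy
    rw [map_mul, map_mul] at h1
    by_contra hcon
    rw [not_or] at hcon
    have hx : A.valuation (jInt983 j x) = 1 := by
      refine le_antisymm (jInt_val_le983 j A x) (not_lt.mp fun h => hcon.1 ?_)
      exact A.mem_nonunits_iff.mpr h
    have hy : A.valuation (jInt983 j y) = 1 := by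
      refine le_antisymm (jInt_val_le983 j A y) (not_lt.mp fun h => hcon.2 ?_)
      exact A.mem_nonunits_iff.mpr h
    rw [hx, hy, one_mul] at h1
    exact lt_irrefl _ h1

theorem natCast_mem_contr983 (j : K →+* Qb) (A : ValuationSubring Qb) (ℓ : ℕ)
    (hA : A.LiesOverPrime ℓ) : ((ℓ : ℕ) : 𝓞 K) ∈ contr983 j A := by
  show jInt983 j ((ℓ : ℕ) : 𝓞 K) ∈ A.nonunits
  rw [map_natCast]
  exact hA

/-- The prime of `𝓞 K` under a valuation subring of `ℚ̄` lying over a prime number. -/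
def placeUnder983 (j : K →+* Qb) (A : ValuationSubring Qb) (ℓ : ℕ) (hℓ : ℓ.Prime)
    (hA : A.LiesOverPrime ℓ) : HeightOneSpectrum (𝓞 K) where
  asIdeal := contr983 j A
  isPrime := contr_isPrime983 j A
  ne_bot := by
    intro h
    have h1 := natCast_mem_contr983 j A ℓ hA
    rw [h, Ideal.mem_bot] at h1
    exact hℓ.ne_zero (by exact_mod_cast h1)

/-- In a finite field in which `ℓ = 0` and `x ^ ℓ = x` for every `x`, there are exactly `ℓ`
elements. -/
theorem card_eq_of_pow_eq983 (F : Type) [Field F] [Finite F] (ℓ : ℕ) (hℓ : ℓ.Prime)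
    (h0 : ((ℓ : ℕ) : F) = 0) (hpow : ∀ x : F, x ^ ℓ = x) : Nat.card F = ℓ := by
  classical
  haveI : Fintype F := Fintype.ofFinite F
  have h1 : 1 < ℓ := hℓ.one_lt
  -- upper bound: all elements are roots of `X ^ ℓ - X`
  have hne : (Polynomial.X ^ ℓ - Polynomial.X : Polynomial F) ≠ 0 :=
    FiniteField.X_pow_card_sub_X_ne_zero F h1
  have hsub : (Finset.univ : Finset F).val ⊆ (Polynomial.X ^ ℓ - Polynomial.X : Polynomial F).roots := by
    intro x _
    rw [Polynomial.mem_roots hne, Polynomial.IsRoot.def]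
    simp [hpow x]
  have hle : Fintype.card F ≤ ℓ := by
    have := Polynomial.card_le_degree_of_subset_roots hsub
    rwa [FiniteField.X_pow_card_sub_X_natDegree_eq F h1, Finset.card_univ] at this
  -- lower bound: the additive order of `1` is `ℓ`
  have hord : addOrderOf (1 : F) = ℓ := by
    have hdvd : addOrderOf (1 : F) ∣ ℓ := by
      apply addOrderOf_dvd_of_nsmul_eq_zero
      rw [nsmul_eq_mul, mul_one]
      exact h0
    rcases (Nat.dvd_prime hℓ).mp hdvd with h | h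
    · exfalso
      rw [AddMonoid.addOrderOf_eq_one_iff] at h
      exact one_ne_zero h
    · exact h
  have hdvd2 : ℓ ∣ Nat.card F := by
    rw [← hord]
    exact addOrderOf_dvd_natCard (1 : F)
  rw [Nat.card_eq_fintype_card] at hdvd2 ⊢
  exact le_antisymm hle (Nat.le_of_dvd Fintype.card_pos hdvd2)

/-- The residue field of the place under `A` has `ℓ` elements as soon as a Frobenius element
at `A` (relative to `ℓ`) fixes `j K` pointwise. -/
theorem card_quot_placeUnder983 (j : K →+* Qb) (A : ValuationSubring Qb) (ℓ : ℕ) (hℓ : ℓ.Prime)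
    (hA : A.LiesOverPrime ℓ) (τ : GQ) (hτ : A.IsFrobeniusAt τ ℓ)
    (hfix : ∀ x : K, τ (j x) = j x) :
    Nat.card (𝓞 K ⧸ (placeUnder983 j A ℓ hℓ hA).asIdeal) = ℓ := by
  set w := placeUnder983 j A ℓ hℓ hA with hw
  haveI : w.asIdeal.IsMaximal := w.isMaximal
  letI : Field (𝓞 K ⧸ w.asIdeal) := Ideal.Quotient.field w.asIdeal
  haveI : Finite (𝓞 K ⧸ w.asIdeal) := w.asIdeal.finiteQuotientOfFreeOfNeBot w.ne_bot
  have hel := ((Fermat.Agent.Lib.Cheb.H476.isFrobeniusAt_iff A τ ℓ).mp hτ).2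
  refine card_eq_of_pow_eq983 (𝓞 K ⧸ w.asIdeal) ℓ hℓ ?_ ?_
  · have h1 : ((ℓ : ℕ) : 𝓞 K) ∈ w.asIdeal := natCast_mem_contr983 j A ℓ hA
    have h2 : (Ideal.Quotient.mk w.asIdeal) ((ℓ : ℕ) : 𝓞 K) = 0 :=
      Ideal.Quotient.eq_zero_iff_mem.mpr h1
    rwa [map_natCast] at h2
  · intro x
    obtain ⟨y, rfl⟩ := Ideal.Quotient.mk_surjective x
    rw [← map_pow]
    apply Ideal.Quotient.eq.mpr
    show jInt983 j (y ^ ℓ - y) ∈ A.nonunits
    have h3 := hel (jInt983 j y) (jInt_mem983 j A y)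
    rw [jInt_apply983, hfix, ← jInt_apply983] at h3
    have h4 : jInt983 j (y ^ ℓ - y) = -(jInt983 j y - jInt983 j y ^ ℓ) := by
      rw [map_sub, map_pow]; ring
    rw [h4]
    have h5 : A.valuation (jInt983 j y - jInt983 j y ^ ℓ) < 1 := A.mem_nonunits_iff.mp h3
    exact A.mem_nonunits_iff.mpr (by rwa [Valuation.map_neg])

/-- The image of `K` in `ℚ̄` as an intermediate field. -/
def jField983 (j : K →+* Qb) : IntermediateField ℚ Qb := (j.toRatAlgHom).fieldRange

theorem j_mem_jField983 (j : K →+* Qb) (x : K) : j x ∈ jField983 j :=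
  ⟨x, rfl⟩

theorem jField_finite983 (j : K →+* Qb) : FiniteDimensional ℚ (jField983 j) := by
  have : FiniteDimensional ℚ (LinearMap.range (j.toRatAlgHom).toLinearMap) :=
    inferInstance
  exact this

/-- **CHEBOTAREV for `G_K`, degree-one primes** (unfolded form of `CFT.ChebKC`). -/
theorem chebK_core983 (K : Type) [Field K] [NumberField K] (j : K →+* Qb)
    (M : IntermediateField ℚ Qb) (hM : FiniteDimensional ℚ M)
    (σ : GQ) (hσ : ∀ x : K, σ (j x) = j x) (S : Finset (HeightOneSpectrum (𝓞 K))) :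
    ∃ (w : HeightOneSpectrum (𝓞 K)) (φ : GQ),
      w ∉ S ∧ (Ideal.absNorm w.asIdeal).Prime ∧
      ((∀ x : K, φ (j x) = j x) ∧ ∃ A : ValuationSubring Qb,
        (∀ x : 𝓞 K, x ∈ w.asIdeal ↔ j (algebraMap (𝓞 K) K x) ∈ A.nonunits) ∧
        A.IsFrobeniusAt φ (Nat.card (𝓞 K ⧸ w.asIdeal))) ∧
      ∀ x : Qb, x ∈ M → φ x = σ x := by
  classical
  haveI : FiniteDimensional ℚ M := hM
  haveI : FiniteDimensional ℚ (jField983 j) := jField_finite983 j
  have hE : FiniteDimensional ℚ (M ⊔ jField983 j : IntermediateField ℚ Qb) :=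
    IntermediateField.finiteDimensional_sup M (jField983 j)
  obtain ⟨ℓ, A, τ, hℓ, hℓS, hAℓ, hF, -, hτσ⟩ :=
    Fermat.Agent.Lib.Cheb.chebotarev (M ⊔ jField983 j) hE σ
      (S.image fun v => Ideal.absNorm v.asIdeal)
  have hfix : ∀ x : K, τ (j x) = j x := fun x => by
    rw [hτσ (j x) ((le_sup_right : jField983 j ≤ M ⊔ jField983 j) (j_mem_jField983 j x))]
    exact hσ x
  have hcard := card_quot_placeUnder983 j A ℓ hℓ hAℓ τ hF hfix
  have hnorm : Ideal.absNorm (placeUnder983 j A ℓ hℓ hAℓ).asIdeal = ℓ := by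
    rw [Ideal.absNorm_apply, Submodule.cardQuot_apply]
    exact hcard
  refine ⟨placeUnder983 j A ℓ hℓ hAℓ, τ, ?_, ?_, ⟨hfix, A, fun x => Iff.rfl, ?_⟩, ?_⟩
  · intro hmem
    apply hℓS
    rw [Finset.mem_image]
    exact ⟨_, hmem, hnorm⟩
  · rw [hnorm]; exact hℓ
  · rw [hcard]; exact hF
  · intro x hx
    exact hτσ x ((le_sup_left : M ≤ M ⊔ jField983 j) hx)

end Fermat.Agent.LT.CFT.H983

end
end
-- ===== PACK-END LT/CFT/H983/ChebKCore.lean

-- ===== PACK-BEGIN LT/CFT/H983/LegFrob.lean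
section






/-!
# Row LT, tower CFT, sub-tower EX (helper983): Frobenius elements on square roots
# = Legendre symbols  (the Kummer dictionary at `2`)

`K` a number field, `j : K → ℚ̄`, `v` a prime of `𝓞 K` with `2u ∉ v`, `δ ∈ ℚ̄` with `δ² = j u`,
`φ` a Frobenius element of `G_K` at `v` (unfolded form of `CFT.IsFrobAt j v φ`).  Then

    φ δ = δ  ⟺  u is a square modulo v,        and  φ δ = -δ  otherwise.

Proof: `φ δ ≡ δ^q = δ · u^((q-1)/2) mod 𝔪_A`, Euler's criterion in the finite field `𝓞 K / v`,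
and `φ δ = ± δ`, `2 δ ∉ 𝔪_A`.
-/

set_option autoImplicit false
set_option linter.unusedSectionVars false
set_option linter.style.haveILetI false

open IsDedekindDomain NumberField

noncomputable section

namespace Fermat.Agent.LT.CFT.H983

local notation "Qb" => AlgebraicClosure ℚ
local notation "GQ" => (AlgebraicClosure ℚ ≃ₐ[ℚ] AlgebraicClosure ℚ)

/-! ### The maximal ideal of a valuation subring, elementwise -/

theorem nonunits_add983 (A : ValuationSubring Qb) {x y : Qb} (hx : x ∈ A.nonunits)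
    (hy : y ∈ A.nonunits) : x + y ∈ A.nonunits := by
  have hx' : A.valuation x < 1 := A.mem_nonunits_iff.mp hx
  have hy' : A.valuation y < 1 := A.mem_nonunits_iff.mp hy
  exact A.mem_nonunits_iff.mpr (lt_of_le_of_lt (A.valuation.map_add _ _) (max_lt hx' hy'))

theorem nonunits_neg983 (A : ValuationSubring Qb) {x : Qb} (hx : x ∈ A.nonunits) :
    -x ∈ A.nonunits := by
  have hx' : A.valuation x < 1 := A.mem_nonunits_iff.mp hx
  exact A.mem_nonunits_iff.mpr (by rwa [Valuation.map_neg])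

theorem nonunits_sub983 (A : ValuationSubring Qb) {x y : Qb} (hx : x ∈ A.nonunits)
    (hy : y ∈ A.nonunits) : x - y ∈ A.nonunits := by
  rw [sub_eq_add_neg]
  exact nonunits_add983 A hx (nonunits_neg983 A hy)

theorem nonunits_mul983 (A : ValuationSubring Qb) {a x : Qb} (ha : a ∈ A)
    (hx : x ∈ A.nonunits) : a * x ∈ A.nonunits := by
  have hx' : A.valuation x < 1 := A.mem_nonunits_iff.mp hx
  have ha' : A.valuation a ≤ 1 := (A.valuation_le_one_iff _).mpr ha
  refine A.mem_nonunits_iff.mpr ?_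
  rw [map_mul]
  exact mul_lt_of_le_one_of_lt ha' hx'

theorem nonunits_subset983 (A : ValuationSubring Qb) {x : Qb} (hx : x ∈ A.nonunits) : x ∈ A :=
  (A.valuation_le_one_iff _).mp (le_of_lt (A.mem_nonunits_iff.mp hx))

variable {K : Type} [Field K] [NumberField K]

/-- A square root in `ℚ̄` of the image of an algebraic integer lies in every valuation
subring. -/
theorem sqrt_mem983 (j : K →+* Qb) (A : ValuationSubring Qb) (u : 𝓞 K) (δ : Qb)
    (hδ : δ ^ 2 = j (algebraMap (𝓞 K) K u)) : δ ∈ A := by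
  have h1 : IsIntegral ℤ (δ ^ 2) := by rw [hδ]; exact jInt_isIntegral983 j u
  exact Fermat.Agent.S54.isIntegral_mem_valuationSubring A (IsIntegral.of_pow (by norm_num) h1)

/-- **Frobenius on a square root = Legendre symbol.** -/
theorem frob_sqrt983 (j : K →+* Qb) (v : HeightOneSpectrum (𝓞 K)) (A : ValuationSubring Qb)
    (hunder : ∀ x : 𝓞 K, x ∈ v.asIdeal ↔ j (algebraMap (𝓞 K) K x) ∈ A.nonunits)
    (φ : GQ) (hfix : ∀ x : K, φ (j x) = j x)
    (hF : A.IsFrobeniusAt φ (Nat.card (𝓞 K ⧸ v.asIdeal)))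
    (u : 𝓞 K) (h2u : 2 * u ∉ v.asIdeal) (δ : Qb) (hδ : δ ^ 2 = j (algebraMap (𝓞 K) K u)) :
    ((∃ x : 𝓞 K, x ^ 2 - u ∈ v.asIdeal) → φ δ = δ) ∧
      ((¬ ∃ x : 𝓞 K, x ^ 2 - u ∈ v.asIdeal) → φ δ = -δ) := by
  classical
  haveI : v.asIdeal.IsMaximal := v.isMaximal
  letI : Field (𝓞 K ⧸ v.asIdeal) := Ideal.Quotient.field v.asIdeal
  haveI : Finite (𝓞 K ⧸ v.asIdeal) := v.asIdeal.finiteQuotientOfFreeOfNeBot v.ne_bot
  letI : Fintype (𝓞 K ⧸ v.asIdeal) := Fintype.ofFinite _
  set q := Nat.card (𝓞 K ⧸ v.asIdeal) with hq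
  have hqF : q = Fintype.card (𝓞 K ⧸ v.asIdeal) := Nat.card_eq_fintype_card
  -- `2 ∉ v`, `u ∉ v`
  have h2 : (2 : 𝓞 K) ∉ v.asIdeal := fun h => h2u (v.asIdeal.mul_mem_right u h)
  have hu : u ∉ v.asIdeal := fun h => h2u (v.asIdeal.mul_mem_left 2 h)
  have h4u : (2 * (2 * u) : 𝓞 K) ∉ v.asIdeal := fun h =>
    (v.isPrime.mem_or_mem h).elim h2 h2u
  have hchar : ringChar (𝓞 K ⧸ v.asIdeal) ≠ 2 := by
    intro h
    have h3 : ((2 : ℕ) : 𝓞 K ⧸ v.asIdeal) = 0 := by
      rw [← h]; exact ringChar.Nat.cast_ringChar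
    apply h2
    rw [← Ideal.Quotient.eq_zero_iff_mem]
    have h4 : (Ideal.Quotient.mk v.asIdeal) (2 : 𝓞 K) = ((2 : ℕ) : 𝓞 K ⧸ v.asIdeal) := by
      rw [Nat.cast_ofNat]; exact map_ofNat _ 2
    rw [h4, h3]
  have hubar : (Ideal.Quotient.mk v.asIdeal) u ≠ 0 := fun h =>
    hu (Ideal.Quotient.eq_zero_iff_mem.mp h)
  have hodd : q = 2 * (q / 2) + 1 := by
    have := FiniteField.odd_card_of_char_ne_two hchar
    rw [← hqF] at this
    omega
  -- the two elementwise facts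
  have hδA : δ ∈ A := sqrt_mem983 j A u δ hδ
  have hel := ((Fermat.Agent.Lib.Cheb.H476.isFrobeniusAt_iff A φ q).mp hF).2 δ hδA
  have hpow : δ ^ q = δ * jInt983 j (u ^ (q / 2)) := by
    have h5 : δ ^ q = δ ^ (2 * (q / 2) + 1) := by rw [← hodd]
    rw [h5, pow_succ, pow_mul, hδ, map_pow, jInt_apply983, mul_comm]
  have hsq : (φ δ) ^ 2 = δ ^ 2 := by
    rw [← map_pow, hδ, hfix]
  have hcases : φ δ = δ ∨ φ δ = -δ := sq_eq_sq_iff_eq_or_eq_neg.mp hsq
  -- `2 δ` is a unit
  have h2δ : (2 : Qb) * δ ∉ A.nonunits := by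
    intro h
    have h6 : (2 * δ) * (2 * δ) ∈ A.nonunits :=
      nonunits_mul983 A (nonunits_subset983 A h) h
    have h7 : (2 * δ) * (2 * δ) = j (algebraMap (𝓞 K) K (2 * (2 * u))) := by
      have : (2 * δ) * (2 * δ) = 2 * (2 * δ ^ 2) := by ring
      rw [this, hδ]
      simp only [map_mul, map_ofNat]
    rw [h7] at h6
    exact h4u ((hunder _).mpr h6)
  have key : ∀ ε : 𝓞 K, u ^ (q / 2) - ε ∈ v.asIdeal → φ δ - δ * jInt983 j ε ∈ A.nonunits := by
    intro ε hε
    have h8 : jInt983 j (u ^ (q / 2) - ε) ∈ A.nonunits := (hunder _).mp hε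
    have h9 : δ * jInt983 j (u ^ (q / 2) - ε) ∈ A.nonunits := nonunits_mul983 A hδA h8
    have h10 : φ δ - δ * jInt983 j ε
        = (φ δ - δ ^ q) + δ * jInt983 j (u ^ (q / 2) - ε) := by
      rw [hpow, map_sub]; ring
    rw [h10]
    exact nonunits_add983 A hel h9
  have hdich := FiniteField.pow_dichotomy hchar hubar
  have hsqiff := FiniteField.isSquare_iff hchar hubar
  rw [← hqF] at hdich hsqiff
  have hsq_iff : (∃ x : 𝓞 K, x ^ 2 - u ∈ v.asIdeal) ↔
      IsSquare ((Ideal.Quotient.mk v.asIdeal) u) := by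
    constructor
    · rintro ⟨x, hx⟩
      refine ⟨(Ideal.Quotient.mk v.asIdeal) x, ?_⟩
      rw [← map_mul, ← pow_two]
      exact (Ideal.Quotient.eq.mpr hx).symm
    · rintro ⟨y, hy⟩
      obtain ⟨x, rfl⟩ := Ideal.Quotient.mk_surjective y
      refine ⟨x, ?_⟩
      rw [← Ideal.Quotient.eq, hy, pow_two, map_mul]
  constructor
  · intro hex
    have h11 : (Ideal.Quotient.mk v.asIdeal) u ^ (q / 2) = 1 := hsqiff.mp (hsq_iff.mp hex)
    have h12 : u ^ (q / 2) - 1 ∈ v.asIdeal := by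
      rw [← Ideal.Quotient.eq, map_pow, h11, map_one]
    have h13 := key 1 h12
    rw [map_one, mul_one] at h13
    rcases hcases with h | h
    · exact h
    · exfalso
      rw [h] at h13
      apply h2δ
      have : (2 : Qb) * δ = -(-δ - δ) := by ring
      rw [this]
      exact nonunits_neg983 A h13
  · intro hnex
    have h11 : (Ideal.Quotient.mk v.asIdeal) u ^ (q / 2) = -1 := by
      rcases hdich with h | h
      · exact absurd (hsq_iff.mpr (hsqiff.mpr h)) hnex
      · exact h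
    have h12 : u ^ (q / 2) - (-1) ∈ v.asIdeal := by
      rw [← Ideal.Quotient.eq, map_pow, h11, map_neg, map_one]
    have h13 := key (-1) h12
    rw [map_neg, map_one, mul_neg, mul_one, sub_neg_eq_add] at h13
    rcases hcases with h | h
    · exfalso
      rw [h] at h13
      apply h2δ
      have : (2 : Qb) * δ = δ + δ := by ring
      rw [this]
      exact h13
    · exact h

end Fermat.Agent.LT.CFT.H983

end
end
-- ===== PACK-END LT/CFT/H983/LegFrob.lean

-- ===== PACK-BEGIN LT/T7/H209/LtrTop.lean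
section



/-!
# Row LT, tower T7, leaves EKPROD-UP (helper209): the generic statement

OFF-MAIN, ADDITIVE (all names end in `209`).  Nothing assumed.

    isEKTest_lsum_regL209 : lsum Hg (regL (o 0) z' H' k m φ₂) is an Eisenstein-killing test
                            function of level `𝔑 ≤ 𝔑₀` with Eisenstein-killing adjoint
    isEKProd_up209        : IsEKProd 𝔑 R (Φ₁ ⋆ lsum Hg (regL (o 0) z' H' k m φ₂))

for ONE number field, a frame, levels `𝔑 ≤ 𝔑₀`, `𝔑 ≠ 0`, an orbit `o` of length `l > 0` with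
`o 0 ∣ 𝔑₀`, `g` trivial at infinity, a system `Hg` of representatives of
`U(𝔑₀) g U(𝔑₀) / U(𝔑₀)`, an Iwahori coset system `H'` and a scalar uniformiser `z'` at `o 0`,
`φ₂` an Eisenstein-killing test function of level `𝔑` with `H893.IsUInv 𝔑₀ l o φ₂`.
(`H893.EkProdUpC`, `H732.EkProdUpQC732` are instances; the convolution of test functions is a
test function by `H872.isTestFn_conv872`.)
-/

set_option autoImplicit false

open AutomorphicForm IsDedekindDomain NumberField MeasureTheory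
open scoped ComplexConjugate

noncomputable section

namespace Fermat.Agent.LT.T7.H209

open Fermat.Agent.LT.H556 Fermat.Agent.LT.H556.A0 Fermat.Agent.LT.T7

attribute [local instance] Fermat.Agent.LT.T5.instMeasurableSpaceG

variable {K : Type} [Field K] [NumberField K]

/-- **The second factor of the members upstairs** is an Eisenstein-killing test function with
Eisenstein-killing adjoint. -/
theorem isEKTest_lsum_regL209 {μ : Measure (G K)} {F : Set (G K)} (hF : T5.IsFrame μ F)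
    {𝔑 𝔑₀ : Ideal (𝓞 K)} (h𝔑 : 𝔑 ≤ 𝔑₀) {l : ℕ} (hl : 0 < l)
    {o : ℕ → HeightOneSpectrum (𝓞 K)} (ho : (o 0).asIdeal ∣ 𝔑₀)
    {g : G K} (hg : ∀ w : InfinitePlace K, TrivAtInf w g) {Hg : Finset (G K)}
    (hsys : IsDblCosetSystem 𝔑₀ g Hg) {H' : Finset (G K)} (hH' : IsIwCosetSystem (o 0) H')
    {z' : G K} (hz' : IsScalarUniformizerAt (o 0) z') {φ₂ : G K → ℂ}
    (ht : T5.IsTestFn 𝔑 T5.trivType φ₂)
    (hek : T5.IsEK μ φ₂ ∧ T5.IsEK μ (T5.adjointFn φ₂))
    (hinv : H893.IsUInv 𝔑₀ l o φ₂) (k : ℤ) (m : ℕ) :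
    H32.IsEKTest32 𝔑 μ (H893.lsum Hg (H893.regL (o 0) z' H' k m φ₂)) := by
  have hHgT : ∀ h ∈ Hg, TrivInf209 h := by
    intro h hh
    obtain ⟨u₁, u₂, hu₁, hu₂, rfl⟩ := hsys.1 h hh
    exact trivInf_mul209 (trivInf_mul209 hu₁.1 hg) hu₂.1
  have hH'T : ∀ h ∈ H', TrivInf209 h := fun h hh => (hH'.2.1 h hh).1.1
  have hz'T : TrivInf209 z' := hz'.1.1
  have hRT : IsRT209 𝔑 (H893.lsum Hg (H893.regL (o 0) z' H' k m φ₂)) :=
    isRT_lsum209 hHgT (isRT_regL209 (o 0) hz'T hH'T k m (isRT_of_isTestFn209 ht))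
  have hL : ∀ u : G K, InLevelGroup 𝔑 u → ∀ y : G K,
      H893.lsum Hg (H893.regL (o 0) z' H' k m φ₂) (u * y)
        = H893.lsum Hg (H893.regL (o 0) z' H' k m φ₂) y := fun u hu y =>
    lsum_dbl_left_inv209 hsys
      (isLInv_regL209 hl ho hH' hz' k m (isLInv_of_isUInv209 hinv)).1
      (inLevelGroup_mono209 h𝔑 hu) y
  have hEK : IsEKC209 μ (H893.lsum Hg (H893.regL (o 0) z' H' k m φ₂)) :=
    isEKC_lsum209 hF Hg (isEKC_regL209 hF (o 0) z' H' k m ⟨ht.cont, ht.supp, hek.1, hek.2⟩)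
  exact ⟨isTestFn_of_isRT209 ht.ktype hRT hL, hEK.2.2.1, hEK.2.2.2⟩

/-- **The members upstairs are products of two Eisenstein-killing test functions.** -/
theorem isEKProd_up209 {R : Frame5 K} (hR : IsFrame5 R)
    {𝔑 𝔑₀ : Ideal (𝓞 K)} (hne : 𝔑 ≠ ⊥) (h𝔑 : 𝔑 ≤ 𝔑₀) {l : ℕ} (hl : 0 < l)
    {o : ℕ → HeightOneSpectrum (𝓞 K)} (ho : (o 0).asIdeal ∣ 𝔑₀)
    {g : G K} (hg : ∀ w : InfinitePlace K, TrivAtInf w g) {Hg : Finset (G K)}
    (hsys : IsDblCosetSystem 𝔑₀ g Hg) {H' : Finset (G K)} (hH' : IsIwCosetSystem (o 0) H')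
    {z' : G K} (hz' : IsScalarUniformizerAt (o 0) z') {Φ₁ φ₂ : G K → ℂ}
    (ht₁ : T5.IsTestFn 𝔑 T5.trivType Φ₁)
    (hek₁ : T5.IsEK R.μ Φ₁ ∧ T5.IsEK R.μ (T5.adjointFn Φ₁))
    (ht : T5.IsTestFn 𝔑 T5.trivType φ₂)
    (hek : T5.IsEK R.μ φ₂ ∧ T5.IsEK R.μ (T5.adjointFn φ₂))
    (hinv : H893.IsUInv 𝔑₀ l o φ₂) (k : ℤ) (m : ℕ) :
    IsEKProd 𝔑 R (T5.conv R.μ Φ₁ (H893.lsum Hg (H893.regL (o 0) z' H' k m φ₂))) :=
  H32.isEKProd_mk32
    (fun _ _ ha hb => H872.isTestFn_conv872 hR.frame.haar hne ha hb)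
    ⟨ht₁, hek₁.1, hek₁.2⟩
    (isEKTest_lsum_regL209 hR.frame h𝔑 hl ho hg hsys hH' hz' ht hek hinv k m)

end Fermat.Agent.LT.T7.H209

end

end
-- ===== PACK-END LT/T7/H209/LtrTop.lean

-- ===== PACK-BEGIN LT/T7/H751/FactDownQTop.lean
section




/-!
# Row LT, tower T7, node Q2.7.7 `MQ298.FactDownQC298` (helper751, registry 2675): THE TOP

OFF-MAIN.  Complete proof, nothing assumed.

    factDownQC_of751 : H305.SuppDownC305 ℚ → H558.OutOpenC558 ℚ → H558.CompContC558 ℚ →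
        H558.TorCommIdC558 ℚ → H558.BiInvContC558 ℚ → H558.HaarSigmaC558 ℚ →
        MQ298.HaarSplitQC298 → ReContQC751 → SuppOutQC751 → CutOnOutQC751 → RayFinQC751 →
        PtFactQC751 → ArchIntblRC751 → HaarSigmaRC751 → MQ298.FactDownQC298

(first line: leaves of the cubic cuts with `K = ℚ`; second line: `HaarSplitQC298` of helper298
and the seven leaves of this cut).
-/

set_option autoImplicit false

open AutomorphicForm IsDedekindDomain NumberField MeasureTheory

noncomputable section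

namespace Fermat.Agent.LT.T7.H751

open Fermat.Agent.LT.H556 Fermat.Agent.LT.H556.A0 Fermat.Agent.LT.T7 Fermat.Agent.LT.T7.H305

/-- **THE TOP of the node `MQ298.FactDownQC298`.** -/
theorem factDownQC_of751 (hSD : SuppDownC305 ℚ) (hOpen : H558.OutOpenC558 ℚ)
    (hCont : H558.CompContC558 ℚ) (hComm : H558.TorCommIdC558 ℚ)
    (hBI : H558.BiInvContC558 ℚ) (hσ : H558.HaarSigmaC558 ℚ) (hHS : MQ298.HaarSplitQC298)
    (hRe : ReContQC751) (hSO : SuppOutQC751) (hCut : CutOnOutQC751) (hRF : RayFinQC751)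
    (hPF : PtFactQC751) (hAI : ArchIntblRC751) (hσR : HaarSigmaRC751) :
    MQ298.FactDownQC298 :=
  factDownQC_of_parts751
    (cutOnDownQC_of751 hSD hOpen hCont hRe hComm hSO hσ hσR hCut)
    (factIntDownQC_of751 hHS hOpen hCont hRe hBI hRF hPF hAI hσ hσR)

end Fermat.Agent.LT.T7.H751

end

end
-- ===== PACK-END LT/T7/H751/FactDownQTop.lean

-- ===== PACK-BEGIN LT/T7/H514/FactUpQCoreTop.lean
section



/-!
# Row LT, tower T7, node Q2.7.13 `MQ298.FactUpQC298` (registry row 2676, helper514):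
# THE CUT over `ℚ` in CORE FORM -- proved tops

OFF-MAIN.  No hole, nothing assumed.

    factUpQCore_of514      : UpFactQCore514 F → LocEqInertQL514 F → LocEqSplitQL514 F
                               → LocEqArchQL514 F → FactUpQCore514 F
    factUpQC298_of_core514 : FactUpQCore514 F → SplitEnumExQC514 F → MQ298.FactUpQC298 F
    factUpQC298_of_leaves514 : the five → MQ298.FactUpQC298 F                  (VERBATIM)
    locEqInertQC_of_L514, locEqSplitQC_of_L514, locEqArchQC_of_L514 : local leaf → leaf of v1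
-/

set_option autoImplicit false

open AutomorphicForm IsDedekindDomain NumberField MeasureTheory
open scoped ComplexConjugate

noncomputable section

namespace Fermat.Agent.LT.T7.FUQ514

open Fermat.Agent.LT.H556 Fermat.Agent.LT.H556.A0 Fermat.Agent.LT.T7 Fermat.Agent.LT.T7.H305
open Fermat.Agent.LT.T7.MQ298 Fermat.Agent.LT.T7.H340

attribute [local instance] Fermat.Agent.LT.T5.instMeasurableSpaceG

variable {F : Type} [Field F] [NumberField F]

/-- **THE TOP OF THE CUT IN CORE FORM.** -/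
theorem factUpQCore_of514 (hU : UpFactQCore514 F) (hI : LocEqInertQL514 F)
    (hS : LocEqSplitQL514 F) (hA : LocEqArchQL514 F) : FactUpQCore514 F := by
  intro hT6 hF D hD hcyc hl ι hι μr hμr μc hμc T₀ hT₀ n m hlev
  obtain ⟨cG', hcG', hfact⟩ := hU hT6 hF D hD hcyc hl ι hι μc hμc T₀ hT₀ n m hlev
  refine ⟨cG', hcG', ?_⟩
  intro S S' hTS hSS' φ₀ Φ f₀ Fr hup hdown hΦ hin hsp har δ γ hγ hN hgood hint μT μT' hμT hμT'
    hlink L cT hL hcT hTor
  obtain ⟨β', J, Jc, hcut, hval, hJ, hJc⟩ :=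
    hfact S S' hTS hSS' φ₀ Φ f₀ hup hΦ hsp δ γ hγ hN hgood hint μT μT' hμT hμT' hlink L cT hL
      hcT hTor
  refine ⟨β', hcut, ?_⟩
  rw [hval]
  congr 1
  show (∑' j : ℤ, (∏ v ∈ S, J v) * Jc j)
    = ∑' j : ℤ, (∏ v ∈ S, locInt305 (L.μv v) (L.βv v) (f₀ v) (locG305 v γ)) *
        locInt305 μr L.βr Fr (reGLQ298 (T5.ratG γ * D.R.r ^ j))
  refine tsum_congr fun j => ?_
  congr 1
  · refine Finset.prod_congr rfl fun v hv => ?_
    rcases hJ v hv with h | h
    · exact hI hT6 hF D hD hcyc hl n m φ₀ f₀ δ γ hγ hN L hL v (hdown v hv) (hup v hv)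
        (hin v hv) (J v) h
    · exact hS hT6 hF D hD hcyc hl n m φ₀ f₀ δ γ hγ hN L hL v (hdown v hv) (hup v hv) (J v) h
  · exact hA hF D hD hcyc hl ι hι μr hμr μc hμc Φ Fr har δ γ hγ hN m L hL j (Jc j) (hJc j)

/-- **THE NODE OF helper298 (form v1, `LocHypQ298`) FROM THE CORE FORM.** -/
theorem factUpQC298_of_core514 (hC : FactUpQCore514 F) (hE : SplitEnumExQC514 F) :
    FactUpQC298 F := by
  intro hT6 hF D hD hcyc hl ι hι μr hμr μc hμc T₀ hT₀ n m hlev
  obtain ⟨cG', hcG', h⟩ := hC hT6 hF D hD hcyc hl ι hι μr hμr μc hμc T₀ hT₀ n m hlev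
  refine ⟨cG', hcG', ?_⟩
  intro S S' hTS hSS' φ₀ Φ f₀ F0 F1 hloc δ γ hγ hN hgood hint μT μT' hμT hμT' hlink L cT hL hcT
    hTor
  refine h S S' hTS hSS' φ₀ Φ f₀ (fun g => F0 g + F1 g) hloc.inv_up hloc.inv_down
    (fun w => ⟨(hloc.arch_up w).cont, (hloc.arch_up w).supp⟩) (fun v hv => hloc.inert v hv)
    (fun v hv h2 => ?_) hloc.arch δ γ hγ hN hgood hint μT μT' hμT hμT' hlink L cT hL hcT hTor
  obtain ⟨w, i, h1, h2', h3, h4, h5⟩ := hE hT6 hF D hD hcyc hl v h2
  have hs := hloc.split v hv w i h1 h2' h3 h4 h5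
  exact ⟨w, i, h1, h2', h3, h4, h5, hs.1, hs.2⟩

/-- **THE NODE OF helper298 FROM THE FIVE.** -/
theorem factUpQC298_of_leaves514 (hU : UpFactQCore514 F) (hI : LocEqInertQL514 F)
    (hS : LocEqSplitQL514 F) (hA : LocEqArchQL514 F) (hE : SplitEnumExQC514 F) :
    FactUpQC298 F :=
  factUpQC298_of_core514 (factUpQCore_of514 hU hI hS hA) hE

/-- The leaf LOC-EQ-INERT of v1 from the local form. -/
theorem locEqInertQC_of_L514 (h : LocEqInertQL514 F) : LocEqInertQC514 F := by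
  intro hT6 hF D hD hcyc hl μr μc S n m φ₀ Φ f₀ F0 F1 hloc δ γ hγ hN L hL v hv J hJ
  exact h hT6 hF D hD hcyc hl n m φ₀ f₀ δ γ hγ hN L hL v (hloc.inv_down v hv)
    (hloc.inv_up v hv) (hloc.inert v hv) J hJ

/-- The leaf LOC-EQ-SPLIT of v1 from the local form. -/
theorem locEqSplitQC_of_L514 (h : LocEqSplitQL514 F) : LocEqSplitQC514 F := by
  intro hT6 hF D hD hcyc hl μr μc S n m φ₀ Φ f₀ F0 F1 hloc δ γ hγ hN L hL v hv J hJ
  obtain ⟨hl0, w, i, h1, h2, h3, h4, h5, hJ'⟩ := hJ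
  have hs := hloc.split v hv w i h1 h2 h3 h4 h5
  exact h hT6 hF D hD hcyc hl n m φ₀ f₀ δ γ hγ hN L hL v (hloc.inv_down v hv)
    (hloc.inv_up v hv) J ⟨hl0, w, i, h1, h2, h3, h4, h5, hs.1, hs.2, hJ'⟩

/-- The leaf LOC-EQ-ARCH of v1 from the local form. -/
theorem locEqArchQC_of_L514 (h : LocEqArchQL514 F) : LocEqArchQC514 F := by
  intro hF D hD hcyc hl ι hι μr hμr μc hμc S n m φ₀ Φ f₀ F0 F1 hloc δ γ hγ hN L hL j J hJ
  exact h hF D hD hcyc hl ι hι μr hμr μc hμc Φ (fun g => F0 g + F1 g) hloc.arch δ γ hγ hN m L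
    hL j J hJ

/-- VERBATIM checks. -/
example : UpFactQCore514 F → LocEqInertQL514 F → LocEqSplitQL514 F → LocEqArchQL514 F →
    SplitEnumExQC514 F → Fermat.Agent.LT.T7.MQ298.FactUpQC298 F := factUpQC298_of_leaves514

end Fermat.Agent.LT.T7.FUQ514

end

end
-- ===== PACK-END LT/T7/H514/FactUpQCoreTop.lean

-- ===== PACK-BEGIN LT/T7/H1U/UpFactQTop.lean
section




/-!
# Row LT, tower T7, node Q2.7.13.1 `FUQ514.UpFactQC514` (registry row 2708, owner helper1):
# THE PROVED TOP of the cut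

OFF-MAIN.  Complete proofs, nothing assumed.

    upFactQW_of : UpDatExistsQC F → CutOnUpQC F → FactIntUpQC F → UpFactQWC F
    upFactQC_of : UpDatExistsQC F → CutOnUpQC F → FactIntUpQC F → FUQ514.UpFactQC514 F
                                                    (VERBATIM vs FactUpQSpec 01844c0a)
    upFactQC_ofW : UpFactQWC F → FUQ514.UpFactQC514 F
-/

set_option autoImplicit false
set_option linter.unusedVariables false

open AutomorphicForm IsDedekindDomain NumberField MeasureTheory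
open scoped ComplexConjugate

noncomputable section

namespace Fermat.Agent.LT.T7.H1U

open Fermat.Agent.LT.H556 Fermat.Agent.LT.H556.A0 Fermat.Agent.LT.T7 Fermat.Agent.LT.T7.H305
open Fermat.Agent.LT.T7.MQ298 Fermat.Agent.LT.T7.H340 Fermat.Agent.LT.T7.FUQ514

attribute [local instance] Fermat.Agent.LT.T5.instMeasurableSpaceG

variable {F : Type} [Field F] [NumberField F]

/-! ## The named values are values in the sense of helper340 / helper514 -/

theorem isInertVal_of_at {D : CompData ℚ F} {n : HeightOneSpectrum (𝓞 F) → ℕ}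
    {φ₀ : ∀ w : HeightOneSpectrum (𝓞 F), GL (Fin 2) (w.adicCompletion F) → ℂ}
    {δ : GL (Fin 2) F} {v : HeightOneSpectrum (𝓞 ℚ)} {w : HeightOneSpectrum (𝓞 F)}
    {β' : GL (Fin 2) (w.adicCompletion F) → ℝ} {J : ℂ}
    (h : IsInertAtQ D n φ₀ δ v w β' J) : IsInertVal340 D n φ₀ δ v J := by
  obtain ⟨e, i, sw, μ', μt', h⟩ := h
  exact ⟨w, e, i, sw, μ', μt', β', h⟩

theorem isSplitVal_of_at {D : CompData ℚ F} {n : HeightOneSpectrum (𝓞 F) → ℕ}
    {m : HeightOneSpectrum (𝓞 ℚ) → ℕ}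
    {φ₀ : ∀ w : HeightOneSpectrum (𝓞 F), GL (Fin 2) (w.adicCompletion F) → ℂ}
    {δ : GL (Fin 2) F} {γ : GL (Fin 2) ℚ} {L : LocDataQ298 γ}
    {v : HeightOneSpectrum (𝓞 ℚ)} {w0 : HeightOneSpectrum (𝓞 F)}
    {β' : GL (Fin 2) (w0.adicCompletion F) → ℝ} {J : ℂ}
    (h : IsSplitAtQ D n m φ₀ δ L v w0 β' J) : IsSplitValQ514 D φ₀ δ L v J := by
  obtain ⟨hl, w, i, _, _, _, h1, h2, h3, h4, h5, h6⟩ := h
  exact ⟨hl, w, i, h1, h2, h3, h4, h5, h6⟩

theorem isArchVal_of_at {D : CompData ℚ F} {Φ : InfinitePlace F → GL (Fin 2) ℂ → ℂ}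
    {δ : GL (Fin 2) F} {γ : GL (Fin 2) ℚ} {L : LocDataQ298 γ}
    {μc : @Measure (GL (Fin 2) ℂ) (borel _)} {w : InfinitePlace F}
    {β' : GL (Fin 2) ℂ → ℝ} {Jc : ℤ → ℂ}
    (h : IsArchAtQ D Φ δ L μc w β' Jc) (j : ℤ) : IsArchValQ514 D Φ δ L μc j (Jc j) := by
  obtain ⟨h1, h2, h3, h4⟩ := h
  exact ⟨w, β', h1, h2, h3, h4 j⟩

variable (F)

/-! ## The tops -/

/-- **THE TOP, `W`-form.** -/
theorem upFactQW_of (hE : UpDatExistsQC F) (hA : CutOnUpQC F) (hB : FactIntUpQC F) :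
    UpFactQWC F := by
  intro hT6 hIQ D hD hcyc hl ι hι μc hμc T₀ hT₀ n m hnm
  obtain ⟨cG', hcG', hint⟩ := hB hT6 hIQ D hD hcyc hl μc hμc T₀ hT₀ n m hnm
  refine ⟨cG', hcG', ?_⟩
  intro S S' hS hSS' φ₀ Φ hinv harch w0c hw0c hlev δ γ hγ hN hgood hio μT μT' hμT hμT' hlink
    L cT hL hcT hTc
  obtain ⟨U, J, Jc, hU0, hU⟩ :=
    hE hT6 hIQ D hD hcyc hl μc hμc n m S φ₀ Φ w0c hw0c hlev δ γ hγ hN L hL
  exact ⟨U, J, Jc, hU0, hU,
    hA hT6 hIQ D hD hcyc hl ι hι μc hμc T₀ hT₀ n m S S' hS hSS' φ₀ Φ δ γ hγ hN hgood hio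
      μT μT' hμT hμT' hlink L cT hL hcT hTc U J Jc hU,
    hint S S' hS hSS' φ₀ Φ hinv harch δ γ hγ hN hgood hio L cT hL hcT U J Jc hU⟩

/-- **The node of helper514 from the `W`-form.** -/
theorem upFactQC_ofW (hW : UpFactQWC F) : UpFactQC514 F := by
  intro hT6 hIQ D hD hcyc hl ι hι μr hμr μc hμc T₀ hT₀ n m hnm
  obtain ⟨cG', hcG', hW'⟩ := hW hT6 hIQ D hD hcyc hl ι hι μc hμc T₀ hT₀ n m hnm
  refine ⟨cG', hcG', ?_⟩
  intro S S' hS hSS' φ₀ Φ f₀ F0 F1 hLoc δ γ hγ hN hgood hio μT μT' hμT hμT' hlink L cT hL hcT hTc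
  classical
  -- a place over every place
  have hex : ∀ v : HeightOneSpectrum (𝓞 ℚ), ∃ w : HeightOneSpectrum (𝓞 F), PlaceOver ℚ F v w :=
    fun v => Fermat.Agent.LT.T7.H510.exists_placeOver_E510 v
  choose w0c hw0c using hex
  have hlev : LevelsAtSplitQ D n m S w0c := by
    intro v hv w i _ h1 h2 h3 h4 h5
    exact (hLoc.split v hv w i h1 h2 h3 h4 h5).1
  obtain ⟨U, J, Jc, _, hU, hcut, hval⟩ := hW' S S' hS hSS' φ₀ Φ hLoc.inv_up
    (fun w => ⟨(hLoc.arch_up w).cont, (hLoc.arch_up w).supp⟩) w0c (fun v _ => hw0c v) hlev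
    δ γ hγ hN hgood hio μT μT' hμT hμT' hlink L cT hL hcT hTc
  refine ⟨prodCutUpQ S' S cT U, J, Jc, hcut, hval, ?_, ?_⟩
  · intro v hv
    rcases hU.1 v hv with h | h
    · exact Or.inl (isInertVal_of_at h)
    · exact Or.inr (isSplitVal_of_at h)
  · intro j
    exact isArchVal_of_at hU.2 j

/-- **THE TOP** (the node of helper514, VERBATIM). -/
theorem upFactQC_of (hE : UpDatExistsQC F) (hA : CutOnUpQC F) (hB : FactIntUpQC F) :
    UpFactQC514 F :=
  upFactQC_ofW F (upFactQW_of F hE hA hB)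

end Fermat.Agent.LT.T7.H1U

end

end
-- ===== PACK-END LT/T7/H1U/UpFactQTop.lean

-- ===== PACK-BEGIN LT/T7/H117/GrpSplitB.lean
section



/-!
# Row LT, tower T7, leaf UF.B1 `GrpSplitC340` (helper117, OFF-MAIN): the grouped coordinates

`upHom117 U l` : the grouped coordinates `upCoord340 U l` as a homomorphism; continuous
(`continuous_upHom117`), ONTO from `Out_{S'}` (`upHom_surj117`), kernel in `Out_{S'}` contained in
the standard compact subgroup (`upKer_sub117`).
-/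

set_option autoImplicit false
set_option linter.style.haveILetI false
set_option linter.unusedSectionVars false

open IsDedekindDomain NumberField MeasureTheory Set Topology
open scoped NNReal ENNReal

noncomputable section

namespace Fermat.Agent.LT.T7.H117

open Fermat.Agent.LT.H556 Fermat.Agent.LT.H556.A0 Fermat.Agent.LT.T7 Fermat.Agent.LT.T7.H305
open Fermat.Agent.LT.T7.H340

variable {K K' : Type} [Field K] [NumberField K] [Field K'] [NumberField K'] [Algebra K K']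

theorem glMap_cancel117 {A B : Type} [CommRing A] [CommRing B] (f : A →+* B) (g : B →+* A)
    (hgf : ∀ x : A, g (f x) = x) (z : GL (Fin 2) A) :
    Matrix.GeneralLinearGroup.map g (Matrix.GeneralLinearGroup.map f z) = z := by
  apply Units.ext
  ext i j
  show g (f ((z : Matrix (Fin 2) (Fin 2) A) i j)) = _
  exact hgf _

theorem glMap_eq_one117 {A B : Type} [CommRing A] [CommRing B] (f : A →+* B) (g : B →+* A)
    (hgf : ∀ x : A, g (f x) = x) (z : GL (Fin 2) A)
    (h : Matrix.GeneralLinearGroup.map f z = 1) : z = 1 := by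
  rw [← glMap_cancel117 f g hgf z, h, map_one]

/-- The target group of the grouped coordinates. -/
abbrev HU117 {δ : GL (Fin 2) K'} (U : UpDat340 K δ) (l : ℕ) : Type :=
  (∀ v : U.Sin, GL (Fin 2) ((U.dI v).w.adicCompletion K')) ×
    ((∀ v : U.Ssp, Fin l → GL (Fin 2) ((v : HeightOneSpectrum (𝓞 K)).adicCompletion K)) ×
      (InfinitePlace K → Fin l → GL (Fin 2) ℂ))

/-- The grouped coordinates as a homomorphism. -/
def upHom117 {δ : GL (Fin 2) K'} (U : UpDat340 K δ) (l : ℕ) : G K' →* HU117 U l :=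
  MonoidHom.prod (MonoidHom.pi fun v : U.Sin => finGL305 (U.dI v).w)
    (MonoidHom.prod
      (MonoidHom.pi fun v : U.Ssp => MonoidHom.pi fun a : Fin l =>
        (Matrix.GeneralLinearGroup.map
          ((((U.dS v).i a.1).symm : ((U.dS v).w a.1).adicCompletion K' ≃+* _) :
            ((U.dS v).w a.1).adicCompletion K' →+* (v : HeightOneSpectrum (𝓞 K)).adicCompletion K)).comp
          (finGL305 ((U.dS v).w a.1)))
      (MonoidHom.pi fun v : InfinitePlace K => MonoidHom.pi fun a : Fin l =>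
        (Matrix.GeneralLinearGroup.map ((U.dA v).d a.1)).comp (infGL305 ((U.dA v).w a.1))))

theorem coe_upHom117 {δ : GL (Fin 2) K'} (U : UpDat340 K δ) (l : ℕ) :
    (upHom117 U l : G K' → HU117 U l) = upCoord340 U l := rfl

theorem val_symm117 {D : CompData K K'} {ι : Adl K →+* Adl K'}
    {v : HeightOneSpectrum (𝓞 K)} {d : SplitDat340 K' v} (hd : IsSplitDat340 D ι d) (a : ℕ)
    (y : (d.w a).adicCompletion K') :
    Valued.v ((((d.i a).symm : (d.w a).adicCompletion K' ≃+* _) :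
      (d.w a).adicCompletion K' →+* v.adicCompletion K) y) = Valued.v y := by
  have h := hd.val_i a ((d.i a).symm y)
  rw [RingEquiv.apply_symm_apply] at h
  exact h.symm

theorem continuous_upHom117 {D : CompData K K'} {ι : Adl K →+* Adl K'}
    {n : HeightOneSpectrum (𝓞 K') → ℕ} {δ : GL (Fin 2) K'} {γ : GL (Fin 2) K}
    {L : LocData305 K γ} {S : Finset (HeightOneSpectrum (𝓞 K))} (U : UpDat340 K δ)
    (hU : IsUpDat340 D ι n L S U) : Continuous (upHom117 U D.l) := by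
  have h : Continuous (fun y : G K' => upCoord340 U D.l y) := by
    refine Continuous.prodMk (continuous_pi fun v => continuous_finGL117 _)
      (Continuous.prodMk (continuous_pi fun v => continuous_pi fun a => ?_)
        (continuous_pi fun v => continuous_pi fun a => ?_))
    · exact (continuous_glMap117 _
        (continuous_of_val117 _ (val_symm117 (hU.split v) a.1))).comp (continuous_finGL117 _)
    · have hd : Continuous ((U.dA v).d a.1) := by
        rcases (hU.arch v).typ a.1 with h | h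
        · rw [h]; exact continuous_id
        · rw [h]; exact Complex.continuous_conj
      exact (continuous_glMap117 _ hd).comp (continuous_infGL117 _)
  exact h

theorem arch_invol117 {D : CompData K K'} {ι : Adl K →+* Adl K'} {v : InfinitePlace K}
    {d : ArchDat340 K'} (hd : IsArchDat340 D ι v d) (a : ℕ) (z : ℂ) : d.d a (d.d a z) = z := by
  rcases hd.typ a with h | h
  · rw [h]; rfl
  · rw [h]; exact Complex.conj_conj z

theorem place_mem117 {D : CompData K K'} {ι : Adl K →+* Adl K'}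
    {n : HeightOneSpectrum (𝓞 K') → ℕ} {δ : GL (Fin 2) K'} {γ : GL (Fin 2) K}
    {L : LocData305 K γ} {S : Finset (HeightOneSpectrum (𝓞 K))}
    {S' : Finset (HeightOneSpectrum (𝓞 K'))} (hS' : IsOver305 S S') (U : UpDat340 K δ)
    (hU : IsUpDat340 D ι n L S U) :
    (∀ v : U.Sin, (U.dI v).w ∈ S') ∧ ∀ (v : U.Ssp) (a : ℕ), (U.dS v).w a ∈ S' := by
  refine ⟨fun v => ?_, fun v a => ?_⟩
  · exact (hS' _).2 ⟨v.1, (hU.union v.1).2 (Or.inl v.2), (hU.inert v).ovr⟩
  · exact (hS' _).2 ⟨v.1, (hU.union v.1).2 (Or.inr v.2), (hU.split v).ovr a⟩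

theorem upHom_surj117 (hK : TotCplx K) {D : CompData K K'} {ι : Adl K →+* Adl K'}
    {n : HeightOneSpectrum (𝓞 K') → ℕ} {δ : GL (Fin 2) K'} {γ : GL (Fin 2) K}
    {L : LocData305 K γ} {S : Finset (HeightOneSpectrum (𝓞 K))}
    {S' : Finset (HeightOneSpectrum (𝓞 K'))} (hS' : IsOver305 S S') (U : UpDat340 K δ)
    (hU : IsUpDat340 D ι n L S U) (h : HU117 U D.l) :
    ∃ x ∈ outSub117 S', upHom117 U D.l x = h := by
  classical
  have hK' : ∀ w' : InfinitePlace K', w'.IsComplex := totCplx_up117 hK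
  -- the finite part
  let I : Type := U.Sin ⊕ (U.Ssp × Fin D.l)
  let place : I → HeightOneSpectrum (𝓞 K') :=
    Sum.elim (fun v => (U.dI v).w) (fun p => (U.dS p.1).w p.2.1)
  let g : ∀ i : I, GL (Fin 2) ((place i).adicCompletion K') := fun i =>
    @Sum.rec U.Sin (U.Ssp × Fin D.l) (fun i => GL (Fin 2) ((place i).adicCompletion K'))
      (fun v => h.1 v)
      (fun p => Matrix.GeneralLinearGroup.map
        (((U.dS p.1).i p.2.1 : _ ≃+* _) :
          (p.1 : HeightOneSpectrum (𝓞 K)).adicCompletion K →+*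
            ((U.dS p.1).w p.2.1).adicCompletion K') (h.2.1 p.1 p.2)) i
  have hinj : Function.Injective place := by
    rintro (v | ⟨v, a⟩) (v' | ⟨v', a'⟩) hvv
    · have h1 : (v : HeightOneSpectrum (𝓞 K)) = v' :=
        H557.placeOver_unique_557 (hU.inert v).ovr
          (show PlaceOver K K' v'.1 (U.dI v).w from
            (show (U.dI v).w = (U.dI v').w from hvv) ▸ (hU.inert v').ovr)
      exact congrArg Sum.inl (Subtype.ext h1)
    · exfalso
      have h1 : (v : HeightOneSpectrum (𝓞 K)) = v' :=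
        H557.placeOver_unique_557 (hU.inert v).ovr
          (show PlaceOver K K' v'.1 (U.dI v).w from
            (show (U.dI v).w = (U.dS v').w a'.1 from hvv) ▸ (hU.split v').ovr a'.1)
      exact hU.disj v.1 v.2 (h1 ▸ v'.2)
    · exfalso
      have h1 : (v' : HeightOneSpectrum (𝓞 K)) = v :=
        H557.placeOver_unique_557 (hU.inert v').ovr
          (show PlaceOver K K' v.1 (U.dI v').w from
            (show (U.dI v').w = (U.dS v).w a.1 from hvv.symm) ▸ (hU.split v).ovr a.1)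
      exact hU.disj v'.1 v'.2 (h1 ▸ v.2)
    · have hvv' : (U.dS v).w a.1 = (U.dS v').w a'.1 := hvv
      have h1 : (v : HeightOneSpectrum (𝓞 K)) = v' :=
        H557.placeOver_unique_557 ((hU.split v).ovr a.1)
          (show PlaceOver K K' v'.1 ((U.dS v).w a.1) from hvv' ▸ (hU.split v').ovr a'.1)
      have h2 : v = v' := Subtype.ext h1
      subst h2
      have h3 : a.1 = a'.1 := (hU.split v).inj a.1 a'.1 a.2 a'.2 hvv'
      have h4 : a = a' := Fin.ext h3
      rw [h4]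
  obtain ⟨x, h1, h2, h3⟩ := exists_finI117 Finset.univ place hinj g
  -- the infinite part
  have hex : ∀ w' : InfinitePlace K',
      ∃ a : Fin D.l, w' = (U.dA (w'.comap (algebraMap K K'))).w a.1 := fun w' => by
    obtain ⟨a, ha, hw⟩ := (hU.arch _).exh w' rfl
    exact ⟨⟨a, ha⟩, hw⟩
  choose aIdx haIdx using hex
  let t : InfinitePlace K' → GL (Fin 2) ℂ := fun w' =>
    Matrix.GeneralLinearGroup.map ((U.dA (w'.comap (algebraMap K K'))).d (aIdx w').1)
      (h.2.2 (w'.comap (algebraMap K K')) (aIdx w'))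
  have ht : ∀ (w' : InfinitePlace K') (v : InfinitePlace K) (a : Fin D.l),
      w'.comap (algebraMap K K') = v → w' = (U.dA v).w a.1 →
      t w' = Matrix.GeneralLinearGroup.map ((U.dA v).d a.1) (h.2.2 v a) := by
    intro w' v a hv hw
    subst hv
    have h5 : aIdx w' = a :=
      Fin.ext ((hU.arch _).inj _ _ (aIdx w').2 a.2 ((haIdx w').symm.trans hw))
    show Matrix.GeneralLinearGroup.map _ _ = _
    rw [h5]
  refine ⟨T3.H57.infEmb57 hK' t * x, ?_, ?_⟩
  · intro w hw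
    have hpl := place_mem117 hS' U hU
    have hfin : finGL305 w (T3.H57.infEmb57 hK' t * x) = 1 := by
      rw [map_mul, h2 w ?_, mul_one]
      · exact T3.H57.finGL_infEmb57 hK' t w
      · rintro (v | ⟨v, a⟩) _ hi
        · exact hw (hi ▸ hpl.1 v)
        · exact hw (hi ▸ hpl.2 v a.1)
    refine ⟨isIntegralAt_of_eq_one117 w _ hfin, isIntegralAt_of_eq_one117 w _ ?_⟩
    rw [map_inv, hfin, inv_one]
  · refine Prod.ext (funext fun v => ?_) (Prod.ext (funext fun v => funext fun a => ?_)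
      (funext fun v => funext fun a => ?_))
    · show finGL305 (U.dI v).w (T3.H57.infEmb57 hK' t * x) = h.1 v
      rw [map_mul, show finGL305 (U.dI v).w (T3.H57.infEmb57 hK' t) = 1 from
        T3.H57.finGL_infEmb57 hK' t _, one_mul]
      exact h1 (Sum.inl v) (Finset.mem_univ _)
    · show Matrix.GeneralLinearGroup.map _
        (finGL305 ((U.dS v).w a.1) (T3.H57.infEmb57 hK' t * x)) = h.2.1 v a
      rw [map_mul, show finGL305 ((U.dS v).w a.1) (T3.H57.infEmb57 hK' t) = 1 from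
        T3.H57.finGL_infEmb57 hK' t _, one_mul]
      have h6 := h1 (Sum.inr (v, a)) (Finset.mem_univ _)
      rw [show finGL305 ((U.dS v).w a.1) x = g (Sum.inr (v, a)) from h6]
      exact glMap_cancel117 _ _ (fun z => RingEquiv.symm_apply_apply _ z) _
    · show Matrix.GeneralLinearGroup.map _
        (infGL305 ((U.dA v).w a.1) (T3.H57.infEmb57 hK' t * x)) = h.2.2 v a
      rw [map_mul, h3, mul_one, show infGL305 ((U.dA v).w a.1) (T3.H57.infEmb57 hK' t)
        = t ((U.dA v).w a.1) from T3.H57.infGL_infEmb57 hK' t _,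
        ht _ v a ((hU.arch v).ovr a.1) rfl]
      exact glMap_cancel117 _ _ (arch_invol117 (hU.arch v) a.1) _

theorem upKer_sub117 {D : CompData K K'} {ι : Adl K →+* Adl K'}
    {n : HeightOneSpectrum (𝓞 K') → ℕ} {δ : GL (Fin 2) K'} {γ : GL (Fin 2) K}
    {L : LocData305 K γ} {S : Finset (HeightOneSpectrum (𝓞 K))}
    {S' : Finset (HeightOneSpectrum (𝓞 K'))} (hS' : IsOver305 S S') (U : UpDat340 K δ)
    (hU : IsUpDat340 D ι n L S U) (x : G K') (hx : x ∈ outSub117 S')
    (h : upHom117 U D.l x = 1) : x ∈ {k : G K' | T1.IsStdCompact K' k} := by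
  have h1 : ∀ v : U.Sin, finGL305 (U.dI v).w x = 1 := fun v => congrFun (congrArg Prod.fst h) v
  have h2 : ∀ (v : U.Ssp) (a : Fin D.l), finGL305 ((U.dS v).w a.1) x = 1 := by
    intro v a
    have h3 : Matrix.GeneralLinearGroup.map
        ((((U.dS v).i a.1).symm : ((U.dS v).w a.1).adicCompletion K' ≃+* _) :
          ((U.dS v).w a.1).adicCompletion K' →+*
            (v : HeightOneSpectrum (𝓞 K)).adicCompletion K)
        (finGL305 ((U.dS v).w a.1) x) = 1 :=
      congrFun (congrFun (congrArg (fun p => p.2.1) h) v) a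
    exact glMap_eq_one117 _ (((U.dS v).i a.1 : _ ≃+* _) : _ →+* _)
      (fun z => RingEquiv.apply_symm_apply _ z) _ h3
  have h4 : ∀ (v : InfinitePlace K) (a : Fin D.l), infGL305 ((U.dA v).w a.1) x = 1 := by
    intro v a
    have h3 : Matrix.GeneralLinearGroup.map ((U.dA v).d a.1) (infGL305 ((U.dA v).w a.1) x) = 1 :=
      congrFun (congrFun (congrArg (fun p => p.2.2) h) v) a
    exact glMap_eq_one117 _ ((U.dA v).d a.1) (arch_invol117 (hU.arch v) a.1) _ h3
  refine ⟨fun w => ?_, fun w' => ?_⟩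
  · by_cases hw : w ∈ S'
    · obtain ⟨v, hvS, hvw⟩ := (hS' w).1 hw
      have hfin : finGL305 w x = 1 := by
        rcases (hU.union v).1 hvS with hv | hv
        · have h5 : w = (U.dI ⟨v, hv⟩).w := (hU.inert ⟨v, hv⟩).uniq w hvw
          rw [h5]
          exact h1 ⟨v, hv⟩
        · obtain ⟨a, ha, h5⟩ := (hU.split ⟨v, hv⟩).exh w hvw
          rw [h5]
          exact h2 ⟨v, hv⟩ ⟨a, ha⟩
      refine ⟨isIntegralAt_of_eq_one117 w x hfin, isIntegralAt_of_eq_one117 w _ ?_⟩
      rw [map_inv, hfin, inv_one]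
    · exact hx w hw
  · obtain ⟨a, ha, h5⟩ := (hU.arch (w'.comap (algebraMap K K'))).exh w' rfl
    have h6 : infGL305 w' x = 1 := by
      have := h4 (w'.comap (algebraMap K K')) ⟨a, ha⟩
      rwa [← h5] at this
    have hc : infComp w' x = 1 := by
      rw [← infGL_val117, h6, Units.val_one]
    rw [hc]
    exact ⟨by simp, fun _ => Matrix.det_one⟩

end Fermat.Agent.LT.T7.H117

end

end
-- ===== PACK-END LT/T7/H117/GrpSplitB.lean

-- ===== PACK-BEGIN LT/T7/H16/OpsEig561.lean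
section




/-!
# Row LT, tower T7, node T7.L2.2.B4 `OpsC561`: leaf B4.2 `OpsEigC561`, VERBATIM (helper16)

OFF-MAIN.  Unconditional.

    opsEigC561_16 : H561.OpsEigC561 K K'     (`LT/T7/H561/OpsSpec.lean`, sha256 17293f38)

`S_j = cosetOp (Hs j)` and `ρ_j = trOp561 (ω j)` preserve the classes `IsEigFn … C` of the base
level, for EVERY `j : ℕ`.  The conditions other than the invariance under `U(𝔑₀)` and under the
Iwahori subgroups: `isPre_translate439` of helper439 (`o j ∣ 𝔑₀`); the two invariances: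
`cosetOp_inv16`, `trOp_inv16` (`OpsEig.lean`; the level group at `o j` lies in the Iwahori
subgroup, `inIwahori_of_level439`).
-/

set_option autoImplicit false

open IsDedekindDomain NumberField MeasureTheory

noncomputable section

namespace Fermat.Agent.LT.T7.H16

open Fermat.Agent.LT.H556 Fermat.Agent.LT.H556.A0 Fermat.Agent.LT.T5 Fermat.Agent.LT.H129
open Fermat.Agent.LT.T7

attribute [local instance] Fermat.Agent.LT.T5.instMeasurableSpaceG

variable (K K' : Type) [Field K] [NumberField K] [Field K'] [NumberField K'] [Algebra K K']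

/-- **Leaf B4.2 `OpsEigC561` of helper561, VERBATIM.** -/
theorem opsEigC561_16 : H561.OpsEigC561 K K' := by
  intro ℓ Φ Dt hs Hs ω hsys j ψ C hψ
  have hDt := hs.data
  have hcomp := hDt.comp 1 (isBad_one16 Dt)
  have hr : IsRayGen Dt.R'.r := hcomp.frame'.ray
  have hcyc : IsCyclicOfDegree Dt.s Dt.l Dt.k := hcomp.cyc
  obtain ⟨i, hi, e⟩ := orbit_mem16 Dt.s Dt.l Dt.k hcyc Dt.o hDt.orbit_rel j
  have hi' : i < ℓ := by rw [← hDt.deg]; exact hi
  have hu : (Dt.o j).asIdeal ∣ Dt.𝔑₀ := (hDt.mem_S' _).1 (hDt.orbit_level j)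
  have hpre := H439.isPre_of_eig439 hψ
  have hψI : ∀ k : G K', IsLocalAtFin (Dt.o j) k → InIwahori (Dt.o j) k →
      ∀ x : G K', ψ (x * k) = ψ x := iwInv_local16 hψ.inv.iw hi' e
  have hlink := (isIwCosetSystem_link16 (Dt.o j) (Hs j) (ω j) (hsys.ω_local j)
    (hsys.ω_comp j) (hsys.Hs_card j) (hsys.Hs_local j) (hsys.Hs_comp j) (hsys.Hs_inj j)).1
  have hjI : ∀ k : G K', (∀ j' < ℓ, InIwahori (Dt.o j') k) → InIwahori (Dt.o j) k := by
    intro k hk
    rw [e]
    exact hk i hi'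
  refine ⟨?_, ?_⟩
  · have hpreS : H439.IsPre439 Dt.𝔑₀ Dt.R'.r C (cosetOp (Hs j) ψ) := by
      have e1 : cosetOp (Hs j) ψ = ∑ h ∈ Hs j, fun x => ψ (x * h) := by
        funext x
        show ∑ h ∈ Hs j, ψ (x * h) = (∑ h ∈ Hs j, fun x => ψ (x * h)) x
        rw [Finset.sum_apply]
      rw [e1]
      exact H439.isPre_sum439 _ _ fun h hh =>
        H439.isPre_translate439 hpre hr hu (hsys.Hs_local j h hh)
    refine H439.isEig_of_pre439 hpreS (fun k hk x => ?_) ?_
    · exact cosetOp_inv16 (hsys.ω_local j) (hsys.ω_comp j) (hsys.Hs_local j) hlink hψI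
        (H439.inIwahori_of_level439 hu hk)
        (fun k' h1 h2 h3 g => hψ.inv.cusp.aut.level_inv k'
          (inLevelGroup_away16 hk h1 h2 h3) g) x
    · intro k hkinf hkout hkI x
      exact cosetOp_inv16 (hsys.ω_local j) (hsys.ω_comp j) (hsys.Hs_local j) hlink hψI
        (hjI k hkI)
        (fun k' h1 h2 h3 g => iwCond_away16 hψ.inv.iw hkinf hkout hkI h1 h2 h3 g) x
  · have hpreR : H439.IsPre439 Dt.𝔑₀ Dt.R'.r C (H561.trOp561 (ω j) ψ) :=
      H439.isPre_translate439 hpre hr hu (hsys.ω_local j)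
    refine H439.isEig_of_pre439 hpreR (fun k hk x => ?_) ?_
    · exact trOp_inv16 (hsys.ω_local j) (hsys.ω_comp j) hψI
        (H439.inIwahori_of_level439 hu hk)
        (fun k' h1 h2 h3 g => hψ.inv.cusp.aut.level_inv k'
          (inLevelGroup_away16 hk h1 h2 h3) g) x
    · intro k hkinf hkout hkI x
      exact trOp_inv16 (hsys.ω_local j) (hsys.ω_comp j) hψI (hjI k hkI)
        (fun k' h1 h2 h3 g => iwCond_away16 hψ.inv.iw hkinf hkout hkI h1 h2 h3 g) x

end Fermat.Agent.LT.T7.H16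

end

end
-- ===== PACK-END LT/T7/H16/OpsEig561.lean

-- ===== PACK-BEGIN LT/T7/H736/Port/Dict.lean
section



/-!
# Row LT, tower T7, node T7.L2.2 `SpecUpC`: leaf CM.11 `DictC616` IN CORE FORM (port by helper736)

OFF-MAIN.  PROVED, no hole, nothing assumed.  ADDITIVE (namespace `Fermat.Agent.LT.T7.PU736`).

MECHANICAL PORT onto `H29.UpData K'` / `H29.IsUpData` of the proof of helper440 (`T7/H440/Dict.lean` 6146859d, `dictC_of440`): the same text after the
substitution of the header of `T7/H736/Core/Blocks.lean`; the lemmas of the source over ONE field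
are used as they are.  The forms of record (`UB675` / `CMU675`) follow by `T7/H736/Core/Glue.lean`.
-/

set_option autoImplicit false
set_option linter.unusedSectionVars false
set_option linter.unusedVariables false

open AutomorphicForm IsDedekindDomain NumberField MeasureTheory
open scoped ComplexConjugate

noncomputable section

namespace Fermat.Agent.LT.T7.PU736

open Fermat.Agent.LT.H556 Fermat.Agent.LT.H556.A0 Fermat.Agent.LT.T7
open Fermat.Agent.LT.T7.SU736 Fermat.Agent.LT.T7.H440 Fermat.Agent.LT.T7.CU736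

attribute [local instance] Fermat.Agent.LT.T5.instMeasurableSpaceG

section Leaf

variable (K' : Type) [Field K'] [NumberField K']

/-- A linear map which maps eigenfunctions to eigenfunctions preserves the class space. -/
theorem mem_cls_of_map440 {K' : Type} [Field K'] [NumberField K'] {𝔫 : Ideal (𝓞 K')} {r : G K'}
    {l : ℕ} {o : ℕ → HeightOneSpectrum (𝓞 K')} {C : EigData K'}
    (f : (G K' → ℂ) →ₗ[ℂ] (G K' → ℂ))
    (hf : ∀ ψ, IsEigFn 𝔫 r l o ψ C → IsEigFn 𝔫 r l o (f ψ) C) :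
    ∀ ψ ∈ CM616.classSp616 𝔫 r l o C, f ψ ∈ CM616.classSp616 𝔫 r l o C := by
  intro ψ hψ
  unfold CM616.classSp616 at hψ ⊢
  induction hψ using Submodule.span_induction with
  | mem x hx => exact Submodule.subset_span (hf x hx)
  | zero => rw [map_zero]; exact Submodule.zero_mem _
  | add x y _ _ hx hy => rw [map_add]; exact Submodule.add_mem _ hx hy
  | smul c x _ hx => rw [map_smul]; exact Submodule.smul_mem _ c hx

/-- **LEAF CM.11 = DICT**, from the stability leaves CM.03 and CM.04. -/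
theorem dictC_of440 (hG : StabGC616 K') (hS : StabSC616 K') : DictC616 K' := by
  intro ℓ Φ U hctx g Hg hbad hsys q J hq
  have hF : T5.IsFrame U.R'.μ U.R'.F := hctx.data.frame'.frame
  have hGp : ∀ ψ ∈ cls616 U ℓ Φ, CM616.cosetLin616 Hg ψ ∈ cls616 U ℓ Φ :=
    _root_.Fermat.Agent.LT.T7.PU736.mem_cls_of_map440 (CM616.cosetLin616 Hg) (fun ψ hψ => hG ℓ Φ U hctx g Hg hbad hsys ψ hψ)
  have hSp : ∀ ψ ∈ cls616 U ℓ Φ, CM616.rsigLin616 U.s ψ ∈ cls616 U ℓ Φ :=
    _root_.Fermat.Agent.LT.T7.PU736.mem_cls_of_map440 (CM616.rsigLin616 U.s) (fun ψ hψ => (hS ℓ Φ U hctx ψ hψ).1)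
  have hmem : ∀ j : J, q j ∈ cls616 U ℓ Φ := fun j =>
    Submodule.subset_span (hq.eig j j.2)
  have hcont : ∀ j : J, Continuous (q j) := fun j => (hq.eig j j.2).inv.cusp.cont
  have hbdd : ∀ j : J, ∃ C : ℝ, ∀ x, ‖q j x‖ ≤ C := fun j => (hq.eig j j.2).inv.cusp.bdd
  -- the family spans
  have hle : cls616 U ℓ Φ ≤ Submodule.span ℂ (Set.range (fun j : J => q j)) := by
    unfold cls616 CM616.classSp616
    rw [Submodule.span_le]
    intro ψ hψ
    obtain ⟨a, ha⟩ := hq.span ψ hψ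
    rw [SetLike.mem_coe, Submodule.mem_span_range_iff_exists_fun]
    refine ⟨fun j => a j, ?_⟩
    funext x
    rw [ha x, Finset.sum_apply, ← Finset.sum_coe_sort J (fun j => a j * q j x)]
    rfl
  -- the operator of the model
  have hval : ∀ v : cls616 U ℓ Φ,
      (((CM616.restr616 (cls616 U ℓ Φ) (CM616.cosetLin616 Hg) * sOp616 U ℓ Φ) v : cls616 U ℓ Φ) :
        G K' → ℂ) = cosetOp Hg (T5.Rsig U.s v) := by
    intro v
    rw [Module.End.mul_apply]
    unfold sOp616 CM616.restr616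
    rw [dif_pos hGp, dif_pos hSp]
    rfl
  -- the abstract trace formula
  have key := trace_eq_sum_dual440 (V := cls616 U ℓ Φ) (ι := J)
    (fun j => (⟨q j, hmem j⟩ : cls616 U ℓ Φ))
    (fun j v => T5.innerD U.R'.μ U.R'.F (v : G K' → ℂ) (q j)) ?_ ?_
    (CM616.restr616 (cls616 U ℓ Φ) (CM616.cosetLin616 Hg) * sOp616 U ℓ Φ)
  · rw [key]
    unfold twTrace
    rw [← Finset.sum_coe_sort]
    refine Finset.sum_congr rfl fun j _ => ?_
    rw [hval]
  · intro a j
    have h1 : ((∑ i, a i • (⟨q i, hmem i⟩ : cls616 U ℓ Φ) : cls616 U ℓ Φ) : G K' → ℂ)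
        = fun x => ∑ i : J, a i * q i x := by
      funext x
      rw [Submodule.coe_sum, Finset.sum_apply]
      rfl
    simp only [h1]
    rw [innerD_sum440 hF (fun i : J => q i) hcont hbdd (hcont j) (hbdd j) a]
    rw [Finset.sum_eq_single j]
    · rw [hq.norm j j.2, mul_one]
    · intro i _ hij
      rw [hq.orth i i.2 j j.2 (fun h => hij (Subtype.ext h)), mul_zero]
    · intro h
      exact absurd (Finset.mem_univ j) h
  · intro v
    obtain ⟨a, ha⟩ := (Submodule.mem_span_range_iff_exists_fun ℂ).1 (hle v.2)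
    refine ⟨a, Subtype.ext ?_⟩
    rw [← ha, Submodule.coe_sum]
    rfl

end Leaf

end Fermat.Agent.LT.T7.PU736

end

end
-- ===== PACK-END LT/T7/H736/Port/Dict.lean

-- ===== PACK-BEGIN LT/T7/H802/OpsClassQ.lean
section





/-!
# Row LT, tower T7, leaf T7.L2Q.3.7.3 `SDQ140.OpsClassQC` -- PROVED (helper802)

OFF-MAIN.  `opsClassQC802 n : SDQ140.OpsClassQC n` VERBATIM against
`LT/T7/H140/DownBasisQSpec.lean` (helper140), UNCONDITIONAL, both `K_∞`-types.

Port over `ℚ` (type `n.type`, circle means `L2Q.MeanEigR0` / `L2Q.MeanEigR1`) of the proof of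
the leaf `SD534.OpsClassC` by helper468 (`LT/T7/H468/{OpsShift,OpsIw,OpsClass}.lean`); the
function-level tools of helper468 (`central_zpow468`, `iwOp_eigen468`, `iwOp_sum_eigen468`,
`iwOp_iw468`, `iwOp_level468`, `isCuspidalFn_iwOp468`, `comm_local468`) are reused as they are.
New here: the class over `ℚ` (`central_inClsQ802`, `iw_inClsQ802`) and the circle means
(`meanEigR0_iwOp802`, `meanEigR1_iwOp802`, continuity of the circle family by
`T2.H472.locCont472`).
-/

set_option autoImplicit false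
set_option linter.unusedSectionVars false
set_option linter.unusedVariables false
set_option linter.style.haveILetI false

open AutomorphicForm IsDedekindDomain NumberField MeasureTheory Matrix
open scoped ComplexConjugate

noncomputable section

namespace Fermat.Agent.LT.T7.H802

open Fermat.Agent.LT.H556 Fermat.Agent.LT.H556.A0 Fermat.Agent.LT.H670 Fermat.Agent.LT.T7
open Fermat.Agent.LT.T7.L2Q Fermat.Agent.LT.T7.H468

/-! ## Translation by a central element -/

/-- The circle means of type `n` pass to the translate by a central element. -/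
theorem central_meanEig802 (n : QWt) {ψ : G ℚ → ℂ} {ζ : G ℚ}
    (hζ : ∀ g : G ℚ, g * ζ = ζ * g) {w : InfinitePlace ℚ} {m : ℝ → ℂ}
    (hm : n.MeanEig ψ w m) : n.MeanEig (fun x => ψ (x * ζ)) w m := by
  have sw : ∀ g y : G ℚ, g * y * ζ = g * ζ * y := fun g y => by
    rw [mul_assoc, hζ y, ← mul_assoc]
  cases n
  · intro t ht Y hY g
    have := hm t ht Y hY (g * ζ)
    simp only [sw]
    exact this
  · intro t ht Y hY g
    have := hm t ht Y hY (g * ζ)
    simp only [sw]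
    exact this

/-- The translation by a central element preserves the class of every eigen-datum. -/
theorem central_inClsQ802 {n : QWt} {𝔫 : Ideal (𝓞 ℚ)} {r : G ℚ}
    {u : HeightOneSpectrum (𝓞 ℚ)} {c : EigData ℚ} {ψ : G ℚ → ℂ} {ζ : G ℚ}
    (hζ : ∀ g : G ℚ, g * ζ = ζ * g) (hψ : SDQ140.InClsQ n 𝔫 r u c ψ) :
    SDQ140.InClsQ n 𝔫 r u c (fun x => ψ (x * ζ)) := by
  have sw : ∀ g y : G ℚ, g * y * ζ = g * ζ * y := fun g y => by
    rw [mul_assoc, hζ y, ← mul_assoc]
  refine ⟨⟨⟨?_, ?_, ⟨?_, ?_, ?_, ?_⟩, ?_⟩, ?_, ?_⟩, ?_, ?_⟩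
  · exact hψ.inv.cusp.cont.comp (continuous_mul_const ζ)
  · obtain ⟨C, hC⟩ := hψ.inv.cusp.bdd
    exact ⟨C, fun g => hC _⟩
  · intro γ g
    show ψ (T5.ratG γ * g * ζ) = ψ (g * ζ)
    rw [mul_assoc]
    exact hψ.inv.cusp.aut.left_inv γ _
  · intro u' hu' g
    show ψ (g * u' * ζ) = ψ (g * ζ)
    rw [sw]
    exact hψ.inv.cusp.aut.level_inv u' hu' _
  · intro w k hk g
    show ψ (g * k * ζ) = n.type k * ψ (g * ζ)
    rw [sw]
    exact hψ.inv.cusp.aut.arch_compact w k hk _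
  · intro g
    show ψ (g * r * ζ) = ψ (g * ζ)
    rw [sw]
    exact hψ.inv.cusp.aut.ray _
  · intro μ hμ D hD n' hn g
    have := hψ.inv.cusp.cuspidal μ hμ D hD n' hn (g * ζ)
    simp only [mul_assoc] at this ⊢
    exact this
  · intro w z' hz' g
    show ψ (g * z' * ζ) = ψ (g * ζ)
    rw [sw]
    exact hψ.inv.arch_scalar w z' hz' _
  · intro h h1 h2 h3 x
    show ψ (x * h * ζ) = ψ (x * ζ)
    rw [sw]
    exact hψ.inv.iw h h1 h2 h3 _
  · intro v hv
    obtain ⟨hT, hS⟩ := hψ.hecke v hv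
    refine ⟨fun H hH g => ?_, fun z' hz' g => ?_⟩
    · have := hT H hH (g * ζ)
      simp only [sw]
      exact this
    · show ψ (g * z' * ζ) = c.b v * ψ (g * ζ)
      rw [sw]
      exact hS z' hz' _
  · intro w
    exact central_meanEig802 n hζ (hψ.mean w)

/-- **The shift preserves the classes.** -/
theorem shift_inClsQ802 {n : QWt} {𝔫 : Ideal (𝓞 ℚ)} {r : G ℚ}
    {u : HeightOneSpectrum (𝓞 ℚ)} {z : G ℚ} (hz : IsScalarUniformizerAt u z)
    {c : EigData ℚ} {ψ : G ℚ → ℂ} (k : ℤ) (hψ : SDQ140.InClsQ n 𝔫 r u c ψ) :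
    SDQ140.InClsQ n 𝔫 r u c (shiftOp z k ψ) :=
  central_inClsQ802 (central_zpow468 hz k) hψ

/-! ## The circle means of `𝒰 ψ` -/

/-- A family supported at the infinite place `w` with components `M θ`, `M` continuous, is
continuous. -/
theorem continuous_circle802 (w : InfinitePlace ℚ) (M : ℝ → Matrix (Fin 2) (Fin 2) ℂ)
    (hM : Continuous M) (Y : ℝ → G ℚ)
    (hY : ∀ θ : ℝ, IsLocalAtInf w (Y θ) ∧ infComp w (Y θ) = M θ) : Continuous Y := by
  refine Fermat.Agent.LT.T2.H472.locCont472 ℚ w ℝ Y (fun θ => (hY θ).1) (fun i j => ?_)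
  have e : (fun θ : ℝ => infComp w (Y θ) i j) = fun θ => M θ i j := by
    funext θ
    rw [(hY θ).2]
  rw [e]
  exact hM.matrix_elem i j

theorem continuous_rotY_torus802 (t : ℝ) : Continuous fun θ : ℝ => rotY θ * torus t := by
  refine Continuous.matrix_mul ?_ continuous_const
  refine continuous_matrix fun i j => ?_
  fin_cases i <;> fin_cases j <;> simp [rotY] <;> fun_prop

theorem continuous_rotC_torus802 (t : ℝ) :
    Continuous fun θ : ℝ => QOut.rotC θ * torus t := by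
  refine Continuous.matrix_mul ?_ continuous_const
  refine continuous_matrix fun i j => ?_
  fin_cases i <;> fin_cases j <;> simp [QOut.rotC] <;> fun_prop

/-- `𝒰 ψ` is an eigenfunction of the circle means of weight `0`, with the same eigenvalues. -/
theorem meanEigR0_iwOp802 {u : HeightOneSpectrum (𝓞 ℚ)} {H : Finset (G ℚ)}
    (hH : ∀ h ∈ H, IsLocalAtFin u h) {ψ : G ℚ → ℂ} (hcont : Continuous ψ)
    {w : InfinitePlace ℚ} {m : ℝ → ℂ} (hm : MeanEigR0 ψ w m) :
    MeanEigR0 (iwOp u H ψ) w m := by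
  intro t ht Y hY g
  have hYc : Continuous Y := continuous_circle802 w _ (continuous_rotY_torus802 t) Y hY
  have hF : ∀ h : G ℚ, Continuous fun θ : ℝ => ψ (g * h * Y θ) := fun h =>
    hcont.comp (continuous_const.mul hYc)
  have hpt : ∀ θ : ℝ, iwOp u H ψ (g * Y θ)
      = ((Real.sqrt (Ideal.absNorm u.asIdeal : ℝ) : ℝ) : ℂ)⁻¹ * ∑ h ∈ H, ψ (g * h * Y θ) := by
    intro θ
    rw [iwOp_apply468]
    congr 1
    refine Finset.sum_congr rfl fun h hh => ?_
    rw [mul_assoc g, comm_local468 (hH h hh) ((hY θ).1.2 u), ← mul_assoc]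
  simp only [hpt]
  rw [intervalIntegral.integral_const_mul,
    intervalIntegral.integral_finsetSum (fun h _ => (hF h).intervalIntegrable _ _)]
  rw [iwOp_apply468]
  have e : ∑ h ∈ H, ∫ θ in (0 : ℝ)..(2 * Real.pi), ψ (g * h * Y θ)
      = m t * ∑ h ∈ H, ψ (g * h) := by
    rw [Finset.mul_sum]
    exact Finset.sum_congr rfl fun h _ => hm t ht Y hY (g * h)
  rw [e]
  ring

/-- `𝒰 ψ` is an eigenfunction of the circle means of weight one, with the same eigenvalues. -/
theorem meanEigR1_iwOp802 {u : HeightOneSpectrum (𝓞 ℚ)} {H : Finset (G ℚ)}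
    (hH : ∀ h ∈ H, IsLocalAtFin u h) {ψ : G ℚ → ℂ} (hcont : Continuous ψ)
    {w : InfinitePlace ℚ} {m : ℝ → ℂ} (hm : MeanEigR1 ψ w m) :
    MeanEigR1 (iwOp u H ψ) w m := by
  intro t ht Y hY g
  have hYc : Continuous Y := continuous_circle802 w _ (continuous_rotC_torus802 t) Y hY
  have hF : ∀ h : G ℚ, Continuous fun θ : ℝ =>
      Complex.exp (-(Complex.I * ((θ : ℝ) : ℂ))) * ψ (g * h * Y θ) := fun h =>
    (by fun_prop : Continuous fun θ : ℝ => Complex.exp (-(Complex.I * ((θ : ℝ) : ℂ)))).mul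
      (hcont.comp (continuous_const.mul hYc))
  have hpt : ∀ θ : ℝ, Complex.exp (-(Complex.I * ((θ : ℝ) : ℂ))) * iwOp u H ψ (g * Y θ)
      = ((Real.sqrt (Ideal.absNorm u.asIdeal : ℝ) : ℝ) : ℂ)⁻¹
        * ∑ h ∈ H, Complex.exp (-(Complex.I * ((θ : ℝ) : ℂ))) * ψ (g * h * Y θ) := by
    intro θ
    rw [iwOp_apply468, ← Finset.mul_sum, mul_left_comm]
    congr 2
    refine Finset.sum_congr rfl fun h hh => ?_
    rw [mul_assoc g, comm_local468 (hH h hh) ((hY θ).1.2 u), ← mul_assoc]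
  simp only [hpt]
  rw [intervalIntegral.integral_const_mul,
    intervalIntegral.integral_finsetSum (fun h _ => (hF h).intervalIntegrable _ _)]
  rw [iwOp_apply468]
  have e : ∑ h ∈ H, ∫ θ in (0 : ℝ)..(2 * Real.pi),
      Complex.exp (-(Complex.I * ((θ : ℝ) : ℂ))) * ψ (g * h * Y θ)
      = m t * ∑ h ∈ H, ψ (g * h) := by
    rw [Finset.mul_sum]
    exact Finset.sum_congr rfl fun h _ => hm t ht Y hY (g * h)
  rw [e]
  ring

/-- `𝒰 ψ` is an eigenfunction of the circle means of type `n`, with the same eigenvalues. -/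
theorem meanEig_iwOpQ802 (n : QWt) {u : HeightOneSpectrum (𝓞 ℚ)} {H : Finset (G ℚ)}
    (hH : ∀ h ∈ H, IsLocalAtFin u h) {ψ : G ℚ → ℂ} (hcont : Continuous ψ)
    {w : InfinitePlace ℚ} {m : ℝ → ℂ} (hm : n.MeanEig ψ w m) :
    n.MeanEig (iwOp u H ψ) w m := by
  cases n
  · exact meanEigR0_iwOp802 hH hcont hm
  · exact meanEigR1_iwOp802 hH hcont hm

/-! ## The Iwahori operator -/

/-- **The Iwahori operator preserves the classes.** -/
theorem iw_inClsQ802 {n : QWt} {𝔫 : Ideal (𝓞 ℚ)} {r : G ℚ} {u : HeightOneSpectrum (𝓞 ℚ)}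
    {H : Finset (G ℚ)} (hu : u.asIdeal ∣ 𝔫) (hr : T5.IsRayGen r) (hH : IsIwCosetSystem u H)
    {c : EigData ℚ} {ψ : G ℚ → ℂ} (hψ : SDQ140.InClsQ n 𝔫 r u c ψ) :
    SDQ140.InClsQ n 𝔫 r u c (iwOp u H ψ) := by
  have hloc : ∀ h ∈ H, IsLocalAtFin u h := fun h hh => (hH.2.1 h hh).1
  refine ⟨⟨⟨?_, ?_, ⟨?_, ?_, ?_, ?_⟩, ?_⟩, ?_, ?_⟩, ?_, ?_⟩
  · exact continuous_iwOp468 u H hψ.inv.cusp.cont
  · exact bdd_iwOp468 u H hψ.inv.cusp.bdd
  · intro γ g
    rw [iwOp_apply468, iwOp_apply468]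
    congr 1
    refine Finset.sum_congr rfl fun h _ => ?_
    rw [mul_assoc]
    exact hψ.inv.cusp.aut.left_inv γ _
  · intro u' hu' g
    exact iwOp_level468 hu hH hψ.inv.iw hψ.inv.cusp.aut.level_inv hu' g
  · intro w k hk g
    exact iwOp_eigen468 hloc (hk.1.2 u)
      (fun g => hψ.inv.cusp.aut.arch_compact w k hk g) g
  · intro g
    have := iwOp_eigen468 hloc (hr.1 u) (c := 1)
      (fun g => by rw [one_mul]; exact hψ.inv.cusp.aut.ray g) g
    rwa [one_mul] at this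
  · exact isCuspidalFn_iwOp468 u H hψ.inv.cusp.cont hψ.inv.cusp.bdd hψ.inv.cusp.cuspidal
  · intro w z' hz' g
    have := iwOp_eigen468 hloc (hz'.1.2 u) (c := 1)
      (fun g => by rw [one_mul]; exact hψ.inv.arch_scalar w z' hz' g) g
    rwa [one_mul] at this
  · intro κ h1 h2 h3 x
    exact iwOp_iw468 hH hψ.inv.iw ⟨h1, fun v hv => h2 v (fun j _ => hv)⟩
      (h3 0 Nat.zero_lt_one) x
  · intro v hv
    have hvu : u ≠ v := fun e => hv (e ▸ hu)
    obtain ⟨hT, hS⟩ := hψ.hecke v hv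
    refine ⟨fun H' hH' g => ?_, fun z' hz' g => ?_⟩
    · exact iwOp_sum_eigen468 hloc (fun h' hh' => (hH'.2.1 h' hh').1.2 u hvu) (hT H' hH') g
    · exact iwOp_eigen468 hloc (hz'.1.2 u hvu) (hS z' hz') g
  · intro w
    exact meanEig_iwOpQ802 n hloc hψ.inv.cusp.cont (hψ.mean w)

/-- **LEAF T7.L2Q.3.7.3 = DBQ.3 OPS, PROVED** (both types). -/
theorem opsClassQC802 (n : QWt) : SDQ140.OpsClassQC n := by
  intro 𝔫 r u H z h𝔫 hn hr hu hH hz
  exact ⟨fun c ψ k hψ => shift_inClsQ802 hz k hψ, fun c ψ hψ => iw_inClsQ802 hu hr hH hψ,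
    fun ψ k => iwOp_shiftOp468 hz H ψ k⟩

/-- Verbatim check against the frozen Prop of helper140. -/
example : ∀ n : QWt, SDQ140.OpsClassQC n := opsClassQC802

end Fermat.Agent.LT.T7.H802

end

end
-- ===== PACK-END LT/T7/H802/OpsClassQ.lean

-- ===== PACK-BEGIN LT/T7/H812/StableAut.lean
section




/-!
# Row LT, tower T7, leaf `StableAutC` of the cut of helper736 (helper812)

OFF-MAIN.  ADDITIVE.  Every proof is complete, nothing assumed.  Target: `SU736.StableAutC K K'`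
of `T7/H736/UpS.lean` (helper736@ef7c01058) VERBATIM:

    stableAutC812 (K K') : Fermat.Agent.LT.T7.SU736.StableAutC K K'

i.e. `IsL2Data ℓ Φ Dt → Dt.IsStable → T5.AutPreserves Dt.s Dt.𝔑₀ Dt.R'.μ Dt.R'.r`.

Proof.  All the fields of `T5.AutPreserves` except `level` do not mention the level: they are
those of `(IsL2Data.comp 1 _).aut`.  The field `level` at the base level is
`level_of_level812` (`T7/H812/Stable.lean`: colon ideal on the stability of the deeper level).

Also the general form `autPreserves_of_compData812`, for any comparison datum `D` and any level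
extended from `K` which contains `D.𝔑` (it serves the step `F / ℚ` as well: `K = ℚ`).
-/

set_option autoImplicit false
set_option linter.unusedSectionVars false

open AutomorphicForm IsDedekindDomain NumberField MeasureTheory

noncomputable section

namespace Fermat.Agent.LT.T7.H812

open Fermat.Agent.LT.H556 Fermat.Agent.LT.H556.A0 Fermat.Agent.LT.T7

attribute [local instance] Fermat.Agent.LT.T5.instMeasurableSpaceG

section OneField

variable {K : Type} [Field K] [NumberField K]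

/-- `T5.AutPreserves` at the level `𝔑₀` from `T5.AutPreserves` at a deeper level `𝔑₁ ≠ 0`, both
levels stable under `σ`. -/
theorem autPreserves_of_level812 (s : T5.AdelicAut K) (𝔑₀ 𝔑₁ : Ideal (𝓞 K))
    (μ : Measure (G K)) (r : G K) (hle : 𝔑₁ ≤ 𝔑₀) (hne : ∃ z ∈ 𝔑₁, z ≠ 0)
    (h₀ : ∀ z : 𝓞 K, z ∈ 𝔑₀ ↔ RingOfIntegers.mapRingEquiv s.σ z ∈ 𝔑₀)
    (h₁ : ∀ z : 𝓞 K, z ∈ 𝔑₁ ↔ RingOfIntegers.mapRingEquiv s.σ z ∈ 𝔑₁)
    (h : T5.AutPreserves s 𝔑₁ μ r) : T5.AutPreserves s 𝔑₀ μ r where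
  left_inverse := h.left_inverse
  right_inverse := h.right_inverse
  rat := h.rat
  cont := h.cont
  measure := h.measure
  ray := h.ray
  slab := h.slab
  level := level_of_level812 s 𝔑₀ 𝔑₁ hle hne h₀ h₁ h.level
  arch := h.arch

end OneField

section TwoFields

variable {K K' : Type} [Field K] [NumberField K] [Field K'] [NumberField K'] [Algebra K K']

/-- **General form.**  For a comparison datum `D` and an ideal `𝔫₀` of `K` whose extension
contains the level `D.𝔑`, the automorphism preserves the frame at the level `𝔫₀ 𝒪_{K'}`. -/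
theorem autPreserves_of_compData812 (D : CompData K K') (hD : IsCompData D)
    (𝔫₀ : Ideal (𝓞 K)) (hle : D.𝔑 ≤ Ideal.map (algebraMap (𝓞 K) (𝓞 K')) 𝔫₀) :
    T5.AutPreserves D.s (Ideal.map (algebraMap (𝓞 K) (𝓞 K')) 𝔫₀) D.R'.μ D.R'.r := by
  -- `σ` fixes the image of `K`
  have hσ : ∀ y : K, D.s.σ (algebraMap K K' y) = algebraMap K K' y := by
    intro y
    have h1 : algebraMap K K' y ∈ D.k := (hD.base _).2 ⟨y, rfl⟩
    exact (hD.cyc.fixed _).1 h1
  -- the deeper level is not zero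
  have hne : ∃ z ∈ D.𝔑, z ≠ 0 := by
    obtain ⟨y, hy, hy0⟩ := Submodule.exists_mem_ne_zero_of_ne_bot hD.level_ne
    refine ⟨algebraMap (𝓞 K) (𝓞 K') y, ?_, ?_⟩
    · rw [hD.level]
      exact Ideal.mem_map_of_mem _ hy
    · intro h0
      exact hy0 (RingOfIntegers.algebraMap.injective K K' (h0.trans (map_zero _).symm))
  have h₁ : ∀ z : 𝓞 K', z ∈ D.𝔑 ↔ RingOfIntegers.mapRingEquiv D.s.σ z ∈ D.𝔑 := by
    intro z
    rw [hD.level]
    exact map_mem_iff_of_fix812 D.s.σ hσ D.𝔫 z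
  exact autPreserves_of_level812 D.s _ D.𝔑 D.R'.μ D.R'.r hle hne
    (fun z => map_mem_iff_of_fix812 D.s.σ hσ 𝔫₀ z) h₁ hD.aut

/-- **LEAF STABLE-AUT** of the cut of helper736. -/
theorem stableAutC812 (K K' : Type) [Field K] [NumberField K] [Field K'] [NumberField K']
    [Algebra K K'] : SU736.StableAutC K K' := by
  intro ℓ Φ Dt hDt hst
  have hbad : Dt.IsBad 1 := isBad_one812 Dt
  obtain ⟨𝔫₀, -, h𝔑₀⟩ := hst
  have hle : (Dt.comp 1).𝔑 ≤ Ideal.map (algebraMap (𝓞 K) (𝓞 K')) 𝔫₀ := by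
    rw [← h𝔑₀]
    exact hDt.level_g 1 hbad
  have h := autPreserves_of_compData812 (Dt.comp 1) (hDt.comp 1 hbad) 𝔫₀ hle
  show T5.AutPreserves Dt.s Dt.𝔑₀ Dt.R'.μ Dt.R'.r
  rw [h𝔑₀]
  exact h

end TwoFields

end Fermat.Agent.LT.T7.H812

end

end
-- ===== PACK-END LT/T7/H812/StableAut.lean

-- ===== PACK-BEGIN LT/T7/H311/EkProdUp.lean
section



/-!
# Row LT, tower T7, leaf T7.L2.1.F1 `EkProdUpC` VERBATIM (helper311, SPARE)

OFF-MAIN.  `ekProdUpC311 K K' : T7.H893.EkProdUpC K K'` (SupplyFamSpec of helper893),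
UNCONDITIONAL: the members upstairs `Φ₁ X ⋆ lsum Hg (regL (o 0) z' H' k m φ₂)` are products of
two Eisenstein-killing test functions with Eisenstein-killing adjoints.

Same tools as `EkProdDown.lean` (`isPre_sum311`, `IsLInv311.iterate`, `IsLInv311.ltr_central`)
and the permutation of a double coset system `U(𝔑₀) g U(𝔑₀) / U(𝔑₀)` by left multiplication with
`U(𝔑₀)` (`sum_ltr_dbl311`); the level group is a group (`inLevelGroup_mul311`).
-/

set_option autoImplicit false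
set_option linter.unusedSectionVars false
set_option linter.unusedVariables false

open IsDedekindDomain NumberField MeasureTheory IsDedekindDomain.HeightOneSpectrum
open Fermat.Agent.LT.H556 Fermat.Agent.LT.H556.A0 Fermat.Agent.LT.H129

noncomputable section

namespace Fermat.Agent.LT.T7.H311

open Fermat.Agent.LT Fermat.Agent.LT.T7 Fermat.Agent.LT.T7.H893 Fermat.Agent.LT.T7.H340

attribute [local instance] Fermat.Agent.LT.T5.instMeasurableSpaceG

variable {K : Type} [Field K] [NumberField K]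

/-! ## 1. The level group is a group -/

theorem inLevelGroup_inv311 {𝔫 : Ideal (𝓞 K)} {u : G K} (h : InLevelGroup 𝔫 u) :
    InLevelGroup 𝔫 u⁻¹ :=
  ⟨trivAtInf_inv311 h.1, fun v i j => ⟨(h.2 v i j).2, by rw [inv_inv]; exact (h.2 v i j).1⟩⟩

theorem sub_one_mul311 {R : Type} [CommRing R] (A B : Matrix (Fin 2) (Fin 2) R) :
    A * B - 1 = (A - 1) * (B - 1) + (A - 1) + (B - 1) := by
  noncomm_ring

theorem mem_closure_mul_sub_one311 (v : HeightOneSpectrum (𝓞 K)) (𝔫 : Ideal (𝓞 K))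
    {A B : Matrix (Fin 2) (Fin 2) (v.adicCompletion K)}
    (hA : ∀ i j, (A - 1) i j ∈ idealClosure 𝔫 v) (hB : ∀ i j, (B - 1) i j ∈ idealClosure 𝔫 v)
    (i j : Fin 2) : (A * B - 1) i j ∈ idealClosure 𝔫 v := by
  rw [sub_one_mul311, Matrix.add_apply, Matrix.add_apply, Matrix.mul_apply, Fin.sum_univ_two]
  exact T2.H724.add_mem_idealClosure724 v 𝔫
    (T2.H724.add_mem_idealClosure724 v 𝔫
      (T2.H724.add_mem_idealClosure724 v 𝔫
        (T2.H724.mul_mem_idealClosure724 v 𝔫 (hA i 0) (hB 0 j))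
        (T2.H724.mul_mem_idealClosure724 v 𝔫 (hA i 1) (hB 1 j)))
      (hA i j)) (hB i j)

theorem inLevelGroup_mul311 {𝔫 : Ideal (𝓞 K)} {u u' : G K} (h : InLevelGroup 𝔫 u)
    (h' : InLevelGroup 𝔫 u') : InLevelGroup 𝔫 (u * u') := by
  refine ⟨fun w => ?_, fun v i j => ⟨?_, ?_⟩⟩
  · rw [trivAtInf_iff129, map_mul, (trivAtInf_iff129 w u).1 (h.1 w),
      (trivAtInf_iff129 w u').1 (h'.1 w), one_mul]
  · have e : finComp v (u * u') = finComp v u * finComp v u' := by
      rw [← coe_finCompHom129, map_mul]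
      rfl
    rw [e]
    exact mem_closure_mul_sub_one311 v 𝔫 (fun i j => (h.2 v i j).1)
      (fun i j => (h'.2 v i j).1) i j
  · have e : finComp v (u * u')⁻¹ = finComp v u'⁻¹ * finComp v u⁻¹ := by
      rw [mul_inv_rev, ← coe_finCompHom129, map_mul]
      rfl
    rw [e]
    exact mem_closure_mul_sub_one311 v 𝔫 (fun i j => (h'.2 v i j).2)
      (fun i j => (h.2 v i j).2) i j

theorem inLevelGroup_mono311 {𝔫 𝔫₀ : Ideal (𝓞 K)} (hle : 𝔫 ≤ 𝔫₀) {u : G K}
    (h : InLevelGroup 𝔫 u) : InLevelGroup 𝔫₀ u :=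
  ⟨h.1, fun v i j => ⟨closure_mono (Set.image_mono hle) (h.2 v i j).1,
    closure_mono (Set.image_mono hle) (h.2 v i j).2⟩⟩

/-! ## 2. The double coset sum -/

/-- The sum of the left translates over a double coset system is left invariant under the level
group. -/
theorem sum_ltr_dbl311 {𝔫₀ : Ideal (𝓞 K)} {g : G K} {Hg : Finset (G K)}
    (hH : IsDblCosetSystem 𝔫₀ g Hg) {ψ : G K → ℂ}
    (hψ : ∀ x : G K, InLevelGroup 𝔫₀ x → ∀ y : G K, ψ (x * y) = ψ y) {x : G K}
    (hx : InLevelGroup 𝔫₀ x) (y : G K) :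
    ∑ h ∈ Hg, ψ (h⁻¹ * (x * y)) = ∑ h ∈ Hg, ψ (h⁻¹ * y) := by
  classical
  obtain ⟨hform, hne, hcov⟩ := hH
  have key : ∀ h ∈ Hg, ∃ h' ∈ Hg, InLevelGroup 𝔫₀ (h'⁻¹ * (x⁻¹ * h)) := by
    intro h hh
    obtain ⟨u₁, u₂, hu₁, hu₂, rfl⟩ := hform h hh
    obtain ⟨h', hh', hin⟩ := hcov (x⁻¹ * u₁) (inLevelGroup_mul311 (inLevelGroup_inv311 hx) hu₁)
    refine ⟨h', hh', ?_⟩
    have e : h'⁻¹ * (x⁻¹ * (u₁ * g * u₂)) = (h'⁻¹ * (x⁻¹ * u₁ * g)) * u₂ := by group
    rw [e]
    exact inLevelGroup_mul311 hin hu₂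
  choose! σ hσ using key
  have hinj : ∀ a ∈ Hg, ∀ b ∈ Hg, σ a = σ b → a = b := by
    intro a ha b hb hab
    by_contra hne'
    apply hne a ha b hb hne'
    have e : a⁻¹ * b = ((σ a)⁻¹ * (x⁻¹ * a))⁻¹ * ((σ b)⁻¹ * (x⁻¹ * b)) := by
      rw [hab]
      group
    rw [e]
    exact inLevelGroup_mul311 (inLevelGroup_inv311 (hσ a ha).2) (hσ b hb).2
  have himg : Hg.image σ = Hg := by
    apply Finset.eq_of_subset_of_card_le
    · intro c hc
      obtain ⟨a, ha, rfl⟩ := Finset.mem_image.mp hc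
      exact (hσ a ha).1
    · rw [Finset.card_image_of_injOn hinj]
  calc ∑ h ∈ Hg, ψ (h⁻¹ * (x * y)) = ∑ h ∈ Hg, ψ ((σ h)⁻¹ * y) := by
        refine Finset.sum_congr rfl fun h hh => ?_
        have e : h⁻¹ * (x * y) = ((σ h)⁻¹ * (x⁻¹ * h))⁻¹ * ((σ h)⁻¹ * y) := by group
        rw [e]
        exact hψ _ (inLevelGroup_inv311 (hσ h hh).2) _
    _ = ∑ h' ∈ Hg.image σ, ψ (h'⁻¹ * y) := by
        rw [Finset.sum_image hinj]
    _ = ∑ h ∈ Hg, ψ (h⁻¹ * y) := by rw [himg]

theorem trivAtInf_mul311 {a b : G K} (ha : ∀ w : InfinitePlace K, TrivAtInf w a)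
    (hb : ∀ w : InfinitePlace K, TrivAtInf w b) : ∀ w : InfinitePlace K, TrivAtInf w (a * b) := by
  intro w
  rw [trivAtInf_iff129, map_mul, (trivAtInf_iff129 w a).1 (ha w),
    (trivAtInf_iff129 w b).1 (hb w), one_mul]

/-- **The second factor upstairs is an Eisenstein-killing test function.** -/
theorem isEKTest_lsum_regL311 {μ : Measure (G K)} {F : Set (G K)} (hF : T5.IsFrame μ F)
    {𝔑 𝔑₀ : Ideal (𝓞 K)} (hle : 𝔑 ≤ 𝔑₀) {w : HeightOneSpectrum (𝓞 K)}
    (hw0 : w.asIdeal ∣ 𝔑₀) {φ : G K → ℂ} (hφ : IsPre311 𝔑 μ φ) (hL : IsLInv311 𝔑₀ w φ)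
    {H : Finset (G K)} (hH : IsIwCosetSystem w H) {z : G K}
    (hz : IsScalarUniformizerAt w z) {g : G K} (hg : ∀ u : InfinitePlace K, TrivAtInf u g)
    {Hg : Finset (G K)} (hHg : IsDblCosetSystem 𝔑₀ g Hg) (k : ℤ) (m : ℕ) :
    H32.IsEKTest32 𝔑 μ (H893.lsum Hg (H893.regL w z H k m φ)) := by
  have hzc : ∀ a : G K, z ^ k * a = a * z ^ k := fun a =>
    ((show Commute z a from central_scalar311 hz a).zpow_left k).eq
  have hzinf : ∀ u : InfinitePlace K, TrivAtInf u (z ^ k) :=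
    trivAtInf_zpow311 hz.1.1 k
  have h1 : IsPre311 𝔑 μ (H893.regL w z H k m φ) := (hφ.iterate hF hH m).ltr hF hzinf
  have h2 : IsLInv311 𝔑₀ w (H893.regL w z H k m φ) :=
    (hL.iterate hw0 hH m).ltr_central hzc
  have hHinf : ∀ h ∈ Hg, ∀ u : InfinitePlace K, TrivAtInf u h := by
    intro h hh
    obtain ⟨u₁, u₂, hu₁, hu₂, rfl⟩ := hHg.1 h hh
    exact trivAtInf_mul311 (trivAtInf_mul311 hu₁.1 hg) hu₂.1
  have e : H893.lsum Hg (H893.regL w z H k m φ)
      = fun y => ∑ h ∈ Hg, H893.ltr h (H893.regL w z H k m φ) y := rfl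
  have h3 : IsPre311 𝔑 μ (H893.lsum Hg (H893.regL w z H k m φ)) := by
    rw [e]
    exact isPre_sum311 hF Hg _ fun h hh => h1.ltr hF (hHinf h hh)
  refine ⟨⟨T5.isKType_triv, h3.cont, h3.supp, h3.smooth, ⟨h3.level_right, ?_, ?_, ?_⟩⟩,
    h3.ek, h3.ek_adj⟩
  · intro x hx y
    exact sum_ltr_dbl311 hHg h2.level (inLevelGroup_mono311 hle hx) y
  · intro u k' hk' a
    rw [h3.arch_right u k' hk' a]
    simp [T5.trivType]
  · intro u k' hk' a
    rw [h3.arch_left u k' hk' a]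
    simp [T5.trivType]

/-! ## 3. The leaf -/

/-- **T7.L2.1.F1 EKPROD-UP**, verbatim. -/
theorem ekProdUpC311 (K K' : Type) [Field K] [NumberField K] [Field K'] [NumberField K']
    [Algebra K K'] : H893.EkProdUpC K K' := by
  intro ℓ Φ B hB g hg E hE X k m hX
  have hF : IsFrame5 B.R' := hB.frame'
  have hℓ : 0 < ℓ := hB.deg ▸ hB.cyc.pos
  have hne : upI (K' := K') E.𝔫 ≠ ⊥ := by
    intro h0
    have hle : B.𝔑₀ ≤ Φ.level := hB.level_le
    have hS : (B.o 0).asIdeal ∣ upI (K' := K') E.𝔫 := (hE.mem_S'_g (B.o 0)).1 (hB.orbit_level 0)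
    apply hE.level_ne
    unfold upI at h0
    rwa [Ideal.map_eq_bot_iff_of_injective
      (FaithfulSMul.algebraMap_injective (𝓞 K) (𝓞 K'))] at h0
  have hT : H32.ConvTestC32 (upI (K' := K') E.𝔫) B.R'.μ := fun a b ha hb =>
    H872.isTestFn_conv872 hF.frame.haar hne ha hb
  have h1 : H32.IsEKTest32 (upI (K' := K') E.𝔫) B.R'.μ (E.Φ₁ X) :=
    ⟨hE.up1_test X hX, (hE.up1_ek X hX).1, (hE.up1_ek X hX).2⟩
  have hpre : IsPre311 (upI (K' := K') E.𝔫) B.R'.μ E.φ₂ :=
    isPre_of_test311 hE.up2_test hE.up2_ek.1 hE.up2_ek.2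
  have hw0 : (B.o 0).asIdeal ∣ B.𝔑₀ := (hB.mem_S' (B.o 0)).1 (hB.orbit_level 0)
  have hL : IsLInv311 B.𝔑₀ (B.o 0) E.φ₂ := by
    refine ⟨fun x hx y => (hE.up2_inv.1 x hx y).1, fun h hl hI y => ?_⟩
    refine (hE.up2_inv.2 h hl.1 (fun v hv => hl.2 v (hv 0 hℓ)) (fun j _ => ?_) y).1
    by_cases hj : B.o j = B.o 0
    · rw [hj]
      exact hI
    · rw [inIwahori_iff340, (trivAtFin_iff129 _ _).1 (hl.2 (B.o j) hj)]
      exact isIwG340_one
  have h2 := isEKTest_lsum_regL311 hF.frame hE.level_g (hw0) hpre hL hE.sys' hE.unif' hg.1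
    hE.sysg k m
  exact H32.isEKProd_mk32 hT h1 h2

end Fermat.Agent.LT.T7.H311

end

end
-- ===== PACK-END LT/T7/H311/EkProdUp.lean

-- ===== PACK-BEGIN LT/T7/H83/EkProdUpOp.lean
section



/-!
# Row LT, tower T7, leaf T7.L2.1.F1 in the OPERATOR FORM `H893.EkProdUpOpC` (helper83, registry
# row 2249)

OFF-MAIN.  **`ekProdUpOpC83 K K' : T7.H893.EkProdUpOpC K K'`**, VERBATIM vs
`LT/T7/H893/SupplyGeoSpec.lean` (helper893, fourth cut), UNCONDITIONAL.  No holes, nothing
assumed.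

The proof is the proof of helper311 (`ekProdUpC311`, `LT/T7/H311/EkProdUp.lean`, vendored
byte-identical), which uses the operator fields of the pre-data only, repeated for `IsL2PreOp`
(as `H893.ekProdDownOpC_closed893` for the leaf F2): the second factor
`lsum Hg (regL (o 0) z' H' k m φ₂)` is an Eisenstein-killing test function
(`isEKTest_lsum_regL311`), the product is a test function (`ConvTestC`, helper872).
Also `ekProdUpC83 : H893.EkProdUpC K K'` is NOT repeated here (it is `ekProdUpC311`).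
-/

set_option autoImplicit false
set_option linter.unusedSectionVars false
set_option linter.unusedVariables false

open IsDedekindDomain NumberField MeasureTheory IsDedekindDomain.HeightOneSpectrum
open Fermat.Agent.LT.H556 Fermat.Agent.LT.H556.A0 Fermat.Agent.LT.H129

noncomputable section

namespace Fermat.Agent.LT.T7.H83

open Fermat.Agent.LT Fermat.Agent.LT.T7 Fermat.Agent.LT.T7.H893 Fermat.Agent.LT.T7.H340
open Fermat.Agent.LT.T7.H311

attribute [local instance] Fermat.Agent.LT.T5.instMeasurableSpaceG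

/-- **T7.L2.1.F1 EKPROD-UP in the operator form**, verbatim. -/
theorem ekProdUpOpC83 (K K' : Type) [Field K] [NumberField K] [Field K'] [NumberField K']
    [Algebra K K'] : H893.EkProdUpOpC K K' := by
  intro ℓ Φ B hB g hg E hE X k m hX
  have hF : IsFrame5 B.R' := hB.frame'
  have hℓ : 0 < ℓ := hB.deg ▸ hB.cyc.pos
  have hne : upI (K' := K') E.𝔫 ≠ ⊥ := by
    intro h0
    apply hE.level_ne
    have h1 : Ideal.map (algebraMap (𝓞 K) (𝓞 K')) E.𝔫 = ⊥ := h0
    rwa [Ideal.map_eq_bot_iff_of_injective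
      (FaithfulSMul.algebraMap_injective (𝓞 K) (𝓞 K'))] at h1
  have hT : H32.ConvTestC32 (upI (K' := K') E.𝔫) B.R'.μ := fun a b ha hb =>
    H872.isTestFn_conv872 hF.frame.haar hne ha hb
  have h1 : H32.IsEKTest32 (upI (K' := K') E.𝔫) B.R'.μ (E.Φ₁ X) :=
    ⟨hE.up1_test X hX, (hE.up1_ek X hX).1, (hE.up1_ek X hX).2⟩
  have hpre : IsPre311 (upI (K' := K') E.𝔫) B.R'.μ E.φ₂ :=
    isPre_of_test311 hE.up2_test hE.up2_ek.1 hE.up2_ek.2
  have hw0 : (B.o 0).asIdeal ∣ B.𝔑₀ := (hB.mem_S' (B.o 0)).1 (hB.orbit_level 0)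
  have hL : IsLInv311 B.𝔑₀ (B.o 0) E.φ₂ := by
    refine ⟨fun x hx y => (hE.up2_inv.1 x hx y).1, fun h hl hI y => ?_⟩
    refine (hE.up2_inv.2 h hl.1 (fun v hv => hl.2 v (hv 0 hℓ)) (fun j _ => ?_) y).1
    by_cases hj : B.o j = B.o 0
    · rw [hj]
      exact hI
    · rw [inIwahori_iff340, (trivAtFin_iff129 _ _).1 (hl.2 (B.o j) hj)]
      exact isIwG340_one
  have h2 := isEKTest_lsum_regL311 hF.frame hE.level_g (hw0) hpre hL hE.sys' hE.unif' hg.1
    hE.sysg k m
  exact H32.isEKProd_mk32 hT h1 h2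

/-- Type check against the frozen Prop. -/
example (K K' : Type) [Field K] [NumberField K] [Field K'] [NumberField K'] [Algebra K K'] :
    Fermat.Agent.LT.T7.H893.EkProdUpOpC K K' :=
  ekProdUpOpC83 K K'

end Fermat.Agent.LT.T7.H83

end

end
-- ===== PACK-END LT/T7/H83/EkProdUpOp.lean

-- ===== PACK-BEGIN LT/T7/H893/SupplyGeoTop.lean
section




/-!
# Row LT, tower T7, node T7.L2.1 `SupplySC` (sub-architect helper893): FOURTH CUT -- proved tops

OFF-MAIN.  No `sorry`, nothing assumed.  ADDITIVE.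

    preGeoC_of893 : GlobC K K' Mt → ConstrC P K K' Mt → EkProdUpOpC K K' → EkProdDownOpC K K'
                      → RegSuppC K' → RegSupp0C K → PreGeoC P K K'        (for EVERY `Mt`)
    supplySC_of_constr893 : (all leaves of the four cuts) → SupplySC P K K'
-/

set_option autoImplicit false

open AutomorphicForm IsDedekindDomain NumberField MeasureTheory
open scoped ComplexConjugate

noncomputable section

namespace Fermat.Agent.LT.T7.H893

open Fermat.Agent.LT.H556 Fermat.Agent.LT.H556.A0 Fermat.Agent.LT.T7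

attribute [local instance] Fermat.Agent.LT.T5.instMeasurableSpaceG

section Top

variable {P : EKCond}
variable {K K' : Type} [Field K] [NumberField K] [Field K'] [NumberField K'] [Algebra K K']

/-- The operator part of the properties of the pre-data. -/
theorem isL2PreOp_of893 {ℓ : ℕ} {Φ : HeckeEigensystem K' ℂ} {B : L2Base K K'} {g : G K'}
    {E : L2Pre K K'} (h : IsL2Pre ℓ Φ B g E) : IsL2PreOp ℓ Φ B g E where
  level_ne := h.level_ne
  level_g := h.level_g
  mem_S'_g := h.mem_S'_g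
  u_level := h.u_level
  sysg := h.sysg
  sys' := h.sys'
  unif' := h.unif'
  sys := h.sys
  unif := h.unif
  up1_test := h.up1_test
  up1_ek := h.up1_ek
  up1_op := h.up1_op
  up2_test := h.up2_test
  up2_ek := h.up2_ek
  up2_inv := h.up2_inv
  up2_op := h.up2_op
  up2_kill := h.up2_kill
  up_ne := h.up_ne
  dn1_test := h.dn1_test
  dn1_ek := h.dn1_ek
  dn1_op := h.dn1_op
  dn1_wfn := h.dn1_wfn
  dn1_class := h.dn1_class
  dn1_comm := h.dn1_comm
  dn2_test := h.dn2_test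
  dn2_ek := h.dn2_ek
  dn2_inv := h.dn2_inv
  dn2_wfn := h.dn2_wfn
  dn2_class := h.dn2_class
  dn2_comm := h.dn2_comm
  dn2_kill := h.dn2_kill

/-- The leaf `EkProdUpC` of the second cut from its operator form. -/
theorem ekProdUpC_of_op893 (h : EkProdUpOpC K K') : EkProdUpC K K' :=
  fun ℓ Φ B hB g hg E hE => h ℓ Φ B hB g hg E (isL2PreOp_of893 hE)

/-- The leaf `EkProdDownC` of the second cut from its operator form. -/
theorem ekProdDownC_of_op893 (h : EkProdDownOpC K K') : EkProdDownC K K' :=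
  fun ℓ Φ B hB g hg E hE => h ℓ Φ B hB g hg E (isL2PreOp_of893 hE)

variable {Mt : MtRel K K'}

/-- **THE TOP OF THE FOURTH CUT**: the construction with LOCALLY matched families and the
matching theorem give the construction with MATCHED families. -/
theorem preGeoC_of893 (hG : GlobC K K' Mt) (hC : ConstrC P K K' Mt)
    (h1 : EkProdUpOpC K K') (h2 : EkProdDownOpC K K')
    (hR : RegSuppC K') (hR0 : RegSupp0C K) : PreGeoC P K K' := by
  intro ℓ hcyc hℓ hcplx Φ hΦ hconst hPΦ B hB g hg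
  obtain ⟨E, hOp, hSupp, hMt⟩ := hC ℓ hcyc hℓ hcplx Φ hΦ hconst hPΦ B hB g hg
  obtain ⟨mu, hmu⟩ := exists_depth_up893 hB hg hOp hSupp hR hcyc.prime.pos
  obtain ⟨md, hmd⟩ := exists_depth_down893 hOp hSupp hR0
  refine ⟨E, hOp, hSupp, fun X => max (mu X) (md X), fun X k m hX hm => ?_⟩
  exact hG ℓ Φ hcyc hℓ hcplx B hB E.𝔫 hOp.level_ne _ _ (hMt X k m hX)
    (h1 ℓ Φ B hB g hg E hOp X k m hX).1 (hmu X k m hX (le_trans (le_max_left _ _) hm))
    (h2 ℓ Φ B hB g hg E hOp X k m hX).1 (hmd X k m hX (le_trans (le_max_right _ _) hm))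

/-- **THE STABLE SUPPLY from the leaves of the four cuts.** -/
theorem supplySC_of_constr893 (hS : SetupC K K') (hP' : ProjC K') (hP : ProjC K)
    (hG : GlobC K K' Mt) (hC : ConstrC P K K' Mt)
    (hR : RegSuppC K') (hR0 : RegSupp0C K)
    (h1 : EkProdUpOpC K K') (h2 : EkProdDownOpC K K') (h3 : OpUpC K K') (h4 : KillUpC K K')
    (h5 : OpDownC K K') (h6 : ClassDownC K K') (h7 : CommDownC K K') (h8 : KillDownC K K') :
    SupplySC P K K' :=
  supplySC_of_geo893 hS hP' hP (preGeoC_of893 hG hC h1 h2 hR hR0) hR hR0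
    (ekProdUpC_of_op893 h1) (ekProdDownC_of_op893 h2) h3 h4 h5 h6 h7 h8

end Top

end Fermat.Agent.LT.T7.H893

end

end
-- ===== PACK-END LT/T7/H893/SupplyGeoTop.lean

-- ===== PACK-BEGIN LT/T7/H893/SupplyConstrTop.lean
section




/-!
# Row LT, tower T7, node T7.L2.1 `SupplySC` (sub-architect helper893): FIFTH CUT -- proved tops

OFF-MAIN.  No `sorry`, nothing assumed.  ADDITIVE.

    exists_goodKap893 : GlobMatchC305 K K' → ∃ κ, (κ nowhere zero) ∧ GoodKap893 κ
    globC_of893       : GoodKap893 κ → AvgMatchC893 K K' → GlobC K K' (Mt893 κ)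
    constrRC_of893    : BaseC P K K' → ProdMtC K K' κ → ConstrRC P K K' (Mt893 κ)
    supplySC_ofR893   : SetupRC K K' → ProjC K' → ProjC K → GlobC K K' Mt → ConstrRC P K K' Mt
                          → (bookkeeping leaves) → T7.SupplySC P K K'        (for EVERY `Mt`)
    supplySC_of_fifth893 : SetupRC → ProjC K' → ProjC K → GlobMatchC305 → AvgMatchC893 → BaseC P
                          → (∀ κ nowhere zero, ProdMtC κ) → (bookkeeping leaves) → T7.SupplySC P K K'
-/

set_option autoImplicit false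

open AutomorphicForm IsDedekindDomain NumberField MeasureTheory
open scoped ComplexConjugate

noncomputable section

namespace Fermat.Agent.LT.T7.H893

open Fermat.Agent.LT.H556 Fermat.Agent.LT.H556.A0 Fermat.Agent.LT.T7
open Fermat.Agent.LT.T7.H305

attribute [local instance] Fermat.Agent.LT.T5.instMeasurableSpaceG

section Top

variable {P : EKCond}
variable {K K' : Type} [Field K] [NumberField K] [Field K'] [NumberField K'] [Algebra K K']

/-- The hypotheses on the arguments of the constant of the matching theorem. -/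
def KapHyp893 (D : CompData K K') (μc : @Measure (GL (Fin 2) ℂ) (borel _))
    (T₀ : Finset (HeightOneSpectrum (𝓞 K)))
    (n : HeightOneSpectrum (𝓞 K') → ℕ) (m : HeightOneSpectrum (𝓞 K) → ℕ) : Prop :=
  IsCompData D ∧ IsCycExt K K' D.l ∧ D.l ≠ 2 ∧ TotCplx K ∧
    @Measure.IsHaarMeasure _ _ _ (borel _) μc ∧ UnramOut305 (K' := K') T₀ ∧ IsLevelAt305 T₀ n m

/-- **The constants of the matching theorem, chosen**: nowhere zero and good. -/
theorem exists_goodKap893 (hG : GlobMatchC305 K K') :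
    ∃ κ : KapFn K K', (∀ D μc T₀ n m, κ D μc T₀ n m ≠ 0) ∧ GoodKap893 κ := by
  classical
  have hex : ∀ (D : CompData K K') (μc : @Measure (GL (Fin 2) ℂ) (borel _))
      (T₀ : Finset (HeightOneSpectrum (𝓞 K)))
      (n : HeightOneSpectrum (𝓞 K') → ℕ) (m : HeightOneSpectrum (𝓞 K) → ℕ),
      ∃ κ : ℂ, κ ≠ 0 ∧ (KapHyp893 D μc T₀ n m →
        ∀ (T : Finset (HeightOneSpectrum (𝓞 K))) (T' : Finset (HeightOneSpectrum (𝓞 K'))),
          T₀ ⊆ T → IsOver305 T T' →
        ∀ (φ₀ : ∀ w : HeightOneSpectrum (𝓞 K'), GL (Fin 2) (w.adicCompletion K') → ℂ)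
          (Φ : InfinitePlace K' → GL (Fin 2) ℂ → ℂ)
          (f₀ : ∀ v : HeightOneSpectrum (𝓞 K), GL (Fin 2) (v.adicCompletion K) → ℂ)
          (F : InfinitePlace K → GL (Fin 2) ℂ → ℂ),
          LocHyp305 D μc T n m φ₀ Φ f₀ F →
          ∀ (φ' : G K' → ℂ) (f : G K → ℂ),
            (∀ h : G K', φ' h = pure305 T' φ₀ Φ h) →
            (∀ h : G K, f h = κ * pure305 T f₀ F h) →
            T5.IsTestFn D.𝔑 T5.trivType φ' → T5.IsTestFn D.𝔫 T5.trivType f →
            IsGlobMatch D φ' f) := by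
    intro D μc T₀ n m
    by_cases h : KapHyp893 D μc T₀ n m
    · obtain ⟨κ, hκ, hM⟩ := hG D h.1 h.2.1 h.2.2.1 h.2.2.2.1 μc h.2.2.2.2.1 T₀ h.2.2.2.2.2.1
        n m h.2.2.2.2.2.2
      exact ⟨κ, hκ, fun _ => hM⟩
    · exact ⟨1, one_ne_zero, fun h' => absurd h' h⟩
  choose κ hκ hM using hex
  refine ⟨κ, hκ, ?_⟩
  intro D hD hcyc hl hcplx μc hμc T₀ hT₀ n m hnm
  exact hM D μc T₀ n m ⟨hD, hcyc, hl, hcplx, hμc, hT₀, hnm⟩

/-- **THE MATCHING THEOREM for the relation of record**, from the constants of the matching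
theorem for pure tensors and the closure under averages. -/
theorem globC_of893 {κ : KapFn K K'} (hκ : GoodKap893 κ) (hA : AvgMatchC893 K K') :
    GlobC K K' (Mt893 κ) := by
  intro ℓ Φ hcyc hℓ hcplx B hB 𝔫 h𝔫 φ' f hMt _ _ _ _
  have hD : IsCompData (B.comp 𝔫) := isCompData_comp893 hB h𝔫
  have hdeg : (B.comp 𝔫).l = ℓ := hB.deg
  have hcyc' : IsCycExt K K' (B.comp 𝔫).l := by rw [hdeg]; exact hcyc
  have hℓ' : (B.comp 𝔫).l ≠ 2 := by rw [hdeg]; exact hℓ
  obtain ⟨μc, T₀, n, m, hμc, hT₀, hnm, Ω, iT, iC, i2, iS, iM, iB, ν, iF, T, T', φ₀, Φc, f₀,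
    Fc, hL, ht', ht, hc', hc, hs', hs, hφ', hf⟩ := hMt
  have hmatch : ∀ a : Ω, IsGlobMatch (B.comp 𝔫) (pure305 (T' a) (φ₀ a) (Φc a))
      (fun h => κ (B.comp 𝔫) μc T₀ n m * pure305 (T a) (f₀ a) (Fc a) h) := fun a =>
    hκ (B.comp 𝔫) hD hcyc' hℓ' hcplx μc hμc T₀ hT₀ n m hnm (T a) (T' a) (hL a).1 (hL a).2.1
      (φ₀ a) (Φc a) (f₀ a) (Fc a) (hL a).2.2 _ _ (fun _ => rfl) (fun _ => rfl) (ht' a) (ht a)
  have hs2 : ∃ C : Set (G K), IsCompact C ∧ ∀ (a : Ω) (h : G K),
      κ (B.comp 𝔫) μc T₀ n m * pure305 (T a) (f₀ a) (Fc a) h ≠ 0 → h ∈ C := by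
    obtain ⟨C, hC, hCs⟩ := hs
    exact ⟨C, hC, fun a h hne => hCs a h (right_ne_zero_of_mul hne)⟩
  have key := hA (B.comp 𝔫) hD hcyc' hℓ' hcplx Ω iT iC i2 iS iM iB ν iF
    (fun a => pure305 (T' a) (φ₀ a) (Φc a))
    (fun a h => κ (B.comp 𝔫) μc T₀ n m * pure305 (T a) (f₀ a) (Fc a) h)
    ht' ht hc' hc hs' hs2 hmatch
  have e1 : φ' = fun h => ∫ a, pure305 (T' a) (φ₀ a) (Φc a) h ∂ν := funext hφ'
  have e2 : f = fun h => ∫ a, κ (B.comp 𝔫) μc T₀ n m * pure305 (T a) (f₀ a) (Fc a) h ∂ν :=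
    funext hf
  rw [e1, e2]
  exact key

/-- **THE TOP OF THE FIFTH CUT**: the construction with families in the relation of record from
the base node and the calculus of pure tensors. -/
theorem constrRC_of893 {κ : KapFn K K'} (hBase : BaseC P K K') (hProd : ProdMtC K K' κ) :
    ConstrRC P K K' (Mt893 κ) := by
  intro ℓ hcyc hℓ hcplx Φ hΦ hconst hPΦ B hB hRam g hg
  obtain ⟨𝔫, μc, hμc, hE⟩ := hBase ℓ hcyc hℓ hcplx Φ hΦ hconst hPΦ B hB hRam g hg
  obtain ⟨a, ha, hM⟩ := hProd ℓ hcyc hℓ hcplx Φ B hB hRam g hg 𝔫 μc hμc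
  obtain ⟨E, h𝔫, hOp, hSupp, hDec⟩ := hE a ha
  refine ⟨E, hOp, hSupp, fun X k m hX => ?_⟩
  have := hM E h𝔫 hOp hDec X k m hX
  rw [h𝔫]
  exact this

variable {Mt : MtRel K K'}

/-- **The pre-data with regularity and matching, for ONE common part and ONE bad element**
(the tops of the third and fourth cut, pointwise). -/
theorem exists_isL2Pre_of893 {ℓ : ℕ} {Φ : HeckeEigensystem K' ℂ} {B : L2Base K K'}
    (hcyc : IsCycExt K K' ℓ) (hℓ : ℓ ≠ 2) (hcplx : TotCplx K) (hB : IsL2Base ℓ Φ B)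
    {g : G K'} (hg : B.IsBad g) {E : L2Pre K K'} (hOp : IsL2PreOp ℓ Φ B g E)
    (hSupp : IsL2PreSupp ℓ B E)
    (hMt : ∀ (X : List (Gen K')) (k : ℤ) (m : ℕ), (∀ x ∈ X, x.Out B.S') →
      Mt B E.𝔫 (E.up B X k m) (E.down B X k m))
    (hG : GlobC K K' Mt) (h1 : EkProdUpOpC K K') (h2 : EkProdDownOpC K K')
    (hR : RegSuppC K') (hR0 : RegSupp0C K) :
    ∃ E' : L2Pre K K', IsL2Pre ℓ Φ B g E' := by
  obtain ⟨mu, hmu⟩ := exists_depth_up893 hB hg hOp hSupp hR hcyc.prime.pos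
  obtain ⟨md, hmd⟩ := exists_depth_down893 hOp hSupp hR0
  refine ⟨{ E with m₀ := fun X => max (mu X) (md X) }, ?_⟩
  exact
    { level_ne := hOp.level_ne
      level_g := hOp.level_g
      mem_S'_g := hOp.mem_S'_g
      u_level := hOp.u_level
      sysg := hOp.sysg
      sys' := hOp.sys'
      unif' := hOp.unif'
      sys := hOp.sys
      unif := hOp.unif
      up1_test := hOp.up1_test
      up1_ek := hOp.up1_ek
      up1_op := hOp.up1_op
      up2_test := hOp.up2_test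
      up2_ek := hOp.up2_ek
      up2_inv := hOp.up2_inv
      up2_op := hOp.up2_op
      up2_kill := hOp.up2_kill
      up_ne := hOp.up_ne
      dn1_test := hOp.dn1_test
      dn1_ek := hOp.dn1_ek
      dn1_op := hOp.dn1_op
      dn1_wfn := hOp.dn1_wfn
      dn1_class := hOp.dn1_class
      dn1_comm := hOp.dn1_comm
      dn2_test := hOp.dn2_test
      dn2_ek := hOp.dn2_ek
      dn2_inv := hOp.dn2_inv
      dn2_wfn := hOp.dn2_wfn
      dn2_class := hOp.dn2_class
      dn2_comm := hOp.dn2_comm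
      dn2_kill := hOp.dn2_kill
      reg_up := fun X k m hX hm => hmu X k m hX (le_trans (le_max_left _ _) hm)
      reg_down := fun X k m hX hm => hmd X k m hX (le_trans (le_max_right _ _) hm)
      matched := fun X k m hX hm =>
        hG ℓ Φ hcyc hℓ hcplx B hB E.𝔫 hOp.level_ne _ _ (hMt X k m hX)
          (h1 ℓ Φ B hB g hg E hOp X k m hX).1
          (hmu X k m hX (le_trans (le_max_left _ _) hm))
          (h2 ℓ Φ B hB g hg E hOp X k m hX).1
          (hmd X k m hX (le_trans (le_max_right _ _) hm)) }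

/-- **THE STABLE SUPPLY from the setup with the ramified places and the construction for the
common parts which contain the ramified places** (the chain of the four cuts, pointwise). -/
theorem supplySC_ofR893 (hS : SetupRC K K') (hP' : ProjC K') (hP : ProjC K)
    (hG : GlobC K K' Mt) (hC : ConstrRC P K K' Mt)
    (hR : RegSuppC K') (hR0 : RegSupp0C K)
    (h1 : EkProdUpOpC K K') (h2 : EkProdDownOpC K K') (h3 : OpUpC K K') (h4 : KillUpC K K')
    (h5 : OpDownC K K') (h6 : ClassDownC K K') (h7 : CommDownC K K') (h8 : KillDownC K K') :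
    SupplySC P K K' := by
  intro ℓ hcyc hℓ hcplx Φ hΦ hconst hPΦ
  obtain ⟨B, hB, hRam⟩ := hS ℓ hcyc hℓ hcplx Φ hΦ hconst
  have hex : ∀ g : G K', ∃ Fm : L2Fam K K', B.IsBad g → IsL2Fam ℓ Φ B g Fm := by
    intro g
    by_cases hg : B.IsBad g
    · obtain ⟨E, hOp, hSupp, hMt⟩ := hC ℓ hcyc hℓ hcplx Φ hΦ hconst hPΦ B hB hRam g hg
      obtain ⟨E', hE'⟩ := exists_isL2Pre_of893 hcyc hℓ hcplx hB hg hOp hSupp hMt hG h1 h2 hR hR0
      exact ⟨E'.toFam B, fun _ => isL2Fam_toFam893 hB hg hE' (ekProdUpC_of_op893 h1)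
        (ekProdDownC_of_op893 h2) h3 h4 h5 h6 h7 h8⟩
    · exact ⟨⟨⊥, fun _ => 0, fun _ _ _ _ => 0, fun _ _ _ _ => 0, fun _ => 0⟩,
        fun h => absurd h hg⟩
  choose Fm hFm using hex
  exact ⟨B.toData Fm, isL2Data_toData893 hB hP' hP Fm hFm, isStable_toData893 hB Fm⟩

/-- **THE STABLE SUPPLY from the leaves of the five cuts.** -/
theorem supplySC_of_fifth893 (hS : SetupRC K K') (hP' : ProjC K') (hP : ProjC K)
    (hG : GlobMatchC305 K K') (hA : AvgMatchC893 K K') (hBase : BaseC P K K')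
    (hProd : ∀ κ : KapFn K K', (∀ D μc T₀ n m, κ D μc T₀ n m ≠ 0) → ProdMtC K K' κ)
    (hR : RegSuppC K') (hR0 : RegSupp0C K)
    (h1 : EkProdUpOpC K K') (h2 : EkProdDownOpC K K') (h3 : OpUpC K K') (h4 : KillUpC K K')
    (h5 : OpDownC K K') (h6 : ClassDownC K K') (h7 : CommDownC K K') (h8 : KillDownC K K') :
    SupplySC P K K' := by
  obtain ⟨κ, hκ0, hκ⟩ := exists_goodKap893 hG
  exact supplySC_ofR893 hS hP' hP (globC_of893 hκ hA) (constrRC_of893 hBase (hProd κ hκ0))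
    hR hR0 h1 h2 h3 h4 h5 h6 h7 h8

end Top

end Fermat.Agent.LT.T7.H893

end

end
-- ===== PACK-END LT/T7/H893/SupplyConstrTop.lean

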