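import Mathlib
import Fermat.Agent.Pack.LT3.E27L1
import Fermat.Agent.Pack.LT3.E23L1
import Fermat.Agent.Pack.LT3.E25L3
import Fermat.Agent.Pack.LT3.E25L1
import Fermat.Agent.Pack.LT3.E25L2
import Fermat.Agent.Pack.LT3.E25L0
import Fermat.Agent.Pack.LT3.E27L3
import Fermat.Agent.Pack.LT3.E23L3
import Fermat.Agent.Pack.LT3.E27L0
import Fermat.Agent.Pack.LT3.E27L2
import Fermat.Agent.Pack.LT3.E24L3
import Fermat.Agent.Pack.LT3.E22L0
import Fermat.Agent.Pack.LT3.E13L0
import Fermat.Agent.Pack.LT3.E22L2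
import Fermat.Agent.Pack.LT3.E26L0
import Fermat.Agent.Pack.LT3.E26L3
import Fermat.Agent.Pack.LT3.E24L1
import Fermat.Agent.Pack.LT3.E21L1
import Fermat.Agent.Pack.LT3.E26L2
import Fermat.Agent.Pack.LT3.E10L2
import Fermat.Agent.Pack.LT3.E26L1

set_option linter.all false

-- ===== PACK-BEGIN LT/T7/Q797/BaseCutSpec.lean
section



/-!
# Row LT, tower T7, node T7.L2.1.H2a `H893.BaseC` (registry row 2597): FIRST CUT -- Spec

OFF-MAIN.  Definitions and frozen Props only (the proved top is `BaseCutTop.lean`).  No hole,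
nothing assumed.  ADDITIVE (new names only, suffix `797`).  Vocabulary: the five cuts of helper893
(`T7/H893/Supply*Spec.lean`, helper893@0e092c774, `SupplyConstrSpec.lean` feb0f69771ab) and
`T7/H305/MatchSpec.lean`, byte-identical copies.

    baseGC_of797 : ExpC797 K K' → CosetC797 K K' → PairAC797 P K K' LA → PairBC797 P K K' LB
        → BaseGC797 P K K' LA LB
    baseC_of797  : ExpC797 K K' → CosetC797 K K' → PairAC797 P K K' LocA893
        → PairBC797 P K K' LocB893 → H893.BaseC P K K'                       (VERBATIM)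

## The cut

The pre-data `E : L2Pre K K'` are thirteen independent components.  The properties
`IsL2PreOp`, `IsL2PreSupp`, `IsDecomp893` couple them only through the level `𝔫`, the exponents
`(T₀, n, n₀, m)` of the levels (determined by `𝔫` and the common part) and the Haar measure `μc`
of `GL₂(ℂ)`.  So the node splits into two INDEPENDENT constructions and two small leaves:

* **`ExpC797`** (LEAF, small; ideals of Dedekind domains): the exponents of a non-zero level.
* **`CosetC797`** (LEAF, closed assets): the five coset systems exist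
  (`H593.exists_isDblCosetSystem593`, `H83.exists_isIwCosetSystem83`,
  `H129.exists_scalarUniformizer129`).
* **`PairAC797 P LA`** (NODE A = the FIRST pair `(Φ₁ X, F₁ X)`, all words; T3 + T6, NO bad
  element, NO natural average): for EVERY level `𝔫` with the four level properties and EVERY
  Haar measure `μc`.  Upstairs the word applied to the Eisenstein-killing function of T3 with
  unit components at the places of the level; downstairs the base change.
* **`PairBC797 P LB`** (NODE B = the SECOND pair `(φ₂, f₂)`, for one bad element; T3 + T6 + the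
  natural average): CHOOSES the level `𝔫` (deep enough for the partners of the double coset
  functions at the bad places) and the Haar measure `μc`, and gives the pair for every constant
  `a ≠ 0`.

Both nodes are PARAMETRIC in the local shape (`LA`, `LB`), so that the top serves the shapes of
record `LocA893`, `LocB893` of helper893 AND the corrected shape of helper467 (note 18439: the
clause `split` of `LocHyp305` for ONE `σ`-ordered enumeration of every fibre) without change.

FALSITY CHECKS (helper797).  (a) Node A for every level: the components at the places of the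
level are the unit elements `1_{U(n_w)}`, which act as the identity on the functions of the
base level (volume `1`), so the scalar `c₁` does not depend on the depth.  (b) Node A for every
Haar measure `μc`: the components downstairs at infinity are DEFINED by the convolution
`convL305 μc`; all properties downstairs are homogeneous in `F₁`.  (c) The exponents are the
same for both pairs: they are quantified universally in both nodes.  (d) `up_ne` is split into
`up1_ne` (`c₁`) and `up2_ne` (`c₂`).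
-/

set_option autoImplicit false

open AutomorphicForm IsDedekindDomain NumberField MeasureTheory
open scoped ComplexConjugate

noncomputable section

namespace Fermat.Agent.LT.T7.Q797

open Fermat.Agent.LT.H556 Fermat.Agent.LT.H556.A0 Fermat.Agent.LT.T7
open Fermat.Agent.LT.T7.H893 Fermat.Agent.LT.T7.H305

attribute [local instance] Fermat.Agent.LT.T5.instMeasurableSpaceG

/-! ## 1. Vocabulary -/

section Vocab

variable (K K' : Type) [Field K] [NumberField K] [Field K'] [NumberField K'] [Algebra K K']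

/-- The type of the local shapes of the FIRST pair (the type of `H893.LocA893`). -/
abbrev ShapeA797 : Type :=
  L2Base K K' → Ideal (𝓞 K) → @Measure (GL (Fin 2) ℂ) (borel _) →
    Finset (HeightOneSpectrum (𝓞 K)) → (HeightOneSpectrum (𝓞 K') → ℕ) →
    (HeightOneSpectrum (𝓞 K) → ℕ) → LocCond K K'

/-- The type of the local shapes of the SECOND pair (the type of `H893.LocB893`). -/
abbrev ShapeB797 : Type :=
  L2Base K K' → G K' → Ideal (𝓞 K) → @Measure (GL (Fin 2) ℂ) (borel _) →
    Finset (HeightOneSpectrum (𝓞 K)) → (HeightOneSpectrum (𝓞 K') → ℕ) →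
    (HeightOneSpectrum (𝓞 K') → ℕ) → (HeightOneSpectrum (𝓞 K) → ℕ) → LocCond K K'

variable {K K'}

/-- **The level properties** (the first four fields of `H893.IsL2PreOp`). -/
structure IsLevel797 (B : L2Base K K') (𝔫 : Ideal (𝓞 K)) : Prop where
  level_ne : 𝔫 ≠ ⊥
  level_g : upI (K' := K') 𝔫 ≤ B.𝔑₀
  mem_S'_g : ∀ w : HeightOneSpectrum (𝓞 K'), w ∈ B.S' ↔ w.asIdeal ∣ upI (K' := K') 𝔫
  u_level : B.u.asIdeal ∣ 𝔫

/-- **The exponents of the levels** (the first four clauses of `H893.IsDecomp893`). -/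
structure IsExp797 (B : L2Base K K') (𝔫 : Ideal (𝓞 K))
    (T₀ : Finset (HeightOneSpectrum (𝓞 K)))
    (n n₀ : HeightOneSpectrum (𝓞 K') → ℕ) (m : HeightOneSpectrum (𝓞 K) → ℕ) : Prop where
  mem_T₀ : ∀ v : HeightOneSpectrum (𝓞 K), v ∈ T₀ ↔ v.asIdeal ∣ 𝔫
  lev_m : IsLevelOf893 𝔫 m
  lev_n : IsLevelOf893 (upI (K' := K') 𝔫) n
  lev_n₀ : IsLevelOf893 B.𝔑₀ n₀

/-- **The coset systems** (the fields `sysg`, `sys'`, `unif'`, `sys`, `unif` of
`H893.IsL2PreOp`). -/
structure IsCosets797 (B : L2Base K K') (g : G K') (Hg H' : Finset (G K')) (z' : G K')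
    (H : Finset (G K)) (z : G K) : Prop where
  sysg : IsDblCosetSystem B.𝔑₀ g Hg
  sys' : IsIwCosetSystem (B.o 0) H'
  unif' : IsScalarUniformizerAt (B.o 0) z'
  sys : IsIwCosetSystem B.u H
  unif : IsScalarUniformizerAt B.u z

/-- **THE PROPERTIES OF THE FIRST PAIR** `(Φ₁ X, F₁ X)` with the scalar `c₁`: the fields
`up1_*`, `dn1_*` of `H893.IsL2PreOp`, the `c₁`-part of `up_ne`, the fields `up1_supp`,
`dn1_supp` of `H893.IsL2PreSupp` (same statements), and the local shape. -/
structure IsPairA797 (LA : ShapeA797 K K') (ℓ : ℕ) (Φ : HeckeEigensystem K' ℂ)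
    (B : L2Base K K') (𝔫 : Ideal (𝓞 K)) (μc : @Measure (GL (Fin 2) ℂ) (borel _))
    (T₀ : Finset (HeightOneSpectrum (𝓞 K)))
    (n : HeightOneSpectrum (𝓞 K') → ℕ) (m : HeightOneSpectrum (𝓞 K) → ℕ)
    (c₁ : EigData K' → ℂ) (Φ₁ : List (Gen K') → G K' → ℂ) (F₁ : List (Gen K') → G K → ℂ) :
    Prop where
  up1_test : ∀ X : List (Gen K'), (∀ x ∈ X, x.Out B.S') →
    T5.IsTestFn (upI (K' := K') 𝔫) T5.trivType (Φ₁ X)
  up1_ek : ∀ X : List (Gen K'), (∀ x ∈ X, x.Out B.S') →
    T5.IsEK B.R'.μ (Φ₁ X) ∧ T5.IsEK B.R'.μ (T5.adjointFn (Φ₁ X))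
  up1_op : ∀ X : List (Gen K'), (∀ x ∈ X, x.Out B.S') →
    ∀ (χ : G K' → ℂ) (C : EigData K'), IsEigFn B.𝔑₀ B.R'.r ℓ B.o χ C →
      ∀ x : G K', T5.Rconv B.R'.μ (Φ₁ X) χ x = wordEv X C * c₁ C * χ x
  up1_ne : ∀ C : EigData K', C.AgreeOut B.S' (eigOf Φ) → c₁ C ≠ 0
  dn1_test : ∀ X : List (Gen K'), (∀ x ∈ X, x.Out B.S') →
    T5.IsTestFn 𝔫 T5.trivType (F₁ X)
  dn1_ek : ∀ X : List (Gen K'), (∀ x ∈ X, x.Out B.S') →
    T5.IsEK B.R.μ (F₁ X) ∧ T5.IsEK B.R.μ (T5.adjointFn (F₁ X))
  dn1_op : ∀ X : List (Gen K'), (∀ x ∈ X, x.Out B.S') →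
    ∀ (χ : G K → ℂ) (c : EigData K) (C : EigData K'),
      IsEigFn 𝔫 B.R.r 1 (fun _ => B.u) χ c → IsBCData c C B.S' →
      ∀ x : G K, T5.Rconv B.R.μ (F₁ X) χ x = wordEv X C * T5.Rconv B.R.μ (F₁ []) χ x
  dn1_wfn : ∀ ψ : G K → ℂ, IsWFn 𝔫 B.R.r 1 (fun _ => B.u) ψ →
    IsWFn 𝔫 B.R.r 1 (fun _ => B.u) (T5.Rconv B.R.μ (F₁ []) ψ)
  dn1_class : ∀ (ψ : G K → ℂ) (c : EigData K), IsEigFn 𝔫 B.R.r 1 (fun _ => B.u) ψ c →
    IsEigFn 𝔫 B.R.r 1 (fun _ => B.u) (T5.Rconv B.R.μ (F₁ []) ψ) c
  dn1_comm : ∀ ψ : G K → ℂ, IsWFn 𝔫 B.R.r 1 (fun _ => B.u) ψ →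
    ∀ (H : Finset (G K)) (z : G K), IsIwCosetSystem B.u H → IsScalarUniformizerAt B.u z →
      (∀ x : G K, T5.Rconv B.R.μ (F₁ []) (iwOp B.u H ψ) x
        = iwOp B.u H (T5.Rconv B.R.μ (F₁ []) ψ) x) ∧
      ∀ (k : ℤ) (x : G K), T5.Rconv B.R.μ (F₁ []) (shiftOp z k ψ) x
        = shiftOp z k (T5.Rconv B.R.μ (F₁ []) ψ) x
  up1_supp : ∀ X : List (Gen K'), (∀ x ∈ X, x.Out B.S') →
    ∃ C : Set (G K'), IsCompact C ∧ T5.H32.IsIwSupported32 ℓ B.o C (Φ₁ X)
  dn1_supp : ∀ X : List (Gen K'), (∀ x ∈ X, x.Out B.S') →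
    ∃ C : Set (G K), IsCompact C ∧ T5.H32.IsIwSupported32 1 (fun _ => B.u) C (F₁ X)
  /-- the local shape: averages of pure tensors with the local condition `LA`, constant `1` -/
  shape : ∀ X : List (Gen K'), (∀ x ∈ X, x.Out B.S') →
    IsAvgPure (upI (K' := K') 𝔫) 𝔫 T₀ (LA B 𝔫 μc T₀ n m) 1 (Φ₁ X) (F₁ X)

/-- **THE PROPERTIES OF THE SECOND PAIR** `(φ₂, f₂)` with the scalar `c₂` and the constant `a`:
the fields `up2_*`, `dn2_*` of `H893.IsL2PreOp`, the `c₂`-part of `up_ne`, the fields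
`up2_supp`, `dn2_supp` of `H893.IsL2PreSupp` (same statements), and the local shape. -/
structure IsPairB797 (LB : ShapeB797 K K') (ℓ : ℕ) (Φ : HeckeEigensystem K' ℂ)
    (B : L2Base K K') (g : G K') (𝔫 : Ideal (𝓞 K))
    (μc : @Measure (GL (Fin 2) ℂ) (borel _)) (T₀ : Finset (HeightOneSpectrum (𝓞 K)))
    (n n₀ : HeightOneSpectrum (𝓞 K') → ℕ) (m : HeightOneSpectrum (𝓞 K) → ℕ) (a : ℂ)
    (c₂ : EigData K' → ℂ) (φ₂ : G K' → ℂ) (f₂ : G K → ℂ) : Prop where
  up2_test : T5.IsTestFn (upI (K' := K') 𝔫) T5.trivType φ₂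
  up2_ek : T5.IsEK B.R'.μ φ₂ ∧ T5.IsEK B.R'.μ (T5.adjointFn φ₂)
  up2_inv : IsUInv B.𝔑₀ ℓ B.o φ₂
  up2_op : ∀ (ψ : G K' → ℂ) (C : EigData K'), IsEigFn B.𝔑₀ B.R'.r ℓ B.o ψ C →
    ∀ x : G K', T5.Rconv B.R'.μ φ₂ ψ x = c₂ C * ψ x
  up2_kill : ∀ ψ : G K' → ℂ, T5.IsCuspFn (upI (K' := K') 𝔫) T5.trivType B.R'.r ψ →
    (∀ χ : G K' → ℂ, IsWFn B.𝔑₀ B.R'.r ℓ B.o χ → T5.innerD B.R'.μ B.R'.F ψ χ = 0) →
    ∀ x : G K', T5.Rconv B.R'.μ φ₂ ψ x = 0
  up2_ne : ∀ C : EigData K', C.AgreeOut B.S' (eigOf Φ) → c₂ C ≠ 0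
  dn2_test : T5.IsTestFn 𝔫 T5.trivType f₂
  dn2_ek : T5.IsEK B.R.μ f₂ ∧ T5.IsEK B.R.μ (T5.adjointFn f₂)
  dn2_inv : IsUInv 𝔫 1 (fun _ => B.u) f₂
  dn2_wfn : ∀ ψ : G K → ℂ, IsWFn 𝔫 B.R.r 1 (fun _ => B.u) ψ →
    IsWFn 𝔫 B.R.r 1 (fun _ => B.u) (T5.Rconv B.R.μ f₂ ψ)
  dn2_class : ∀ (ψ : G K → ℂ) (c : EigData K), IsEigFn 𝔫 B.R.r 1 (fun _ => B.u) ψ c →
    IsEigFn 𝔫 B.R.r 1 (fun _ => B.u) (T5.Rconv B.R.μ f₂ ψ) c
  dn2_comm : ∀ ψ : G K → ℂ, IsWFn 𝔫 B.R.r 1 (fun _ => B.u) ψ →
    ∀ (H : Finset (G K)) (z : G K), IsIwCosetSystem B.u H → IsScalarUniformizerAt B.u z →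
      (∀ x : G K, T5.Rconv B.R.μ f₂ (iwOp B.u H ψ) x
        = iwOp B.u H (T5.Rconv B.R.μ f₂ ψ) x) ∧
      ∀ (k : ℤ) (x : G K), T5.Rconv B.R.μ f₂ (shiftOp z k ψ) x
        = shiftOp z k (T5.Rconv B.R.μ f₂ ψ) x
  dn2_kill : ∀ ψ : G K → ℂ, T5.IsCuspFn 𝔫 T5.trivType B.R.r ψ →
    (∀ χ : G K → ℂ, IsWFn 𝔫 B.R.r 1 (fun _ => B.u) χ → T5.innerD B.R.μ B.R.F ψ χ = 0) →
    ∀ x : G K, T5.Rconv B.R.μ f₂ ψ x = 0
  up2_supp : ∃ C : Set (G K'), IsCompact C ∧ T5.H32.IsIwSupported32 ℓ B.o C φ₂
  dn2_supp : ∃ C : Set (G K), IsCompact C ∧ T5.H32.IsIwSupported32 1 (fun _ => B.u) C f₂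
  /-- the local shape: averages of pure tensors with the local condition `LB`, constant `a` -/
  shape : IsAvgPure (upI (K' := K') 𝔫) 𝔫 T₀ (LB B g 𝔫 μc T₀ n n₀ m) a φ₂ f₂

/-- The local shape of the pre-data for general local conditions (`H893.IsDecomp893` is the case
`LA = LocA893`, `LB = LocB893`, by definition). -/
def IsDecompG797 (LA : ShapeA797 K K') (LB : ShapeB797 K K')
    (μc : @Measure (GL (Fin 2) ℂ) (borel _)) (a : ℂ) (B : L2Base K K') (g : G K')
    (E : L2Pre K K') : Prop :=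
  ∃ (T₀ : Finset (HeightOneSpectrum (𝓞 K)))
    (n n₀ : HeightOneSpectrum (𝓞 K') → ℕ) (m : HeightOneSpectrum (𝓞 K) → ℕ),
    (∀ v : HeightOneSpectrum (𝓞 K), v ∈ T₀ ↔ v.asIdeal ∣ E.𝔫) ∧
    IsLevelOf893 E.𝔫 m ∧ IsLevelOf893 (upI (K' := K') E.𝔫) n ∧ IsLevelOf893 B.𝔑₀ n₀ ∧
    (∀ X : List (Gen K'), (∀ x ∈ X, x.Out B.S') →
      IsAvgPure (upI (K' := K') E.𝔫) E.𝔫 T₀ (LA B E.𝔫 μc T₀ n m) 1 (E.Φ₁ X) (E.F₁ X)) ∧
    IsAvgPure (upI (K' := K') E.𝔫) E.𝔫 T₀ (LB B g E.𝔫 μc T₀ n n₀ m) a E.φ₂ E.f₂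

end Vocab

/-! ## 2. The leaves and the nodes -/

section Nodes

variable (P : EKCond)
variable (K K' : Type) [Field K] [NumberField K] [Field K'] [NumberField K'] [Algebra K K']

/-- **LEAF BC.1 = EXP (small; Dedekind domains).**  A non-zero level `𝔫` of `K` with the level
properties has exponents: `T₀` = the finite set of the prime divisors of `𝔫`, `m v` = the
multiplicity of `v` in `𝔫`, `n w` = the multiplicity of `w` in `𝔫 𝒪_{K'}`, `n₀ w` = the
multiplicity of `w` in `𝔑₀` (`𝔑₀ ≠ 0` by `IsL2Base.base_level`); the closure of an ideal `𝔞 ≠ 0`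
in `K_v` is the ball of radius `exp (- v(𝔞))`. -/
def ExpC797 : Prop :=
  ∀ (ℓ : ℕ) (Φ : HeckeEigensystem K' ℂ) (B : L2Base K K'), IsL2Base ℓ Φ B →
    ∀ 𝔫 : Ideal (𝓞 K), IsLevel797 B 𝔫 →
      ∃ (T₀ : Finset (HeightOneSpectrum (𝓞 K)))
        (n n₀ : HeightOneSpectrum (𝓞 K') → ℕ) (m : HeightOneSpectrum (𝓞 K) → ℕ),
        IsExp797 B 𝔫 T₀ n n₀ m

/-- **LEAF BC.2 = COSET (closed assets).**  The coset systems of the pre-data exist. -/
def CosetC797 : Prop :=
  ∀ (ℓ : ℕ) (Φ : HeckeEigensystem K' ℂ) (B : L2Base K K'), IsL2Base ℓ Φ B →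
    ∀ g : G K', B.IsBad g →
      ∃ (Hg H' : Finset (G K')) (z' : G K') (H : Finset (G K)) (z : G K),
        IsCosets797 B g Hg H' z' H z

/-- **NODE BC.A = PAIR-A (the first pair; T3 + T6).**  For a common part which contains the
ramified places, EVERY level with the level properties, EVERY Haar measure of `GL₂(ℂ)` and the
exponents of the level: a scalar `c₁` and families `(Φ₁ X, F₁ X)` with the properties of the
first pair.
Construction.  Eisenstein-killing datum upstairs for the level `𝔑 = 𝔫 𝒪_{K'}` and `S'` from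
`P = T7.ekMulti`; `Φ₁ [] = ` the Eisenstein-killing function of T3 in the explicit form of
helper14 (`T3/M/Explicit.lean`: finite sum of `pureFnM`, unit components at the level, spherical
outside, bi-`U(2)`-invariant at infinity), `Φ₁ X = ` the word `X` (spherical Hecke operators
outside `S'`) applied to it; `c₁` = its scalar.  Downstairs: the norm datum; the components of
`F₁ X` are the base change of the components upstairs at the places with one place over them
(`T6.BCExistsC`, `T6.FundLemmaC`), the convolution products over the fibre at the split places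
and at infinity (`convL305 μc`).  Eisenstein-killing downstairs: the coordinates downstairs are
the push-forward of the coordinates upstairs under the norm of the tori, and the push-forward
of a telescoping function telescopes.  `dn1_op`: the Satake transform of the base change at the
parameters of `c` is the Satake transform upstairs at the parameters of `C` (`IsBCData`). -/
def PairAC797 (LA : ShapeA797 K K') : Prop :=
  ∀ ℓ : ℕ, IsCycExt K K' ℓ → ℓ ≠ 2 → TotCplx K →
    ∀ Φ : HeckeEigensystem K' ℂ, A0.IsCuspAdelicSph0 K' Φ → ConstOnFibres K Φ → P K' Φ →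
      ∀ B : L2Base K K', IsL2Base ℓ Φ B → B.RamIn →
      ∀ 𝔫 : Ideal (𝓞 K), IsLevel797 B 𝔫 →
      ∀ μc : @Measure (GL (Fin 2) ℂ) (borel _), @Measure.IsHaarMeasure _ _ _ (borel _) μc →
      ∀ (T₀ : Finset (HeightOneSpectrum (𝓞 K)))
        (n n₀ : HeightOneSpectrum (𝓞 K') → ℕ) (m : HeightOneSpectrum (𝓞 K) → ℕ),
        IsExp797 B 𝔫 T₀ n n₀ m →
        ∃ (c₁ : EigData K' → ℂ) (Φ₁ : List (Gen K') → G K' → ℂ)
          (F₁ : List (Gen K') → G K → ℂ),
          IsPairA797 LA ℓ Φ B 𝔫 μc T₀ n m c₁ Φ₁ F₁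

/-- **NODE BC.B = PAIR-B (the second pair, for ONE bad element; T3 + T6 + `♮`).**  For a common
part which contains the ramified places and a bad element `g`: a level `𝔫` with the level
properties and a Haar measure `μc` of `GL₂(ℂ)` such that for the exponents of the level and
EVERY constant `a ≠ 0` there are a scalar `c₂` and a pair `(φ₂, f₂)` with the properties of the
second pair.
Construction.  `𝔫 = 𝔫₀ ^ d`, `d` so large that the partners of the double coset functions
`1_{U₀ g_w U₀}` at the bad places (`T6.BadMatchC`; split bad places: convolution products in the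
order of ONE `σ`-ordered enumeration of the fibre) are bi-invariant under `U(𝔫)_v`.  `φ₂` = the
natural average (`H193.nat193`, compatible torus data `H193.IsRelTorus`; finite group
`H / U(𝔑)`: kit of helper40) of an Eisenstein-killing function with unit components `1_{U₀}`
at the bad places and Iwahori components along the orbit; `f₂ = a ·` the function with the
partners at the bad places, the Iwahori function at `u`, the base change outside, and the
push-forward average at infinity (`H193.nat_eq_push193`: it IS the natural average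
downstairs).  Killing: `H193.killing_of_torus193`. -/
def PairBC797 (LB : ShapeB797 K K') : Prop :=
  ∀ ℓ : ℕ, IsCycExt K K' ℓ → ℓ ≠ 2 → TotCplx K →
    ∀ Φ : HeckeEigensystem K' ℂ, A0.IsCuspAdelicSph0 K' Φ → ConstOnFibres K Φ → P K' Φ →
      ∀ B : L2Base K K', IsL2Base ℓ Φ B → B.RamIn → ∀ g : G K', B.IsBad g →
        ∃ (𝔫 : Ideal (𝓞 K)) (μc : @Measure (GL (Fin 2) ℂ) (borel _)),
          IsLevel797 B 𝔫 ∧ @Measure.IsHaarMeasure _ _ _ (borel _) μc ∧
          ∀ (T₀ : Finset (HeightOneSpectrum (𝓞 K)))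
            (n n₀ : HeightOneSpectrum (𝓞 K') → ℕ) (m : HeightOneSpectrum (𝓞 K) → ℕ),
            IsExp797 B 𝔫 T₀ n n₀ m →
            ∀ a : ℂ, a ≠ 0 →
              ∃ (c₂ : EigData K' → ℂ) (φ₂ : G K' → ℂ) (f₂ : G K → ℂ),
                IsPairB797 LB ℓ Φ B g 𝔫 μc T₀ n n₀ m a c₂ φ₂ f₂

/-- **The node `BaseC` for general local shapes** (`H893.BaseC P K K'` is the case
`LA = LocA893`, `LB = LocB893`). -/
def BaseGC797 (LA : ShapeA797 K K') (LB : ShapeB797 K K') : Prop :=
  ∀ ℓ : ℕ, IsCycExt K K' ℓ → ℓ ≠ 2 → TotCplx K →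
    ∀ Φ : HeckeEigensystem K' ℂ, A0.IsCuspAdelicSph0 K' Φ → ConstOnFibres K Φ → P K' Φ →
      ∀ B : L2Base K K', IsL2Base ℓ Φ B → B.RamIn → ∀ g : G K', B.IsBad g →
        ∃ (𝔫 : Ideal (𝓞 K)) (μc : @Measure (GL (Fin 2) ℂ) (borel _)),
          @Measure.IsHaarMeasure _ _ _ (borel _) μc ∧
          ∀ a : ℂ, a ≠ 0 → ∃ E : L2Pre K K', E.𝔫 = 𝔫 ∧
            IsL2PreOp ℓ Φ B g E ∧ IsL2PreSupp ℓ B E ∧ IsDecompG797 LA LB μc a B g E

end Nodes

/-! ## Appendix: the equation lemmas of the definitions of this file are realised HERE -/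

theorem eqns_realised_baseCutSpec797 : True := by
  have _h0_0 := @ShapeA797.eq_1
  have _h0_1 := @ShapeA797.eq_def
  have _h0_2 := @ShapeA797.eq_unfold
  have _h1_0 := @ShapeB797.eq_1
  have _h1_1 := @ShapeB797.eq_def
  have _h1_2 := @ShapeB797.eq_unfold
  have _h2_0 := @IsDecompG797.eq_1
  have _h2_1 := @IsDecompG797.eq_def
  have _h2_2 := @IsDecompG797.eq_unfold
  have _h3_0 := @ExpC797.eq_1
  have _h3_1 := @ExpC797.eq_def
  have _h3_2 := @ExpC797.eq_unfold
  have _h4_0 := @CosetC797.eq_1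
  have _h4_1 := @CosetC797.eq_def
  have _h4_2 := @CosetC797.eq_unfold
  have _h5_0 := @PairAC797.eq_1
  have _h5_1 := @PairAC797.eq_def
  have _h5_2 := @PairAC797.eq_unfold
  have _h6_0 := @PairBC797.eq_1
  have _h6_1 := @PairBC797.eq_def
  have _h6_2 := @PairBC797.eq_unfold
  have _h7_0 := @BaseGC797.eq_1
  have _h7_1 := @BaseGC797.eq_def
  have _h7_2 := @BaseGC797.eq_unfold
  trivial

end Fermat.Agent.LT.T7.Q797

end

end
-- ===== PACK-END LT/T7/Q797/BaseCutSpec.lean

-- ===== PACK-BEGIN LT/T7/H193/NatMatchClosed.lean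
section













/-!
# Row LT, tower T7, node T7.L2.1 `SupplyC`: sub-station NAT-MATCH -- INTEGRATION
(sub-architect helper193)

OFF-MAIN.  Complete proofs, nothing assumed.  ALL the leaves of `NatMatchSpec.lean` are proved
(byte-identical copies of the files of the volunteers): RT.1 `KerUnitsC` helper634, RT.2
`FibCardC` helper560, RT.3 `TorusParC` (spare helper193), RT.4 `PushParC` helper222, RT.5
`RelTorusAsmC` (spare helper193), NM.1 `FlatNatC` helper863, NM.2 `JointIntC` helper890.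

* `relTorus_closed193 K K' : RelTorusC K K'` -- UNCONDITIONAL: for `K'/K` Galois of prime degree,
  `K` totally complex, `𝔫 ≠ 0`, and any ray generators there are COMPATIBLE torus data
  (`IsRelTorus`: torus data downstairs for the level `𝔫` and upstairs for the level `𝔫 𝒪_{K'}`,
  with `N(D') = D` and `N_*` (normalised Lebesgue on `D'`) = normalised Lebesgue on `D`).
* `natMatch_closed193` -- the torus means of matched regular translates are matched
  (inputs closed elsewhere: `T1.T1Out`, `T5.H29.RaySlabC` helper655, `T5.H29.TwBoundC` helper29).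
The killing tools for THE SAME compatible data: `killing_of_torus193` (`NatTools.lean`) with
`hrel.down` / `hrel.up` (and `isTorusData_mono193` for a coarser level); the shape of
`H893.IsAvgPure`: `nat_eq_push193`.
-/

set_option autoImplicit false

open IsDedekindDomain NumberField MeasureTheory
open scoped ComplexConjugate

noncomputable section

namespace Fermat.Agent.LT.T7.H193

open Fermat.Agent.LT.H556 Fermat.Agent.LT.H556.A0 Fermat.Agent.LT

attribute [local instance] Fermat.Agent.LT.T5.instMeasurableSpaceG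

/-- **REL-TORUS, CLOSED**: compatible torus data exist. -/
theorem relTorus_closed193 (K K' : Type) [Field K] [NumberField K] [Field K'] [NumberField K']
    [Algebra K K'] : RelTorusC K K' :=
  relTorusAsmC193 K K' (H195.posScalC195 K) (H195.posScalC195 K') (H613.unitInvC613 K)
    (H613.unitInvC613 K') (H126.dirichletC126 K) (H634.kerUnitsC634 K K')
    (H560.fibCardC560 K K') torusParC193 H222.pushParC222

variable {K : Type} [Field K] [NumberField K]
variable {K' : Type} [Field K'] [NumberField K'] [Algebra K K']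

/-- **NAT-MATCH, CLOSED** (modulo the closed inputs `T1Out`, `RaySlabC`, `TwBoundC`). -/
theorem natMatch_closed193 (hT1 : T1.T1Out K) (hT1' : T1.T1Out K')
    (hRS : T5.H29.RaySlabC K) (hRS' : T5.H29.RaySlabC K')
    (Dd : CompData K K') (hDd : IsCompData Dd)
    (hTB : T5.H29.TwBoundC (T5.AdelicAut.id K) 1 ⊤ Dd.𝔫)
    (hTB' : T5.H29.TwBoundC Dd.s Dd.l Dd.k Dd.𝔑)
    {a : (InfinitePlace K → ℝ) → G K} {D : Set (InfinitePlace K → ℝ)}
    {a' : (InfinitePlace K' → ℝ) → G K'} {D' : Set (InfinitePlace K' → ℝ)}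
    (hrel : IsRelTorus Dd.𝔫 Dd.R.r Dd.R'.r a D a' D')
    (φ' : G K' → ℂ) (f : G K → ℂ)
    (hφ'c : Continuous φ') (hφ's : HasCompactSupport φ')
    (hfc : Continuous f) (hfs : HasCompactSupport f)
    (hreg' : ∀ t' ∈ D', T5.IsTwRegular Dd.s Dd.l Dd.k (trl193 (a' t') φ'))
    (hreg : ∀ t ∈ D, T5.IsTwRegular (T5.AdelicAut.id K) 1 ⊤ (trl193 (a t) f))
    (hM : ∀ t' ∈ D', IsGlobMatch Dd (trl193 (a' t') φ')
      (trl193 (a (fibSum193 (K := K) t')) f)) :
    IsGlobMatch Dd (nat193 a' D' φ') (nat193 a D f) :=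
  natMatch193 hT1 hT1' (H863.flatNatC_863 K) (H863.flatNatC_863 K') (H890.jointIntC890 K)
    (H890.jointIntC890 K') hRS hRS' Dd hDd hTB hTB' hrel φ' f hφ'c hφ's hfc hfs hreg' hreg hM

end Fermat.Agent.LT.T7.H193

end

end
-- ===== PACK-END LT/T7/H193/NatMatchClosed.lean

-- ===== PACK-BEGIN LT/T7/H296/ClassModelULeaves.lean
section




/-!
# Row LT, tower T7, `ClassModelC` IN CORE FORM (cut of helper675 on `H29.UpData`): leaves CM.06,
# CM.07, CM.08 -- helper296, OFF-MAIN

VERBATIM vs `LT/T7/H675/ClassModelU.lean` (helper675@17fa7d760, sha256 9a359011), unconditional: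

* `locCommUC296 : CMU675.LocCommUC675 K'` (CM.06, core form),
* `locMoveUC296 : CMU675.LocMoveUC675 K'` (CM.07, core form),
* `powUC296 : CMU675.PowUC675 K'` (CM.08, core form).

The general lemmas are those of `ClassModelLeaves.lean` (`comm_of_local296`,
`local_onGinv296`); assets of helper415 (`LT/T5/H415/AutT5.lean`).
-/

set_option autoImplicit false

open AutomorphicForm IsDedekindDomain NumberField

noncomputable section

namespace Fermat.Agent.LT.T7.H296

open Fermat.Agent.LT.H556 Fermat.Agent.LT.H556.A0 Fermat.Agent.LT.T7 Fermat.Agent.LT.T7.CMU675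
open Fermat.Agent.LT.H415

variable {K' : Type} [Field K'] [NumberField K']

/-- `σ` is cyclic of degree `ℓ`. -/
theorem cyc_of_up296 {ℓ : ℕ} {Φ : HeckeEigensystem K' ℂ} {U : H29.UpData K'}
    (hD : H29.IsUpData ℓ Φ U) : T5.IsCyclicOfDegree U.s ℓ U.k := by
  have h := hD.cyc
  have hl : U.l = ℓ := hD.deg
  rw [← hl]
  exact h

/-- The places `o i`, `i < ℓ`, of the orbit are pairwise different. -/
theorem orbit_injU296 {ℓ : ℕ} {Φ : HeckeEigensystem K' ℂ} {U : H29.UpData K'}
    (hD : H29.IsUpData ℓ Φ U) : ∀ i j : ℕ, i < j → j < ℓ → U.o i ≠ U.o j := by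
  intro i
  induction i with
  | zero =>
    intro j hij hj h
    exact hD.orbit_ne j hij hj h.symm
  | succ i ih =>
    intro j hij hj h
    obtain ⟨j', rfl⟩ : ∃ j', j = j' + 1 := ⟨j - 1, by omega⟩
    have h1 : T5.PlaceRel U.s (U.o i) (U.o (i + 1)) := hD.orbit_rel i
    have h2 : T5.PlaceRel U.s (U.o j') (U.o (i + 1)) := by
      rw [h]
      exact hD.orbit_rel j'
    exact ih j' (by omega) (by omega) (finRel_inj415 U.s.σ (U.o i) (U.o j') (U.o (i + 1)) h1 h2)

variable (K')

/-- **LEAF CM.06, core form `LocCommUC675`**, VERBATIM. -/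
theorem locCommUC296 : LocCommUC675 K' := by
  intro ℓ Φ U ctx i hi j hj hij h h' hh hh'
  have hne : U.o i ≠ U.o j := by
    rcases lt_or_gt_of_ne hij with h1 | h1
    · exact orbit_injU296 ctx.data i j h1 hj
    · exact (orbit_injU296 ctx.data j i h1 hi).symm
  exact comm_of_local296 hne hh hh'

/-- **LEAF CM.07, core form `LocMoveUC675`**, VERBATIM. -/
theorem locMoveUC296 : LocMoveUC675 K' := by
  intro ℓ Φ U ctx
  refine ⟨fun j _ h hh => local_onGinv296 U.s (ctx.data.orbit_rel j) hh, fun h hh => ?_⟩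
  have hc := cyc_of_up296 ctx.data
  have hper : U.o ℓ = U.o 0 :=
    T5.H415.orbit_period415 U.s ℓ U.k hc U.o ctx.data.orbit_rel
  have hrel : T5.PlaceRel U.s (U.o (ℓ - 1)) (U.o 0) := by
    have := ctx.data.orbit_rel (ℓ - 1)
    rw [Nat.sub_add_cancel hc.pos, hper] at this
    exact this
  exact local_onGinv296 U.s hrel hh

/-- **LEAF CM.08, core form `PowUC675`**, VERBATIM. -/
theorem powUC296 : PowUC675 K' := by
  intro ℓ Φ U ctx x
  have hc := cyc_of_up296 ctx.data
  have h1 : (⇑U.s.onG)^[ℓ] x = x := T5.H415.onG_iterate415 U.s ℓ U.k hc x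
  have hli : Function.LeftInverse (⇑U.s.onGinv) (⇑U.s.onG) := by
    intro y
    apply Units.ext
    ext i j
    show U.s.σA.symm (U.s.σA ((y : Matrix (Fin 2) (Fin 2) (Adl K')) i j)) = _
    rw [RingEquiv.symm_apply_apply]
  have h2 := (hli.iterate ℓ) x
  rw [h1] at h2
  exact h2

end Fermat.Agent.LT.T7.H296

end

end
-- ===== PACK-END LT/T7/H296/ClassModelULeaves.lean

-- ===== PACK-BEGIN LT/T7/H732/SupplyQPreSpec.lean
section




/-!
# Row LT, tower T7, node T7.L2Q.1.F0 `PreQ60C732` (quadratic step `F = ℚ(√-3)` over `ℚ`):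
# THIRD CUT -- Spec (helper732, registry row 2322; mirror of helper893 `SupplyPreSpec.lean`)

OFF-MAIN.  Definitions and ONE frozen node only (the proved top is `SupplyQPreTop.lean`).  No
hole, nothing assumed.  ADDITIVE (new names only, all suffixed `732`).  Vocabulary:
`T7/H732/SupplyQFamSpec.lean` + `SupplyQFam60.lean` (second cut), `T7/H893/SupplyPreSpec.lean`
(helper893@8105d61ac, sha256 37db5856: the two support leaves `H893.RegSuppC`, `H893.RegSupp0C`
are USED AS THEY ARE, for the fields `F` and `ℚ`), `T5/SpecZ.lean` + `T5/H32/RegConv.lean`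
(helper32, closed), byte-identical copies.

    preQ60C_of_geo732 : PreGeoQ60C732 P F → H893.RegSuppC F → H893.RegSupp0C ℚ → PreQ60C732 P F

## The cut: REGULARITY is split off

`IsL2QPre732` = `IsL2QPreOp732` (the 31 fields on levels, coset systems, test functions,
operators) + `reg_up`, `reg_down`, `matched`.  The two regularity fields follow from SUPPORT
conditions on the base functions (`IsL2QPreSupp732`: Iwahori along the orbit, compact outside the
orbit; the `K_∞`-type plays no role) by the closed device of T5 (`T5.H32.exists_depth_conv32`,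
helper32) and the two bookkeeping leaves of helper893:

* **`H893.RegSuppC F`** (leaf of helper893, row of helper893; NO new leaf): upstairs.
* **`H893.RegSupp0C ℚ`** (leaf of helper893; NO new leaf): downstairs, for both types.
* **`PreGeoQ60C732 P F`** (NODE = construction + matching): pre-data with `IsL2QPreOp732`,
  `IsL2QPreSupp732` and `matched` (the member upstairs against THE SUM of the two members
  downstairs) from SOME depth on.  The depth of the pre-data is then replaced by the maximum of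
  the depths (the families do not depend on it).
-/

set_option autoImplicit false

open AutomorphicForm IsDedekindDomain NumberField MeasureTheory
open scoped ComplexConjugate

noncomputable section

namespace Fermat.Agent.LT.T7.H732

open Fermat.Agent.LT.H556 Fermat.Agent.LT.H556.A0 Fermat.Agent.LT.T7 Fermat.Agent.LT.T7.L2Q
  Fermat.Agent.LT.T7.H893 Fermat.Agent.LT.T7.H962

attribute [local instance] Fermat.Agent.LT.T5.instMeasurableSpaceG

section Pre

variable {F : Type} [Field F] [NumberField F]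

/-- **THE OPERATOR PART OF THE PROPERTIES OF THE PRE-DATA**, quadratic step: the fields of
`IsL2QPre732` except `reg_up`, `reg_down`, `matched` (same names, same statements). -/
structure IsL2QPreOp732 (Φ : HeckeEigensystem F ℂ) (B : L2QBase962 F) (g : G F)
    (E : L2QPre732 F) : Prop where
  -- levels
  level_ne : E.𝔫 ≠ ⊥
  level_g : upI (K' := F) E.𝔫 ≤ B.𝔑₀
  mem_S'_g : ∀ w : HeightOneSpectrum (𝓞 F), w ∈ B.S' ↔ w.asIdeal ∣ upI (K' := F) E.𝔫
  u_level : B.u.asIdeal ∣ E.𝔫
  -- coset systems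
  sysg : IsDblCosetSystem B.𝔑₀ g E.Hg
  sys' : IsIwCosetSystem (B.o 0) E.H'
  unif' : IsScalarUniformizerAt (B.o 0) E.z'
  sys : IsIwCosetSystem B.u E.H
  unif : IsScalarUniformizerAt B.u E.z
  -- the first base function upstairs
  up1_test : ∀ X : List (Gen F), (∀ x ∈ X, x.Out B.S') →
    T5.IsTestFn (upI (K' := F) E.𝔫) T5.trivType (E.Φ₁ X)
  up1_ek : ∀ X : List (Gen F), (∀ x ∈ X, x.Out B.S') →
    T5.IsEK B.R'.μ (E.Φ₁ X) ∧ T5.IsEK B.R'.μ (T5.adjointFn (E.Φ₁ X))
  /-- the scalar of `Φ₁ X` on the invariant eigenfunctions of the base level -/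
  up1_op : ∀ X : List (Gen F), (∀ x ∈ X, x.Out B.S') →
    ∀ (χ : G F → ℂ) (C : EigData F), IsEigFn B.𝔑₀ B.R'.r 2 B.o χ C →
      ∀ x : G F, T5.Rconv B.R'.μ (E.Φ₁ X) χ x = wordEv X C * E.c₁ C * χ x
  -- the second base function upstairs
  up2_test : T5.IsTestFn (upI (K' := F) E.𝔫) T5.trivType E.φ₂
  up2_ek : T5.IsEK B.R'.μ E.φ₂ ∧ T5.IsEK B.R'.μ (T5.adjointFn E.φ₂)
  up2_inv : IsUInv B.𝔑₀ 2 B.o E.φ₂
  /-- the scalar of `φ₂` on the invariant eigenfunctions of the base level -/
  up2_op : ∀ (ψ : G F → ℂ) (C : EigData F), IsEigFn B.𝔑₀ B.R'.r 2 B.o ψ C →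
    ∀ x : G F, T5.Rconv B.R'.μ E.φ₂ ψ x = E.c₂ C * ψ x
  /-- `♮`-KILL upstairs -/
  up2_kill : ∀ ψ : G F → ℂ, T5.IsCuspFn (upI (K' := F) E.𝔫) T5.trivType B.R'.r ψ →
    (∀ χ : G F → ℂ, IsWFn B.𝔑₀ B.R'.r 2 B.o χ → T5.innerD B.R'.μ B.R'.F ψ χ = 0) →
    ∀ x : G F, T5.Rconv B.R'.μ E.φ₂ ψ x = 0
  /-- the scalars do not vanish on the class of `Φ` -/
  up_ne : ∀ C : EigData F, C.AgreeOut B.S' (eigOf Φ) → E.c₁ C ≠ 0 ∧ E.c₂ C ≠ 0
  -- the first base functions downstairs
  dn1_test : ∀ (n : QWt) (X : List (Gen F)), (∀ x ∈ X, x.Out B.S') →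
    T5.IsTestFn E.𝔫 n.type (E.F₁ n X)
  dn1_ek : ∀ (n : QWt) (X : List (Gen F)), (∀ x ∈ X, x.Out B.S') →
    T5.IsEK B.R.μ (E.F₁ n X) ∧ T5.IsEK B.R.μ (T5.adjointFn (E.F₁ n X))
  /-- the word acts downstairs through the base change of the eigen-data -/
  dn1_op : ∀ (n : QWt) (X : List (Gen F)), (∀ x ∈ X, x.Out B.S') →
    ∀ (χ : G ℚ → ℂ) (c : EigData ℚ) (C : EigData F),
      IsEigFnQ n E.𝔫 B.R.r B.u χ c → IsBCDataQ n c C B.S →
      ∀ x : G ℚ, T5.Rconv B.R.μ (E.F₁ n X) χ x
        = wordEv X C * T5.Rconv B.R.μ (E.F₁ n []) χ x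
  /-- `R(F₁ n [])` preserves the invariant cusp functions of type `n` -/
  dn1_wfn : ∀ (n : QWt) (ψ : G ℚ → ℂ), IsWFnQ n E.𝔫 B.R.r B.u ψ →
    IsWFnQ n E.𝔫 B.R.r B.u (T5.Rconv B.R.μ (E.F₁ n []) ψ)
  /-- `R(F₁ n [])` preserves the eigen-classes of type `n` -/
  dn1_class : ∀ (n : QWt) (ψ : G ℚ → ℂ) (c : EigData ℚ), IsEigFnQ n E.𝔫 B.R.r B.u ψ c →
    IsEigFnQ n E.𝔫 B.R.r B.u (T5.Rconv B.R.μ (E.F₁ n []) ψ) c
  /-- `R(F₁ n [])` commutes with the operators at `u` -/
  dn1_comm : ∀ (n : QWt) (ψ : G ℚ → ℂ), IsWFnQ n E.𝔫 B.R.r B.u ψ →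
    ∀ (H : Finset (G ℚ)) (z : G ℚ), IsIwCosetSystem B.u H → IsScalarUniformizerAt B.u z →
      (∀ x : G ℚ, T5.Rconv B.R.μ (E.F₁ n []) (iwOp B.u H ψ) x
        = iwOp B.u H (T5.Rconv B.R.μ (E.F₁ n []) ψ) x) ∧
      ∀ (k : ℤ) (x : G ℚ), T5.Rconv B.R.μ (E.F₁ n []) (shiftOp z k ψ) x
        = shiftOp z k (T5.Rconv B.R.μ (E.F₁ n []) ψ) x
  -- the second base functions downstairs
  dn2_test : ∀ n : QWt, T5.IsTestFn E.𝔫 n.type (E.f₂ n)
  dn2_ek : ∀ n : QWt, T5.IsEK B.R.μ (E.f₂ n) ∧ T5.IsEK B.R.μ (T5.adjointFn (E.f₂ n))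
  dn2_inv : ∀ n : QWt, IsUInv E.𝔫 1 (fun _ => B.u) (E.f₂ n)
  dn2_wfn : ∀ (n : QWt) (ψ : G ℚ → ℂ), IsWFnQ n E.𝔫 B.R.r B.u ψ →
    IsWFnQ n E.𝔫 B.R.r B.u (T5.Rconv B.R.μ (E.f₂ n) ψ)
  dn2_class : ∀ (n : QWt) (ψ : G ℚ → ℂ) (c : EigData ℚ), IsEigFnQ n E.𝔫 B.R.r B.u ψ c →
    IsEigFnQ n E.𝔫 B.R.r B.u (T5.Rconv B.R.μ (E.f₂ n) ψ) c
  dn2_comm : ∀ (n : QWt) (ψ : G ℚ → ℂ), IsWFnQ n E.𝔫 B.R.r B.u ψ →
    ∀ (H : Finset (G ℚ)) (z : G ℚ), IsIwCosetSystem B.u H → IsScalarUniformizerAt B.u z →
      (∀ x : G ℚ, T5.Rconv B.R.μ (E.f₂ n) (iwOp B.u H ψ) x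
        = iwOp B.u H (T5.Rconv B.R.μ (E.f₂ n) ψ) x) ∧
      ∀ (k : ℤ) (x : G ℚ), T5.Rconv B.R.μ (E.f₂ n) (shiftOp z k ψ) x
        = shiftOp z k (T5.Rconv B.R.μ (E.f₂ n) ψ) x
  /-- `♮`-KILL downstairs, type `n` -/
  dn2_kill : ∀ (n : QWt) (ψ : G ℚ → ℂ), T5.IsCuspFn E.𝔫 n.type B.R.r ψ →
    (∀ χ : G ℚ → ℂ, IsWFnQ n E.𝔫 B.R.r B.u χ → T5.innerD B.R.μ B.R.F ψ χ = 0) →
    ∀ x : G ℚ, T5.Rconv B.R.μ (E.f₂ n) ψ x = 0

/-- **THE SUPPORTS OF THE BASE FUNCTIONS**, quadratic step: Iwahori along the orbit, compact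
outside it (upstairs: the orbit `o 0, o 1`; downstairs: the place `u`, both types). -/
structure IsL2QPreSupp732 (B : L2QBase962 F) (E : L2QPre732 F) : Prop where
  up1_supp : ∀ X : List (Gen F), (∀ x ∈ X, x.Out B.S') →
    ∃ C : Set (G F), IsCompact C ∧ T5.H32.IsIwSupported32 2 B.o C (E.Φ₁ X)
  up2_supp : ∃ C : Set (G F), IsCompact C ∧ T5.H32.IsIwSupported32 2 B.o C E.φ₂
  dn1_supp : ∀ (n : QWt) (X : List (Gen F)), (∀ x ∈ X, x.Out B.S') →
    ∃ C : Set (G ℚ), IsCompact C ∧ T5.H32.IsIwSupported32 1 (fun _ => B.u) C (E.F₁ n X)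
  dn2_supp : ∀ n : QWt,
    ∃ C : Set (G ℚ), IsCompact C ∧ T5.H32.IsIwSupported32 1 (fun _ => B.u) C (E.f₂ n)

/-- The SUM of the two members downstairs (the function matched with the member upstairs). -/
def L2QPre732.dsum (B : L2QBase962 F) (E : L2QPre732 F) (X : List (Gen F)) (k : ℤ) (m : ℕ) :
    G ℚ → ℂ :=
  fun x => E.down B QWt.w0 X k m x + E.down B QWt.w1 X k m x

end Pre

/-! ## The node -/

section Node

variable (P : EKCond)
variable (F : Type) [Field F] [NumberField F]

/-- **NODE T7.L2Q.1.G0 = PRE-GEO over `ℚ` (construction + matching), on the first cut of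
helper60.**  For a common part of helper60 and one bad element there are pre-data with the
operator properties, the supports, and MATCHED families (the member upstairs against the sum of
the two members downstairs) from some depth on.  Mirror of `H893.PreGeoC`. -/
def PreGeoQ60C732 : Prop :=
  HasSqrtNegThree F → IsImagQuad F →
    ∀ Φ : HeckeEigensystem F ℂ, A0.IsCuspAdelicSph0 F Φ → ConstOnFibresQ Φ → P F Φ →
      ∀ B : L2Q.H60.L2QBase F, L2Q.H60.IsL2QBase Φ B → ∀ g : G F, B.IsBad g →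
        ∃ E : L2QPre732 F, IsL2QPreOp732 Φ (toBase962_732 B) g E ∧
          IsL2QPreSupp732 (toBase962_732 B) E ∧
          ∃ m₂ : List (Gen F) → ℕ,
            ∀ (X : List (Gen F)) (k : ℤ) (m : ℕ), (∀ x ∈ X, x.Out B.S') → m₂ X ≤ m →
              IsGlobMatch ((toBase962_732 B).comp E.𝔫) (E.up (toBase962_732 B) X k m)
                (E.dsum (toBase962_732 B) X k m)

end Node

/-! ## Appendix: the equation lemmas of the definitions of this file are realised HERE -/

theorem eqns_realised_supplyQPre732 : True := by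
  have _h0_0 := @L2QPre732.dsum.eq_1
  have _h0_1 := @L2QPre732.dsum.eq_def
  have _h0_2 := @L2QPre732.dsum.eq_unfold
  have _h1_0 := @PreGeoQ60C732.eq_1
  have _h1_1 := @PreGeoQ60C732.eq_def
  have _h1_2 := @PreGeoQ60C732.eq_unfold
  trivial

end Fermat.Agent.LT.T7.H732

end

end
-- ===== PACK-END LT/T7/H732/SupplyQPreSpec.lean

-- ===== PACK-BEGIN LT/T7/H864/UpDatQSpec.lean
section



/-!
# Row LT, tower T7, leaf Q2.7.13.1.a `H1U.UpDatExistsQC` (registry row 2785, owner helper864):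
# THE CUT -- Spec

OFF-MAIN.  Definitions and frozen Props only (the proved top is `UpDatQTop.lean`).  No hole,
nothing assumed.  ADDITIVE (new names only, suffix `864`).  Vocabulary:
`T7/H1U/UpFactQSpec.lean` (helper1@7e90b91d7, sha256 88d08be1) and its imports, byte-identical.

    upDatExistsQC_of864 : UpInertQC864 F → UpSplitQC864 F → UpArchQC864 → H1U.UpDatExistsQC F

The data upstairs are chosen PLACE BY PLACE; the three leaves are the three kinds of places.

* `UpInertQC864 F` [L] (ONE place `w` over `v`): there are `β'`, `J` with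
  `H1U.IsInertAtQ D n φ₀ δ v w β' J`.
  Proof.  `(e, i, s_w)` with `rat_i`, `rat_s`, `IsLocalExt`: `T6.InstExtC` (field of `T6.T6Out`)
  for the generator `D.s.σ` of the Galois group (helper584 `algAut584`, `algAut_gen584`;
  `PlaceOver` in the form of ideals; a place `w'` with `v ⊆ w' ∩ ℤ` lies over `v`: `v` is
  maximal).  `μ'`, `μt'`: `H305.LocMeasC305` (closed: helper729) with `T6.InstLocalC`; `β'`:
  `H305.LocCutC305` (closed: helper543).  Regularity: `twNorm s_w l δ_w` is the image of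
  `N δ = γ` under `ℚ → F → F_w` (`rat_s`, helper584 `twNorm_eq_normUpTo584`), `γ` is regular and
  the discriminant commutes with ring homomorphisms.  `J` := the integral.
* `UpSplitQC864 F` [L] (TWO places over `v`; arithmetic only): for a place `w0` over `v` and a
  second place `w1 ≠ w0` over `v` there is an enumeration `w j` of places over `v` with
  `w 0 = w0`, `w j = σ(w (j+1))` (`T5.PlaceRel`), `w j ≠ w 0` for `0 < j < l`, and valuation
  preserving identifications `i j : ℚ_v ≃ F_{w j}` over `ℚ → F`.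
  Proof.  `w (j+1) := σ⁻¹(w j)` (the comap of a height one prime under `σ`), all over `v`
  (`σ` fixes `ℚ`).  The Galois group `{1, σ}` is transitive on the primes over `v`
  (`Ideal.exists_map_eq_of_isGalois`), so `σ(w0) = w0` would imply that `w0` is the only place
  over `v`: `w 1 ≠ w 0`.  `g e f = 2` (`Ideal.ncard_primesOver_mul_ramificationIdxIn_mul_
  inertiaDegIn`) and `g ≥ 2`: `e = f = 1` at EVERY place over `v`, i.e. the hypotheses of
  `T6.InstSplitC` (as in helper768 `splitOrUniqueC768`): `i j` with `rat_i`, `val_i`.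
* `UpArchQC864` [L] (no field; the real place): for `γ ∈ GL₂(ℚ)` elliptic and a Haar measure
  `μtr` of the centraliser `T` of `γ_∞` in `GL₂(ℝ)` there is a continuous `β' ≥ 0` on `GL₂(ℂ)`
  with `∫_T β'(t_ℂ x) dμtr(t) = 1` for all `x ∈ GL₂(ℂ)`.
  Proof.  `GL₂(ℝ) → GL₂(ℂ)` is a closed embedding and a homomorphism; the image `T'` of `T` is
  a closed commutative subgroup of `GL₂(ℂ)` (`γ_∞` is regular: the centraliser is commutative),
  the image of `μtr` is a Haar measure of `T'` (right invariant: commutative);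
  `exists_cutoff584` (helper584, `T7/H584/Cutoff.lean`, Mathlib only) for `GL₂(ℂ)` (locally
  compact, `σ`-compact), `T'`.

FALSITY CHECKS (helper864).  `UpInertQC864`: all objects exist by the closed leaves named; the
value `J` is free.  `UpSplitQC864`: `F/ℚ` quadratic, `v` with two places over it is split
(`e = f = 1`), `ℚ_v = F_w` for both; `w (2k) = w0`, `w (2k+1) = σ⁻¹(w0) = σ(w0) = w1`.  No
hypothesis on the levels (the levels enter in the top, from `H1U.LevelsAtSplitQ`).
`UpArchQC864`: `T` is `ℝ^× × ℝ^×` or `ℂ^×`, closed in `GL₂(ℂ)`, not cocompact: the cut-off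
function is not compactly supported, which is not asked.
-/

set_option autoImplicit false

open AutomorphicForm IsDedekindDomain NumberField MeasureTheory
open scoped ComplexConjugate

noncomputable section

namespace Fermat.Agent.LT.T7.H864

open Fermat.Agent.LT.H556 Fermat.Agent.LT.H556.A0 Fermat.Agent.LT.T7 Fermat.Agent.LT.T7.H305
open Fermat.Agent.LT.T7.MQ298 Fermat.Agent.LT.T7.H340 Fermat.Agent.LT.T7.FUQ514
open Fermat.Agent.LT.T7.H1U

attribute [local instance] Fermat.Agent.LT.T5.instMeasurableSpaceG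

section Leaves

variable (F : Type) [Field F] [NumberField F]

/-- **LEAF UQ.1 = UP-INERT-Q (one place over `v`).**  See the header. -/
def UpInertQC864 : Prop :=
  T6.T6Out →
  ∀ D : CompData ℚ F, IsCompData D → IsCycExt ℚ F D.l →
    ∀ (n : HeightOneSpectrum (𝓞 F) → ℕ)
      (φ₀ : ∀ w : HeightOneSpectrum (𝓞 F), GL (Fin 2) (w.adicCompletion F) → ℂ)
      (δ : GL (Fin 2) F) (γ : GL (Fin 2) ℚ), T6.IsEll γ →
      D.s.normUpTo D.l δ = Matrix.GeneralLinearGroup.map (algebraMap ℚ F) γ →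
    ∀ (v : HeightOneSpectrum (𝓞 ℚ)) (w : HeightOneSpectrum (𝓞 F)), PlaceOver ℚ F v w →
      (∀ w' : HeightOneSpectrum (𝓞 F), PlaceOver ℚ F v w' → w' = w) →
      ∃ (β' : GL (Fin 2) (w.adicCompletion F) → ℝ) (J : ℂ), IsInertAtQ D n φ₀ δ v w β' J

/-- **LEAF UQ.2 = UP-SPLIT-Q (two places over `v`; arithmetic).**  See the header. -/
def UpSplitQC864 : Prop :=
  T6.T6Out →
  ∀ D : CompData ℚ F, IsCompData D → IsCycExt ℚ F D.l → D.l = 2 →
    ∀ (v : HeightOneSpectrum (𝓞 ℚ)) (w0 w1 : HeightOneSpectrum (𝓞 F)),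
      PlaceOver ℚ F v w0 → PlaceOver ℚ F v w1 → w1 ≠ w0 →
      ∃ (w : ℕ → HeightOneSpectrum (𝓞 F))
        (i : ∀ j : ℕ, v.adicCompletion ℚ ≃+* (w j).adicCompletion F),
        w 0 = w0 ∧
        (∀ j : ℕ, PlaceOver ℚ F v (w j)) ∧
        (∀ j : ℕ, T5.PlaceRel D.s (w (j + 1)) (w j)) ∧
        (∀ j : ℕ, 0 < j → j < D.l → w j ≠ w 0) ∧
        (∀ (j : ℕ) (x : ℚ), i j (algebraMap ℚ (v.adicCompletion ℚ) x)
          = algebraMap F ((w j).adicCompletion F) (algebraMap ℚ F x)) ∧
        ∀ (j : ℕ) (x : v.adicCompletion ℚ), Valued.v (i j x) = Valued.v x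

end Leaves

/-- **LEAF UQ.3 = UP-ARCH-Q (the real place; no field).**  See the header. -/
def UpArchQC864 : Prop :=
  ∀ γ : GL (Fin 2) ℚ, T6.IsEll γ →
    ∀ μtr : @Measure (cent305 (reGLQ298 (T5.ratG γ))) (borel _),
      @Measure.IsHaarMeasure _ _ _ (borel _) μtr →
      ∃ β' : GL (Fin 2) ℂ → ℝ, Continuous β' ∧ (∀ x, 0 ≤ β' x) ∧
        ∀ x : GL (Fin 2) ℂ,
          @integral _ _ _ _ (borel _) μtr
            (fun t : cent305 (reGLQ298 (T5.ratG γ)) =>
              β' (Matrix.GeneralLinearGroup.map (algebraMap ℝ ℂ) (t : GL (Fin 2) ℝ) * x)) = 1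

/-! ## Appendix: the equation lemmas of the definitions are realised HERE -/

theorem eqns_realisedUQ864 : True := by
  have _a1 := @UpInertQC864.eq_1
  have _a2 := @UpInertQC864.eq_def
  have _a3 := @UpInertQC864.eq_unfold
  have _b1 := @UpSplitQC864.eq_1
  have _b2 := @UpSplitQC864.eq_def
  have _b3 := @UpSplitQC864.eq_unfold
  have _c1 := @UpArchQC864.eq_1
  have _c2 := @UpArchQC864.eq_def
  have _c3 := @UpArchQC864.eq_unfold
  trivial

end Fermat.Agent.LT.T7.H864

end

end
-- ===== PACK-END LT/T7/H864/UpDatQSpec.lean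

-- ===== PACK-BEGIN LT/T7/H341/UpInertSpec.lean
section



/-!
# Row LT, tower T7, node UD.1 `UD341.UpInertC341` (helper341, registry 2780): THE CUT -- Spec

OFF-MAIN.  Frozen Props only (the proved top `upInertC_of341` is in `UpInertTop.lean`).  No hole,
nothing assumed.  ADDITIVE (new names only, suffix `341`, namespace
`Fermat.Agent.LT.T7.UD341`).

    upInertC_of341 : LocMeasC305 → LocCutC305 → SigmaLocC305 (K := K') →
      InertExtC341 K K' → InertTorC341 → UpInertC341 K K'

`LocMeasC305`, `LocCutC305`, `SigmaLocC305` are CLOSED (helper729 `locMeasC729`, helper543,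
helper558 `sigmaLocC558`).  The norm relation `N δ_w = i(γ_v)` and the regularity of `γ_v` are
proved in the top.

* `InertExtC341` (TWO number fields, ONE place `w` over `v`): the triple `(e, i, s_w)` of
  `T6.InstExtC` with the two adelic compatibilities `sig`, `iot`.  Algebra and one density
  argument; no measure.
* `InertTorC341` (ABSTRACT local fields `k ⊆ k'`, no number field): the Haar measure of the
  twisted centraliser upstairs is the image of the one of the centraliser downstairs.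
-/

set_option autoImplicit false

open AutomorphicForm IsDedekindDomain NumberField MeasureTheory
open scoped ComplexConjugate

noncomputable section

namespace Fermat.Agent.LT.T7.UD341

open Fermat.Agent.LT.H556 Fermat.Agent.LT.H556.A0 Fermat.Agent.LT.T7 Fermat.Agent.LT.T7.H305
open Fermat.Agent.LT.T7.H340

attribute [local instance] Fermat.Agent.LT.T5.instMeasurableSpaceG

/-- **LEAF UI.2 = INERT-TOR (abstract local fields, NO number field).**  `k'/k` a cyclic
extension of valued fields (`T6.IsLocalExt`), `γ ∈ GL₂(k)` regular, `N δ = i(γ)`, `μt` a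
normalised Haar measure of the centraliser of `γ`: there is a normalised Haar measure `μt'` of
the `s`-twisted centraliser of `δ` which is the image of `μt` under `t ↦ GL₂(i)(t)`.
Proof.  `φ : t ↦ GL₂(i)(t)` maps the centraliser of `γ` ONTO the twisted centraliser of `δ`
(`T6.TwCentC` for `IsLocalExt.cyc`; `glAut refl = id`), it is an injective homomorphism
(`i` is injective) and a topological embedding: `v'(i x) = v(x)^e`, `e > 0`, so the topology of
`k` is induced by `i`, hence the one of `M₂(k)` by `M₂(i)` and the one of the units by `GL₂(i)`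
(`Units.isEmbedding_embedProduct`).  So `φ` is an isomorphism of topological groups and
`μt' = Measure.map φ μt` is a Haar measure (`MulEquiv.isHaarMeasure_map`).  The link is
`Measure.map_apply` (`φ` is continuous, `{t | ↑t ∈ A}` is a Borel set).  Normalisation:
`tr(GL₂(i) t) = i(tr t)`, `det(GL₂(i) t) = i(det t)`, `v(x)^e ≤ 1 ↔ v(x) ≤ 1`,
`v(x)^e = 1 ↔ v(x) = 1`.  (No local compactness is needed.) -/
def InertTorC341 : Prop :=
  T6.TwCentC →
  ∀ (k k' : Type) [Field k] [Field k'] [Valued k T6.Γ₀] [Valued k' T6.Γ₀] (l e : ℕ)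
    (i : k →+* k') (s : k' ≃+* k'), T6.IsLocalExt k k' l e i s →
    ∀ (δ : GL (Fin 2) k') (γ : GL (Fin 2) k), T6.IsReg γ →
      T6.twNorm s l δ = Matrix.GeneralLinearGroup.map i γ →
    ∀ μt : @Measure (T6.twCentSub (T6.glAut (RingEquiv.refl k)) γ) (borel _),
      IsLocTor305 (RingEquiv.refl k) γ μt →
      ∃ μt' : @Measure (T6.twCentSub (T6.glAut s) δ) (borel _),
        IsLocTor305 s δ μt' ∧
        ∀ A : Set (GL (Fin 2) k'), @MeasurableSet _ (borel _) A →
          μt' {t | (t : GL (Fin 2) k') ∈ A}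
            = μt {t | Matrix.GeneralLinearGroup.map i (t : GL (Fin 2) k) ∈ A}

section TwoFields

variable (K K' : Type) [Field K] [NumberField K] [Field K'] [NumberField K'] [Algebra K K']

/-- **LEAF UI.1 = INERT-EXT (ONE place `w` over `v`).**  The embedding `i : K_v → K'_w` of the
completions and the local automorphism `s_w` of `K'_w`, with the ramification index `e`: they
extend `K → K'` and `σ`, form a cyclic extension of local fields of degree `l`, and are the
components of `ι` and of `σ_𝔸`.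
Proof.  `σ = D.s.σ` fixes `K` (`IsCompData.cyc.fixed`, `IsCompData.base`), so it is a
`K`-algebra automorphism; it has order exactly `l` (`pow_eq`, `faithful`) and the Galois group
has `l = [K' : K]` elements (`IsCycExt`), so it generates.  `PlaceOver v w` gives the first
hypothesis of `T6.InstExtC`; the second: if `v ⊆ w' ∩ 𝓞_K` then `w' ∩ 𝓞_K = v` (`v` is maximal,
`1 ∉ w'`), so `PlaceOver v w'` and `w' = w`.  `T6.InstExtC` gives `(e, i, s_w)` with `rat_i`,
`rat_s`, `IsLocalExt` (`finrank = l`).  `σ(w)` is a place over `v`, so `σ(w) = w`: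
`T5.PlaceRel D.s w w`, and `SigmaLocC305` gives `s'` over `σ` with `(σ_𝔸 a)_w = s'(a_w)` and
`v(s' x) = v(x)`; `s' = s_w`: both are continuous (`val_s`) and agree on the dense subfield
`K'`.  `IsAdeleBase305.fin` gives `i'` with `(ι x)_w = i'(x_v)`, `v(i' x) = v(x)^{e'}`, `e' > 0`;
`i' = i`: both are continuous and agree on the dense subfield `K`. -/
def InertExtC341 : Prop :=
  T6.InstExtC → SigmaLocC305 (K := K') →
  ∀ D : CompData K K', IsCompData D → IsCycExt K K' D.l →
    ∀ ι : Adl K →+* Adl K', IsAdeleBase305 D.s D.l ι →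
    ∀ (v : HeightOneSpectrum (𝓞 K)) (w : HeightOneSpectrum (𝓞 K')), PlaceOver K K' v w →
      (∀ w' : HeightOneSpectrum (𝓞 K'), PlaceOver K K' v w' → w' = w) →
      ∃ (e : ℕ) (i : v.adicCompletion K →+* w.adicCompletion K')
        (sw : w.adicCompletion K' ≃+* w.adicCompletion K'),
        (∀ x : K, i (algebraMap K (v.adicCompletion K) x)
          = algebraMap K' (w.adicCompletion K') (algebraMap K K' x)) ∧
        (∀ y : K', sw (algebraMap K' (w.adicCompletion K') y)
          = algebraMap K' (w.adicCompletion K') (D.s.σ y)) ∧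
        T6.IsLocalExt (v.adicCompletion K) (w.adicCompletion K') D.l e i sw ∧
        (∀ a : Adl K', T5.finHom w (D.s.σA a) = sw (T5.finHom w a)) ∧
        ∀ x : Adl K, T5.finHom w (ι x) = i (T5.finHom v x)

end TwoFields

/-! ## Appendix: the equation lemmas of the definitions of this file are realised HERE -/

theorem eqns_realised_upInert341 : True := by
  have _h0 := @InertTorC341.eq_1
  have _h1 := @InertExtC341.eq_1
  have _g0 := @InertTorC341.eq_def
  have _g1 := @InertExtC341.eq_def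
  trivial

end Fermat.Agent.LT.T7.UD341

end

end
-- ===== PACK-END LT/T7/H341/UpInertSpec.lean

-- ===== PACK-BEGIN LT/T7/H379/SuppUpKit.lean
section








/-!
# Row LT, tower T7, leaf UF.A2 `SuppUpC340` (cut of helper340, registry row 2746, helper379):
# KIT -- the action of `σ_𝔸` on the components, the orbit `σ^{-n} w₀`, the split local step

OFF-MAIN.  No hole, nothing assumed.  ADDITIVE (suffix `379`).  ONE field `K'`, ANY adelic
automorphism `s` (the base field does not enter).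

* `finGL_onG_sloc379`: the component of `σ(g)` at `σ w` is the image of the component at `w`
  under the local isomorphism `sloc379` of `SigmaLocC305` (closed: helper558 `sigmaLocC558`);
  `infComp_onG_one379`: trivial infinite components stay trivial.
* `eq_of_rat379` (density), `map_congr_place379` (cast lemma).
* `sigI379`, `sigI_iterate379`, `sigI_period379`: the action of `σ` on the ideals; `exists_pre379`,
  `placeRel_inj379`, `placeRel_fun379`.
* `orbit379`, `orbit_period379`, `orbit_inj379` (`l` prime, `σ w₀ ≠ w₀`), `orbit_surj379`.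
* `exists_transport379`, `xn379`: the components along the orbit in `GL₂` of the completion at
  `w 0`; `xn_onG379` (`σ` is the shift), `xn_wrap379`.
* `prodLoc379`: the element with prescribed components on the orbit.
* `mem_tA_of_comp379`: membership in `T_𝔸(δ)` by components.
* **`localStep_split379`**: the local step on an orbit of `l` distinct places (helper159
  `goodUnit_split159`).
-/

set_option autoImplicit false
set_option linter.style.haveILetI false
set_option linter.unusedSectionVars false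
set_option linter.unusedVariables false

open AutomorphicForm IsDedekindDomain NumberField
open scoped ComplexConjugate

noncomputable section

namespace Fermat.Agent.LT.T7.H379

open Fermat.Agent.LT Fermat.Agent.LT.H556 Fermat.Agent.LT.H556.A0 Fermat.Agent.LT.T7
open Fermat.Agent.LT.T7.H305

variable {K' : Type} [Field K'] [NumberField K']

/-! ## 1. The components of `σ(g)` -/

/-- The component of `σ(g)` at `w'`, in terms of the component of `g` at `w = σ⁻¹ w'`. -/
theorem finGL_onG379 (s : T5.AdelicAut K') (w w' : HeightOneSpectrum (𝓞 K'))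
    (sw : w.adicCompletion K' ≃+* w'.adicCompletion K')
    (h : ∀ a : Adl K', T5.finHom w' (s.σA a) = sw (T5.finHom w a)) (g : G K') :
    finGL305 w' (s.onG g)
      = Matrix.GeneralLinearGroup.map
          (sw : w.adicCompletion K' →+* w'.adicCompletion K') (finGL305 w g) := by
  apply Matrix.GeneralLinearGroup.ext
  intro a b
  exact h _

/-- The chosen local isomorphism of `SigmaLocC305` (closed by helper558). -/
def sloc379 (s : T5.AdelicAut K') (w w' : HeightOneSpectrum (𝓞 K'))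
    (h : T5.PlaceRel s w w') : w.adicCompletion K' ≃+* w'.adicCompletion K' :=
  Classical.choose ((H558.sigmaLocC558 (K := K') s).1 w w' h)

theorem sloc_rat379 (s : T5.AdelicAut K') (w w' : HeightOneSpectrum (𝓞 K'))
    (h : T5.PlaceRel s w w') (x : K') :
    sloc379 s w w' h (algebraMap K' (w.adicCompletion K') x)
      = algebraMap K' (w'.adicCompletion K') (s.σ x) :=
  (Classical.choose_spec ((H558.sigmaLocC558 (K := K') s).1 w w' h)).1 x

theorem sloc_val379 (s : T5.AdelicAut K') (w w' : HeightOneSpectrum (𝓞 K'))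
    (h : T5.PlaceRel s w w') (x : w.adicCompletion K') :
    Valued.v (sloc379 s w w' h x) = Valued.v x :=
  (Classical.choose_spec ((H558.sigmaLocC558 (K := K') s).1 w w' h)).2.1 x

theorem sloc_fin379 (s : T5.AdelicAut K') (w w' : HeightOneSpectrum (𝓞 K'))
    (h : T5.PlaceRel s w w') (a : Adl K') :
    T5.finHom w' (s.σA a) = sloc379 s w w' h (T5.finHom w a) :=
  (Classical.choose_spec ((H558.sigmaLocC558 (K := K') s).1 w w' h)).2.2 a

theorem finGL_onG_sloc379 (s : T5.AdelicAut K') (w w' : HeightOneSpectrum (𝓞 K'))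
    (h : T5.PlaceRel s w w') (g : G K') :
    finGL305 w' (s.onG g)
      = Matrix.GeneralLinearGroup.map
          (sloc379 s w w' h : w.adicCompletion K' →+* w'.adicCompletion K') (finGL305 w g) :=
  finGL_onG379 s w w' _ (sloc_fin379 s w w' h) g

/-! ## 2. Infinite places -/

theorem infComp_onG_one379 (s : T5.AdelicAut K') (g : G K')
    (hg : ∀ w : InfinitePlace K', H129.infCompHom129 w g = 1) (w : InfinitePlace K') :
    H129.infCompHom129 w (s.onG g) = 1 := by
  have hentry : ∀ (w₁ : InfinitePlace K') (a b : Fin 2),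
      T5.infHom w₁ ((g : Matrix (Fin 2) (Fin 2) (Adl K')) a b)
        = ((1 : Matrix (Fin 2) (Fin 2) ℂ) a b) := by
    intro w₁ a b
    have h1 := congrArg (fun u : GL (Fin 2) w₁.Completion =>
      (u : Matrix (Fin 2) (Fin 2) w₁.Completion) a b) (hg w₁)
    have h2 : ((g : Matrix (Fin 2) (Fin 2) (Adl K')) a b).1 w₁
        = (1 : Matrix (Fin 2) (Fin 2) w₁.Completion) a b := h1
    show InfinitePlace.Completion.extensionEmbedding w₁
        (((g : Matrix (Fin 2) (Fin 2) (Adl K')) a b).1 w₁) = _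
    rw [h2]
    by_cases hab : a = b
    · rw [hab, Matrix.one_apply_eq, Matrix.one_apply_eq, map_one]
    · rw [Matrix.one_apply_ne hab, Matrix.one_apply_ne hab, map_zero]
  have hconj : ∀ a b : Fin 2, conj ((1 : Matrix (Fin 2) (Fin 2) ℂ) a b)
      = (1 : Matrix (Fin 2) (Fin 2) ℂ) a b := by
    intro a b
    by_cases hab : a = b
    · rw [hab, Matrix.one_apply_eq, map_one]
    · rw [Matrix.one_apply_ne hab, map_zero]
  have hσ : ∀ a b : Fin 2,
      T5.infHom w (s.σA ((g : Matrix (Fin 2) (Fin 2) (Adl K')) a b))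
        = ((1 : Matrix (Fin 2) (Fin 2) ℂ) a b) := by
    intro a b
    rcases (H558.sigmaLocC558 (K := K') s).2 w with h | h
    · rw [h, hentry]
    · rw [h, hentry, hconj]
  apply Matrix.GeneralLinearGroup.ext
  intro a b
  have inj := (InfinitePlace.Completion.extensionEmbedding w).injective
  apply inj
  have h3 := hσ a b
  show InfinitePlace.Completion.extensionEmbedding w
      ((s.σA ((g : Matrix (Fin 2) (Fin 2) (Adl K')) a b)).1 w) = _
  rw [show InfinitePlace.Completion.extensionEmbedding w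
      ((s.σA ((g : Matrix (Fin 2) (Fin 2) (Adl K')) a b)).1 w)
      = T5.infHom w (s.σA ((g : Matrix (Fin 2) (Fin 2) (Adl K')) a b)) from rfl, h3]
  by_cases hab : a = b
  · rw [hab, Matrix.one_apply_eq]
    show (1 : ℂ) = InfinitePlace.Completion.extensionEmbedding w
      ((1 : Matrix (Fin 2) (Fin 2) w.Completion) b b)
    rw [Matrix.one_apply_eq, map_one]
  · rw [Matrix.one_apply_ne hab]
    show (0 : ℂ) = InfinitePlace.Completion.extensionEmbedding w
      ((1 : Matrix (Fin 2) (Fin 2) w.Completion) a b)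
    rw [Matrix.one_apply_ne hab, map_zero]

/-! ## 3. Uniqueness of the local isomorphisms (density) -/

theorem eq_of_rat379 {w w' : HeightOneSpectrum (𝓞 K')}
    (c c' : w.adicCompletion K' →+* w'.adicCompletion K')
    (hc : ∀ x, Valued.v (c x) = Valued.v x) (hc' : ∀ x, Valued.v (c' x) = Valued.v x)
    (h : ∀ y : K', c (algebraMap K' (w.adicCompletion K') y)
      = c' (algebraMap K' (w.adicCompletion K') y)) (a : w.adicCompletion K') : c a = c' a := by
  have h1 : Continuous c :=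
    H453.continuous_of_valued_eq453 (HeightOneSpectrum.valuedAdicCompletion_surjective K' w)
      (HeightOneSpectrum.valuedAdicCompletion_surjective K' w') (⇑c)
      (fun x y => (map_sub c x y).symm) hc
  have h2 : Continuous c' :=
    H453.continuous_of_valued_eq453 (HeightOneSpectrum.valuedAdicCompletion_surjective K' w)
      (HeightOneSpectrum.valuedAdicCompletion_surjective K' w') (⇑c')
      (fun x y => (map_sub c' x y).symm) hc'
  have e : (⇑c : w.adicCompletion K' → w'.adicCompletion K') = ⇑c' :=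
    (HeightOneSpectrum.denseRange_algebraMap K' w).equalizer h1 h2 (funext fun k => h k)
  exact congrFun e a

/-- The cast lemma: equal places, local isomorphisms to a fixed completion which agree on `K'`. -/
theorem map_congr_place379 {w₀ : HeightOneSpectrum (𝓞 K')} (u u' : HeightOneSpectrum (𝓞 K'))
    (h : u = u') (c : u.adicCompletion K' ≃+* w₀.adicCompletion K')
    (c' : u'.adicCompletion K' ≃+* w₀.adicCompletion K')
    (hc : ∀ x, Valued.v (c x) = Valued.v x) (hc' : ∀ x, Valued.v (c' x) = Valued.v x)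
    (hr : ∀ y : K', c (algebraMap K' (u.adicCompletion K') y)
      = c' (algebraMap K' (u'.adicCompletion K') y)) (g : G K') :
    Matrix.GeneralLinearGroup.map (c : u.adicCompletion K' →+* w₀.adicCompletion K')
        (finGL305 u g)
      = Matrix.GeneralLinearGroup.map (c' : u'.adicCompletion K' →+* w₀.adicCompletion K')
        (finGL305 u' g) := by
  subst h
  apply Matrix.GeneralLinearGroup.ext
  intro a b
  exact eq_of_rat379 (c : u.adicCompletion K' →+* w₀.adicCompletion K')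
    (c' : u.adicCompletion K' →+* w₀.adicCompletion K') hc hc' hr _

/-! ## 4. The action of `σ` on the ideals -/

/-- The action of `σ` on the ideals of `𝓞 K'`. -/
def sigI379 (σ : K' ≃+* K') (I : Ideal (𝓞 K')) : Ideal (𝓞 K') :=
  Ideal.map (RingOfIntegers.mapRingEquiv σ) I

theorem mem_sigI379 (σ : K' ≃+* K') (I : Ideal (𝓞 K')) (y : 𝓞 K') :
    y ∈ sigI379 σ I ↔ ∃ x ∈ I, RingOfIntegers.mapRingEquiv σ x = y :=
  Ideal.mem_map_of_equiv _ _

theorem coe_mapRingEquiv379 (σ : K' ≃+* K') (x : 𝓞 K') :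
    ((RingOfIntegers.mapRingEquiv σ x : 𝓞 K') : K') = σ (x : K') := rfl

theorem sigI_iterate379 (σ : K' ≃+* K') (n : ℕ) (I : Ideal (𝓞 K')) (y : 𝓞 K') :
    y ∈ (sigI379 σ)^[n] I ↔ ∃ x ∈ I, (σ ^ n) (x : K') = (y : K') := by
  induction n generalizing y with
  | zero =>
    rw [Function.iterate_zero, id]
    constructor
    · intro hy
      exact ⟨y, hy, rfl⟩
    · rintro ⟨x, hx, hxy⟩
      have : x = y := RingOfIntegers.ext hxy
      rwa [← this]
  | succ n ih =>
    rw [Function.iterate_succ_apply', mem_sigI379]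
    constructor
    · rintro ⟨z, hz, rfl⟩
      obtain ⟨x, hx, hxz⟩ := (ih z).1 hz
      refine ⟨x, hx, ?_⟩
      rw [pow_succ', RingAut.mul_apply, hxz]
      rfl
    · rintro ⟨x, hx, hxy⟩
      rw [pow_succ', RingAut.mul_apply] at hxy
      refine ⟨RingOfIntegers.mapRingEquiv (σ ^ n) x, (ih _).2 ⟨x, hx, rfl⟩, ?_⟩
      exact RingOfIntegers.ext hxy

theorem sigI_period379 (σ : K' ≃+* K') (l : ℕ) (hl : ∀ x : K', (σ ^ l) x = x)
    (I : Ideal (𝓞 K')) : (sigI379 σ)^[l] I = I := by
  ext y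
  rw [sigI_iterate379]
  constructor
  · rintro ⟨x, hx, hxy⟩
    rw [hl] at hxy
    have : x = y := RingOfIntegers.ext hxy
    rwa [← this]
  · intro hy
    exact ⟨y, hy, hl _⟩

theorem sigI_injective379 (σ : K' ≃+* K') : Function.Injective (sigI379 σ) := by
  intro I J h
  have key : ∀ A B : Ideal (𝓞 K'), sigI379 σ A = sigI379 σ B → A ≤ B := by
    intro A B hAB x hx
    have h1 : RingOfIntegers.mapRingEquiv σ x ∈ sigI379 σ B := by
      rw [← hAB]
      exact (mem_sigI379 σ A _).2 ⟨x, hx, rfl⟩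
    obtain ⟨z, hz, hzx⟩ := (mem_sigI379 σ B _).1 h1
    have : z = x := (RingOfIntegers.mapRingEquiv σ).injective hzx
    rwa [← this]
  exact le_antisymm (key I J h) (key J I h.symm)

theorem placeRel_iff379 (s : T5.AdelicAut K') (w w' : HeightOneSpectrum (𝓞 K')) :
    T5.PlaceRel s w w' ↔ w'.asIdeal = sigI379 s.σ w.asIdeal := Iff.rfl

theorem placeRel_inj379 (s : T5.AdelicAut K') {w w₁ w' : HeightOneSpectrum (𝓞 K')}
    (h : T5.PlaceRel s w w') (h₁ : T5.PlaceRel s w₁ w') : w = w₁ := by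
  apply HeightOneSpectrum.ext
  apply sigI_injective379 s.σ
  rw [← (placeRel_iff379 s w w').1 h, ← (placeRel_iff379 s w₁ w').1 h₁]

theorem placeRel_fun379 (s : T5.AdelicAut K') {w w' w'' : HeightOneSpectrum (𝓞 K')}
    (h : T5.PlaceRel s w w') (h₁ : T5.PlaceRel s w w'') : w' = w'' := by
  apply HeightOneSpectrum.ext
  rw [(placeRel_iff379 s w w').1 h, (placeRel_iff379 s w w'').1 h₁]

theorem exists_pre379 (s : T5.AdelicAut K') (w' : HeightOneSpectrum (𝓞 K')) :
    ∃ w : HeightOneSpectrum (𝓞 K'), T5.PlaceRel s w w' := by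
  obtain ⟨w, hw⟩ := H453.exists_place_map453 s.σ.symm w'
  refine ⟨w, ?_⟩
  rw [placeRel_iff379]
  ext y
  rw [mem_sigI379]
  constructor
  · intro hy
    refine ⟨RingOfIntegers.mapRingEquiv s.σ.symm y, ?_, ?_⟩
    · rw [hw]
      exact Ideal.mem_map_of_mem _ hy
    · apply RingOfIntegers.ext
      show s.σ (s.σ.symm (y : K')) = (y : K')
      exact s.σ.apply_symm_apply _
  · rintro ⟨x, hx, rfl⟩
    rw [hw] at hx
    obtain ⟨z, hz, hzx⟩ := (Ideal.mem_map_of_equiv _ _).1 hx
    have : RingOfIntegers.mapRingEquiv s.σ x = z := by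
      rw [← hzx]
      apply RingOfIntegers.ext
      show s.σ (s.σ.symm (z : K')) = (z : K')
      exact s.σ.apply_symm_apply _
    rwa [this]

/-! ## 5. The orbit `w n = σ^{-n} w₀` -/

/-- The places `σ^{-n} w₀`. -/
def orbit379 (s : T5.AdelicAut K') (w₀ : HeightOneSpectrum (𝓞 K')) :
    ℕ → HeightOneSpectrum (𝓞 K')
  | 0 => w₀
  | n + 1 => Classical.choose (exists_pre379 s (orbit379 s w₀ n))

theorem orbit_zero379 (s : T5.AdelicAut K') (w₀ : HeightOneSpectrum (𝓞 K')) :
    orbit379 s w₀ 0 = w₀ := rfl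

theorem orbit_succ379 (s : T5.AdelicAut K') (w₀ : HeightOneSpectrum (𝓞 K')) (n : ℕ) :
    T5.PlaceRel s (orbit379 s w₀ (n + 1)) (orbit379 s w₀ n) :=
  Classical.choose_spec (exists_pre379 s (orbit379 s w₀ n))

section Orbit

variable (s : T5.AdelicAut K') (w : ℕ → HeightOneSpectrum (𝓞 K'))
  (hw : ∀ n, T5.PlaceRel s (w (n + 1)) (w n))

include hw

theorem orbit_iter379 (m n : ℕ) :
    (sigI379 s.σ)^[n] (w (m + n)).asIdeal = (w m).asIdeal := by
  induction n with
  | zero => rfl
  | succ n ih =>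
    rw [Function.iterate_succ_apply, ← add_assoc, ← (placeRel_iff379 s _ _).1 (hw (m + n)), ih]

theorem orbit_period379 (l : ℕ) (hl : ∀ x : K', (s.σ ^ l) x = x) (n : ℕ) :
    w (n + l) = w n := by
  apply HeightOneSpectrum.ext
  rw [← orbit_iter379 s w hw n l, sigI_period379 s.σ l hl]

theorem orbit_mod379 (l : ℕ) (hl : ∀ x : K', (s.σ ^ l) x = x) (a : ℕ) :
    w a = w (a % l) := by
  have key : ∀ q r : ℕ, w (r + l * q) = w r := by
    intro q r
    induction q with
    | zero => rfl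
    | succ q ih =>
      rw [Nat.mul_succ, ← add_assoc, orbit_period379 s w hw l hl, ih]
  conv_lhs => rw [← Nat.mod_add_div a l]
  exact key _ _

theorem orbit_inj379 (l : ℕ) (hl : ∀ x : K', (s.σ ^ l) x = x) (hp : l.Prime)
    (hne : ¬ T5.PlaceRel s (w 0) (w 0)) {a b : ℕ} (ha : a < l) (hb : b < l)
    (hab : w a = w b) : a = b := by
  by_contra hne'
  wlog hlt : a < b generalizing a b
  · exact this hb ha hab.symm (Ne.symm hne') (lt_of_le_of_ne (not_lt.1 hlt) (Ne.symm hne'))
  apply hne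
  set I := (w b).asIdeal with hI
  have h1 : (sigI379 s.σ)^[b - a] I = I := by
    have := orbit_iter379 s w hw a (b - a)
    rw [Nat.add_sub_cancel' hlt.le] at this
    rw [this, hab]
  have h2 : (sigI379 s.σ)^[l] I = I := sigI_period379 s.σ l hl I
  have hcop : Nat.Coprime (b - a) l := by
    apply Nat.Coprime.symm
    rw [Nat.Prime.coprime_iff_not_dvd hp]
    exact Nat.not_dvd_of_pos_of_lt (Nat.sub_pos_of_lt hlt) (lt_of_le_of_lt (Nat.sub_le _ _) hb)
  have h3 : Function.IsPeriodicPt (sigI379 s.σ) ((b - a).gcd l) I :=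
    Function.IsPeriodicPt.gcd h1 h2
  rw [hcop.gcd_eq_one] at h3
  have h4 : sigI379 s.σ I = I := h3
  have h5 : (w 0).asIdeal = I := by
    have := orbit_iter379 s w hw 0 b
    rw [zero_add] at this
    rw [← this]
    exact Function.iterate_fixed h4 b
  rw [placeRel_iff379, h5]
  exact h4.symm

theorem orbit_surj379 (l : ℕ) (hl : ∀ x : K', (s.σ ^ l) x = x) (hpos : 0 < l)
    (w' : HeightOneSpectrum (𝓞 K')) (n : ℕ)
    (h : w'.asIdeal = (sigI379 s.σ)^[n] (w 0).asIdeal) : ∃ m < l, w' = w m := by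
  refine ⟨(n * (l - 1)) % l, Nat.mod_lt _ hpos, ?_⟩
  rw [← orbit_mod379 s w hw l hl]
  apply HeightOneSpectrum.ext
  have h1 : (sigI379 s.σ)^[n * (l - 1)] (w (n * (l - 1))).asIdeal = (w 0).asIdeal := by
    have := orbit_iter379 s w hw 0 (n * (l - 1))
    rwa [zero_add] at this
  have h2 : (sigI379 s.σ)^[n * (l - 1)] w'.asIdeal = (w 0).asIdeal := by
    rw [h, ← Function.iterate_add_apply]
    have e : n * (l - 1) + n = n * l := by
      have : l - 1 + 1 = l := Nat.sub_add_cancel hpos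
      calc n * (l - 1) + n = n * (l - 1 + 1) := by ring
        _ = n * l := by rw [this]
    rw [e]
    have hper : Function.IsPeriodicPt (sigI379 s.σ) l (w 0).asIdeal :=
      sigI_period379 s.σ l hl _
    exact hper.const_mul n
  exact (sigI_injective379 s.σ).iterate _ (h2.trans h1.symm)

/-! ## 6. The transport to the completion at `w 0` -/

theorem exists_transport379 :
    ∃ C : ∀ n, (w n).adicCompletion K' ≃+* (w 0).adicCompletion K',
      (∀ a, C 0 a = a) ∧
        ∀ n a, C (n + 1) a = C n (sloc379 s (w (n + 1)) (w n) (hw n) a) :=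
  ⟨fun n => Nat.rec (motive := fun n => (w n).adicCompletion K' ≃+* (w 0).adicCompletion K')
      (RingEquiv.refl _) (fun n Cn => (sloc379 s (w (n + 1)) (w n) (hw n)).trans Cn) n,
    fun _ => rfl, fun _ _ => rfl⟩

variable (C : ∀ n, (w n).adicCompletion K' ≃+* (w 0).adicCompletion K')
  (hC0 : ∀ a, C 0 a = a)
  (hCS : ∀ n a, C (n + 1) a = C n (sloc379 s (w (n + 1)) (w n) (hw n) a))

include hC0 hCS

theorem transport_val379 (n : ℕ) (a : (w n).adicCompletion K') :
    Valued.v (C n a) = Valued.v a := by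
  induction n with
  | zero => rw [hC0]
  | succ n ih => rw [hCS, ih, sloc_val379]

theorem transport_rat379 (n : ℕ) (y : K') :
    C n (algebraMap K' ((w n).adicCompletion K') y)
      = algebraMap K' ((w 0).adicCompletion K') ((s.σ ^ n) y) := by
  induction n generalizing y with
  | zero => rw [hC0, pow_zero]; rfl
  | succ n ih => rw [hCS, sloc_rat379, ih, pow_succ, RingAut.mul_apply]

/-- The component at `w n`, transported to `GL₂` of the completion at `w 0`. -/
def xn379 (n : ℕ) : G K' →* GL (Fin 2) ((w 0).adicCompletion K') :=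
  (Matrix.GeneralLinearGroup.map
    (C n : (w n).adicCompletion K' →+* (w 0).adicCompletion K')).comp (finGL305 (w n))

omit hw hC0 hCS in
theorem xn_apply379 (n : ℕ) (g : G K') :
    xn379 w C n g = Matrix.GeneralLinearGroup.map
      (C n : (w n).adicCompletion K' →+* (w 0).adicCompletion K') (finGL305 (w n) g) := rfl

theorem xn_onG379 (n : ℕ) (g : G K') :
    xn379 w C n (s.onG g) = xn379 w C (n + 1) g := by
  rw [xn_apply379, xn_apply379, finGL_onG_sloc379 s (w (n + 1)) (w n) (hw n)]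
  apply Matrix.GeneralLinearGroup.ext
  intro a b
  exact (hCS n _).symm

theorem xn_wrap379 (l : ℕ) (hl : ∀ x : K', (s.σ ^ l) x = x) (g : G K') :
    xn379 w C l g = xn379 w C 0 g := by
  rw [xn_apply379, xn_apply379]
  have h0 : w l = w 0 := by
    have := orbit_period379 s w hw l hl 0
    rwa [zero_add] at this
  refine map_congr_place379 (w l) (w 0) h0 (C l) (C 0)
    (transport_val379 s w hw C hC0 hCS l) (transport_val379 s w hw C hC0 hCS 0) ?_ g
  intro y
  rw [transport_rat379 s w hw C hC0 hCS l, transport_rat379 s w hw C hC0 hCS 0, hl, pow_zero]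
  rfl

theorem xn_inU379 (n : ℕ) (g : G K') :
    T6.InU 0 (xn379 w C n g) ↔ T6.InU 0 (finGL305 (w n) g) := by
  rw [xn_apply379]
  exact H388.inU_map_iff388 (C n : (w n).adicCompletion K' →+* (w 0).adicCompletion K')
    (transport_val379 s w hw C hC0 hCS n) 0 (finGL305 (w n) g)

omit hw hC0 hCS in
theorem xn_symm379 (n : ℕ) (t : GL (Fin 2) ((w 0).adicCompletion K')) (g : G K')
    (h : finGL305 (w n) g = Matrix.GeneralLinearGroup.map
      ((C n).symm : (w 0).adicCompletion K' →+* (w n).adicCompletion K') t) :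
    xn379 w C n g = t := by
  rw [xn_apply379, h]
  apply Matrix.GeneralLinearGroup.ext
  intro a b
  exact (C n).apply_symm_apply _

omit hw hC0 hCS in
theorem xn_injective379 (n : ℕ) {g h : G K'} (e : xn379 w C n g = xn379 w C n h) :
    finGL305 (w n) g = finGL305 (w n) h := by
  apply Matrix.GeneralLinearGroup.ext
  intro a b
  have h1 := congrArg (fun u : GL (Fin 2) ((w 0).adicCompletion K') =>
    (u : Matrix (Fin 2) (Fin 2) ((w 0).adicCompletion K')) a b) e
  exact (C n).injective h1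

end Orbit

/-! ## 7. The element with prescribed components on an orbit -/

/-- The element with the components `τ n` at the places `w n`, `n < N`, and `1` elsewhere. -/
def prodLoc379 (w : ℕ → HeightOneSpectrum (𝓞 K'))
    (τ : ∀ n, GL (Fin 2) ((w n).adicCompletion K')) : ℕ → G K'
  | 0 => 1
  | N + 1 => prodLoc379 w τ N * H129.locFin129 (w N) (τ N)

theorem prodLoc_inf379 (w : ℕ → HeightOneSpectrum (𝓞 K'))
    (τ : ∀ n, GL (Fin 2) ((w n).adicCompletion K')) (N : ℕ) (u : InfinitePlace K') :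
    H129.infCompHom129 u (prodLoc379 w τ N) = 1 := by
  induction N with
  | zero => exact map_one _
  | succ N ih =>
    show H129.infCompHom129 u (prodLoc379 w τ N * H129.locFin129 (w N) (τ N)) = 1
    rw [map_mul, ih, H129.infCompHom129_locFin129, mul_one]

theorem prodLoc_off379 (w : ℕ → HeightOneSpectrum (𝓞 K'))
    (τ : ∀ n, GL (Fin 2) ((w n).adicCompletion K')) (N : ℕ) (u : HeightOneSpectrum (𝓞 K'))
    (hu : ∀ n < N, u ≠ w n) : finGL305 u (prodLoc379 w τ N) = 1 := by
  induction N with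
  | zero => exact map_one _
  | succ N ih =>
    show finGL305 u (prodLoc379 w τ N * H129.locFin129 (w N) (τ N)) = 1
    rw [map_mul, ih (fun n hn => hu n (Nat.lt_succ_of_lt hn)), one_mul]
    exact H129.finCompHom129_locFin129_of_ne (w N) (τ N) (hu N (Nat.lt_succ_self N))

theorem prodLoc_on379 (w : ℕ → HeightOneSpectrum (𝓞 K'))
    (τ : ∀ n, GL (Fin 2) ((w n).adicCompletion K')) (N : ℕ)
    (hinj : ∀ a b, a < N → b < N → w a = w b → a = b) (m : ℕ) (hm : m < N) :
    finGL305 (w m) (prodLoc379 w τ N) = τ m := by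
  induction N with
  | zero => exact absurd hm (Nat.not_lt_zero m)
  | succ N ih =>
    show finGL305 (w m) (prodLoc379 w τ N * H129.locFin129 (w N) (τ N)) = τ m
    rw [map_mul]
    rcases Nat.lt_succ_iff_lt_or_eq.1 hm with h | h
    · have hne : w m ≠ w N := fun e =>
        (Nat.ne_of_lt h) (hinj m N hm (Nat.lt_succ_self N) e)
      rw [ih (fun a b ha hb => hinj a b (Nat.lt_succ_of_lt ha) (Nat.lt_succ_of_lt hb)) h]
      have := H129.finCompHom129_locFin129_of_ne (w N) (τ N) hne
      rw [show finGL305 (w m) (H129.locFin129 (w N) (τ N)) = 1 from this, mul_one]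
    · subst h
      have hoff : finGL305 (w m) (prodLoc379 w τ m) = 1 :=
        prodLoc_off379 w τ m (w m) (fun n hn e =>
          (Nat.ne_of_lt hn) (hinj n m (Nat.lt_succ_of_lt hn) (Nat.lt_succ_self m) e.symm))
      rw [hoff, one_mul]
      exact H129.finCompHom129_locFin129 (w m) (τ m)

/-! ## 8. Membership in the twisted centraliser, by components -/

theorem onG_ratG379 (s : T5.AdelicAut K') (g : GL (Fin 2) K') :
    s.onG (T5.ratG g) = T5.ratG (s.onRat g) := by
  apply Matrix.GeneralLinearGroup.ext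
  intro a b
  exact s.compat _

theorem mem_tA_iff379 (s : T5.AdelicAut K') (δ : GL (Fin 2) K') (t : G K') :
    t ∈ tA305 s δ ↔ t⁻¹ * T5.ratG δ * s.onG t = T5.ratG δ := Iff.rfl

/-- `t` is in the twisted centraliser if it is so componentwise on a set of places `P` closed
under `σ⁻¹`, and trivial outside `P` and at the infinite places. -/
theorem mem_tA_of_comp379 (s : T5.AdelicAut K') (δ : GL (Fin 2) K') (t : G K')
    (P : HeightOneSpectrum (𝓞 K') → Prop)
    (hP : ∀ u u' : HeightOneSpectrum (𝓞 K'), T5.PlaceRel s u' u → P u' → P u)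
    (hinf : ∀ u : InfinitePlace K', H129.infCompHom129 u t = 1)
    (hoff : ∀ u : HeightOneSpectrum (𝓞 K'), ¬ P u → finGL305 u t = 1)
    (hon : ∀ u : HeightOneSpectrum (𝓞 K'), P u →
      finGL305 u (t⁻¹ * T5.ratG δ * s.onG t) = finGL305 u (T5.ratG δ)) :
    t ∈ tA305 s δ := by
  rw [mem_tA_iff379]
  apply H129.G_ext129
  · intro u
    rw [map_mul, map_mul, map_inv, hinf, infComp_onG_one379 s t hinf, inv_one, one_mul, mul_one]
  · intro u
    by_cases hu : P u
    · exact hon u hu
    · obtain ⟨u', hu'⟩ := exists_pre379 s u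
      have h1 : finGL305 u' t = 1 := hoff u' (fun h => hu (hP u u' hu' h))
      have h2 : finGL305 u (s.onG t) = 1 := by
        rw [finGL_onG_sloc379 s u' u hu', h1, map_one]
      show finGL305 u (t⁻¹ * T5.ratG δ * s.onG t) = finGL305 u (T5.ratG δ)
      rw [map_mul, map_mul, map_inv, hoff u hu, h2, inv_one, one_mul, mul_one]

/-! ## 9. The local step on an orbit of `l` places (split case) -/

theorem fin_succ_val379 {l : ℕ} [NeZero l] (j : Fin l) :
    (j + 1 : Fin l).val = (j.val + 1) % l := by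
  rw [Fin.val_add, Fin.val_one', Nat.add_mod_mod]

theorem localStep_split379 (s : T5.AdelicAut K') (l : ℕ) [NeZero l]
    (hl : ∀ x : K', (s.σ ^ l) x = x)
    (w : ℕ → HeightOneSpectrum (𝓞 K')) (hw : ∀ n, T5.PlaceRel s (w (n + 1)) (w n))
    (hinj : ∀ a b, a < l → b < l → w a = w b → a = b)
    (δ : GL (Fin 2) K') (hδ : ∀ n, T6.InU 0 (locG305 (w n) δ))
    (hd : Valued.v (T6.disc (locG305 (w 0) (s.normUpTo l δ))) = 1)
    (x : G K') (hx : ∀ n, T6.InU 0 (finGL305 (w n) (x⁻¹ * T5.ratG δ * s.onG x))) :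
    ∃ t₀ : G K', t₀ ∈ tA305 s δ ∧
      (∀ u : HeightOneSpectrum (𝓞 K'), (∀ n < l, u ≠ w n) → finGL305 u t₀ = 1) ∧
      ∀ n < l, T6.InU 0 (finGL305 (w n) (t₀⁻¹ * x)) := by
  classical
  have hlpos : 0 < l := Nat.pos_of_ne_zero (NeZero.ne l)
  obtain ⟨C, hC0, hCS⟩ := exists_transport379 s w hw
  -- wrap-around
  have hwrap : ∀ (g : G K') (j : Fin l),
      xn379 w C (j + 1 : Fin l).val g = xn379 w C (j.val + 1) g := by
    intro g j
    rw [fin_succ_val379]
    by_cases h : j.val + 1 < l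
    · rw [Nat.mod_eq_of_lt h]
    · have e : j.val + 1 = l := le_antisymm j.isLt (not_lt.1 h)
      rw [e, Nat.mod_self, xn_wrap379 s w hw C hC0 hCS l hl]
  set X : Fin l → GL (Fin 2) ((w 0).adicCompletion K') := fun j => xn379 w C j.val x with hX
  set Δ : Fin l → GL (Fin 2) ((w 0).adicCompletion K') :=
    fun j => xn379 w C j.val (T5.ratG δ) with hΔ
  have hconj : ∀ (g : G K') (j : Fin l),
      xn379 w C j.val (g⁻¹ * T5.ratG δ * s.onG g)
        = (xn379 w C j.val g)⁻¹ * Δ j * xn379 w C (j + 1 : Fin l).val g := by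
    intro g j
    rw [map_mul, map_mul, map_inv, xn_onG379 s w hw C hC0 hCS, hwrap]
  have hΔU : ∀ j, T6.InU 0 (Δ j) := by
    intro j
    rw [hΔ]
    show T6.InU 0 (xn379 w C j.val (T5.ratG δ))
    rw [xn_inU379 s w hw C hC0 hCS, H941.finGL_ratG941]
    exact hδ j.val
  have hXU : ∀ j, T6.InU 0 ((X⁻¹ * Δ * T6.shiftHom l X) j) := by
    intro j
    have e : (X⁻¹ * Δ * T6.shiftHom l X) j
        = xn379 w C j.val (x⁻¹ * T5.ratG δ * s.onG x) := by
      rw [hconj]
      rfl
    rw [e, xn_inU379 s w hw C hC0 hCS]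
    exact hx j.val
  -- the norm
  have hnorm : ∀ (n : ℕ) (j : Fin l), T6.twN (T6.shiftHom l) n Δ j
      = xn379 w C j.val (T5.ratG (s.normUpTo n δ)) := by
    intro n
    induction n with
    | zero =>
      intro j
      show (1 : GL (Fin 2) ((w 0).adicCompletion K')) = xn379 w C j.val (T5.ratG 1)
      rw [map_one, map_one]
    | succ n ih =>
      intro j
      show Δ j * T6.twN (T6.shiftHom l) n Δ (j + 1)
        = xn379 w C j.val (T5.ratG (δ * s.onRat (s.normUpTo n δ)))
      rw [ih, hwrap, ← xn_onG379 s w hw C hC0 hCS, onG_ratG379, map_mul, map_mul]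
  have hdisc : Valued.v (T6.disc (T6.twN (T6.shiftHom l) l Δ 0)) = 1 := by
    rw [hnorm l 0]
    have e : xn379 w C (0 : Fin l).val (T5.ratG (s.normUpTo l δ))
        = locG305 (w 0) (s.normUpTo l δ) := by
      have h0 : (0 : Fin l).val = 0 := rfl
      rw [h0, xn_apply379, H941.finGL_ratG941]
      apply Matrix.GeneralLinearGroup.ext
      intro a b
      exact hC0 _
    rw [e]
    exact hd
  obtain ⟨t, u, ht, hu, hXtu⟩ := H159.goodUnit_split159 Δ X hΔU hdisc hXU
  -- the element
  set τ : ∀ n, GL (Fin 2) ((w n).adicCompletion K') := fun n =>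
    if h : n < l then Matrix.GeneralLinearGroup.map
      ((C n).symm : (w 0).adicCompletion K' →+* (w n).adicCompletion K') (t ⟨n, h⟩) else 1
    with hτ
  set t₀ : G K' := prodLoc379 w τ l with ht₀
  have hcomp : ∀ j : Fin l, xn379 w C j.val t₀ = t j := by
    intro j
    apply xn_symm379
    rw [ht₀, prodLoc_on379 w τ l hinj j.val j.isLt, hτ]
    simp only [j.isLt, dite_true]
  have hoff : ∀ u : HeightOneSpectrum (𝓞 K'), (∀ n < l, u ≠ w n) → finGL305 u t₀ = 1 :=
    fun u hu => prodLoc_off379 w τ l u hu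
  refine ⟨t₀, ?_, hoff, ?_⟩
  · -- membership
    refine mem_tA_of_comp379 s δ t₀ (fun u => ∃ n < l, u = w n) ?_
      (fun u => prodLoc_inf379 w τ l u) ?_ ?_
    · rintro u u' hrel ⟨n, hn, rfl⟩
      rcases Nat.eq_zero_or_pos n with h0 | hpos
      · subst h0
        refine ⟨l - 1, Nat.sub_lt hlpos Nat.one_pos, ?_⟩
        have hper : w l = w 0 := by
          have := orbit_period379 s w hw l hl 0
          rwa [zero_add] at this
        have h1 : T5.PlaceRel s (w l) (w (l - 1)) := by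
          have := hw (l - 1)
          rwa [Nat.sub_add_cancel hlpos] at this
        rw [hper] at h1
        exact placeRel_fun379 s hrel h1
      · refine ⟨n - 1, lt_of_le_of_lt (Nat.sub_le _ _) hn, ?_⟩
        have h1 : T5.PlaceRel s (w n) (w (n - 1)) := by
          have := hw (n - 1)
          rwa [Nat.sub_add_cancel hpos] at this
        exact placeRel_fun379 s hrel h1
    · intro u hu
      apply hoff
      intro n hn e
      exact hu ⟨n, hn, e⟩
    · rintro u ⟨n, hn, rfl⟩
      apply xn_injective379 w C n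
      have := hconj t₀ ⟨n, hn⟩
      rw [this, hcomp ⟨n, hn⟩, hcomp (⟨n, hn⟩ + 1)]
      exact congrFun ht ⟨n, hn⟩
  · intro n hn
    rw [← xn_inU379 s w hw C hC0 hCS, map_mul, map_inv]
    have h1 := hcomp ⟨n, hn⟩
    have h2 : xn379 w C n x = t ⟨n, hn⟩ * u ⟨n, hn⟩ := congrFun hXtu ⟨n, hn⟩
    rw [show xn379 w C n t₀ = t ⟨n, hn⟩ from h1, h2, inv_mul_cancel_left]
    exact hu ⟨n, hn⟩

/-! ## Appendix: the equation lemmas of the definitions of this file are realised HERE -/

theorem eqns_realised_suppUpKit379 : True := by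
  have _a1 := @sloc379.eq_1
  have _a2 := @sloc379.eq_def
  have _a3 := @sloc379.eq_unfold
  have _b1 := @sigI379.eq_1
  have _b2 := @sigI379.eq_def
  have _b3 := @sigI379.eq_unfold
  have _c1 := @orbit379.eq_1
  have _c2 := @orbit379.eq_2
  have _c3 := @orbit379.eq_def
  have _c4 := @orbit379.eq_unfold
  have _d1 := @xn379.eq_1
  have _d2 := @xn379.eq_def
  have _d3 := @xn379.eq_unfold
  have _e1 := @prodLoc379.eq_1
  have _e2 := @prodLoc379.eq_2
  have _e3 := @prodLoc379.eq_def
  have _e4 := @prodLoc379.eq_unfold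
  trivial

end Fermat.Agent.LT.T7.H379

end

end
-- ===== PACK-END LT/T7/H379/SuppUpKit.lean

-- ===== PACK-BEGIN LT/T7/H340/UpFactTopB.lean
section



/-!
# Row LT, tower T7, node C2.7.13.1 `UpFactC340`, PART B (owner helper340, registry row 2744):
# the proved top of the integral part

OFF-MAIN.  No hole, nothing assumed.  Mirror of `T7/H20/FactIntDown.lean` (helper20) with the
places GROUPED over `K`.

    factIntUpC_of340 : GrpSplitC340 K K' → PtFactUpC340 K K' → RayFinUpC340 K K' →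
        ArchIntblUpC340 K K' → ArchIntblC558 → CompContC558 K' → BiInvContC558 K' →
        HaarSigmaC558 K → HaarSigmaC558 K' → IsoContC340 → SecCountC340 K → FactIntUpC340 K K'
-/

set_option autoImplicit false
set_option linter.style.haveILetI false

open AutomorphicForm IsDedekindDomain NumberField MeasureTheory
open scoped ComplexConjugate

noncomputable section

namespace Fermat.Agent.LT.T7.H340

open Fermat.Agent.LT.H556 Fermat.Agent.LT.H556.A0 Fermat.Agent.LT.T7 Fermat.Agent.LT.T7.H305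
open Fermat.Agent.LT.T7.H558

attribute [local instance] Fermat.Agent.LT.T5.instMeasurableSpaceG

/-- **ASSET (closed by helper159 `secondCountable_GLv159`, `secondCountable_GLC159`).**  The
local groups downstairs are second countable. -/
def SecCountC340 (K : Type) [Field K] [NumberField K] : Prop :=
  (∀ v : HeightOneSpectrum (𝓞 K), SecondCountableTopology (GL (Fin 2) (v.adicCompletion K))) ∧
    SecondCountableTopology (GL (Fin 2) ℂ)

/-- **PART B, CORE FORM** (the same Prop as `H546.FactIntUpCoreC546` of helper546): the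
integral part with the clauses of the local hypotheses which the proof uses (`inv_up` on `S`,
`arch_up`) and the agreement of the levels along the split data; no matching, nothing
downstairs.  It serves `LocHyp305` and `LocHyp893`. -/
def FactIntUpCoreC340 (K K' : Type) [Field K] [NumberField K] [Field K'] [NumberField K']
    [Algebra K K'] : Prop :=
  T6.T6Out →
  ∀ D : CompData K K', IsCompData D → IsCycExt K K' D.l → D.l ≠ 2 → TotCplx K →
    ∀ ι : Adl K →+* Adl K', IsAdeleBase305 D.s D.l ι →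
    ∀ μc : @Measure (GL (Fin 2) ℂ) (borel _), @Measure.IsHaarMeasure _ _ _ (borel _) μc →
    ∀ (T₀ : Finset (HeightOneSpectrum (𝓞 K))), UnramOut305 (K' := K') T₀ →
    ∀ (n : HeightOneSpectrum (𝓞 K') → ℕ) (m : HeightOneSpectrum (𝓞 K) → ℕ),
      IsLevelAt305 T₀ n m →
    ∃ cG' : ℝ, 0 < cG' ∧
      ∀ (S : Finset (HeightOneSpectrum (𝓞 K))) (S' : Finset (HeightOneSpectrum (𝓞 K'))),
        T₀ ⊆ S → IsOver305 S S' →
      ∀ (φ₀ : ∀ w : HeightOneSpectrum (𝓞 K'), GL (Fin 2) (w.adicCompletion K') → ℂ)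
        (Φ : InfinitePlace K' → GL (Fin 2) ℂ → ℂ),
        (∀ v ∈ S, ∀ w : HeightOneSpectrum (𝓞 K'), PlaceOver K K' v w →
          T6.IsBiInv (T6.InU (n w)) (φ₀ w) ∧ T6.HasFinSupp (T6.InU (n w)) (φ₀ w)) →
        (∀ w : InfinitePlace K', Continuous (Φ w) ∧ HasCompactSupport (Φ w) ∧
          ∀ g : GL (Fin 2) ℂ, Φ w (conjGL305 g) = Φ w g) →
      ∀ (δ : GL (Fin 2) K') (γ : GL (Fin 2) K), T6.IsEll γ →
        D.s.normUpTo D.l δ = Matrix.GeneralLinearGroup.map (algebraMap K K') γ →
        GoodOut305 S γ → IntOut305 S' δ →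
      ∀ (L : LocData305 K γ) (cT : ℝ), IsLocData305 m L → 0 < cT →
      ∀ (U : UpDat340 K δ) (hU : IsUpDat340 D ι n L S U),
        (∀ (v : U.Ssp) (a : ℕ), n ((U.dS v).w a) = m v.1) →
        cutInt305 D.R'.r D.s (pure305 S' φ₀ Φ) δ D.R'.μ (upCut340 S' cT L U)
          = ((cG' / cT : ℝ) : ℂ)
            * ∑' j : ℤ, (∏ v ∈ S, upJ340 D.l hU.pos φ₀ L U v)
                * ∏ w : InfinitePlace K, upJc340 D.l hU.pos D.R'.r Φ L μc U w j

theorem eqns_realisedUFB340 : True := by
  have _a1 := @SecCountC340.eq_1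
  have _a2 := @SecCountC340.eq_def
  have _a3 := @SecCountC340.eq_unfold
  have _b1 := @FactIntUpCoreC340.eq_1
  have _b2 := @FactIntUpCoreC340.eq_def
  have _b3 := @FactIntUpCoreC340.eq_unfold
  trivial

/-! ## Topology -/

/-- `GL₂` of a continuous ring homomorphism is continuous. -/
theorem continuous_GLmap340 {R S : Type*} [CommRing R] [CommRing S] [TopologicalSpace R]
    [TopologicalSpace S] (f : R →+* S) (hf : Continuous f) :
    Continuous (Matrix.GeneralLinearGroup.map (n := Fin 2) f) := by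
  have h : Continuous (RingHom.mapMatrix (m := Fin 2) f).toMonoidHom := by
    show Continuous fun M : Matrix (Fin 2) (Fin 2) R => M.map f
    exact Continuous.matrix_map continuous_id hf
  exact Continuous.units_map (RingHom.mapMatrix (m := Fin 2) f).toMonoidHom h

section OneFieldB

variable {K : Type} [Field K] [NumberField K]

/-- The set of the elements of `GL₂(K_v)` which are integral with integral inverse is closed
(helper20 `isClosed_intGL20`). -/
theorem isClosed_intGL340 (v : HeightOneSpectrum (𝓞 K)) :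
    IsClosed {g : GL (Fin 2) (v.adicCompletion K) |
      (∀ i j, (g : Matrix (Fin 2) (Fin 2) (v.adicCompletion K)) i j ∈ v.adicCompletionIntegers K) ∧
      ∀ i j, ((g⁻¹ : GL (Fin 2) (v.adicCompletion K)) :
        Matrix (Fin 2) (Fin 2) (v.adicCompletion K)) i j ∈ v.adicCompletionIntegers K} := by
  have hO : IsClosed ((v.adicCompletionIntegers K : ValuationSubring (v.adicCompletion K)) :
      Set (v.adicCompletion K)) := Valued.isClosed_valuationSubring (v.adicCompletion K)
  have hval : Continuous fun g : GL (Fin 2) (v.adicCompletion K) =>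
      (g : Matrix (Fin 2) (Fin 2) (v.adicCompletion K)) := Units.continuous_val
  have hinv : Continuous fun g : GL (Fin 2) (v.adicCompletion K) =>
      ((g⁻¹ : GL (Fin 2) (v.adicCompletion K)) :
        Matrix (Fin 2) (Fin 2) (v.adicCompletion K)) := Units.continuous_coe_inv
  have h1 : ∀ i j : Fin 2, Continuous fun g : GL (Fin 2) (v.adicCompletion K) =>
      (g : Matrix (Fin 2) (Fin 2) (v.adicCompletion K)) i j := fun i j =>
    hval.matrix_elem i j
  have h2 : ∀ i j : Fin 2, Continuous fun g : GL (Fin 2) (v.adicCompletion K) =>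
      ((g⁻¹ : GL (Fin 2) (v.adicCompletion K)) :
        Matrix (Fin 2) (Fin 2) (v.adicCompletion K)) i j := fun i j =>
    hinv.matrix_elem i j
  have : {g : GL (Fin 2) (v.adicCompletion K) |
      (∀ i j, (g : Matrix (Fin 2) (Fin 2) (v.adicCompletion K)) i j ∈ v.adicCompletionIntegers K) ∧
      ∀ i j, ((g⁻¹ : GL (Fin 2) (v.adicCompletion K)) :
        Matrix (Fin 2) (Fin 2) (v.adicCompletion K)) i j ∈ v.adicCompletionIntegers K}
      = (⋂ i, ⋂ j, (fun g : GL (Fin 2) (v.adicCompletion K) =>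
          (g : Matrix (Fin 2) (Fin 2) (v.adicCompletion K)) i j) ⁻¹'
            ((v.adicCompletionIntegers K : ValuationSubring (v.adicCompletion K)) :
              Set (v.adicCompletion K))) ∩
        ⋂ i, ⋂ j, (fun g : GL (Fin 2) (v.adicCompletion K) =>
          ((g⁻¹ : GL (Fin 2) (v.adicCompletion K)) :
            Matrix (Fin 2) (Fin 2) (v.adicCompletion K)) i j) ⁻¹'
            ((v.adicCompletionIntegers K : ValuationSubring (v.adicCompletion K)) :
              Set (v.adicCompletion K)) := by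
    ext g
    simp only [Set.mem_ofPred_eq, Set.mem_inter_iff, Set.mem_iInter, Set.mem_preimage,
      SetLike.mem_coe]
  rw [this]
  exact (isClosed_iInter fun i => isClosed_iInter fun j => hO.preimage (h1 i j)).inter
    (isClosed_iInter fun i => isClosed_iInter fun j => hO.preimage (h2 i j))

/-- `Out_S` is closed (helper20 `isClosed_outT20`). -/
theorem isClosed_outT340
    (hfin : ∀ v : HeightOneSpectrum (𝓞 K), Continuous (finGL305 (K := K) v))
    (S : Finset (HeightOneSpectrum (𝓞 K))) : IsClosed {y : G K | OutT305 S y} := by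
  have : {y : G K | OutT305 S y}
      = ⋂ v : HeightOneSpectrum (𝓞 K), ⋂ _ : v ∉ S, (finGL305 (K := K) v) ⁻¹'
        {g : GL (Fin 2) (v.adicCompletion K) |
          (∀ i j, (g : Matrix (Fin 2) (Fin 2) (v.adicCompletion K)) i j
            ∈ v.adicCompletionIntegers K) ∧
          ∀ i j, ((g⁻¹ : GL (Fin 2) (v.adicCompletion K)) :
            Matrix (Fin 2) (Fin 2) (v.adicCompletion K)) i j ∈ v.adicCompletionIntegers K} := by
    ext y
    simp only [Set.mem_ofPred_eq, Set.mem_iInter, Set.mem_preimage]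
    constructor
    · intro h v hv
      refine ⟨fun i j => (h v hv).1 i j, fun i j => ?_⟩
      have := (h v hv).2 i j
      rw [← map_inv]
      exact this
    · intro h v hv
      refine ⟨fun i j => (h v hv).1 i j, fun i j => ?_⟩
      have := (h v hv).2 i j
      rw [← map_inv] at this
      exact this
  rw [this]
  exact isClosed_iInter fun v => isClosed_iInter fun _ => (isClosed_intGL340 v).preimage (hfin v)

end OneFieldB

/-! ## Continuity of the local integrands -/

/-- Continuity of the twisted local integrand. -/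
theorem continuous_twFn340 {k : Type} [Field k] [Valued k T6.Γ₀] (s : k ≃+* k)
    (hs : Continuous (s : k →+* k)) {β : GL (Fin 2) k → ℝ} {φ : GL (Fin 2) k → ℂ}
    (hβ : Continuous β) (hφ : Continuous φ) (δ : GL (Fin 2) k) :
    Continuous (twFn340 s β φ δ) := by
  have hg : Continuous (T6.glAut s) := continuous_GLmap340 (s : k →+* k) hs
  show Continuous fun x : GL (Fin 2) k => φ (x⁻¹ * δ * T6.glAut s x) * ((β x : ℝ) : ℂ)
  exact (hφ.comp ((continuous_inv.mul continuous_const).mul hg)).mul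
    (Complex.continuous_ofReal.comp hβ)

/-- Continuity of the twisted product. -/
theorem continuous_cycProd340 {H : Type} [Group H] [TopologicalSpace H] [IsTopologicalGroup H]
    (l : ℕ) {φ : ℕ → H → ℂ} (hφ : ∀ j : ℕ, j < l → Continuous (φ j)) (δ : ℕ → H) :
    Continuous (cycProd340 l φ δ) := by
  show Continuous fun y : Fin l → H =>
    ∏ j : Fin l, φ j.1 ((y j)⁻¹ * δ j.1 * y (cycSucc340 j))
  refine continuous_finset_prod _ fun j _ => ?_
  exact (hφ j.1 j.2).comp
    ((((continuous_apply j).inv).mul continuous_const).mul (continuous_apply (cycSucc340 j)))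

/-- Continuity of the integrand of `splitInt340`. -/
theorem continuous_splitFn340 {H : Type} [Group H] [TopologicalSpace H] [IsTopologicalGroup H]
    (l : ℕ) (hl : 0 < l) {β : H → ℝ} (hβ : Continuous β) {φ : ℕ → H → ℂ}
    (hφ : ∀ j : ℕ, j < l → Continuous (φ j)) (δ : ℕ → H) :
    Continuous (splitFn340 l hl β φ δ) := by
  show Continuous fun y : Fin l → H => cycProd340 l φ δ y * ((β (y ⟨0, hl⟩) : ℝ) : ℂ)
  exact (continuous_cycProd340 l hφ δ).mul
    (Complex.continuous_ofReal.comp (hβ.comp (continuous_apply _)))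

/-- `locTwInt340` is the integral of `twFn340`. -/
theorem locTwInt_eq340 {k : Type} [Field k] [Valued k T6.Γ₀] (s : k ≃+* k)
    (μ : @Measure (GL (Fin 2) k) (borel _)) (β : GL (Fin 2) k → ℝ) (φ : GL (Fin 2) k → ℂ)
    (δ : GL (Fin 2) k) :
    locTwInt340 s μ β φ δ = @integral _ _ _ _ (borel _) μ (twFn340 s β φ δ) := rfl

/-- `splitInt340` is the integral of `splitFn340`. -/
theorem splitInt_eq340 {H : Type} [Group H] [TopologicalSpace H] (l : ℕ) (hl : 0 < l)
    (μ : @Measure H (borel _)) (β : H → ℝ) (φ : ℕ → H → ℂ) (δ : ℕ → H) :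
    splitInt340 l hl μ β φ δ
      = (letI : MeasurableSpace H := borel _
         ∫ y : Fin l → H, splitFn340 l hl β φ δ y ∂(Measure.pi fun _ : Fin l => μ)) := rfl

section TwoFieldsB

variable {K K' : Type} [Field K] [NumberField K] [Field K'] [NumberField K'] [Algebra K K']

/-- The factorised integrand on the product of the local groups, in the grouped coordinates. -/
def upFactFn340 (l : ℕ) (hl : 0 < l) (r' : G K') {γ : GL (Fin 2) K} (L : LocData305 K γ)
    (cT : ℝ) (φ₀ : ∀ w : HeightOneSpectrum (𝓞 K'), GL (Fin 2) (w.adicCompletion K') → ℂ)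
    (Φ : InfinitePlace K' → GL (Fin 2) ℂ → ℂ) {δ : GL (Fin 2) K'} (U : UpDat340 K δ)
    (J : Finset ℤ)
    (x : (∀ v : U.Sin, GL (Fin 2) ((U.dI v).w.adicCompletion K')) ×
      ((∀ v : U.Ssp, Fin l → GL (Fin 2) ((v : HeightOneSpectrum (𝓞 K)).adicCompletion K)) ×
        (InfinitePlace K → Fin l → GL (Fin 2) ℂ))) : ℂ :=
  ((cT⁻¹ : ℝ) : ℂ) *
    ((∏ v : U.Sin, twFn340 (U.dI v).sw (U.dI v).β' (φ₀ (U.dI v).w) (locG305 (U.dI v).w δ)
        (x.1 v)) *
      ((∏ v : U.Ssp, splitFn340 l hl (L.βv v.1) (phiS340 φ₀ (U.dS v)) (delS340 δ (U.dS v))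
          (x.2.1 v)) *
        ∑ j ∈ J, ∏ v : InfinitePlace K,
          splitFn340 l hl (L.βc v) (fun a => Φ ((U.dA v).w a)) (delA340 r' δ (U.dA v) j)
            (x.2.2 v)))

theorem eqns_realisedUFB2_340 : True := by
  have _a1 := @upFactFn340.eq_1
  have _a2 := @upFactFn340.eq_def
  have _a3 := @upFactFn340.eq_unfold
  trivial

/-- On `Out_{S'}` the integrand is the factorised integrand of the grouped coordinates. -/
theorem integrand_eq340 (hP : PtFactUpC340 K K') (D : CompData K K') (hD : IsCompData D)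
    (hcyc : IsCycExt K K' D.l) (hl2 : D.l ≠ 2) (hcplx : TotCplx K)
    (ι : Adl K →+* Adl K') (hι : IsAdeleBase305 D.s D.l ι)
    (n : HeightOneSpectrum (𝓞 K') → ℕ)
    (S : Finset (HeightOneSpectrum (𝓞 K))) (S' : Finset (HeightOneSpectrum (𝓞 K')))
    (hSS' : IsOver305 S S')
    (φ₀ : ∀ w : HeightOneSpectrum (𝓞 K'), GL (Fin 2) (w.adicCompletion K') → ℂ)
    (Φ : InfinitePlace K' → GL (Fin 2) ℂ → ℂ)
    (hΦ : ∀ (w : InfinitePlace K') (g : GL (Fin 2) ℂ), Φ w (conjGL305 g) = Φ w g)
    (δ : GL (Fin 2) K') (γ : GL (Fin 2) K) (hint : IntOut305 S' δ)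
    (L : LocData305 K γ) (cT : ℝ) (U : UpDat340 K δ) (hU : IsUpDat340 D ι n L S U)
    (J : Finset ℤ)
    (hJ : ∀ j : ℤ, j ∉ J → ∀ (v : InfinitePlace K) (Z : Fin D.l → GL (Fin 2) ℂ),
      cycProd340 D.l (fun a => Φ ((U.dA v).w a)) (delA340 D.R'.r δ (U.dA v) j) Z = 0)
    (y : G K') (hy : OutT305 S' y) :
    T5.twTerm D.R'.r D.s (pure305 S' φ₀ Φ) δ y * ((upCut340 S' cT L U y : ℝ) : ℂ)
      = upFactFn340 D.l hU.pos D.R'.r L cT φ₀ Φ U J (upCoord340 U D.l y) := by
  obtain ⟨w₀⟩ : Nonempty (InfinitePlace K) := inferInstance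
  have hterm := fun j : ℤ =>
    hP D hD hcyc hl2 hcplx ι hι n S S' hSS' φ₀ Φ hΦ δ γ hint L U hU y j hy
  have hsum : T5.twTerm D.R'.r D.s (pure305 S' φ₀ Φ) δ y
      = ∑ j ∈ J, (∏ v : U.Sin, φ₀ (U.dI v).w
              ((finGL305 (U.dI v).w y)⁻¹ * locG305 (U.dI v).w δ
                * T6.glAut (U.dI v).sw (finGL305 (U.dI v).w y)))
          * (∏ v : U.Ssp, cycProd340 D.l (phiS340 φ₀ (U.dS v)) (delS340 δ (U.dS v))
              (coordS340 (U.dS v) D.l y))
          * ∏ v : InfinitePlace K, cycProd340 D.l (fun a => Φ ((U.dA v).w a))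
              (delA340 D.R'.r δ (U.dA v) j) (coordA340 (U.dA v) D.l y) := by
    show (∑' m : ℤ, pure305 S' φ₀ Φ (y⁻¹ * T5.ratG δ * D.s.onG y * D.R'.r ^ m)) = _
    rw [tsum_congr hterm]
    exact tsum_eq_sum fun j hj => by
      rw [Finset.prod_eq_zero (Finset.mem_univ w₀) (hJ j hj w₀ _), mul_zero]
  rw [hsum]
  unfold upFactFn340 upCut340
  rw [if_pos hy]
  simp only [twFn340, splitFn340, upCoord340, Finset.prod_mul_distrib]
  push_cast
  rw [← Finset.mul_sum, ← Finset.sum_mul]
  have e1 : ∀ v : U.Ssp, coordS340 (U.dS v) D.l y ⟨0, hU.pos⟩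
      = Matrix.GeneralLinearGroup.map
          ((((U.dS v).i 0).symm : ((U.dS v).w 0).adicCompletion K' ≃+* _) :
            ((U.dS v).w 0).adicCompletion K' →+* (v.1).adicCompletion K)
          (finGL305 ((U.dS v).w 0) y) := fun v => rfl
  have e2 : ∀ v : InfinitePlace K, coordA340 (U.dA v) D.l y ⟨0, hU.pos⟩
      = Matrix.GeneralLinearGroup.map ((U.dA v).d 0) (infGL305 ((U.dA v).w 0) y) :=
    fun v => rfl
  simp only [e1, e2]
  ring

/-- The product of the values over `S` is the product over `Sin` times the product over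
`Ssp`. -/
theorem prod_upJ340 (l : ℕ) (hl : 0 < l)
    (φ₀ : ∀ w : HeightOneSpectrum (𝓞 K'), GL (Fin 2) (w.adicCompletion K') → ℂ)
    {γ : GL (Fin 2) K} (L : LocData305 K γ) {δ : GL (Fin 2) K'}
    (S : Finset (HeightOneSpectrum (𝓞 K))) (U : UpDat340 K δ)
    (hunion : ∀ v : HeightOneSpectrum (𝓞 K), v ∈ S ↔ v ∈ U.Sin ∨ v ∈ U.Ssp)
    (hdis : ∀ v : HeightOneSpectrum (𝓞 K), v ∈ U.Sin → v ∉ U.Ssp) :
    ∏ v ∈ S, upJ340 l hl φ₀ L U v
      = (∏ v : U.Sin, locTwInt340 (U.dI v).sw (U.dI v).μ' (U.dI v).β' (φ₀ (U.dI v).w)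
            (locG305 (U.dI v).w δ))
        * ∏ v : U.Ssp, splitInt340 l hl (L.μv v.1) (L.βv v.1) (phiS340 φ₀ (U.dS v))
            (delS340 δ (U.dS v)) := by
  classical
  have hSeq : S = U.Sin ∪ U.Ssp := Finset.ext fun v => by
    rw [Finset.mem_union]
    exact hunion v
  have hdisj : Disjoint U.Sin U.Ssp := Finset.disjoint_left.2 fun v h1 h2 => hdis v h1 h2
  rw [hSeq, Finset.prod_union hdisj]
  congr 1
  · rw [← Finset.prod_coe_sort U.Sin]
    exact Finset.prod_congr rfl fun v _ => upJ_inert340 l hl φ₀ L U v.1 v.2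
  · rw [← Finset.prod_coe_sort U.Ssp]
    exact Finset.prod_congr rfl fun v _ =>
      upJ_split340 l hl φ₀ L U v.1 (fun h1 => hdis v.1 h1 v.2) v.2

/-- **TOP B of the second cut of `UpFactC340`, CORE FORM**: the integral part from its
leaves. -/
theorem factIntUpCore_of340 (hG : GrpSplitC340 K K') (hP : PtFactUpC340 K K')
    (hR : RayFinUpC340 K K') (hI : ArchIntblUpC340 K K') (hAI : ArchIntblC558)
    (hCC' : CompContC558 K') (hBI' : BiInvContC558 K') (hSig : HaarSigmaC558 K)
    (hSig' : HaarSigmaC558 K') (hIso : IsoContC340) (hSC : SecCountC340 K) :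
    FactIntUpCoreC340 K K' := by
  intro hT6 D hD hcyc hl2 hcplx ι hι μc hμc T₀ hT₀ n m hlev
  obtain ⟨c, hc, hsplit⟩ := hG hT6 D hD hcyc hl2 hcplx ι hι μc hμc T₀ hT₀ n m hlev
  refine ⟨c, hc, ?_⟩
  intro S S' hTS hSS' φ₀ Φ hinv harch δ γ hγ hN hgood hint L cT hL hcT U hU hlevS
  letI mw : ∀ w : HeightOneSpectrum (𝓞 K'),
      MeasurableSpace (GL (Fin 2) (w.adicCompletion K')) := fun _ => borel _
  letI mv : ∀ v : HeightOneSpectrum (𝓞 K), MeasurableSpace (GL (Fin 2) (v.adicCompletion K)) :=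
    fun _ => borel _
  letI mc : MeasurableSpace (GL (Fin 2) ℂ) := borel _
  haveI bw : ∀ w : HeightOneSpectrum (𝓞 K'), BorelSpace (GL (Fin 2) (w.adicCompletion K')) :=
    fun _ => ⟨rfl⟩
  haveI bv : ∀ v : HeightOneSpectrum (𝓞 K), BorelSpace (GL (Fin 2) (v.adicCompletion K)) :=
    fun _ => ⟨rfl⟩
  haveI bc : BorelSpace (GL (Fin 2) ℂ) := ⟨rfl⟩
  haveI bG : BorelSpace (G K') := ⟨rfl⟩
  haveI scv : ∀ v : HeightOneSpectrum (𝓞 K),
      SecondCountableTopology (GL (Fin 2) (v.adicCompletion K)) := hSC.1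
  haveI scc : SecondCountableTopology (GL (Fin 2) ℂ) := hSC.2
  haveI sw : ∀ v : U.Sin, SigmaFinite (U.dI v).μ' :=
    fun v => hSig'.1 (U.dI v).w (U.dI v).μ' (hU.inert v).haar.1
  haveI sv : ∀ v : HeightOneSpectrum (𝓞 K), SigmaFinite (L.μv v) :=
    fun v => hSig.1 v (L.μv v) (hL.haar v).1
  haveI sc : SigmaFinite μc := hSig.2.1 μc hμc
  have hl : 0 < D.l := hU.pos
  have hmap : Measure.map (upCoord340 U D.l) (D.R'.μ.restrict {y | OutT305 S' y})
      = ENNReal.ofReal c •
        ((Measure.pi fun v : U.Sin => (U.dI v).μ').prod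
          ((Measure.pi fun v : U.Ssp => Measure.pi fun _ : Fin D.l => L.μv v.1).prod
            (Measure.pi fun _ : InfinitePlace K => Measure.pi fun _ : Fin D.l => μc))) :=
    hsplit S S' hTS hSS' δ γ L hL U hU hlevS
  obtain ⟨J, hJ⟩ := hR D hD ι Φ (fun w => ⟨(harch w).1, (harch w).2.1⟩) δ U.dA
    hU.arch
  obtain ⟨w₀⟩ : Nonempty (InfinitePlace K) := inferInstance
  -- continuity of the local maps
  have hOut : MeasurableSet {y : G K' | OutT305 S' y} :=
    (isClosed_outT340 hCC'.1 S').measurableSet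
  have hφw : ∀ v : U.Sin, Continuous (φ₀ (U.dI v).w) := fun v =>
    hBI' (U.dI v).w (n (U.dI v).w) (φ₀ (U.dI v).w)
      (hinv v.1 ((hU.union v.1).2 (Or.inl v.2)) (U.dI v).w (hU.inert v).ovr).1
  have hsw : ∀ v : U.Sin, Continuous (((U.dI v).sw : _ ≃+* _) :
      (U.dI v).w.adicCompletion K' →+* (U.dI v).w.adicCompletion K') := fun v =>
    (hIso _ _ 1 _ one_pos fun x => by rw [pow_one]; exact (hU.inert v).ext.val_s x).1
  have hφS : ∀ (v : U.Ssp) (j : ℕ), Continuous (phiS340 φ₀ (U.dS v) j) := by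
    intro v j
    have h1 : Continuous (φ₀ ((U.dS v).w j)) :=
      hBI' ((U.dS v).w j) (n ((U.dS v).w j)) (φ₀ ((U.dS v).w j))
        (hinv v.1 ((hU.union v.1).2 (Or.inr v.2)) ((U.dS v).w j)
          ((hU.split v).ovr j)).1
    have h2 : Continuous ((((U.dS v).i j : _ ≃+* _) :
        (v.1).adicCompletion K →+* ((U.dS v).w j).adicCompletion K')) :=
      (hIso _ _ 1 _ one_pos fun x => by rw [pow_one]; exact (hU.split v).val_i j x).1
    exact h1.comp (continuous_GLmap340 _ h2)
  have hiS : ∀ (v : U.Ssp) (j : ℕ), Continuous (((((U.dS v).i j).symm : _ ≃+* _) :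
      ((U.dS v).w j).adicCompletion K' →+* (v.1).adicCompletion K)) := by
    intro v j
    refine (hIso _ _ 1 _ one_pos fun x => ?_).1
    rw [pow_one]
    have := (hU.split v).val_i j (((U.dS v).i j).symm x)
    rw [RingEquiv.apply_symm_apply] at this
    exact this.symm
  have hdA : ∀ (v : InfinitePlace K) (a : ℕ), Continuous ((U.dA v).d a) := by
    intro v a
    rcases (hU.arch v).typ a with h | h
    · rw [h]; exact continuous_id
    · rw [h]; exact Complex.continuous_conj
  -- measurability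
  have hcomp : Measurable (upCoord340 U D.l) := by
    refine Measurable.prodMk (measurable_pi_lambda _ fun v => (hCC'.1 _).measurable)
      (Measurable.prodMk (measurable_pi_lambda _ fun v => measurable_pi_lambda _ fun a => ?_)
        (measurable_pi_lambda _ fun v => measurable_pi_lambda _ fun a => ?_))
    · exact ((continuous_GLmap340 _ (hiS v a.1)).comp (hCC'.1 _)).measurable
    · exact ((continuous_GLmap340 _ (hdA v a.1)).comp (hCC'.2 _)).measurable
  have hfI : ∀ v : U.Sin, Measurable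
      (twFn340 (U.dI v).sw (U.dI v).β' (φ₀ (U.dI v).w) (locG305 (U.dI v).w δ)) := fun v =>
    (continuous_twFn340 _ (hsw v) (hU.inert v).cut.1 (hφw v) _).measurable
  have hfS : ∀ v : U.Ssp, Measurable
      (splitFn340 D.l hl (L.βv v.1) (phiS340 φ₀ (U.dS v)) (delS340 δ (U.dS v))) := fun v =>
    (continuous_splitFn340 D.l hl (hL.cut v.1).1 (fun j _ => hφS v j) _).measurable
  have hfA : ∀ (j : ℤ) (v : InfinitePlace K), Measurable
      (splitFn340 D.l hl (L.βc v) (fun a => Φ ((U.dA v).w a))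
        (delA340 D.R'.r δ (U.dA v) j)) := fun j v =>
    (continuous_splitFn340 D.l hl (hL.cutc v).1 (fun a _ => (harch _).1) _).measurable
  have hΨ : Measurable (upFactFn340 D.l hl D.R'.r L cT φ₀ Φ U J) := by
    unfold upFactFn340
    refine measurable_const.mul (Measurable.mul ?_ (Measurable.mul ?_ ?_))
    · exact Finset.measurable_prod _ fun v _ =>
        (hfI v).comp ((measurable_pi_apply v).comp measurable_fst)
    · exact Finset.measurable_prod _ fun v _ =>
        (hfS v).comp ((measurable_pi_apply v).comp (measurable_fst.comp measurable_snd))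
    · exact Finset.measurable_sum _ fun j _ => Finset.measurable_prod _ fun v _ =>
        (hfA j v).comp ((measurable_pi_apply v).comp (measurable_snd.comp measurable_snd))
  -- the integral over `GL₂(𝔸_{K'})` as an integral over the product of the local groups
  have h1 : cutInt305 D.R'.r D.s (pure305 S' φ₀ Φ) δ D.R'.μ (upCut340 S' cT L U)
      = ∫ x, upFactFn340 D.l hl D.R'.r L cT φ₀ Φ U J x
          ∂(Measure.map (upCoord340 U D.l) (D.R'.μ.restrict {y | OutT305 S' y})) := by
    rw [integral_map hcomp.aemeasurable hΨ.aestronglyMeasurable]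
    unfold cutInt305
    rw [← setIntegral_eq_integral_of_forall_compl_eq_zero (s := {y | OutT305 S' y})]
    · exact setIntegral_congr_fun hOut fun y hy =>
        integrand_eq340 hP D hD hcyc hl2 hcplx ι hι n S S' hSS' φ₀ Φ
          (fun w => (harch w).2.2) δ γ hint L cT U hU J hJ y hy
    · intro y hy
      have hy' : ¬ OutT305 S' y := hy
      have h0 : upCut340 S' cT L U y = 0 := by
        unfold upCut340
        rw [if_neg hy']
      rw [h0]
      simp
  -- integrability at the infinite places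
  have hintbl : ∀ (j : ℤ) (v : InfinitePlace K),
      Integrable (splitFn340 D.l hl (L.βc v) (fun a => Φ ((U.dA v).w a))
        (delA340 D.R'.r δ (U.dA v) j)) (Measure.pi fun _ : Fin D.l => μc) := fun j v =>
    hI hAI D hD hcyc hl2 hcplx ι hι μc hμc Φ
      (fun w => ⟨(harch w).1, (harch w).2.1⟩) δ γ hγ hN m L hL v (U.dA v)
      (hU.arch v) hl j
  -- Fubini
  have h2 : ∫ x, upFactFn340 D.l hl D.R'.r L cT φ₀ Φ U J x
        ∂((Measure.pi fun v : U.Sin => (U.dI v).μ').prod
          ((Measure.pi fun v : U.Ssp => Measure.pi fun _ : Fin D.l => L.μv v.1).prod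
            (Measure.pi fun _ : InfinitePlace K => Measure.pi fun _ : Fin D.l => μc)))
      = ((cT⁻¹ : ℝ) : ℂ) *
        ((∏ v : U.Sin, ∫ a, twFn340 (U.dI v).sw (U.dI v).β' (φ₀ (U.dI v).w)
              (locG305 (U.dI v).w δ) a ∂((U.dI v).μ')) *
          ((∏ v : U.Ssp, ∫ a, splitFn340 D.l hl (L.βv v.1) (phiS340 φ₀ (U.dS v))
                (delS340 δ (U.dS v)) a ∂(Measure.pi fun _ : Fin D.l => L.μv v.1)) *
            ∑ j ∈ J, ∏ v : InfinitePlace K,
              ∫ b, splitFn340 D.l hl (L.βc v) (fun a => Φ ((U.dA v).w a))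
                (delA340 D.R'.r δ (U.dA v) j) b ∂(Measure.pi fun _ : Fin D.l => μc))) := by
    unfold upFactFn340
    rw [integral_const_mul]
    rw [integral_prod_mul
      (fun a : ∀ v : U.Sin, GL (Fin 2) ((U.dI v).w.adicCompletion K') =>
        ∏ v : U.Sin, twFn340 (U.dI v).sw (U.dI v).β' (φ₀ (U.dI v).w)
          (locG305 (U.dI v).w δ) (a v))
      (fun z : (∀ v : U.Ssp, Fin D.l →
            GL (Fin 2) ((v : HeightOneSpectrum (𝓞 K)).adicCompletion K)) ×
          (InfinitePlace K → Fin D.l → GL (Fin 2) ℂ) =>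
        (∏ v : U.Ssp, splitFn340 D.l hl (L.βv v.1) (phiS340 φ₀ (U.dS v))
            (delS340 δ (U.dS v)) (z.1 v)) *
          ∑ j ∈ J, ∏ v : InfinitePlace K,
            splitFn340 D.l hl (L.βc v) (fun a => Φ ((U.dA v).w a))
              (delA340 D.R'.r δ (U.dA v) j) (z.2 v))]
    rw [integral_prod_mul
      (fun a : ∀ v : U.Ssp, Fin D.l →
          GL (Fin 2) ((v : HeightOneSpectrum (𝓞 K)).adicCompletion K) =>
        ∏ v : U.Ssp, splitFn340 D.l hl (L.βv v.1) (phiS340 φ₀ (U.dS v))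
          (delS340 δ (U.dS v)) (a v))
      (fun b : InfinitePlace K → Fin D.l → GL (Fin 2) ℂ =>
        ∑ j ∈ J, ∏ v : InfinitePlace K,
          splitFn340 D.l hl (L.βc v) (fun a => Φ ((U.dA v).w a))
            (delA340 D.R'.r δ (U.dA v) j) (b v))]
    rw [integral_fintype_prod_eq_prod
      (fun v : U.Sin => twFn340 (U.dI v).sw (U.dI v).β' (φ₀ (U.dI v).w)
        (locG305 (U.dI v).w δ))]
    rw [integral_fintype_prod_eq_prod
      (fun v : U.Ssp => splitFn340 D.l hl (L.βv v.1) (phiS340 φ₀ (U.dS v))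
        (delS340 δ (U.dS v)))]
    rw [integral_finsetSum J fun j _ => Integrable.fintype_prod (hintbl j)]
    congr 3
    refine Finset.sum_congr rfl fun j _ => ?_
    exact integral_fintype_prod_eq_prod
      (fun v : InfinitePlace K => splitFn340 D.l hl (L.βc v) (fun a => Φ ((U.dA v).w a))
        (delA340 D.R'.r δ (U.dA v) j))
  -- the factorised value is a finite sum
  have h3 : (∑' j : ℤ, (∏ v ∈ S, upJ340 D.l hU.pos φ₀ L U v)
        * ∏ w : InfinitePlace K, upJc340 D.l hU.pos D.R'.r Φ L μc U w j)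
      = ∑ j ∈ J, (∏ v ∈ S, upJ340 D.l hU.pos φ₀ L U v)
        * ∏ w : InfinitePlace K, upJc340 D.l hU.pos D.R'.r Φ L μc U w j := by
    refine tsum_eq_sum fun j hj => ?_
    have h0 : upJc340 D.l hU.pos D.R'.r Φ L μc U w₀ j = 0 := by
      show (∫ y : Fin D.l → GL (Fin 2) ℂ,
        splitFn340 D.l hU.pos (L.βc w₀) (fun a => Φ ((U.dA w₀).w a))
          (delA340 D.R'.r δ (U.dA w₀) j) y ∂(Measure.pi fun _ : Fin D.l => μc)) = 0
      have hz : splitFn340 D.l hU.pos (L.βc w₀) (fun a => Φ ((U.dA w₀).w a))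
          (delA340 D.R'.r δ (U.dA w₀) j) = fun _ => 0 := by
        funext y
        show cycProd340 D.l (fun a => Φ ((U.dA w₀).w a)) (delA340 D.R'.r δ (U.dA w₀) j) y
          * ((L.βc w₀ (y ⟨0, hU.pos⟩) : ℝ) : ℂ) = 0
        rw [hJ j hj w₀ y, zero_mul]
      rw [hz]
      exact integral_zero _ _
    rw [Finset.prod_eq_zero (Finset.mem_univ w₀) h0, mul_zero]
  rw [h1, hmap, integral_smul_measure, ENNReal.toReal_ofReal hc.le, h2, h3,
    prod_upJ340 D.l hU.pos φ₀ L S U hU.union hU.disj, ← Finset.mul_sum, Complex.real_smul]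
  have e1 : ∀ v : U.Sin, locTwInt340 (U.dI v).sw (U.dI v).μ' (U.dI v).β' (φ₀ (U.dI v).w)
      (locG305 (U.dI v).w δ)
      = ∫ a, twFn340 (U.dI v).sw (U.dI v).β' (φ₀ (U.dI v).w) (locG305 (U.dI v).w δ) a
          ∂((U.dI v).μ') := fun v => rfl
  have e2 : ∀ v : U.Ssp, splitInt340 D.l hU.pos (L.μv v.1) (L.βv v.1) (phiS340 φ₀ (U.dS v))
      (delS340 δ (U.dS v))
      = ∫ a, splitFn340 D.l hl (L.βv v.1) (phiS340 φ₀ (U.dS v)) (delS340 δ (U.dS v)) a
          ∂(Measure.pi fun _ : Fin D.l => L.μv v.1) := fun v => rfl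
  have e3 : ∀ (v : InfinitePlace K) (j : ℤ), upJc340 D.l hU.pos D.R'.r Φ L μc U v j
      = ∫ b, splitFn340 D.l hl (L.βc v) (fun a => Φ ((U.dA v).w a))
          (delA340 D.R'.r δ (U.dA v) j) b ∂(Measure.pi fun _ : Fin D.l => μc) :=
    fun v j => rfl
  simp only [e1, e2, e3]
  push_cast
  ring

/-- `FactIntUpC340` (for `LocHyp305`) from the core form. -/
theorem factIntUpC_of_core340 (hC : FactIntUpCoreC340 K K') : FactIntUpC340 K K' := by
  intro hT6 D hD hcyc hl2 hcplx ι hι μc hμc T₀ hT₀ n m hlev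
  obtain ⟨c, hc, hcore⟩ := hC hT6 D hD hcyc hl2 hcplx ι hι μc hμc T₀ hT₀ n m hlev
  refine ⟨c, hc, ?_⟩
  intro S S' hTS hSS' φ₀ Φ f₀ F hloc δ γ hγ hN hgood hint L cT hL hcT U hU
  refine hcore S S' hTS hSS' φ₀ Φ hloc.inv_up hloc.arch_up δ γ hγ hN hgood hint L cT hL hcT U hU
    ?_
  intro v a
  have hd := hU.split v
  have hvS : v.1 ∈ S := (hU.union v.1).2 (Or.inr v.2)
  exact (hloc.split v.1 hvS (U.dS v).w (U.dS v).i hd.ovr hd.rel hd.ne hd.rat_i hd.val_i).1 a

/-- **TOP B of the second cut of `UpFactC340`**: the integral part from its leaves. -/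
theorem factIntUpC_of340 (hG : GrpSplitC340 K K') (hP : PtFactUpC340 K K')
    (hR : RayFinUpC340 K K') (hI : ArchIntblUpC340 K K') (hAI : ArchIntblC558)
    (hCC' : CompContC558 K') (hBI' : BiInvContC558 K') (hSig : HaarSigmaC558 K)
    (hSig' : HaarSigmaC558 K') (hIso : IsoContC340) (hSC : SecCountC340 K) :
    FactIntUpC340 K K' :=
  factIntUpC_of_core340
    (factIntUpCore_of340 hG hP hR hI hAI hCC' hBI' hSig hSig' hIso hSC)

end TwoFieldsB

end Fermat.Agent.LT.T7.H340

end

end
-- ===== PACK-END LT/T7/H340/UpFactTopB.lean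

-- ===== PACK-BEGIN LT/T7/H49/OpsSig.lean
section


/-!
# Row LT, tower T7, leaf T7.L2.2.B4.7 `H561.OpsSigC561` (helper49, OFF-MAIN)

    opsSigC49 (K K') : H561.OpsSigC561 K K'        VERBATIM, UNCONDITIONAL

`R(σ) S_j = S_{j+1} R(σ)`, `R(σ) ρ_j = ρ_{j+1} R(σ)` on the invariant cusp functions of the base
level.  `R(σ) R(h) = R(σ h) R(σ)`; `σ (Hs j)` is an explicit system at `o (j + 1)`
(`isSSys_onG49`; asset helper415: the local maps preserve the valuations and only depend on the
component), `R(σ) ψ` is Iwahori invariant at `o (j + 1)` (`isIwInvAt_Rsig49`), and two explicit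
systems at the same place define the same operators (`cosetOp_indepS49`, `trOp_indep49`).
The hypothesis `BaseStable561` is not used.
-/

set_option autoImplicit false
set_option linter.unusedSectionVars false
set_option linter.unusedSimpArgs false
set_option linter.unusedVariables false

open Matrix
open AutomorphicForm IsDedekindDomain NumberField IsDedekindDomain.HeightOneSpectrum
open Fermat.Agent.LT.H556 Fermat.Agent.LT.H556.A0 Fermat.Agent.LT.H129
open Fermat.Agent.LT.T7 Fermat.Agent.LT.T7.H83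
open Fermat.Agent.LT.H415 Fermat.Agent.LT.T5.H415

noncomputable section

namespace Fermat.Agent.LT.T7.H49

section Aut

variable {K : Type} [Field K] [NumberField K]

/-- The inverse automorphism. -/
def invAut49 (s : T5.AdelicAut K) : T5.AdelicAut K where
  σ := s.σ.symm
  σA := s.σA.symm
  continuous_σA := s.continuous_symm
  continuous_symm := s.continuous_σA
  compat := fun x => by
    apply s.σA.injective
    rw [RingEquiv.apply_symm_apply, s.compat, RingEquiv.apply_symm_apply]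

theorem onG_invAut49 (s : T5.AdelicAut K) : (invAut49 s).onG = s.onGinv := rfl

theorem onGinv_onG49 (s : T5.AdelicAut K) (g : G K) : s.onGinv (s.onG g) = g := by
  apply Units.ext
  ext i j
  exact s.σA.symm_apply_apply _

theorem onG_onGinv49 (s : T5.AdelicAut K) (g : G K) : s.onG (s.onGinv g) = g := by
  apply Units.ext
  ext i j
  exact s.σA.apply_symm_apply _

theorem onG_injective49 (s : T5.AdelicAut K) : Function.Injective s.onG :=
  Function.LeftInverse.injective (onGinv_onG49 s)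

theorem placeRel_inv49 {s : T5.AdelicAut K} {v v' : HeightOneSpectrum (𝓞 K)}
    (h : T5.PlaceRel s v v') : T5.PlaceRel (invAut49 s) v' v :=
  finRel_symm415 s.σ v v' h

theorem finComp_one49 (u : HeightOneSpectrum (𝓞 K)) : finComp u (1 : G K) = 1 :=
  (trivAtFin_iff129 u 1).2 (map_one _)

theorem trivAtInf_one49 (w : InfinitePlace K) : TrivAtInf w (1 : G K) :=
  (trivAtInf_iff129 w 1).2 (map_one _)

/-- `σ` maps the elements supported at `v` to the elements supported at `σ v`. -/
theorem isLocalAtFin_onG49 {s : T5.AdelicAut K} {v v' : HeightOneSpectrum (𝓞 K)}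
    (h : T5.PlaceRel s v v') {g : G K} (hg : IsLocalAtFin v g) : IsLocalAtFin v' (s.onG g) := by
  refine ⟨fun w' => ?_, fun u hu => ?_⟩
  · obtain ⟨w, rfl⟩ := infImage_surjective415 s.σ w'
    intro i j
    have h1 : ((g : Matrix (Fin 2) (Fin 2) (Adl K)) i j).1 w
        = (((1 : G K) : Matrix (Fin 2) (Fin 2) (Adl K)) i j).1 w := by
      rw [hg.1 w i j, trivAtInf_one49 w i j]
    have h2 := tau_inf_congr415 s.σ (hom415 s) (continuous_hom415 s) (compat_hom415 s)
      (injective_hom415 s) w _ _ h1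
    have h3 : (s.onG g : Matrix (Fin 2) (Fin 2) (Adl K)) i j
        = hom415 s ((g : Matrix (Fin 2) (Fin 2) (Adl K)) i j) := rfl
    have h4 : (((1 : G K) : Matrix (Fin 2) (Fin 2) (Adl K)) i j)
        = ((s.onG 1 : G K) : Matrix (Fin 2) (Fin 2) (Adl K)) i j := by rw [map_one]
    have h5 : ((s.onG 1 : G K) : Matrix (Fin 2) (Fin 2) (Adl K)) i j
        = hom415 s (((1 : G K) : Matrix (Fin 2) (Fin 2) (Adl K)) i j) := rfl
    rw [h3, h2, ← h5, ← h4]
    exact trivAtInf_one49 _ i j
  · obtain ⟨u₀, hu₀⟩ := finRel_exists_preimage415 s.σ u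
    have hne : u₀ ≠ v := by
      rintro rfl
      exact hu (finRel_unique415 s.σ u₀ u v' hu₀ h)
    have h1 : finComp u₀ g = finComp u₀ (1 : G K) := by
      rw [finComp_one49]
      exact hg.2 u₀ hne
    have h2 := finComp_onG_congr415 s u₀ u hu₀ g 1 h1
    unfold TrivAtFin
    rw [h2, map_one]
    exact finComp_one49 u

/-- An entry `0` stays `0`. -/
theorem finComp_onG_zero49 {s : T5.AdelicAut K} {v v' : HeightOneSpectrum (𝓞 K)}
    (h : T5.PlaceRel s v v') (g : G K) (i j : Fin 2) (hg : finComp v g i j = 0) :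
    finComp v' (s.onG g) i j = 0 := by
  have h1 := valued_onG415 s v v' h g i j
  rw [hg, map_zero] at h1
  exact (Valuation.zero_iff _).1 h1

/-- An entry `1` stays `1`. -/
theorem finComp_onG_one49 {s : T5.AdelicAut K} {v v' : HeightOneSpectrum (𝓞 K)}
    (h : T5.PlaceRel s v v') (g : G K) (i j : Fin 2) (hg : finComp v g i j = 1) :
    finComp v' (s.onG g) i j = 1 := by
  have h1 : ((g : Matrix (Fin 2) (Fin 2) (Adl K)) i j).2 v = (1 : Adl K).2 v := by
    have : (1 : Adl K).2 v = 1 := rfl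
    rw [this]
    exact hg
  have h2 := tau_fin_congr415 s.σ (hom415 s) (continuous_hom415 s) (compat_hom415 s)
    (injective_hom415 s) v v' h _ _ h1
  have h3 : finComp v' (s.onG g) i j
      = (hom415 s ((g : Matrix (Fin 2) (Fin 2) (Adl K)) i j)).2 v' := rfl
  rw [h3, h2, map_one]
  rfl

/-- The image of a matrix `[[a, 1], [1, 0]]`. -/
theorem finComp_onG_sL49 {s : T5.AdelicAut K} {v v' : HeightOneSpectrum (𝓞 K)}
    (h : T5.PlaceRel s v v') (g : G K) {a : v.adicCompletion K}
    (hg : finComp v g = !![a, 1; 1, 0]) :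
    finComp v' (s.onG g) = !![finComp v' (s.onG g) 0 0, 1; 1, 0] := by
  funext i j
  fin_cases i <;> fin_cases j
  · rfl
  · exact finComp_onG_one49 h g 0 1 (by rw [hg]; rfl)
  · exact finComp_onG_one49 h g 1 0 (by rw [hg]; rfl)
  · exact finComp_onG_zero49 h g 1 1 (by rw [hg]; rfl)

/-- The image of a matrix `[[0, 1], [c, 0]]`. -/
theorem finComp_onG_om49 {s : T5.AdelicAut K} {v v' : HeightOneSpectrum (𝓞 K)}
    (h : T5.PlaceRel s v v') (g : G K) {c : v.adicCompletion K}
    (hg : finComp v g = !![0, 1; c, 0]) :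
    finComp v' (s.onG g) = !![0, 1; finComp v' (s.onG g) 1 0, 0] := by
  funext i j
  fin_cases i <;> fin_cases j
  · exact finComp_onG_zero49 h g 0 0 (by rw [hg]; rfl)
  · exact finComp_onG_one49 h g 0 1 (by rw [hg]; rfl)
  · rfl
  · exact finComp_onG_zero49 h g 1 1 (by rw [hg]; rfl)

open scoped Classical in
/-- **The image under `σ` of an explicit system at `v` is an explicit system at `σ v`.** -/
theorem isSSys_onG49 {s : T5.AdelicAut K} {v v' : HeightOneSpectrum (𝓞 K)}
    (h : T5.PlaceRel s v v') {Hs : Finset (G K)} (hH : IsSSys49 v Hs) :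
    IsSSys49 v' (Hs.image s.onG) := by
  refine ⟨?_, ?_, ?_, ?_⟩
  · rw [Finset.card_image_of_injective _ (onG_injective49 s), hH.card,
      absNorm_placeRel49 h]
  · intro t ht
    obtain ⟨g, hg, rfl⟩ := Finset.mem_image.1 ht
    exact isLocalAtFin_onG49 h (hH.loc g hg)
  · intro t ht
    obtain ⟨g, hg, rfl⟩ := Finset.mem_image.1 ht
    obtain ⟨a, ha, hc⟩ := hH.comp g hg
    refine ⟨finComp v' (s.onG g) 0 0, ?_, finComp_onG_sL49 h g hc⟩
    rw [mem_adicCompletionIntegers, valued_onG415 s v v' h g 0 0, hc]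
    exact (mem_adicCompletionIntegers _ _ _).1 ha
  · intro t ht t' ht' hne
    obtain ⟨g, hg, rfl⟩ := Finset.mem_image.1 ht
    obtain ⟨g', hg', rfl⟩ := Finset.mem_image.1 ht'
    have hne' : g ≠ g' := fun e => hne (by rw [e])
    rw [← map_inv, ← map_mul, inIwahori_onG415 s v v' h]
    exact hH.inj g hg g' hg' hne'

/-- `R(σ) ψ` is Iwahori invariant at `σ v` if `ψ` is Iwahori invariant at `v`. -/
theorem isIwInvAt_Rsig49 {s : T5.AdelicAut K} {v v' : HeightOneSpectrum (𝓞 K)}
    (h : T5.PlaceRel s v v') {ψ : G K → ℂ} (hψ : IsIwInvAt v ψ) :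
    IsIwInvAt v' (T5.Rsig s ψ) := by
  intro u hu hI x
  unfold T5.Rsig
  rw [map_mul]
  have h' := placeRel_inv49 h
  apply hψ (s.onGinv u)
  · rw [← onG_invAut49]
    exact isLocalAtFin_onG49 h' hu
  · rw [← onG_invAut49, inIwahori_onG415 (invAut49 s) v' v h']
    exact hI

end Aut

/-- **LEAF T7.L2.2.B4.7 = OPS-SIGMA, VERBATIM.** -/
theorem opsSigC49 (K K' : Type) [Field K] [NumberField K] [Field K'] [NumberField K']
    [Algebra K K'] : H561.OpsSigC561 K K' := by
  classical
  intro ℓ Φ Dt hs _ Hs ω hsys j ψ hψ x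
  have hrel : T5.PlaceRel Dt.s (Dt.o j) (Dt.o (j + 1)) := hs.data.orbit_rel j
  have hinv : IsIwInvAt (Dt.o j) ψ := isIwInvAt_orbit49 hs hψ j
  have hinv' : IsIwInvAt (Dt.o (j + 1)) (T5.Rsig Dt.s ψ) := isIwInvAt_Rsig49 hrel hinv
  constructor
  · rw [← cosetOp_indepS49 (isSSys_onG49 hrel (isSSys_of561 hsys j))
      (isSSys_of561 hsys (j + 1)) hinv' x]
    unfold cosetOp T5.Rsig
    rw [Finset.sum_image (fun a _ b _ e => onG_injective49 Dt.s e)]
    apply Finset.sum_congr rfl
    intro g _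
    rw [map_mul, onGinv_onG49]
  · obtain ⟨c, hc, hcc⟩ := hsys.ω_comp j
    obtain ⟨c', hc', hcc'⟩ := hsys.ω_comp (j + 1)
    have e1 : T5.Rsig Dt.s (H561.trOp561 (ω j) ψ) x
        = T5.Rsig Dt.s ψ (x * Dt.s.onG (ω j)) := by
      unfold T5.Rsig H561.trOp561
      rw [map_mul, onGinv_onG49]
    rw [e1]
    unfold H561.trOp561
    refine trOp_indep49 (c := finComp (Dt.o (j + 1)) (Dt.s.onG (ω j)) 1 0)
      (isLocalAtFin_onG49 hrel (hsys.ω_local j)) (hsys.ω_local (j + 1)) ?_ hc'
      (finComp_onG_om49 hrel (ω j) hcc) hcc' hinv' x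
    rw [valued_onG415 Dt.s _ _ hrel (ω j) 1 0, hcc]
    exact hc

example (K K' : Type) [Field K] [NumberField K] [Field K'] [NumberField K'] [Algebra K K'] :
    H561.OpsSigC561 K K' := opsSigC49 K K'

end Fermat.Agent.LT.T7.H49

end

end
-- ===== PACK-END LT/T7/H49/OpsSig.lean

-- ===== PACK-BEGIN LT/T7/H60/SupplyQRam.lean
section




/-!
# Row LT, tower T7, node T7.L2Q.1 `SupplyQC` (owner of registry row 2151: helper60):
# THE CUT OF RECORD, v2 = first cut + THE RAMIFIED PRIME + the form of record `H29.SupplyQSC`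

OFF-MAIN.  Definitions, frozen Props, PROVED tops.  No hole, nothing assumed.  ADDITIVE (new names
only, namespace `Fermat.Agent.LT.T7.L2Q.H60`); `H60/SupplyQSpec.lean` (945eb304) and
`H60/SupplyQTop.lean` (f21d5605) are UNCHANGED.  Vocabulary, byte-identical copies:
`T7/H826/Level2Q.lean` v1.1 (d2117efc), `T7/H29/UpCore.lean` + `UpCore2.lean` (helper29),
`T7/H962/SupplyQSpec.lean` + `SupplyQTop.lean` (helper962), `T7/H732/SupplyQFamSpec.lean` +
`SupplyQFamTop.lean` + `SupplyQFam60.lean` (helper732, second cut).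

    supplyQSC29_of60        : SetupQRC60 F → H893.ProjC F → (∀ n, H962.ProjQC962 n)
                                → FamQRC60 P F → H29.SupplyQSC P F      (FORM OF RECORD, VERBATIM)
    famQRC_of_pre60         : PreQRC60 P F → (the 8 leaves of helper732) → FamQRC60 P F
    supplyQSC29_of_leaves60 : SetupQRC60 F → H893.ProjC F → (∀ n, H962.ProjQC962 n)
                                → PreQRC60 P F → (the 8 leaves) → H29.SupplyQSC P F
    traceWordsQRegP_of_leaves60 : … → T7.TraceWordsQRegP P F             (target VERBATIM)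

## 1. The ramified prime (referee helper739, note 17973; cyclic analogue: helper666, 17915)

The common part `IsL2QBase` does not say that the prime `3` (the only prime which ramifies in
`F = ℚ(√-3)`) lies in `S`.  The nodes `FamQC`, `H732.PreQ60C732` quantify over ALL common parts;
for a common part with `3 ∉ S` the members downstairs would be spherical at `3` and matched with
the unit at the ramified place over `3`, which is false in general (the descent of the wall has
the central character `χ₋₃`, ramified at `3`).  So the nodes of record carry the hypothesis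

    IsRamQ60 B :  3 ∈ B.S

(with `under_exact`, `fibre`: the place over `3` lies in `S'`, i.e. divides the base level), and
the setup of record `SetupQRC60` provides it (`𝔫₀ := 3 · u · …`; free).

## 2. The form of record (ruling of the architect helper797, 15:58Z)

`H29.SupplyQSC P F` = `L2Q.SupplyQC P F` + `H29.IsStableQ` (`σ` preserves the frame at the base
level, and `S'` contains every place over a prime of `S`).  Both follow from `IsL2QBase`
(`aut` + `base_level`; `under_exact` + `fibre`): `isStableQ29_toData60`.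

## 3. The projections

Downstairs the top takes the leaves `H962.ProjQC962 n` (CLOSED for both types by helper40,
`T7/H40/ProjQ.lean`, `projQC962_closed40`); upstairs `H893.ProjC F` (row 2110).
-/

set_option autoImplicit false

open AutomorphicForm IsDedekindDomain NumberField MeasureTheory
open scoped ComplexConjugate

noncomputable section

namespace Fermat.Agent.LT.T7.L2Q.H60

open Fermat.Agent.LT.H556 Fermat.Agent.LT.H556.A0 Fermat.Agent.LT.T7 Fermat.Agent.LT.T7.L2Q

attribute [local instance] Fermat.Agent.LT.T5.instMeasurableSpaceG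

/-! ## 1. The nodes of record -/

section Spec

/-- **The ramified prime lies in `S`**: `3 ∈ S` (`3` is the only prime which ramifies in
`ℚ(√-3)`). -/
def IsRamQ60 {F : Type} [Field F] [NumberField F] (B : L2QBase F) : Prop := (3 : ℕ) ∈ B.S

variable (P : EKCond)
variable (F : Type) [Field F] [NumberField F]

/-- **LEAF T7.L2Q.1.C0 OF RECORD = SETUP over `ℚ` with the ramified prime** (`SetupQC` +
`IsRamQ60`).  Proof: as for `SetupQC` with `𝔫₀ = 3 · u · (Φ.level ∩ ℤ) · ∏ (the exceptional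
primes)`, `u ≡ 1 mod 3` prime to the other factors. -/
def SetupQRC60 : Prop :=
  HasSqrtNegThree F → IsImagQuad F →
    ∀ Φ : HeckeEigensystem F ℂ, A0.IsCuspAdelicSph0 F Φ → ConstOnFibresQ Φ →
      ∃ B : L2QBase F, IsL2QBase Φ B ∧ IsRamQ60 B

/-- **NODE T7.L2Q.1.F OF RECORD = FAMILIES over `ℚ`**, for the common parts with `3 ∈ S`. -/
def FamQRC60 : Prop :=
  HasSqrtNegThree F → IsImagQuad F →
    ∀ Φ : HeckeEigensystem F ℂ, A0.IsCuspAdelicSph0 F Φ → ConstOnFibresQ Φ → P F Φ →
      ∀ B : L2QBase F, IsL2QBase Φ B → IsRamQ60 B → ∀ g : G F, B.IsBad g →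
        ∃ Fm : L2QFam F, IsL2QFam Φ B g Fm

/-- **NODE T7.L2Q.1.F0 OF RECORD = PRE over `ℚ`** (construction + geometry), for the common parts
with `3 ∈ S`: the pre-data of helper732 (`H732.IsL2QPre732`) exist. -/
def PreQRC60 : Prop :=
  HasSqrtNegThree F → IsImagQuad F →
    ∀ Φ : HeckeEigensystem F ℂ, A0.IsCuspAdelicSph0 F Φ → ConstOnFibresQ Φ → P F Φ →
      ∀ B : L2QBase F, IsL2QBase Φ B → IsRamQ60 B → ∀ g : G F, B.IsBad g →
        ∃ E : H732.L2QPre732 F, H732.IsL2QPre732 Φ (H732.toBase962_732 B) g E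

end Spec

/-! ## 2. The comparisons with the first forms -/

section Compare

variable {P : EKCond}
variable {F : Type} [Field F] [NumberField F]

theorem setupQC_of_ram60 (h : SetupQRC60 F) : SetupQC F :=
  fun h3 hquad Φ hΦ hconst =>
    let ⟨B, hB, _⟩ := h h3 hquad Φ hΦ hconst
    ⟨B, hB⟩

theorem famQRC_of_famQC60 (h : FamQC P F) : FamQRC60 P F :=
  fun h3 hquad Φ hΦ hconst hP B hB _ g hg => h h3 hquad Φ hΦ hconst hP B hB g hg

theorem preQRC_of_preQ60C60 (h : H732.PreQ60C732 P F) : PreQRC60 P F :=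
  fun h3 hquad Φ hΦ hconst hP B hB _ g hg => h h3 hquad Φ hΦ hconst hP B hB g hg

/-- **THE TOP OF THE SECOND CUT, of record**: the families from the pre-data and the eight
bookkeeping leaves of helper732 (UNCHANGED). -/
theorem famQRC_of_pre60 (h0 : PreQRC60 P F)
    (h1 : H732.EkProdUpQC732 F) (h2 : H732.EkProdDownQC732 F) (h3 : H732.OpUpQC732 F)
    (h4 : H732.KillUpQC732 F) (h5 : H732.OpDownQC732 F) (h6 : H732.ClassDownQC732 F)
    (h7 : H732.CommDownQC732 F) (h8 : H732.KillDownQC732 F) : FamQRC60 P F := by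
  intro h3' hquad Φ hΦ hconst hPΦ B hB hram g hg
  obtain ⟨E, hE⟩ := h0 h3' hquad Φ hΦ hconst hPΦ B hB hram g hg
  exact ⟨H732.toFam60_732 (E.toFam (H732.toBase962_732 B)),
    H732.isL2QFam60_of962_732
      (H732.isL2QFam_toFam732 (H732.isL2QBase962_of60_732 hB) hg hE h1 h2 h3 h4 h5 h6 h7 h8)⟩

end Compare

/-! ## 3. The tops of record -/

section Top

variable {P : EKCond}
variable {F : Type} [Field F] [NumberField F]

/-- **The assembly of an `L2QData`** with the projections downstairs in the form of helper962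
(closed by helper40). -/
theorem isL2QData_toData60' {Φ : HeckeEigensystem F ℂ} {B : L2QBase F}
    (hB : IsL2QBase Φ B) (hP' : H893.ProjC F) (hPQ : ∀ n : QWt, H962.ProjQC962 n)
    (Fm : G F → L2QFam F) (hFm : ∀ g : G F, B.IsBad g → IsL2QFam Φ B g (Fm g)) :
    IsL2QData Φ (B.toData Fm) where
  comp := fun g hg => isCompData_comp60 hB (hFm g hg).level_ne
  level_le := hB.level_le
  level_g := fun g hg => (hFm g hg).level_g
  mem_S' := hB.mem_S'
  mem_S'_g := fun g hg => (hFm g hg).mem_S'_g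
  under := hB.under
  const := hB.const
  orbit_rel := hB.orbit_rel
  orbit_ne := hB.orbit_ne
  orbit_over := hB.orbit_over
  orbit_level := hB.orbit_level
  orbit_good := hB.orbit_good
  u_level := fun g hg => (hFm g hg).u_level
  ekprod_up := fun g X k m hg hX => (hFm g hg).ekprod_up X k m hX
  ekprod_down := fun n g X k m hg hX => (hFm g hg).ekprod_down n X k m hX
  reg_up := fun g X k m hg hX hm => (hFm g hg).reg_up X k m hX hm
  reg_down := fun n g X k m hg hX hm => (hFm g hg).reg_down n X k m hX hm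
  matched := fun g X k m hg hX hm => (hFm g hg).matched X k m hX hm
  base_ne := fun g hg => (hFm g hg).base_ne
  op_up := fun g X k m hg hX => (hFm g hg).op_up X k m hX
  kill_up := fun g X k m hg hX => (hFm g hg).kill_up X k m hX
  proj_up := fun g hg ψ hψ =>
    hP' B.R' hB.frame' B.𝔑₀ (upQ (F := F) (Fm g).𝔫) (upQ_ne_bot60 (hFm g hg).level_ne)
      (hFm g hg).level_g 2 B.o (fun j => (hB.mem_S' (B.o j)).1 (hB.orbit_level j)) ψ hψ
  op_down := fun n g X k m hg hX => (hFm g hg).op_down n X k m hX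
  class_down := fun n g hg => (hFm g hg).class_down n
  comm_down := fun n g hg => (hFm g hg).comm_down n
  kill_down := fun n g X k m hg hX => (hFm g hg).kill_down n X k m hX
  proj_down := fun n g hg ψ hψ =>
    hPQ n B.R hB.frame (Fm g).𝔫 (Fm g).𝔫 (hFm g hg).level_ne le_rfl B.u
      (hFm g hg).u_level ψ hψ

/-- `σ` preserves the frame at the base level of a common part. -/
theorem autPreserves_base60' {Φ : HeckeEigensystem F ℂ} {B : L2QBase F}
    (hB : IsL2QBase Φ B) : T5.AutPreserves B.s B.𝔑₀ B.R'.μ B.R'.r := by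
  obtain ⟨𝔫₀, -, h𝔑, -, -⟩ := hB.base_level
  rw [h𝔑]
  exact hB.aut 𝔫₀

/-- `S'` contains every place over a prime of `S`. -/
theorem full_of_isL2QBase60 {Φ : HeckeEigensystem F ℂ} {B : L2QBase F}
    (hB : IsL2QBase Φ B) (p : ℕ) (hp : p.Prime) (hpS : p ∈ B.S)
    (w : HeightOneSpectrum (𝓞 F)) (hw : ((p : ℕ) : 𝓞 F) ∈ w.asIdeal) : w ∈ B.S' := by
  obtain ⟨-, w₀, hw₀, hpw₀⟩ := hB.under_exact p hpS
  exact hB.fibre p hp w₀ w hpw₀ hw hw₀

/-- **The data assembled from a common part are STABLE in the form of record**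
(`H29.IsStableQ`). -/
theorem isStableQ29_toData60 {Φ : HeckeEigensystem F ℂ} {B : L2QBase F}
    (hB : IsL2QBase Φ B) (Fm : G F → L2QFam F) : H29.IsStableQ (B.toData Fm) :=
  ⟨autPreserves_base60' hB, fun p hp hpS w hw => full_of_isL2QBase60 hB p hp hpS w hw⟩

/-- **THE SUPPLY OVER `ℚ` IN THE FORM OF RECORD** (`H29.SupplyQSC P F`, VERBATIM), first cut of
record: the setup with the ramified prime, the orthogonal projections, the families for one bad
element (common parts with `3 ∈ S`). -/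
theorem supplyQSC29_of60 (hS : SetupQRC60 F) (hP' : H893.ProjC F)
    (hPQ : ∀ n : QWt, H962.ProjQC962 n) (hF : FamQRC60 P F) : H29.SupplyQSC P F := by
  intro h3 hquad Φ hΦ hconst hPΦ
  obtain ⟨B, hB, hram⟩ := hS h3 hquad Φ hΦ hconst
  have hex : ∀ g : G F, ∃ Fm : L2QFam F, B.IsBad g → IsL2QFam Φ B g Fm := by
    intro g
    by_cases hg : B.IsBad g
    · obtain ⟨Fm, h⟩ := hF h3 hquad Φ hΦ hconst hPΦ B hB hram g hg
      exact ⟨Fm, fun _ => h⟩
    · exact ⟨⟨⊥, fun _ => 0, fun _ _ _ _ => 0, fun _ _ _ _ _ => 0, fun _ => 0⟩,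
        fun h => absurd h hg⟩
  choose Fm hFm using hex
  exact ⟨B.toData Fm, isL2QData_toData60' hB hP' hPQ Fm hFm, isStableQ29_toData60 hB Fm⟩

/-- **THE SUPPLY OVER `ℚ` IN THE FORM OF RECORD from the leaves of the two cuts.** -/
theorem supplyQSC29_of_leaves60 (hS : SetupQRC60 F) (hP' : H893.ProjC F)
    (hPQ : ∀ n : QWt, H962.ProjQC962 n) (h0 : PreQRC60 P F)
    (h1 : H732.EkProdUpQC732 F) (h2 : H732.EkProdDownQC732 F) (h3 : H732.OpUpQC732 F)
    (h4 : H732.KillUpQC732 F) (h5 : H732.OpDownQC732 F) (h6 : H732.ClassDownQC732 F)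
    (h7 : H732.CommDownQC732 F) (h8 : H732.KillDownQC732 F) : H29.SupplyQSC P F :=
  supplyQSC29_of60 hS hP' hPQ (famQRC_of_pre60 h0 h1 h2 h3 h4 h5 h6 h7 h8)

/-- The node `L2Q.SupplyQC` (Level2Q, VERBATIM) from the same leaves. -/
theorem supplyQC_of_ram60 (hS : SetupQRC60 F) (hP' : H893.ProjC F)
    (hPQ : ∀ n : QWt, H962.ProjQC962 n) (hF : FamQRC60 P F) : SupplyQC P F :=
  fun h3 hquad Φ hΦ hconst hPΦ =>
    let ⟨Dt, hDt, _⟩ := supplyQSC29_of60 hS hP' hPQ hF h3 hquad Φ hΦ hconst hPΦ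
    ⟨Dt, hDt⟩

/-- **THE QUADRATIC STEP** (target `T7.TraceWordsQRegP P F`, VERBATIM) from the leaves of the
supply, the two core nodes upstairs, the node downstairs and the spectral identity. -/
theorem traceWordsQRegP_of_leaves60 (hS : SetupQRC60 F) (hP' : H893.ProjC F)
    (hPQ : ∀ n : QWt, H962.ProjQC962 n) (h0 : PreQRC60 P F)
    (h1 : H732.EkProdUpQC732 F) (h2 : H732.EkProdDownQC732 F) (h3 : H732.OpUpQC732 F)
    (h4 : H732.KillUpQC732 F) (h5 : H732.OpDownQC732 F) (h6 : H732.ClassDownQC732 F)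
    (h7 : H732.CommDownQC732 F) (h8 : H732.KillDownQC732 F)
    (hE : H29.ExpUpCoreC F) (hN : H29.NonVanCoreC F)
    (hD : L2Q.SpecDownQC F) (hI : L2Q.SpecIdQC F) : TraceWordsQRegP P F :=
  H29.traceWordsQRegP_ofCore2
    (supplyQSC29_of_leaves60 hS hP' hPQ h0 h1 h2 h3 h4 h5 h6 h7 h8) hE hN hD hI

end Top

/-! ## Appendix: the equation lemmas of the definitions of this file are realised HERE -/

theorem eqns_realised_supplyQRam60 : True := by
  have _a1 := @IsRamQ60.eq_1
  have _a2 := @IsRamQ60.eq_def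
  have _a3 := @IsRamQ60.eq_unfold
  have _b1 := @SetupQRC60.eq_1
  have _b2 := @SetupQRC60.eq_def
  have _b3 := @SetupQRC60.eq_unfold
  have _c1 := @FamQRC60.eq_1
  have _c2 := @FamQRC60.eq_def
  have _c3 := @FamQRC60.eq_unfold
  have _d1 := @PreQRC60.eq_1
  have _d2 := @PreQRC60.eq_def
  have _d3 := @PreQRC60.eq_unfold
  trivial

end Fermat.Agent.LT.T7.L2Q.H60

end

end
-- ===== PACK-END LT/T7/H60/SupplyQRam.lean

-- ===== PACK-BEGIN LT/T7/H736/Core/Top.lean
section




/-!
# Row LT, tower T7, node T7.L2.2 `SpecUpC` (helper736, owner of record): THE WHOLE NODE FROM THE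
# LEAVES IN CORE FORM — cyclic step AND step `F / ℚ`

OFF-MAIN.  PROVED tops.  No hole, nothing assumed.  ADDITIVE.

`SpecUpLeaves K'` = the list of the leaves of the node, ALL over `K'` alone (on `H29.UpData`):

* CLOSED (over `K'` alone from the start): `stf` (tower T5: `(T5.tower_closed …).stf`), `change`
  (`H561.ChangeC561`: helper362 / helper44), `atoms` (`H561.AtomsC561`: helper719 / 176 / 899),
  `iwsys` (`H865.IwSysUp865` = `SD534.IwSysC`);
* the cut of `BlocksC561` (helper561), core form (`Core/Blocks.lean`): `blocksAsm`, `wSpec`,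
  `complete`, `sigma`, `phi`, `offW`;
* the cut of `OpsC561` (helper561), core form (`Core/Ops.lean`): `iwSysExists`, `opsEig`,
  `opsRel`, `opsComm`, `opsPer`, `opsAdj`, `opsSig`, `opsLink`, `badOp`;
* the cut of `ClassModelC` (helper616), core form (`Core/ClassModel.lean`): `finDim`, `nontriv`,
  `stabG`, `stabS`, `commGI`, `locComm`, `locMove`, `pow`, `simple`, `mulG`, `dict`.

    specUpCoreSC_of_leaves : SpecUpLeaves K' → H29.SpecUpCoreSC K'
    specUpSC_of_leaves     : SU736.StableAutC K K' → SpecUpLeaves K' → T7.SpecUpSC K K'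
                                                   (cyclic step: THE NODE OF RECORD, `Level2S`)
    specUpQSC_of_leaves    : SpecUpLeaves F → H29.SpecUpQSC F
                                                   (step `F / ℚ`: the node of `H29.UpCore2`)
-/

set_option autoImplicit false

open AutomorphicForm IsDedekindDomain NumberField MeasureTheory

noncomputable section

namespace Fermat.Agent.LT.T7.CU736

open Fermat.Agent.LT.H556 Fermat.Agent.LT.H556.A0 Fermat.Agent.LT.T7

/-- **THE LEAVES OF THE NODE `SpecUpC`, in core form.**  See the header. -/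
structure SpecUpLeaves (K' : Type) [Field K'] [NumberField K'] : Prop where
  stf : SU736.StfUC K'
  change : H561.ChangeC561 K'
  atoms : H561.AtomsC561
  iwsys : H865.IwSysUp865 K'
  blocksAsm : BlocksAsmC561 K'
  wSpec : WSpecC561 K'
  complete : CompleteC561 K'
  sigma : SigmaC561 K'
  phi : PhiC561 K'
  offW : OffWC561 K'
  iwSysExists : IwSysExistsC561 K'
  opsEig : OpsEigC561 K'
  opsRel : OpsRelC561 K'
  opsComm : OpsCommC561 K'
  opsPer : OpsPerC561 K'
  opsAdj : OpsAdjC561 K'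
  opsSig : OpsSigC561 K'
  opsLink : OpsLinkC561 K'
  badOp : BadOpC561 K'
  finDim : FinDimC616 K'
  nontriv : NontrivC616 K'
  stabG : StabGC616 K'
  stabS : StabSC616 K'
  commGI : CommGIC616 K'
  locComm : LocCommC616 K'
  locMove : LocMoveC616 K'
  pow : PowC616 K'
  simple : SimpleC616 K'
  mulG : MulGC616 K'
  dict : DictC616 K'

section Tops

variable {K' : Type} [Field K'] [NumberField K']

/-- The node `OpsC561`, core form, from the leaves. -/
theorem opsC_of_leaves (h : SpecUpLeaves K') : OpsC561 K' :=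
  opsC_of561 h.iwSysExists h.opsEig h.opsRel h.opsComm h.opsPer h.opsAdj h.opsSig h.opsLink
    h.badOp

/-- The node `BlocksC561`, core form, from the leaves. -/
theorem blocksC_of_leaves (h : SpecUpLeaves K') : BlocksC561 K' :=
  blocksC_of561 h.blocksAsm h.wSpec h.complete h.sigma (opsC_of_leaves h) h.phi h.offW

/-- The core node `H29.ExpUpCoreC` from the leaves. -/
theorem expUpCoreC_of_leaves (h : SpecUpLeaves K') : H29.ExpUpCoreC K' :=
  expUpCoreC_of_blocks h.stf (blocksC_of_leaves h) h.change h.atoms h.sigma h.iwsys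

/-- The core node `H29.NonVanCoreC` from the leaves. -/
theorem nonVanCoreC_of_leaves' (h : SpecUpLeaves K') : H29.NonVanCoreC K' :=
  nonVanCoreC_of_leaves h.finDim h.nontriv h.stabG h.stabS h.commGI h.locComm h.locMove h.pow
    h.simple h.mulG h.dict

/-- **SPEC-UP, core form, from the leaves.** -/
theorem specUpCoreSC_of_leaves (h : SpecUpLeaves K') : H29.SpecUpCoreSC K' :=
  H29.specUpCoreSC_of (expUpCoreC_of_leaves h) (nonVanCoreC_of_leaves' h)

/-- **THE STEP `F / ℚ`**: the upstairs node of the quadratic step from the leaves. -/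
theorem specUpQSC_of_leaves (h : SpecUpLeaves K') : H29.SpecUpQSC K' :=
  H29.specUpQSC_of_core (specUpCoreSC_of_leaves h)

end Tops

section Cyclic

variable {K K' : Type} [Field K] [NumberField K] [Field K'] [NumberField K'] [Algebra K K']

/-- **THE CYCLIC STEP**: the node of record `T7.SpecUpSC` (`T7/Level2S.lean`) from the leaves in
core form and the leaf `StableAutC` (a base level extended from `K` is `σ`-stable). -/
theorem specUpSC_of_leaves (hA : SU736.StableAutC K K') (h : SpecUpLeaves K') :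
    T7.SpecUpSC K K' :=
  SU736.specUpSC_of736 hA (H29.specUpCS_of_core (specUpCoreSC_of_leaves h))

end Cyclic

end Fermat.Agent.LT.T7.CU736

end

end
-- ===== PACK-END LT/T7/H736/Core/Top.lean

-- ===== PACK-BEGIN LT/T7/H281/LevelInv.lean
section






/-!
# Row LT, tower T7, sub-leaves T7.L2.1.F3.C `IwInvC281` and T7.L2.1.F3.D `DblInvC281`
(helper281; spares of the registry rows 2439, 2440)

OFF-MAIN.  `iwInvC281 K : IwInvC281 K`, `dblInvC281 K : DblInvC281 K`, VERBATIM against
`LT/T7/H281/OpUpSpec.lean`.  No `sorry`, nothing assumed.  ADDITIVE (names ending in `281`).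

Assets (byte-identical copies): helper340 `LT/T7/H340/IwKit.lean` (`isIwInv_iwOp340`,
`iwSum_indep340`, `isIwCosetSystem_translate340`, ...), helper271 `LT/T7/H271/Indep.lean`
(`inLevelGroup_mul271`), helper439 `LT/T7/H439/ClLocal.lean` (`ic_lt_one439`, `ic_val_le439`);
the proof of `level_inv_iwOp281` follows `level_inv_iwOp439` of helper439
(`LT/T7/H439/OpsClass.lean`, there for the orbit of length one).
-/

set_option autoImplicit false

open AutomorphicForm IsDedekindDomain NumberField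

noncomputable section

namespace Fermat.Agent.LT.T7.H281

open Fermat.Agent.LT.H556 Fermat.Agent.LT.H556.A0 Fermat.Agent.LT.T7 Fermat.Agent.LT.T7.H893
open Fermat.Agent.LT.H129 Fermat.Agent.LT.T7.H340

variable {K : Type} [Field K] [NumberField K]

/-! ## 1. The level group -/

theorem zero_mem_ic281 (𝔫 : Ideal (𝓞 K)) (v : HeightOneSpectrum (𝓞 K)) :
    (0 : v.adicCompletion K) ∈ idealClosure 𝔫 v := by
  have h := H439.embO_mem_ic439 v (𝔫.zero_mem)
  have e : H439.embO439 v (0 : 𝓞 K) = 0 := by simp [H439.embO439]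
  rwa [e] at h

theorem ic_le_one281 (𝔫 : Ideal (𝓞 K)) (v : HeightOneSpectrum (𝓞 K)) {x : v.adicCompletion K}
    (hx : x ∈ idealClosure 𝔫 v) : Valued.v x ≤ 1 :=
  H439.ic_val_le439 𝔫 v (fun m _ => v.intValuation_le_one m) hx

theorem valued_le_one_of_sub_one281 (𝔫 : Ideal (𝓞 K)) (v : HeightOneSpectrum (𝓞 K))
    (M : Matrix (Fin 2) (Fin 2) (v.adicCompletion K))
    (hM : ∀ i j, (M - 1) i j ∈ idealClosure 𝔫 v) (i j : Fin 2) : Valued.v (M i j) ≤ 1 := by
  have e : M i j = (M - 1) i j + (1 : Matrix (Fin 2) (Fin 2) (v.adicCompletion K)) i j := by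
    rw [Matrix.sub_apply, sub_add_cancel]
  rw [e]
  refine (Valuation.map_add _ _ _).trans (max_le (ic_le_one281 𝔫 v (hM i j)) ?_)
  by_cases hij : i = j
  · subst hij
    rw [Matrix.one_apply_eq, map_one]
  · rw [Matrix.one_apply_ne hij, map_zero]
    exact zero_le

/-- The elements of the level group are in `GL₂(𝒪_v)` at every finite place. -/
theorem isIntegralAt_of_level281 {𝔫 : Ideal (𝓞 K)} {k : G K} (hk : InLevelGroup 𝔫 k)
    (v : HeightOneSpectrum (𝓞 K)) : IsIntegralAt v k ∧ IsIntegralAt v k⁻¹ := by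
  refine ⟨fun i j => ?_, fun i j => ?_⟩
  · rw [HeightOneSpectrum.mem_adicCompletionIntegers]
    exact valued_le_one_of_sub_one281 𝔫 v _ (fun i j => (hk.2 v i j).1) i j
  · rw [HeightOneSpectrum.mem_adicCompletionIntegers]
    exact valued_le_one_of_sub_one281 𝔫 v _ (fun i j => (hk.2 v i j).2) i j

/-- The level group at a place dividing the level lies in the Iwahori subgroup. -/
theorem inIwahori_of_level281 {𝔫 : Ideal (𝓞 K)} {u : HeightOneSpectrum (𝓞 K)}
    (hu : u.asIdeal ∣ 𝔫) {k : G K} (hk : InLevelGroup 𝔫 k) : T5.InIwahori u k := by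
  refine ⟨(isIntegralAt_of_level281 hk u).1, (isIntegralAt_of_level281 hk u).2, ?_⟩
  have h := H439.ic_lt_one439 hu (hk.2 u 1 0).1
  rwa [Matrix.sub_apply, Matrix.one_apply_ne (by decide), sub_zero] at h

theorem inLevelGroup_inv281 {𝔫 : Ideal (𝓞 K)} {u : G K} (h : InLevelGroup 𝔫 u) :
    InLevelGroup 𝔫 u⁻¹ := by
  refine ⟨fun w => ?_, fun v i j => ⟨(h.2 v i j).2, ?_⟩⟩
  · rw [trivAtInf_iff129, map_inv, (trivAtInf_iff129 w u).1 (h.1 w), inv_one]
  · rw [inv_inv]
    exact (h.2 v i j).1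

theorem inIwahori_of_triv281 {u : HeightOneSpectrum (𝓞 K)} {g : G K} (hg : TrivAtFin u g) :
    T5.InIwahori u g := by
  rw [inIwahori_iff340, (trivAtFin_iff129 u g).1 hg]
  exact isIwG340_one

theorem isIntegralAt_of_triv281 {v : HeightOneSpectrum (𝓞 K)} {g : G K} (hg : TrivAtFin v g) :
    IsIntegralAt v g ∧ IsIntegralAt v g⁻¹ := by
  have h1 : finCompHom129 v g = 1 := (trivAtFin_iff129 v g).1 hg
  have h2 : finCompHom129 v g⁻¹ = 1 := by rw [map_inv, h1, inv_one]
  refine ⟨?_, ?_⟩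
  · rw [← isInt129_finCompHom_iff, h1]
    exact isInt129_one _
  · rw [← isInt129_finCompHom_iff, h2]
    exact isInt129_one _

/-! ## 2. Sub-leaf C: the Iwahori operator -/

/-- `𝒰 ψ` is right invariant under `U(𝔫₀)` (after `level_inv_iwOp439`, helper439). -/
theorem level_inv_iwOp281 {𝔫 : Ideal (𝓞 K)} {l : ℕ} {o : ℕ → HeightOneSpectrum (𝓞 K)}
    (hl : 0 < l) (hu : (o 0).asIdeal ∣ 𝔫) {H : Finset (G K)} (hH : IsIwCosetSystem (o 0) H)
    {ψ : G K → ℂ} (hL : IsRInv281 𝔫 ψ) (hi : IsIwInv l o ψ) :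
    IsRInv281 𝔫 (iwOp (o 0) H ψ) := by
  classical
  intro k hk x
  unfold iwOp
  congr 1
  set kw : G K := locFin129 (o 0) (finCompHom129 (o 0) k) with hkw
  set k' : G K := kw⁻¹ * k with hk'
  have hkwloc : IsLocalAtFin (o 0) kw := isLocalAtFin_locFin129 _ _
  have hkwI : T5.InIwahori (o 0) kw := by
    rw [inIwahori_iff340, hkw, finCompHom129_locFin129, ← inIwahori_iff340]
    exact inIwahori_of_level281 hu hk
  have hk'w : finCompHom129 (o 0) k' = 1 := by
    rw [hk', map_mul, map_inv, hkw, finCompHom129_locFin129, inv_mul_cancel]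
  have hk'v : ∀ v : HeightOneSpectrum (𝓞 K), v ≠ o 0 →
      finCompHom129 v k' = finCompHom129 v k := by
    intro v hv
    rw [hk', map_mul, map_inv, hkw, finCompHom129_locFin129_of_ne _ _ hv, inv_one, one_mul]
  have hk'inf : ∀ w : InfinitePlace K, TrivAtInf w k' := by
    intro w
    rw [trivAtInf_iff129, hk', map_mul, map_inv, hkw, infCompHom129_locFin129, inv_one,
      one_mul, ← trivAtInf_iff129]
    exact hk.1 w
  have hk'L : InLevelGroup 𝔫 k' := by
    refine ⟨hk'inf, fun v i j => ?_⟩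
    by_cases hv : v = o 0
    · have e1 : finComp v k' = 1 := by
        rw [← coe_finCompHom129, hv, hk'w]; rfl
      have e2 : finComp v k'⁻¹ = 1 := by
        rw [← coe_finCompHom129, map_inv, hv, hk'w, inv_one]; rfl
      rw [e1, e2, sub_self]
      exact ⟨zero_mem_ic281 𝔫 v, zero_mem_ic281 𝔫 v⟩
    · have e1 : finComp v k' = finComp v k := by
        rw [← coe_finCompHom129, hk'v v hv]; rfl
      have e2 : finComp v k'⁻¹ = finComp v k⁻¹ := by
        rw [← coe_finCompHom129, map_inv, hk'v v hv, ← map_inv]; rfl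
      rw [e1, e2]
      exact hk.2 v i j
  have hkk : k = kw * k' := by rw [hk']; group
  have hterm : ∀ h ∈ H, ψ (x * k * h) = ψ (x * (kw * h)) := by
    intro h hh
    have hcomm : k' * h = h * k' := (commute_of_local340 (hH.2.1 h hh).1 hk'w).symm
    have e : x * k * h = x * (kw * h) * k' := by
      rw [hkk, mul_assoc, mul_assoc kw, hcomm]
      group
    rw [e]
    exact hL k' hk'L _
  rw [Finset.sum_congr rfl hterm]
  have himg : ∑ h ∈ H, ψ (x * (kw * h)) = ∑ h ∈ H.image (fun h => kw * h), ψ (x * h) := by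
    rw [Finset.sum_image (fun a _ b _ hab => mul_right_injective kw hab)]
  rw [himg]
  exact iwSum_indep340 (isIwCosetSystem_translate340 hH hkwloc hkwI) hH ψ
    (fun b hb hbI g => isIwInv_local340 hi hl b hb hbI g) x

/-- **SUB-LEAF T7.L2.1.F3.C `IwInvC281`.** -/
theorem iwInvC281 (K : Type) [Field K] [NumberField K] : IwInvC281 K := by
  intro 𝔫₀ l o hl ho H hH
  have h0 : (o 0).asIdeal ∣ 𝔫₀ := ho 0 hl
  refine ⟨fun h hh => ⟨(hH.2.1 h hh).1.1, fun v hv => ?_⟩,
    fun ψ hL hi => ⟨level_inv_iwOp281 hl h0 hH hL hi, isIwInv_iwOp340 hl hH hi⟩⟩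
  have hne : v ≠ o 0 := fun e => hv (e ▸ h0)
  exact isIntegralAt_of_triv281 ((hH.2.1 h hh).1.2 v hne)

/-! ## 3. Sub-leaf D: the Hecke operator of the bad element -/

theorem trivAtInf_of_dbl281 {𝔫 : Ideal (𝓞 K)} {g : G K}
    (hg1 : ∀ w : InfinitePlace K, TrivAtInf w g) {a u₁ u₂ : G K} (h1 : InLevelGroup 𝔫 u₁)
    (h2 : InLevelGroup 𝔫 u₂) (ha : a = u₁ * g * u₂) (w : InfinitePlace K) : TrivAtInf w a := by
  rw [ha, trivAtInf_iff129, map_mul, map_mul, (trivAtInf_iff129 w u₁).1 (h1.1 w),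
    (trivAtInf_iff129 w g).1 (hg1 w), (trivAtInf_iff129 w u₂).1 (h2.1 w), one_mul, one_mul]

/-- The permutation of a system of representatives induced by the left multiplication by an
element of the level group. -/
theorem dbl_perm281 {𝔫 : Ideal (𝓞 K)} {g : G K} {A : Finset (G K)}
    (hA : IsDblCosetSystem 𝔫 g A) {u : G K} (hu : InLevelGroup 𝔫 u) :
    ∀ a ∈ A, ∃ b ∈ A, InLevelGroup 𝔫 (b⁻¹ * (u * a)) := by
  intro a ha
  obtain ⟨u₁, u₂, h1, h2, rfl⟩ := hA.1 a ha
  obtain ⟨b, hb, hbu⟩ := hA.2.2 (u * u₁) (H271.inLevelGroup_mul271 hu h1)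
  refine ⟨b, hb, ?_⟩
  have e : b⁻¹ * (u * (u₁ * g * u₂)) = (b⁻¹ * (u * u₁ * g)) * u₂ := by group
  rw [e]
  exact H271.inLevelGroup_mul271 hbu h2

theorem dbl_perm_inv281 {𝔫 : Ideal (𝓞 K)} {g : G K} {A : Finset (G K)}
    (hA : IsDblCosetSystem 𝔫 g A) {u : G K} (σ τ : G K → G K)
    (hσ : ∀ a ∈ A, σ a ∈ A ∧ InLevelGroup 𝔫 ((σ a)⁻¹ * (u * a)))
    (hτ : ∀ b ∈ A, τ b ∈ A ∧ InLevelGroup 𝔫 ((τ b)⁻¹ * (u⁻¹ * b))) :
    ∀ a ∈ A, τ (σ a) = a := by
  intro a ha
  by_contra hne
  have h1 := (hτ (σ a) (hσ a ha).1).2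
  have h2 := (hσ a ha).2
  have e : (τ (σ a))⁻¹ * a = ((τ (σ a))⁻¹ * (u⁻¹ * σ a)) * ((σ a)⁻¹ * (u * a)) := by group
  refine hA.2.1 (τ (σ a)) (hτ (σ a) (hσ a ha).1).1 a ha hne ?_
  rw [e]
  exact H271.inLevelGroup_mul271 h1 h2

theorem dbl_perm_inv'281 {𝔫 : Ideal (𝓞 K)} {g : G K} {A : Finset (G K)}
    (hA : IsDblCosetSystem 𝔫 g A) {u : G K} (σ τ : G K → G K)
    (hσ : ∀ a ∈ A, σ a ∈ A ∧ InLevelGroup 𝔫 ((σ a)⁻¹ * (u * a)))
    (hτ : ∀ b ∈ A, τ b ∈ A ∧ InLevelGroup 𝔫 ((τ b)⁻¹ * (u⁻¹ * b))) :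
    ∀ b ∈ A, σ (τ b) = b := by
  intro b hb
  by_contra hne
  have h1 := (hσ (τ b) (hτ b hb).1).2
  have h2 := (hτ b hb).2
  have e : (σ (τ b))⁻¹ * b = ((σ (τ b))⁻¹ * (u * τ b)) * ((τ b)⁻¹ * (u⁻¹ * b)) := by group
  refine hA.2.1 (σ (τ b)) (hσ (τ b) (hτ b hb).1).1 b hb hne ?_
  rw [e]
  exact H271.inLevelGroup_mul271 h1 h2

/-- `[U g U] χ` is right invariant under `U(𝔫₀)`. -/
theorem level_inv_cosetOp281 {𝔫 : Ideal (𝓞 K)} {g : G K} {Hg : Finset (G K)}
    (hHg : IsDblCosetSystem 𝔫 g Hg) {χ : G K → ℂ} (hχ : IsRInv281 𝔫 χ) :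
    IsRInv281 𝔫 (cosetOp Hg χ) := by
  classical
  intro u hu x
  choose! σ hσ using dbl_perm281 hHg hu
  choose! τ hτ using dbl_perm281 hHg (inLevelGroup_inv281 hu)
  show ∑ a ∈ Hg, χ (x * u * a) = ∑ a ∈ Hg, χ (x * a)
  refine Finset.sum_nbij' σ τ (fun a ha => (hσ a ha).1) (fun a ha => (hτ a ha).1)
    (dbl_perm_inv281 hHg σ τ hσ hτ) (dbl_perm_inv'281 hHg σ τ hσ hτ) ?_
  intro a ha
  have e : x * u * a = (x * σ a) * ((σ a)⁻¹ * (u * a)) := by group
  rw [e]
  exact hχ _ (hσ a ha).2 _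

/-- `[U g U] χ` is Iwahori invariant. -/
theorem isIwInv_cosetOp281 {𝔫 : Ideal (𝓞 K)} {l : ℕ} {o : ℕ → HeightOneSpectrum (𝓞 K)}
    (ho : ∀ j < l, (o j).asIdeal ∣ 𝔫) {g : G K}
    (hg : ∀ j < l, TrivAtFin (o j) g) {Hg : Finset (G K)}
    (hHg : IsDblCosetSystem 𝔫 g Hg) {χ : G K → ℂ} (hχ : IsIwInv l o χ) :
    IsIwInv l o (cosetOp Hg χ) := by
  intro k hkinf hkout hkI x
  show ∑ a ∈ Hg, χ (x * k * a) = ∑ a ∈ Hg, χ (x * a)
  refine Finset.sum_congr rfl fun a ha => ?_
  obtain ⟨u₁, u₂, h1, h2, hau⟩ := hHg.1 a ha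
  have e : x * k * a = (x * a) * (a⁻¹ * k * a) := by group
  rw [e]
  refine hχ (a⁻¹ * k * a) (fun w => ?_) (fun v hv => ?_) (fun j hj => ?_) (x * a)
  · rw [trivAtInf_iff129, map_mul, map_mul, map_inv, (trivAtInf_iff129 w k).1 (hkinf w),
      mul_one, inv_mul_cancel]
  · rw [trivAtFin_iff129, map_mul, map_mul, map_inv, (trivAtFin_iff129 v k).1 (hkout v hv),
      mul_one, inv_mul_cancel]
  · have haI : T5.InIwahori (o j) a := by
      rw [hau]
      exact inIwahori_mul340 (inIwahori_mul340 (inIwahori_of_level281 (ho j hj) h1)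
        (inIwahori_of_triv281 (hg j hj))) (inIwahori_of_level281 (ho j hj) h2)
    exact inIwahori_mul340 (inIwahori_mul340 (inIwahori_inv340 haI) (hkI j hj)) haI

/-- **SUB-LEAF T7.L2.1.F3.D `DblInvC281`.** -/
theorem dblInvC281 (K : Type) [Field K] [NumberField K] : DblInvC281 K := by
  intro 𝔫₀ l o ho g hg1 hg2 Hg hHg
  refine ⟨fun a ha => ?_, fun χ hL hi =>
    ⟨level_inv_cosetOp281 hHg hL,
      isIwInv_cosetOp281 ho (fun j hj => hg2 (o j) (Or.inr ⟨j, hj, rfl⟩)) hHg hi⟩⟩
  obtain ⟨u₁, u₂, h1, h2, hau⟩ := hHg.1 a ha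
  refine ⟨trivAtInf_of_dbl281 hg1 h1 h2 hau, fun v hv => ?_⟩
  have hgv := isIntegralAt_of_triv281 (hg2 v (Or.inl hv))
  have hu1 := isIntegralAt_of_level281 h1 v
  have hu2 := isIntegralAt_of_level281 h2 v
  refine ⟨?_, ?_⟩
  · rw [hau, ← isInt129_finCompHom_iff, map_mul, map_mul]
    exact isInt129_mul (isInt129_mul hu1.1 hgv.1) hu2.1
  · rw [hau, mul_inv_rev, mul_inv_rev, ← isInt129_finCompHom_iff, map_mul, map_mul]
    exact isInt129_mul hu2.2 (isInt129_mul hgv.2 hu1.2)

end Fermat.Agent.LT.T7.H281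

end

end
-- ===== PACK-END LT/T7/H281/LevelInv.lean

-- ===== PACK-BEGIN LT/T7/H281/OpUp.lean
section








/-!
# Row LT, tower T7, leaf T7.L2.1.F3 `OpUpC` (helper281, registry row 2251): CLOSED

OFF-MAIN.  `opUpC281 K K' : H893.OpUpC K K'`, VERBATIM against
`LT/T7/H893/SupplyFamSpec.lean` (helper893@5a34c9a24, sha256 32dee4c8), UNCONDITIONAL.
No `sorry`, nothing assumed.

    opUpC281 = opUpC_of281 A B C D S I          (top: `OpUpSpec.lean`)

| sub-leaf | Prop | proof |
|---|---|---|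
| A | `RconvOpsC281` | `rconvOpsC281` (`RconvOps.lean`; asset helper277 `T7/H277/ROps.lean`) |
| B | `TranslEigC281` | `translEigC281` (`TranslEig.lean`) |
| C | `IwInvC281` | `iwInvC281` (`LevelInv.lean`; asset helper340 `T7/H340/IwKit.lean`) |
| D | `DblInvC281` | `dblInvC281` (`LevelInv.lean`) |
| S | `ShiftInvC281` | `H510.shiftInvC_h510` (helper510@b6abc71f0 `T7/H510/ShiftInv.lean`) |
| I | `IndepC281` | `H271.indepC271` (helper271@7225d1aa9 `T7/H271/Indep.lean`) |
-/

set_option autoImplicit false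

open IsDedekindDomain NumberField

noncomputable section

namespace Fermat.Agent.LT.T7.H281

/-- **LEAF T7.L2.1.F3 `OpUpC`**, unconditional. -/
theorem opUpC281 (K K' : Type) [Field K] [NumberField K] [Field K'] [NumberField K']
    [Algebra K K'] : Fermat.Agent.LT.T7.H893.OpUpC K K' :=
  opUpC_of281 (rconvOpsC281 K') (translEigC281 K') (iwInvC281 K') (dblInvC281 K')
    (Fermat.Agent.LT.T7.H510.shiftInvC_h510 K') (Fermat.Agent.LT.T7.H271.indepC271 K')

end Fermat.Agent.LT.T7.H281

end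

end
-- ===== PACK-END LT/T7/H281/OpUp.lean

-- ===== PACK-BEGIN LT/T7/H865/CompleteU.lean
section




/-!
# Row LT, tower T7, node `UpBasisUC`: LEAF T7.L2.2c.B2 `CompleteUC865` (core form of
# `H561.CompleteC561`) FROM THREE CLOSED LEAVES of the cut of helper534 (helper865)

OFF-MAIN.  Nothing assumed, no hole.  Against `T7/H865/UpBasisU.lean`,
`T7/H534/DownBasisSpec.lean` (helper534, sha256 b2d5929f), byte-identical copies.

    completeUC_of865    : SD534.CuspFormC K' → SD534.WSubC K' → SD534.SubSeqC K'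
                            → CompleteUC865 K'
    completeC561_of865  : SD534.CuspFormC K' → SD534.WSubC K' → SD534.SubSeqC K'
                            → H561.CompleteC561 K K'

The three hypotheses are CLOSED (rows 2179 helper76 / 2384 helper128; 2180 helper863; 2185
helper190 / 2324 helper128): they are statements over ONE field and every level.

Proof.  `V` = the cusp functions of level `𝔑_g`, `W` = the invariant cusp functions of the base
level (`W ⊆ V`: `𝔑_g ≤ 𝔑₀`).  `S = V ∩ W^⊥` is a linear subspace of `V` (`CuspFormC`, `WSubC`), so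
it has an orthonormal sequence `p` (zeros allowed) which is complete in `S` (`SubSeqC`).
`e₀ (2k) = v_q` if `k` is the code of the member `q` of the family, `0` otherwise;
`e₀ (2k+1) = p_k`.  Parseval: `f = ψ₁ + f₂`, `ψ₁ ∈ W`, `f₂ ∈ S` (PROJ-up);
`⟨f, v_q⟩ = ⟨ψ₁, v_q⟩`, `⟨f, p_k⟩ = ⟨f₂, p_k⟩`, `‖f‖² = ‖ψ₁‖² + ‖f₂‖²`; the family `v` is complete in
`W`, `p` is complete in `S`; `HasSum.even_add_odd`.
-/

set_option autoImplicit false
set_option linter.unusedSectionVars false
set_option linter.unusedVariables false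

open AutomorphicForm IsDedekindDomain NumberField MeasureTheory
open scoped ComplexConjugate

noncomputable section

namespace Fermat.Agent.LT.T7.H865

open Fermat.Agent.LT.H556 Fermat.Agent.LT.H556.A0 Fermat.Agent.LT Fermat.Agent.LT.T7

attribute [local instance] Fermat.Agent.LT.T5.instMeasurableSpaceG

section Mono

variable {K : Type} [Field K] [NumberField K]

theorem idealClosure_mono865 {𝔑 𝔑₀ : Ideal (𝓞 K)} (h : 𝔑 ≤ 𝔑₀) (v : HeightOneSpectrum (𝓞 K)) :
    idealClosure 𝔑 v ⊆ idealClosure 𝔑₀ v :=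
  closure_mono (Set.image_mono h)

theorem inLevelGroup_mono865 {𝔑 𝔑₀ : Ideal (𝓞 K)} (h : 𝔑 ≤ 𝔑₀) {u : G K}
    (hu : InLevelGroup 𝔑 u) : InLevelGroup 𝔑₀ u :=
  ⟨hu.1, fun v i j => ⟨idealClosure_mono865 h v (hu.2 v i j).1,
    idealClosure_mono865 h v (hu.2 v i j).2⟩⟩

/-- A cusp function of level `𝔑₀` is a cusp function of every level `𝔑 ≤ 𝔑₀`. -/
theorem isCuspFn_mono865 {𝔑 𝔑₀ : Ideal (𝓞 K)} (h : 𝔑 ≤ 𝔑₀) {τ : G K → ℂ} {r : G K}
    {e : G K → ℂ} (he : T5.IsCuspFn 𝔑₀ τ r e) : T5.IsCuspFn 𝔑 τ r e where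
  cont := he.cont
  bdd := he.bdd
  aut :=
    { left_inv := he.aut.left_inv
      level_inv := fun u hu g => he.aut.level_inv u (inLevelGroup_mono865 h hu) g
      arch_compact := he.aut.arch_compact
      ray := he.aut.ray }
  cuspidal := he.cuspidal

end Mono

section Complete

variable {K' : Type} [Field K'] [NumberField K']

/-- **LEAF T7.L2.2c.B2 `CompleteUC865`** from the closed leaves `CuspFormC`, `WSubC`, `SubSeqC`
of the cut of helper534. -/
theorem completeUC_of865 (hF : SD534.CuspFormC K') (hWS : SD534.WSubC K')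
    (hSS : SD534.SubSeqC K') : CompleteUC865 K' := by
  classical
  intro ℓ hℓ hcplx Φ hΦ U hU g hg ι n C v hW
  have h𝔑 : U.𝔑 g ≠ ⊥ := hU.level_ne g hg
  have hfr : T5.IsFrame U.R'.μ U.R'.F := hU.frame'.frame
  have hray : T5.IsRayGen U.R'.r := hU.frame'.ray
  have hform := hF U.R'.μ U.R'.F U.R'.r (U.𝔑 g) h𝔑 hfr hray
  have hsub := hWS (U.𝔑 g) U.R'.r (U.o 0)
  -- abbreviations
  set V : (G K' → ℂ) → Prop := fun f => T5.IsCuspFn (U.𝔑 g) T5.trivType U.R'.r f with hVdef
  set W : (G K' → ℂ) → Prop := fun χ => IsWFn U.𝔑₀ U.R'.r ℓ U.o χ with hWdef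
  set ip : (G K' → ℂ) → (G K' → ℂ) → ℂ := fun f h => T5.innerD U.R'.μ U.R'.F f h with hip
  have hWV : ∀ χ, W χ → V χ := fun χ hχ => isCuspFn_mono865 (hU.level_g g hg) hχ.cusp
  have hV0 : V 0 := hsub.zeroW.cusp
  have hVadd : ∀ f f', V f → V f' → V (f + f') := hsub.addV
  have hVsmul : ∀ (a : ℂ) f, V f → V (a • f) := hsub.smulV
  -- the form
  have ip_add : ∀ f f' h, V f → V f' → V h → ip (f + f') h = ip f h + ip f' h :=
    fun f f' h hf hf' hh => hform.add_left f f' h hf hf' hh
  have ip_smul : ∀ (a : ℂ) f h, V f → V h → ip (a • f) h = a * ip f h :=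
    fun a f h hf hh => hform.smul_left a f h hf hh
  have ip_symm : ∀ f h, V f → V h → ip h f = conj (ip f h) :=
    fun f h hf hh => hform.conj_symm f h hf hh
  have ip_zero_left : ∀ h, V h → ip 0 h = 0 := by
    intro h hh
    have := ip_smul 0 0 h hV0 hh
    rwa [zero_smul, zero_mul] at this
  have ip_zero_right : ∀ f, V f → ip f 0 = 0 := by
    intro f hf
    rw [ip_symm 0 f hV0 hf, ip_zero_left f hf, map_zero]
  -- the subspace `S = V ∩ W^⊥`
  set S : (G K' → ℂ) → Prop := fun f => V f ∧ ∀ χ, W χ → ip f χ = 0 with hSdef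
  have hS0 : S 0 := ⟨hV0, fun χ hχ => ip_zero_left χ (hWV χ hχ)⟩
  have hSadd : ∀ f f', S f → S f' → S (f + f') := by
    intro f f' hf hf'
    refine ⟨hVadd f f' hf.1 hf'.1, fun χ hχ => ?_⟩
    rw [ip_add f f' χ hf.1 hf'.1 (hWV χ hχ), hf.2 χ hχ, hf'.2 χ hχ, add_zero]
  have hSsmul : ∀ (a : ℂ) f, S f → S (a • f) := by
    intro a f hf
    refine ⟨hVsmul a f hf.1, fun χ hχ => ?_⟩
    rw [ip_smul a f χ hf.1 (hWV χ hχ), hf.2 χ hχ, mul_zero]
  obtain ⟨p, hpS, hporth, hpnorm, hpcomp⟩ := hSS U.R'.μ U.R'.F U.R'.r (U.𝔑 g) h𝔑 hfr hray S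
    (fun f hf => hf.1) hS0 hSadd hSsmul
  -- the family `v`
  have hvW : ∀ q : Σ i, Fin (n i), W (v q.1 q.2) := fun q => ((hW.basis q.1).eig q.2).inv
  have hvV : ∀ q : Σ i, Fin (n i), V (v q.1 q.2) := fun q => hWV _ (hvW q)
  have hvorth : ∀ q q' : Σ i, Fin (n i), q ≠ q' → ip (v q.1 q.2) (v q'.1 q'.2) = 0 := by
    rintro ⟨i, a⟩ ⟨i', a'⟩ hne
    by_cases hii : i = i'
    · subst hii
      have haa : a ≠ a' := fun h => hne (by rw [h])
      have := (hW.basis i).orth a a'
      rwa [if_neg haa] at this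
    · exact hW.orth i i' a a' hii
  have hvnorm : ∀ q : Σ i, Fin (n i), ip (v q.1 q.2) (v q.1 q.2) = 1 := by
    rintro ⟨i, a⟩
    have := (hW.basis i).orth a a
    rwa [if_pos rfl] at this
  -- the enumeration
  have hcount : Countable ι := hW.countable
  obtain ⟨enc, henc⟩ := exists_injective_nat (Σ i, Fin (n i))
  set dec : ℕ → Option (Σ i, Fin (n i)) := Function.partialInv enc with hdec
  have hdec_enc : ∀ q, dec (enc q) = some q := fun q => Function.partialInv_left henc q
  have hdec_inv : ∀ k q, dec k = some q → enc q = k := fun k q h => (henc.isPartialInv q k).1 h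
  set ev : ℕ → G K' → ℂ := fun k => (dec k).elim 0 (fun q => v q.1 q.2) with hev
  have hev_enc : ∀ q, ev (enc q) = v q.1 q.2 := by
    intro q
    show (dec (enc q)).elim 0 (fun q => v q.1 q.2) = _
    rw [hdec_enc]
    rfl
  have hev_cases : ∀ k, (ev k = 0 ∧ ∀ q, enc q ≠ k) ∨ ∃ q, enc q = k ∧ ev k = v q.1 q.2 := by
    intro k
    cases hd : dec k with
    | none =>
      refine Or.inl ⟨?_, fun q hq => ?_⟩
      · show (dec k).elim 0 (fun q => v q.1 q.2) = 0
        rw [hd]
        rfl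
      · rw [← hq, hdec_enc] at hd
        cases hd
    | some q =>
      refine Or.inr ⟨q, hdec_inv k q hd, ?_⟩
      show (dec k).elim 0 (fun q => v q.1 q.2) = _
      rw [hd]
      rfl
  have hevV : ∀ k, V (ev k) := by
    intro k
    rcases hev_cases k with ⟨h0, -⟩ | ⟨q, -, hq⟩
    · rw [h0]
      exact hV0
    · rw [hq]
      exact hvV q
  -- the sequence
  set e₀ : ℕ → G K' → ℂ := fun j => if j % 2 = 0 then ev (j / 2) else p (j / 2) with he₀
  have he_even : ∀ k, e₀ (2 * k) = ev k := by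
    intro k
    show (if (2 * k) % 2 = 0 then ev ((2 * k) / 2) else p ((2 * k) / 2)) = ev k
    rw [if_pos (Nat.mul_mod_right 2 k), Nat.mul_div_cancel_left k (by norm_num)]
  have he_odd : ∀ k, e₀ (2 * k + 1) = p k := by
    intro k
    show (if (2 * k + 1) % 2 = 0 then ev ((2 * k + 1) / 2) else p ((2 * k + 1) / 2)) = p k
    have h1 : (2 * k + 1) % 2 ≠ 0 := by omega
    have h2 : (2 * k + 1) / 2 = k := by omega
    rw [if_neg h1, h2]
  have hpV : ∀ k, V (p k) := fun k => (hpS k).1
  have hp_ev : ∀ a b, ip (p a) (ev b) = 0 := by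
    intro a b
    rcases hev_cases b with ⟨h0, -⟩ | ⟨q, -, hq⟩
    · rw [h0]
      exact ip_zero_right _ (hpV a)
    · rw [hq]
      exact (hpS a).2 _ (hvW q)
  have hev_p : ∀ a b, ip (ev a) (p b) = 0 := by
    intro a b
    rw [ip_symm (p b) (ev a) (hpV b) (hevV a), hp_ev, map_zero]
  have hev_ev : ∀ a b, a ≠ b → ip (ev a) (ev b) = 0 := by
    intro a b hab
    rcases hev_cases a with ⟨h0, -⟩ | ⟨q, hqa, hq⟩
    · rw [h0]
      exact ip_zero_left _ (hevV b)
    · rcases hev_cases b with ⟨h0', -⟩ | ⟨q', hqb, hq'⟩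
      · rw [h0']
        exact ip_zero_right _ (hevV a)
      · rw [hq, hq']
        refine hvorth q q' fun h => hab ?_
        rw [← hqa, ← hqb, h]
  refine ⟨e₀, fun i a => 2 * enc ⟨i, a⟩, ⟨?_, ?_, ?_, ?_⟩, ?_, ?_, ?_⟩
  · -- cusp
    intro j
    obtain ⟨k, rfl | rfl⟩ := Nat.even_or_odd' j
    · rw [he_even]
      exact hevV k
    · rw [he_odd]
      exact hpV k
  · -- orth
    intro i j hij
    obtain ⟨a, rfl | rfl⟩ := Nat.even_or_odd' i <;> obtain ⟨b, rfl | rfl⟩ := Nat.even_or_odd' j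
    · rw [he_even, he_even]
      exact hev_ev a b fun h => hij (by rw [h])
    · rw [he_even, he_odd]
      exact hev_p a b
    · rw [he_odd, he_even]
      exact hp_ev a b
    · rw [he_odd, he_odd]
      exact hporth a b fun h => hij (by rw [h])
  · -- norm
    intro j
    obtain ⟨k, rfl | rfl⟩ := Nat.even_or_odd' j
    · rw [he_even]
      rcases hev_cases k with ⟨h0, -⟩ | ⟨q, -, hq⟩
      · right
        intro x
        rw [h0]
        rfl
      · left
        rw [hq]
        exact hvnorm q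
    · rw [he_odd]
      rcases hpnorm k with h1 | h0
      · exact Or.inl h1
      · right
        intro x
        rw [h0]
        rfl
  · -- complete
    intro f hf
    obtain ⟨ψ₁, hψ₁, hψorth⟩ := hU.proj_up g hg f hf
    set f₂ : G K' → ℂ := fun x => f x - ψ₁ x with hf₂
    have hψ₁V : V ψ₁ := hWV ψ₁ hψ₁
    have hf₂eq : f₂ = f + (-1 : ℂ) • ψ₁ := by
      funext x
      show f x - ψ₁ x = f x + (-1 : ℂ) * ψ₁ x
      ring
    have hf₂V : V f₂ := by
      rw [hf₂eq]
      exact hVadd _ _ hf (hVsmul _ _ hψ₁V)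
    have hf₂S : S f₂ := ⟨hf₂V, fun χ hχ => hψorth χ hχ⟩
    have hfeq : f = ψ₁ + f₂ := by
      funext x
      show f x = ψ₁ x + (f x - ψ₁ x)
      ring
    have hfh : ∀ h, V h → ip f h = ip ψ₁ h + ip f₂ h := by
      intro h hh
      have := ip_add ψ₁ f₂ h hψ₁V hf₂V hh
      rw [← hfeq] at this
      exact this
    have h12 : ip f₂ ψ₁ = 0 := hf₂S.2 ψ₁ hψ₁
    have h21 : ip ψ₁ f₂ = 0 := by rw [ip_symm f₂ ψ₁ hf₂V hψ₁V, h12, map_zero]
    -- the norm
    have hnorm : (ip f f).re = (ip ψ₁ ψ₁).re + (ip f₂ f₂).re := by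
      have e1 : ip f ψ₁ = ip ψ₁ ψ₁ := by rw [hfh ψ₁ hψ₁V, h12, add_zero]
      have e2 : ip f f₂ = ip f₂ f₂ := by rw [hfh f₂ hf₂V, h21, zero_add]
      have e3 : ip ψ₁ f = conj (ip ψ₁ ψ₁) := by rw [ip_symm f ψ₁ hf hψ₁V, e1]
      have e4 : ip f₂ f = conj (ip f₂ f₂) := by rw [ip_symm f f₂ hf hf₂V, e2]
      rw [hfh f hf, e3, e4, Complex.add_re, Complex.conj_re, Complex.conj_re]
    -- the even part
    have heven : HasSum (fun k => ‖ip f (e₀ (2 * k))‖ ^ 2) (ip ψ₁ ψ₁).re := by
      have h1 := hW.complete ψ₁ hψ₁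
      have h2 : (fun k => ‖ip f (e₀ (2 * k))‖ ^ 2) = fun k => ‖ip f (ev k)‖ ^ 2 := by
        funext k
        rw [he_even]
      rw [h2]
      refine (Function.Injective.hasSum_iff henc ?_).1 ?_
      · intro k hk
        rcases hev_cases k with ⟨h0, -⟩ | ⟨q, hq, -⟩
        · show ‖ip f (ev k)‖ ^ 2 = 0
          rw [h0, ip_zero_right f hf, norm_zero]
          norm_num
        · exact absurd ⟨q, hq⟩ hk
      · have h3 : ((fun k => ‖ip f (ev k)‖ ^ 2) ∘ enc)
            = fun q : Σ i, Fin (n i) => ‖ip ψ₁ (v q.1 q.2)‖ ^ 2 := by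
          funext q
          show ‖ip f (ev (enc q))‖ ^ 2 = _
          rw [hev_enc, hfh _ (hvV q), hf₂S.2 _ (hvW q), add_zero]
        rw [h3]
        exact h1
    -- the odd part
    have hodd : HasSum (fun k => ‖ip f (e₀ (2 * k + 1))‖ ^ 2) (ip f₂ f₂).re := by
      have h1 := hpcomp f₂ hf₂S
      have h2 : (fun k => ‖ip f (e₀ (2 * k + 1))‖ ^ 2)
          = fun k => ‖T5.innerD U.R'.μ U.R'.F f₂ (p k)‖ ^ 2 := by
        funext k
        rw [he_odd, hfh _ (hpV k)]
        have : ip ψ₁ (p k) = 0 := by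
          rw [ip_symm (p k) ψ₁ (hpV k) hψ₁V, (hpS k).2 ψ₁ hψ₁, map_zero]
        rw [this, zero_add]
      rw [h2]
      exact h1
    have := HasSum.even_add_odd (f := fun j => ‖ip f (e₀ j)‖ ^ 2) heven hodd
    rw [← hnorm] at this
    exact this
  · -- injectivity of the indices
    intro i a i' a' h
    have h' : 2 * enc ⟨i, a⟩ = 2 * enc ⟨i', a'⟩ := h
    have h2 : enc ⟨i, a⟩ = enc ⟨i', a'⟩ := by omega
    exact henc h2
  · -- the members of the family
    intro i a
    show e₀ (2 * enc ⟨i, a⟩) = v i a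
    rw [he_even, hev_enc]
  · -- outside the family
    intro j hj χ hχ
    obtain ⟨k, rfl | rfl⟩ := Nat.even_or_odd' j
    · rw [he_even]
      rcases hev_cases k with ⟨h0, -⟩ | ⟨q, hq, -⟩
      · rw [h0]
        exact ip_zero_left χ (hWV χ hχ)
      · refine absurd ?_ (hj q.1 q.2)
        show 2 * enc ⟨q.1, q.2⟩ = 2 * k
        rw [← hq]
    · rw [he_odd]
      exact (hpS k).2 χ hχ

end Complete

section L2

variable {K K' : Type} [Field K] [NumberField K] [Field K'] [NumberField K'] [Algebra K K']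

/-- **LEAF T7.L2.2.B2 `H561.CompleteC561`** (row 2274) from the same closed leaves. -/
theorem completeC561_of865 (hF : SD534.CuspFormC K') (hWS : SD534.WSubC K')
    (hSS : SD534.SubSeqC K') : H561.CompleteC561 K K' :=
  completeC561_of_U865 (completeUC_of865 hF hWS hSS)

end L2

end Fermat.Agent.LT.T7.H865

end

end
-- ===== PACK-END LT/T7/H865/CompleteU.lean

-- ===== PACK-BEGIN LT/T7/H865/CompleteClosed.lean
section





/-!
# Row LT, tower T7: LEAF T7.L2.2.B2 `H561.CompleteC561` (row 2274) and its core form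
# `H865.CompleteUC865` -- CLOSED, UNCONDITIONAL (helper865)

OFF-MAIN.  Nothing assumed, no hole.  ONE closure: `T7/H865/CompleteU.lean` + the closed leaves
`cuspFormC76` (helper76@8c596d065, sha256 bd5e5ce3), `subSeqC190` (helper190@6d810ecca,
SubSeqClosed 582bf9a6), `wSubC_863` (helper863@3a027450f, WSub f64a32cd); byte-identical copies.

    completeUC865_closed   K'   : H865.CompleteUC865 K'
    completeC561_closed865 K K' : H561.CompleteC561 K K'
-/

set_option autoImplicit false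

namespace Fermat.Agent.LT.T7.H865

open Fermat.Agent.LT.T7

/-- **LEAF T7.L2.2c.B2 `CompleteUC865`**, VERBATIM, UNCONDITIONAL. -/
theorem completeUC865_closed (K' : Type) [Field K'] [NumberField K'] : CompleteUC865 K' :=
  completeUC_of865 (H76.cuspFormC76 K') (H863.wSubC_863 K') (H190.subSeqC190 K')

/-- **LEAF T7.L2.2.B2 `H561.CompleteC561`**, VERBATIM, UNCONDITIONAL. -/
theorem completeC561_closed865 (K K' : Type) [Field K] [NumberField K] [Field K']
    [NumberField K'] [Algebra K K'] : H561.CompleteC561 K K' :=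
  completeC561_of_U865 (completeUC865_closed K')

end Fermat.Agent.LT.T7.H865

end
-- ===== PACK-END LT/T7/H865/CompleteClosed.lean

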