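import Mathlib
import Fermat.Agent.Pack.LT3.E10L2
import Fermat.Agent.Pack.LT3.E16L3
import Fermat.Agent.Pack.LT3.E16L1
import Fermat.Agent.Pack.LT3.E27L2
import Fermat.Agent.Pack.LT3.E10L3
import Fermat.Agent.Pack.LT3.E13L2
import Fermat.Agent.Pack.LT3.E13L0
import Fermat.Agent.Pack.LT3.E13L1
import Fermat.Agent.Pack.LT3.E13L3
import Fermat.Agent.Pack.LT3.E27L1
import Fermat.Agent.Pack.LT3.E27L3
import Fermat.Agent.Pack.LT3.E21L2
import Fermat.Agent.Pack.LT3.E27L0
import Fermat.Agent.Pack.LT3.E24L2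
import Fermat.Agent.Pack.LT2.E10L0
import Fermat.Agent.Pack.LT2.E12L3
import Fermat.Agent.Pack.LT2.E3L1
import Fermat.Agent.Pack.LT3.E24L1
import Fermat.Agent.Pack.LT3.E24L3
import Fermat.Agent.Pack.LT3.E25L1
import Fermat.Agent.Pack.LT3.E25L0
import Fermat.Agent.Pack.LT3.E26L1
import Fermat.Agent.Pack.LT3.E26L2
import Fermat.Agent.Pack.LT3.E25L2
import Fermat.Agent.Pack.LT3.E26L3
import Fermat.Agent.Pack.LT3.E26L0
import Fermat.Agent.Pack.LT3.E25L3
import Fermat.Agent.Pack.LT3.E8L3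
import Fermat.Agent.Pack.LT3.E22L1

set_option linter.all false

-- ===== PACK-BEGIN LT/T6/H888/ArchClass.lean
section












/-!
# Row LT, tower T6, leaf T6.22 `ArchClassC` (helper888): CLOSED, no hypothesis

`archClassC_closed888 : Fermat.Agent.LT.T6.ArchClassC` (statement of `LT/T6/SpecArch.lean`,
helper22), assembled from the leaves of the cut `H888/ArchClassSpec.lean`:

* (A1) `mtContC263` (helper263), (A2) `prodFormC497` (helper497; on `H162/SphAvgOf`,
  `H543/CartanR`, `H830/HCSpec`);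
* (B) `darbouxC_of_leaves683` (helper683) on `dbSmoothC888` (helper888), `dbLinC468`
  (helper468), `dbLimC682` (helper682), `dbMonoC_863` (helper863), `dbDenseC319` (helper319);
* (I) `gLInjC888`, (D) `sphVolterraC888`, (E) `volterraUniqC888` (helper888);
* the top `archClassC888` (helper888).
-/

set_option autoImplicit false

namespace Fermat.Agent.LT.T6.H888

/-- (B) The Darboux identity, closed. -/
theorem darbouxC_closed888 : DarbouxC888 :=
  Fermat.Agent.LT.T6.H683.darbouxC_of_leaves683 dbSmoothC888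
    Fermat.Agent.LT.T6.H468.dbLinC468 Fermat.Agent.LT.T6.H682.dbLimC682
    Fermat.Agent.LT.T6.H863.dbMonoC_863 Fermat.Agent.LT.T6.H319.dbDenseC319

/-- **T6.22 `ArchClassC`, closed.** -/
theorem archClassC_closed888 : Fermat.Agent.LT.T6.ArchClassC :=
  archClassC888 Fermat.Agent.LT.T6.H263.mtContC263 Fermat.Agent.LT.T6.H497.prodFormC497
    darbouxC_closed888 gLInjC888 sphVolterraC888 volterraUniqC888

end Fermat.Agent.LT.T6.H888

end
-- ===== PACK-END LT/T6/H888/ArchClass.lean

-- ===== PACK-BEGIN LT/T7/H893/SupplyConstrSpec2.lean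
section



/-!
# Row LT, tower T7, node T7.L2.1.H2 `ConstrC` (sub-architect helper893): FIFTH CUT, v2 -- Spec

OFF-MAIN.  Definitions and frozen Props only (the proved tops are `SupplyConstrTop2.lean`).  No
`sorry`, nothing assumed.  ADDITIVE: `SupplyConstrSpec.lean` (v1, sha256 feb0f69771abae8d) is
unchanged and imported; the names of v2 end in `b` (or are new).

## WHY v2: the SPLIT clause of `H305.LocHyp305` is too strong at the BAD split places

`H305.LocHyp305.split` asks `f₀ v = φ₀ (w 0) * ⋯ * φ₀ (w (l-1))` for EVERY enumeration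
`w 0, …, w (l-1)` of the places over `v` with `w j = σ(w (j+1))`, i.e. for the `l` cyclic
rotations of the product.  For commuting components (unit, spherical, Iwahori) this is
harmless.  At a BAD place `v` which splits in `K'` the components upstairs are the double coset
functions `1_{U₀ g_w U₀}` of the bad element `g` (forced by the shape
`φ' = Φ₁ X ⋆ lsum Hg (…)`), `g` is arbitrary at the places over `v`, and the rotated products
are different functions (only their orbital integrals agree).  So `LocHyp305` cannot hold for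
the families, and `v1` (`LocB893`, `Mt893`, `BaseC`) is unsatisfiable in general.

`T6.SplitMatchC` needs ONE enumeration.  `LocHyp893` = `LocHyp305` with the split clause for
SOME enumeration; `GlobMatchC893` = `H305.GlobMatchC305` for `LocHyp893` (the proof of the
matching theorem takes the enumeration from the hypothesis instead of constructing one).

    supplySC_of_open893e : OpenSupply893e P K K' → T7.SupplySC P K K'
    OPEN = GlobMatchC893 K K' (helper305), AvgMatchC893 K K' (unchanged), BaseCb P K K',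
           ProdMtCb K K' κ (for every nowhere zero κ)
-/

set_option autoImplicit false

open AutomorphicForm IsDedekindDomain NumberField MeasureTheory
open scoped ComplexConjugate

noncomputable section

namespace Fermat.Agent.LT.T7.H893

open Fermat.Agent.LT.H556 Fermat.Agent.LT.H556.A0 Fermat.Agent.LT.T7
open Fermat.Agent.LT.T7.H305

attribute [local instance] Fermat.Agent.LT.T5.instMeasurableSpaceG

/-! ## 1. The local hypotheses with the split clause for ONE enumeration -/

section Hyp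

variable {K K' : Type} [Field K] [NumberField K] [Field K'] [NumberField K'] [Algebra K K']

/-- **THE LOCAL HYPOTHESES, v2.**  The clauses `inv_up`, `inv_down`, `arch_up`, `arch_down`,
`inert`, `arch` are those of `H305.LocHyp305` (verbatim).  `split`: at a place `v ∈ T` with at
least two places over it there is ONE enumeration `w 0, …, w (l-1)` of the places over `v` with
`w j = σ(w (j+1))` and identifications `i j : K_v ≃ K'_{w j}` such that the levels agree and
`f₀ v = φ₀ (w 0) * ⋯ * φ₀ (w (l-1))` (hypothesis of `T6.SplitMatchC`). -/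
structure LocHyp893 (D : CompData K K') (μc : @Measure (GL (Fin 2) ℂ) (borel _))
    (T : Finset (HeightOneSpectrum (𝓞 K)))
    (n : HeightOneSpectrum (𝓞 K') → ℕ) (m : HeightOneSpectrum (𝓞 K) → ℕ)
    (φ₀ : ∀ w : HeightOneSpectrum (𝓞 K'), GL (Fin 2) (w.adicCompletion K') → ℂ)
    (Φ : InfinitePlace K' → GL (Fin 2) ℂ → ℂ)
    (f₀ : ∀ v : HeightOneSpectrum (𝓞 K), GL (Fin 2) (v.adicCompletion K) → ℂ)
    (F : InfinitePlace K → GL (Fin 2) ℂ → ℂ) : Prop where
  inv_up : ∀ v ∈ T, ∀ w : HeightOneSpectrum (𝓞 K'), PlaceOver K K' v w →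
    T6.IsBiInv (T6.InU (n w)) (φ₀ w) ∧ T6.HasFinSupp (T6.InU (n w)) (φ₀ w)
  inv_down : ∀ v ∈ T, T6.IsBiInv (T6.InU (m v)) (f₀ v) ∧ T6.HasFinSupp (T6.InU (m v)) (f₀ v)
  arch_up : ∀ w : InfinitePlace K', Continuous (Φ w) ∧ HasCompactSupport (Φ w) ∧
    ∀ g : GL (Fin 2) ℂ, Φ w (conjGL305 g) = Φ w g
  arch_down : ∀ v : InfinitePlace K, Continuous (F v) ∧ HasCompactSupport (F v) ∧
    ∀ g : GL (Fin 2) ℂ, F v (conjGL305 g) = F v g
  inert : ∀ v ∈ T, ∀ w : HeightOneSpectrum (𝓞 K'), PlaceOver K K' v w →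
    (∀ w' : HeightOneSpectrum (𝓞 K'), PlaceOver K K' v w' → w' = w) →
    ∀ (e : ℕ) (i : v.adicCompletion K →+* w.adicCompletion K')
      (sw : w.adicCompletion K' ≃+* w.adicCompletion K'),
      (∀ x : K, i (algebraMap K (v.adicCompletion K) x)
        = algebraMap K' (w.adicCompletion K') (algebraMap K K' x)) →
      (∀ y : K', sw (algebraMap K' (w.adicCompletion K') y)
        = algebraMap K' (w.adicCompletion K') (D.s.σ y)) →
      T6.IsLocalExt (v.adicCompletion K) (w.adicCompletion K') D.l e i sw →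
      (∀ (δ : GL (Fin 2) (w.adicCompletion K')) (γ : GL (Fin 2) (v.adicCompletion K))
          (c c' : ℂ), T6.IsReg γ →
          IsConj (T6.twNorm sw D.l δ) (Matrix.GeneralLinearGroup.map i γ) →
          T6.IsTwOrbSum sw (n w) (φ₀ w) δ c → T6.IsOrbSum (m v) (f₀ v) γ c' → c = c') ∧
        ∀ (γ : GL (Fin 2) (v.adicCompletion K)) (c' : ℂ), T6.IsReg γ →
          ¬ T6.IsNormFrom D.l i sw γ → T6.IsOrbSum (m v) (f₀ v) γ c' → c' = 0
  split : ∀ v ∈ T, (∃ w₁ w₂ : HeightOneSpectrum (𝓞 K'),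
      PlaceOver K K' v w₁ ∧ PlaceOver K K' v w₂ ∧ w₁ ≠ w₂) →
    ∃ (w : ℕ → HeightOneSpectrum (𝓞 K'))
      (i : ∀ j : ℕ, v.adicCompletion K ≃+* (w j).adicCompletion K'),
      (∀ j : ℕ, PlaceOver K K' v (w j)) ∧ (∀ j : ℕ, T5.PlaceRel D.s (w (j + 1)) (w j)) ∧
      (∀ j : ℕ, 0 < j → j < D.l → w j ≠ w 0) ∧
      (∀ (j : ℕ) (x : K), i j (algebraMap K (v.adicCompletion K) x)
        = algebraMap K' ((w j).adicCompletion K') (algebraMap K K' x)) ∧
      (∀ (j : ℕ) (x : v.adicCompletion K), Valued.v (i j x) = Valued.v x) ∧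
      (∀ j : ℕ, n (w j) = m v) ∧
        T6.IsConvProd (T6.InU (m v)) D.l
          (fun j g => φ₀ (w j)
            (Matrix.GeneralLinearGroup.map ((i j : v.adicCompletion K ≃+* _) :
              v.adicCompletion K →+* (w j).adicCompletion K') g))
          (f₀ v)
  arch : ∀ (v : InfinitePlace K) (w : ℕ → InfinitePlace K'),
    (∀ j : ℕ, (w j).comap (algebraMap K K') = v) →
    (∀ j j' : ℕ, j < D.l → j' < D.l → w j = w j' → j = j') →
    F v = convL305 μc (fun j => Φ (w j)) (D.l - 1)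

variable (K K')

/-- **THE NODE C2, v2 = GLOBAL MATCHING FROM LOCAL MATCHING** (`H305.GlobMatchC305` with
`LocHyp893` in place of `H305.LocHyp305`: ONE enumeration at the split places). -/
def GlobMatchC893 : Prop :=
  ∀ D : CompData K K', IsCompData D → IsCycExt K K' D.l → D.l ≠ 2 → TotCplx K →
    ∀ μc : @Measure (GL (Fin 2) ℂ) (borel _), @Measure.IsHaarMeasure _ _ _ (borel _) μc →
    ∀ (T₀ : Finset (HeightOneSpectrum (𝓞 K))), UnramOut305 (K' := K') T₀ →
    ∀ (n : HeightOneSpectrum (𝓞 K') → ℕ) (m : HeightOneSpectrum (𝓞 K) → ℕ),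
      IsLevelAt305 T₀ n m →
    ∃ κ : ℂ, κ ≠ 0 ∧
      ∀ (T : Finset (HeightOneSpectrum (𝓞 K))) (T' : Finset (HeightOneSpectrum (𝓞 K'))),
        T₀ ⊆ T → IsOver305 T T' →
      ∀ (φ₀ : ∀ w : HeightOneSpectrum (𝓞 K'), GL (Fin 2) (w.adicCompletion K') → ℂ)
        (Φ : InfinitePlace K' → GL (Fin 2) ℂ → ℂ)
        (f₀ : ∀ v : HeightOneSpectrum (𝓞 K), GL (Fin 2) (v.adicCompletion K) → ℂ)
        (F : InfinitePlace K → GL (Fin 2) ℂ → ℂ),
        LocHyp893 D μc T n m φ₀ Φ f₀ F →
        ∀ (φ' : G K' → ℂ) (f : G K → ℂ),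
          (∀ h : G K', φ' h = pure305 T' φ₀ Φ h) →
          (∀ h : G K, f h = κ * pure305 T f₀ F h) →
          T5.IsTestFn D.𝔑 T5.trivType φ' → T5.IsTestFn D.𝔫 T5.trivType f →
          IsGlobMatch D φ' f

variable {K K'}

/-- **THE RELATION OF RECORD, v2**: averages of locally matched pure tensors (`LocHyp893`),
with the constant `κ` of the matching theorem downstairs. -/
def Mt893b (κ : KapFn K K') : MtRel K K' := fun B 𝔫 φ' f =>
  ∃ (μc : @Measure (GL (Fin 2) ℂ) (borel _)) (T₀ : Finset (HeightOneSpectrum (𝓞 K)))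
    (n : HeightOneSpectrum (𝓞 K') → ℕ) (m : HeightOneSpectrum (𝓞 K) → ℕ),
    @Measure.IsHaarMeasure _ _ _ (borel _) μc ∧ UnramOut305 (K' := K') T₀ ∧
      IsLevelAt305 T₀ n m ∧
      IsAvgPure (upI (K' := K') 𝔫) 𝔫 T₀
        (fun T φ₀ Φ f₀ F => LocHyp893 (B.comp 𝔫) μc T n m φ₀ Φ f₀ F)
        (κ (B.comp 𝔫) μc T₀ n m) φ' f

/-- `κ` is a family of constants of the matching theorem, v2. -/
def GoodKap893b (κ : KapFn K K') : Prop :=
  ∀ D : CompData K K', IsCompData D → IsCycExt K K' D.l → D.l ≠ 2 → TotCplx K →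
    ∀ μc : @Measure (GL (Fin 2) ℂ) (borel _), @Measure.IsHaarMeasure _ _ _ (borel _) μc →
    ∀ (T₀ : Finset (HeightOneSpectrum (𝓞 K))), UnramOut305 (K' := K') T₀ →
    ∀ (n : HeightOneSpectrum (𝓞 K') → ℕ) (m : HeightOneSpectrum (𝓞 K) → ℕ),
      IsLevelAt305 T₀ n m →
      ∀ (T : Finset (HeightOneSpectrum (𝓞 K))) (T' : Finset (HeightOneSpectrum (𝓞 K'))),
        T₀ ⊆ T → IsOver305 T T' →
      ∀ (φ₀ : ∀ w : HeightOneSpectrum (𝓞 K'), GL (Fin 2) (w.adicCompletion K') → ℂ)
        (Φ : InfinitePlace K' → GL (Fin 2) ℂ → ℂ)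
        (f₀ : ∀ v : HeightOneSpectrum (𝓞 K), GL (Fin 2) (v.adicCompletion K) → ℂ)
        (F : InfinitePlace K → GL (Fin 2) ℂ → ℂ),
        LocHyp893 D μc T n m φ₀ Φ f₀ F →
        ∀ (φ' : G K' → ℂ) (f : G K → ℂ),
          (∀ h : G K', φ' h = pure305 T' φ₀ Φ h) →
          (∀ h : G K, f h = κ D μc T₀ n m * pure305 T f₀ F h) →
          T5.IsTestFn D.𝔑 T5.trivType φ' → T5.IsTestFn D.𝔫 T5.trivType f →
          IsGlobMatch D φ' f

end Hyp

/-! ## 2. The local shape, v2 -/

section Shape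

variable {K K' : Type} [Field K] [NumberField K] [Field K'] [NumberField K'] [Algebra K K']

open Classical in
/-- **THE LOCAL SHAPE OF THE SECOND PAIR, v2**: `LocB893` with `LocHyp893` at the bad places
(the partner downstairs of the double coset functions; at a bad split place the convolution
product in ONE order). -/
def LocB893b (B : L2Base K K') (g : G K') (𝔫 : Ideal (𝓞 K))
    (μc : @Measure (GL (Fin 2) ℂ) (borel _)) (T₀ : Finset (HeightOneSpectrum (𝓞 K)))
    (n n₀ : HeightOneSpectrum (𝓞 K') → ℕ) (m : HeightOneSpectrum (𝓞 K) → ℕ) : LocCond K K' :=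
  fun T φ₀ Φ f₀ F =>
    LocHyp893 (B.comp 𝔫) μc (T₀.erase B.u) n m
      (fun w => dblFn893 (n₀ w) (finGL305 w g)) Φ f₀ F ∧
    (∀ v ∈ T₀, v ≠ B.u → ∀ w : HeightOneSpectrum (𝓞 K'), PlaceOver K K' v w →
      φ₀ w = unitFn893 (n₀ w)) ∧
    f₀ B.u = iwFn893 ∧
    (∀ w : HeightOneSpectrum (𝓞 K'), PlaceOver K K' B.u w → φ₀ w = iwFn893) ∧
    SphOut893 B.l T₀ T φ₀ f₀ ∧ ArchOk893 (B.comp 𝔫) μc n m φ₀ Φ f₀ F

/-- **THE LOCAL SHAPE OF THE PRE-DATA, v2.** -/
def IsDecomp893b (μc : @Measure (GL (Fin 2) ℂ) (borel _)) (a : ℂ) (B : L2Base K K') (g : G K')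
    (E : L2Pre K K') : Prop :=
  ∃ (T₀ : Finset (HeightOneSpectrum (𝓞 K)))
    (n n₀ : HeightOneSpectrum (𝓞 K') → ℕ) (m : HeightOneSpectrum (𝓞 K) → ℕ),
    (∀ v : HeightOneSpectrum (𝓞 K), v ∈ T₀ ↔ v.asIdeal ∣ E.𝔫) ∧
    IsLevelOf893 E.𝔫 m ∧ IsLevelOf893 (upI (K' := K') E.𝔫) n ∧ IsLevelOf893 B.𝔑₀ n₀ ∧
    (∀ X : List (Gen K'), (∀ x ∈ X, x.Out B.S') →
      IsAvgPure (upI (K' := K') E.𝔫) E.𝔫 T₀ (LocA893 B E.𝔫 μc T₀ n m) 1 (E.Φ₁ X) (E.F₁ X)) ∧
    IsAvgPure (upI (K' := K') E.𝔫) E.𝔫 T₀ (LocB893b B g E.𝔫 μc T₀ n n₀ m) a E.φ₂ E.f₂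

end Shape

/-! ## 3. The nodes, v2 -/

section Nodes

variable (P : EKCond)
variable (K K' : Type) [Field K] [NumberField K] [Field K'] [NumberField K'] [Algebra K K']

/-- **NODE T7.L2.1.H2a = BASE, v2** (T3 + T6 + `♮`; existence).  As `BaseC` (see its
docstring for the construction), with the local shape `IsDecomp893b`. -/
def BaseCb : Prop :=
  ∀ ℓ : ℕ, IsCycExt K K' ℓ → ℓ ≠ 2 → TotCplx K →
    ∀ Φ : HeckeEigensystem K' ℂ, A0.IsCuspAdelicSph0 K' Φ → ConstOnFibres K Φ → P K' Φ →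
      ∀ B : L2Base K K', IsL2Base ℓ Φ B → B.RamIn → ∀ g : G K', B.IsBad g →
        ∃ (𝔫 : Ideal (𝓞 K)) (μc : @Measure (GL (Fin 2) ℂ) (borel _)),
          @Measure.IsHaarMeasure _ _ _ (borel _) μc ∧
          ∀ a : ℂ, a ≠ 0 → ∃ E : L2Pre K K', E.𝔫 = 𝔫 ∧
            IsL2PreOp ℓ Φ B g E ∧ IsL2PreSupp ℓ B E ∧ IsDecomp893b μc a B g E

/-- **NODE T7.L2.1.H2b = PROD-MT, v2** (the calculus of pure tensors).  As `ProdMtC` (see its
docstring), with the local shape `IsDecomp893b` and the relation `Mt893b κ`. -/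
def ProdMtCb (κ : KapFn K K') : Prop :=
  ∀ ℓ : ℕ, IsCycExt K K' ℓ → ℓ ≠ 2 → TotCplx K →
    ∀ (Φ : HeckeEigensystem K' ℂ) (B : L2Base K K'), IsL2Base ℓ Φ B → B.RamIn →
    ∀ g : G K', B.IsBad g →
    ∀ (𝔫 : Ideal (𝓞 K)) (μc : @Measure (GL (Fin 2) ℂ) (borel _)),
      @Measure.IsHaarMeasure _ _ _ (borel _) μc →
      ∃ a : ℂ, a ≠ 0 ∧
        ∀ E : L2Pre K K', E.𝔫 = 𝔫 → IsL2PreOp ℓ Φ B g E → IsDecomp893b μc a B g E →
          ∀ (X : List (Gen K')) (k : ℤ) (m : ℕ), (∀ x ∈ X, x.Out B.S') →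
            Mt893b κ B 𝔫 (E.up B X k m) (E.down B X k m)

end Nodes

end Fermat.Agent.LT.T7.H893

end

end
-- ===== PACK-END LT/T7/H893/SupplyConstrSpec2.lean

-- ===== PACK-BEGIN LT/T7/H228/MulGU.lean
section



/-!
# Row LT, tower T7, leaf CM.10 MUL-G in CORE FORM: `CMU675.MulGUC675` (helper228)

OFF-MAIN.  `mulGUC228 K' : CMU675.MulGUC675 K'`, VERBATIM vs helper675 `ClassModelU.lean`
(sha256 9a359011), UNCONDITIONAL; the proof is `mulG_core228` of `MulGCore.lean`.
-/

set_option autoImplicit false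

open IsDedekindDomain NumberField

noncomputable section

namespace Fermat.Agent.LT.T7.H228

open Fermat.Agent.LT.H556 Fermat.Agent.LT.H556.A0 Fermat.Agent.LT Fermat.Agent.LT.T7
  Fermat.Agent.LT.T7.CMU675

variable (K' : Type) [Field K'] [NumberField K']

/-- **LEAF CM.10 = MUL-G, core form**, VERBATIM. -/
theorem mulGUC228 : MulGUC675 K' :=
  fun _ _ U _ g g' Hg Hg' hg hHg hg' hHg' =>
    mulG_core228 U.𝔑₀ U.S' U.l U.o g g' Hg Hg' hg hHg hg' hHg'

end Fermat.Agent.LT.T7.H228

end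

end
-- ===== PACK-END LT/T7/H228/MulGU.lean

-- ===== PACK-BEGIN LT/T7/H514/LocEqArchQL.lean
section




/-!
# Row LT, tower T7, leaf Q2.7.13.4c `LocEqArchQL514` (registry row 2711): LOC-EQ-ARCH over `ℚ`,
# LOCAL FORM -- PROVED, UNCONDITIONAL

OFF-MAIN.  No hole, nothing assumed.  THE PROOF IS helper659's (`T7/H659/LocEqArchQ.lean`,
helper659@fec9f51d2, `locEqArchQC659 : LocEqArchQC514 F`, the leaf of v1): that proof uses the
local hypotheses only through the clause `arch`, so the same script proves the local form (the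
lemmas of helper659 are cited, the last step takes the hypothesis `T6.IsArchMatch` directly).

    locEqArchQL514 (F) : LocEqArchQL514 F
-/

set_option autoImplicit false

open AutomorphicForm IsDedekindDomain NumberField MeasureTheory
open scoped ComplexConjugate

noncomputable section

namespace Fermat.Agent.LT.T7.FUQ514

open Fermat.Agent.LT.H556 Fermat.Agent.LT.H556.A0 Fermat.Agent.LT.T7 Fermat.Agent.LT.T7.H305
open Fermat.Agent.LT.T7.MQ298 Fermat.Agent.LT.T7.H340 Fermat.Agent.LT.T7.H659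

attribute [local instance] Fermat.Agent.LT.T5.instMeasurableSpaceG

/-- **LEAF Q2.7.13.4c = LOC-EQ-ARCH over `ℚ`, LOCAL FORM** (VERBATIM; proof of helper659). -/
theorem locEqArchQL514 (F : Type) [Field F] [NumberField F] : LocEqArchQL514 F := by
  intro hIQ D hD hcyc hl ι hι μr hμr μc hμc Φ Fr hArch δ γ hEll hN m L hL j J hJ
  obtain ⟨w, β', hβ'c, hβ'0, hβ', rfl⟩ := hJ
  -- the two rays
  obtain ⟨-, t, ht0, ht2, htr⟩ := hD.frame.ray
  obtain ⟨-, t', ht'0, ht'2, ht'r⟩ := hD.frame'.ray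
  have hfr : Module.finrank ℚ F = 2 := by rw [hcyc.degree, hl]
  rw [Module.finrank_self] at ht2
  rw [hfr] at ht'2
  have htt : t' ^ 2 = t := by
    have h1 : (t' ^ 2) ^ 2 = t ^ 2 := by
      rw [← pow_mul]
      exact ht'2.trans ht2.symm
    exact (pow_left_inj₀ (by positivity) ht0.le (by norm_num)).1 h1
  have ht'C : (t' : ℂ) ≠ 0 := Complex.ofReal_ne_zero.2 ht'0.ne'
  have hz : reGLQ298 D.R.r = Matrix.GeneralLinearGroup.scalar (Fin 2) (Units.mk0 t ht0.ne') :=
    reGLQ_of_scalar659 ht0.ne' (htr Rat.infinitePlace)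
  have hz' : infGL305 w D.R'.r
      = Matrix.GeneralLinearGroup.scalar (Fin 2) (Units.mk0 (t' : ℂ) ht'C) :=
    infGL_of_scalar659 ht'C (ht'r w)
  -- the element downstairs
  have hγ' : reGLQ298 (T5.ratG γ * D.R.r ^ j)
      = Matrix.GeneralLinearGroup.map (algebraMap ℚ ℝ) γ
        * Matrix.GeneralLinearGroup.scalar (Fin 2) ((Units.mk0 t ht0.ne') ^ j) := by
    rw [map_mul, map_zpow, hz, ← map_zpow, reGLQ_ratG659]
  have hc : T6.twCentSub (MonoidHom.id (GL (Fin 2) ℝ)) (reGLQ298 (T5.ratG γ * D.R.r ^ j))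
      = T6.twCentSub (MonoidHom.id (GL (Fin 2) ℝ)) (reGLQ298 (T5.ratG γ)) := by
    rw [hγ', reGLQ_ratG659]
    exact twCentSub_mul_central659 _ _ (fun x => Matrix.GeneralLinearGroup.scalar_commute _ x)
  have hreg : T6.IsReg (reGLQ298 (T5.ratG γ * D.R.r ^ j)) := by
    rw [hγ']
    show IsUnit (T6.disc _)
    rw [disc_mul_scalar659, disc_map659]
    exact IsUnit.mul (IsUnit.pow _ (Units.isUnit _))
      ((hEll.1 : IsUnit (T6.disc γ)).map (algebraMap ℚ ℝ))
  -- the element upstairs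
  have hσ : ∃ x : F, D.s.σ x ≠ x := by
    obtain ⟨x, hx⟩ := hD.cyc.faithful 1 one_pos (by rw [hl]; norm_num)
    exact ⟨x, by simpa using hx⟩
  have hconj : ∀ y : F, w.embedding (D.s.σ y) = conj (w.embedding y) :=
    embedding_conj659 hIQ.1 w D.s.σ hσ
  have hδ0 : infGL305 w (T5.ratG δ * D.R'.r ^ j)
      = Matrix.GeneralLinearGroup.map w.embedding δ
        * Matrix.GeneralLinearGroup.scalar (Fin 2) ((Units.mk0 (t' : ℂ) ht'C) ^ j) := by
    rw [map_mul, map_zpow, hz', ← map_zpow, infGL_ratG659]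
  have hsc : T6.glAut (starRingAut : ℂ ≃+* ℂ)
      (Matrix.GeneralLinearGroup.scalar (Fin 2) ((Units.mk0 (t' : ℂ) ht'C) ^ j))
      = Matrix.GeneralLinearGroup.scalar (Fin 2) ((Units.mk0 (t' : ℂ) ht'C) ^ j) := by
    refine map_scalar_eq659 ((starRingAut : ℂ ≃+* ℂ) : ℂ →+* ℂ) _ _ ?_
    show conj (((Units.mk0 (t' : ℂ) ht'C) ^ j : ℂˣ) : ℂ) = _
    rw [Units.val_zpow_eq_zpow_val, Units.val_mk0, map_zpow₀, Complex.conj_ofReal]
  have hemb : T6.glAut (starRingAut : ℂ ≃+* ℂ) (Matrix.GeneralLinearGroup.map w.embedding δ)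
      = Matrix.GeneralLinearGroup.map w.embedding (D.s.onRat δ) := by
    apply Units.ext
    ext a b
    exact (hconj _).symm
  have hnorm : D.s.normUpTo 2 δ = δ * D.s.onRat δ := by
    show δ * D.s.onRat (δ * D.s.onRat 1) = δ * D.s.onRat δ
    rw [map_one, mul_one]
  have hQ : Matrix.GeneralLinearGroup.map w.embedding
      (Matrix.GeneralLinearGroup.map (algebraMap ℚ F) γ)
      = Matrix.GeneralLinearGroup.map (algebraMap ℝ ℂ)
        (Matrix.GeneralLinearGroup.map (algebraMap ℚ ℝ) γ) := by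
    apply Units.ext
    ext a b
    show w.embedding (algebraMap ℚ F _) = algebraMap ℝ ℂ (algebraMap ℚ ℝ _)
    simp
  have hAB : Matrix.GeneralLinearGroup.map w.embedding δ
      * Matrix.GeneralLinearGroup.map w.embedding (D.s.onRat δ)
      = Matrix.GeneralLinearGroup.map (algebraMap ℝ ℂ)
        (Matrix.GeneralLinearGroup.map (algebraMap ℚ ℝ) γ) := by
    rw [← map_mul, ← hnorm, ← hQ, ← hN, hl]
  have hZ : Matrix.GeneralLinearGroup.map (algebraMap ℝ ℂ)
      (Matrix.GeneralLinearGroup.scalar (Fin 2) ((Units.mk0 t ht0.ne') ^ j))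
      = Matrix.GeneralLinearGroup.scalar (Fin 2) ((Units.mk0 (t' : ℂ) ht'C) ^ j)
        * Matrix.GeneralLinearGroup.scalar (Fin 2) ((Units.mk0 (t' : ℂ) ht'C) ^ j) := by
    rw [← map_mul]
    refine map_scalar_eq659 (algebraMap ℝ ℂ) _ _ ?_
    show ((((Units.mk0 t ht0.ne') ^ j : ℝˣ) : ℝ) : ℂ) = _
    rw [Units.val_mul, Units.val_zpow_eq_zpow_val, Units.val_zpow_eq_zpow_val, Units.val_mk0,
      Units.val_mk0, ← htt]
    push_cast
    rw [← mul_zpow, sq]
  have hδ' : T6.twNorm (starRingAut : ℂ ≃+* ℂ) 2 (infGL305 w (T5.ratG δ * D.R'.r ^ j))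
      = Matrix.GeneralLinearGroup.map (algebraMap ℝ ℂ) (reGLQ298 (T5.ratG γ * D.R.r ^ j)) := by
    rw [hδ0, hγ', map_mul (Matrix.GeneralLinearGroup.map (algebraMap ℝ ℂ)), hZ]
    exact twNorm_core659 _ _ _ _ hemb hsc
      (fun x => Matrix.GeneralLinearGroup.scalar_commute _ x) hAB
  exact (archMatch_of_cent_eq659 (hArch w) hreg hc L.μtr hL.torr L.βr hL.cutr.1
    hL.cutr.2.1 hL.cutr.2.2 _ hδ' β' hβ'c hβ'0 hβ').symm

end Fermat.Agent.LT.T7.FUQ514

end

end
-- ===== PACK-END LT/T7/H514/LocEqArchQL.lean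

-- ===== PACK-BEGIN LT/T7/H1U/FactIntUpQSpec.lean
section




/-!
# Row LT, tower T7, node U.3 `H1U.FactIntUpQC` (Part B of `FUQ514.UpFactQC514`; registry row
# 2787, owner helper1): THE CUT -- Spec

OFF-MAIN.  Definitions and frozen Props only (the proved top is `FactIntUpQTop.lean`).  No hole,
nothing assumed.  ADDITIVE (new names only, namespace `Fermat.Agent.LT.T7.H1U`).  Model:
helper558 `T7/H558/FactDownTopB.lean` (the untwisted case downstairs).

    factIntUpQC_of : H305.HaarSplitC305 F → H558.OutOpenC558 F → H558.CompContC558 F →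
        H558.HaarSigmaC558 F → OverSetQC F → PtFactUpQC F → RayFinUpQC F → ArchIntblUpQC F →
        FinPartUpQC F → FactIntUpQC F

## The cut

* `H305.HaarSplitC305 F`, `H558.OutOpenC558 F`, `H558.CompContC558 F`, `H558.HaarSigmaC558 F`:
  ONE-FIELD leaves of helper305 / helper558 for the field `F` (totally complex), REUSED VERBATIM.
* **`OverSetQC F`** (LEAF [S]): every finite set of places of `ℚ` has the finite set of the
  places of `F` over it (`IsOver305`; finite fibres).
* **`PtFactUpQC F`** (LEAF [M-L], pointwise): for `y ∈ Out_{S'}` the term `j` of the integrand is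
  `∏_{w ∈ S'} φ₀_w((y⁻¹ δ σ(y))_w) · Φ_w(y_∞⁻¹ (δ r'^j)_∞ conj(y_∞))`.
* **`RayFinUpQC F`** (LEAF [M]): the sum over the ray is finite, uniformly (twisted form of
  `H558.RayFinC558`).
* **`ArchIntblUpQC F`** (LEAF [L]): the integrands at infinity are integrable (twisted form of
  `H558.ArchIntblC558`).
* **`FinPartUpQC F`** (NODE [XL], the finite places): there are normalised local Haar measures
  `μw` upstairs and a measurable function `Θ` on `∏_{w ∈ S'} GL₂(F_w)` whose pull-back is the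
  finite part of the integrand (with the cut-off functions) and whose integral is `∏_{v ∈ S} J v`.

## Proofs (sketches) and FALSITY CHECKS (helper1)

`PtFactUpQC`: (1) `σ(y) ∈ Out_{S'}`: `(σ y)_w = s(y_{w''})`, `w = σ(w'')`, `s` preserves the
valuation (`H305.SigmaLocC305 F`, closed by helper558), `w''` lies over the same place of `ℚ` as
`w` (`σ` fixes `ℚ`; helper1 `T7/H1G/Fixed.lean`, `placeOver_preP_H1G`), and `S'` is the set of ALL
places over `S`; `δ ∈ GL₂(𝒪_w)` for `w ∉ S'` (`IntOut305`); `r'` is trivial at the finite places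
(`T5.IsRayGen`); so `y⁻¹ δ σ(y) r'^j ∈ Out_{S'}` and `pure305` is the product of the components.
(2) `F` has ONE infinite place `w`; `σ_𝔸` acts at `w` by `conj`: `SigmaLocC305` gives `id` or
`conj` (`w ∘ σ = w`), and `id` would give `w(σ ξ) = w(ξ)`, `σ = 1`, against
`IsCyclicOfDegree.faithful 1` (`l = 2`).  (3) `r'^j` is a scalar matrix at `w`
(`H558.ray_central558`): `y_w⁻¹ δ_w conj(y_w) r'_w^j = y_w⁻¹ (δ r'^j)_w conj(y_w)`.

`RayFinUpQC`: `|det (x⁻¹ g conj(x))| = |det g|`, `det (δ r'^j)_w = det δ_w · t'^{2j}`, `t' > 1`;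
`|det|` is bounded and bounded away from `0` on the compact support.

`ArchIntblUpQC`: `δ₀ = (δ r'^j)_w`, `δ₀ conj(δ₀) = t^j (γ_∞)_ℂ` with `γ_∞ ∈ GL₂(ℝ)` regular; the
twisted centraliser of `δ₀` is the image of the centraliser `T` of `γ_∞` (`T6.TwCentC`); the
twisted orbit is closed, `{x : x⁻¹ δ₀ conj(x) ∈ supp Φ} ⊆ T_ℂ C`, `C` compact; then as
`H558.ArchIntblC558` with the normalisation of `β'` against `L.μtr`.

`FinPartUpQC`: `Θ(p) = ∏_{w ∈ S'} φ₀_w(p_w⁻¹ δ_w s(p_{w''})) · ∏_{v ∈ S} bet_v(p_{w0 v})`;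
measurable (continuous: `H558.BiInvContC558 F`, `IsLocCut305`, the `s` are isometries); the
pull-back: `SigmaLocC305` componentwise; `μw`: the `μ'` of the datum at the places with one
place over it, the images of `L.μv v` under `i j` at the split places (`n (w j) = m v`),
`H305.LocMeasC305` + `T6.InstLocalC` elsewhere (or any normalised family and the uniqueness of
the Haar measure); the integral: `∏_{w ∈ S'} = ∏_{v ∈ S} ∏_{w ∣ v}` (`IsOver305`; the places over
a split `v` are `w 0`, `w 1`: one orbit of `σ`), block Fubini (helper159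
`T7/H159/BlockFubini.lean`: `integral_block159`, `integral_block_one159`,
`integral_block_fin159`), the `s_w` of the inert datum is the component of `σ_𝔸` (density),
`s_{w_{j+1} → w_j} ∘ i_{j+1} = i_j` (density).  CONVENTION: no integrability is needed (products).
-/

set_option autoImplicit false

open AutomorphicForm IsDedekindDomain NumberField MeasureTheory
open scoped ComplexConjugate

noncomputable section

namespace Fermat.Agent.LT.T7.H1U

open Fermat.Agent.LT.H556 Fermat.Agent.LT.H556.A0 Fermat.Agent.LT.T7 Fermat.Agent.LT.T7.H305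
open Fermat.Agent.LT.T7.MQ298 Fermat.Agent.LT.T7.H340 Fermat.Agent.LT.T7.FUQ514

attribute [local instance] Fermat.Agent.LT.T5.instMeasurableSpaceG

section Leaves

variable (F : Type) [Field F] [NumberField F]

/-- **LEAF B.0 = OVER-SET.**  The places of `F` over a finite set of places of `ℚ` form a finite
set. -/
def OverSetQC : Prop :=
  ∀ T : Finset (HeightOneSpectrum (𝓞 ℚ)),
    ∃ T' : Finset (HeightOneSpectrum (𝓞 F)), IsOver305 T T'

/-- **LEAF B.1 = PT-FACT-UP (pointwise, twisted).**  For `y ∈ Out_{S'}`, `δ` integral outside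
`S'`: the term `j` of the integrand is the product of the finite components and of the twisted
component at the infinite place. -/
def PtFactUpQC : Prop :=
  IsImagQuad F →
  ∀ D : CompData ℚ F, IsCompData D → IsCycExt ℚ F D.l → D.l = 2 →
    ∀ (S : Finset (HeightOneSpectrum (𝓞 ℚ))) (S' : Finset (HeightOneSpectrum (𝓞 F))),
      IsOver305 S S' →
    ∀ (φ₀ : ∀ w : HeightOneSpectrum (𝓞 F), GL (Fin 2) (w.adicCompletion F) → ℂ)
      (Φ : InfinitePlace F → GL (Fin 2) ℂ → ℂ) (δ : GL (Fin 2) F), IntOut305 S' δ →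
    ∀ (w : InfinitePlace F) (y : G F) (j : ℤ), OutT305 S' y →
      pure305 S' φ₀ Φ (y⁻¹ * T5.ratG δ * D.s.onG y * D.R'.r ^ j)
        = (∏ w' ∈ S', φ₀ w' (finGL305 w' (y⁻¹ * T5.ratG δ * D.s.onG y))) *
          Φ w ((infGL305 w y)⁻¹ * infGL305 w (T5.ratG δ * D.R'.r ^ j)
            * T6.glAut (starRingAut : ℂ ≃+* ℂ) (infGL305 w y))

/-- **LEAF B.2 = RAY-FIN-UP (twisted).**  There is a finite set `Jf` of exponents such that for
`j ∉ Jf` the function `Φ` vanishes on the twisted conjugacy class of the component of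
`δ r^j`. -/
def RayFinUpQC : Prop :=
  ∀ r : G F, T5.IsRayGen r →
    ∀ Φ : GL (Fin 2) ℂ → ℂ, Continuous Φ → HasCompactSupport Φ →
    ∀ (w : InfinitePlace F) (δ : GL (Fin 2) F), ∃ Jf : Finset ℤ, ∀ j : ℤ, j ∉ Jf →
      ∀ x : GL (Fin 2) ℂ,
        Φ (x⁻¹ * infGL305 w (T5.ratG δ * r ^ j) * T6.glAut (starRingAut : ℂ ≃+* ℂ) x) = 0

/-- **LEAF B.3 = ARCH-INTBL-UP (twisted).**  The integrands at infinity are integrable. -/
def ArchIntblUpQC : Prop :=
  T6.T6Out → IsImagQuad F →
  ∀ D : CompData ℚ F, IsCompData D → IsCycExt ℚ F D.l → D.l = 2 →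
    ∀ μc : @Measure (GL (Fin 2) ℂ) (borel _), @Measure.IsHaarMeasure _ _ _ (borel _) μc →
    ∀ (m : HeightOneSpectrum (𝓞 ℚ) → ℕ) (Φ : InfinitePlace F → GL (Fin 2) ℂ → ℂ),
      (∀ w : InfinitePlace F, Continuous (Φ w) ∧ HasCompactSupport (Φ w)) →
    ∀ (δ : GL (Fin 2) F) (γ : GL (Fin 2) ℚ), T6.IsEll γ →
      D.s.normUpTo D.l δ = Matrix.GeneralLinearGroup.map (algebraMap ℚ F) γ →
    ∀ L : LocDataQ298 γ, IsLocDataQ298 m L →
    ∀ (w : InfinitePlace F) (β' : GL (Fin 2) ℂ → ℝ) (Jc : ℤ → ℂ),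
      IsArchAtQ D Φ δ L μc w β' Jc →
      ∀ j : ℤ, @Integrable _ _ _ _ (borel _)
        (fun x : GL (Fin 2) ℂ =>
          Φ w (x⁻¹ * infGL305 w (T5.ratG δ * D.R'.r ^ j)
              * T6.glAut (starRingAut : ℂ ≃+* ℂ) x) * ((β' x : ℝ) : ℂ)) μc

/-- **NODE B.4 = FIN-PART-UP (the finite places).**  See the header. -/
def FinPartUpQC : Prop :=
  T6.T6Out → IsImagQuad F →
  ∀ D : CompData ℚ F, IsCompData D → IsCycExt ℚ F D.l → D.l = 2 →
    ∀ (μc : @Measure (GL (Fin 2) ℂ) (borel _))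
      (n : HeightOneSpectrum (𝓞 F) → ℕ) (m : HeightOneSpectrum (𝓞 ℚ) → ℕ)
      (S : Finset (HeightOneSpectrum (𝓞 ℚ))) (S' : Finset (HeightOneSpectrum (𝓞 F))),
      IsOver305 S S' →
    ∀ (φ₀ : ∀ w : HeightOneSpectrum (𝓞 F), GL (Fin 2) (w.adicCompletion F) → ℂ)
      (Φ : InfinitePlace F → GL (Fin 2) ℂ → ℂ),
      (∀ v ∈ S, ∀ w : HeightOneSpectrum (𝓞 F), PlaceOver ℚ F v w →
        T6.IsBiInv (T6.InU (n w)) (φ₀ w) ∧ T6.HasFinSupp (T6.InU (n w)) (φ₀ w)) →
    ∀ (δ : GL (Fin 2) F) (γ : GL (Fin 2) ℚ), T6.IsEll γ →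
      D.s.normUpTo D.l δ = Matrix.GeneralLinearGroup.map (algebraMap ℚ F) γ →
    ∀ L : LocDataQ298 γ, IsLocDataQ298 m L →
    ∀ (U : UpDatQ F) (J : HeightOneSpectrum (𝓞 ℚ) → ℂ) (Jc : ℤ → ℂ),
      IsUpDatQ D n m φ₀ Φ δ L μc S U J Jc →
      ∃ (μw : ∀ w : HeightOneSpectrum (𝓞 F),
            @Measure (GL (Fin 2) (w.adicCompletion F)) (borel _))
        (Θ : (∀ w : S', GL (Fin 2) ((w : HeightOneSpectrum (𝓞 F)).adicCompletion F)) → ℂ),
        (∀ w : HeightOneSpectrum (𝓞 F), IsLocHaar305 (n w) (μw w)) ∧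
        (letI : ∀ w : HeightOneSpectrum (𝓞 F),
            MeasurableSpace (GL (Fin 2) (w.adicCompletion F)) := fun _ => borel _;
          Measurable Θ) ∧
        (∀ y : G F, OutT305 S' y →
          (∏ w ∈ S', φ₀ w (finGL305 w (y⁻¹ * T5.ratG δ * D.s.onG y))) *
              (((∏ v ∈ S, U.bet v (finGL305 (U.w0 v) y) : ℝ)) : ℂ)
            = Θ (fun w => finGL305 w.1 y)) ∧
        (letI : ∀ w : HeightOneSpectrum (𝓞 F),
            MeasurableSpace (GL (Fin 2) (w.adicCompletion F)) := fun _ => borel _;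
          ∫ p, Θ p ∂(Measure.pi fun w : S' => μw w.1) = ∏ v ∈ S, J v)

end Leaves

/-! ## Appendix: the equation lemmas of the definitions are realised HERE -/

theorem eqns_realised_H1U_B : True := by
  have _a1 := @OverSetQC.eq_1
  have _a2 := @OverSetQC.eq_def
  have _a3 := @OverSetQC.eq_unfold
  have _b1 := @PtFactUpQC.eq_1
  have _b2 := @PtFactUpQC.eq_def
  have _b3 := @PtFactUpQC.eq_unfold
  have _c1 := @RayFinUpQC.eq_1
  have _c2 := @RayFinUpQC.eq_def
  have _c3 := @RayFinUpQC.eq_unfold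
  have _d1 := @ArchIntblUpQC.eq_1
  have _d2 := @ArchIntblUpQC.eq_def
  have _d3 := @ArchIntblUpQC.eq_unfold
  have _e1 := @FinPartUpQC.eq_1
  have _e2 := @FinPartUpQC.eq_def
  have _e3 := @FinPartUpQC.eq_unfold
  trivial

end Fermat.Agent.LT.T7.H1U

end

end
-- ===== PACK-END LT/T7/H1U/FactIntUpQSpec.lean

-- ===== PACK-BEGIN LT/T7/H941/SuppUpKit.lean
section






/-!
# Row LT, tower T7, level 2, leaf T7.L2.1.C2.7.13.1.A2 `SuppUpC340` -- THE ADELIC KIT
(helper941, spare of row 2746)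

OFF-MAIN.  ONE number field `F`, an adelic automorphism `s : T5.AdelicAut F`.  Nothing assumed.

* `sigN941 s m = σ_𝔸^m` on `GL₂(𝔸_F)` (a group homomorphism), `sigN_period941`: `σ_𝔸^l = 1`;
* a CHAIN of places `w : ℕ → places`, `w j = σ(w (j+1))`:
  `chain_congr941`, `chain_val941`, `chain_inU941`: the component of `σ^m g` at `w n` is the
  transport of the component of `g` at `w (n+m)`;
* `TrivOut941 O g`: `g` is trivial at the infinite places and at the finite places outside `O`;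
  stable under products, inverses, `σ` (`O` stable under `σ`);
* `eq_of_fibre941`: two elements which agree outside `O` and at the places of `O` are equal;
* `twN_ratG941`: `N_n(δ)` in `GL₂(𝔸_F)` is the image of `s.normUpTo n δ`.
-/

set_option autoImplicit false

open AutomorphicForm IsDedekindDomain NumberField MeasureTheory

noncomputable section

namespace Fermat.Agent.LT.T7.H941

open Fermat.Agent.LT Fermat.Agent.LT.H556 Fermat.Agent.LT.H556.A0 Fermat.Agent.LT.T7
open Fermat.Agent.LT.T7.H305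

/-! ## Local: `U(0)` -/

section Local

variable {k : Type} [Field k] [Valued k T6.Γ₀]

theorem inU_zero_iff941 (g : GL (Fin 2) k) :
    T6.InU 0 g ↔ (∀ i j : Fin 2, Valued.v ((g : Matrix (Fin 2) (Fin 2) k) i j) ≤ 1) ∧
      ∀ i j : Fin 2, Valued.v (((g⁻¹ : GL (Fin 2) k) : Matrix (Fin 2) (Fin 2) k) i j) ≤ 1 :=
  ⟨integral_of_inU941, fun h => T6.H288.H546.inU_zero_of_integral_h546 g h.1 h.2⟩

end Local

section OneField

variable {F : Type} [Field F] [NumberField F]

/-! ## The powers of `σ` on `GL₂(𝔸_F)` -/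

/-- `σ_𝔸^m` on `GL₂(𝔸_F)`. -/
def sigN941 (s : T5.AdelicAut F) : ℕ → (G F →* G F)
  | 0 => MonoidHom.id _
  | m + 1 => s.onG.comp (sigN941 s m)

theorem sigN_zero941 (s : T5.AdelicAut F) (g : G F) : sigN941 s 0 g = g := rfl

theorem sigN_succ941 (s : T5.AdelicAut F) (m : ℕ) (g : G F) :
    sigN941 s (m + 1) g = s.onG (sigN941 s m g) := rfl

theorem sigN_succ'941 (s : T5.AdelicAut F) (m : ℕ) (g : G F) :
    sigN941 s (m + 1) g = sigN941 s m (s.onG g) := by
  induction m with
  | zero => rfl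
  | succ m ih => rw [sigN_succ941, ih, sigN_succ941]

theorem sigN_add941 (s : T5.AdelicAut F) (m n : ℕ) (g : G F) :
    sigN941 s (m + n) g = sigN941 s m (sigN941 s n g) := by
  induction m with
  | zero => rw [Nat.zero_add]; rfl
  | succ m ih => rw [Nat.succ_add, sigN_succ941, ih, sigN_succ941]

theorem sigN_iterate941 (s : T5.AdelicAut F) (m : ℕ) (g : G F) :
    sigN941 s m g = (⇑s.onG)^[m] g := by
  induction m with
  | zero => rfl
  | succ m ih => rw [sigN_succ941, ih, Function.iterate_succ_apply']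

theorem sigN_period941 (s : T5.AdelicAut F) (l : ℕ) (k : Subfield F)
    (hc : T5.IsCyclicOfDegree s l k) (g : G F) : sigN941 s l g = g := by
  rw [sigN_iterate941]
  exact T5.H415.onG_iterate415 s l k hc g

theorem sigN_mul_period941 (s : T5.AdelicAut F) (l : ℕ) (k : Subfield F)
    (hc : T5.IsCyclicOfDegree s l k) (q : ℕ) (g : G F) : sigN941 s (q * l) g = g := by
  induction q with
  | zero => rw [Nat.zero_mul]; rfl
  | succ q ih => rw [Nat.succ_mul, sigN_add941, sigN_period941 s l k hc, ih]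

theorem sigN_mod941 (s : T5.AdelicAut F) (l : ℕ) (k : Subfield F)
    (hc : T5.IsCyclicOfDegree s l k) (a : ℕ) (g : G F) :
    sigN941 s (a % l) g = sigN941 s a g := by
  conv_rhs => rw [← Nat.mod_add_div a l, sigN_add941, Nat.mul_comm,
    sigN_mul_period941 s l k hc]

theorem sigN_ratG941 (s : T5.AdelicAut F) (δ : GL (Fin 2) F) :
    s.onG (T5.ratG δ) = T5.ratG (s.onRat δ) :=
  T5.H942.onG_ratG942 s δ

/-- `N_n(δ)` in `GL₂(𝔸_F)` is the image of `s.normUpTo n δ`. -/
theorem twN_ratG941 (s : T5.AdelicAut F) (n : ℕ) (δ : GL (Fin 2) F) :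
    T6.twN s.onG n (T5.ratG δ) = T5.ratG (s.normUpTo n δ) := by
  induction n with
  | zero =>
    show (1 : G F) = T5.ratG 1
    rw [map_one]
  | succ n ih =>
    show T5.ratG δ * s.onG (T6.twN s.onG n (T5.ratG δ))
      = T5.ratG (δ * s.onRat (s.normUpTo n δ))
    rw [ih, sigN_ratG941, map_mul]

/-! ## Chains of places -/

section Chain

variable (s : T5.AdelicAut F) (w : ℕ → HeightOneSpectrum (𝓞 F))
  (hrel : ∀ j : ℕ, T5.PlaceRel s (w (j + 1)) (w j))

include hrel

theorem chain_congr941 (m : ℕ) : ∀ (n : ℕ) (g g' : G F),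
    finComp (w (n + m)) g = finComp (w (n + m)) g' →
    finComp (w n) (sigN941 s m g) = finComp (w n) (sigN941 s m g') := by
  induction m with
  | zero => intro n g g' h; exact h
  | succ m ih =>
    intro n g g' h
    rw [sigN_succ941, sigN_succ941]
    refine T5.H415.finComp_onG_congr415 s (w (n + 1)) (w n) (hrel n) _ _ ?_
    apply ih (n + 1)
    have e : n + 1 + m = n + (m + 1) := by omega
    rw [e]
    exact h

theorem chain_val941 (m : ℕ) : ∀ (n : ℕ) (g : G F) (a b : Fin 2),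
    Valued.v (finComp (w n) (sigN941 s m g) a b) = Valued.v (finComp (w (n + m)) g a b) := by
  induction m with
  | zero => intro n g a b; rfl
  | succ m ih =>
    intro n g a b
    rw [sigN_succ941, T5.H415.valued_onG415 s (w (n + 1)) (w n) (hrel n), ih (n + 1)]
    have e : n + 1 + m = n + (m + 1) := by omega
    rw [e]

theorem chain_inU941 (m n : ℕ) (g : G F) :
    T6.InU 0 (finGL305 (w n) (sigN941 s m g)) ↔ T6.InU 0 (finGL305 (w (n + m)) g) := by
  rw [inU_zero_iff941, inU_zero_iff941]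
  have h1 : ∀ (h : G F) (a b : Fin 2),
      Valued.v (((finGL305 (w n) (sigN941 s m h) : GL (Fin 2) ((w n).adicCompletion F)) :
        Matrix (Fin 2) (Fin 2) ((w n).adicCompletion F)) a b)
      = Valued.v (((finGL305 (w (n + m)) h : GL (Fin 2) ((w (n + m)).adicCompletion F)) :
        Matrix (Fin 2) (Fin 2) ((w (n + m)).adicCompletion F)) a b) := by
    intro h a b
    rw [finGL_val941, finGL_val941]
    exact chain_val941 s w hrel m n h a b
  constructor
  · rintro ⟨ha, hb⟩
    refine ⟨fun a b => ?_, fun a b => ?_⟩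
    · rw [← h1]; exact ha a b
    · rw [← map_inv, ← h1, map_inv, map_inv]; exact hb a b
  · rintro ⟨ha, hb⟩
    refine ⟨fun a b => ?_, fun a b => ?_⟩
    · rw [h1]; exact ha a b
    · rw [← map_inv, ← map_inv, h1, map_inv]; exact hb a b

end Chain

/-! ## Elements which are trivial outside a set of finite places -/

/-- `g` is trivial at the infinite places and at the finite places outside `O`. -/
def TrivOut941 (O : Set (HeightOneSpectrum (𝓞 F))) (g : G F) : Prop :=
  (∀ w : InfinitePlace F, H129.infCompHom129 w g = 1) ∧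
    ∀ v : HeightOneSpectrum (𝓞 F), v ∉ O → finGL305 v g = 1

theorem trivOut_one941 (O : Set (HeightOneSpectrum (𝓞 F))) : TrivOut941 O (1 : G F) :=
  ⟨fun _ => map_one _, fun _ _ => map_one _⟩

theorem trivOut_mul941 {O : Set (HeightOneSpectrum (𝓞 F))} {g h : G F}
    (hg : TrivOut941 O g) (hh : TrivOut941 O h) : TrivOut941 O (g * h) :=
  ⟨fun w => by rw [map_mul, hg.1 w, hh.1 w, mul_one],
    fun v hv => by rw [map_mul, hg.2 v hv, hh.2 v hv, mul_one]⟩

theorem trivOut_inv941 {O : Set (HeightOneSpectrum (𝓞 F))} {g : G F}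
    (hg : TrivOut941 O g) : TrivOut941 O g⁻¹ :=
  ⟨fun w => by rw [map_inv, hg.1 w, inv_one], fun v hv => by rw [map_inv, hg.2 v hv, inv_one]⟩

theorem trivOut_locFin941 {O : Set (HeightOneSpectrum (𝓞 F))} {w₀ : HeightOneSpectrum (𝓞 F)}
    (hw₀ : w₀ ∈ O) (t : GL (Fin 2) (w₀.adicCompletion F)) :
    TrivOut941 O (H129.locFin129 w₀ t) := by
  refine ⟨fun w => H129.infCompHom129_locFin129 w₀ t w, fun v hv => ?_⟩
  rw [finGL_eq941]
  refine H129.finCompHom129_locFin129_of_ne w₀ t ?_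
  rintro rfl
  exact hv hw₀

theorem trivOut_iff941 (O : Set (HeightOneSpectrum (𝓞 F))) (g : G F) :
    TrivOut941 O g ↔ T5.AgreeOutside O g 1 := by
  constructor
  · rintro ⟨h1, h2⟩
    refine ⟨fun w => ?_, fun v hv => ?_⟩
    · rw [T5.H415.infComp_eq_iff415]
      intro i j
      have e : H129.infCompHom129 w g = H129.infCompHom129 w 1 := by rw [h1 w, map_one]
      have := congrArg (fun u : GL (Fin 2) w.Completion =>
        (u : Matrix (Fin 2) (Fin 2) w.Completion) i j) e
      exact this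
    · have e : finGL305 v g = finGL305 v 1 := by rw [h2 v hv, map_one]
      have := congrArg (fun u : GL (Fin 2) (v.adicCompletion F) =>
        (u : Matrix (Fin 2) (Fin 2) (v.adicCompletion F))) e
      exact this
  · rintro ⟨h1, h2⟩
    refine ⟨fun w => ?_, fun v hv => ?_⟩
    · have e : H129.infCompHom129 w g = H129.infCompHom129 w 1 := by
        apply Units.ext
        refine Matrix.ext fun i j => ?_
        exact (T5.H415.infComp_eq_iff415 w g 1).1 (h1 w) i j
      rw [e, map_one]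
    · have e : finGL305 v g = finGL305 v 1 := by
        apply Units.ext
        exact h2 v hv
      rw [e, map_one]

theorem trivOut_onG941 (s : T5.AdelicAut F) {O : Set (HeightOneSpectrum (𝓞 F))}
    (hO : ∀ v v' : HeightOneSpectrum (𝓞 F), T5.PlaceRel s v v' → v' ∉ O → v ∉ O)
    {g : G F} (hg : TrivOut941 O g) : TrivOut941 O (s.onG g) := by
  rw [trivOut_iff941] at hg ⊢
  have := T5.H415.agreeOutside_onG415 s O hO g 1 hg
  rwa [map_one] at this

theorem trivOut_sigN941 (s : T5.AdelicAut F) {O : Set (HeightOneSpectrum (𝓞 F))}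
    (hO : ∀ v v' : HeightOneSpectrum (𝓞 F), T5.PlaceRel s v v' → v' ∉ O → v ∉ O)
    (m : ℕ) {g : G F} (hg : TrivOut941 O g) : TrivOut941 O (sigN941 s m g) := by
  induction m with
  | zero => exact hg
  | succ m ih => exact trivOut_onG941 s hO ih

/-- Two elements which agree outside `O` (up to an element trivial outside `O`) and at the
places of `O` are equal. -/
theorem eq_of_fibre941 {O : Set (HeightOneSpectrum (𝓞 F))} {g h : G F}
    (hout : TrivOut941 O (g⁻¹ * h))
    (hin : ∀ v : HeightOneSpectrum (𝓞 F), v ∈ O → finGL305 v g = finGL305 v h) : g = h := by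
  have key : g⁻¹ * h = 1 := by
    apply H129.G_ext129
    · intro w
      rw [hout.1 w, map_one]
    · intro v
      rw [map_one]
      by_cases hv : v ∈ O
      · rw [← finGL_eq941, map_mul, map_inv, hin v hv, inv_mul_cancel]
      · exact hout.2 v hv
  have := congrArg (fun u => g * u) key
  simpa using this.symm

/-- The twisted conjugate by an element trivial outside a `σ`-stable set. -/
theorem trivOut_twConj941 (s : T5.AdelicAut F) {O : Set (HeightOneSpectrum (𝓞 F))}
    (hO : ∀ v v' : HeightOneSpectrum (𝓞 F), T5.PlaceRel s v v' → v' ∉ O → v ∉ O)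
    (d : G F) {T : G F} (hT : TrivOut941 O T) :
    TrivOut941 O ((T⁻¹ * d * s.onG T)⁻¹ * d) := by
  have hσ := trivOut_onG941 s hO hT
  refine ⟨fun w => ?_, fun v hv => ?_⟩
  · rw [map_mul, map_inv, map_mul, map_mul, map_inv, hT.1 w, hσ.1 w]
    group
  · rw [map_mul, map_inv, map_mul, map_mul, map_inv, hT.2 v hv, hσ.2 v hv]
    group

end OneField

/-- The equation lemmas of the definitions of this file are realised here. -/
theorem eqns_realised_kit941 : True := by
  have _a1 := @sigN941.eq_1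
  have _a2 := @sigN941.eq_2
  have _a3 := @sigN941.eq_def
  have _b1 := @TrivOut941.eq_1
  have _b2 := @TrivOut941.eq_def
  trivial

end Fermat.Agent.LT.T7.H941

end

end
-- ===== PACK-END LT/T7/H941/SuppUpKit.lean

-- ===== PACK-BEGIN LT/T7/H558/FactDownClosed.lean
section















/-!
# Row LT, tower T7, node C2.7.7 `FactDownC305` (helper558, registry 2571): CLOSED, UNCONDITIONAL

OFF-MAIN.  Complete proof, nothing assumed.

    factDownC558 (K) : H305.FactDownC305 K

The node of helper305 (`T7/H305/MatchCut.lean`, sha256 0f302b81) from the cut of helper558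
(`FactDownSpec.lean`, `FactDownTopA.lean`, `FactDownTopB.lean`) and the closed leaves, vendored
byte-identical:

| leaf | proof | file |
|---|---|---|
| `SuppDownC305` (helper305 C2.7.6) | helper841 `suppDownC841` | `T7/H841/SuppDown.lean` |
| `HaarSplitC305` (helper305 C2.7.4) | helper159 `haarSplitC159` | `T7/H159/HaarSplit305.lean` |
| FD.1 `OutOpenC558` | helper729 `outOpenC729` | `T7/H729/OutOpen.lean` |
| FD.2 `CompContC558` | helper409 `compContC409` | `T7/H409/CompCont.lean` |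
| FD.3 `TorCommIdC558` | helper615 `torCommIdC615` | `T7/H615/TorCommId.lean` |
| FD.4 `SuppOutC558` | helper221 `suppOutC221` | `T7/H221/SuppOut.lean` |
| FD.5 `CutOnOutC558` | helper385 `cutOnOutC385` | `T7/H385/CutOnOut.lean` |
| FD.6 `RayFinC558` | helper301 `rayFinC301` | `T7/H301/RayFin.lean` |
| FD.7 `PtFactC558` | helper454 `ptFactC454` | `T7/H454/PtFact.lean` |
| FD.8 `ArchIntblC558` | helper194 `archIntblC194` | `T7/H194/FD/ArchIntbl.lean` |
| FD.9 `HaarSigmaC558` | helper505 `haarSigmaC505` | `T7/H505/HaarSigma.lean` |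
| FD.10 `BiInvContC558` | helper16 `biInvContC558_16` | `T7/H16/BiInvCont.lean` |
-/

set_option autoImplicit false

open IsDedekindDomain NumberField

noncomputable section

namespace Fermat.Agent.LT.T7.H558

open Fermat.Agent.LT.T7

/-- **NODE C2.7.7 = FACT-DOWN, CLOSED.** -/
theorem factDownC558 (K : Type) [Field K] [NumberField K] : H305.FactDownC305 K :=
  factDownC_of558 (H841.suppDownC841 K) (H159.haarSplitC159 K) (OutOpen729.outOpenC729 K)
    (H409.compContC409 K) (H615.torCommIdC615 K) (H221.suppOutC221 K) (H385.cutOnOutC385 K)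
    (H16.biInvContC558_16 K) (H301.rayFinC301 K) (H454.PtFact.ptFactC454 K) H194.archIntblC194
    (H505.haarSigmaC505 K)

end Fermat.Agent.LT.T7.H558

end

end
-- ===== PACK-END LT/T7/H558/FactDownClosed.lean

-- ===== PACK-BEGIN LT/T7/H341/UpDatTop.lean
section



/-!
# Row LT, tower T7, node C2.7.13.1.0 `H340.UpDatC340` (helper341, registry 2742): THE TOP

OFF-MAIN.  PROVED, nothing assumed.

    upDatC_of341 : UpInertC341 K K' → UpSplitC341 K K' → UpArchC341 K K' → H340.UpDatC340 K K'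

`Sin` = the places of `S` with exactly one place over them, `Ssp` = the other places of `S`; the
data are chosen place by place.
-/

set_option autoImplicit false
set_option linter.unusedSectionVars false
set_option linter.unusedVariables false

open AutomorphicForm IsDedekindDomain NumberField MeasureTheory
open scoped ComplexConjugate

noncomputable section

namespace Fermat.Agent.LT.T7.UD341

open Fermat.Agent.LT.H556 Fermat.Agent.LT.H556.A0 Fermat.Agent.LT.T7 Fermat.Agent.LT.T7.H305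
open Fermat.Agent.LT.T7.H340

attribute [local instance] Fermat.Agent.LT.T5.instMeasurableSpaceG

variable (K K' : Type) [Field K] [NumberField K] [Field K'] [NumberField K'] [Algebra K K']

/-- **THE TOP of the cut of `H340.UpDatC340`.** -/
theorem upDatC_of341 (hI : UpInertC341 K K') (hS : UpSplitC341 K K') (hA : UpArchC341 K K') :
    UpDatC340 K K' := by
  classical
  intro hT6 D hD hcyc _hl2 hcx ι hι T₀ _hT₀ n m _hlev S S' _hTS _hSS' δ γ hγ hN L hL
  have hIn : ∀ v : {v // v ∈ S.filter (fun v => OnePlace341 K K' v)},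
      ∃ d : InertDat340 δ v.1, IsInertDat340 D ι n L d := fun v => by
    obtain ⟨w, hw, hu⟩ := (Finset.mem_filter.1 v.2).2
    obtain ⟨d, -, hd⟩ := hI hT6 D hD hcyc ι hι n m δ γ hγ hN L hL v.1 w hw hu
    exact ⟨d, hd⟩
  have hSp : ∀ v : {v // v ∈ S.filter (fun v => ¬ OnePlace341 K K' v)},
      ∃ d : SplitDat340 K' v.1, IsSplitDat340 D ι d := fun v =>
    hS hT6 D hD hcyc ι hι v.1 (Finset.mem_filter.1 v.2).2
  have hAr : ∀ v : InfinitePlace K, ∃ d : ArchDat340 K', IsArchDat340 D ι v d := fun v =>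
    hA D hD hcyc hcx ι hι v
  choose dI hdI using hIn
  choose dS hdS using hSp
  choose dA hdA using hAr
  refine ⟨⟨S.filter (fun v => OnePlace341 K K' v), S.filter (fun v => ¬ OnePlace341 K K' v),
    dI, dS, dA⟩, ?_⟩
  refine
    { pos := hcyc.prime.pos
      union := ?_
      disj := ?_
      inert := hdI
      split := hdS
      arch := hdA }
  · intro v
    show v ∈ S ↔ v ∈ S.filter (fun v => OnePlace341 K K' v)
      ∨ v ∈ S.filter (fun v => ¬ OnePlace341 K K' v)
    rw [Finset.mem_filter, Finset.mem_filter]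
    constructor
    · intro hv
      by_cases h : OnePlace341 K K' v
      · exact Or.inl ⟨hv, h⟩
      · exact Or.inr ⟨hv, h⟩
    · rintro (h | h)
      · exact h.1
      · exact h.1
  · intro v hv hv'
    show False
    have h1 : v ∈ S.filter (fun v => OnePlace341 K K' v) := hv
    have h2 : v ∈ S.filter (fun v => ¬ OnePlace341 K K' v) := hv'
    exact (Finset.mem_filter.1 h2).2 (Finset.mem_filter.1 h1).2

example (hI : UpInertC341 K K') (hS : UpSplitC341 K K') (hA : UpArchC341 K K') :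
    UpDatC340 K K' := upDatC_of341 K K' hI hS hA

end Fermat.Agent.LT.T7.UD341

end

end
-- ===== PACK-END LT/T7/H341/UpDatTop.lean

-- ===== PACK-BEGIN LT/T7/H267/UpInert.lean
section





/-!
# Row LT, tower T7, leaf UD.1 `UpInertC341` (cut of helper341 of `H340.UpDatC340`; helper267,
# SPARE)

OFF-MAIN.  `upInertC_of267 : H305.SigmaLocC305 K' → H305.LocMeasC305 → H305.LocCutC305
→ UD341.UpInertC341 K K'`, VERBATIM conclusion; the three hypotheses are closed assets (plugged
in `UpInertClosed.lean`).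

Proof (the sketch of the spec).  `(e, i, s_w)`, `rat_i`, `rat_s`, `ext`: `T6.InstExtC` for the
generator `D.s.σ` of the Galois group.  `sig`: `SigmaLocC305 K'` at `PlaceRel D.s w w` (the only
place over `v` is fixed by `σ`) gives `s'_w`, and `s'_w = s_w` (continuous, agree on `K'`).
`iot`: `IsAdeleBase305.fin` gives `i'`, and `i' = i`.  `haar`: `LocMeasC305`.  `tor`, `link`:
`GL₂(i)` is an isomorphism of topological groups of the centraliser of `γ_v` onto the twisted
centraliser of `δ_w` (`T6.TwCentC`; `i` is inducing), `μt'` is the image of `L.μt v`.  `cut`: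
`LocCutC305`.
-/

set_option autoImplicit false
set_option linter.unusedSectionVars false
set_option linter.style.haveILetI false

open AutomorphicForm IsDedekindDomain NumberField MeasureTheory
open scoped ComplexConjugate

noncomputable section

namespace Fermat.Agent.LT.T7.UD341.H267

open Fermat.Agent.LT.H556 Fermat.Agent.LT.H556.A0 Fermat.Agent.LT Fermat.Agent.LT.T7
open Fermat.Agent.LT.T7.H305 Fermat.Agent.LT.T7.H340

/-! ## 1. The generator of the Galois group -/

section Gen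

variable {K K' : Type} [Field K] [NumberField K] [Field K'] [NumberField K'] [Algebra K K']

theorem sigma_fix267 (D : CompData K K') (hD : IsCompData D) (x : K) :
    D.s.σ (algebraMap K K' x) = algebraMap K K' x :=
  (hD.cyc.fixed _).1 ((hD.base _).2 ⟨x, rfl⟩)

/-- The generator `σ` as an automorphism of `K'` over `K`. -/
def sAlg267 (D : CompData K K') (hD : IsCompData D) : K' ≃ₐ[K] K' :=
  AlgEquiv.ofRingEquiv (f := D.s.σ) (sigma_fix267 D hD)

theorem sAlg_apply267 (D : CompData K K') (hD : IsCompData D) (y : K') :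
    sAlg267 D hD y = D.s.σ y := rfl

theorem sAlg_toRingEquiv267 (D : CompData K K') (hD : IsCompData D) :
    (sAlg267 D hD).toRingEquiv = D.s.σ := by
  ext y
  rfl

theorem sAlg_gen267 (D : CompData K K') (hD : IsCompData D) (hcyc : IsCycExt K K' D.l) :
    ∀ t : K' ≃ₐ[K] K', t ∈ Subgroup.zpowers (sAlg267 D hD) := by
  have := hcyc.galois
  have : Fact D.l.Prime := ⟨hcyc.prime⟩
  have hcard : Nat.card (K' ≃ₐ[K] K') = D.l := by
    rw [IsGalois.card_aut_eq_finrank, hcyc.degree]
  have hne : sAlg267 D hD ≠ 1 := by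
    obtain ⟨x, hx⟩ := hD.cyc.faithful 1 Nat.one_pos hcyc.prime.one_lt
    intro h
    apply hx
    have h1 := congrArg (fun t : K' ≃ₐ[K] K' => t x) h
    simpa [sAlg_apply267] using h1
  intro t
  rw [zpowers_eq_top_of_prime_card hcard hne]
  trivial

/-- The only place over `v` is fixed by `σ`. -/
theorem placeRel_self267 (D : CompData K K') (hD : IsCompData D)
    (v : HeightOneSpectrum (𝓞 K)) (w : HeightOneSpectrum (𝓞 K')) (hvw : PlaceOver K K' v w)
    (huniq : ∀ w' : HeightOneSpectrum (𝓞 K'), PlaceOver K K' v w' → w' = w) :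
    T5.PlaceRel D.s w w := by
  have h1 := T6.H267.comap_eq_of_unique v w (sAlg267 D hD)
    (fun x => H555.placeOver_iff555 hvw x)
    (fun w' hw' => huniq w' (H555.placeOver_of_le555 hw'))
  rw [sAlg_toRingEquiv267] at h1
  show w.asIdeal = Ideal.map (RingOfIntegers.mapRingEquiv D.s.σ) w.asIdeal
  conv_rhs => rw [← h1]
  exact (Ideal.map_comap_of_surjective _ (RingOfIntegers.mapRingEquiv D.s.σ).surjective _).symm

end Gen

/-! ## 2. The centraliser of `γ` and the twisted centraliser of `δ` -/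

section Cent

variable {k k' : Type} [Field k] [Field k'] [Valued k T6.Γ₀] [Valued k' T6.Γ₀]

theorem mem_cent_iff267 (γ t : GL (Fin 2) k) :
    t ∈ T6.twCentSub (T6.glAut (RingEquiv.refl k)) γ ↔ t * γ = γ * t := by
  show t⁻¹ * γ * T6.glAut (RingEquiv.refl k) t = γ ↔ t * γ = γ * t
  rw [H555.glAut_refl555, mul_assoc, inv_mul_eq_iff_eq_mul]
  exact eq_comm

theorem glMap_injective267 (i : k →+* k') :
    Function.Injective (Matrix.GeneralLinearGroup.map (n := Fin 2) i) := by
  intro a b hab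
  apply Matrix.GeneralLinearGroup.ext
  intro p q
  have h1 := congrArg (fun g : GL (Fin 2) k' => g p q) hab
  simp only [Matrix.GeneralLinearGroup.map_apply] at h1
  exact i.injective h1

variable (i : k →+* k') (s : k' ≃+* k') (γ : GL (Fin 2) k) (δ : GL (Fin 2) k')
  (h : ∀ x : GL (Fin 2) k', T6.InTwCent s δ x ↔
    ∃ t : GL (Fin 2) k, t * γ = γ * t ∧ x = Matrix.GeneralLinearGroup.map i t)

/-- `GL₂(i)` from the centraliser of `γ` to the twisted centraliser of `δ`. -/
def centHom267 :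
    T6.twCentSub (T6.glAut (RingEquiv.refl k)) γ →* T6.twCentSub (T6.glAut s) δ :=
  ((Matrix.GeneralLinearGroup.map i).comp (Subgroup.subtype _)).codRestrict _
    (fun t => (h _).2 ⟨t.1, (mem_cent_iff267 γ t.1).1 t.2, rfl⟩)

theorem centHom_coe267 (t : T6.twCentSub (T6.glAut (RingEquiv.refl k)) γ) :
    ((centHom267 i s γ δ h t : T6.twCentSub (T6.glAut s) δ) : GL (Fin 2) k')
      = Matrix.GeneralLinearGroup.map i (t : GL (Fin 2) k) := rfl

theorem centHom_bijective267 : Function.Bijective (centHom267 i s γ δ h) := by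
  constructor
  · intro a b hab
    apply Subtype.ext
    apply glMap_injective267 i
    have h1 := congrArg Subtype.val hab
    exact h1
  · intro x
    obtain ⟨t, ht, hx⟩ := (h x.1).1 x.2
    exact ⟨⟨t, (mem_cent_iff267 γ t).2 ht⟩, Subtype.ext hx.symm⟩

/-- `GL₂(i)` as an isomorphism of the centraliser of `γ` onto the twisted centraliser of `δ`. -/
def centEquiv267 :
    T6.twCentSub (T6.glAut (RingEquiv.refl k)) γ ≃* T6.twCentSub (T6.glAut s) δ :=
  MulEquiv.ofBijective (centHom267 i s γ δ h) (centHom_bijective267 i s γ δ h)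

theorem centEquiv_coe267 (t : T6.twCentSub (T6.glAut (RingEquiv.refl k)) γ) :
    ((centEquiv267 i s γ δ h t : T6.twCentSub (T6.glAut s) δ) : GL (Fin 2) k')
      = Matrix.GeneralLinearGroup.map i (t : GL (Fin 2) k) := rfl

theorem continuous_centEquiv267 (hi : Topology.IsInducing i) :
    Continuous (centEquiv267 i s γ δ h) := by
  rw [continuous_induced_rng]
  exact (isInducing_glMap267 i hi).continuous.comp continuous_subtype_val

theorem isInducing_centEquiv267 (hi : Topology.IsInducing i) :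
    Topology.IsInducing (centEquiv267 i s γ δ h) := by
  refine Topology.IsInducing.of_comp (continuous_centEquiv267 i s γ δ h hi)
    (continuous_subtype_val (p := fun x => x ∈ T6.twCentSub (T6.glAut s) δ)) ?_
  exact (isInducing_glMap267 i hi).comp Topology.IsInducing.subtypeVal

theorem continuous_centEquiv_symm267 (hi : Topology.IsInducing i) :
    Continuous (centEquiv267 i s γ δ h).symm :=
  ((centEquiv267 i s γ δ h).toEquiv.toHomeomorphOfIsInducing
    (isInducing_centEquiv267 i s γ δ h hi)).symm.continuous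

theorem trace_glMap267 (t : GL (Fin 2) k) :
    ((Matrix.GeneralLinearGroup.map i t : GL (Fin 2) k') : Matrix (Fin 2) (Fin 2) k').trace
      = i (t : Matrix (Fin 2) (Fin 2) k).trace := by
  have h1 : ((Matrix.GeneralLinearGroup.map i t : GL (Fin 2) k') : Matrix (Fin 2) (Fin 2) k')
      = (t : Matrix (Fin 2) (Fin 2) k).map i := rfl
  rw [h1]
  simp [Matrix.trace_fin_two]

theorem det_glMap267 (t : GL (Fin 2) k) :
    ((Matrix.GeneralLinearGroup.map i t : GL (Fin 2) k') : Matrix (Fin 2) (Fin 2) k').det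
      = i (t : Matrix (Fin 2) (Fin 2) k).det := by
  have h1 : ((Matrix.GeneralLinearGroup.map i t : GL (Fin 2) k') : Matrix (Fin 2) (Fin 2) k')
      = (t : Matrix (Fin 2) (Fin 2) k).map i := rfl
  rw [h1]
  simp [Matrix.det_fin_two]

/-- The image of the normalised Haar measure of the centraliser of `γ` is the normalised Haar
measure of the twisted centraliser of `δ`, and the two are linked. -/
theorem centMeasure267 (hi : Topology.IsInducing i) (e : ℕ) (he : 0 < e)
    (hv : ∀ x : k, Valued.v (i x) = Valued.v x ^ e)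
    (μT : @Measure (T6.twCentSub (T6.glAut (RingEquiv.refl k)) γ) (borel _))
    (hμ : IsLocTor305 (RingEquiv.refl k) γ μT) :
    IsLocTor305 s δ (@Measure.map _ _ (borel _) (borel _) (centEquiv267 i s γ δ h) μT) ∧
      ∀ A : Set (GL (Fin 2) k'),
        (@Measure.map _ _ (borel _) (borel _) (centEquiv267 i s γ δ h) μT)
            {t | (t : GL (Fin 2) k') ∈ A}
          = μT {t | Matrix.GeneralLinearGroup.map i (t : GL (Fin 2) k) ∈ A} := by
  letI m1 : MeasurableSpace (T6.twCentSub (T6.glAut (RingEquiv.refl k)) γ) := borel _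
  haveI b1 : BorelSpace (T6.twCentSub (T6.glAut (RingEquiv.refl k)) γ) := ⟨rfl⟩
  letI m2 : MeasurableSpace (T6.twCentSub (T6.glAut s) δ) := borel _
  haveI b2 : BorelSpace (T6.twCentSub (T6.glAut s) δ) := ⟨rfl⟩
  haveI hH : Measure.IsHaarMeasure μT := hμ.1
  let Θh : T6.twCentSub (T6.glAut (RingEquiv.refl k)) γ ≃ₜ T6.twCentSub (T6.glAut s) δ :=
    (centEquiv267 i s γ δ h).toEquiv.toHomeomorphOfIsInducing
      (isInducing_centEquiv267 i s γ δ h hi)
  have hmap : ∀ S : Set (T6.twCentSub (T6.glAut s) δ),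
      (Measure.map (centEquiv267 i s γ δ h) μT) S
        = μT ((centEquiv267 i s γ δ h) ⁻¹' S) := fun S =>
    Θh.toMeasurableEquiv.map_apply S
  refine ⟨⟨?_, ?_⟩, fun A => hmap _⟩
  · exact MulEquiv.isHaarMeasure_map μT (centEquiv267 i s γ δ h)
      (continuous_centEquiv267 i s γ δ h hi) (continuous_centEquiv_symm267 i s γ δ h hi)
  · rw [hmap]
    have hset : (centEquiv267 i s γ δ h) ⁻¹'
        {t : T6.twCentSub (T6.glAut s) δ |
          Valued.v ((t : GL (Fin 2) k') : Matrix (Fin 2) (Fin 2) k').trace ≤ 1 ∧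
          Valued.v ((t : GL (Fin 2) k') : Matrix (Fin 2) (Fin 2) k').det = 1}
        = {t : T6.twCentSub (T6.glAut (RingEquiv.refl k)) γ |
          Valued.v ((t : GL (Fin 2) k) : Matrix (Fin 2) (Fin 2) k).trace ≤ 1 ∧
          Valued.v ((t : GL (Fin 2) k) : Matrix (Fin 2) (Fin 2) k).det = 1} := by
      ext t
      simp only [Set.mem_preimage, Set.mem_ofPred_eq, centEquiv_coe267, trace_glMap267,
        det_glMap267, hv]
      rw [pow_le_one_iff_of_nonneg zero_le he.ne', pow_eq_one_iff_of_nonneg zero_le he.ne']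
    rw [hset]
    exact hμ.2

end Cent

/-! ## 3. The leaf -/

section Main

variable (K K' : Type) [Field K] [NumberField K] [Field K'] [NumberField K'] [Algebra K K']

/-- **LEAF UD.1 = UP-INERT** from the closed assets `SigmaLocC305 K'`, `LocMeasC305`,
`LocCutC305`. -/
theorem upInertC_of267 (hσ : SigmaLocC305 K') (hmeas : LocMeasC305) (hcut : LocCutC305) :
    UpInertC341 K K' := by
  intro hT6 D hD hcyc ι hι n m δ γ hEll hN L hL v w hvw huniq
  have hTwCent : T6.TwCentC := hT6.2.2.1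
  have hInstLocal : T6.InstLocalC := hT6.2.2.2.2.2.1
  have hInstExt : T6.InstExtC := hT6.2.2.2.2.2.2.1
  haveI := hcyc.galois
  -- `T6.InstExtC` for the generator `σ`
  have hprime : (Module.finrank K K').Prime := by
    rw [hcyc.degree]
    exact hcyc.prime
  obtain ⟨e, i, sw, hi, hsw, hext, _⟩ := hInstExt K K' (sAlg267 D hD) (sAlg_gen267 D hD hcyc)
    hprime v w (fun x => H555.placeOver_iff555 hvw x)
    (fun w' hw' => huniq w' (H555.placeOver_of_le555 hw'))
  rw [hcyc.degree] at hext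
  have hsw' : ∀ y : K', sw (algebraMap K' (w.adicCompletion K') y)
      = algebraMap K' (w.adicCompletion K') (D.s.σ y) := hsw
  have hloc' := hInstLocal K' w
  -- regularity
  have hregγ : T6.IsReg (locG305 v γ) := H555.isReg_map555 _ hEll.1
  have hnorm : T6.twNorm sw D.l (locG305 w δ)
      = Matrix.GeneralLinearGroup.map i (locG305 v γ) := by
    rw [← H555.locG_normUpTo555 D.s w sw hsw', hN]
    exact H555.locG_base555 v w i hi γ
  have hreg : T6.IsReg (T6.twNorm sw D.l (locG305 w δ)) := by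
    rw [hnorm]
    exact H555.isReg_map555 _ hregγ
  -- the twisted centraliser
  have hcent := hTwCent (v.adicCompletion K) (w.adicCompletion K') D.l i sw hext.cyc
    (locG305 w δ) (locG305 v γ) hregγ hnorm
  have hiInd : Topology.IsInducing i := isInducing_of_val267 i e hext.e_pos hext.val_i
  obtain ⟨htor, hlink⟩ := centMeasure267 i sw (locG305 v γ) (locG305 w δ) hcent hiInd e
    hext.e_pos hext.val_i (L.μt v) (hL.tor v)
  -- the Haar measure and the cut-off
  obtain ⟨μ', hμ'⟩ := (hmeas (w.adicCompletion K') (Ideal.absNorm w.asIdeal) hloc').1 (n w)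
  obtain ⟨β', hβ'⟩ := hcut (w.adicCompletion K') (Ideal.absNorm w.asIdeal) hloc' D.l sw
    hext.val_s hext.cyc.pos hext.cyc.order (locG305 w δ) hreg _ htor.1
  -- the local form of `σ_𝔸`
  obtain ⟨sw₁, hsw₁, hval₁, hsig₁⟩ := (hσ D.s).1 w w (placeRel_self267 D hD v w hvw huniq)
  have hsweq : (sw₁ : w.adicCompletion K' →+* w.adicCompletion K')
      = (sw : w.adicCompletion K' →+* w.adicCompletion K') := by
    apply ringHom_eq_of_rat267
    · exact continuous_of_val267 _ 1 Nat.one_pos (fun x => by simpa using hval₁ x)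
    · exact continuous_of_val267 _ 1 Nat.one_pos (fun x => by simpa using hext.val_s x)
    · intro y
      show sw₁ _ = sw _
      rw [hsw₁, hsw']
  -- the local form of `ι`
  obtain ⟨e₁, i₁, he₁, hi₁, hval_i₁, hiot₁⟩ := hι.fin v w hvw
  have hieq : i₁ = i := by
    apply ringHom_eq_of_rat267
    · exact continuous_of_val267 _ e₁ he₁ hval_i₁
    · exact hiInd.continuous
    · intro x
      rw [hi₁, hi]
  refine ⟨⟨w, e, i, sw, μ',
    @Measure.map _ _ (borel _) (borel _)
      (centEquiv267 i sw (locG305 v γ) (locG305 w δ) hcent) (L.μt v), β'⟩, rfl, ?_⟩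
  exact
    { ovr := hvw
      uniq := huniq
      rat_i := hi
      rat_s := hsw'
      ext := hext
      haar := hμ'
      tor := htor
      cut := hβ'
      sig := fun a => by
        rw [hsig₁]
        exact congrArg (fun f : w.adicCompletion K' →+* w.adicCompletion K' =>
          f (T5.finHom w a)) hsweq
      iot := fun x => by
        rw [hiot₁, hieq]
      link := fun A _ => hlink A }

end Main

/-! ## Appendix: the equation lemmas of the definitions of this file are realised HERE -/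

theorem eqns_realised_upInert267 : True := by
  have _a1 := @sAlg267.eq_1
  have _a2 := @sAlg267.eq_def
  have _a3 := @sAlg267.eq_unfold
  have _b1 := @centHom267.eq_1
  have _b2 := @centHom267.eq_def
  have _b3 := @centHom267.eq_unfold
  have _c1 := @centEquiv267.eq_1
  have _c2 := @centEquiv267.eq_def
  have _c3 := @centEquiv267.eq_unfold
  trivial

end Fermat.Agent.LT.T7.UD341.H267

end

end
-- ===== PACK-END LT/T7/H267/UpInert.lean

-- ===== PACK-BEGIN LT/T7/H439/OpUpLeaves2.lean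
section



/-!
# Row LT, tower T7, leaf T7.L2.1.F3 `OpUpC`, cut of helper281: sub-leaves B, I, D and the leaf
# (helper439, OFF-MAIN, spare)

VERBATIM vs `T7/H281/OpUpSpec.lean` (helper281@a99fa3f20, sha256 2dcc737e), unconditional.

* B `translEigC439 : TranslEigC281 K`: `IsPre439` is stable under the right translation by a GOOD
  element `t` (`isPre_translate_good439`): `t` is trivial at infinity, hence commutes with the
  elements which are trivial at the finite places; at `v ∤ 𝔫₀` the conjugate `t⁻¹ H t` of a Hecke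
  coset system is a Hecke coset system (`isHeckeCosetSystem_conj439`); scalars are central.
* I `indepC439 : IndepC281 K`: `iwOp_indep340`; two systems of `U g U / U` are in bijection
  modulo `U` (`dblSum_indep439`; the level group is a group: `inLevelGroup_mul439`).
* D `dblInvC439 : DblInvC281 K`: `u' Hg` is again a system (`isDblCosetSystem_translate439`);
  `h a = a ((u₁ u₂)⁻¹ h (u₁ u₂))` for `a = u₁ g u₂` and `h` supported on the orbit.
* `opUpC439 : H893.OpUpC K K'` (the top `opUpC_of281` of helper281).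
-/

set_option autoImplicit false
set_option linter.unusedSectionVars false

open AutomorphicForm IsDedekindDomain NumberField MeasureTheory
open scoped ComplexConjugate
open Fermat.Agent.LT.H556 Fermat.Agent.LT.H556.A0 Fermat.Agent.LT.H129

noncomputable section

namespace Fermat.Agent.LT.T7.H439

open Fermat.Agent.LT Fermat.Agent.LT.T7 Fermat.Agent.LT.T7.H893 Fermat.Agent.LT.T7.H340
open Fermat.Agent.LT.T7.H281

attribute [local instance] Fermat.Agent.LT.T5.instMeasurableSpaceG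

variable {K : Type} [Field K] [NumberField K]

/-! ## Integrality -/

theorem isIntegralAt_mul439 {v : HeightOneSpectrum (𝓞 K)} {a b : G K}
    (ha : IsIntegralAt v a) (hb : IsIntegralAt v b) : IsIntegralAt v (a * b) := by
  show IsInt129 (v.adicCompletionIntegers K) (finCompHom129 v (a * b))
  rw [map_mul]
  exact isInt129_mul ha hb

theorem isIntegralAt_of_trivAtFin439 {v : HeightOneSpectrum (𝓞 K)} {a : G K}
    (ha : TrivAtFin v a) : IsIntegralAt v a := by
  intro i j
  have e : finComp v a = 1 := ha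
  rw [e]
  exact one_integral439 v i j

theorem trivAtFin_inv439 {v : HeightOneSpectrum (𝓞 K)} {a : G K} (ha : TrivAtFin v a) :
    TrivAtFin v a⁻¹ := by
  rw [trivAtFin_iff129] at *
  rw [map_inv, ha, inv_one]

theorem trivAtFin_mul439 {v : HeightOneSpectrum (𝓞 K)} {a b : G K} (ha : TrivAtFin v a)
    (hb : TrivAtFin v b) : TrivAtFin v (a * b) := by
  rw [trivAtFin_iff129] at *
  rw [map_mul, ha, hb, mul_one]

theorem trivAtInf_inv439 {w : InfinitePlace K} {a : G K} (ha : TrivAtInf w a) :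
    TrivAtInf w a⁻¹ := by
  rw [trivAtInf_iff129] at *
  rw [map_inv, ha, inv_one]

theorem trivAtInf_mul439 {w : InfinitePlace K} {a b : G K} (ha : TrivAtInf w a)
    (hb : TrivAtInf w b) : TrivAtInf w (a * b) := by
  rw [trivAtInf_iff129] at *
  rw [map_mul, ha, hb, mul_one]

/-! ## The level group is a group -/

theorem inLevelGroup_inv439 {𝔫 : Ideal (𝓞 K)} {u : G K} (hu : InLevelGroup 𝔫 u) :
    InLevelGroup 𝔫 u⁻¹ := by
  refine ⟨fun w => trivAtInf_inv439 (hu.1 w), fun v i j => ⟨(hu.2 v i j).2, ?_⟩⟩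
  rw [inv_inv]
  exact (hu.2 v i j).1

theorem ic_integral439 (𝔫 : Ideal (𝓞 K)) (v : HeightOneSpectrum (𝓞 K))
    {x : v.adicCompletion K} (hx : x ∈ idealClosure 𝔫 v) : Valued.v x ≤ 1 :=
  ic_val_le439 𝔫 v (fun m _ => v.intValuation_le_one m) hx

theorem ic_mul_core439 (𝔫 : Ideal (𝓞 K)) (v : HeightOneSpectrum (𝓞 K))
    {A B : Matrix (Fin 2) (Fin 2) (v.adicCompletion K)}
    (hA : ∀ i j, (A - 1) i j ∈ idealClosure 𝔫 v) (hB : ∀ i j, (B - 1) i j ∈ idealClosure 𝔫 v)
    (i j : Fin 2) : (A * B - 1) i j ∈ idealClosure 𝔫 v := by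
  have e : A * B - 1 = (A - 1) * (B - 1) + (A - 1) + (B - 1) := by
    rw [sub_mul, mul_sub, mul_sub, Matrix.mul_one, Matrix.one_mul, Matrix.one_mul]
    abel
  rw [e, Matrix.add_apply, Matrix.add_apply, Matrix.mul_apply, Fin.sum_univ_two]
  have h1 : ∀ k : Fin 2, (A - 1) i k * (B - 1) k j ∈ idealClosure 𝔫 v := fun k =>
    ic_mul_int439 𝔫 v (ic_integral439 𝔫 v (hA i k)) (hB k j)
  exact ic_add439 𝔫 v (ic_add439 𝔫 v (ic_add439 𝔫 v (h1 0) (h1 1)) (hA i j)) (hB i j)

theorem inLevelGroup_mul439 {𝔫 : Ideal (𝓞 K)} {u u' : G K} (hu : InLevelGroup 𝔫 u)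
    (hu' : InLevelGroup 𝔫 u') : InLevelGroup 𝔫 (u * u') := by
  refine ⟨fun w => trivAtInf_mul439 (hu.1 w) (hu'.1 w), fun v i j => ⟨?_, ?_⟩⟩
  · have e : finComp v (u * u') = finComp v u * finComp v u' := by
      rw [← coe_finCompHom129, map_mul]; rfl
    rw [e]
    exact ic_mul_core439 𝔫 v (fun i j => (hu.2 v i j).1) (fun i j => (hu'.2 v i j).1) i j
  · have e : finComp v (u * u')⁻¹ = finComp v u'⁻¹ * finComp v u⁻¹ := by
      rw [← coe_finCompHom129, mul_inv_rev, map_mul]; rfl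
    rw [e]
    exact ic_mul_core439 𝔫 v (fun i j => (hu'.2 v i j).2) (fun i j => (hu.2 v i j).2) i j

theorem inLevelGroup_one439 (𝔫 : Ideal (𝓞 K)) : InLevelGroup 𝔫 (1 : G K) := by
  refine ⟨fun w => (trivAtInf_iff129 w 1).2 (map_one _), fun v i j => ?_⟩
  have e1 : finComp v (1 : G K) = 1 := (trivAtFin_iff129 v 1).2 (map_one _)
  have e2 : finComp v (1 : G K)⁻¹ = 1 := by rw [inv_one]; exact e1
  rw [e1, e2, sub_self]
  exact ⟨zero_mem_ic439 𝔫 v, zero_mem_ic439 𝔫 v⟩

/-- The level group is integral at every finite place. -/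
theorem isIntegralAt_of_level439 {𝔫 : Ideal (𝓞 K)} {u : G K} (hu : InLevelGroup 𝔫 u)
    (v : HeightOneSpectrum (𝓞 K)) : IsIntegralAt v u := by
  intro i j
  have e : finComp v u i j
      = (finComp v u - 1) i j + (1 : Matrix (Fin 2) (Fin 2) (v.adicCompletion K)) i j := by
    rw [Matrix.sub_apply, sub_add_cancel]
  rw [e]
  refine (v.adicCompletionIntegers K).add_mem _ _ ?_ (one_integral439 v i j)
  rw [HeightOneSpectrum.mem_adicCompletionIntegers]
  exact ic_integral439 𝔫 v (hu.2 v i j).1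

/-! ## Commutation -/

/-- An element which is trivial at infinity commutes with an element which is trivial at the
finite places. -/
theorem mul_comm_inf_fin439 {t k : G K} (ht : ∀ w : InfinitePlace K, TrivAtInf w t)
    (hk : ∀ v : HeightOneSpectrum (𝓞 K), TrivAtFin v k) (x : G K) : x * k * t = x * t * k := by
  have h : k * t = t * k := by
    apply G_ext129
    · intro w
      rw [map_mul, map_mul, (trivAtInf_iff129 w t).1 (ht w), one_mul, mul_one]
    · intro v
      rw [map_mul, map_mul, (trivAtFin_iff129 v k).1 (hk v), one_mul, mul_one]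
  rw [mul_assoc, h, ← mul_assoc]

/-- Two elements with disjoint supports commute. -/
theorem commute_of_disjoint439 {a g : G K} (P : HeightOneSpectrum (𝓞 K) → Prop)
    (hainf : ∀ w : InfinitePlace K, infCompHom129 w a = 1)
    (hafin : ∀ v : HeightOneSpectrum (𝓞 K), ¬ P v → finCompHom129 v a = 1)
    (hg : ∀ v : HeightOneSpectrum (𝓞 K), P v → finCompHom129 v g = 1) : a * g = g * a := by
  apply G_ext129
  · intro w
    rw [map_mul, map_mul, hainf w, one_mul, mul_one]
  · intro v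
    by_cases hv : P v
    · rw [map_mul, map_mul, hg v hv, one_mul, mul_one]
    · rw [map_mul, map_mul, hafin v hv, one_mul, mul_one]

/-! ## Conjugation of a Hecke coset system -/

theorem isHeckeCosetSystem_conj439 [DecidableEq (G K)] {v : HeightOneSpectrum (𝓞 K)}
    {H : Finset (G K)} (hH : IsHeckeCosetSystem v H) {t : G K} (ht : IsIntegralAt v t)
    (ht' : IsIntegralAt v t⁻¹) : IsHeckeCosetSystem v (H.image fun h => t⁻¹ * h * t) := by
  obtain ⟨hcard, hmem, hne⟩ := hH
  have hinj : Function.Injective fun h : G K => t⁻¹ * h * t := by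
    intro a b hab
    exact mul_left_cancel (mul_right_cancel hab)
  refine ⟨?_, ?_, ?_⟩
  · rw [Finset.card_image_of_injective _ hinj, hcard]
  · intro h hh
    obtain ⟨a, ha, rfl⟩ := Finset.mem_image.mp hh
    obtain ⟨hloc, hint, hdet⟩ := hmem a ha
    refine ⟨?_, isIntegralAt_mul439 (isIntegralAt_mul439 ht' hint) ht, ?_⟩
    · rw [isLocalAtFin_iff129] at hloc ⊢
      exact ⟨fun w => by rw [map_mul, map_mul, map_inv, hloc.1 w, mul_one, inv_mul_cancel],
        fun v' hv' => by rw [map_mul, map_mul, map_inv, hloc.2 v' hv', mul_one, inv_mul_cancel]⟩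
    · have e : finComp v (t⁻¹ * a * t)
          = ((finCompHom129 v t)⁻¹ : GL (Fin 2) (v.adicCompletion K)).1 * finComp v a
            * (finCompHom129 v t).1 := by
        rw [← coe_finCompHom129, map_mul, map_mul, map_inv]; rfl
      rw [e]
      have := Matrix.det_units_conj' (finCompHom129 v t) (finComp v a)
      rw [this]
      exact hdet
  · intro h hh h' hh' hhh
    obtain ⟨a, ha, rfl⟩ := Finset.mem_image.mp hh
    obtain ⟨b, hb, rfl⟩ := Finset.mem_image.mp hh'
    have hab : a ≠ b := fun e => hhh (by rw [e])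
    intro hint
    apply hne a ha b hb hab
    have e : a⁻¹ * b = t * ((t⁻¹ * a * t)⁻¹ * (t⁻¹ * b * t)) * t⁻¹ := by group
    rw [e]
    exact isIntegralAt_mul439 (isIntegralAt_mul439 ht hint) ht'

/-! ## B -/

theorem isPre_translate_good439 {𝔫₀ : Ideal (𝓞 K)} {r : G K} {c : EigData K} {ψ : G K → ℂ}
    (h : IsPre439 𝔫₀ r c ψ) (hr : T5.IsRayGen r) {t : G K} (ht : IsGoodTransl281 𝔫₀ t) :
    IsPre439 𝔫₀ r c (fun x => ψ (x * t)) where
  cont := h.cont.comp (continuous_id.mul continuous_const)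
  bdd := by
    obtain ⟨C, hC⟩ := h.bdd
    exact ⟨C, fun g => hC _⟩
  left_inv := fun γ g => by
    rw [mul_assoc]
    exact h.left_inv γ (g * t)
  arch_compact := fun w k hk g => by
    show ψ (g * k * t) = ψ (g * t)
    rw [mul_comm_inf_fin439 ht.1 hk.1.2]
    exact h.arch_compact w k hk (g * t)
  ray := fun g => by
    show ψ (g * r * t) = ψ (g * t)
    rw [mul_comm_inf_fin439 ht.1 hr.1]
    exact h.ray (g * t)
  cuspidal := T2.H886.isCuspidalFn_shift886 t h.cuspidal
  arch_scalar := fun w z hz g => by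
    show ψ (g * z * t) = ψ (g * t)
    rw [mul_comm_inf_fin439 ht.1 hz.1.2]
    exact h.arch_scalar w z hz (g * t)
  hecke := fun v hv => by
    classical
    refine ⟨fun H hH g => ?_, fun z hz g => ?_⟩
    · have hconj := isHeckeCosetSystem_conj439 hH (ht.2 v hv).1 (ht.2 v hv).2
      have e : ∀ x ∈ H, ψ (g * x * t) = ψ (g * t * (t⁻¹ * x * t)) := fun x _ => by
        congr 1
        group
      show ∑ x ∈ H, ψ (g * x * t) = _
      rw [Finset.sum_congr rfl e]
      have himg : ∑ x ∈ H, ψ (g * t * (t⁻¹ * x * t))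
          = ∑ y ∈ H.image (fun h => t⁻¹ * h * t), ψ (g * t * y) := by
        rw [Finset.sum_image (fun a _ b _ hab => mul_left_cancel (mul_right_cancel hab))]
      rw [himg]
      exact (h.hecke v hv).1 _ hconj (g * t)
    · show ψ (g * z * t) = _
      have e : g * z * t = g * t * z := by
        rw [mul_assoc, central_scalar439 hz t, ← mul_assoc]
      rw [e]
      exact (h.hecke v hv).2 z hz (g * t)
  mean := fun w => by
    intro d hd Y hY g
    have e : ∀ α β : ℝ, ψ (g * Y α β * t) = ψ (g * t * Y α β) := fun α β => by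
      rw [mul_comm_inf_fin439 ht.1 (hY α β).1.2]
    simp only [e]
    exact h.mean w d hd Y hY (g * t)

/-- **SUB-LEAF B = TRANSL-EIG**, verbatim. -/
theorem translEigC439 (K : Type) [Field K] [NumberField K] : TranslEigC281 K := by
  intro 𝔫₀ r l o hr T c hT ψ C hψ hR hI
  have e : translOp281 T c ψ = c • ∑ t ∈ T, fun x => ψ (x * t) := by
    funext x
    simp only [translOp281, Pi.smul_apply, Finset.sum_apply, smul_eq_mul]
  have hpre : IsPre439 𝔫₀ r C (translOp281 T c ψ) := by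
    rw [e]
    exact isPre_smul439 c (isPre_sum439 T _ fun t ht =>
      isPre_translate_good439 (isPre_of_eig439 hψ) hr (hT t ht))
  exact isEig_of_pre439 hpre hR hI

/-! ## I -/

/-- The sum over a system of `U g U / U` does not depend on the system. -/
theorem dblSum_indep439 {𝔫₀ : Ideal (𝓞 K)} {g : G K} {Hg Hg' : Finset (G K)}
    (hH : IsDblCosetSystem 𝔫₀ g Hg) (hH' : IsDblCosetSystem 𝔫₀ g Hg') {χ : G K → ℂ}
    (hχ : ∀ u : G K, InLevelGroup 𝔫₀ u → ∀ x : G K, χ (x * u) = χ x) (x : G K) :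
    ∑ a ∈ Hg, χ (x * a) = ∑ a ∈ Hg', χ (x * a) := by
  classical
  have key : ∀ {A B : Finset (G K)}, IsDblCosetSystem 𝔫₀ g A → IsDblCosetSystem 𝔫₀ g B →
      ∀ a ∈ A, ∃ b ∈ B, InLevelGroup 𝔫₀ (b⁻¹ * a) ∧
        ∀ b' ∈ B, InLevelGroup 𝔫₀ (b'⁻¹ * a) → b' = b := by
    intro A B hA hB a ha
    obtain ⟨u₁, u₂, hu₁, hu₂, rfl⟩ := hA.1 a ha
    obtain ⟨b, hb, hbu⟩ := hB.2.2 u₁ hu₁
    have h1 : InLevelGroup 𝔫₀ (b⁻¹ * (u₁ * g * u₂)) := by
      have e : b⁻¹ * (u₁ * g * u₂) = b⁻¹ * (u₁ * g) * u₂ := by group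
      rw [e]
      exact inLevelGroup_mul439 hbu hu₂
    refine ⟨b, hb, h1, fun b' hb' h2 => ?_⟩
    by_contra hne
    apply hB.2.1 b' hb' b hb hne
    have e : b'⁻¹ * b = (b'⁻¹ * (u₁ * g * u₂)) * (b⁻¹ * (u₁ * g * u₂))⁻¹ := by group
    rw [e]
    exact inLevelGroup_mul439 h2 (inLevelGroup_inv439 h1)
  choose! σ hσ using key hH hH'
  choose! τ hτ using key hH' hH
  have hinv : ∀ {a b : G K}, InLevelGroup 𝔫₀ (b⁻¹ * a) → InLevelGroup 𝔫₀ (a⁻¹ * b) := by
    intro a b h
    have e : a⁻¹ * b = (b⁻¹ * a)⁻¹ := by group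
    rw [e]
    exact inLevelGroup_inv439 h
  refine Finset.sum_nbij' σ τ (fun a ha => (hσ a ha).1) (fun a ha => (hτ a ha).1) ?_ ?_ ?_
  · intro a ha
    exact ((hτ (σ a) (hσ a ha).1).2.2 a ha (hinv (hσ a ha).2.1)).symm
  · intro a ha
    exact ((hσ (τ a) (hτ a ha).1).2.2 a ha (hinv (hτ a ha).2.1)).symm
  · intro a ha
    have := hχ _ (hσ a ha).2.1 (x * σ a)
    rw [← this]
    congr 1
    group

/-- **SUB-LEAF I = INDEP**, verbatim. -/
theorem indepC439 (K : Type) [Field K] [NumberField K] : IndepC281 K := by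
  intro 𝔫₀ l o hl
  refine ⟨fun H H' hH hH' ψ hI x => ?_, fun g Hg Hg' hHg hHg' χ hχ x => ?_⟩
  · exact congrFun (iwOp_indep340 hH hH' ψ
      (fun u hu huI g => isIwInv_local340 hI hl u hu huI g)) x
  · exact dblSum_indep439 hHg hHg' hχ x

/-! ## D -/

/-- The left translate of a system of `U g U / U` by an element of `U` is a system. -/
theorem isDblCosetSystem_translate439 [DecidableEq (G K)] {𝔫₀ : Ideal (𝓞 K)} {g : G K}
    {Hg : Finset (G K)} (hH : IsDblCosetSystem 𝔫₀ g Hg) {u : G K} (hu : InLevelGroup 𝔫₀ u) :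
    IsDblCosetSystem 𝔫₀ g (Hg.image fun a => u * a) := by
  refine ⟨?_, ?_, ?_⟩
  · intro h hh
    obtain ⟨a, ha, rfl⟩ := Finset.mem_image.mp hh
    obtain ⟨u₁, u₂, hu₁, hu₂, rfl⟩ := hH.1 a ha
    exact ⟨u * u₁, u₂, inLevelGroup_mul439 hu hu₁, hu₂, by group⟩
  · intro h hh h' hh' hne
    obtain ⟨a, ha, rfl⟩ := Finset.mem_image.mp hh
    obtain ⟨b, hb, rfl⟩ := Finset.mem_image.mp hh'
    have e : (u * a)⁻¹ * (u * b) = a⁻¹ * b := by group
    rw [e]
    exact hH.2.1 a ha b hb (fun e' => hne (by rw [e']))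
  · intro u' hu'
    obtain ⟨a, ha, hau⟩ := hH.2.2 (u⁻¹ * u') (inLevelGroup_mul439 (inLevelGroup_inv439 hu) hu')
    refine ⟨u * a, Finset.mem_image_of_mem _ ha, ?_⟩
    have e : (u * a)⁻¹ * (u' * g) = a⁻¹ * (u⁻¹ * u' * g) := by group
    rw [e]
    exact hau

/-- **SUB-LEAF D = DBL-INV**, verbatim. -/
theorem dblInvC439 (K : Type) [Field K] [NumberField K] : DblInvC281 K := by
  classical
  intro 𝔫₀ l o ho g hg1 hg2 Hg hHg
  refine ⟨fun a ha => ?_, fun χ hR hI => ⟨fun u hu x => ?_, fun h h1 h2 h3 x => ?_⟩⟩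
  · -- the elements of the system are good
    obtain ⟨u₁, u₂, hu₁, hu₂, rfl⟩ := hHg.1 a ha
    refine ⟨fun w => trivAtInf_mul439 (trivAtInf_mul439 (hu₁.1 w) (hg1 w)) (hu₂.1 w),
      fun v hv => ⟨?_, ?_⟩⟩
    · exact isIntegralAt_mul439 (isIntegralAt_mul439 (isIntegralAt_of_level439 hu₁ v)
        (isIntegralAt_of_trivAtFin439 (hg2 v (Or.inl hv)))) (isIntegralAt_of_level439 hu₂ v)
    · have e : (u₁ * g * u₂)⁻¹ = u₂⁻¹ * g⁻¹ * u₁⁻¹ := by group
      rw [e]
      exact isIntegralAt_mul439 (isIntegralAt_mul439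
        (isIntegralAt_of_level439 (inLevelGroup_inv439 hu₂) v)
        (isIntegralAt_of_trivAtFin439 (trivAtFin_inv439 (hg2 v (Or.inl hv)))))
        (isIntegralAt_of_level439 (inLevelGroup_inv439 hu₁) v)
  · -- right invariance under the level group
    show ∑ a ∈ Hg, χ (x * u * a) = ∑ a ∈ Hg, χ (x * a)
    have himg : ∑ a ∈ Hg, χ (x * u * a) = ∑ b ∈ Hg.image (fun a => u * a), χ (x * b) := by
      rw [Finset.sum_image (fun a _ b _ hab => mul_left_cancel hab)]
      exact Finset.sum_congr rfl fun a _ => by rw [mul_assoc]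
    rw [himg]
    exact dblSum_indep439 (isDblCosetSystem_translate439 hHg hu) hHg hR x
  · -- Iwahori invariance
    show ∑ a ∈ Hg, χ (x * h * a) = ∑ a ∈ Hg, χ (x * a)
    refine Finset.sum_congr rfl fun a ha => ?_
    obtain ⟨u₁, u₂, hu₁, hu₂, rfl⟩ := hHg.1 a ha
    -- `h' = u₁⁻¹ h u₁` is supported on the orbit, hence commutes with `g`
    have hh'inf : ∀ w : InfinitePlace K, infCompHom129 w (u₁⁻¹ * h * u₁) = 1 := fun w => by
      rw [map_mul, map_mul, map_inv, (trivAtInf_iff129 w h).1 (h1 w), mul_one, inv_mul_cancel]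
    have hh'fin : ∀ v : HeightOneSpectrum (𝓞 K), (∀ j < l, v ≠ o j) →
        finCompHom129 v (u₁⁻¹ * h * u₁) = 1 := fun v hv => by
      rw [map_mul, map_mul, map_inv, (trivAtFin_iff129 v h).1 (h2 v hv), mul_one,
        inv_mul_cancel]
    have hh'g : (u₁⁻¹ * h * u₁) * g = g * (u₁⁻¹ * h * u₁) :=
      commute_of_disjoint439 (fun v => ∃ j < l, v = o j) hh'inf
        (fun v hv => hh'fin v fun j hj e => hv ⟨j, hj, e⟩)
        (fun v hv => (trivAtFin_iff129 v g).1 (hg2 v (Or.inr hv)))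
    have hU : InLevelGroup 𝔫₀ (u₁ * u₂) := inLevelGroup_mul439 hu₁ hu₂
    have e : x * h * (u₁ * g * u₂) = x * (u₁ * g * u₂) * ((u₁ * u₂)⁻¹ * h * (u₁ * u₂)) := by
      have e1 : h * u₁ = u₁ * (u₁⁻¹ * h * u₁) := by group
      calc x * h * (u₁ * g * u₂) = x * (h * u₁) * g * u₂ := by group
        _ = x * (u₁ * (u₁⁻¹ * h * u₁)) * g * u₂ := by rw [e1]
        _ = x * u₁ * ((u₁⁻¹ * h * u₁) * g) * u₂ := by group
        _ = x * u₁ * (g * (u₁⁻¹ * h * u₁)) * u₂ := by rw [hh'g]
        _ = x * (u₁ * g * u₂) * ((u₁ * u₂)⁻¹ * h * (u₁ * u₂)) := by group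
    rw [e]
    refine hI _ (fun w => ?_) (fun v hv => ?_) (fun j hj => ?_) _
    · exact trivAtInf_mul439 (trivAtInf_mul439 (trivAtInf_inv439 (hU.1 w)) (h1 w)) (hU.1 w)
    · rw [trivAtFin_iff129, map_mul, map_mul, map_inv, (trivAtFin_iff129 v h).1 (h2 v hv),
        mul_one, inv_mul_cancel]
    · have hUI : T5.InIwahori (o j) (u₁ * u₂) := inIwahori_of_level439 (ho j hj) hU
      exact inIwahori_mul340 (inIwahori_mul340 (inIwahori_inv340 hUI) (h3 j hj)) hUI

/-! ## The leaf `OpUpC` -/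

/-- **LEAF T7.L2.1.F3 = OP-UP**, verbatim (the top of helper281 on the six sub-leaves). -/
theorem opUpC439 (K K' : Type) [Field K] [NumberField K] [Field K'] [NumberField K']
    [Algebra K K'] : OpUpC K K' :=
  opUpC_of281 (rconvOpsC439 K') (translEigC439 K') (iwInvC439 K') (dblInvC439 K')
    (shiftInvC439 K') (indepC439 K')

end Fermat.Agent.LT.T7.H439

end

end
-- ===== PACK-END LT/T7/H439/OpUpLeaves2.lean

-- ===== PACK-BEGIN LT/T7/H49/OpsEig.lean
section



/-!
# Row LT, tower T7, leaf T7.L2.2.B4.2 `H561.OpsEigC561` (helper49, OFF-MAIN)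

    opsEigC49 (K K') : H561.OpsEigC561 K K'        VERBATIM, UNCONDITIONAL

`S_j = cosetOp (Hs j)` and `ρ_j = trOp561 (ω j)` preserve the classes `IsEigFn 𝔑₀ r ℓ o · C`.

* general stability: `translEigC281` of helper281 (`T7/H281/TranslEig.lean`): a finite sum of
  right translations by good elements preserves `IsEigFn` PROVIDED the image is right invariant
  under `U(𝔑₀)` and Iwahori invariant along the orbit;
* the two invariances (`cosetOp_inv49`, `trOp_inv49`): `u = u^w u_w` (`awayPart49`), the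
  component `u_w` lies in the Iwahori subgroup at `w = o j` (`w ∣ 𝔑₀`: `iwL_of_inLevelGroup49`),
  `u_w h = h' i` with `h ↦ h'` a permutation of the explicit system (`iwL_sL_inv_iw_sL49`,
  `IsSSys49.complete`), `ω` normalises the Iwahori subgroup (`iwL_om_conj'49`), and `u^w i`
  is again in the invariance group of `ψ`.
-/

set_option autoImplicit false
set_option linter.unusedSectionVars false
set_option linter.unusedSimpArgs false
set_option linter.unusedVariables false

open Matrix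
open AutomorphicForm IsDedekindDomain NumberField IsDedekindDomain.HeightOneSpectrum
open Fermat.Agent.LT.H556 Fermat.Agent.LT.H556.A0 Fermat.Agent.LT.H129
open Fermat.Agent.LT.T7 Fermat.Agent.LT.T7.H83

noncomputable section

namespace Fermat.Agent.LT.T7.H49

section Local

variable {F : Type*} [Field F] {val : Valuation F (WithZero (Multiplicative ℤ))}

/-- `(n(a') s)⁻¹ X n(a) s` for a general `X`. -/
theorem coe_sL_inv_mul_mul49 (X : GL (Fin 2) F) (a a' : F) :
    (((sL49 a')⁻¹ * (X * sL49 a) : GL (Fin 2) F) : Matrix (Fin 2) (Fin 2) F)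
      = !![(X : Matrix (Fin 2) (Fin 2) F) 1 0 * a + (X : Matrix (Fin 2) (Fin 2) F) 1 1,
            (X : Matrix (Fin 2) (Fin 2) F) 1 0;
           ((X : Matrix (Fin 2) (Fin 2) F) 0 0 * a + (X : Matrix (Fin 2) (Fin 2) F) 0 1)
             - a' * ((X : Matrix (Fin 2) (Fin 2) F) 1 0 * a
               + (X : Matrix (Fin 2) (Fin 2) F) 1 1),
            (X : Matrix (Fin 2) (Fin 2) F) 0 0 - a' * (X : Matrix (Fin 2) (Fin 2) F) 1 0] := by
  rw [sL_inv49, Matrix.GeneralLinearGroup.coe_mul, Matrix.GeneralLinearGroup.coe_mul,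
    Matrix.GeneralLinearGroup.coe_mul, coe_mkGL129, coe_sL49, coe_sL49, eta129 X]
  ext i j
  fin_cases i <;> fin_cases j <;> simp [Matrix.mul_apply, Fin.sum_univ_two] <;> ring

/-- **The Iwahori subgroup permutes the classes `n(a) s I`.** -/
theorem iwL_sL_inv_iw_sL49 {X : GL (Fin 2) F} (hX : IwL val X) {a a' : F} (ha : val a ≤ 1)
    (ha' : val a' ≤ 1)
    (h : val (((X : Matrix (Fin 2) (Fin 2) F) 0 0 * a + (X : Matrix (Fin 2) (Fin 2) F) 0 1)
      - a' * ((X : Matrix (Fin 2) (Fin 2) F) 1 0 * a + (X : Matrix (Fin 2) (Fin 2) F) 1 1)) < 1) :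
    IwL val ((sL49 a')⁻¹ * (X * sL49 a)) := by
  obtain ⟨hint, hdet, hlow⟩ := hX
  refine ⟨fun i j => ?_, ?_, ?_⟩
  · rw [coe_sL_inv_mul_mul49]
    fin_cases i <;> fin_cases j
    · exact val_add_le_one83 (val_mul_le_one83 (hint 1 0) ha) (hint 1 1)
    · exact hint 1 0
    · exact h.le
    · exact val_sub_le_one83 (hint 0 0) (val_mul_le_one83 ha' (hint 1 0))
  · rw [coe_sL_inv_mul_mul49, Matrix.det_fin_two_of]
    rw [Matrix.det_fin_two] at hdet
    have e : ((X : Matrix (Fin 2) (Fin 2) F) 1 0 * a + (X : Matrix (Fin 2) (Fin 2) F) 1 1)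
          * ((X : Matrix (Fin 2) (Fin 2) F) 0 0 - a' * (X : Matrix (Fin 2) (Fin 2) F) 1 0)
        - (X : Matrix (Fin 2) (Fin 2) F) 1 0
          * (((X : Matrix (Fin 2) (Fin 2) F) 0 0 * a + (X : Matrix (Fin 2) (Fin 2) F) 0 1)
            - a' * ((X : Matrix (Fin 2) (Fin 2) F) 1 0 * a
              + (X : Matrix (Fin 2) (Fin 2) F) 1 1))
        = (X : Matrix (Fin 2) (Fin 2) F) 0 0 * (X : Matrix (Fin 2) (Fin 2) F) 1 1
          - (X : Matrix (Fin 2) (Fin 2) F) 0 1 * (X : Matrix (Fin 2) (Fin 2) F) 1 0 := by ring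
    rw [e]
    exact hdet
  · rw [coe_sL_inv_mul_mul49]
    exact h

/-- The lower left entry of `X n(a) s` is a unit. -/
theorem val_low_eq_one49 {X : GL (Fin 2) F} (hX : IwL val X) {a : F} (ha : val a ≤ 1) :
    val ((X : Matrix (Fin 2) (Fin 2) F) 1 0 * a + (X : Matrix (Fin 2) (Fin 2) F) 1 1) = 1 :=
  val_add_eq_one83 (val_mul_lt_one_left83 hX.2.2 ha) hX.diag83.2

end Local

section Adelic

variable {K : Type} [Field K] [NumberField K] (w : HeightOneSpectrum (𝓞 K))

/-- The part of `u` away from `w`. -/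
def awayPart49 (u : G K) : G K := u * (locFin129 w (finCompHom129 w u))⁻¹

theorem awayPart_mul49 (u : G K) : awayPart49 w u * locFin129 w (finCompHom129 w u) = u := by
  unfold awayPart49
  group

theorem finCompHom_awayPart_self49 (u : G K) : finCompHom129 w (awayPart49 w u) = 1 := by
  unfold awayPart49
  rw [map_mul, map_inv, finCompHom129_locFin129, mul_inv_cancel]

theorem finCompHom_awayPart_of_ne49 (u : G K) {v : HeightOneSpectrum (𝓞 K)} (h : v ≠ w) :
    finCompHom129 v (awayPart49 w u) = finCompHom129 v u := by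
  unfold awayPart49
  rw [map_mul, map_inv, finCompHom129_locFin129_of_ne w _ h, inv_one, mul_one]

theorem infCompHom_awayPart49 (u : G K) (w' : InfinitePlace K) :
    infCompHom129 w' (awayPart49 w u) = infCompHom129 w' u := by
  unfold awayPart49
  rw [map_mul, map_inv, infCompHom129_locFin129, inv_one, mul_one]

theorem trivAtFin_awayPart49 (u : G K) : TrivAtFin w (awayPart49 w u) :=
  (trivAtFin_iff129 w _).2 (finCompHom_awayPart_self49 w u)

variable {w}

/-- **The invariance of `S ψ`.**  `u` has its component at `w` in the Iwahori subgroup and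
`ψ` is invariant under `u^w i` for every `i` in the Iwahori subgroup at `w`. -/
theorem cosetOp_inv49 {Hs : Finset (G K)} (hH : IsSSys49 w Hs) {ψ : G K → ℂ} {u : G K}
    (hu : T5.InIwahori w u)
    (hψ : ∀ i : G K, IsLocalAtFin w i → T5.InIwahori w i →
      ∀ x : G K, ψ (x * (awayPart49 w u * i)) = ψ x) (x : G K) :
    cosetOp Hs ψ (x * u) = cosetOp Hs ψ x := by
  classical
  set X := finCompHom129 w u with hXdef
  have hX : IwL (Valued.v : Valuation (w.adicCompletion K) _) X := (inIwahori_iff83 w u).1 hu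
  -- the permutation
  have hex : ∀ h : G K, ∃ t : G K, h ∈ Hs →
      t ∈ Hs ∧ T5.InIwahori w (t⁻¹ * (locFin129 w X * h)) := by
    intro h
    by_cases hh : h ∈ Hs
    · have ha := hH.val_le hh
      have hq := val_low_eq_one49 hX ha
      set p := (X : Matrix (Fin 2) (Fin 2) (w.adicCompletion K)) 0 0 * ent49 w h
        + (X : Matrix (Fin 2) (Fin 2) (w.adicCompletion K)) 0 1 with hp
      set q := (X : Matrix (Fin 2) (Fin 2) (w.adicCompletion K)) 1 0 * ent49 w h
        + (X : Matrix (Fin 2) (Fin 2) (w.adicCompletion K)) 1 1 with hqd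
      have hq0 : q ≠ 0 := by
        intro e
        rw [e, map_zero] at hq
        exact zero_ne_one hq
      have hpv : Valued.v p ≤ 1 :=
        val_add_le_one83 (val_mul_le_one83 (hX.1 0 0) ha) (hX.1 0 1)
      have hpq : Valued.v (p / q) ≤ 1 := by
        rw [map_div₀, hq, div_one]
        exact hpv
      obtain ⟨t, ht, hvt⟩ := hH.complete hpq
      refine ⟨t, fun _ => ⟨ht, ?_⟩⟩
      rw [inIwahori_iff83, map_mul, map_inv, map_mul, finCompHom129_locFin129,
        hH.finCompHom_eq hh, hH.finCompHom_eq ht]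
      apply iwL_sL_inv_iw_sL49 hX ha (hH.val_le ht)
      have e : p - ent49 w t * q = (p / q - ent49 w t) * q := by
        field_simp
      rw [← hp, ← hqd, e, map_mul, hq, mul_one]
      exact hvt
    · exact ⟨h, fun h'' => absurd h'' hh⟩
  choose τ hτ using hex
  have hτinj : Set.InjOn τ (Hs : Set (G K)) := by
    intro h₁ hh₁ h₂ hh₂ e
    by_contra hne
    apply hH.inj h₁ hh₁ h₂ hh₂ hne
    have h1 := (hτ h₁ hh₁).2
    have h2 := (hτ h₂ hh₂).2
    rw [← e] at h2
    have h3 := inIwahori_mul83 w (inIwahori_inv83 w h1) h2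
    have e3 : ((τ h₁)⁻¹ * (locFin129 w X * h₁))⁻¹ * ((τ h₁)⁻¹ * (locFin129 w X * h₂))
        = h₁⁻¹ * h₂ := by group
    rwa [e3] at h3
  have himg : Hs.image τ = Hs := by
    apply Finset.eq_of_subset_of_card_le
    · intro t ht
      obtain ⟨h, hh, rfl⟩ := Finset.mem_image.1 ht
      exact (hτ h hh).1
    · rw [Finset.card_image_of_injOn hτinj]
  have hterm : ∀ h ∈ Hs, ψ (x * u * h) = ψ (x * τ h) := by
    intro h hh
    set i := (τ h)⁻¹ * (locFin129 w X * h) with hi
    have hil : IsLocalAtFin w i :=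
      isLocalAtFin_mul129 (isLocalAtFin_inv129 (hH.loc _ (hτ h hh).1))
        (isLocalAtFin_mul129 (isLocalAtFin_locFin129 w X) (hH.loc h hh))
    have hcomm : τ h * awayPart49 w u = awayPart49 w u * τ h :=
      mul_comm_of_local83 w (hH.loc _ (hτ h hh).1) (trivAtFin_awayPart49 w u)
    have e : x * u * h = x * τ h * (awayPart49 w u * i) := by
      have e1 : x * u * h = x * (awayPart49 w u * (locFin129 w X * h)) := by
        have e0 := awayPart_mul49 w u
        rw [← hXdef] at e0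
        rw [← mul_assoc (awayPart49 w u), e0, ← mul_assoc]
      have e2 : locFin129 w X * h = τ h * i := by
        rw [hi]
        group
      rw [e1, e2, ← mul_assoc (awayPart49 w u), ← hcomm]
      group
    rw [e]
    exact hψ i hil (hτ h hh).2 (x * τ h)
  unfold cosetOp
  rw [Finset.sum_congr rfl hterm]
  conv_rhs => rw [← himg]
  rw [Finset.sum_image hτinj]

/-- **The invariance of `ρ ψ`.** -/
theorem trOp_inv49 {g : G K} (hg : IsLocalAtFin w g) {c : w.adicCompletion K}
    (hc : Valued.v c = WithZero.exp (-1 : ℤ)) (hcomp : finComp w g = !![0, 1; c, 0])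
    {ψ : G K → ℂ} {u : G K} (hu : T5.InIwahori w u)
    (hψ : ∀ i : G K, IsLocalAtFin w i → T5.InIwahori w i →
      ∀ x : G K, ψ (x * (awayPart49 w u * i)) = ψ x) (x : G K) :
    ψ (x * u * g) = ψ (x * g) := by
  have hc0 : c ≠ 0 := unif_ne_zero129 w hc
  set X := finCompHom129 w u with hXdef
  have hX : IwL (Valued.v : Valuation (w.adicCompletion K) _) X := (inIwahori_iff83 w u).1 hu
  have eg := eq_locFin_om49 hg hc0 hcomp
  set i := g⁻¹ * (locFin129 w X * g) with hi
  have hil : IsLocalAtFin w i :=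
    isLocalAtFin_mul129 (isLocalAtFin_inv129 hg)
      (isLocalAtFin_mul129 (isLocalAtFin_locFin129 w X) hg)
  have hiI : T5.InIwahori w i := by
    rw [inIwahori_iff83, hi, eg, ← map_inv, ← map_mul, ← map_mul, finCompHom129_locFin129,
      ← mul_assoc]
    exact iwL_om_conj'49 hc hc0 hX
  have hcomm : g * awayPart49 w u = awayPart49 w u * g :=
    mul_comm_of_local83 w hg (trivAtFin_awayPart49 w u)
  have e : x * u * g = x * g * (awayPart49 w u * i) := by
    have e1 : x * u * g = x * (awayPart49 w u * (locFin129 w X * g)) := by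
      have e0 := awayPart_mul49 w u
      rw [← hXdef] at e0
      rw [← mul_assoc (awayPart49 w u), e0, ← mul_assoc]
    have e2 : locFin129 w X * g = g * i := by
      rw [hi]
      group
    rw [e1, e2, ← mul_assoc (awayPart49 w u), ← hcomm]
    group
  rw [e]
  exact hψ i hil hiI (x * g)

/-! ### The level group -/

/-- The closure of an ideal contained in `w` is contained in the maximal ideal. -/
theorem val_lt_one_of_mem_idealClosure49 {𝔫 : Ideal (𝓞 K)} (hw : w.asIdeal ∣ 𝔫)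
    {x : w.adicCompletion K} (hx : x ∈ idealClosure 𝔫 w) : Valued.v x < 1 := by
  obtain ⟨π, hπ⟩ := exists_unif129 w
  have hπ0 : π ≠ 0 := unif_ne_zero129 w hπ
  have hcl : IsClosed {y : w.adicCompletion K | Valued.v (y * π⁻¹) ≤ 1} := by
    have h1 : IsClosed ((w.adicCompletionIntegers K : Set (w.adicCompletion K))) :=
      Valued.isClosed_valuationSubring _
    have h2 : Continuous (fun y : w.adicCompletion K => y * π⁻¹) :=
      continuous_id.mul continuous_const
    exact h1.preimage h2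
  have hsub : (fun r : 𝓞 K => algebraMap K (w.adicCompletion K) (algebraMap (𝓞 K) K r)) ''
      (𝔫 : Set (𝓞 K)) ⊆ {y : w.adicCompletion K | Valued.v (y * π⁻¹) ≤ 1} := by
    rintro _ ⟨r, hr, rfl⟩
    have hr' : r ∈ w.asIdeal := (Ideal.dvd_iff_le.1 hw) hr
    have e : algebraMap K (w.adicCompletion K) (algebraMap (𝓞 K) K r)
        = ((algebraMap (𝓞 K) K r : K) : w.adicCompletion K) := rfl
    have h1 : Valued.v (algebraMap K (w.adicCompletion K) (algebraMap (𝓞 K) K r)) < 1 := by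
      rw [e, valuedAdicCompletion_eq_valuation', valuation_lt_one_iff_mem]
      exact hr'
    show Valued.v (algebraMap K (w.adicCompletion K) (algebraMap (𝓞 K) K r) * π⁻¹) ≤ 1
    exact val_div_le_one83 hπ h1
  have h3 : Valued.v (x * π⁻¹) ≤ 1 := closure_minimal hsub hcl hx
  rw [map_mul, map_inv₀, hπ] at h3
  have h4 : Valued.v x ≤ WithZero.exp (-1 : ℤ) := by
    have := mul_le_mul' h3 (le_refl (WithZero.exp (-1 : ℤ)))
    rwa [mul_assoc, inv_mul_cancel₀ WithZero.exp_ne_zero, mul_one, one_mul] at this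
  refine lt_of_le_of_lt h4 ?_
  rw [← WithZero.exp_zero, WithZero.exp_lt_exp]
  norm_num

/-- The component at `w ∣ 𝔫` of an element of `U(𝔫)` lies in the Iwahori subgroup. -/
theorem inIwahori_of_inLevelGroup49 {𝔫 : Ideal (𝓞 K)} (hw : w.asIdeal ∣ 𝔫) {u : G K}
    (hu : InLevelGroup 𝔫 u) : T5.InIwahori w u := by
  have key : ∀ g : G K, (∀ i j : Fin 2, (finComp w g - 1) i j ∈ idealClosure 𝔫 w) →
      IsIntegralAt w g ∧ Valued.v (finComp w g 1 0) < 1 := by
    intro g hg
    refine ⟨fun i j => ?_, ?_⟩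
    · rw [mem_adicCompletionIntegers]
      have h1 := (val_lt_one_of_mem_idealClosure49 hw (hg i j)).le
      have e : finComp w g i j = (finComp w g - 1) i j
          + (1 : Matrix (Fin 2) (Fin 2) (w.adicCompletion K)) i j := by
        rw [Matrix.sub_apply]
        ring
      rw [e]
      refine val_add_le_one83 h1 ?_
      by_cases hij : i = j
      · rw [hij, Matrix.one_apply_eq, map_one]
      · rw [Matrix.one_apply_ne hij, map_zero]
        exact zero_le_one
    · have h1 := val_lt_one_of_mem_idealClosure49 hw (hg 1 0)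
      have e : (finComp w g - 1) 1 0 = finComp w g 1 0 := by
        rw [Matrix.sub_apply, Matrix.one_apply_ne (by decide), sub_zero]
      rwa [e] at h1
  have h1 := key u (fun i j => (hu.2 w i j).1)
  have h2 := key u⁻¹ (fun i j => (hu.2 w i j).2)
  exact ⟨h1.1, h2.1, h1.2⟩

/-- The part away from `w` of an element of `U(𝔫)` lies in `U(𝔫)`. -/
theorem inLevelGroup_awayPart49 {𝔫 : Ideal (𝓞 K)} {u : G K} (hu : InLevelGroup 𝔫 u) :
    InLevelGroup 𝔫 (awayPart49 w u) := by
  have h0 : (0 : w.adicCompletion K) ∈ idealClosure 𝔫 w :=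
    subset_closure ⟨0, 𝔫.zero_mem, by simp⟩
  refine ⟨fun w' => ?_, fun v i j => ?_⟩
  · rw [trivAtInf_iff129, infCompHom_awayPart49]
    exact (trivAtInf_iff129 w' u).1 (hu.1 w')
  · by_cases hv : v = w
    · subst hv
      have e1 : finComp v (awayPart49 v u) = 1 := by
        rw [← coe_finCompHom129, finCompHom_awayPart_self49]
        rfl
      have e2 : finComp v (awayPart49 v u)⁻¹ = 1 := by
        rw [← coe_finCompHom129, map_inv, finCompHom_awayPart_self49, inv_one]
        rfl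
      rw [e1, e2, sub_self]
      exact ⟨h0, h0⟩
    · have e1 : finComp v (awayPart49 w u) = finComp v u := by
        rw [← coe_finCompHom129, finCompHom_awayPart_of_ne49 w u hv]
        rfl
      have e2 : finComp v (awayPart49 w u)⁻¹ = finComp v u⁻¹ := by
        rw [← coe_finCompHom129, map_inv, finCompHom_awayPart_of_ne49 w u hv, ← map_inv]
        rfl
      rw [e1, e2]
      exact hu.2 v i j

end Adelic

section Top

variable {K K' : Type} [Field K] [NumberField K] [Field K'] [NumberField K'] [Algebra K K']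

/-- The hypothesis of `cosetOp_inv49` / `trOp_inv49` for an element of the level group. -/
theorem hyp_level49 {ℓ : ℕ} {Φ : HeckeEigensystem K' ℂ} {Dt : L2Data K K'}
    (hs : H561.IsSetup561 ℓ Φ Dt) {ψ : G K' → ℂ} (hψ : IsWFn Dt.𝔑₀ Dt.R'.r ℓ Dt.o ψ)
    (j : ℕ) {u : G K'} (hu : InLevelGroup Dt.𝔑₀ u) :
    ∀ i : G K', IsLocalAtFin (Dt.o j) i → T5.InIwahori (Dt.o j) i →
      ∀ x : G K', ψ (x * (awayPart49 (Dt.o j) u * i)) = ψ x := by
  intro i hil hiI x
  rw [← mul_assoc, isIwInvAt_orbit49 hs hψ j i hil hiI,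
    hψ.cusp.aut.level_inv _ (inLevelGroup_awayPart49 hu)]

/-- The hypothesis of `cosetOp_inv49` / `trOp_inv49` for an element of the Iwahori subgroups
along the orbit. -/
theorem hyp_iw49 {ℓ : ℕ} {Φ : HeckeEigensystem K' ℂ} {Dt : L2Data K K'}
    (hs : H561.IsSetup561 ℓ Φ Dt) {ψ : G K' → ℂ} (hψ : IsWFn Dt.𝔑₀ Dt.R'.r ℓ Dt.o ψ)
    (j : ℕ) {u : G K'} (hI : ∀ w : InfinitePlace K', TrivAtInf w u)
    (hF : ∀ v : HeightOneSpectrum (𝓞 K'), (∀ k < ℓ, v ≠ Dt.o k) → TrivAtFin v u)
    (hIw : ∀ k < ℓ, T5.InIwahori (Dt.o k) u) :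
    ∀ i : G K', IsLocalAtFin (Dt.o j) i → T5.InIwahori (Dt.o j) i →
      ∀ x : G K', ψ (x * (awayPart49 (Dt.o j) u * i)) = ψ x := by
  intro i hil hiI x
  have hil' := (isLocalAtFin_iff129 (Dt.o j) i).1 hil
  have hmod : Dt.o j = Dt.o (j % ℓ) := orbit_mod49 hs j
  have hlt : j % ℓ < ℓ := Nat.mod_lt j (cyc49 hs).pos
  apply hψ.iw (awayPart49 (Dt.o j) u * i)
  · intro w'
    rw [trivAtInf_iff129, map_mul, infCompHom_awayPart49, hil'.1 w', mul_one]
    exact (trivAtInf_iff129 w' u).1 (hI w')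
  · intro v hv
    have hne : v ≠ Dt.o j := by
      rw [hmod]
      exact hv _ hlt
    rw [trivAtFin_iff129, map_mul, finCompHom_awayPart_of_ne49 _ u hne, hil'.2 v hne, mul_one]
    exact (trivAtFin_iff129 v u).1 (hF v hv)
  · intro k hk
    by_cases e : Dt.o k = Dt.o j
    · rw [e, inIwahori_iff83, map_mul, finCompHom_awayPart_self49, one_mul]
      exact (inIwahori_iff83 _ i).1 hiI
    · rw [inIwahori_iff83, map_mul, finCompHom_awayPart_of_ne49 _ u e, hil'.2 _ e, mul_one]
      exact (inIwahori_iff83 _ u).1 (hIw k hk)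

theorem dvd_level49 {ℓ : ℕ} {Φ : HeckeEigensystem K' ℂ} {Dt : L2Data K K'}
    (hs : H561.IsSetup561 ℓ Φ Dt) (j : ℕ) : (Dt.o j).asIdeal ∣ Dt.𝔑₀ :=
  (hs.data.mem_S' (Dt.o j)).1 (hs.data.orbit_level j)

/-- An element which is supported at a place dividing the level is a good translation. -/
theorem isGoodTransl_of_local49 {𝔫 : Ideal (𝓞 K')} {w : HeightOneSpectrum (𝓞 K')}
    (hw : w.asIdeal ∣ 𝔫) {t : G K'} (ht : IsLocalAtFin w t) : H281.IsGoodTransl281 𝔫 t := by
  refine ⟨ht.1, fun v hv => ?_⟩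
  have hne : v ≠ w := by
    rintro rfl
    exact hv hw
  have h := inIwahori_of_trivAtFin83 v (ht.2 v hne)
  exact ⟨h.1, h.2.1⟩

end Top

/-- **LEAF T7.L2.2.B4.2 = OPS-EIG, VERBATIM.** -/
theorem opsEigC49 (K K' : Type) [Field K] [NumberField K] [Field K'] [NumberField K']
    [Algebra K K'] : H561.OpsEigC561 K K' := by
  intro ℓ Φ Dt hs Hs ω hsys j ψ C hψ
  have hr : T5.IsRayGen Dt.R'.r := (hs.data.comp 1 (isBad_one49 Dt)).frame'.ray
  have hw := dvd_level49 hs j
  have hmod : Dt.o j = Dt.o (j % ℓ) := orbit_mod49 hs j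
  have hlt : j % ℓ < ℓ := Nat.mod_lt j (cyc49 hs).pos
  have hH := isSSys_of561 hsys j
  obtain ⟨c, hc, hcc⟩ := hsys.ω_comp j
  constructor
  · have e : cosetOp (Hs j) ψ = H281.translOp281 (Hs j) 1 ψ := by
      funext x
      unfold cosetOp H281.translOp281
      rw [one_mul]
    rw [e]
    refine H281.translEigC281 K' Dt.𝔑₀ Dt.R'.r ℓ Dt.o hr (Hs j) 1
      (fun t ht => isGoodTransl_of_local49 hw (hsys.Hs_local j t ht)) ψ C hψ ?_ ?_
    · intro u hu x
      rw [← e]
      exact cosetOp_inv49 hH (inIwahori_of_inLevelGroup49 hw hu)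
        (hyp_level49 hs hψ.inv j hu) x
    · intro u hI hF hIw x
      rw [← e]
      refine cosetOp_inv49 hH ?_ (hyp_iw49 hs hψ.inv j hI hF hIw) x
      rw [hmod]
      exact hIw _ hlt
  · have e : H561.trOp561 (ω j) ψ = H281.translOp281 {ω j} 1 ψ := by
      funext x
      unfold H561.trOp561 H281.translOp281
      rw [Finset.sum_singleton, one_mul]
    rw [e]
    refine H281.translEigC281 K' Dt.𝔑₀ Dt.R'.r ℓ Dt.o hr {ω j} 1
      (fun t ht => by
        rw [Finset.mem_singleton.1 ht]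
        exact isGoodTransl_of_local49 hw (hsys.ω_local j)) ψ C hψ ?_ ?_
    · intro u hu x
      rw [← e]
      exact trOp_inv49 (hsys.ω_local j) hc hcc (inIwahori_of_inLevelGroup49 hw hu)
        (hyp_level49 hs hψ.inv j hu) x
    · intro u hI hF hIw x
      rw [← e]
      refine trOp_inv49 (hsys.ω_local j) hc hcc ?_ (hyp_iw49 hs hψ.inv j hI hF hIw) x
      rw [hmod]
      exact hIw _ hlt

example (K K' : Type) [Field K] [NumberField K] [Field K'] [NumberField K'] [Algebra K K'] :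
    H561.OpsEigC561 K K' := opsEigC49 K K'

end Fermat.Agent.LT.T7.H49

end

end
-- ===== PACK-END LT/T7/H49/OpsEig.lean

-- ===== PACK-BEGIN LT/T7/H771/RegSuppNe.lean
section


/-!
# Row LT, tower T7, leaf T7.L2.1.G1 in CORRECTED form: `RegSuppNeC771` (helper771)

OFF-MAIN.  The frozen Prop `H893.RegSuppC` (SupplyPreSpec 37db5856) is false as typed
(`regSuppC_false771`, `RegSuppFalse.lean`): the hypothesis `orbit_ne` is missing.  Here:

* `RegSuppNeC771 K` : the same Prop with the extra hypothesis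
  `∀ j, 0 < j → j < l → o j ≠ o 0` (the field `orbit_ne` of `IsL2Base`);
* `regSuppNeC771 K : RegSuppNeC771 K`, PROVED, every number field.

Proof: a point `y` of the support is `h z^k h₁ ⋯ h_m y₀`, `h = u₁ g u₂ ∈ Hg`, `h_i ∈ H`, `y₀` in
the support of `φ`.  At `o 0`: `h` is in the Iwahori subgroup (`o 0 ∣ 𝔫₀`, `g` trivial), the
product has the shape of `I diag(ϖ^m, 1) I` up to the scalar (`isShape_mul'771`,
`isShape_factor771`).  At `o j ≠ o 0`: all factors are in the Iwahori subgroup.  Outside the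
orbit `y` agrees with `h c`, `c ∈ C`: `C' = ⋃_{h ∈ Hg} h C`.
-/

set_option autoImplicit false

open IsDedekindDomain NumberField IsDedekindDomain.HeightOneSpectrum
open Fermat.Agent.LT.H556 Fermat.Agent.LT.H556.A0 Fermat.Agent.LT.H129

noncomputable section

namespace Fermat.Agent.LT.T7.H771

open Fermat.Agent.LT.T7 Fermat.Agent.LT.T7.H340 Fermat.Agent.LT.T7.H893

/-- **The corrected leaf G1**: `H893.RegSuppC` with the hypothesis `orbit_ne`. -/
def RegSuppNeC771 (K : Type) [Field K] [NumberField K] : Prop :=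
  ∀ (𝔫₀ : Ideal (𝓞 K)) (l : ℕ) (o : ℕ → HeightOneSpectrum (𝓞 K)), 0 < l →
    (∀ j : ℕ, (o j).asIdeal ∣ 𝔫₀) → (∀ j : ℕ, 0 < j → j < l → o j ≠ o 0) →
    ∀ g : G K, (∀ w : InfinitePlace K, TrivAtInf w g) → (∀ j < l, TrivAtFin (o j) g) →
    ∀ (Hg H : Finset (G K)) (z : G K), IsDblCosetSystem 𝔫₀ g Hg →
      IsIwCosetSystem (o 0) H → IsScalarUniformizerAt (o 0) z →
    ∀ (φ : G K → ℂ) (C : Set (G K)), IsCompact C → T5.H32.IsIwSupported32 l o C φ →
      ∃ C' : Set (G K), IsCompact C' ∧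
        ∀ (k : ℤ) (m : ℕ), T5.HasRegularSupportZ l o m C' (lsum Hg (regL (o 0) z H k m φ))

/-! ## 1. Local algebra -/

section Local

variable {F : Type*} [Field F] {v : Valuation F (WithZero (Multiplicative ℤ))}

theorem isShape_mul'771 {A B : GL (Fin 2) F} {a b : ℕ} (hA : IsShape771 v a A)
    (hB : IsShape771 v b B) : IsShape771 v (a + b) (A * B) := by
  obtain ⟨hA1, hA2, hA3, hA4⟩ := hA
  obtain ⟨hB1, hB2, hB3, hB4⟩ := hB
  have hent : ∀ i j, ((A * B : GL (Fin 2) F) : Matrix (Fin 2) (Fin 2) F) i j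
      = (A : Matrix (Fin 2) (Fin 2) F) i 0 * (B : Matrix (Fin 2) (Fin 2) F) 0 j
        + (A : Matrix (Fin 2) (Fin 2) F) i 1 * (B : Matrix (Fin 2) (Fin 2) F) 1 j := by
    intro i j
    rw [Matrix.GeneralLinearGroup.coe_mul, Matrix.mul_apply, Fin.sum_univ_two]
  refine ⟨?_, ?_, ?_, ?_⟩
  · intro i j
    rw [hent]
    refine le_trans (Valuation.map_add _ _ _) (max_le ?_ ?_)
    · rw [map_mul]; exact mul_le_one' (hA1 i 0) (hB1 0 j)
    · rw [map_mul]; exact mul_le_one' (hA1 i 1) (hB1 1 j)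
  · rw [Matrix.GeneralLinearGroup.coe_mul, Matrix.det_mul, map_mul, hA2, hB2,
      ← WithZero.exp_add]
    congr 1
    push_cast
    ring
  · rw [hent]
    refine Valuation.map_add_lt _ ?_ ?_
    · rw [map_mul]; exact mul_lt_one771 hA3 (hB1 0 0)
    · rw [map_mul]; exact mul_lt_one'771 (hA1 1 1) hB3
  · rw [hent]
    have h1 : v ((A : Matrix (Fin 2) (Fin 2) F) 1 0 * (B : Matrix (Fin 2) (Fin 2) F) 0 1) < 1 := by
      rw [map_mul]; exact mul_lt_one771 hA3 (hB1 0 1)
    have h2 : v ((A : Matrix (Fin 2) (Fin 2) F) 1 1 * (B : Matrix (Fin 2) (Fin 2) F) 1 1) = 1 := by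
      rw [map_mul, hA4, hB4, one_mul]
    rw [Valuation.map_add_eq_of_lt_right v (by rw [h2]; exact h1), h2]

end Local

/-! ## 2. The level group at a place dividing the level -/

section Global

variable {K : Type} [Field K] [NumberField K]

/-- The elements of the closure of `𝔫` in `K_v` are in the maximal ideal when `v ∣ 𝔫`. -/
theorem val_lt_one_of_mem_idealClosure771 {𝔫 : Ideal (𝓞 K)} {v : HeightOneSpectrum (𝓞 K)}
    (hv : v.asIdeal ∣ 𝔫) {x : v.adicCompletion K} (hx : x ∈ idealClosure 𝔫 v) :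
    Valued.v x < 1 := by
  unfold idealClosure at hx
  rw [mem_closure_iff_nhds] at hx
  have hU : {y : v.adicCompletion K | Valued.v (y - x) < 1} ∈ nhds x := by
    rw [Valued.mem_nhds]
    have h' : (Valued.v : Valuation (v.adicCompletion K) _).restrict
        (1 : v.adicCompletion K) ≠ 0 := by simp
    refine ⟨Units.mk0 _ h', ?_⟩
    rw [Units.val_mk0]
    intro y hy
    have := (Valuation.restrict_lt_iff _).mp hy
    simpa using this
  obtain ⟨s, hsU, a, ha, rfl⟩ := hx _ hU
  have hs : Valued.v (algebraMap K (v.adicCompletion K) (algebraMap (𝓞 K) K a)) < 1 := by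
    have hval : Valued.v (algebraMap K (v.adicCompletion K) (algebraMap (𝓞 K) K a))
        = v.valuation K (algebraMap (𝓞 K) K a) :=
      valuedAdicCompletion_eq_valuation' v (algebraMap (𝓞 K) K a)
    rw [hval, HeightOneSpectrum.valuation_lt_one_iff_mem]
    exact Ideal.le_of_dvd hv ha
  have e : x = algebraMap K (v.adicCompletion K) (algebraMap (𝓞 K) K a)
      - (algebraMap K (v.adicCompletion K) (algebraMap (𝓞 K) K a) - x) := by ring
  rw [e]
  exact Valuation.map_sub_lt _ hs hsU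

/-- `U(𝔫)` is contained in the Iwahori subgroup at the places dividing `𝔫`. -/
theorem inIwahori_of_level771 {𝔫 : Ideal (𝓞 K)} {v : HeightOneSpectrum (𝓞 K)}
    (hv : v.asIdeal ∣ 𝔫) {u' : G K} (hu : InLevelGroup 𝔫 u') : T5.InIwahori v u' := by
  have key : ∀ x : G K, (∀ i j, (finComp v x - 1) i j ∈ idealClosure 𝔫 v) →
      IsIntegralAt v x ∧ Valued.v (finComp v x 1 0) < 1 := by
    intro x hx
    have e : ∀ i j, finComp v x i j
        = (finComp v x - 1) i j + (1 : Matrix (Fin 2) (Fin 2) (v.adicCompletion K)) i j := by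
      intro i j
      simp
    refine ⟨fun i j => ?_, ?_⟩
    · rw [mem_adicCompletionIntegers, e i j]
      refine le_trans (Valuation.map_add _ _ _)
        (max_le (val_lt_one_of_mem_idealClosure771 hv (hx i j)).le ?_)
      by_cases hij : i = j
      · subst hij
        simp
      · simp [Matrix.one_apply_ne hij]
    · have := val_lt_one_of_mem_idealClosure771 hv (hx 1 0)
      simpa using this
  exact ⟨(key u' fun i j => (hu.2 v i j).1).1, (key u'⁻¹ fun i j => (hu.2 v i j).2).1,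
    (key u' fun i j => (hu.2 v i j).1).2⟩

theorem inIwahori_of_triv771 {v : HeightOneSpectrum (𝓞 K)} {g : G K} (hg : TrivAtFin v g) :
    T5.InIwahori v g := by
  rw [inIwahori_iff340, (trivAtFin_iff129 v g).1 hg]
  exact isIwG340_one

/-- Left multiplication by an element which is local at `u ∈ O` does not change the components
outside `O`. -/
theorem agree_of_local'771 {O : Set (HeightOneSpectrum (𝓞 K))} {u : HeightOneSpectrum (𝓞 K)}
    (huO : u ∈ O) {h : G K} (hh : IsLocalAtFin u h) (y : G K) :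
    T5.AgreeOutside O (h * y) y := by
  have h1 : T5.AgreeOutside O h 1 := by
    refine ⟨fun w => ?_, fun v hv => ?_⟩
    · funext i j
      have e1 := hh.1 w i j
      have e2 := (isLocalAtFin_one129 u).1 w i j
      unfold infComp
      rw [e1, e2]
    · have hne : v ≠ u := fun e => hv (e ▸ huO)
      rw [Fermat.Agent.LT.H942.finComp_one942]
      exact hh.2 v hne
  have h2 := T5.H942.agreeOutside_mul942 _ h1 (T5.H942.agreeOutside_refl942 _ y)
  rwa [one_mul] at h2

/-- Left multiplication by an element which is local at `u` preserves the Iwahori subgroup at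
the other places. -/
theorem inIwahori_local_mul771 {u v' : HeightOneSpectrum (𝓞 K)} (hne : v' ≠ u) {h y : G K}
    (hh : IsLocalAtFin u h) (hy : T5.InIwahori v' y) : T5.InIwahori v' (h * y) := by
  rw [inIwahori_iff340] at *
  rw [map_mul, ((isLocalAtFin_iff129 u h).1 hh).2 v' hne, one_mul]
  exact hy

/-- The points of the support of `(iwL (o 0) H)^[m] φ`, along an orbit. -/
theorem supp_iterate'771 {l : ℕ} {o : ℕ → HeightOneSpectrum (𝓞 K)} (hl : 0 < l)
    (hne : ∀ j : ℕ, 0 < j → j < l → o j ≠ o 0) {H : Finset (G K)}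
    (hH : IsIwCosetSystem (o 0) H) {φ : G K → ℂ} {C : Set (G K)}
    (hφ : T5.H32.IsIwSupported32 l o C φ) :
    ∀ (m : ℕ) (y : G K), ((iwL (o 0) H)^[m] φ) y ≠ 0 →
      IsShape771 (vw340 (o 0)) m (finCompHom129 (o 0) y) ∧
        (∀ j : ℕ, 0 < j → j < l → T5.InIwahori (o j) y) ∧
        ∃ c ∈ C, T5.AgreeOutside {v | ∃ j < l, v = o j} y c := by
  intro m
  induction m with
  | zero =>
    intro y hy
    rw [Function.iterate_zero, id] at hy
    obtain ⟨h1, h2⟩ := hφ y hy
    exact ⟨isShape_zero771 ((inIwahori_iff340 (o 0) y).1 (h1 0 hl)),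
      fun j _ hj => h1 j hj, h2⟩
  | succ m ih =>
    intro y hy
    rw [Function.iterate_succ_apply'] at hy
    unfold iwL at hy
    have hsum := right_ne_zero_of_mul hy
    obtain ⟨h, hhH, hnz⟩ := Finset.exists_ne_zero_of_sum_ne_zero hsum
    obtain ⟨hsh, hiw, c, hcC, hag⟩ := ih (h⁻¹ * y) hnz
    obtain ⟨hloc, hcos⟩ := hH.2.1 h hhH
    refine ⟨?_, ?_, c, hcC, ?_⟩
    · have e : finCompHom129 (o 0) y
          = finCompHom129 (o 0) h * finCompHom129 (o 0) (h⁻¹ * y) := by
        rw [← map_mul, mul_inv_cancel_left]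
      rw [e]
      exact isShape_mul771 (isShape_one771 (isIwT340_of_inIwahoriCoset hcos)) hsh
    · intro j hj0 hjl
      have := inIwahori_local_mul771 (hne j hj0 hjl) hloc (hiw j hj0 hjl)
      rwa [mul_inv_cancel_left] at this
    · have := agree_of_local'771 (O := {v | ∃ j < l, v = o j}) ⟨0, hl, rfl⟩ hloc (h⁻¹ * y)
      rw [mul_inv_cancel_left] at this
      exact agree_trans771 this hag

/-- **The corrected leaf G1**, PROVED. -/
theorem regSuppNeC771 (K : Type) [Field K] [NumberField K] : RegSuppNeC771 K := by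
  intro 𝔫₀ l o hl hdiv hne g _ hgfin Hg H z hdbl hH hz φ C hC hφ
  refine ⟨⋃ h ∈ Hg, (fun c => h * c) '' C,
    Hg.isCompact_biUnion (fun h _ => hC.image (continuous_const_mul h)), ?_⟩
  intro k m y hy
  unfold lsum at hy
  obtain ⟨h, hhg, hnz⟩ := Finset.exists_ne_zero_of_sum_ne_zero hy
  unfold regL ltr at hnz
  obtain ⟨hsh, hiw, c, hcC, hag⟩ :=
    supp_iterate'771 hl hne hH hφ m ((z ^ k)⁻¹ * (h⁻¹ * y)) hnz
  obtain ⟨hzloc, cz, hcz, hzmat⟩ := hz
  have hcz0 : cz ≠ 0 := by
    intro h0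
    rw [h0, map_zero] at hcz
    exact WithZero.exp_ne_zero.symm hcz
  have hzk := isLocalAtFin_zpow771 hzloc k
  -- `h` is Iwahori along the orbit
  obtain ⟨u₁, u₂, hu₁, hu₂, hh⟩ := hdbl.1 h hhg
  have hhiw : ∀ j < l, T5.InIwahori (o j) h := by
    intro j hj
    rw [hh]
    exact inIwahori_mul340 (inIwahori_mul340 (inIwahori_of_level771 (hdiv j) hu₁)
      (inIwahori_of_triv771 (hgfin j hj))) (inIwahori_of_level771 (hdiv j) hu₂)
  have ey : y = h * (z ^ k * ((z ^ k)⁻¹ * (h⁻¹ * y))) := by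
    rw [mul_inv_cancel_left, mul_inv_cancel_left]
  set y₂ : G K := (z ^ k)⁻¹ * (h⁻¹ * y) with hy₂
  refine ⟨?_, ?_, h * c, ?_, ?_⟩
  · -- the component at `o 0`
    have ez : finCompHom129 (o 0) z
        = Matrix.GeneralLinearGroup.scalar (Fin 2) (Units.mk0 cz hcz0) := by
      apply Units.ext
      rw [coe_finCompHom129, hzmat, Matrix.GeneralLinearGroup.coe_scalar]
      rfl
    have ezk : finCompHom129 (o 0) (z ^ k)
        = Matrix.GeneralLinearGroup.scalar (Fin 2) ((Units.mk0 cz hcz0) ^ k) := by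
      rw [map_zpow, ez, map_zpow]
    set s : ((o 0).adicCompletion K)ˣ := (Units.mk0 cz hcz0) ^ k with hs
    have hshape : IsShape771 (vw340 (o 0)) (0 + m)
        (finCompHom129 (o 0) h * finCompHom129 (o 0) y₂) :=
      isShape_mul'771 (isShape_zero771 ((inIwahori_iff340 (o 0) h).1 (hhiw 0 hl))) hsh
    rw [zero_add] at hshape
    obtain ⟨x, y', c', d', hx, hy', hd', hcd, hfac⟩ :=
      isShape_factor771 hshape (s : (o 0).adicCompletion K) s.ne_zero
    have eyc : finComp (o 0) y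
        = (s : (o 0).adicCompletion K) • (((finCompHom129 (o 0) h * finCompHom129 (o 0) y₂ :
            GL (Fin 2) ((o 0).adicCompletion K)) :
              Matrix (Fin 2) (Fin 2) ((o 0).adicCompletion K))) := by
      conv_lhs => rw [ey]
      rw [Fermat.Agent.LT.H942.finComp_mul942, Fermat.Agent.LT.H942.finComp_mul942,
        ← coe_finCompHom129 (o 0) (z ^ k), ezk, Matrix.GeneralLinearGroup.coe_scalar,
        Matrix.scalar_apply, ← Matrix.smul_eq_diagonal_mul, Matrix.mul_smul,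
        Matrix.GeneralLinearGroup.coe_mul, coe_finCompHom129, coe_finCompHom129]
    refine ⟨locFin129 (o 0) (upperU129 x), locFin129 (o 0) (lowerU129 y'), c', d',
      ?_, ?_, hd', hcd, ?_⟩
    · rw [inIwahori_iff340, finCompHom129_locFin129]
      exact isIwG340_upper hx
    · rw [inIwahori_iff340, finCompHom129_locFin129]
      exact isIwG340_lower771 hy'
    · rw [eyc, finComp_locFin129, finComp_locFin129]
      exact hfac
  · -- the other places of the orbit
    intro j hj0 hjl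
    rw [ey]
    exact inIwahori_mul340 (hhiw j hjl)
      (inIwahori_local_mul771 (hne j hj0 hjl) hzk (hiw j hj0 hjl))
  · exact Set.mem_biUnion hhg ⟨c, hcC, rfl⟩
  · -- outside the orbit
    have h1 := agree_of_local'771 (O := {v | ∃ j < l, v = o j}) ⟨0, hl, rfl⟩ hzk y₂
    have h2 := agree_trans771 h1 hag
    have h3 := T5.H942.agreeOutside_mul942 _ (T5.H942.agreeOutside_refl942 _ h) h2
    rw [← ey] at h3
    exact h3

end Global

end Fermat.Agent.LT.T7.H771

end

end
-- ===== PACK-END LT/T7/H771/RegSuppNe.lean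

-- ===== PACK-BEGIN LT/T7/H157/BlocksAsm.lean
section






/-!
# Row LT, tower T7, leaf T7.L2.2.B7 = `BlocksAsmC561` (helper157): THE ASSEMBLY

OFF-MAIN.  ADDITIVE (new names only, all ending in `157`).  Every proof is complete, nothing
assumed.  Target: `BlocksAsmC561 K K'` of `T7/H561/BlocksSpec.lean`
(helper561@fa57d28b6, sha256 5ceeaa4d32439a1f) VERBATIM.

    blocksAsmC157 : BlocksAsmC561 K K'
-/

set_option autoImplicit false

open AutomorphicForm IsDedekindDomain NumberField MeasureTheory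
open scoped ComplexConjugate Matrix

noncomputable section

namespace Fermat.Agent.LT.T7.H157

open Fermat.Agent.LT.H556 Fermat.Agent.LT.H556.A0 Fermat.Agent.LT.T7 Fermat.Agent.LT.T7.H561

attribute [local instance] Fermat.Agent.LT.T5.instMeasurableSpaceG

variable {K K' : Type} [Field K] [NumberField K] [Field K'] [NumberField K'] [Algebra K K']

variable {ℓ : ℕ} {Φ : HeckeEigensystem K' ℂ} {Dt : L2Data K K'} {g : G K'}
  {Hs : ℕ → Finset (G K')} {ω' : ℕ → G K'} {Hg : Finset (G K')} {C : EigData K'} {n : ℕ}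
  {v : Fin n → G K' → ℂ}

/-- **The Iwahori--Hecke structure of a stable class.** -/
theorem iwBlock157 (h : Ctx157 ℓ Φ Dt g Hs ω' Hg C n v) (σC : EigData K' → EigData K')
    (hσe : ∀ (ψ : G K' → ℂ) (C : EigData K'), IsEigFn Dt.𝔑₀ Dt.R'.r ℓ Dt.o ψ C →
      IsEigFn Dt.𝔑₀ Dt.R'.r ℓ Dt.o (T5.Rsig Dt.s ψ) (σC C))
    (hst : (σC C).AgreeOut Dt.S' C) :
    IsIwBlock561 ℓ ((Ideal.absNorm (Dt.o 0).asIdeal : ℕ) : ℝ)
      (mat157 Dt.R'.μ Dt.R'.F v (T5.Rsig Dt.s))
      (Dt.c g C • mat157 Dt.R'.μ Dt.R'.F v (cosetOp Hg))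
      (fun j => mat157 Dt.R'.μ Dt.R'.F v (cosetOp (Hs j)))
      (fun j => mat157 Dt.R'.μ Dt.R'.F v (trOp561 (ω' j))) := by
  have hA := h.repA σC hσe hst
  have hv := h.on
  have lS := fun j => isLin_coset157 (K := K') (Hs j)
  have lρ := fun j => isLin_tr157 (K := K') (ω' j)
  have lA := isLin_Rsig157 Dt.s
  have lB := isLin_coset157 Hg
  have hBS : ∀ j, mat157 Dt.R'.μ Dt.R'.F v (cosetOp Hg)
        * mat157 Dt.R'.μ Dt.R'.F v (cosetOp (Hs j))
      = mat157 Dt.R'.μ Dt.R'.F v (cosetOp (Hs j)) * mat157 Dt.R'.μ Dt.R'.F v (cosetOp Hg) :=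
    fun j => rep_unique157 hv (rep_comp157 lB h.repB (h.repS j))
      (rep_comp157 (lS j) (h.repS j) h.repB) fun a x => h.ops.B_S j (v a) (h.wfn a) x
  have hBρ : ∀ j, mat157 Dt.R'.μ Dt.R'.F v (cosetOp Hg)
        * mat157 Dt.R'.μ Dt.R'.F v (trOp561 (ω' j))
      = mat157 Dt.R'.μ Dt.R'.F v (trOp561 (ω' j)) * mat157 Dt.R'.μ Dt.R'.F v (cosetOp Hg) :=
    fun j => rep_unique157 hv (rep_comp157 lB h.repB (h.repρ j))
      (rep_comp157 (lρ j) (h.repρ j) h.repB) fun a x => h.ops.B_ρ j (v a) (h.wfn a) x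
  refine
    { S_herm := fun j => h.S_herm j
      S_quad := fun j => ?_
      ρ_unit := fun j => h.ρ_unit j
      ρ_central := fun j => ?_
      A_S := fun j => ?_
      A_ρ := fun j => ?_
      per_S := fun j => ?_
      per_ρ := fun j => ?_
      comm_SS := fun j j' hj hj' hne => ?_
      comm_Sρ := fun j j' hj hj' hne => ?_
      comm_ρρ := fun j j' hj hj' hne => ?_
      B_S := fun j => ?_
      B_ρ := fun j => ?_ }
  · -- S_quad
    refine rep_unique157 hv (rep_comp157 (lS j) (h.repS j) (h.repS j))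
      (rep_add157 (rep_smul157 (h.repS j) _) (rep_smul157 rep_id157 _)) fun a x => ?_
    have e := h.ops.S_quad j (v a) (h.wfn a) x
    rw [e]
    simp only [Complex.ofReal_natCast]
  · -- ρ_central
    exact rep_unique157 hv
      (rep_comp157 (isLin_comp157 (lρ j) (lρ j))
        (rep_comp157 (lρ j) (h.repρ j) (h.repρ j)) (h.repS j))
      (rep_comp157 (lS j) (h.repS j) (rep_comp157 (lρ j) (h.repρ j) (h.repρ j)))
      fun a x => h.ops.ρ_central j (v a) (h.wfn a) x
  · -- A_S
    exact rep_unique157 hv (rep_comp157 lA hA (h.repS j))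
      (rep_comp157 (lS (j + 1)) (h.repS (j + 1)) hA)
      fun a x => h.ops.σ_S j (v a) (h.wfn a) x
  · -- A_ρ
    exact rep_unique157 hv (rep_comp157 lA hA (h.repρ j))
      (rep_comp157 (lρ (j + 1)) (h.repρ (j + 1)) hA)
      fun a x => h.ops.σ_ρ j (v a) (h.wfn a) x
  · -- per_S
    exact rep_unique157 hv (h.repS (j + ℓ)) (h.repS j)
      fun a x => h.ops.per_S j (v a) (h.wfn a) x
  · -- per_ρ
    exact rep_unique157 hv (h.repρ (j + ℓ)) (h.repρ j)
      fun a x => h.ops.per_ρ j (v a) (h.wfn a) x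
  · -- comm_SS
    exact rep_unique157 hv (rep_comp157 (lS j) (h.repS j) (h.repS j'))
      (rep_comp157 (lS j') (h.repS j') (h.repS j))
      fun a x => h.ops.comm_SS j j' hj hj' hne (v a) (h.wfn a) x
  · -- comm_Sρ
    exact rep_unique157 hv (rep_comp157 (lS j) (h.repS j) (h.repρ j'))
      (rep_comp157 (lρ j') (h.repρ j') (h.repS j))
      fun a x => h.ops.comm_Sρ j j' hj hj' hne (v a) (h.wfn a) x
  · -- comm_ρρ
    exact rep_unique157 hv (rep_comp157 (lρ j) (h.repρ j) (h.repρ j'))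
      (rep_comp157 (lρ j') (h.repρ j') (h.repρ j))
      fun a x => h.ops.comm_ρρ j j' hj hj' hne (v a) (h.wfn a) x
  · -- B_S
    show (Dt.c g C • mat157 Dt.R'.μ Dt.R'.F v (cosetOp Hg))
        * mat157 Dt.R'.μ Dt.R'.F v (cosetOp (Hs j))
      = mat157 Dt.R'.μ Dt.R'.F v (cosetOp (Hs j))
        * (Dt.c g C • mat157 Dt.R'.μ Dt.R'.F v (cosetOp Hg))
    rw [Matrix.smul_mul, Matrix.mul_smul, hBS j]
  · -- B_ρ
    show (Dt.c g C • mat157 Dt.R'.μ Dt.R'.F v (cosetOp Hg))
        * mat157 Dt.R'.μ Dt.R'.F v (trOp561 (ω' j))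
      = mat157 Dt.R'.μ Dt.R'.F v (trOp561 (ω' j))
        * (Dt.c g C • mat157 Dt.R'.μ Dt.R'.F v (cosetOp Hg))
    rw [Matrix.smul_mul, Matrix.mul_smul, hBρ j]

/-- **The matrix coefficients inside a stable class.** -/
theorem coeff157 (h : Ctx157 ℓ Φ Dt g Hs ω' Hg C n v) (σC : EigData K' → EigData K')
    (hσe : ∀ (ψ : G K' → ℂ) (C : EigData K'), IsEigFn Dt.𝔑₀ Dt.R'.r ℓ Dt.o ψ C →
      IsEigFn Dt.𝔑₀ Dt.R'.r ℓ Dt.o (T5.Rsig Dt.s ψ) (σC C))
    (hst : (σC C).AgreeOut Dt.S' C) (X : List (Gen K')) (hX : ∀ x ∈ X, x.Out Dt.S')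
    (k : ℤ) (m : ℕ) (a b : Fin n) :
    T5.innerD Dt.R'.μ Dt.R'.F
        (T5.Rconv Dt.R'.μ (Dt.φ' g X k m) (T5.Rsig Dt.s (v a))) (v b)
      = wordEv X C
        * ((Dt.c g C • mat157 Dt.R'.μ Dt.R'.F v (cosetOp Hg))
            * (mat157 Dt.R'.μ Dt.R'.F v (trOp561 (ω' 0))
                * mat157 Dt.R'.μ Dt.R'.F v (trOp561 (ω' 0))) ^ k
            * (((Real.sqrt ((Ideal.absNorm (Dt.o 0).asIdeal : ℕ) : ℝ) : ℝ) : ℂ)⁻¹
                • (mat157 Dt.R'.μ Dt.R'.F v (cosetOp (Hs 0))
                    * mat157 Dt.R'.μ Dt.R'.F v (trOp561 (ω' 0)))) ^ m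
            * mat157 Dt.R'.μ Dt.R'.F v (T5.Rsig Dt.s)) b a := by
  have hψ : IsEigFn Dt.𝔑₀ Dt.R'.r ℓ Dt.o (T5.Rsig Dt.s (v a)) C :=
    isEigFn_of_agree157 h.data.mem_S' (hσe _ _ (h.basis.eig a)) hst
  have e : T5.Rconv Dt.R'.μ (Dt.φ' g X k m) (T5.Rsig Dt.s (v a))
      = fun x => (wordEv X C * Dt.c g C) * cosetOp Hg (shiftOp (ω' 0 * ω' 0) k
        ((iwOp (Dt.o 0) ((Hs 0).map (mulRightEmbedding (ω' 0))))^[m]
          (T5.Rsig Dt.s (v a)))) x :=
    funext fun x => h.data.op_up g X k m h.bad hX _ C hψ Hg _ _ h.ops.dbl h.ops.iwsys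
      h.ops.unif x
  have R := rep_comp157 (isLin_T157 Hs ω' Hg (Dt.o 0) k m) (h.repT k m)
    (h.repA σC hσe hst) a
  beta_reduce at R
  rw [e, R, h.on.coeff_smul]
  rw [Matrix.smul_mul, Matrix.smul_mul, Matrix.smul_mul, Matrix.smul_apply, smul_eq_mul]
  ring

/-- **The diagonal coefficients in a class which is not stable vanish.** -/
theorem off_class157 (hDt : IsL2Data ℓ Φ Dt) (hg : Dt.IsBad g)
    (hOps : IsWOps561 Dt ℓ g Hs ω' Hg) {ι : Type} {n : ι → ℕ} {C : ι → EigData K'}
    {v : (i : ι) → Fin (n i) → G K' → ℂ} (hWS : IsWSpec561 Dt ℓ ι n C v)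
    (σC : EigData K' → EigData K')
    (hσe : ∀ (ψ : G K' → ℂ) (C : EigData K'), IsEigFn Dt.𝔑₀ Dt.R'.r ℓ Dt.o ψ C →
      IsEigFn Dt.𝔑₀ Dt.R'.r ℓ Dt.o (T5.Rsig Dt.s ψ) (σC C))
    (i : ι) (hns : ¬ (σC (C i)).AgreeOut Dt.S' (C i)) (X : List (Gen K'))
    (hX : ∀ x ∈ X, x.Out Dt.S') (k : ℤ) (m : ℕ) (a : Fin (n i)) :
    T5.diagCoeff Dt.s Dt.R'.μ Dt.R'.F (Dt.φ' g X k m) (v i a) = 0 := by
  unfold T5.diagCoeff
  have hψσ : IsEigFn Dt.𝔑₀ Dt.R'.r ℓ Dt.o (T5.Rsig Dt.s (v i a)) (σC (C i)) :=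
    hσe _ _ ((hWS.basis i).eig a)
  by_cases hz : ∃ x, T5.Rsig Dt.s (v i a) x ≠ 0
  · obtain ⟨i', hi'⟩ := hWS.cover _ _ hψσ hz
    have hne : i' ≠ i := by
      rintro rfl
      exact hns hi'
    have h' : Ctx157 ℓ Φ Dt g Hs ω' Hg (C i') (n i') (v i') := ⟨hDt, hg, hOps, hWS.basis i'⟩
    have hψ : IsEigFn Dt.𝔑₀ Dt.R'.r ℓ Dt.o (T5.Rsig Dt.s (v i a)) (C i') :=
      isEigFn_of_agree157 hDt.mem_S' hψσ hi'
    obtain ⟨c₀, hc₀⟩ := (hWS.basis i').span _ (C i') hψ (agreeOut_refl157 _ _)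
    have e0 : T5.Rsig Dt.s (v i a) = lin157 (v i') c₀ := funext hc₀
    have e : T5.Rconv Dt.R'.μ (Dt.φ' g X k m) (T5.Rsig Dt.s (v i a))
        = fun x => (wordEv X (C i') * Dt.c g (C i')) * cosetOp Hg (shiftOp (ω' 0 * ω' 0) k
          ((iwOp (Dt.o 0) ((Hs 0).map (mulRightEmbedding (ω' 0))))^[m]
            (T5.Rsig Dt.s (v i a)))) x :=
      funext fun x => hDt.op_up g X k m hg hX _ (C i') hψ Hg _ _ hOps.dbl hOps.iwsys
        hOps.unif x
    rw [e, e0, rep_apply157 (isLin_T157 Hs ω' Hg (Dt.o 0) k m) (h'.repT k m)]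
    exact innerD_smul_lin_orth157 (finite_of_data157 hDt hg) h'.on.nice
      (nice_of_cusp157 ((hWS.basis i).eig a).inv.cusp)
      (fun b => hWS.orth i' i b a hne) _ _
  · have hz' : ∀ x, T5.Rsig Dt.s (v i a) x = 0 := fun x =>
      Classical.byContradiction fun hx => hz ⟨x, hx⟩
    exact innerD_zero_left157 _ _ (fun x => Rconv_zero157 _ _ hz' x) _

variable (K K')

/-- **LEAF T7.L2.2.B7 = BLOCKS-ASSEMBLY.** -/
theorem blocksAsmC157 : BlocksAsmC561 K K' := by
  intro hW hC hS hO hP hF ℓ hcyc hℓ hcplx Φ hΦ hconst Dt hDt hσ g hg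
  obtain ⟨ι, n, C, v, hWS⟩ := hW ℓ hcyc hℓ hcplx Φ hΦ hconst Dt hDt
  obtain ⟨e₀, idx, hONB, hinj, hev, hperp⟩ :=
    hC ℓ hcyc hℓ hcplx Φ hΦ hconst Dt hDt g hg ι n C v hWS
  obtain ⟨σC, hσa, hσe, hσΦ⟩ := hS ℓ hcyc hℓ hcplx Φ hΦ hconst Dt hDt hσ
  obtain ⟨Hs, ω', Hg, hOps⟩ := hO ℓ hcyc hℓ hcplx Φ hΦ hconst Dt hDt hσ g hg
  obtain ⟨ψΦ, hψΦ, hne⟩ := hP ℓ hcyc hℓ hcplx Φ hΦ hconst Dt hDt
  have hctx : ∀ i, Ctx157 ℓ Φ Dt g Hs ω' Hg (C i) (n i) (v i) :=
    fun i => ⟨hDt, hg, hOps, hWS.basis i⟩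
  have hfun : ∀ i, (fun a => e₀ (idx i a)) = v i := fun i => funext fun a => hev i a
  refine ⟨e₀,
    { ι := {i : ι // (σC (C i)).AgreeOut Dt.S' (C i)}
      n := fun i => n i.1
      idx := fun i => idx i.1
      C := fun i => C i.1
      A := fun i => mat157 Dt.R'.μ Dt.R'.F (v i.1) (T5.Rsig Dt.s)
      B := fun i => Dt.c g (C i.1) • mat157 Dt.R'.μ Dt.R'.F (v i.1) (cosetOp Hg)
      S := fun i j => mat157 Dt.R'.μ Dt.R'.F (v i.1) (cosetOp (Hs j))
      ρ := fun i j => mat157 Dt.R'.μ Dt.R'.F (v i.1) (trOp561 (ω' j)) }, ?_⟩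
  refine
    { onb := hONB
      inj := ?_
      unitary := fun i => hWS.unitary i.1
      distinct := fun i i' hii => Subtype.ext (hWS.distinct i.1 i'.1 hii)
      basis := ?_
      phi := ?_
      iw := fun i => iwBlock157 (hctx i.1) σC hσe i.2
      coeff := ?_
      off := ?_ }
  · -- inj
    rintro ⟨i, hi⟩ a ⟨i', hi'⟩ a' hidx
    have e := hinj i a i' a' hidx
    obtain ⟨rfl, e2⟩ := Sigma.mk.inj_iff.1 e
    obtain rfl := eq_of_heq e2
    rfl
  · -- basis
    intro i
    show IsClassBasis561 Dt ℓ (C i.1) (n i.1) (fun a => e₀ (idx i.1 a))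
    rw [hfun i.1]
    exact hWS.basis i.1
  · -- phi
    obtain ⟨i₀, hi₀⟩ := hWS.cover ψΦ (eigOf Φ) hψΦ hne
    have hst : (σC (C i₀)).AgreeOut Dt.S' (C i₀) :=
      agreeOut_trans157 (hσa _ _ (agreeOut_symm157 hi₀)) (agreeOut_trans157 hσΦ hi₀)
    exact ⟨⟨i₀, hst⟩, agreeOut_symm157 hi₀⟩
  · -- coeff
    intro X hX k m i a b
    show T5.innerD Dt.R'.μ Dt.R'.F
        (T5.Rconv Dt.R'.μ (Dt.φ' g X k m) (T5.Rsig Dt.s (e₀ (idx i.1 a))))
        (e₀ (idx i.1 b)) = _
    rw [hev i.1 a, hev i.1 b]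
    exact coeff157 (hctx i.1) σC hσe i.2 X hX k m a b
  · -- off
    intro X hX k m j hj
    by_cases hr : ∃ (i : ι) (a : Fin (n i)), idx i a = j
    · obtain ⟨i, a, rfl⟩ := hr
      have hns : ¬ (σC (C i)).AgreeOut Dt.S' (C i) := fun hs => hj ⟨i, hs⟩ a rfl
      rw [hev i a]
      exact off_class157 hDt hg hOps hWS σC hσe i hns X hX k m a
    · exact hF ℓ hcyc hℓ hcplx Φ hΦ hconst Dt hDt g hg ι n C v hWS
        (fun X hX k m ψ C' hψ => isWFn_Rconv157 hDt hg hOps X hX k m ψ C' hψ)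
        (e₀ j) (hONB.cusp j) (hperp j fun i a hia => hr ⟨i, a, hia⟩) X hX k m

end Fermat.Agent.LT.T7.H157

end

end
-- ===== PACK-END LT/T7/H157/BlocksAsm.lean

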