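import Mathlib
import Fermat.Agent.Pack.LT3.E22L2
import Fermat.Agent.Pack.LT3.E28L3
import Fermat.Agent.Pack.LT3.E24L3
import Fermat.Agent.Pack.LT3.E5L2
import Fermat.Agent.Pack.LT3.E7L1
import Fermat.Agent.Pack.LT3.E17L1
import Fermat.Agent.Pack.LT3.E6L3
import Fermat.Agent.Pack.LT3.E10L1
import Fermat.Agent.Pack.LT3.E17L0
import Fermat.Agent.Pack.LT3.E13L3
import Fermat.Agent.Pack.LT3.E13L0
import Fermat.Agent.Pack.LT3.E17L2
import Fermat.Agent.Pack.LT3.E22L0
import Fermat.Agent.Pack.LT3.E28L0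
import Fermat.Agent.Pack.LT3.E23L1
import Fermat.Agent.Pack.LT3.E25L1
import Fermat.Agent.Pack.LT3.E27L0
import Fermat.Agent.Pack.LT2.E10L0
import Fermat.Agent.Pack.LT3.E24L1
import Fermat.Agent.Pack.LT3.E26L1
import Fermat.Agent.Pack.LT3.E24L2
import Fermat.Agent.Pack.LT3.E13L1
import Fermat.Agent.Pack.LT3.E25L3

set_option linter.all false

-- ===== PACK-BEGIN LT/T7/H305/Match893Spec.lean
section





/-!
# Row LT, tower T7, station C2 (helper305): THE MATCHING THEOREM FOR `H893.LocHyp893` -- Spec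

OFF-MAIN.  Definitions and frozen Props only (the proved tops are `Match893Top.lean`).  No hole,
nothing assumed.  ADDITIVE (new names only, suffix `305b`).  Vocabulary: `MatchSpec.lean` v2,
`MatchCut.lean` (helper305), `T7/H893/SupplyConstrSpec2.lean` (helper893@747c1bdc4:
`LocHyp893`, `GlobMatchC893`), `T7/H340/FactUpSpec.lean` (helper340@b1879b9c4), byte-identical.

## WHY

`H305.LocHyp305.split` asks the convolution identity for EVERY enumeration of the places over a
split place (all rotations); at the BAD split places this is not satisfiable (referees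
helper248, helper950; helper893 fifth cut v2).  `H893.LocHyp893` asks it for ONE enumeration.
The matching theorem for `LocHyp893` is `H893.GlobMatchC893`.  Only the SPLIT clause changes:

    globMatch_of305b : (leaves of the first cut) → CutIntC305b K K' → H893.GlobMatchC893 K K'
    cutIntC_of305b   : (leaves of the second cut) → UnitMatchC305b K K' → FactUpC305b K K'
                         → CutIntC305b K K'
    factUpC_of305b   : UpFactC305b K K' → H340.LocEqInertC340 K K' → LocEqSplitC305b K K'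
                         → H340.LocEqArchC340 K K' → FactUpC305b K K'

* `CutIntC305b`, `UnitMatchC305b`, `FactUpC305b`, `UpFactC305b`: the Props `CutIntC305`,
  `UnitMatchC305`, `FactUpC305`, `H340.UpFactC340` with `LocHyp893` in place of `LocHyp305`
  (same proofs: the proofs use the clauses `inv_up`, `inv_down`, `arch_up`, `arch_down`,
  `inert`, `arch`, and at a split place the ONE enumeration of the hypothesis).
* `IsSplitVal305b`: `J` is the split integral upstairs FOR AN ENUMERATION FOR WHICH THE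
  CONVOLUTION IDENTITY HOLDS (and the levels agree).  `UpFactC305b` takes the enumeration of
  `LocHyp893.split`; the value of the split integral does not depend on the enumeration, but
  this is not needed.
* `LocEqSplitC305b`: `J = I_v` for such a `J` (the proof of `H340.LocEqSplitC340`, with the
  enumeration of `IsSplitVal305b`).
* The local equalities at the inert places and at the infinite places are the CLOSED leaves of
  helper340 (`LocHyp305` for the set `{v}`, resp. `∅`, follows from `LocHyp893`: the split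
  clause is void).
-/

set_option autoImplicit false

open AutomorphicForm IsDedekindDomain NumberField MeasureTheory
open scoped ComplexConjugate

noncomputable section

namespace Fermat.Agent.LT.T7.H305

open Fermat.Agent.LT.H556 Fermat.Agent.LT.H556.A0 Fermat.Agent.LT.T7

attribute [local instance] Fermat.Agent.LT.T5.instMeasurableSpaceG

section Val

variable {K K' : Type} [Field K] [NumberField K] [Field K'] [NumberField K'] [Algebra K K']

/-- `J` is THE LOCAL TWISTED INTEGRAL UPSTAIRS at the SPLIT place `v`, in the coordinates of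
`K_v`, with the local Haar measure and the local cut-off function DOWNSTAIRS, for an
enumeration of the places over `v` for which THE LEVELS AGREE AND THE CONVOLUTION IDENTITY
HOLDS. -/
def IsSplitVal305b (D : CompData K K')
    (n : HeightOneSpectrum (𝓞 K') → ℕ) (m : HeightOneSpectrum (𝓞 K) → ℕ)
    (φ₀ : ∀ w : HeightOneSpectrum (𝓞 K'), GL (Fin 2) (w.adicCompletion K') → ℂ)
    (f₀ : ∀ v : HeightOneSpectrum (𝓞 K), GL (Fin 2) (v.adicCompletion K) → ℂ)
    (δ : GL (Fin 2) K') {γ : GL (Fin 2) K} (L : LocData305 K γ)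
    (v : HeightOneSpectrum (𝓞 K)) (J : ℂ) : Prop :=
  ∃ (hl : 0 < D.l) (w : ℕ → HeightOneSpectrum (𝓞 K'))
    (i : ∀ j : ℕ, v.adicCompletion K ≃+* (w j).adicCompletion K'),
    (∀ j : ℕ, PlaceOver K K' v (w j)) ∧
    (∀ j : ℕ, T5.PlaceRel D.s (w (j + 1)) (w j)) ∧
    (∀ j : ℕ, 0 < j → j < D.l → w j ≠ w 0) ∧
    (∀ (j : ℕ) (x : K), i j (algebraMap K (v.adicCompletion K) x)
      = algebraMap K' ((w j).adicCompletion K') (algebraMap K K' x)) ∧
    (∀ (j : ℕ) (x : v.adicCompletion K), Valued.v (i j x) = Valued.v x) ∧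
    (∀ j : ℕ, n (w j) = m v) ∧
    T6.IsConvProd (T6.InU (m v)) D.l
      (fun j g => φ₀ (w j)
        (Matrix.GeneralLinearGroup.map ((i j : v.adicCompletion K ≃+* _) :
          v.adicCompletion K →+* (w j).adicCompletion K') g))
      (f₀ v) ∧
    J = H340.splitInt340 D.l hl (L.μv v) (L.βv v)
        (fun j g => φ₀ (w j)
          (Matrix.GeneralLinearGroup.map ((i j : v.adicCompletion K ≃+* _) :
            v.adicCompletion K →+* (w j).adicCompletion K') g))
        (fun j => Matrix.GeneralLinearGroup.map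
          (((i j).symm : (w j).adicCompletion K' ≃+* _) :
            (w j).adicCompletion K' →+* v.adicCompletion K) (locG305 (w j) δ))

end Val

section Props

variable (K K' : Type) [Field K] [NumberField K] [Field K'] [NumberField K'] [Algebra K K']

/-- **NODE C2.7b = CUT-INT for `LocHyp893`.**  `CutIntC305` with `H893.LocHyp893`. -/
def CutIntC305b : Prop :=
  ∀ D : CompData K K', IsCompData D → IsCycExt K K' D.l → D.l ≠ 2 → TotCplx K →
    ∀ ι : Adl K →+* Adl K', IsAdeleBase305 D.s D.l ι →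
    ∀ μc : @Measure (GL (Fin 2) ℂ) (borel _), @Measure.IsHaarMeasure _ _ _ (borel _) μc →
    ∀ (T₀ : Finset (HeightOneSpectrum (𝓞 K))), UnramOut305 (K' := K') T₀ →
    ∀ (n : HeightOneSpectrum (𝓞 K') → ℕ) (m : HeightOneSpectrum (𝓞 K) → ℕ),
      IsLevelAt305 T₀ n m →
    ∃ κ : ℂ, κ ≠ 0 ∧
      ∀ (T : Finset (HeightOneSpectrum (𝓞 K))) (T' : Finset (HeightOneSpectrum (𝓞 K'))),
        T₀ ⊆ T → IsOver305 T T' →
      ∀ (φ₀ : ∀ w : HeightOneSpectrum (𝓞 K'), GL (Fin 2) (w.adicCompletion K') → ℂ)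
        (Φ : InfinitePlace K' → GL (Fin 2) ℂ → ℂ)
        (f₀ : ∀ v : HeightOneSpectrum (𝓞 K), GL (Fin 2) (v.adicCompletion K) → ℂ)
        (F : InfinitePlace K → GL (Fin 2) ℂ → ℂ),
        H893.LocHyp893 D μc T n m φ₀ Φ f₀ F →
        (∀ (δ : GL (Fin 2) K') (γ : GL (Fin 2) K), T6.IsEll γ →
          D.s.normUpTo D.l δ = Matrix.GeneralLinearGroup.map (algebraMap K K') γ →
          ∀ (μT : @Measure (tA305 (T5.AdelicAut.id K) γ) (borel _))
            (μT' : @Measure (tA305 D.s δ) (borel _)),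
            @Measure.IsHaarMeasure _ _ _ (borel _) μT →
            @Measure.IsHaarMeasure _ _ _ (borel _) μT' →
            IsTorLinked305 ι D.s δ γ μT μT' →
            ∃ β' : G K' → ℝ, ∃ β : G K → ℝ,
              IsCutOn305 D.s δ μT' β'
                {x | T5.twTerm D.R'.r D.s (pure305 T' φ₀ Φ) δ x ≠ 0} ∧
              IsCutOn305 (T5.AdelicAut.id K) γ μT β
                {x | T5.twTerm D.R.r (T5.AdelicAut.id K) (pure305 T f₀ F) γ x ≠ 0} ∧
              cutInt305 D.R'.r D.s (pure305 T' φ₀ Φ) δ D.R'.μ β'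
                = κ * cutInt305 D.R.r (T5.AdelicAut.id K) (pure305 T f₀ F) γ D.R.μ β) ∧
        ∀ γ : GL (Fin 2) K, T6.IsEll γ → (¬ ∃ δ : GL (Fin 2) K', IsNormOf D δ γ) →
          ∀ μT : @Measure (tA305 (T5.AdelicAut.id K) γ) (borel _),
            @Measure.IsHaarMeasure _ _ _ (borel _) μT →
            ∃ β : G K → ℝ,
              IsCutOn305 (T5.AdelicAut.id K) γ μT β
                {x | T5.twTerm D.R.r (T5.AdelicAut.id K) (pure305 T f₀ F) γ x ≠ 0} ∧
              cutInt305 D.R.r (T5.AdelicAut.id K) (pure305 T f₀ F) γ D.R.μ β = 0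

/-- **LEAF C2.7.11b = UNIT-MATCH for `LocHyp893`.**  `UnitMatchC305` with `H893.LocHyp893`.
Proof.  The proof of `UnitMatchC305` (helper195 `unitMatchC195`); `split` at `v ∈ T`: the
enumeration of the hypothesis; at a split `v ∈ S \ T`: an enumeration exists (`l` places over
`v`, in the order of the orbit of `σ`; `T6.InstSplitC`), unit components, levels `0`. -/
def UnitMatchC305b : Prop :=
  T6.T6Out →
  ∀ D : CompData K K', IsCompData D → IsCycExt K K' D.l → D.l ≠ 2 → TotCplx K →
    ∀ μc : @Measure (GL (Fin 2) ℂ) (borel _), @Measure.IsHaarMeasure _ _ _ (borel _) μc →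
    ∀ (T₀ : Finset (HeightOneSpectrum (𝓞 K))), UnramOut305 (K' := K') T₀ →
    ∀ (n : HeightOneSpectrum (𝓞 K') → ℕ) (m : HeightOneSpectrum (𝓞 K) → ℕ),
      IsLevelAt305 T₀ n m →
    ∀ (T S : Finset (HeightOneSpectrum (𝓞 K))) (T' S' : Finset (HeightOneSpectrum (𝓞 K'))),
      T₀ ⊆ T → T ⊆ S → IsOver305 T T' → IsOver305 S S' →
    ∀ (φ₀ : ∀ w : HeightOneSpectrum (𝓞 K'), GL (Fin 2) (w.adicCompletion K') → ℂ)
      (Φ : InfinitePlace K' → GL (Fin 2) ℂ → ℂ)
      (f₀ : ∀ v : HeightOneSpectrum (𝓞 K), GL (Fin 2) (v.adicCompletion K) → ℂ)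
      (F : InfinitePlace K → GL (Fin 2) ℂ → ℂ),
      H893.LocHyp893 D μc T n m φ₀ Φ f₀ F →
      H893.LocHyp893 D μc S n m (ext305 T' φ₀) Φ (ext305 T f₀) F

/-- **NODE C2.7.13b = FACT-UP for `LocHyp893`.**  `FactUpC305` with `H893.LocHyp893`. -/
def FactUpC305b : Prop :=
  T6.T6Out →
  ∀ D : CompData K K', IsCompData D → IsCycExt K K' D.l → D.l ≠ 2 → TotCplx K →
    ∀ ι : Adl K →+* Adl K', IsAdeleBase305 D.s D.l ι →
    ∀ μc : @Measure (GL (Fin 2) ℂ) (borel _), @Measure.IsHaarMeasure _ _ _ (borel _) μc →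
    ∀ (T₀ : Finset (HeightOneSpectrum (𝓞 K))), UnramOut305 (K' := K') T₀ →
    ∀ (n : HeightOneSpectrum (𝓞 K') → ℕ) (m : HeightOneSpectrum (𝓞 K) → ℕ),
      IsLevelAt305 T₀ n m →
    ∃ cG' : ℝ, 0 < cG' ∧
      ∀ (S : Finset (HeightOneSpectrum (𝓞 K))) (S' : Finset (HeightOneSpectrum (𝓞 K'))),
        T₀ ⊆ S → IsOver305 S S' →
      ∀ (φ₀ : ∀ w : HeightOneSpectrum (𝓞 K'), GL (Fin 2) (w.adicCompletion K') → ℂ)
        (Φ : InfinitePlace K' → GL (Fin 2) ℂ → ℂ)
        (f₀ : ∀ v : HeightOneSpectrum (𝓞 K), GL (Fin 2) (v.adicCompletion K) → ℂ)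
        (F : InfinitePlace K → GL (Fin 2) ℂ → ℂ),
        H893.LocHyp893 D μc S n m φ₀ Φ f₀ F →
      ∀ (δ : GL (Fin 2) K') (γ : GL (Fin 2) K), T6.IsEll γ →
        D.s.normUpTo D.l δ = Matrix.GeneralLinearGroup.map (algebraMap K K') γ →
        GoodOut305 S γ → IntOut305 S' δ →
      ∀ (μT : @Measure (tA305 (T5.AdelicAut.id K) γ) (borel _))
        (μT' : @Measure (tA305 D.s δ) (borel _)),
        @Measure.IsHaarMeasure _ _ _ (borel _) μT →
        @Measure.IsHaarMeasure _ _ _ (borel _) μT' →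
        IsTorLinked305 ι D.s δ γ μT μT' →
      ∀ (L : LocData305 K γ) (cT : ℝ), IsLocData305 m L → 0 < cT → IsTorConst305 γ μT L cT →
        ∃ β' : G K' → ℝ,
          IsCutOn305 D.s δ μT' β'
              {x | T5.twTerm D.R'.r D.s (pure305 S' φ₀ Φ) δ x ≠ 0} ∧
            cutInt305 D.R'.r D.s (pure305 S' φ₀ Φ) δ D.R'.μ β'
              = ((cG' / cT : ℝ) : ℂ) * factVal305 D.R.r S L f₀ μc F

/-- **NODE C2.7.13.1b = UP-FACT for `LocHyp893`.**  `H340.UpFactC340` with `H893.LocHyp893`; at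
the split places the value `J v` is the split integral for the enumeration of
`LocHyp893.split` (`IsSplitVal305b`). -/
def UpFactC305b : Prop :=
  T6.T6Out →
  ∀ D : CompData K K', IsCompData D → IsCycExt K K' D.l → D.l ≠ 2 → TotCplx K →
    ∀ ι : Adl K →+* Adl K', IsAdeleBase305 D.s D.l ι →
    ∀ μc : @Measure (GL (Fin 2) ℂ) (borel _), @Measure.IsHaarMeasure _ _ _ (borel _) μc →
    ∀ (T₀ : Finset (HeightOneSpectrum (𝓞 K))), UnramOut305 (K' := K') T₀ →
    ∀ (n : HeightOneSpectrum (𝓞 K') → ℕ) (m : HeightOneSpectrum (𝓞 K) → ℕ),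
      IsLevelAt305 T₀ n m →
    ∃ cG' : ℝ, 0 < cG' ∧
      ∀ (S : Finset (HeightOneSpectrum (𝓞 K))) (S' : Finset (HeightOneSpectrum (𝓞 K'))),
        T₀ ⊆ S → IsOver305 S S' →
      ∀ (φ₀ : ∀ w : HeightOneSpectrum (𝓞 K'), GL (Fin 2) (w.adicCompletion K') → ℂ)
        (Φ : InfinitePlace K' → GL (Fin 2) ℂ → ℂ)
        (f₀ : ∀ v : HeightOneSpectrum (𝓞 K), GL (Fin 2) (v.adicCompletion K) → ℂ)
        (F : InfinitePlace K → GL (Fin 2) ℂ → ℂ),
        H893.LocHyp893 D μc S n m φ₀ Φ f₀ F →
      ∀ (δ : GL (Fin 2) K') (γ : GL (Fin 2) K), T6.IsEll γ →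
        D.s.normUpTo D.l δ = Matrix.GeneralLinearGroup.map (algebraMap K K') γ →
        GoodOut305 S γ → IntOut305 S' δ →
      ∀ (μT : @Measure (tA305 (T5.AdelicAut.id K) γ) (borel _))
        (μT' : @Measure (tA305 D.s δ) (borel _)),
        @Measure.IsHaarMeasure _ _ _ (borel _) μT →
        @Measure.IsHaarMeasure _ _ _ (borel _) μT' →
        IsTorLinked305 ι D.s δ γ μT μT' →
      ∀ (L : LocData305 K γ) (cT : ℝ), IsLocData305 m L → 0 < cT → IsTorConst305 γ μT L cT →
        ∃ (β' : G K' → ℝ) (J : HeightOneSpectrum (𝓞 K) → ℂ) (Jc : InfinitePlace K → ℤ → ℂ),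
          IsCutOn305 D.s δ μT' β'
              {x | T5.twTerm D.R'.r D.s (pure305 S' φ₀ Φ) δ x ≠ 0} ∧
            cutInt305 D.R'.r D.s (pure305 S' φ₀ Φ) δ D.R'.μ β'
              = ((cG' / cT : ℝ) : ℂ)
                * ∑' j : ℤ, (∏ v ∈ S, J v) * ∏ w : InfinitePlace K, Jc w j ∧
            (∀ v ∈ S, H340.IsInertVal340 D n φ₀ δ v (J v) ∨ IsSplitVal305b D n m φ₀ f₀ δ L v (J v)) ∧
            ∀ (w : InfinitePlace K) (j : ℤ), H340.IsArchVal340 D ι Φ δ L μc w j (Jc w j)

/-- **LEAF C2.7.13.3b = LOC-EQ-SPLIT for ONE enumeration.**  `H340.LocEqSplitC340` for the values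
`IsSplitVal305b` (the convolution identity for the enumeration of the value). -/
def LocEqSplitC305b : Prop :=
  T6.T6Out →
  ∀ D : CompData K K', IsCompData D → IsCycExt K K' D.l → D.l ≠ 2 → TotCplx K →
    ∀ (μc : @Measure (GL (Fin 2) ℂ) (borel _)) (S : Finset (HeightOneSpectrum (𝓞 K)))
      (n : HeightOneSpectrum (𝓞 K') → ℕ) (m : HeightOneSpectrum (𝓞 K) → ℕ)
      (φ₀ : ∀ w : HeightOneSpectrum (𝓞 K'), GL (Fin 2) (w.adicCompletion K') → ℂ)
      (Φ : InfinitePlace K' → GL (Fin 2) ℂ → ℂ)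
      (f₀ : ∀ v : HeightOneSpectrum (𝓞 K), GL (Fin 2) (v.adicCompletion K) → ℂ)
      (F : InfinitePlace K → GL (Fin 2) ℂ → ℂ),
      H893.LocHyp893 D μc S n m φ₀ Φ f₀ F →
    ∀ (δ : GL (Fin 2) K') (γ : GL (Fin 2) K), T6.IsEll γ →
      D.s.normUpTo D.l δ = Matrix.GeneralLinearGroup.map (algebraMap K K') γ →
    ∀ L : LocData305 K γ, IsLocData305 m L →
    ∀ v ∈ S, ∀ J : ℂ, IsSplitVal305b D n m φ₀ f₀ δ L v J →
      J = locInt305 (L.μv v) (L.βv v) (f₀ v) (locG305 v γ)

end Props

end Fermat.Agent.LT.T7.H305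

end

end
-- ===== PACK-END LT/T7/H305/Match893Spec.lean

-- ===== PACK-BEGIN LT/T7/H662/LocEqSplit.lean
section











/-!
# Row LT, tower T7, leaf C2.7.13.3 `LocEqSplitC340` (helper662; registry row 2622)

OFF-MAIN.  Complete proofs, nothing assumed.

    locEqSplitC662     : T7.H340.LocEqSplitC340 K K'      (VERBATIM, `FactUpSpec.lean` 786596dd)
    locEqSplitC305b662 : T7.H305.LocEqSplitC305b K K'     (VERBATIM, `Match893Spec.lean` d1d042d0)

both from ONE core (`locEqSplit_core662`): at a split place, for an enumeration `w j`,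
`i j : K_v ≃ K'_{w j}` for which the levels agree and the convolution identity holds, the split
integral upstairs is the local cut-off integral downstairs.

Proof.  (1) `δ_0 ⋯ δ_{l-1} = γ_v` (`NormProd.lean`: density of `K` in `K_v`, asset helper415).
(2) The components `φ_j = φ₀_{w_j} ∘ i_j` are bi-`U(m_v)`-invariant of finite support, hence
measurable, bounded, integrable (`FinSupp.lean`).  (3) Fubini along the chain
(`ChainFubini.lean`, the split integral identity of helper159 `iterL_eq159`): the split integral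
is `∫ (φ_0 * ⋯ * φ_{l-1})(y⁻¹ γ_v y) β(y) dμ(y)`, PROVIDED the orbital integrand of
`‖φ_0‖ * ⋯ * ‖φ_{l-1}‖` is integrable: the latter is bi-invariant of finite support (compact
open `U(m_v)`: helper420), it has an orbit sum (`T6.OrbSumExC`, `γ_v` regular) and the orbital
integrand is integrable (asset helper584 `orbIntegrable584`).  (4) The convolution of T6 is the
convolution integral (asset helper584 `convL_eq_of_isConvProd584`): `φ_0 * ⋯ * φ_{l-1} = f₀_v`.
-/

set_option autoImplicit false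
set_option linter.unusedSectionVars false
set_option linter.style.haveILetI false
set_option linter.unusedVariables false

open AutomorphicForm IsDedekindDomain NumberField MeasureTheory

noncomputable section

namespace Fermat.Agent.LT.T7.H662

open Fermat.Agent.LT Fermat.Agent.LT.H556 Fermat.Agent.LT.H556.A0 Fermat.Agent.LT.T7
  Fermat.Agent.LT.T7.H305 Fermat.Agent.LT.T7.H159

/-! ## 1. Local lemmas -/

section Local

variable {k k' : Type} [Field k] [Field k'] [Valued k T6.Γ₀] [Valued k' T6.Γ₀]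

theorem glmap_inv_apply662 (f : k →+* k') (g : GL (Fin 2) k) (a b : Fin 2) :
    (((Matrix.GeneralLinearGroup.map f g)⁻¹ : GL (Fin 2) k') : Matrix (Fin 2) (Fin 2) k') a b
      = f (((g⁻¹ : GL (Fin 2) k) : Matrix (Fin 2) (Fin 2) k) a b) := by
  rw [← map_inv]
  rfl

theorem one_apply_map662 (f : k →+* k') (a b : Fin 2) :
    (1 : Matrix (Fin 2) (Fin 2) k') a b = f ((1 : Matrix (Fin 2) (Fin 2) k) a b) := by
  by_cases h : a = b
  · rw [h, Matrix.one_apply_eq, Matrix.one_apply_eq, map_one]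
  · rw [Matrix.one_apply_ne h, Matrix.one_apply_ne h, map_zero]

/-- A valuation preserving isomorphism preserves the congruence subgroups. -/
theorem inU_map662 (i : k ≃+* k') (hv : ∀ x : k, Valued.v (i x) = Valued.v x) (n : ℕ)
    (g : GL (Fin 2) k) (hg : T6.InU n g) :
    T6.InU n (Matrix.GeneralLinearGroup.map (i : k →+* k') g) := by
  intro a b
  obtain ⟨h1, h2⟩ := hg a b
  constructor
  · rw [glmap_apply662, one_apply_map662 (i : k →+* k') a b, ← map_sub]
    show Valued.v (i _) ≤ _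
    rw [hv]
    exact h1
  · rw [glmap_inv_apply662, one_apply_map662 (i : k →+* k') a b, ← map_sub]
    show Valued.v (i _) ≤ _
    rw [hv]
    exact h2

theorem glmap_symm_map662 (i : k ≃+* k') (g : GL (Fin 2) k) :
    Matrix.GeneralLinearGroup.map ((i.symm : k' ≃+* k) : k' →+* k)
      (Matrix.GeneralLinearGroup.map (i : k →+* k') g) = g := by
  apply Units.ext
  ext a b
  show i.symm (i ((g : Matrix (Fin 2) (Fin 2) k) a b)) = _
  rw [RingEquiv.symm_apply_apply]

theorem glAut_refl662 (g : GL (Fin 2) k) : T6.glAut (RingEquiv.refl k) g = g := by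
  apply Units.ext
  ext a b
  rfl

theorem twNorm_one662 (s : k ≃+* k) (δ : GL (Fin 2) k) : T6.twNorm s 1 δ = δ := by
  show δ * T6.glAut s 1 = δ
  rw [map_one, mul_one]

/-- The trivial extension of local fields. -/
theorem isLocalExt_refl662 : T6.IsLocalExt k k 1 1 (RingHom.id k) (RingEquiv.refl k) where
  cyc :=
    { pos := Nat.one_pos
      fix_i := fun _ => rfl
      fixed := fun y _ => ⟨y, rfl⟩
      order := fun _ => rfl
      faithful := fun m h1 h2 => absurd h1 (by omega) }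
  e_pos := Nat.one_pos
  val_i := fun x => (pow_one _).symm
  val_s := fun _ => rfl

end Local

section Disc

variable {k k' : Type} [Field k] [Field k']

theorem disc_map662 (f : k →+* k') (g : GL (Fin 2) k) :
    T6.disc (Matrix.GeneralLinearGroup.map f g) = f (T6.disc g) := by
  show ((Matrix.GeneralLinearGroup.map f g : GL (Fin 2) k') : Matrix (Fin 2) (Fin 2) k').trace ^ 2
      - 4 * ((Matrix.GeneralLinearGroup.map f g : GL (Fin 2) k') :
          Matrix (Fin 2) (Fin 2) k').det
    = f ((g : Matrix (Fin 2) (Fin 2) k).trace ^ 2 - 4 * (g : Matrix (Fin 2) (Fin 2) k).det)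
  rw [Matrix.trace_fin_two, Matrix.det_fin_two, Matrix.trace_fin_two, Matrix.det_fin_two]
  simp only [glmap_apply662, map_sub, map_mul, map_add, map_pow, map_ofNat]

theorem isReg_map662 (f : k →+* k') (g : GL (Fin 2) k) (hg : T6.IsReg g) :
    T6.IsReg (Matrix.GeneralLinearGroup.map f g) := by
  show IsUnit (T6.disc (Matrix.GeneralLinearGroup.map f g))
  rw [disc_map662]
  exact IsUnit.map f hg

end Disc

/-! ## 2. The core -/

section Core

variable {K K' : Type} [Field K] [NumberField K] [Field K'] [NumberField K'] [Algebra K K']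

theorem instLocal_of_T6Out662 (h : T6.T6Out) : T6.InstLocalC := h.2.2.2.2.2.1

theorem orbSumEx_of_T6Out662 (h : T6.T6Out) : T6.OrbSumExC := h.2.2.2.2.2.2.2.2.1

/-- **THE CORE**: the split integral upstairs is the local cut-off integral downstairs. -/
theorem locEqSplit_core662 (hT6 : T6.T6Out) (D : CompData K K') (hD : IsCompData D)
    (n : HeightOneSpectrum (𝓞 K') → ℕ) (m : HeightOneSpectrum (𝓞 K) → ℕ)
    (φ₀ : ∀ w : HeightOneSpectrum (𝓞 K'), GL (Fin 2) (w.adicCompletion K') → ℂ)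
    (f₀ : ∀ v : HeightOneSpectrum (𝓞 K), GL (Fin 2) (v.adicCompletion K) → ℂ)
    (δ : GL (Fin 2) K') (γ : GL (Fin 2) K) (hEll : T6.IsEll γ)
    (hN : D.s.normUpTo D.l δ = Matrix.GeneralLinearGroup.map (algebraMap K K') γ)
    (L : LocData305 K γ) (hL : IsLocData305 m L)
    (v : HeightOneSpectrum (𝓞 K)) (hl : 0 < D.l) (w : ℕ → HeightOneSpectrum (𝓞 K'))
    (i : ∀ j : ℕ, v.adicCompletion K ≃+* (w j).adicCompletion K')
    (hrel : ∀ j : ℕ, T5.PlaceRel D.s (w (j + 1)) (w j))
    (hi : ∀ (j : ℕ) (x : K), i j (algebraMap K (v.adicCompletion K) x)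
      = algebraMap K' ((w j).adicCompletion K') (algebraMap K K' x))
    (hv : ∀ (j : ℕ) (x : v.adicCompletion K), Valued.v (i j x) = Valued.v x)
    (hup : ∀ j : ℕ, T6.IsBiInv (T6.InU (n (w j))) (φ₀ (w j)) ∧
      T6.HasFinSupp (T6.InU (n (w j))) (φ₀ (w j)))
    (hlev : ∀ j : ℕ, n (w j) = m v)
    (hconv : T6.IsConvProd (T6.InU (m v)) D.l
      (fun j g => φ₀ (w j)
        (Matrix.GeneralLinearGroup.map ((i j : v.adicCompletion K ≃+* _) :
          v.adicCompletion K →+* (w j).adicCompletion K') g))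
      (f₀ v)) :
    H340.splitInt340 D.l hl (L.μv v) (L.βv v)
        (fun j g => φ₀ (w j)
          (Matrix.GeneralLinearGroup.map ((i j : v.adicCompletion K ≃+* _) :
            v.adicCompletion K →+* (w j).adicCompletion K') g))
        (fun j => Matrix.GeneralLinearGroup.map
          (((i j).symm : (w j).adicCompletion K' ≃+* _) :
            (w j).adicCompletion K' →+* v.adicCompletion K) (locG305 (w j) δ))
      = locInt305 (L.μv v) (L.βv v) (f₀ v) (locG305 v γ) := by
  classical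
  -- the local field and the group
  have hk : T6.IsLocalField (v.adicCompletion K) (Ideal.absNorm v.asIdeal) :=
    instLocal_of_T6Out662 hT6 K v
  obtain ⟨ϖ, hϖ⟩ := hk.unif
  letI : MeasurableSpace (GL (Fin 2) (v.adicCompletion K)) := borel _
  haveI : BorelSpace (GL (Fin 2) (v.adicCompletion K)) := ⟨rfl⟩
  haveI : SecondCountableTopology (GL (Fin 2) (v.adicCompletion K)) :=
    T6.H584.secondCountable_GL584 hk
  haveI : LocallyCompactSpace (GL (Fin 2) (v.adicCompletion K)) :=
    T6.H420.locallyCompactSpace_GL hk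
  haveI : SigmaCompactSpace (GL (Fin 2) (v.adicCompletion K)) := T6.H420.sigmaCompactSpace_GL hk
  -- the measure
  obtain ⟨hμH, hμU⟩ := hL.haar v
  haveI : (L.μv v).IsHaarMeasure := hμH
  set μ : Measure (GL (Fin 2) (v.adicCompletion K)) := L.μv v with hμ
  set U : Subgroup (GL (Fin 2) (v.adicCompletion K)) := T6.H420.subU (m v) with hU
  have hUo : IsOpen (U : Set (GL (Fin 2) (v.adicCompletion K))) := T6.H420.isOpen_subU hϖ (m v)
  have hUc : IsCompact (U : Set (GL (Fin 2) (v.adicCompletion K))) :=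
    T6.H420.isCompact_subU hk (m v)
  have hμU' : μ (U : Set (GL (Fin 2) (v.adicCompletion K))) = 1 := hμU
  -- the components
  set φ : ℕ → GL (Fin 2) (v.adicCompletion K) → ℂ := fun j g => φ₀ (w j)
    (Matrix.GeneralLinearGroup.map ((i j : v.adicCompletion K ≃+* _) :
      v.adicCompletion K →+* (w j).adicCompletion K') g) with hφdef
  have hφbi : ∀ j, T6.IsBiInv (fun g => g ∈ U) (φ j) := by
    intro j u u' g hu hu'
    show φ₀ (w j) (Matrix.GeneralLinearGroup.map _ (u * g * u'))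
      = φ₀ (w j) (Matrix.GeneralLinearGroup.map _ g)
    rw [map_mul, map_mul]
    refine (hup j).1 _ _ _ ?_ ?_
    · rw [hlev j]
      exact inU_map662 (i j) (hv j) (m v) u hu
    · rw [hlev j]
      exact inU_map662 (i j) (hv j) (m v) u' hu'
  have hφfs : ∀ j, T6.HasFinSupp (fun g => g ∈ U) (φ j) := by
    intro j
    obtain ⟨F, hF⟩ := (hup j).2
    refine ⟨F.image (Matrix.GeneralLinearGroup.map
      (((i j).symm : (w j).adicCompletion K' ≃+* _) :
        (w j).adicCompletion K' →+* v.adicCompletion K)), fun g hg => ?_⟩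
    obtain ⟨x, hx, u, hu, hxu⟩ := hF _ hg
    refine ⟨_, Finset.mem_image_of_mem _ hx, Matrix.GeneralLinearGroup.map
      (((i j).symm : (w j).adicCompletion K' ≃+* _) :
        (w j).adicCompletion K' →+* v.adicCompletion K) u, ?_, ?_⟩
    · rw [hlev j] at hu
      exact inU_map662 (i j).symm (valued_symm662 (i j) (hv j)) (m v) u hu
    · rw [← map_mul, ← hxu, glmap_symm_map662]
  -- goodness
  have hgood : ∀ j, IsGood662 μ (φ j) := fun j =>
    isGood_of_finSupp662 U hUo μ hμU' (rightInv_of_biInv662 U (hφbi j)) (hφfs j)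
  -- the convolution
  have hUV : H584.IsUnitVol584 μ (fun g => g ∈ U) :=
    { one := U.one_mem
      mul := fun a b ha hb => U.mul_mem ha hb
      inv := fun a ha => U.inv_mem ha
      meas := hUo.measurableSet
      vol := hμU' }
  have hf : f₀ v = convL159 μ φ (D.l - 1) :=
    H584.convL_eq_of_isConvProd584 hUV D.l φ (f₀ v) hφbi hconv
  -- the norm
  have hfix : ∀ x : K, D.s.σ (algebraMap K K' x) = algebraMap K K' x := fun x =>
    (hD.cyc.fixed _).1 ((hD.base _).2 ⟨x, rfl⟩)
  set δ' : ℕ → GL (Fin 2) (v.adicCompletion K) := fun j => Matrix.GeneralLinearGroup.map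
    (((i j).symm : (w j).adicCompletion K' ≃+* _) :
      (w j).adicCompletion K' →+* v.adicCompletion K) (locG305 (w j) δ) with hδ'
  have hprod : prodFrom159 δ' D.l 0 = locG305 v γ :=
    prodFrom_eq662 D.s hfix v w i hrel hi hv δ γ D.l hN
  -- the cut-off
  obtain ⟨hβc, hβ0, hβ1⟩ := hL.cut v
  obtain ⟨hμT, hμTc⟩ := hL.tor v
  -- integrability of the orbital integrand of the convolution of the norms
  set Ψ : ℕ → GL (Fin 2) (v.adicCompletion K) → ℂ := fun j g => ((‖φ j g‖ : ℝ) : ℂ) with hΨ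
  have hΨbi : ∀ j, T6.IsBiInv (fun g => g ∈ U) (Ψ j) := fun j => biInv_norm662 U (hφbi j)
  have hΨfs : ∀ j, T6.HasFinSupp (fun g => g ∈ U) (Ψ j) := fun j => finSupp_norm662 U (hφfs j)
  have hGbi : T6.IsBiInv (T6.InU (m v)) (convL159 μ Ψ (D.l - 1)) :=
    convL_biInv662 U μ hΨbi (D.l - 1)
  have hGfs : T6.HasFinSupp (T6.InU (m v)) (convL159 μ Ψ (D.l - 1)) :=
    convL_finSupp662 U hUo hUc μ hΨfs (D.l - 1)
  have hreg : T6.IsReg (T6.twNorm (RingEquiv.refl (v.adicCompletion K)) 1 (locG305 v γ)) := by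
    rw [twNorm_one662]
    exact isReg_map662 _ γ hEll.1
  have hk1 : T6.IsLocalField (v.adicCompletion K) (Ideal.absNorm v.asIdeal ^ (1 / 1)) := by
    have e : Ideal.absNorm v.asIdeal ^ (1 / 1) = Ideal.absNorm v.asIdeal := by norm_num
    rw [e]
    exact hk
  obtain ⟨c, hc⟩ := orbSumEx_of_T6Out662 hT6 (v.adicCompletion K) (v.adicCompletion K)
    (Ideal.absNorm v.asIdeal) 1 1 (RingHom.id _) (RingEquiv.refl _) hk hk1 isLocalExt_refl662
    (m v) (convL159 μ Ψ (D.l - 1)) hGbi hGfs (locG305 v γ) hreg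
  have hint0 := T6.H584.orbIntegrable584 (v.adicCompletion K) (Ideal.absNorm v.asIdeal) 1
    (RingEquiv.refl _) hk (fun _ => rfl) Nat.one_pos (fun _ => rfl) (m v)
    (convL159 μ Ψ (D.l - 1)) hGbi hGfs (locG305 v γ) c hreg hc (L.μv v) hμH hμU (L.μt v) hμT hμTc
    (L.βv v) hβc hβ0 hβ1
  have hI : Integrable (fun y : GL (Fin 2) (v.adicCompletion K) =>
      convL159 μ Ψ (D.l - 1) (y⁻¹ * prodFrom159 δ' D.l 0 * y) * ((L.βv v y : ℝ) : ℂ)) μ := by
    rw [hprod]
    have e : (fun y : GL (Fin 2) (v.adicCompletion K) =>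
        convL159 μ Ψ (D.l - 1) (y⁻¹ * locG305 v γ * y) * ((L.βv v y : ℝ) : ℂ))
        = fun x : GL (Fin 2) (v.adicCompletion K) =>
          convL159 μ Ψ (D.l - 1) (x⁻¹ * locG305 v γ * T6.glAut (RingEquiv.refl _) x)
            * ((L.βv v x : ℝ) : ℂ) := by
      funext y
      rw [glAut_refl662]
    rw [e]
    exact hint0
  -- Fubini
  have hfub := split_fubini662 μ φ hgood δ' D.l hl (L.βv v) hβc.measurable hI
  rw [hprod] at hfub
  show (∫ y : Fin D.l → GL (Fin 2) (v.adicCompletion K),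
      (∏ j : Fin D.l, φ j.1 ((y j)⁻¹ * δ' j.1 * y (H340.cycSucc340 j)))
        * ((L.βv v (y ⟨0, hl⟩) : ℝ) : ℂ) ∂(Measure.pi fun _ : Fin D.l => μ))
    = ∫ y : GL (Fin 2) (v.adicCompletion K),
        f₀ v (y⁻¹ * locG305 v γ * y) * ((L.βv v y : ℝ) : ℂ) ∂μ
  rw [hf]
  exact hfub

end Core

/-! ## 3. The leaves -/

section Leaves

variable (K K' : Type) [Field K] [NumberField K] [Field K'] [NumberField K'] [Algebra K K']

/-- **LEAF C2.7.13.3 = LOC-EQ-SPLIT**, VERBATIM (helper340 `FactUpSpec.lean`). -/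
theorem locEqSplitC662 : H340.LocEqSplitC340 K K' := by
  intro hT6 D hD _ _ _ μc S n m φ₀ Φ f₀ F hLoc δ γ hEll hN L hL v hvS J hJ
  obtain ⟨hl, w, i, hover, hrel, hne, hi, hv, rfl⟩ := hJ
  obtain ⟨hlev, hconv⟩ := hLoc.split v hvS w i hover hrel hne hi hv
  exact locEqSplit_core662 hT6 D hD n m φ₀ f₀ δ γ hEll hN L hL v hl w i hrel hi hv
    (fun j => hLoc.inv_up v hvS (w j) (hover j)) hlev hconv

/-- **LEAF C2.7.13.3b = LOC-EQ-SPLIT for ONE enumeration**, VERBATIM (helper305
`Match893Spec.lean`). -/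
theorem locEqSplitC305b662 : H305.LocEqSplitC305b K K' := by
  intro hT6 D hD _ _ _ μc S n m φ₀ Φ f₀ F hLoc δ γ hEll hN L hL v hvS J hJ
  obtain ⟨hl, w, i, hover, hrel, hne, hi, hv, hlev, hconv, rfl⟩ := hJ
  exact locEqSplit_core662 hT6 D hD n m φ₀ f₀ δ γ hEll hN L hL v hl w i hrel hi hv
    (fun j => hLoc.inv_up v hvS (w j) (hover j)) hlev hconv

end Leaves

end Fermat.Agent.LT.T7.H662

end

end
-- ===== PACK-END LT/T7/H662/LocEqSplit.lean

-- ===== PACK-BEGIN LT/T7/H662/LocEqSplitGen.lean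
section



/-!
# Row LT, tower T7, leaf C2.7.13.3 `LocEqSplit` (helper662): THE CORE WITH EXPLICIT LOCAL DATA

OFF-MAIN.  Complete proofs, nothing assumed.  ADDITIVE: `LocEqSplit.lean` is unchanged.

`locEqSplit_gen662` = the core `locEqSplit_core662` of `LocEqSplit.lean` with the local Haar
measure, the measure of the centraliser and the cut-off function at `v` as explicit data
(instead of `H305.LocData305`), so that it serves every form of the local data (the cyclic step
AND the step `F / ℚ`: `MQ298.LocDataQ298`).  Same proof.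
-/

set_option autoImplicit false
set_option linter.unusedSectionVars false
set_option linter.style.haveILetI false
set_option linter.unusedVariables false

open AutomorphicForm IsDedekindDomain NumberField MeasureTheory

noncomputable section

namespace Fermat.Agent.LT.T7.H662

open Fermat.Agent.LT Fermat.Agent.LT.H556 Fermat.Agent.LT.H556.A0 Fermat.Agent.LT.T7
  Fermat.Agent.LT.T7.H305 Fermat.Agent.LT.T7.H159

section Core

variable {K K' : Type} [Field K] [NumberField K] [Field K'] [NumberField K'] [Algebra K K']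

/-- **THE CORE, explicit local data**: the split integral upstairs is the local cut-off integral
downstairs (`μ₀`, `μt`, `β`: the local Haar measure, the measure of the centraliser and the
cut-off function at `v`). -/
theorem locEqSplit_gen662 (hT6 : T6.T6Out) (D : CompData K K') (hD : IsCompData D)
    (n : HeightOneSpectrum (𝓞 K') → ℕ) (m : HeightOneSpectrum (𝓞 K) → ℕ)
    (φ₀ : ∀ w : HeightOneSpectrum (𝓞 K'), GL (Fin 2) (w.adicCompletion K') → ℂ)
    (f₀ : ∀ v : HeightOneSpectrum (𝓞 K), GL (Fin 2) (v.adicCompletion K) → ℂ)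
    (δ : GL (Fin 2) K') (γ : GL (Fin 2) K) (hEll : T6.IsEll γ)
    (hN : D.s.normUpTo D.l δ = Matrix.GeneralLinearGroup.map (algebraMap K K') γ)
    (v : HeightOneSpectrum (𝓞 K))
    (μ₀ : @Measure (GL (Fin 2) (v.adicCompletion K)) (borel _))
    (μt : @Measure (T6.twCentSub (T6.glAut (RingEquiv.refl (v.adicCompletion K)))
      (locG305 v γ)) (borel _))
    (β : GL (Fin 2) (v.adicCompletion K) → ℝ)
    (hhaar : IsLocHaar305 (m v) μ₀)
    (htor : IsLocTor305 (RingEquiv.refl (v.adicCompletion K)) (locG305 v γ) μt)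
    (hcut : IsLocCut305 (RingEquiv.refl (v.adicCompletion K)) (locG305 v γ) μt β)
    (hl : 0 < D.l) (w : ℕ → HeightOneSpectrum (𝓞 K'))
    (i : ∀ j : ℕ, v.adicCompletion K ≃+* (w j).adicCompletion K')
    (hrel : ∀ j : ℕ, T5.PlaceRel D.s (w (j + 1)) (w j))
    (hi : ∀ (j : ℕ) (x : K), i j (algebraMap K (v.adicCompletion K) x)
      = algebraMap K' ((w j).adicCompletion K') (algebraMap K K' x))
    (hv : ∀ (j : ℕ) (x : v.adicCompletion K), Valued.v (i j x) = Valued.v x)
    (hup : ∀ j : ℕ, T6.IsBiInv (T6.InU (n (w j))) (φ₀ (w j)) ∧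
      T6.HasFinSupp (T6.InU (n (w j))) (φ₀ (w j)))
    (hlev : ∀ j : ℕ, n (w j) = m v)
    (hconv : T6.IsConvProd (T6.InU (m v)) D.l
      (fun j g => φ₀ (w j)
        (Matrix.GeneralLinearGroup.map ((i j : v.adicCompletion K ≃+* _) :
          v.adicCompletion K →+* (w j).adicCompletion K') g))
      (f₀ v)) :
    H340.splitInt340 D.l hl μ₀ β
        (fun j g => φ₀ (w j)
          (Matrix.GeneralLinearGroup.map ((i j : v.adicCompletion K ≃+* _) :
            v.adicCompletion K →+* (w j).adicCompletion K') g))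
        (fun j => Matrix.GeneralLinearGroup.map
          (((i j).symm : (w j).adicCompletion K' ≃+* _) :
            (w j).adicCompletion K' →+* v.adicCompletion K) (locG305 (w j) δ))
      = locInt305 μ₀ β (f₀ v) (locG305 v γ) := by
  classical
  -- the local field and the group
  have hk : T6.IsLocalField (v.adicCompletion K) (Ideal.absNorm v.asIdeal) :=
    instLocal_of_T6Out662 hT6 K v
  obtain ⟨ϖ, hϖ⟩ := hk.unif
  letI : MeasurableSpace (GL (Fin 2) (v.adicCompletion K)) := borel _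
  haveI : BorelSpace (GL (Fin 2) (v.adicCompletion K)) := ⟨rfl⟩
  haveI : SecondCountableTopology (GL (Fin 2) (v.adicCompletion K)) :=
    T6.H584.secondCountable_GL584 hk
  haveI : LocallyCompactSpace (GL (Fin 2) (v.adicCompletion K)) :=
    T6.H420.locallyCompactSpace_GL hk
  haveI : SigmaCompactSpace (GL (Fin 2) (v.adicCompletion K)) := T6.H420.sigmaCompactSpace_GL hk
  -- the measure
  obtain ⟨hμH, hμU⟩ := hhaar
  haveI : μ₀.IsHaarMeasure := hμH
  set μ : Measure (GL (Fin 2) (v.adicCompletion K)) := μ₀ with hμ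
  set U : Subgroup (GL (Fin 2) (v.adicCompletion K)) := T6.H420.subU (m v) with hU
  have hUo : IsOpen (U : Set (GL (Fin 2) (v.adicCompletion K))) := T6.H420.isOpen_subU hϖ (m v)
  have hUc : IsCompact (U : Set (GL (Fin 2) (v.adicCompletion K))) :=
    T6.H420.isCompact_subU hk (m v)
  have hμU' : μ (U : Set (GL (Fin 2) (v.adicCompletion K))) = 1 := hμU
  -- the components
  set φ : ℕ → GL (Fin 2) (v.adicCompletion K) → ℂ := fun j g => φ₀ (w j)
    (Matrix.GeneralLinearGroup.map ((i j : v.adicCompletion K ≃+* _) :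
      v.adicCompletion K →+* (w j).adicCompletion K') g) with hφdef
  have hφbi : ∀ j, T6.IsBiInv (fun g => g ∈ U) (φ j) := by
    intro j u u' g hu hu'
    show φ₀ (w j) (Matrix.GeneralLinearGroup.map _ (u * g * u'))
      = φ₀ (w j) (Matrix.GeneralLinearGroup.map _ g)
    rw [map_mul, map_mul]
    refine (hup j).1 _ _ _ ?_ ?_
    · rw [hlev j]
      exact inU_map662 (i j) (hv j) (m v) u hu
    · rw [hlev j]
      exact inU_map662 (i j) (hv j) (m v) u' hu'
  have hφfs : ∀ j, T6.HasFinSupp (fun g => g ∈ U) (φ j) := by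
    intro j
    obtain ⟨F, hF⟩ := (hup j).2
    refine ⟨F.image (Matrix.GeneralLinearGroup.map
      (((i j).symm : (w j).adicCompletion K' ≃+* _) :
        (w j).adicCompletion K' →+* v.adicCompletion K)), fun g hg => ?_⟩
    obtain ⟨x, hx, u, hu, hxu⟩ := hF _ hg
    refine ⟨_, Finset.mem_image_of_mem _ hx, Matrix.GeneralLinearGroup.map
      (((i j).symm : (w j).adicCompletion K' ≃+* _) :
        (w j).adicCompletion K' →+* v.adicCompletion K) u, ?_, ?_⟩
    · rw [hlev j] at hu
      exact inU_map662 (i j).symm (valued_symm662 (i j) (hv j)) (m v) u hu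
    · rw [← map_mul, ← hxu, glmap_symm_map662]
  -- goodness
  have hgood : ∀ j, IsGood662 μ (φ j) := fun j =>
    isGood_of_finSupp662 U hUo μ hμU' (rightInv_of_biInv662 U (hφbi j)) (hφfs j)
  -- the convolution
  have hUV : H584.IsUnitVol584 μ (fun g => g ∈ U) :=
    { one := U.one_mem
      mul := fun a b ha hb => U.mul_mem ha hb
      inv := fun a ha => U.inv_mem ha
      meas := hUo.measurableSet
      vol := hμU' }
  have hf : f₀ v = convL159 μ φ (D.l - 1) :=
    H584.convL_eq_of_isConvProd584 hUV D.l φ (f₀ v) hφbi hconv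
  -- the norm
  have hfix : ∀ x : K, D.s.σ (algebraMap K K' x) = algebraMap K K' x := fun x =>
    (hD.cyc.fixed _).1 ((hD.base _).2 ⟨x, rfl⟩)
  set δ' : ℕ → GL (Fin 2) (v.adicCompletion K) := fun j => Matrix.GeneralLinearGroup.map
    (((i j).symm : (w j).adicCompletion K' ≃+* _) :
      (w j).adicCompletion K' →+* v.adicCompletion K) (locG305 (w j) δ) with hδ'
  have hprod : prodFrom159 δ' D.l 0 = locG305 v γ :=
    prodFrom_eq662 D.s hfix v w i hrel hi hv δ γ D.l hN
  -- the cut-off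
  obtain ⟨hβc, hβ0, hβ1⟩ := hcut
  obtain ⟨hμT, hμTc⟩ := htor
  -- integrability of the orbital integrand of the convolution of the norms
  set Ψ : ℕ → GL (Fin 2) (v.adicCompletion K) → ℂ := fun j g => ((‖φ j g‖ : ℝ) : ℂ) with hΨ
  have hΨbi : ∀ j, T6.IsBiInv (fun g => g ∈ U) (Ψ j) := fun j => biInv_norm662 U (hφbi j)
  have hΨfs : ∀ j, T6.HasFinSupp (fun g => g ∈ U) (Ψ j) := fun j => finSupp_norm662 U (hφfs j)
  have hGbi : T6.IsBiInv (T6.InU (m v)) (convL159 μ Ψ (D.l - 1)) :=
    convL_biInv662 U μ hΨbi (D.l - 1)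
  have hGfs : T6.HasFinSupp (T6.InU (m v)) (convL159 μ Ψ (D.l - 1)) :=
    convL_finSupp662 U hUo hUc μ hΨfs (D.l - 1)
  have hreg : T6.IsReg (T6.twNorm (RingEquiv.refl (v.adicCompletion K)) 1 (locG305 v γ)) := by
    rw [twNorm_one662]
    exact isReg_map662 _ γ hEll.1
  have hk1 : T6.IsLocalField (v.adicCompletion K) (Ideal.absNorm v.asIdeal ^ (1 / 1)) := by
    have e : Ideal.absNorm v.asIdeal ^ (1 / 1) = Ideal.absNorm v.asIdeal := by norm_num
    rw [e]
    exact hk
  obtain ⟨c, hc⟩ := orbSumEx_of_T6Out662 hT6 (v.adicCompletion K) (v.adicCompletion K)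
    (Ideal.absNorm v.asIdeal) 1 1 (RingHom.id _) (RingEquiv.refl _) hk hk1 isLocalExt_refl662
    (m v) (convL159 μ Ψ (D.l - 1)) hGbi hGfs (locG305 v γ) hreg
  have hint0 := T6.H584.orbIntegrable584 (v.adicCompletion K) (Ideal.absNorm v.asIdeal) 1
    (RingEquiv.refl _) hk (fun _ => rfl) Nat.one_pos (fun _ => rfl) (m v)
    (convL159 μ Ψ (D.l - 1)) hGbi hGfs (locG305 v γ) c hreg hc μ₀ hμH hμU μt hμT hμTc
    β hβc hβ0 hβ1
  have hI : Integrable (fun y : GL (Fin 2) (v.adicCompletion K) =>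
      convL159 μ Ψ (D.l - 1) (y⁻¹ * prodFrom159 δ' D.l 0 * y) * ((β y : ℝ) : ℂ)) μ := by
    rw [hprod]
    have e : (fun y : GL (Fin 2) (v.adicCompletion K) =>
        convL159 μ Ψ (D.l - 1) (y⁻¹ * locG305 v γ * y) * ((β y : ℝ) : ℂ))
        = fun x : GL (Fin 2) (v.adicCompletion K) =>
          convL159 μ Ψ (D.l - 1) (x⁻¹ * locG305 v γ * T6.glAut (RingEquiv.refl _) x)
            * ((β x : ℝ) : ℂ) := by
      funext y
      rw [glAut_refl662]
    rw [e]
    exact hint0
  -- Fubini
  have hfub := split_fubini662 μ φ hgood δ' D.l hl β hβc.measurable hI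
  rw [hprod] at hfub
  show (∫ y : Fin D.l → GL (Fin 2) (v.adicCompletion K),
      (∏ j : Fin D.l, φ j.1 ((y j)⁻¹ * δ' j.1 * y (H340.cycSucc340 j)))
        * ((β (y ⟨0, hl⟩) : ℝ) : ℂ) ∂(Measure.pi fun _ : Fin D.l => μ))
    = ∫ y : GL (Fin 2) (v.adicCompletion K),
        f₀ v (y⁻¹ * locG305 v γ * y) * ((β y : ℝ) : ℂ) ∂μ
  rw [hf]
  exact hfub

end Core

end Fermat.Agent.LT.T7.H662

end

end
-- ===== PACK-END LT/T7/H662/LocEqSplitGen.lean

-- ===== PACK-BEGIN LT/T7/H941/SuppUpSplit.lean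
section




/-!
# Row LT, tower T7, level 2, leaf T7.L2.1.C2.7.13.1.A2 `SuppUpC340` -- THE SPLIT PLACES
(helper941, spare of row 2746)

OFF-MAIN.  ONE number field `F`, `s : T5.AdelicAut F` cyclic of degree `l`, a chain of places
`w : ℕ → places` with `w j = σ(w (j+1))`, of period `l`, `w j ≠ w 0` for `0 < j < l`, and the
orbit `O = {w j}`.  Nothing assumed.

    split_core941 : δ_{w j} ∈ GL₂(𝒪), disc (N δ)_{w 0} a unit,
      (x⁻¹ δ σ(x))_{w j} ∈ GL₂(𝒪) for all j
      ⟹ ∃ t ∈ T_𝔸(δ), trivial outside O, (t⁻¹ x)_{w j} ∈ GL₂(𝒪) for j < l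

Proof.  THE COORDINATES `cmap941 g = ((σ^j g)_{w 0})_{j < l}` in `GL₂(F_{w 0})^l`: a group
homomorphism which carries `σ` to the cyclic shift (`cmap_onG941`), injective on the elements
which are trivial outside `O` (`cmap_inj941`), with the section `sec941` (`cmap_sec941`);
`U(0)` at `w j` is `U(0)` in the `j`-th coordinate (`chain_inU941`).  Then helper159
`goodUnit_split159`.  No identification of the completions is used.
-/

set_option autoImplicit false

open AutomorphicForm IsDedekindDomain NumberField MeasureTheory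

noncomputable section

namespace Fermat.Agent.LT.T7.H941

open Fermat.Agent.LT Fermat.Agent.LT.H556 Fermat.Agent.LT.H556.A0 Fermat.Agent.LT.T7
open Fermat.Agent.LT.T7.H305

variable {F : Type} [Field F] [NumberField F]

/-! ## The coordinates -/

/-- THE COORDINATES `g ↦ ((σ^j g)_{w₀})_{j < l}`. -/
def cmap941 (s : T5.AdelicAut F) (l : ℕ) (w₀ : HeightOneSpectrum (𝓞 F)) :
    G F →* (Fin l → GL (Fin 2) (w₀.adicCompletion F)) :=
  MonoidHom.pi (fun j : Fin l => (finGL305 w₀).comp (sigN941 s j.val))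

theorem cmap_apply941 (s : T5.AdelicAut F) (l : ℕ) (w₀ : HeightOneSpectrum (𝓞 F)) (g : G F)
    (j : Fin l) : cmap941 s l w₀ g j = finGL305 w₀ (sigN941 s j.val g) := rfl

theorem cmap_onG941 (s : T5.AdelicAut F) (l : ℕ) [NeZero l] (k : Subfield F)
    (hc : T5.IsCyclicOfDegree s l k) (w₀ : HeightOneSpectrum (𝓞 F)) (g : G F) :
    cmap941 s l w₀ (s.onG g) = T6.shiftHom l (cmap941 s l w₀ g) := by
  funext j
  show finGL305 w₀ (sigN941 s j.val (s.onG g)) = finGL305 w₀ (sigN941 s (j + 1).val g)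
  rw [← sigN_succ'941]
  have e : (j + 1 : Fin l).val = (j.val + 1) % l := by
    rw [Fin.val_add, Fin.val_one', Nat.add_mod_mod]
  rw [e, sigN_mod941 s l k hc]

theorem twN_cmap941 (s : T5.AdelicAut F) (l : ℕ) [NeZero l] (k : Subfield F)
    (hc : T5.IsCyclicOfDegree s l k) (w₀ : HeightOneSpectrum (𝓞 F)) (n : ℕ) (g : G F) :
    T6.twN (T6.shiftHom l) n (cmap941 s l w₀ g) = cmap941 s l w₀ (T6.twN s.onG n g) := by
  induction n with
  | zero =>
    show (1 : Fin l → GL (Fin 2) (w₀.adicCompletion F)) = cmap941 s l w₀ 1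
    rw [map_one]
  | succ n ih =>
    show cmap941 s l w₀ g * T6.shiftHom l (T6.twN (T6.shiftHom l) n (cmap941 s l w₀ g))
      = cmap941 s l w₀ (g * s.onG (T6.twN s.onG n g))
    rw [ih, ← cmap_onG941 s l k hc, map_mul]

/-! ## The section -/

/-- THE SECTION: the product of the `σ^{l-n}(locFin (t n))`, `n < N`. -/
def sec941 (s : T5.AdelicAut F) (l : ℕ) (w₀ : HeightOneSpectrum (𝓞 F))
    (t : Fin l → GL (Fin 2) (w₀.adicCompletion F)) : ℕ → G F
  | 0 => 1
  | n + 1 => sec941 s l w₀ t n *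
      (if h : n < l then sigN941 s (l - n) (H129.locFin129 w₀ (t ⟨n, h⟩)) else 1)

theorem sec_succ941 (s : T5.AdelicAut F) (l : ℕ) (w₀ : HeightOneSpectrum (𝓞 F))
    (t : Fin l → GL (Fin 2) (w₀.adicCompletion F)) (n : ℕ) (h : n < l) :
    sec941 s l w₀ t (n + 1)
      = sec941 s l w₀ t n * sigN941 s (l - n) (H129.locFin129 w₀ (t ⟨n, h⟩)) := by
  show sec941 s l w₀ t n *
      (if h : n < l then sigN941 s (l - n) (H129.locFin129 w₀ (t ⟨n, h⟩)) else 1) = _
  rw [dif_pos h]

theorem trivOut_sec941 (s : T5.AdelicAut F) (l : ℕ) {w₀ : HeightOneSpectrum (𝓞 F)}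
    (t : Fin l → GL (Fin 2) (w₀.adicCompletion F)) {O : Set (HeightOneSpectrum (𝓞 F))}
    (hO : ∀ v v' : HeightOneSpectrum (𝓞 F), T5.PlaceRel s v v' → v' ∉ O → v ∉ O)
    (hw₀ : w₀ ∈ O) (n : ℕ) : TrivOut941 O (sec941 s l w₀ t n) := by
  induction n with
  | zero => exact trivOut_one941 O
  | succ n ih =>
    show TrivOut941 O (sec941 s l w₀ t n *
      (if h : n < l then sigN941 s (l - n) (H129.locFin129 w₀ (t ⟨n, h⟩)) else 1))
    refine trivOut_mul941 ih ?_
    by_cases h : n < l
    · rw [dif_pos h]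
      exact trivOut_sigN941 s hO _ (trivOut_locFin941 hw₀ _)
    · rw [dif_neg h]
      exact trivOut_one941 O

section Chain

variable (s : T5.AdelicAut F) (l : ℕ) [NeZero l] (k : Subfield F)
  (hc : T5.IsCyclicOfDegree s l k) (w : ℕ → HeightOneSpectrum (𝓞 F))
  (hrel : ∀ j : ℕ, T5.PlaceRel s (w (j + 1)) (w j))
  (hper : ∀ n : ℕ, w (n + l) = w n)
  (hne : ∀ m : ℕ, 0 < m → m < l → w m ≠ w 0)

include hrel in
/-- The component at `w 0` of `σ^m` of a local element at `w 0` is trivial if `w m ≠ w 0`. -/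
theorem finGL_sigN_locFin941 (m : ℕ) (hm : w m ≠ w 0) (t : GL (Fin 2) ((w 0).adicCompletion F)) :
    finGL305 (w 0) (sigN941 s m (H129.locFin129 (w 0) t)) = 1 := by
  have h1 : finComp (w (0 + m)) (H129.locFin129 (w 0) t) = finComp (w (0 + m)) 1 := by
    rw [Nat.zero_add]
    have e : finGL305 (w m) (H129.locFin129 (w 0) t) = finGL305 (w m) 1 := by
      rw [map_one, finGL_eq941]
      exact H129.finCompHom129_locFin129_of_ne (w 0) t hm
    have := congrArg (fun u : GL (Fin 2) ((w m).adicCompletion F) =>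
      (u : Matrix (Fin 2) (Fin 2) ((w m).adicCompletion F))) e
    exact this
  have h2 := chain_congr941 s w hrel m 0 _ _ h1
  rw [map_one] at h2
  have e : finGL305 (w 0) (sigN941 s m (H129.locFin129 (w 0) t)) = finGL305 (w 0) 1 := by
    apply Units.ext
    exact h2
  rw [e, map_one]

include hc hrel hper hne in
/-- The coordinates of the section. -/
theorem cmap_sec941 (t : Fin l → GL (Fin 2) ((w 0).adicCompletion F)) (n : ℕ) (hn : n ≤ l)
    (i : Fin l) :
    cmap941 s l (w 0) (sec941 s l (w 0) t n) i = if i.val < n then t i else 1 := by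
  induction n with
  | zero =>
    show cmap941 s l (w 0) 1 i = _
    rw [map_one, if_neg (Nat.not_lt_zero _)]
    rfl
  | succ n ih =>
    have hnl : n < l := hn
    rw [sec_succ941 s l (w 0) t n hnl, map_mul, Pi.mul_apply, ih (Nat.le_of_lt hnl),
      cmap_apply941, ← sigN_add941]
    by_cases hin : i.val = n
    · have e1 : i.val + (l - n) = l := by omega
      have e2 : (⟨n, hnl⟩ : Fin l) = i := Fin.ext hin.symm
      rw [e1, sigN_period941 s l k hc, if_neg (by omega), if_pos (by omega), one_mul, e2,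
        finGL_eq941, H129.finCompHom129_locFin129]
    · have hm : w (i.val + (l - n)) ≠ w 0 := by
        rcases Nat.lt_or_ge i.val n with h | h
        · exact hne _ (by omega) (by omega)
        · have e : i.val + (l - n) = (i.val - n) + l := by omega
          rw [e, hper]
          exact hne _ (by omega) (by have := i.isLt; omega)
      rw [finGL_sigN_locFin941 s w hrel _ hm, mul_one]
      by_cases h : i.val < n
      · rw [if_pos h, if_pos (by omega)]
      · rw [if_neg h, if_neg (by omega)]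

include hc hrel hper in
/-- The coordinates are injective on the elements which are trivial outside the orbit. -/
theorem cmap_inj941 {O : Set (HeightOneSpectrum (𝓞 F))}
    (hOm : ∀ u : HeightOneSpectrum (𝓞 F), u ∈ O → ∃ j : ℕ, j < l ∧ u = w j) {g h : G F}
    (hout : TrivOut941 O (g⁻¹ * h))
    (hin : cmap941 s l (w 0) g = cmap941 s l (w 0) h) : g = h := by
  refine eq_of_fibre941 hout fun u hu => ?_
  obtain ⟨j, hj, rfl⟩ := hOm u hu
  have h0 : finGL305 (w 0) (sigN941 s j g) = finGL305 (w 0) (sigN941 s j h) :=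
    congrFun hin ⟨j, hj⟩
  have h1 : finComp (w (j + (l - j))) (sigN941 s j g)
      = finComp (w (j + (l - j))) (sigN941 s j h) := by
    have e : j + (l - j) = 0 + l := by omega
    rw [e, hper]
    have := congrArg (fun u : GL (Fin 2) ((w 0).adicCompletion F) =>
      (u : Matrix (Fin 2) (Fin 2) ((w 0).adicCompletion F))) h0
    exact this
  have h2 := chain_congr941 s w hrel (l - j) j _ _ h1
  rw [← sigN_add941, ← sigN_add941] at h2
  have e : l - j + j = l := by omega
  rw [e, sigN_period941 s l k hc, sigN_period941 s l k hc] at h2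
  apply Units.ext
  exact h2

/-! ## The split places -/

include hc hrel hper hne in
/-- **THE SPLIT PLACES.** -/
theorem split_core941 {O : Set (HeightOneSpectrum (𝓞 F))}
    (hO : ∀ v v' : HeightOneSpectrum (𝓞 F), T5.PlaceRel s v v' → v' ∉ O → v ∉ O)
    (hOw : w 0 ∈ O)
    (hOm : ∀ u : HeightOneSpectrum (𝓞 F), u ∈ O → ∃ j : ℕ, j < l ∧ u = w j)
    (δ : GL (Fin 2) F) (hδ : ∀ j : ℕ, T6.InU 0 (locG305 (w j) δ))
    (hd : Valued.v (T6.disc (locG305 (w 0) (s.normUpTo l δ))) = 1)
    (x : G F)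
    (hx : ∀ j : ℕ, T6.InU 0 (finGL305 (w j) (x⁻¹ * T5.ratG δ * s.onG x))) :
    ∃ t : G F, t ∈ tA305 s δ ∧
      (∀ u : HeightOneSpectrum (𝓞 F), u ∉ O → finGL305 u t = 1) ∧
      ∀ j : ℕ, j < l → T6.InU 0 (finGL305 (w j) (t⁻¹ * x)) := by
  have hcoord : ∀ (g : G F) (j : Fin l),
      T6.InU 0 (cmap941 s l (w 0) g j) ↔ T6.InU 0 (finGL305 (w j.val) g) := by
    intro g j
    rw [cmap_apply941, chain_inU941 s w hrel j.val 0 g, Nat.zero_add]
  have hΔ : ∀ j : Fin l, T6.InU 0 (cmap941 s l (w 0) (T5.ratG δ) j) := by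
    intro j
    rw [hcoord, finGL_ratG941]
    exact hδ j.val
  have hX : ∀ j : Fin l, T6.InU 0
      (((cmap941 s l (w 0) x)⁻¹ * cmap941 s l (w 0) (T5.ratG δ)
        * T6.shiftHom l (cmap941 s l (w 0) x)) j) := by
    intro j
    rw [← cmap_onG941 s l k hc, ← map_inv, ← map_mul, ← map_mul, hcoord]
    exact hx j.val
  have hd' : Valued.v (T6.disc
      (T6.twN (T6.shiftHom (k := (w 0).adicCompletion F) l) l
        (cmap941 s l (w 0) (T5.ratG δ)) 0)) = 1 := by
    rw [twN_cmap941 s l k hc, twN_ratG941, cmap_apply941]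
    show Valued.v (T6.disc (finGL305 (w 0) (T5.ratG (s.normUpTo l δ)))) = 1
    rw [finGL_ratG941]
    exact hd
  obtain ⟨t, u, ht, hu, hxtu⟩ := H159.goodUnit_split159 _ _ hΔ hd' hX
  have hTO : TrivOut941 O (sec941 s l (w 0) t l) := trivOut_sec941 s l t hO hOw l
  have hTc : cmap941 s l (w 0) (sec941 s l (w 0) t l) = t := by
    funext i
    rw [cmap_sec941 s l k hc w hrel hper hne t l le_rfl i, if_pos i.isLt]
  refine ⟨sec941 s l (w 0) t l, ?_, hTO.2, fun j hj => ?_⟩
  · show (sec941 s l (w 0) t l)⁻¹ * T5.ratG δ * s.onG (sec941 s l (w 0) t l) = T5.ratG δ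
    refine cmap_inj941 s l k hc w hrel hper hOm (trivOut_twConj941 s hO _ hTO) ?_
    rw [map_mul, map_mul, map_inv, cmap_onG941 s l k hc, hTc]
    exact ht
  · have h1 := (hcoord ((sec941 s l (w 0) t l)⁻¹ * x) ⟨j, hj⟩).1
    apply h1
    rw [map_mul, map_inv, hTc, hxtu]
    have e : t⁻¹ * (t * u) = u := by group
    rw [e]
    exact hu ⟨j, hj⟩

end Chain

/-- The equation lemmas of the definitions of this file are realised here. -/
theorem eqns_realised_split941 : True := by
  have _a1 := @sec941.eq_1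
  have _a2 := @sec941.eq_2
  have _a3 := @sec941.eq_def
  have _b1 := @cmap941.eq_1
  have _b2 := @cmap941.eq_def
  trivial

end Fermat.Agent.LT.T7.H941

end

end
-- ===== PACK-END LT/T7/H941/SuppUpSplit.lean

-- ===== PACK-BEGIN LT/T7/H941/SuppUpInert.lean
section




/-!
# Row LT, tower T7, level 2, leaf T7.L2.1.C2.7.13.1.A2 `SuppUpC340` -- A PLACE FIXED BY `σ`
(helper941, spare of row 2746)

OFF-MAIN.  ONE number field `F`, `s : T5.AdelicAut F`, a finite place `w` with `σ(w) = w` and a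
local automorphism `sw` of `F_w` with `(σ_𝔸 a)_w = sw(a_w)`.  Nothing assumed.

* `continuous_of_val941`, `ringHom_ext_dense941`: a ring homomorphism of `F_w` which preserves
  the valuation is continuous; two such which agree on `F` are equal (for `sw` of `T6.InstExtC`
  and `sw` of `H305.SigmaLocC305`);
* `finGL_onG941`     : `(σ g)_w = sw(g_w)` on `GL₂`;
* `twNorm_finGL941`  : `N_n(g_w) = (N_n g)_w`; `twNorm_locG941 : N_n(δ_w) = (N_n δ)_w`;
* `inert_core941`    : `x_w = t u`, `t` in the twisted centraliser of `δ_w`, `u ∈ GL₂(𝒪_w)`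
  ⟹ `T = locFin129 w t ∈ T_𝔸(δ)`, trivial outside `w`, `(T⁻¹ x)_w ∈ GL₂(𝒪_w)`.
-/

set_option autoImplicit false

open AutomorphicForm IsDedekindDomain NumberField MeasureTheory

noncomputable section

namespace Fermat.Agent.LT.T7.H941

open Fermat.Agent.LT Fermat.Agent.LT.H556 Fermat.Agent.LT.H556.A0 Fermat.Agent.LT.T7
open Fermat.Agent.LT.T7.H305

/-! ## Valuation-preserving homomorphisms -/

section OneField

variable {F : Type} [Field F] [NumberField F]

/-- Every element of `F_w` is approximated by elements of `F`. -/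
theorem exists_rat_near941 (w : HeightOneSpectrum (𝓞 F)) (x : w.adicCompletion F)
    (c : T6.Γ₀) (hc : c ≠ 0) :
    ∃ y : F, Valued.v (algebraMap F (w.adicCompletion F) y - x) < c := by
  obtain ⟨ϖ, hϖ⟩ := w.valuation_exists_uniformizer F
  obtain ⟨n, hn⟩ : ∃ n : ℕ, (WithZero.exp (-(1 : ℤ))) ^ n < c := by
    obtain ⟨m, hm⟩ : ∃ m : ℤ, c = WithZero.exp m := ⟨WithZero.log c, (WithZero.exp_log hc).symm⟩
    refine ⟨(-m).toNat + 1, ?_⟩
    rw [hm, ← WithZero.exp_nsmul, WithZero.exp_lt_exp]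
    have := Int.self_le_toNat (-m)
    simp only [nsmul_eq_mul, Nat.cast_add, Nat.cast_one]
    nlinarith
  set π : w.adicCompletion F := algebraMap F (w.adicCompletion F) (ϖ ^ n) with hπ
  have hvπ : Valued.v π = (WithZero.exp (-(1 : ℤ))) ^ n := by
    have h1 : Valued.v π = w.valuation F (ϖ ^ n) :=
      HeightOneSpectrum.valuedAdicCompletion_eq_valuation' w (ϖ ^ n)
    rw [h1, map_pow, hϖ]
  have hπ0 : Valued.v π ≠ 0 := by
    rw [hvπ]
    exact pow_ne_zero _ (by simp)
  have hU : {z : w.adicCompletion F | Valued.v z = Valued.v π} ∈ nhds π :=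
    Valued.locally_const hπ0
  have hcont : Continuous fun y : w.adicCompletion F => y - x := by fun_prop
  have hV : (fun y : w.adicCompletion F => y - x) ⁻¹'
      {z : w.adicCompletion F | Valued.v z = Valued.v π} ∈ nhds (x + π) := by
    apply hcont.continuousAt
    show {z : w.adicCompletion F | Valued.v z = Valued.v π} ∈ nhds (x + π - x)
    have e : x + π - x = π := by ring
    rw [e]
    exact hU
  have hd : DenseRange (algebraMap F (w.adicCompletion F)) :=
    HeightOneSpectrum.denseRange_algebraMap F w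
  obtain ⟨b, ⟨y, rfl⟩, hb⟩ := hd.inter_nhds_nonempty hV
  refine ⟨y, ?_⟩
  have hb' : Valued.v (algebraMap F (w.adicCompletion F) y - x) = Valued.v π := hb
  rw [hb', hvπ]
  exact hn

/-- Two valuation-preserving ring homomorphisms of `F_w` which agree on `F` are equal. -/
theorem ringHom_ext_dense941 (w : HeightOneSpectrum (𝓞 F))
    (f g : w.adicCompletion F →+* w.adicCompletion F)
    (hf : ∀ x : w.adicCompletion F, Valued.v (f x) = Valued.v x)
    (hg : ∀ x : w.adicCompletion F, Valued.v (g x) = Valued.v x)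
    (h : ∀ y : F, f (algebraMap F (w.adicCompletion F) y)
      = g (algebraMap F (w.adicCompletion F) y)) (x : w.adicCompletion F) : f x = g x := by
  by_contra hne
  have hd0 : Valued.v (f x - g x) ≠ 0 := by
    rw [Valuation.ne_zero_iff]
    exact sub_ne_zero.2 hne
  obtain ⟨y, hy⟩ := exists_rat_near941 w x _ hd0
  have e : f x - g x = g (algebraMap F (w.adicCompletion F) y - x)
      - f (algebraMap F (w.adicCompletion F) y - x) := by
    rw [map_sub, map_sub, h y]
    ring
  have h1 : Valued.v (f x - g x) ≤ Valued.v (algebraMap F (w.adicCompletion F) y - x) := by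
    conv_lhs => rw [e]
    refine le_trans (Valuation.map_sub _ _ _) ?_
    rw [hf, hg, max_self]
  exact absurd (lt_of_le_of_lt h1 hy) (lt_irrefl _)

variable (s : T5.AdelicAut F) (w : HeightOneSpectrum (𝓞 F))
  (sw : w.adicCompletion F ≃+* w.adicCompletion F)
  (hsig : ∀ a : Adl F, T5.finHom w (s.σA a) = sw (T5.finHom w a))

include hsig

/-- `(σ g)_w = sw(g_w)`. -/
theorem finGL_onG941 (g : G F) : finGL305 w (s.onG g) = T6.glAut sw (finGL305 w g) := by
  apply Units.ext
  refine Matrix.ext fun i j => ?_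
  exact hsig _

/-- `N_n(g_w) = (N_n g)_w`. -/
theorem twNorm_finGL941 (n : ℕ) (g : G F) :
    T6.twNorm sw n (finGL305 w g) = finGL305 w (T6.twN s.onG n g) := by
  induction n with
  | zero =>
    show (1 : GL (Fin 2) (w.adicCompletion F)) = finGL305 w 1
    rw [map_one]
  | succ n ih =>
    show finGL305 w g * T6.glAut sw (T6.twNorm sw n (finGL305 w g))
      = finGL305 w (g * s.onG (T6.twN s.onG n g))
    rw [ih, map_mul, finGL_onG941 s w sw hsig]

/-- `N_n(δ_w) = (N_n δ)_w`. -/
theorem twNorm_locG941 (n : ℕ) (δ : GL (Fin 2) F) :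
    T6.twNorm sw n (locG305 w δ) = locG305 w (s.normUpTo n δ) := by
  rw [← finGL_ratG941, twNorm_finGL941 s w sw hsig, twN_ratG941, finGL_ratG941]

/-- **A PLACE FIXED BY `σ`.** -/
theorem inert_core941 (hw : T5.PlaceRel s w w) (δ : GL (Fin 2) F) (x : G F)
    (t u : GL (Fin 2) (w.adicCompletion F)) (ht : T6.InTwCent sw (locG305 w δ) t)
    (hu : T6.InU 0 u) (hxtu : finGL305 w x = t * u) :
    ∃ T : G F, T ∈ tA305 s δ ∧
      (∀ u' : HeightOneSpectrum (𝓞 F), u' ≠ w → finGL305 u' T = 1) ∧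
      T6.InU 0 (finGL305 w (T⁻¹ * x)) := by
  have hO : ∀ v v' : HeightOneSpectrum (𝓞 F), T5.PlaceRel s v v' →
      v' ∉ ({w} : Set (HeightOneSpectrum (𝓞 F))) → v ∉ ({w} : Set (HeightOneSpectrum (𝓞 F))) := by
    intro v v' hvv' hv' hv
    have hv1 : v = w := hv
    subst hv1
    exact hv' (H415.finRel_unique415 s.σ v v' v hvv' hw)
  have hTO : TrivOut941 ({w} : Set (HeightOneSpectrum (𝓞 F))) (H129.locFin129 w t) :=
    trivOut_locFin941 (Set.mem_singleton w) t
  have hTw : finGL305 w (H129.locFin129 w t) = t := by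
    rw [finGL_eq941]
    exact H129.finCompHom129_locFin129 w t
  refine ⟨H129.locFin129 w t, ?_, fun u' hu' => hTO.2 u' hu', ?_⟩
  · show (H129.locFin129 w t)⁻¹ * T5.ratG δ * s.onG (H129.locFin129 w t) = T5.ratG δ
    refine eq_of_fibre941 (trivOut_twConj941 s hO _ hTO) fun v hv => ?_
    have hv1 : v = w := hv
    subst hv1
    rw [map_mul, map_mul, map_inv, finGL_onG941 s v sw hsig, hTw, finGL_ratG941]
    exact ht
  · rw [map_mul, map_inv, hTw, hxtu]
    have e : t⁻¹ * (t * u) = u := by group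
    rw [e]
    exact hu

end OneField

end Fermat.Agent.LT.T7.H941

end

end
-- ===== PACK-END LT/T7/H941/SuppUpInert.lean

-- ===== PACK-BEGIN LT/T7/H816/UnitMatch.lean
section





/-!
# Row LT, tower T7, leaf C2.7.11 UNIT-MATCH = the fundamental lemma for the unit element
(helper816, registry row 2693, OFF-MAIN)

`T₀ ⊆ T ⊆ S`, the places outside `T₀` unramified, the levels `0` there: the local hypotheses for
`T` give the local hypotheses for `S` with UNIT components at the new places.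

    unitMatchC893_816 (K K') : UnitMatchC893_816 K K'     (LocHyp893 of helper893: ONE enumeration
                                                           at the split places; v2 of record)
    unitMatchC305_816 (K K') : H305.UnitMatchC305 K K'    (LocHyp305 of helper305, VERBATIM)

Proof.  New place `v ∈ S \ T` (so `v ∉ T₀`: unramified, levels `0`), components `1_{GL₂(𝒪)}`.
* invariance, finite support: `UnitLoc.lean`;
* `inert` (one place `w` over `v`): `e = 1` (evaluate `val_i` at the element of `UnramOut305`),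
  `N w = (N v)^l` (`T6.InstExtC`), `T6.InstLocalC`, `T6.FundLemmaC` for the unit
  (`inert_unit816`);
* `split` (at least two places over `v`): the enumeration `w j = σ^{-j} w₀` (`UnitGal.lean`),
  residue degree one (`e f g = l`), identifications `i j` from `T6.InstSplitC`,
  `1 ∘ i j = 1`, `1 * ⋯ * 1 = 1`.
-/

set_option autoImplicit false

open AutomorphicForm IsDedekindDomain NumberField MeasureTheory
open scoped ComplexConjugate

noncomputable section

namespace Fermat.Agent.LT.T7.H816U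

open Fermat.Agent.LT.H556 Fermat.Agent.LT.H556.A0 Fermat.Agent.LT.T7
open Fermat.Agent.LT.T7.H305 Fermat.Agent.LT.T7.H893 Fermat.Agent.LT.T7.H557

variable {K K' : Type} [Field K] [NumberField K] [Field K'] [NumberField K'] [Algebra K K']

/-! ## The extended components -/

theorem ext305_of_mem816 {F : Type} [Field F] [NumberField F]
    (T : Finset (HeightOneSpectrum (𝓞 F)))
    (f₀ : ∀ v : HeightOneSpectrum (𝓞 F), GL (Fin 2) (v.adicCompletion F) → ℂ)
    {v : HeightOneSpectrum (𝓞 F)} (h : v ∈ T) : ext305 T f₀ v = f₀ v :=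
  if_pos h

theorem ext305_of_not_mem816 {F : Type} [Field F] [NumberField F]
    (T : Finset (HeightOneSpectrum (𝓞 F)))
    (f₀ : ∀ v : HeightOneSpectrum (𝓞 F), GL (Fin 2) (v.adicCompletion F) → ℂ)
    {v : HeightOneSpectrum (𝓞 F)} (h : v ∉ T) : ext305 T f₀ v = unit305 :=
  if_neg h

/-- A place over a place of `T` is in `T'`. -/
theorem mem_over816 {T : Finset (HeightOneSpectrum (𝓞 K))}
    {T' : Finset (HeightOneSpectrum (𝓞 K'))} (hT' : IsOver305 T T')
    {v : HeightOneSpectrum (𝓞 K)} {w : HeightOneSpectrum (𝓞 K')} (hv : v ∈ T)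
    (hw : PlaceOver K K' v w) : w ∈ T' :=
  (hT' w).2 ⟨v, hv, hw⟩

/-- A place over a place outside `T` is outside `T'`. -/
theorem not_mem_over816 {T : Finset (HeightOneSpectrum (𝓞 K))}
    {T' : Finset (HeightOneSpectrum (𝓞 K'))} (hT' : IsOver305 T T')
    {v : HeightOneSpectrum (𝓞 K)} {w : HeightOneSpectrum (𝓞 K')} (hv : v ∉ T)
    (hw : PlaceOver K K' v w) : w ∉ T' := by
  intro hwT
  obtain ⟨v', hv', hw'⟩ := (hT' w).1 hwT
  exact hv ((placeOver_unique_557 hw hw') ▸ hv')

/-- `PlaceOver` in the form of `T6.InstExtC`, `T6.InstSplitC`. -/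
theorem placeOver_mem816 {v : HeightOneSpectrum (𝓞 K)} {w : HeightOneSpectrum (𝓞 K')}
    (h : PlaceOver K K' v w) (x : 𝓞 K) :
    x ∈ v.asIdeal ↔ algebraMap (𝓞 K) (𝓞 K') x ∈ w.asIdeal :=
  h x (algebraMap (𝓞 K) (𝓞 K') x) rfl

/-- A place of `K'` which contains the image of `v` lies over `v`. -/
theorem placeOver_of_le816 {v : HeightOneSpectrum (𝓞 K)} {w : HeightOneSpectrum (𝓞 K')}
    (h : ∀ x : 𝓞 K, x ∈ v.asIdeal → algebraMap (𝓞 K) (𝓞 K') x ∈ w.asIdeal) :
    PlaceOver K K' v w := by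
  rw [placeOver_iff_557]
  have hle : v.asIdeal ≤ Ideal.comap (algebraMap (𝓞 K) (𝓞 K')) w.asIdeal := fun x hx =>
    Ideal.mem_comap.2 (h x hx)
  haveI := w.isPrime
  have hne : Ideal.comap (algebraMap (𝓞 K) (𝓞 K')) w.asIdeal ≠ ⊤ :=
    (Ideal.comap_isPrime (algebraMap (𝓞 K) (𝓞 K')) w.asIdeal).ne_top
  exact v.isMaximal.eq_of_le hne hle

/-! ## The ramification index at an unramified place -/

/-- The valuation of the image of `x : F` in the completion. -/
theorem valued_algebraMap816 {F : Type} [Field F] [NumberField F]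
    (v : HeightOneSpectrum (𝓞 F)) (x : F) :
    Valued.v (algebraMap F (v.adicCompletion F) x) = v.valuation F x :=
  HeightOneSpectrum.valuedAdicCompletion_eq_valuation' v x

/-- The exponent of a local embedding at an unramified place is `1`. -/
theorem e_eq_one816 {v : HeightOneSpectrum (𝓞 K)} {w : HeightOneSpectrum (𝓞 K')}
    (e : ℕ) (he : 0 < e) (i : v.adicCompletion K →+* w.adicCompletion K')
    (hi : ∀ x : K, i (algebraMap K (v.adicCompletion K) x)
        = algebraMap K' (w.adicCompletion K') (algebraMap K K' x))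
    (hv : ∀ x : v.adicCompletion K, Valued.v (i x) = Valued.v x ^ e)
    (x₀ : 𝓞 K) (hx₀ : x₀ ∈ v.asIdeal)
    (hy₀ : algebraMap (𝓞 K) (𝓞 K') x₀ ∉ w.asIdeal ^ 2) : e = 1 := by
  by_contra hne
  have he2 : 2 ≤ e := by omega
  apply hy₀
  have h1 := hv (algebraMap K (v.adicCompletion K) (x₀ : K))
  rw [hi, valued_algebraMap816, valued_algebraMap816] at h1
  have ha : v.valuation K (x₀ : K) ≤ WithZero.exp (-(1 : ℤ)) := by
    have := (v.intValuation_le_pow_iff_mem x₀ 1).2 (by rw [pow_one]; exact hx₀)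
    rw [HeightOneSpectrum.valuation_of_algebraMap]
    simpa using this
  have hb : w.valuation K' ((algebraMap (𝓞 K) (𝓞 K') x₀ : 𝓞 K') : K')
      ≤ WithZero.exp (-(2 : ℤ)) := by
    have e0 : ((algebraMap (𝓞 K) (𝓞 K') x₀ : 𝓞 K') : K') = algebraMap K K' (x₀ : K) := rfl
    rw [e0, h1]
    calc v.valuation K (x₀ : K) ^ e ≤ (WithZero.exp (-(1 : ℤ))) ^ e :=
          pow_le_pow_left₀ zero_le ha e
      _ ≤ (WithZero.exp (-(1 : ℤ))) ^ 2 := by
          refine pow_le_pow_right_of_le_one' ?_ he2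
          rw [← WithZero.exp_zero, WithZero.exp_le_exp]
          norm_num
      _ = WithZero.exp (-(2 : ℤ)) := by
          rw [← WithZero.exp_nsmul]
          norm_num
  rw [HeightOneSpectrum.valuation_of_algebraMap] at hb
  exact (w.intValuation_le_pow_iff_mem _ 2).1 (by simpa using hb)

/-! ## The local fields at an unramified place with one place over it -/

/-- At an unramified place `v` with ONE place `w` over it: `K_v` and `K'_w` are local fields with
residue fields of `q` and `q ^ l` elements. -/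
theorem localFields_inert816 (hIL : T6.InstLocalC) (hIE : T6.InstExtC) {l : ℕ}
    (hcyc : IsCycExt K K' l) {v : HeightOneSpectrum (𝓞 K)} {w : HeightOneSpectrum (𝓞 K')}
    (hw : PlaceOver K K' v w)
    (huniq : ∀ w' : HeightOneSpectrum (𝓞 K'), PlaceOver K K' v w' → w' = w)
    (x₀ : 𝓞 K) (hx₀ : x₀ ∈ v.asIdeal)
    (hy₀ : algebraMap (𝓞 K) (𝓞 K') x₀ ∉ w.asIdeal ^ 2) :
    T6.IsLocalField (v.adicCompletion K) (Ideal.absNorm v.asIdeal) ∧
      T6.IsLocalField (w.adicCompletion K') (Ideal.absNorm v.asIdeal ^ l) := by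
  haveI := hcyc.galois
  haveI : Fact l.Prime := ⟨hcyc.prime⟩
  have hcard : Nat.card (K' ≃ₐ[K] K') = l := by
    rw [IsGalois.card_aut_eq_finrank, hcyc.degree]
  haveI : IsCyclic (K' ≃ₐ[K] K') := isCyclic_of_prime_card hcard
  obtain ⟨s, hs⟩ := IsCyclic.exists_generator (α := K' ≃ₐ[K] K')
  obtain ⟨e₀, i₀, sw₀, hi₀, -, hext₀, hN⟩ := hIE K K' s hs
    (by rw [hcyc.degree]; exact hcyc.prime) v w (placeOver_mem816 hw)
    (fun w' h' => huniq w' (placeOver_of_le816 h'))
  have he₀ : e₀ = 1 := e_eq_one816 e₀ hext₀.e_pos i₀ hi₀ hext₀.val_i x₀ hx₀ hy₀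
  rw [he₀, Nat.div_one, hcyc.degree] at hN
  refine ⟨hIL K v, ?_⟩
  rw [← hN]
  exact hIL K' w

/-! ## The new places -/

section New

variable (hT6 : T6.T6Out) (D : CompData K K') (hD : IsCompData D) (hcyc : IsCycExt K K' D.l)
  {T₀ : Finset (HeightOneSpectrum (𝓞 K))} (hun : UnramOut305 (K' := K') T₀)
  {n : HeightOneSpectrum (𝓞 K') → ℕ} {m : HeightOneSpectrum (𝓞 K) → ℕ}
  (hlev : IsLevelAt305 T₀ n m)

include hT6 hcyc hun in
/-- The inert clause for the unit elements at a place outside `T₀`. -/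
theorem inert_new816 {v : HeightOneSpectrum (𝓞 K)} (hv₀ : v ∉ T₀)
    {w : HeightOneSpectrum (𝓞 K')} (hw : PlaceOver K K' v w)
    (huniq : ∀ w' : HeightOneSpectrum (𝓞 K'), PlaceOver K K' v w' → w' = w)
    (e : ℕ) (i : v.adicCompletion K →+* w.adicCompletion K')
    (sw : w.adicCompletion K' ≃+* w.adicCompletion K')
    (hi : ∀ x : K, i (algebraMap K (v.adicCompletion K) x)
      = algebraMap K' (w.adicCompletion K') (algebraMap K K' x))
    (hext : T6.IsLocalExt (v.adicCompletion K) (w.adicCompletion K') D.l e i sw) :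
    (∀ (δ : GL (Fin 2) (w.adicCompletion K')) (γ : GL (Fin 2) (v.adicCompletion K))
        (c c' : ℂ), T6.IsReg γ →
        IsConj (T6.twNorm sw D.l δ) (Matrix.GeneralLinearGroup.map i γ) →
        T6.IsTwOrbSum sw 0 unit305 δ c → T6.IsOrbSum 0 unit305 γ c' → c = c') ∧
      ∀ (γ : GL (Fin 2) (v.adicCompletion K)) (c' : ℂ), T6.IsReg γ →
        ¬ T6.IsNormFrom D.l i sw γ → T6.IsOrbSum 0 unit305 γ c' → c' = 0 := by
  obtain ⟨-, -, -, -, -, hIL, hIE, -, -, -, -, -, -, hFL, -, -, -, -⟩ := hT6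
  obtain ⟨x₀, hx₀, hy₀⟩ := hun v hv₀ w hw
  have he : e = 1 := e_eq_one816 e hext.e_pos i hi hext.val_i x₀ hx₀ hy₀
  subst he
  obtain ⟨hk, hk'⟩ := localFields_inert816 hIL hIE hcyc hw huniq x₀ hx₀ hy₀
  exact inert_unit816 hFL (Ideal.absNorm v.asIdeal) D.l i sw hk hk' hext hcyc.prime

include hT6 hD hcyc hun in
/-- The enumeration and the identifications at a split place outside `T₀`. -/
theorem split_new816 {v : HeightOneSpectrum (𝓞 K)} (hv₀ : v ∉ T₀)
    (h2 : ∃ w₁ w₂ : HeightOneSpectrum (𝓞 K'),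
      PlaceOver K K' v w₁ ∧ PlaceOver K K' v w₂ ∧ w₁ ≠ w₂) :
    ∃ (w : ℕ → HeightOneSpectrum (𝓞 K'))
      (i : ∀ j : ℕ, v.adicCompletion K ≃+* (w j).adicCompletion K'),
      (∀ j : ℕ, PlaceOver K K' v (w j)) ∧ (∀ j : ℕ, T5.PlaceRel D.s (w (j + 1)) (w j)) ∧
      (∀ j : ℕ, 0 < j → j < D.l → w j ≠ w 0) ∧
      (∀ (j : ℕ) (x : K), i j (algebraMap K (v.adicCompletion K) x)
        = algebraMap K' ((w j).adicCompletion K') (algebraMap K K' x)) ∧
      (∀ (j : ℕ) (x : v.adicCompletion K), Valued.v (i j x) = Valued.v x) := by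
  obtain ⟨-, -, -, -, -, -, -, hIS, -, -, -, -, -, -, -, -, -, -⟩ := hT6
  obtain ⟨w₁, w₂, h1, h2', h12⟩ := h2
  haveI := hcyc.galois
  have hC : CycHyp816 K D.s.σ D.l := cycHyp_of816 D.s D.l D.k hD.cyc hD.base hcyc.prime
  have hover : ∀ j : ℕ, PlaceOver K K' v (enum816 D.s.σ w₁ j) := enum_over816 hC h1
  have hex : ∀ j : ℕ, ∃ i : v.adicCompletion K ≃+* (enum816 D.s.σ w₁ j).adicCompletion K',
      (∀ x : K, i (algebraMap K (v.adicCompletion K) x)
        = algebraMap K' ((enum816 D.s.σ w₁ j).adicCompletion K') (algebraMap K K' x)) ∧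
      ∀ x : v.adicCompletion K, Valued.v (i x) = Valued.v x := fun j =>
    hIS K K' v (enum816 D.s.σ w₁ j) (placeOver_mem816 (hover j))
      (absNorm_eq_of_split816 hcyc (hover j) h1 h2' h12) (hun v hv₀ _ (hover j))
  choose i hi hval using hex
  exact ⟨enum816 D.s.σ w₁, i, hover, enum_rel816 D.s w₁,
    fun j hj0 hjl => enum_ne816 hC hcyc.degree h1 h1 h2' h12 j hj0 hjl, hi, hval⟩

end New

/-! ## The leaf, for the local hypotheses of helper893 (ONE enumeration at the split places) -/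

/-- **UNIT-MATCH, core form** (`LocHyp893`). -/
theorem unitMatch893_816 (hT6 : T6.T6Out) (D : CompData K K') (hD : IsCompData D)
    (hcyc : IsCycExt K K' D.l) (μc : @Measure (GL (Fin 2) ℂ) (borel _))
    (T₀ : Finset (HeightOneSpectrum (𝓞 K))) (hun : UnramOut305 (K' := K') T₀)
    (n : HeightOneSpectrum (𝓞 K') → ℕ) (m : HeightOneSpectrum (𝓞 K) → ℕ)
    (hlev : IsLevelAt305 T₀ n m)
    (T S : Finset (HeightOneSpectrum (𝓞 K))) (T' : Finset (HeightOneSpectrum (𝓞 K')))
    (hT₀T : T₀ ⊆ T) (hT' : IsOver305 T T')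
    (φ₀ : ∀ w : HeightOneSpectrum (𝓞 K'), GL (Fin 2) (w.adicCompletion K') → ℂ)
    (Φ : InfinitePlace K' → GL (Fin 2) ℂ → ℂ)
    (f₀ : ∀ v : HeightOneSpectrum (𝓞 K), GL (Fin 2) (v.adicCompletion K) → ℂ)
    (F : InfinitePlace K → GL (Fin 2) ℂ → ℂ)
    (hloc : LocHyp893 D μc T n m φ₀ Φ f₀ F) :
    LocHyp893 D μc S n m (ext305 T' φ₀) Φ (ext305 T f₀) F := by
  have h0 : ∀ v : HeightOneSpectrum (𝓞 K), v ∉ T → v ∉ T₀ := fun v hv h => hv (hT₀T h)
  refine ⟨?_, ?_, hloc.arch_up, hloc.arch_down, ?_, ?_, hloc.arch⟩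
  · -- inv_up
    intro v _ w hw
    by_cases hvT : v ∈ T
    · rw [ext305_of_mem816 T' φ₀ (mem_over816 hT' hvT hw)]
      exact hloc.inv_up v hvT w hw
    · rw [ext305_of_not_mem816 T' φ₀ (not_mem_over816 hT' hvT hw), hlev.2 v w (h0 v hvT) hw]
      exact ⟨isBiInv_unit816, hasFinSupp_unit816⟩
  · -- inv_down
    intro v _
    by_cases hvT : v ∈ T
    · rw [ext305_of_mem816 T f₀ hvT]
      exact hloc.inv_down v hvT
    · rw [ext305_of_not_mem816 T f₀ hvT, hlev.1 v (h0 v hvT)]
      exact ⟨isBiInv_unit816, hasFinSupp_unit816⟩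
  · -- inert
    intro v _ w hw huniq e i sw hi hs hext
    by_cases hvT : v ∈ T
    · rw [ext305_of_mem816 T' φ₀ (mem_over816 hT' hvT hw), ext305_of_mem816 T f₀ hvT]
      exact hloc.inert v hvT w hw huniq e i sw hi hs hext
    · rw [ext305_of_not_mem816 T' φ₀ (not_mem_over816 hT' hvT hw),
        ext305_of_not_mem816 T f₀ hvT, hlev.2 v w (h0 v hvT) hw, hlev.1 v (h0 v hvT)]
      exact inert_new816 hT6 D hcyc hun (h0 v hvT) hw huniq e i sw hi hext
  · -- split
    intro v _ h2
    by_cases hvT : v ∈ T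
    · obtain ⟨w, i, h_over, h_rel, h_ne, h_i, h_val, h_n, h_conv⟩ := hloc.split v hvT h2
      refine ⟨w, i, h_over, h_rel, h_ne, h_i, h_val, h_n, ?_⟩
      have e1 : (fun (j : ℕ) (g : GL (Fin 2) (v.adicCompletion K)) => ext305 T' φ₀ (w j)
            (Matrix.GeneralLinearGroup.map ((i j : v.adicCompletion K ≃+* _) :
              v.adicCompletion K →+* (w j).adicCompletion K') g))
          = fun (j : ℕ) (g : GL (Fin 2) (v.adicCompletion K)) => φ₀ (w j)
            (Matrix.GeneralLinearGroup.map ((i j : v.adicCompletion K ≃+* _) :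
              v.adicCompletion K →+* (w j).adicCompletion K') g) := by
        funext j g
        rw [ext305_of_mem816 T' φ₀ (mem_over816 hT' hvT (h_over j))]
      rw [e1, ext305_of_mem816 T f₀ hvT]
      exact h_conv
    · obtain ⟨w, i, h_over, h_rel, h_ne, h_i, h_val⟩ :=
        split_new816 hT6 D hD hcyc hun (h0 v hvT) h2
      refine ⟨w, i, h_over, h_rel, h_ne, h_i, h_val, fun j => ?_, ?_⟩
      · rw [hlev.2 v (w j) (h0 v hvT) (h_over j), hlev.1 v (h0 v hvT)]
      · have e1 : (fun (j : ℕ) (g : GL (Fin 2) (v.adicCompletion K)) => ext305 T' φ₀ (w j)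
              (Matrix.GeneralLinearGroup.map ((i j : v.adicCompletion K ≃+* _) :
                v.adicCompletion K →+* (w j).adicCompletion K') g))
            = fun (_ : ℕ) => (unit305 : GL (Fin 2) (v.adicCompletion K) → ℂ) := by
          funext j g
          rw [ext305_of_not_mem816 T' φ₀ (not_mem_over816 hT' hvT (h_over j))]
          exact unit_map816 _ (h_val j) g
        rw [e1, ext305_of_not_mem816 T f₀ hvT, hlev.1 v (h0 v hvT)]
        exact isConvProd_unit816 D.l

variable (K K')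

/-- **LEAF C2.7.11, v2 = UNIT-MATCH for `H893.LocHyp893`** (the statement of
`H305.UnitMatchC305` with `LocHyp893` in place of `LocHyp305`). -/
def UnitMatchC893_816 : Prop :=
  T6.T6Out →
  ∀ D : CompData K K', IsCompData D → IsCycExt K K' D.l → D.l ≠ 2 → TotCplx K →
    ∀ μc : @Measure (GL (Fin 2) ℂ) (borel _), @Measure.IsHaarMeasure _ _ _ (borel _) μc →
    ∀ (T₀ : Finset (HeightOneSpectrum (𝓞 K))), UnramOut305 (K' := K') T₀ →
    ∀ (n : HeightOneSpectrum (𝓞 K') → ℕ) (m : HeightOneSpectrum (𝓞 K) → ℕ),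
      IsLevelAt305 T₀ n m →
    ∀ (T S : Finset (HeightOneSpectrum (𝓞 K))) (T' S' : Finset (HeightOneSpectrum (𝓞 K'))),
      T₀ ⊆ T → T ⊆ S → IsOver305 T T' → IsOver305 S S' →
    ∀ (φ₀ : ∀ w : HeightOneSpectrum (𝓞 K'), GL (Fin 2) (w.adicCompletion K') → ℂ)
      (Φ : InfinitePlace K' → GL (Fin 2) ℂ → ℂ)
      (f₀ : ∀ v : HeightOneSpectrum (𝓞 K), GL (Fin 2) (v.adicCompletion K) → ℂ)
      (F : InfinitePlace K → GL (Fin 2) ℂ → ℂ),
      LocHyp893 D μc T n m φ₀ Φ f₀ F →
      LocHyp893 D μc S n m (ext305 T' φ₀) Φ (ext305 T f₀) F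

/-- **LEAF C2.7.11, v2, PROVED.** -/
theorem unitMatchC893_816 : UnitMatchC893_816 K K' := by
  intro hT6 D hD hcyc _ _ μc _ T₀ hun n m hlev T S T' _ hT₀T _ hT' _ φ₀ Φ f₀ F hloc
  exact unitMatch893_816 hT6 D hD hcyc μc T₀ hun n m hlev T S T' hT₀T hT' φ₀ Φ f₀ F hloc

/-- **LEAF C2.7.11 = `H305.UnitMatchC305`, VERBATIM** (`LocHyp305`: every enumeration at the
split places). -/
theorem unitMatchC305_816 : UnitMatchC305 K K' := by
  intro hT6 D hD hcyc _ _ μc _ T₀ hun n m hlev T S T' _ hT₀T _ hT' _ φ₀ Φ f₀ F hloc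
  have h0 : ∀ v : HeightOneSpectrum (𝓞 K), v ∉ T → v ∉ T₀ := fun v hv h => hv (hT₀T h)
  refine ⟨?_, ?_, hloc.arch_up, hloc.arch_down, ?_, ?_, hloc.arch⟩
  · intro v _ w hw
    by_cases hvT : v ∈ T
    · rw [ext305_of_mem816 T' φ₀ (mem_over816 hT' hvT hw)]
      exact hloc.inv_up v hvT w hw
    · rw [ext305_of_not_mem816 T' φ₀ (not_mem_over816 hT' hvT hw), hlev.2 v w (h0 v hvT) hw]
      exact ⟨isBiInv_unit816, hasFinSupp_unit816⟩
  · intro v _
    by_cases hvT : v ∈ T
    · rw [ext305_of_mem816 T f₀ hvT]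
      exact hloc.inv_down v hvT
    · rw [ext305_of_not_mem816 T f₀ hvT, hlev.1 v (h0 v hvT)]
      exact ⟨isBiInv_unit816, hasFinSupp_unit816⟩
  · intro v _ w hw huniq e i sw hi hs hext
    by_cases hvT : v ∈ T
    · rw [ext305_of_mem816 T' φ₀ (mem_over816 hT' hvT hw), ext305_of_mem816 T f₀ hvT]
      exact hloc.inert v hvT w hw huniq e i sw hi hs hext
    · rw [ext305_of_not_mem816 T' φ₀ (not_mem_over816 hT' hvT hw),
        ext305_of_not_mem816 T f₀ hvT, hlev.2 v w (h0 v hvT) hw, hlev.1 v (h0 v hvT)]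
      exact inert_new816 hT6 D hcyc hun (h0 v hvT) hw huniq e i sw hi hext
  · intro v _ w i h_over h_rel h_ne h_i h_val
    by_cases hvT : v ∈ T
    · obtain ⟨h_n, h_conv⟩ := hloc.split v hvT w i h_over h_rel h_ne h_i h_val
      refine ⟨h_n, ?_⟩
      have e1 : (fun (j : ℕ) (g : GL (Fin 2) (v.adicCompletion K)) => ext305 T' φ₀ (w j)
            (Matrix.GeneralLinearGroup.map ((i j : v.adicCompletion K ≃+* _) :
              v.adicCompletion K →+* (w j).adicCompletion K') g))
          = fun (j : ℕ) (g : GL (Fin 2) (v.adicCompletion K)) => φ₀ (w j)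
            (Matrix.GeneralLinearGroup.map ((i j : v.adicCompletion K ≃+* _) :
              v.adicCompletion K →+* (w j).adicCompletion K') g) := by
        funext j g
        rw [ext305_of_mem816 T' φ₀ (mem_over816 hT' hvT (h_over j))]
      rw [e1, ext305_of_mem816 T f₀ hvT]
      exact h_conv
    · refine ⟨fun j => ?_, ?_⟩
      · rw [hlev.2 v (w j) (h0 v hvT) (h_over j), hlev.1 v (h0 v hvT)]
      · have e1 : (fun (j : ℕ) (g : GL (Fin 2) (v.adicCompletion K)) => ext305 T' φ₀ (w j)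
              (Matrix.GeneralLinearGroup.map ((i j : v.adicCompletion K ≃+* _) :
                v.adicCompletion K →+* (w j).adicCompletion K') g))
            = fun (_ : ℕ) => (unit305 : GL (Fin 2) (v.adicCompletion K) → ℂ) := by
          funext j g
          rw [ext305_of_not_mem816 T' φ₀ (not_mem_over816 hT' hvT (h_over j))]
          exact unit_map816 _ (h_val j) g
        rw [e1, ext305_of_not_mem816 T f₀ hvT, hlev.1 v (h0 v hvT)]
        exact isConvProd_unit816 D.l

/-- The equation lemmas of the definition are realised here. -/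
theorem unitMatch_eqns_realised816 : True := by
  have _a1 := @UnitMatchC893_816.eq_1
  have _a2 := @UnitMatchC893_816.eq_def
  have _a3 := @UnitMatchC893_816.eq_unfold
  trivial

end Fermat.Agent.LT.T7.H816U

end

end
-- ===== PACK-END LT/T7/H816/UnitMatch.lean

-- ===== PACK-BEGIN LT/T7/H941/SuppUpLocal.lean
section






/-!
# Row LT, tower T7, level 2, leaf T7.L2.1.C2.7.13.1.A2 `SuppUpC340` -- PROVED
(helper941, spare of row 2746)

OFF-MAIN.

    locSuppUpC941 K K' : LocSuppUpC941 K K'          (the local statement of `SuppUpGlue.lean`)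
    suppUpC941 K K'    : H340.SuppUpC340 K K'        (VERBATIM)

`v ∉ S` a finite place of `K`, `w₀` a place of `K'` over `v`.
* `σ(w₀) = w₀` (`locSuppUp_inert941`): `w₀` is the only place over `v` (helper816
  `unique_of_fix816`); the local automorphism `sw` of helper558 `sigmaLocC558` is the one of
  `T6.InstExtC` for the generator `σ` (`ringHom_ext_dense941`); `e = 1`, local fields
  (helper816 `e_eq_one816`, `localFields_inert816`); `disc N(δ_w) = i(disc γ_v)` is a unit;
  helper159 `goodUnit_up159` (the fundamental lemma for the unit element); `inert_core941`.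
* `σ(w₀) ≠ w₀` (`locSuppUp_split941`): the places over `v` are the `w j = σ^{-j} w₀`, `j < l`
  (helper816 `enum816`, `transFin816`, `enum_ne816`); `disc (N δ)_{w₀}` is a unit
  (`T6.InstSplitC` at `w₀`, residue degree one: helper816 `absNorm_eq_of_split816`);
  `split_core941` (helper159 `goodUnit_split159`).
-/

set_option autoImplicit false

open AutomorphicForm IsDedekindDomain NumberField MeasureTheory

noncomputable section

namespace Fermat.Agent.LT.T7.H941

open Fermat.Agent.LT Fermat.Agent.LT.H556 Fermat.Agent.LT.H556.A0 Fermat.Agent.LT.T7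
open Fermat.Agent.LT.T7.H305 Fermat.Agent.LT.T7.H340 Fermat.Agent.LT.T7.H816U
open Fermat.Agent.LT.T7.H557

variable {K K' : Type} [Field K] [NumberField K] [Field K'] [NumberField K'] [Algebra K K']

/-! ## The Galois group -/

/-- `σ⁻¹` is a generator, too. -/
theorem cycHyp_inv941 {σ : K' ≃+* K'} {l : ℕ} (h : CycHyp816 K σ l) : CycHyp816 K σ⁻¹ l where
  prime := h.prime
  pow_eq x := by
    rw [inv_pow, h.pow_eq_one, inv_one]
    rfl
  fixed x := by
    rw [← h.fixed]
    constructor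
    · intro hx
      have := congrArg σ hx
      rw [show σ (σ⁻¹ x) = x from σ.apply_symm_apply x] at this
      exact this.symm
    · intro hx
      show σ.symm x = x
      rw [RingEquiv.symm_apply_eq, hx]
  faithful := by
    obtain ⟨x, hx⟩ := h.faithful
    refine ⟨x, fun hx' => hx ?_⟩
    have := congrArg σ hx'
    rw [show σ (σ⁻¹ x) = x from σ.apply_symm_apply x] at this
    exact this.symm

/-- `σ` as an element of the Galois group generates it. -/
theorem gen_zpowers941 [IsGalois K K'] {σ : K' ≃+* K'} {l : ℕ} (h : CycHyp816 K σ l)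
    (hdeg : Module.finrank K K' = l) (t : K' ≃ₐ[K] K') :
    t ∈ Subgroup.zpowers
      (AlgEquiv.ofRingEquiv (f := σ) (fun x => h.map_alg x) : K' ≃ₐ[K] K') := by
  haveI : Fact l.Prime := ⟨h.prime⟩
  have hcard : Nat.card (K' ≃ₐ[K] K') = l := by rw [IsGalois.card_aut_eq_finrank, hdeg]
  have hne : (AlgEquiv.ofRingEquiv (f := σ) (fun x => h.map_alg x) : K' ≃ₐ[K] K') ≠ 1 := by
    obtain ⟨x, hx⟩ := h.faithful
    intro e
    apply hx
    exact congrArg (fun f : K' ≃ₐ[K] K' => f x) e
  rw [zpowers_eq_top_of_prime_card hcard hne]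
  trivial

/-! ## The enumeration -/

theorem enum_per941 {σ : K' ≃+* K'} {l : ℕ} (h : CycHyp816 K σ l)
    (w₀ : HeightOneSpectrum (𝓞 K')) (n : ℕ) : enum816 σ w₀ (n + l) = enum816 σ w₀ n := by
  show sigPl816 (σ⁻¹ ^ (n + l)) w₀ = sigPl816 (σ⁻¹ ^ n) w₀
  rw [pow_add, inv_pow σ l, h.pow_eq_one, inv_one, mul_one]

theorem enum_mul941 {σ : K' ≃+* K'} {l : ℕ} (h : CycHyp816 K σ l)
    (w₀ : HeightOneSpectrum (𝓞 K')) (n q : ℕ) :
    enum816 σ w₀ (n + l * q) = enum816 σ w₀ n := by
  induction q with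
  | zero => rfl
  | succ q ih =>
    have e : n + l * (q + 1) = n + l * q + l := by ring
    rw [e, enum_per941 h, ih]

theorem enum_mod941 {σ : K' ≃+* K'} {l : ℕ} (h : CycHyp816 K σ l)
    (w₀ : HeightOneSpectrum (𝓞 K')) (n : ℕ) : enum816 σ w₀ (n % l) = enum816 σ w₀ n := by
  conv_rhs => rw [← Nat.mod_add_div n l]
  exact (enum_mul941 h w₀ (n % l) (n / l)).symm

/-! ## The two kinds of places -/

section Places

variable (hT6 : T6.T6Out) (D : CompData K K') (hD : IsCompData D) (hcyc : IsCycExt K K' D.l)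
  {T₀ : Finset (HeightOneSpectrum (𝓞 K))} (hun : UnramOut305 (K' := K') T₀)
  {S : Finset (HeightOneSpectrum (𝓞 K))} {S' : Finset (HeightOneSpectrum (𝓞 K'))}
  (hTS : T₀ ⊆ S) (hSS' : IsOver305 S S')
  (δ : GL (Fin 2) K') (γ : GL (Fin 2) K)
  (hN : D.s.normUpTo D.l δ = Matrix.GeneralLinearGroup.map (algebraMap K K') γ)
  (hG : GoodOut305 S γ) (hI : IntOut305 S' δ)
  {v : HeightOneSpectrum (𝓞 K)} (hv : v ∉ S)
  {w₀ : HeightOneSpectrum (𝓞 K')} (hw₀ : PlaceOver K K' v w₀)

include hT6 hD hcyc hun hTS hSS' hN hG hI hv hw₀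

/-- **A place of `K'` fixed by `σ`.** -/
theorem locSuppUp_inert941 (hfix : sigPl816 D.s.σ w₀ = w₀) :
    LocSuppUp941 (K := K) D.s δ v := by
  obtain ⟨hNC, -, -, -, -, hIL, hIE, -, hEx, -, -, -, -, hFL, -, -, -, -⟩ := hT6
  haveI := hcyc.galois
  have hC : CycHyp816 K D.s.σ D.l := cycHyp_of816 D.s D.l D.k hD.cyc hD.base hcyc.prime
  have huniq : ∀ w' : HeightOneSpectrum (𝓞 K'), PlaceOver K K' v w' → w' = w₀ :=
    fun w' hw' => unique_of_fix816 hC hcyc.degree hw₀ hw' hfix
  have hv₀ : v ∉ T₀ := fun h => hv (hTS h)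
  obtain ⟨x₀, hx₀, hy₀⟩ := hun v hv₀ w₀ hw₀
  have hPR : T5.PlaceRel D.s w₀ w₀ := by
    have := placeRel_sigPl816 D.s w₀
    rwa [hfix] at this
  obtain ⟨sw, hrat, hval, hsig⟩ := (H558.sigmaLocC558 D.s).1 w₀ w₀ hPR
  obtain ⟨e, i, sw₀, hi, hs₀, hext₀, -⟩ := hIE K K'
    (AlgEquiv.ofRingEquiv (f := D.s.σ) (fun x => hC.map_alg x)) (gen_zpowers941 hC hcyc.degree)
    (by rw [hcyc.degree]; exact hcyc.prime) v w₀ (placeOver_mem816 hw₀)
    (fun w' h' => huniq w' (placeOver_of_le816 h'))
  have he : e = 1 := e_eq_one816 e hext₀.e_pos i hi hext₀.val_i x₀ hx₀ hy₀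
  subst he
  rw [hcyc.degree] at hext₀
  have hsw : sw₀ = sw := RingEquiv.ext (ringHom_ext_dense941 w₀
    (sw₀ : w₀.adicCompletion K' →+* w₀.adicCompletion K')
    (sw : w₀.adicCompletion K' →+* w₀.adicCompletion K') hext₀.val_s hval
    (fun y => (hs₀ y).trans (hrat y).symm))
  subst hsw
  obtain ⟨hk, hk'⟩ := localFields_inert816 hIL hIE hcyc hw₀ huniq x₀ hx₀ hy₀
  intro x hx
  have hxw := hx w₀ hw₀
  rw [map_mul, map_mul, map_inv, finGL_onG941 D.s w₀ sw₀ hsig, finGL_ratG941] at hxw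
  have hδ : T6.InU 0 (locG305 w₀ δ) := hI w₀ (notMem_of_placeOver941 hSS' hv hw₀)
  have hd : Valued.v (T6.disc (T6.twNorm sw₀ D.l (locG305 w₀ δ))) = 1 := by
    rw [twNorm_locG941 D.s w₀ sw₀ hsig, hN]
    have e1 : locG305 w₀ (Matrix.GeneralLinearGroup.map (algebraMap K K') γ)
        = Matrix.GeneralLinearGroup.map i (locG305 v γ) := by
      apply Units.ext
      refine Matrix.ext fun a b => ?_
      exact (hi _).symm
    rw [e1, H159.disc_map159, hext₀.val_i, pow_one]
    exact (hG v hv).2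
  obtain ⟨t, u, ht, hu, hxtu⟩ := H159.goodUnit_up159 hFL hEx hNC (Ideal.absNorm v.asIdeal) D.l
    i sw₀ hk hk' hext₀ hcyc.prime (locG305 w₀ δ) hδ hd (finGL305 w₀ x) hxw
  obtain ⟨T, hT, hT1, hT2⟩ := inert_core941 D.s w₀ sw₀ hsig hPR δ x t u ht hu hxtu
  refine ⟨T, hT, fun u' hu' => hT1 u' (fun h => hu' (h ▸ hw₀)), fun u' hu' => ?_⟩
  rw [huniq u' hu']
  exact hT2

/-- **A place of `K'` moved by `σ`.** -/
theorem locSuppUp_split941 (hmove : sigPl816 D.s.σ w₀ ≠ w₀) :
    LocSuppUp941 (K := K) D.s δ v := by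
  obtain ⟨-, -, -, -, -, -, -, hIS, -⟩ := hT6
  haveI := hcyc.galois
  haveI : NeZero D.l := ⟨hcyc.prime.ne_zero⟩
  have hC : CycHyp816 K D.s.σ D.l := cycHyp_of816 D.s D.l D.k hD.cyc hD.base hcyc.prime
  have hC' : CycHyp816 K D.s.σ⁻¹ D.l := cycHyp_inv941 hC
  have hv₀ : v ∉ T₀ := fun h => hv (hTS h)
  have hw₁ : PlaceOver K K' v (sigPl816 D.s.σ w₀) := placeOver_sigPl816 D.s.σ hC.map_alg hw₀
  have hover : ∀ j : ℕ, PlaceOver K K' v (enum816 D.s.σ w₀ j) := enum_over816 hC hw₀
  have hrel : ∀ j : ℕ, T5.PlaceRel D.s (enum816 D.s.σ w₀ (j + 1)) (enum816 D.s.σ w₀ j) :=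
    enum_rel816 D.s w₀
  have hper : ∀ n : ℕ, enum816 D.s.σ w₀ (n + D.l) = enum816 D.s.σ w₀ n := enum_per941 hC w₀
  have hne : ∀ m : ℕ, 0 < m → m < D.l → enum816 D.s.σ w₀ m ≠ enum816 D.s.σ w₀ 0 :=
    fun m h0 hl => enum_ne816 hC hcyc.degree hw₀ hw₁ hw₀ hmove m h0 hl
  have hO : ∀ u u' : HeightOneSpectrum (𝓞 K'), T5.PlaceRel D.s u u' →
      u' ∉ {u : HeightOneSpectrum (𝓞 K') | PlaceOver K K' v u} →
      u ∉ {u : HeightOneSpectrum (𝓞 K') | PlaceOver K K' v u} := by
    intro u u' h hu' hu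
    apply hu'
    have e : u' = sigPl816 D.s.σ u := HeightOneSpectrum.ext h
    rw [e]
    exact placeOver_sigPl816 D.s.σ hC.map_alg hu
  have hOm : ∀ u : HeightOneSpectrum (𝓞 K'),
      u ∈ {u : HeightOneSpectrum (𝓞 K') | PlaceOver K K' v u} →
      ∃ j : ℕ, j < D.l ∧ u = enum816 D.s.σ w₀ j := by
    intro u hu
    obtain ⟨j, hj⟩ := transFin816 hC' hcyc.degree hw₀ hu
    refine ⟨j % D.l, Nat.mod_lt _ hcyc.prime.pos, ?_⟩
    rw [enum_mod941 hC, hj]
    rfl
  have hδ : ∀ j : ℕ, T6.InU 0 (locG305 (enum816 D.s.σ w₀ j) δ) :=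
    fun j => hI _ (notMem_of_placeOver941 hSS' hv (hover j))
  have hd : Valued.v (T6.disc (locG305 (enum816 D.s.σ w₀ 0) (D.s.normUpTo D.l δ))) = 1 := by
    obtain ⟨i, hi, hival⟩ := hIS K K' v (enum816 D.s.σ w₀ 0) (placeOver_mem816 (hover 0))
      (absNorm_eq_of_split816 hcyc (hover 0) hw₁ hw₀ hmove) (hun v hv₀ _ (hover 0))
    rw [hN]
    have e1 : locG305 (enum816 D.s.σ w₀ 0) (Matrix.GeneralLinearGroup.map (algebraMap K K') γ)
        = Matrix.GeneralLinearGroup.map
          (i : v.adicCompletion K →+* (enum816 D.s.σ w₀ 0).adicCompletion K')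
          (locG305 v γ) := by
      apply Units.ext
      refine Matrix.ext fun a b => ?_
      exact (hi _).symm
    rw [e1, H159.disc_map159]
    exact (hival _).trans (hG v hv).2
  intro x hx
  obtain ⟨t, ht, ht1, ht2⟩ := split_core941 D.s D.l D.k hD.cyc (enum816 D.s.σ w₀) hrel hper hne
    hO (hover 0) hOm δ hδ hd x (fun j => hx _ (hover j))
  refine ⟨t, ht, fun u hu => ht1 u hu, fun u hu => ?_⟩
  obtain ⟨j, hj, rfl⟩ := hOm u hu
  exact ht2 j hj

end Places

/-! ## The leaf -/

variable (K K')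

/-- **THE LOCAL STATEMENT, PROVED.** -/
theorem locSuppUpC941 : LocSuppUpC941 K K' := by
  intro hT6 D hD hcyc _ _ T₀ hun S S' hTS hSS' δ γ _ hN hG hI v hv
  obtain ⟨w₀, hw₀⟩ := exists_placeOver_557 (K' := K') v
  by_cases hfix : sigPl816 D.s.σ w₀ = w₀
  · exact locSuppUp_inert941 hT6 D hD hcyc hun hTS hSS' δ γ hN hG hI hv hw₀ hfix
  · exact locSuppUp_split941 hT6 D hD hcyc hun hTS hSS' δ γ hN hG hI hv hw₀ hfix

/-- **LEAF T7.L2.1.C2.7.13.1.A2 = `H340.SuppUpC340`, PROVED, VERBATIM.** -/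
theorem suppUpC941 : SuppUpC340 K K' :=
  suppUpC_of_loc941 K K' (locSuppUpC941 K K')

end Fermat.Agent.LT.T7.H941

end

end
-- ===== PACK-END LT/T7/H941/SuppUpLocal.lean

-- ===== PACK-BEGIN LT/T7/H941/SuppUpQ.lean
section




/-!
# Row LT, tower T7, level 2 over `ℚ`, leaf T7.L2Q.1.H1.5.8.1.b.1 `SuppUpQC913`
(helper941, spare of row 2849)

OFF-MAIN.  `suppUpQC941 F : H913.SuppUpQC913 F`, VERBATIM (cut of helper913,
`CutOnUpQSpec.lean`), unconditional in the hypotheses of the Prop.

The proof of `H340.SuppUpC340` (`SuppUpLocal.lean`) does not use `D.l ≠ 2` nor `TotCplx K`: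
the global glue `suppUp_glue941` and the two local statements `locSuppUp_inert941`,
`locSuppUp_split941` with `K = ℚ`.
-/

set_option autoImplicit false

open AutomorphicForm IsDedekindDomain NumberField MeasureTheory

noncomputable section

namespace Fermat.Agent.LT.T7.H941

open Fermat.Agent.LT Fermat.Agent.LT.H556 Fermat.Agent.LT.H556.A0 Fermat.Agent.LT.T7
open Fermat.Agent.LT.T7.H305

/-- **LEAF `H913.SuppUpQC913`, PROVED, VERBATIM.** -/
theorem suppUpQC941 (F : Type) [Field F] [NumberField F] : H913.SuppUpQC913 F := by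
  intro hT6 _ D hD hcyc _ T₀ hun S S' hTS hSS' δ γ _ hN hG hI x hx
  refine suppUp_glue941 D.s δ S S' hSS' (fun v hv => ?_) x hx
  obtain ⟨w₀, hw₀⟩ := H557.exists_placeOver_557 (K' := F) v
  by_cases hfix : H816U.sigPl816 D.s.σ w₀ = w₀
  · exact locSuppUp_inert941 hT6 D hD hcyc hun hTS hSS' δ γ hN hG hI hv hw₀ hfix
  · exact locSuppUp_split941 hT6 D hD hcyc hun hTS hSS' δ γ hN hG hI hv hw₀ hfix

end Fermat.Agent.LT.T7.H941

end

end
-- ===== PACK-END LT/T7/H941/SuppUpQ.lean

-- ===== PACK-BEGIN LT/T7/H305/Match893Top.lean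
section





/-!
# Row LT, tower T7, station C2 (helper305): THE MATCHING THEOREM FOR `H893.LocHyp893` -- tops

OFF-MAIN.  Complete proofs, nothing assumed.

    globMatch_of305b : (leaves of the first cut) → CutIntC305b K K' → H893.GlobMatchC893 K K'
    cutIntC_of305b   : (leaves of the second cut) → UnitMatchC305b K K' → FactUpC305b K K'
                         → CutIntC305b K K'
    factUpC_of305b   : UpFactC305b K K' → H340.LocEqInertC340 K K' → LocEqSplitC305b K K'
                         → H340.LocEqArchC340 K K' → FactUpC305b K K'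
-/

set_option autoImplicit false
set_option linter.unusedSectionVars false

open AutomorphicForm IsDedekindDomain NumberField MeasureTheory
open scoped ComplexConjugate

noncomputable section

namespace Fermat.Agent.LT.T7.H305

open Fermat.Agent.LT.H556 Fermat.Agent.LT.H556.A0 Fermat.Agent.LT.T7

attribute [local instance] Fermat.Agent.LT.T5.instMeasurableSpaceG

variable {K K' : Type} [Field K] [NumberField K] [Field K'] [NumberField K'] [Algebra K K']

/-- `LocHyp305` for the set `{v}`, `v` with ONE place over it, from `LocHyp893` (the split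
clause is void). -/
theorem locHyp305_single305b {D : CompData K K'} {μc : @Measure (GL (Fin 2) ℂ) (borel _)}
    {S : Finset (HeightOneSpectrum (𝓞 K))}
    {n : HeightOneSpectrum (𝓞 K') → ℕ} {m : HeightOneSpectrum (𝓞 K) → ℕ}
    {φ₀ : ∀ w : HeightOneSpectrum (𝓞 K'), GL (Fin 2) (w.adicCompletion K') → ℂ}
    {Φ : InfinitePlace K' → GL (Fin 2) ℂ → ℂ}
    {f₀ : ∀ v : HeightOneSpectrum (𝓞 K), GL (Fin 2) (v.adicCompletion K) → ℂ}
    {F : InfinitePlace K → GL (Fin 2) ℂ → ℂ}
    (h : H893.LocHyp893 D μc S n m φ₀ Φ f₀ F) (hl : 1 < D.l)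
    {v : HeightOneSpectrum (𝓞 K)} (hv : v ∈ S) (w : HeightOneSpectrum (𝓞 K'))
    (huniq : ∀ w' : HeightOneSpectrum (𝓞 K'), PlaceOver K K' v w' → w' = w) :
    LocHyp305 D μc {v} n m φ₀ Φ f₀ F where
  inv_up := fun v' hv' => by
    rw [Finset.mem_singleton] at hv'
    subst hv'
    exact h.inv_up _ hv
  inv_down := fun v' hv' => by
    rw [Finset.mem_singleton] at hv'
    subst hv'
    exact h.inv_down _ hv
  arch_up := h.arch_up
  arch_down := h.arch_down
  inert := fun v' hv' => by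
    rw [Finset.mem_singleton] at hv'
    subst hv'
    exact h.inert _ hv
  split := fun v' hv' w' _ hover _ hne => by
    rw [Finset.mem_singleton] at hv'
    subst hv'
    exact absurd ((huniq _ (hover 1)).trans (huniq _ (hover 0)).symm) (hne 1 Nat.one_pos hl)
  arch := h.arch

/-- `LocHyp305` for the empty set from `LocHyp893`. -/
theorem locHyp305_empty305b {D : CompData K K'} {μc : @Measure (GL (Fin 2) ℂ) (borel _)}
    {S : Finset (HeightOneSpectrum (𝓞 K))}
    {n : HeightOneSpectrum (𝓞 K') → ℕ} {m : HeightOneSpectrum (𝓞 K) → ℕ}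
    {φ₀ : ∀ w : HeightOneSpectrum (𝓞 K'), GL (Fin 2) (w.adicCompletion K') → ℂ}
    {Φ : InfinitePlace K' → GL (Fin 2) ℂ → ℂ}
    {f₀ : ∀ v : HeightOneSpectrum (𝓞 K), GL (Fin 2) (v.adicCompletion K) → ℂ}
    {F : InfinitePlace K → GL (Fin 2) ℂ → ℂ}
    (h : H893.LocHyp893 D μc S n m φ₀ Φ f₀ F) :
    LocHyp305 D μc ∅ n m φ₀ Φ f₀ F where
  inv_up := fun v' hv' => absurd hv' (Finset.notMem_empty _)
  inv_down := fun v' hv' => absurd hv' (Finset.notMem_empty _)
  arch_up := h.arch_up
  arch_down := h.arch_down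
  inert := fun v' hv' => absurd hv' (Finset.notMem_empty _)
  split := fun v' hv' => absurd hv' (Finset.notMem_empty _)
  arch := h.arch

/-- **THE TOP OF THE NODE C2.7.13b**: `FactUpC305b` from the factorisation upstairs and the
three local equalities (the inert and the archimedean ones are the leaves of helper340). -/
theorem factUpC_of305b (hU : UpFactC305b K K') (hI : H340.LocEqInertC340 K K')
    (hS : LocEqSplitC305b K K') (hA : H340.LocEqArchC340 K K') : FactUpC305b K K' := by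
  classical
  intro hT6 D hD hcyc hl hcplx ι hι μc hμc T₀ hT₀ n m hlev
  obtain ⟨cG', hcG', hfact⟩ := hU hT6 D hD hcyc hl hcplx ι hι μc hμc T₀ hT₀ n m hlev
  refine ⟨cG', hcG', ?_⟩
  intro S S' hTS hSS' φ₀ Φ f₀ F hloc δ γ hγ hN hgood hint μT μT' hμT hμT' hlink L cT hL hcT hTor
  obtain ⟨β', J, Jc, hcut, hval, hJ, hJc⟩ :=
    hfact S S' hTS hSS' φ₀ Φ f₀ F hloc δ γ hγ hN hgood hint μT μT' hμT hμT' hlink L cT hL hcT
      hTor
  have hl1 : 1 < D.l := hcyc.prime.one_lt
  refine ⟨β', hcut, ?_⟩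
  rw [hval]
  congr 1
  unfold factVal305
  refine tsum_congr fun j => ?_
  congr 1
  · refine Finset.prod_congr rfl fun v hv => ?_
    rcases hJ v hv with h | h
    · have h' := h
      obtain ⟨w, e, i, sw, μ', μt', β'', hvw, huniq, -⟩ := h'
      exact hI hT6 D hD hcyc hl hcplx μc {v} n m φ₀ Φ f₀ F
        (locHyp305_single305b hloc hl1 hv w huniq) δ γ hγ hN L hL v
        (Finset.mem_singleton_self v) (J v) h
    · exact hS hT6 D hD hcyc hl hcplx μc S n m φ₀ Φ f₀ F hloc δ γ hγ hN L hL v hv (J v) h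
  · refine Finset.prod_congr rfl fun w _ => ?_
    exact hA D hD hcyc hl hcplx ι hι μc hμc ∅ n m φ₀ Φ f₀ F (locHyp305_empty305b hloc) δ γ hγ hN
      L hL w j (Jc w j) (hJc w j)

/-- **THE TOP OF THE SECOND CUT for `LocHyp893`.** -/
theorem cutIntC_of305b (hT6 : T6.T6Out) (hgood : GoodSetC305 K K')
    (hunit : UnitMatchC305b K K') (hpure : PureExtC305 K) (hpure' : PureExtC305 K')
    (hmeas : LocMeasC305) (hcut : LocCutC305) (harch : ArchMeasC305)
    (htor : TorSplitC305 K) (hdown : FactDownC305 K) (hup : FactUpC305b K K')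
    (hvan : LocVanC305) (hnn : NonNormLocC305 K K') : CutIntC305b K K' := by
  classical
  intro D hD hcyc hl2 htc ι hι μc hμc T₀ hun n m hlev
  obtain ⟨cG, hcG, hdn⟩ := hdown htc D.R hD.frame μc hμc T₀ m hlev.1
  obtain ⟨cG', hcG', hupp⟩ := hup hT6 D hD hcyc hl2 htc ι hι μc hμc T₀ hun n m hlev
  have hloc : T6.InstLocalC := hT6.2.2.2.2.2.1
  refine ⟨((cG' / cG : ℝ) : ℂ), ?_, ?_⟩
  · exact_mod_cast (div_pos hcG' hcG).ne'
  intro T T' hT₀T hTT' φ₀ Φ f₀ F hlocT
  constructor
  · -- the norms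
    intro δ γ hell hN μT μT' hμT hμT' hlink
    obtain ⟨S, S', hTS, hSS', hgγ, hiδ⟩ := hgood γ δ hell T
    have hlocS := hunit hT6 D hD hcyc hl2 htc μc hμc T₀ hun n m hlev T S T' S' hT₀T hTS hTT'
      hSS' φ₀ Φ f₀ F hlocT
    obtain ⟨L, hL⟩ := exists_locData305 hT6 hmeas hcut harch m hell
    obtain ⟨cT, hcT, hTC⟩ := htor htc γ hell μT hμT L hL.tor hL.torc
    obtain ⟨hβ, hval⟩ := hdn S (hT₀T.trans hTS) (ext305 T f₀) F hlocS.inv_down
      (fun w => ⟨(hlocS.arch_down w).1, (hlocS.arch_down w).2.1⟩) γ hell hgγ μT hμT L cT hL hcT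
      hTC
    obtain ⟨β', hβ', hval'⟩ := hupp S S' (hT₀T.trans hTS) hSS' (ext305 T' φ₀) Φ (ext305 T f₀) F
      hlocS δ γ hell hN hgγ hiδ μT μT' hμT hμT' hlink L cT hL hcT hTC
    rw [pure_ext_fun305 hpure hTS] at hβ hval
    rw [pure_ext_fun305 hpure' (over_mono305 hTS hTT' hSS')] at hβ' hval'
    refine ⟨β', prodCut305 S cT L, hβ', hβ, ?_⟩
    have h1 : cG ≠ 0 := hcG.ne'
    have h2 : cT ≠ 0 := hcT.ne'
    have h3 : cG' / cT = cG' / cG * (cG / cT) := by field_simp
    rw [hval', hval, ← mul_assoc, ← Complex.ofReal_mul, ← h3]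
  · -- the elements which are not norms
    intro γ hell hnot μT hμT
    obtain ⟨v, w, e, i, sw, hvw, huniq, hi, hsw, hext, hnorm⟩ :=
      hnn hT6 D hD hcyc hl2 htc γ hell hnot
    obtain ⟨S, S', hTS, hSS', hgγ, -⟩ := hgood γ 1 hell (insert v T)
    have hTS' : T ⊆ S := (Finset.subset_insert v T).trans hTS
    have hvS : v ∈ S := hTS (Finset.mem_insert_self v T)
    have hlocS := hunit hT6 D hD hcyc hl2 htc μc hμc T₀ hun n m hlev T S T' S' hT₀T hTS' hTT'
      hSS' φ₀ Φ f₀ F hlocT
    obtain ⟨L, hL⟩ := exists_locData305 hT6 hmeas hcut harch m hell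
    obtain ⟨cT, hcT, hTC⟩ := htor htc γ hell μT hμT L hL.tor hL.torc
    obtain ⟨hβ, hval⟩ := hdn S (hT₀T.trans hTS') (ext305 T f₀) F hlocS.inv_down
      (fun w => ⟨(hlocS.arch_down w).1, (hlocS.arch_down w).2.1⟩) γ hell hgγ μT hμT L cT hL hcT
      hTC
    rw [pure_ext_fun305 hpure hTS'] at hβ hval
    refine ⟨prodCut305 S cT L, hβ, ?_⟩
    rw [hval]
    have hzero : locInt305 (L.μv v) (L.βv v) (ext305 T f₀ v) (locG305 v γ) = 0 := by
      refine hvan hT6 (v.adicCompletion K) _ (hloc K v) (m v) (ext305 T f₀ v)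
        (hlocS.inv_down v hvS).1 (hlocS.inv_down v hvS).2 (locG305 v γ) (isReg_locG305 hell v)
        ?_ (L.μv v) (hL.haar v) (L.μt v) (hL.tor v) (L.βv v) (hL.cut v)
      intro c' hc'
      exact ((hlocS.inert v hvS w hvw huniq e i sw hi hsw hext).2 (locG305 v γ) c'
        (isReg_locG305 hell v) hnorm hc')
    have hfact : factVal305 D.R.r S L (ext305 T f₀) μc F = 0 := by
      unfold factVal305
      rw [Finset.prod_eq_zero hvS hzero]
      simp
    rw [hfact, mul_zero]


/-- **THE TOP OF THE FIRST CUT for `LocHyp893`**: global matching from local matching. -/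
theorem globMatch_of305b (hι : IotaC305 K K') (hU : UnfoldC305 K) (hU' : UnfoldC305 K')
    (hTc : TorCommC305 K) (hTc' : TorCommC305 K')
    (hRep : TwistRepC305 K') (hEll : EllRegC305 K K') (hHaar : TorHaarC305 K)
    (hMeas : TorMeasC305 K K') (hComp : TorCompC305 K K') (hCut : CutIntC305b K K') :
    H893.GlobMatchC893 K K' := by
  intro D hD hcyc hl hcplx μc hμc T₀ hram n m hlev
  obtain ⟨ι, hιD⟩ := hι D hD hcyc hcplx
  obtain ⟨κ₀, hκ₀, hC⟩ := hCut D hD hcyc hl hcplx ι hιD μc hμc T₀ hram n m hlev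
  have hl0 : ((D.l : ℕ) : ℂ) ≠ 0 := by
    exact_mod_cast hcyc.prime.ne_zero
  refine ⟨κ₀ / (D.l : ℂ), div_ne_zero hκ₀ hl0, ?_⟩
  intro T T' hTT hT' φ₀ Φ f₀ F hloc φ' f hφ' hf htφ' htf
  obtain ⟨hnorm, hnon⟩ := hC T T' hTT hT' φ₀ Φ f₀ F hloc
  have eφ' : φ' = pure305 T' φ₀ Φ := funext hφ'
  have ef : f = fun h => κ₀ / (D.l : ℂ) * pure305 T f₀ F h := funext hf
  have hκ : κ₀ / (D.l : ℂ) ≠ 0 := div_ne_zero hκ₀ hl0
  constructor
  · intro δ γ hγ hN Fδ Fγ hFδ hFγ
    obtain ⟨δ₁, Fδ₁, hN₁, hFδ₁, hint⟩ :=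
      hRep D.R' hD.frame' D.s D.l D.k D.𝔑 hD.cyc hD.aut δ
        (Matrix.GeneralLinearGroup.map (algebraMap K K') γ) hN Fδ hFδ
    rw [← hint φ']
    obtain ⟨μT, μT', hμT, hμT', hlink⟩ := hMeas D hD hcyc hcplx ι hιD δ₁ γ hγ hN₁
    obtain ⟨β', β, hβ', hβ, hCI⟩ := hnorm δ₁ γ hγ hN₁ μT μT' hμT hμT' hlink
    have hreg := hEll D hD γ hγ
    have e1 := hU' D.R' hD.frame' D.s D.l D.k D.𝔑 hD.cyc hD.aut δ₁
      (by rw [hN₁]; exact hreg.1) φ' htφ' Fδ₁ hFδ₁
      (hTc' D.R' hD.frame' D.s D.l D.k D.𝔑 hD.cyc hD.aut δ₁ (by rw [hN₁]; exact hreg.1))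
      μT' hμT' β' (by rw [eφ']; exact hβ')
    have e2 := hU D.R hD.frame (T5.AdelicAut.id K) 1 ⊤ D.𝔫 T5.isCyclicOfDegree_id
      (T5.autPreserves_id D.𝔫 D.R.μ D.R.r) γ hreg.2 f htf Fγ hFγ
      (hTc D.R hD.frame (T5.AdelicAut.id K) 1 ⊤ D.𝔫 T5.isCyclicOfDegree_id
        (T5.autPreserves_id D.𝔫 D.R.μ D.R.r) γ hreg.2)
      μT hμT β
      (by rw [ef, supp_const_mul305 _ _ hκ]; exact hβ)
    have e3 := hComp D hD hcyc hcplx ι hιD δ₁ γ hγ hN₁ Fδ₁ Fγ hFδ₁ hFγ μT μT' hμT hμT' hlink
    rw [e1, e2, e3, eφ', hCI, ef, cutInt_const_mul305, ENNReal.toReal_mul]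
    simp only [ENNReal.toReal_natCast]
    push_cast
    field_simp
  · intro γ hγ hno Fγ hFγ
    obtain ⟨μT, hμT⟩ := hHaar (T5.AdelicAut.id K) γ
    obtain ⟨β, hβ, hCI⟩ := hnon γ hγ hno μT hμT
    have hreg := hEll D hD γ hγ
    have e2 := hU D.R hD.frame (T5.AdelicAut.id K) 1 ⊤ D.𝔫 T5.isCyclicOfDegree_id
      (T5.autPreserves_id D.𝔫 D.R.μ D.R.r) γ hreg.2 f htf Fγ hFγ
      (hTc D.R hD.frame (T5.AdelicAut.id K) 1 ⊤ D.𝔫 T5.isCyclicOfDegree_id
        (T5.autPreserves_id D.𝔫 D.R.μ D.R.r) γ hreg.2)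
      μT hμT β
      (by rw [ef, supp_const_mul305 _ _ hκ]; exact hβ)
    rw [e2, ef, cutInt_const_mul305, hCI]
    simp

end Fermat.Agent.LT.T7.H305

end

end
-- ===== PACK-END LT/T7/H305/Match893Top.lean

-- ===== PACK-BEGIN LT/T7/H305/UpFact893Spec.lean
section




/-!
# Row LT, tower T7, node C2.7.13.1b `UpFactC305b` (helper305): the cut of helper340 for
# `H893.LocHyp893` -- Spec

OFF-MAIN.  Definitions and frozen Props only (the proved top is `UpFact893Top.lean`).  No hole,
nothing assumed.  ADDITIVE (new names only, suffix `305b`).  Vocabulary: `Match893Spec.lean`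
(helper305), `T7/H340/UpFactSpec.lean` (helper340@4a08d18e4, sha256 04981afb), byte-identical.

    upFactC305b_of_parts : UpDatC305b K K' → H340.CutOnUpC340 K K' → FactIntUpC305b K K'
                             → UpFactC305b K K'

The second cut of `H340.UpFactC340` by helper340 is stated FOR ALL local data upstairs `U`
(`CutOnUpC340`, `FactIntUpC340`); so for `LocHyp893` (convolution identity for ONE enumeration
at the split places) only the choice of `U` changes:

* `UpDatC305b` = `H340.UpDatC340` + at the split places of `S` the enumeration of `U` is THE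
  enumeration of `LocHyp893.split` (levels agree, convolution identity).  The additional
  properties `inj`, `exh`, `sig`, `iot` of `H340.IsSplitDat340` hold for EVERY enumeration with
  the properties `ovr`, `rel`, `ne`, `rat_i`, `val_i` (falsity checks of helper340: `i_a` is
  determined by `rat_i` and continuity; the orbit of `σ` on the places over `v` is free and
  transitive).
* `H340.CutOnUpC340`: UNCHANGED (no local hypotheses).
* `FactIntUpC305b` = `H340.FactIntUpC340` with `LocHyp893` (the proof uses `inv_up`, `arch_up`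
  and the agreement of the levels at the split places: `n (w_a) = m v` for ALL places over `v`,
  from the ONE enumeration of the hypothesis, which exhausts the places over `v`).  The leaves
  `GrpSplitC340`, `PtFactUpC340`, `RayFinUpC340`, `ArchIntblUpC340` are UNCHANGED.
-/

set_option autoImplicit false

open AutomorphicForm IsDedekindDomain NumberField MeasureTheory
open scoped ComplexConjugate

noncomputable section

namespace Fermat.Agent.LT.T7.H305

open Fermat.Agent.LT.H556 Fermat.Agent.LT.H556.A0 Fermat.Agent.LT.T7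

attribute [local instance] Fermat.Agent.LT.T5.instMeasurableSpaceG

variable (K K' : Type) [Field K] [NumberField K] [Field K'] [NumberField K'] [Algebra K K']

/-- **PART 0b = UP-DAT for `LocHyp893`** (the local data upstairs exist, with THE enumeration
of the hypothesis at the split places).  See the header. -/
def UpDatC305b : Prop :=
  T6.T6Out →
  ∀ D : CompData K K', IsCompData D → IsCycExt K K' D.l → D.l ≠ 2 → TotCplx K →
    ∀ ι : Adl K →+* Adl K', IsAdeleBase305 D.s D.l ι →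
    ∀ μc : @Measure (GL (Fin 2) ℂ) (borel _),
    ∀ (T₀ : Finset (HeightOneSpectrum (𝓞 K))), UnramOut305 (K' := K') T₀ →
    ∀ (n : HeightOneSpectrum (𝓞 K') → ℕ) (m : HeightOneSpectrum (𝓞 K) → ℕ),
      IsLevelAt305 T₀ n m →
    ∀ (S : Finset (HeightOneSpectrum (𝓞 K))) (S' : Finset (HeightOneSpectrum (𝓞 K'))),
      T₀ ⊆ S → IsOver305 S S' →
    ∀ (φ₀ : ∀ w : HeightOneSpectrum (𝓞 K'), GL (Fin 2) (w.adicCompletion K') → ℂ)
      (Φ : InfinitePlace K' → GL (Fin 2) ℂ → ℂ)
      (f₀ : ∀ v : HeightOneSpectrum (𝓞 K), GL (Fin 2) (v.adicCompletion K) → ℂ)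
      (F : InfinitePlace K → GL (Fin 2) ℂ → ℂ),
      H893.LocHyp893 D μc S n m φ₀ Φ f₀ F →
    ∀ (δ : GL (Fin 2) K') (γ : GL (Fin 2) K), T6.IsEll γ →
      D.s.normUpTo D.l δ = Matrix.GeneralLinearGroup.map (algebraMap K K') γ →
    ∀ L : LocData305 K γ, IsLocData305 m L →
      ∃ U : H340.UpDat340 K δ, H340.IsUpDat340 D ι n L S U ∧
        ∀ v : U.Ssp,
          (∀ j : ℕ, n ((U.dS v).w j) = m v.1) ∧
            T6.IsConvProd (T6.InU (m v.1)) D.l
              (fun j g => φ₀ ((U.dS v).w j)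
                (Matrix.GeneralLinearGroup.map
                  (((U.dS v).i j : (v.1).adicCompletion K ≃+* _) :
                    (v.1).adicCompletion K →+* ((U.dS v).w j).adicCompletion K') g))
              (f₀ v.1)

/-- **PART Bb = FACT-INT-UP for `LocHyp893`.**  `H340.FactIntUpC340` with `H893.LocHyp893`. -/
def FactIntUpC305b : Prop :=
  T6.T6Out →
  ∀ D : CompData K K', IsCompData D → IsCycExt K K' D.l → D.l ≠ 2 → TotCplx K →
    ∀ ι : Adl K →+* Adl K', IsAdeleBase305 D.s D.l ι →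
    ∀ μc : @Measure (GL (Fin 2) ℂ) (borel _), @Measure.IsHaarMeasure _ _ _ (borel _) μc →
    ∀ (T₀ : Finset (HeightOneSpectrum (𝓞 K))), UnramOut305 (K' := K') T₀ →
    ∀ (n : HeightOneSpectrum (𝓞 K') → ℕ) (m : HeightOneSpectrum (𝓞 K) → ℕ),
      IsLevelAt305 T₀ n m →
    ∃ cG' : ℝ, 0 < cG' ∧
      ∀ (S : Finset (HeightOneSpectrum (𝓞 K))) (S' : Finset (HeightOneSpectrum (𝓞 K'))),
        T₀ ⊆ S → IsOver305 S S' →
      ∀ (φ₀ : ∀ w : HeightOneSpectrum (𝓞 K'), GL (Fin 2) (w.adicCompletion K') → ℂ)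
        (Φ : InfinitePlace K' → GL (Fin 2) ℂ → ℂ)
        (f₀ : ∀ v : HeightOneSpectrum (𝓞 K), GL (Fin 2) (v.adicCompletion K) → ℂ)
        (F : InfinitePlace K → GL (Fin 2) ℂ → ℂ),
        H893.LocHyp893 D μc S n m φ₀ Φ f₀ F →
      ∀ (δ : GL (Fin 2) K') (γ : GL (Fin 2) K), T6.IsEll γ →
        D.s.normUpTo D.l δ = Matrix.GeneralLinearGroup.map (algebraMap K K') γ →
        GoodOut305 S γ → IntOut305 S' δ →
      ∀ (L : LocData305 K γ) (cT : ℝ), IsLocData305 m L → 0 < cT →
      ∀ (U : H340.UpDat340 K δ) (hU : H340.IsUpDat340 D ι n L S U),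
        cutInt305 D.R'.r D.s (pure305 S' φ₀ Φ) δ D.R'.μ (H340.upCut340 S' cT L U)
          = ((cG' / cT : ℝ) : ℂ)
            * ∑' j : ℤ, (∏ v ∈ S, H340.upJ340 D.l hU.pos φ₀ L U v)
                * ∏ w : InfinitePlace K, H340.upJc340 D.l hU.pos D.R'.r Φ L μc U w j

end Fermat.Agent.LT.T7.H305

end

end
-- ===== PACK-END LT/T7/H305/UpFact893Spec.lean

-- ===== PACK-BEGIN LT/T7/H305/UpFact893Top.lean
section




/-!
# Row LT, tower T7, node C2.7.13.1b `UpFactC305b` (helper305): the proved top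

OFF-MAIN.  Complete proof, nothing assumed.

    upFactC305b_of_parts : UpDatC305b K K' → H340.CutOnUpC340 K K' → FactIntUpC305b K K'
                             → UpFactC305b K K'
-/

set_option autoImplicit false

open AutomorphicForm IsDedekindDomain NumberField MeasureTheory
open scoped ComplexConjugate

noncomputable section

namespace Fermat.Agent.LT.T7.H305

open Fermat.Agent.LT.H556 Fermat.Agent.LT.H556.A0 Fermat.Agent.LT.T7 Fermat.Agent.LT.T7.H340

attribute [local instance] Fermat.Agent.LT.T5.instMeasurableSpaceG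

variable {K K' : Type} [Field K] [NumberField K] [Field K'] [NumberField K'] [Algebra K K']

/-- **THE TOP OF THE NODE C2.7.13.1b**: `UpFactC305b` from the three parts. -/
theorem upFactC305b_of_parts (hDat : UpDatC305b K K') (hA : CutOnUpC340 K K')
    (hB : FactIntUpC305b K K') : UpFactC305b K K' := by
  intro hT6 D hD hcyc hl hcplx ι hι μc hμc T₀ hT₀ n m hlev
  obtain ⟨cG', hcG', hfact⟩ := hB hT6 D hD hcyc hl hcplx ι hι μc hμc T₀ hT₀ n m hlev
  refine ⟨cG', hcG', ?_⟩
  intro S S' hTS hSS' φ₀ Φ f₀ F hloc δ γ hγ hN hgood hint μT μT' hμT hμT' hlink L cT hL hcT hTor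
  obtain ⟨U, hU, hconv⟩ := hDat hT6 D hD hcyc hl hcplx ι hι μc T₀ hT₀ n m hlev S S' hTS hSS'
    φ₀ Φ f₀ F hloc δ γ hγ hN L hL
  refine ⟨upCut340 S' cT L U, upJ340 D.l hU.pos φ₀ L U, upJc340 D.l hU.pos D.R'.r Φ L μc U,
    ?_, ?_, ?_, ?_⟩
  · exact hA hT6 D hD hcyc hl hcplx ι hι T₀ hT₀ n m hlev S S' hTS hSS' φ₀ Φ δ γ hγ hN hgood hint
      μT μT' hμT hμT' hlink L cT hL hcT hTor U hU
  · exact hfact S S' hTS hSS' φ₀ Φ f₀ F hloc δ γ hγ hN hgood hint L cT hL hcT U hU
  · intro v hv
    rcases (hU.union v).1 hv with h | h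
    · left
      have hd := hU.inert ⟨v, h⟩
      exact ⟨(U.dI ⟨v, h⟩).w, (U.dI ⟨v, h⟩).e, (U.dI ⟨v, h⟩).i, (U.dI ⟨v, h⟩).sw,
        (U.dI ⟨v, h⟩).μ', (U.dI ⟨v, h⟩).μt', (U.dI ⟨v, h⟩).β', hd.ovr, hd.uniq, hd.rat_i,
        hd.rat_s, hd.ext, hd.haar, hd.tor, hd.cut, upJ_inert340 D.l hU.pos φ₀ L U v h⟩
    · right
      have hnot : v ∉ U.Sin := fun h1 => hU.disj v h1 h
      have hd := hU.split ⟨v, h⟩
      exact ⟨hU.pos, (U.dS ⟨v, h⟩).w, (U.dS ⟨v, h⟩).i, hd.ovr, hd.rel, hd.ne, hd.rat_i,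
        hd.val_i, (hconv ⟨v, h⟩).1, (hconv ⟨v, h⟩).2,
        upJ_split340 D.l hU.pos φ₀ L U v hnot h⟩
  · intro w j
    have hd := hU.arch w
    exact ⟨hU.pos, (U.dA w).w, (U.dA w).d, hd.ovr, hd.rel, hd.inj, hd.typ, hd.iot, rfl⟩

end Fermat.Agent.LT.T7.H305

end

end
-- ===== PACK-END LT/T7/H305/UpFact893Top.lean

-- ===== PACK-BEGIN LT/T7/H816/UnitAdapt305b.lean
section




/-!
# Row LT, tower T7, leaf C2.7.11b `H305.UnitMatchC305b` (Prop of record of helper305,
# `Match893Spec.lean`) -- PROVED VERBATIM (helper816, adapter of `UnitMatch.lean`), OFF-MAIN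
-/

set_option autoImplicit false

namespace Fermat.Agent.LT.T7.H816U

/-- **LEAF C2.7.11b = UNIT-MATCH for `LocHyp893`**, the Prop of record of helper305. -/
theorem unitMatchC305b_816 (K K' : Type) [Field K] [NumberField K] [Field K'] [NumberField K']
    [Algebra K K'] : Fermat.Agent.LT.T7.H305.UnitMatchC305b K K' := by
  intro hT6 D hD hcyc _ _ μc _ T₀ hun n m hlev T S T' _ hT₀T _ hT' _ φ₀ Φ f₀ F hloc
  exact unitMatch893_816 hT6 D hD hcyc μc T₀ hun n m hlev T S T' hT₀T hT' φ₀ Φ f₀ F hloc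

end Fermat.Agent.LT.T7.H816U

end
-- ===== PACK-END LT/T7/H816/UnitAdapt305b.lean

-- ===== PACK-BEGIN LT/T7/H314/UpFactBSpec.lean
section




/-!
# Row LT, tower T7, node C2.7.13.1b `UpFactC305b` (owner helper314, registry row 2740):
# THE CUT -- Spec

OFF-MAIN.  Definitions and frozen Props only (the proved tops are in `UpFactBTop.lean`).  No
hole, nothing assumed.  ADDITIVE (new names only, suffix `314`).  Vocabulary:
`T7/H305/Match893Spec.lean` (helper305, sha256 d1d042d0: `UpFactC305b`, `IsSplitVal305b`),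
`T7/H340/UpFactSpec.lean` (helper340, sha256 04981afb: the SECOND CUT of `UpFactC340`),
`T7/H893/SupplyConstrSpec2.lean` (helper893, `LocHyp893`) and their imports, byte-identical.

    upFactC305b_of314 : UpDatC340 K K' → SplitEnumC314 K K' → CutOnUpC340 K K'
                          → FactIntUpCoreC314 K K' → H305.UpFactC305b K K'      (VERBATIM)
    factIntUpC340_of_core314 : FactIntUpCoreC314 K K' → H340.FactIntUpC340 K K'
    upFactC340_of314 : UpDatC340 K K' → CutOnUpC340 K K' → FactIntUpCoreC314 K K'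
                          → H340.UpFactC340 K K'

## The cut = the second cut of helper340, with TWO changes

The leaves of the second cut of helper340 (`SuppOutUpC340`, `SuppUpC340`, `CutOnOutUpC340`,
`IsoContC340`, `GrpSplitC340`, `PtFactUpC340`, `RayFinUpC340`, `ArchIntblUpC340`) and the parts
`UpDatC340`, `CutOnUpC340` do NOT mention the local hypotheses; they are used AS THEY ARE.

1. `FactIntUpCoreC314` = PART B IN CORE FORM: `H340.FactIntUpC340` with the three facts which
   its proof takes from the local hypotheses in place of `LocHyp305`: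
   * `hinv`  = the clause `inv_up` (components upstairs bi-invariant, finite support modulo
     `U(n_w)`: measurability of the integrand),
   * `harch` = the clause `arch_up` (continuous, compact support, invariant under complex
     conjugation),
   * `hlev`  = the levels agree along the enumerations OF THE DATA `U` at the split places
     (the hypothesis `hlev` of `GrpSplitC340`).
   The conclusion of `FactIntUpC340` does not mention `f₀`, `F`: they are not in the core form.
   `LocHyp305` gives the three facts (`factIntUpC340_of_core314`, PROVED), and so does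
   `LocHyp893` for data whose split enumerations are those of `LocHyp893.split`.
2. `SplitEnumC314` (LEAF): EVERY enumeration of the places over `v` with the five basic
   properties of `IsSplitVal340` is a full split datum (`IsSplitDat340`: the places are
   distinct and ALL the places over `v`, `sig`, `iot`).  So the data of `UpDatC340` may be
   changed at the split places to the enumerations of `LocHyp893.split`.

FALSITY CHECKS (helper314).  `SplitEnumC314`: `w_j = σ^{-j}(w_0)` (`rel`), the group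
`⟨σ⟩` of prime order `l` acts transitively on the places over `v` (`IsCycExt.galois`,
`IsCompData.cyc`), `w_j ≠ w_0` for `0 < j < l` (`ne`): the stabiliser of `w_0` is trivial, the
`w_a`, `a < l`, are distinct and exhaust the fibre, `w_l = w_0`; `i_j` is THE continuous
extension of `K → K'` to `K_v → K'_{w_j}` (`rat_i`, `val_i`, density of `K` in `K_v`), so
`iot` follows from `IsAdeleBase305.fin` (the same density argument; `e = 1`) and `sig` from
`SigmaLocC305 K'` (`i_a⁻¹ ∘ s ∘ i_{a+1}` is a continuous endomorphism of `K_v` which is the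
identity on `K`; for `a = l - 1`: `w_l = w_0`, `i_l = i_0` as maps).  The statement is the one
which the proof of `UpDatC340` establishes for the enumeration of `T6.InstSplitC`.
`FactIntUpCoreC314`: the constant is the one of `GrpSplitC340`; no clause of the local
hypotheses about the components DOWNSTAIRS is used (the equality is about the integral
upstairs and the local integrals upstairs).
-/

set_option autoImplicit false

open AutomorphicForm IsDedekindDomain NumberField MeasureTheory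
open scoped ComplexConjugate

noncomputable section

namespace Fermat.Agent.LT.T7.H314

open Fermat.Agent.LT.H556 Fermat.Agent.LT.H556.A0 Fermat.Agent.LT.T7 Fermat.Agent.LT.T7.H305
open Fermat.Agent.LT.T7.H340

attribute [local instance] Fermat.Agent.LT.T5.instMeasurableSpaceG

section TwoFields

variable (K K' : Type) [Field K] [NumberField K] [Field K'] [NumberField K'] [Algebra K K']

/-- **LEAF UF.b1 = SPLIT-ENUM.**  An enumeration `(w_j, i_j)` of places over the finite place
`v` with the five basic properties of `H340.IsSplitVal340` (`w_j` over `v`,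
`w_j = σ(w_{j+1})`, `w_j ≠ w_0` for `0 < j < l`, `i_j` extends `K → K'`, `i_j` preserves the
valuation) is a full split datum `H340.IsSplitDat340`.  See the header (FALSITY CHECKS) for
the proof. -/
def SplitEnumC314 : Prop :=
  T6.T6Out →
  ∀ D : CompData K K', IsCompData D → IsCycExt K K' D.l → D.l ≠ 2 → TotCplx K →
    ∀ ι : Adl K →+* Adl K', IsAdeleBase305 D.s D.l ι →
    ∀ (v : HeightOneSpectrum (𝓞 K)) (d : SplitDat340 K' v),
      (∀ j : ℕ, PlaceOver K K' v (d.w j)) →
      (∀ j : ℕ, T5.PlaceRel D.s (d.w (j + 1)) (d.w j)) →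
      (∀ j : ℕ, 0 < j → j < D.l → d.w j ≠ d.w 0) →
      (∀ (j : ℕ) (x : K), d.i j (algebraMap K (v.adicCompletion K) x)
        = algebraMap K' ((d.w j).adicCompletion K') (algebraMap K K' x)) →
      (∀ (j : ℕ) (x : v.adicCompletion K), Valued.v (d.i j x) = Valued.v x) →
      IsSplitDat340 D ι d

/-- **PART B IN CORE FORM = FACT-INT-UP-CORE.**  `H340.FactIntUpC340` with the facts `hinv`
(`inv_up`), `harch` (`arch_up`), `hlev` (levels along the enumerations of the data) in place of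
the local hypotheses.  The constant `c'_G` depends on `D`, `μc`, `T₀`, `n` only.
Proof.  The proof of `H340.FactIntUpC340` from the leaves of helper340: `RayFinUpC340` (the sum
over the ray is a finite sum, uniformly), `PtFactUpC340` (pointwise factorisation on
`Out_{S'}`; `harch`), `GrpSplitC340` (the Haar measure in the grouped coordinates; `hlev`),
Fubini for products of functions (`integral_prod_mul`, `integral_fintype_prod_eq_prod`; no
integrability needed; `HaarSigmaC558`), measurability of the local integrands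
(`BiInvContC558` with `hinv`, `IsoContC340`, `CompContC558 K'`, `OutOpenC558 K'`),
`ArchIntblUpC340` (exchange of the finite sum over `j` with the integral). -/
def FactIntUpCoreC314 : Prop :=
  T6.T6Out →
  ∀ D : CompData K K', IsCompData D → IsCycExt K K' D.l → D.l ≠ 2 → TotCplx K →
    ∀ ι : Adl K →+* Adl K', IsAdeleBase305 D.s D.l ι →
    ∀ μc : @Measure (GL (Fin 2) ℂ) (borel _), @Measure.IsHaarMeasure _ _ _ (borel _) μc →
    ∀ (T₀ : Finset (HeightOneSpectrum (𝓞 K))), UnramOut305 (K' := K') T₀ →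
    ∀ (n : HeightOneSpectrum (𝓞 K') → ℕ) (m : HeightOneSpectrum (𝓞 K) → ℕ),
      IsLevelAt305 T₀ n m →
    ∃ cG' : ℝ, 0 < cG' ∧
      ∀ (S : Finset (HeightOneSpectrum (𝓞 K))) (S' : Finset (HeightOneSpectrum (𝓞 K'))),
        T₀ ⊆ S → IsOver305 S S' →
      ∀ (φ₀ : ∀ w : HeightOneSpectrum (𝓞 K'), GL (Fin 2) (w.adicCompletion K') → ℂ)
        (Φ : InfinitePlace K' → GL (Fin 2) ℂ → ℂ),
        (∀ v ∈ S, ∀ w : HeightOneSpectrum (𝓞 K'), PlaceOver K K' v w →
          T6.IsBiInv (T6.InU (n w)) (φ₀ w) ∧ T6.HasFinSupp (T6.InU (n w)) (φ₀ w)) →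
        (∀ w : InfinitePlace K', Continuous (Φ w) ∧ HasCompactSupport (Φ w) ∧
          ∀ g : GL (Fin 2) ℂ, Φ w (conjGL305 g) = Φ w g) →
      ∀ (δ : GL (Fin 2) K') (γ : GL (Fin 2) K), T6.IsEll γ →
        D.s.normUpTo D.l δ = Matrix.GeneralLinearGroup.map (algebraMap K K') γ →
        GoodOut305 S γ → IntOut305 S' δ →
      ∀ (L : LocData305 K γ) (cT : ℝ), IsLocData305 m L → 0 < cT →
      ∀ (U : UpDat340 K δ) (hU : IsUpDat340 D ι n L S U),
        (∀ (v : U.Ssp) (a : ℕ), n ((U.dS v).w a) = m v.1) →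
        cutInt305 D.R'.r D.s (pure305 S' φ₀ Φ) δ D.R'.μ (upCut340 S' cT L U)
          = ((cG' / cT : ℝ) : ℂ)
            * ∑' j : ℤ, (∏ v ∈ S, upJ340 D.l hU.pos φ₀ L U v)
                * ∏ w : InfinitePlace K, upJc340 D.l hU.pos D.R'.r Φ L μc U w j

end TwoFields

/-! ## Appendix: the equation lemmas of the definitions are realised HERE -/

theorem eqns_realisedUFB314 : True := by
  have _a1 := @SplitEnumC314.eq_1
  have _a2 := @SplitEnumC314.eq_def
  have _a3 := @SplitEnumC314.eq_unfold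
  have _b1 := @FactIntUpCoreC314.eq_1
  have _b2 := @FactIntUpCoreC314.eq_def
  have _b3 := @FactIntUpCoreC314.eq_unfold
  trivial

end Fermat.Agent.LT.T7.H314

end

end
-- ===== PACK-END LT/T7/H314/UpFactBSpec.lean

-- ===== PACK-BEGIN LT/T7/H314/UpFactBTop.lean
section




/-!
# Row LT, tower T7, node C2.7.13.1b `UpFactC305b` (owner helper314, registry row 2740):
# THE CUT -- proved tops

OFF-MAIN.  No hole, nothing assumed.

    upFactC305b_of314 : UpDatC340 K K' → SplitEnumC314 K K' → CutOnUpC340 K K'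
                          → FactIntUpCoreC314 K K' → H305.UpFactC305b K K'      (VERBATIM)
    factIntUpC340_of_core314 : FactIntUpCoreC314 K K' → H340.FactIntUpC340 K K'
    upFactC340_of314 : UpDatC340 K K' → CutOnUpC340 K K' → FactIntUpCoreC314 K K'
                          → H340.UpFactC340 K K'
-/

set_option autoImplicit false

open AutomorphicForm IsDedekindDomain NumberField MeasureTheory
open scoped ComplexConjugate

noncomputable section

namespace Fermat.Agent.LT.T7.H314

open Fermat.Agent.LT.H556 Fermat.Agent.LT.H556.A0 Fermat.Agent.LT.T7 Fermat.Agent.LT.T7.H305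
open Fermat.Agent.LT.T7.H340

attribute [local instance] Fermat.Agent.LT.T5.instMeasurableSpaceG

variable {K K' : Type} [Field K] [NumberField K] [Field K'] [NumberField K'] [Algebra K K']

/-! ## 1. The core form gives part B of helper340 -/

/-- **`H340.FactIntUpC340` from the core form**: `LocHyp305` gives `hinv`, `harch`, `hlev`. -/
theorem factIntUpC340_of_core314 (hB : FactIntUpCoreC314 K K') : FactIntUpC340 K K' := by
  intro hT6 D hD hcyc hl hcplx ι hι μc hμc T₀ hT₀ n m hlev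
  obtain ⟨cG', hcG', hfact⟩ := hB hT6 D hD hcyc hl hcplx ι hι μc hμc T₀ hT₀ n m hlev
  refine ⟨cG', hcG', ?_⟩
  intro S S' hTS hSS' φ₀ Φ f₀ F hloc δ γ hγ hN hgood hint L cT hL hcT U hU
  refine hfact S S' hTS hSS' φ₀ Φ hloc.inv_up hloc.arch_up δ γ hγ hN hgood hint L cT hL hcT U hU
    ?_
  intro v a
  have hv : v.1 ∈ S := (hU.union v.1).2 (Or.inr v.2)
  have hd := hU.split v
  exact (hloc.split v.1 hv (U.dS v).w (U.dS v).i hd.ovr hd.rel hd.ne hd.rat_i hd.val_i).1 a

/-- **`H340.UpFactC340` from the parts, with part B in core form.** -/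
theorem upFactC340_of314 (hDat : UpDatC340 K K') (hA : CutOnUpC340 K K')
    (hB : FactIntUpCoreC314 K K') : UpFactC340 K K' :=
  upFactC_of_parts340 hDat hA (factIntUpC340_of_core314 hB)

/-! ## 2. The data with the enumerations of `LocHyp893.split` -/

/-- The data `U` with the split data replaced by `dS`. -/
def withSplit314 {δ : GL (Fin 2) K'} (U : UpDat340 K δ)
    (dS : ∀ v : U.Ssp, SplitDat340 K' v.1) : UpDat340 K δ where
  Sin := U.Sin
  Ssp := U.Ssp
  dI := U.dI
  dS := dS
  dA := U.dA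

/-- The new data are data if the new split data are. -/
theorem isUpDat_withSplit314 {D : CompData K K'} {ι : Adl K →+* Adl K'}
    {n : HeightOneSpectrum (𝓞 K') → ℕ} {δ : GL (Fin 2) K'} {γ : GL (Fin 2) K}
    {L : LocData305 K γ} {S : Finset (HeightOneSpectrum (𝓞 K))} {U : UpDat340 K δ}
    (hU : IsUpDat340 D ι n L S U) (dS : ∀ v : U.Ssp, SplitDat340 K' v.1)
    (hdS : ∀ v : U.Ssp, IsSplitDat340 D ι (dS v)) :
    IsUpDat340 D ι n L S (withSplit314 U dS) where
  pos := hU.pos
  union := hU.union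
  disj := hU.disj
  inert := hU.inert
  split := hdS
  arch := hU.arch

/-- **THE DATA FOR `LocHyp893`**: local data upstairs whose enumerations at the split places are
enumerations for which the levels agree and the convolution identity holds. -/
theorem exists_upDat893_314 (hDat : UpDatC340 K K') (hE : SplitEnumC314 K K')
    (hT6 : T6.T6Out) (D : CompData K K') (hD : IsCompData D) (hcyc : IsCycExt K K' D.l)
    (hl : D.l ≠ 2) (hcplx : TotCplx K) (ι : Adl K →+* Adl K') (hι : IsAdeleBase305 D.s D.l ι)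
    (μc : @Measure (GL (Fin 2) ℂ) (borel _))
    (T₀ : Finset (HeightOneSpectrum (𝓞 K))) (hT₀ : UnramOut305 (K' := K') T₀)
    (n : HeightOneSpectrum (𝓞 K') → ℕ) (m : HeightOneSpectrum (𝓞 K) → ℕ)
    (hlev : IsLevelAt305 T₀ n m)
    (S : Finset (HeightOneSpectrum (𝓞 K))) (S' : Finset (HeightOneSpectrum (𝓞 K')))
    (hTS : T₀ ⊆ S) (hSS' : IsOver305 S S')
    (φ₀ : ∀ w : HeightOneSpectrum (𝓞 K'), GL (Fin 2) (w.adicCompletion K') → ℂ)
    (Φ : InfinitePlace K' → GL (Fin 2) ℂ → ℂ)
    (f₀ : ∀ v : HeightOneSpectrum (𝓞 K), GL (Fin 2) (v.adicCompletion K) → ℂ)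
    (F : InfinitePlace K → GL (Fin 2) ℂ → ℂ)
    (hloc : H893.LocHyp893 D μc S n m φ₀ Φ f₀ F)
    (δ : GL (Fin 2) K') (γ : GL (Fin 2) K) (hγ : T6.IsEll γ)
    (hN : D.s.normUpTo D.l δ = Matrix.GeneralLinearGroup.map (algebraMap K K') γ)
    (L : LocData305 K γ) (hL : IsLocData305 m L) :
    ∃ U : UpDat340 K δ, IsUpDat340 D ι n L S U ∧
      ∀ v : U.Ssp, (∀ j : ℕ, n ((U.dS v).w j) = m v.1) ∧
        T6.IsConvProd (T6.InU (m v.1)) D.l (phiS340 φ₀ (U.dS v)) (f₀ v.1) := by
  obtain ⟨U₀, hU₀⟩ :=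
    hDat hT6 D hD hcyc hl hcplx ι hι T₀ hT₀ n m hlev S S' hTS hSS' δ γ hγ hN L hL
  have hl1 : 1 < D.l := hcyc.prime.one_lt
  -- the enumerations of the hypothesis at the split places of the data
  have hex : ∀ v : U₀.Ssp, ∃ d : SplitDat340 K' v.1,
      (∀ j : ℕ, PlaceOver K K' v.1 (d.w j)) ∧
      (∀ j : ℕ, T5.PlaceRel D.s (d.w (j + 1)) (d.w j)) ∧
      (∀ j : ℕ, 0 < j → j < D.l → d.w j ≠ d.w 0) ∧
      (∀ (j : ℕ) (x : K), d.i j (algebraMap K ((v.1).adicCompletion K) x)
        = algebraMap K' ((d.w j).adicCompletion K') (algebraMap K K' x)) ∧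
      (∀ (j : ℕ) (x : (v.1).adicCompletion K), Valued.v (d.i j x) = Valued.v x) ∧
      (∀ j : ℕ, n (d.w j) = m v.1) ∧
      T6.IsConvProd (T6.InU (m v.1)) D.l (phiS340 φ₀ d) (f₀ v.1) := by
    intro v
    have hv : v.1 ∈ S := (hU₀.union v.1).2 (Or.inr v.2)
    have hd := hU₀.split v
    obtain ⟨w, i, h1, h2, h3, h4, h5, h6, h7⟩ :=
      hloc.split v.1 hv ⟨(U₀.dS v).w 1, (U₀.dS v).w 0, hd.ovr 1, hd.ovr 0,
        hd.ne 1 Nat.one_pos hl1⟩
    exact ⟨⟨w, i⟩, h1, h2, h3, h4, h5, h6, h7⟩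
  choose dS h1 h2 h3 h4 h5 h6 h7 using hex
  refine ⟨withSplit314 U₀ dS, isUpDat_withSplit314 hU₀ dS fun v =>
    hE hT6 D hD hcyc hl hcplx ι hι v.1 (dS v) (h1 v) (h2 v) (h3 v) (h4 v) (h5 v), ?_⟩
  intro v
  exact ⟨h6 v, h7 v⟩

/-! ## 3. The top of the node -/

/-- **THE TOP OF THE NODE C2.7.13.1b**: `H305.UpFactC305b` from the parts `UpDatC340`,
`CutOnUpC340` of helper340 (unchanged), the leaf `SplitEnumC314` and part B in core form. -/
theorem upFactC305b_of314 (hDat : UpDatC340 K K') (hE : SplitEnumC314 K K')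
    (hA : CutOnUpC340 K K') (hB : FactIntUpCoreC314 K K') : UpFactC305b K K' := by
  intro hT6 D hD hcyc hl hcplx ι hι μc hμc T₀ hT₀ n m hlev
  obtain ⟨cG', hcG', hfact⟩ := hB hT6 D hD hcyc hl hcplx ι hι μc hμc T₀ hT₀ n m hlev
  refine ⟨cG', hcG', ?_⟩
  intro S S' hTS hSS' φ₀ Φ f₀ F hloc δ γ hγ hN hgood hint μT μT' hμT hμT' hlink L cT hL hcT hTor
  obtain ⟨U, hU, hUs⟩ := exists_upDat893_314 hDat hE hT6 D hD hcyc hl hcplx ι hι μc T₀ hT₀ n m
    hlev S S' hTS hSS' φ₀ Φ f₀ F hloc δ γ hγ hN L hL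
  refine ⟨upCut340 S' cT L U, upJ340 D.l hU.pos φ₀ L U, upJc340 D.l hU.pos D.R'.r Φ L μc U,
    ?_, ?_, ?_, ?_⟩
  · exact hA hT6 D hD hcyc hl hcplx ι hι T₀ hT₀ n m hlev S S' hTS hSS' φ₀ Φ δ γ hγ hN hgood hint
      μT μT' hμT hμT' hlink L cT hL hcT hTor U hU
  · exact hfact S S' hTS hSS' φ₀ Φ hloc.inv_up hloc.arch_up δ γ hγ hN hgood hint L cT hL hcT U hU
      fun v a => (hUs v).1 a
  · intro v hv
    rcases (hU.union v).1 hv with h | h
    · left
      have hd := hU.inert ⟨v, h⟩
      exact ⟨(U.dI ⟨v, h⟩).w, (U.dI ⟨v, h⟩).e, (U.dI ⟨v, h⟩).i, (U.dI ⟨v, h⟩).sw,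
        (U.dI ⟨v, h⟩).μ', (U.dI ⟨v, h⟩).μt', (U.dI ⟨v, h⟩).β', hd.ovr, hd.uniq, hd.rat_i,
        hd.rat_s, hd.ext, hd.haar, hd.tor, hd.cut, upJ_inert340 D.l hU.pos φ₀ L U v h⟩
    · right
      have hnot : v ∉ U.Sin := fun h1 => hU.disj v h1 h
      have hd := hU.split ⟨v, h⟩
      exact ⟨hU.pos, (U.dS ⟨v, h⟩).w, (U.dS ⟨v, h⟩).i, hd.ovr, hd.rel, hd.ne, hd.rat_i,
        hd.val_i, (hUs ⟨v, h⟩).1, (hUs ⟨v, h⟩).2, upJ_split340 D.l hU.pos φ₀ L U v hnot h⟩
  · intro w j
    have hd := hU.arch w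
    exact ⟨hU.pos, (U.dA w).w, (U.dA w).d, hd.ovr, hd.rel, hd.inj, hd.typ, hd.iot, rfl⟩

/-- `upFactC305b_of314` is the Prop of record of helper305, verbatim. -/
example (hDat : UpDatC340 K K') (hE : SplitEnumC314 K K') (hA : CutOnUpC340 K K')
    (hB : FactIntUpCoreC314 K K') : Fermat.Agent.LT.T7.H305.UpFactC305b K K' :=
  upFactC305b_of314 hDat hE hA hB

/-! ## Appendix: the equation lemmas of the definition are realised HERE -/

theorem eqns_realisedUFBT314 : True := by
  have _a1 := @withSplit314.eq_1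
  have _a2 := @withSplit314.eq_def
  have _a3 := @withSplit314.eq_unfold
  trivial

end Fermat.Agent.LT.T7.H314

end

end
-- ===== PACK-END LT/T7/H314/UpFactBTop.lean

-- ===== PACK-BEGIN LT/T7/H208/SplitAlg.lean
section





/-!
# Row LT, tower T7, station C2, leaf C2.7.13.3b `LocEqSplitC305b` (helper208, registry row 2741)
# PART A: the product of the local components of `δ` is the component of `γ`

OFF-MAIN.  `v` a place of `K`, `w 0, w 1, …` places of `K'` over `v` with `w j = σ (w (j+1))`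
(`T5.PlaceRel`), `i j : K_v ≃ K'_{w j}` valuation preserving isomorphisms which are the
inclusion on `K`.  Then

* `psi_sigma208` : `i_j⁻¹ ((σ x)_{w_j}) = i_{j+1}⁻¹ (x_{w_{j+1}})` for `x ∈ K'` (the two sides are
  ring homomorphisms `K' → K_v` with the same valuation which agree on `K`; `K` is dense in `K_v`);
* `prod_split208` : `∏_{a < n} i_{j+a}⁻¹ (δ_{w_{j+a}}) = i_j⁻¹ ((δ σ(δ) ⋯ σ^{n-1}(δ))_{w_j})`;
* `prod_eq_gamma208` : if `N δ = γ` then `δ_0 δ_1 ⋯ δ_{l-1} = γ_v`
  (`H159.prodFrom159 δ l 0 = H305.locG305 v γ`).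

No hole, nothing assumed.  Imports: Mathlib, helper415 `AutT5` (valuation of `σ x`), helper159
`SplitIntL` (`prodFrom159`), the spec (byte-identical copies).
-/

set_option autoImplicit false

open IsDedekindDomain NumberField

noncomputable section

namespace Fermat.Agent.LT.T7.H208

open Fermat.Agent.LT.H556 Fermat.Agent.LT.H556.A0 Fermat.Agent.LT Fermat.Agent.LT.T7
  Fermat.Agent.LT.T7.H305 Fermat.Agent.LT.T7.H159

section Alg

variable {K K' : Type} [Field K] [NumberField K] [Field K'] [NumberField K'] [Algebra K K']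

/-- `σ` fixes `K`. -/
theorem sigma_fix208 (D : CompData K K') (hD : IsCompData D) (x : K) :
    D.s.σ (algebraMap K K' x) = algebraMap K K' x :=
  (hD.cyc.fixed _).1 ((hD.base _).2 ⟨x, rfl⟩)

/-- The inverse of a valuation preserving isomorphism preserves the valuation. -/
theorem val_symm208 {k k' : Type} [Field k] [Field k'] [Valued k T6.Γ₀] [Valued k' T6.Γ₀]
    (i : k ≃+* k') (hi : ∀ x : k, Valued.v (i x) = Valued.v x) (y : k') :
    Valued.v (i.symm y) = Valued.v y := by
  rw [← hi (i.symm y), RingEquiv.apply_symm_apply]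

/-- `K` is dense in `K_v`, in the form of the valuation. -/
theorem exists_close208 (v : HeightOneSpectrum (𝓞 K)) (b c : v.adicCompletion K) (hc : c ≠ 0) :
    ∃ y : K, Valued.v (algebraMap K (v.adicCompletion K) y - b) < Valued.v c := by
  have hd : DenseRange (algebraMap K (v.adicCompletion K)) :=
    HeightOneSpectrum.denseRange_algebraMap K v
  have hopen : IsOpen {u : v.adicCompletion K | Valued.v (u - b) < Valued.v c} := by
    have h := Valued.isOpen_ball (v.adicCompletion K)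
      (r := (Valued.v : Valuation (v.adicCompletion K) T6.Γ₀).restrict c)
    have hc' : Continuous fun x : v.adicCompletion K => x - b :=
      continuous_id.sub continuous_const
    have := h.preimage hc'
    convert this using 1
    ext x
    simp only [Set.mem_preimage]
    exact (Valuation.restrict_lt_iff (v := (Valued.v : Valuation (v.adicCompletion K) T6.Γ₀))).symm
  have hmem : b ∈ {u : v.adicCompletion K | Valued.v (u - b) < Valued.v c} := by
    show Valued.v (b - b) < Valued.v c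
    rw [sub_self, map_zero]
    exact zero_lt_iff.2 ((Valuation.ne_zero_iff _).2 hc)
  obtain ⟨u, ⟨y, rfl⟩, hu⟩ := hd.inter_nhds_nonempty (hopen.mem_nhds hmem)
  exact ⟨y, hu⟩

/-- **The local components at consecutive places.** -/
theorem psi_sigma208 (D : CompData K K') (hD : IsCompData D) (v : HeightOneSpectrum (𝓞 K))
    (w₁ w₀ : HeightOneSpectrum (𝓞 K')) (hrel : T5.PlaceRel D.s w₁ w₀)
    (i₀ : v.adicCompletion K ≃+* w₀.adicCompletion K')
    (i₁ : v.adicCompletion K ≃+* w₁.adicCompletion K')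
    (hi₀ : ∀ x : K, i₀ (algebraMap K (v.adicCompletion K) x)
      = algebraMap K' (w₀.adicCompletion K') (algebraMap K K' x))
    (hi₁ : ∀ x : K, i₁ (algebraMap K (v.adicCompletion K) x)
      = algebraMap K' (w₁.adicCompletion K') (algebraMap K K' x))
    (hv₀ : ∀ x : v.adicCompletion K, Valued.v (i₀ x) = Valued.v x)
    (hv₁ : ∀ x : v.adicCompletion K, Valued.v (i₁ x) = Valued.v x) (x : K') :
    i₀.symm (algebraMap K' (w₀.adicCompletion K') (D.s.σ x))
      = i₁.symm (algebraMap K' (w₁.adicCompletion K') x) := by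
  by_contra hne
  set A : v.adicCompletion K := i₀.symm (algebraMap K' (w₀.adicCompletion K') (D.s.σ x)) with hA
  set B : v.adicCompletion K := i₁.symm (algebraMap K' (w₁.adicCompletion K') x) with hB
  have hz : A - B ≠ 0 := sub_ne_zero.2 hne
  obtain ⟨y, hy⟩ := exists_close208 v B (A - B) hz
  -- the two differences have the same valuation
  have hfix : D.s.σ (x - algebraMap K K' y) = D.s.σ x - algebraMap K K' y := by
    rw [map_sub, sigma_fix208 D hD]
  have hA' : A - algebraMap K (v.adicCompletion K) y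
      = i₀.symm (algebraMap K' (w₀.adicCompletion K') (D.s.σ (x - algebraMap K K' y))) := by
    rw [hfix, map_sub, map_sub, ← hi₀ y, RingEquiv.symm_apply_apply]
  have hB' : B - algebraMap K (v.adicCompletion K) y
      = i₁.symm (algebraMap K' (w₁.adicCompletion K') (x - algebraMap K K' y)) := by
    rw [map_sub, map_sub, ← hi₁ y, RingEquiv.symm_apply_apply]
  have hvA : Valued.v (A - algebraMap K (v.adicCompletion K) y)
      = w₁.valuation K' (x - algebraMap K K' y) := by
    rw [hA', val_symm208 i₀ hv₀]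
    have h1 : Valued.v (algebraMap K' (w₀.adicCompletion K') (D.s.σ (x - algebraMap K K' y)))
        = w₀.valuation K' (D.s.σ (x - algebraMap K K' y)) :=
      HeightOneSpectrum.valuedAdicCompletion_eq_valuation' w₀ _
    rw [h1]
    exact Fermat.Agent.LT.H415.valuation_sigma415 D.s.σ w₁ w₀ hrel _
  have hvB : Valued.v (B - algebraMap K (v.adicCompletion K) y)
      = w₁.valuation K' (x - algebraMap K K' y) := by
    rw [hB', val_symm208 i₁ hv₁]
    exact HeightOneSpectrum.valuedAdicCompletion_eq_valuation' w₁ _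
  have hyB : Valued.v (B - algebraMap K (v.adicCompletion K) y) < Valued.v (A - B) := by
    have : B - algebraMap K (v.adicCompletion K) y
        = -(algebraMap K (v.adicCompletion K) y - B) := by ring
    rw [this, Valuation.map_neg]
    exact hy
  have hyA : Valued.v (A - algebraMap K (v.adicCompletion K) y) < Valued.v (A - B) := by
    rw [hvA, ← hvB]
    exact hyB
  have hsplit : A - B = (A - algebraMap K (v.adicCompletion K) y)
      - (B - algebraMap K (v.adicCompletion K) y) := by ring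
  have hle : Valued.v (A - B) ≤ max (Valued.v (A - algebraMap K (v.adicCompletion K) y))
      (Valued.v (B - algebraMap K (v.adicCompletion K) y)) := by
    conv_lhs => rw [hsplit]
    exact Valuation.map_sub _ _ _
  exact absurd (lt_of_le_of_lt hle (max_lt hyA hyB)) (lt_irrefl _)

/-- The local component `x ↦ i⁻¹ (x_w)`. -/
def psi208 (v : HeightOneSpectrum (𝓞 K)) (w : HeightOneSpectrum (𝓞 K'))
    (i : v.adicCompletion K ≃+* w.adicCompletion K') : K' →+* v.adicCompletion K :=
  ((i.symm : w.adicCompletion K' ≃+* v.adicCompletion K) :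
    w.adicCompletion K' →+* v.adicCompletion K).comp (algebraMap K' (w.adicCompletion K'))

theorem psi_apply208 (v : HeightOneSpectrum (𝓞 K)) (w : HeightOneSpectrum (𝓞 K'))
    (i : v.adicCompletion K ≃+* w.adicCompletion K') (x : K') :
    psi208 v w i x = i.symm (algebraMap K' (w.adicCompletion K') x) := rfl

/-- The local component of `δ`, as the image under `psi208`. -/
theorem map_psi208 (v : HeightOneSpectrum (𝓞 K)) (w : HeightOneSpectrum (𝓞 K'))
    (i : v.adicCompletion K ≃+* w.adicCompletion K') (δ : GL (Fin 2) K') :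
    Matrix.GeneralLinearGroup.map (psi208 v w i) δ
      = Matrix.GeneralLinearGroup.map
          ((i.symm : w.adicCompletion K' ≃+* v.adicCompletion K) :
            w.adicCompletion K' →+* v.adicCompletion K) (locG305 w δ) := by
  apply Matrix.GeneralLinearGroup.ext
  intro a b
  rfl

/-- **The product of the local components.** -/
theorem prod_split208 (D : CompData K K') (hD : IsCompData D) (v : HeightOneSpectrum (𝓞 K))
    (w : ℕ → HeightOneSpectrum (𝓞 K'))
    (i : ∀ j : ℕ, v.adicCompletion K ≃+* (w j).adicCompletion K')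
    (hrel : ∀ j : ℕ, T5.PlaceRel D.s (w (j + 1)) (w j))
    (hi : ∀ (j : ℕ) (x : K), i j (algebraMap K (v.adicCompletion K) x)
      = algebraMap K' ((w j).adicCompletion K') (algebraMap K K' x))
    (hval : ∀ (j : ℕ) (x : v.adicCompletion K), Valued.v (i j x) = Valued.v x)
    (δ : GL (Fin 2) K') (n j : ℕ) :
    prodFrom159 (fun a => Matrix.GeneralLinearGroup.map
        (((i a).symm : (w a).adicCompletion K' ≃+* v.adicCompletion K) :
          (w a).adicCompletion K' →+* v.adicCompletion K) (locG305 (w a) δ)) n j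
      = Matrix.GeneralLinearGroup.map (psi208 v (w j) (i j)) (D.s.normUpTo n δ) := by
  induction n generalizing j with
  | zero =>
    show (1 : GL (Fin 2) (v.adicCompletion K)) = Matrix.GeneralLinearGroup.map _ 1
    rw [map_one]
  | succ n ih =>
    show Matrix.GeneralLinearGroup.map
        (((i j).symm : (w j).adicCompletion K' ≃+* v.adicCompletion K) :
          (w j).adicCompletion K' →+* v.adicCompletion K) (locG305 (w j) δ)
        * prodFrom159 (fun a => Matrix.GeneralLinearGroup.map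
          (((i a).symm : (w a).adicCompletion K' ≃+* v.adicCompletion K) :
            (w a).adicCompletion K' →+* v.adicCompletion K) (locG305 (w a) δ)) n (j + 1)
      = Matrix.GeneralLinearGroup.map (psi208 v (w j) (i j))
          (δ * D.s.onRat (D.s.normUpTo n δ))
    rw [ih (j + 1), map_mul, ← map_psi208]
    congr 1
    apply Matrix.GeneralLinearGroup.ext
    intro a b
    show psi208 v (w (j + 1)) (i (j + 1)) ((D.s.normUpTo n δ : Matrix (Fin 2) (Fin 2) K') a b)
      = psi208 v (w j) (i j) (D.s.σ ((D.s.normUpTo n δ : Matrix (Fin 2) (Fin 2) K') a b))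
    rw [psi_apply208, psi_apply208]
    exact (psi_sigma208 D hD v (w (j + 1)) (w j) (hrel j) (i j) (i (j + 1)) (hi j) (hi (j + 1))
      (hval j) (hval (j + 1)) _).symm

/-- **`δ_0 δ_1 ⋯ δ_{l-1} = γ_v`** if `N δ = γ`. -/
theorem prod_eq_gamma208 (D : CompData K K') (hD : IsCompData D) (v : HeightOneSpectrum (𝓞 K))
    (w : ℕ → HeightOneSpectrum (𝓞 K'))
    (i : ∀ j : ℕ, v.adicCompletion K ≃+* (w j).adicCompletion K')
    (hrel : ∀ j : ℕ, T5.PlaceRel D.s (w (j + 1)) (w j))
    (hi : ∀ (j : ℕ) (x : K), i j (algebraMap K (v.adicCompletion K) x)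
      = algebraMap K' ((w j).adicCompletion K') (algebraMap K K' x))
    (hval : ∀ (j : ℕ) (x : v.adicCompletion K), Valued.v (i j x) = Valued.v x)
    (δ : GL (Fin 2) K') (γ : GL (Fin 2) K)
    (hN : D.s.normUpTo D.l δ = Matrix.GeneralLinearGroup.map (algebraMap K K') γ) :
    prodFrom159 (fun a => Matrix.GeneralLinearGroup.map
        (((i a).symm : (w a).adicCompletion K' ≃+* v.adicCompletion K) :
          (w a).adicCompletion K' →+* v.adicCompletion K) (locG305 (w a) δ)) D.l 0
      = locG305 v γ := by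
  rw [prod_split208 D hD v w i hrel hi hval δ D.l 0, hN]
  apply Matrix.GeneralLinearGroup.ext
  intro a b
  show psi208 v (w 0) (i 0) (algebraMap K K' ((γ : Matrix (Fin 2) (Fin 2) K) a b))
    = algebraMap K (v.adicCompletion K) ((γ : Matrix (Fin 2) (Fin 2) K) a b)
  rw [psi_apply208, ← hi 0, RingEquiv.symm_apply_apply]

end Alg

end Fermat.Agent.LT.T7.H208

end

end
-- ===== PACK-END LT/T7/H208/SplitAlg.lean

-- ===== PACK-BEGIN LT/T7/H555/LocEqSplit.lean
section









/-!
# Row LT, tower T7, leaves C2.7.13.3b `LocEqSplitC305b` (helper305, `Match893Spec.lean`) and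
# C2.7.13.3 `LocEqSplitC340` (helper340, `FactUpSpec.lean`) (helper555)

OFF-MAIN.  `locEqSplitC305b555 K K' : H305.LocEqSplitC305b K K'` and
`locEqSplitC340_555 K K' : H340.LocEqSplitC340 K K'`, VERBATIM, unconditional.

Proof.  `v` split, `w j` the places over `v`, `i j : K_v ≃ K'_{w j}`, `φ_j = φ₀_{w j} ∘ i_j`,
`δ_j = i_j⁻¹(δ_{w j})`.

* Fubini (`splitInt340_eq555`, `ChainFubini.lean`): the split integral is
  `∫ (φ_0 * ⋯ * φ_{l-1})(a⁻¹ P a) β(a) dμ(a)`, `P = δ_0 ⋯ δ_{l-1}`.  The `φ_j` are bi-`U(m_v)`-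
  invariant with finite support modulo `U(m_v)` (`inv_up`, the levels agree, `i_j` preserves the
  valuation), hence continuous with compact support (`SplitIntbl.lean`; `K_v` is a local field,
  `T6.InstLocalC`); integrability = convergence of the orbital integral of an indicator function
  at the regular element `γ_v` (helper194 `hint_locCut194`).
* `P = γ_v` (`prodFrom_eq_locG555`, `SplitAlg.lean`; `SigmaLocC305` closed by helper558).
* `φ_0 * ⋯ * φ_{l-1} = f₀_v` (the convolution identity of the local hypotheses;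
  helper584 `convL_eq_of_isConvProd584`, `μ_v(U(m_v)) = 1`).
-/

set_option autoImplicit false

open AutomorphicForm IsDedekindDomain NumberField MeasureTheory
open scoped ComplexConjugate

noncomputable section

namespace Fermat.Agent.LT.T7.H555

open Fermat.Agent.LT.H556 Fermat.Agent.LT.H556.A0 Fermat.Agent.LT Fermat.Agent.LT.T7
open Fermat.Agent.LT.T7.H305 Fermat.Agent.LT.T7.H340 Fermat.Agent.LT.T7.H159

/-! ## 1. `U(n)` under a valuation preserving isomorphism -/

section Transfer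

variable {k k' : Type} [Field k] [Field k'] [Valued k T6.Γ₀] [Valued k' T6.Γ₀]

theorem inU_map555 (i : k →+* k') (hval : ∀ x : k, Valued.v (i x) = Valued.v x) (n : ℕ)
    (g : GL (Fin 2) k) (hg : T6.InU n g) :
    T6.InU n (Matrix.GeneralLinearGroup.map i g) := by
  have hone : ∀ a b : Fin 2, (1 : Matrix (Fin 2) (Fin 2) k') a b
      = i ((1 : Matrix (Fin 2) (Fin 2) k) a b) := by
    intro a b
    by_cases hab : a = b
    · subst hab
      simp
    · simp [Matrix.one_apply_ne hab]
  intro a b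
  obtain ⟨h1, h2⟩ := hg a b
  refine ⟨?_, ?_⟩
  · have e : ((Matrix.GeneralLinearGroup.map i g : GL (Fin 2) k') :
        Matrix (Fin 2) (Fin 2) k') a b = i ((g : Matrix (Fin 2) (Fin 2) k) a b) := rfl
    rw [e, hone, ← map_sub, hval]
    exact h1
  · have e : (((Matrix.GeneralLinearGroup.map i g)⁻¹ : GL (Fin 2) k') :
        Matrix (Fin 2) (Fin 2) k') a b
        = i (((g⁻¹ : GL (Fin 2) k) : Matrix (Fin 2) (Fin 2) k) a b) := by
      rw [← map_inv]
      rfl
    rw [e, hone, ← map_sub, hval]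
    exact h2

theorem map_symm_map555 (i : k ≃+* k') (g : GL (Fin 2) k) :
    Matrix.GeneralLinearGroup.map ((i.symm : k' ≃+* k) : k' →+* k)
      (Matrix.GeneralLinearGroup.map ((i : k ≃+* k') : k →+* k') g) = g := by
  apply Matrix.GeneralLinearGroup.ext
  intro a b
  exact i.symm_apply_apply _

theorem biInv_comp555 (i : k ≃+* k') (hval : ∀ x : k, Valued.v (i x) = Valued.v x) (n : ℕ)
    (φ : GL (Fin 2) k' → ℂ) (hφ : T6.IsBiInv (T6.InU n) φ) :
    T6.IsBiInv (T6.InU n)
      (fun g => φ (Matrix.GeneralLinearGroup.map ((i : k ≃+* k') : k →+* k') g)) := by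
  intro u u' g hu hu'
  show φ (Matrix.GeneralLinearGroup.map ((i : k ≃+* k') : k →+* k') (u * g * u')) = _
  rw [map_mul, map_mul]
  exact hφ _ _ _ (inU_map555 _ hval n u hu) (inU_map555 _ hval n u' hu')

theorem finSupp_comp555 (i : k ≃+* k') (hval : ∀ x : k, Valued.v (i x) = Valued.v x) (n : ℕ)
    (φ : GL (Fin 2) k' → ℂ) (hφ : T6.HasFinSupp (T6.InU n) φ) :
    T6.HasFinSupp (T6.InU n)
      (fun g => φ (Matrix.GeneralLinearGroup.map ((i : k ≃+* k') : k →+* k') g)) := by
  classical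
  obtain ⟨F, hF⟩ := hφ
  refine ⟨F.image (Matrix.GeneralLinearGroup.map ((i.symm : k' ≃+* k) : k' →+* k)), ?_⟩
  intro g hg
  obtain ⟨x, hx, u, hu, hgx⟩ := hF _ hg
  refine ⟨_, Finset.mem_image_of_mem _ hx,
    Matrix.GeneralLinearGroup.map ((i.symm : k' ≃+* k) : k' →+* k) u,
    inU_map555 _ (val_symm555 i hval) n u hu, ?_⟩
  rw [← map_mul, ← hgx, map_symm_map555]

end Transfer

/-! ## 2. The core -/

section Core

variable {K K' : Type} [Field K] [NumberField K] [Field K'] [NumberField K'] [Algebra K K']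

/-- The split integral at a split place is the local integral downstairs. -/
theorem splitInt_eq_locInt555 (hT6 : T6.T6Out) (D : CompData K K') (hD : IsCompData D)
    (n : HeightOneSpectrum (𝓞 K') → ℕ) (m : HeightOneSpectrum (𝓞 K) → ℕ)
    (φ₀ : ∀ w : HeightOneSpectrum (𝓞 K'), GL (Fin 2) (w.adicCompletion K') → ℂ)
    (f₀ : ∀ v : HeightOneSpectrum (𝓞 K), GL (Fin 2) (v.adicCompletion K) → ℂ)
    (δ : GL (Fin 2) K') (γ : GL (Fin 2) K) (hEll : T6.IsEll γ)
    (hN : D.s.normUpTo D.l δ = Matrix.GeneralLinearGroup.map (algebraMap K K') γ)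
    (L : LocData305 K γ) (hL : IsLocData305 m L)
    (v : HeightOneSpectrum (𝓞 K)) (hl : 0 < D.l) (w : ℕ → HeightOneSpectrum (𝓞 K'))
    (i : ∀ j : ℕ, v.adicCompletion K ≃+* (w j).adicCompletion K')
    (hrel : ∀ j : ℕ, T5.PlaceRel D.s (w (j + 1)) (w j))
    (hi : ∀ (j : ℕ) (x : K), i j (algebraMap K (v.adicCompletion K) x)
      = algebraMap K' ((w j).adicCompletion K') (algebraMap K K' x))
    (hval : ∀ (j : ℕ) (x : v.adicCompletion K), Valued.v (i j x) = Valued.v x)
    (hlev : ∀ j : ℕ, n (w j) = m v)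
    (hup : ∀ j : ℕ, T6.IsBiInv (T6.InU (n (w j))) (φ₀ (w j))
      ∧ T6.HasFinSupp (T6.InU (n (w j))) (φ₀ (w j)))
    (hconv : T6.IsConvProd (T6.InU (m v)) D.l
      (fun j g => φ₀ (w j)
        (Matrix.GeneralLinearGroup.map ((i j : v.adicCompletion K ≃+* _) :
          v.adicCompletion K →+* (w j).adicCompletion K') g))
      (f₀ v)) :
    splitInt340 D.l hl (L.μv v) (L.βv v)
        (fun j g => φ₀ (w j)
          (Matrix.GeneralLinearGroup.map ((i j : v.adicCompletion K ≃+* _) :
            v.adicCompletion K →+* (w j).adicCompletion K') g))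
        (fun j => Matrix.GeneralLinearGroup.map
          (((i j).symm : (w j).adicCompletion K' ≃+* _) :
            (w j).adicCompletion K' →+* v.adicCompletion K) (locG305 (w j) δ))
      = locInt305 (L.μv v) (L.βv v) (f₀ v) (locG305 v γ) := by
  obtain ⟨_, _, _, _, _, hInstLoc, _⟩ := hT6
  have hk := hInstLoc K v
  obtain ⟨hμ1, hμ2⟩ := hL.haar v
  obtain ⟨hμt1, _⟩ := hL.tor v
  have hcut := hL.cut v
  obtain ⟨hβ1, hβ2, _⟩ := hL.cut v
  haveI : SecondCountableTopology (GL (Fin 2) (v.adicCompletion K)) :=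
    T6.H846.secondCountable_GL846 hk
  haveI : LocallyCompactSpace (GL (Fin 2) (v.adicCompletion K)) :=
    T6.H420.locallyCompactSpace_GL hk
  letI : MeasurableSpace (GL (Fin 2) (v.adicCompletion K)) := borel _
  haveI : BorelSpace (GL (Fin 2) (v.adicCompletion K)) := ⟨rfl⟩
  haveI : (L.μv v).IsHaarMeasure := hμ1
  -- the functions `φ_j`
  have hbi : ∀ j : ℕ, T6.IsBiInv (T6.InU (m v))
      (fun g => φ₀ (w j)
        (Matrix.GeneralLinearGroup.map ((i j : v.adicCompletion K ≃+* _) :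
          v.adicCompletion K →+* (w j).adicCompletion K') g)) := by
    intro j
    have h := (hup j).1
    rw [hlev j] at h
    exact biInv_comp555 (i j) (hval j) (m v) _ h
  have hfs : ∀ j : ℕ, T6.HasFinSupp (T6.InU (m v))
      (fun g => φ₀ (w j)
        (Matrix.GeneralLinearGroup.map ((i j : v.adicCompletion K ≃+* _) :
          v.adicCompletion K →+* (w j).adicCompletion K') g)) := by
    intro j
    have h := (hup j).2
    rw [hlev j] at h
    exact finSupp_comp555 (i j) (hval j) (m v) _ h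
  have hUo : IsOpen ((T6.H846.subU846 (v.adicCompletion K) (m v) :
      Subgroup (GL (Fin 2) (v.adicCompletion K))) : Set (GL (Fin 2) (v.adicCompletion K))) :=
    T6.H846.isOpen_InU846 hk (m v)
  have hUc : IsCompact ((T6.H846.subU846 (v.adicCompletion K) (m v) :
      Subgroup (GL (Fin 2) (v.adicCompletion K))) : Set (GL (Fin 2) (v.adicCompletion K))) :=
    T6.H420.isCompact_subU hk (m v)
  have hcont : ∀ j : ℕ, Continuous
      (fun g => φ₀ (w j)
        (Matrix.GeneralLinearGroup.map ((i j : v.adicCompletion K ≃+* _) :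
          v.adicCompletion K →+* (w j).adicCompletion K') g)) := by
    intro j
    refine continuous_of_rightInv555 _ hUo _ fun g u hu => ?_
    have h := hbi j 1 u g (T6.H846.inU_one846 _) hu
    rwa [one_mul] at h
  have hsupp : ∀ j : ℕ, HasCompactSupport
      (fun g => φ₀ (w j)
        (Matrix.GeneralLinearGroup.map ((i j : v.adicCompletion K ≃+* _) :
          v.adicCompletion K →+* (w j).adicCompletion K') g)) :=
    fun j => hasCompactSupport_of_finSupp555 _ hUc _ (hfs j)
  -- the product of the `δ_j`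
  have hP := prodFrom_eq_locG555 D hD v w i hrel hi hval δ γ D.l hN
  -- integrability
  have hreg : T6.IsReg (locG305 v γ) := isReg_map555 _ hEll.1
  have hint : ∀ Kc : Set (GL (Fin 2) (v.adicCompletion K)), IsCompact Kc →
      Integrable (fun a : GL (Fin 2) (v.adicCompletion K) =>
        Kc.indicator (fun _ => (1 : ℝ))
          (a⁻¹ * prodFrom159 (fun j => Matrix.GeneralLinearGroup.map
            (((i j).symm : (w j).adicCompletion K' ≃+* _) :
              (w j).adicCompletion K' →+* v.adicCompletion K) (locG305 (w j) δ)) D.l 0 * a)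
          * L.βv v a) (L.μv v) := by
    intro Kc hKc
    rw [hP]
    have h := H194.hint_locCut194 (locG305 v γ) hreg 1 (fun x => by rw [one_mul, mul_one])
      (L.μv v) hμ1 (L.μt v) hμt1 (L.βv v) hcut Kc hKc
    rw [mul_one] at h
    exact h
  -- Fubini
  rw [splitInt340_eq555 D.l hl (L.μv v) inferInstance inferInstance inferInstance _ _ hcont hsupp
    (L.βv v) hβ1 hβ2 hint, hP]
  -- the convolution identity
  have hU : H584.IsUnitVol584 (L.μv v) (T6.InU (m v) : GL (Fin 2) (v.adicCompletion K) → Prop) :=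
    { one := T6.H846.inU_one846 _
      mul := fun a b ha hb => T6.H846.inU_mul846 _ a b ha hb
      inv := fun a ha => T6.H846.inU_inv846 _ a ha
      meas := (T6.H846.isOpen_InU846 hk (m v)).measurableSet
      vol := hμ2 }
  have hf := H584.convL_eq_of_isConvProd584 hU D.l _ (f₀ v) hbi hconv
  rw [← hf]
  rfl

end Core

/-! ## 3. The leaves -/

section Leaves

variable (K K' : Type) [Field K] [NumberField K] [Field K'] [NumberField K'] [Algebra K K']

/-- **LEAF C2.7.13.3b = LOC-EQ-SPLIT for ONE enumeration**, VERBATIM. -/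
theorem locEqSplitC305b555 : LocEqSplitC305b K K' := by
  intro hT6 D hD _hcyc _hl2 _hTC μc S n m φ₀ Φ f₀ F hLoc δ γ hEll hN L hL v hv J hJ
  obtain ⟨hl, w, i, hovr, hrel, _hne, hi, hval, hlev, hconv, rfl⟩ := hJ
  exact splitInt_eq_locInt555 hT6 D hD n m φ₀ f₀ δ γ hEll hN L hL v hl w i hrel hi hval hlev
    (fun j => hLoc.inv_up v hv (w j) (hovr j)) hconv

/-- **LEAF C2.7.13.3 = LOC-EQ-SPLIT**, VERBATIM. -/
theorem locEqSplitC340_555 : LocEqSplitC340 K K' := by
  intro hT6 D hD _hcyc _hl2 _hTC μc S n m φ₀ Φ f₀ F hLoc δ γ hEll hN L hL v hv J hJ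
  obtain ⟨hl, w, i, hovr, hrel, hne, hi, hval, rfl⟩ := hJ
  obtain ⟨hlev, hconv⟩ := hLoc.split v hv w i hovr hrel hne hi hval
  exact splitInt_eq_locInt555 hT6 D hD n m φ₀ f₀ δ γ hEll hN L hL v hl w i hrel hi hval hlev
    (fun j => hLoc.inv_up v hv (w j) (hovr j)) hconv

example : H305.LocEqSplitC305b K K' := locEqSplitC305b555 K K'
example : H340.LocEqSplitC340 K K' := locEqSplitC340_555 K K'

end Leaves

end Fermat.Agent.LT.T7.H555

end

end
-- ===== PACK-END LT/T7/H555/LocEqSplit.lean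

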