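import Mathlib
import Fermat.Agent.Pack.LT3.E28L3
import Fermat.Agent.Pack.LT3.E24L3
import Fermat.Agent.Pack.LT3.E28L2
import Fermat.Agent.Pack.LT2.E9L3
import Fermat.Agent.Pack.LT3.E21L3
import Fermat.Agent.Pack.LT3.E23L3
import Fermat.Agent.Pack.LT3.E23L2
import Fermat.Agent.Pack.LT3.E1L3
import Fermat.Agent.Pack.LT3.E4L2
import Fermat.Agent.Pack.LT3.E25L2
import Fermat.Agent.Pack.LT3.E28L0
import Fermat.Agent.Pack.LT3.E24L2
import Fermat.Agent.Pack.LT3.E27L0
import Fermat.Agent.Pack.LT3.E7L3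
import Fermat.Agent.Pack.LT3.E13L0
import Fermat.Agent.Pack.LT3.E25L3
import Fermat.Agent.Pack.LT3.E27L3
import Fermat.Agent.Pack.LT3.E27L2
import Fermat.Agent.Pack.LT3.E25L0
import Fermat.Agent.Pack.LT3.E22L2
import Fermat.Agent.Pack.LT3.E25L1
import Fermat.Agent.Pack.LT3.E21L1
import Fermat.Agent.Pack.LT3.E26L3
import Fermat.Agent.Pack.LT3.E26L0
import Fermat.Agent.Pack.LT3.E26L2
import Fermat.Agent.Pack.LT3.E28L1
import Fermat.Agent.Pack.LT3.E26L1

set_option linter.all false

-- ===== PACK-BEGIN LT/T7/H1U/FactIntUpQTop.lean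
section




/-!
# Row LT, tower T7, node U.3 `H1U.FactIntUpQC` (Part B of `FUQ514.UpFactQC514`; registry row
# 2787, owner helper1): THE TOP

OFF-MAIN.  Complete proof, nothing assumed.  ADDITIVE (new names only, suffix `_H1U`).  Model:
helper558 `T7/H558/FactDownTopB.lean` (`factIntDownC_of558`).

    factIntUpQC_of_H1U : H305.HaarSplitC305 F → H558.OutOpenC558 F → H558.CompContC558 F →
        H558.HaarSigmaC558 F → OverSetQC F → PtFactUpQC F → RayFinUpQC F → ArchIntblUpQC F →
        FinPartUpQC F → FactIntUpQC F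
-/

set_option autoImplicit false

open AutomorphicForm IsDedekindDomain NumberField MeasureTheory
open scoped ComplexConjugate

noncomputable section

namespace Fermat.Agent.LT.T7.H1U

open Fermat.Agent.LT.H556 Fermat.Agent.LT.H556.A0 Fermat.Agent.LT.T7 Fermat.Agent.LT.T7.H305
open Fermat.Agent.LT.T7.MQ298 Fermat.Agent.LT.T7.H340 Fermat.Agent.LT.T7.FUQ514

attribute [local instance] Fermat.Agent.LT.T5.instMeasurableSpaceG

variable {F : Type} [Field F] [NumberField F]

/-! ## Small lemmas -/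

/-- The complex conjugation is continuous on `GL₂(ℂ)`. -/
theorem continuous_glConj_H1U : Continuous (T6.glAut (starRingAut : ℂ ≃+* ℂ)) :=
  Continuous.units_map _ (continuous_id.matrix_map Complex.continuous_conj)

/-- The twisted integrand at the infinite place: `x ↦ Φ(x⁻¹ g conj(x)) β(x)`. -/
def archFn_H1U (β : GL (Fin 2) ℂ → ℝ) (Φ : GL (Fin 2) ℂ → ℂ) (g : GL (Fin 2) ℂ) :
    GL (Fin 2) ℂ → ℂ :=
  fun x => Φ (x⁻¹ * g * T6.glAut (starRingAut : ℂ ≃+* ℂ) x) * ((β x : ℝ) : ℂ)

theorem continuous_archFn_H1U (β : GL (Fin 2) ℂ → ℝ) (Φ : GL (Fin 2) ℂ → ℂ) (g : GL (Fin 2) ℂ)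
    (hβ : Continuous β) (hΦ : Continuous Φ) : Continuous (archFn_H1U β Φ g) := by
  change Continuous fun x : GL (Fin 2) ℂ =>
    Φ (x⁻¹ * g * T6.glAut (starRingAut : ℂ ≃+* ℂ) x) * ((β x : ℝ) : ℂ)
  exact (hΦ.comp ((continuous_inv.mul continuous_const).mul continuous_glConj_H1U)).mul
    (Complex.continuous_ofReal.comp hβ)

/-- The function on the product of the local groups whose pull-back is the integrand. -/
def prodFn_H1U (S' : Finset (HeightOneSpectrum (𝓞 F))) (cT : ℝ)
    (Θ : (∀ w : S', GL (Fin 2) ((w : HeightOneSpectrum (𝓞 F)).adicCompletion F)) → ℂ)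
    (βc : GL (Fin 2) ℂ → ℝ) (Φ : InfinitePlace F → GL (Fin 2) ℂ → ℂ) (δ : GL (Fin 2) F)
    (r : G F) (J : Finset ℤ)
    (p : (∀ w : S', GL (Fin 2) ((w : HeightOneSpectrum (𝓞 F)).adicCompletion F)) ×
      (InfinitePlace F → GL (Fin 2) ℂ)) : ℂ :=
  (((cT⁻¹ : ℝ) : ℂ) * Θ p.1) *
    ∑ j ∈ J, ∏ w : InfinitePlace F,
      archFn_H1U βc (Φ w) (infGL305 w (T5.ratG δ * r ^ j)) (p.2 w)

/-- Fubini for a function of the first coordinate times a finite sum of products of functions
of the coordinates of the second: no integrability is needed for the first factor. -/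
theorem integral_fn_sum_H1U {α κ H : Type} [Fintype κ] [MeasurableSpace α] [MeasurableSpace H]
    (μ : Measure α) [SigmaFinite μ] (ν : Measure H) [SigmaFinite ν]
    (c : ℂ) (Θ : α → ℂ) (J : Finset ℤ) (h : κ → ℤ → H → ℂ)
    (hint : ∀ j ∈ J, ∀ w, Integrable (h w j) ν) :
    ∫ p : α × (κ → H), (c * Θ p.1) * ∑ j ∈ J, ∏ w, h w j (p.2 w)
        ∂(μ.prod (Measure.pi fun _ : κ => ν))
      = (c * ∫ a, Θ a ∂μ) * ∑ j ∈ J, ∏ w, ∫ x, h w j x ∂ν := by
  rw [integral_prod_mul (μ := μ) (ν := Measure.pi fun _ : κ => ν)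
    (fun a : α => c * Θ a) (fun b : κ → H => ∑ j ∈ J, ∏ w, h w j (b w))]
  congr 1
  · rw [integral_const_mul]
  · rw [integral_finsetSum]
    · refine Finset.sum_congr rfl fun j _ => ?_
      exact integral_fintype_prod_eq_prod (μ := fun _ : κ => ν) (fun w => h w j)
    · intro j hj
      exact Integrable.fintype_prod (μ := fun _ : κ => ν) (f := fun w => h w j)
        (fun w => hint j hj w)

/-- `F` has ONE infinite place. -/
theorem infPlace_eq_H1U (hIQ : IsImagQuad F) (w w' : InfinitePlace F) : w = w' := by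
  have h1 : Nat.card (InfinitePlace F) = 1 := hIQ.1
  haveI : Subsingleton (InfinitePlace F) := (Nat.card_eq_one_iff_unique.1 h1).1
  exact Subsingleton.elim w w'

theorem prod_infPlace_H1U (hIQ : IsImagQuad F) (w₀ : InfinitePlace F)
    (f : InfinitePlace F → ℂ) : ∏ w : InfinitePlace F, f w = f w₀ := by
  classical
  rw [Finset.prod_eq_single w₀]
  · intro w _ hw
    exact absurd (infPlace_eq_H1U hIQ w w₀) hw
  · intro h
    exact absurd (Finset.mem_univ w₀) h

/-! ## The integrand -/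

/-- **The integrand is the pull-back of `prodFn_H1U`, cut off by `Out_{S'}`.** -/
theorem integrand_eq_H1U (hIQ : IsImagQuad F) (D : CompData ℚ F)
    (S : Finset (HeightOneSpectrum (𝓞 ℚ))) (S' : Finset (HeightOneSpectrum (𝓞 F)))
    (φ₀ : ∀ w : HeightOneSpectrum (𝓞 F), GL (Fin 2) (w.adicCompletion F) → ℂ)
    (Φ : InfinitePlace F → GL (Fin 2) ℂ → ℂ) (δ : GL (Fin 2) F) (cT : ℝ) (U : UpDatQ F)
    (Θ : (∀ w : S', GL (Fin 2) ((w : HeightOneSpectrum (𝓞 F)).adicCompletion F)) → ℂ)
    (J : Finset ℤ)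
    (hterm : ∀ (y : G F) (j : ℤ), OutT305 S' y →
      pure305 S' φ₀ Φ (y⁻¹ * T5.ratG δ * D.s.onG y * D.R'.r ^ j)
        = (∏ w' ∈ S', φ₀ w' (finGL305 w' (y⁻¹ * T5.ratG δ * D.s.onG y))) *
          Φ U.winf ((infGL305 U.winf y)⁻¹ * infGL305 U.winf (T5.ratG δ * D.R'.r ^ j)
            * T6.glAut (starRingAut : ℂ ≃+* ℂ) (infGL305 U.winf y)))
    (hΘ : ∀ y : G F, OutT305 S' y →
      (∏ w ∈ S', φ₀ w (finGL305 w (y⁻¹ * T5.ratG δ * D.s.onG y))) *
          (((∏ v ∈ S, U.bet v (finGL305 (U.w0 v) y) : ℝ)) : ℂ)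
        = Θ (fun w => finGL305 w.1 y))
    (hJ : ∀ j : ℤ, j ∉ J → ∀ x : GL (Fin 2) ℂ,
      Φ U.winf (x⁻¹ * infGL305 U.winf (T5.ratG δ * D.R'.r ^ j)
        * T6.glAut (starRingAut : ℂ ≃+* ℂ) x) = 0) (y : G F) :
    T5.twTerm D.R'.r D.s (pure305 S' φ₀ Φ) δ y * ((prodCutUpQ S' S cT U y : ℝ) : ℂ)
      = Set.indicator {y : G F | OutT305 S' y}
          (fun y => prodFn_H1U S' cT Θ U.βc Φ δ D.R'.r J (compS305 S' y)) y := by
  classical
  by_cases h : OutT305 S' y
  · rw [Set.indicator_of_mem (show y ∈ {y : G F | OutT305 S' y} from h)]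
    have hts : T5.twTerm D.R'.r D.s (pure305 S' φ₀ Φ) δ y
        = ∑ j ∈ J, (∏ w' ∈ S', φ₀ w' (finGL305 w' (y⁻¹ * T5.ratG δ * D.s.onG y))) *
            Φ U.winf ((infGL305 U.winf y)⁻¹ * infGL305 U.winf (T5.ratG δ * D.R'.r ^ j)
              * T6.glAut (starRingAut : ℂ ≃+* ℂ) (infGL305 U.winf y)) := by
      change (∑' j : ℤ,
        pure305 S' φ₀ Φ (y⁻¹ * T5.ratG δ * D.s.onG y * D.R'.r ^ j)) = _
      rw [tsum_eq_sum (s := J)]
      · exact Finset.sum_congr rfl fun j _ => hterm y j h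
      · intro j hj
        rw [hterm y j h, hJ j hj _, mul_zero]
    have hcut : prodCutUpQ S' S cT U y
        = cT⁻¹ * (∏ v ∈ S, U.bet v (finGL305 (U.w0 v) y)) * U.βc (infGL305 U.winf y) := by
      change (if OutT305 S' y then _ else _) = _
      rw [if_pos h]
    have hΘy := hΘ y h
    rw [hts, hcut]
    change _ = (((cT⁻¹ : ℝ) : ℂ) * Θ (fun w => finGL305 w.1 y)) *
      ∑ j ∈ J, ∏ w : InfinitePlace F,
        archFn_H1U U.βc (Φ w) (infGL305 w (T5.ratG δ * D.R'.r ^ j)) (infGL305 w y)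
    have hprod : ∀ j : ℤ, (∏ w : InfinitePlace F,
        archFn_H1U U.βc (Φ w) (infGL305 w (T5.ratG δ * D.R'.r ^ j)) (infGL305 w y))
        = Φ U.winf ((infGL305 U.winf y)⁻¹ * infGL305 U.winf (T5.ratG δ * D.R'.r ^ j)
              * T6.glAut (starRingAut : ℂ ≃+* ℂ) (infGL305 U.winf y))
            * ((U.βc (infGL305 U.winf y) : ℝ) : ℂ) := fun j =>
      prod_infPlace_H1U hIQ U.winf _
    simp only [hprod]
    rw [← hΘy, ← Finset.mul_sum, ← Finset.sum_mul]
    push_cast
    ring
  · rw [Set.indicator_of_notMem (show y ∉ {y : G F | OutT305 S' y} from h)]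
    have hcut : prodCutUpQ S' S cT U y = 0 := by
      change (if OutT305 S' y then _ else _) = _
      rw [if_neg h]
    rw [hcut]
    simp

/-! ## The top of part B -/

/-- **THE TOP OF PART B (upstairs over `ℚ`).** -/
theorem factIntUpQC_of_H1U (hHS : HaarSplitC305 F) (hOpen : H558.OutOpenC558 F)
    (hCont : H558.CompContC558 F) (hσ : H558.HaarSigmaC558 F) (hOS : OverSetQC F)
    (hPF : PtFactUpQC F) (hRF : RayFinUpQC F) (hAI : ArchIntblUpQC F) (hFP : FinPartUpQC F) :
    FactIntUpQC F := by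
  intro hT6 hIQ D hD hcyc hl μc hμc T₀ _hunr n m hlev
  obtain ⟨T₀', hT₀'⟩ := hOS T₀
  have hn0 : ∀ w : HeightOneSpectrum (𝓞 F), w ∉ T₀' → n w = 0 := by
    intro w hw
    have hpo : PlaceOver ℚ F (H1G.underP_H1G (K := ℚ) w) w := H1G.placeOver_underP_H1G w
    have hv : H1G.underP_H1G (K := ℚ) w ∉ T₀ := fun hv => hw ((hT₀' w).2 ⟨_, hv, hpo⟩)
    exact hlev.2 _ w hv hpo
  obtain ⟨c, hc, hsplit⟩ := hHS hIQ.2 D.R'.μ hD.frame'.frame.haar μc hμc T₀' n hn0
  refine ⟨c, hc, ?_⟩
  intro S S' hS hov φ₀ Φ hinv hΦ δ γ hγ hN _hgood hint L cT hL _hcT U J Jc hU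
  classical
  letI iv : ∀ w : HeightOneSpectrum (𝓞 F),
      MeasurableSpace (GL (Fin 2) (w.adicCompletion F)) := fun _ => borel _
  letI ic : MeasurableSpace (GL (Fin 2) ℂ) := borel _
  haveI : ∀ w : HeightOneSpectrum (𝓞 F), BorelSpace (GL (Fin 2) (w.adicCompletion F)) :=
    fun _ => ⟨rfl⟩
  haveI : BorelSpace (GL (Fin 2) ℂ) := ⟨rfl⟩
  haveI : BorelSpace (G F) := ⟨rfl⟩
  have hr : T5.IsRayGen D.R'.r := hD.frame'.ray
  have hTS : T₀' ⊆ S' := by
    intro w hw
    obtain ⟨v, hv, hpo⟩ := (hT₀' w).1 hw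
    exact (hov w).2 ⟨v, hS hv, hpo⟩
  -- the finite part
  obtain ⟨μw, Θ, hμw, hΘm, hΘ, hΘint⟩ :=
    hFP hT6 hIQ D hD hcyc hl μc n m S S' hov φ₀ Φ hinv δ γ hγ hN L hL U J Jc hU
  -- the ray
  obtain ⟨Jf, hJf⟩ := hRF D.R'.r hr (Φ U.winf) (hΦ U.winf).1 (hΦ U.winf).2 U.winf δ
  have hsp := hsplit S' hTS μw hμw
  haveI hσv : ∀ w : S', SigmaFinite (μw w.1) := fun w => hσ.1 w.1 (μw w.1) (hμw w.1).1
  haveI hσc : SigmaFinite μc := hσ.2.1 μc hμc
  -- the integrand
  have h1 : cutInt305 D.R'.r D.s (pure305 S' φ₀ Φ) δ D.R'.μ (prodCutUpQ S' S cT U)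
      = ∫ y, (Set.indicator {y : G F | OutT305 S' y}
          (fun y => prodFn_H1U S' cT Θ U.βc Φ δ D.R'.r Jf (compS305 S' y)) y) ∂(D.R'.μ) := by
    change (∫ y, (T5.twTerm D.R'.r D.s (pure305 S' φ₀ Φ) δ y
      * ((prodCutUpQ S' S cT U y : ℝ) : ℂ)) ∂(D.R'.μ)) = _
    exact integral_congr_ae (Filter.Eventually.of_forall
      (integrand_eq_H1U hIQ D S S' φ₀ Φ δ cT U Θ Jf
        (fun y j hy => hPF hIQ D hD hcyc hl S S' hov φ₀ Φ δ hint U.winf y j hy) hΘ hJf))
  -- measurability
  have hcomp : Measurable (compS305 (K := F) S') := by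
    change Measurable fun y : G F =>
      ((fun w : S' => finGL305 w.1 y), (fun w : InfinitePlace F => infGL305 w y))
    exact Measurable.prodMk (measurable_pi_lambda _ fun w => (hCont.1 w.1).measurable)
      (measurable_pi_lambda _ fun w => (hCont.2 w).measurable)
  have hβc : Continuous U.βc := hU.2.1
  have hhw : ∀ (w : InfinitePlace F) (j : ℤ),
      Measurable (archFn_H1U U.βc (Φ w) (infGL305 w (T5.ratG δ * D.R'.r ^ j))) := fun w j =>
    (continuous_archFn_H1U _ _ _ hβc (hΦ w).1).measurable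
  have hΨ : Measurable (prodFn_H1U S' cT Θ U.βc Φ δ D.R'.r Jf) := by
    change Measurable fun p : (∀ w : S', GL (Fin 2)
        ((w : HeightOneSpectrum (𝓞 F)).adicCompletion F)) × (InfinitePlace F → GL (Fin 2) ℂ) =>
      (((cT⁻¹ : ℝ) : ℂ) * Θ p.1) *
        ∑ j ∈ Jf, ∏ w : InfinitePlace F,
          archFn_H1U U.βc (Φ w) (infGL305 w (T5.ratG δ * D.R'.r ^ j)) (p.2 w)
    refine Measurable.mul (Measurable.const_mul (hΘm.comp measurable_fst) _)
      (Finset.measurable_sum _ fun j _ => Finset.measurable_prod _ fun w _ => ?_)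
    exact (hhw w j).comp ((measurable_pi_apply w).comp measurable_snd)
  -- integrability at the infinite place
  have hintbl : ∀ j ∈ Jf, ∀ w : InfinitePlace F,
      Integrable (archFn_H1U U.βc (Φ w) (infGL305 w (T5.ratG δ * D.R'.r ^ j))) μc := by
    intro j _ w
    have hw : w = U.winf := infPlace_eq_H1U hIQ w U.winf
    subst hw
    exact hAI hT6 hIQ D hD hcyc hl μc hμc m Φ hΦ δ γ hγ hN L hL U.winf U.βc Jc hU.2 j
  -- the computation
  rw [h1, integral_indicator (hOpen S').measurableSet,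
    ← integral_map hcomp.aemeasurable hΨ.aestronglyMeasurable, hsp, integral_smul_measure,
    ENNReal.toReal_ofReal hc.le]
  have h2 := integral_fn_sum_H1U (Measure.pi fun w : S' => μw w.1) μc ((cT⁻¹ : ℝ) : ℂ) Θ Jf
    (fun (w : InfinitePlace F) (j : ℤ) =>
      archFn_H1U U.βc (Φ w) (infGL305 w (T5.ratG δ * D.R'.r ^ j))) hintbl
  change c • (∫ p : (∀ w : S', GL (Fin 2)
        ((w : HeightOneSpectrum (𝓞 F)).adicCompletion F)) × (InfinitePlace F → GL (Fin 2) ℂ),
      ((((cT⁻¹ : ℝ) : ℂ) * Θ p.1) *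
        ∑ j ∈ Jf, ∏ w : InfinitePlace F,
          archFn_H1U U.βc (Φ w) (infGL305 w (T5.ratG δ * D.R'.r ^ j)) (p.2 w))
      ∂((Measure.pi fun w : S' => μw w.1).prod (Measure.pi fun _ : InfinitePlace F => μc)))
    = _
  rw [h2, hΘint]
  -- the values at infinity
  have hJc : ∀ j : ℤ, (∏ w : InfinitePlace F,
      ∫ x, archFn_H1U U.βc (Φ w) (infGL305 w (T5.ratG δ * D.R'.r ^ j)) x ∂μc) = Jc j := by
    intro j
    rw [prod_infPlace_H1U hIQ U.winf]
    exact (hU.2.2.2.2 j).symm
  have hJc0 : ∀ j : ℤ, j ∉ Jf → Jc j = 0 := by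
    intro j hj
    rw [hU.2.2.2.2 j]
    have h0 : (fun x : GL (Fin 2) ℂ =>
        Φ U.winf (x⁻¹ * infGL305 U.winf (T5.ratG δ * D.R'.r ^ j)
          * T6.glAut (starRingAut : ℂ ≃+* ℂ) x) * ((U.βc x : ℝ) : ℂ)) = fun _ => 0 := by
      funext x
      rw [hJf j hj x, zero_mul]
    rw [h0]
    exact integral_zero _ _
  have hsum : (∑' j : ℤ, (∏ v ∈ S, J v) * Jc j) = (∏ v ∈ S, J v) * ∑ j ∈ Jf, Jc j := by
    rw [tsum_eq_sum (s := Jf), Finset.mul_sum]
    intro j hj
    rw [hJc0 j hj, mul_zero]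
  rw [hsum]
  simp only [hJc]
  rw [Complex.real_smul]
  push_cast
  field_simp

end Fermat.Agent.LT.T7.H1U

end

end
-- ===== PACK-END LT/T7/H1U/FactIntUpQTop.lean

-- ===== PACK-BEGIN LT/T7/H864/UpDatQTop.lean
section



/-!
# Row LT, tower T7, leaf Q2.7.13.1.a `H1U.UpDatExistsQC` (registry row 2785, owner helper864):
# THE CUT -- the PROVED top

OFF-MAIN.  `upDatExistsQC_of864 : UpInertQC864 F → UpSplitQC864 F → UpArchQC864 →
H1U.UpDatExistsQC F` (VERBATIM vs `T7/H1U/UpFactQSpec.lean` 88d08be1).  See `UpDatQSpec.lean`.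
-/

set_option autoImplicit false
set_option linter.unusedVariables false
set_option linter.unusedSectionVars false

open AutomorphicForm IsDedekindDomain NumberField MeasureTheory
open scoped ComplexConjugate

noncomputable section

namespace Fermat.Agent.LT.T7.H864

open Fermat.Agent.LT.H556 Fermat.Agent.LT.H556.A0 Fermat.Agent.LT.T7 Fermat.Agent.LT.T7.H305
open Fermat.Agent.LT.T7.MQ298 Fermat.Agent.LT.T7.H340 Fermat.Agent.LT.T7.FUQ514
open Fermat.Agent.LT.T7.H1U

attribute [local instance] Fermat.Agent.LT.T5.instMeasurableSpaceG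

variable {F : Type} [Field F] [NumberField F]

/-- The split datum at `v` for the first place `w0` (a variable). -/
theorem splitAt_of864 (h2 : UpSplitQC864 F) (hT6 : T6.T6Out) (D : CompData ℚ F)
    (hD : IsCompData D) (hcyc : IsCycExt ℚ F D.l) (hl : D.l = 2)
    (n : HeightOneSpectrum (𝓞 F) → ℕ) (m : HeightOneSpectrum (𝓞 ℚ) → ℕ)
    (φ₀ : ∀ w : HeightOneSpectrum (𝓞 F), GL (Fin 2) (w.adicCompletion F) → ℂ)
    (δ : GL (Fin 2) F) {γ : GL (Fin 2) ℚ} (L : LocDataQ298 γ)
    (v : HeightOneSpectrum (𝓞 ℚ)) (w0 w1 : HeightOneSpectrum (𝓞 F))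
    (h0 : PlaceOver ℚ F v w0) (h1 : PlaceOver ℚ F v w1) (hne : w1 ≠ w0)
    (hlev : ∀ (w : ℕ → HeightOneSpectrum (𝓞 F))
      (i : ∀ j : ℕ, v.adicCompletion ℚ ≃+* (w j).adicCompletion F),
      w 0 = w0 →
      (∀ j : ℕ, PlaceOver ℚ F v (w j)) → (∀ j : ℕ, T5.PlaceRel D.s (w (j + 1)) (w j)) →
      (∀ j : ℕ, 0 < j → j < D.l → w j ≠ w 0) →
      (∀ (j : ℕ) (x : ℚ), i j (algebraMap ℚ (v.adicCompletion ℚ) x)
        = algebraMap F ((w j).adicCompletion F) (algebraMap ℚ F x)) →
      (∀ (j : ℕ) (x : v.adicCompletion ℚ), Valued.v (i j x) = Valued.v x) →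
      ∀ j : ℕ, n (w j) = m v) :
    ∃ (β' : GL (Fin 2) (w0.adicCompletion F) → ℝ) (J : ℂ),
      IsSplitAtQ D n m φ₀ δ L v w0 β' J := by
  obtain ⟨w, i, hw0, hovr, hrel, hnew, hrat, hval⟩ := h2 hT6 D hD hcyc hl v w0 w1 h0 h1 hne
  subst hw0
  have hlpos : 0 < D.l := by rw [hl]; norm_num
  refine ⟨fun g => L.βv v (Matrix.GeneralLinearGroup.map
      (((i 0).symm : (w 0).adicCompletion F ≃+* _) :
        (w 0).adicCompletion F →+* v.adicCompletion ℚ) g), _, hlpos, w, i, rfl,
    hlev w i rfl hovr hrel hnew hrat hval, fun y => rfl, hovr, hrel, hnew, hrat, hval, rfl⟩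

/-- **THE TOP**: the leaf `H1U.UpDatExistsQC F` from the three kinds of places. -/
theorem upDatExistsQC_of864 (F : Type) [Field F] [NumberField F] (h1 : UpInertQC864 F)
    (h2 : UpSplitQC864 F) (h3 : UpArchQC864) : UpDatExistsQC F := by
  intro hT6 hIQ D hD hcyc hl μc hμc n m S φ₀ Φ w0c hover hlev δ γ hγ hN L hL
  classical
  -- the finite places
  have hfin : ∀ v : HeightOneSpectrum (𝓞 ℚ), v ∈ S →
      ∃ (β' : GL (Fin 2) ((w0c v).adicCompletion F) → ℝ) (J : ℂ),
        IsInertAtQ D n φ₀ δ v (w0c v) β' J ∨ IsSplitAtQ D n m φ₀ δ L v (w0c v) β' J := by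
    intro v hv
    by_cases hu : ∀ w' : HeightOneSpectrum (𝓞 F), PlaceOver ℚ F v w' → w' = w0c v
    · obtain ⟨β', J, h⟩ := h1 hT6 D hD hcyc n φ₀ δ γ hγ hN v (w0c v) (hover v hv) hu
      exact ⟨β', J, Or.inl h⟩
    · push Not at hu
      obtain ⟨w1, hw1, hne⟩ := hu
      obtain ⟨β', J, h⟩ := splitAt_of864 h2 hT6 D hD hcyc hl n m φ₀ δ L v (w0c v) w1
        (hover v hv) hw1 hne (fun w i hw0 => hlev v hv w i hw0)
      exact ⟨β', J, Or.inr h⟩
  -- the infinite place
  obtain ⟨βc, hβc, hβ0, hβ1⟩ := h3 γ hγ L.μtr hL.torr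
  obtain ⟨winf⟩ : Nonempty (InfinitePlace F) := inferInstance
  refine ⟨{ w0 := w0c
            bet := fun v => if h : v ∈ S then Classical.choose (hfin v h) else fun _ => 0
            winf := winf
            βc := βc },
    fun v => if h : v ∈ S then Classical.choose (Classical.choose_spec (hfin v h)) else 0,
    fun j => @integral _ _ _ _ (borel _) μc
        (fun x : GL (Fin 2) ℂ =>
          Φ winf (x⁻¹ * infGL305 winf (T5.ratG δ * D.R'.r ^ j)
              * T6.glAut (starRingAut : ℂ ≃+* ℂ) x) * ((βc x : ℝ) : ℂ)),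
    rfl, ?_, hβc, hβ0, hβ1, fun j => rfl⟩
  intro v hv
  simp only [dif_pos hv]
  exact Classical.choose_spec (Classical.choose_spec (hfin v hv))

end Fermat.Agent.LT.T7.H864

end

end
-- ===== PACK-END LT/T7/H864/UpDatQTop.lean

-- ===== PACK-BEGIN LT/T7/H864/UpSplitQ.lean
section





/-!
# Row LT, tower T7, leaf Q2.7.13.1.a.2 `UpSplitQC864` (registry row 2842, helper864): PROVED

OFF-MAIN.  `upSplitQC864 F : UpSplitQC864 F`, UNCONDITIONAL.  `F/ℚ` Galois of prime degree
`D.l = 2` with generator `σ = D.s.σ`, `v` a finite place of `ℚ` with two places `w0 ≠ w1` over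
it.  `w (j+1) := σ⁻¹(w j)` (comap), all over `v`; `σ⁻¹(w0) ≠ w0` (the Galois group is generated
by `σ` and transitive on the primes over `v`); `g e f = 2`, `g ≥ 2`: `e = f = 1` at every
place over `v`, and `T6.InstSplitC` (field of `T6.T6Out`) gives the identifications.
Assets: helper557 `DescTriv.lean`, helper584 `NormLocTop.lean` (`algAut584`), proof pattern of
helper768 `splitOrUniqueC768`.
-/

set_option autoImplicit false
set_option linter.unusedVariables false
set_option linter.unusedSectionVars false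
set_option linter.style.haveILetI false

open AutomorphicForm IsDedekindDomain NumberField
open scoped Pointwise

noncomputable section

namespace Fermat.Agent.LT.T7.H864

open Fermat.Agent.LT.H556 Fermat.Agent.LT.H556.A0 Fermat.Agent.LT.T7 Fermat.Agent.LT.T7.H305

section General

variable {K K' : Type} [Field K] [NumberField K] [Field K'] [NumberField K'] [Algebra K K']

/-- If the (old-style) ramification index is `1`, then `p S ⊄ P²`. -/
theorem not_map_le_sq_of_ramIdx864 {R S : Type} [CommRing R] [CommRing S] [Algebra R S]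
    (p : Ideal R) (P : Ideal S) (he : p.ramificationIdx' P = 1) :
    ¬ Ideal.map (algebraMap R S) p ≤ P ^ 2 := by
  intro hle
  by_cases hb : BddAbove {n : ℕ | Ideal.map (algebraMap R S) p ≤ P ^ n}
  · have h2 : (2 : ℕ) ≤ sSup {n : ℕ | Ideal.map (algebraMap R S) p ≤ P ^ n} :=
      le_csSup hb hle
    have he' : sSup {n : ℕ | Ideal.map (algebraMap R S) p ≤ P ^ n} = 1 := he
    omega
  · have h0 : sSup {n : ℕ | Ideal.map (algebraMap R S) p ≤ P ^ n} = 0 :=
      Nat.sSup_of_not_bddAbove hb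
    have he' : sSup {n : ℕ | Ideal.map (algebraMap R S) p ≤ P ^ n} = 1 := he
    omega

/-- `K'/K` Galois of prime degree, two distinct places over `v`: EVERY place over `v` satisfies
the hypotheses of `T6.InstSplitC`. -/
theorem split_all864 {l : ℕ} (hcyc : IsCycExt K K' l) (v : HeightOneSpectrum (𝓞 K))
    (w0 w1 : HeightOneSpectrum (𝓞 K')) (h0 : PlaceOver K K' v w0) (h1 : PlaceOver K K' v w1)
    (hne : w1 ≠ w0) (w : HeightOneSpectrum (𝓞 K')) (hw : PlaceOver K K' v w) :
    (∀ x : 𝓞 K, x ∈ v.asIdeal ↔ algebraMap (𝓞 K) (𝓞 K') x ∈ w.asIdeal) ∧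
      Ideal.absNorm w.asIdeal = Ideal.absNorm v.asIdeal ∧
      ∃ x : 𝓞 K, x ∈ v.asIdeal ∧ algebraMap (𝓞 K) (𝓞 K') x ∉ w.asIdeal ^ 2 := by
  haveI := hcyc.galois
  haveI := v.isPrime
  haveI : v.asIdeal.IsMaximal := v.isMaximal
  have h3 := Ideal.ncard_primesOver_mul_ramificationIdxIn_mul_inertiaDegIn v.asIdeal (𝓞 K')
    Gal(K'/K)
  rw [IsGalois.card_aut_eq_finrank, hcyc.degree] at h3
  have hg : (v.asIdeal.primesOver (𝓞 K')).ncard ∣ l := ⟨_, h3.symm⟩
  have hg1 : (v.asIdeal.primesOver (𝓞 K')).ncard ≠ 1 := by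
    intro h1'
    obtain ⟨Q, hQ⟩ := Set.ncard_eq_one.1 h1'
    have hmem : ∀ w'' : HeightOneSpectrum (𝓞 K'), PlaceOver K K' v w'' → w''.asIdeal = Q := by
      intro w'' hw''
      have hin : w''.asIdeal ∈ v.asIdeal.primesOver (𝓞 K') :=
        ⟨w''.isPrime, H557.placeOver_liesOver_557 hw''⟩
      rw [hQ] at hin
      exact hin
    exact hne (HeightOneSpectrum.ext ((hmem w1 h1).trans (hmem w0 h0).symm))
  have hl : (v.asIdeal.primesOver (𝓞 K')).ncard = l := by
    rcases (Nat.dvd_prime hcyc.prime).1 hg with h | h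
    · exact absurd h hg1
    · exact h
  have hef : v.asIdeal.ramificationIdxIn (𝓞 K') * v.asIdeal.inertiaDegIn (𝓞 K') = 1 := by
    rw [hl] at h3
    exact Nat.eq_of_mul_eq_mul_left hcyc.prime.pos (by rw [h3, mul_one])
  have he : v.asIdeal.ramificationIdxIn (𝓞 K') = 1 := Nat.eq_one_of_mul_eq_one_right hef
  have hf : v.asIdeal.inertiaDegIn (𝓞 K') = 1 := Nat.eq_one_of_mul_eq_one_left hef
  haveI : w.asIdeal.LiesOver v.asIdeal := H557.placeOver_liesOver_557 hw
  haveI := w.isPrime
  haveI : w.asIdeal.IsMaximal := w.isMaximal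
  refine ⟨fun x => hw x _ rfl, ?_, ?_⟩
  · have hN := Ideal.absNorm_eq_pow_inertiaDeg'_of_liesOver w.asIdeal v.asIdeal v.isPrime
      v.ne_bot
    rw [Ideal.inertiaDeg'_eq_inertiaDeg v.asIdeal w.asIdeal,
      ← Ideal.inertiaDegIn_eq_inertiaDeg v.asIdeal w.asIdeal Gal(K'/K), hf, pow_one] at hN
    exact hN
  · have he' : v.asIdeal.ramificationIdx' w.asIdeal = 1 := by
      rw [Ideal.ramificationIdx'_eq_ramificationIdx v.asIdeal w.asIdeal v.ne_bot,
        ← Ideal.ramificationIdxIn_eq_ramificationIdx v.asIdeal w.asIdeal Gal(K'/K), he]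
    by_contra hcon
    apply not_map_le_sq_of_ramIdx864 v.asIdeal w.asIdeal he'
    rw [Ideal.map_le_iff_le_comap]
    intro x hx
    rw [Ideal.mem_comap]
    by_contra hx'
    exact hcon ⟨x, hx, hx'⟩

end General

section Quad

variable {F : Type} [Field F] [NumberField F]

/-- The place `σ⁻¹(w)`. -/
def comapPl864 (s : F ≃+* F) (w : HeightOneSpectrum (𝓞 F)) : HeightOneSpectrum (𝓞 F) where
  asIdeal := Ideal.comap (NumberField.RingOfIntegers.mapRingEquiv s) w.asIdeal
  isPrime := by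
    haveI := w.isPrime
    exact Ideal.comap_isPrime _ _
  ne_bot := by
    intro h
    apply w.ne_bot
    have := Ideal.map_comap_of_surjective (NumberField.RingOfIntegers.mapRingEquiv s)
      (NumberField.RingOfIntegers.mapRingEquiv s).surjective w.asIdeal
    rw [h, Ideal.map_bot] at this
    exact this.symm

theorem placeRel_comapPl864 (s : T5.AdelicAut F) (w : HeightOneSpectrum (𝓞 F)) :
    T5.PlaceRel s (comapPl864 s.σ w) w := by
  unfold T5.PlaceRel
  exact (Ideal.map_comap_of_surjective (NumberField.RingOfIntegers.mapRingEquiv s.σ)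
    (NumberField.RingOfIntegers.mapRingEquiv s.σ).surjective w.asIdeal).symm

theorem placeOver_comapPl864 (s : F ≃+* F) {v : HeightOneSpectrum (𝓞 ℚ)}
    {w : HeightOneSpectrum (𝓞 F)} (h : PlaceOver ℚ F v w) :
    PlaceOver ℚ F v (comapPl864 s w) := by
  intro x y hxy
  have h1 : ((NumberField.RingOfIntegers.mapRingEquiv s y : 𝓞 F) : F)
      = algebraMap ℚ F (x : ℚ) := by
    have e : ((NumberField.RingOfIntegers.mapRingEquiv s y : 𝓞 F) : F) = s (y : F) := rfl
    rw [e, hxy]
    exact map_ratCast s _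
  rw [h x _ h1]
  exact Iff.rfl

/-- The enumeration `w0, σ⁻¹(w0), σ⁻²(w0), …`. -/
def enumPl864 (s : F ≃+* F) (w0 : HeightOneSpectrum (𝓞 F)) : ℕ → HeightOneSpectrum (𝓞 F)
  | 0 => w0
  | j + 1 => comapPl864 s (enumPl864 s w0 j)

/-- **LEAF UQ.2 = UP-SPLIT-Q**, proved. -/
theorem upSplitQC864 (F : Type) [Field F] [NumberField F] : UpSplitQC864 F := by
  intro hT6 D hD hcyc hl v w0 w1 h0 h1 hne
  haveI := hcyc.galois
  have hIS : T6.InstSplitC := hT6.2.2.2.2.2.2.2.1
  have hov : ∀ j : ℕ, PlaceOver ℚ F v (enumPl864 D.s.σ w0 j) := by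
    intro j
    induction j with
    | zero => exact h0
    | succ j ih => exact placeOver_comapPl864 D.s.σ ih
  have hsp := fun j : ℕ => split_all864 hcyc v w0 w1 h0 h1 hne (enumPl864 D.s.σ w0 j) (hov j)
  have hex := fun j : ℕ => hIS ℚ F v (enumPl864 D.s.σ w0 j) (hsp j).1 (hsp j).2.1 (hsp j).2.2
  choose i hi1 hi2 using hex
  refine ⟨enumPl864 D.s.σ w0, i, rfl, hov, fun j => placeRel_comapPl864 D.s _, ?_, hi1, hi2⟩
  -- `σ⁻¹(w0) ≠ w0`
  intro j hj0 hjl
  have hj : j = 1 := by omega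
  subst hj
  intro hcon
  apply hne
  -- the stabiliser
  set s : F ≃ₐ[ℚ] F := H584.algAut584 D hD with hs
  have hgen := H584.algAut_gen584 D hD hcyc
  haveI := v.isPrime
  haveI : v.asIdeal.IsMaximal := v.isMaximal
  haveI : w0.asIdeal.LiesOver v.asIdeal := H557.placeOver_liesOver_557 h0
  haveI : w1.asIdeal.LiesOver v.asIdeal := H557.placeOver_liesOver_557 h1
  haveI := w0.isPrime
  haveI := w1.isPrime
  obtain ⟨τ, hτ⟩ := Ideal.exists_smul_eq_of_isGaloisGroup v.asIdeal w0.asIdeal w1.asIdeal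
    Gal(F/ℚ)
  have hcomap : Ideal.comap (NumberField.RingOfIntegers.mapRingEquiv D.s.σ) w0.asIdeal
      = w0.asIdeal := congrArg HeightOneSpectrum.asIdeal hcon
  have hsmul : ∀ z : 𝓞 F, s • z = NumberField.RingOfIntegers.mapRingEquiv D.s.σ z := by
    intro z
    apply NumberField.RingOfIntegers.ext
    rfl
  have hstab : s ∈ MulAction.stabilizer Gal(F/ℚ) w0.asIdeal := by
    rw [MulAction.mem_stabilizer_iff]
    ext x
    rw [Ideal.mem_pointwise_smul_iff_inv_smul_mem]
    have hx : x = NumberField.RingOfIntegers.mapRingEquiv D.s.σ (s⁻¹ • x) := by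
      rw [← hsmul, smul_inv_smul]
    constructor
    · intro hmem
      have : s⁻¹ • x ∈ Ideal.comap (NumberField.RingOfIntegers.mapRingEquiv D.s.σ)
          w0.asIdeal := by rw [hcomap]; exact hmem
      rw [Ideal.mem_comap, ← hx] at this
      exact this
    · intro hmem
      have : s⁻¹ • x ∈ Ideal.comap (NumberField.RingOfIntegers.mapRingEquiv D.s.σ)
          w0.asIdeal := by
        rw [Ideal.mem_comap, ← hx]
        exact hmem
      rw [hcomap] at this
      exact this
  have hτs : τ ∈ MulAction.stabilizer Gal(F/ℚ) w0.asIdeal :=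
    (Subgroup.zpowers_le.2 hstab) (hgen τ)
  rw [MulAction.mem_stabilizer_iff] at hτs
  apply HeightOneSpectrum.ext
  rw [← hτ, hτs]

end Quad

example (F : Type) [Field F] [NumberField F] : UpSplitQC864 F := upSplitQC864 F

end Fermat.Agent.LT.T7.H864

end

end
-- ===== PACK-END LT/T7/H864/UpSplitQ.lean

-- ===== PACK-BEGIN LT/T7/H454/UpInertQ.lean
section






/-!
# Row LT, tower T7, leaf T7.L2Q.1.H1.5.8.1.a.1 `H864.UpInertQC864 F` (registry row 2840, helper454)

OFF-MAIN.  Statement: `LT/T7/H864/UpDatQSpec.lean` of helper864 (sha256 `0b9abd48…`,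
byte-identical copy).

    upInertQC454 (F) : H864.UpInertQC864 F        (UNCONDITIONAL)

Proof.  `(e, i, s_w)`: `T6.InstExtC` (field of `T6.T6Out`) for the generator `algAut584 D hD`
(helper584), with the uniqueness in the form of ideals (a place which contains the image of `v`
lies over `v`: `v` is maximal).  `F_w` is a local field (`T6.InstLocalC`, field of `T6.T6Out`).
The twisted norm of `δ_w` is the image of `N δ = γ` (the twisted norm commutes with the
localisation; `twNorm_eq_normUpTo584`), which is regular (the discriminant commutes with ring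
homomorphisms, `γ` is regular).  `μ'`, `μt'`: `locMeasC729` (helper729); `β'`: `locCutC543`
(helper543).  `J` := the local twisted integral.
-/

set_option autoImplicit false
set_option linter.style.haveILetI false
set_option linter.unusedSectionVars false

open IsDedekindDomain NumberField MeasureTheory

noncomputable section

namespace Fermat.Agent.LT.T7.H454.UpInertQ

open Fermat.Agent.LT.H556 Fermat.Agent.LT.H556.A0 Fermat.Agent.LT.T7 Fermat.Agent.LT.T7.H305
open Fermat.Agent.LT.T7.H340 Fermat.Agent.LT.T7.H1U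

/-- The abstract twisted norm commutes with a homomorphism which intertwines the twists. -/
theorem twN_map454 {Γ Γ' : Type} [Group Γ] [Group Γ'] (s : Γ →* Γ) (s' : Γ' →* Γ')
    (f : Γ →* Γ') (h : ∀ x : Γ, f (s x) = s' (f x)) :
    ∀ (n : ℕ) (δ : Γ), f (T6.twN s n δ) = T6.twN s' n (f δ)
  | 0, _ => by
      change f 1 = 1
      exact map_one f
  | n + 1, δ => by
      have ih := twN_map454 s s' f h n δ
      change f (δ * s (T6.twN s n δ)) = f δ * s' (T6.twN s' n (f δ))
      rw [map_mul, h, ih]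

/-- The discriminant commutes with ring homomorphisms. -/
theorem disc_map454 {R R' : Type} [CommRing R] [CommRing R'] (f : R →+* R')
    (γ : GL (Fin 2) R) :
    T6.disc (Matrix.GeneralLinearGroup.map f γ) = f (T6.disc γ) := by
  have h1 : ((Matrix.GeneralLinearGroup.map f γ : GL (Fin 2) R') :
      Matrix (Fin 2) (Fin 2) R') = f.mapMatrix (γ : Matrix (Fin 2) (Fin 2) R) := rfl
  change ((Matrix.GeneralLinearGroup.map f γ : GL (Fin 2) R') :
      Matrix (Fin 2) (Fin 2) R').trace ^ 2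
      - 4 * ((Matrix.GeneralLinearGroup.map f γ : GL (Fin 2) R') :
      Matrix (Fin 2) (Fin 2) R').det
    = f ((γ : Matrix (Fin 2) (Fin 2) R).trace ^ 2 - 4 * (γ : Matrix (Fin 2) (Fin 2) R).det)
  rw [h1, Matrix.trace_fin_two, Matrix.det_fin_two, Matrix.trace_fin_two, Matrix.det_fin_two]
  simp only [RingHom.mapMatrix_apply, Matrix.map_apply, map_sub, map_pow, map_mul, map_add,
    map_ofNat]

/-- Regular elements stay regular under ring homomorphisms. -/
theorem isReg_map454 {R R' : Type} [CommRing R] [CommRing R'] (f : R →+* R')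
    (γ : GL (Fin 2) R) (h : T6.IsReg γ) : T6.IsReg (Matrix.GeneralLinearGroup.map f γ) := by
  have h' : IsUnit (T6.disc γ) := h
  change IsUnit (T6.disc (Matrix.GeneralLinearGroup.map f γ))
  rw [disc_map454]
  exact h'.map f

section

variable {K K' : Type} [Field K] [NumberField K] [Field K'] [NumberField K'] [Algebra K K']

/-- A place `w'` which contains the image of `v` lies over `v`. -/
theorem placeOver_of_le454 {v : HeightOneSpectrum (𝓞 K)} {w' : HeightOneSpectrum (𝓞 K')}
    (h : ∀ x : 𝓞 K, x ∈ v.asIdeal → algebraMap (𝓞 K) (𝓞 K') x ∈ w'.asIdeal) :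
    PlaceOver K K' v w' := by
  haveI := w'.isPrime
  have hmax : v.asIdeal.IsMaximal := v.isMaximal
  have hle : v.asIdeal ≤ Ideal.comap (algebraMap (𝓞 K) (𝓞 K')) w'.asIdeal := fun x hx =>
    Ideal.mem_comap.2 (h x hx)
  have hprime : (Ideal.comap (algebraMap (𝓞 K) (𝓞 K')) w'.asIdeal).IsPrime :=
    Ideal.comap_isPrime _ _
  have heq : v.asIdeal = Ideal.comap (algebraMap (𝓞 K) (𝓞 K')) w'.asIdeal :=
    hmax.eq_of_le hprime.ne_top hle
  intro x y hxy
  have hy : y = algebraMap (𝓞 K) (𝓞 K') x := NumberField.RingOfIntegers.ext (hxy.trans rfl)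
  rw [hy, heq, Ideal.mem_comap]

end

/-- **LEAF UQ.1 `UpInertQC864` of helper864, PROVED (unconditional).** -/
theorem upInertQC454 (F : Type) [Field F] [NumberField F] : H864.UpInertQC864 F := by
  intro hT6 D hD hc n φ₀ δ γ hγ hN v w hvw huniq
  have hIL : T6.InstLocalC := hT6.2.2.2.2.2.1
  have hIE : T6.InstExtC := hT6.2.2.2.2.2.2.1
  haveI := hc.galois
  have hprime : (Module.finrank ℚ F).Prime := by rw [hc.degree]; exact hc.prime
  obtain ⟨e, i, sw, hi, hsw, hext, _⟩ := hIE ℚ F (H584.algAut584 D hD)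
    (H584.algAut_gen584 D hD hc) hprime v w
    (fun x => hvw x (algebraMap (𝓞 ℚ) (𝓞 F) x) rfl)
    (fun w' hw' => huniq w' (placeOver_of_le454 hw'))
  rw [hc.degree] at hext
  have hsw' : ∀ y : F, sw (algebraMap F (w.adicCompletion F) y)
      = algebraMap F (w.adicCompletion F) (D.s.σ y) := fun y => hsw y
  have hloc : T6.IsLocalField (w.adicCompletion F) (Ideal.absNorm w.asIdeal) := hIL F w
  -- the twisted norm of `δ_w` is the image of `γ`
  have hcomm : ∀ x : GL (Fin 2) F,
      locG305 w (T6.glAut D.s.σ x) = T6.glAut sw (locG305 w x) := by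
    intro x
    apply Matrix.GeneralLinearGroup.ext
    intro a b
    exact (hsw' (x a b)).symm
  have htw : T6.twNorm sw D.l (locG305 w δ)
      = locG305 w (Matrix.GeneralLinearGroup.map (algebraMap ℚ F) γ) := by
    rw [← hN, ← H584.twNorm_eq_normUpTo584]
    exact (twN_map454 (T6.glAut D.s.σ) (T6.glAut sw) (locG305 w) hcomm D.l δ).symm
  have hreg : T6.IsReg (T6.twNorm sw D.l (locG305 w δ)) := by
    rw [htw]
    exact isReg_map454 _ _ (isReg_map454 _ _ hγ.1)
  obtain ⟨hμ, hμT⟩ := LocMeas729.locMeasC729 (w.adicCompletion F) _ hloc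
  obtain ⟨μ', hμ'⟩ := hμ (n w)
  obtain ⟨μt', hμt'⟩ := hμT D.l sw hext.val_s hext.cyc.pos hext.cyc.order (locG305 w δ) hreg
  obtain ⟨β', hβ'⟩ := H543C.locCutC543 (w.adicCompletion F) _ hloc D.l sw hext.val_s
    hext.cyc.pos hext.cyc.order (locG305 w δ) hreg μt' hμt'.1
  exact ⟨β', _, e, i, sw, μ', μt', hvw, huniq, hi, hsw', hext, hμ', hμt', hβ', rfl⟩

end Fermat.Agent.LT.T7.H454.UpInertQ

end

end
-- ===== PACK-END LT/T7/H454/UpInertQ.lean

-- ===== PACK-BEGIN LT/T7/H904/UpArchQ.lean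
section






/-!
# Row LT, tower T7, node Q2.7.13.1.a `UpDatExistsQC`, leaf UQ.3 `UpArchQC864` (helper904)

OFF-MAIN.  `upArchQC904 : H864.UpArchQC864`, statement VERBATIM vs
`LT/T7/H864/UpDatQSpec.lean` (helper864@27d680516, sha256 0b9abd48), UNCONDITIONAL.

Proof.  Abstract form `exists_cutoff_hom904`: `f : H → G` a homomorphism which is a closed
embedding, `G` locally compact `σ`-compact Hausdorff, `T` a closed commutative subgroup of `H`
with a Haar measure `μ`: the image `T' = f(T)` is a closed subgroup of `G`, `T ≃ T'` is a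
homeomorphism, the image of `μ` is a Haar measure of `T'`, right invariant (`T'` commutative);
`exists_cutoff584` (helper584) for `(G, T')` and the change of variables.  `GL₂(ℝ) → GL₂(ℂ)` is
a closed embedding (`isClosedEmbedding_mapRC904`: entries, `Units.embedProduct`); the
centraliser of the regular element `γ_∞` is closed and commutative.
-/

set_option autoImplicit false
set_option linter.unusedSectionVars false
set_option linter.unusedVariables false
set_option linter.style.haveILetI false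

open AutomorphicForm IsDedekindDomain NumberField MeasureTheory
open scoped ComplexConjugate

noncomputable section

namespace Fermat.Agent.LT.T7.H904

open Fermat.Agent.LT.H556 Fermat.Agent.LT.H556.A0 Fermat.Agent.LT.T7 Fermat.Agent.LT.T7.H305
open Fermat.Agent.LT.T7.MQ298 Fermat.Agent.LT

/-- **Cut-off functions along a closed embedding.** -/
theorem exists_cutoff_hom904 {G H : Type} [Group G] [TopologicalSpace G] [IsTopologicalGroup G]
    [LocallyCompactSpace G] [T2Space G] [SigmaCompactSpace G]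
    [Group H] [TopologicalSpace H] [IsTopologicalGroup H]
    (f : H →* G) (hf : Topology.IsClosedEmbedding f) (T : Subgroup H)
    (hT : IsClosed (T : Set H)) (hcomm : ∀ a b : T, a * b = b * a)
    (μ : @Measure T (borel _)) (hμ : @Measure.IsHaarMeasure _ _ _ (borel _) μ) :
    ∃ β : G → ℝ, Continuous β ∧ (∀ x, 0 ≤ β x) ∧
      ∀ x : G, @integral _ _ _ _ (borel _) μ (fun t : T => β (f (t : H) * x)) = 1 := by
  letI : MeasurableSpace T := borel _
  haveI : BorelSpace T := ⟨rfl⟩
  haveI := hμ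
  set T' : Subgroup G := T.map f with hT'
  have hcl : IsClosed (T' : Set G) := by
    have h : (T' : Set G) = f '' (T : Set H) := rfl
    rw [h]
    exact hf.isClosedMap _ hT
  letI : MeasurableSpace T' := borel _
  haveI : BorelSpace T' := ⟨rfl⟩
  set e : T ≃* T' := T.equivMapOfInjective f hf.injective with he
  have hev : ∀ t : T, ((e t : T') : G) = f (t : H) := fun t => rfl
  have hec : Continuous e :=
    Continuous.subtype_mk (hf.continuous.comp continuous_subtype_val) _
  have hind : Topology.IsInducing (fun t : T => f (t : H)) :=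
    hf.isInducing.comp Topology.IsInducing.subtypeVal
  have hesc : Continuous e.symm := by
    rw [hind.continuous_iff]
    have h : (fun t : T => f (t : H)) ∘ e.symm = fun t' : T' => (t' : G) := by
      funext t'
      show f ((e.symm t' : T) : H) = (t' : G)
      rw [← hev, MulEquiv.apply_symm_apply]
    rw [h]
    exact continuous_subtype_val
  set μ' : Measure T' := Measure.map e μ with hμ'
  haveI : μ'.IsHaarMeasure := e.isHaarMeasure_map μ hec hesc
  have hcomm' : ∀ a b : T', a * b = b * a := by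
    intro a b
    have h := hcomm (e.symm a) (e.symm b)
    have h2 := congrArg e h
    simpa using h2
  haveI : μ'.IsMulRightInvariant := ⟨fun g => by
    have e1 : (fun t : T' => t * g) = fun t => g * t := by
      funext t
      exact hcomm' t g
    rw [e1]
    exact map_mul_left_eq_self μ' g⟩
  obtain ⟨β, hβc, hβ0, -, hβ1⟩ := H584.exists_cutoff584 T' μ' hcl
  refine ⟨β, hβc, hβ0, fun x => ?_⟩
  have hme : MeasurableEmbedding e :=
    (Homeomorph.mk e.toEquiv hec hesc).measurableEmbedding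
  have h1 := hβ1 x
  rw [hμ', hme.integral_map] at h1
  exact h1

/-! ## `GL₂(ℝ) → GL₂(ℂ)` is a closed embedding -/

theorem isClosedEmbedding_mapMat904 :
    Topology.IsClosedEmbedding
      (fun A : Matrix (Fin 2) (Fin 2) ℝ => A.map (algebraMap ℝ ℂ)) := by
  have h0 : Topology.IsClosedEmbedding (algebraMap ℝ ℂ) :=
    Complex.isometry_ofReal.isClosedEmbedding
  have h1 : Topology.IsClosedEmbedding
      (Pi.map fun _ : Fin 2 => (Pi.map fun _ : Fin 2 => (algebraMap ℝ ℂ : ℝ → ℂ))) :=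
    Topology.IsClosedEmbedding.piMap fun _ => Topology.IsClosedEmbedding.piMap fun _ => h0
  exact h1

theorem isClosedEmbedding_mapRC904 :
    Topology.IsClosedEmbedding
      (Matrix.GeneralLinearGroup.map (algebraMap ℝ ℂ) : GL (Fin 2) ℝ → GL (Fin 2) ℂ) := by
  have hC : Topology.IsClosedEmbedding (Units.embedProduct (Matrix (Fin 2) (Fin 2) ℂ)) :=
    Units.isClosedEmbedding_embedProduct
  have hR : Topology.IsClosedEmbedding (Units.embedProduct (Matrix (Fin 2) (Fin 2) ℝ)) :=
    Units.isClosedEmbedding_embedProduct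
  rw [← hC.of_comp_iff]
  have hF := isClosedEmbedding_mapMat904
  have hop : Topology.IsClosedEmbedding
      (fun A : (Matrix (Fin 2) (Fin 2) ℝ)ᵐᵒᵖ =>
        MulOpposite.op ((MulOpposite.unop A).map (algebraMap ℝ ℂ))) :=
    (MulOpposite.opHomeomorph.isClosedEmbedding.comp hF).comp
      MulOpposite.opHomeomorph.symm.isClosedEmbedding
  have hcomp : (Units.embedProduct (Matrix (Fin 2) (Fin 2) ℂ)) ∘
      (Matrix.GeneralLinearGroup.map (algebraMap ℝ ℂ) : GL (Fin 2) ℝ → GL (Fin 2) ℂ)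
      = (Prod.map (fun A : Matrix (Fin 2) (Fin 2) ℝ => A.map (algebraMap ℝ ℂ))
          (fun A : (Matrix (Fin 2) (Fin 2) ℝ)ᵐᵒᵖ =>
            MulOpposite.op ((MulOpposite.unop A).map (algebraMap ℝ ℂ))))
        ∘ (Units.embedProduct (Matrix (Fin 2) (Fin 2) ℝ)) := by
    funext g
    rfl
  rw [hcomp]
  exact (hF.prodMap hop).comp hR

theorem locallyCompact_GL2C904 : LocallyCompactSpace (GL (Fin 2) ℂ) := by
  haveI : LocallyCompactSpace (Matrix (Fin 2) (Fin 2) ℂ) :=
    inferInstanceAs (LocallyCompactSpace (Fin 2 → Fin 2 → ℂ))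
  haveI : LocallyCompactSpace (Matrix (Fin 2) (Fin 2) ℂ)ᵐᵒᵖ :=
    (MulOpposite.opHomeomorph
      (M := Matrix (Fin 2) (Fin 2) ℂ)).symm.isClosedEmbedding.locallyCompactSpace
  exact (Units.isClosedEmbedding_embedProduct
    (α := Matrix (Fin 2) (Fin 2) ℂ)).locallyCompactSpace

theorem sigmaCompact_GL2C904 : SigmaCompactSpace (GL (Fin 2) ℂ) := by
  haveI : SigmaCompactSpace (Matrix (Fin 2) (Fin 2) ℂ) :=
    inferInstanceAs (SigmaCompactSpace (Fin 2 → Fin 2 → ℂ))
  haveI : SigmaCompactSpace (Matrix (Fin 2) (Fin 2) ℂ)ᵐᵒᵖ :=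
    MulOpposite.opHomeomorph.symm.isClosedEmbedding.sigmaCompactSpace
  exact Units.isClosedEmbedding_embedProduct.sigmaCompactSpace

/-- The centraliser is closed. -/
theorem isClosed_cent904 {H : Type} [Group H] [TopologicalSpace H] [IsTopologicalGroup H]
    [T2Space H] (γ : H) : IsClosed ((cent305 γ : Subgroup H) : Set H) := by
  have h : ((cent305 γ : Subgroup H) : Set H) = {x : H | x⁻¹ * γ * x = γ} := rfl
  rw [h]
  exact isClosed_eq ((continuous_inv.mul continuous_const).mul continuous_id) continuous_const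

/-- The centraliser of a regular element of `GL₂(F)` is commutative. -/
theorem cent_comm904 {F : Type} [Field F] (γ : GL (Fin 2) F) (hγ : T6.IsReg γ)
    (a b : cent305 γ) : a * b = b * a := by
  have hD : (γ : Matrix (Fin 2) (Fin 2) F).trace ^ 2
      - 4 * (γ : Matrix (Fin 2) (Fin 2) F).det ≠ 0 := IsUnit.ne_zero hγ
  have key : ∀ x : cent305 γ, ((x : GL (Fin 2) F) : Matrix (Fin 2) (Fin 2) F)
      * (γ : Matrix (Fin 2) (Fin 2) F)
      = (γ : Matrix (Fin 2) (Fin 2) F) * ((x : GL (Fin 2) F) : Matrix (Fin 2) (Fin 2) F) := by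
    intro x
    have hx : (x : GL (Fin 2) F)⁻¹ * γ * (x : GL (Fin 2) F) = γ := x.2
    have hx' : (x : GL (Fin 2) F) * γ = γ * (x : GL (Fin 2) F) := by
      calc (x : GL (Fin 2) F) * γ
          = (x : GL (Fin 2) F) * ((x : GL (Fin 2) F)⁻¹ * γ * (x : GL (Fin 2) F)) := by rw [hx]
        _ = γ * (x : GL (Fin 2) F) := by group
    rw [← Units.val_mul, ← Units.val_mul, hx']
  apply Subtype.ext
  apply Units.ext
  show ((a : GL (Fin 2) F) : Matrix (Fin 2) (Fin 2) F) * ((b : GL (Fin 2) F) : Matrix _ _ F)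
    = ((b : GL (Fin 2) F) : Matrix (Fin 2) (Fin 2) F) * ((a : GL (Fin 2) F) : Matrix _ _ F)
  exact T6.H846.comm_of_comm_reg846 _ _ _ hD (key a) (key b)

/-- **LEAF UQ.3 = UP-ARCH-Q**, closed. -/
theorem upArchQC904 : H864.UpArchQC864 := by
  intro γ hγ μtr hμtr
  haveI := locallyCompact_GL2C904
  haveI := sigmaCompact_GL2C904
  have hreg : T6.IsReg (reGLQ298 (T5.ratG γ)) :=
    isReg_map904 reHomQ298 _ (isReg_map904 (algebraMap ℚ (Adl ℚ)) γ hγ.1)
  exact exists_cutoff_hom904 (Matrix.GeneralLinearGroup.map (algebraMap ℝ ℂ))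
    isClosedEmbedding_mapRC904 (cent305 (reGLQ298 (T5.ratG γ)))
    (isClosed_cent904 _) (cent_comm904 _ hreg) μtr hμtr

end Fermat.Agent.LT.T7.H904

end

end
-- ===== PACK-END LT/T7/H904/UpArchQ.lean

-- ===== PACK-BEGIN LT/T7/H864/UpDatQClosed.lean
section






/-!
# Row LT, tower T7, leaf Q2.7.13.1.a `H1U.UpDatExistsQC` (registry row 2785, owner helper864):
# CLOSED, UNCONDITIONAL

OFF-MAIN.  `upDatExistsQC864 F : H1U.UpDatExistsQC F` (VERBATIM vs `T7/H1U/UpFactQSpec.lean`
88d08be1, helper1@7e90b91d7) from the proved top `upDatExistsQC_of864` and the three closed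
leaves of the cut, byte-identical copies:

* UQ.1 `UpInertQC864 F`: helper454 `upInertQC454` (`T7/H454/UpInertQ.lean`, c27694c7);
* UQ.2 `UpSplitQC864 F`: helper864 `upSplitQC864` (`T7/H864/UpSplitQ.lean`, f56f3405);
* UQ.3 `UpArchQC864`: helper904 `upArchQC904` (`T7/H904/UpArchQ.lean`, 873ae14a).

Second sources: helper267 `upInertQC267`, helper999 `upSplitQC999`, helper709 `upArchQC709`.
-/

set_option autoImplicit false

open IsDedekindDomain NumberField

noncomputable section

namespace Fermat.Agent.LT.T7.H864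

/-- **LEAF U.1 = UP-DAT-EXISTS over `ℚ`, CLOSED.** -/
theorem upDatExistsQC864 (F : Type) [Field F] [NumberField F] : H1U.UpDatExistsQC F :=
  upDatExistsQC_of864 F (H454.UpInertQ.upInertQC454 F) (upSplitQC864 F) H904.upArchQC904

example (F : Type) [Field F] [NumberField F] : H1U.UpDatExistsQC F := upDatExistsQC864 F

end Fermat.Agent.LT.T7.H864

end

end
-- ===== PACK-END LT/T7/H864/UpDatQClosed.lean

-- ===== PACK-BEGIN LT/T7/H913/CutOnUpQTop.lean
section




/-!
# Row LT, tower T7, node `H1U.CutOnUpQC` (registry row 2786, owner helper913): the proved top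

OFF-MAIN.  Complete proof, nothing assumed.

    cutOnUpQC_of913 : H340.SuppOutUpC340 F → SuppUpQC913 F → CutOnOutUpQC913 F →
        H305.TorCommC305 F → H305.EllRegC305 ℚ F → H558.OutOpenC558 F → H558.CompContC558 F →
        H340.IsoContC340 → H1U.CutOnUpQC F

Mirror of `T7/H558/FactDownTopA.lean` (helper558) and `T7/H751/FactDownQTopA.lean` (helper751).
-/

set_option autoImplicit false

open AutomorphicForm IsDedekindDomain NumberField MeasureTheory
open scoped ComplexConjugate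

noncomputable section

namespace Fermat.Agent.LT.T7.H913

open Fermat.Agent.LT.H556 Fermat.Agent.LT.H556.A0 Fermat.Agent.LT.T7 Fermat.Agent.LT.T7.H305
open Fermat.Agent.LT.T7.MQ298 Fermat.Agent.LT.T7.H1U

attribute [local instance] Fermat.Agent.LT.T5.instMeasurableSpaceG

variable {F : Type} [Field F] [NumberField F]

/-- The continuous factor of the product cut-off upstairs over `ℚ`. -/
def prodCutUpCore913 (S : Finset (HeightOneSpectrum (𝓞 ℚ))) (cT : ℝ) (U : UpDatQ F)
    (y : G F) : ℝ :=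
  cT⁻¹ * (∏ v ∈ S, U.bet v (finGL305 (U.w0 v) y)) * U.βc (infGL305 U.winf y)

theorem prodCutUp_eq_indicator913 (S' : Finset (HeightOneSpectrum (𝓞 F)))
    (S : Finset (HeightOneSpectrum (𝓞 ℚ))) (cT : ℝ) (U : UpDatQ F) :
    prodCutUpQ S' S cT U
      = Set.indicator {y : G F | OutT305 S' y} (prodCutUpCore913 S cT U) := by
  classical
  funext y
  by_cases h : OutT305 S' y
  · rw [Set.indicator_of_mem (show y ∈ {y : G F | OutT305 S' y} from h)]
    change (if OutT305 S' y then _ else _) = _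
    rw [if_pos h]
    rfl
  · rw [Set.indicator_of_notMem (show y ∉ {y : G F | OutT305 S' y} from h)]
    change (if OutT305 S' y then _ else _) = _
    rw [if_neg h]

/-- The factor of the cut-off at a place of `S` is continuous. -/
theorem continuous_bet913 (hCont : H558.CompContC558 F) (hIso : H340.IsoContC340)
    {D : CompData ℚ F} {n : HeightOneSpectrum (𝓞 F) → ℕ} {m : HeightOneSpectrum (𝓞 ℚ) → ℕ}
    {φ₀ : ∀ w : HeightOneSpectrum (𝓞 F), GL (Fin 2) (w.adicCompletion F) → ℂ}
    {δ : GL (Fin 2) F} {γ : GL (Fin 2) ℚ} {L : LocDataQ298 γ} (hL : IsLocDataQ298 m L)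
    {v : HeightOneSpectrum (𝓞 ℚ)} {w0 : HeightOneSpectrum (𝓞 F)}
    {β' : GL (Fin 2) (w0.adicCompletion F) → ℝ} {J : ℂ}
    (h : IsInertAtQ D n φ₀ δ v w0 β' J ∨ IsSplitAtQ D n m φ₀ δ L v w0 β' J) :
    Continuous (fun y : G F => β' (finGL305 w0 y)) := by
  rcases h with h | h
  · obtain ⟨e, i, sw, μ', μt', -, -, -, -, -, -, -, hcut, -⟩ := h
    exact hcut.1.comp (hCont.1 w0)
  · obtain ⟨hl, w, i, hw0, -, heq, -, -, -, -, hval, -⟩ := h
    have hfun : (fun y : G F => β' (finGL305 w0 y))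
        = fun y : G F => L.βv v (Matrix.GeneralLinearGroup.map
          (((i 0).symm : (w 0).adicCompletion F ≃+* _) :
            (w 0).adicCompletion F →+* v.adicCompletion ℚ) (finGL305 (w 0) y)) :=
      funext heq
    rw [hfun]
    have hv : ∀ x : (w 0).adicCompletion F,
        Valued.v ((((i 0).symm : (w 0).adicCompletion F ≃+* _) :
            (w 0).adicCompletion F →+* v.adicCompletion ℚ) x) = Valued.v x ^ 1 := by
      intro x
      have := hval 0 ((i 0).symm x)
      rw [pow_one]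
      simpa using this.symm
    have hc := (hIso ((w 0).adicCompletion F) (v.adicCompletion ℚ) 1
      (((i 0).symm : (w 0).adicCompletion F ≃+* _) :
        (w 0).adicCompletion F →+* v.adicCompletion ℚ) one_pos hv).2
    exact (hL.cut v).1.comp (hc.comp (hCont.1 (w 0)))

/-- The factor of the cut-off at a place of `S` is non-negative. -/
theorem bet_nonneg913
    {D : CompData ℚ F} {n : HeightOneSpectrum (𝓞 F) → ℕ} {m : HeightOneSpectrum (𝓞 ℚ) → ℕ}
    {φ₀ : ∀ w : HeightOneSpectrum (𝓞 F), GL (Fin 2) (w.adicCompletion F) → ℂ}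
    {δ : GL (Fin 2) F} {γ : GL (Fin 2) ℚ} {L : LocDataQ298 γ} (hL : IsLocDataQ298 m L)
    {v : HeightOneSpectrum (𝓞 ℚ)} {w0 : HeightOneSpectrum (𝓞 F)}
    {β' : GL (Fin 2) (w0.adicCompletion F) → ℝ} {J : ℂ}
    (h : IsInertAtQ D n φ₀ δ v w0 β' J ∨ IsSplitAtQ D n m φ₀ δ L v w0 β' J) (y : G F) :
    0 ≤ β' (finGL305 w0 y) := by
  rcases h with h | h
  · obtain ⟨e, i, sw, μ', μt', -, -, -, -, -, -, -, hcut, -⟩ := h
    exact hcut.2.1 _
  · obtain ⟨hl, w, i, hw0, -, heq, -, -, -, -, hval, -⟩ := h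
    rw [heq y]
    exact (hL.cut v).2.1 _

/-- Right translation by an element of the (commutative) twisted torus does not change the
orbital average. -/
theorem torus_transl913 {s : T5.AdelicAut F} {δ : GL (Fin 2) F}
    (hcomm : ∀ x ∈ tA305 s δ, ∀ y ∈ tA305 s δ, x * y = y * x)
    (μT : @Measure (tA305 s δ) (borel _))
    (hμT : @Measure.IsHaarMeasure _ _ _ (borel _) μT) (β : G F → ℝ) (t : G F)
    (ht : t ∈ tA305 s δ) (x : G F) :
    @integral _ _ _ _ (borel _) μT (fun t₁ : tA305 s δ => β ((t₁ : G F) * (t * x)))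
      = @integral _ _ _ _ (borel _) μT (fun t₁ : tA305 s δ => β ((t₁ : G F) * x)) := by
  letI : MeasurableSpace (tA305 s δ) := borel _
  haveI : BorelSpace (tA305 s δ) := ⟨rfl⟩
  haveI := hμT
  have h := integral_mul_left_eq_self (μ := μT)
    (fun t₁ : tA305 s δ => β ((t₁ : G F) * x)) (⟨t, ht⟩ : tA305 s δ)
  rw [← h]
  congr 1
  funext t₁
  have hc : (t₁ : G F) * t = t * (t₁ : G F) := hcomm _ t₁.2 _ ht
  change β ((t₁ : G F) * (t * x)) = β ((t * (t₁ : G F)) * x)
  rw [← mul_assoc, hc]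

/-- **THE TOP OF THE NODE `H1U.CutOnUpQC`.** -/
theorem cutOnUpQC_of913 (hSO : H340.SuppOutUpC340 F) (hSU : SuppUpQC913 F)
    (hCut : CutOnOutUpQC913 F) (hTc : TorCommC305 F) (hEll : EllRegC305 ℚ F)
    (hOpen : H558.OutOpenC558 F) (hCont : H558.CompContC558 F) (hIso : H340.IsoContC340) :
    H1U.CutOnUpQC F := by
  intro hT6 hF D hD hcyc hl ι hι μc hμc T₀ hT₀ n m S S' hTS hSS' φ₀ Φ δ γ hγ hN hgood hint
    μT μT' hμT hμT' hlink L cT hL hcT hTor U J Jc hU
  refine ⟨?_, ?_, ?_⟩
  · rw [prodCutUp_eq_indicator913]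
    haveI : BorelSpace (G F) := ⟨rfl⟩
    have hcore : Continuous (prodCutUpCore913 S cT U) := by
      unfold prodCutUpCore913
      refine (continuous_const.mul (continuous_finset_prod _ fun v hv => ?_)).mul ?_
      · exact continuous_bet913 hCont hIso hL (hU.1 v hv)
      · exact hU.2.1.comp (hCont.2 U.winf)
    exact hcore.measurable.indicator (hOpen S').measurableSet
  · intro y
    classical
    rw [prodCutUp_eq_indicator913]
    refine Set.indicator_nonneg (fun y _ => ?_) y
    unfold prodCutUpCore913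
    refine mul_nonneg (mul_nonneg (inv_nonneg.2 hcT.le) (Finset.prod_nonneg fun v hv => ?_)) ?_
    · exact bet_nonneg913 hL (hU.1 v hv) y
    · exact hU.2.2.1 _
  · intro x hx
    have h1 : OutT305 S' (x⁻¹ * T5.ratG δ * D.s.onG x) :=
      hSO D.R'.r hD.frame'.ray D.s S' φ₀ Φ δ x hx
    obtain ⟨t, ht, hout⟩ := hSU hT6 hF D hD hcyc hl T₀ hT₀ S S' hTS hSS' δ γ hγ hN hgood hint
      x h1
    have hone := hCut hT6 hF D hD hcyc hl ι hι μc hμc T₀ hT₀ n m S S' hTS hSS' φ₀ Φ δ γ hγ hN
      hgood hint μT μT' hμT hμT' hlink L cT hL hcT hTor U J Jc hU (t⁻¹ * x) hout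
    have hreg := hEll D hD γ hγ
    have hcomm := hTc D.R' hD.frame' D.s D.l D.k D.𝔑 hD.cyc hD.aut δ
      (by rw [hN]; exact hreg.1)
    have htr := torus_transl913 hcomm μT' hμT' (prodCutUpQ S' S cT U) t ht (t⁻¹ * x)
    rw [mul_inv_cancel_left] at htr
    rw [htr]
    exact hone

end Fermat.Agent.LT.T7.H913

end

end
-- ===== PACK-END LT/T7/H913/CutOnUpQTop.lean

-- ===== PACK-BEGIN LT/T7/H276/InertTor.lean
section



/-!
# Row LT, tower T7, node UD.1 `UpInertC341` (cut of helper341): leaf UI.2 `InertTorC341`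
# -- helper276, OFF-MAIN

VERBATIM vs `LT/T7/H341/UpInertSpec.lean` (sha256 936ba8f6, helper341), unconditional:

* `inertTorC276 : UD341.InertTorC341`.

Proof.  `i : k → k'` with `v'(i x) = v(x)^e`, `e > 0`, is a topological embedding
(`isInducing_of_val_pow276`), so is `GL₂(i)` (`Topology.IsInducing.matrix_map`,
`Topology.IsInducing.units_map`).  By `T6.TwCentC` it maps the centraliser `T` of `γ` ONTO the
twisted centraliser `T'` of `δ`: an isomorphism of topological groups `T ≃ T'`, in particular a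
measurable equivalence; `μt'` = the image of `μt` (`MulEquiv.isHaarMeasure_map`,
`MeasurableEquiv.map_apply`: no measurability hypothesis on the sets is needed).
-/

set_option autoImplicit false
set_option linter.style.haveILetI false

open MeasureTheory MonoidWithZeroHom MonoidWithZeroHom.ValueGroup₀

noncomputable section

namespace Fermat.Agent.LT.T7.H276

open Fermat.Agent.LT Fermat.Agent.LT.T7 Fermat.Agent.LT.T7.H305

/-- A ring homomorphism of valued fields with `v'(i x) = v(x)^e`, `e > 0`, induces the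
topology. -/
theorem isInducing_of_val_pow276 {k k' : Type} [Field k] [Field k'] [Valued k T6.Γ₀]
    [Valued k' T6.Γ₀] (e : ℕ) (i : k →+* k') (he : 0 < e)
    (hv : ∀ x : k, Valued.v (i x) = Valued.v x ^ e) : Topology.IsInducing i := by
  rw [Topology.isInducing_iff_nhds]
  intro x
  ext s
  rw [Valued.mem_nhds, Filter.mem_comap]
  constructor
  · rintro ⟨γ, hγ⟩
    obtain ⟨c, hc⟩ := ValueGroup₀.restrict₀_surjective
      (.ofClass (Valued.v : Valuation k T6.Γ₀)) γ.1
    have hc' : (Valued.v : Valuation k T6.Γ₀).restrict c = γ.1 := hc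
    have hcne : (Valued.v : Valuation k T6.Γ₀) c ≠ 0 := by
      intro h0
      have : (Valued.v : Valuation k T6.Γ₀).restrict c = 0 :=
        (Valuation.restrict_eq_zero_iff _).2 h0
      rw [hc'] at this
      exact γ.ne_zero this
    have hne' : (Valued.v : Valuation k' T6.Γ₀).restrict (i c) ≠ 0 := by
      intro h0
      have h1 : (Valued.v : Valuation k' T6.Γ₀) (i c) = 0 :=
        (Valuation.restrict_eq_zero_iff _).1 h0
      rw [hv] at h1
      exact hcne (eq_zero_of_pow_eq_zero h1)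
    refine ⟨{y' | (Valued.v : Valuation k' T6.Γ₀).restrict (y' - i x)
        < (Valued.v : Valuation k' T6.Γ₀).restrict (i c)},
      Valued.mem_nhds.2 ⟨Units.mk0 _ hne', fun y hy => hy⟩, ?_⟩
    intro y hy
    apply hγ
    have h1 : (Valued.v : Valuation k' T6.Γ₀) (i y - i x)
        < (Valued.v : Valuation k' T6.Γ₀) (i c) := (Valuation.restrict_lt_iff _).1 hy
    rw [← map_sub, hv, hv] at h1
    have h2 : (Valued.v : Valuation k T6.Γ₀) (y - x) < (Valued.v : Valuation k T6.Γ₀) c :=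
      (pow_lt_pow_iff_left₀ zero_le zero_le he.ne').1 h1
    show (Valued.v : Valuation k T6.Γ₀).restrict (y - x) < γ.1
    rw [← hc']
    exact (Valuation.restrict_lt_iff _).2 h2
  · rintro ⟨t, ht, hts⟩
    obtain ⟨γ', hγ'⟩ := Valued.mem_nhds.1 ht
    have hg' : (ValueGroup₀.embedding γ'.1 : T6.Γ₀) ≠ 0 := by
      intro h
      have h2 : (ValueGroup₀.embedding γ'.1 : T6.Γ₀)
          = ValueGroup₀.embedding
            (0 : ValueGroup₀ (.ofClass (Valued.v : Valuation k' T6.Γ₀))) := by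
        rw [h, map_zero]
      exact γ'.ne_zero (embedding_injective h2)
    by_cases hx0 : ∃ x0 : k, Valued.v x0 ≠ 0 ∧ Valued.v x0 < (1 : T6.Γ₀)
    · obtain ⟨x0, h0, h1⟩ := hx0
      obtain ⟨N, hN⟩ := exists_pow_lt₀ h1 (Units.mk0 _ hg')
      rw [Units.val_mk0] at hN
      have hne : (Valued.v : Valuation k T6.Γ₀).restrict (x0 ^ N) ≠ 0 := by
        intro h
        have h3 : (Valued.v : Valuation k T6.Γ₀) (x0 ^ N) = 0 :=
          (Valuation.restrict_eq_zero_iff _).1 h
        rw [map_pow] at h3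
        exact h0 (eq_zero_of_pow_eq_zero h3)
      refine ⟨Units.mk0 _ hne, fun y hy => hts (hγ' ?_)⟩
      have hy' : Valued.v (y - x) < (Valued.v x0 : T6.Γ₀) ^ N := by
        have := (Valuation.restrict_lt_iff _).1 hy
        rwa [map_pow] at this
      have hle1 : (Valued.v x0 : T6.Γ₀) ^ N ≤ 1 := pow_le_one₀ zero_le h1.le
      show (Valued.v : Valuation k' T6.Γ₀).restrict (i y - i x) < γ'.1
      rw [Valuation.restrict_lt_iff_lt_embedding, ← map_sub, hv]
      calc (Valued.v (y - x) : T6.Γ₀) ^ e ≤ Valued.v (y - x) :=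
            pow_le_of_le_one zero_le (hy'.le.trans hle1) he.ne'
        _ < (Valued.v x0 : T6.Γ₀) ^ N := hy'
        _ < _ := hN
    · have hx0' : ∀ x0 : k, Valued.v x0 ≠ 0 → (1 : T6.Γ₀) ≤ Valued.v x0 := fun x0 h =>
        not_lt.1 fun hlt => hx0 ⟨x0, h, hlt⟩
      refine ⟨1, fun y hy => hts (hγ' ?_)⟩
      have hy' : Valued.v (y - x) < (1 : T6.Γ₀) := by
        have := (Valuation.restrict_lt_iff_lt_embedding _).1 hy
        simpa using this
      have hz : (Valued.v (y - x) : T6.Γ₀) = 0 := by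
        by_contra h
        exact absurd hy' (not_lt.2 (hx0' _ h))
      show (Valued.v : Valuation k' T6.Γ₀).restrict (i y - i x) < γ'.1
      rw [Valuation.restrict_lt_iff_lt_embedding, ← map_sub, hv, hz, zero_pow he.ne']
      exact zero_lt_iff.2 hg'

/-- `GL₂(i)` induces the topology. -/
theorem isInducing_glMap276 {k k' : Type} [Field k] [Field k'] [TopologicalSpace k]
    [TopologicalSpace k'] (i : k →+* k') (hi : Topology.IsInducing i) :
    Topology.IsInducing (Matrix.GeneralLinearGroup.map (n := Fin 2) i) := by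
  have hm : Topology.IsInducing
      ((RingHom.mapMatrix i : Matrix (Fin 2) (Fin 2) k →+* Matrix (Fin 2) (Fin 2) k').toMonoidHom) :=
    Topology.IsInducing.matrix_map hi
  exact Topology.IsInducing.units_map hm

theorem glMap_injective276 {k k' : Type} [Field k] [Field k'] (i : k →+* k') :
    Function.Injective (Matrix.GeneralLinearGroup.map (n := Fin 2) i) := by
  intro a b hab
  apply Units.ext
  ext p q
  have h := congrArg (fun g : GL (Fin 2) k' => (g : Matrix (Fin 2) (Fin 2) k') p q) hab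
  simp only [Matrix.GeneralLinearGroup.map_apply] at h
  exact i.injective h

/-- **LEAF UI.2 `InertTorC341`**, VERBATIM. -/
theorem inertTorC276 : Fermat.Agent.LT.T7.UD341.InertTorC341 := by
  intro hTC k k' _ _ _ _ l e i s hext δ γ hγ hN μt hμt
  classical
  set f : GL (Fin 2) k →* GL (Fin 2) k' := Matrix.GeneralLinearGroup.map i with hf
  have hfind : Topology.IsInducing f :=
    isInducing_glMap276 i (isInducing_of_val_pow276 e i hext.e_pos hext.val_i)
  have hfinj : Function.Injective f := glMap_injective276 i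
  have hchar := hTC k k' l i s hext.cyc δ γ hγ hN
  -- membership in the centraliser downstairs
  have hT : ∀ t : GL (Fin 2) k,
      t ∈ T6.twCentSub (T6.glAut (RingEquiv.refl k)) γ ↔ t * γ = γ * t := by
    intro t
    have h1 : T6.glAut (RingEquiv.refl k) t = t := by
      apply Units.ext
      ext p q
      simp [T6.glAut]
    show t⁻¹ * γ * T6.glAut (RingEquiv.refl k) t = γ ↔ _
    rw [h1]
    constructor
    · intro h
      calc t * γ = t * (t⁻¹ * γ * t) := by rw [h]
        _ = γ * t := by group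
    · intro h
      calc t⁻¹ * γ * t = t⁻¹ * (γ * t) := by group
        _ = t⁻¹ * (t * γ) := by rw [h]
        _ = γ := by group
  have hmaps : ∀ t : T6.twCentSub (T6.glAut (RingEquiv.refl k)) γ,
      f (t : GL (Fin 2) k) ∈ T6.twCentSub (T6.glAut s) δ := by
    intro t
    exact (hchar _).2 ⟨t, (hT _).1 t.2, rfl⟩
  -- the isomorphism
  let g : T6.twCentSub (T6.glAut (RingEquiv.refl k)) γ →* T6.twCentSub (T6.glAut s) δ :=
    (f.comp (Subgroup.subtype _)).codRestrict _ hmaps
  have hgval : ∀ t, ((g t : T6.twCentSub (T6.glAut s) δ) : GL (Fin 2) k') = f t := fun _ => rfl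
  have hgbij : Function.Bijective g := by
    constructor
    · intro a b hab
      have h := congrArg (fun u : T6.twCentSub (T6.glAut s) δ => (u : GL (Fin 2) k')) hab
      exact Subtype.ext (hfinj h)
    · intro x
      obtain ⟨t, ht, hx⟩ := (hchar x).1 x.2
      exact ⟨⟨t, (hT t).2 ht⟩, Subtype.ext hx.symm⟩
  let ge : T6.twCentSub (T6.glAut (RingEquiv.refl k)) γ ≃* T6.twCentSub (T6.glAut s) δ :=
    MulEquiv.ofBijective g hgbij
  have hgc : Continuous g :=
    (hfind.continuous.comp continuous_subtype_val).subtype_mk _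
  have hgind : Topology.IsInducing g := by
    refine Topology.IsInducing.of_comp hgc continuous_subtype_val ?_
    exact hfind.comp Topology.IsInducing.subtypeVal
  have hgec : Continuous ge := hgc
  have hges : Continuous ge.symm := by
    rw [hgind.continuous_iff]
    have : (g ∘ ge.symm) = _root_.id := by
      funext x
      exact ge.apply_symm_apply x
    rw [this]
    exact continuous_id
  -- measurable structures
  letI : MeasurableSpace (T6.twCentSub (T6.glAut (RingEquiv.refl k)) γ) := borel _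
  haveI : BorelSpace (T6.twCentSub (T6.glAut (RingEquiv.refl k)) γ) := ⟨rfl⟩
  letI : MeasurableSpace (T6.twCentSub (T6.glAut s) δ) := borel _
  haveI : BorelSpace (T6.twCentSub (T6.glAut s) δ) := ⟨rfl⟩
  obtain ⟨hhaar, hnorm⟩ := hμt
  haveI : μt.IsHaarMeasure := hhaar
  let hom : T6.twCentSub (T6.glAut (RingEquiv.refl k)) γ ≃ₜ T6.twCentSub (T6.glAut s) δ :=
    { ge.toEquiv with continuous_toFun := hgec, continuous_invFun := hges }
  let me := hom.toMeasurableEquiv
  have hme : ∀ t, me t = g t := fun _ => rfl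
  have hmap : ∀ A : Set (T6.twCentSub (T6.glAut s) δ),
      (Measure.map g μt) A = μt (g ⁻¹' A) := by
    intro A
    exact MeasurableEquiv.map_apply me A
  refine ⟨Measure.map g μt, ⟨?_, ?_⟩, ?_⟩
  · exact MulEquiv.isHaarMeasure_map μt ge hgec hges
  · rw [hmap]
    rw [← hnorm]
    congr 1
    ext t
    simp only [Set.mem_preimage, Set.mem_ofPred_eq]
    have htr : ((f (t : GL (Fin 2) k) : GL (Fin 2) k') : Matrix (Fin 2) (Fin 2) k').trace
        = i ((t : GL (Fin 2) k) : Matrix (Fin 2) (Fin 2) k).trace := by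
      rw [Matrix.trace_fin_two, Matrix.trace_fin_two, hf]
      simp only [Matrix.GeneralLinearGroup.map_apply, map_add]
    have hdet : ((f (t : GL (Fin 2) k) : GL (Fin 2) k') : Matrix (Fin 2) (Fin 2) k').det
        = i ((t : GL (Fin 2) k) : Matrix (Fin 2) (Fin 2) k).det := by
      rw [Matrix.det_fin_two, Matrix.det_fin_two, hf]
      simp only [Matrix.GeneralLinearGroup.map_apply, map_sub, map_mul]
    rw [hgval, htr, hdet, hext.val_i, hext.val_i,
      pow_le_one_iff_of_nonneg zero_le hext.e_pos.ne',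
      pow_eq_one_iff_of_nonneg zero_le hext.e_pos.ne']
  · intro A _
    rw [hmap]
    rfl

end Fermat.Agent.LT.T7.H276

end

end
-- ===== PACK-END LT/T7/H276/InertTor.lean

-- ===== PACK-BEGIN LT/T7/H341/UpInertTop.lean
section



/-!
# Row LT, tower T7, node UD.1 `UD341.UpInertC341` (helper341, registry 2780): THE TOP

OFF-MAIN.  PROVED, nothing assumed.

    upInertC_of341 : LocMeasC305 → LocCutC305 → SigmaLocC305 (K := K') →
      InertExtC341 K K' → InertTorC341 → UpInertC341 K K'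
-/

set_option autoImplicit false
set_option linter.unusedSectionVars false
set_option linter.unusedVariables false

open AutomorphicForm IsDedekindDomain NumberField MeasureTheory
open scoped ComplexConjugate

noncomputable section

namespace Fermat.Agent.LT.T7.UD341

open Fermat.Agent.LT.H556 Fermat.Agent.LT.H556.A0 Fermat.Agent.LT.T7 Fermat.Agent.LT.T7.H305
open Fermat.Agent.LT.T7.H340

attribute [local instance] Fermat.Agent.LT.T5.instMeasurableSpaceG

/-! ## 1. `GL₂` of ring homomorphisms -/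

section Alg

variable {R S T : Type} [CommRing R] [CommRing S] [CommRing T]

/-- `GL₂(g ∘ f) = GL₂(g) ∘ GL₂(f)`, pointwise. -/
theorem glMap_glMap341 (f : R →+* S) (g : S →+* T) (x : GL (Fin 2) R) :
    Matrix.GeneralLinearGroup.map g (Matrix.GeneralLinearGroup.map f x)
      = Matrix.GeneralLinearGroup.map (g.comp f) x := by
  apply Units.ext
  ext a b
  rfl

/-- Two ring homomorphisms which agree pointwise give the same map on `GL₂`. -/
theorem glMap_congr341 {f g : R →+* S} (h : ∀ x, f x = g x) (x : GL (Fin 2) R) :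
    Matrix.GeneralLinearGroup.map f x = Matrix.GeneralLinearGroup.map g x := by
  have : f = g := RingHom.ext h
  rw [this]

/-- The trace of `GL₂(f)(x)`. -/
theorem trace_glMap341 (f : R →+* S) (x : GL (Fin 2) R) :
    ((Matrix.GeneralLinearGroup.map f x : GL (Fin 2) S) : Matrix (Fin 2) (Fin 2) S).trace
      = f ((x : Matrix (Fin 2) (Fin 2) R).trace) := by
  rw [Matrix.trace_fin_two, Matrix.trace_fin_two, map_add]
  rfl

/-- The determinant of `GL₂(f)(x)`. -/
theorem det_glMap341 (f : R →+* S) (x : GL (Fin 2) R) :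
    ((Matrix.GeneralLinearGroup.map f x : GL (Fin 2) S) : Matrix (Fin 2) (Fin 2) S).det
      = f ((x : Matrix (Fin 2) (Fin 2) R).det) := by
  rw [Matrix.det_fin_two, Matrix.det_fin_two, map_sub, map_mul, map_mul]
  rfl

/-- The discriminant of `GL₂(f)(x)`. -/
theorem disc_glMap341 (f : R →+* S) (x : GL (Fin 2) R) :
    T6.disc (Matrix.GeneralLinearGroup.map f x) = f (T6.disc x) := by
  show _ ^ 2 - 4 * _ = f (_ ^ 2 - 4 * _)
  rw [trace_glMap341, det_glMap341, map_sub, map_mul, map_pow]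
  congr 2
  exact (map_ofNat f 4).symm

/-- `GL₂(f)` preserves regular elements. -/
theorem isReg_glMap341 (f : R →+* S) {x : GL (Fin 2) R} (hx : T6.IsReg x) :
    T6.IsReg (Matrix.GeneralLinearGroup.map f x) := by
  show IsUnit (T6.disc _)
  rw [disc_glMap341]
  exact hx.map f

end Alg

/-! ## 2. The norm relation at the place -/

section Norm

variable {K' : Type} [Field K'] [NumberField K']

/-- `(N δ)_w = N_{s_w}(δ_w)` for a local automorphism `s_w` over `σ`. -/
theorem locG_normUpTo341 (s : T5.AdelicAut K') (w : HeightOneSpectrum (𝓞 K'))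
    (sw : w.adicCompletion K' ≃+* w.adicCompletion K')
    (hrs : ∀ y : K', sw (algebraMap K' (w.adicCompletion K') y)
      = algebraMap K' (w.adicCompletion K') (s.σ y)) (δ : GL (Fin 2) K') (n : ℕ) :
    locG305 w (s.normUpTo n δ) = T6.twNorm sw n (locG305 w δ) := by
  induction n with
  | zero =>
    show locG305 w 1 = 1
    exact map_one _
  | succ n ih =>
    show locG305 w (δ * s.onRat (s.normUpTo n δ))
      = locG305 w δ * T6.glAut sw (T6.twN (T6.glAut sw) n (locG305 w δ))
    rw [map_mul]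
    congr 1
    have ih' : T6.twN (T6.glAut sw) n (locG305 w δ) = locG305 w (s.normUpTo n δ) := ih.symm
    rw [ih']
    show Matrix.GeneralLinearGroup.map (algebraMap K' (w.adicCompletion K'))
        (Matrix.GeneralLinearGroup.map (s.σ : K' →+* K') (s.normUpTo n δ))
      = Matrix.GeneralLinearGroup.map (sw : w.adicCompletion K' →+* w.adicCompletion K')
        (Matrix.GeneralLinearGroup.map (algebraMap K' (w.adicCompletion K')) (s.normUpTo n δ))
    rw [glMap_glMap341, glMap_glMap341]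
    exact glMap_congr341 (fun y => (hrs y).symm) _

end Norm

/-! ## 3. The top -/

variable (K K' : Type) [Field K] [NumberField K] [Field K'] [NumberField K'] [Algebra K K']

/-- **THE TOP of the cut of `UpInertC341`.** -/
theorem upInertC_of341 (hM : LocMeasC305) (hC : LocCutC305) (hS : SigmaLocC305 (K := K'))
    (hE : InertExtC341 K K') (hT : InertTorC341) : UpInertC341 K K' := by
  intro hT6 D hD hcyc ι hι n m δ γ hγ hN L hL v w hvw huniq
  have hTw : T6.TwCentC := hT6.2.2.1
  have hIL : T6.InstLocalC := hT6.2.2.2.2.2.1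
  have hIE : T6.InstExtC := hT6.2.2.2.2.2.2.1
  obtain ⟨e, i, sw, hri, hrs, hext, hsig, hiot⟩ := hE hIE hS D hD hcyc ι hι v w hvw huniq
  -- the norm relation
  have hnorm : T6.twNorm sw D.l (locG305 w δ)
      = Matrix.GeneralLinearGroup.map i (locG305 v γ) := by
    rw [← locG_normUpTo341 D.s w sw hrs δ D.l, hN]
    show Matrix.GeneralLinearGroup.map (algebraMap K' (w.adicCompletion K'))
        (Matrix.GeneralLinearGroup.map (algebraMap K K') γ)
      = Matrix.GeneralLinearGroup.map i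
        (Matrix.GeneralLinearGroup.map (algebraMap K (v.adicCompletion K)) γ)
    rw [glMap_glMap341, glMap_glMap341]
    exact glMap_congr341 (fun x => (hri x).symm) _
  have hreg : T6.IsReg (locG305 v γ) := isReg_glMap341 _ hγ.1
  have hreg' : T6.IsReg (T6.twNorm sw D.l (locG305 w δ)) := by
    rw [hnorm]
    exact isReg_glMap341 _ hreg
  -- the torus measure
  obtain ⟨μt', htor, hlink⟩ := hT hTw (v.adicCompletion K) (w.adicCompletion K') D.l e i sw hext
    (locG305 w δ) (locG305 v γ) hreg hnorm (L.μt v) (hL.tor v)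
  -- the Haar measure and the cut-off
  have hlf : T6.IsLocalField (w.adicCompletion K') (Ideal.absNorm w.asIdeal) := hIL K' w
  obtain ⟨μ', hμ'⟩ := (hM (w.adicCompletion K') (Ideal.absNorm w.asIdeal) hlf).1 (n w)
  obtain ⟨β', hβ'⟩ := hC (w.adicCompletion K') (Ideal.absNorm w.asIdeal) hlf D.l sw hext.val_s
    hext.cyc.pos hext.cyc.order (locG305 w δ) hreg' μt' htor.1
  exact ⟨⟨w, e, i, sw, μ', μt', β'⟩, rfl,
    ⟨hvw, huniq, hri, hrs, hext, hμ', htor, hβ', hsig, hiot, hlink⟩⟩

end Fermat.Agent.LT.T7.UD341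

end

end
-- ===== PACK-END LT/T7/H341/UpInertTop.lean

-- ===== PACK-BEGIN LT/T7/H913/CutOnOutUpQ.lean
section











/-!
# Row LT, tower T7, node `H1U.CutOnUpQC` (registry row 2786, owner helper913):
# the node CU.2 `CutOnOutUpQC913` PROVED from closed assets

OFF-MAIN.  ADDITIVE (new names only, suffix `913`).  Nothing assumed beyond the named hypotheses,
which are CLOSED leaves of the downstairs cut (helper558 / helper751):

    cutOnOutUpQC_of913 : H558.HaarSigmaC558 ℚ → H751.HaarSigmaRC751 → H558.CompContC558 ℚ →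
        H558.CompContC558 F → H751.ReContQC751 → CutOnOutUpQC913 F                   (VERBATIM)

Proof (port of helper269 `cutOnOutUpC269`, the cubic mirror).  (1) `IsTorLinked305`: the integral
over `T_𝔸(δ)` is the integral over `T_𝔸(γ)` of `t ↦ prodCutUpQ (GL₂(ι)(t) x')`.  (2)
`GL₂(ι)(t) x' ∈ Out_{S'} ⟺ t ∈ Out_S`.  (3) For `t ∈ Out_S` the integrand is
`c_T⁻¹ ∏_{v ∈ S} a_v(t_v) · b(t_∞)`; (4) the abstract Fubini computation of helper385
(`integral_cut_absQ385`) with `IsTorConstQ298`; the local integrals are `1`: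

* inert `v` (`IsInertAtQ`): the local maps of `ι` and of the datum agree (helper1
  `eq_of_val_of_rat_H1G`); the normalised Haar measure `μt'` of the twisted centraliser of `δ_w`
  is the image of `L.μt v` (`inertLink913`: helper276 `inertTorC276` gives SOME normalised Haar
  measure which is the image; normalised Haar measures of the twisted centraliser are unique,
  `locTor_unique913`: the group is locally compact and second countable); `IsLocCut305` upstairs;
* split `v` (`IsSplitAtQ`): `bet_v(y_{w0}) = L.βv v (i_0⁻¹ y_{w 0})` (the clause of the datum,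
  applied at the points `GL₂(ι)(t) x'`), `IsLocCut305` downstairs;
* infinity (`IsArchAtQ`): `(ι t)_∞ = (t_∞)_ℂ` (the place of `ℚ` is real: `conj` is trivial), the
  normalisation clause of the datum.
-/

set_option autoImplicit false
set_option linter.style.haveILetI false
set_option linter.unusedSectionVars false
set_option linter.unusedVariables false

open AutomorphicForm IsDedekindDomain NumberField MeasureTheory
open scoped ComplexConjugate

noncomputable section

namespace Fermat.Agent.LT.T7.H913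

open Fermat.Agent.LT Fermat.Agent.LT.H556 Fermat.Agent.LT.H556.A0 Fermat.Agent.LT.T7
open Fermat.Agent.LT.T7.H305 Fermat.Agent.LT.T7.MQ298 Fermat.Agent.LT.T7.H1U

attribute [local instance] Fermat.Agent.LT.T5.instMeasurableSpaceG

/-! ## 1. Normalised Haar measures of the twisted centraliser are unique -/

/-- Two normalised Haar measures of the twisted centraliser (completion of a number field at a
finite place) are equal. -/
theorem locTor_unique913 {K' : Type} [Field K'] [NumberField K'] (w : HeightOneSpectrum (𝓞 K'))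
    {q : ℕ} (h : T6.IsLocalField (w.adicCompletion K') q)
    (sw : w.adicCompletion K' ≃+* w.adicCompletion K')
    (hs : ∀ y : w.adicCompletion K', Valued.v (sw y) = Valued.v y)
    (δ : GL (Fin 2) (w.adicCompletion K'))
    (μ₁ μ₂ : @Measure (T6.twCentSub (T6.glAut sw) δ) (borel _))
    (h₁ : IsLocTor305 sw δ μ₁) (h₂ : IsLocTor305 sw δ μ₂) : μ₁ = μ₂ := by
  letI : MeasurableSpace (T6.twCentSub (T6.glAut sw) δ) := borel _
  haveI : BorelSpace (T6.twCentSub (T6.glAut sw) δ) := ⟨rfl⟩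
  haveI : LocallyCompactSpace (GL (Fin 2) (w.adicCompletion K')) :=
    T6.H420.locallyCompactSpace_GL h
  haveI : SecondCountableTopology (GL (Fin 2) (w.adicCompletion K')) :=
    H159.secondCountable_GLv159 K' w
  have hcl := H543C.isClosed_twCent543 h sw hs δ
  haveI : LocallyCompactSpace (T6.twCentSub (T6.glAut sw) δ) :=
    hcl.isClosedEmbedding_subtypeVal.locallyCompactSpace
  haveI : SecondCountableTopology (T6.twCentSub (T6.glAut sw) δ) :=
    Topology.IsInducing.subtypeVal.secondCountableTopology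
  haveI : μ₁.IsHaarMeasure := h₁.1
  haveI : μ₂.IsHaarMeasure := h₂.1
  have e := Measure.isMulLeftInvariant_eq_smul μ₁ μ₂
  have hc : Measure.haarScalarFactor μ₁ μ₂ = 1 := by
    have e1 := h₁.2
    rw [e, Measure.smul_apply, h₂.2] at e1
    have e2 : ((Measure.haarScalarFactor μ₁ μ₂ : NNReal) : ENNReal) = 1 := by
      rw [ENNReal.smul_def, smul_eq_mul, mul_one] at e1
      exact e1
    exact_mod_cast e2
  rw [e, hc, one_smul]

/-! ## 2. The link of the local torus measures at a place with one place over it -/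

/-- The normalised Haar measure of the twisted centraliser of `δ` is the image of the normalised
Haar measure of the centraliser of `γ`, `N δ = i(γ)` regular. -/
theorem inertLink913 {K K' : Type} [Field K] [NumberField K] [Field K'] [NumberField K']
    (hT6 : T6.T6Out) (v : HeightOneSpectrum (𝓞 K)) (w : HeightOneSpectrum (𝓞 K')) (l e : ℕ)
    (i : v.adicCompletion K →+* w.adicCompletion K')
    (sw : w.adicCompletion K' ≃+* w.adicCompletion K')
    (hext : T6.IsLocalExt (v.adicCompletion K) (w.adicCompletion K') l e i sw)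
    (δ : GL (Fin 2) (w.adicCompletion K')) (γ : GL (Fin 2) (v.adicCompletion K))
    (hγ : T6.IsReg γ) (hN : T6.twNorm sw l δ = Matrix.GeneralLinearGroup.map i γ)
    (μt : @Measure (T6.twCentSub (T6.glAut (RingEquiv.refl (v.adicCompletion K))) γ) (borel _))
    (μt' : @Measure (T6.twCentSub (T6.glAut sw) δ) (borel _))
    (hμt : IsLocTor305 (RingEquiv.refl (v.adicCompletion K)) γ μt)
    (hμt' : IsLocTor305 sw δ μt')
    (A : Set (GL (Fin 2) (w.adicCompletion K'))) (hA : @MeasurableSet _ (borel _) A) :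
    μt' {t | (t : GL (Fin 2) (w.adicCompletion K')) ∈ A}
      = μt {t | Matrix.GeneralLinearGroup.map i (t : GL (Fin 2) (v.adicCompletion K)) ∈ A} := by
  have hTw : T6.TwCentC := hT6.2.2.1
  have hIL : T6.InstLocalC := hT6.2.2.2.2.2.1
  have hlf : T6.IsLocalField (w.adicCompletion K') (Ideal.absNorm w.asIdeal) := hIL K' w
  obtain ⟨μt'', htor, hlink⟩ := H276.inertTorC276 hTw (v.adicCompletion K) (w.adicCompletion K')
    l e i sw hext δ γ hγ hN μt hμt
  have hu := locTor_unique913 w hlf sw hext.val_s δ μt' μt'' hμt' htor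
  rw [hu]
  exact hlink A hA

/-! ## 3. The infinite place -/

/-- The component of `ι x` at an infinite place of `F` is the real component of `x`. -/
theorem infHom_iota913 {F : Type} [Field F] [NumberField F] {s : T5.AdelicAut F} {l : ℕ}
    {ι : Adl ℚ →+* Adl F} (hι : IsAdeleBase305 s l ι) (w' : InfinitePlace F) (x : Adl ℚ) :
    T5.infHom w' (ι x) = algebraMap ℝ ℂ (reHomQ298 x) := by
  have h0 : ∀ v₀ : InfinitePlace ℚ, T5.infHom v₀ x = algebraMap ℝ ℂ (reHomQ298 x) := by
    intro v₀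
    have hv : v₀ = Rat.infinitePlace := Subsingleton.elim _ _
    subst hv
    exact (InfinitePlace.Completion.extensionEmbeddingOfIsReal_apply
      Rat.isReal_infinitePlace _).symm
  rcases hι.inf w' with h | h
  · rw [h, h0]
  · rw [h, h0]
    exact Complex.conj_ofReal _

/-! ## 4. The node -/

/-- **NODE CU.2 `CutOnOutUpQC913`** from closed leaves of the cut downstairs. -/
theorem cutOnOutUpQC_of913 (F : Type) [Field F] [NumberField F]
    (hHS : H558.HaarSigmaC558 ℚ) (hHSR : H751.HaarSigmaRC751)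
    (hCK : H558.CompContC558 ℚ) (hCK' : H558.CompContC558 F) (hRe : H751.ReContQC751) :
    CutOnOutUpQC913 F := by
  intro hT6 hIQ D hD hcyc hl2 ι hι μc hμc T₀ hT₀ n m S S' hTS hOver φ₀ Φ δ γ hell hN hgood hint
    μT μT' hμT hμT' hlink L cT hL hcT hconst U J Jc hU x' hx'
  classical
  letI iT : MeasurableSpace (tA305 (T5.AdelicAut.id ℚ) γ) := borel _
  haveI bT : BorelSpace (tA305 (T5.AdelicAut.id ℚ) γ) := ⟨rfl⟩
  letI iT' : MeasurableSpace (tA305 D.s δ) := borel _
  haveI bT' : BorelSpace (tA305 D.s δ) := ⟨rfl⟩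
  haveI bG' : BorelSpace (G F) := ⟨rfl⟩
  letI iv : ∀ v : HeightOneSpectrum (𝓞 ℚ), MeasurableSpace (GL (Fin 2) (v.adicCompletion ℚ)) :=
    fun _ => borel _
  haveI bv : ∀ v : HeightOneSpectrum (𝓞 ℚ), BorelSpace (GL (Fin 2) (v.adicCompletion ℚ)) :=
    fun _ => ⟨rfl⟩
  letI iw : ∀ w : HeightOneSpectrum (𝓞 F), MeasurableSpace (GL (Fin 2) (w.adicCompletion F)) :=
    fun _ => borel _
  haveI bw : ∀ w : HeightOneSpectrum (𝓞 F), BorelSpace (GL (Fin 2) (w.adicCompletion F)) :=
    fun _ => ⟨rfl⟩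
  letI ic : MeasurableSpace (GL (Fin 2) ℂ) := borel _
  haveI bc : BorelSpace (GL (Fin 2) ℂ) := ⟨rfl⟩
  letI ir : MeasurableSpace (GL (Fin 2) ℝ) := borel _
  haveI br : BorelSpace (GL (Fin 2) ℝ) := ⟨rfl⟩
  letI itv : ∀ v : HeightOneSpectrum (𝓞 ℚ), MeasurableSpace
      (T6.twCentSub (T6.glAut (RingEquiv.refl (v.adicCompletion ℚ))) (locG305 v γ)) :=
    fun _ => borel _
  haveI btv : ∀ v : HeightOneSpectrum (𝓞 ℚ), BorelSpace
      (T6.twCentSub (T6.glAut (RingEquiv.refl (v.adicCompletion ℚ))) (locG305 v γ)) :=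
    fun _ => ⟨rfl⟩
  letI itc : MeasurableSpace (cent305 (reGLQ298 (T5.ratG γ))) := borel _
  haveI btc : BorelSpace (cent305 (reGLQ298 (T5.ratG γ))) := ⟨rfl⟩
  have hιc : Continuous (Matrix.GeneralLinearGroup.map (n := Fin 2) ι) :=
    H269.continuous_glMap_cu269 ι hι.cont
  have hreg : ∀ v : HeightOneSpectrum (𝓞 ℚ), T6.IsReg (locG305 v γ) :=
    fun v => UD341.isReg_glMap341 _ hell.1
  -- the local statements at the places of `S`
  have hloc : ∀ v ∈ S, (Continuous fun y : G F => U.bet v (finGL305 (U.w0 v) y)) ∧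
      ∃ a : GL (Fin 2) (v.adicCompletion ℚ) → ℝ, Measurable a ∧
        (∫ y, a y ∂(Measure.map Subtype.val (L.μt v))) = 1 ∧
        ∀ t : G ℚ, U.bet v (finGL305 (U.w0 v) (Matrix.GeneralLinearGroup.map ι t * x'))
          = a (finGL305 v t) := by
    intro v hv
    rcases hU.1 v hv with hin | hsp
    · -- ONE place over `v`
      obtain ⟨e, i, sw, μ', μt', hvw, huniq, hri, hrs, hext, hμ', htor, hcut, hJ⟩ := hin
      obtain ⟨e', i', he', hri', hval', hio'⟩ := hι.fin v (U.w0 v) hvw
      have hii : ∀ c, i' c = i c :=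
        H1G.eq_of_val_of_rat_H1G v i' i e' e he' hext.e_pos hval' hext.val_i
          (fun y => by rw [hri', hri])
      have hci : Continuous (Matrix.GeneralLinearGroup.map (n := Fin 2) i) :=
        H269.continuous_glMap_cu269 _
          (H269.continuous_of_val_cu269 _ e hext.e_pos hext.val_i)
      have hnorm : T6.twNorm sw D.l (locG305 (U.w0 v) δ)
          = Matrix.GeneralLinearGroup.map i (locG305 v γ) := by
        rw [← UD341.locG_normUpTo341 D.s (U.w0 v) sw hrs δ D.l, hN]
        show Matrix.GeneralLinearGroup.map (algebraMap F ((U.w0 v).adicCompletion F))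
            (Matrix.GeneralLinearGroup.map (algebraMap ℚ F) γ)
          = Matrix.GeneralLinearGroup.map i
            (Matrix.GeneralLinearGroup.map (algebraMap ℚ (v.adicCompletion ℚ)) γ)
        rw [UD341.glMap_glMap341, UD341.glMap_glMap341]
        exact UD341.glMap_congr341 (fun x => (hri x).symm) _
      have hm : Measurable (fun y : GL (Fin 2) (v.adicCompletion ℚ) =>
          U.bet v (Matrix.GeneralLinearGroup.map i y * finGL305 (U.w0 v) x')) :=
        (hcut.1.comp (hci.mul continuous_const)).measurable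
      refine ⟨hcut.1.comp (hCK'.1 _), fun y =>
        U.bet v (Matrix.GeneralLinearGroup.map i y * finGL305 (U.w0 v) x'), hm, ?_, ?_⟩
      · rw [integral_map continuous_subtype_val.measurable.aemeasurable hm.aestronglyMeasurable]
        letI iT'w : MeasurableSpace (T6.twCentSub (T6.glAut sw) (locG305 (U.w0 v) δ)) :=
          borel _
        haveI bT'w : BorelSpace (T6.twCentSub (T6.glAut sw) (locG305 (U.w0 v) δ)) := ⟨rfl⟩
        have hl := H269.integral_link_cu269 (L.μt v) μt'
          (fun t => Matrix.GeneralLinearGroup.map i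
            (t : GL (Fin 2) (v.adicCompletion ℚ)))
          (fun t => (t : GL (Fin 2) ((U.w0 v).adicCompletion F)))
          (hci.comp continuous_subtype_val).measurable
          continuous_subtype_val.measurable
          (fun A hA => inertLink913 hT6 v (U.w0 v) D.l e i sw hext _ _ (hreg v) hnorm
            (L.μt v) μt' (hL.tor v) htor A hA)
          (fun y => U.bet v (y * finGL305 (U.w0 v) x'))
          (hcut.1.comp (continuous_mul_const _)).measurable
        rw [← hl]
        exact hcut.2.2 _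
      · intro t
        have h1 : finGL305 (U.w0 v) (Matrix.GeneralLinearGroup.map ι t)
            = Matrix.GeneralLinearGroup.map i (finGL305 v t) :=
          H269.glMap_comm_cu269 _ _ _ _ (fun x => by rw [hio', hii]) t
        rw [map_mul, h1]
    · -- `v` splits
      obtain ⟨hl, w, i, hw0, hlev, hβ, hpo, hrel, hne, hri, hval, hJ⟩ := hsp
      obtain ⟨e', i', he', hri', hval', hio'⟩ := hι.fin v (w 0) (hpo 0)
      have hii : ∀ c, i' c
          = ((i 0 : v.adicCompletion ℚ ≃+* (w 0).adicCompletion F) :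
              v.adicCompletion ℚ →+* (w 0).adicCompletion F) c :=
        H1G.eq_of_val_of_rat_H1G v i'
          ((i 0 : v.adicCompletion ℚ ≃+* (w 0).adicCompletion F) :
              v.adicCompletion ℚ →+* (w 0).adicCompletion F) e' 1 he' one_pos hval'
          (fun c => by rw [pow_one]; exact hval 0 c)
          (fun y => by rw [hri']; exact (hri 0 y).symm)
      have hcs : Continuous (Matrix.GeneralLinearGroup.map (n := Fin 2)
          (((i 0).symm : (w 0).adicCompletion F ≃+* _) :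
            (w 0).adicCompletion F →+* v.adicCompletion ℚ)) := by
        refine H269.continuous_glMap_cu269 _
          (H269.continuous_of_val_cu269 _ 1 one_pos fun y => ?_)
        have h := hval 0 ((i 0).symm y)
        rw [RingEquiv.apply_symm_apply] at h
        rw [pow_one]
        exact h.symm
      have hm : Measurable (fun y : GL (Fin 2) (v.adicCompletion ℚ) =>
          L.βv v (y * Matrix.GeneralLinearGroup.map
            (((i 0).symm : (w 0).adicCompletion F ≃+* _) :
              (w 0).adicCompletion F →+* v.adicCompletion ℚ) (finGL305 (w 0) x'))) :=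
        ((hL.cut v).1.comp (continuous_mul_const _)).measurable
      refine ⟨?_, fun y => L.βv v (y * Matrix.GeneralLinearGroup.map
            (((i 0).symm : (w 0).adicCompletion F ≃+* _) :
              (w 0).adicCompletion F →+* v.adicCompletion ℚ) (finGL305 (w 0) x')), hm, ?_, ?_⟩
      · have e : (fun y : G F => U.bet v (finGL305 (U.w0 v) y))
            = fun y => L.βv v (Matrix.GeneralLinearGroup.map
              (((i 0).symm : (w 0).adicCompletion F ≃+* _) :
                (w 0).adicCompletion F →+* v.adicCompletion ℚ) (finGL305 (w 0) y)) :=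
          funext hβ
        rw [e]
        exact (hL.cut v).1.comp (hcs.comp (hCK'.1 _))
      · rw [integral_map continuous_subtype_val.measurable.aemeasurable hm.aestronglyMeasurable]
        exact (hL.cut v).2.2 _
      · intro t
        have h1 : finGL305 (w 0) (Matrix.GeneralLinearGroup.map ι t)
            = Matrix.GeneralLinearGroup.map
              ((i 0 : v.adicCompletion ℚ ≃+* (w 0).adicCompletion F) :
                v.adicCompletion ℚ →+* (w 0).adicCompletion F) (finGL305 v t) :=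
          H269.glMap_comm_cu269 _ _ _ _ (fun x => by rw [hio', hii]) t
        rw [hβ, map_mul, map_mul, h1]
        congr 2
        exact H269.glMap_cancel_cu269 _ _ (fun x => RingEquiv.symm_apply_apply _ x) _
  -- the infinite place
  obtain ⟨hβc, hβc0, hβc1, -⟩ := hU.2
  have hca : Continuous (Matrix.GeneralLinearGroup.map (n := Fin 2) (algebraMap ℝ ℂ)) :=
    H269.continuous_glMap_cu269 _ Complex.continuous_ofReal
  have eA : ∀ t : G ℚ, infGL305 U.winf (Matrix.GeneralLinearGroup.map ι t * x')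
      = Matrix.GeneralLinearGroup.map (algebraMap ℝ ℂ) (reGLQ298 t) * infGL305 U.winf x' := by
    intro t
    rw [map_mul]
    congr 1
    exact H269.glMap_comm_cu269 _ _ _ _ (fun x => infHom_iota913 hι U.winf x) t
  obtain ⟨b, hb_def⟩ : ∃ b : GL (Fin 2) ℝ → ℝ, ∀ y, b y =
      U.βc (Matrix.GeneralLinearGroup.map (algebraMap ℝ ℂ) y * infGL305 U.winf x') :=
    ⟨_, fun _ => rfl⟩
  have hb : Measurable b := by
    have e : b = fun y => U.βc (Matrix.GeneralLinearGroup.map (algebraMap ℝ ℂ) y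
        * infGL305 U.winf x') := funext hb_def
    rw [e]
    exact (hβc.comp (hca.mul continuous_const)).measurable
  have hb1 : ∫ y, b y ∂(Measure.map Subtype.val L.μtr) = 1 := by
    rw [integral_map continuous_subtype_val.measurable.aemeasurable hb.aestronglyMeasurable]
    simp only [hb_def]
    exact hβc1 _
  -- Step 1: the function `y ↦ prodCutUpQ (y x')` is Borel
  have hgm : Measurable (fun y : G F => prodCutUpQ S' S cT U (y * x')) := by
    have hOm : MeasurableSet {y : G F | OutT305 S' (y * x')} :=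
      ((H942.isOpen_integralOutside942 S').preimage (continuous_mul_const x')).measurableSet
    unfold prodCutUpQ
    refine Measurable.ite hOm ?_ measurable_const
    refine (measurable_const.mul ?_).mul ?_
    · exact Finset.measurable_prod _ fun v hv =>
        ((hloc v hv).1.comp (continuous_mul_const x')).measurable
    · exact (hβc.comp ((hCK'.2 _).comp (continuous_mul_const x'))).measurable
  -- Step 2: transport to `T_𝔸(γ)`
  have hstep1 : (∫ t : tA305 D.s δ, prodCutUpQ S' S cT U ((t : G F) * x') ∂μT')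
      = ∫ t : tA305 (T5.AdelicAut.id ℚ) γ,
          prodCutUpQ S' S cT U (Matrix.GeneralLinearGroup.map ι (t : G ℚ) * x') ∂μT :=
    H269.integral_link_cu269 μT μT' (fun t => Matrix.GeneralLinearGroup.map ι (t : G ℚ))
      (fun t => (t : G F)) (hιc.comp continuous_subtype_val).measurable
      continuous_subtype_val.measurable (fun A hA => hlink A hA)
      (fun y : G F => prodCutUpQ S' S cT U (y * x')) hgm
  rw [hstep1]
  -- Step 3: the abstract computation downstairs
  have hmap := hconst S hgood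
  have hAm : MeasurableSet {t : tA305 (T5.AdelicAut.id ℚ) γ | OutT305 S (t : G ℚ)} :=
    ((H942.isOpen_integralOutside942 S).preimage continuous_subtype_val).measurableSet
  haveI sν : ∀ i : S, SigmaFinite (Measure.map Subtype.val (L.μt i.1)) :=
    fun i => hHS.2.2.1 i.1 (locG305 i.1 γ) (L.μt i.1) (hL.tor i.1).1
  haveI sρ : SigmaFinite (Measure.map Subtype.val L.μtr) :=
    hHSR.2 (reGLQ298 (T5.ratG γ)) L.μtr hL.torr
  have hφ : Measurable
      (fun t : tA305 (T5.AdelicAut.id ℚ) γ => compSQ298 S (t : G ℚ)) := by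
    refine Measurable.prodMk ?_ ?_
    · exact measurable_pi_lambda _ fun i =>
        ((hCK.1 i.1).comp continuous_subtype_val).measurable
    · exact (hRe.comp continuous_subtype_val).measurable
  have hloc' : ∀ i : S, ∃ a : GL (Fin 2) (i.1.adicCompletion ℚ) → ℝ, Measurable a ∧
      (∫ y, a y ∂(Measure.map Subtype.val (L.μt i.1))) = 1 ∧
      ∀ t : G ℚ, U.bet i.1 (finGL305 (U.w0 i.1) (Matrix.GeneralLinearGroup.map ι t * x'))
        = a (finGL305 i.1 t) := fun i => (hloc i.1 i.2).2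
  choose a ha_m ha_1 ha_pt using hloc'
  have key := H385.integral_cut_absQ385 (Y := fun i : S => GL (Fin 2) (i.1.adicCompletion ℚ))
    (Z := GL (Fin 2) ℝ) μT _ hAm _ hφ
    (fun i : S => Measure.map Subtype.val (L.μt i.1)) (Measure.map Subtype.val L.μtr)
    cT hcT hmap a b ha_m hb ha_1 hb1
  rw [← key]
  congr 1
  funext t
  unfold prodCutUpQ
  by_cases ht : OutT305 S (t : G ℚ)
  · have ht' : OutT305 S' (Matrix.GeneralLinearGroup.map ι (t : G ℚ) * x') :=
      (H385.outT_mul_iff385 hx').2 ((H269.outT_map_iff_cu269 hι hOver _).2 ht)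
    rw [if_pos ht', if_pos (show t ∈ {t : tA305 (T5.AdelicAut.id ℚ) γ |
      OutT305 S (t : G ℚ)} from ht)]
    have hprod : (∏ v ∈ S, U.bet v (finGL305 (U.w0 v)
          (Matrix.GeneralLinearGroup.map ι (t : G ℚ) * x')))
        = ∏ i : S, a i ((compSQ298 S (t : G ℚ)).1 i) := by
      rw [← Finset.prod_coe_sort S (fun v => U.bet v (finGL305 (U.w0 v)
          (Matrix.GeneralLinearGroup.map ι (t : G ℚ) * x')))]
      exact Finset.prod_congr rfl fun i _ => ha_pt i _
    rw [hprod, eA, hb_def]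
    rfl
  · have ht' : ¬ OutT305 S' (Matrix.GeneralLinearGroup.map ι (t : G ℚ) * x') :=
      fun h => ht ((H269.outT_map_iff_cu269 hι hOver _).1 ((H385.outT_mul_iff385 hx').1 h))
    rw [if_neg ht', if_neg (show ¬ t ∈ {t : tA305 (T5.AdelicAut.id ℚ) γ |
      OutT305 S (t : G ℚ)} from ht)]

end Fermat.Agent.LT.T7.H913

end

end
-- ===== PACK-END LT/T7/H913/CutOnOutUpQ.lean

-- ===== PACK-BEGIN LT/T7/H379/SuppUp.lean
section





/-!
# Row LT, tower T7, node `UpFactC340`, LEAF UF.A2 `SuppUpC340` (cut of helper340, registry row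
# 2746, helper379): PROVED, VERBATIM

OFF-MAIN.  No hole, nothing assumed.  ADDITIVE (suffix `379`).

    suppUpC379 K K' : H340.SuppUpC340 K K'

Statement of `T7/H340/UpFactSpec.lean` (helper340@4a08d18e4, sha256 04981afb): if `N δ = γ` is
good outside `S`, `δ` is integral outside `S'`, the places outside `S` are unramified and
`x⁻¹ δ σ(x)` is in `GL₂(𝒪_w)` for `w ∉ S'`, then `x = t x'` with `t ∈ T_𝔸(δ)` and
`x'_w ∈ GL₂(𝒪_w)` for `w ∉ S'`.

## Proof

* INDUCTION on a finite set `B` of places of `K` containing the places under the non-integral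
  places of `x` (`suppUp_aux379`, as helper941 `suppDown_aux941`); at `v₀ ∈ B \ S` the LOCAL STEP
  `localStep379`: there is `t₀ ∈ T_𝔸(δ)`, trivial outside the places over `v₀`, with
  `(t₀⁻¹ x)_w ∈ GL₂(𝒪_w)` for all `w ∣ v₀`.
* LOCAL STEP, `σ w₀ = w₀` (`localStep_inert379`): `w₀` is the only place over `v₀` (the Galois
  group is generated by `σ` and permutes the places over `v₀` transitively: helper453
  `exists_gen453`, `exists_iterate_eq453`); `T6.InstExtC` gives the local extension datum, `e = 1`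
  (helper388 `e_eq_one388`), the local automorphism of `SigmaLocC305` (helper558
  `sigmaLocC558`) is the one of the datum (density, `eq_of_rat379`); helper159 `goodUnit_up159`
  (`FundLemmaC`, `OrbSumExC`, `NormClassC` from `T6Out`); `t₀ = locFin129 w₀ t` (helper129).
* LOCAL STEP, `σ w₀ ≠ w₀` (`localStep_split379` in `SuppUpKit.lean`): the orbit
  `w n = σ^{-n} w₀`, `n < l`, has `l` distinct places and is the set of the places over `v₀`; the
  completions at `w n` are transported to the completion `k` at `w 0` by the local isomorphisms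
  of `SigmaLocC305` (`xn379`; the composite around the orbit is the identity: density); in these
  coordinates `σ` is the cyclic shift on `GL₂(k)^l` and helper159 `goodUnit_split159` applies
  (NO identification with `K_{v₀}` is needed: `T6.InstSplitC` is not used); `t₀` is the product of
  the local embeddings (`prodLoc379`).
* The discriminant of `N δ = γ` is a unit at `w₀` (`disc_good379`: helper600 `locB600`).
* Membership in `T_𝔸(δ)` by components (`mem_tA_of_comp379`: helper129 `G_ext129`; the infinite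
  components by `SigmaLocC305`).

No equation lemma of a foreign definition is realised here.  Hypotheses `D.l ≠ 2`, `TotCplx K`,
`T6.IsEll γ` of the Prop are not used.
-/

set_option autoImplicit false
set_option linter.style.haveILetI false
set_option linter.unusedSectionVars false
set_option linter.unusedVariables false

open AutomorphicForm IsDedekindDomain NumberField
open scoped ComplexConjugate

noncomputable section

namespace Fermat.Agent.LT.T7.H379

open Fermat.Agent.LT Fermat.Agent.LT.H556 Fermat.Agent.LT.H556.A0 Fermat.Agent.LT.T7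
open Fermat.Agent.LT.T7.H305 Fermat.Agent.LT.T7.H340

variable {K K' : Type} [Field K] [NumberField K] [Field K'] [NumberField K'] [Algebra K K']

/-! ## 1. Good units upstairs -/

theorem disc_good379 (w₀ : HeightOneSpectrum (𝓞 K')) (γ : GL (Fin 2) K)
    (h : Valued.v (T6.disc (locG305 (H600.below600 K K' w₀) γ)) = 1) :
    Valued.v (T6.disc (locG305 w₀ (Matrix.GeneralLinearGroup.map (algebraMap K K') γ))) = 1 := by
  rw [H555.locG_base555 (H600.below600 K K' w₀) w₀ (H600.locB600 K K' w₀)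
    (fun x => H600.locB600_algebraMap w₀ x) γ, H555.disc_map555, H600.valued_locB600, h, one_pow]

/-! ## 2. The places over `v₀` -/

theorem fibre_unique379 (D : CompData K K') (hD : IsCompData D) (hcyc : IsCycExt K K' D.l)
    (w₀ : HeightOneSpectrum (𝓞 K')) (hfix : T5.PlaceRel D.s w₀ w₀)
    (w' : HeightOneSpectrum (𝓞 K'))
    (hb : H600.below600 K K' w' = H600.below600 K K' w₀) : w' = w₀ := by
  haveI := hcyc.galois
  obtain ⟨sA, hsA, hgen⟩ := H453.exists_gen453 D hD hcyc
  obtain ⟨n, hn⟩ := H453.exists_iterate_eq453 sA D.s.σ hsA hgen w₀ w' hb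
  apply HeightOneSpectrum.ext
  rw [hn]
  have hfix' : (fun I : Ideal (𝓞 K') => Ideal.map (RingOfIntegers.mapRingEquiv D.s.σ) I)
      w₀.asIdeal = w₀.asIdeal := hfix.symm
  exact Function.iterate_fixed hfix' n

theorem below_orbit379 (D : CompData K K') (hD : IsCompData D)
    (w₀ : HeightOneSpectrum (𝓞 K')) (n : ℕ) :
    H600.below600 K K' (orbit379 D.s w₀ n) = H600.below600 K K' w₀ := by
  induction n with
  | zero => rfl
  | succ n ih =>
    rw [← ih]
    exact (H453.below_map453 D hD (orbit379 D.s w₀ (n + 1)) (orbit379 D.s w₀ n)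
      (orbit_succ379 D.s w₀ n)).symm

theorem fibre_orbit379 (D : CompData K K') (hD : IsCompData D) (hcyc : IsCycExt K K' D.l)
    (w₀ : HeightOneSpectrum (𝓞 K')) (w' : HeightOneSpectrum (𝓞 K'))
    (hb : H600.below600 K K' w' = H600.below600 K K' w₀) :
    ∃ m < D.l, w' = orbit379 D.s w₀ m := by
  haveI := hcyc.galois
  obtain ⟨sA, hsA, hgen⟩ := H453.exists_gen453 D hD hcyc
  obtain ⟨n, hn⟩ := H453.exists_iterate_eq453 sA D.s.σ hsA hgen w₀ w' hb
  exact orbit_surj379 D.s (orbit379 D.s w₀) (orbit_succ379 D.s w₀) D.l hD.cyc.pow_eq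
    hcyc.prime.pos w' n hn

/-! ## 3. The local step: one place over `v₀` -/

theorem localStep_inert379 (hT6 : T6.T6Out) (D : CompData K K') (hD : IsCompData D)
    (hcyc : IsCycExt K K' D.l) (w₀ : HeightOneSpectrum (𝓞 K'))
    (hfix : T5.PlaceRel D.s w₀ w₀)
    (hun : ∃ x : 𝓞 K, x ∈ (H600.below600 K K' w₀).asIdeal ∧
      algebraMap (𝓞 K) (𝓞 K') x ∉ w₀.asIdeal ^ 2)
    (δ : GL (Fin 2) K') (γ : GL (Fin 2) K)
    (hN : D.s.normUpTo D.l δ = Matrix.GeneralLinearGroup.map (algebraMap K K') γ)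
    (hγd : Valued.v (T6.disc (locG305 (H600.below600 K K' w₀) γ)) = 1)
    (hδ : T6.InU 0 (locG305 w₀ δ))
    (x : G K') (hx : T6.InU 0 (finGL305 w₀ (x⁻¹ * T5.ratG δ * D.s.onG x))) :
    ∃ t₀ : G K', t₀ ∈ tA305 D.s δ ∧
      (∀ u : HeightOneSpectrum (𝓞 K'), u ≠ w₀ → finGL305 u t₀ = 1) ∧
      T6.InU 0 (finGL305 w₀ (t₀⁻¹ * x)) := by
  obtain ⟨hNC, -, -, -, -, hIL, hIE, -, hEx, -, -, -, -, hFL, -⟩ := hT6
  haveI := hcyc.galois
  obtain ⟨sA, hsA, hgen⟩ := H453.exists_gen453 D hD hcyc
  have huniq : ∀ w' : HeightOneSpectrum (𝓞 K'),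
      (∀ x : 𝓞 K, x ∈ (H600.below600 K K' w₀).asIdeal →
        algebraMap (𝓞 K) (𝓞 K') x ∈ w'.asIdeal) → w' = w₀ := by
    intro w' hw'
    have hover : PlaceOver K K' (H600.below600 K K' w₀) w' := H388.placeOver_of_le388 hw'
    exact fibre_unique379 D hD hcyc w₀ hfix w'
      ((H600.placeOver_iff600 _ w').1 hover).symm
  obtain ⟨e₀, i₀, sw₀, hi₀, hsw₀, hext₀, hN₀⟩ :=
    hIE K K' sA hgen (hcyc.degree ▸ hcyc.prime) (H600.below600 K K' w₀) w₀
      (fun x => H600.mem_below600 w₀ x) huniq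
  have he : e₀ = 1 := H388.e_eq_one388 hun hext₀.e_pos i₀ hi₀ hext₀.val_i
  subst he
  rw [hcyc.degree] at hext₀ hN₀
  rw [Nat.div_one] at hN₀
  have hsw₀' : ∀ y : K', sw₀ (algebraMap K' (w₀.adicCompletion K') y)
      = algebraMap K' (w₀.adicCompletion K') (D.s.σ y) := fun y => by rw [hsw₀, hsA]
  have hsl : ∀ a, sloc379 D.s w₀ w₀ hfix a = sw₀ a :=
    eq_of_rat379 (sloc379 D.s w₀ w₀ hfix : w₀.adicCompletion K' →+* w₀.adicCompletion K')
      (sw₀ : w₀.adicCompletion K' →+* w₀.adicCompletion K')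
      (sloc_val379 D.s w₀ w₀ hfix) hext₀.val_s
      (fun y => (sloc_rat379 D.s w₀ w₀ hfix y).trans (hsw₀' y).symm)
  have hon : ∀ g : G K', finGL305 w₀ (D.s.onG g) = T6.glAut sw₀ (finGL305 w₀ g) := by
    intro g
    rw [finGL_onG_sloc379 D.s w₀ w₀ hfix]
    apply Matrix.GeneralLinearGroup.ext
    intro a b
    exact hsl _
  have hk := hIL K (H600.below600 K K' w₀)
  have hk' : T6.IsLocalField (w₀.adicCompletion K')
      (Ideal.absNorm (H600.below600 K K' w₀).asIdeal ^ D.l) := by
    have := hIL K' w₀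
    rwa [hN₀] at this
  have hd' : Valued.v (T6.disc (T6.twNorm sw₀ D.l (locG305 w₀ δ))) = 1 := by
    rw [← H555.locG_normUpTo555 D.s w₀ sw₀ hsw₀', hN]
    exact disc_good379 w₀ γ hγd
  have hx' : T6.InU 0 ((finGL305 w₀ x)⁻¹ * locG305 w₀ δ * T6.glAut sw₀ (finGL305 w₀ x)) := by
    have := hx
    rwa [map_mul, map_mul, map_inv, H941.finGL_ratG941, hon] at this
  obtain ⟨t, u, ht, hu, hxtu⟩ := H159.goodUnit_up159 hFL hEx hNC
    (Ideal.absNorm (H600.below600 K K' w₀).asIdeal) D.l i₀ sw₀ hk hk' hext₀ hcyc.prime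
    (locG305 w₀ δ) hδ hd' (finGL305 w₀ x) hx'
  have hcomp : finGL305 w₀ (H129.locFin129 w₀ t) = t := H129.finCompHom129_locFin129 w₀ t
  refine ⟨H129.locFin129 w₀ t, ?_,
    fun u hu => H129.finCompHom129_locFin129_of_ne w₀ t hu, ?_⟩
  · refine mem_tA_of_comp379 D.s δ _ (fun u => u = w₀) ?_
      (fun u => H129.infCompHom129_locFin129 w₀ t u)
      (fun u hu => H129.finCompHom129_locFin129_of_ne w₀ t hu) ?_
    · rintro u u' hrel rfl
      exact placeRel_fun379 D.s hrel hfix
    · rintro u rfl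
      rw [map_mul, map_mul, map_inv, hon, H941.finGL_ratG941, hcomp]
      exact ht
  · rw [map_mul, map_inv, hcomp, hxtu, inv_mul_cancel_left]
    exact hu

/-! ## 4. The local step at a place `v₀` of `K` -/

theorem localStep379 (hT6 : T6.T6Out) (D : CompData K K') (hD : IsCompData D)
    (hcyc : IsCycExt K K' D.l) (v₀ : HeightOneSpectrum (𝓞 K))
    (hun : ∀ w : HeightOneSpectrum (𝓞 K'), PlaceOver K K' v₀ w →
      ∃ x : 𝓞 K, x ∈ v₀.asIdeal ∧ algebraMap (𝓞 K) (𝓞 K') x ∉ w.asIdeal ^ 2)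
    (δ : GL (Fin 2) K') (γ : GL (Fin 2) K)
    (hN : D.s.normUpTo D.l δ = Matrix.GeneralLinearGroup.map (algebraMap K K') γ)
    (hγd : Valued.v (T6.disc (locG305 v₀ γ)) = 1)
    (hδ : ∀ w : HeightOneSpectrum (𝓞 K'), PlaceOver K K' v₀ w → T6.InU 0 (locG305 w δ))
    (x : G K')
    (hx : ∀ w : HeightOneSpectrum (𝓞 K'), PlaceOver K K' v₀ w →
      T6.InU 0 (finGL305 w (x⁻¹ * T5.ratG δ * D.s.onG x))) :
    ∃ t₀ : G K', t₀ ∈ tA305 D.s δ ∧
      (∀ u : HeightOneSpectrum (𝓞 K'), ¬ PlaceOver K K' v₀ u → finGL305 u t₀ = 1) ∧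
      ∀ u : HeightOneSpectrum (𝓞 K'), PlaceOver K K' v₀ u →
        T6.InU 0 (finGL305 u (t₀⁻¹ * x)) := by
  obtain ⟨w₀, hw₀⟩ := H453.exists_below_eq453 (K' := K') v₀
  subst hw₀
  have hover : ∀ u : HeightOneSpectrum (𝓞 K'),
      PlaceOver K K' (H600.below600 K K' w₀) u ↔
        H600.below600 K K' u = H600.below600 K K' w₀ := fun u =>
    (H600.placeOver_iff600 _ u).trans eq_comm
  have hw₀o : PlaceOver K K' (H600.below600 K K' w₀) w₀ := (hover w₀).2 rfl
  by_cases hfix : T5.PlaceRel D.s w₀ w₀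
  · obtain ⟨t₀, ht₀, hoff, hon⟩ := localStep_inert379 hT6 D hD hcyc w₀ hfix (hun w₀ hw₀o) δ γ hN
      hγd (hδ w₀ hw₀o) x (hx w₀ hw₀o)
    refine ⟨t₀, ht₀, fun u hu => hoff u (fun e => hu (e ▸ hw₀o)), fun u hu => ?_⟩
    have e : u = w₀ := fibre_unique379 D hD hcyc w₀ hfix u ((hover u).1 hu)
    rw [e]
    exact hon
  · haveI : NeZero D.l := ⟨hcyc.prime.ne_zero⟩
    have hwo : ∀ n, PlaceOver K K' (H600.below600 K K' w₀) (orbit379 D.s w₀ n) :=
      fun n => (hover _).2 (below_orbit379 D hD w₀ n)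
    have hinj : ∀ a b, a < D.l → b < D.l → orbit379 D.s w₀ a = orbit379 D.s w₀ b → a = b :=
      fun a b ha hb hab => orbit_inj379 D.s (orbit379 D.s w₀) (orbit_succ379 D.s w₀) D.l
        hD.cyc.pow_eq hcyc.prime hfix ha hb hab
    have hd : Valued.v (T6.disc (locG305 (orbit379 D.s w₀ 0) (D.s.normUpTo D.l δ))) = 1 := by
      rw [hN]
      exact disc_good379 w₀ γ hγd
    obtain ⟨t₀, ht₀, hoff, hon⟩ := localStep_split379 D.s D.l hD.cyc.pow_eq (orbit379 D.s w₀)
      (orbit_succ379 D.s w₀) hinj δ (fun n => hδ _ (hwo n)) hd x (fun n => hx _ (hwo n))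
    refine ⟨t₀, ht₀, fun u hu => hoff u (fun n _ e => hu (e ▸ hwo n)), fun u hu => ?_⟩
    obtain ⟨m, hm, e⟩ := fibre_orbit379 D hD hcyc w₀ u ((hover u).1 hu)
    rw [e]
    exact hon m hm

/-! ## 5. The induction on the places of `K` -/

theorem suppUp_aux379 (hT6 : T6.T6Out) (D : CompData K K') (hD : IsCompData D)
    (hcyc : IsCycExt K K' D.l) (T₀ : Finset (HeightOneSpectrum (𝓞 K)))
    (hunr : UnramOut305 (K' := K') T₀)
    (S : Finset (HeightOneSpectrum (𝓞 K))) (S' : Finset (HeightOneSpectrum (𝓞 K')))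
    (hT₀S : T₀ ⊆ S) (hSS' : IsOver305 S S')
    (δ : GL (Fin 2) K') (γ : GL (Fin 2) K)
    (hN : D.s.normUpTo D.l δ = Matrix.GeneralLinearGroup.map (algebraMap K K') γ)
    (hγ : GoodOut305 S γ) (hδ : IntOut305 S' δ) (B : Finset (HeightOneSpectrum (𝓞 K))) :
    ∀ x : G K',
      (∀ w : HeightOneSpectrum (𝓞 K'), w ∉ S' →
        T6.InU 0 (finGL305 w (x⁻¹ * T5.ratG δ * D.s.onG x))) →
      (∀ w : HeightOneSpectrum (𝓞 K'), w ∉ S' → H600.below600 K K' w ∉ B →
        T6.InU 0 (finGL305 w x)) →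
      ∃ t : G K', t ∈ tA305 D.s δ ∧
        ∀ w : HeightOneSpectrum (𝓞 K'), w ∉ S' → T6.InU 0 (finGL305 w (t⁻¹ * x)) := by
  classical
  have hbel : ∀ w : HeightOneSpectrum (𝓞 K'), PlaceOver K K' (H600.below600 K K' w) w :=
    fun w => (H600.placeOver_iff600 _ w).2 rfl
  induction B using Finset.induction_on with
  | empty =>
    intro x _ hx
    refine ⟨1, Subgroup.one_mem _, fun w hw => ?_⟩
    rw [inv_one, one_mul]
    exact hx w hw (Finset.notMem_empty _)
  | insert v₀ B' hv₀ ih =>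
    intro x hconj hx
    by_cases hS : v₀ ∈ S
    · apply ih x hconj
      intro w hw hwB
      apply hx w hw
      rw [Finset.mem_insert]
      rintro (h | h)
      · apply hw
        rw [H388.mem_over_iff388 hSS' (hbel w), h]
        exact hS
      · exact hwB h
    · have hout : ∀ w : HeightOneSpectrum (𝓞 K'), PlaceOver K K' v₀ w → w ∉ S' :=
        fun w hw h => hS ((H388.mem_over_iff388 hSS' hw).1 h)
      obtain ⟨t₀, ht₀, hoff, hon⟩ := localStep379 hT6 D hD hcyc v₀
        (fun w hw => hunr v₀ (fun h => hS (hT₀S h)) w hw) δ γ hN (hγ v₀ hS).2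
        (fun w hw => hδ w (hout w hw)) x (fun w hw => hconj w (hout w hw))
      have hcent : t₀⁻¹ * T5.ratG δ * D.s.onG t₀ = T5.ratG δ := (mem_tA_iff379 D.s δ t₀).1 ht₀
      have e1 : t₀ * T5.ratG δ * (D.s.onG t₀)⁻¹ = T5.ratG δ := by
        calc t₀ * T5.ratG δ * (D.s.onG t₀)⁻¹
            = t₀ * (t₀⁻¹ * T5.ratG δ * D.s.onG t₀) * (D.s.onG t₀)⁻¹ := by rw [hcent]
          _ = T5.ratG δ := by group
      have e2 : (t₀⁻¹ * x)⁻¹ * T5.ratG δ * D.s.onG (t₀⁻¹ * x)
          = x⁻¹ * T5.ratG δ * D.s.onG x := by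
        calc (t₀⁻¹ * x)⁻¹ * T5.ratG δ * D.s.onG (t₀⁻¹ * x)
            = x⁻¹ * (t₀ * T5.ratG δ * (D.s.onG t₀)⁻¹) * D.s.onG x := by
              rw [map_mul, map_inv]
              group
          _ = x⁻¹ * T5.ratG δ * D.s.onG x := by rw [e1]
      have h1 : ∀ w : HeightOneSpectrum (𝓞 K'), w ∉ S' →
          T6.InU 0 (finGL305 w ((t₀⁻¹ * x)⁻¹ * T5.ratG δ * D.s.onG (t₀⁻¹ * x))) := by
        intro w hw
        rw [e2]
        exact hconj w hw
      have h2 : ∀ w : HeightOneSpectrum (𝓞 K'), w ∉ S' → H600.below600 K K' w ∉ B' →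
          T6.InU 0 (finGL305 w (t₀⁻¹ * x)) := by
        intro w hw hwB
        by_cases hwv : PlaceOver K K' v₀ w
        · exact hon w hwv
        · rw [map_mul, map_inv, hoff w hwv, inv_one, one_mul]
          apply hx w hw
          rw [Finset.mem_insert]
          rintro (h | h)
          · exact hwv ((H600.placeOver_iff600 v₀ w).2 h.symm)
          · exact hwB h
      obtain ⟨t', ht', hout'⟩ := ih (t₀⁻¹ * x) h1 h2
      refine ⟨t₀ * t', Subgroup.mul_mem _ ht₀ ht', fun w hw => ?_⟩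
      have e : (t₀ * t')⁻¹ * x = t'⁻¹ * (t₀⁻¹ * x) := by group
      rw [e]
      exact hout' w hw

/-! ## 6. The leaf -/

/-- **LEAF UF.A2 = SUPP-UP** (`H340.SuppUpC340`), VERBATIM. -/
theorem suppUpC379 (K K' : Type) [Field K] [NumberField K] [Field K'] [NumberField K']
    [Algebra K K'] : SuppUpC340 K K' := by
  intro hT6 D hD hcyc _ _ T₀ hunr S S' hT₀S hSS' δ γ _ hN hγ hδ x hx
  classical
  obtain ⟨t, ht, hout⟩ := suppUp_aux379 hT6 D hD hcyc T₀ hunr S S' hT₀S hSS' δ γ hN hγ hδ
    ((H941.finite_nonint941 x).toFinset.image (H600.below600 K K')) x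
    ((H941.outT_iff941 S' _).1 hx)
    (fun w _ hwB => by
      by_contra h
      exact hwB (Finset.mem_image.2 ⟨w, (Set.Finite.mem_toFinset _).2 h, rfl⟩))
  exact ⟨t, ht, (H941.outT_iff941 S' _).2 hout⟩

end Fermat.Agent.LT.T7.H379

end

end
-- ===== PACK-END LT/T7/H379/SuppUp.lean

-- ===== PACK-BEGIN LT/T7/H379/SuppUpQ.lean
section




/-!
# Row LT, tower T7, quadratic step, node `H1U.CutOnUpQC`, LEAF CU.1 `SuppUpQC913`
# (cut of helper913, registry row 2849; helper379, SPARE): PROVED, VERBATIM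

OFF-MAIN.  No hole, nothing assumed.  ADDITIVE (suffix `379`).

    suppUpQC379 (F) : H913.SuppUpQC913 F

Statement of `T7/H913/CutOnUpQSpec.lean` (helper913@3b891b744, sha256 05469d69).  The proof of
the cubic leaf `H340.SuppUpC340` (`SuppUp.lean`: `suppUp_aux379`) uses neither the degree nor the
infinite places: it is applied to `K = ℚ`, `K' = F` AS IT IS.
-/

set_option autoImplicit false

open AutomorphicForm IsDedekindDomain NumberField

noncomputable section

namespace Fermat.Agent.LT.T7.H379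

open Fermat.Agent.LT Fermat.Agent.LT.H556 Fermat.Agent.LT.H556.A0 Fermat.Agent.LT.T7
open Fermat.Agent.LT.T7.H305

/-- **LEAF CU.1 = SUPP-UP over `ℚ`** (`H913.SuppUpQC913`), VERBATIM. -/
theorem suppUpQC379 (F : Type) [Field F] [NumberField F] : H913.SuppUpQC913 F := by
  intro hT6 _ D hD hcyc _ T₀ hunr S S' hT₀S hSS' δ γ _ hN hγ hδ x hx
  classical
  obtain ⟨t, ht, hout⟩ := suppUp_aux379 hT6 D hD hcyc T₀ hunr S S' hT₀S hSS' δ γ hN hγ hδ
    ((H941.finite_nonint941 x).toFinset.image (H600.below600 ℚ F)) x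
    ((H941.outT_iff941 S' _).1 hx)
    (fun w _ hwB => by
      by_contra h
      exact hwB (Finset.mem_image.2 ⟨w, (Set.Finite.mem_toFinset _).2 h, rfl⟩))
  exact ⟨t, ht, (H941.outT_iff941 S' _).2 hout⟩

end Fermat.Agent.LT.T7.H379

end

end
-- ===== PACK-END LT/T7/H379/SuppUpQ.lean

-- ===== PACK-BEGIN LT/T7/H913/CutOnUpQClosed.lean
section














/-!
# Row LT, tower T7, node `H1U.CutOnUpQC` (registry row 2786, owner helper913): CLOSED

OFF-MAIN.  ADDITIVE (new names only, suffix `913`).  No hole, nothing assumed.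

    cutOnOutUpQC913 (F) : H913.CutOnOutUpQC913 F      (node CU.2, UNCONDITIONAL)
    cutOnUpQC913 (F)    : H1U.CutOnUpQC F             (THE NODE, UNCONDITIONAL, VERBATIM Prop of
                                                       `T7/H1U/UpFactQSpec.lean`, helper1)

Assembly of `cutOnUpQC_of913` (`CutOnUpQTop.lean`) and `cutOnOutUpQC_of913` (`CutOnOutUpQ.lean`)
with the closed leaves: `suppOutUpC560` (helper560), `suppUpQC379` (helper379, leaf CU.1 =
registry row 2849), `haarSigmaC505` (helper505), `haarSigmaRC751`, `reContQC751` (helper751),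
`compContC409` (helper409), `torCommC233` (helper233), `ellRegC277` (helper277), `outOpenC729`
(helper729), `isoContC102` (helper102); inside `cutOnOutUpQC_of913`: `inertTorC276` (helper276),
`cutOnOutUpC269` kit (helper269), `integral_cut_absQ385` (helper385), `eq_of_val_of_rat_H1G`
(helper1).
-/

set_option autoImplicit false

open AutomorphicForm IsDedekindDomain NumberField MeasureTheory

noncomputable section

namespace Fermat.Agent.LT.T7.H913

open Fermat.Agent.LT Fermat.Agent.LT.T7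

/-- **NODE CU.2 `CutOnOutUpQC913`**, unconditional. -/
theorem cutOnOutUpQC913 (F : Type) [Field F] [NumberField F] : CutOnOutUpQC913 F :=
  cutOnOutUpQC_of913 F (H505.haarSigmaC505 ℚ) H751.haarSigmaRC751 (H409.compContC409 ℚ)
    (H409.compContC409 F) H751.reContQC751

/-- **THE NODE U.2 `H1U.CutOnUpQC F`** (Part A upstairs over `ℚ`), unconditional, VERBATIM. -/
theorem cutOnUpQC913 (F : Type) [Field F] [NumberField F] : H1U.CutOnUpQC F :=
  cutOnUpQC_of913 (H560.suppOutUpC560 F) (H379.suppUpQC379 F) (cutOnOutUpQC913 F)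
    (H233.torCommC233 F) (H277.ellRegC277 ℚ F) (OutOpen729.outOpenC729 F)
    (H409.compContC409 F) H102.isoContC102

end Fermat.Agent.LT.T7.H913

end

end
-- ===== PACK-END LT/T7/H913/CutOnUpQClosed.lean

-- ===== PACK-BEGIN LT/T7/H49/BadOp.lean
section



/-!
# Row LT, tower T7, leaf T7.L2.2.B4.9 `H561.BadOpC561` (helper49, OFF-MAIN)

    badOpC_of49 : (∀ 𝔫 ≠ ⊥, ∀ h trivial at infinity, ∃ H, IsDblCosetSystem 𝔫 h H)
                    → H561.BadOpC561 K K'                                   VERBATIM target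

The hypothesis is the leaf `BadSystemExistsC K'` of helper963 (`T7/H963/Compress.lean`), stated
inline (no new Prop): finite systems of representatives of `U(𝔫) h U(𝔫) / U(𝔫)` exist.
Everything else is PROVED here:

* the operator `[U g U]` preserves the classes: `translEigC281` (helper281) + `dblInvC439`
  (helper439), `𝔑₀ ≠ ⊥` (`levelBase_ne_bot49`);
* it commutes with `S_j`, `ρ_j` on the invariant cusp functions: `h = h^w h_w` with
  `h_w ∈ U(𝔑₀)` (`inLevelGroup_locPart49`: `g` is trivial along the orbit), `h^w` commutes with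
  the elements supported at `w = o j`, and `S_j ψ`, `ρ_j ψ` are right `U(𝔑₀)`-invariant
  (`cosetOp_inv49`, `trOp_inv49` of `OpsEig.lean`).
-/

set_option autoImplicit false
set_option linter.unusedSectionVars false
set_option linter.unusedSimpArgs false
set_option linter.unusedVariables false

open Matrix
open AutomorphicForm IsDedekindDomain NumberField IsDedekindDomain.HeightOneSpectrum
open Fermat.Agent.LT.H556 Fermat.Agent.LT.H556.A0 Fermat.Agent.LT.H129
open Fermat.Agent.LT.T7 Fermat.Agent.LT.T7.H83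

noncomputable section

namespace Fermat.Agent.LT.T7.H49

section Adelic

variable {K : Type} [Field K] [NumberField K] (w : HeightOneSpectrum (𝓞 K))

/-- The part at `w` of an element of `U(𝔫)` lies in `U(𝔫)`. -/
theorem inLevelGroup_locPart49 {𝔫 : Ideal (𝓞 K)} {u : G K} (hu : InLevelGroup 𝔫 u) :
    InLevelGroup 𝔫 (locFin129 w (finCompHom129 w u)) := by
  have h0 : ∀ v : HeightOneSpectrum (𝓞 K), (0 : v.adicCompletion K) ∈ idealClosure 𝔫 v :=
    fun v => subset_closure ⟨0, 𝔫.zero_mem, by simp⟩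
  refine ⟨fun w' => ?_, fun v i j => ?_⟩
  · rw [trivAtInf_iff129, infCompHom129_locFin129]
  · by_cases hv : v = w
    · subst hv
      have e1 : finComp v (locFin129 v (finCompHom129 v u)) = finComp v u := by
        rw [← coe_finCompHom129, finCompHom129_locFin129]
        rfl
      have e2 : finComp v (locFin129 v (finCompHom129 v u))⁻¹ = finComp v u⁻¹ := by
        rw [← coe_finCompHom129, map_inv, finCompHom129_locFin129, ← map_inv]
        rfl
      rw [e1, e2]
      exact hu.2 v i j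
    · have e1 : finComp v (locFin129 w (finCompHom129 w u)) = 1 := by
        rw [← coe_finCompHom129, finCompHom129_locFin129_of_ne w _ hv]
        rfl
      have e2 : finComp v (locFin129 w (finCompHom129 w u))⁻¹ = 1 := by
        rw [← coe_finCompHom129, map_inv, finCompHom129_locFin129_of_ne w _ hv, inv_one]
        rfl
      rw [e1, e2, sub_self]
      exact ⟨h0 v, h0 v⟩

variable {w}

/-- A member `h = u₁ g u₂` of a system of `U g U / U`, `g` trivial at `w`: the part of `h` at
`w` lies in `U`. -/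
theorem inLevelGroup_locPart_of_dbl49 {𝔫 : Ideal (𝓞 K)} {g : G K} (hg : TrivAtFin w g)
    {Hg : Finset (G K)} (hH : IsDblCosetSystem 𝔫 g Hg) {h : G K} (hh : h ∈ Hg) :
    InLevelGroup 𝔫 (locFin129 w (finCompHom129 w h)) := by
  obtain ⟨u₁, u₂, hu₁, hu₂, rfl⟩ := hH.1 h hh
  have e : finCompHom129 w (u₁ * g * u₂) = finCompHom129 w (u₁ * u₂) := by
    rw [map_mul, map_mul, map_mul, (trivAtFin_iff129 w g).1 hg, mul_one]
  rw [e]
  exact inLevelGroup_locPart49 w (H439.inLevelGroup_mul439 hu₁ hu₂)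

/-- For a right `U`-invariant function the members of the system can be replaced by their
parts away from `w`. -/
theorem dbl_away49 {𝔫 : Ideal (𝓞 K)} {g : G K} (hg : TrivAtFin w g)
    {Hg : Finset (G K)} (hH : IsDblCosetSystem 𝔫 g Hg) {χ : G K → ℂ}
    (hχ : ∀ u : G K, InLevelGroup 𝔫 u → ∀ x : G K, χ (x * u) = χ x) {h : G K} (hh : h ∈ Hg)
    (x : G K) : χ (x * h) = χ (x * awayPart49 w h) := by
  conv_lhs => rw [← awayPart_mul49 w h, ← mul_assoc]
  exact hχ _ (inLevelGroup_locPart_of_dbl49 hg hH hh) _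

end Adelic

section Top

variable {K K' : Type} [Field K] [NumberField K] [Field K'] [NumberField K'] [Algebra K K']

/-- The base level is not zero. -/
theorem levelBase_ne_bot49 {ℓ : ℕ} {Φ : HeckeEigensystem K' ℂ} {Dt : L2Data K K'}
    (hs : H561.IsSetup561 ℓ Φ Dt) : Dt.𝔑₀ ≠ ⊥ := by
  intro h0
  have h1 : (Dt.comp 1).𝔫 ≠ ⊥ := (hs.data.comp 1 (isBad_one49 Dt)).level_ne
  have h2 : Dt.𝔑 1 ≤ Dt.𝔑₀ := hs.data.level_g 1 (isBad_one49 Dt)
  rw [h0, le_bot_iff] at h2
  apply h1
  exact (Ideal.map_eq_bot_iff_of_injective (RingOfIntegers.algebraMap.injective K K')).1 h2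

/-- A bad element is trivial along the whole orbit. -/
theorem trivAtFin_bad49 {ℓ : ℕ} {Φ : HeckeEigensystem K' ℂ} {Dt : L2Data K K'}
    (hs : H561.IsSetup561 ℓ Φ Dt) {g : G K'} (hg : Dt.IsBad g) (j : ℕ) :
    TrivAtFin (Dt.o j) g := by
  apply hg.2 (Dt.o j)
  right
  refine ⟨j % ℓ, ?_, orbit_mod49 hs j⟩
  rw [hs.data.deg]
  exact Nat.mod_lt j (cyc49 hs).pos

end Top

/-- **LEAF T7.L2.2.B4.9 = BAD-OP** from the existence of the systems (leaf
`BadSystemExistsC K'` of helper963, inline). -/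
theorem badOpC_of49 (K K' : Type) [Field K] [NumberField K] [Field K'] [NumberField K']
    [Algebra K K']
    (hX : ∀ 𝔫 : Ideal (𝓞 K'), 𝔫 ≠ ⊥ → ∀ h : G K', (∀ w : InfinitePlace K', TrivAtInf w h) →
      ∃ H : Finset (G K'), IsDblCosetSystem 𝔫 h H) :
    H561.BadOpC561 K K' := by
  intro ℓ Φ Dt hs g hg
  obtain ⟨Hg, hHg⟩ := hX Dt.𝔑₀ (levelBase_ne_bot49 hs) g hg.1
  have hr : T5.IsRayGen Dt.R'.r := (hs.data.comp 1 (isBad_one49 Dt)).frame'.ray
  have ho : ∀ j < ℓ, (Dt.o j).asIdeal ∣ Dt.𝔑₀ := fun j _ => dvd_level49 hs j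
  have hg2 : ∀ v : HeightOneSpectrum (𝓞 K'),
      (¬ v.asIdeal ∣ Dt.𝔑₀ ∨ ∃ j < ℓ, v = Dt.o j) → TrivAtFin v g := by
    intro v hv
    apply hg.2 v
    rcases hv with hv | ⟨j, hj, rfl⟩
    · left
      intro hmem
      exact hv ((hs.data.mem_S' v).1 hmem)
    · right
      refine ⟨j, ?_, rfl⟩
      rw [hs.data.deg]
      exact hj
  have hD := H439.dblInvC439 K' Dt.𝔑₀ ℓ Dt.o ho g hg.1 hg2 Hg hHg
  refine ⟨Hg, hHg, ?_, ?_⟩
  · -- the classes
    intro ψ C hψ
    have e : cosetOp Hg ψ = H281.translOp281 Hg 1 ψ := by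
      funext x
      unfold cosetOp H281.translOp281
      rw [one_mul]
    have hinv := hD.2 ψ hψ.inv.cusp.aut.level_inv hψ.inv.iw
    rw [e]
    refine H281.translEigC281 K' Dt.𝔑₀ Dt.R'.r ℓ Dt.o hr Hg 1 hD.1 ψ C hψ ?_ ?_
    · rw [← e]
      exact hinv.1
    · rw [← e]
      exact hinv.2
  · -- the commutation
    intro Hs ω hsys j ψ hψ x
    have hw := dvd_level49 hs j
    have hgw : TrivAtFin (Dt.o j) g := trivAtFin_bad49 hs hg j
    have hH := isSSys_of561 hsys j
    obtain ⟨c, hc, hcc⟩ := hsys.ω_comp j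
    have hψU : ∀ u : G K', InLevelGroup Dt.𝔑₀ u → ∀ y : G K', ψ (y * u) = ψ y :=
      hψ.cusp.aut.level_inv
    have hSU : ∀ u : G K', InLevelGroup Dt.𝔑₀ u →
        ∀ y : G K', cosetOp (Hs j) ψ (y * u) = cosetOp (Hs j) ψ y :=
      fun u hu y => cosetOp_inv49 hH (inIwahori_of_inLevelGroup49 hw hu)
        (hyp_level49 hs hψ j hu) y
    have hρU : ∀ u : G K', InLevelGroup Dt.𝔑₀ u →
        ∀ y : G K', H561.trOp561 (ω j) ψ (y * u) = H561.trOp561 (ω j) ψ y :=
      fun u hu y => trOp_inv49 (hsys.ω_local j) hc hcc (inIwahori_of_inLevelGroup49 hw hu)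
        (hyp_level49 hs hψ j hu) y
    constructor
    · have e1 : ∀ h ∈ Hg, cosetOp (Hs j) ψ (x * h)
          = ∑ s ∈ Hs j, ψ (x * s * h) := by
        intro h hh
        rw [dbl_away49 hgw hHg hSU hh x]
        unfold cosetOp
        refine Finset.sum_congr rfl fun s hs' => ?_
        have hcomm : s * awayPart49 (Dt.o j) h = awayPart49 (Dt.o j) h * s :=
          mul_comm_of_local83 (Dt.o j) (hsys.Hs_local j s hs') (trivAtFin_awayPart49 _ h)
        rw [dbl_away49 hgw hHg hψU hh (x * s), mul_assoc, ← hcomm, ← mul_assoc]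
      show ∑ h ∈ Hg, cosetOp (Hs j) ψ (x * h) = ∑ s ∈ Hs j, cosetOp Hg ψ (x * s)
      rw [Finset.sum_congr rfl e1, Finset.sum_comm]
      rfl
    · show ∑ h ∈ Hg, H561.trOp561 (ω j) ψ (x * h) = ∑ h ∈ Hg, ψ (x * ω j * h)
      refine Finset.sum_congr rfl fun h hh => ?_
      have hcomm : ω j * awayPart49 (Dt.o j) h = awayPart49 (Dt.o j) h * ω j :=
        mul_comm_of_local83 (Dt.o j) (hsys.ω_local j) (trivAtFin_awayPart49 _ h)
      rw [dbl_away49 hgw hHg hρU hh x, dbl_away49 hgw hHg hψU hh (x * ω j)]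
      show ψ (x * awayPart49 (Dt.o j) h * ω j) = ψ (x * ω j * awayPart49 (Dt.o j) h)
      rw [mul_assoc, ← hcomm, ← mul_assoc]

end Fermat.Agent.LT.T7.H49

end

end
-- ===== PACK-END LT/T7/H49/BadOp.lean

-- ===== PACK-BEGIN LT/T7/H49/BadOpTop.lean
section



/-!
# Row LT, tower T7, leaf T7.L2.2.B4.9 `H561.BadOpC561` CLOSED (helper49, OFF-MAIN)

    badOpC49 (K K') : H561.BadOpC561 K K'          VERBATIM, UNCONDITIONAL

= `badOpC_of49` (`BadOp.lean`) on `dblSysExists49` (`DblSys.lean`).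
-/

set_option autoImplicit false

open AutomorphicForm IsDedekindDomain NumberField

noncomputable section

namespace Fermat.Agent.LT.T7.H49

/-- **LEAF T7.L2.2.B4.9 = BAD-OP, VERBATIM.** -/
theorem badOpC49 (K K' : Type) [Field K] [NumberField K] [Field K'] [NumberField K']
    [Algebra K K'] : H561.BadOpC561 K K' :=
  badOpC_of49 K K' (dblSysExists49 K')

example (K K' : Type) [Field K] [NumberField K] [Field K'] [NumberField K'] [Algebra K K'] :
    H561.BadOpC561 K K' := badOpC49 K K'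

end Fermat.Agent.LT.T7.H49

end

end
-- ===== PACK-END LT/T7/H49/BadOpTop.lean

-- ===== PACK-BEGIN LT/T7/H276/OpsRel.lean
section



/-!
# Row LT, tower T7, leaf T7.L2.2.B4.3 `OpsRelC561` (helper276, OFF-MAIN)

    opsRelC276 (K K') : H561.OpsRelC561 K K'     -- VERBATIM, UNCONDITIONAL

`S_j² = (q - 1) S_j + q` and `ρ_j² S_j = S_j ρ_j²` on the invariant cusp functions `W`, for ANY
explicit system along the orbit.  The quadratic relation is `quad_rel276` (`IwRes.lean`) at the
place `o j`, which is one of `o 0, …, o (ℓ - 1)` (`orbit_mem276`, asset `orbit_period415` of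
helper415) and has the norm of `o 0` (`absNorm_orbit276`); `ω_j²` is a local element with scalar
component, hence central (`central_of_scalar276`).
-/

set_option autoImplicit false

open IsDedekindDomain NumberField IsDedekindDomain.HeightOneSpectrum
open Fermat.Agent.LT.H556.A0 Fermat.Agent.LT.H129

noncomputable section

namespace Fermat.Agent.LT.T7.H276

variable {K K' : Type} [Field K] [NumberField K] [Field K'] [NumberField K'] [Algebra K K']

omit [Algebra K K'] in
theorem isBad_one276 (Dt : L2Data K K') : Dt.IsBad 1 := by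
  refine ⟨fun w => ?_, fun v _ => ?_⟩
  · rw [trivAtInf_iff129, map_one]
  · rw [trivAtFin_iff129, map_one]

theorem cyc_of_setup276 {ℓ : ℕ} {Φ : AutomorphicForm.HeckeEigensystem K' ℂ} {Dt : L2Data K K'}
    (hs : H561.IsSetup561 ℓ Φ Dt) : T5.IsCyclicOfDegree Dt.s ℓ Dt.k := by
  have h := (hs.data.comp 1 (isBad_one276 Dt)).cyc
  have hd := hs.data.deg
  rw [← hd]
  exact h

/-- The functions of `W` are invariant under the local Iwahori elements at every place of the
orbit. -/
theorem wfn_inv_local276 {ℓ : ℕ} {Φ : AutomorphicForm.HeckeEigensystem K' ℂ}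
    {Dt : L2Data K K'} (hs : H561.IsSetup561 ℓ Φ Dt) {ψ : G K' → ℂ}
    (hψ : IsWFn Dt.𝔑₀ Dt.R'.r ℓ Dt.o ψ) (j : ℕ) (u : G K') (hu : IsLocalAtFin (Dt.o j) u)
    (hI : T5.InIwahori (Dt.o j) u) (x : G K') : ψ (x * u) = ψ x := by
  obtain ⟨j₀, hj₀, e⟩ := orbit_mem276 Dt.s ℓ Dt.k (cyc_of_setup276 hs) Dt.o hs.data.orbit_rel j
  rw [e] at hu hI
  exact iwInv_local276 hψ.iw hj₀ hu hI x

variable (K K')

/-- **LEAF T7.L2.2.B4.3 = OPS-REL, VERBATIM.** -/
theorem opsRelC276 : H561.OpsRelC561 K K' := by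
  intro ℓ Φ Dt hs Hs ω hsys j ψ hψ x
  have hH : IsSys276 (Dt.o j) (Hs j) :=
    ⟨hsys.Hs_card j, hsys.Hs_local j, hsys.Hs_comp j, hsys.Hs_inj j⟩
  constructor
  · have h := quad_rel276 hH (wfn_inv_local276 hs hψ j) x
    rw [absNorm_orbit276 Dt.s Dt.o hs.data.orbit_rel j] at h
    exact h
  · obtain ⟨c, -, hω⟩ := hsys.ω_comp j
    have hz : finComp (Dt.o j) (ω j * ω j) = Matrix.diagonal (fun _ => c) := by
      rw [finComp_mul276, hω, omega_sq276]
    have hcen := central_of_scalar276 (Dt.o j)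
      (isLocalAtFin_mul129 (hsys.ω_local j) (hsys.ω_local j)) hz
    show ∑ h ∈ Hs j, ψ (x * ω j * ω j * h) = ∑ h ∈ Hs j, ψ (x * h * ω j * ω j)
    refine Finset.sum_congr rfl (fun h _ => ?_)
    have e : x * ω j * ω j * h = x * h * ω j * ω j := by
      rw [mul_assoc x (ω j) (ω j), mul_assoc x (ω j * ω j) h, hcen h, ← mul_assoc, ← mul_assoc]
    rw [e]

end Fermat.Agent.LT.T7.H276

end

end
-- ===== PACK-END LT/T7/H276/OpsRel.lean

-- ===== PACK-BEGIN LT/T7/H675/LeavesU1.lean
section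








/-!
# Row LT, tower T7, registry 2152 (helper675): SIX LEAVES OF THE CUTS UNDER `UpBasisUC` AND
# `ClassModelUC`, CLOSED IN CORE FORM (ports of the closed cyclic leaves)

OFF-MAIN.  UNCONDITIONAL.  No hole, nothing assumed.  ADDITIVE (new names ending in `675`).

    opsAdjUC675_closed      : UB675.OpsAdjUC675 K'       (port of helper16  `opsAdjC561_16`)
    opsLinkUC675_closed     : UB675.OpsLinkUC675 K'      (port of helper16  `opsLinkC561_16`)
    iwSysExistsUC675_closed : UB675.IwSysExistsUC675 K'  (port of helper276 `iwSysExistsC276`)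
    opsRelUC675_closed      : UB675.OpsRelUC675 K'       (port of helper276 `opsRelC276`)
    phiUC675_closed         : UB675.PhiUC675 K'          (port of helper271 `phiC271`)
    nontrivUC675_closed     : CMU675.NontrivUC675 K'     (CM.02 = the same statement)

Each proof is the adapter of the owner after the renaming `Dt ↦ U`; the one-field lemmas of the
owners (`H16.cosetOp_symm16`, `H16.innerD_translate16`, `H16.isIwCosetSystem_link16`,
`H276.exists_iwSys_at276`, `H276.quad_rel276`, `H271.inLevelGroup_of_iw271`, …) are used as they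
are.
-/

set_option autoImplicit false
set_option linter.unusedSectionVars false

open AutomorphicForm IsDedekindDomain NumberField MeasureTheory
open IsDedekindDomain.HeightOneSpectrum

noncomputable section

namespace Fermat.Agent.LT.T7.UB675

open Fermat.Agent.LT.H556 Fermat.Agent.LT.H556.A0 Fermat.Agent.LT.T5 Fermat.Agent.LT.H129
open Fermat.Agent.LT.T7 Fermat.Agent.LT.T7.H561

attribute [local instance] Fermat.Agent.LT.T5.instMeasurableSpaceG

variable (K' : Type) [Field K'] [NumberField K']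

/-- **Leaf B4.6 `OpsAdj`, core form, CLOSED** (port of `H16.opsAdjC561_16`, helper16). -/
theorem opsAdjUC675_closed : OpsAdjUC675 K' := by
  intro ℓ Φ U hs Hs ω hsys j ψ χ hψ hχ
  have hU := hs.data
  have hF : IsFrame U.R'.μ U.R'.F := hU.frame'.frame
  have hr : IsRayGen U.R'.r := hU.frame'.ray
  have hcyc : IsCyclicOfDegree U.s U.l U.k := hU.cyc
  have hN := T1.H309.adNormC309 (K := K')
  obtain ⟨i, hi, e⟩ := H16.orbit_mem16 U.s U.l U.k hcyc U.o hU.orbit_rel j
  have hi' : i < ℓ := by rw [← hU.deg]; exact hi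
  have hAψ := H16.isAutBdd16_of_cusp hψ.cusp
  have hAχ := H16.isAutBdd16_of_cusp hχ.cusp
  refine ⟨?_, ?_⟩
  · refine H16.cosetOp_symm16 (w := U.o j) hN hF hr hAψ hAχ (H16.iwInv_local16 hψ.iw hi' e)
      (H16.iwInv_local16 hχ.iw hi' e) (Hs j) fun h hh => ⟨hsys.Hs_local j h hh, ?_⟩
    obtain ⟨a, ha, hc⟩ := hsys.Hs_comp j h hh
    rw [hc]
    exact H16.isJ16_weylRep ((HeightOneSpectrum.mem_adicCompletionIntegers _ _ _).1 ha)
  · exact H16.innerD_translate16 hN hF hr hAψ hAχ (ω j)

/-- **Leaf B4.8 `OpsLink`, core form, CLOSED** (port of `H16.opsLinkC561_16`, helper16). -/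
theorem opsLinkUC675_closed : OpsLinkUC675 K' := by
  intro ℓ Φ U _ Hs ω hsys
  exact H16.isIwCosetSystem_link16 (U.o 0) (Hs 0) (ω 0) (hsys.ω_local 0) (hsys.ω_comp 0)
    (hsys.Hs_card 0) (hsys.Hs_local 0) (hsys.Hs_comp 0) (hsys.Hs_inj 0)

/-- **Leaf B4.1 `IwSysExists`, core form, CLOSED** (port of `H276.iwSysExistsC276`,
helper276). -/
theorem iwSysExistsUC675_closed : IwSysExistsUC675 K' := by
  intro ℓ Φ U _
  choose H ω h1 h2 h3 h4 h5 h6 using
    fun w : HeightOneSpectrum (𝓞 K') => H276.exists_iwSys_at276 w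
  exact ⟨fun j => H (U.o j), fun j => ω (U.o j),
    { ω_local := fun j => h1 (U.o j)
      ω_comp := fun j => h2 (U.o j)
      Hs_card := fun j => h3 (U.o j)
      Hs_local := fun j => h4 (U.o j)
      Hs_comp := fun j => h5 (U.o j)
      Hs_inj := fun j => h6 (U.o j) }⟩

variable {K'}

theorem cyc_of_setupU675 {ℓ : ℕ} {Φ : HeckeEigensystem K' ℂ} {U : H29.UpData K'}
    (hs : IsSetupU675 ℓ Φ U) : T5.IsCyclicOfDegree U.s ℓ U.k := by
  have h := hs.data.cyc
  have hd := hs.data.deg
  rw [← hd]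
  exact h

/-- The functions of `W` are invariant under the local Iwahori elements at every place of the
orbit (port of `H276.wfn_inv_local276`). -/
theorem wfn_inv_localU675 {ℓ : ℕ} {Φ : HeckeEigensystem K' ℂ} {U : H29.UpData K'}
    (hs : IsSetupU675 ℓ Φ U) {ψ : G K' → ℂ}
    (hψ : IsWFn U.𝔑₀ U.R'.r ℓ U.o ψ) (j : ℕ) (u : G K') (hu : IsLocalAtFin (U.o j) u)
    (hI : T5.InIwahori (U.o j) u) (x : G K') : ψ (x * u) = ψ x := by
  obtain ⟨j₀, hj₀, e⟩ :=
    H276.orbit_mem276 U.s ℓ U.k (cyc_of_setupU675 hs) U.o hs.data.orbit_rel j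
  rw [e] at hu hI
  exact H276.iwInv_local276 hψ.iw hj₀ hu hI x

variable (K')

/-- **Leaf B4.3 `OpsRel`, core form, CLOSED** (port of `H276.opsRelC276`, helper276). -/
theorem opsRelUC675_closed : OpsRelUC675 K' := by
  intro ℓ Φ U hs Hs ω hsys j ψ hψ x
  have hH : H276.IsSys276 (U.o j) (Hs j) :=
    ⟨hsys.Hs_card j, hsys.Hs_local j, hsys.Hs_comp j, hsys.Hs_inj j⟩
  constructor
  · have h := H276.quad_rel276 hH (wfn_inv_localU675 hs hψ j) x
    rw [H276.absNorm_orbit276 U.s U.o hs.data.orbit_rel j] at h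
    exact h
  · obtain ⟨c, -, hω⟩ := hsys.ω_comp j
    have hz : finComp (U.o j) (ω j * ω j) = Matrix.diagonal (fun _ => c) := by
      rw [H276.finComp_mul276, hω, H276.omega_sq276]
    have hcen := H276.central_of_scalar276 (U.o j)
      (isLocalAtFin_mul129 (hsys.ω_local j) (hsys.ω_local j)) hz
    show ∑ h ∈ Hs j, ψ (x * ω j * ω j * h) = ∑ h ∈ Hs j, ψ (x * h * ω j * ω j)
    refine Finset.sum_congr rfl (fun h _ => ?_)
    have e : x * ω j * ω j * h = x * h * ω j * ω j := by
      rw [mul_assoc x (ω j) (ω j), mul_assoc x (ω j * ω j) h, hcen h, ← mul_assoc, ← mul_assoc]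
    rw [e]

/-- **Leaf B5 `Phi`, core form, CLOSED** (port of `H271.phiC271`, helper271). -/
theorem phiUC675_closed : PhiUC675 K' := by
  intro ℓ _ hcplx Φ hΦ U hU
  obtain ⟨φ, hφ⟩ := hΦ
  have hray : T5.IsRayGen U.R'.r := hU.frame'.ray
  refine ⟨φ, ⟨⟨⟨hφ.cont, hφ.bdd, ⟨fun γ g => hφ.left_inv γ g,
    fun u hu g => hφ.level_inv u (H271.inLevelGroup_mono271 hU.level_le hu) g, ?_,
    fun g => H271.ray_inv271 hφ hray g⟩, hφ.cuspidal⟩, hφ.arch_scalar, ?_⟩, ?_, ?_⟩, hφ.ne_zero⟩
  · -- trivial type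
    intro w k hk g
    rw [hφ.arch_compact w k hk g]
    simp [T5.trivType]
  · -- Iwahori subgroups along the orbit
    intro h hinf hfin hiw x
    exact hφ.level_inv h (H271.inLevelGroup_of_iw271 ℓ U.o hU.orbit_good hinf hfin hiw) x
  · -- Hecke eigenfunction outside the base level
    intro v hv
    have hv' : ¬ v.asIdeal ∣ Φ.level := fun hd =>
      hv (dvd_trans hd (Ideal.dvd_iff_le.2 hU.level_le))
    exact hφ.hecke v hv'
  · -- sphere means
    intro w d hd Y hY g
    exact hφ.mean_complex w (hcplx w) d hd Y hY g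

/-- **Leaf CM.02 `Nontriv` of the cut of `ClassModelUC`, core form, CLOSED** (the statement of
`PhiUC675` in the context `CMU675.CtxU675`). -/
theorem nontrivUC675_closed : CMU675.NontrivUC675 K' :=
  fun ℓ Φ U c => phiUC675_closed K' ℓ c.prime c.cplx Φ c.cusp U c.data

end Fermat.Agent.LT.T7.UB675

end

end
-- ===== PACK-END LT/T7/H675/LeavesU1.lean

-- ===== PACK-BEGIN LT/T7/H675/LeavesU2.lean
section






/-!
# Row LT, tower T7, registry 2152 (helper675): FOUR MORE LEAVES OF THE CUT UNDER `OpsUC675`,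
# CLOSED IN CORE FORM (ports of the closed cyclic leaves)

OFF-MAIN.  UNCONDITIONAL.  No hole, nothing assumed.  ADDITIVE (new names ending in `675`).

    opsEigUC675_closed  : UB675.OpsEigUC675 K'    (port of helper16  `opsEigC561_16`)
    opsCommUC675_closed : UB675.OpsCommUC675 K'   (port of helper929 `opsCommC929`)
    opsPerUC675_closed  : UB675.OpsPerUC675 K'    (port of helper346 `opsPerC346`)
    opsSigUC675_closed  : UB675.OpsSigUC675 K'    (port of helper215 `opsSigC215`)

Each proof is the adapter of the owner after the renaming `Dt ↦ U`; the one-field lemmas of the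
owners are used as they are.
-/

set_option autoImplicit false
set_option linter.unusedSectionVars false

open AutomorphicForm IsDedekindDomain NumberField MeasureTheory
open IsDedekindDomain.HeightOneSpectrum

noncomputable section

namespace Fermat.Agent.LT.T7.UB675

open Fermat.Agent.LT.H556 Fermat.Agent.LT.H556.A0 Fermat.Agent.LT.T5 Fermat.Agent.LT.H129
open Fermat.Agent.LT.T7 Fermat.Agent.LT.T7.H561

attribute [local instance] Fermat.Agent.LT.T5.instMeasurableSpaceG

variable (K' : Type) [Field K'] [NumberField K']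

/-- **Leaf B4.2 `OpsEig`, core form, CLOSED** (port of `H16.opsEigC561_16`, helper16). -/
theorem opsEigUC675_closed : OpsEigUC675 K' := by
  intro ℓ Φ U hs Hs ω hsys j ψ C hψ
  have hU := hs.data
  have hr : IsRayGen U.R'.r := hU.frame'.ray
  have hcyc : IsCyclicOfDegree U.s U.l U.k := hU.cyc
  obtain ⟨i, hi, e⟩ := H16.orbit_mem16 U.s U.l U.k hcyc U.o hU.orbit_rel j
  have hi' : i < ℓ := by rw [← hU.deg]; exact hi
  have hu : (U.o j).asIdeal ∣ U.𝔑₀ := (hU.mem_S' _).1 (hU.orbit_level j)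
  have hpre := H439.isPre_of_eig439 hψ
  have hψI : ∀ k : G K', IsLocalAtFin (U.o j) k → InIwahori (U.o j) k →
      ∀ x : G K', ψ (x * k) = ψ x := H16.iwInv_local16 hψ.inv.iw hi' e
  have hlink := (H16.isIwCosetSystem_link16 (U.o j) (Hs j) (ω j) (hsys.ω_local j)
    (hsys.ω_comp j) (hsys.Hs_card j) (hsys.Hs_local j) (hsys.Hs_comp j) (hsys.Hs_inj j)).1
  have hjI : ∀ k : G K', (∀ j' < ℓ, InIwahori (U.o j') k) → InIwahori (U.o j) k := by
    intro k hk
    rw [e]
    exact hk i hi'
  refine ⟨?_, ?_⟩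
  · have hpreS : H439.IsPre439 U.𝔑₀ U.R'.r C (cosetOp (Hs j) ψ) := by
      have e1 : cosetOp (Hs j) ψ = ∑ h ∈ Hs j, fun x => ψ (x * h) := by
        funext x
        show ∑ h ∈ Hs j, ψ (x * h) = (∑ h ∈ Hs j, fun x => ψ (x * h)) x
        rw [Finset.sum_apply]
      rw [e1]
      exact H439.isPre_sum439 _ _ fun h hh =>
        H439.isPre_translate439 hpre hr hu (hsys.Hs_local j h hh)
    refine H439.isEig_of_pre439 hpreS (fun k hk x => ?_) ?_
    · exact H16.cosetOp_inv16 (hsys.ω_local j) (hsys.ω_comp j) (hsys.Hs_local j) hlink hψI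
        (H439.inIwahori_of_level439 hu hk)
        (fun k' h1 h2 h3 g => hψ.inv.cusp.aut.level_inv k'
          (H16.inLevelGroup_away16 hk h1 h2 h3) g) x
    · intro k hkinf hkout hkI x
      exact H16.cosetOp_inv16 (hsys.ω_local j) (hsys.ω_comp j) (hsys.Hs_local j) hlink hψI
        (hjI k hkI)
        (fun k' h1 h2 h3 g => H16.iwCond_away16 hψ.inv.iw hkinf hkout hkI h1 h2 h3 g) x
  · have hpreR : H439.IsPre439 U.𝔑₀ U.R'.r C (H561.trOp561 (ω j) ψ) :=
      H439.isPre_translate439 hpre hr hu (hsys.ω_local j)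
    refine H439.isEig_of_pre439 hpreR (fun k hk x => ?_) ?_
    · exact H16.trOp_inv16 (hsys.ω_local j) (hsys.ω_comp j) hψI
        (H439.inIwahori_of_level439 hu hk)
        (fun k' h1 h2 h3 g => hψ.inv.cusp.aut.level_inv k'
          (H16.inLevelGroup_away16 hk h1 h2 h3) g) x
    · intro k hkinf hkout hkI x
      exact H16.trOp_inv16 (hsys.ω_local j) (hsys.ω_comp j) hψI (hjI k hkI)
        (fun k' h1 h2 h3 g => H16.iwCond_away16 hψ.inv.iw hkinf hkout hkI h1 h2 h3 g) x

/-- **Leaf B4.4 `OpsComm`, core form, CLOSED** (port of `H929.opsCommC929`, helper929). -/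
theorem opsCommUC675_closed : OpsCommUC675 K' := by
  intro ℓ Φ U hs Hs ω hsys j j' hj hj' hjj ψ x
  have hne : U.o j ≠ U.o j' :=
    H929.orbit_ne929 U.s U.o ℓ hs.data.orbit_rel hs.data.orbit_ne hj hj' hjj
  have cHH : ∀ h ∈ Hs j, ∀ h' ∈ Hs j', h * h' = h' * h := fun h hh h' hh' =>
    H929.comm_of_local929 hne (hsys.Hs_local j h hh) (hsys.Hs_local j' h' hh')
  have cHω : ∀ h ∈ Hs j, h * ω j' = ω j' * h := fun h hh =>
    H929.comm_of_local929 hne (hsys.Hs_local j h hh) (hsys.ω_local j')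
  have cωω : ω j * ω j' = ω j' * ω j :=
    H929.comm_of_local929 hne (hsys.ω_local j) (hsys.ω_local j')
  refine ⟨?_, ?_, ?_⟩
  · show ∑ h ∈ Hs j, ∑ h' ∈ Hs j', ψ (x * h * h') = ∑ h' ∈ Hs j', ∑ h ∈ Hs j, ψ (x * h' * h)
    rw [Finset.sum_comm]
    refine Finset.sum_congr rfl fun h' hh' => Finset.sum_congr rfl fun h hh => ?_
    rw [mul_assoc, mul_assoc, cHH h hh h' hh']
  · show ∑ h ∈ Hs j, ψ (x * h * ω j') = ∑ h ∈ Hs j, ψ (x * ω j' * h)
    refine Finset.sum_congr rfl fun h hh => ?_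
    rw [mul_assoc, mul_assoc, cHω h hh]
  · show ψ (x * ω j * ω j') = ψ (x * ω j' * ω j)
    rw [mul_assoc, mul_assoc, cωω]

/-! ### OPS-PER -/

section Per

variable {K'}

theorem pos_U675 {ℓ : ℕ} {Φ : HeckeEigensystem K' ℂ} {U : H29.UpData K'}
    (hU : H29.IsUpData ℓ Φ U) : 0 < ℓ := by
  rw [← hU.deg]
  exact hU.cyc.pos

/-- `o (j + ℓ) = o j`. -/
theorem orbit_add_U675 {ℓ : ℕ} {Φ : HeckeEigensystem K' ℂ} {U : H29.UpData K'}
    (hU : H29.IsUpData ℓ Φ U) (j : ℕ) : U.o (j + ℓ) = U.o j := by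
  have h := T5.H415.orbit_period415 U.s U.l U.k hU.cyc (fun n => U.o (j + n))
    (fun n => hU.orbit_rel (j + n))
  rw [hU.deg] at h
  simpa using h

/-- `o j = o (j mod ℓ)`. -/
theorem orbit_mod_U675 {ℓ : ℕ} {Φ : HeckeEigensystem K' ℂ} {U : H29.UpData K'}
    (hU : H29.IsUpData ℓ Φ U) (j : ℕ) : U.o j = U.o (j % ℓ) := by
  have key : ∀ m r : ℕ, U.o (r + ℓ * m) = U.o r := by
    intro m
    induction m with
    | zero => intro r; simp
    | succ m ih =>
      intro r
      rw [Nat.mul_succ, ← add_assoc, orbit_add_U675 hU, ih]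
  conv_lhs => rw [← Nat.mod_add_div j ℓ]
  exact key _ _

/-- A function invariant under the Iwahori subgroups along the orbit is invariant under the
Iwahori subgroup at `o j` for EVERY `j`. -/
theorem iwInv_at_U675 {ℓ : ℕ} {Φ : HeckeEigensystem K' ℂ} {U : H29.UpData K'}
    (hU : H29.IsUpData ℓ Φ U) {ψ : G K' → ℂ} (hψ : IsIwInv ℓ U.o ψ) (j : ℕ) (g : G K')
    (hl : IsLocalAtFin (U.o j) g) (hI : T5.InIwahori (U.o j) g) (x : G K') :
    ψ (x * g) = ψ x := by
  refine hψ g hl.1 ?_ ?_ x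
  · intro v hv
    apply hl.2
    rw [orbit_mod_U675 hU j]
    exact hv (j % ℓ) (Nat.mod_lt _ (pos_U675 hU))
  · intro j' _
    by_cases e : U.o j' = U.o j
    · rw [e]
      exact hI
    · exact H346.inIwahori_of_triv346 _ (hl.2 _ e)

end Per

/-- **Leaf B4.5 `OpsPer`, core form, CLOSED** (port of `H346.opsPerC346`, helper346). -/
theorem opsPerUC675_closed : OpsPerUC675 K' := by
  intro ℓ Φ U hs Hs ω hsys j ψ hψ x
  have hU := hs.data
  have hper : U.o (j + ℓ) = U.o j := orbit_add_U675 hU j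
  have hinv : ∀ g : G K', IsLocalAtFin (U.o j) g → T5.InIwahori (U.o j) g →
      ∀ x : G K', ψ (x * g) = ψ x := fun g hl hI x => iwInv_at_U675 hU hψ.iw j g hl hI x
  constructor
  · exact H346.cosetOp_indep_eq346 (U.o j) (U.o (j + ℓ)) hper
      ⟨hsys.Hs_card j, hsys.Hs_local j, hsys.Hs_comp j, hsys.Hs_inj j⟩
      ⟨hsys.Hs_card (j + ℓ), hsys.Hs_local (j + ℓ), hsys.Hs_comp (j + ℓ), hsys.Hs_inj (j + ℓ)⟩
      ψ hinv x
  · exact H346.trOp_indep_eq346 (U.o j) (U.o (j + ℓ)) hper
      ⟨hsys.ω_local j, hsys.ω_comp j⟩ ⟨hsys.ω_local (j + ℓ), hsys.ω_comp (j + ℓ)⟩ ψ hinv x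

/-- **Leaf B4.7 `OpsSig`, core form, CLOSED** (port of `H215.opsSigC215`, helper215). -/
theorem opsSigUC675_closed : OpsSigUC675 K' := by
  intro ℓ Φ U hs _ Hs ω hsys j ψ hψ x
  have hU := hs.data
  have hcyc : IsCyclicOfDegree U.s ℓ U.k := by
    have h1 := hU.cyc
    rw [hU.deg] at h1
    exact h1
  have hrel := hU.orbit_rel
  have hinv : ∀ u : G K', IsLocalAtFin (U.o j) u → InIwahori (U.o j) u →
      ∀ y : G K', ψ (y * u) = ψ y :=
    fun u hu hI y => H215.iwInv_local215 U.s ℓ U.k hcyc U.o hrel ψ hψ.iw j u hu hI y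
  constructor
  · show ∑ h ∈ Hs j, ψ (U.s.onGinv x * h)
      = ∑ h ∈ Hs (j + 1), ψ (U.s.onGinv (x * h))
    simp only [map_mul]
    refine H215.cosetSum_eq215 (U.o j) (Hs j) (Hs (j + 1)) (fun h => U.s.onGinv h)
      (hsys.Hs_card j) ?_ (hsys.Hs_comp j) (hsys.Hs_local j) (hsys.Hs_inj j) ?_ ?_ ?_ ψ hinv _
    · rw [hsys.Hs_card (j + 1)]
      exact H215.absNorm_placeRel215 U.s _ _ (hrel j)
    · intro h hh
      obtain ⟨a, ha, hM⟩ := hsys.Hs_comp (j + 1) h hh
      exact H215.finComp_onGinv_s215 U.s _ _ (hrel j) h a ha hM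
    · intro h hh
      exact H215.isLocalAtFin_onGinv215 U.s _ _ (hrel j) h (hsys.Hs_local (j + 1) h hh)
    · intro h₁ hh₁ h₂ hh₂ hne hI
      apply hsys.Hs_inj (j + 1) h₁ hh₁ h₂ hh₂ hne
      have e : (U.s.onGinv h₁)⁻¹ * U.s.onGinv h₂ = U.s.onGinv (h₁⁻¹ * h₂) := by
        rw [map_mul, map_inv]
      have hI' : InIwahori (U.o j) (U.s.onGinv (h₁⁻¹ * h₂)) := by
        rw [← e]
        exact hI
      exact (H215.inIwahori_onGinv215 U.s _ _ (hrel j) _).1 hI'
  · show ψ (U.s.onGinv x * ω j) = ψ (U.s.onGinv (x * ω (j + 1)))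
    rw [map_mul]
    obtain ⟨c, hc, hM⟩ := hsys.ω_comp j
    obtain ⟨c₁, hc₁, hM₁⟩ := hsys.ω_comp (j + 1)
    obtain ⟨b, hb, hMb⟩ := H215.finComp_onGinv_w215 U.s _ _ (hrel j) (ω (j + 1)) c₁ hc₁ hM₁
    have hcne : c ≠ 0 := by
      rintro rfl
      rw [map_zero] at hc
      exact WithZero.exp_ne_zero hc.symm
    have hu := H215.finComp_inv_mul_w215 (U.o j) (ω j) (U.s.onGinv (ω (j + 1))) c b hcne hM hMb
    have he : Valued.v (c⁻¹ * b) = 1 := by
      rw [map_mul, map_inv₀, hc, hb]
      exact inv_mul_cancel₀ WithZero.exp_ne_zero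
    have hI := H215.inIwahori_diag215 (U.o j) _ _ he hu
    have hloc := H215.isLocalAtFin_inv_mul215 (U.o j) (ω j) (U.s.onGinv (ω (j + 1)))
      (hsys.ω_local j) (H215.isLocalAtFin_onGinv215 U.s _ _ (hrel j) _ (hsys.ω_local (j + 1)))
    have h1 := hinv _ hloc hI (U.s.onGinv x * ω j)
    rw [← h1]
    congr 1
    group

end Fermat.Agent.LT.T7.UB675

end

end
-- ===== PACK-END LT/T7/H675/LeavesU2.lean

-- ===== PACK-BEGIN LT/T7/H771/SupplyPreTopNe.lean
section



/-!
# Row LT, tower T7, node T7.L2.1: the top of the THIRD CUT with the CORRECTED leaf G1 (helper771)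

OFF-MAIN.  `H893.RegSuppC` is false as typed (`regSuppC_false771`); the proofs of
`SupplyPreTop.lean` (helper893, 8fcaa232) are repeated here with `RegSuppNeC771` (the hypothesis
`orbit_ne` is the field `IsL2Base.orbit_ne`), and both support leaves are DISCHARGED:

    preC_of_ne771      : PreGeoC P K K' → RegSuppNeC771 K' → RegSupp0C K → PreC P K K'
    preC_of_geo771     : PreGeoC P K K' → PreC P K K'
    supplySC_of_geo771 : SetupC → ProjC K' → ProjC K → PreGeoC P → (8 leaves of the second cut)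
                           → SupplySC P K K'
-/

set_option autoImplicit false

open AutomorphicForm IsDedekindDomain NumberField MeasureTheory
open scoped ComplexConjugate

noncomputable section

namespace Fermat.Agent.LT.T7.H771

open Fermat.Agent.LT.H556 Fermat.Agent.LT.H556.A0 Fermat.Agent.LT.T7 Fermat.Agent.LT.T7.H893

attribute [local instance] Fermat.Agent.LT.T5.instMeasurableSpaceG

section Top

variable {P : EKCond}
variable {K K' : Type} [Field K] [NumberField K] [Field K'] [NumberField K'] [Algebra K K']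

/-- **Regularity upstairs from the supports**: one depth for every word. -/
theorem exists_depth_up771 {ℓ : ℕ} {Φ : HeckeEigensystem K' ℂ} {B : L2Base K K'}
    (hB : IsL2Base ℓ Φ B) {g : G K'} (hg : B.IsBad g) {E : L2Pre K K'}
    (hOp : IsL2PreOp ℓ Φ B g E) (hSupp : IsL2PreSupp ℓ B E) (hR : RegSuppNeC771 K') (hℓ : 0 < ℓ) :
    ∃ mu : List (Gen K') → ℕ, ∀ (X : List (Gen K')) (k : ℤ) (m : ℕ),
      (∀ x ∈ X, x.Out B.S') → mu X ≤ m → T5.IsTwRegular B.s B.l B.k (E.up B X k m) := by
  have hdeg := hB.deg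
  subst hdeg
  obtain ⟨C₂, hC₂, hφ₂⟩ := hSupp.up2_supp
  obtain ⟨C₂', hC₂', hreg⟩ := hR B.𝔑₀ B.l B.o hℓ
    (fun j => (hB.mem_S' _).1 (hB.orbit_level j)) hB.orbit_ne g hg.1
    (fun j hj => hg.2 (B.o j) (Or.inr ⟨j, hj, rfl⟩)) E.Hg E.H' E.z' hOp.sysg hOp.sys' hOp.unif'
    E.φ₂ C₂ hC₂ hφ₂
  have hex : ∀ X : List (Gen K'), ∃ mu : ℕ, (∀ x ∈ X, x.Out B.S') →
      ∀ (k : ℤ) (m : ℕ), mu ≤ m → T5.IsTwRegular B.s B.l B.k (E.up B X k m) := by
    intro X
    by_cases hX : ∀ x ∈ X, x.Out B.S'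
    · obtain ⟨C₁, hC₁, hΦ₁⟩ := hSupp.up1_supp X hX
      obtain ⟨m₀, hm₀⟩ := T5.H32.exists_depth_conv32 hB.cyc B.o hB.orbit_rel hB.orbit_ne
        hC₁ hC₂' B.R'.μ
      exact ⟨m₀, fun _ k m hm => (hm₀ m hm (E.Φ₁ X) _ hΦ₁ (hreg k m)).1⟩
    · exact ⟨0, fun h => absurd h hX⟩
  choose mu hmu using hex
  exact ⟨mu, fun X k m hX hm => hmu X hX k m hm⟩

/-- **THE TOP OF THE THIRD CUT**: the pre-data from the construction with matching, and the two
support leaves. -/
theorem preC_of_ne771 (h0 : PreGeoC P K K') (hR : RegSuppNeC771 K') (hR0 : RegSupp0C K) :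
    PreC P K K' := by
  intro ℓ hcyc hℓ hcplx Φ hΦ hconst hPΦ B hB g hg
  obtain ⟨E, hOp, hSupp, m₂, hM⟩ := h0 ℓ hcyc hℓ hcplx Φ hΦ hconst hPΦ B hB g hg
  obtain ⟨mu, hmu⟩ := exists_depth_up771 hB hg hOp hSupp hR hcyc.prime.pos
  obtain ⟨md, hmd⟩ := H893.exists_depth_down893 hOp hSupp hR0
  refine ⟨{ E with m₀ := fun X => max (m₂ X) (max (mu X) (md X)) }, ?_⟩
  exact
    { level_ne := hOp.level_ne
      level_g := hOp.level_g
      mem_S'_g := hOp.mem_S'_g
      u_level := hOp.u_level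
      sysg := hOp.sysg
      sys' := hOp.sys'
      unif' := hOp.unif'
      sys := hOp.sys
      unif := hOp.unif
      up1_test := hOp.up1_test
      up1_ek := hOp.up1_ek
      up1_op := hOp.up1_op
      up2_test := hOp.up2_test
      up2_ek := hOp.up2_ek
      up2_inv := hOp.up2_inv
      up2_op := hOp.up2_op
      up2_kill := hOp.up2_kill
      up_ne := hOp.up_ne
      dn1_test := hOp.dn1_test
      dn1_ek := hOp.dn1_ek
      dn1_op := hOp.dn1_op
      dn1_wfn := hOp.dn1_wfn
      dn1_class := hOp.dn1_class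
      dn1_comm := hOp.dn1_comm
      dn2_test := hOp.dn2_test
      dn2_ek := hOp.dn2_ek
      dn2_inv := hOp.dn2_inv
      dn2_wfn := hOp.dn2_wfn
      dn2_class := hOp.dn2_class
      dn2_comm := hOp.dn2_comm
      dn2_kill := hOp.dn2_kill
      reg_up := fun X k m hX hm =>
        hmu X k m hX (le_trans (le_trans (le_max_left _ _) (le_max_right _ _)) hm)
      reg_down := fun X k m hX hm =>
        hmd X k m hX (le_trans (le_trans (le_max_right _ _) (le_max_right _ _)) hm)
      matched := fun X k m hX hm => hM X k m hX (le_trans (le_max_left _ _) hm) }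

/-- **The pre-data from the construction with matching ALONE** (both support leaves closed). -/
theorem preC_of_geo771 (h0 : PreGeoC P K K') : PreC P K K' :=
  preC_of_ne771 h0 (regSuppNeC771 K') (regSupp0C771 K)

/-- **THE STABLE SUPPLY from the leaves of the three cuts**, support leaves closed. -/
theorem supplySC_of_geo771 (hS : SetupC K K') (hP' : ProjC K') (hP : ProjC K)
    (h0 : PreGeoC P K K')
    (h1 : EkProdUpC K K') (h2 : EkProdDownC K K') (h3 : OpUpC K K') (h4 : KillUpC K K')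
    (h5 : OpDownC K K') (h6 : ClassDownC K K') (h7 : CommDownC K K') (h8 : KillDownC K K') :
    SupplySC P K K' :=
  supplySC_of_leaves893 hS hP' hP (preC_of_geo771 h0) h1 h2 h3 h4 h5 h6 h7 h8

end Top

end Fermat.Agent.LT.T7.H771

end

end
-- ===== PACK-END LT/T7/H771/SupplyPreTopNe.lean

-- ===== PACK-BEGIN LT/T7/H811/OpUpQClosed.lean
section



/-!
# Row LT, tower T7, leaf T7.L2Q.1.F3 `OpUpQC732` (registry 2316): CLOSED -- helper811, OFF-MAIN

`opUpQC811 F : H732.OpUpQC732 F`, VERBATIM against `LT/T7/H732/SupplyQFamSpec.lean`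
(helper732@d2eb0c98b, sha256 7e4f04b4), UNCONDITIONAL.

    opUpQC811 = opUpQC_of811 A B C D S I        (top: `H811/OpUpQ.lean`)

with the six sub-leaves of helper281 for the field `F`, exactly as in `H281/OpUp.lean`
(helper281@ac5223b4d): `rconvOpsC281`, `translEigC281`, `iwInvC281`, `dblInvC281` (helper281),
`H510.shiftInvC_h510` (helper510), `H271.indepC271` (helper271); all files byte-identical copies.
-/

set_option autoImplicit false

open IsDedekindDomain NumberField

noncomputable section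

namespace Fermat.Agent.LT.T7.H811

/-- **LEAF T7.L2Q.1.F3 `OpUpQC732`**, unconditional. -/
theorem opUpQC811 (F : Type) [Field F] [NumberField F] : Fermat.Agent.LT.T7.H732.OpUpQC732 F :=
  opUpQC_of811 (Fermat.Agent.LT.T7.H281.rconvOpsC281 F) (Fermat.Agent.LT.T7.H281.translEigC281 F)
    (Fermat.Agent.LT.T7.H281.iwInvC281 F) (Fermat.Agent.LT.T7.H281.dblInvC281 F)
    (Fermat.Agent.LT.T7.H510.shiftInvC_h510 F) (Fermat.Agent.LT.T7.H271.indepC271 F)

end Fermat.Agent.LT.T7.H811

end

end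
-- ===== PACK-END LT/T7/H811/OpUpQClosed.lean

-- ===== PACK-BEGIN LT/T7/H893/SupplyConstrTop2.lean
section




/-!
# Row LT, tower T7, node T7.L2.1 `SupplySC` (sub-architect helper893): FIFTH CUT, v2 -- tops

OFF-MAIN.  No `sorry`, nothing assumed.  ADDITIVE.

    exists_goodKap893b : GlobMatchC893 K K' → ∃ κ, (κ nowhere zero) ∧ GoodKap893b κ
    globC_of893b       : GoodKap893b κ → AvgMatchC893 K K' → GlobC K K' (Mt893b κ)
    constrRC_of893b    : BaseCb P K K' → ProdMtCb K K' κ → ConstrRC P K K' (Mt893b κ)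
-/

set_option autoImplicit false

open AutomorphicForm IsDedekindDomain NumberField MeasureTheory
open scoped ComplexConjugate

noncomputable section

namespace Fermat.Agent.LT.T7.H893

open Fermat.Agent.LT.H556 Fermat.Agent.LT.H556.A0 Fermat.Agent.LT.T7
open Fermat.Agent.LT.T7.H305

attribute [local instance] Fermat.Agent.LT.T5.instMeasurableSpaceG

section Top

variable {P : EKCond}
variable {K K' : Type} [Field K] [NumberField K] [Field K'] [NumberField K'] [Algebra K K']

/-- **The constants of the matching theorem (v2), chosen**: nowhere zero and good. -/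
theorem exists_goodKap893b (hG : GlobMatchC893 K K') :
    ∃ κ : KapFn K K', (∀ D μc T₀ n m, κ D μc T₀ n m ≠ 0) ∧ GoodKap893b κ := by
  classical
  have hex : ∀ (D : CompData K K') (μc : @Measure (GL (Fin 2) ℂ) (borel _))
      (T₀ : Finset (HeightOneSpectrum (𝓞 K)))
      (n : HeightOneSpectrum (𝓞 K') → ℕ) (m : HeightOneSpectrum (𝓞 K) → ℕ),
      ∃ κ : ℂ, κ ≠ 0 ∧ (KapHyp893 D μc T₀ n m →
        ∀ (T : Finset (HeightOneSpectrum (𝓞 K))) (T' : Finset (HeightOneSpectrum (𝓞 K'))),
          T₀ ⊆ T → IsOver305 T T' →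
        ∀ (φ₀ : ∀ w : HeightOneSpectrum (𝓞 K'), GL (Fin 2) (w.adicCompletion K') → ℂ)
          (Φ : InfinitePlace K' → GL (Fin 2) ℂ → ℂ)
          (f₀ : ∀ v : HeightOneSpectrum (𝓞 K), GL (Fin 2) (v.adicCompletion K) → ℂ)
          (F : InfinitePlace K → GL (Fin 2) ℂ → ℂ),
          LocHyp893 D μc T n m φ₀ Φ f₀ F →
          ∀ (φ' : G K' → ℂ) (f : G K → ℂ),
            (∀ h : G K', φ' h = pure305 T' φ₀ Φ h) →
            (∀ h : G K, f h = κ * pure305 T f₀ F h) →
            T5.IsTestFn D.𝔑 T5.trivType φ' → T5.IsTestFn D.𝔫 T5.trivType f →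
            IsGlobMatch D φ' f) := by
    intro D μc T₀ n m
    by_cases h : KapHyp893 D μc T₀ n m
    · obtain ⟨κ, hκ, hM⟩ := hG D h.1 h.2.1 h.2.2.1 h.2.2.2.1 μc h.2.2.2.2.1 T₀ h.2.2.2.2.2.1
        n m h.2.2.2.2.2.2
      exact ⟨κ, hκ, fun _ => hM⟩
    · exact ⟨1, one_ne_zero, fun h' => absurd h' h⟩
  choose κ hκ hM using hex
  refine ⟨κ, hκ, ?_⟩
  intro D hD hcyc hl hcplx μc hμc T₀ hT₀ n m hnm
  exact hM D μc T₀ n m ⟨hD, hcyc, hl, hcplx, hμc, hT₀, hnm⟩

/-- **THE MATCHING THEOREM for the relation of record (v2)**, from the constants of the matching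
theorem for pure tensors and the closure under averages. -/
theorem globC_of893b {κ : KapFn K K'} (hκ : GoodKap893b κ) (hA : AvgMatchC893 K K') :
    GlobC K K' (Mt893b κ) := by
  intro ℓ Φ hcyc hℓ hcplx B hB 𝔫 h𝔫 φ' f hMt _ _ _ _
  have hD : IsCompData (B.comp 𝔫) := isCompData_comp893 hB h𝔫
  have hdeg : (B.comp 𝔫).l = ℓ := hB.deg
  have hcyc' : IsCycExt K K' (B.comp 𝔫).l := by rw [hdeg]; exact hcyc
  have hℓ' : (B.comp 𝔫).l ≠ 2 := by rw [hdeg]; exact hℓ
  obtain ⟨μc, T₀, n, m, hμc, hT₀, hnm, Ω, iT, iC, i2, iS, iM, iB, ν, iF, T, T', φ₀, Φc, f₀,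
    Fc, hL, ht', ht, hc', hc, hs', hs, hφ', hf⟩ := hMt
  have hmatch : ∀ a : Ω, IsGlobMatch (B.comp 𝔫) (pure305 (T' a) (φ₀ a) (Φc a))
      (fun h => κ (B.comp 𝔫) μc T₀ n m * pure305 (T a) (f₀ a) (Fc a) h) := fun a =>
    hκ (B.comp 𝔫) hD hcyc' hℓ' hcplx μc hμc T₀ hT₀ n m hnm (T a) (T' a) (hL a).1 (hL a).2.1
      (φ₀ a) (Φc a) (f₀ a) (Fc a) (hL a).2.2 _ _ (fun _ => rfl) (fun _ => rfl) (ht' a) (ht a)
  have hs2 : ∃ C : Set (G K), IsCompact C ∧ ∀ (a : Ω) (h : G K),
      κ (B.comp 𝔫) μc T₀ n m * pure305 (T a) (f₀ a) (Fc a) h ≠ 0 → h ∈ C := by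
    obtain ⟨C, hC, hCs⟩ := hs
    exact ⟨C, hC, fun a h hne => hCs a h (right_ne_zero_of_mul hne)⟩
  have key := hA (B.comp 𝔫) hD hcyc' hℓ' hcplx Ω iT iC i2 iS iM iB ν iF
    (fun a => pure305 (T' a) (φ₀ a) (Φc a))
    (fun a h => κ (B.comp 𝔫) μc T₀ n m * pure305 (T a) (f₀ a) (Fc a) h)
    ht' ht hc' hc hs' hs2 hmatch
  have e1 : φ' = fun h => ∫ a, pure305 (T' a) (φ₀ a) (Φc a) h ∂ν := funext hφ'
  have e2 : f = fun h => ∫ a, κ (B.comp 𝔫) μc T₀ n m * pure305 (T a) (f₀ a) (Fc a) h ∂ν :=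
    funext hf
  rw [e1, e2]
  exact key

/-- **THE TOP OF THE FIFTH CUT (v2)**: the construction with families in the relation of record
from the base node and the calculus of pure tensors. -/
theorem constrRC_of893b {κ : KapFn K K'} (hBase : BaseCb P K K') (hProd : ProdMtCb K K' κ) :
    ConstrRC P K K' (Mt893b κ) := by
  intro ℓ hcyc hℓ hcplx Φ hΦ hconst hPΦ B hB hRam g hg
  obtain ⟨𝔫, μc, hμc, hE⟩ := hBase ℓ hcyc hℓ hcplx Φ hΦ hconst hPΦ B hB hRam g hg
  obtain ⟨a, ha, hM⟩ := hProd ℓ hcyc hℓ hcplx Φ B hB hRam g hg 𝔫 μc hμc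
  obtain ⟨E, h𝔫, hOp, hSupp, hDec⟩ := hE a ha
  refine ⟨E, hOp, hSupp, fun X k m hX => ?_⟩
  have := hM E h𝔫 hOp hDec X k m hX
  rw [h𝔫]
  exact this

end Top

end Fermat.Agent.LT.T7.H893

end

end
-- ===== PACK-END LT/T7/H893/SupplyConstrTop2.lean

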