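import Mathlib
import Fermat.Agent.Pack.LT3.E0L0
import Fermat.Agent.Pack.LT3.E28L1
import Fermat.Agent.Pack.LT3.E28L2
import Fermat.Agent.Pack.LT3.E27L1
import Fermat.Agent.Pack.LT3.E28L3
import Fermat.Agent.Pack.LT3.E23L0
import Fermat.Agent.Pack.LT3.E25L0
import Fermat.Agent.Pack.LT3.E24L3
import Fermat.Agent.Pack.LT3.E25L1
import Fermat.Agent.Pack.LT3.E25L3
import Fermat.Agent.Pack.LT3.E25L2
import Fermat.Agent.Pack.LT3.E27L0
import Fermat.Agent.Pack.LT3.E27L3
import Fermat.Agent.Pack.LT3.E2L0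
import Fermat.Agent.Pack.LT3.E26L0
import Fermat.Agent.Pack.LT3.E20L3
import Fermat.Agent.Pack.LT3.E21L1
import Fermat.Agent.Pack.LT3.E26L3
import Fermat.Agent.Pack.LT3.E26L1

set_option linter.all false

-- ===== PACK-BEGIN LT/CFT/H983/Inert.lean
section




/-!
# Row LT, tower CFT, sub-tower EX, row E1.C (helper476), leaf E1.C.1 `InertC` (helper983)

`inertC983 : EQ.InertC`, VERBATIM against `H476/EQSpec.lean`, UNCONDITIONAL.
Proof: `δ = √(j u) ∉ j K`, so some `σ ∈ G_K` has `σ δ = -δ`; Chebotarev for `G_K`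
(`chebK_core983`, from main `Lib.Cheb.chebotarev`) gives a prime `w` outside `T` and the primes
dividing `2u` with a Frobenius element `φ`, `φ = σ` on `ℚ(δ)`; by `frob_sqrt983`, `u` is not a
square modulo `w`.
-/

set_option autoImplicit false
set_option linter.unusedSectionVars false
set_option linter.style.haveILetI false

open IsDedekindDomain NumberField

noncomputable section

namespace Fermat.Agent.LT.CFT.H983

local notation "Qb" => AlgebraicClosure ℚ
local notation "GQ" => (AlgebraicClosure ℚ ≃ₐ[ℚ] AlgebraicClosure ℚ)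

variable {K : Type} [Field K] [NumberField K]

/-- An element of `ℚ̄` outside `j K` is moved by an element of `G_K`. -/
theorem exists_moving983 (j : K →+* Qb) (δ : Qb) (hδ : ∀ x : K, j x ≠ δ) :
    ∃ σ : GQ, (∀ x : K, σ (j x) = j x) ∧ σ δ ≠ δ := by
  haveI : Algebra.IsAlgebraic ℚ Qb := AlgebraicClosure.isAlgebraic ℚ
  haveI : IsAlgClosure ℚ Qb := AlgebraicClosure.instIsAlgClosure ℚ
  haveI : IsGalois ℚ Qb := IsAlgClosure.isGalois ℚ Qb
  by_contra hcon
  simp only [not_exists, not_and, not_not] at hcon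
  have hmem : δ ∈ IntermediateField.fixedField (jField983 j).fixingSubgroup := by
    rw [IntermediateField.mem_fixedField_iff]
    intro σ hσ
    apply hcon σ
    intro x
    exact (IntermediateField.mem_fixingSubgroup_iff _ _).mp hσ (j x) (j_mem_jField983 j x)
  rw [InfiniteGalois.fixedField_fixingSubgroup] at hmem
  obtain ⟨x, hx⟩ := hmem
  exact hδ x hx

/-- **Leaf E1.C.1 INERT PRIMES.** -/
theorem inertC983 : Fermat.Agent.LT.CFT.EQ.InertC := by
  classical
  intro K _ _ u hu T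
  let j : K →+* Qb := (IsAlgClosed.lift (R := ℚ) (S := K) (M := Qb)).toRingHom
  obtain ⟨δ, hδ⟩ : ∃ δ : Qb, δ ^ 2 = j (algebraMap (𝓞 K) K u) :=
    IsAlgClosed.exists_pow_nat_eq _ (by norm_num)
  have hδK : ∀ x : K, j x ≠ δ := by
    intro x hx
    apply hu
    refine ⟨x, ?_⟩
    apply j.injective
    rw [map_pow, hx, hδ]
  obtain ⟨σ, hσfix, hσδ⟩ := exists_moving983 j δ hδK
  have hu0 : u ≠ 0 := by
    intro h
    apply hu
    exact ⟨0, by rw [h, map_zero]; ring⟩
  have h2u : (2 * u : 𝓞 K) ≠ 0 := mul_ne_zero two_ne_zero hu0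
  have hspan : Ideal.span {(2 * u : 𝓞 K)} ≠ ⊥ := by
    rw [Ne, Ideal.span_singleton_eq_bot]; exact h2u
  have hfin : {v : HeightOneSpectrum (𝓞 K) | v.asIdeal ∣ Ideal.span {(2 * u : 𝓞 K)}}.Finite :=
    Ideal.finite_factors hspan
  haveI : Algebra.IsAlgebraic ℚ Qb := AlgebraicClosure.isAlgebraic ℚ
  have halg : IsIntegral ℚ δ := (Algebra.IsAlgebraic.isAlgebraic (R := ℚ) δ).isIntegral
  obtain ⟨w, φ, hwS, -, ⟨hfix, A, hunder, hF⟩, hφ⟩ :=
    chebK_core983 K j (IntermediateField.adjoin ℚ {δ})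
      (IntermediateField.adjoin.finiteDimensional halg) σ hσfix (T ∪ hfin.toFinset)
  have hwT : w ∉ T := fun h => hwS (Finset.mem_union_left _ h)
  have hw2u : 2 * u ∉ w.asIdeal := by
    intro h
    apply hwS
    apply Finset.mem_union_right
    rw [Set.Finite.mem_toFinset]
    exact Ideal.dvd_iff_le.mpr (Ideal.span_le.mpr (Set.singleton_subset_iff.mpr h))
  have hφδ : φ δ = σ δ := hφ δ (IntermediateField.mem_adjoin_simple_self ℚ δ)
  refine ⟨w, hwT, fun h => hw2u (w.asIdeal.mul_mem_left 2 h), ?_⟩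
  intro hsq
  have h1 := (frob_sqrt983 j w A hunder φ hfix hF u hw2u δ hδ).1 hsq
  exact hσδ (by rw [← hφδ, h1])

end Fermat.Agent.LT.CFT.H983

end
end
-- ===== PACK-END LT/CFT/H983/Inert.lean

-- ===== PACK-BEGIN LT/T7/B981/PairASpec.lean
section



/-!
# Row LT, tower T7, node T7.L2.1.H2a.A `Q797.PairAC797` (sub-architect helper981, registry 2728):
# SECOND CUT -- Spec

OFF-MAIN.  Definitions and frozen Props only (the proved top is `PairATop.lean`).  No hole,
nothing assumed.  ADDITIVE (new names only, suffix `981`).  Vocabulary: the first cut of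
helper797 (`T7/Q797/BaseCutSpec.lean`, sha256 e87d7ea9), the cuts of helper893, byte-identical
copies.

    pairAC_of981 : BaseAC981 P K K' LA → StepTC981 K K' LA → StepSC981 K K' LA
                     → StepMC981 K K' LA → Q797.PairAC797 P K K' LA             (VERBATIM)

## The cut: INDUCTION ON THE WORD

The fields of `Q797.IsPairA797` are of two kinds.

* **Word-free** (`IsGoodA981 φ f`, for ONE pair of functions): test functions of the levels,
  Eisenstein-killing with Eisenstein-killing adjoints, the supports, the local shape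
  `IsAvgPure … (LA …) 1 φ f`.
* **Operators**: `R(Φ₁ X) χ = X(C) c₁(C) χ` upstairs, `R(F₁ X) χ = X(C) R(F₁ []) χ` downstairs
  (`C` the base change of the eigen-data `c` of `χ`), and the four fields on `F₁ []`.

So `Φ₁ (x :: X)`, `F₁ (x :: X)` are obtained from `Φ₁ X`, `F₁ X` by ONE STEP which multiplies
the operators by `x(C)` and preserves `IsGoodA981`:

* **`BaseAC981 P LA`** (NODE; the empty word): the Eisenstein-killing pair `(φ, f)` with the
  scalar `c₁` (T3 explicit form upstairs, base change downstairs).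
* **`StepTC981 LA`** (NODE; `x = T_w`, `w ∉ S'`), **`StepSC981 LA`** (NODE; `x = S_w^{± 1}`),
  **`StepMC981 LA`** (NODE; `x = M_{w,d}`, the sphere mean of radius `d > 0` at an infinite
  place): the step.

## The step (construction; FALSITY CHECKS of helper981)

`φ' = φ ⋆ Θ_x` (the convention of `T5.conv`: `R(φ') = R(φ) R(Θ_x)`), `Θ_x` the BI-INVARIANT Hecke
measure of the generator:
* `x = T_w`: `φ'(g) = q_w^{-1/2} ∑_{h ∈ H} φ(g z⁻¹ h)`, `H` a Hecke coset system at `w`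
  (`A0.IsHeckeCosetSystem`: representatives of `K λ K / K`), `z` a scalar uniformiser at `w`
  (`{z⁻¹ h}` = representatives of `K λ⁻¹ K / K`).  CAUTION: `∑_h φ(g h⁻¹)` is NOT right
  invariant under `K_w` in general.
* `x = S_w^{± 1}`: `φ'(g) = φ(g z^{∓ 1})`.
* `x = M_{w,d}`: `φ'(g) = ∫∫ φ(g Y(α,β)) sin β dα dβ`, `Y(α, β)` the element with the component
  `rotZ α * rotY β * torus d` at `w` and `1` elsewhere (the sphere mean of `φ` in the right
  variable).  CAUTION: `∫∫ φ(g Y(α,β)⁻¹) sin β` is `4π φ(g torus(d)⁻¹)`, NOT right invariant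
  under `U(2)`.
`R(φ') χ = R(φ) (Θ_x χ)`: invariance of the Haar measure under right translations
(`IsFrame.right_inv`) and AVERAGING over `K_w` (resp. `U(2)`): `φ` is right invariant under
`K_w` (`IsTestFn`: `w ∤ 𝔑`) and `χ` too; `∑_h ∫_{K_w} χ(g k h⁻¹ z) dk = ∑_h χ(g h)`
(`K λ⁻¹ K z = K λ K`; at infinity `K a_d⁻¹ K = K a_d K`).  `Θ_x χ = x(C) χ` is the eigen-equation
of `χ` (`IsEigFn.hecke` at `w ∤ 𝔑₀`, `IsEigFn.mean`); NO property of `R(φ) χ` is used.
Eisenstein-killing: `R(φ') Ψ = R(φ) Ψ'`, `Ψ'` a finite sum (resp. a sphere average) of right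
translates of `Ψ`, which is Borel-invariant (same ray generator: it is central); the adjoint of
`φ'` is a sum of LEFT translates of the adjoint of `φ`, and
`R(ψ(h ·)) Ψ (y) = R(ψ) Ψ (y h⁻¹)`.
Downstairs: `Θ_x` is replaced by its base change `b(Θ_x)`: at a place `v` with ONE place `w`
over it (residue degree `ℓ`, `RamIn`) the element of the spherical Hecke algebra of `GL₂(K_v)`
with Satake transform `x^ℓ + y^ℓ` (`T_w`), `(x y)^{± ℓ}` (`S_w^{± 1}`) (`T6.BCExistsC`); at a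
split place (`K'_w = K_v`) and at infinity (`K'_w = K_v = ℂ`) the same element as upstairs.
`b(Θ_x) χ = x(C) χ` when `C` is the base change of the eigen-data of `χ` (`IsBCData`:
`C.a w = satakePow f (c.a v) (c.b v)`, `C.b w = (c.b v)^f`, `C.m w = c.m v`; `T6.SatakeEigenC`;
if `c.b v = 0` then `χ = 0`).
The local shape: the members of the average are the translates of the members of `(φ, f)`;
they are the pure tensors with the components at `w` (resp. at `v`) multiplied by `Θ_x` (resp.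
`b(Θ_x)`), the sets `T a`, `T' a` enlarged by `v` and the places over `v`; the places of the
word are outside the level (`w ∉ S'`), so the unit components at the level are unchanged;
outside the level the components are spherical (`1_{GL₂(𝒪)}` outside `T`) and the Satake
transforms are multiplied (`SphOut893`: `T6.IsBC` is multiplicative, the product formula at
the split places); at infinity `convL305 μc` of the components with ONE component multiplied by
the sphere measure is the product multiplied by the sphere measure (the bi-`U(2)`-invariant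
functions commute: Cartan decomposition, `H315.CartanC`; Fubini).
-/

set_option autoImplicit false

open AutomorphicForm IsDedekindDomain NumberField MeasureTheory
open scoped ComplexConjugate

noncomputable section

namespace Fermat.Agent.LT.T7.B981

open Fermat.Agent.LT.H556 Fermat.Agent.LT.H556.A0 Fermat.Agent.LT.T7
open Fermat.Agent.LT.T7.H305 Fermat.Agent.LT.T7.H893

attribute [local instance] Fermat.Agent.LT.T5.instMeasurableSpaceG

/-! ## 1. The word-free properties, the step -/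

section Vocab

variable {K K' : Type} [Field K] [NumberField K] [Field K'] [NumberField K'] [Algebra K K']

/-- **THE WORD-FREE PROPERTIES** of a pair `(φ, f)` (`φ` over `K'`, `f` over `K`): the fields
`up1_test`, `up1_ek`, `dn1_test`, `dn1_ek`, `up1_supp`, `dn1_supp`, `shape` of
`Q797.IsPairA797` for ONE word. -/
structure IsGoodA981 (LA : Q797.ShapeA797 K K') (ℓ : ℕ) (B : L2Base K K')
    (𝔫 : Ideal (𝓞 K)) (μc : @Measure (GL (Fin 2) ℂ) (borel _))
    (T₀ : Finset (HeightOneSpectrum (𝓞 K)))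
    (n : HeightOneSpectrum (𝓞 K') → ℕ) (m : HeightOneSpectrum (𝓞 K) → ℕ)
    (φ : G K' → ℂ) (f : G K → ℂ) : Prop where
  up_test : T5.IsTestFn (upI (K' := K') 𝔫) T5.trivType φ
  up_ek : T5.IsEK B.R'.μ φ ∧ T5.IsEK B.R'.μ (T5.adjointFn φ)
  dn_test : T5.IsTestFn 𝔫 T5.trivType f
  dn_ek : T5.IsEK B.R.μ f ∧ T5.IsEK B.R.μ (T5.adjointFn f)
  up_supp : ∃ C : Set (G K'), IsCompact C ∧ T5.H32.IsIwSupported32 ℓ B.o C φ
  dn_supp : ∃ C : Set (G K), IsCompact C ∧ T5.H32.IsIwSupported32 1 (fun _ => B.u) C f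
  shape : IsAvgPure (upI (K' := K') 𝔫) 𝔫 T₀ (LA B 𝔫 μc T₀ n m) 1 φ f

/-- **THE STEP RELATION**: `(φ', f')` is obtained from `(φ, f)` by the generator `x`: the
operators on the eigenfunctions are multiplied by `x(C)`. -/
structure IsStepA981 (ℓ : ℕ) (B : L2Base K K') (𝔫 : Ideal (𝓞 K)) (x : Gen K')
    (φ : G K' → ℂ) (f : G K → ℂ) (φ' : G K' → ℂ) (f' : G K → ℂ) : Prop where
  up : ∀ (χ : G K' → ℂ) (C : EigData K'), IsEigFn B.𝔑₀ B.R'.r ℓ B.o χ C →
    ∀ y : G K', T5.Rconv B.R'.μ φ' χ y = x.ev C * T5.Rconv B.R'.μ φ χ y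
  dn : ∀ (χ : G K → ℂ) (c : EigData K) (C : EigData K'),
    IsEigFn 𝔫 B.R.r 1 (fun _ => B.u) χ c → IsBCData c C B.S' →
    ∀ y : G K, T5.Rconv B.R.μ f' χ y = x.ev C * T5.Rconv B.R.μ f χ y

/-- **THE OPERATOR OF THE BASE FUNCTION DOWNSTAIRS**: the fields `dn1_wfn`, `dn1_class`,
`dn1_comm` of `Q797.IsPairA797` for the function `f = F₁ []` (same statements). -/
structure IsDnStab981 (B : L2Base K K') (𝔫 : Ideal (𝓞 K)) (f : G K → ℂ) : Prop where
  wfn : ∀ ψ : G K → ℂ, IsWFn 𝔫 B.R.r 1 (fun _ => B.u) ψ →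
    IsWFn 𝔫 B.R.r 1 (fun _ => B.u) (T5.Rconv B.R.μ f ψ)
  cls : ∀ (ψ : G K → ℂ) (c : EigData K), IsEigFn 𝔫 B.R.r 1 (fun _ => B.u) ψ c →
    IsEigFn 𝔫 B.R.r 1 (fun _ => B.u) (T5.Rconv B.R.μ f ψ) c
  comm : ∀ ψ : G K → ℂ, IsWFn 𝔫 B.R.r 1 (fun _ => B.u) ψ →
    ∀ (H : Finset (G K)) (z : G K), IsIwCosetSystem B.u H → IsScalarUniformizerAt B.u z →
      (∀ x : G K, T5.Rconv B.R.μ f (iwOp B.u H ψ) x
        = iwOp B.u H (T5.Rconv B.R.μ f ψ) x) ∧
      ∀ (k : ℤ) (x : G K), T5.Rconv B.R.μ f (shiftOp z k ψ) x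
        = shiftOp z k (T5.Rconv B.R.μ f ψ) x

end Vocab

/-! ## 2. The nodes -/

section Nodes

variable (P : EKCond)
variable (K K' : Type) [Field K] [NumberField K] [Field K'] [NumberField K'] [Algebra K K']

/-- **NODE A.0 = BASE (the empty word; T3 explicit form + base change).**  For a common part
which contains the ramified places, every level with the level properties, every Haar measure
of `GL₂(ℂ)` and the exponents of the level: a scalar `c₁` and ONE pair `(φ, f)` with the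
word-free properties, `R(φ) χ = c₁(C) χ` on the eigenfunctions of the base level upstairs,
`c₁ ≠ 0` on the class of `Φ`, and the three properties of `R(f)` downstairs.
Of record for `P = T7.ekMulti`, `LA = H893.LocA893`.
Construction: docstring of `Q797.PairAC797` and the header of `PairBaseSpec.lean` (third cut). -/
def BaseAC981 (LA : Q797.ShapeA797 K K') : Prop :=
  ∀ ℓ : ℕ, IsCycExt K K' ℓ → ℓ ≠ 2 → TotCplx K →
    ∀ Φ : HeckeEigensystem K' ℂ, A0.IsCuspAdelicSph0 K' Φ → ConstOnFibres K Φ → P K' Φ →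
      ∀ B : L2Base K K', IsL2Base ℓ Φ B → B.RamIn →
      ∀ 𝔫 : Ideal (𝓞 K), Q797.IsLevel797 B 𝔫 →
      ∀ μc : @Measure (GL (Fin 2) ℂ) (borel _), @Measure.IsHaarMeasure _ _ _ (borel _) μc →
      ∀ (T₀ : Finset (HeightOneSpectrum (𝓞 K)))
        (n n₀ : HeightOneSpectrum (𝓞 K') → ℕ) (m : HeightOneSpectrum (𝓞 K) → ℕ),
        Q797.IsExp797 B 𝔫 T₀ n n₀ m →
        ∃ (c₁ : EigData K' → ℂ) (φ : G K' → ℂ) (f : G K → ℂ),
          IsGoodA981 LA ℓ B 𝔫 μc T₀ n m φ f ∧
          (∀ (χ : G K' → ℂ) (C : EigData K'), IsEigFn B.𝔑₀ B.R'.r ℓ B.o χ C →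
            ∀ y : G K', T5.Rconv B.R'.μ φ χ y = c₁ C * χ y) ∧
          (∀ C : EigData K', C.AgreeOut B.S' (eigOf Φ) → c₁ C ≠ 0) ∧
          IsDnStab981 B 𝔫 f

/-- The step for the generators `x` which satisfy `Q` (the common form of the three step
nodes). -/
def StepGC981 (LA : Q797.ShapeA797 K K') (Q : Gen K' → Prop) : Prop :=
  ∀ ℓ : ℕ, IsCycExt K K' ℓ → ℓ ≠ 2 → TotCplx K →
    ∀ (Φ : HeckeEigensystem K' ℂ) (B : L2Base K K'), IsL2Base ℓ Φ B → B.RamIn →
      ∀ 𝔫 : Ideal (𝓞 K), Q797.IsLevel797 B 𝔫 →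
      ∀ μc : @Measure (GL (Fin 2) ℂ) (borel _), @Measure.IsHaarMeasure _ _ _ (borel _) μc →
      ∀ (T₀ : Finset (HeightOneSpectrum (𝓞 K)))
        (n n₀ : HeightOneSpectrum (𝓞 K') → ℕ) (m : HeightOneSpectrum (𝓞 K) → ℕ),
        Q797.IsExp797 B 𝔫 T₀ n n₀ m →
        ∀ x : Gen K', Q x → x.Out B.S' →
        ∀ (φ : G K' → ℂ) (f : G K → ℂ), IsGoodA981 LA ℓ B 𝔫 μc T₀ n m φ f →
          ∃ p : (G K' → ℂ) × (G K → ℂ),
            IsGoodA981 LA ℓ B 𝔫 μc T₀ n m p.1 p.2 ∧ IsStepA981 ℓ B 𝔫 x φ f p.1 p.2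

/-- **NODE A.1 = STEP-T** (`x = T_w`, `w ∉ S'`).  `φ'(g) = q_w^{-1/2} ∑_{h ∈ H} φ(g z⁻¹ h)`,
`H` a Hecke coset system at `w` (`A0.IsHeckeCosetSystem`), `z` a scalar uniformiser at `w`;
downstairs the base change: `w` the only place over `v`: `f ⋆` the element with Satake transform
`x^ℓ + y^ℓ` (`T6.BCExistsC` for `q_w^{-1/2} 1_{K (1,0) K}`); `v` split:
`f'(g) = q_v^{-1/2} ∑_{h ∈ H_v} f(g z_v⁻¹ h)`.  See the header (CAUTION on the side of the
cosets).  Of record for `LA = H893.LocA893`. -/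
def StepTC981 (LA : Q797.ShapeA797 K K') : Prop :=
  StepGC981 K K' LA fun x => ∃ w : HeightOneSpectrum (𝓞 K'), x = Gen.T w

/-- **NODE A.2 = STEP-S** (`x = S_w` or `x = S_w⁻¹`, `w ∉ S'`).  `φ' = φ(· z^{∓ 1})`, `z` a
scalar uniformiser at `w`; downstairs `f' = f(· z_v^{∓ f})`, `z_v` a scalar uniformiser at the
place `v` under `w`, `f` the residue degree of `w` (`ℓ` or `1`).  The components at `w`, `v` are
shifted by the scalar: spherical, Satake transforms multiplied by `(x y)^{± 1}`, `(x y)^{± f}`.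
Of record for `LA = H893.LocA893`. -/
def StepSC981 (LA : Q797.ShapeA797 K K') : Prop :=
  StepGC981 K K' LA fun x => ∃ w : HeightOneSpectrum (𝓞 K'), x = Gen.S w ∨ x = Gen.Sinv w

/-- **NODE A.3 = STEP-M** (`x = M_{w,d}`, `w` an infinite place of `K'`, `d > 0`).
`φ' (g) = ∫∫ φ (g Y(α,β)) sin β dα dβ`, `Y(α, β)` the element with the component
`rotZ α * rotY β * torus d` at `w` and `1` elsewhere (`T7.MeanEig`); downstairs the same at the
place `v` under `w` (`K_v = K'_w = ℂ`; `IsBCData`: `C.m w = c.m v`).  The components at `w`, `v`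
are multiplied by the sphere measure of radius `d`.  See the header (CAUTION on the inverse).
Of record for `LA = H893.LocA893`. -/
def StepMC981 (LA : Q797.ShapeA797 K K') : Prop :=
  StepGC981 K K' LA fun x => ∃ (w : InfinitePlace K') (d : ℝ), x = Gen.M w d

end Nodes

end Fermat.Agent.LT.T7.B981

end

end
-- ===== PACK-END LT/T7/B981/PairASpec.lean

-- ===== PACK-BEGIN LT/T7/H193/NatStepOps.lean
section




/-!
# Row LT, tower T7, node T7.L2.1.H2a `BaseCb`, node PAIR-B: THE NATURAL-AVERAGE STEP, part A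
(the operator properties; helper193)

OFF-MAIN.  Complete proofs, nothing assumed (hypothesis: the output `T1.T1Out` of the closed
tower T1).  ADDITIVE (new names only, suffix `193`).

`IsPairB0_193` = the fields of `Q797.IsPairB797` (cut of helper797) EXCEPT the two killing fields
`up2_kill`, `dn2_kill`.  For torus data upstairs (level `𝔫 𝒪_{K'}`) and downstairs (level `𝔫`):

    isPairB_of_pairB0_193 : IsPairB0_193 … φ₀ f₀ → (the shape of the torus means) →
        Q797.IsPairB797 … (nat193 a' D' φ₀) (nat193 a D f₀)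

The shape of the torus means is part B (`NatStepShape.lean`).
-/

set_option autoImplicit false
set_option linter.unusedSectionVars false

open AutomorphicForm IsDedekindDomain NumberField MeasureTheory
open scoped ComplexConjugate

noncomputable section

namespace Fermat.Agent.LT.T7.H193

open Fermat.Agent.LT.H556 Fermat.Agent.LT.H556.A0 Fermat.Agent.LT Fermat.Agent.LT.T7
open Fermat.Agent.LT.T7.H893 Fermat.Agent.LT.T7.H305

attribute [local instance] Fermat.Agent.LT.T5.instMeasurableSpaceG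

/-! ## 1. The kill-free pair -/

section Vocab

variable {K K' : Type} [Field K] [NumberField K] [Field K'] [NumberField K'] [Algebra K K']

/-- **THE KILL-FREE SECOND PAIR** `(φ₀, f₀)`: the fields of `Q797.IsPairB797` except `up2_kill`
and `dn2_kill` (same statements). -/
structure IsPairB0_193 (LB : Q797.ShapeB797 K K') (ℓ : ℕ) (Φ : HeckeEigensystem K' ℂ)
    (B : L2Base K K') (g : G K') (𝔫 : Ideal (𝓞 K))
    (μc : @Measure (GL (Fin 2) ℂ) (borel _)) (T₀ : Finset (HeightOneSpectrum (𝓞 K)))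
    (n n₀ : HeightOneSpectrum (𝓞 K') → ℕ) (m : HeightOneSpectrum (𝓞 K) → ℕ) (a : ℂ)
    (c₂ : EigData K' → ℂ) (φ₀ : G K' → ℂ) (f₀ : G K → ℂ) : Prop where
  up_test : T5.IsTestFn (upI (K' := K') 𝔫) T5.trivType φ₀
  up_ek : T5.IsEK B.R'.μ φ₀ ∧ T5.IsEK B.R'.μ (T5.adjointFn φ₀)
  up_inv : IsUInv B.𝔑₀ ℓ B.o φ₀
  up_op : ∀ (ψ : G K' → ℂ) (C : EigData K'), IsEigFn B.𝔑₀ B.R'.r ℓ B.o ψ C →
    ∀ x : G K', T5.Rconv B.R'.μ φ₀ ψ x = c₂ C * ψ x
  up_ne : ∀ C : EigData K', C.AgreeOut B.S' (eigOf Φ) → c₂ C ≠ 0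
  dn_test : T5.IsTestFn 𝔫 T5.trivType f₀
  dn_ek : T5.IsEK B.R.μ f₀ ∧ T5.IsEK B.R.μ (T5.adjointFn f₀)
  dn_inv : IsUInv 𝔫 1 (fun _ => B.u) f₀
  dn_wfn : ∀ ψ : G K → ℂ, IsWFn 𝔫 B.R.r 1 (fun _ => B.u) ψ →
    IsWFn 𝔫 B.R.r 1 (fun _ => B.u) (T5.Rconv B.R.μ f₀ ψ)
  dn_class : ∀ (ψ : G K → ℂ) (c : EigData K), IsEigFn 𝔫 B.R.r 1 (fun _ => B.u) ψ c →
    IsEigFn 𝔫 B.R.r 1 (fun _ => B.u) (T5.Rconv B.R.μ f₀ ψ) c
  dn_comm : ∀ ψ : G K → ℂ, IsWFn 𝔫 B.R.r 1 (fun _ => B.u) ψ →
    ∀ (H : Finset (G K)) (z : G K), IsIwCosetSystem B.u H → IsScalarUniformizerAt B.u z →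
      (∀ x : G K, T5.Rconv B.R.μ f₀ (iwOp B.u H ψ) x
        = iwOp B.u H (T5.Rconv B.R.μ f₀ ψ) x) ∧
      ∀ (k : ℤ) (x : G K), T5.Rconv B.R.μ f₀ (shiftOp z k ψ) x
        = shiftOp z k (T5.Rconv B.R.μ f₀ ψ) x
  up_supp : ∃ C : Set (G K'), IsCompact C ∧ T5.H32.IsIwSupported32 ℓ B.o C φ₀
  dn_supp : ∃ C : Set (G K), IsCompact C ∧ T5.H32.IsIwSupported32 1 (fun _ => B.u) C f₀
  /-- the local shape: averages of pure tensors with the local condition `LB`, constant `a` -/
  shape : IsAvgPure (upI (K' := K') 𝔫) 𝔫 T₀ (LB B g 𝔫 μc T₀ n n₀ m) a φ₀ f₀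

end Vocab

/-! ## 2. Tools (one field) -/

section Tools

variable {K : Type} [Field K] [NumberField K]

/-- A positive scalar at an infinite place is central. -/
theorem central_of_posScalar193 {𝔑 : Ideal (𝓞 K)} {r : G K} {a : (InfinitePlace K → ℝ) → G K}
    {D : Set (InfinitePlace K → ℝ)} (hD : IsTorusData 𝔑 r a D) {w : InfinitePlace K} {z : G K}
    (hz : IsArchPosScalar w z) (g : G K) : z * g = g * z := by
  obtain ⟨s, rfl⟩ := H865.posScalar_eq865 hD hz
  exact hD.central s g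

/-- The Iwahori condition at a finite place does not see a factor which is trivial there. -/
theorem inIwahori_mul_triv193 {v : HeightOneSpectrum (𝓞 K)} {y z : G K}
    (hz : TrivAtFin v z) (h : T5.InIwahori v (y * z)) : T5.InIwahori v y := by
  have hz' : finComp v z = 1 := hz
  have hzi : finComp v z⁻¹ = 1 := by
    have h1 := H517.finComp_mul517 v z z⁻¹
    rw [mul_inv_cancel, hz', one_mul] at h1
    rw [← h1]
    ext i j
    simp only [finComp, Units.val_one]
    by_cases hij : i = j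
    · subst hij
      simp
      rfl
    · simp [Matrix.one_apply_ne hij]
      rfl
  have e1 : finComp v (y * z) = finComp v y := by
    rw [H517.finComp_mul517, hz', mul_one]
  have e2 : finComp v (y * z)⁻¹ = finComp v y⁻¹ := by
    rw [mul_inv_rev, H517.finComp_mul517, hzi, one_mul]
  obtain ⟨h1, h2, h3⟩ := h
  refine ⟨fun i j => ?_, fun i j => ?_, ?_⟩
  · have := h1 i j
    rwa [e1] at this
  · have := h2 i j
    rwa [e2] at this
  · rwa [e1] at h3

/-- The torus mean of a function whose support is Iwahori along the orbit has the same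
property; so it is Iwahori-supported in its closed support. -/
theorem isIwSupported_nat193 {𝔑 : Ideal (𝓞 K)} {r : G K} {a : (InfinitePlace K → ℝ) → G K}
    {D : Set (InfinitePlace K → ℝ)} (hD : IsTorusData 𝔑 r a D) {l : ℕ}
    {o : ℕ → HeightOneSpectrum (𝓞 K)} {C : Set (G K)} {φ : G K → ℂ}
    (h : T5.H32.IsIwSupported32 l o C φ) :
    T5.H32.IsIwSupported32 l o (tsupport (nat193 a D φ)) (nat193 a D φ) := by
  refine T5.H32.isIwSupported_of_support32 fun y hy j hj => ?_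
  have hex : ∃ t : InfinitePlace K → ℝ, φ (y * (a t)⁻¹) ≠ 0 := by
    by_contra hcon
    push Not at hcon
    apply hy
    unfold nat193
    rw [setIntegral_congr_fun hD.meas (fun t _ => hcon t)]
    simp
  obtain ⟨t, ht⟩ := hex
  have h1 := (h _ ht).1 j hj
  have htriv : TrivAtFin (o j) (a t)⁻¹ := by
    have h2 : finComp (o j) (a t) = 1 := hD.fin t (o j)
    have h3 := H517.finComp_mul517 (o j) (a t) (a t)⁻¹
    rw [mul_inv_cancel, h2, one_mul] at h3
    show finComp (o j) (a t)⁻¹ = 1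
    rw [← h3]
    ext i k
    simp only [finComp, Units.val_one]
    by_cases hik : i = k
    · subst hik
      simp
      rfl
    · simp [Matrix.one_apply_ne hik]
      rfl
  exact inIwahori_mul_triv193 htriv h1

/-- The Iwahori operator preserves continuity. -/
theorem continuous_iwOp193 (w : HeightOneSpectrum (𝓞 K)) (H : Finset (G K)) {ψ : G K → ℂ}
    (hψ : Continuous ψ) : Continuous (iwOp w H ψ) := by
  unfold iwOp
  refine continuous_const.mul (continuous_finsetSum _ fun h _ => ?_)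
  exact hψ.comp (continuous_id.mul continuous_const)

/-- The shift preserves continuity. -/
theorem continuous_shiftOp193 (z : G K) (k : ℤ) {ψ : G K → ℂ} (hψ : Continuous ψ) :
    Continuous (shiftOp z k ψ) := by
  unfold shiftOp
  exact hψ.comp (continuous_id.mul continuous_const)

end Tools

/-! ## 3. The step -/

section Step

variable {K K' : Type} [Field K] [NumberField K] [Field K'] [NumberField K'] [Algebra K K']

/-- The extension of a non-zero ideal is non-zero. -/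
theorem upI_ne_bot193 {𝔫 : Ideal (𝓞 K)} (h𝔫 : 𝔫 ≠ ⊥) : upI (K' := K') 𝔫 ≠ ⊥ := by
  intro h
  exact h𝔫 ((Ideal.map_eq_bot_iff_of_injective
    (NumberField.RingOfIntegers.algebraMap.injective K K')).1 h)

/-- **THE NATURAL-AVERAGE STEP, part A.**  The torus means of a kill-free pair have all the
properties of the second pair, including the killing properties, if they have the shape. -/
theorem isPairB_of_pairB0_193 (hT1 : T1.T1Out K) (hT1' : T1.T1Out K')
    {LB : Q797.ShapeB797 K K'} {ℓ : ℕ} {Φ : HeckeEigensystem K' ℂ} {B : L2Base K K'}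
    (hB : IsL2Base ℓ Φ B) {g : G K'} {𝔫 : Ideal (𝓞 K)} (hlev : Q797.IsLevel797 B 𝔫)
    {μc : @Measure (GL (Fin 2) ℂ) (borel _)} {T₀ : Finset (HeightOneSpectrum (𝓞 K))}
    {n n₀ : HeightOneSpectrum (𝓞 K') → ℕ} {m : HeightOneSpectrum (𝓞 K) → ℕ} {a : ℂ}
    {c₂ : EigData K' → ℂ} {φ₀ : G K' → ℂ} {f₀ : G K → ℂ}
    {aa : (InfinitePlace K → ℝ) → G K} {D : Set (InfinitePlace K → ℝ)}
    {aa' : (InfinitePlace K' → ℝ) → G K'} {D' : Set (InfinitePlace K' → ℝ)}
    (hdn : IsTorusData 𝔫 B.R.r aa D)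
    (hup : IsTorusData (upI (K' := K') 𝔫) B.R'.r aa' D')
    (h0 : IsPairB0_193 LB ℓ Φ B g 𝔫 μc T₀ n n₀ m a c₂ φ₀ f₀)
    (hshape : IsAvgPure (upI (K' := K') 𝔫) 𝔫 T₀ (LB B g 𝔫 μc T₀ n n₀ m) a
      (nat193 aa' D' φ₀) (nat193 aa D f₀)) :
    Q797.IsPairB797 LB ℓ Φ B g 𝔫 μc T₀ n n₀ m a c₂ (nat193 aa' D' φ₀) (nat193 aa D f₀) := by
  have hup₀ : IsTorusData B.𝔑₀ B.R'.r aa' D' := isTorusData_mono193 hlev.level_g hup
  obtain ⟨u1, u2, u3, u4, u5, u6⟩ :=
    killing_of_torus193 hT1' B.R' hB.frame' (upI (K' := K') 𝔫) B.𝔑₀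
      (upI_ne_bot193 hlev.level_ne) hlev.level_g ℓ B.o hup₀ φ₀ h0.up_test h0.up_ek.1
      h0.up_ek.2 h0.up_inv
  obtain ⟨d1, d2, d3, d4, d5, d6⟩ :=
    killing_of_torus193 hT1 B.R hB.frame 𝔫 𝔫 hlev.level_ne le_rfl 1 (fun _ => B.u) hdn f₀
      h0.dn_test h0.dn_ek.1 h0.dn_ek.2 h0.dn_inv
  have hdW : ∀ ψ : G K → ℂ, IsWFn 𝔫 B.R.r 1 (fun _ => B.u) ψ →
      T5.Rconv B.R.μ (nat193 aa D f₀) ψ = T5.Rconv B.R.μ f₀ ψ := fun ψ hψ =>
    funext fun x => d5 ψ hψ.cusp.cont hψ.arch_scalar x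
  obtain ⟨Cu, _, hCu⟩ := h0.up_supp
  obtain ⟨Cd, _, hCd⟩ := h0.dn_supp
  refine
    { up2_test := u1
      up2_ek := ⟨u2, u3⟩
      up2_inv := u4
      up2_op := fun ψ C hψ x => by
        rw [u5 ψ hψ.inv.cusp.cont hψ.inv.arch_scalar x]
        exact h0.up_op ψ C hψ x
      up2_kill := u6
      up2_ne := h0.up_ne
      dn2_test := d1
      dn2_ek := ⟨d2, d3⟩
      dn2_inv := d4
      dn2_wfn := fun ψ hψ => by
        rw [hdW ψ hψ]
        exact h0.dn_wfn ψ hψ
      dn2_class := fun ψ c hψ => by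
        rw [hdW ψ hψ.inv]
        exact h0.dn_class ψ c hψ
      dn2_comm := fun ψ hψ H z hH hz => by
        obtain ⟨c1, c2⟩ := h0.dn_comm ψ hψ H z hH hz
        rw [hdW ψ hψ]
        refine ⟨fun x => ?_, fun k x => ?_⟩
        · rw [d5 (iwOp B.u H ψ) (continuous_iwOp193 B.u H hψ.cusp.cont) ?_ x]
          · exact c1 x
          · intro w z' hz' y
            unfold iwOp
            congr 1
            refine Finset.sum_congr rfl fun h _ => ?_
            rw [mul_assoc, central_of_posScalar193 hdn hz' h, ← mul_assoc]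
            exact hψ.arch_scalar w z' hz' _
        · rw [d5 (shiftOp z k ψ) (continuous_shiftOp193 z k hψ.cusp.cont) ?_ x]
          · exact c2 k x
          · intro w z' hz' y
            unfold shiftOp
            rw [mul_assoc, central_of_posScalar193 hdn hz' (z ^ k), ← mul_assoc]
            exact hψ.arch_scalar w z' hz' _
      dn2_kill := d6
      up2_supp := ⟨tsupport (nat193 aa' D' φ₀), u1.supp, isIwSupported_nat193 hup hCu⟩
      dn2_supp := ⟨tsupport (nat193 aa D f₀), d1.supp, isIwSupported_nat193 hdn hCd⟩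
      shape := hshape }

end Step

end Fermat.Agent.LT.T7.H193

end

end
-- ===== PACK-END LT/T7/H193/NatStepOps.lean

-- ===== PACK-BEGIN LT/T7/H193/NatStepArch.lean
section




/-!
# Row LT, tower T7, node T7.L2.1.H2a `BaseCb`, node PAIR-B: THE NATURAL-AVERAGE STEP, part B1
(the components at infinity; helper193)

OFF-MAIN.  Complete proofs, nothing assumed.  ADDITIVE (new names only, suffix `193`).

The positive scalars `scal193 x = exp(x) · 1` of `GL₂(ℂ)`, the shift `shf193 c φ = φ(· c)`, the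
iterated convolution of shifted functions is the shift of the iterated convolution, and the
local hypotheses at infinity (`H305.LocHyp305`, `H893.LocHyp893`, `H893.ArchOk893`,
`H893.LocB893b`, `H893.LocA893`) are STABLE under the shifts by the components of `a'(t')⁻¹`
upstairs and `a(N t')⁻¹` downstairs.
-/

set_option autoImplicit false
set_option linter.unusedSectionVars false
set_option linter.style.haveILetI false

open AutomorphicForm IsDedekindDomain NumberField MeasureTheory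
open scoped ComplexConjugate

noncomputable section

namespace Fermat.Agent.LT.T7.H193

open Fermat.Agent.LT.H556 Fermat.Agent.LT.H556.A0 Fermat.Agent.LT Fermat.Agent.LT.T7
open Fermat.Agent.LT.T7.H893 Fermat.Agent.LT.T7.H305

attribute [local instance] Fermat.Agent.LT.T5.instMeasurableSpaceG

/-! ## 1. Positive scalars of `GL₂(ℂ)` -/

section Scal

/-- The positive scalar `exp(x) · 1` of `GL₂(ℂ)`. -/
def scal193 (x : ℝ) : GL (Fin 2) ℂ where
  val := Matrix.diagonal fun _ => ((Real.exp x : ℝ) : ℂ)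
  inv := Matrix.diagonal fun _ => ((Real.exp (-x) : ℝ) : ℂ)
  val_inv := by
    rw [Matrix.diagonal_mul_diagonal]
    have h : ∀ i : Fin 2, ((Real.exp x : ℝ) : ℂ) * ((Real.exp (-x) : ℝ) : ℂ) = 1 := by
      intro i
      rw [← Complex.ofReal_mul, ← Real.exp_add, add_neg_cancel, Real.exp_zero,
        Complex.ofReal_one]
    rw [show (fun i : Fin 2 => ((Real.exp x : ℝ) : ℂ) * ((Real.exp (-x) : ℝ) : ℂ))
      = fun _ => 1 from funext h]
    exact Matrix.diagonal_one
  inv_val := by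
    rw [Matrix.diagonal_mul_diagonal]
    have h : ∀ i : Fin 2, ((Real.exp (-x) : ℝ) : ℂ) * ((Real.exp x : ℝ) : ℂ) = 1 := by
      intro i
      rw [← Complex.ofReal_mul, ← Real.exp_add, neg_add_cancel, Real.exp_zero,
        Complex.ofReal_one]
    rw [show (fun i : Fin 2 => ((Real.exp (-x) : ℝ) : ℂ) * ((Real.exp x : ℝ) : ℂ))
      = fun _ => 1 from funext h]
    exact Matrix.diagonal_one

theorem scal_val193 (x : ℝ) :
    ((scal193 x : GL (Fin 2) ℂ) : Matrix (Fin 2) (Fin 2) ℂ)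
      = Matrix.diagonal fun _ => ((Real.exp x : ℝ) : ℂ) := rfl

theorem scal_add193 (x y : ℝ) : scal193 (x + y) = scal193 x * scal193 y := by
  apply Units.ext
  rw [Units.val_mul, scal_val193, scal_val193, scal_val193, Matrix.diagonal_mul_diagonal]
  congr 1
  funext i
  rw [Real.exp_add, Complex.ofReal_mul]

theorem scal_zero193 : scal193 0 = 1 := by
  apply Units.ext
  rw [scal_val193, Real.exp_zero, Complex.ofReal_one]
  exact Matrix.diagonal_one

theorem scal_neg193 (x : ℝ) : scal193 (-x) = (scal193 x)⁻¹ := by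
  rw [eq_inv_iff_mul_eq_one, ← scal_add193, neg_add_cancel, scal_zero193]

theorem scal_central193 (x : ℝ) (g : GL (Fin 2) ℂ) : scal193 x * g = g * scal193 x := by
  apply Units.ext
  rw [Units.val_mul, Units.val_mul, scal_val193]
  ext i j
  rw [Matrix.diagonal_mul, Matrix.mul_diagonal, mul_comm]

theorem conj_scal193 (x : ℝ) : conjGL305 (scal193 x) = scal193 x := by
  apply Units.ext
  ext i j
  show (starRingEnd ℂ) ((scal193 x : Matrix (Fin 2) (Fin 2) ℂ) i j)
    = (scal193 x : Matrix (Fin 2) (Fin 2) ℂ) i j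
  rw [scal_val193]
  by_cases hij : i = j
  · subst hij
    rw [Matrix.diagonal_apply_eq, Complex.conj_ofReal]
  · rw [Matrix.diagonal_apply_ne _ hij, map_zero]

/-- The shift `φ(· c)`. -/
def shf193 (c : GL (Fin 2) ℂ) (φ : GL (Fin 2) ℂ → ℂ) : GL (Fin 2) ℂ → ℂ := fun g => φ (g * c)

theorem shf_apply193 (c : GL (Fin 2) ℂ) (φ : GL (Fin 2) ℂ → ℂ) (g : GL (Fin 2) ℂ) :
    shf193 c φ g = φ (g * c) := rfl

theorem continuous_shf193 (c : GL (Fin 2) ℂ) {φ : GL (Fin 2) ℂ → ℂ} (hφ : Continuous φ) :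
    Continuous (shf193 c φ) :=
  hφ.comp (continuous_id.mul continuous_const)

theorem hasCompactSupport_shf193 (c : GL (Fin 2) ℂ) {φ : GL (Fin 2) ℂ → ℂ}
    (hφ : HasCompactSupport φ) : HasCompactSupport (shf193 c φ) :=
  hφ.comp_homeomorph (Homeomorph.mulRight c)

/-- The convolution of shifted functions, for a left invariant measure and a central first
shift. -/
theorem convInt_shf193 (μc : @Measure (GL (Fin 2) ℂ) (borel _))
    (hμ : @Measure.IsHaarMeasure _ _ _ (borel _) μc) (c₁ c₂ : GL (Fin 2) ℂ)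
    (hc₁ : ∀ g : GL (Fin 2) ℂ, c₁ * g = g * c₁) (φ ψ : GL (Fin 2) ℂ → ℂ) :
    @T6.convInt _ _ (borel _) μc (shf193 c₁ φ) (shf193 c₂ ψ)
      = shf193 (c₁ * c₂) (@T6.convInt _ _ (borel _) μc φ ψ) := by
  letI : MeasurableSpace (GL (Fin 2) ℂ) := borel _
  haveI : BorelSpace (GL (Fin 2) ℂ) := ⟨rfl⟩
  haveI := hμ
  funext g
  show ∫ h, shf193 c₁ φ h * shf193 c₂ ψ (h⁻¹ * g) ∂μc
    = ∫ h, φ h * ψ (h⁻¹ * (g * (c₁ * c₂))) ∂μc
  rw [← integral_mul_left_eq_self (fun h => φ h * ψ (h⁻¹ * (g * (c₁ * c₂)))) c₁]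
  refine integral_congr_ae (Filter.Eventually.of_forall fun h => ?_)
  show φ (h * c₁) * ψ (h⁻¹ * g * c₂) = φ (c₁ * h) * ψ ((c₁ * h)⁻¹ * (g * (c₁ * c₂)))
  have e : g * (c₁ * c₂) = c₁ * (g * c₂) := by
    rw [← mul_assoc, ← hc₁ g, mul_assoc]
  have e2 : (c₁ * h)⁻¹ * (c₁ * (g * c₂)) = h⁻¹ * g * c₂ := by group
  rw [e, e2, hc₁ h]

/-- The iterated convolution of shifted functions is the shift of the iterated convolution. -/
theorem convL_shf193 (μc : @Measure (GL (Fin 2) ℂ) (borel _))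
    (hμ : @Measure.IsHaarMeasure _ _ _ (borel _) μc) (Φ : ℕ → GL (Fin 2) ℂ → ℂ) (x : ℕ → ℝ)
    (k : ℕ) :
    convL305 μc (fun j => shf193 (scal193 (x j)) (Φ j)) k
      = shf193 (scal193 (∑ j ∈ Finset.range (k + 1), x j)) (convL305 μc Φ k) := by
  induction k with
  | zero =>
    show shf193 (scal193 (x 0)) (Φ 0) = shf193 (scal193 (∑ j ∈ Finset.range 1, x j)) (Φ 0)
    rw [Finset.sum_range_one]
  | succ k ih =>
    show @T6.convInt _ _ (borel _) μc (convL305 μc (fun j => shf193 (scal193 (x j)) (Φ j)) k)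
        (shf193 (scal193 (x (k + 1))) (Φ (k + 1)))
      = shf193 (scal193 (∑ j ∈ Finset.range (k + 1 + 1), x j))
        (@T6.convInt _ _ (borel _) μc (convL305 μc Φ k) (Φ (k + 1)))
    rw [ih, convInt_shf193 μc hμ _ _ (scal_central193 _), ← scal_add193,
      ← Finset.sum_range_succ]

end Scal

/-! ## 2. The sum over an enumeration of a fibre -/

section Fibre

variable {K K' : Type} [Field K] [NumberField K] [Field K'] [NumberField K'] [Algebra K K']

/-- The sum of `t'` over an enumeration of the fibre of `v` is `(N t') v`. -/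
theorem sum_enum_fibre193 {l : ℕ} {v : InfinitePlace K}
    (hcard : Nat.card {w : InfinitePlace K' // w.comap (algebraMap K K') = v} = l)
    (w : ℕ → InfinitePlace K') (hw : ∀ j : ℕ, (w j).comap (algebraMap K K') = v)
    (hinj : ∀ j j' : ℕ, j < l → j' < l → w j = w j' → j = j')
    (t' : InfinitePlace K' → ℝ) :
    ∑ j ∈ Finset.range l, t' (w j) = fibSum193 (K := K) t' v := by
  classical
  have himg : (Finset.range l).image w
      = Finset.univ.filter (fun w' : InfinitePlace K' => w'.comap (algebraMap K K') = v) := by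
    apply Finset.eq_of_subset_of_card_le
    · intro w' hw'
      obtain ⟨j, _, rfl⟩ := Finset.mem_image.mp hw'
      exact Finset.mem_filter.mpr ⟨Finset.mem_univ _, hw j⟩
    · rw [Finset.card_image_of_injOn, Finset.card_range, ← hcard, Nat.card_eq_fintype_card,
        Fintype.card_subtype]
      intro j hj j' hj' h
      exact hinj j j' (Finset.mem_range.mp (Finset.mem_coe.mp hj))
        (Finset.mem_range.mp (Finset.mem_coe.mp hj')) h
  unfold fibSum193
  rw [← Finset.sum_filter, ← himg, Finset.sum_image]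
  intro j hj j' hj' h
  exact hinj j j' (Finset.mem_range.mp hj) (Finset.mem_range.mp hj') h

end Fibre

/-! ## 3. Stability of the local hypotheses under the shifts -/

section Stable

variable {K K' : Type} [Field K] [NumberField K] [Field K'] [NumberField K'] [Algebra K K']

/-- The shifted components upstairs. -/
def shUp193 (t' : InfinitePlace K' → ℝ) (Φ : InfinitePlace K' → GL (Fin 2) ℂ → ℂ) :
    InfinitePlace K' → GL (Fin 2) ℂ → ℂ :=
  fun w => shf193 (scal193 (-(t' w))) (Φ w)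

/-- The shifted components downstairs. -/
def shDn193 (t : InfinitePlace K → ℝ) (F : InfinitePlace K → GL (Fin 2) ℂ → ℂ) :
    InfinitePlace K → GL (Fin 2) ℂ → ℂ :=
  fun v => shf193 (scal193 (-(t v))) (F v)

theorem arch_shift_aux193 {x : ℝ} {φ : GL (Fin 2) ℂ → ℂ}
    (h : Continuous φ ∧ HasCompactSupport φ ∧ ∀ g : GL (Fin 2) ℂ, φ (conjGL305 g) = φ g) :
    Continuous (shf193 (scal193 x) φ) ∧ HasCompactSupport (shf193 (scal193 x) φ) ∧
      ∀ g : GL (Fin 2) ℂ, shf193 (scal193 x) φ (conjGL305 g) = shf193 (scal193 x) φ g := by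
  refine ⟨continuous_shf193 _ h.1, hasCompactSupport_shf193 _ h.2.1, fun g => ?_⟩
  show φ (conjGL305 g * scal193 x) = φ (g * scal193 x)
  rw [← h.2.2 (g * scal193 x), map_mul, conj_scal193]

theorem u2_shift_aux193 {x : ℝ} {φ : GL (Fin 2) ℂ → ℂ} {k₁ k₂ g : GL (Fin 2) ℂ}
    (h : φ (k₁ * (g * scal193 x) * k₂) = φ (g * scal193 x)) :
    shf193 (scal193 x) φ (k₁ * g * k₂) = shf193 (scal193 x) φ g := by
  show φ (k₁ * g * k₂ * scal193 x) = φ (g * scal193 x)
  rw [← h]
  congr 1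
  rw [mul_assoc k₁ g k₂, mul_assoc k₁ (g * k₂), mul_assoc g k₂, ← scal_central193 x k₂,
    mul_assoc k₁, mul_assoc g]

/-- The clause `arch` for the shifted components. -/
theorem arch_clause_shift193 {l : ℕ} (hl : 0 < l)
    (hcard : ∀ v : InfinitePlace K,
      Nat.card {w : InfinitePlace K' // w.comap (algebraMap K K') = v} = l)
    (μc : @Measure (GL (Fin 2) ℂ) (borel _))
    (hμ : @Measure.IsHaarMeasure _ _ _ (borel _) μc)
    {Φ : InfinitePlace K' → GL (Fin 2) ℂ → ℂ} {F : InfinitePlace K → GL (Fin 2) ℂ → ℂ}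
    (harch : ∀ (v : InfinitePlace K) (w : ℕ → InfinitePlace K'),
      (∀ j : ℕ, (w j).comap (algebraMap K K') = v) →
      (∀ j j' : ℕ, j < l → j' < l → w j = w j' → j = j') →
      F v = convL305 μc (fun j => Φ (w j)) (l - 1))
    (t' : InfinitePlace K' → ℝ) :
    ∀ (v : InfinitePlace K) (w : ℕ → InfinitePlace K'),
      (∀ j : ℕ, (w j).comap (algebraMap K K') = v) →
      (∀ j j' : ℕ, j < l → j' < l → w j = w j' → j = j') →
      shDn193 (fibSum193 (K := K) t') F v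
        = convL305 μc (fun j => shUp193 t' Φ (w j)) (l - 1) := by
  intro v w hw hinj
  have h1 := convL_shf193 μc hμ (fun j => Φ (w j)) (fun j => -(t' (w j))) (l - 1)
  have h2 : l - 1 + 1 = l := Nat.sub_add_cancel hl
  rw [h2, Finset.sum_neg_distrib, sum_enum_fibre193 (hcard v) w hw hinj t'] at h1
  show shf193 (scal193 (-(fibSum193 (K := K) t' v))) (F v) = _
  rw [harch v w hw hinj]
  exact h1.symm

/-- `H305.LocHyp305` is stable under the shifts. -/
theorem locHyp305_shift193 {D : CompData K K'} (hl : 0 < D.l)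
    (hcard : ∀ v : InfinitePlace K,
      Nat.card {w : InfinitePlace K' // w.comap (algebraMap K K') = v} = D.l)
    {μc : @Measure (GL (Fin 2) ℂ) (borel _)}
    (hμ : @Measure.IsHaarMeasure _ _ _ (borel _) μc)
    {T : Finset (HeightOneSpectrum (𝓞 K))}
    {n : HeightOneSpectrum (𝓞 K') → ℕ} {m : HeightOneSpectrum (𝓞 K) → ℕ}
    {φ₀ : ∀ w : HeightOneSpectrum (𝓞 K'), GL (Fin 2) (w.adicCompletion K') → ℂ}
    {Φ : InfinitePlace K' → GL (Fin 2) ℂ → ℂ}
    {f₀ : ∀ v : HeightOneSpectrum (𝓞 K), GL (Fin 2) (v.adicCompletion K) → ℂ}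
    {F : InfinitePlace K → GL (Fin 2) ℂ → ℂ}
    (h : LocHyp305 D μc T n m φ₀ Φ f₀ F) (t' : InfinitePlace K' → ℝ) :
    LocHyp305 D μc T n m φ₀ (shUp193 t' Φ) f₀ (shDn193 (fibSum193 (K := K) t') F) where
  inv_up := h.inv_up
  inv_down := h.inv_down
  arch_up := fun w => arch_shift_aux193 (h.arch_up w)
  arch_down := fun v => arch_shift_aux193 (h.arch_down v)
  inert := h.inert
  split := h.split
  arch := arch_clause_shift193 hl hcard μc hμ h.arch t'

/-- `H893.LocHyp893` is stable under the shifts. -/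
theorem locHyp893_shift193 {D : CompData K K'} (hl : 0 < D.l)
    (hcard : ∀ v : InfinitePlace K,
      Nat.card {w : InfinitePlace K' // w.comap (algebraMap K K') = v} = D.l)
    {μc : @Measure (GL (Fin 2) ℂ) (borel _)}
    (hμ : @Measure.IsHaarMeasure _ _ _ (borel _) μc)
    {T : Finset (HeightOneSpectrum (𝓞 K))}
    {n : HeightOneSpectrum (𝓞 K') → ℕ} {m : HeightOneSpectrum (𝓞 K) → ℕ}
    {φ₀ : ∀ w : HeightOneSpectrum (𝓞 K'), GL (Fin 2) (w.adicCompletion K') → ℂ}
    {Φ : InfinitePlace K' → GL (Fin 2) ℂ → ℂ}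
    {f₀ : ∀ v : HeightOneSpectrum (𝓞 K), GL (Fin 2) (v.adicCompletion K) → ℂ}
    {F : InfinitePlace K → GL (Fin 2) ℂ → ℂ}
    (h : LocHyp893 D μc T n m φ₀ Φ f₀ F) (t' : InfinitePlace K' → ℝ) :
    LocHyp893 D μc T n m φ₀ (shUp193 t' Φ) f₀ (shDn193 (fibSum193 (K := K) t') F) where
  inv_up := h.inv_up
  inv_down := h.inv_down
  arch_up := fun w => arch_shift_aux193 (h.arch_up w)
  arch_down := fun v => arch_shift_aux193 (h.arch_down v)
  inert := h.inert
  split := h.split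
  arch := arch_clause_shift193 hl hcard μc hμ h.arch t'

/-- `H893.ArchOk893` is stable under the shifts. -/
theorem archOk_shift193 {D : CompData K K'} (hl : 0 < D.l)
    (hcard : ∀ v : InfinitePlace K,
      Nat.card {w : InfinitePlace K' // w.comap (algebraMap K K') = v} = D.l)
    {μc : @Measure (GL (Fin 2) ℂ) (borel _)}
    (hμ : @Measure.IsHaarMeasure _ _ _ (borel _) μc)
    {n : HeightOneSpectrum (𝓞 K') → ℕ} {m : HeightOneSpectrum (𝓞 K) → ℕ}
    {φ₀ : ∀ w : HeightOneSpectrum (𝓞 K'), GL (Fin 2) (w.adicCompletion K') → ℂ}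
    {Φ : InfinitePlace K' → GL (Fin 2) ℂ → ℂ}
    {f₀ : ∀ v : HeightOneSpectrum (𝓞 K), GL (Fin 2) (v.adicCompletion K) → ℂ}
    {F : InfinitePlace K → GL (Fin 2) ℂ → ℂ}
    (h : ArchOk893 D μc n m φ₀ Φ f₀ F) (t' : InfinitePlace K' → ℝ) :
    ArchOk893 D μc n m φ₀ (shUp193 t' Φ) f₀ (shDn193 (fibSum193 (K := K) t') F) :=
  ⟨locHyp305_shift193 hl hcard hμ h.1 t',
    fun w k₁ k₂ _ h1 h2 => u2_shift_aux193 (h.2.1 w k₁ k₂ _ h1 h2),
    fun v k₁ k₂ _ h1 h2 => u2_shift_aux193 (h.2.2 v k₁ k₂ _ h1 h2)⟩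

/-- **`H893.LocB893b` is stable under the shifts.** -/
theorem locB893b_shift193 {B : L2Base K K'} (hl : 0 < B.l)
    (hcard : ∀ v : InfinitePlace K,
      Nat.card {w : InfinitePlace K' // w.comap (algebraMap K K') = v} = B.l)
    {g : G K'} {𝔫 : Ideal (𝓞 K)}
    {μc : @Measure (GL (Fin 2) ℂ) (borel _)}
    (hμ : @Measure.IsHaarMeasure _ _ _ (borel _) μc)
    {T₀ : Finset (HeightOneSpectrum (𝓞 K))}
    {n n₀ : HeightOneSpectrum (𝓞 K') → ℕ} {m : HeightOneSpectrum (𝓞 K) → ℕ}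
    {T : Finset (HeightOneSpectrum (𝓞 K))}
    {φ₀ : ∀ w : HeightOneSpectrum (𝓞 K'), GL (Fin 2) (w.adicCompletion K') → ℂ}
    {Φ : InfinitePlace K' → GL (Fin 2) ℂ → ℂ}
    {f₀ : ∀ v : HeightOneSpectrum (𝓞 K), GL (Fin 2) (v.adicCompletion K) → ℂ}
    {F : InfinitePlace K → GL (Fin 2) ℂ → ℂ}
    (h : LocB893b B g 𝔫 μc T₀ n n₀ m T φ₀ Φ f₀ F) (t' : InfinitePlace K' → ℝ) :
    LocB893b B g 𝔫 μc T₀ n n₀ m T φ₀ (shUp193 t' Φ) f₀
      (shDn193 (fibSum193 (K := K) t') F) :=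
  ⟨locHyp893_shift193 (D := B.comp 𝔫) hl hcard hμ h.1 t', h.2.1, h.2.2.1, h.2.2.2.1,
    h.2.2.2.2.1, archOk_shift193 (D := B.comp 𝔫) hl hcard hμ h.2.2.2.2.2 t'⟩

/-- `H893.LocB893` (v1) is stable under the shifts. -/
theorem locB893_shift193 {B : L2Base K K'} (hl : 0 < B.l)
    (hcard : ∀ v : InfinitePlace K,
      Nat.card {w : InfinitePlace K' // w.comap (algebraMap K K') = v} = B.l)
    {g : G K'} {𝔫 : Ideal (𝓞 K)}
    {μc : @Measure (GL (Fin 2) ℂ) (borel _)}
    (hμ : @Measure.IsHaarMeasure _ _ _ (borel _) μc)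
    {T₀ : Finset (HeightOneSpectrum (𝓞 K))}
    {n n₀ : HeightOneSpectrum (𝓞 K') → ℕ} {m : HeightOneSpectrum (𝓞 K) → ℕ}
    {T : Finset (HeightOneSpectrum (𝓞 K))}
    {φ₀ : ∀ w : HeightOneSpectrum (𝓞 K'), GL (Fin 2) (w.adicCompletion K') → ℂ}
    {Φ : InfinitePlace K' → GL (Fin 2) ℂ → ℂ}
    {f₀ : ∀ v : HeightOneSpectrum (𝓞 K), GL (Fin 2) (v.adicCompletion K) → ℂ}
    {F : InfinitePlace K → GL (Fin 2) ℂ → ℂ}
    (h : LocB893 B g 𝔫 μc T₀ n n₀ m T φ₀ Φ f₀ F) (t' : InfinitePlace K' → ℝ) :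
    LocB893 B g 𝔫 μc T₀ n n₀ m T φ₀ (shUp193 t' Φ) f₀
      (shDn193 (fibSum193 (K := K) t') F) :=
  ⟨locHyp305_shift193 (D := B.comp 𝔫) hl hcard hμ h.1 t', h.2.1, h.2.2.1, h.2.2.2.1,
    h.2.2.2.2.1, archOk_shift193 (D := B.comp 𝔫) hl hcard hμ h.2.2.2.2.2 t'⟩

end Stable

end Fermat.Agent.LT.T7.H193

end

end
-- ===== PACK-END LT/T7/H193/NatStepArch.lean

-- ===== PACK-BEGIN LT/T7/H193/NatStepShape.lean
section



/-!
# Row LT, tower T7, node T7.L2.1.H2a `BaseCb`, node PAIR-B: THE NATURAL-AVERAGE STEP, part B2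
(the shape of the torus means; helper193)

OFF-MAIN.  Complete proofs, nothing assumed.  ADDITIVE (new names only, suffix `193`).

    isAvgPure_nat193 : IsRelTorus 𝔫 r r' a D a' D' → (L stable under the shifts) →
        IsAvgPure 𝔑 𝔫 T₀ L c φ' f → Continuous f →
        IsAvgPure 𝔑 𝔫 T₀ L c (nat193 a' D' φ') (nat193 a D f)

Parameter space: `closure D' × Ω` (compact), measure = (normalised Lebesgue on `D'`) `⊗ ν`;
the member at `(s, ω)` is the translate by `a'(s)` upstairs and by `a(N s)` downstairs of the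
member at `ω` = the pure tensor with the shifted components at infinity.
-/

set_option autoImplicit false
set_option linter.unusedSectionVars false
set_option linter.style.haveILetI false

open AutomorphicForm IsDedekindDomain NumberField MeasureTheory
open scoped ComplexConjugate

noncomputable section

namespace Fermat.Agent.LT.T7.H193

open Fermat.Agent.LT.H556 Fermat.Agent.LT.H556.A0 Fermat.Agent.LT Fermat.Agent.LT.T7
open Fermat.Agent.LT.T7.H893 Fermat.Agent.LT.T7.H305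

attribute [local instance] Fermat.Agent.LT.T5.instMeasurableSpaceG

/-! ## 1. Translates of pure tensors and of test functions -/

section OneField

variable {K : Type} [Field K] [NumberField K]

theorem finComp_one193 (v : HeightOneSpectrum (𝓞 K)) : finComp v (1 : G K) = 1 := by
  have h2 : finComp v (1 : G K) = (finGL305 v (1 : G K) : Matrix (Fin 2) (Fin 2) _) := rfl
  rw [h2, map_one]
  rfl

theorem trivAtFin_inv193 {v : HeightOneSpectrum (𝓞 K)} {z : G K} (hz : TrivAtFin v z) :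
    TrivAtFin v z⁻¹ := by
  have h := H517.finComp_mul517 v z z⁻¹
  rw [mul_inv_cancel, finComp_one193, show finComp v z = 1 from hz, one_mul] at h
  exact h.symm

theorem finGL_of_triv193 {v : HeightOneSpectrum (𝓞 K)} {z : G K} (hz : TrivAtFin v z) :
    finGL305 v z = 1 := by
  apply Units.ext
  show finComp v z = 1
  exact hz

theorem isIntegralAt_mul_triv193 {v : HeightOneSpectrum (𝓞 K)} {h z : G K}
    (hz : TrivAtFin v z) : IsIntegralAt v (h * z) ↔ IsIntegralAt v h := by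
  unfold IsIntegralAt
  rw [H517.finComp_mul517, show finComp v z = 1 from hz, mul_one]

theorem isIntegralAt_triv_mul193 {v : HeightOneSpectrum (𝓞 K)} {h z : G K}
    (hz : TrivAtFin v z) : IsIntegralAt v (z * h) ↔ IsIntegralAt v h := by
  unfold IsIntegralAt
  rw [H517.finComp_mul517, show finComp v z = 1 from hz, one_mul]

theorem outT_mul_triv193 {T : Finset (HeightOneSpectrum (𝓞 K))} {h z : G K}
    (hz : ∀ v : HeightOneSpectrum (𝓞 K), TrivAtFin v z) :
    OutT305 T (h * z) ↔ OutT305 T h := by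
  unfold OutT305
  refine forall_congr' fun v => forall_congr' fun _ => ?_
  rw [isIntegralAt_mul_triv193 (hz v), mul_inv_rev,
    isIntegralAt_triv_mul193 (trivAtFin_inv193 (hz v))]

/-- The component at infinity of `a t` is the positive scalar `exp (t w)`. -/
theorem infGL_torus193 {𝔑 : Ideal (𝓞 K)} {r : G K} {a : (InfinitePlace K → ℝ) → G K}
    {D : Set (InfinitePlace K → ℝ)} (hD : IsTorusData 𝔑 r a D) (t : InfinitePlace K → ℝ)
    (w : InfinitePlace K) : infGL305 w (a t) = scal193 (t w) := by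
  apply Units.ext
  show infComp w (a t) = _
  rw [hD.inf, scal_val193]

/-- **The translate of a pure tensor by `a t` is the pure tensor with the shifted components
at infinity.** -/
theorem pure_trl193 {𝔑 : Ideal (𝓞 K)} {r : G K} {a : (InfinitePlace K → ℝ) → G K}
    {D : Set (InfinitePlace K → ℝ)} (hD : IsTorusData 𝔑 r a D)
    (T : Finset (HeightOneSpectrum (𝓞 K)))
    (f₀ : ∀ v : HeightOneSpectrum (𝓞 K), GL (Fin 2) (v.adicCompletion K) → ℂ)
    (F : InfinitePlace K → GL (Fin 2) ℂ → ℂ) (t : InfinitePlace K → ℝ) (h : G K) :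
    pure305 T f₀ (shDn193 t F) h = pure305 T f₀ F (h * (a t)⁻¹) := by
  classical
  have hz : ∀ v : HeightOneSpectrum (𝓞 K), TrivAtFin v (a t)⁻¹ := fun v =>
    trivAtFin_inv193 (hD.fin t v)
  unfold pure305
  by_cases hO : OutT305 T h
  · rw [if_pos hO, if_pos ((outT_mul_triv193 hz).mpr hO)]
    congr 1
    · refine Finset.prod_congr rfl fun v _ => ?_
      rw [map_mul, finGL_of_triv193 (hz v), mul_one]
    · refine Finset.prod_congr rfl fun w _ => ?_
      show F w (infGL305 w h * scal193 (-(t w))) = F w (infGL305 w (h * (a t)⁻¹))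
      rw [map_mul, map_inv, infGL_torus193 hD, scal_neg193]
  · rw [if_neg hO, if_neg (fun h' => hO ((outT_mul_triv193 hz).mp h'))]

/-- The translate of a test function by a central element which is trivial at the finite places
is a test function. -/
theorem isTestFn_trl193 {𝔑 : Ideal (𝓞 K)} {φ : G K → ℂ} (hφ : T5.IsTestFn 𝔑 T5.trivType φ)
    {z : G K} (hc : ∀ g : G K, z * g = g * z) :
    T5.IsTestFn 𝔑 T5.trivType (trl193 z φ) := by
  have hci : ∀ g : G K, g * z⁻¹ = z⁻¹ * g := fun g => H496.inv_central496 hc g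
  refine ⟨hφ.ktype, hφ.cont.comp (continuous_id.mul continuous_const),
    hφ.supp.comp_homeomorph (Homeomorph.mulRight z⁻¹), ?_, ⟨?_, ?_, ?_, ?_⟩⟩
  · intro n h hfin hinf g
    have e : (fun t => trl193 z φ (g * h t)) = fun t => φ (g * z⁻¹ * h t) := by
      funext t
      show φ (g * h t * z⁻¹) = _
      rw [mul_assoc, hci (h t), ← mul_assoc]
    rw [e]
    exact hφ.smooth n h hfin hinf (g * z⁻¹)
  · intro u hu g
    show φ (g * u * z⁻¹) = φ (g * z⁻¹)
    rw [mul_assoc, hci u, ← mul_assoc]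
    exact hφ.inv.level_right u hu _
  · intro u hu g
    show φ (u * g * z⁻¹) = φ (g * z⁻¹)
    rw [mul_assoc]
    exact hφ.inv.level_left u hu _
  · intro w k hk g
    show φ (g * k * z⁻¹) = _ * φ (g * z⁻¹)
    rw [mul_assoc, hci k, ← mul_assoc]
    exact hφ.inv.arch_right w k hk _
  · intro w k hk g
    show φ (k * g * z⁻¹) = _ * φ (g * z⁻¹)
    rw [mul_assoc]
    exact hφ.inv.arch_left w k hk _

end OneField

/-! ## 2. The parameter space -/

section Param

variable {ι : Type} [Fintype ι]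

/-- The normalised Lebesgue measure of `D`, as a measure on the compact space `closure D`. -/
def nuPar193 (D : Set (ι → ℝ)) : Measure (closure D) :=
  Measure.comap (Subtype.val : closure D → (ι → ℝ)) ((volume D)⁻¹ • volume.restrict D)

theorem isFiniteMeasure_nuPar193 {D : Set (ι → ℝ)} (hb : Bornology.IsBounded D)
    (hp : 0 < volume D) : IsFiniteMeasure (nuPar193 D) := by
  haveI : IsFiniteMeasure (volume.restrict D) :=
    ⟨by rw [Measure.restrict_apply_univ]; exact hb.measure_lt_top⟩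
  haveI : IsFiniteMeasure ((volume D)⁻¹ • volume.restrict D) :=
    Measure.smul_finite _ (ENNReal.inv_ne_top.mpr hp.ne')
  refine ⟨?_⟩
  unfold nuPar193
  rw [(MeasurableEmbedding.subtype_coe measurableSet_closure).comap_apply]
  exact measure_lt_top _ _

theorem integral_nuPar193 {D : Set (ι → ℝ)} (g : (ι → ℝ) → ℂ) :
    ∫ s : closure D, g (s : ι → ℝ) ∂(nuPar193 D)
      = (((volume D).toReal : ℝ) : ℂ)⁻¹ * ∫ t in D, g t := by
  unfold nuPar193
  rw [integral_subtype_comap measurableSet_closure, Measure.restrict_smul,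
    Measure.restrict_restrict measurableSet_closure,
    Set.inter_eq_self_of_subset_right subset_closure, integral_smul_measure,
    ENNReal.toReal_inv, Complex.real_smul, Complex.ofReal_inv]

theorem compactSpace_closure193 {D : Set (ι → ℝ)} (hb : Bornology.IsBounded D) :
    CompactSpace (closure D) :=
  isCompact_iff_compactSpace.mp hb.isCompact_closure

end Param

/-! ## 3. The shape of the torus means -/

section Shape

variable {K K' : Type} [Field K] [NumberField K] [Field K'] [NumberField K'] [Algebra K K']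

theorem continuous_fibSum193 :
    Continuous (fibSum193 (K := K) : (InfinitePlace K' → ℝ) → InfinitePlace K → ℝ) := by
  classical
  unfold fibSum193
  refine continuous_pi fun v => continuous_finsetSum _ fun w _ => ?_
  by_cases h : w.comap (algebraMap K K') = v
  · simp only [if_pos h]
    exact continuous_apply w
  · simp only [if_neg h]
    exact continuous_const

/-- A continuous function on a compact space with a finite measure is integrable. -/
theorem integrable_of_compact193 {X : Type} [TopologicalSpace X] [CompactSpace X]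
    [MeasurableSpace X] [BorelSpace X] (μ : Measure X) [IsFiniteMeasure μ] {g : X → ℂ}
    (hg : Continuous g) : Integrable g μ :=
  hg.integrable_of_hasCompactSupport (HasCompactSupport.of_compactSpace g)

/-- **THE SHAPE OF THE TORUS MEANS.**  For compatible torus data and a local condition which is
stable under the shifts, the torus means of a pair with the shape `IsAvgPure` have the shape
`IsAvgPure` (same local condition, same constant). -/
theorem isAvgPure_nat193 {𝔫 : Ideal (𝓞 K)} {r : G K} {r' : G K'}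
    {a : (InfinitePlace K → ℝ) → G K} {D : Set (InfinitePlace K → ℝ)}
    {a' : (InfinitePlace K' → ℝ) → G K'} {D' : Set (InfinitePlace K' → ℝ)}
    (hrel : IsRelTorus 𝔫 r r' a D a' D')
    {𝔑₁ : Ideal (𝓞 K')} {𝔫₁ : Ideal (𝓞 K)} {T₀ : Finset (HeightOneSpectrum (𝓞 K))}
    {L : LocCond K K'}
    (hL : ∀ (T : Finset (HeightOneSpectrum (𝓞 K)))
      (φ₀ : ∀ w : HeightOneSpectrum (𝓞 K'), GL (Fin 2) (w.adicCompletion K') → ℂ)
      (Φ : InfinitePlace K' → GL (Fin 2) ℂ → ℂ)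
      (f₀ : ∀ v : HeightOneSpectrum (𝓞 K), GL (Fin 2) (v.adicCompletion K) → ℂ)
      (F : InfinitePlace K → GL (Fin 2) ℂ → ℂ), L T φ₀ Φ f₀ F →
      ∀ t' : InfinitePlace K' → ℝ,
        L T φ₀ (shUp193 t' Φ) f₀ (shDn193 (fibSum193 (K := K) t') F))
    {c : ℂ} {φ' : G K' → ℂ} {f : G K → ℂ} (hf : Continuous f)
    (h : IsAvgPure 𝔑₁ 𝔫₁ T₀ L c φ' f) :
    IsAvgPure 𝔑₁ 𝔫₁ T₀ L c (nat193 a' D' φ') (nat193 a D f) := by
  obtain ⟨Ω, iT, iC, iT2, iSC, iM, iB, ν, iF, T, T', φ₀, Φ, f₀, F, h1, h2, h3, h4, h5,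
    ⟨C', hC', hC'm⟩, ⟨C, hC, hCm⟩, h8, h9⟩ := h
  have hK : IsCompact (closure D') := hrel.up.bdd.isCompact_closure
  haveI : CompactSpace (closure D') := compactSpace_closure193 hrel.up.bdd
  haveI : IsFiniteMeasure (nuPar193 D') := isFiniteMeasure_nuPar193 hrel.up.bdd hrel.up.pos
  -- the translates
  have eU : ∀ (ω : Ω) (s : InfinitePlace K' → ℝ) (x : G K'),
      pure305 (T' ω) (φ₀ ω) (shUp193 s (Φ ω)) x
        = pure305 (T' ω) (φ₀ ω) (Φ ω) (x * (a' s)⁻¹) := fun ω s x =>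
    pure_trl193 hrel.up (T' ω) (φ₀ ω) (Φ ω) s x
  have eD : ∀ (ω : Ω) (s : InfinitePlace K → ℝ) (x : G K),
      pure305 (T ω) (f₀ ω) (shDn193 s (F ω)) x
        = pure305 (T ω) (f₀ ω) (F ω) (x * (a s)⁻¹) := fun ω s x =>
    pure_trl193 hrel.down (T ω) (f₀ ω) (F ω) s x
  -- joint continuity
  have cU : Continuous (fun q : (closure D' × Ω) × G K' =>
      pure305 (T' q.1.2) (φ₀ q.1.2) (shUp193 (q.1.1 : InfinitePlace K' → ℝ) (Φ q.1.2)) q.2) := by
    have e : (fun q : (closure D' × Ω) × G K' =>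
        pure305 (T' q.1.2) (φ₀ q.1.2) (shUp193 (q.1.1 : InfinitePlace K' → ℝ) (Φ q.1.2)) q.2)
        = (fun p : Ω × G K' => pure305 (T' p.1) (φ₀ p.1) (Φ p.1) p.2) ∘
          (fun q : (closure D' × Ω) × G K' =>
            (q.1.2, q.2 * (a' (q.1.1 : InfinitePlace K' → ℝ))⁻¹)) := by
      funext q
      exact eU _ _ _
    rw [e]
    refine h4.comp ?_
    exact (continuous_fst.snd).prodMk
      (continuous_snd.mul (hrel.up.cont.comp (continuous_subtype_val.comp
        continuous_fst.fst)).inv)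
  have cD : Continuous (fun q : (closure D' × Ω) × G K =>
      c * pure305 (T q.1.2) (f₀ q.1.2)
        (shDn193 (fibSum193 (K := K) (q.1.1 : InfinitePlace K' → ℝ)) (F q.1.2)) q.2) := by
    have e : (fun q : (closure D' × Ω) × G K =>
        c * pure305 (T q.1.2) (f₀ q.1.2)
          (shDn193 (fibSum193 (K := K) (q.1.1 : InfinitePlace K' → ℝ)) (F q.1.2)) q.2)
        = (fun p : Ω × G K => c * pure305 (T p.1) (f₀ p.1) (F p.1) p.2) ∘
          (fun q : (closure D' × Ω) × G K =>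
            (q.1.2, q.2 * (a (fibSum193 (K := K) (q.1.1 : InfinitePlace K' → ℝ)))⁻¹)) := by
      funext q
      show c * _ = c * _
      rw [eD]
    rw [e]
    refine h5.comp ?_
    exact (continuous_fst.snd).prodMk
      (continuous_snd.mul (hrel.down.cont.comp (continuous_fibSum193.comp
        (continuous_subtype_val.comp continuous_fst.fst))).inv)
  refine ⟨closure D' × Ω, inferInstance, inferInstance, inferInstance, inferInstance,
    inferInstance, inferInstance, (nuPar193 D').prod ν, inferInstance,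
    fun p => T p.2, fun p => T' p.2, fun p => φ₀ p.2,
    fun p => shUp193 (p.1 : InfinitePlace K' → ℝ) (Φ p.2), fun p => f₀ p.2,
    fun p => shDn193 (fibSum193 (K := K) (p.1 : InfinitePlace K' → ℝ)) (F p.2),
    ?_, ?_, ?_, cU, cD, ?_, ?_, ?_, ?_⟩
  · intro p
    exact ⟨(h1 p.2).1, (h1 p.2).2.1, hL _ _ _ _ _ (h1 p.2).2.2 _⟩
  · intro p
    have e : pure305 (T' p.2) (φ₀ p.2) (shUp193 (p.1 : InfinitePlace K' → ℝ) (Φ p.2))
        = trl193 (a' (p.1 : InfinitePlace K' → ℝ)) (pure305 (T' p.2) (φ₀ p.2) (Φ p.2)) :=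
      funext fun x => eU _ _ _
    rw [e]
    exact isTestFn_trl193 (h2 p.2) (hrel.up.central _)
  · intro p
    have e : (fun x => c * pure305 (T p.2) (f₀ p.2)
          (shDn193 (fibSum193 (K := K) (p.1 : InfinitePlace K' → ℝ)) (F p.2)) x)
        = trl193 (a (fibSum193 (K := K) (p.1 : InfinitePlace K' → ℝ)))
          (fun x => c * pure305 (T p.2) (f₀ p.2) (F p.2) x) := by
      funext x
      show c * _ = c * _
      rw [eD]
    rw [e]
    exact isTestFn_trl193 (h3 p.2) (hrel.down.central _)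
  · refine ⟨(fun q : G K' × (InfinitePlace K' → ℝ) => q.1 * a' q.2) '' (C' ×ˢ closure D'),
      (hC'.prod hK).image (continuous_fst.mul (hrel.up.cont.comp continuous_snd)), ?_⟩
    intro p x hx
    rw [eU] at hx
    refine ⟨(x * (a' (p.1 : InfinitePlace K' → ℝ))⁻¹, (p.1 : InfinitePlace K' → ℝ)),
      ⟨hC'm p.2 _ hx, p.1.2⟩, ?_⟩
    show x * (a' (p.1 : InfinitePlace K' → ℝ))⁻¹ * a' (p.1 : InfinitePlace K' → ℝ) = x
    rw [inv_mul_cancel_right]
  · refine ⟨(fun q : G K × (InfinitePlace K' → ℝ) => q.1 * a (fibSum193 (K := K) q.2)) ''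
        (C ×ˢ closure D'),
      (hC.prod hK).image (continuous_fst.mul
        (hrel.down.cont.comp (continuous_fibSum193.comp continuous_snd))), ?_⟩
    intro p x hx
    rw [eD] at hx
    refine ⟨(x * (a (fibSum193 (K := K) (p.1 : InfinitePlace K' → ℝ)))⁻¹,
        (p.1 : InfinitePlace K' → ℝ)), ⟨hCm p.2 _ hx, p.1.2⟩, ?_⟩
    show x * (a (fibSum193 (K := K) (p.1 : InfinitePlace K' → ℝ)))⁻¹
      * a (fibSum193 (K := K) (p.1 : InfinitePlace K' → ℝ)) = x
    rw [inv_mul_cancel_right]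
  · intro x
    have hint : Integrable (fun p : closure D' × Ω =>
        pure305 (T' p.2) (φ₀ p.2) (shUp193 (p.1 : InfinitePlace K' → ℝ) (Φ p.2)) x)
        ((nuPar193 D').prod ν) :=
      integrable_of_compact193 _ (cU.comp (continuous_id.prodMk continuous_const))
    rw [integral_prod _ hint]
    have e : (fun s : closure D' => ∫ ω, pure305 (T' ω) (φ₀ ω)
          (shUp193 (s : InfinitePlace K' → ℝ) (Φ ω)) x ∂ν)
        = fun s : closure D' => φ' (x * (a' (s : InfinitePlace K' → ℝ))⁻¹) := by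
      funext s
      rw [h8]
      refine integral_congr_ae (Filter.Eventually.of_forall fun ω => ?_)
      exact eU _ _ _
    rw [e, integral_nuPar193 (fun t => φ' (x * (a' t)⁻¹))]
    rfl
  · intro x
    have hint : Integrable (fun p : closure D' × Ω =>
        c * pure305 (T p.2) (f₀ p.2)
          (shDn193 (fibSum193 (K := K) (p.1 : InfinitePlace K' → ℝ)) (F p.2)) x)
        ((nuPar193 D').prod ν) :=
      integrable_of_compact193 _ (cD.comp (continuous_id.prodMk continuous_const))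
    rw [integral_prod _ hint]
    have e : (fun s : closure D' => ∫ ω, c * pure305 (T ω) (f₀ ω)
          (shDn193 (fibSum193 (K := K) (s : InfinitePlace K' → ℝ)) (F ω)) x ∂ν)
        = fun s : closure D' =>
          f (x * (a (fibSum193 (K := K) (s : InfinitePlace K' → ℝ)))⁻¹) := by
      funext s
      rw [h9]
      refine integral_congr_ae (Filter.Eventually.of_forall fun ω => ?_)
      show c * _ = c * _
      rw [eD]
    rw [e, integral_nuPar193 (fun t => f (x * (a (fibSum193 (K := K) t))⁻¹)),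
      nat_eq_push193 hrel hf x]
    rfl

end Shape

end Fermat.Agent.LT.T7.H193

end

end
-- ===== PACK-END LT/T7/H193/NatStepShape.lean

-- ===== PACK-BEGIN LT/T7/Q797/BaseCutTop.lean
section



/-!
# Row LT, tower T7, node T7.L2.1.H2a `H893.BaseC` (registry row 2597): FIRST CUT -- PROVED TOP

OFF-MAIN.  No hole, nothing assumed.  ADDITIVE (new names only, suffix `797`).

    baseGC_of797 : ExpC797 K K' → CosetC797 K K' → PairAC797 P K K' LA → PairBC797 P K K' LB
        → BaseGC797 P K K' LA LB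
    baseC_of797  : ExpC797 K K' → CosetC797 K K' → PairAC797 P K K' LocA893
        → PairBC797 P K K' LocB893 → H893.BaseC P K K'                       (VERBATIM)
-/

set_option autoImplicit false

open AutomorphicForm IsDedekindDomain NumberField MeasureTheory
open scoped ComplexConjugate

noncomputable section

namespace Fermat.Agent.LT.T7.Q797

open Fermat.Agent.LT.H556 Fermat.Agent.LT.H556.A0 Fermat.Agent.LT.T7
open Fermat.Agent.LT.T7.H893 Fermat.Agent.LT.T7.H305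

attribute [local instance] Fermat.Agent.LT.T5.instMeasurableSpaceG

section Top

variable {P : EKCond}
variable {K K' : Type} [Field K] [NumberField K] [Field K'] [NumberField K'] [Algebra K K']

/-- The pre-data assembled from the components. -/
def mkPre797 (𝔫 : Ideal (𝓞 K)) (c₁ c₂ : EigData K' → ℂ) (Φ₁ : List (Gen K') → G K' → ℂ)
    (φ₂ : G K' → ℂ) (F₁ : List (Gen K') → G K → ℂ) (f₂ : G K → ℂ) (Hg H' : Finset (G K'))
    (z' : G K') (H : Finset (G K)) (z : G K) : L2Pre K K' where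
  𝔫 := 𝔫
  c₁ := c₁
  c₂ := c₂
  Φ₁ := Φ₁
  φ₂ := φ₂
  F₁ := F₁
  f₂ := f₂
  Hg := Hg
  H' := H'
  z' := z'
  H := H
  z := z
  m₀ := fun _ => 0

/-- The operator properties of the assembled pre-data. -/
theorem isL2PreOp_mk797 {LA : ShapeA797 K K'} {LB : ShapeB797 K K'} {ℓ : ℕ}
    {Φ : HeckeEigensystem K' ℂ} {B : L2Base K K'} {g : G K'} {𝔫 : Ideal (𝓞 K)}
    {μc : @Measure (GL (Fin 2) ℂ) (borel _)} {T₀ : Finset (HeightOneSpectrum (𝓞 K))}
    {n n₀ : HeightOneSpectrum (𝓞 K') → ℕ} {m : HeightOneSpectrum (𝓞 K) → ℕ} {a : ℂ}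
    {c₁ c₂ : EigData K' → ℂ} {Φ₁ : List (Gen K') → G K' → ℂ} {φ₂ : G K' → ℂ}
    {F₁ : List (Gen K') → G K → ℂ} {f₂ : G K → ℂ} {Hg H' : Finset (G K')} {z' : G K'}
    {H : Finset (G K)} {z : G K}
    (hL : IsLevel797 B 𝔫) (hC : IsCosets797 B g Hg H' z' H z)
    (hA : IsPairA797 LA ℓ Φ B 𝔫 μc T₀ n m c₁ Φ₁ F₁)
    (hB : IsPairB797 LB ℓ Φ B g 𝔫 μc T₀ n n₀ m a c₂ φ₂ f₂) :
    IsL2PreOp ℓ Φ B g (mkPre797 𝔫 c₁ c₂ Φ₁ φ₂ F₁ f₂ Hg H' z' H z) where
  level_ne := hL.level_ne
  level_g := hL.level_g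
  mem_S'_g := hL.mem_S'_g
  u_level := hL.u_level
  sysg := hC.sysg
  sys' := hC.sys'
  unif' := hC.unif'
  sys := hC.sys
  unif := hC.unif
  up1_test := hA.up1_test
  up1_ek := hA.up1_ek
  up1_op := hA.up1_op
  up2_test := hB.up2_test
  up2_ek := hB.up2_ek
  up2_inv := hB.up2_inv
  up2_op := hB.up2_op
  up2_kill := hB.up2_kill
  up_ne := fun C hC' => ⟨hA.up1_ne C hC', hB.up2_ne C hC'⟩
  dn1_test := hA.dn1_test
  dn1_ek := hA.dn1_ek
  dn1_op := hA.dn1_op
  dn1_wfn := hA.dn1_wfn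
  dn1_class := hA.dn1_class
  dn1_comm := hA.dn1_comm
  dn2_test := hB.dn2_test
  dn2_ek := hB.dn2_ek
  dn2_inv := hB.dn2_inv
  dn2_wfn := hB.dn2_wfn
  dn2_class := hB.dn2_class
  dn2_comm := hB.dn2_comm
  dn2_kill := hB.dn2_kill

/-- The supports of the assembled pre-data. -/
theorem isL2PreSupp_mk797 {LA : ShapeA797 K K'} {LB : ShapeB797 K K'} {ℓ : ℕ}
    {Φ : HeckeEigensystem K' ℂ} {B : L2Base K K'} {g : G K'} {𝔫 : Ideal (𝓞 K)}
    {μc : @Measure (GL (Fin 2) ℂ) (borel _)} {T₀ : Finset (HeightOneSpectrum (𝓞 K))}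
    {n n₀ : HeightOneSpectrum (𝓞 K') → ℕ} {m : HeightOneSpectrum (𝓞 K) → ℕ} {a : ℂ}
    {c₁ c₂ : EigData K' → ℂ} {Φ₁ : List (Gen K') → G K' → ℂ} {φ₂ : G K' → ℂ}
    {F₁ : List (Gen K') → G K → ℂ} {f₂ : G K → ℂ}
    (hA : IsPairA797 LA ℓ Φ B 𝔫 μc T₀ n m c₁ Φ₁ F₁)
    (hB : IsPairB797 LB ℓ Φ B g 𝔫 μc T₀ n n₀ m a c₂ φ₂ f₂)
    (Hg H' : Finset (G K')) (z' : G K') (H : Finset (G K)) (z : G K) :
    IsL2PreSupp ℓ B (mkPre797 𝔫 c₁ c₂ Φ₁ φ₂ F₁ f₂ Hg H' z' H z) where
  up1_supp := hA.up1_supp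
  up2_supp := hB.up2_supp
  dn1_supp := hA.dn1_supp
  dn2_supp := hB.dn2_supp

/-- **THE TOP OF THE FIRST CUT OF `BaseC`, general local shapes.** -/
theorem baseGC_of797 {LA : ShapeA797 K K'} {LB : ShapeB797 K K'}
    (hE : ExpC797 K K') (hCo : CosetC797 K K') (hA : PairAC797 P K K' LA)
    (hB : PairBC797 P K K' LB) : BaseGC797 P K K' LA LB := by
  intro ℓ hcyc hℓ hcplx Φ hΦ hconst hPΦ B hBase hRam g hg
  obtain ⟨𝔫, μc, hL, hμc, hpB⟩ := hB ℓ hcyc hℓ hcplx Φ hΦ hconst hPΦ B hBase hRam g hg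
  obtain ⟨T₀, n, n₀, m, hexp⟩ := hE ℓ Φ B hBase 𝔫 hL
  obtain ⟨Hg, H', z', H, z, hC⟩ := hCo ℓ Φ B hBase g hg
  obtain ⟨c₁, Φ₁, F₁, hpA⟩ :=
    hA ℓ hcyc hℓ hcplx Φ hΦ hconst hPΦ B hBase hRam 𝔫 hL μc hμc T₀ n n₀ m hexp
  refine ⟨𝔫, μc, hμc, fun a ha => ?_⟩
  obtain ⟨c₂, φ₂, f₂, hpB'⟩ := hpB T₀ n n₀ m hexp a ha
  exact ⟨mkPre797 𝔫 c₁ c₂ Φ₁ φ₂ F₁ f₂ Hg H' z' H z, rfl,
    isL2PreOp_mk797 hL hC hpA hpB', isL2PreSupp_mk797 hpA hpB' Hg H' z' H z,
    T₀, n, n₀, m, hexp.mem_T₀, hexp.lev_m, hexp.lev_n, hexp.lev_n₀, hpA.shape, hpB'.shape⟩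

/-- The general node for the shapes of record IS the node of helper893. -/
theorem baseC_of_baseGC797 (h : BaseGC797 P K K' LocA893 LocB893) : BaseC P K K' := h

/-- The node of helper893 IS the general node for the shapes of record. -/
theorem baseGC_of_baseC797 (h : BaseC P K K') : BaseGC797 P K K' LocA893 LocB893 := h

/-- **THE TOP OF THE FIRST CUT OF `H893.BaseC`** (registry row 2597), VERBATIM. -/
theorem baseC_of797 (hE : ExpC797 K K') (hCo : CosetC797 K K')
    (hA : PairAC797 P K K' LocA893) (hB : PairBC797 P K K' LocB893) : BaseC P K K' :=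
  baseC_of_baseGC797 (baseGC_of797 hE hCo hA hB)

end Top

/-! ## Appendix: the equation lemmas of the definition of this file are realised HERE -/

theorem eqns_realised_baseCutTop797 : True := by
  have _h0 := @mkPre797.eq_1
  have _h1 := @mkPre797.eq_def
  have _h2 := @mkPre797.eq_unfold
  trivial

end Fermat.Agent.LT.T7.Q797

end

end
-- ===== PACK-END LT/T7/Q797/BaseCutTop.lean

-- ===== PACK-BEGIN LT/T7/Q797/BaseCutTop2.lean
section




/-!
# Row LT, tower T7, node T7.L2.1.H2a v2 `H893.BaseCb` (registry row 2597): THE TOP OF THE FIRST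
# CUT FOR THE FORM OF RECORD v2 (split clause for ONE enumeration, `H893.LocHyp893`)

OFF-MAIN.  No hole, nothing assumed.  ADDITIVE (new names only, suffix `797`).  The cut
`BaseCutSpec.lean` is parametric in the local shapes; the form of record v2 of helper893
(`SupplyConstrSpec2.lean` f8a1da64929e: `LocB893b`, `IsDecomp893b`, `BaseCb`) is the case
`LA = LocA893`, `LB = LocB893b`, by definition.

    baseCb_of797 : ExpC797 K K' → CosetC797 K K' → PairAC797 P K K' LocA893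
        → PairBC797 P K K' LocB893b → H893.BaseCb P K K'                     (VERBATIM)
-/

set_option autoImplicit false

open AutomorphicForm IsDedekindDomain NumberField MeasureTheory
open scoped ComplexConjugate

noncomputable section

namespace Fermat.Agent.LT.T7.Q797

open Fermat.Agent.LT.H556 Fermat.Agent.LT.H556.A0 Fermat.Agent.LT.T7
open Fermat.Agent.LT.T7.H893 Fermat.Agent.LT.T7.H305

attribute [local instance] Fermat.Agent.LT.T5.instMeasurableSpaceG

variable {P : EKCond}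
variable {K K' : Type} [Field K] [NumberField K] [Field K'] [NumberField K'] [Algebra K K']

/-- The general node for the shapes of record v2 IS the node `BaseCb` of helper893. -/
theorem baseCb_of_baseGC797 (h : BaseGC797 P K K' LocA893 LocB893b) : BaseCb P K K' := h

/-- The node `BaseCb` of helper893 IS the general node for the shapes of record v2. -/
theorem baseGC_of_baseCb797 (h : BaseCb P K K') : BaseGC797 P K K' LocA893 LocB893b := h

/-- **THE TOP OF THE FIRST CUT OF `H893.BaseCb`** (form of record v2), VERBATIM. -/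
theorem baseCb_of797 (hE : ExpC797 K K') (hCo : CosetC797 K K')
    (hA : PairAC797 P K K' LocA893) (hB : PairBC797 P K K' LocB893b) : BaseCb P K K' :=
  baseCb_of_baseGC797 (baseGC_of797 hE hCo hA hB)

end Fermat.Agent.LT.T7.Q797

end

end
-- ===== PACK-END LT/T7/Q797/BaseCutTop2.lean

-- ===== PACK-BEGIN LT/T7/H209/LtrDown.lean
section


/-!
# Row LT, tower T7, leaves EKPROD-DOWN (helper209): the generic statement, any `K_∞`-type

OFF-MAIN, ADDITIVE (all names end in `209`).  Nothing assumed.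

`IsRTT209 τ 𝔑 φ` = the clauses of `T5.IsTestFn 𝔑 τ φ` except `ktype` and the left invariance
under the level group; stable under left translation by elements which are trivial at the
infinite places, finite sums and scalar multiples.

    isEKTestT_regL209 : regL u z H k m f₂ is an Eisenstein-killing test function of level `𝔑`
                        and type `τ` with Eisenstein-killing adjoint
    isEKProdT_down209 : the statement `L2Q.IsEKProdT τ 𝔑 R (F₁ ⋆ regL u z H k m f₂)`, unfolded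
    isEKProd_down209  : IsEKProd 𝔑 R (F₁ ⋆ regL u z H k m f₂)         (trivial type)

for ONE number field, a frame, a level `𝔑 ≠ 0`, a place `u ∣ 𝔑`, an Iwahori coset system `H` and
a scalar uniformiser `z` at `u`, `f₂` an Eisenstein-killing test function of level `𝔑` and type
`τ` with `H893.IsUInv 𝔑 1 (fun _ => u) f₂`.
-/

set_option autoImplicit false

open AutomorphicForm IsDedekindDomain NumberField MeasureTheory
open scoped ComplexConjugate

noncomputable section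

namespace Fermat.Agent.LT.T7.H209

open Fermat.Agent.LT.H556 Fermat.Agent.LT.H556.A0 Fermat.Agent.LT.T7

attribute [local instance] Fermat.Agent.LT.T5.instMeasurableSpaceG

variable {K : Type} [Field K] [NumberField K]

/-- The clauses of `T5.IsTestFn 𝔑 τ φ` except `ktype` and `level_left`. -/
structure IsRTT209 (τ : G K → ℂ) (𝔑 : Ideal (𝓞 K)) (φ : G K → ℂ) : Prop where
  cont : Continuous φ
  supp : HasCompactSupport φ
  smooth : T5.IsSmoothAtInf φ
  level_right : ∀ u : G K, InLevelGroup 𝔑 u → ∀ g : G K, φ (g * u) = φ g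
  arch_right : ∀ (w : InfinitePlace K) (k : G K), IsArchCompact w k →
    ∀ g : G K, φ (g * k) = (τ k)⁻¹ * φ g
  arch_left : ∀ (w : InfinitePlace K) (k : G K), IsArchCompact w k →
    ∀ g : G K, φ (k * g) = (τ k)⁻¹ * φ g

variable {τ : G K → ℂ}

theorem isRTT_of_isTestFn209 {𝔑 : Ideal (𝓞 K)} {φ : G K → ℂ} (h : T5.IsTestFn 𝔑 τ φ) :
    IsRTT209 τ 𝔑 φ where
  cont := h.cont
  supp := h.supp
  smooth := h.smooth
  level_right := h.inv.level_right
  arch_right := h.inv.arch_right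
  arch_left := h.inv.arch_left

theorem isTestFn_of_isRTT209 {𝔑 : Ideal (𝓞 K)} {φ : G K → ℂ} (hk : T5.IsKType τ)
    (h : IsRTT209 τ 𝔑 φ) (hl : ∀ u : G K, InLevelGroup 𝔑 u → ∀ g : G K, φ (u * g) = φ g) :
    T5.IsTestFn 𝔑 τ φ where
  ktype := hk
  cont := h.cont
  supp := h.supp
  smooth := h.smooth
  inv :=
    { level_right := h.level_right
      level_left := hl
      arch_right := h.arch_right
      arch_left := h.arch_left }

theorem isRTT_ltr209 {𝔑 : Ideal (𝓞 K)} {b : G K} (hb : TrivInf209 b) {φ : G K → ℂ}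
    (h : IsRTT209 τ 𝔑 φ) : IsRTT209 τ 𝔑 (H893.ltr b φ) where
  cont := continuous_ltr209 b h.cont
  supp := hasCompactSupport_ltr209 b h.supp
  smooth := fun n f hf hs g => by
    have := h.smooth n f hf hs (b⁻¹ * g)
    have e : (fun t => H893.ltr b φ (g * f t)) = fun t => φ (b⁻¹ * g * f t) := by
      funext t
      rw [ltr_apply209, mul_assoc]
    rw [e]
    exact this
  level_right := fun u hu g => by
    rw [ltr_apply209, ltr_apply209, ← mul_assoc, h.level_right u hu]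
  arch_right := fun w k hk g => by
    rw [ltr_apply209, ltr_apply209, ← mul_assoc, h.arch_right w k hk]
  arch_left := fun w k hk g => by
    rw [ltr_apply209, ltr_apply209, ← mul_assoc, comm_of_trivInf209 (trivInf_inv209 hb) hk.1,
      mul_assoc, h.arch_left w k hk]

theorem isRTT_sum209 {𝔑 : Ideal (𝓞 K)} {ι : Type} (s : Finset ι) (φ : ι → G K → ℂ)
    (h : ∀ i ∈ s, IsRTT209 τ 𝔑 (φ i)) : IsRTT209 τ 𝔑 (fun y => ∑ i ∈ s, φ i y) where
  cont := continuous_finsetSum s fun i hi => (h i hi).cont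
  supp := hasCompactSupport_sum209 s φ fun i hi => (h i hi).supp
  smooth := fun n f hf hs g =>
    ContDiff.sum fun i hi => (h i hi).smooth n f hf hs g
  level_right := fun u hu g =>
    Finset.sum_congr rfl fun i hi => (h i hi).level_right u hu g
  arch_right := fun w k hk g => by
    show ∑ i ∈ s, φ i (g * k) = (τ k)⁻¹ * ∑ i ∈ s, φ i g
    rw [Finset.mul_sum]
    exact Finset.sum_congr rfl fun i hi => (h i hi).arch_right w k hk g
  arch_left := fun w k hk g => by
    show ∑ i ∈ s, φ i (k * g) = (τ k)⁻¹ * ∑ i ∈ s, φ i g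
    rw [Finset.mul_sum]
    exact Finset.sum_congr rfl fun i hi => (h i hi).arch_left w k hk g

theorem isRTT_const_mul209 {𝔑 : Ideal (𝓞 K)} (c : ℂ) {φ : G K → ℂ} (h : IsRTT209 τ 𝔑 φ) :
    IsRTT209 τ 𝔑 (fun y => c * φ y) where
  cont := continuous_const.mul h.cont
  supp := h.supp.mul_left (f := fun _ => c)
  smooth := fun n f hf hs g => contDiff_const.mul (h.smooth n f hf hs g)
  level_right := fun u hu g => by
    show c * φ (g * u) = c * φ g
    rw [h.level_right u hu]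
  arch_right := fun w k hk g => by
    show c * φ (g * k) = (τ k)⁻¹ * (c * φ g)
    rw [h.arch_right w k hk, mul_left_comm]
  arch_left := fun w k hk g => by
    show c * φ (k * g) = (τ k)⁻¹ * (c * φ g)
    rw [h.arch_left w k hk, mul_left_comm]

theorem isRTT_lsum209 {𝔑 : Ideal (𝓞 K)} {H : Finset (G K)} (hH : ∀ h ∈ H, TrivInf209 h)
    {φ : G K → ℂ} (h : IsRTT209 τ 𝔑 φ) : IsRTT209 τ 𝔑 (H893.lsum H φ) := by
  rw [lsum_eq_sum_ltr209]
  exact isRTT_sum209 H (fun b => H893.ltr b φ) fun b hb => isRTT_ltr209 (hH b hb) h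

theorem isRTT_iwL209 {𝔑 : Ideal (𝓞 K)} (w : HeightOneSpectrum (𝓞 K)) {H : Finset (G K)}
    (hH : ∀ h ∈ H, TrivInf209 h) {φ : G K → ℂ} (h : IsRTT209 τ 𝔑 φ) :
    IsRTT209 τ 𝔑 (H893.iwL w H φ) := by
  rw [iwL_eq209]
  exact isRTT_const_mul209 _ (isRTT_lsum209 hH h)

theorem isRTT_iwL_iterate209 {𝔑 : Ideal (𝓞 K)} (w : HeightOneSpectrum (𝓞 K))
    {H : Finset (G K)} (hH : ∀ h ∈ H, TrivInf209 h) {φ : G K → ℂ} (h : IsRTT209 τ 𝔑 φ)
    (m : ℕ) : IsRTT209 τ 𝔑 ((H893.iwL w H)^[m] φ) := by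
  induction m with
  | zero => exact h
  | succ m ih =>
    rw [Function.iterate_succ_apply']
    exact isRTT_iwL209 w hH ih

theorem isRTT_regL209 {𝔑 : Ideal (𝓞 K)} (w : HeightOneSpectrum (𝓞 K)) {z : G K}
    (hz : TrivInf209 z) {H : Finset (G K)} (hH : ∀ h ∈ H, TrivInf209 h) (k : ℤ) (m : ℕ)
    {φ : G K → ℂ} (h : IsRTT209 τ 𝔑 φ) : IsRTT209 τ 𝔑 (H893.regL w z H k m φ) := by
  rw [regL_eq209]
  exact isRTT_ltr209 (trivInf_zpow209 hz k) (isRTT_iwL_iterate209 w hH h m)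

/-- **The second factor of the members downstairs** is an Eisenstein-killing test function of
type `τ` with Eisenstein-killing adjoint. -/
theorem isEKTestT_regL209 {μ : Measure (G K)} {F : Set (G K)} (hF : T5.IsFrame μ F)
    {𝔑 : Ideal (𝓞 K)} {u : HeightOneSpectrum (𝓞 K)} (hu : u.asIdeal ∣ 𝔑)
    {H : Finset (G K)} (hH : IsIwCosetSystem u H) {z : G K} (hz : IsScalarUniformizerAt u z)
    {f₂ : G K → ℂ} (ht : T5.IsTestFn 𝔑 τ f₂)
    (hek : T5.IsEK μ f₂ ∧ T5.IsEK μ (T5.adjointFn f₂))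
    (hinv : H893.IsUInv 𝔑 1 (fun _ => u) f₂) (k : ℤ) (m : ℕ) :
    T5.IsTestFn 𝔑 τ (H893.regL u z H k m f₂) ∧ T5.IsEK μ (H893.regL u z H k m f₂) ∧
      T5.IsEK μ (T5.adjointFn (H893.regL u z H k m f₂)) := by
  have hHT : ∀ h ∈ H, TrivInf209 h := fun h hh => (hH.2.1 h hh).1.1
  have hzT : TrivInf209 z := hz.1.1
  have hRT : IsRTT209 τ 𝔑 (H893.regL u z H k m f₂) :=
    isRTT_regL209 u hzT hHT k m (isRTT_of_isTestFn209 ht)
  have hL := (isLInv_regL209 (l := 1) (o := fun _ => u) Nat.one_pos hu hH hz k m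
    (isLInv_of_isUInv209 hinv)).1
  have hEK : IsEKC209 μ (H893.regL u z H k m f₂) :=
    isEKC_regL209 hF u z H k m ⟨ht.cont, ht.supp, hek.1, hek.2⟩
  exact ⟨isTestFn_of_isRTT209 ht.ktype hRT hL, hEK.2.2.1, hEK.2.2.2⟩

/-- **The members downstairs are products of two Eisenstein-killing test functions of type
`τ`.** -/
theorem isEKProdT_down209 {R : Frame5 K} (hR : IsFrame5 R) {𝔑 : Ideal (𝓞 K)} (hne : 𝔑 ≠ ⊥)
    {u : HeightOneSpectrum (𝓞 K)} (hu : u.asIdeal ∣ 𝔑)
    {H : Finset (G K)} (hH : IsIwCosetSystem u H) {z : G K} (hz : IsScalarUniformizerAt u z)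
    {F₁ f₂ : G K → ℂ} (ht₁ : T5.IsTestFn 𝔑 τ F₁)
    (hek₁ : T5.IsEK R.μ F₁ ∧ T5.IsEK R.μ (T5.adjointFn F₁))
    (ht : T5.IsTestFn 𝔑 τ f₂)
    (hek : T5.IsEK R.μ f₂ ∧ T5.IsEK R.μ (T5.adjointFn f₂))
    (hinv : H893.IsUInv 𝔑 1 (fun _ => u) f₂) (k : ℤ) (m : ℕ) :
    T5.IsTestFn 𝔑 τ (T5.conv R.μ F₁ (H893.regL u z H k m f₂)) ∧
      ∃ φ₁ φ₂ : G K → ℂ, T5.IsTestFn 𝔑 τ φ₁ ∧ T5.IsTestFn 𝔑 τ φ₂ ∧
        T5.IsEK R.μ φ₁ ∧ T5.IsEK R.μ (T5.adjointFn φ₁) ∧
        T5.IsEK R.μ φ₂ ∧ T5.IsEK R.μ (T5.adjointFn φ₂) ∧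
        T5.conv R.μ F₁ (H893.regL u z H k m f₂) = T5.conv R.μ φ₁ φ₂ := by
  obtain ⟨h1, h2, h3⟩ := isEKTestT_regL209 hR.frame hu hH hz ht hek hinv k m
  exact ⟨H872.isTestFn_conv872 hR.frame.haar hne ht₁ h1, F₁, _, ht₁, h1, hek₁.1, hek₁.2, h2, h3,
    rfl⟩

/-- The same for the trivial type. -/
theorem isEKProd_down209 {R : Frame5 K} (hR : IsFrame5 R) {𝔑 : Ideal (𝓞 K)} (hne : 𝔑 ≠ ⊥)
    {u : HeightOneSpectrum (𝓞 K)} (hu : u.asIdeal ∣ 𝔑)
    {H : Finset (G K)} (hH : IsIwCosetSystem u H) {z : G K} (hz : IsScalarUniformizerAt u z)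
    {F₁ f₂ : G K → ℂ} (ht₁ : T5.IsTestFn 𝔑 T5.trivType F₁)
    (hek₁ : T5.IsEK R.μ F₁ ∧ T5.IsEK R.μ (T5.adjointFn F₁))
    (ht : T5.IsTestFn 𝔑 T5.trivType f₂)
    (hek : T5.IsEK R.μ f₂ ∧ T5.IsEK R.μ (T5.adjointFn f₂))
    (hinv : H893.IsUInv 𝔑 1 (fun _ => u) f₂) (k : ℤ) (m : ℕ) :
    IsEKProd 𝔑 R (T5.conv R.μ F₁ (H893.regL u z H k m f₂)) :=
  isEKProdT_down209 hR hne hu hH hz ht₁ hek₁ ht hek hinv k m

end Fermat.Agent.LT.T7.H209

end

end
-- ===== PACK-END LT/T7/H209/LtrDown.lean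

-- ===== PACK-BEGIN LT/T7/H209/EkProdDownQ.lean
section



/-!
# Row LT, tower T7, LEAF T7.L2Q.1.F2 `H732.EkProdDownQC732` (helper209, SPARE)

OFF-MAIN.  `ekProdDownQC209 F : H732.EkProdDownQC732 F` VERBATIM, UNCONDITIONAL.
Spec: `T7/H732/SupplyQFamSpec.lean` (helper732@d2eb0c98b, sha256 7e4f04b4), byte-identical copy.
Proof: `isEKProdT_down209` (`LtrDown.lean`) for the type `n.type`.
-/

set_option autoImplicit false

open AutomorphicForm IsDedekindDomain NumberField MeasureTheory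
open scoped ComplexConjugate

noncomputable section

namespace Fermat.Agent.LT.T7.H209

open Fermat.Agent.LT.H556 Fermat.Agent.LT.H556.A0 Fermat.Agent.LT.T7 Fermat.Agent.LT.T7.L2Q
  Fermat.Agent.LT.T7.H893 Fermat.Agent.LT.T7.H962 Fermat.Agent.LT.T7.H732

attribute [local instance] Fermat.Agent.LT.T5.instMeasurableSpaceG

/-- **LEAF T7.L2Q.1.F2 = EKPROD-DOWN over `ℚ`, both types** (spare). -/
theorem ekProdDownQC209 (F : Type) [Field F] [NumberField F] : EkProdDownQC732 F := by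
  intro Φ B hB g hg E hE n X k m hX
  exact isEKProdT_down209 hB.frame hE.level_ne hE.u_level hE.sys hE.unif
    (hE.dn1_test n X hX) (hE.dn1_ek n X hX) (hE.dn2_test n) (hE.dn2_ek n) (hE.dn2_inv n) k m

end Fermat.Agent.LT.T7.H209

end

end
-- ===== PACK-END LT/T7/H209/EkProdDownQ.lean

-- ===== PACK-BEGIN LT/T7/H732/SupplyQGeoSpec.lean
section



/-!
# Row LT, tower T7, node T7.L2Q.1.G0 `PreGeoQ60C732` (quadratic step `F = ℚ(√-3)` over `ℚ`):
# FOURTH CUT -- Spec (helper732, registry row 2322; mirror of helper893 `SupplyGeoSpec.lean`)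

OFF-MAIN.  Definitions and frozen Props only (the proved top is `SupplyQGeoTop.lean`).  No hole,
nothing assumed.  ADDITIVE (new names only, all suffixed `732`).

    preGeoQ60C_of732 : GlobQC732 F Mt → ConstrQ60C732 P F Mt → EkProdUpOpQC732 F
                         → EkProdDownOpQC732 F → H893.RegSuppC F → H893.RegSupp0C ℚ
                         → PreGeoQ60C732 P F                              (for EVERY `Mt`)

## The cut: GLOBAL matching is split off from the construction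

The cut is PARAMETRIC in a relation

    Mt : L2QBase962 F → Ideal (𝓞 ℚ) → (G F → ℂ) → (QWt → G ℚ → ℂ) → Prop

"`φ'` (over `F`, level `𝔫 𝒪_F`, trivial type) and the pair `f w0`, `f w1` (over `ℚ`, level `𝔫`,
types `w0`, `w1`) are LOCALLY MATCHED DECOMPOSABLE functions": pure tensors (or finite sums and
averages of pure tensors) with matched local factors at the finite places, and at infinity the
bi-`U(2)`-invariant factor of `φ'` at the complex place of `F` is matched with the SUM of the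
factors of `f w0` and `f w1` at the real place (`T6.ArchMatchC`, closed sub-tower T6inf).  The
top is proved for every relation.

* **`GlobQC732 F Mt`** (NODE = the matching theorem over `ℚ`): locally matched test functions
  which are regular are MATCHED (`IsGlobMatch`, the member upstairs against the sum downstairs).
  Stated for the common parts of helper962 (the larger class: the set `S` plays no role), so it
  serves both first cuts.
* **`ConstrQ60C732 P F Mt`** (NODE = the construction, for the common parts of helper60):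
  pre-data with the operator properties (`IsL2QPreOp732`), the supports (`IsL2QPreSupp732`) and
  LOCALLY matched families.  Input: station T3.18R (Eisenstein-killing test functions over `ℚ`
  of the types `w0`, `w1`).
* the hypotheses of `GlobQC732` for the families are supplied by the leaves of the second and
  third cut: test functions by `EkProdUpOpQC732` / `EkProdDownOpQC732` (the leaves
  `EkProdUpQC732` / `EkProdDownQC732` of the second cut IN OPERATOR FORM: same proofs, only the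
  operator fields of the pre-data are used), regularity by `H893.RegSuppC F` / `H893.RegSupp0C ℚ`
  and the closed device of T5.
-/

set_option autoImplicit false

open AutomorphicForm IsDedekindDomain NumberField MeasureTheory
open scoped ComplexConjugate

noncomputable section

namespace Fermat.Agent.LT.T7.H732

open Fermat.Agent.LT.H556 Fermat.Agent.LT.H556.A0 Fermat.Agent.LT.T7 Fermat.Agent.LT.T7.L2Q
  Fermat.Agent.LT.T7.H893 Fermat.Agent.LT.T7.H962

attribute [local instance] Fermat.Agent.LT.T5.instMeasurableSpaceG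

section Leaves

variable (P : EKCond)
variable (F : Type) [Field F] [NumberField F]

/-- The type of the relations "locally matched decomposable functions", quadratic step. -/
abbrev MtRelQ732 : Type :=
  L2QBase962 F → Ideal (𝓞 ℚ) → (G F → ℂ) → (QWt → G ℚ → ℂ) → Prop

variable (Mt : MtRelQ732 F)

/-- **NODE T7.L2Q.1.H1 = GLOB over `ℚ` (the matching theorem).**  For a good common part and a
level `𝔫 ≠ 0`: a test function `φ'` of level `𝔫 𝒪_F` (trivial type) and test functions `f w0`,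
`f w1` of level `𝔫` (types `w0`, `w1`) which are locally matched and `σ`-regular, resp. regular,
are matched: `φ'` against `f w0 + f w1`. -/
def GlobQC732 : Prop :=
  HasSqrtNegThree F → IsImagQuad F →
    ∀ (Φ : HeckeEigensystem F ℂ) (B : L2QBase962 F), IsL2QBase962 Φ B →
    ∀ 𝔫 : Ideal (𝓞 ℚ), 𝔫 ≠ ⊥ →
    ∀ (φ' : G F → ℂ) (f : QWt → G ℚ → ℂ), Mt B 𝔫 φ' f →
      T5.IsTestFn (upI (K' := F) 𝔫) T5.trivType φ' → T5.IsTwRegular B.s 2 B.k φ' →
      (∀ n : QWt, T5.IsTestFn 𝔫 n.type (f n)) →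
      (∀ n : QWt, T5.IsTwRegular (T5.AdelicAut.id ℚ) 1 ⊤ (f n)) →
      IsGlobMatch (B.comp 𝔫) φ' (fun x => f QWt.w0 x + f QWt.w1 x)

/-- **NODE T7.L2Q.1.H2 = CONSTR over `ℚ` (the construction), on the first cut of helper60.**
For a common part of helper60 and one bad element there are pre-data with the operator
properties and the supports whose families are LOCALLY matched. -/
def ConstrQ60C732 : Prop :=
  HasSqrtNegThree F → IsImagQuad F →
    ∀ Φ : HeckeEigensystem F ℂ, A0.IsCuspAdelicSph0 F Φ → ConstOnFibresQ Φ → P F Φ →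
      ∀ B : L2Q.H60.L2QBase F, L2Q.H60.IsL2QBase Φ B → ∀ g : G F, B.IsBad g →
        ∃ E : L2QPre732 F, IsL2QPreOp732 Φ (toBase962_732 B) g E ∧
          IsL2QPreSupp732 (toBase962_732 B) E ∧
          ∀ (X : List (Gen F)) (k : ℤ) (m : ℕ), (∀ x ∈ X, x.Out B.S') →
            Mt (toBase962_732 B) E.𝔫 (E.up (toBase962_732 B) X k m)
              (fun n => E.down (toBase962_732 B) n X k m)

/-- **LEAF T7.L2Q.1.F1 in operator form.**  `EkProdUpQC732` for pre-data with the operator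
properties only (the statement of the second cut uses `IsL2QPre732`; the proofs use the operator
fields only). -/
def EkProdUpOpQC732 : Prop :=
  ∀ (Φ : HeckeEigensystem F ℂ) (B : L2QBase962 F), IsL2QBase962 Φ B →
    ∀ g : G F, B.IsBad g → ∀ E : L2QPre732 F, IsL2QPreOp732 Φ B g E →
    ∀ (X : List (Gen F)) (k : ℤ) (m : ℕ), (∀ x ∈ X, x.Out B.S') →
      IsEKProd (upI (K' := F) E.𝔫) B.R' (E.up B X k m)

/-- **LEAF T7.L2Q.1.F2 in operator form.**  `EkProdDownQC732` for pre-data with the operator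
properties only. -/
def EkProdDownOpQC732 : Prop :=
  ∀ (Φ : HeckeEigensystem F ℂ) (B : L2QBase962 F), IsL2QBase962 Φ B →
    ∀ g : G F, B.IsBad g → ∀ E : L2QPre732 F, IsL2QPreOp732 Φ B g E →
    ∀ (n : QWt) (X : List (Gen F)) (k : ℤ) (m : ℕ), (∀ x ∈ X, x.Out B.S') →
      IsEKProdT n.type E.𝔫 B.R (E.down B n X k m)

end Leaves

/-! ## Appendix: the equation lemmas of the definitions of this file are realised HERE -/

theorem eqns_realised_supplyQGeo732 : True := by
  have _h0_0 := @GlobQC732.eq_1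
  have _h0_1 := @GlobQC732.eq_def
  have _h0_2 := @GlobQC732.eq_unfold
  have _h1_0 := @ConstrQ60C732.eq_1
  have _h1_1 := @ConstrQ60C732.eq_def
  have _h1_2 := @ConstrQ60C732.eq_unfold
  have _h2_0 := @EkProdUpOpQC732.eq_1
  have _h2_1 := @EkProdUpOpQC732.eq_def
  have _h2_2 := @EkProdUpOpQC732.eq_unfold
  have _h3_0 := @EkProdDownOpQC732.eq_1
  have _h3_1 := @EkProdDownOpQC732.eq_def
  have _h3_2 := @EkProdDownOpQC732.eq_unfold
  trivial

end Fermat.Agent.LT.T7.H732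

end

end
-- ===== PACK-END LT/T7/H732/SupplyQGeoSpec.lean

-- ===== PACK-BEGIN LT/T7/H298/MatchQGlue.lean
section




/-!
# Row LT, tower T7, node T7.L2Q.1.H1 `GlobQC732` (registry row 2464, owner helper298):
# THE RELATION OF RECORD `MtQ298` and the node `H732.GlobQC732 F (MtQ298 F)` -- PROVED

OFF-MAIN.  Complete proofs, nothing assumed.  ADDITIVE.

    globQC298        : H732.GlobQC732 F (MtQ298 F)                         (UNCONDITIONAL)
    mtQ_intro298     : (matching constant `κ` + locally matched components) → MtQ298 F B 𝔫 φ' f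
    exists_const298  : GlobMatchQC298 F → IsImagQuad F → IsL2QBase962 Φ B → 𝔫 ≠ ⊥ → (Haar, T₀,
                         levels) → ∃ κ ≠ 0, IsMatchConstQ298 F (B.comp 𝔫) μr μc T₀ n m κ
    isCompData_comp298, isCycExt_of_imagQuad298 (bookkeeping)

## The relation of record

`MtQ298 F B 𝔫 φ' f`: "`φ'` and the pair `f w0`, `f w1` are LOCALLY MATCHED PURE TENSORS, scaled
by a MATCHING CONSTANT": there are Haar measures `μr`, `μc`, a base set `T₀`, local levels
`n`, `m`, a constant `κ` with `IsMatchConstQ298 F (B.comp 𝔫) μr μc T₀ n m κ`, a set `T ⊇ T₀` and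
locally matched components (`LocHypQ298`) such that

    φ' = pure305 T' φ₀ Φ,   f w0 = κ · pureQ298 T f₀ F0,   f w1 = κ · pureQ298 T f₀ F1.

With this relation the node `GlobQC732` is the definition of a matching constant
(`globQC298`), and THE MATCHING THEOREM `GlobMatchQC298 F` (first cut: `MatchQSpec.lean`,
`MatchQTop.lean`) is what the construction (`H732.ConstrQ60C732` / `ConstrQRC732`, row 2465)
uses to obtain `κ ≠ 0`: `exists_const298`, then `mtQ_intro298` for every member of the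
families (the constant depends on the level, the Haar measures and the base set only, NOT on
`T`, the word, `k`, `m`).
-/

set_option autoImplicit false

open AutomorphicForm IsDedekindDomain NumberField MeasureTheory
open scoped ComplexConjugate

noncomputable section

namespace Fermat.Agent.LT.T7.MQ298

open Fermat.Agent.LT.H556 Fermat.Agent.LT.H556.A0 Fermat.Agent.LT.T7 Fermat.Agent.LT.T7.H305
  Fermat.Agent.LT.T7.L2Q Fermat.Agent.LT.T7.H893 Fermat.Agent.LT.T7.H962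

attribute [local instance] Fermat.Agent.LT.T5.instMeasurableSpaceG

variable (F : Type) [Field F] [NumberField F]

/-- **THE RELATION OF RECORD** of the quadratic step (see the header). -/
def MtQ298 : H732.MtRelQ732 F := fun B 𝔫 φ' f =>
  ∃ (μr : @Measure (GL (Fin 2) ℝ) (borel _)) (μc : @Measure (GL (Fin 2) ℂ) (borel _))
    (T₀ : Finset (HeightOneSpectrum (𝓞 ℚ)))
    (n : HeightOneSpectrum (𝓞 F) → ℕ) (m : HeightOneSpectrum (𝓞 ℚ) → ℕ) (κ : ℂ)
    (T : Finset (HeightOneSpectrum (𝓞 ℚ))) (T' : Finset (HeightOneSpectrum (𝓞 F)))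
    (φ₀ : ∀ w : HeightOneSpectrum (𝓞 F), GL (Fin 2) (w.adicCompletion F) → ℂ)
    (Φ : InfinitePlace F → GL (Fin 2) ℂ → ℂ)
    (f₀ : ∀ v : HeightOneSpectrum (𝓞 ℚ), GL (Fin 2) (v.adicCompletion ℚ) → ℂ)
    (F0 F1 : GL (Fin 2) ℝ → ℂ),
    IsMatchConstQ298 F (B.comp 𝔫) μr μc T₀ n m κ ∧ T₀ ⊆ T ∧ IsOver305 T T' ∧
      LocHypQ298 (B.comp 𝔫) μr μc T n m φ₀ Φ f₀ F0 F1 ∧
      (∀ h : G F, φ' h = pure305 T' φ₀ Φ h) ∧
      (∀ h : G ℚ, f QWt.w0 h = κ * pureQ298 T f₀ F0 h) ∧
      (∀ h : G ℚ, f QWt.w1 h = κ * pureQ298 T f₀ F1 h)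

variable {F}

/-- Introduction rule for the relation of record. -/
theorem mtQ_intro298 {B : L2QBase962 F} {𝔫 : Ideal (𝓞 ℚ)}
    {μr : @Measure (GL (Fin 2) ℝ) (borel _)} {μc : @Measure (GL (Fin 2) ℂ) (borel _)}
    {T₀ : Finset (HeightOneSpectrum (𝓞 ℚ))}
    {n : HeightOneSpectrum (𝓞 F) → ℕ} {m : HeightOneSpectrum (𝓞 ℚ) → ℕ} {κ : ℂ}
    (hκ : IsMatchConstQ298 F (B.comp 𝔫) μr μc T₀ n m κ)
    {T : Finset (HeightOneSpectrum (𝓞 ℚ))} {T' : Finset (HeightOneSpectrum (𝓞 F))}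
    (hTT : T₀ ⊆ T) (hT' : IsOver305 T T')
    {φ₀ : ∀ w : HeightOneSpectrum (𝓞 F), GL (Fin 2) (w.adicCompletion F) → ℂ}
    {Φ : InfinitePlace F → GL (Fin 2) ℂ → ℂ}
    {f₀ : ∀ v : HeightOneSpectrum (𝓞 ℚ), GL (Fin 2) (v.adicCompletion ℚ) → ℂ}
    {F0 F1 : GL (Fin 2) ℝ → ℂ}
    (hloc : LocHypQ298 (B.comp 𝔫) μr μc T n m φ₀ Φ f₀ F0 F1)
    {φ' : G F → ℂ} {f : QWt → G ℚ → ℂ}
    (hφ' : ∀ h : G F, φ' h = pure305 T' φ₀ Φ h)
    (hf0 : ∀ h : G ℚ, f QWt.w0 h = κ * pureQ298 T f₀ F0 h)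
    (hf1 : ∀ h : G ℚ, f QWt.w1 h = κ * pureQ298 T f₀ F1 h) :
    MtQ298 F B 𝔫 φ' f :=
  ⟨μr, μc, T₀, n, m, κ, T, T', φ₀, Φ, f₀, F0, F1, hκ, hTT, hT', hloc, hφ', hf0, hf1⟩

/-- **THE NODE T7.L2Q.1.H1 for the relation of record**, unconditional. -/
theorem globQC298 : H732.GlobQC732 F (MtQ298 F) := by
  intro _ _ Φ B _ 𝔫 _ φ' f hMt htφ' _ htf _
  obtain ⟨μr, μc, T₀, n, m, κ, T, T', φ₀, Φ₁, f₀, F0, F1, hκ, hTT, hT', hloc, hφ', hf0, hf1⟩ :=
    hMt
  exact hκ T T' hTT hT' φ₀ Φ₁ f₀ F0 F1 hloc φ' (f QWt.w0) (f QWt.w1) hφ' hf0 hf1 htφ'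
    (htf QWt.w0).cont (htf QWt.w0).supp (htf QWt.w1).cont (htf QWt.w1).supp

/-- The data of the comparison of a good common part are good. -/
theorem isCompData_comp298 {Φ : HeckeEigensystem F ℂ} {B : L2QBase962 F}
    (hB : IsL2QBase962 Φ B) {𝔫 : Ideal (𝓞 ℚ)} (h𝔫 : 𝔫 ≠ ⊥) : IsCompData (B.comp 𝔫) where
  cyc := hB.cyc
  base := hB.base
  level_ne := h𝔫
  level := rfl
  frame := hB.frame
  frame' := hB.frame'
  aut := hB.aut 𝔫

/-- An imaginary quadratic field is a cyclic extension of `ℚ` of degree `2`. -/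
theorem isCycExt_of_imagQuad298 (hF : IsImagQuad F) : IsCycExt ℚ F 2 := by
  classical
  have hrank : Module.finrank ℚ F = 2 := by
    have h := NumberField.InfinitePlace.card_add_two_mul_card_eq_rank F
    have hc : Nat.card {w : InfinitePlace F // w.IsComplex} = 1 := by
      rw [Nat.card_congr (Equiv.subtypeUnivEquiv hF.2)]
      exact hF.1
    have hr : Nat.card {w : InfinitePlace F // w.IsReal} = 0 := by
      have : IsEmpty {w : InfinitePlace F // w.IsReal} :=
        ⟨fun w => (NumberField.InfinitePlace.not_isReal_iff_isComplex.mpr (hF.2 w.1)) w.2⟩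
      exact Nat.card_of_isEmpty
    rw [Nat.card_eq_fintype_card] at hc hr
    have hc' : NumberField.InfinitePlace.nrComplexPlaces F = 1 := by
      rw [← hc]
    have hr' : NumberField.InfinitePlace.nrRealPlaces F = 0 := by
      rw [← hr]
    rw [hc', hr'] at h
    omega
  have : Algebra.IsQuadraticExtension ℚ F := ⟨hrank⟩
  exact ⟨Nat.prime_two, inferInstance, hrank⟩

/-- **The matching theorem delivers a matching constant** for every good common part and every
level (input of the construction). -/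
theorem exists_const298 (hG : GlobMatchQC298 F) (hF : IsImagQuad F)
    {Φ : HeckeEigensystem F ℂ} {B : L2QBase962 F} (hB : IsL2QBase962 Φ B)
    {𝔫 : Ideal (𝓞 ℚ)} (h𝔫 : 𝔫 ≠ ⊥)
    (μr : @Measure (GL (Fin 2) ℝ) (borel _)) (hμr : @Measure.IsHaarMeasure _ _ _ (borel _) μr)
    (μc : @Measure (GL (Fin 2) ℂ) (borel _)) (hμc : @Measure.IsHaarMeasure _ _ _ (borel _) μc)
    (T₀ : Finset (HeightOneSpectrum (𝓞 ℚ))) (hram : UnramOut305 (K' := F) T₀)
    (n : HeightOneSpectrum (𝓞 F) → ℕ) (m : HeightOneSpectrum (𝓞 ℚ) → ℕ)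
    (hlev : IsLevelAt305 T₀ n m) :
    ∃ κ : ℂ, κ ≠ 0 ∧ IsMatchConstQ298 F (B.comp 𝔫) μr μc T₀ n m κ :=
  hG hF (B.comp 𝔫) (isCompData_comp298 hB h𝔫) (isCycExt_of_imagQuad298 hF) rfl μr hμr μc hμc
    T₀ hram n m hlev

/-! ## Appendix: the equation lemmas of the definitions of this file are realised HERE -/

theorem eqns_realised_matchQGlue298 : True := by
  have _h0 := @MtQ298.eq_1
  have _g0 := @MtQ298.eq_def
  trivial

end Fermat.Agent.LT.T7.MQ298

end

end
-- ===== PACK-END LT/T7/H298/MatchQGlue.lean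

-- ===== PACK-BEGIN LT/T7/H298/MatchQGlue2.lean
section




/-!
# Row LT, tower T7, node T7.L2Q.1.H1 `GlobQC732` (registry row 2464, owner helper298):
# THE RELATION OF RECORD, v2 (`LocHypQ298b`: split clause for ONE enumeration) -- PROVED

OFF-MAIN.  Complete proofs, nothing assumed.  ADDITIVE (`MatchQGlue.lean` v1 unchanged).

    globQC298b        : H732.GlobQC732 F (MtQ298b F)                        (UNCONDITIONAL)
    mtQ_intro298b     : (matching constant `κ` + locally matched components) → MtQ298b F B 𝔫 φ' f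
    exists_const298b  : GlobMatchQC298b F → IsImagQuad F → IsL2QBase962 Φ B → 𝔫 ≠ ⊥ → (Haar,
                          T₀, levels) → ∃ κ ≠ 0, IsMatchConstQ298b F (B.comp 𝔫) μr μc T₀ n m κ
-/

set_option autoImplicit false

open AutomorphicForm IsDedekindDomain NumberField MeasureTheory
open scoped ComplexConjugate

noncomputable section

namespace Fermat.Agent.LT.T7.MQ298

open Fermat.Agent.LT.H556 Fermat.Agent.LT.H556.A0 Fermat.Agent.LT.T7 Fermat.Agent.LT.T7.H305
  Fermat.Agent.LT.T7.L2Q Fermat.Agent.LT.T7.H893 Fermat.Agent.LT.T7.H962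

attribute [local instance] Fermat.Agent.LT.T5.instMeasurableSpaceG

variable (F : Type) [Field F] [NumberField F]

/-- **THE RELATION OF RECORD of the quadratic step, v2** (`LocHypQ298b`). -/
def MtQ298b : H732.MtRelQ732 F := fun B 𝔫 φ' f =>
  ∃ (μr : @Measure (GL (Fin 2) ℝ) (borel _)) (μc : @Measure (GL (Fin 2) ℂ) (borel _))
    (T₀ : Finset (HeightOneSpectrum (𝓞 ℚ)))
    (n : HeightOneSpectrum (𝓞 F) → ℕ) (m : HeightOneSpectrum (𝓞 ℚ) → ℕ) (κ : ℂ)
    (T : Finset (HeightOneSpectrum (𝓞 ℚ))) (T' : Finset (HeightOneSpectrum (𝓞 F)))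
    (φ₀ : ∀ w : HeightOneSpectrum (𝓞 F), GL (Fin 2) (w.adicCompletion F) → ℂ)
    (Φ : InfinitePlace F → GL (Fin 2) ℂ → ℂ)
    (f₀ : ∀ v : HeightOneSpectrum (𝓞 ℚ), GL (Fin 2) (v.adicCompletion ℚ) → ℂ)
    (F0 F1 : GL (Fin 2) ℝ → ℂ),
    IsMatchConstQ298b F (B.comp 𝔫) μr μc T₀ n m κ ∧ T₀ ⊆ T ∧ IsOver305 T T' ∧
      LocHypQ298b (B.comp 𝔫) μr μc T n m φ₀ Φ f₀ F0 F1 ∧
      (∀ h : G F, φ' h = pure305 T' φ₀ Φ h) ∧
      (∀ h : G ℚ, f QWt.w0 h = κ * pureQ298 T f₀ F0 h) ∧
      (∀ h : G ℚ, f QWt.w1 h = κ * pureQ298 T f₀ F1 h)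

variable {F}

/-- Introduction rule for the relation of record. -/
theorem mtQ_intro298b {B : L2QBase962 F} {𝔫 : Ideal (𝓞 ℚ)}
    {μr : @Measure (GL (Fin 2) ℝ) (borel _)} {μc : @Measure (GL (Fin 2) ℂ) (borel _)}
    {T₀ : Finset (HeightOneSpectrum (𝓞 ℚ))}
    {n : HeightOneSpectrum (𝓞 F) → ℕ} {m : HeightOneSpectrum (𝓞 ℚ) → ℕ} {κ : ℂ}
    (hκ : IsMatchConstQ298b F (B.comp 𝔫) μr μc T₀ n m κ)
    {T : Finset (HeightOneSpectrum (𝓞 ℚ))} {T' : Finset (HeightOneSpectrum (𝓞 F))}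
    (hTT : T₀ ⊆ T) (hT' : IsOver305 T T')
    {φ₀ : ∀ w : HeightOneSpectrum (𝓞 F), GL (Fin 2) (w.adicCompletion F) → ℂ}
    {Φ : InfinitePlace F → GL (Fin 2) ℂ → ℂ}
    {f₀ : ∀ v : HeightOneSpectrum (𝓞 ℚ), GL (Fin 2) (v.adicCompletion ℚ) → ℂ}
    {F0 F1 : GL (Fin 2) ℝ → ℂ}
    (hloc : LocHypQ298b (B.comp 𝔫) μr μc T n m φ₀ Φ f₀ F0 F1)
    {φ' : G F → ℂ} {f : QWt → G ℚ → ℂ}
    (hφ' : ∀ h : G F, φ' h = pure305 T' φ₀ Φ h)
    (hf0 : ∀ h : G ℚ, f QWt.w0 h = κ * pureQ298 T f₀ F0 h)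
    (hf1 : ∀ h : G ℚ, f QWt.w1 h = κ * pureQ298 T f₀ F1 h) :
    MtQ298b F B 𝔫 φ' f :=
  ⟨μr, μc, T₀, n, m, κ, T, T', φ₀, Φ, f₀, F0, F1, hκ, hTT, hT', hloc, hφ', hf0, hf1⟩

/-- **THE NODE T7.L2Q.1.H1 for the relation of record**, unconditional. -/
theorem globQC298b : H732.GlobQC732 F (MtQ298b F) := by
  intro _ _ Φ B _ 𝔫 _ φ' f hMt htφ' _ htf _
  obtain ⟨μr, μc, T₀, n, m, κ, T, T', φ₀, Φ₁, f₀, F0, F1, hκ, hTT, hT', hloc, hφ', hf0, hf1⟩ :=
    hMt
  exact hκ T T' hTT hT' φ₀ Φ₁ f₀ F0 F1 hloc φ' (f QWt.w0) (f QWt.w1) hφ' hf0 hf1 htφ'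
    (htf QWt.w0).cont (htf QWt.w0).supp (htf QWt.w1).cont (htf QWt.w1).supp

/-- **The matching theorem delivers a matching constant** for every good common part and every
level (input of the construction). -/
theorem exists_const298b (hG : GlobMatchQC298b F) (hF : IsImagQuad F)
    {Φ : HeckeEigensystem F ℂ} {B : L2QBase962 F} (hB : IsL2QBase962 Φ B)
    {𝔫 : Ideal (𝓞 ℚ)} (h𝔫 : 𝔫 ≠ ⊥)
    (μr : @Measure (GL (Fin 2) ℝ) (borel _)) (hμr : @Measure.IsHaarMeasure _ _ _ (borel _) μr)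
    (μc : @Measure (GL (Fin 2) ℂ) (borel _)) (hμc : @Measure.IsHaarMeasure _ _ _ (borel _) μc)
    (T₀ : Finset (HeightOneSpectrum (𝓞 ℚ))) (hram : UnramOut305 (K' := F) T₀)
    (n : HeightOneSpectrum (𝓞 F) → ℕ) (m : HeightOneSpectrum (𝓞 ℚ) → ℕ)
    (hlev : IsLevelAt305 T₀ n m) :
    ∃ κ : ℂ, κ ≠ 0 ∧ IsMatchConstQ298b F (B.comp 𝔫) μr μc T₀ n m κ :=
  hG hF (B.comp 𝔫) (isCompData_comp298 hB h𝔫) (isCycExt_of_imagQuad298 hF) rfl μr hμr μc hμc
    T₀ hram n m hlev

/-! ## Appendix: the equation lemmas of the definitions of this file are realised HERE -/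

theorem eqns_realised_matchQGlue298b : True := by
  have _h0 := @MtQ298b.eq_1
  have _g0 := @MtQ298b.eq_def
  have _u0 := @MtQ298b.eq_unfold
  trivial

end Fermat.Agent.LT.T7.MQ298

end

end
-- ===== PACK-END LT/T7/H298/MatchQGlue2.lean

-- ===== PACK-BEGIN LT/T7/H298/FactDownQClosed.lean
section

















/-!
# Row LT, tower T7, node Q2.7.7 `MQ298.FactDownQC298` (cut and tops: helper751): CLOSED

OFF-MAIN.  Complete proof, nothing assumed.  ADDITIVE.  Integration by helper298 (owner of the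
parent node, rows 2464 / 2605) of the top `H751.factDownQC_of751` (helper751@9f5415940) with the
fourteen closed leaves, vendored byte-identical in ONE closure:

* cubic leaves with `K = ℚ`: `suppDownC941` (helper941), `outOpenC729` (helper729),
  `compContC409` (helper409), `torCommIdC296`, `biInvContC296` (helper296), `haarSigmaC505`
  (helper505);
* `haarSplitQC379` (helper379);
* leaves of the cut of helper751: `reContQC325` (helper325), `suppOutQC777` (helper777),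
  `cutOnOutQC949` (helper949), `rayFinQC78` (helper78), `ptFactQC453` (helper453),
  `archIntblRC560` (helper560), `haarSigmaRC567` (helper567).

    factDownQC_closed298 : MQ298.FactDownQC298                      (UNCONDITIONAL)
-/

set_option autoImplicit false

open AutomorphicForm IsDedekindDomain NumberField MeasureTheory

noncomputable section

namespace Fermat.Agent.LT.T7.MQ298

open Fermat.Agent.LT.H556 Fermat.Agent.LT.H556.A0 Fermat.Agent.LT.T7 Fermat.Agent.LT.T7.H305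

/-- **THE NODE `FactDownQC298`, CLOSED.** -/
theorem factDownQC_closed298 : FactDownQC298 :=
  H751.factDownQC_of751 (H941.suppDownC941 ℚ) (OutOpen729.outOpenC729 ℚ)
    (H409.compContC409 (K := ℚ)) (H296.torCommIdC296 (K := ℚ)) (H296.biInvContC296 (K := ℚ))
    (H505.haarSigmaC505 (K := ℚ)) H379.haarSplitQC379 H325.reContQC325 H777.suppOutQC777
    H949.cutOnOutQC949 H78.rayFinQC78 H453.PtFactQ.ptFactQC453 H560.archIntblRC560
    H567.haarSigmaRC567

end Fermat.Agent.LT.T7.MQ298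

end

end
-- ===== PACK-END LT/T7/H298/FactDownQClosed.lean

-- ===== PACK-BEGIN LT/T7/H117/GrpSplit.lean
section




/-!
# Row LT, tower T7, leaf UF.B1 `GrpSplitC340` (helper117, OFF-MAIN): CLOSED

`grpSplitC117 (K K') : H340.GrpSplitC340 K K'` VERBATIM and UNCONDITIONAL.

Proof.  NO regrouping of product measures: the grouped coordinates `upCoord340 U l` are a
continuous homomorphism which maps the open subgroup `Out_{S'}` ONTO the grouped product group,
with kernel in the standard compact subgroup, and the grouped product measure is a Haar measure: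
the abstract core `haarPush117` gives `c_S` times the product measure.  Evaluation on the box
`∏ U(n_w) × ∏ U(m_v)^l × ∏ B₀^l` (`B₀` a compact neighbourhood of `1` in `GL₂(ℂ)` stable under
complex conjugation): the preimage in `Out_{S'}` is `{y : y_w ∈ U(n_w) for ALL w, y_{w'} ∈ B₀}`
for all data, so the constant does not depend on the data.
-/

set_option autoImplicit false
set_option linter.style.haveILetI false
set_option linter.unusedSectionVars false

open IsDedekindDomain NumberField MeasureTheory Set Topology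
open scoped NNReal ENNReal

noncomputable section

namespace Fermat.Agent.LT.T7.H117

open Fermat.Agent.LT.H556 Fermat.Agent.LT.H556.A0 Fermat.Agent.LT.T7 Fermat.Agent.LT.T7.H305
open Fermat.Agent.LT.T7.H340

attribute [local instance] Fermat.Agent.LT.T5.instMeasurableSpaceG

variable {K K' : Type} [Field K] [NumberField K] [Field K'] [NumberField K'] [Algebra K K']

theorem measurableMul_prod117 {A B : Type*} [Mul A] [Mul B] [MeasurableSpace A]
    [MeasurableSpace B] [MeasurableMul A] [MeasurableMul B] : MeasurableMul (A × B) :=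
  ⟨fun c => ((measurable_const_mul c.1).comp measurable_fst).prodMk
      ((measurable_const_mul c.2).comp measurable_snd),
    fun c => ((measurable_mul_const c.1).comp measurable_fst).prodMk
      ((measurable_mul_const c.2).comp measurable_snd)⟩

theorem grpSplit_eval117 (hK : TotCplx K) (D : CompData K K') (hμ : D.R'.μ.IsHaarMeasure)
    (ι : Adl K →+* Adl K')
    (μc : @Measure (GL (Fin 2) ℂ) (borel _)) (hμc : @Measure.IsHaarMeasure _ _ _ (borel _) μc)
    (T₀ : Finset (HeightOneSpectrum (𝓞 K)))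
    (n : HeightOneSpectrum (𝓞 K') → ℕ) (m : HeightOneSpectrum (𝓞 K) → ℕ)
    (hlev : IsLevelAt305 T₀ n m)
    (B₀ : Set (GL (Fin 2) ℂ)) (hB₀ : IsCompact B₀)
    (hB₀c : ∀ z : GL (Fin 2) ℂ,
      Matrix.GeneralLinearGroup.map (starRingEnd ℂ) z ∈ B₀ ↔ z ∈ B₀)
    (S : Finset (HeightOneSpectrum (𝓞 K))) (S' : Finset (HeightOneSpectrum (𝓞 K')))
    (hS : T₀ ⊆ S) (hS' : IsOver305 S S')
    (δ : GL (Fin 2) K') (γ : GL (Fin 2) K) (L : LocData305 K γ) (hL : IsLocData305 m L)
    (U : UpDat340 K δ) (hU : IsUpDat340 D ι n L S U)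
    (hnm : ∀ (v : U.Ssp) (a : ℕ), n ((U.dS v).w a) = m v.1) :
    letI : ∀ w : HeightOneSpectrum (𝓞 K'),
        MeasurableSpace (GL (Fin 2) (w.adicCompletion K')) := fun _ => borel _
    letI : ∀ v : HeightOneSpectrum (𝓞 K),
        MeasurableSpace (GL (Fin 2) (v.adicCompletion K)) := fun _ => borel _
    letI : MeasurableSpace (GL (Fin 2) ℂ) := borel _
    ∃ c : ℝ≥0, c ≠ 0 ∧
      Measure.map (upCoord340 U D.l) (D.R'.μ.restrict {y | OutT305 S' y})
        = c • ((Measure.pi fun v : U.Sin => (U.dI v).μ').prod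
            ((Measure.pi fun v : U.Ssp => Measure.pi fun _ : Fin D.l => L.μv v.1).prod
              (Measure.pi fun _ : InfinitePlace K => Measure.pi fun _ : Fin D.l => μc))) ∧
      D.R'.μ {y : G K' | (∀ w : HeightOneSpectrum (𝓞 K'), T6.InU (n w) (finGL305 w y)) ∧
          ∀ w' : InfinitePlace K', infGL305 w' y ∈ B₀}
        = (c : ℝ≥0∞) * ∏ _v : InfinitePlace K, ∏ _a : Fin D.l, μc B₀ := by
  letI : ∀ w : HeightOneSpectrum (𝓞 K'),
      MeasurableSpace (GL (Fin 2) (w.adicCompletion K')) := fun _ => borel _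
  letI : ∀ v : HeightOneSpectrum (𝓞 K),
      MeasurableSpace (GL (Fin 2) (v.adicCompletion K)) := fun _ => borel _
  letI : MeasurableSpace (GL (Fin 2) ℂ) := borel _
  haveI : ∀ w : HeightOneSpectrum (𝓞 K'), BorelSpace (GL (Fin 2) (w.adicCompletion K')) :=
    fun _ => ⟨rfl⟩
  haveI : ∀ v : HeightOneSpectrum (𝓞 K), BorelSpace (GL (Fin 2) (v.adicCompletion K)) :=
    fun _ => ⟨rfl⟩
  haveI : BorelSpace (GL (Fin 2) ℂ) := ⟨rfl⟩
  haveI : BorelSpace (G K') := ⟨rfl⟩
  haveI : LocallyCompactSpace (G K') := H11.LC.locallyCompactSpace_GL2_adeleRing_h11 K'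
  haveI : SigmaCompactSpace (G K') := H11.SC.sigmaCompactSpace_GL2_adeleRing_h11 K'
  haveI : ∀ w : HeightOneSpectrum (𝓞 K'),
      LocallyCompactSpace (GL (Fin 2) (w.adicCompletion K')) :=
    fun w => H11.LC.locallyCompactSpace_GL2_adicCompletion_h11 K' w
  haveI : ∀ v : HeightOneSpectrum (𝓞 K),
      LocallyCompactSpace (GL (Fin 2) (v.adicCompletion K)) :=
    fun v => H11.LC.locallyCompactSpace_GL2_adicCompletion_h11 K v
  haveI : ∀ w : HeightOneSpectrum (𝓞 K'),
      SecondCountableTopology (GL (Fin 2) (w.adicCompletion K')) := fun w => by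
    haveI := H11.SC.secondCountableTopology_adicCompletion_h11 K' w
    haveI := H11.SC.secondCountableTopology_matrix_h11 (Fin 2) (w.adicCompletion K')
    exact H11.SC.secondCountableTopology_units_h11 _
  haveI : ∀ v : HeightOneSpectrum (𝓞 K),
      SecondCountableTopology (GL (Fin 2) (v.adicCompletion K)) := fun v => by
    haveI := H11.SC.secondCountableTopology_adicCompletion_h11 K v
    haveI := H11.SC.secondCountableTopology_matrix_h11 (Fin 2) (v.adicCompletion K)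
    exact H11.SC.secondCountableTopology_units_h11 _
  haveI : LocallyCompactSpace (GL (Fin 2) ℂ) := T3.H57.locallyCompact_GL2C57
  haveI : SecondCountableTopology (GL (Fin 2) ℂ) := T3.H57.secondCountable_GL2C57
  haveI : D.R'.μ.IsHaarMeasure := hμ
  haveI : μc.IsHaarMeasure := hμc
  haveI : ∀ v : U.Sin, ((U.dI v).μ').IsHaarMeasure := fun v => (hU.inert v).haar.1
  haveI : ∀ v : U.Ssp, (L.μv v.1).IsHaarMeasure := fun v => (hL.haar v.1).1
  haveI b1 : ∀ v : U.Ssp, (Measure.pi fun _ : Fin D.l => L.μv v.1).IsHaarMeasure :=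
    fun v => inferInstance
  haveI b2 : (Measure.pi fun _ : Fin D.l => μc).IsHaarMeasure := inferInstance
  haveI b3 : ∀ v : U.Ssp, SigmaFinite (Measure.pi fun _ : Fin D.l => L.μv v.1) :=
    fun v => inferInstance
  haveI b4 : SigmaFinite (Measure.pi fun _ : Fin D.l => μc) := inferInstance
  haveI b5 : ∀ v : U.Ssp, MeasurableMul
      (Fin D.l → GL (Fin 2) ((v : HeightOneSpectrum (𝓞 K)).adicCompletion K)) :=
    fun v => inferInstance
  haveI b6 : MeasurableMul (Fin D.l → GL (Fin 2) ℂ) := inferInstance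
  haveI a5 : (Measure.pi fun v : U.Sin => (U.dI v).μ').IsHaarMeasure := inferInstance
  haveI a6 : (Measure.pi fun v : U.Ssp =>
      Measure.pi fun _ : Fin D.l => L.μv v.1).IsHaarMeasure := inferInstance
  haveI a7 : (Measure.pi fun _ : InfinitePlace K =>
      Measure.pi fun _ : Fin D.l => μc).IsHaarMeasure := inferInstance
  haveI a8 : SFinite (Measure.pi fun v : U.Sin => (U.dI v).μ') := inferInstance
  haveI a9 : SFinite (Measure.pi fun v : U.Ssp =>
      Measure.pi fun _ : Fin D.l => L.μv v.1) := inferInstance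
  haveI a10 : SFinite (Measure.pi fun _ : InfinitePlace K =>
      Measure.pi fun _ : Fin D.l => μc) := inferInstance
  haveI a11 : MeasurableMul (∀ v : U.Sin, GL (Fin 2) ((U.dI v).w.adicCompletion K')) :=
    inferInstance
  haveI a12 : MeasurableMul (∀ v : U.Ssp,
      Fin D.l → GL (Fin 2) ((v : HeightOneSpectrum (𝓞 K)).adicCompletion K)) := inferInstance
  haveI a13 : MeasurableMul (InfinitePlace K → Fin D.l → GL (Fin 2) ℂ) := inferInstance
  haveI a14 : ((Measure.pi fun v : U.Ssp => Measure.pi fun _ : Fin D.l => L.μv v.1).prod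
      (Measure.pi fun _ : InfinitePlace K =>
        Measure.pi fun _ : Fin D.l => μc)).IsHaarMeasure := inferInstance
  haveI a15 : SFinite ((Measure.pi fun v : U.Ssp => Measure.pi fun _ : Fin D.l => L.μv v.1).prod
      (Measure.pi fun _ : InfinitePlace K => Measure.pi fun _ : Fin D.l => μc)) := inferInstance
  haveI a16 : MeasurableMul ((∀ v : U.Ssp,
      Fin D.l → GL (Fin 2) ((v : HeightOneSpectrum (𝓞 K)).adicCompletion K)) ×
        (InfinitePlace K → Fin D.l → GL (Fin 2) ℂ)) := measurableMul_prod117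
  obtain ⟨c, hc, hmap⟩ := haarPush117 (G := G K') (H := HU117 U D.l) D.R'.μ
    ((Measure.pi fun v : U.Sin => (U.dI v).μ').prod
      ((Measure.pi fun v : U.Ssp => Measure.pi fun _ : Fin D.l => L.μv v.1).prod
        (Measure.pi fun _ : InfinitePlace K => Measure.pi fun _ : Fin D.l => μc)))
    (outSub117 S') (isOpen_outSub117 S') (upHom117 U D.l) (continuous_upHom117 U hU)
    (upHom_surj117 hK hS' U hU) {k : G K' | T1.IsStdCompact K' k}
    (T1.H793.isCompact_stdCompact793 K') (upKer_sub117 hS' U hU)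
  have hmap' : Measure.map (upCoord340 U D.l) (D.R'.μ.restrict {y | OutT305 S' y})
      = c • ((Measure.pi fun v : U.Sin => (U.dI v).μ').prod
          ((Measure.pi fun v : U.Ssp => Measure.pi fun _ : Fin D.l => L.μv v.1).prod
            (Measure.pi fun _ : InfinitePlace K => Measure.pi fun _ : Fin D.l => μc))) := hmap
  refine ⟨c, hc, hmap', ?_⟩
  have hB₀m : MeasurableSet B₀ := hB₀.isClosed.measurableSet
  have hconj : ∀ (v : InfinitePlace K) (a : ℕ) (z : GL (Fin 2) ℂ),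
      Matrix.GeneralLinearGroup.map ((U.dA v).d a) z ∈ B₀ ↔ z ∈ B₀ := by
    intro v a z
    rcases (hU.arch v).typ a with h | h
    · rw [h]
      have : Matrix.GeneralLinearGroup.map (RingHom.id ℂ) z = z := by
        apply Units.ext
        ext i j
        rfl
      rw [this]
    · rw [h]
      exact hB₀c z
  have hn0 : ∀ w : HeightOneSpectrum (𝓞 K'), w ∉ S' → n w = 0 := by
    intro w hw
    obtain ⟨v, hv⟩ := exists_under117 (K := K) w
    have hvS : v ∉ S := fun h => hw ((hS' w).2 ⟨v, h, hv⟩)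
    exact hlev.2 v w (fun h => hvS (hS h)) hv
  set E : Set (HU117 U D.l) :=
    (Set.pi univ fun v : U.Sin =>
      {g : GL (Fin 2) ((U.dI v).w.adicCompletion K') | T6.InU (n (U.dI v).w) g}) ×ˢ
      ((Set.pi univ fun v : U.Ssp => Set.pi univ fun _ : Fin D.l =>
        {g : GL (Fin 2) ((v : HeightOneSpectrum (𝓞 K)).adicCompletion K) | T6.InU (m v.1) g}) ×ˢ
        (Set.pi univ fun _ : InfinitePlace K => Set.pi univ fun _ : Fin D.l => B₀)) with hE
  have hEm : MeasurableSet E :=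
    MeasurableSet.prod
      (MeasurableSet.univ_pi fun v => (isOpen_inU117 (U.dI v).w (n (U.dI v).w)).measurableSet)
      (MeasurableSet.prod
        (MeasurableSet.univ_pi fun v => MeasurableSet.univ_pi fun _ =>
          (isOpen_inU117 v.1 (m v.1)).measurableSet)
        (MeasurableSet.univ_pi fun _ => MeasurableSet.univ_pi fun _ => hB₀m))
  have hcm : Measurable (upCoord340 U D.l) := (continuous_upHom117 U hU).measurable
  have h1 : Measure.map (upCoord340 U D.l) (D.R'.μ.restrict {y | OutT305 S' y}) E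
      = D.R'.μ {y : G K' | (∀ w : HeightOneSpectrum (𝓞 K'), T6.InU (n w) (finGL305 w y)) ∧
          ∀ w' : InfinitePlace K', infGL305 w' y ∈ B₀} := by
    rw [Measure.map_apply hcm hEm, Measure.restrict_apply (hcm hEm)]
    congr 1
    ext y
    constructor
    · rintro ⟨⟨h1, h2, h3⟩, h4⟩
      refine ⟨fun w => ?_, fun w' => ?_⟩
      · by_cases hw : w ∈ S'
        · obtain ⟨v, hvS, hvw⟩ := (hS' w).1 hw
          rcases (hU.union v).1 hvS with hv | hv
          · have h5 : w = (U.dI ⟨v, hv⟩).w := (hU.inert ⟨v, hv⟩).uniq w hvw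
            rw [h5]
            exact h1 ⟨v, hv⟩ (mem_univ _)
          · obtain ⟨a, ha, h5⟩ := (hU.split ⟨v, hv⟩).exh w hvw
            rw [h5, hnm ⟨v, hv⟩ a]
            have h6 := h2 ⟨v, hv⟩ (mem_univ _) ⟨a, ha⟩ (mem_univ _)
            exact (inU_map_iff117 _ (val_symm117 (hU.split ⟨v, hv⟩) a) (m v) _).1 h6
        · rw [hn0 w hw]
          exact (inU_zero_iff117 w y).2 (h4 w hw)
      · obtain ⟨a, ha, h5⟩ := (hU.arch (w'.comap (algebraMap K K'))).exh w' rfl
        have h6 := h3 (w'.comap (algebraMap K K')) (mem_univ _) ⟨a, ha⟩ (mem_univ _)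
        have h7 := (hconj _ a _).1 h6
        rw [h5]
        exact h7
    · rintro ⟨h1, h2⟩
      refine ⟨⟨fun v _ => h1 _, fun v _ a _ => ?_, fun v _ a _ => ?_⟩, fun w hw => ?_⟩
      · have h6 := h1 ((U.dS v).w a.1)
        rw [hnm v a.1] at h6
        exact (inU_map_iff117 _ (val_symm117 (hU.split v) a.1) (m v.1) _).2 h6
      · exact (hconj v a.1 _).2 (h2 _)
      · have h6 := h1 w
        rw [hn0 w hw] at h6
        exact (inU_zero_iff117 w y).1 h6
  have h2 : (c • ((Measure.pi fun v : U.Sin => (U.dI v).μ').prod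
      ((Measure.pi fun v : U.Ssp => Measure.pi fun _ : Fin D.l => L.μv v.1).prod
        (Measure.pi fun _ : InfinitePlace K => Measure.pi fun _ : Fin D.l => μc)))) E
      = (c : ℝ≥0∞) * ∏ _v : InfinitePlace K, ∏ _a : Fin D.l, μc B₀ := by
    rw [Measure.smul_apply, hE, Measure.prod_prod, Measure.prod_prod, Measure.pi_pi,
      Measure.pi_pi, Measure.pi_pi]
    have h5 : ∀ v : U.Sin, (U.dI v).μ' {g | T6.InU (n (U.dI v).w) g} = 1 :=
      fun v => (hU.inert v).haar.2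
    have h6 : ∀ v : U.Ssp, (Measure.pi fun _ : Fin D.l => L.μv v.1)
        (Set.pi univ fun _ : Fin D.l =>
          {g : GL (Fin 2) ((v : HeightOneSpectrum (𝓞 K)).adicCompletion K) |
            T6.InU (m v.1) g}) = 1 := by
      intro v
      rw [Measure.pi_pi]
      have := (hL.haar v.1).2
      simp only [this, Finset.prod_const_one]
    have h7 : (Measure.pi fun _ : Fin D.l => μc) (Set.pi univ fun _ : Fin D.l => B₀)
        = ∏ _a : Fin D.l, μc B₀ := Measure.pi_pi _ _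
    simp only [h5, h6, h7, Finset.prod_const_one, one_mul]
    rfl
  rw [← h1, hmap', h2]

/-- **LEAF UF.B1 = GRP-SPLIT**, VERBATIM and UNCONDITIONAL. -/
theorem grpSplitC117 (K K' : Type) [Field K] [NumberField K] [Field K'] [NumberField K']
    [Algebra K K'] : GrpSplitC340 K K' := by
  intro _hT6 D hD _hcyc _hl2 hK ι _hι μc hμc T₀ _hunr n m hlev
  classical
  haveI : LocallyCompactSpace (GL (Fin 2) ℂ) := T3.H57.locallyCompact_GL2C57
  obtain ⟨B₁, hB₁c, hB₁n⟩ := exists_compact_mem_nhds (1 : GL (Fin 2) ℂ)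
  have hcc : Continuous (Matrix.GeneralLinearGroup.map (n := Fin 2) (starRingEnd ℂ)) :=
    continuous_glMap117 _ Complex.continuous_conj
  have hzz : ∀ z : GL (Fin 2) ℂ, Matrix.GeneralLinearGroup.map (starRingEnd ℂ)
      (Matrix.GeneralLinearGroup.map (starRingEnd ℂ) z) = z :=
    fun z => glMap_cancel117 _ _ (fun x => Complex.conj_conj x) z
  set B₀ : Set (GL (Fin 2) ℂ) :=
    B₁ ∩ (Matrix.GeneralLinearGroup.map (n := Fin 2) (starRingEnd ℂ)) ⁻¹' B₁ with hB₀
  have hB₀c : IsCompact B₀ := hB₁c.inter_right (hB₁c.isClosed.preimage hcc)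
  have hB₀n : B₀ ∈ 𝓝 (1 : GL (Fin 2) ℂ) := by
    refine Filter.inter_mem hB₁n (hcc.continuousAt.preimage_mem_nhds ?_)
    rw [map_one]
    exact hB₁n
  have hB₀i : ∀ z : GL (Fin 2) ℂ,
      Matrix.GeneralLinearGroup.map (starRingEnd ℂ) z ∈ B₀ ↔ z ∈ B₀ := by
    intro z
    constructor
    · rintro ⟨h1, h2⟩
      have h3 : Matrix.GeneralLinearGroup.map (starRingEnd ℂ)
          (Matrix.GeneralLinearGroup.map (starRingEnd ℂ) z) ∈ B₁ := h2
      rw [hzz] at h3
      exact ⟨h3, h1⟩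
    · rintro ⟨h1, h2⟩
      refine ⟨h2, ?_⟩
      show Matrix.GeneralLinearGroup.map (starRingEnd ℂ)
          (Matrix.GeneralLinearGroup.map (starRingEnd ℂ) z) ∈ B₁
      rw [hzz]
      exact h1
  have hb0 : μc B₀ ≠ 0 := by
    letI : MeasurableSpace (GL (Fin 2) ℂ) := borel _
    haveI : μc.IsHaarMeasure := hμc
    exact (Measure.measure_pos_of_mem_nhds μc hB₀n).ne'
  have hbt : μc B₀ ≠ ∞ := by
    letI : MeasurableSpace (GL (Fin 2) ℂ) := borel _
    haveI : μc.IsHaarMeasure := hμc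
    exact hB₀c.measure_lt_top.ne
  have hβ0 : (∏ _v : InfinitePlace K, ∏ _a : Fin D.l, μc B₀) ≠ 0 :=
    Finset.prod_ne_zero_iff.2 (fun _ _ => Finset.prod_ne_zero_iff.2 (fun _ _ => hb0))
  have hβt : (∏ _v : InfinitePlace K, ∏ _a : Fin D.l, μc B₀) ≠ ∞ :=
    ENNReal.prod_ne_top (fun _ _ => ENNReal.prod_ne_top (fun _ _ => hbt))
  by_cases hex : ∃ (S : Finset (HeightOneSpectrum (𝓞 K)))
      (S' : Finset (HeightOneSpectrum (𝓞 K'))) (δ : GL (Fin 2) K') (γ : GL (Fin 2) K)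
      (L : LocData305 K γ) (U : UpDat340 K δ), T₀ ⊆ S ∧ IsOver305 S S' ∧ IsLocData305 m L ∧
        IsUpDat340 D ι n L S U ∧ ∀ (v : U.Ssp) (a : ℕ), n ((U.dS v).w a) = m v.1
  · obtain ⟨S₀, S₀', δ₀, γ₀, L₀, U₀, hS₀, hS₀', hL₀, hU₀, hnm₀⟩ := hex
    obtain ⟨c₀, hc₀, -, hW₀⟩ := grpSplit_eval117 hK D hD.frame'.frame.haar ι μc hμc T₀ n m hlev
      B₀ hB₀c hB₀i S₀ S₀' hS₀ hS₀' δ₀ γ₀ L₀ hL₀ U₀ hU₀ hnm₀
    refine ⟨(c₀ : ℝ), NNReal.coe_pos.2 (pos_iff_ne_zero.2 hc₀),
      fun S S' hS hS' δ γ L hL U hU hnm => ?_⟩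
    obtain ⟨c, hc, hmap, hWc⟩ := grpSplit_eval117 hK D hD.frame'.frame.haar ι μc hμc T₀ n m
      hlev B₀ hB₀c hB₀i S S' hS hS' δ γ L hL U hU hnm
    have hcc' : c = c₀ := by
      have h3 : (c : ℝ≥0∞) * ∏ _v : InfinitePlace K, ∏ _a : Fin D.l, μc B₀
          = (c₀ : ℝ≥0∞) * ∏ _v : InfinitePlace K, ∏ _a : Fin D.l, μc B₀ := hWc.symm.trans hW₀
      have h4 := (ENNReal.mul_left_inj hβ0 hβt).1 h3
      exact_mod_cast h4
    rw [hmap, hcc', ENNReal.ofReal_coe_nnreal]
    rfl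
  · exact ⟨1, one_pos, fun S S' hS hS' δ γ L hL U hU hnm =>
      absurd ⟨S, S', δ, γ, L, U, hS, hS', hL, hU, hnm⟩ hex⟩

end Fermat.Agent.LT.T7.H117

end

end
-- ===== PACK-END LT/T7/H117/GrpSplit.lean

-- ===== PACK-BEGIN LT/T7/H587/EkProdDownOpQ.lean
section




/-!
# Row LT, tower T7, leaf T7.L2Q.1.F2op `EkProdDownOpQC732` VERBATIM (helper587, registry row 2467)

OFF-MAIN.  `ekProdDownOpQC587 F : T7.H732.EkProdDownOpQC732 F` (SupplyQGeoSpec of helper732),
UNCONDITIONAL: the members downstairs of type `n`, `F₁ n X ⋆ regL u z H k m (f₂ n)`, are products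
of two Eisenstein-killing test functions OF TYPE `n.type` with Eisenstein-killing adjoints.
Only the operator fields of the pre-data are used (`IsL2QPreOp732`).

Mirror of `H311.ekProdDownC311` (helper311, cyclic step, trivial type) with a general
`K_∞`-type `τ`:

* `IsPreT587 τ 𝔫 μ φ` : everything in `IsTestFn 𝔫 τ` and the two Eisenstein-killing clauses,
  except the left invariance under the level group; stable under left translates by elements
  which are trivial at infinity (they commute with the compact elements at infinity, so the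
  type is preserved), finite sums, scalars, hence under the Iwahori sum `iwL` and its iterates.
* the left invariance under `U(𝔫)`: `H311.IsLInv311` (type-free; helper311).
* the product is a test function of type `τ`: `H872.isTestFn_conv872` (helper872, general `τ`).
-/

set_option autoImplicit false
set_option linter.unusedSectionVars false
set_option linter.unusedVariables false

open IsDedekindDomain NumberField MeasureTheory IsDedekindDomain.HeightOneSpectrum
open scoped ComplexConjugate ContDiff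
open Fermat.Agent.LT.H556 Fermat.Agent.LT.H556.A0 Fermat.Agent.LT.H129

noncomputable section

namespace Fermat.Agent.LT.T7.H587

open Fermat.Agent.LT Fermat.Agent.LT.T7 Fermat.Agent.LT.T7.H893 Fermat.Agent.LT.T7.H340
  Fermat.Agent.LT.T7.H311

attribute [local instance] Fermat.Agent.LT.T5.instMeasurableSpaceG

variable {K : Type} [Field K] [NumberField K]

/-- Everything in `IsTestFn 𝔫 τ` and the two Eisenstein-killing clauses, except the left
invariance under the level group. -/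
structure IsPreT587 (τ : G K → ℂ) (𝔫 : Ideal (𝓞 K)) (μ : Measure (G K)) (φ : G K → ℂ) :
    Prop where
  cont : Continuous φ
  supp : HasCompactSupport φ
  smooth : T5.IsSmoothAtInf φ
  level_right : ∀ u : G K, InLevelGroup 𝔫 u → ∀ g : G K, φ (g * u) = φ g
  arch_right : ∀ (w : InfinitePlace K) (k : G K), IsArchCompact w k →
    ∀ g : G K, φ (g * k) = (τ k)⁻¹ * φ g
  arch_left : ∀ (w : InfinitePlace K) (k : G K), IsArchCompact w k →
    ∀ g : G K, φ (k * g) = (τ k)⁻¹ * φ g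
  ek : T5.IsEK μ φ
  ek_adj : T5.IsEK μ (T5.adjointFn φ)

variable {τ : G K → ℂ} {𝔫 : Ideal (𝓞 K)} {μ : Measure (G K)} {F : Set (G K)}

theorem isPreT_of_test587 {φ : G K → ℂ} (h : T5.IsTestFn 𝔫 τ φ)
    (e : T5.IsEK μ φ) (e' : T5.IsEK μ (T5.adjointFn φ)) : IsPreT587 τ 𝔫 μ φ where
  cont := h.cont
  supp := h.supp
  smooth := h.smooth
  level_right := h.inv.level_right
  arch_right := h.inv.arch_right
  arch_left := h.inv.arch_left
  ek := e
  ek_adj := e'

theorem IsPreT587.ltr (hF : T5.IsFrame μ F) {φ : G K → ℂ} (h : IsPreT587 τ 𝔫 μ φ) {b : G K}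
    (hb : ∀ w : InfinitePlace K, TrivAtInf w b) : IsPreT587 τ 𝔫 μ (H893.ltr b φ) where
  cont := h.cont.comp (continuous_const_mul b⁻¹)
  supp := h.supp.comp_homeomorph (Homeomorph.mulLeft b⁻¹)
  smooth := fun n fam h1 h2 g => by
    have h0 := h.smooth n fam h1 h2 (b⁻¹ * g)
    have e : (fun t => H893.ltr b φ (g * fam t)) = fun t => φ (b⁻¹ * g * fam t) := by
      funext t
      show φ (b⁻¹ * (g * fam t)) = φ (b⁻¹ * g * fam t)
      rw [mul_assoc]
    rw [e]
    exact h0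
  level_right := fun u hu g => by
    show φ (b⁻¹ * (g * u)) = φ (b⁻¹ * g)
    rw [← mul_assoc]
    exact h.level_right u hu _
  arch_right := fun w k hk g => by
    show φ (b⁻¹ * (g * k)) = (τ k)⁻¹ * φ (b⁻¹ * g)
    rw [← mul_assoc]
    exact h.arch_right w k hk _
  arch_left := fun w k hk g => by
    show φ (b⁻¹ * (k * g)) = (τ k)⁻¹ * φ (b⁻¹ * g)
    have hc : b⁻¹ * k = k * b⁻¹ := commute_fin_inf311 (trivAtInf_inv311 hb) hk.1.2
    rw [← mul_assoc, hc, mul_assoc]
    exact h.arch_left w k hk _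
  ek := isEK_ltr311 hF.haar h.ek b
  ek_adj := isEK_adj_ltr311 hF h.ek_adj hb

theorem IsPreT587.add (hF : T5.IsFrame μ F) {φ₁ φ₂ : G K → ℂ} (h₁ : IsPreT587 τ 𝔫 μ φ₁)
    (h₂ : IsPreT587 τ 𝔫 μ φ₂) : IsPreT587 τ 𝔫 μ (fun y => φ₁ y + φ₂ y) where
  cont := h₁.cont.add h₂.cont
  supp := h₁.supp.add h₂.supp
  smooth := fun n fam a1 a2 g => (h₁.smooth n fam a1 a2 g).add (h₂.smooth n fam a1 a2 g)
  level_right := fun u hu g => by
    show φ₁ (g * u) + φ₂ (g * u) = φ₁ g + φ₂ g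
    rw [h₁.level_right u hu, h₂.level_right u hu]
  arch_right := fun w k hk g => by
    show φ₁ (g * k) + φ₂ (g * k) = (τ k)⁻¹ * (φ₁ g + φ₂ g)
    rw [h₁.arch_right w k hk, h₂.arch_right w k hk, mul_add]
  arch_left := fun w k hk g => by
    show φ₁ (k * g) + φ₂ (k * g) = (τ k)⁻¹ * (φ₁ g + φ₂ g)
    rw [h₁.arch_left w k hk, h₂.arch_left w k hk, mul_add]
  ek := isEK_add311 hF.haar h₁.cont h₁.supp h₂.cont h₂.supp h₁.ek h₂.ek
  ek_adj := by
    rw [adjointFn_add311]
    exact isEK_add311 hF.haar (T5.H32.continuous_adjointFn32 h₁.cont)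
      (T5.H32.hasCompactSupport_adjointFn32 h₁.supp) (T5.H32.continuous_adjointFn32 h₂.cont)
      (T5.H32.hasCompactSupport_adjointFn32 h₂.supp) h₁.ek_adj h₂.ek_adj

theorem IsPreT587.smul (c : ℂ) {φ : G K → ℂ} (h : IsPreT587 τ 𝔫 μ φ) :
    IsPreT587 τ 𝔫 μ (fun y => c * φ y) where
  cont := continuous_const.mul h.cont
  supp := h.supp.mul_left
  smooth := fun n fam a1 a2 g => contDiff_const.mul (h.smooth n fam a1 a2 g)
  level_right := fun u hu g => by
    show c * φ (g * u) = c * φ g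
    rw [h.level_right u hu]
  arch_right := fun w k hk g => by
    show c * φ (g * k) = (τ k)⁻¹ * (c * φ g)
    rw [h.arch_right w k hk, mul_left_comm]
  arch_left := fun w k hk g => by
    show c * φ (k * g) = (τ k)⁻¹ * (c * φ g)
    rw [h.arch_left w k hk, mul_left_comm]
  ek := isEK_smul311 c h.ek
  ek_adj := by
    rw [adjointFn_smul311]
    exact isEK_smul311 _ h.ek_adj

theorem isPreT_zero587 : IsPreT587 τ 𝔫 μ (fun _ : G K => (0 : ℂ)) where
  cont := continuous_const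
  supp := HasCompactSupport.zero
  smooth := fun n fam a1 a2 g => contDiff_const
  level_right := fun u hu g => rfl
  arch_right := fun w k hk g => (mul_zero _).symm
  arch_left := fun w k hk g => (mul_zero _).symm
  ek := isEK_zero311
  ek_adj := (isPre_zero311 (𝔫 := 𝔫) (μ := μ)).ek_adj

theorem isPreT_sum587 (hF : T5.IsFrame μ F) {ι : Type} (s : Finset ι) (f : ι → G K → ℂ)
    (h : ∀ i ∈ s, IsPreT587 τ 𝔫 μ (f i)) : IsPreT587 τ 𝔫 μ (fun y => ∑ i ∈ s, f i y) := by
  classical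
  induction s using Finset.induction_on with
  | empty =>
    have h0 : (fun y => ∑ i ∈ (∅ : Finset ι), f i y) = fun _ : G K => (0 : ℂ) := by
      funext y
      exact Finset.sum_empty
    rw [h0]
    exact isPreT_zero587
  | insert a s ha ih =>
    have h1 : (fun y => ∑ i ∈ insert a s, f i y) = fun y => f a y + ∑ i ∈ s, f i y := by
      funext y
      rw [Finset.sum_insert ha]
    rw [h1]
    exact (h a (Finset.mem_insert_self a s)).add hF
      (ih fun i hi => h i (Finset.mem_insert_of_mem hi))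

theorem IsPreT587.iwL (hF : T5.IsFrame μ F) {φ : G K → ℂ} (hφ : IsPreT587 τ 𝔫 μ φ)
    {w : HeightOneSpectrum (𝓞 K)} {H : Finset (G K)} (hH : IsIwCosetSystem w H) :
    IsPreT587 τ 𝔫 μ (H893.iwL w H φ) := by
  have h1 : H893.iwL w H φ
      = fun y => ((Real.sqrt (Ideal.absNorm w.asIdeal : ℝ) : ℝ) : ℂ)⁻¹
          * ∑ h ∈ H, H893.ltr h φ y := rfl
  rw [h1]
  refine IsPreT587.smul _ (isPreT_sum587 hF H (fun h => H893.ltr h φ) fun h hh => ?_)
  exact hφ.ltr hF (hH.2.1 h hh).1.1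

theorem IsPreT587.iterate (hF : T5.IsFrame μ F) {φ : G K → ℂ} (hφ : IsPreT587 τ 𝔫 μ φ)
    {w : HeightOneSpectrum (𝓞 K)} {H : Finset (G K)} (hH : IsIwCosetSystem w H) (m : ℕ) :
    IsPreT587 τ 𝔫 μ ((H893.iwL w H)^[m] φ) := by
  induction m with
  | zero => exact hφ
  | succ n ih =>
    rw [Function.iterate_succ_apply']
    exact ih.iwL hF hH

/-- **The regular member is an Eisenstein-killing test function of type `τ`.** -/
theorem isEKTestT_regL587 (hτ : T5.IsKType τ) (hF : T5.IsFrame μ F) {φ : G K → ℂ}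
    (hφ : IsPreT587 τ 𝔫 μ φ) {w : HeightOneSpectrum (𝓞 K)} (hL : IsLInv311 𝔫 w φ)
    (hw : w.asIdeal ∣ 𝔫) {H : Finset (G K)} (hH : IsIwCosetSystem w H) {z : G K}
    (hz : IsScalarUniformizerAt w z) (k : ℤ) (m : ℕ) :
    T5.IsTestFn 𝔫 τ (H893.regL w z H k m φ) ∧ T5.IsEK μ (H893.regL w z H k m φ) ∧
      T5.IsEK μ (T5.adjointFn (H893.regL w z H k m φ)) := by
  have hzc : ∀ g : G K, z ^ k * g = g * z ^ k := fun g =>
    ((show Commute z g from central_scalar311 hz g).zpow_left k).eq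
  have hzinf : ∀ u : InfinitePlace K, TrivAtInf u (z ^ k) :=
    trivAtInf_zpow311 hz.1.1 k
  have h1 : IsPreT587 τ 𝔫 μ (H893.regL w z H k m φ) := (hφ.iterate hF hH m).ltr hF hzinf
  have h2 : IsLInv311 𝔫 w (H893.regL w z H k m φ) := (hL.iterate hw hH m).ltr_central hzc
  exact ⟨⟨hτ, h1.cont, h1.supp, h1.smooth, ⟨h1.level_right, h2.level, h1.arch_right,
    h1.arch_left⟩⟩, h1.ek, h1.ek_adj⟩

/-- **T7.L2Q.1.F2 EKPROD-DOWN over `ℚ` in operator form**, verbatim. -/
theorem ekProdDownOpQC587 (F : Type) [Field F] [NumberField F] :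
    H732.EkProdDownOpQC732 F := by
  intro Φ B hB g hg E hE n X k m hX
  have hF : IsFrame5 B.R := hB.frame
  have h1 : T5.IsTestFn E.𝔫 n.type (E.F₁ n X) := hE.dn1_test n X hX
  have h2 : T5.IsTestFn E.𝔫 n.type (E.f₂ n) := hE.dn2_test n
  have hpre : IsPreT587 n.type E.𝔫 B.R.μ (E.f₂ n) :=
    isPreT_of_test587 h2 (hE.dn2_ek n).1 (hE.dn2_ek n).2
  have hL : IsLInv311 E.𝔫 B.u (E.f₂ n) :=
    ⟨fun x hx y => ((hE.dn2_inv n).1 x hx y).1,
      fun h hl hI y => ((hE.dn2_inv n).2 h hl.1 (fun v hv => hl.2 v (hv 0 Nat.zero_lt_one))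
        (fun _ _ => hI) y).1⟩
  obtain ⟨h2t, h2e, h2a⟩ :=
    isEKTestT_regL587 h2.ktype hF.frame hpre hL hE.u_level hE.sys hE.unif k m
  exact ⟨H872.isTestFn_conv872 hF.frame.haar hE.level_ne h1 h2t, E.F₁ n X,
    H893.regL B.u E.z E.H k m (E.f₂ n), h1, h2t, (hE.dn1_ek n X hX).1, (hE.dn1_ek n X hX).2,
    h2e, h2a, rfl⟩

end Fermat.Agent.LT.T7.H587

end

end
-- ===== PACK-END LT/T7/H587/EkProdDownOpQ.lean

-- ===== PACK-BEGIN LT/T7/H209/EkProdUpQ.lean
section



/-!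
# Row LT, tower T7, LEAF T7.L2Q.1.F1 `EkProdUpQC732` (helper209, registry row 2314)

OFF-MAIN.  `ekProdUpQC209 F : H732.EkProdUpQC732 F` VERBATIM, UNCONDITIONAL (the convolution of
test functions is a test function by `H872.isTestFn_conv872` of helper872).

Spec: `T7/H732/SupplyQFamSpec.lean` (helper732@d2eb0c98b, sha256 7e4f04b4), byte-identical copy.
Proof: `isEKProd_up209` (`LtrTop.lean`) with `l = 2`; only the fields upstairs of
`IsL2QPre732` / `IsL2QBase962` are used.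
-/

set_option autoImplicit false

open AutomorphicForm IsDedekindDomain NumberField MeasureTheory
open scoped ComplexConjugate

noncomputable section

namespace Fermat.Agent.LT.T7.H209

open Fermat.Agent.LT.H556 Fermat.Agent.LT.H556.A0 Fermat.Agent.LT.T7 Fermat.Agent.LT.T7.L2Q
  Fermat.Agent.LT.T7.H893 Fermat.Agent.LT.T7.H962 Fermat.Agent.LT.T7.H732

attribute [local instance] Fermat.Agent.LT.T5.instMeasurableSpaceG

/-- The extension of a nonzero ideal of `ℚ` is nonzero. -/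
theorem upI_ne_botQ209 {F : Type} [Field F] [NumberField F] {𝔫 : Ideal (𝓞 ℚ)} (h : 𝔫 ≠ ⊥) :
    upI (K' := F) 𝔫 ≠ ⊥ := by
  intro h0
  apply h
  have h1 : Ideal.map (algebraMap (𝓞 ℚ) (𝓞 F)) 𝔫 = ⊥ := h0
  rwa [Ideal.map_eq_bot_iff_of_injective (FaithfulSMul.algebraMap_injective (𝓞 ℚ) (𝓞 F))] at h1

/-- **LEAF T7.L2Q.1.F1 = EKPROD-UP over `F`** (registry row 2314). -/
theorem ekProdUpQC209 (F : Type) [Field F] [NumberField F] : EkProdUpQC732 F := by
  intro Φ B hB g hg E hE X k m hX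
  exact isEKProd_up209 hB.frame' (upI_ne_botQ209 hE.level_ne) hE.level_g (l := 2) (by norm_num)
    ((hB.mem_S' (B.o 0)).1 (hB.orbit_level 0)) hg.1 hE.sysg hE.sys' hE.unif'
    (hE.up1_test X hX) (hE.up1_ek X hX) hE.up2_test hE.up2_ek hE.up2_inv k m

end Fermat.Agent.LT.T7.H209

end

end
-- ===== PACK-END LT/T7/H209/EkProdUpQ.lean

-- ===== PACK-BEGIN LT/T7/H698/EkProdUpOpQ.lean
section



/-!
# Row LT, tower T7, LEAF T7.L2Q.1.F1op `EkProdUpOpQC732` (helper698, registry row 2466)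

OFF-MAIN.  `ekProdUpOpQC698 F : H732.EkProdUpOpQC732 F` VERBATIM, UNCONDITIONAL.

Spec: `T7/H732/SupplyQGeoSpec.lean` (helper732@9d877645a, sha256 e535f2a7), byte-identical copy.
Proof: the generic statement `H209.isEKProd_up209` of helper209 (`T7/H209/LtrTop.lean`, the proof
of row 2314 `EkProdUpQC732`) with `l = 2`; only the operator fields `level_ne`, `level_g`,
`sysg`, `sys'`, `unif'`, `up1_test`, `up1_ek`, `up2_test`, `up2_ek`, `up2_inv` of
`IsL2QPreOp732` and the fields `frame'`, `mem_S'`, `orbit_level` of `IsL2QBase962` are used.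
-/

set_option autoImplicit false

open AutomorphicForm IsDedekindDomain NumberField MeasureTheory
open scoped ComplexConjugate

noncomputable section

namespace Fermat.Agent.LT.T7.H698

open Fermat.Agent.LT.H556 Fermat.Agent.LT.H556.A0 Fermat.Agent.LT.T7 Fermat.Agent.LT.T7.L2Q
  Fermat.Agent.LT.T7.H893 Fermat.Agent.LT.T7.H962 Fermat.Agent.LT.T7.H732

attribute [local instance] Fermat.Agent.LT.T5.instMeasurableSpaceG

/-- **LEAF T7.L2Q.1.F1op = EKPROD-UP over `F`, operator form** (registry row 2466). -/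
theorem ekProdUpOpQC698 (F : Type) [Field F] [NumberField F] : EkProdUpOpQC732 F := by
  intro Φ B hB g hg E hE X k m hX
  exact H209.isEKProd_up209 hB.frame' (H209.upI_ne_botQ209 hE.level_ne) hE.level_g (l := 2)
    (by norm_num) ((hB.mem_S' (B.o 0)).1 (hB.orbit_level 0)) hg.1 hE.sysg hE.sys' hE.unif'
    (hE.up1_test X hX) (hE.up1_ek X hX) hE.up2_test hE.up2_ek hE.up2_inv k m

end Fermat.Agent.LT.T7.H698

end

end
-- ===== PACK-END LT/T7/H698/EkProdUpOpQ.lean

-- ===== PACK-BEGIN LT/T7/H732/SupplyQPreTop.lean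
section




/-!
# Row LT, tower T7, node T7.L2Q.1.F0 `PreQ60C732` (quadratic step): THIRD CUT -- proved tops
(helper732, registry row 2322; mirror of helper893 `SupplyPreTop.lean`)

OFF-MAIN.  No hole, nothing assumed.  ADDITIVE.

    preQ60C_of_geo732  : PreGeoQ60C732 P F → H893.RegSuppC F → H893.RegSupp0C ℚ → PreQ60C732 P F
    supplyQSC_of_geo732 : SetupQC → ProjC F → ProjC ℚ → ProjW1C → PreGeoQ60C732 P F
                            → RegSuppC F → RegSupp0C ℚ → (8 leaves of the second cut)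
                            → L2Q.H60.SupplyQSC P F

Regularity: `T5.H32.exists_depth_conv32` / `exists_depth_conv_id32` (helper32, closed).
-/

set_option autoImplicit false

open AutomorphicForm IsDedekindDomain NumberField MeasureTheory
open scoped ComplexConjugate

noncomputable section

namespace Fermat.Agent.LT.T7.H732

open Fermat.Agent.LT.H556 Fermat.Agent.LT.H556.A0 Fermat.Agent.LT.T7 Fermat.Agent.LT.T7.L2Q
  Fermat.Agent.LT.T7.H893 Fermat.Agent.LT.T7.H962

attribute [local instance] Fermat.Agent.LT.T5.instMeasurableSpaceG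

section Top

variable {P : EKCond}
variable {F : Type} [Field F] [NumberField F]

/-- **Regularity upstairs from the supports**, quadratic step: one depth for every word. -/
theorem exists_depth_upQ732 {Φ : HeckeEigensystem F ℂ} {B : L2QBase962 F}
    (hB : IsL2QBase962 Φ B) {g : G F} (hg : B.IsBad g) {E : L2QPre732 F}
    (hOp : IsL2QPreOp732 Φ B g E) (hSupp : IsL2QPreSupp732 B E) (hR : RegSuppC F) :
    ∃ mu : List (Gen F) → ℕ, ∀ (X : List (Gen F)) (k : ℤ) (m : ℕ),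
      (∀ x ∈ X, x.Out B.S') → mu X ≤ m → T5.IsTwRegular B.s 2 B.k (E.up B X k m) := by
  obtain ⟨C₂, hC₂, hφ₂⟩ := hSupp.up2_supp
  obtain ⟨C₂', hC₂', hreg⟩ := hR B.𝔑₀ 2 B.o (by norm_num)
    (fun j => (hB.mem_S' _).1 (hB.orbit_level j)) g hg.1
    (fun j hj => hg.2 (B.o j) (Or.inr ⟨j, hj, rfl⟩)) E.Hg E.H' E.z' hOp.sysg hOp.sys' hOp.unif'
    E.φ₂ C₂ hC₂ hφ₂
  have hex : ∀ X : List (Gen F), ∃ mu : ℕ, (∀ x ∈ X, x.Out B.S') →
      ∀ (k : ℤ) (m : ℕ), mu ≤ m → T5.IsTwRegular B.s 2 B.k (E.up B X k m) := by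
    intro X
    by_cases hX : ∀ x ∈ X, x.Out B.S'
    · obtain ⟨C₁, hC₁, hΦ₁⟩ := hSupp.up1_supp X hX
      obtain ⟨m₀, hm₀⟩ := T5.H32.exists_depth_conv32 hB.cyc B.o hB.orbit_rel hB.orbit_ne
        hC₁ hC₂' B.R'.μ
      exact ⟨m₀, fun _ k m hm => (hm₀ m hm (E.Φ₁ X) _ hΦ₁ (hreg k m)).1⟩
    · exact ⟨0, fun h => absurd h hX⟩
  choose mu hmu using hex
  exact ⟨mu, fun X k m hX hm => hmu X hX k m hm⟩

/-- **Regularity downstairs from the supports**, quadratic step: one depth for every word and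
both types. -/
theorem exists_depth_downQ732 {Φ : HeckeEigensystem F ℂ} {B : L2QBase962 F}
    {g : G F} {E : L2QPre732 F}
    (hOp : IsL2QPreOp732 Φ B g E) (hSupp : IsL2QPreSupp732 B E) (hR0 : RegSupp0C ℚ) :
    ∃ md : List (Gen F) → ℕ, ∀ (n : QWt) (X : List (Gen F)) (k : ℤ) (m : ℕ),
      (∀ x ∈ X, x.Out B.S') → md X ≤ m →
        T5.IsTwRegular (T5.AdelicAut.id ℚ) 1 ⊤ (E.down B n X k m) := by
  have hex : ∀ (n : QWt) (X : List (Gen F)), ∃ md : ℕ, (∀ x ∈ X, x.Out B.S') →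
      ∀ (k : ℤ) (m : ℕ), md ≤ m →
        T5.IsTwRegular (T5.AdelicAut.id ℚ) 1 ⊤ (E.down B n X k m) := by
    intro n X
    obtain ⟨C₂, hC₂, hf₂⟩ := hSupp.dn2_supp n
    have hreg := hR0 B.u E.H E.z hOp.sys hOp.unif (E.f₂ n) C₂ hC₂ hf₂
    by_cases hX : ∀ x ∈ X, x.Out B.S'
    · obtain ⟨C₁, hC₁, hF₁⟩ := hSupp.dn1_supp n X hX
      obtain ⟨m₀, hm₀⟩ := T5.H32.exists_depth_conv_id32 B.u hC₁ hC₂ B.R.μ
      exact ⟨m₀, fun _ k m hm => (hm₀ m hm (E.F₁ n X) _ hF₁ (hreg k m)).1⟩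
    · exact ⟨0, fun h => absurd h hX⟩
  choose md hmd using hex
  refine ⟨fun X => max (md QWt.w0 X) (md QWt.w1 X), fun n X k m hX hm => ?_⟩
  cases n with
  | w0 => exact hmd QWt.w0 X hX k m (le_trans (le_max_left _ _) hm)
  | w1 => exact hmd QWt.w1 X hX k m (le_trans (le_max_right _ _) hm)

/-- The pre-data with the three depths merged. -/
theorem isL2QPre_of_geo732 {Φ : HeckeEigensystem F ℂ} {B : L2QBase962 F} {g : G F}
    {E : L2QPre732 F} (hOp : IsL2QPreOp732 Φ B g E)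
    {m₂ mu md : List (Gen F) → ℕ}
    (hM : ∀ (X : List (Gen F)) (k : ℤ) (m : ℕ), (∀ x ∈ X, x.Out B.S') → m₂ X ≤ m →
      IsGlobMatch (B.comp E.𝔫) (E.up B X k m) (E.dsum B X k m))
    (hmu : ∀ (X : List (Gen F)) (k : ℤ) (m : ℕ),
      (∀ x ∈ X, x.Out B.S') → mu X ≤ m → T5.IsTwRegular B.s 2 B.k (E.up B X k m))
    (hmd : ∀ (n : QWt) (X : List (Gen F)) (k : ℤ) (m : ℕ),
      (∀ x ∈ X, x.Out B.S') → md X ≤ m →
        T5.IsTwRegular (T5.AdelicAut.id ℚ) 1 ⊤ (E.down B n X k m)) :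
    IsL2QPre732 Φ B g { E with m₀ := fun X => max (m₂ X) (max (mu X) (md X)) } :=
  { level_ne := hOp.level_ne
    level_g := hOp.level_g
    mem_S'_g := hOp.mem_S'_g
    u_level := hOp.u_level
    sysg := hOp.sysg
    sys' := hOp.sys'
    unif' := hOp.unif'
    sys := hOp.sys
    unif := hOp.unif
    up1_test := hOp.up1_test
    up1_ek := hOp.up1_ek
    up1_op := hOp.up1_op
    up2_test := hOp.up2_test
    up2_ek := hOp.up2_ek
    up2_inv := hOp.up2_inv
    up2_op := hOp.up2_op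
    up2_kill := hOp.up2_kill
    up_ne := hOp.up_ne
    dn1_test := hOp.dn1_test
    dn1_ek := hOp.dn1_ek
    dn1_op := hOp.dn1_op
    dn1_wfn := hOp.dn1_wfn
    dn1_class := hOp.dn1_class
    dn1_comm := hOp.dn1_comm
    dn2_test := hOp.dn2_test
    dn2_ek := hOp.dn2_ek
    dn2_inv := hOp.dn2_inv
    dn2_wfn := hOp.dn2_wfn
    dn2_class := hOp.dn2_class
    dn2_comm := hOp.dn2_comm
    dn2_kill := hOp.dn2_kill
    reg_up := fun X k m hX hm =>
      hmu X k m hX (le_trans (le_trans (le_max_left _ _) (le_max_right _ _)) hm)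
    reg_down := fun n X k m hX hm =>
      hmd n X k m hX (le_trans (le_trans (le_max_right _ _) (le_max_right _ _)) hm)
    matched := fun X k m hX hm => hM X k m hX (le_trans (le_max_left _ _) hm) }

/-- **THE TOP OF THE THIRD CUT**, quadratic step: the pre-data from the construction with
matching, and the two support leaves of helper893. -/
theorem preQ60C_of_geo732 (h0 : PreGeoQ60C732 P F) (hR : RegSuppC F) (hR0 : RegSupp0C ℚ) :
    PreQ60C732 P F := by
  intro h3 hquad Φ hΦ hconst hPΦ B hB g hg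
  obtain ⟨E, hOp, hSupp, m₂, hM⟩ := h0 h3 hquad Φ hΦ hconst hPΦ B hB g hg
  have hB' := isL2QBase962_of60_732 hB
  obtain ⟨mu, hmu⟩ := exists_depth_upQ732 hB' hg hOp hSupp hR
  obtain ⟨md, hmd⟩ := exists_depth_downQ732 hOp hSupp hR0
  exact ⟨_, isL2QPre_of_geo732 hOp hM hmu hmd⟩

/-- **THE STABLE SUPPLY OVER `ℚ` from the leaves of the three cuts** (first cut: helper60). -/
theorem supplyQSC_of_geo732 (hS : L2Q.H60.SetupQC F) (hP' : H893.ProjC F)
    (hP0 : H893.ProjC ℚ) (hP1 : L2Q.H60.ProjW1C) (h0 : PreGeoQ60C732 P F)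
    (hR : RegSuppC F) (hR0 : RegSupp0C ℚ)
    (h1 : EkProdUpQC732 F) (h2 : EkProdDownQC732 F) (h3 : OpUpQC732 F) (h4 : KillUpQC732 F)
    (h5 : OpDownQC732 F) (h6 : ClassDownQC732 F) (h7 : CommDownQC732 F)
    (h8 : KillDownQC732 F) : L2Q.H60.SupplyQSC P F :=
  supplyQSC_of_leaves732 hS hP' hP0 hP1 (preQ60C_of_geo732 h0 hR hR0) h1 h2 h3 h4 h5 h6 h7 h8

end Top

end Fermat.Agent.LT.T7.H732

end

end
-- ===== PACK-END LT/T7/H732/SupplyQPreTop.lean

-- ===== PACK-BEGIN LT/T7/H732/SupplyQGeoTop.lean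
section




/-!
# Row LT, tower T7, node T7.L2Q.1 `SupplyQC` (quadratic step): FOURTH CUT -- proved tops
(helper732, registry row 2322; mirror of helper893 `SupplyGeoTop.lean`)

OFF-MAIN.  No hole, nothing assumed.  ADDITIVE.

    preGeoQ60C_of732 : GlobQC732 F Mt → ConstrQ60C732 P F Mt → EkProdUpOpQC732 F
                         → EkProdDownOpQC732 F → RegSuppC F → RegSupp0C ℚ → PreGeoQ60C732 P F
    supplyQSC_of_constr732 : (all leaves of the four cuts) → L2Q.H60.SupplyQSC P F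
    supplyQC_of_constr732  : (the same) → L2Q.SupplyQC P F      (the node of `Level2Q.lean`)
-/

set_option autoImplicit false

open AutomorphicForm IsDedekindDomain NumberField MeasureTheory
open scoped ComplexConjugate

noncomputable section

namespace Fermat.Agent.LT.T7.H732

open Fermat.Agent.LT.H556 Fermat.Agent.LT.H556.A0 Fermat.Agent.LT.T7 Fermat.Agent.LT.T7.L2Q
  Fermat.Agent.LT.T7.H893 Fermat.Agent.LT.T7.H962

attribute [local instance] Fermat.Agent.LT.T5.instMeasurableSpaceG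

section Top

variable {P : EKCond}
variable {F : Type} [Field F] [NumberField F]

/-- The operator part of the properties of the pre-data. -/
theorem isL2QPreOp_of732 {Φ : HeckeEigensystem F ℂ} {B : L2QBase962 F} {g : G F}
    {E : L2QPre732 F} (h : IsL2QPre732 Φ B g E) : IsL2QPreOp732 Φ B g E where
  level_ne := h.level_ne
  level_g := h.level_g
  mem_S'_g := h.mem_S'_g
  u_level := h.u_level
  sysg := h.sysg
  sys' := h.sys'
  unif' := h.unif'
  sys := h.sys
  unif := h.unif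
  up1_test := h.up1_test
  up1_ek := h.up1_ek
  up1_op := h.up1_op
  up2_test := h.up2_test
  up2_ek := h.up2_ek
  up2_inv := h.up2_inv
  up2_op := h.up2_op
  up2_kill := h.up2_kill
  up_ne := h.up_ne
  dn1_test := h.dn1_test
  dn1_ek := h.dn1_ek
  dn1_op := h.dn1_op
  dn1_wfn := h.dn1_wfn
  dn1_class := h.dn1_class
  dn1_comm := h.dn1_comm
  dn2_test := h.dn2_test
  dn2_ek := h.dn2_ek
  dn2_inv := h.dn2_inv
  dn2_wfn := h.dn2_wfn
  dn2_class := h.dn2_class
  dn2_comm := h.dn2_comm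
  dn2_kill := h.dn2_kill

/-- The leaf `EkProdUpQC732` of the second cut from its operator form. -/
theorem ekProdUpQC_of_op732 (h : EkProdUpOpQC732 F) : EkProdUpQC732 F :=
  fun Φ B hB g hg E hE => h Φ B hB g hg E (isL2QPreOp_of732 hE)

/-- The leaf `EkProdDownQC732` of the second cut from its operator form. -/
theorem ekProdDownQC_of_op732 (h : EkProdDownOpQC732 F) : EkProdDownQC732 F :=
  fun Φ B hB g hg E hE => h Φ B hB g hg E (isL2QPreOp_of732 hE)

variable {Mt : MtRelQ732 F}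

/-- **THE TOP OF THE FOURTH CUT**, quadratic step: the construction with LOCALLY matched
families and the matching theorem give the construction with MATCHED families. -/
theorem preGeoQ60C_of732 (hG : GlobQC732 F Mt) (hC : ConstrQ60C732 P F Mt)
    (h1 : EkProdUpOpQC732 F) (h2 : EkProdDownOpQC732 F)
    (hR : RegSuppC F) (hR0 : RegSupp0C ℚ) : PreGeoQ60C732 P F := by
  intro h3 hquad Φ hΦ hconst hPΦ B hB g hg
  obtain ⟨E, hOp, hSupp, hMt⟩ := hC h3 hquad Φ hΦ hconst hPΦ B hB g hg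
  have hB' := isL2QBase962_of60_732 hB
  obtain ⟨mu, hmu⟩ := exists_depth_upQ732 hB' hg hOp hSupp hR
  obtain ⟨md, hmd⟩ := exists_depth_downQ732 hOp hSupp hR0
  refine ⟨E, hOp, hSupp, fun X => max (mu X) (md X), fun X k m hX hm => ?_⟩
  exact hG h3 hquad Φ (toBase962_732 B) hB' E.𝔫 hOp.level_ne _ _ (hMt X k m hX)
    (h1 Φ _ hB' g hg E hOp X k m hX).1 (hmu X k m hX (le_trans (le_max_left _ _) hm))
    (fun n => (h2 Φ _ hB' g hg E hOp n X k m hX).1)
    (fun n => hmd n X k m hX (le_trans (le_max_right _ _) hm))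

/-- **THE STABLE SUPPLY OVER `ℚ` from the leaves of the four cuts** (first cut: helper60). -/
theorem supplyQSC_of_constr732 (hS : L2Q.H60.SetupQC F) (hP' : H893.ProjC F)
    (hP0 : H893.ProjC ℚ) (hP1 : L2Q.H60.ProjW1C)
    (hG : GlobQC732 F Mt) (hC : ConstrQ60C732 P F Mt)
    (hR : RegSuppC F) (hR0 : RegSupp0C ℚ)
    (h1 : EkProdUpOpQC732 F) (h2 : EkProdDownOpQC732 F) (h3 : OpUpQC732 F)
    (h4 : KillUpQC732 F) (h5 : OpDownQC732 F) (h6 : ClassDownQC732 F)
    (h7 : CommDownQC732 F) (h8 : KillDownQC732 F) : L2Q.H60.SupplyQSC P F :=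
  supplyQSC_of_geo732 hS hP' hP0 hP1 (preGeoQ60C_of732 hG hC h1 h2 hR hR0) hR hR0
    (ekProdUpQC_of_op732 h1) (ekProdDownQC_of_op732 h2) h3 h4 h5 h6 h7 h8

/-- **THE SUPPLY OVER `ℚ` from the leaves of the four cuts** (target `L2Q.SupplyQC P F`,
VERBATIM: the node of `T7/H826/Level2Q.lean`). -/
theorem supplyQC_of_constr732 (hS : L2Q.H60.SetupQC F) (hP' : H893.ProjC F)
    (hP0 : H893.ProjC ℚ) (hP1 : L2Q.H60.ProjW1C)
    (hG : GlobQC732 F Mt) (hC : ConstrQ60C732 P F Mt)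
    (hR : RegSuppC F) (hR0 : RegSupp0C ℚ)
    (h1 : EkProdUpOpQC732 F) (h2 : EkProdDownOpQC732 F) (h3 : OpUpQC732 F)
    (h4 : KillUpQC732 F) (h5 : OpDownQC732 F) (h6 : ClassDownQC732 F)
    (h7 : CommDownQC732 F) (h8 : KillDownQC732 F) : L2Q.SupplyQC P F :=
  fun h3' hquad Φ hΦ hconst hPΦ =>
    let ⟨Dt, hDt, _⟩ := supplyQSC_of_constr732 hS hP' hP0 hP1 hG hC hR hR0
      h1 h2 h3 h4 h5 h6 h7 h8 h3' hquad Φ hΦ hconst hPΦ
    ⟨Dt, hDt⟩

end Top

end Fermat.Agent.LT.T7.H732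

end

end
-- ===== PACK-END LT/T7/H732/SupplyQGeoTop.lean

-- ===== PACK-BEGIN LT/T7/H736/Core/Glue.lean
section





/-!
# Row LT, tower T7, node T7.L2.2 `SpecUpC` (helper736, owner of record): THE GLUE BETWEEN THE THREE
# CORE RETYPINGS OF THE LEAVES

OFF-MAIN.  PROVED equivalences only; no new Prop.  No hole, nothing assumed.  ADDITIVE.

The leaves of the cut of `SpecUpC` (helper561: `BlocksC561`, `OpsC561`; helper616: `ClassModelC`)
were retyped on the upstairs data `H29.UpData K'` three times, within a few minutes: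

* `UB675` / `CMU675` (helper675, `T7/H675/BlocksU.lean` bb2d42fa, `ClassModelU.lean` 9a359011):
  **THE FORMS OF RECORD** (ruling of helper736, 16:48Z);
* `CU736` (helper736, `T7/H736/Core/*.lean`): textually the same statements;
* `H865` (helper865, `T7/H865/UpBasisU.lean` 6d8987b2): the same statements with the hypothesis
  `H29.BaseStableU U` (all the fields of `T5.AutPreserves` at the base level) in place of the
  stability of the level group alone.

Here: for EVERY leaf `X`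

    X_cu_r : CU736.X K' → XUC675 K'          X_r_cu : XUC675 K' → CU736.X K'
    X_r_d  : XUC675 K' → XUC865 K'           X_d_r  : XUC865 K' → XUC675 K'

(`cu` = helper736, `r` = of record = helper675, `d` = deputy = helper865), so a leaf proved in ANY
of the three forms feeds EVERY top (`UB675.upBasisUC_of675`, `H865.upBasisUC_of_leaves865`,
`CU736.specUpSC_of_leaves`).  The two hypotheses on the base level are equivalent for the data of
`H29.IsUpData` (`baseStableU_of_level`: the other fields of `T5.AutPreserves` do not depend on the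
level).
-/

set_option autoImplicit false
set_option linter.unusedVariables false

open AutomorphicForm IsDedekindDomain NumberField MeasureTheory
open scoped ComplexConjugate Matrix

noncomputable section

namespace Fermat.Agent.LT.T7.GL736

open Fermat.Agent.LT.H556 Fermat.Agent.LT.H556.A0 Fermat.Agent.LT.T7

attribute [local instance] Fermat.Agent.LT.T5.instMeasurableSpaceG

/-! ## 1. The structures -/

section Structures

variable {K' : Type} [Field K'] [NumberField K']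

theorem isClassBasis_cu_r {U : H29.UpData K'} {ℓ : ℕ} {C : EigData K'} {n : ℕ} {v : Fin n → G K' →
    ℂ} (h : CU736.IsClassBasis561 U ℓ C n v) : UB675.IsClassBasisU675 U ℓ C n v where
  eig := h.eig
  orth := h.orth
  span := h.span

theorem isBlocks_cu_r {ℓ : ℕ} {Φ : HeckeEigensystem K' ℂ} {U : H29.UpData K'} {g : G K'} {e₀ : ℕ → G
    K' → ℂ} {𝔅 : H561.Blocks561 K'} (h : CU736.IsBlocks561 ℓ Φ U g e₀ 𝔅) : UB675.IsBlocksU675 ℓ Φ U
    g e₀ 𝔅 where
  onb := h.onb
  inj := h.inj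
  unitary := h.unitary
  distinct := h.distinct
  basis := fun i => isClassBasis_cu_r (h.basis i)
  phi := h.phi
  iw := h.iw
  coeff := h.coeff
  off := h.off

theorem isWSpec_cu_r {U : H29.UpData K'} {ℓ : ℕ} {ι : Type} {n : ι → ℕ} {C : ι → EigData K'} {v : (i
    : ι) → Fin (n i) → G K' → ℂ} (h : CU736.IsWSpec561 U ℓ ι n C v) : UB675.IsWSpecU675 U ℓ ι n C v
    where
  countable := h.countable
  unitary := h.unitary
  distinct := h.distinct
  basis := fun i => isClassBasis_cu_r (h.basis i)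
  orth := h.orth
  complete := h.complete
  cover := h.cover

theorem isWOps_cu_r {U : H29.UpData K'} {ℓ : ℕ} {g : G K'} {Hs : ℕ → Finset (G K')} {ω : ℕ → G K'}
    {Hg : Finset (G K')} (h : CU736.IsWOps561 U ℓ g Hs ω Hg) : UB675.IsWOpsU675 U ℓ g Hs ω Hg where
  S_eig := h.S_eig
  ρ_eig := h.ρ_eig
  B_eig := h.B_eig
  S_quad := h.S_quad
  ρ_central := h.ρ_central
  comm_SS := h.comm_SS
  comm_Sρ := h.comm_Sρ
  comm_ρρ := h.comm_ρρ
  per_S := h.per_S
  per_ρ := h.per_ρ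
  B_S := h.B_S
  B_ρ := h.B_ρ
  S_adj := h.S_adj
  ρ_iso := h.ρ_iso
  σ_S := h.σ_S
  σ_ρ := h.σ_ρ
  dbl := h.dbl
  iwsys := h.iwsys
  unif := h.unif

theorem isIwSys_cu_r {U : H29.UpData K'} {Hs : ℕ → Finset (G K')} {ω : ℕ → G K'} (h :
    CU736.IsIwSys561 U Hs ω) : UB675.IsIwSysU675 U Hs ω where
  ω_local := h.ω_local
  ω_comp := h.ω_comp
  Hs_card := h.Hs_card
  Hs_local := h.Hs_local
  Hs_comp := h.Hs_comp
  Hs_inj := h.Hs_inj

theorem isSetup_cu_r {ℓ : ℕ} {Φ : HeckeEigensystem K' ℂ} {U : H29.UpData K'} (h : CU736.IsSetup561 ℓ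
    Φ U) : UB675.IsSetupU675 ℓ Φ U where
  prime := h.prime
  cplx := h.cplx
  cusp := h.cusp
  data := h.data

theorem isClassBasis_r_cu {U : H29.UpData K'} {ℓ : ℕ} {C : EigData K'} {n : ℕ} {v : Fin n → G K' →
    ℂ} (h : UB675.IsClassBasisU675 U ℓ C n v) : CU736.IsClassBasis561 U ℓ C n v where
  eig := h.eig
  orth := h.orth
  span := h.span

theorem isBlocks_r_cu {ℓ : ℕ} {Φ : HeckeEigensystem K' ℂ} {U : H29.UpData K'} {g : G K'} {e₀ : ℕ → G
    K' → ℂ} {𝔅 : H561.Blocks561 K'} (h : UB675.IsBlocksU675 ℓ Φ U g e₀ 𝔅) : CU736.IsBlocks561 ℓ Φ U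
    g e₀ 𝔅 where
  onb := h.onb
  inj := h.inj
  unitary := h.unitary
  distinct := h.distinct
  basis := fun i => isClassBasis_r_cu (h.basis i)
  phi := h.phi
  iw := h.iw
  coeff := h.coeff
  off := h.off

theorem isWSpec_r_cu {U : H29.UpData K'} {ℓ : ℕ} {ι : Type} {n : ι → ℕ} {C : ι → EigData K'} {v : (i
    : ι) → Fin (n i) → G K' → ℂ} (h : UB675.IsWSpecU675 U ℓ ι n C v) : CU736.IsWSpec561 U ℓ ι n C v
    where
  countable := h.countable
  unitary := h.unitary
  distinct := h.distinct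
  basis := fun i => isClassBasis_r_cu (h.basis i)
  orth := h.orth
  complete := h.complete
  cover := h.cover

theorem isWOps_r_cu {U : H29.UpData K'} {ℓ : ℕ} {g : G K'} {Hs : ℕ → Finset (G K')} {ω : ℕ → G K'}
    {Hg : Finset (G K')} (h : UB675.IsWOpsU675 U ℓ g Hs ω Hg) : CU736.IsWOps561 U ℓ g Hs ω Hg where
  S_eig := h.S_eig
  ρ_eig := h.ρ_eig
  B_eig := h.B_eig
  S_quad := h.S_quad
  ρ_central := h.ρ_central
  comm_SS := h.comm_SS
  comm_Sρ := h.comm_Sρ
  comm_ρρ := h.comm_ρρ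
  per_S := h.per_S
  per_ρ := h.per_ρ
  B_S := h.B_S
  B_ρ := h.B_ρ
  S_adj := h.S_adj
  ρ_iso := h.ρ_iso
  σ_S := h.σ_S
  σ_ρ := h.σ_ρ
  dbl := h.dbl
  iwsys := h.iwsys
  unif := h.unif

theorem isIwSys_r_cu {U : H29.UpData K'} {Hs : ℕ → Finset (G K')} {ω : ℕ → G K'} (h :
    UB675.IsIwSysU675 U Hs ω) : CU736.IsIwSys561 U Hs ω where
  ω_local := h.ω_local
  ω_comp := h.ω_comp
  Hs_card := h.Hs_card
  Hs_local := h.Hs_local
  Hs_comp := h.Hs_comp
  Hs_inj := h.Hs_inj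

theorem isSetup_r_cu {ℓ : ℕ} {Φ : HeckeEigensystem K' ℂ} {U : H29.UpData K'} (h : UB675.IsSetupU675
    ℓ Φ U) : CU736.IsSetup561 ℓ Φ U where
  prime := h.prime
  cplx := h.cplx
  cusp := h.cusp
  data := h.data

theorem isClassBasis_r_d {U : H29.UpData K'} {ℓ : ℕ} {C : EigData K'} {n : ℕ} {v : Fin n → G K' → ℂ}
    (h : UB675.IsClassBasisU675 U ℓ C n v) : H865.IsClassBasisU865 U ℓ C n v where
  eig := h.eig
  orth := h.orth
  span := h.span

theorem isBlocks_r_d {ℓ : ℕ} {Φ : HeckeEigensystem K' ℂ} {U : H29.UpData K'} {g : G K'} {e₀ : ℕ → G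
    K' → ℂ} {𝔅 : H561.Blocks561 K'} (h : UB675.IsBlocksU675 ℓ Φ U g e₀ 𝔅) : H865.IsBlocksU865 ℓ Φ U
    g e₀ 𝔅 where
  onb := h.onb
  inj := h.inj
  unitary := h.unitary
  distinct := h.distinct
  basis := fun i => isClassBasis_r_d (h.basis i)
  phi := h.phi
  iw := h.iw
  coeff := h.coeff
  off := h.off

theorem isWSpec_r_d {U : H29.UpData K'} {ℓ : ℕ} {ι : Type} {n : ι → ℕ} {C : ι → EigData K'} {v : (i
    : ι) → Fin (n i) → G K' → ℂ} (h : UB675.IsWSpecU675 U ℓ ι n C v) : H865.IsWSpecU865 U ℓ ι n C v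
    where
  countable := h.countable
  unitary := h.unitary
  distinct := h.distinct
  basis := fun i => isClassBasis_r_d (h.basis i)
  orth := h.orth
  complete := h.complete
  cover := h.cover

theorem isWOps_r_d {U : H29.UpData K'} {ℓ : ℕ} {g : G K'} {Hs : ℕ → Finset (G K')} {ω : ℕ → G K'}
    {Hg : Finset (G K')} (h : UB675.IsWOpsU675 U ℓ g Hs ω Hg) : H865.IsWOpsU865 U ℓ g Hs ω Hg where
  S_eig := h.S_eig
  ρ_eig := h.ρ_eig
  B_eig := h.B_eig
  S_quad := h.S_quad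
  ρ_central := h.ρ_central
  comm_SS := h.comm_SS
  comm_Sρ := h.comm_Sρ
  comm_ρρ := h.comm_ρρ
  per_S := h.per_S
  per_ρ := h.per_ρ
  B_S := h.B_S
  B_ρ := h.B_ρ
  S_adj := h.S_adj
  ρ_iso := h.ρ_iso
  σ_S := h.σ_S
  σ_ρ := h.σ_ρ
  dbl := h.dbl
  iwsys := h.iwsys
  unif := h.unif

theorem isIwSys_r_d {U : H29.UpData K'} {Hs : ℕ → Finset (G K')} {ω : ℕ → G K'} (h :
    UB675.IsIwSysU675 U Hs ω) : H865.IsIwSysU865 U Hs ω where
  ω_local := h.ω_local
  ω_comp := h.ω_comp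
  Hs_card := h.Hs_card
  Hs_local := h.Hs_local
  Hs_comp := h.Hs_comp
  Hs_inj := h.Hs_inj

theorem isSetup_r_d {ℓ : ℕ} {Φ : HeckeEigensystem K' ℂ} {U : H29.UpData K'} (h : UB675.IsSetupU675 ℓ
    Φ U) : H865.IsSetupU865 ℓ Φ U where
  prime := h.prime
  cplx := h.cplx
  cusp := h.cusp
  data := h.data

theorem isClassBasis_d_r {U : H29.UpData K'} {ℓ : ℕ} {C : EigData K'} {n : ℕ} {v : Fin n → G K' → ℂ}
    (h : H865.IsClassBasisU865 U ℓ C n v) : UB675.IsClassBasisU675 U ℓ C n v where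
  eig := h.eig
  orth := h.orth
  span := h.span

theorem isBlocks_d_r {ℓ : ℕ} {Φ : HeckeEigensystem K' ℂ} {U : H29.UpData K'} {g : G K'} {e₀ : ℕ → G
    K' → ℂ} {𝔅 : H561.Blocks561 K'} (h : H865.IsBlocksU865 ℓ Φ U g e₀ 𝔅) : UB675.IsBlocksU675 ℓ Φ U
    g e₀ 𝔅 where
  onb := h.onb
  inj := h.inj
  unitary := h.unitary
  distinct := h.distinct
  basis := fun i => isClassBasis_d_r (h.basis i)
  phi := h.phi
  iw := h.iw
  coeff := h.coeff
  off := h.off

theorem isWSpec_d_r {U : H29.UpData K'} {ℓ : ℕ} {ι : Type} {n : ι → ℕ} {C : ι → EigData K'} {v : (i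
    : ι) → Fin (n i) → G K' → ℂ} (h : H865.IsWSpecU865 U ℓ ι n C v) : UB675.IsWSpecU675 U ℓ ι n C v
    where
  countable := h.countable
  unitary := h.unitary
  distinct := h.distinct
  basis := fun i => isClassBasis_d_r (h.basis i)
  orth := h.orth
  complete := h.complete
  cover := h.cover

theorem isWOps_d_r {U : H29.UpData K'} {ℓ : ℕ} {g : G K'} {Hs : ℕ → Finset (G K')} {ω : ℕ → G K'}
    {Hg : Finset (G K')} (h : H865.IsWOpsU865 U ℓ g Hs ω Hg) : UB675.IsWOpsU675 U ℓ g Hs ω Hg where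
  S_eig := h.S_eig
  ρ_eig := h.ρ_eig
  B_eig := h.B_eig
  S_quad := h.S_quad
  ρ_central := h.ρ_central
  comm_SS := h.comm_SS
  comm_Sρ := h.comm_Sρ
  comm_ρρ := h.comm_ρρ
  per_S := h.per_S
  per_ρ := h.per_ρ
  B_S := h.B_S
  B_ρ := h.B_ρ
  S_adj := h.S_adj
  ρ_iso := h.ρ_iso
  σ_S := h.σ_S
  σ_ρ := h.σ_ρ
  dbl := h.dbl
  iwsys := h.iwsys
  unif := h.unif

theorem isIwSys_d_r {U : H29.UpData K'} {Hs : ℕ → Finset (G K')} {ω : ℕ → G K'} (h :
    H865.IsIwSysU865 U Hs ω) : UB675.IsIwSysU675 U Hs ω where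
  ω_local := h.ω_local
  ω_comp := h.ω_comp
  Hs_card := h.Hs_card
  Hs_local := h.Hs_local
  Hs_comp := h.Hs_comp
  Hs_inj := h.Hs_inj

theorem isSetup_d_r {ℓ : ℕ} {Φ : HeckeEigensystem K' ℂ} {U : H29.UpData K'} (h : H865.IsSetupU865 ℓ
    Φ U) : UB675.IsSetupU675 ℓ Φ U where
  prime := h.prime
  cplx := h.cplx
  cusp := h.cusp
  data := h.data

end Structures

/-! ## 2. Base stability -/

section Stable

variable {K' : Type} [Field K'] [NumberField K']

/-- The identity is supported at the bad places. -/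
theorem isBad_one_glue (U : H29.UpData K') : U.IsBad (1 : G K') :=
  ⟨fun w => H29.trivAtInf_one29 w, fun v _ => H29.trivAtFin_one29 v⟩

/-- **Level-stability of the base level gives `H29.BaseStableU`**: the other fields of
`T5.AutPreserves` do not depend on the level (take them at the level of the bad element `1`). -/
theorem baseStableU_of_level {ℓ : ℕ} {Φ : HeckeEigensystem K' ℂ} {U : H29.UpData K'}
    (hU : H29.IsUpData ℓ Φ U)
    (h : ∀ u : G K', InLevelGroup U.𝔑₀ u ↔ InLevelGroup U.𝔑₀ (U.s.onG u)) :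
    H29.BaseStableU U where
  left_inverse := (hU.aut 1 (isBad_one_glue U)).left_inverse
  right_inverse := (hU.aut 1 (isBad_one_glue U)).right_inverse
  rat := (hU.aut 1 (isBad_one_glue U)).rat
  cont := (hU.aut 1 (isBad_one_glue U)).cont
  measure := (hU.aut 1 (isBad_one_glue U)).measure
  ray := (hU.aut 1 (isBad_one_glue U)).ray
  slab := (hU.aut 1 (isBad_one_glue U)).slab
  level := h
  arch := (hU.aut 1 (isBad_one_glue U)).arch

theorem hst_cu_r {ℓ : ℕ} {Φ : HeckeEigensystem K' ℂ} {U : H29.UpData K'} (hU : H29.IsUpData ℓ Φ U)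
    (h : CU736.BaseStable561 U) : UB675.BaseStableU675 U :=
  h

theorem hst_r_cu {ℓ : ℕ} {Φ : HeckeEigensystem K' ℂ} {U : H29.UpData K'} (hU : H29.IsUpData ℓ Φ U)
    (h : UB675.BaseStableU675 U) : CU736.BaseStable561 U :=
  h

theorem hst_r_d {ℓ : ℕ} {Φ : HeckeEigensystem K' ℂ} {U : H29.UpData K'} (hU : H29.IsUpData ℓ Φ U) (h
    : UB675.BaseStableU675 U) : H29.BaseStableU U :=
  baseStableU_of_level hU h

theorem hst_d_r {ℓ : ℕ} {Φ : HeckeEigensystem K' ℂ} {U : H29.UpData K'} (hU : H29.IsUpData ℓ Φ U) (h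
    : H29.BaseStableU U) : UB675.BaseStableU675 U :=
  h.level

end Stable

/-! ## 3. The leaves of the cut of `BlocksC561` / `OpsC561` -/

section Leaves

variable {K' : Type} [Field K'] [NumberField K']

theorem blocks_cu_r (h : CU736.BlocksC561 K') : UB675.BlocksUC675 K' := by
  intro ℓ hℓ hc Φ hΦ U hU hst g hg
  obtain ⟨e₀, 𝔅, hB⟩ := h ℓ hℓ hc Φ hΦ U hU (hst_r_cu hU hst) g hg
  exact ⟨e₀, 𝔅, isBlocks_cu_r hB⟩

theorem wSpec_cu_r (h : CU736.WSpecC561 K') : UB675.WSpecUC675 K' := by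
  intro ℓ hℓ hc Φ hΦ U hU
  obtain ⟨ι, n, C, v, hv⟩ := h ℓ hℓ hc Φ hΦ U hU
  exact ⟨ι, n, C, v, isWSpec_cu_r hv⟩

theorem complete_cu_r (h : CU736.CompleteC561 K') : UB675.CompleteUC675 K' :=
  fun ℓ hℓ hc Φ hΦ U hU g hg ι n C v hv =>
    h ℓ hℓ hc Φ hΦ U hU g hg ι n C v (isWSpec_r_cu hv)

theorem sigma_cu_r (h : CU736.SigmaC561 K') : UB675.SigmaUC675 K' :=
  fun ℓ hℓ hc Φ hΦ U hU hst => h ℓ hℓ hc Φ hΦ U hU (hst_r_cu hU hst)

theorem ops_cu_r (h : CU736.OpsC561 K') : UB675.OpsUC675 K' := by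
  intro ℓ hℓ hc Φ hΦ U hU hst g hg
  obtain ⟨Hs, ω, Hg, hO⟩ := h ℓ hℓ hc Φ hΦ U hU (hst_r_cu hU hst) g hg
  exact ⟨Hs, ω, Hg, isWOps_cu_r hO⟩

theorem phi_cu_r (h : CU736.PhiC561 K') : UB675.PhiUC675 K' :=
  fun ℓ hℓ hc Φ hΦ U hU => h ℓ hℓ hc Φ hΦ U hU

theorem offW_cu_r (h : CU736.OffWC561 K') : UB675.OffWUC675 K' :=
  fun ℓ hℓ hc Φ hΦ U hU g hg ι n C v hv =>
    h ℓ hℓ hc Φ hΦ U hU g hg ι n C v (isWSpec_r_cu hv)

theorem iwSysExists_cu_r (h : CU736.IwSysExistsC561 K') : UB675.IwSysExistsUC675 K' := by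
  intro ℓ Φ U hs
  obtain ⟨Hs, ω, hsys⟩ := h ℓ Φ U (isSetup_r_cu hs)
  exact ⟨Hs, ω, isIwSys_cu_r hsys⟩

theorem opsEig_cu_r (h : CU736.OpsEigC561 K') : UB675.OpsEigUC675 K' :=
  fun ℓ Φ U hs Hs ω hsys => h ℓ Φ U (isSetup_r_cu hs) Hs ω (isIwSys_r_cu hsys)

theorem opsRel_cu_r (h : CU736.OpsRelC561 K') : UB675.OpsRelUC675 K' :=
  fun ℓ Φ U hs Hs ω hsys => h ℓ Φ U (isSetup_r_cu hs) Hs ω (isIwSys_r_cu hsys)

theorem opsComm_cu_r (h : CU736.OpsCommC561 K') : UB675.OpsCommUC675 K' :=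
  fun ℓ Φ U hs Hs ω hsys => h ℓ Φ U (isSetup_r_cu hs) Hs ω (isIwSys_r_cu hsys)

theorem opsPer_cu_r (h : CU736.OpsPerC561 K') : UB675.OpsPerUC675 K' :=
  fun ℓ Φ U hs Hs ω hsys => h ℓ Φ U (isSetup_r_cu hs) Hs ω (isIwSys_r_cu hsys)

theorem opsAdj_cu_r (h : CU736.OpsAdjC561 K') : UB675.OpsAdjUC675 K' :=
  fun ℓ Φ U hs Hs ω hsys => h ℓ Φ U (isSetup_r_cu hs) Hs ω (isIwSys_r_cu hsys)

theorem opsLink_cu_r (h : CU736.OpsLinkC561 K') : UB675.OpsLinkUC675 K' :=
  fun ℓ Φ U hs Hs ω hsys => h ℓ Φ U (isSetup_r_cu hs) Hs ω (isIwSys_r_cu hsys)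

theorem opsSig_cu_r (h : CU736.OpsSigC561 K') : UB675.OpsSigUC675 K' :=
  fun ℓ Φ U hs hst Hs ω hsys =>
    h ℓ Φ U (isSetup_r_cu hs) (hst_r_cu hs.data hst) Hs ω (isIwSys_r_cu hsys)

theorem badOp_cu_r (h : CU736.BadOpC561 K') : UB675.BadOpUC675 K' := by
  intro ℓ Φ U hs g hg
  obtain ⟨Hg, hdbl, hB, hcomm⟩ := h ℓ Φ U (isSetup_r_cu hs) g hg
  exact ⟨Hg, hdbl, hB, fun Hs ω hsys => hcomm Hs ω (isIwSys_r_cu hsys)⟩

theorem blocks_r_cu (h : UB675.BlocksUC675 K') : CU736.BlocksC561 K' := by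
  intro ℓ hℓ hc Φ hΦ U hU hst g hg
  obtain ⟨e₀, 𝔅, hB⟩ := h ℓ hℓ hc Φ hΦ U hU (hst_cu_r hU hst) g hg
  exact ⟨e₀, 𝔅, isBlocks_r_cu hB⟩

theorem wSpec_r_cu (h : UB675.WSpecUC675 K') : CU736.WSpecC561 K' := by
  intro ℓ hℓ hc Φ hΦ U hU
  obtain ⟨ι, n, C, v, hv⟩ := h ℓ hℓ hc Φ hΦ U hU
  exact ⟨ι, n, C, v, isWSpec_r_cu hv⟩

theorem complete_r_cu (h : UB675.CompleteUC675 K') : CU736.CompleteC561 K' :=
  fun ℓ hℓ hc Φ hΦ U hU g hg ι n C v hv =>
    h ℓ hℓ hc Φ hΦ U hU g hg ι n C v (isWSpec_cu_r hv)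

theorem sigma_r_cu (h : UB675.SigmaUC675 K') : CU736.SigmaC561 K' :=
  fun ℓ hℓ hc Φ hΦ U hU hst => h ℓ hℓ hc Φ hΦ U hU (hst_cu_r hU hst)

theorem ops_r_cu (h : UB675.OpsUC675 K') : CU736.OpsC561 K' := by
  intro ℓ hℓ hc Φ hΦ U hU hst g hg
  obtain ⟨Hs, ω, Hg, hO⟩ := h ℓ hℓ hc Φ hΦ U hU (hst_cu_r hU hst) g hg
  exact ⟨Hs, ω, Hg, isWOps_r_cu hO⟩

theorem phi_r_cu (h : UB675.PhiUC675 K') : CU736.PhiC561 K' :=
  fun ℓ hℓ hc Φ hΦ U hU => h ℓ hℓ hc Φ hΦ U hU

theorem offW_r_cu (h : UB675.OffWUC675 K') : CU736.OffWC561 K' :=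
  fun ℓ hℓ hc Φ hΦ U hU g hg ι n C v hv =>
    h ℓ hℓ hc Φ hΦ U hU g hg ι n C v (isWSpec_cu_r hv)

theorem iwSysExists_r_cu (h : UB675.IwSysExistsUC675 K') : CU736.IwSysExistsC561 K' := by
  intro ℓ Φ U hs
  obtain ⟨Hs, ω, hsys⟩ := h ℓ Φ U (isSetup_cu_r hs)
  exact ⟨Hs, ω, isIwSys_r_cu hsys⟩

theorem opsEig_r_cu (h : UB675.OpsEigUC675 K') : CU736.OpsEigC561 K' :=
  fun ℓ Φ U hs Hs ω hsys => h ℓ Φ U (isSetup_cu_r hs) Hs ω (isIwSys_cu_r hsys)

theorem opsRel_r_cu (h : UB675.OpsRelUC675 K') : CU736.OpsRelC561 K' :=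
  fun ℓ Φ U hs Hs ω hsys => h ℓ Φ U (isSetup_cu_r hs) Hs ω (isIwSys_cu_r hsys)

theorem opsComm_r_cu (h : UB675.OpsCommUC675 K') : CU736.OpsCommC561 K' :=
  fun ℓ Φ U hs Hs ω hsys => h ℓ Φ U (isSetup_cu_r hs) Hs ω (isIwSys_cu_r hsys)

theorem opsPer_r_cu (h : UB675.OpsPerUC675 K') : CU736.OpsPerC561 K' :=
  fun ℓ Φ U hs Hs ω hsys => h ℓ Φ U (isSetup_cu_r hs) Hs ω (isIwSys_cu_r hsys)

theorem opsAdj_r_cu (h : UB675.OpsAdjUC675 K') : CU736.OpsAdjC561 K' :=
  fun ℓ Φ U hs Hs ω hsys => h ℓ Φ U (isSetup_cu_r hs) Hs ω (isIwSys_cu_r hsys)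

theorem opsLink_r_cu (h : UB675.OpsLinkUC675 K') : CU736.OpsLinkC561 K' :=
  fun ℓ Φ U hs Hs ω hsys => h ℓ Φ U (isSetup_cu_r hs) Hs ω (isIwSys_cu_r hsys)

theorem opsSig_r_cu (h : UB675.OpsSigUC675 K') : CU736.OpsSigC561 K' :=
  fun ℓ Φ U hs hst Hs ω hsys =>
    h ℓ Φ U (isSetup_cu_r hs) (hst_cu_r hs.data hst) Hs ω (isIwSys_cu_r hsys)

theorem badOp_r_cu (h : UB675.BadOpUC675 K') : CU736.BadOpC561 K' := by
  intro ℓ Φ U hs g hg
  obtain ⟨Hg, hdbl, hB, hcomm⟩ := h ℓ Φ U (isSetup_cu_r hs) g hg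
  exact ⟨Hg, hdbl, hB, fun Hs ω hsys => hcomm Hs ω (isIwSys_cu_r hsys)⟩

theorem blocks_r_d (h : UB675.BlocksUC675 K') : H865.BlocksUC865 K' := by
  intro ℓ hℓ hc Φ hΦ U hU hst g hg
  obtain ⟨e₀, 𝔅, hB⟩ := h ℓ hℓ hc Φ hΦ U hU (hst_d_r hU hst) g hg
  exact ⟨e₀, 𝔅, isBlocks_r_d hB⟩

theorem wSpec_r_d (h : UB675.WSpecUC675 K') : H865.WSpecUC865 K' := by
  intro ℓ hℓ hc Φ hΦ U hU
  obtain ⟨ι, n, C, v, hv⟩ := h ℓ hℓ hc Φ hΦ U hU
  exact ⟨ι, n, C, v, isWSpec_r_d hv⟩

theorem complete_r_d (h : UB675.CompleteUC675 K') : H865.CompleteUC865 K' :=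
  fun ℓ hℓ hc Φ hΦ U hU g hg ι n C v hv =>
    h ℓ hℓ hc Φ hΦ U hU g hg ι n C v (isWSpec_d_r hv)

theorem sigma_r_d (h : UB675.SigmaUC675 K') : H865.SigmaUC865 K' :=
  fun ℓ hℓ hc Φ hΦ U hU hst => h ℓ hℓ hc Φ hΦ U hU (hst_d_r hU hst)

theorem ops_r_d (h : UB675.OpsUC675 K') : H865.OpsUC865 K' := by
  intro ℓ hℓ hc Φ hΦ U hU hst g hg
  obtain ⟨Hs, ω, Hg, hO⟩ := h ℓ hℓ hc Φ hΦ U hU (hst_d_r hU hst) g hg
  exact ⟨Hs, ω, Hg, isWOps_r_d hO⟩

theorem phi_r_d (h : UB675.PhiUC675 K') : H865.PhiUC865 K' :=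
  fun ℓ hℓ hc Φ hΦ U hU => h ℓ hℓ hc Φ hΦ U hU

theorem offW_r_d (h : UB675.OffWUC675 K') : H865.OffWUC865 K' :=
  fun ℓ hℓ hc Φ hΦ U hU g hg ι n C v hv =>
    h ℓ hℓ hc Φ hΦ U hU g hg ι n C v (isWSpec_d_r hv)

theorem iwSysExists_r_d (h : UB675.IwSysExistsUC675 K') : H865.IwSysExistsUC865 K' := by
  intro ℓ Φ U hs
  obtain ⟨Hs, ω, hsys⟩ := h ℓ Φ U (isSetup_d_r hs)
  exact ⟨Hs, ω, isIwSys_r_d hsys⟩

theorem opsEig_r_d (h : UB675.OpsEigUC675 K') : H865.OpsEigUC865 K' :=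
  fun ℓ Φ U hs Hs ω hsys => h ℓ Φ U (isSetup_d_r hs) Hs ω (isIwSys_d_r hsys)

theorem opsRel_r_d (h : UB675.OpsRelUC675 K') : H865.OpsRelUC865 K' :=
  fun ℓ Φ U hs Hs ω hsys => h ℓ Φ U (isSetup_d_r hs) Hs ω (isIwSys_d_r hsys)

theorem opsComm_r_d (h : UB675.OpsCommUC675 K') : H865.OpsCommUC865 K' :=
  fun ℓ Φ U hs Hs ω hsys => h ℓ Φ U (isSetup_d_r hs) Hs ω (isIwSys_d_r hsys)

theorem opsPer_r_d (h : UB675.OpsPerUC675 K') : H865.OpsPerUC865 K' :=
  fun ℓ Φ U hs Hs ω hsys => h ℓ Φ U (isSetup_d_r hs) Hs ω (isIwSys_d_r hsys)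

theorem opsAdj_r_d (h : UB675.OpsAdjUC675 K') : H865.OpsAdjUC865 K' :=
  fun ℓ Φ U hs Hs ω hsys => h ℓ Φ U (isSetup_d_r hs) Hs ω (isIwSys_d_r hsys)

theorem opsLink_r_d (h : UB675.OpsLinkUC675 K') : H865.OpsLinkUC865 K' :=
  fun ℓ Φ U hs Hs ω hsys => h ℓ Φ U (isSetup_d_r hs) Hs ω (isIwSys_d_r hsys)

theorem opsSig_r_d (h : UB675.OpsSigUC675 K') : H865.OpsSigUC865 K' :=
  fun ℓ Φ U hs hst Hs ω hsys =>
    h ℓ Φ U (isSetup_d_r hs) (hst_d_r hs.data hst) Hs ω (isIwSys_d_r hsys)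

theorem badOp_r_d (h : UB675.BadOpUC675 K') : H865.BadOpUC865 K' := by
  intro ℓ Φ U hs g hg
  obtain ⟨Hg, hdbl, hB, hcomm⟩ := h ℓ Φ U (isSetup_d_r hs) g hg
  exact ⟨Hg, hdbl, hB, fun Hs ω hsys => hcomm Hs ω (isIwSys_d_r hsys)⟩

theorem blocks_d_r (h : H865.BlocksUC865 K') : UB675.BlocksUC675 K' := by
  intro ℓ hℓ hc Φ hΦ U hU hst g hg
  obtain ⟨e₀, 𝔅, hB⟩ := h ℓ hℓ hc Φ hΦ U hU (hst_r_d hU hst) g hg
  exact ⟨e₀, 𝔅, isBlocks_d_r hB⟩

theorem wSpec_d_r (h : H865.WSpecUC865 K') : UB675.WSpecUC675 K' := by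
  intro ℓ hℓ hc Φ hΦ U hU
  obtain ⟨ι, n, C, v, hv⟩ := h ℓ hℓ hc Φ hΦ U hU
  exact ⟨ι, n, C, v, isWSpec_d_r hv⟩

theorem complete_d_r (h : H865.CompleteUC865 K') : UB675.CompleteUC675 K' :=
  fun ℓ hℓ hc Φ hΦ U hU g hg ι n C v hv =>
    h ℓ hℓ hc Φ hΦ U hU g hg ι n C v (isWSpec_r_d hv)

theorem sigma_d_r (h : H865.SigmaUC865 K') : UB675.SigmaUC675 K' :=
  fun ℓ hℓ hc Φ hΦ U hU hst => h ℓ hℓ hc Φ hΦ U hU (hst_r_d hU hst)

theorem ops_d_r (h : H865.OpsUC865 K') : UB675.OpsUC675 K' := by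
  intro ℓ hℓ hc Φ hΦ U hU hst g hg
  obtain ⟨Hs, ω, Hg, hO⟩ := h ℓ hℓ hc Φ hΦ U hU (hst_r_d hU hst) g hg
  exact ⟨Hs, ω, Hg, isWOps_d_r hO⟩

theorem phi_d_r (h : H865.PhiUC865 K') : UB675.PhiUC675 K' :=
  fun ℓ hℓ hc Φ hΦ U hU => h ℓ hℓ hc Φ hΦ U hU

theorem offW_d_r (h : H865.OffWUC865 K') : UB675.OffWUC675 K' :=
  fun ℓ hℓ hc Φ hΦ U hU g hg ι n C v hv =>
    h ℓ hℓ hc Φ hΦ U hU g hg ι n C v (isWSpec_r_d hv)

theorem iwSysExists_d_r (h : H865.IwSysExistsUC865 K') : UB675.IwSysExistsUC675 K' := by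
  intro ℓ Φ U hs
  obtain ⟨Hs, ω, hsys⟩ := h ℓ Φ U (isSetup_r_d hs)
  exact ⟨Hs, ω, isIwSys_d_r hsys⟩

theorem opsEig_d_r (h : H865.OpsEigUC865 K') : UB675.OpsEigUC675 K' :=
  fun ℓ Φ U hs Hs ω hsys => h ℓ Φ U (isSetup_r_d hs) Hs ω (isIwSys_r_d hsys)

theorem opsRel_d_r (h : H865.OpsRelUC865 K') : UB675.OpsRelUC675 K' :=
  fun ℓ Φ U hs Hs ω hsys => h ℓ Φ U (isSetup_r_d hs) Hs ω (isIwSys_r_d hsys)

theorem opsComm_d_r (h : H865.OpsCommUC865 K') : UB675.OpsCommUC675 K' :=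
  fun ℓ Φ U hs Hs ω hsys => h ℓ Φ U (isSetup_r_d hs) Hs ω (isIwSys_r_d hsys)

theorem opsPer_d_r (h : H865.OpsPerUC865 K') : UB675.OpsPerUC675 K' :=
  fun ℓ Φ U hs Hs ω hsys => h ℓ Φ U (isSetup_r_d hs) Hs ω (isIwSys_r_d hsys)

theorem opsAdj_d_r (h : H865.OpsAdjUC865 K') : UB675.OpsAdjUC675 K' :=
  fun ℓ Φ U hs Hs ω hsys => h ℓ Φ U (isSetup_r_d hs) Hs ω (isIwSys_r_d hsys)

theorem opsLink_d_r (h : H865.OpsLinkUC865 K') : UB675.OpsLinkUC675 K' :=
  fun ℓ Φ U hs Hs ω hsys => h ℓ Φ U (isSetup_r_d hs) Hs ω (isIwSys_r_d hsys)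

theorem opsSig_d_r (h : H865.OpsSigUC865 K') : UB675.OpsSigUC675 K' :=
  fun ℓ Φ U hs hst Hs ω hsys =>
    h ℓ Φ U (isSetup_r_d hs) (hst_r_d hs.data hst) Hs ω (isIwSys_r_d hsys)

theorem badOp_d_r (h : H865.BadOpUC865 K') : UB675.BadOpUC675 K' := by
  intro ℓ Φ U hs g hg
  obtain ⟨Hg, hdbl, hB, hcomm⟩ := h ℓ Φ U (isSetup_r_d hs) g hg
  exact ⟨Hg, hdbl, hB, fun Hs ω hsys => hcomm Hs ω (isIwSys_r_d hsys)⟩

theorem blocksAsm_cu_r (h : CU736.BlocksAsmC561 K') : UB675.BlocksAsmUC675 K' :=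
  fun hW hC hS hO hP hF => blocks_cu_r (h (wSpec_r_cu hW) (complete_r_cu hC) (sigma_r_cu hS)
    (ops_r_cu hO) (phi_r_cu hP) (offW_r_cu hF))

theorem blocksAsm_r_cu (h : UB675.BlocksAsmUC675 K') : CU736.BlocksAsmC561 K' :=
  fun hW hC hS hO hP hF => blocks_r_cu (h (wSpec_cu_r hW) (complete_cu_r hC) (sigma_cu_r hS)
    (ops_cu_r hO) (phi_cu_r hP) (offW_cu_r hF))

theorem blocksAsm_r_d (h : UB675.BlocksAsmUC675 K') : H865.BlocksAsmUC865 K' :=
  fun hW hC hS hO hP hF => blocks_r_d (h (wSpec_d_r hW) (complete_d_r hC) (sigma_d_r hS)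
    (ops_d_r hO) (phi_d_r hP) (offW_d_r hF))

theorem blocksAsm_d_r (h : H865.BlocksAsmUC865 K') : UB675.BlocksAsmUC675 K' :=
  fun hW hC hS hO hP hF => blocks_d_r (h (wSpec_r_d hW) (complete_r_d hC) (sigma_r_d hS)
    (ops_r_d hO) (phi_r_d hP) (offW_r_d hF))

end Leaves

/-! ## 4. The leaves of the cut of `ClassModelC` -/

section ClassModel

variable {K' : Type} [Field K'] [NumberField K']

theorem ctx_cu_r {ℓ : ℕ} {Φ : HeckeEigensystem K' ℂ} {U : H29.UpData K'}
    (h : CU736.Ctx616 K' ℓ Φ U) : CMU675.CtxU675 K' ℓ Φ U where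
  prime := h.prime
  cplx := h.cplx
  cusp := h.cusp
  data := h.data
  stable := h.stable

theorem ctx_r_cu {ℓ : ℕ} {Φ : HeckeEigensystem K' ℂ} {U : H29.UpData K'}
    (h : CMU675.CtxU675 K' ℓ Φ U) : CU736.Ctx616 K' ℓ Φ U where
  prime := h.prime
  cplx := h.cplx
  cusp := h.cusp
  data := h.data
  stable := h.stable

theorem finDim_cu_r (h : CU736.FinDimC616 K') : CMU675.FinDimUC675 K' :=
  fun ℓ Φ U ctx => h ℓ Φ U (ctx_r_cu ctx)

theorem finDim_r_cu (h : CMU675.FinDimUC675 K') : CU736.FinDimC616 K' :=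
  fun ℓ Φ U ctx => h ℓ Φ U (ctx_cu_r ctx)

theorem nontriv_cu_r (h : CU736.NontrivC616 K') : CMU675.NontrivUC675 K' :=
  fun ℓ Φ U ctx => h ℓ Φ U (ctx_r_cu ctx)

theorem nontriv_r_cu (h : CMU675.NontrivUC675 K') : CU736.NontrivC616 K' :=
  fun ℓ Φ U ctx => h ℓ Φ U (ctx_cu_r ctx)

theorem stabG_cu_r (h : CU736.StabGC616 K') : CMU675.StabGUC675 K' :=
  fun ℓ Φ U ctx => h ℓ Φ U (ctx_r_cu ctx)

theorem stabG_r_cu (h : CMU675.StabGUC675 K') : CU736.StabGC616 K' :=
  fun ℓ Φ U ctx => h ℓ Φ U (ctx_cu_r ctx)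

theorem stabS_cu_r (h : CU736.StabSC616 K') : CMU675.StabSUC675 K' :=
  fun ℓ Φ U ctx => h ℓ Φ U (ctx_r_cu ctx)

theorem stabS_r_cu (h : CMU675.StabSUC675 K') : CU736.StabSC616 K' :=
  fun ℓ Φ U ctx => h ℓ Φ U (ctx_cu_r ctx)

theorem commGI_cu_r (h : CU736.CommGIC616 K') : CMU675.CommGIUC675 K' :=
  fun ℓ Φ U ctx => h ℓ Φ U (ctx_r_cu ctx)

theorem commGI_r_cu (h : CMU675.CommGIUC675 K') : CU736.CommGIC616 K' :=
  fun ℓ Φ U ctx => h ℓ Φ U (ctx_cu_r ctx)

theorem locComm_cu_r (h : CU736.LocCommC616 K') : CMU675.LocCommUC675 K' :=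
  fun ℓ Φ U ctx => h ℓ Φ U (ctx_r_cu ctx)

theorem locComm_r_cu (h : CMU675.LocCommUC675 K') : CU736.LocCommC616 K' :=
  fun ℓ Φ U ctx => h ℓ Φ U (ctx_cu_r ctx)

theorem locMove_cu_r (h : CU736.LocMoveC616 K') : CMU675.LocMoveUC675 K' :=
  fun ℓ Φ U ctx => h ℓ Φ U (ctx_r_cu ctx)

theorem locMove_r_cu (h : CMU675.LocMoveUC675 K') : CU736.LocMoveC616 K' :=
  fun ℓ Φ U ctx => h ℓ Φ U (ctx_cu_r ctx)

theorem pow_cu_r (h : CU736.PowC616 K') : CMU675.PowUC675 K' :=
  fun ℓ Φ U ctx => h ℓ Φ U (ctx_r_cu ctx)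

theorem pow_r_cu (h : CMU675.PowUC675 K') : CU736.PowC616 K' :=
  fun ℓ Φ U ctx => h ℓ Φ U (ctx_cu_r ctx)

theorem simple_cu_r (h : CU736.SimpleC616 K') : CMU675.SimpleUC675 K' :=
  fun ℓ Φ U ctx => h ℓ Φ U (ctx_r_cu ctx)

theorem simple_r_cu (h : CMU675.SimpleUC675 K') : CU736.SimpleC616 K' :=
  fun ℓ Φ U ctx => h ℓ Φ U (ctx_cu_r ctx)

theorem mulG_cu_r (h : CU736.MulGC616 K') : CMU675.MulGUC675 K' :=
  fun ℓ Φ U ctx => h ℓ Φ U (ctx_r_cu ctx)

theorem mulG_r_cu (h : CMU675.MulGUC675 K') : CU736.MulGC616 K' :=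
  fun ℓ Φ U ctx => h ℓ Φ U (ctx_cu_r ctx)

theorem dict_cu_r (h : CU736.DictC616 K') : CMU675.DictUC675 K' :=
  fun ℓ Φ U ctx => h ℓ Φ U (ctx_r_cu ctx)

theorem dict_r_cu (h : CMU675.DictUC675 K') : CU736.DictC616 K' :=
  fun ℓ Φ U ctx => h ℓ Φ U (ctx_cu_r ctx)

end ClassModel

end Fermat.Agent.LT.T7.GL736

end

end
-- ===== PACK-END LT/T7/H736/Core/Glue.lean

-- ===== PACK-BEGIN LT/T7/H793/ClassOpCore.lean
section



/-!
# Row LT, tower T7, node T7.L2.2.N.S `SimpleC` (helper963), leaf S3 `ClassOpC`: THE CORE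
# (helper793, OFF-MAIN, spare of registry row 2370)

The statement of `H963.ClassOpC` with the vocabulary of `T7/H963/Simple.lean` (`IsBadAt`,
`IsIwElt`, `IsIwDblSystem`) UNFOLDED, on the closure of the cut of helper281 (`OpUpSpec.lean`)
and its leaves proved by helper439 (`translEigC439`, `dblInvC439`), the Iwahori kit of helper340
and the local kit of helper129.  The verbatim form is `T7/H793/ClassOp.lean`.

* bad part: `isEigFn_cosetOp281` of helper281 on `translEigC439`, `dblInvC439`;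
* Iwahori part: for a full system `H` of representatives of `I h I / I` at `w = o j` and a local
  element `k` of the Iwahori subgroup, `x ↦ (the representative of k x)` is a permutation of `H`
  (`iwDblSum_perm793`); an element of the level group, resp. of the Iwahori subgroups along the
  orbit, is the product of its component at `w` (a local element of the Iwahori subgroup:
  `w ∣ 𝔫`) and an element which is trivial at `w` and commutes with `H`.
-/

set_option autoImplicit false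
set_option linter.unusedSectionVars false

open AutomorphicForm IsDedekindDomain NumberField MeasureTheory
open scoped ComplexConjugate
open Fermat.Agent.LT.H556 Fermat.Agent.LT.H556.A0 Fermat.Agent.LT.H129

noncomputable section

namespace Fermat.Agent.LT.T7.H793

open Fermat.Agent.LT Fermat.Agent.LT.T7 Fermat.Agent.LT.T7.H893 Fermat.Agent.LT.T7.H340
open Fermat.Agent.LT.T7.H281 Fermat.Agent.LT.T7.H439

attribute [local instance] Fermat.Agent.LT.T5.instMeasurableSpaceG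

variable {K : Type} [Field K] [NumberField K]

/-- The elements of a system of representatives of `I h I / I` are supported at `w`. -/
theorem isLocal_of_iwDbl793 {w : HeightOneSpectrum (𝓞 K)} {h : G K} {H : Finset (G K)}
    (hloc : IsLocalAtFin w h)
    (h1 : ∀ x ∈ H, ∃ k₁ k₂ : G K, (IsLocalAtFin w k₁ ∧ T5.InIwahori w k₁) ∧
      (IsLocalAtFin w k₂ ∧ T5.InIwahori w k₂) ∧ x = k₁ * h * k₂) {x : G K} (hx : x ∈ H) :
    IsLocalAtFin w x := by
  obtain ⟨k₁, k₂, hk₁, hk₂, rfl⟩ := h1 x hx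
  exact isLocalAtFin_mul129 (isLocalAtFin_mul129 hk₁.1 hloc) hk₂.1

/-- **The permutation.**  Left multiplication by a local element of the Iwahori subgroup
permutes the cosets of a full system of representatives of `I h I / I`. -/
theorem iwDblSum_perm793 {w : HeightOneSpectrum (𝓞 K)} {h : G K} {H : Finset (G K)}
    (hloc : IsLocalAtFin w h)
    (h1 : ∀ x ∈ H, ∃ k₁ k₂ : G K, (IsLocalAtFin w k₁ ∧ T5.InIwahori w k₁) ∧
      (IsLocalAtFin w k₂ ∧ T5.InIwahori w k₂) ∧ x = k₁ * h * k₂)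
    (h2 : ∀ x ∈ H, ∀ x' ∈ H, x ≠ x' → ¬ T5.InIwahori w (x⁻¹ * x'))
    (h3 : ∀ k : G K, (IsLocalAtFin w k ∧ T5.InIwahori w k) →
      ∃ x ∈ H, T5.InIwahori w (x⁻¹ * (k * h)))
    {ψ : G K → ℂ}
    (hψ : ∀ u : G K, IsLocalAtFin w u → T5.InIwahori w u → ∀ g : G K, ψ (g * u) = ψ g)
    {k : G K} (hk : IsLocalAtFin w k) (hkI : T5.InIwahori w k) (g : G K) :
    ∑ x ∈ H, ψ (g * (k * x)) = ∑ x ∈ H, ψ (g * x) := by
  classical
  have key : ∀ x ∈ H, ∃ x' ∈ H, T5.InIwahori w (x'⁻¹ * (k * x)) := by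
    intro x hx
    obtain ⟨k₁, k₂, hk₁, hk₂, rfl⟩ := h1 x hx
    obtain ⟨x', hx', hI⟩ := h3 (k * k₁) ⟨isLocalAtFin_mul129 hk hk₁.1, inIwahori_mul340 hkI hk₁.2⟩
    refine ⟨x', hx', ?_⟩
    have e : x'⁻¹ * (k * (k₁ * h * k₂)) = x'⁻¹ * (k * k₁ * h) * k₂ := by group
    rw [e]
    exact inIwahori_mul340 hI hk₂.2
  choose! σ hσ using key
  have hinj : Set.InjOn σ (H : Set (G K)) := by
    intro x hx y hy hxy
    by_contra hne
    apply h2 x hx y hy hne
    have e : x⁻¹ * y = ((σ x)⁻¹ * (k * x))⁻¹ * ((σ y)⁻¹ * (k * y)) := by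
      rw [hxy]; group
    rw [e]
    exact inIwahori_mul340 (inIwahori_inv340 (hσ x hx).2) (hσ y hy).2
  have himg : H.image σ = H := by
    apply Finset.eq_of_subset_of_card_le
    · intro y hy
      obtain ⟨x, hx, rfl⟩ := Finset.mem_image.mp hy
      exact (hσ x hx).1
    · rw [Finset.card_image_of_injOn hinj]
  have hterm : ∀ x ∈ H, ψ (g * (k * x)) = ψ (g * σ x) := by
    intro x hx
    have hu : IsLocalAtFin w ((σ x)⁻¹ * (k * x)) :=
      isLocalAtFin_mul129 (isLocalAtFin_inv129 (isLocal_of_iwDbl793 hloc h1 (hσ x hx).1))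
        (isLocalAtFin_mul129 hk (isLocal_of_iwDbl793 hloc h1 hx))
    have := hψ _ hu (hσ x hx).2 (g * σ x)
    rw [← this]
    congr 1
    group
  rw [Finset.sum_congr rfl hterm]
  conv_rhs => rw [← himg]
  rw [Finset.sum_image hinj]

/-- The sum over a system of `I h I / I` at `w ∣ 𝔫` of a function which is right invariant under
`U(𝔫)` and under the local elements of the Iwahori subgroup at `w` is right invariant under
`U(𝔫)`. -/
theorem level_inv_iwDbl793 {𝔫 : Ideal (𝓞 K)} {w : HeightOneSpectrum (𝓞 K)}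
    (hw : w.asIdeal ∣ 𝔫) {h : G K} {H : Finset (G K)}
    (hloc : IsLocalAtFin w h)
    (h1 : ∀ x ∈ H, ∃ k₁ k₂ : G K, (IsLocalAtFin w k₁ ∧ T5.InIwahori w k₁) ∧
      (IsLocalAtFin w k₂ ∧ T5.InIwahori w k₂) ∧ x = k₁ * h * k₂)
    (h2 : ∀ x ∈ H, ∀ x' ∈ H, x ≠ x' → ¬ T5.InIwahori w (x⁻¹ * x'))
    (h3 : ∀ k : G K, (IsLocalAtFin w k ∧ T5.InIwahori w k) →
      ∃ x ∈ H, T5.InIwahori w (x⁻¹ * (k * h)))
    {ψ : G K → ℂ}
    (hl : ∀ k : G K, InLevelGroup 𝔫 k → ∀ g : G K, ψ (g * k) = ψ g)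
    (hψ : ∀ u : G K, IsLocalAtFin w u → T5.InIwahori w u → ∀ g : G K, ψ (g * u) = ψ g)
    (k : G K) (hk : InLevelGroup 𝔫 k) (x : G K) :
    cosetOp H ψ (x * k) = cosetOp H ψ x := by
  classical
  unfold cosetOp
  set kw : G K := locFin129 w (finCompHom129 w k) with hkw
  set k' : G K := kw⁻¹ * k with hk'
  have hkwloc : IsLocalAtFin w kw := isLocalAtFin_locFin129 _ _
  have hkwI : T5.InIwahori w kw := by
    rw [inIwahori_iff340, hkw, finCompHom129_locFin129, ← inIwahori_iff340]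
    exact inIwahori_of_level439 hw hk
  have hk'w : finCompHom129 w k' = 1 := by
    rw [hk', map_mul, map_inv, hkw, finCompHom129_locFin129, inv_mul_cancel]
  have hk'v : ∀ v : HeightOneSpectrum (𝓞 K), v ≠ w →
      finCompHom129 v k' = finCompHom129 v k := by
    intro v hv
    rw [hk', map_mul, map_inv, hkw, finCompHom129_locFin129_of_ne _ _ hv, inv_one, one_mul]
  have hk'inf : ∀ u : InfinitePlace K, TrivAtInf u k' := by
    intro u
    rw [trivAtInf_iff129, hk', map_mul, map_inv, hkw, infCompHom129_locFin129, inv_one,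
      one_mul, ← trivAtInf_iff129]
    exact hk.1 u
  have hk'L : InLevelGroup 𝔫 k' := by
    refine ⟨hk'inf, fun v i j => ?_⟩
    by_cases hv : v = w
    · subst hv
      have e1 : finComp v k' = 1 := by
        rw [← coe_finCompHom129, hk'w]; rfl
      have e2 : finComp v k'⁻¹ = 1 := by
        rw [← coe_finCompHom129, map_inv, hk'w, inv_one]; rfl
      rw [e1, e2, sub_self]
      exact ⟨zero_mem_ic439 𝔫 v, zero_mem_ic439 𝔫 v⟩
    · have e1 : finComp v k' = finComp v k := by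
        rw [← coe_finCompHom129, hk'v v hv]; rfl
      have e2 : finComp v k'⁻¹ = finComp v k⁻¹ := by
        rw [← coe_finCompHom129, map_inv, hk'v v hv, ← map_inv]; rfl
      rw [e1, e2]
      exact hk.2 v i j
  have hkk : k = kw * k' := by rw [hk']; group
  have hterm : ∀ y ∈ H, ψ (x * k * y) = ψ (x * (kw * y)) := by
    intro y hy
    have hcomm : k' * y = y * k' :=
      (commute_of_local340 (isLocal_of_iwDbl793 hloc h1 hy) hk'w).symm
    have e : x * k * y = x * (kw * y) * k' := by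
      rw [hkk, mul_assoc, mul_assoc kw, hcomm]
      group
    rw [e]
    exact hl k' hk'L _
  rw [Finset.sum_congr rfl hterm]
  exact iwDblSum_perm793 hloc h1 h2 h3 hψ hkwloc hkwI x

/-- The sum over a system of `I h I / I` at `w = o j₀` of a function which is invariant under
the Iwahori subgroups along the orbit is invariant under the Iwahori subgroups along the
orbit. -/
theorem isIwInv_iwDbl793 {l : ℕ} {o : ℕ → HeightOneSpectrum (𝓞 K)} {j₀ : ℕ} (hj₀ : j₀ < l)
    {h : G K} {H : Finset (G K)} (hloc : IsLocalAtFin (o j₀) h)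
    (h1 : ∀ x ∈ H, ∃ k₁ k₂ : G K, (IsLocalAtFin (o j₀) k₁ ∧ T5.InIwahori (o j₀) k₁) ∧
      (IsLocalAtFin (o j₀) k₂ ∧ T5.InIwahori (o j₀) k₂) ∧ x = k₁ * h * k₂)
    (h2 : ∀ x ∈ H, ∀ x' ∈ H, x ≠ x' → ¬ T5.InIwahori (o j₀) (x⁻¹ * x'))
    (h3 : ∀ k : G K, (IsLocalAtFin (o j₀) k ∧ T5.InIwahori (o j₀) k) →
      ∃ x ∈ H, T5.InIwahori (o j₀) (x⁻¹ * (k * h)))
    {ψ : G K → ℂ} (hψ : IsIwInv l o ψ) : IsIwInv l o (cosetOp H ψ) := by
  classical
  intro k hkinf hkout hkI x
  unfold cosetOp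
  set kw : G K := locFin129 (o j₀) (finCompHom129 (o j₀) k) with hkw
  set k' : G K := kw⁻¹ * k with hk'
  have hkwloc : IsLocalAtFin (o j₀) kw := isLocalAtFin_locFin129 _ _
  have hkwI : T5.InIwahori (o j₀) kw := by
    rw [inIwahori_iff340, hkw, finCompHom129_locFin129, ← inIwahori_iff340]
    exact hkI j₀ hj₀
  have hk'w : finCompHom129 (o j₀) k' = 1 := by
    rw [hk', map_mul, map_inv, hkw, finCompHom129_locFin129, inv_mul_cancel]
  have hk'v : ∀ v : HeightOneSpectrum (𝓞 K), v ≠ o j₀ →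
      finCompHom129 v k' = finCompHom129 v k := by
    intro v hv
    rw [hk', map_mul, map_inv, hkw, finCompHom129_locFin129_of_ne _ _ hv, inv_one, one_mul]
  have hk'inf : ∀ u : InfinitePlace K, TrivAtInf u k' := by
    intro u
    rw [trivAtInf_iff129, hk', map_mul, map_inv, hkw, infCompHom129_locFin129, inv_one,
      one_mul, ← trivAtInf_iff129]
    exact hkinf u
  have hk'out : ∀ v : HeightOneSpectrum (𝓞 K), (∀ j < l, v ≠ o j) → TrivAtFin v k' := by
    intro v hv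
    rw [trivAtFin_iff129, hk'v v (hv j₀ hj₀), ← trivAtFin_iff129]
    exact hkout v hv
  have hk'I : ∀ j < l, T5.InIwahori (o j) k' := by
    intro j hj
    by_cases hjo : o j = o j₀
    · rw [hjo, inIwahori_iff340, hk'w]; exact isIwG340_one
    · rw [inIwahori_iff340, hk'v _ hjo, ← inIwahori_iff340]
      exact hkI j hj
  have hkk : k = kw * k' := by rw [hk']; group
  have hterm : ∀ y ∈ H, ψ (x * k * y) = ψ (x * (kw * y)) := by
    intro y hy
    have hcomm : k' * y = y * k' :=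
      (commute_of_local340 (isLocal_of_iwDbl793 hloc h1 hy) hk'w).symm
    have e : x * k * y = x * (kw * y) * k' := by
      rw [hkk, mul_assoc, mul_assoc kw, hcomm]
      group
    rw [e]
    exact hψ k' hk'inf hk'out hk'I _
  rw [Finset.sum_congr rfl hterm]
  exact iwDblSum_perm793 hloc h1 h2 h3
    (fun u hu huI g => isIwInv_local340 hψ hj₀ u hu huI g) hkwloc hkwI x

/-- **THE CORE of `H963.ClassOpC`** (vocabulary of `Simple.lean` unfolded). -/
theorem classOp_core793 (𝔫 : Ideal (𝓞 K)) (r : G K) (l : ℕ) (o : ℕ → HeightOneSpectrum (𝓞 K))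
    (C : EigData K) (hr : T5.IsRayGen r) (ho : ∀ j < l, (o j).asIdeal ∣ 𝔫)
    (ψ : G K → ℂ) (hψ : IsEigFn 𝔫 r l o ψ C) :
    (∀ (g : G K) (H : Finset (G K)),
      ((∀ w : InfinitePlace K, TrivAtInf w g) ∧
        ∀ v : HeightOneSpectrum (𝓞 K), (¬ v.asIdeal ∣ 𝔫 ∨ ∃ j < l, v = o j) → TrivAtFin v g) →
      IsDblCosetSystem 𝔫 g H → IsEigFn 𝔫 r l o (cosetOp H ψ) C) ∧
    ∀ (j : ℕ) (h : G K) (H : Finset (G K)), j < l → IsLocalAtFin (o j) h →
      ((∀ x ∈ H, ∃ k₁ k₂ : G K, (IsLocalAtFin (o j) k₁ ∧ T5.InIwahori (o j) k₁) ∧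
          (IsLocalAtFin (o j) k₂ ∧ T5.InIwahori (o j) k₂) ∧ x = k₁ * h * k₂) ∧
        (∀ x ∈ H, ∀ x' ∈ H, x ≠ x' → ¬ T5.InIwahori (o j) (x⁻¹ * x')) ∧
        ∀ k : G K, (IsLocalAtFin (o j) k ∧ T5.InIwahori (o j) k) →
          ∃ x ∈ H, T5.InIwahori (o j) (x⁻¹ * (k * h))) →
      IsEigFn 𝔫 r l o (cosetOp H ψ) C := by
  refine ⟨fun g H hg hH => ?_, fun j h H hj hloc hH => ?_⟩
  · exact isEigFn_cosetOp281 (translEigC439 K) (dblInvC439 K) hr ho hg.1 hg.2 hH hψ
  · obtain ⟨h1, h2, h3⟩ := hH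
    have hR : IsRInv281 𝔫 (cosetOp H ψ) := fun u hu x =>
      level_inv_iwDbl793 (ho j hj) hloc h1 h2 h3 (isRInv_of_isEigFn281 hψ)
        (fun b hb hbI g => isIwInv_local340 hψ.inv.iw hj b hb hbI g) u hu x
    have hI : IsIwInv l o (cosetOp H ψ) := isIwInv_iwDbl793 hj hloc h1 h2 h3 hψ.inv.iw
    rw [cosetOp_eq_translOp281] at hR hI ⊢
    exact translEigC439 K 𝔫 r l o hr H 1
      (fun t ht => isGood_of_local439 (ho j hj) (isLocal_of_iwDbl793 hloc h1 ht)) ψ C hψ hR hI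

end Fermat.Agent.LT.T7.H793

end

end
-- ===== PACK-END LT/T7/H793/ClassOpCore.lean

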