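import Mathlib
import Fermat.Agent.Pack.LT2.E13L0
import Fermat.Agent.Pack.LT3.E28L2
import Fermat.Agent.Pack.LT3.E28L1
import Fermat.Agent.Pack.LT3.E25L1
import Fermat.Agent.Pack.LT3.E27L2
import Fermat.Agent.Pack.LT3.E28L3
import Fermat.Agent.Pack.LT3.E28L0
import Fermat.Agent.Pack.LT3.E27L3
import Fermat.Agent.Pack.LT3.E13L2
import Fermat.Agent.Pack.LT3.E22L0
import Fermat.Agent.Pack.LT3.E23L3
import Fermat.Agent.Pack.LT3.E24L0
import Fermat.Agent.Pack.LT3.E27L1
import Fermat.Agent.Pack.LT3.E23L2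

set_option linter.all false

-- ===== PACK-BEGIN LT/T7/H253/ExpC.lean
section




/-!
# Row LT, tower T7, node T7.L2.1.H2a `BaseC` (cut of helper797): LEAF BC.1 `ExpC797` -- PROVED

OFF-MAIN (helper253, spare).  No hole, nothing assumed, no new definition.  ADDITIVE (new names
only, suffix `253`).  Spec: `LT/T7/Q797/BaseCutSpec.lean` (helper797, sha256 e87d7ea9), byte-identical
copy; asset `LT/T2/H557/CutLevel.lean` (helper557, closed tower T2): `idealClosure_ball557`.

    expC253 (K K') : Q797.ExpC797 K K'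

`exists_isLevelOf253` : every non-zero ideal of the ring of integers of a number field has
exponents (`H893.IsLevelOf893`): the closure of `𝔞 ≠ 0` in `K_v` is a ball of radius
`exp (- m v)`.  `T₀` = the finite set of the prime divisors of `𝔫` (`Ideal.finite_factors`).
-/

set_option autoImplicit false
set_option linter.unusedSectionVars false

open AutomorphicForm IsDedekindDomain NumberField

noncomputable section

namespace Fermat.Agent.LT.T7.H253

open Fermat.Agent.LT.H556 Fermat.Agent.LT.H556.A0 Fermat.Agent.LT.T7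
open Fermat.Agent.LT.T7.H893 Fermat.Agent.LT.T7.Q797

/-- A non-zero ideal has exponents. -/
theorem exists_isLevelOf253 {F : Type} [Field F] [NumberField F] (𝔞 : Ideal (𝓞 F))
    (h𝔞 : 𝔞 ≠ ⊥) : ∃ m : HeightOneSpectrum (𝓞 F) → ℕ, IsLevelOf893 𝔞 m := by
  choose m hm using fun v : HeightOneSpectrum (𝓞 F) =>
    Fermat.Agent.LT.T2.H557.idealClosure_ball557 𝔞 h𝔞 v
  exact ⟨m, fun v x => (hm v).1 x⟩

variable (K K' : Type) [Field K] [NumberField K] [Field K'] [NumberField K'] [Algebra K K']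

/-- The extension of a non-zero ideal is non-zero. -/
theorem upI_ne_bot253 {𝔫 : Ideal (𝓞 K)} (h : 𝔫 ≠ ⊥) : upI (K' := K') 𝔫 ≠ ⊥ := by
  intro h0
  apply h
  have hinj : Function.Injective (algebraMap (𝓞 K) (𝓞 K')) :=
    FaithfulSMul.algebraMap_injective (𝓞 K) (𝓞 K')
  exact (Ideal.map_eq_bot_iff_of_injective hinj).1 h0

/-- **LEAF BC.1 `ExpC797`** (verbatim, unconditional). -/
theorem expC253 : ExpC797 K K' := by
  classical
  intro ℓ Φ B hB 𝔫 h𝔫
  have h1 : 𝔫 ≠ ⊥ := h𝔫.level_ne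
  have h2 : upI (K' := K') 𝔫 ≠ ⊥ := upI_ne_bot253 K K' h1
  have h3 : B.𝔑₀ ≠ ⊥ := by
    obtain ⟨𝔫₀, h0, heq, -, -⟩ := hB.base_level
    rw [heq]
    exact upI_ne_bot253 K K' h0
  obtain ⟨m, hm⟩ := exists_isLevelOf253 𝔫 h1
  obtain ⟨n, hn⟩ := exists_isLevelOf253 (upI (K' := K') 𝔫) h2
  obtain ⟨n₀, hn₀⟩ := exists_isLevelOf253 B.𝔑₀ h3
  have hfin : {v : HeightOneSpectrum (𝓞 K) | v.asIdeal ∣ 𝔫}.Finite :=
    Ideal.finite_factors h1
  exact ⟨hfin.toFinset, n, n₀, m,
    { mem_T₀ := fun v => by rw [Set.Finite.mem_toFinset]; rfl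
      lev_m := hm
      lev_n := hn
      lev_n₀ := hn₀ }⟩

end Fermat.Agent.LT.T7.H253

end

end
-- ===== PACK-END LT/T7/H253/ExpC.lean

-- ===== PACK-BEGIN LT/T7/H514/FactUpQTop2.lean
section




/-!
# Row LT, tower T7, node Q2.7.13 v2 `MQ298.FactUpQC298b` (registry row 2676, helper514):
# THE NODE OF helper298, v2 (split clause for ONE enumeration), FROM THE CORE FORM

OFF-MAIN.  No hole, nothing assumed.  ADDITIVE (new names only, suffix `514`).

helper298 re-based the matching chain over `ℚ` on `LocHypQ298b` (`MatchQSpec2.lean`,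
helper298@0dd88c71f); the node of the second cut is now `MQ298.FactUpQC298b F`
(`MatchQCut2.lean`).  The core form of the cut (`FactUpQCore.lean`) has the clauses of the local
hypotheses as hypotheses, so the node v2 is the core form for `h.inv_up`, `h.inv_down`,
`h.arch_up`, `h.inert`, `h.split`, `h.arch`:

    factUpQC298b_of_core514   : FactUpQCore514 F → MQ298.FactUpQC298b F
    factUpQC298b_of_leaves514 : UpFactQCore514 F → LocEqInertQL514 F → LocEqSplitQL514 F
                                  → LocEqArchQL514 F → MQ298.FactUpQC298b F        (VERBATIM)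

(no `SplitEnumExQC514` here: the enumeration is part of `LocHypQ298b.split`).
-/

set_option autoImplicit false

open AutomorphicForm IsDedekindDomain NumberField MeasureTheory
open scoped ComplexConjugate

noncomputable section

namespace Fermat.Agent.LT.T7.FUQ514

open Fermat.Agent.LT.H556 Fermat.Agent.LT.H556.A0 Fermat.Agent.LT.T7 Fermat.Agent.LT.T7.H305
open Fermat.Agent.LT.T7.MQ298 Fermat.Agent.LT.T7.H340

attribute [local instance] Fermat.Agent.LT.T5.instMeasurableSpaceG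

variable {F : Type} [Field F] [NumberField F]

/-- **THE NODE OF helper298, v2 (`LocHypQ298b`), FROM THE CORE FORM.** -/
theorem factUpQC298b_of_core514 (hC : FactUpQCore514 F) : FactUpQC298b F := by
  intro hT6 hF D hD hcyc hl ι hι μr hμr μc hμc T₀ hT₀ n m hlev
  obtain ⟨cG', hcG', h⟩ := hC hT6 hF D hD hcyc hl ι hι μr hμr μc hμc T₀ hT₀ n m hlev
  refine ⟨cG', hcG', ?_⟩
  intro S S' hTS hSS' φ₀ Φ f₀ F0 F1 hloc δ γ hγ hN hgood hint μT μT' hμT hμT' hlink L cT hL hcT
    hTor
  exact h S S' hTS hSS' φ₀ Φ f₀ (fun g => F0 g + F1 g) hloc.inv_up hloc.inv_down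
    (fun w => ⟨(hloc.arch_up w).cont, (hloc.arch_up w).supp⟩) (fun v hv => hloc.inert v hv)
    (fun v hv h2 => hloc.split v hv h2) hloc.arch δ γ hγ hN hgood hint μT μT' hμT hμT' hlink L
    cT hL hcT hTor

/-- **THE NODE OF helper298, v2, FROM THE FOUR.** -/
theorem factUpQC298b_of_leaves514 (hU : UpFactQCore514 F) (hI : LocEqInertQL514 F)
    (hS : LocEqSplitQL514 F) (hA : LocEqArchQL514 F) : FactUpQC298b F :=
  factUpQC298b_of_core514 (factUpQCore_of514 hU hI hS hA)

/-- VERBATIM checks. -/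
example : UpFactQCore514 F → LocEqInertQL514 F → LocEqSplitQL514 F → LocEqArchQL514 F →
    Fermat.Agent.LT.T7.MQ298.FactUpQC298b F := factUpQC298b_of_leaves514

end Fermat.Agent.LT.T7.FUQ514

end

end
-- ===== PACK-END LT/T7/H514/FactUpQTop2.lean

-- ===== PACK-BEGIN LT/T7/H514/UpFactQCoreOfW.lean
section




/-!
# Row LT, tower T7, node Q2.7.13.1c `UpFactQCore514` (registry rows 2676 / 2708):
# THE CORE FORM OF THE NODE FROM THE `W`-FORM OF helper1 -- PROVED

OFF-MAIN.  No hole, nothing assumed.  ADDITIVE (new names only, suffix `514`).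

helper1 cut the node upstairs (`T7/H1U/UpFactQSpec.lean`, `UpFactQTop.lean`, helper1@7e90b91d7):

    H1U.upFactQW_of : UpDatExistsQC F → CutOnUpQC F → FactIntUpQC F → H1U.UpFactQWC F

(`W`-form: the caller names the first places `w0c v` over the places of `S`, with the levels at
the split places for the enumerations which start with `w0c v`).  Here:

    upFactQCore_ofW514    : H1U.UpFactQWC F → UpFactQCore514 F
    upFactQCore_ofH1U514  : H1U.UpDatExistsQC F → H1U.CutOnUpQC F → H1U.FactIntUpQC F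
                              → UpFactQCore514 F

Proof.  At a place `v ∈ S` with two places over it take `w0c v := w 0` for THE enumeration
`(w, i)` of the hypothesis (`SplitClauseQ514`), elsewhere any place over `v`
(`H510.exists_placeOver_E510`).  An enumeration in the order of the orbit is determined by its
first place (`T5.PlaceRel s a b` is `b = σ(a)`, the map of ideals along a ring isomorphism is
injective: `enum_eq514`) and the identifications `ℚ_v ≃ F_{w j}` are determined by their values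
on `ℚ` (`eq_of_val_of_rat514`, the lemma of helper1 `H1G.eq_of_val_of_rat_H1G`): so the levels
agree for every enumeration which starts with `w0c v`, and the enumeration of the split value of
the `W`-form IS the enumeration of the hypothesis, for which the convolution identity holds.
-/

set_option autoImplicit false

open AutomorphicForm IsDedekindDomain NumberField MeasureTheory
open scoped ComplexConjugate

noncomputable section

namespace Fermat.Agent.LT.T7.FUQ514

open Fermat.Agent.LT.H556 Fermat.Agent.LT.H556.A0 Fermat.Agent.LT.T7 Fermat.Agent.LT.T7.H305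
open Fermat.Agent.LT.T7.MQ298 Fermat.Agent.LT.T7.H340

attribute [local instance] Fermat.Agent.LT.T5.instMeasurableSpaceG

/-! ## 1. Uniqueness of the enumeration and of the identifications -/

section Uniq

variable {K : Type} [Field K] [NumberField K]

/-- `T5.PlaceRel s a b` (`b = σ(a)`) determines `a`. -/
theorem placeRel_inj514 (s : T5.AdelicAut K) {a a' b : HeightOneSpectrum (𝓞 K)}
    (h : T5.PlaceRel s a b) (h' : T5.PlaceRel s a' b) : a = a' := by
  have h1 : Ideal.map (NumberField.RingOfIntegers.mapRingEquiv s.σ) a.asIdeal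
      = Ideal.map (NumberField.RingOfIntegers.mapRingEquiv s.σ) a'.asIdeal :=
    h.symm.trans h'
  have h2 := congrArg (Ideal.comap (NumberField.RingOfIntegers.mapRingEquiv s.σ)) h1
  rw [Ideal.comap_map_of_bijective _ (RingEquiv.bijective _),
    Ideal.comap_map_of_bijective _ (RingEquiv.bijective _)] at h2
  exact HeightOneSpectrum.ext h2

/-- An enumeration in the order of the orbit is determined by its first place. -/
theorem enum_eq514 (s : T5.AdelicAut K) {w w' : ℕ → HeightOneSpectrum (𝓞 K)}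
    (h0 : w 0 = w' 0) (h : ∀ j : ℕ, T5.PlaceRel s (w (j + 1)) (w j))
    (h' : ∀ j : ℕ, T5.PlaceRel s (w' (j + 1)) (w' j)) : w = w' := by
  funext j
  induction j with
  | zero => exact h0
  | succ j ih =>
    have hj := h j
    rw [ih] at hj
    exact placeRel_inj514 s hj (h' j)

open WithZeroTopology in
/-- Two ring homomorphisms `K_v → B` into a valued field which multiply the valuation by
positive powers and agree on `K` are equal (helper1, `H1G.eq_of_val_of_rat_H1G`; the proof is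
his). -/
theorem eq_of_val_of_rat514 (v : HeightOneSpectrum (𝓞 K)) {B : Type} [Field B]
    [Valued B (WithZero (Multiplicative ℤ))]
    (f g : v.adicCompletion K →+* B) (e e' : ℕ) (he : 0 < e) (he' : 0 < e')
    (hf : ∀ c, Valued.v (f c) = Valued.v c ^ e) (hg : ∀ c, Valued.v (g c) = Valued.v c ^ e')
    (hfg : ∀ y : K, f (algebraMap K (v.adicCompletion K) y)
      = g (algebraMap K (v.adicCompletion K) y)) (c : v.adicCompletion K) : f c = g c := by
  by_contra hne
  have hd : f c - g c ≠ 0 := sub_ne_zero.2 hne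
  set γ : WithZero (Multiplicative ℤ) := Valued.v (f c - g c) with hγ
  have hγ0 : γ ≠ 0 := (Valuation.ne_zero_iff _).2 hd
  have hcont : Continuous fun c' : v.adicCompletion K => Valued.v (c' - c) :=
    (Valued.continuous_valuation_of_surjective
      (HeightOneSpectrum.valuedAdicCompletion_surjective K v)).comp
      (continuous_id.sub continuous_const)
  have hopen : IsOpen {c' : v.adicCompletion K | Valued.v (c' - c) < min γ 1} := by
    exact (WithZeroTopology.isOpen_Iio (a := min γ 1)).preimage hcont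
  have hmem : c ∈ {c' : v.adicCompletion K | Valued.v (c' - c) < min γ 1} := by
    show Valued.v (c - c) < min γ 1
    rw [sub_self, map_zero]
    exact lt_min (zero_lt_iff.2 hγ0) zero_lt_one
  obtain ⟨_, hy1, ⟨y, rfl⟩⟩ := (v.denseRange_algebraMap K).inter_open_nonempty _ hopen ⟨c, hmem⟩
  have hy : Valued.v (algebraMap K (v.adicCompletion K) y - c) < min γ 1 := hy1
  set t : v.adicCompletion K := c - algebraMap K (v.adicCompletion K) y with ht
  have hvt : Valued.v t < min γ 1 := by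
    rw [ht, ← neg_sub, Valuation.map_neg]
    exact hy
  have hvt1 : Valued.v t ≤ 1 := (hvt.trans_le (min_le_right _ _)).le
  have hvtγ : Valued.v t < γ := hvt.trans_le (min_le_left _ _)
  have hdiff : f c - g c = f t - g t := by
    rw [ht, map_sub, map_sub, hfg y]
    ring
  have hpow : ∀ n : ℕ, 0 < n → Valued.v t ^ n ≤ Valued.v t := by
    intro n hn
    obtain ⟨m, rfl⟩ : ∃ m, n = m + 1 := ⟨n - 1, by omega⟩
    rw [pow_succ]
    calc Valued.v t ^ m * Valued.v t ≤ 1 * Valued.v t :=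
          mul_le_mul_left (pow_le_one' hvt1 m) _
      _ = Valued.v t := one_mul _
  have hle : γ ≤ Valued.v t := by
    rw [hγ, hdiff]
    refine (Valuation.map_sub _ _ _).trans (max_le ?_ ?_)
    · rw [hf]
      exact hpow e he
    · rw [hg]
      exact hpow e' he'
  exact absurd hvtγ (not_lt.2 hle)

end Uniq

/-! ## 2. The core form from the `W`-form -/

variable {F : Type} [Field F] [NumberField F]

/-- **THE CORE FORM OF THE NODE FROM THE `W`-FORM OF helper1.** -/
theorem upFactQCore_ofW514 (hW : H1U.UpFactQWC F) : UpFactQCore514 F := by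
  intro hT6 hIQ D hD hcyc hl ι hι μc hμc T₀ hT₀ n m hnm
  obtain ⟨cG', hcG', hW'⟩ := hW hT6 hIQ D hD hcyc hl ι hι μc hμc T₀ hT₀ n m hnm
  refine ⟨cG', hcG', ?_⟩
  intro S S' hS hSS' φ₀ Φ f₀ hup hΦ hsp δ γ hγ hN hgood hio μT μT' hμT hμT' hlink L cT hL hcT
    hTc
  classical
  -- the first places: at a split place of `S` the first place of the enumeration of the
  -- hypothesis, elsewhere any place over `v`
  have key : ∀ v : HeightOneSpectrum (𝓞 ℚ), ∃ w0 : HeightOneSpectrum (𝓞 F),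
      PlaceOver ℚ F v w0 ∧
      ((v ∈ S ∧ ∃ w₁ w₂ : HeightOneSpectrum (𝓞 F),
          PlaceOver ℚ F v w₁ ∧ PlaceOver ℚ F v w₂ ∧ w₁ ≠ w₂) →
        ∃ (w : ℕ → HeightOneSpectrum (𝓞 F))
          (i : ∀ j : ℕ, v.adicCompletion ℚ ≃+* (w j).adicCompletion F),
          w 0 = w0 ∧
          (∀ j : ℕ, T5.PlaceRel D.s (w (j + 1)) (w j)) ∧
          (∀ (j : ℕ) (x : ℚ), i j (algebraMap ℚ (v.adicCompletion ℚ) x)
            = algebraMap F ((w j).adicCompletion F) (algebraMap ℚ F x)) ∧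
          (∀ (j : ℕ) (x : v.adicCompletion ℚ), Valued.v (i j x) = Valued.v x) ∧
          (∀ j : ℕ, n (w j) = m v) ∧
            T6.IsConvProd (T6.InU (m v)) D.l
              (fun j g => φ₀ (w j)
                (Matrix.GeneralLinearGroup.map ((i j : v.adicCompletion ℚ ≃+* _) :
                  v.adicCompletion ℚ →+* (w j).adicCompletion F) g))
              (f₀ v)) := by
    intro v
    by_cases hP : v ∈ S ∧ ∃ w₁ w₂ : HeightOneSpectrum (𝓞 F),
        PlaceOver ℚ F v w₁ ∧ PlaceOver ℚ F v w₂ ∧ w₁ ≠ w₂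
    · obtain ⟨w, i, g1, g2, _, g4, g5, g6, g7⟩ := hsp v hP.1 hP.2
      exact ⟨w 0, g1 0, fun _ => ⟨w, i, rfl, g2, g4, g5, g6, g7⟩⟩
    · obtain ⟨w0, hw0⟩ := Fermat.Agent.LT.T7.H510.exists_placeOver_E510 (K' := F) v
      exact ⟨w0, hw0, fun h => absurd h hP⟩
  choose w0c hw0c hw0s using key
  have h12 : (1 : ℕ) < D.l := by rw [hl]; norm_num
  have hlev : H1U.LevelsAtSplitQ D n m S w0c := by
    intro v hv w i hw0 h1 h2 h3 _ _ j
    obtain ⟨wh, ih, gh0, g2, _, _, g6, _⟩ :=
      hw0s v ⟨hv, w 1, w 0, h1 1, h1 0, h3 1 one_pos h12⟩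
    have hw : w = wh := enum_eq514 D.s (hw0.trans gh0.symm) h2 g2
    rw [hw]
    exact g6 j
  obtain ⟨U, J, Jc, hU0, hU, hcut, hval⟩ := hW' S S' hS hSS' φ₀ Φ hup hΦ w0c
    (fun v _ => hw0c v) hlev δ γ hγ hN hgood hio μT μT' hμT hμT' hlink L cT hL hcT hTc
  refine ⟨H1U.prodCutUpQ S' S cT U, J, Jc, hcut, hval, ?_, ?_⟩
  · intro v hv
    rcases hU.1 v hv with h | h
    · exact Or.inl (H1U.isInertVal_of_at h)
    · right
      obtain ⟨hl0, w, i, hw0, hlevw, _, h1, h2, h3, h4, h5, hJ⟩ := h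
      obtain ⟨wh, ih, gh0, g2, g4, g5, _, g7⟩ :=
        hw0s v ⟨hv, w 1, w 0, h1 1, h1 0, h3 1 one_pos h12⟩
      have hU0v : U.w0 v = w0c v := congrFun hU0 v
      obtain rfl : w = wh := enum_eq514 D.s (hw0.trans (hU0v.trans gh0.symm)) h2 g2
      have hi : i = ih := by
        funext j
        apply RingEquiv.ext
        intro x
        exact eq_of_val_of_rat514 v ((i j : v.adicCompletion ℚ ≃+* _) :
            v.adicCompletion ℚ →+* (w j).adicCompletion F)
          ((ih j : v.adicCompletion ℚ ≃+* _) :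
            v.adicCompletion ℚ →+* (w j).adicCompletion F) 1 1 one_pos one_pos
          (fun c => by rw [pow_one]; exact h5 j c) (fun c => by rw [pow_one]; exact g5 j c)
          (fun y => (h4 j y).trans (g4 j y).symm) x
      subst hi
      exact ⟨hl0, w, i, h1, h2, h3, h4, h5, hlevw, g7, hJ⟩
  · intro j
    exact H1U.isArchVal_of_at hU.2 j

/-- **THE CORE FORM OF THE NODE FROM THE THREE PARTS OF THE CUT OF helper1.** -/
theorem upFactQCore_ofH1U514 (hE : H1U.UpDatExistsQC F) (hA : H1U.CutOnUpQC F)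
    (hB : H1U.FactIntUpQC F) : UpFactQCore514 F :=
  upFactQCore_ofW514 (H1U.upFactQW_of F hE hA hB)

end Fermat.Agent.LT.T7.FUQ514

end

end
-- ===== PACK-END LT/T7/H514/UpFactQCoreOfW.lean

-- ===== PACK-BEGIN LT/T7/H514/FactUpQClosed.lean
section






/-!
# Row LT, tower T7, node Q2.7.13 v2 `MQ298.FactUpQC298b` (registry row 2676, helper514):
# INTEGRATION of the closed leaves

OFF-MAIN.  No hole, nothing assumed.  ADDITIVE (new names only, suffix `514`).

CLOSED leaves: `LocEqInertQL514` (helper757, `H757.locEqInertQL757`), `LocEqArchQL514`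
(`locEqArchQL514`, proof of helper659).  The node upstairs `UpFactQCore514` is reduced to the three
parts of the cut of helper1 (`upFactQCore_ofH1U514`).  OPEN: the three parts of helper1
(`H1U.UpDatExistsQC`, `H1U.CutOnUpQC`, `H1U.FactIntUpQC`, registry rows 2785 - 2787) and
`LocEqSplitQL514` (registry row 2710).

    factUpQC298b_of_open514 : H1U.UpDatExistsQC F → H1U.CutOnUpQC F → H1U.FactIntUpQC F →
        LocEqSplitQL514 F → MQ298.FactUpQC298b F                                  (VERBATIM)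
    factUpQCore_of_open514  : the same four → FactUpQCore514 F
-/

set_option autoImplicit false

open AutomorphicForm IsDedekindDomain NumberField MeasureTheory
open scoped ComplexConjugate

noncomputable section

namespace Fermat.Agent.LT.T7.FUQ514

open Fermat.Agent.LT.H556 Fermat.Agent.LT.H556.A0 Fermat.Agent.LT.T7 Fermat.Agent.LT.T7.H305
open Fermat.Agent.LT.T7.MQ298 Fermat.Agent.LT.T7.H340

attribute [local instance] Fermat.Agent.LT.T5.instMeasurableSpaceG

variable {F : Type} [Field F] [NumberField F]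

/-- **THE CORE FORM FROM THE FOUR OPEN LEAVES.** -/
theorem factUpQCore_of_open514 (hE : H1U.UpDatExistsQC F) (hA : H1U.CutOnUpQC F)
    (hB : H1U.FactIntUpQC F) (hS : LocEqSplitQL514 F) : FactUpQCore514 F :=
  factUpQCore_of514 (upFactQCore_ofH1U514 hE hA hB) (H757.locEqInertQL757 F) hS
    (locEqArchQL514 F)

/-- **THE NODE OF helper298, v2, FROM THE FOUR OPEN LEAVES.** -/
theorem factUpQC298b_of_open514 (hE : H1U.UpDatExistsQC F) (hA : H1U.CutOnUpQC F)
    (hB : H1U.FactIntUpQC F) (hS : LocEqSplitQL514 F) : FactUpQC298b F :=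
  factUpQC298b_of_core514 (factUpQCore_of_open514 hE hA hB hS)

/-- VERBATIM check. -/
example : Fermat.Agent.LT.T7.H1U.UpDatExistsQC F → Fermat.Agent.LT.T7.H1U.CutOnUpQC F →
    Fermat.Agent.LT.T7.H1U.FactIntUpQC F → LocEqSplitQL514 F →
    Fermat.Agent.LT.T7.MQ298.FactUpQC298b F := factUpQC298b_of_open514

end Fermat.Agent.LT.T7.FUQ514

end

end
-- ===== PACK-END LT/T7/H514/FactUpQClosed.lean

-- ===== PACK-BEGIN LT/T7/H42/OverSetQ.lean
section


/-!
# Row LT, tower T7, leaf T7.L2Q.1.H1.5.8.1.c.0 `H1U.OverSetQC` (cut of helper1): PROVED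
# (helper42, owner of registry row 2857)

OFF-MAIN.  Complete proof, nothing assumed.  New names only (suffix `42`).

    overSetQC42 (F) : H1U.OverSetQC F          (VERBATIM, unconditional, every number field)

Proof.  `finite_placeOver42` (any extension `K'/K` of number fields): a place `w` over `v`
contains the image `y` of a non-zero `x ∈ v`, so `w` divides the non-zero ideal `(y)`
(`Ideal.finite_factors`).  `T'` = the union of the fibres.  No definition of the spec is
unfolded by `unfold` / `simp` / `rw`.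
-/

set_option autoImplicit false

open IsDedekindDomain NumberField

namespace Fermat.Agent.LT.T7.H42

open Fermat.Agent.LT.T7 Fermat.Agent.LT.T7.H305

/-- The places of `K'` over a place of `K` are finite in number. -/
theorem finite_placeOver42 (K K' : Type) [Field K] [NumberField K] [Field K'] [NumberField K']
    [Algebra K K'] (v : HeightOneSpectrum (𝓞 K)) :
    {w : HeightOneSpectrum (𝓞 K') | PlaceOver K K' v w}.Finite := by
  obtain ⟨x, hxv, hx0⟩ : ∃ x ∈ v.asIdeal, x ≠ 0 :=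
    Submodule.exists_mem_ne_zero_of_ne_bot v.ne_bot
  set y : 𝓞 K' := algebraMap (𝓞 K) (𝓞 K') x with hy
  have hyc : ((y : 𝓞 K') : K') = algebraMap K K' (x : K) := rfl
  have hy0 : y ≠ 0 := by
    intro h
    apply hx0
    have h1 : algebraMap K K' (x : K) = 0 := by
      rw [← hyc, h]
      exact map_zero _
    have h2 : (x : K) = 0 := (map_eq_zero_iff _ (algebraMap K K').injective).1 h1
    exact (map_eq_zero_iff _ (RingOfIntegers.coe_injective)).1 h2
  have hI : Ideal.span ({y} : Set (𝓞 K')) ≠ 0 := by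
    intro h
    exact hy0 (Ideal.span_singleton_eq_bot.1 h)
  refine (Ideal.finite_factors hI).subset ?_
  intro w hw
  have hyw : y ∈ w.asIdeal := (hw x y hyc).1 hxv
  exact Ideal.dvd_span_singleton.2 hyw

/-- The set of ALL places over a finite set of places (any extension of number fields). -/
theorem exists_overSet42 (K K' : Type) [Field K] [NumberField K] [Field K'] [NumberField K']
    [Algebra K K'] (T : Finset (HeightOneSpectrum (𝓞 K))) :
    ∃ T' : Finset (HeightOneSpectrum (𝓞 K')), IsOver305 T T' := by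
  classical
  refine ⟨T.biUnion fun v => (finite_placeOver42 K K' v).toFinset, fun w => ?_⟩
  rw [Finset.mem_biUnion]
  constructor
  · rintro ⟨v, hv, hw⟩
    exact ⟨v, hv, (Set.Finite.mem_toFinset _).1 hw⟩
  · rintro ⟨v, hv, hw⟩
    exact ⟨v, hv, (Set.Finite.mem_toFinset _).2 hw⟩

/-- **LEAF B.0 = OVER-SET, VERBATIM.** -/
theorem overSetQC42 (F : Type) [Field F] [NumberField F] : H1U.OverSetQC F :=
  fun T => exists_overSet42 ℚ F T

end Fermat.Agent.LT.T7.H42

end
-- ===== PACK-END LT/T7/H42/OverSetQ.lean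

-- ===== PACK-BEGIN LT/T7/H355/PtFactUpQ.lean
section




/-!
# Row LT, tower T7, leaf T7.L2Q.1.H1.5.8.1.c.1 `H1U.PtFactUpQC` (helper355, registry row 2858)

OFF-MAIN.  `ptFactUpQC355 F : H1U.PtFactUpQC F`, VERBATIM, unconditional.

Spec: `T7/H1U/FactIntUpQSpec.lean` (helper1@68f16f671, sha256 921e1b93).

Proof.  `y⁻¹ δ σ(y) r'^j ∈ Out_{S'}` (`H852.outT_term852`, helper852: `S'` is `σ`-stable), so the
pure tensor is the product of its components; the ray is trivial at the finite places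
(`H454.PtFact.finGL_ray_zpow454`) and central at infinity (`H852.infGL_term852`); `F` has ONE infinite
place `w`, and `σ_𝔸` acts at `w` by the complex conjugation: `H558.sigmaLocC558` (helper558)
gives the identity or the conjugation, and the identity is excluded by `σ ≠ 1`
(`IsCyclicOfDegree.faithful` for `l = 2`; the embedding at `w` is injective).
-/

set_option autoImplicit false

open AutomorphicForm IsDedekindDomain NumberField MeasureTheory
open scoped ComplexConjugate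

noncomputable section

namespace Fermat.Agent.LT.T7.H355

open Fermat.Agent.LT.H556 Fermat.Agent.LT.H556.A0 Fermat.Agent.LT.T7 Fermat.Agent.LT.T7.H305

attribute [local instance] Fermat.Agent.LT.T5.instMeasurableSpaceG

section OneField

variable {K : Type} [Field K] [NumberField K]

/-- The component at `w` of a principal adele. -/
theorem infHom_algebraMap355 (w : InfinitePlace K) (x : K) :
    T5.infHom w (algebraMap K (Adl K) x) = w.embedding x :=
  H558.ext_coe558 w x

/-- If there is ONE infinite place and `σ ≠ 1`, the adelic automorphism is the complex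
conjugation at the infinite place. -/
theorem infHom_sigma_conj355 (hsub : Subsingleton (InfinitePlace K)) (s : T5.AdelicAut K)
    (hne : ∃ x : K, s.σ x ≠ x) (w : InfinitePlace K) (a : Adl K) :
    T5.infHom w (s.σA a) = conj (T5.infHom w a) := by
  have hw : w.comap (s.σ : K →+* K) = w := Subsingleton.elim _ _
  rcases (H558.sigmaLocC558 (K := K) s).2 w with h | h
  · exfalso
    obtain ⟨x, hx⟩ := hne
    apply hx
    have h1 := h (algebraMap K (Adl K) x)
    rw [hw, s.compat, infHom_algebraMap355, infHom_algebraMap355] at h1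
    exact w.embedding.injective h1
  · rw [h a, hw]

/-- The component of `σ(y)` at the infinite place. -/
theorem infGL_onG_conj355 (hsub : Subsingleton (InfinitePlace K)) (s : T5.AdelicAut K)
    (hne : ∃ x : K, s.σ x ≠ x) (w : InfinitePlace K) (y : G K) :
    infGL305 w (s.onG y) = T6.glAut (starRingAut : ℂ ≃+* ℂ) (infGL305 w y) := by
  apply Units.ext
  refine Matrix.ext fun i k => ?_
  exact infHom_sigma_conj355 hsub s hne w ((y : Matrix (Fin 2) (Fin 2) (Adl K)) i k)

end OneField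

section Leaf

variable (F : Type) [Field F] [NumberField F]

/-- **LEAF B.1 = PT-FACT-UP over `ℚ`**, VERBATIM, unconditional. -/
theorem ptFactUpQC355 : H1U.PtFactUpQC F := by
  intro hIQ D hD _ hl S S' hS φ₀ Φ δ hδ w y j hy
  have hout := H852.outT_term852 hD hS hδ hy j
  have hsub : Subsingleton (InfinitePlace F) :=
    (Nat.card_eq_one_iff_unique.1 hIQ.1).1
  have hne : ∃ x : F, D.s.σ x ≠ x := by
    obtain ⟨x, hx⟩ := hD.cyc.faithful 1 Nat.one_pos (by rw [hl]; norm_num)
    exact ⟨x, by simpa using hx⟩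
  have e : pure305 S' φ₀ Φ (y⁻¹ * T5.ratG δ * D.s.onG y * D.R'.r ^ j)
      = (∏ w' ∈ S', φ₀ w' (finGL305 w' (y⁻¹ * T5.ratG δ * D.s.onG y * D.R'.r ^ j))) *
        ∏ w'' : InfinitePlace F,
          Φ w'' (infGL305 w'' (y⁻¹ * T5.ratG δ * D.s.onG y * D.R'.r ^ j)) :=
    if_pos hout
  rw [e]
  congr 1
  · refine Finset.prod_congr rfl fun w' _ => ?_
    have e1 : finGL305 w' (y⁻¹ * T5.ratG δ * D.s.onG y * D.R'.r ^ j)
        = finGL305 w' (y⁻¹ * T5.ratG δ * D.s.onG y) := by
      rw [map_mul (finGL305 w') _ (D.R'.r ^ j), H454.PtFact.finGL_ray_zpow454 hD.frame'.ray w' j,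
        mul_one]
    rw [e1]
  · rw [Fintype.prod_subsingleton _ w, H852.infGL_term852 hD w δ y j,
      infGL_onG_conj355 hsub D.s hne w y]

end Leaf

end Fermat.Agent.LT.T7.H355

end

end
-- ===== PACK-END LT/T7/H355/PtFactUpQ.lean

-- ===== PACK-BEGIN LT/T7/H750/ArchIntblUpQ.lean
section




/-!
# Row LT, tower T7, F/Q mirror, node U.3 `H1U.FactIntUpQC` (registry row 2787, helper1),
# LEAF B.3 `H1U.ArchIntblUpQC` (helper750), OFF-MAIN

`archIntblUpQC750 F : H1U.ArchIntblUpQC F` VERBATIM vs `T7/H1U/FactIntUpQSpec.lean` (helper1),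
UNCONDITIONAL (the hypothesis `T6.T6Out` of the leaf is not used).

Proof.  `F` has ONE infinite place `w`, complex, and `σ ≠ 1` (`l = 2`), so `w ∘ σ = conj ∘ w`.
The component at `w` of the ray generator upstairs is the positive real scalar `t'`,
`t'^4 = 2`; the real component of the ray generator downstairs is the positive scalar `t`,
`t^2 = 2`; hence `t'^2 = t`.  For `δ₀ = (δ r'^j)_w = δ_w t'^j`:

    N δ₀ = δ₀ conj(δ₀) = (δ σ(δ))_w t'^{2j} = (γ_∞)_ℂ t^j = (γ_∞ t^j)_ℂ,

`γ_∞ t^j ∈ GL₂(ℝ)` regular, `t^j` central.  The cut-off function `β'` is normalised against the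
Haar measure `L.μtr` of the centraliser of `γ_∞` (`IsArchAtQ`).  So
`twArchIntegrable_central750` (`TwArchInt.lean`: the twisted orbit of `δ₀` is closed in the form
of a compact section modulo the real centraliser, Tonelli) applies.
-/

set_option autoImplicit false

open AutomorphicForm IsDedekindDomain NumberField MeasureTheory
open scoped ComplexConjugate

noncomputable section

namespace Fermat.Agent.LT.T7.H750

open Fermat.Agent.LT Fermat.Agent.LT.H556 Fermat.Agent.LT.H556.A0 Fermat.Agent.LT.T7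
open Fermat.Agent.LT.T7.H305 Fermat.Agent.LT.T7.MQ298 Fermat.Agent.LT.T7.H340
open Fermat.Agent.LT.T7.FUQ514
open Matrix.GeneralLinearGroup

/-- The image of a scalar matrix under a ring homomorphism. -/
theorem map_scalarU750 {A B : Type} [CommRing A] [CommRing B] (f : A →+* B) (u : Aˣ) :
    Matrix.GeneralLinearGroup.map f (scalar (Fin 2) u) = scalar (Fin 2) (Units.map f u) := by
  apply Matrix.GeneralLinearGroup.ext
  intro i j
  rw [Matrix.GeneralLinearGroup.map_apply, coe_scalar, coe_scalar]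
  by_cases hij : i = j
  · subst hij
    simp only [Matrix.scalar_apply, Matrix.diagonal_apply_eq, Units.coe_map, MonoidHom.coe_coe]
  · simp only [Matrix.scalar_apply, Matrix.diagonal_apply_ne _ hij, map_zero]

/-- Composition of the maps induced on `GL₂`. -/
theorem map_mapU750 {A B C : Type} [CommRing A] [CommRing B] [CommRing C] (f : A →+* B)
    (g : B →+* C) (x : GL (Fin 2) A) :
    Matrix.GeneralLinearGroup.map g (Matrix.GeneralLinearGroup.map f x)
      = Matrix.GeneralLinearGroup.map (g.comp f) x := by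
  apply Matrix.GeneralLinearGroup.ext
  intro i j
  rfl

/-- The discriminant commutes with ring homomorphisms. -/
theorem disc_mapU750 {A B : Type} [CommRing A] [CommRing B] (f : A →+* B) (γ : GL (Fin 2) A) :
    T6.disc (Matrix.GeneralLinearGroup.map f γ) = f (T6.disc γ) := by
  show ((Matrix.GeneralLinearGroup.map f γ : GL (Fin 2) B) : Matrix (Fin 2) (Fin 2) B).trace ^ 2
      - 4 * ((Matrix.GeneralLinearGroup.map f γ : GL (Fin 2) B) : Matrix (Fin 2) (Fin 2) B).det
    = f ((γ : Matrix (Fin 2) (Fin 2) A).trace ^ 2 - 4 * (γ : Matrix (Fin 2) (Fin 2) A).det)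
  have he : ∀ i j : Fin 2,
      ((Matrix.GeneralLinearGroup.map f γ : GL (Fin 2) B) : Matrix (Fin 2) (Fin 2) B) i j
        = f ((γ : Matrix (Fin 2) (Fin 2) A) i j) := fun i j => rfl
  rw [Matrix.trace_fin_two, Matrix.det_fin_two, Matrix.trace_fin_two, Matrix.det_fin_two]
  simp only [he, map_sub, map_mul, map_add, map_pow, map_ofNat]

theorem isReg_mapU750 {A B : Type} [CommRing A] [CommRing B] (f : A →+* B) (γ : GL (Fin 2) A)
    (h : T6.IsReg γ) : T6.IsReg (Matrix.GeneralLinearGroup.map f γ) := by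
  show IsUnit (T6.disc (Matrix.GeneralLinearGroup.map f γ))
  rw [disc_mapU750]
  exact IsUnit.map f h

/-- Regularity is stable under multiplication by a scalar. -/
theorem isReg_mul_scalarU750 (γ : GL (Fin 2) ℝ) (u : ℝˣ) (h : T6.IsReg γ) :
    T6.IsReg (γ * scalar (Fin 2) u) := by
  have hm : ((γ * scalar (Fin 2) u : GL (Fin 2) ℝ) : Matrix (Fin 2) (Fin 2) ℝ)
      = (u : ℝ) • (γ : Matrix (Fin 2) (Fin 2) ℝ) := by
    rw [Units.val_mul, coe_scalar, Matrix.scalar_apply, ← Matrix.smul_eq_mul_diagonal]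
  have hd : T6.disc (γ * scalar (Fin 2) u) = (u : ℝ) ^ 2 * T6.disc γ := by
    show ((γ * scalar (Fin 2) u : GL (Fin 2) ℝ) : Matrix (Fin 2) (Fin 2) ℝ).trace ^ 2
        - 4 * ((γ * scalar (Fin 2) u : GL (Fin 2) ℝ) : Matrix (Fin 2) (Fin 2) ℝ).det
      = (u : ℝ) ^ 2 * ((γ : Matrix (Fin 2) (Fin 2) ℝ).trace ^ 2
        - 4 * (γ : Matrix (Fin 2) (Fin 2) ℝ).det)
    rw [hm, Matrix.trace_smul, Matrix.det_smul]
    simp only [Fintype.card_fin, smul_eq_mul]
    ring
  show IsUnit (T6.disc (γ * scalar (Fin 2) u))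
  rw [hd]
  exact (u.isUnit.pow 2).mul h

/-- The twisted norm of degree two. -/
theorem twNorm_twoU750 (s : ℂ ≃+* ℂ) (δ : GL (Fin 2) ℂ) :
    T6.twNorm s 2 δ = δ * T6.glAut s (δ * T6.glAut s 1) := rfl

/-- The real component of the ray generator of `ℚ` is the positive scalar `t`, `t ^ 2 = 2`. -/
theorem ray_scalarQU750 (R : Frame5 ℚ) (hR : IsFrame5 R) :
    ∃ u : ℝˣ, 0 < (u : ℝ) ∧ (u : ℝ) ^ 2 = 2 ∧ reGLQ298 R.r = scalar (Fin 2) u := by
  obtain ⟨_, t, ht0, ht2, hinf⟩ := hR.ray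
  refine ⟨Units.mk0 t ht0.ne', ht0, ?_, ?_⟩
  · have : Module.finrank ℚ ℚ = 1 := Module.finrank_self ℚ
    rw [this] at ht2
    simpa using ht2
  apply Matrix.GeneralLinearGroup.ext
  intro i j
  have h1 : ((reGLQ298 R.r : GL (Fin 2) ℝ) i j : ℝ)
      = InfinitePlace.Completion.extensionEmbeddingOfIsReal Rat.isReal_infinitePlace
          (((R.r : Matrix (Fin 2) (Fin 2) (Adl ℚ)) i j).1 Rat.infinitePlace) := rfl
  have h2 := congrFun (congrFun (hinf Rat.infinitePlace) i) j
  have h3 : infComp Rat.infinitePlace R.r i j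
      = InfinitePlace.Completion.extensionEmbedding Rat.infinitePlace
          (((R.r : Matrix (Fin 2) (Fin 2) (Adl ℚ)) i j).1 Rat.infinitePlace) := rfl
  rw [h3, ← InfinitePlace.Completion.extensionEmbeddingOfIsReal_apply
    Rat.isReal_infinitePlace, ← h1] at h2
  rw [coe_scalar]
  by_cases hij : i = j
  · subst hij
    rw [Matrix.diagonal_apply_eq] at h2
    simp only [Matrix.scalar_apply, Matrix.diagonal_apply_eq, Units.val_mk0]
    exact_mod_cast h2
  · rw [Matrix.diagonal_apply_ne _ hij] at h2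
    simp only [Matrix.scalar_apply, Matrix.diagonal_apply_ne _ hij]
    exact_mod_cast h2

/-- The component at `w` of the ray generator of `F` is the positive real scalar `t'`,
`t' ^ (2 [F : ℚ]) = 2`. -/
theorem ray_scalarFU750 {F : Type} [Field F] [NumberField F] (R : Frame5 F) (hR : IsFrame5 R)
    (w : InfinitePlace F) :
    ∃ u : ℝˣ, 0 < (u : ℝ) ∧ (u : ℝ) ^ (2 * Module.finrank ℚ F) = 2 ∧
      infGL305 w R.r = scalar (Fin 2) (Units.map ((algebraMap ℝ ℂ : ℝ →+* ℂ) : ℝ →* ℂ) u) := by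
  obtain ⟨_, t, ht0, ht2, hinf⟩ := hR.ray
  refine ⟨Units.mk0 t ht0.ne', ht0, ht2, ?_⟩
  apply Matrix.GeneralLinearGroup.ext
  intro i j
  have h2 := congrFun (congrFun (hinf w) i) j
  have h3 : infComp w R.r i j = ((infGL305 w R.r : GL (Fin 2) ℂ) i j : ℂ) := rfl
  rw [h3] at h2
  rw [h2, coe_scalar]
  by_cases hij : i = j
  · subst hij
    simp only [Matrix.scalar_apply, Matrix.diagonal_apply_eq, Units.coe_map, Units.val_mk0,
      MonoidHom.coe_coe, Complex.coe_algebraMap]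
  · simp only [Matrix.scalar_apply, Matrix.diagonal_apply_ne _ hij]

/-- The component at `w` of a rational element is its image under the embedding. -/
theorem infGL_ratGU750 {F : Type} [Field F] [NumberField F] (w : InfinitePlace F)
    (δ : GL (Fin 2) F) :
    infGL305 w (T5.ratG δ) = Matrix.GeneralLinearGroup.map w.embedding δ := by
  apply Matrix.GeneralLinearGroup.ext
  intro i j
  show InfinitePlace.Completion.extensionEmbedding w
      (((δ : Matrix (Fin 2) (Fin 2) F) i j : F) : w.Completion) = w.embedding _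
  exact InfinitePlace.Completion.extensionEmbedding_coe w _

/-- ONE infinite place, complex, `σ ≠ 1`: `w ∘ σ = conj ∘ w`. -/
theorem embedding_comp_autU750 {F : Type} [Field F] [NumberField F]
    (h1 : Nat.card (InfinitePlace F) = 1) (s : F ≃+* F) (hs : ∃ x : F, s x ≠ x)
    (w : InfinitePlace F) (x : F) :
    w.embedding (s x) = conj (w.embedding x) := by
  have : Subsingleton (InfinitePlace F) := (Nat.card_eq_one_iff_unique.mp h1).1
  have hmk : InfinitePlace.mk w.embedding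
      = InfinitePlace.mk (w.embedding.comp (s : F →+* F)) := Subsingleton.elim _ _
  rcases InfinitePlace.mk_eq_iff.mp hmk with h | h
  · exfalso
    obtain ⟨y, hy⟩ := hs
    apply hy
    have := congrArg (fun f : F →+* ℂ => f y) h
    exact (w.embedding.injective this).symm
  · have := congrArg (fun f : F →+* ℂ => f x) h
    simp only [ComplexEmbedding.conjugate_coe_eq] at this
    exact this.symm

/-- **THE NORM IDENTITY AT THE INFINITE PLACE**: `N (δ r'^j)_w = (γ_∞ t^j)_ℂ`, `t^j` a scalar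
matrix of `GL₂(ℝ)`. -/
theorem twNorm_rayU750 (F : Type) [Field F] [NumberField F] (hIQ : IsImagQuad F)
    (D : CompData ℚ F) (hD : IsCompData D) (hcyc : IsCycExt ℚ F D.l) (hl2 : D.l = 2)
    (δ : GL (Fin 2) F) (γ : GL (Fin 2) ℚ)
    (hnorm : D.s.normUpTo D.l δ = Matrix.GeneralLinearGroup.map (algebraMap ℚ F) γ)
    (w : InfinitePlace F) :
    ∃ u : ℝˣ, ∀ j : ℤ,
      T6.twNorm (starRingAut : ℂ ≃+* ℂ) 2 (infGL305 w (T5.ratG δ * D.R'.r ^ j))
        = Matrix.GeneralLinearGroup.map (algebraMap ℝ ℂ)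
            (reGLQ298 (T5.ratG γ) * scalar (Fin 2) (u ^ j)) := by
  obtain ⟨u, hu, hu2, _hρ⟩ := ray_scalarQU750 D.R hD.frame
  obtain ⟨u', hu', hu'4, hρ'⟩ := ray_scalarFU750 D.R' hD.frame' w
  refine ⟨u, fun j => ?_⟩
  have hdeg : Module.finrank ℚ F = 2 := by rw [hcyc.degree, hl2]
  have huu : u' ^ 2 = u := by
    apply Units.ext
    rw [Units.val_pow_eq_pow_val]
    rw [hdeg] at hu'4
    have h4 : ((u' : ℝ) ^ 2) ^ 2 = (u : ℝ) ^ 2 := by
      rw [hu2, ← pow_mul]
      exact hu'4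
    exact (pow_left_inj₀ (by positivity) hu.le two_ne_zero).mp h4
  have huj : u' ^ j * u' ^ j = u ^ j := by
    rw [← mul_zpow, ← pow_two, huu]
  set Z : GL (Fin 2) ℂ :=
    scalar (Fin 2) (Units.map ((algebraMap ℝ ℂ : ℝ →+* ℂ) : ℝ →* ℂ) (u' ^ j)) with hZ
  have hδ' : infGL305 w (T5.ratG δ * D.R'.r ^ j)
      = Matrix.GeneralLinearGroup.map w.embedding δ * Z := by
    rw [map_mul, map_zpow, hρ', infGL_ratGU750, ← map_zpow, ← map_zpow]
  have hZc : ∀ x : GL (Fin 2) ℂ, Z * x = x * Z := fun x => scalar_commute _ x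
  have hsZ : T6.glAut (starRingAut : ℂ ≃+* ℂ) Z = Z := by
    show Matrix.GeneralLinearGroup.map ((starRingAut : ℂ ≃+* ℂ) : ℂ →+* ℂ) (scalar (Fin 2) _)
      = scalar (Fin 2) _
    rw [map_scalarU750]
    congr 1
    apply Units.ext
    show (starRingAut : ℂ ≃+* ℂ) (algebraMap ℝ ℂ ((u' ^ j : ℝˣ) : ℝ)) = _
    exact Complex.conj_ofReal _
  have hZZ : Z * Z = Matrix.GeneralLinearGroup.map (algebraMap ℝ ℂ) (scalar (Fin 2) (u ^ j)) := by
    rw [hZ, ← map_mul, ← map_mul, huj, map_scalarU750]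
  have hsig : ∃ x : F, D.s.σ x ≠ x := by
    obtain ⟨x, hx⟩ := hD.cyc.faithful 1 one_pos (by rw [hl2]; norm_num)
    exact ⟨x, by simpa using hx⟩
  have hsA : T6.glAut (starRingAut : ℂ ≃+* ℂ) (Matrix.GeneralLinearGroup.map w.embedding δ)
      = Matrix.GeneralLinearGroup.map w.embedding (D.s.onRat δ) := by
    apply Matrix.GeneralLinearGroup.ext
    intro a b
    show (starRingAut : ℂ ≃+* ℂ) (w.embedding ((δ : Matrix (Fin 2) (Fin 2) F) a b))
      = w.embedding (D.s.σ ((δ : Matrix (Fin 2) (Fin 2) F) a b))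
    exact (embedding_comp_autU750 hIQ.1 D.s.σ hsig w _).symm
  have hN2 : D.s.normUpTo 2 δ = δ * D.s.onRat δ := by
    show δ * D.s.onRat (δ * D.s.onRat 1) = δ * D.s.onRat δ
    rw [map_one, mul_one]
  have hAA : Matrix.GeneralLinearGroup.map w.embedding δ
        * Matrix.GeneralLinearGroup.map w.embedding (D.s.onRat δ)
      = Matrix.GeneralLinearGroup.map (algebraMap ℝ ℂ) (reGLQ298 (T5.ratG γ)) := by
    have hnorm2 : D.s.normUpTo 2 δ = Matrix.GeneralLinearGroup.map (algebraMap ℚ F) γ := by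
      have h := hnorm
      rw [hl2] at h
      exact h
    rw [← map_mul, ← hN2, hnorm2, map_mapU750]
    show _ = Matrix.GeneralLinearGroup.map (algebraMap ℝ ℂ)
      (Matrix.GeneralLinearGroup.map reHomQ298
        (Matrix.GeneralLinearGroup.map (algebraMap ℚ (Adl ℚ)) γ))
    rw [map_mapU750, map_mapU750]
    exact congrArg (fun f : ℚ →+* ℂ => Matrix.GeneralLinearGroup.map f γ) (RingHom.ext_rat _ _)
  rw [hδ', twNorm_twoU750, map_one, mul_one, map_mul, hsZ, hsA, map_mul, ← hAA, ← hZZ]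
  rw [mul_assoc, ← mul_assoc Z, hZc, mul_assoc, ← mul_assoc]

/-- **LEAF B.3 = ARCH-INTBL-UP (twisted)**, verbatim. -/
theorem archIntblUpQC750 (F : Type) [Field F] [NumberField F] : H1U.ArchIntblUpQC F := by
  intro _hT6 hIQ D hD hcyc hl2 μc hμc m Φ hΦ δ γ hell hnorm L hL w β' Jc hA j
  obtain ⟨hβ'c, hβ'n, hβ'int, _hJ⟩ := hA
  obtain ⟨u, hN⟩ := twNorm_rayU750 F hIQ D hD hcyc hl2 δ γ hnorm w
  have hreg0 : T6.IsReg (reGLQ298 (T5.ratG γ)) :=
    isReg_mapU750 reHomQ298 _ (isReg_mapU750 (algebraMap ℚ (Adl ℚ)) γ hell.1)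
  have hreg : T6.IsReg (reGLQ298 (T5.ratG γ) * scalar (Fin 2) (u ^ j)) :=
    isReg_mul_scalarU750 _ _ hreg0
  exact twArchIntegrable_central750 (reGLQ298 (T5.ratG γ)) (scalar (Fin 2) (u ^ j))
    (fun x => ((scalar_commute _ x).symm : x * scalar (Fin 2) (u ^ j) = _)) hreg μc hμc
    L.μtr hL.torr _ (hN j) β' hβ'c hβ'n hβ'int (Φ w) (hΦ w).1 (hΦ w).2

end Fermat.Agent.LT.T7.H750

end

end
-- ===== PACK-END LT/T7/H750/ArchIntblUpQ.lean

-- ===== PACK-BEGIN LT/T7/H750/RayFinUpQ.lean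
section



/-!
# Row LT, tower T7, F/Q mirror, node U.3 `H1U.FactIntUpQC` (registry row 2787, helper1),
# LEAF B.2 `H1U.RayFinUpQC` (helper750), OFF-MAIN

`rayFinUpQC750 F : H1U.RayFinUpQC F` VERBATIM vs `T7/H1U/FactIntUpQSpec.lean` (helper1),
UNCONDITIONAL, every number field `F`.

Proof.  `|det (x⁻¹ g conj(x))| = |det g|` (`det (conj x) = conj (det x)`), the component of the
ray generator at `w` is the scalar `t > 0`, `t^(2 [F:ℚ]) = 2`, so `|det (δ r^j)_w| = |det δ_w|
t^{2j}` with `t² ≠ 1`; `log |det|` is bounded on the compact support of `Φ`.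
`exists_finset_ray_tw750` is Mathlib only (plus `T6.glAut` by `rfl`).
-/

set_option autoImplicit false

open AutomorphicForm IsDedekindDomain NumberField MeasureTheory
open scoped ComplexConjugate

noncomputable section

namespace Fermat.Agent.LT.T7.H750

open Fermat.Agent.LT Fermat.Agent.LT.H556 Fermat.Agent.LT.H556.A0 Fermat.Agent.LT.T7
open Fermat.Agent.LT.T7.H305

theorem det_ne_zeroR750 (h : GL (Fin 2) ℂ) : (h : Matrix (Fin 2) (Fin 2) ℂ).det ≠ 0 :=
  ((Matrix.isUnit_iff_isUnit_det _).mp h.isUnit).ne_zero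

theorem det_zpowR750 (z : GL (Fin 2) ℂ) (m : ℤ) :
    ((z ^ m : GL (Fin 2) ℂ) : Matrix (Fin 2) (Fin 2) ℂ).det
      = (z : Matrix (Fin 2) (Fin 2) ℂ).det ^ m := by
  have h := congrArg Units.val (map_zpow Matrix.GeneralLinearGroup.det z m)
  rw [Units.val_zpow_eq_zpow_val] at h
  exact h

/-- The determinant of the conjugate matrix. -/
theorem det_glAut_starR750 (y : GL (Fin 2) ℂ) :
    ((T6.glAut (starRingAut : ℂ ≃+* ℂ) y : GL (Fin 2) ℂ) : Matrix (Fin 2) (Fin 2) ℂ).det
      = conj ((y : Matrix (Fin 2) (Fin 2) ℂ).det) := by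
  have he : ∀ i j : Fin 2,
      ((T6.glAut (starRingAut : ℂ ≃+* ℂ) y : GL (Fin 2) ℂ) : Matrix (Fin 2) (Fin 2) ℂ) i j
        = conj ((y : Matrix (Fin 2) (Fin 2) ℂ) i j) := fun i j => rfl
  rw [Matrix.det_fin_two, Matrix.det_fin_two]
  simp only [he, map_sub, map_mul]

/-- The norm of the determinant is constant on twisted conjugacy classes. -/
theorem norm_det_twconjR750 (g y : GL (Fin 2) ℂ) :
    ‖((y⁻¹ * g * T6.glAut (starRingAut : ℂ ≃+* ℂ) y : GL (Fin 2) ℂ) :
        Matrix (Fin 2) (Fin 2) ℂ).det‖ = ‖(g : Matrix (Fin 2) (Fin 2) ℂ).det‖ := by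
  have hy : ‖(y : Matrix (Fin 2) (Fin 2) ℂ).det‖ ≠ 0 :=
    norm_ne_zero_iff.mpr (det_ne_zeroR750 y)
  have hinv : ((y⁻¹ : GL (Fin 2) ℂ) : Matrix (Fin 2) (Fin 2) ℂ).det
      * (y : Matrix (Fin 2) (Fin 2) ℂ).det = 1 := by
    rw [← Matrix.det_mul, ← Units.val_mul, inv_mul_cancel, Units.val_one, Matrix.det_one]
  have hinv' : ‖((y⁻¹ : GL (Fin 2) ℂ) : Matrix (Fin 2) (Fin 2) ℂ).det‖
      * ‖(y : Matrix (Fin 2) (Fin 2) ℂ).det‖ = 1 := by
    rw [← norm_mul, hinv, norm_one]
  rw [Units.val_mul, Units.val_mul, Matrix.det_mul, Matrix.det_mul, det_glAut_starR750,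
    norm_mul, norm_mul, Complex.norm_conj]
  calc ‖((y⁻¹ : GL (Fin 2) ℂ) : Matrix (Fin 2) (Fin 2) ℂ).det‖
        * ‖(g : Matrix (Fin 2) (Fin 2) ℂ).det‖ * ‖(y : Matrix (Fin 2) (Fin 2) ℂ).det‖
      = (‖((y⁻¹ : GL (Fin 2) ℂ) : Matrix (Fin 2) (Fin 2) ℂ).det‖
          * ‖(y : Matrix (Fin 2) (Fin 2) ℂ).det‖) * ‖(g : Matrix (Fin 2) (Fin 2) ℂ).det‖ := by
        ring
    _ = ‖(g : Matrix (Fin 2) (Fin 2) ℂ).det‖ := by rw [hinv', one_mul]

/-- The ray meets the support finitely often, uniformly on the TWISTED conjugacy class. -/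
theorem exists_finset_ray_tw750 (Φ : GL (Fin 2) ℂ → ℂ) (hΦc : HasCompactSupport Φ)
    (g z : GL (Fin 2) ℂ) (hz : ‖(z : Matrix (Fin 2) (Fin 2) ℂ).det‖ ≠ 1) :
    ∃ J : Finset ℤ, ∀ m : ℤ, m ∉ J → ∀ y : GL (Fin 2) ℂ,
      Φ (y⁻¹ * (g * z ^ m) * T6.glAut (starRingAut : ℂ ≃+* ℂ) y) = 0 := by
  have hcont : Continuous fun h : GL (Fin 2) ℂ =>
      Real.log ‖(h : Matrix (Fin 2) (Fin 2) ℂ).det‖ :=
    (Units.continuous_val.matrix_det.norm).log fun h =>
      norm_ne_zero_iff.mpr (det_ne_zeroR750 h)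
  obtain ⟨B, hB⟩ := hΦc.isCompact.exists_bound_of_continuousOn hcont.continuousOn
  set ρ : ℝ := ‖(z : Matrix (Fin 2) (Fin 2) ℂ).det‖ with hρ
  have hρ0 : 0 < ρ := norm_pos_iff.mpr (det_ne_zeroR750 z)
  have hlρ : Real.log ρ ≠ 0 := Real.log_ne_zero_of_pos_of_ne_one hρ0 hz
  have hlρ' : 0 < |Real.log ρ| := abs_pos.mpr hlρ
  set lg : ℝ := Real.log ‖(g : Matrix (Fin 2) (Fin 2) ℂ).det‖ with hlg
  obtain ⟨N, hN⟩ := exists_nat_ge ((B + |lg|) / |Real.log ρ|)
  refine ⟨Finset.Icc (-(N : ℤ)) N, fun m hm y => ?_⟩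
  by_contra hne
  apply hm
  have hmem : y⁻¹ * (g * z ^ m) * T6.glAut (starRingAut : ℂ ≃+* ℂ) y ∈ tsupport Φ :=
    subset_tsupport Φ hne
  have hb := hB _ hmem
  have hdet : ‖((y⁻¹ * (g * z ^ m) * T6.glAut (starRingAut : ℂ ≃+* ℂ) y : GL (Fin 2) ℂ) :
      Matrix (Fin 2) (Fin 2) ℂ).det‖ = ‖(g : Matrix (Fin 2) (Fin 2) ℂ).det‖ * ρ ^ m := by
    rw [norm_det_twconjR750, Units.val_mul, Matrix.det_mul, det_zpowR750, norm_mul, norm_zpow]
  have hlog : Real.log ‖((y⁻¹ * (g * z ^ m) * T6.glAut (starRingAut : ℂ ≃+* ℂ) y :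
      GL (Fin 2) ℂ) : Matrix (Fin 2) (Fin 2) ℂ).det‖ = lg + m * Real.log ρ := by
    rw [hdet, Real.log_mul (norm_ne_zero_iff.mpr (det_ne_zeroR750 g))
      (zpow_ne_zero _ hρ0.ne'), Real.log_zpow]
  rw [hlog, Real.norm_eq_abs] at hb
  have h3 : |(m : ℝ)| * |Real.log ρ| ≤ B + |lg| := by
    rw [← abs_mul]
    calc |(m : ℝ) * Real.log ρ| = |(lg + m * Real.log ρ) - lg| := by ring_nf
      _ ≤ |lg + m * Real.log ρ| + |lg| := abs_sub _ _
      _ ≤ B + |lg| := by linarith
  have h4 : |(m : ℝ)| ≤ N := by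
    calc |(m : ℝ)| ≤ (B + |lg|) / |Real.log ρ| := (le_div_iff₀ hlρ').mpr h3
      _ ≤ N := hN
  have h5 := abs_le.mp h4
  rw [Finset.mem_Icc]
  constructor
  · exact_mod_cast h5.1
  · exact_mod_cast h5.2

/-- **LEAF B.2 = RAY-FIN-UP (twisted)**, verbatim. -/
theorem rayFinUpQC750 (F : Type) [Field F] [NumberField F] : H1U.RayFinUpQC F := by
  intro r hr Φ _hΦ hΦc w δ
  obtain ⟨-, t, ht0, ht2, ht⟩ := hr
  have hmat : ((infGL305 w r : GL (Fin 2) ℂ) : Matrix (Fin 2) (Fin 2) ℂ) = (t : ℂ) • 1 := by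
    have h1 : ((infGL305 w r : GL (Fin 2) ℂ) : Matrix (Fin 2) (Fin 2) ℂ) = infComp w r := rfl
    rw [h1, ht w]
    ext i j
    fin_cases i <;> fin_cases j <;> simp
  have hdet : ‖((infGL305 w r : GL (Fin 2) ℂ) : Matrix (Fin 2) (Fin 2) ℂ).det‖ ≠ 1 := by
    rw [hmat, Matrix.det_smul, Matrix.det_one, mul_one, Fintype.card_fin, norm_pow,
      Complex.norm_real, Real.norm_of_nonneg ht0.le]
    intro h1
    have h2 : (t ^ 2) ^ Module.finrank ℚ F = 2 := by rw [← pow_mul]; exact ht2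
    rw [h1, one_pow] at h2
    norm_num at h2
  obtain ⟨J, hJ⟩ := exists_finset_ray_tw750 Φ hΦc (infGL305 w (T5.ratG δ)) (infGL305 w r) hdet
  refine ⟨J, fun j hj x => ?_⟩
  have he : infGL305 w (T5.ratG δ * r ^ j) = infGL305 w (T5.ratG δ) * (infGL305 w r) ^ j := by
    rw [map_mul, map_zpow]
  rw [he]
  exact hJ j hj x

end Fermat.Agent.LT.T7.H750

end

end
-- ===== PACK-END LT/T7/H750/RayFinUpQ.lean

-- ===== PACK-BEGIN LT/T7/H893/SupplyProdSpec.lean
section



/-!
# Row LT, tower T7, node T7.L2.1.H2b `ProdMtCb` (sub-architect helper893): SIXTH CUT -- Spec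

OFF-MAIN.  Definitions and frozen Props only (the proved top is `SupplyProdTop.lean`).  No
`sorry`, nothing assumed.  ADDITIVE (new names only, suffix `893`).  Vocabulary: the fifth cut
v2 (`SupplyConstrSpec2.lean`, sha256 f8a1da64929e35c6).

    prodMtCb_of893 : LevelUniqC893 K → LevelUniqC893 K' → LevelAtC893 K K'
        → ProdShapeC893 K K' → SphHypC893 K K'
        → ∀ κ nowhere zero, ProdMtCb K K' κ                                   (VERBATIM)

## The cut

The node `ProdMtCb κ` (the members of the families are averages of LOCALLY MATCHED pure tensors,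
with the constant `κ` of the matching theorem) has two independent parts.

* **`ProdShapeC893`** (NODE, the CALCULUS; no matching theorem, no `κ`): for exponents
  `(T₀, n, n₀, m)` of the level there is a constant `c₀ ≠ 0` such that for every `a ≠ 0` and all
  pre-data with the local shape for `a`, the members are averages of pure tensors with constant
  `a * c₀` downstairs whose components satisfy `LocP893`: the local hypotheses `LocHyp893` AT
  THE PLACES OF THE LEVEL (`T₀`) and at infinity, and the spherical shape `SphOut893` outside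
  the level.  Inputs: the general leaves of helper563 (`T7/H563/PTSpec.lean`: `ConvPureC563`,
  `ConvAvgC563`, `TrPureC563`, `LsumDblC563`), the local algebra (unit `*` partner at the bad
  places, Iwahori–Hecke at `u`, multiplicativity of the Satake transform outside the level,
  commutativity of the bi-`U(2)`-invariant functions at infinity).
* **`SphHypC893`** (NODE, LOCAL, T6): the local hypotheses on `T₀` and the spherical shape on
  `T ∖ T₀` give the local hypotheses on `T` (inert: `T6.FundLemmaC`, `e = 1` from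
  `UnramOut305`; split: existence of the enumeration, multiplicativity and injectivity of the
  Satake transform).  Generalises `H305.UnitMatchC305` (unit components) to spherical ones.
* **`LevelUniqC893 F`** (LEAF [S], Mathlib only): the exponents of a level are unique.
* **`LevelAtC893`** (LEAF [S]): the exponents vanish outside the level.

The top chooses `a = κ / c₀` (the exponents are determined by the level: `LevelUniqC893`), and
gets `UnramOut305 T₀` from `RamIn` (proved in the top).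

FALSITY CHECKS (helper893).  (a) CONSTANT: `up = ∫∫ c' · pure(…)`, `c' > 0` (`ConvPureC563`);
`IsAvgPure` has no constant upstairs but ONE measure for both sides: take `ν = c' (ν₁ × ν₂)`;
then `down = ∫ a (c_G / (c' [I:U]^{ℓ-1})) pure(…) dν`; `[I:U]^{ℓ-1}`: at `u` the component
downstairs of the pure tensor must be the convolution product (`vol U(m_u) = 1`) of the
components upstairs, `ℓ - 1` of which are `1_I`.  `c₀` depends on `(B, 𝔫, μc, T₀, n, n₀, m)`
only.  (b) The member is ONE pure tensor for every parameter: `lsum Hg` of unit components is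
the double coset function (`LsumDblC563`), `iwL`, `ltr (z ^ k)` act on the component at `o 0`
(the elements of an Iwahori coset system and a scalar uniformiser are trivial outside `o 0`).
(c) At the bad places the components of the product are those of the second pair (the unit of
level `n w` is the identity on bi-`U(n₀ w)`-invariant functions, `n₀ w ≤ n w`), so `LocHyp893`
on `T₀ ∖ {u}` is the first clause of `LocB893b`; the inert clause is void at `u` (`ℓ ≥ 3` places
over `u`).  (d) `SphHypC893`: `IsLevelAt305` gives `n w = m v = 0` outside `T₀`, spherical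
functions are bi-`GL₂(𝒪)`-invariant of finite support; `T6.FundLemmaC` needs `e = 1`:
`UnramOut305`.  (e) `LevelUniqC893`: `{x : |x| ≤ q^{-a}} = {x : |x| ≤ q^{-b}}` ⟹ `a = b`
(power of a uniformiser).  `LevelAtC893`: for `v ∤ 𝔫` the closure of `𝔫` is `𝒪_v`; a place `w`
over `v ∤ 𝔫` does not divide `𝔫 𝒪_{K'}`.
-/

set_option autoImplicit false

open AutomorphicForm IsDedekindDomain NumberField MeasureTheory
open scoped ComplexConjugate

noncomputable section

namespace Fermat.Agent.LT.T7.H893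

open Fermat.Agent.LT.H556 Fermat.Agent.LT.H556.A0 Fermat.Agent.LT.T7
open Fermat.Agent.LT.T7.H305

attribute [local instance] Fermat.Agent.LT.T5.instMeasurableSpaceG

section Shape

variable {K K' : Type} [Field K] [NumberField K] [Field K'] [NumberField K'] [Algebra K K']

/-- **THE LOCAL SHAPE OF THE MEMBERS**: the local hypotheses at the places of the level `T₀`
(and at infinity), the spherical shape outside the level. -/
def LocP893 (D : CompData K K') (μc : @Measure (GL (Fin 2) ℂ) (borel _))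
    (T₀ : Finset (HeightOneSpectrum (𝓞 K)))
    (n : HeightOneSpectrum (𝓞 K') → ℕ) (m : HeightOneSpectrum (𝓞 K) → ℕ) : LocCond K K' :=
  fun T φ₀ Φ f₀ F => LocHyp893 D μc T₀ n m φ₀ Φ f₀ F ∧ SphOut893 D.l T₀ T φ₀ f₀

end Shape

section Leaves

/-- **LEAF T7.L2.1.H2b.1 = LEVEL-UNIQ [S] (Mathlib only).**  The exponents of a level are
unique. -/
def LevelUniqC893 (F : Type) [Field F] [NumberField F] : Prop :=
  ∀ (𝔫 : Ideal (𝓞 F)) (m m' : HeightOneSpectrum (𝓞 F) → ℕ),
    IsLevelOf893 𝔫 m → IsLevelOf893 𝔫 m' → m = m'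

variable (K K' : Type) [Field K] [NumberField K] [Field K'] [NumberField K'] [Algebra K K']

/-- **LEAF T7.L2.1.H2b.2 = LEVEL-AT [S].**  The exponents of `𝔫` and of `𝔫 𝒪_{K'}` vanish
outside the places of the level. -/
def LevelAtC893 : Prop :=
  ∀ (𝔫 : Ideal (𝓞 K)) (T₀ : Finset (HeightOneSpectrum (𝓞 K)))
    (n : HeightOneSpectrum (𝓞 K') → ℕ) (m : HeightOneSpectrum (𝓞 K) → ℕ),
    (∀ v : HeightOneSpectrum (𝓞 K), v ∈ T₀ ↔ v.asIdeal ∣ 𝔫) →
    IsLevelOf893 𝔫 m → IsLevelOf893 (upI (K' := K') 𝔫) n → IsLevelAt305 T₀ n m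

/-- **NODE T7.L2.1.H2b.3 = SPH-HYP (LOCAL, T6).**  The local hypotheses at the places of `T₀`
and the spherical shape at the places of `T ∖ T₀` (unramified, levels `0`) give the local
hypotheses at the places of `T`.
Proof.  `v ∈ T ∖ T₀`.  `inv_up`, `inv_down`: a spherical function is bi-`GL₂(𝒪)`-invariant of
finite support, the levels are `0` (`IsLevelAt305`).  `inert`: `e = 1` (`UnramOut305`), the
fundamental lemma `T6.FundLemmaC` for `T6.IsBC`.  `split`: an enumeration in the order of the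
orbit with identifications `K_v ≃ K'_{w j}` exists (`v` splits completely, the group is
cyclic); the convolution product of spherical functions is spherical and its Satake transform
is the product; the Satake transform is injective on the spherical functions. -/
def SphHypC893 : Prop :=
  ∀ D : CompData K K', IsCompData D → IsCycExt K K' D.l → D.l ≠ 2 → TotCplx K →
    ∀ μc : @Measure (GL (Fin 2) ℂ) (borel _), @Measure.IsHaarMeasure _ _ _ (borel _) μc →
    ∀ (T₀ : Finset (HeightOneSpectrum (𝓞 K))), UnramOut305 (K' := K') T₀ →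
    ∀ (n : HeightOneSpectrum (𝓞 K') → ℕ) (m : HeightOneSpectrum (𝓞 K) → ℕ),
      IsLevelAt305 T₀ n m →
    ∀ T : Finset (HeightOneSpectrum (𝓞 K)), T₀ ⊆ T →
    ∀ (φ₀ : ∀ w : HeightOneSpectrum (𝓞 K'), GL (Fin 2) (w.adicCompletion K') → ℂ)
      (Φ : InfinitePlace K' → GL (Fin 2) ℂ → ℂ)
      (f₀ : ∀ v : HeightOneSpectrum (𝓞 K), GL (Fin 2) (v.adicCompletion K) → ℂ)
      (F : InfinitePlace K → GL (Fin 2) ℂ → ℂ),
      LocHyp893 D μc T₀ n m φ₀ Φ f₀ F → SphOut893 D.l T₀ T φ₀ f₀ →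
      LocHyp893 D μc T n m φ₀ Φ f₀ F

/-- **NODE T7.L2.1.H2b.4 = PROD-SHAPE (the CALCULUS of pure tensors).**  For a common part which
contains the ramified places, a bad element, a level `𝔫` with exponents `(T₀, n, n₀, m)` and a
Haar measure `μc` of `GL₂(ℂ)` there is a constant `c₀ ≠ 0` such that for every `a ≠ 0` and all
pre-data of level `𝔫` with the operator properties and the local shape (`LocA893` with
constant `1`, `LocB893b` with constant `a`) the members of the families are averages of pure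
tensors with constant `a * c₀` whose components satisfy `LocP893`.  See the header. -/
def ProdShapeC893 : Prop :=
  ∀ ℓ : ℕ, IsCycExt K K' ℓ → ℓ ≠ 2 → TotCplx K →
    ∀ (Φ : HeckeEigensystem K' ℂ) (B : L2Base K K'), IsL2Base ℓ Φ B → B.RamIn →
    ∀ g : G K', B.IsBad g →
    ∀ (𝔫 : Ideal (𝓞 K)) (μc : @Measure (GL (Fin 2) ℂ) (borel _)),
      @Measure.IsHaarMeasure _ _ _ (borel _) μc →
    ∀ (T₀ : Finset (HeightOneSpectrum (𝓞 K)))
      (n n₀ : HeightOneSpectrum (𝓞 K') → ℕ) (m : HeightOneSpectrum (𝓞 K) → ℕ),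
      (∀ v : HeightOneSpectrum (𝓞 K), v ∈ T₀ ↔ v.asIdeal ∣ 𝔫) →
      IsLevelOf893 𝔫 m → IsLevelOf893 (upI (K' := K') 𝔫) n → IsLevelOf893 B.𝔑₀ n₀ →
      ∃ c₀ : ℂ, c₀ ≠ 0 ∧
        ∀ a : ℂ, a ≠ 0 → ∀ E : L2Pre K K', E.𝔫 = 𝔫 → IsL2PreOp ℓ Φ B g E →
          (∀ X : List (Gen K'), (∀ x ∈ X, x.Out B.S') →
            IsAvgPure (upI (K' := K') 𝔫) 𝔫 T₀ (LocA893 B 𝔫 μc T₀ n m) 1 (E.Φ₁ X) (E.F₁ X)) →
          IsAvgPure (upI (K' := K') 𝔫) 𝔫 T₀ (LocB893b B g 𝔫 μc T₀ n n₀ m) a E.φ₂ E.f₂ →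
          ∀ (X : List (Gen K')) (k : ℤ) (mm : ℕ), (∀ x ∈ X, x.Out B.S') →
            IsAvgPure (upI (K' := K') 𝔫) 𝔫 T₀ (LocP893 (B.comp 𝔫) μc T₀ n m) (a * c₀)
              (E.up B X k mm) (E.down B X k mm)

end Leaves

end Fermat.Agent.LT.T7.H893

end

end
-- ===== PACK-END LT/T7/H893/SupplyProdSpec.lean

-- ===== PACK-BEGIN LT/T7/H301/LevelUniq.lean
section



/-!
# Row LT, tower T7, node T7.L2.1.H2b `ProdMtCb`, leaf H2b.1 `LevelUniqC893` (helper301)

OFF-MAIN.  Registry row 2853.  Spec: `LT/T7/H893/SupplyProdSpec.lean` (helper893, sha256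
21691ff19b22972e).

    levelUniqC301 (F) : H893.LevelUniqC893 F        VERBATIM, UNCONDITIONAL

Proof.  If the balls `{x : |x| ≤ exp (-a)}` and `{x : |x| ≤ exp (-b)}` of `F_v` are the same
set, evaluate at `x = π ^ a` (`π ∈ F` a uniformiser, `|π| = exp (-1)`): `exp (-a) ≤ exp (-b)`,
i.e. `b ≤ a`; by symmetry `a = b`.

Only Mathlib and the Spec are imported.  Every declaration of this file is in the namespace
`Fermat.Agent.LT.T7.H301`; no equation lemma of an imported definition is used.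
-/

set_option autoImplicit false
set_option linter.unusedSectionVars false

open IsDedekindDomain NumberField

noncomputable section

namespace Fermat.Agent.LT.T7.H301

open Fermat.Agent.LT.H556 Fermat.Agent.LT.H556.A0 Fermat.Agent.LT.T7

variable {F : Type} [Field F] [NumberField F]

/-- Every `exp (-n)`, `n : ℕ`, is a value of the valuation of `F_v`. -/
theorem exists_valued_eq_exp301 (v : HeightOneSpectrum (𝓞 F)) (n : ℕ) :
    ∃ x : v.adicCompletion F, Valued.v x = WithZero.exp (-(n : ℤ)) := by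
  obtain ⟨π, hπ⟩ := HeightOneSpectrum.valuation_exists_uniformizer F v
  refine ⟨algebraMap F (v.adicCompletion F) (π ^ n), ?_⟩
  have h1 : Valued.v (algebraMap F (v.adicCompletion F) (π ^ n)) = v.valuation F (π ^ n) :=
    HeightOneSpectrum.valuedAdicCompletion_eq_valuation' v (π ^ n)
  rw [h1, map_pow, hπ, ← WithZero.exp_nsmul]
  simp

/-- Two balls which are the same set have the same radius. -/
theorem exp_le_of_ball301 (v : HeightOneSpectrum (𝓞 F)) (a b : ℕ)
    (h : ∀ x : v.adicCompletion F,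
      Valued.v x ≤ WithZero.exp (-(a : ℤ)) → Valued.v x ≤ WithZero.exp (-(b : ℤ))) :
    b ≤ a := by
  obtain ⟨x, hx⟩ := exists_valued_eq_exp301 v a
  have h1 := h x hx.le
  rw [hx, WithZero.exp_le_exp] at h1
  omega

theorem levelUniqC301 (F : Type) [Field F] [NumberField F] : H893.LevelUniqC893 F := by
  intro 𝔫 m m' hm hm'
  funext v
  have h1 : m' v ≤ m v :=
    exp_le_of_ball301 v (m v) (m' v) fun x hx => (hm' v x).1 ((hm v x).2 hx)
  have h2 : m v ≤ m' v :=
    exp_le_of_ball301 v (m' v) (m v) fun x hx => (hm v x).1 ((hm' v x).2 hx)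
  exact le_antisymm h2 h1

end Fermat.Agent.LT.T7.H301

end
end
-- ===== PACK-END LT/T7/H301/LevelUniq.lean

-- ===== PACK-BEGIN LT/T7/H267/UpInertClosed.lean
section






/-!
# Row LT, tower T7, leaf UD.1 `UpInertC341` (cut of helper341 of `H340.UpDatC340`; helper267,
# SPARE): CLOSED

OFF-MAIN.  `upInertC267 K K' : UD341.UpInertC341 K K'`, VERBATIM and UNCONDITIONAL (the
hypothesis `T6.T6Out` is in the Prop): `upInertC_of267` with the closed assets
`H558.sigmaLocC558` (helper558), `LocMeas729.locMeasC729`, `LocMeas729.locCutC729` (helper729),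
byte-identical copies.
-/

set_option autoImplicit false

open IsDedekindDomain NumberField

noncomputable section

namespace Fermat.Agent.LT.T7.UD341.H267

open Fermat.Agent.LT Fermat.Agent.LT.T7

variable (K K' : Type) [Field K] [NumberField K] [Field K'] [NumberField K'] [Algebra K K']

/-- **LEAF UD.1 = UP-INERT**, VERBATIM and UNCONDITIONAL. -/
theorem upInertC267 : UpInertC341 K K' :=
  upInertC_of267 K K' (H558.sigmaLocC558 (K := K')) LocMeas729.locMeasC729
    LocMeas729.locCutC729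

end Fermat.Agent.LT.T7.UD341.H267

end

end
-- ===== PACK-END LT/T7/H267/UpInertClosed.lean

-- ===== PACK-BEGIN LT/T7/H341/UpDatClosed.lean
section






/-!
# Row LT, tower T7, node C2.7.13.1.0 `H340.UpDatC340` (helper341, registry 2742): CLOSED

OFF-MAIN.  PROVED, nothing assumed, VERBATIM vs `T7/H340/UpFactSpec.lean` (helper340, sha256
04981afb).

    upDatC_closed341 (K K') : H340.UpDatC340 K K'

The three leaves of the cut (`UpDatSpec.lean`, sha256 69bf6a59), byte-identical copies: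
* `UpInertC341`: helper267, `T7/H267/UpInertClosed.lean` (`upInertC267`);
* `UpSplitC341`: helper999, `T7/H999/UpSplit.lean` (`upSplitC999`);
* `UpArchC341`: helper887, `T7/H887/UpArch.lean` (`upArchC887`).
-/

set_option autoImplicit false

open AutomorphicForm IsDedekindDomain NumberField MeasureTheory

noncomputable section

namespace Fermat.Agent.LT.T7.UD341

open Fermat.Agent.LT.T7 Fermat.Agent.LT.T7.H305 Fermat.Agent.LT.T7.H340

variable (K K' : Type) [Field K] [NumberField K] [Field K'] [NumberField K'] [Algebra K K']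

/-- **NODE C2.7.13.1.0 = UP-DAT, CLOSED.** -/
theorem upDatC_closed341 : UpDatC340 K K' :=
  upDatC_of341 K K' (H267.upInertC267 K K') (Fermat.Agent.LT.T7.H999.upSplitC999 K K')
    (Fermat.Agent.LT.T7.H887.upArchC887 K K')

end Fermat.Agent.LT.T7.UD341

end

end
-- ===== PACK-END LT/T7/H341/UpDatClosed.lean

-- ===== PACK-BEGIN LT/T7/H57/PairBSpec.lean
section





/-!
# Row LT, tower T7, node T7.L2.1.H2a.B `Q797.PairBC797` (registry row 2729, owner helper57):
# THE SECOND PAIR OF THE CONSTRUCTION (cubic step) -- FIRST CUT, Spec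

OFF-MAIN.  Definitions and frozen Props only (the proved top is `PairBTop.lean`).  No hole,
nothing assumed.  ADDITIVE (new names only, all suffixed `57`, namespace
`Fermat.Agent.LT.T7.PB57`).  Vocabulary, byte-identical copies: `T7/Q797/BaseCutSpec.lean`
(helper797@4f9416c19, e87d7ea9: `IsLevel797`, `IsExp797`, `IsPairB797`, `PairBC797`,
`ShapeB797`), `T7/H893/SupplyConstrSpec{,2}.lean` (helper893: `IsAvgPure`, `LocB893`,
`LocB893b`), `T7/H193/{KillSpec,ProjSpec,NatMatchSpec,NatTools}.lean` (helper193@7caaca6e8: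
`nat193`, `IsTorusData`, `IsRelTorus`, `RelTorusC`, `IsBiHInv`, `killing_of_torus193`,
`nat_eq_push193`).

    pairBC_of57 : H193.RelTorusC K K' → PreBC57 P K K' LB → NatUpC57 K K' LB → NatDnC57 K K' LB
                    → NatShapeC57 K K' LB → Q797.PairBC797 P K K' LB        (for EVERY shape `LB`)

## The cut: THE NATURAL AVERAGE IS SPLIT OFF

The second pair is a pair of ARCHIMEDEAN TORUS MEANS (`up2_kill` / `dn2_kill` force it:
`H193/NatMatchSpec.lean`): `φ₂ = nat193 a' D' φ°`, `f₂ = nat193 a D f°` for COMPATIBLE torus data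
(`H193.IsRelTorus`) and an UN-AVERAGED pair `(φ°, f°)`.

* **`PreBC57 P K K' LB`** (NODE = the un-averaged pair; T3 explicit forms + T6): a level `𝔫`, a
  Haar measure `μc`, and for the exponents and every constant `a ≠ 0` a scalar `c₂` and a pair
  `(φ°, f°)` with `IsPreB57`: test functions, Eisenstein-killing with Eisenstein-killing
  adjoints, BI-invariant under `U(𝔑₀)` and the Iwahori subgroups along the orbit
  (`H193.IsBiHInv`; downstairs: level `𝔫`, the place `u`), the operator scalar `c₂ ≠ 0` upstairs,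
  the three operator properties downstairs (`dn_wfn`, `dn_class`, `dn_comm`), the supports, and
  THE SHAPE `IsAvgPure … (LB …) a φ° f°` (finite sums of pure tensors are the case of a finite
  discrete parameter space).  NO killing property.
* **`H193.RelTorusC K K'`** (station REL-TORUS of helper193): compatible torus data exist.
* **`NatUpC57`**, **`NatDnC57`** (LEAVES, [M]; plugs of the CLOSED tool
  `H193.killing_of_torus193` + small lemmas): the torus means of the un-averaged pair have the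
  properties `up2_*`, resp. `dn2_*`, of `Q797.IsPairB797`.  Small lemmas: `IsTorusData` is
  monotone in the level (`upI 𝔫 ≤ 𝔑₀`); `IsBiHInv ⇒ H893.IsUInv`; `R(nat φ) ψ = R(φ) ψ` for `ψ`
  invariant under the positive scalars at infinity (fifth clause of the tool; `iwOp`, `shiftOp`
  preserve this invariance and the continuity); the support of a torus mean is contained in
  `supp φ · a(closure D)` and the Iwahori condition along the orbit is not changed by elements
  which are trivial at the finite places.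
* **`NatShapeC57 K K' LB`** (LEAF, [L]; Fubini + `H193.nat_eq_push193`): the torus means of an
  average of pure tensors with the local condition `LB` are an average of pure tensors with
  the local condition `LB` (parameter space `Ω × closure D'`; the translate of a pure tensor by
  `a' t'` is the pure tensor with the archimedean components translated by `exp (t' w)`,
  downstairs by `exp ((N t') v)`; the convolution commutes with central translations).  TO BE
  PROVED for the shapes of record `LB = H893.LocB893b` (v2) and `H893.LocB893` (v1).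

FALSITY CHECKS (helper57).  (a) The scalar `c₂` of `nat193 a' D' φ°` on the invariant
eigenfunctions is the scalar of `φ°` (the eigenfunctions are invariant under the positive scalars
at infinity: `IsWFn.arch_scalar`).  (b) The constant `a` is a constant of the un-averaged pair
(`f° = ∫ a · pure …`); the torus mean is linear.  (c) `NatShapeC57` is FALSE for a general `LB`
(`LB` has to be stable under the central translations at infinity); it is a Prop with the
parameter `LB` and is proved for the shapes of record only.  (d) Downstairs the tool is used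
with `𝔑 = 𝔑₀ = 𝔫`, `l = 1`, orbit `(u)`; upstairs with `𝔑 = 𝔫 𝒪_{K'} ≤ 𝔑₀`, `l = ℓ`, orbit `o`.
(e) `T1.T1Out` (hypothesis of the tool) is closed for every number field; the leaves
`NatUpC57`, `NatDnC57` discharge it.
-/

set_option autoImplicit false

open AutomorphicForm IsDedekindDomain NumberField MeasureTheory
open scoped ComplexConjugate

noncomputable section

namespace Fermat.Agent.LT.T7.PB57

open Fermat.Agent.LT.H556 Fermat.Agent.LT.H556.A0 Fermat.Agent.LT.T7
open Fermat.Agent.LT.T7.H893 Fermat.Agent.LT.T7.H305 Fermat.Agent.LT.T7.Q797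

attribute [local instance] Fermat.Agent.LT.T5.instMeasurableSpaceG

section Defs

variable {K K' : Type} [Field K] [NumberField K] [Field K'] [NumberField K'] [Algebra K K']

/-- **THE PROPERTIES OF THE UN-AVERAGED SECOND PAIR** `(φ°, f°)` with the scalar `c₂` and the
constant `a`.  See the header. -/
structure IsPreB57 (LB : ShapeB797 K K') (ℓ : ℕ) (Φ : HeckeEigensystem K' ℂ)
    (B : L2Base K K') (g : G K') (𝔫 : Ideal (𝓞 K))
    (μc : @Measure (GL (Fin 2) ℂ) (borel _)) (T₀ : Finset (HeightOneSpectrum (𝓞 K)))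
    (n n₀ : HeightOneSpectrum (𝓞 K') → ℕ) (m : HeightOneSpectrum (𝓞 K) → ℕ) (a : ℂ)
    (c₂ : EigData K' → ℂ) (φ₀ : G K' → ℂ) (f₀ : G K → ℂ) : Prop where
  up_test : T5.IsTestFn (upI (K' := K') 𝔫) T5.trivType φ₀
  up_ek : T5.IsEK B.R'.μ φ₀ ∧ T5.IsEK B.R'.μ (T5.adjointFn φ₀)
  up_inv : H193.IsBiHInv B.𝔑₀ ℓ B.o φ₀
  up_op : ∀ (ψ : G K' → ℂ) (C : EigData K'), IsEigFn B.𝔑₀ B.R'.r ℓ B.o ψ C →
    ∀ x : G K', T5.Rconv B.R'.μ φ₀ ψ x = c₂ C * ψ x
  up_ne : ∀ C : EigData K', C.AgreeOut B.S' (eigOf Φ) → c₂ C ≠ 0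
  dn_test : T5.IsTestFn 𝔫 T5.trivType f₀
  dn_ek : T5.IsEK B.R.μ f₀ ∧ T5.IsEK B.R.μ (T5.adjointFn f₀)
  dn_inv : H193.IsBiHInv 𝔫 1 (fun _ => B.u) f₀
  dn_wfn : ∀ ψ : G K → ℂ, IsWFn 𝔫 B.R.r 1 (fun _ => B.u) ψ →
    IsWFn 𝔫 B.R.r 1 (fun _ => B.u) (T5.Rconv B.R.μ f₀ ψ)
  dn_class : ∀ (ψ : G K → ℂ) (c : EigData K), IsEigFn 𝔫 B.R.r 1 (fun _ => B.u) ψ c →
    IsEigFn 𝔫 B.R.r 1 (fun _ => B.u) (T5.Rconv B.R.μ f₀ ψ) c
  dn_comm : ∀ ψ : G K → ℂ, IsWFn 𝔫 B.R.r 1 (fun _ => B.u) ψ →
    ∀ (H : Finset (G K)) (z : G K), IsIwCosetSystem B.u H → IsScalarUniformizerAt B.u z →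
      (∀ x : G K, T5.Rconv B.R.μ f₀ (iwOp B.u H ψ) x
        = iwOp B.u H (T5.Rconv B.R.μ f₀ ψ) x) ∧
      ∀ (k : ℤ) (x : G K), T5.Rconv B.R.μ f₀ (shiftOp z k ψ) x
        = shiftOp z k (T5.Rconv B.R.μ f₀ ψ) x
  up_supp : ∃ C : Set (G K'), IsCompact C ∧ T5.H32.IsIwSupported32 ℓ B.o C φ₀
  dn_supp : ∃ C : Set (G K), IsCompact C ∧ T5.H32.IsIwSupported32 1 (fun _ => B.u) C f₀
  /-- the local shape: averages of pure tensors with the local condition `LB`, constant `a` -/
  shape : IsAvgPure (upI (K' := K') 𝔫) 𝔫 T₀ (LB B g 𝔫 μc T₀ n n₀ m) a φ₀ f₀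

/-- The fields `up2_*` of `Q797.IsPairB797` (the part upstairs of the second pair). -/
structure IsPairBUp57 (ℓ : ℕ) (Φ : HeckeEigensystem K' ℂ) (B : L2Base K K') (𝔫 : Ideal (𝓞 K))
    (c₂ : EigData K' → ℂ) (φ₂ : G K' → ℂ) : Prop where
  up2_test : T5.IsTestFn (upI (K' := K') 𝔫) T5.trivType φ₂
  up2_ek : T5.IsEK B.R'.μ φ₂ ∧ T5.IsEK B.R'.μ (T5.adjointFn φ₂)
  up2_inv : IsUInv B.𝔑₀ ℓ B.o φ₂
  up2_op : ∀ (ψ : G K' → ℂ) (C : EigData K'), IsEigFn B.𝔑₀ B.R'.r ℓ B.o ψ C →
    ∀ x : G K', T5.Rconv B.R'.μ φ₂ ψ x = c₂ C * ψ x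
  up2_kill : ∀ ψ : G K' → ℂ, T5.IsCuspFn (upI (K' := K') 𝔫) T5.trivType B.R'.r ψ →
    (∀ χ : G K' → ℂ, IsWFn B.𝔑₀ B.R'.r ℓ B.o χ → T5.innerD B.R'.μ B.R'.F ψ χ = 0) →
    ∀ x : G K', T5.Rconv B.R'.μ φ₂ ψ x = 0
  up2_ne : ∀ C : EigData K', C.AgreeOut B.S' (eigOf Φ) → c₂ C ≠ 0
  up2_supp : ∃ C : Set (G K'), IsCompact C ∧ T5.H32.IsIwSupported32 ℓ B.o C φ₂

/-- The fields `dn2_*` of `Q797.IsPairB797` (the part downstairs of the second pair). -/
structure IsPairBDn57 (B : L2Base K K') (𝔫 : Ideal (𝓞 K)) (f₂ : G K → ℂ) : Prop where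
  dn2_test : T5.IsTestFn 𝔫 T5.trivType f₂
  dn2_ek : T5.IsEK B.R.μ f₂ ∧ T5.IsEK B.R.μ (T5.adjointFn f₂)
  dn2_inv : IsUInv 𝔫 1 (fun _ => B.u) f₂
  dn2_wfn : ∀ ψ : G K → ℂ, IsWFn 𝔫 B.R.r 1 (fun _ => B.u) ψ →
    IsWFn 𝔫 B.R.r 1 (fun _ => B.u) (T5.Rconv B.R.μ f₂ ψ)
  dn2_class : ∀ (ψ : G K → ℂ) (c : EigData K), IsEigFn 𝔫 B.R.r 1 (fun _ => B.u) ψ c →
    IsEigFn 𝔫 B.R.r 1 (fun _ => B.u) (T5.Rconv B.R.μ f₂ ψ) c
  dn2_comm : ∀ ψ : G K → ℂ, IsWFn 𝔫 B.R.r 1 (fun _ => B.u) ψ →
    ∀ (H : Finset (G K)) (z : G K), IsIwCosetSystem B.u H → IsScalarUniformizerAt B.u z →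
      (∀ x : G K, T5.Rconv B.R.μ f₂ (iwOp B.u H ψ) x
        = iwOp B.u H (T5.Rconv B.R.μ f₂ ψ) x) ∧
      ∀ (k : ℤ) (x : G K), T5.Rconv B.R.μ f₂ (shiftOp z k ψ) x
        = shiftOp z k (T5.Rconv B.R.μ f₂ ψ) x
  dn2_kill : ∀ ψ : G K → ℂ, T5.IsCuspFn 𝔫 T5.trivType B.R.r ψ →
    (∀ χ : G K → ℂ, IsWFn 𝔫 B.R.r 1 (fun _ => B.u) χ → T5.innerD B.R.μ B.R.F ψ χ = 0) →
    ∀ x : G K, T5.Rconv B.R.μ f₂ ψ x = 0
  dn2_supp : ∃ C : Set (G K), IsCompact C ∧ T5.H32.IsIwSupported32 1 (fun _ => B.u) C f₂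

end Defs

section Nodes

variable (P : EKCond)
variable (K K' : Type) [Field K] [NumberField K] [Field K'] [NumberField K'] [Algebra K K']

/-- **NODE PB.0 = PRE-B (the UN-AVERAGED second pair; T3 explicit forms + T6).**  For a common
part which contains the ramified places and a bad element `g`: a level `𝔫` with the level
properties and a Haar measure `μc` of `GL₂(ℂ)` such that for the exponents of the level and
EVERY constant `a ≠ 0` there are a scalar `c₂` and a pair `(φ°, f°)` with `IsPreB57`.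
Construction.  `𝔫 = 𝔫₀ ^ d`, `d` so large that the partners of the double coset functions
`1_{U₀ g_w U₀}` at the bad places (`T6.BadMatchC`; split bad places: convolution products in
the order of ONE `σ`-ordered enumeration of the fibre) are bi-invariant under `U(𝔫)_v`.
Upstairs: datum `(P', e', a₀)` of `T7.GoodEKM K' Φ` for the level `𝔫 𝒪_{K'}` and `S'`; core of
`T3.M.EKCoreC`; `φ°` = the member of `T3.M.pairSpanMS` over the core for the BASE level `𝔑₀`
(`T3.M.pairExistM_c`, `T3.M.ekOfPairM_c`: test function, EK, EK adjoint, supported at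
`P' ∪ S_∞`, scalar `κ₀ Φ^(z₁, z₂) ≠ 0` at the parameters of `Φ`), summed over the right
translates by `I_o / U(𝔑₀)_o` along the orbit (Iwahori components; EK is stable under
translates and finite sums: `T5/H32/EKIdeal.lean`).  Downstairs: the norm datum, the
push-forward core, local factors = the T6-matches of the local factors upstairs (bridges of
helper474, `T7/H474/SphBridge2.lean`: `bcPair474`, `splitPair474`; at infinity `convL305 μc`),
the partner at the bad places as a finite combination of two-sided translates of the unit, the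
Iwahori function at `u`; `f°` is multiplied by `a`.  `dn_wfn`, `dn_class`, `dn_comm`: `f°` is
bi-invariant under `U(𝔫)` and the Iwahori subgroup at `u`, and a finite sum of pure tensors
whose components outside the bad places are spherical (they commute with the Hecke operators
outside the level and the sphere means). -/
def PreBC57 (LB : ShapeB797 K K') : Prop :=
  ∀ ℓ : ℕ, IsCycExt K K' ℓ → ℓ ≠ 2 → TotCplx K →
    ∀ Φ : HeckeEigensystem K' ℂ, A0.IsCuspAdelicSph0 K' Φ → ConstOnFibres K Φ → P K' Φ →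
      ∀ B : L2Base K K', IsL2Base ℓ Φ B → B.RamIn → ∀ g : G K', B.IsBad g →
        ∃ (𝔫 : Ideal (𝓞 K)) (μc : @Measure (GL (Fin 2) ℂ) (borel _)),
          IsLevel797 B 𝔫 ∧ @Measure.IsHaarMeasure _ _ _ (borel _) μc ∧
          ∀ (T₀ : Finset (HeightOneSpectrum (𝓞 K)))
            (n n₀ : HeightOneSpectrum (𝓞 K') → ℕ) (m : HeightOneSpectrum (𝓞 K) → ℕ),
            IsExp797 B 𝔫 T₀ n n₀ m →
            ∀ a : ℂ, a ≠ 0 →
              ∃ (c₂ : EigData K' → ℂ) (φ₀ : G K' → ℂ) (f₀ : G K → ℂ),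
                IsPreB57 LB ℓ Φ B g 𝔫 μc T₀ n n₀ m a c₂ φ₀ f₀

/-- **LEAF PB.1 = NAT-UP ([M]; plug of `H193.killing_of_torus193`).**  The torus mean upstairs
of the un-averaged pair has the properties `up2_*` of the second pair. -/
def NatUpC57 (LB : ShapeB797 K K') : Prop :=
  ∀ (ℓ : ℕ) (Φ : HeckeEigensystem K' ℂ) (B : L2Base K K'), IsCycExt K K' ℓ → IsL2Base ℓ Φ B →
    ∀ (g : G K') (𝔫 : Ideal (𝓞 K)), IsLevel797 B 𝔫 →
    ∀ (μc : @Measure (GL (Fin 2) ℂ) (borel _)) (T₀ : Finset (HeightOneSpectrum (𝓞 K)))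
      (n n₀ : HeightOneSpectrum (𝓞 K') → ℕ) (m : HeightOneSpectrum (𝓞 K) → ℕ) (a : ℂ)
      (c₂ : EigData K' → ℂ) (φ₀ : G K' → ℂ) (f₀ : G K → ℂ),
      IsPreB57 LB ℓ Φ B g 𝔫 μc T₀ n n₀ m a c₂ φ₀ f₀ →
    ∀ (aT : (InfinitePlace K → ℝ) → G K) (D : Set (InfinitePlace K → ℝ))
      (aT' : (InfinitePlace K' → ℝ) → G K') (D' : Set (InfinitePlace K' → ℝ)),
      H193.IsRelTorus 𝔫 B.R.r B.R'.r aT D aT' D' →
      IsPairBUp57 ℓ Φ B 𝔫 c₂ (H193.nat193 aT' D' φ₀)

/-- **LEAF PB.2 = NAT-DOWN ([M]; plug of `H193.killing_of_torus193`).**  The torus mean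
downstairs of the un-averaged pair has the properties `dn2_*` of the second pair. -/
def NatDnC57 (LB : ShapeB797 K K') : Prop :=
  ∀ (ℓ : ℕ) (Φ : HeckeEigensystem K' ℂ) (B : L2Base K K'), IsCycExt K K' ℓ → IsL2Base ℓ Φ B →
    ∀ (g : G K') (𝔫 : Ideal (𝓞 K)), IsLevel797 B 𝔫 →
    ∀ (μc : @Measure (GL (Fin 2) ℂ) (borel _)) (T₀ : Finset (HeightOneSpectrum (𝓞 K)))
      (n n₀ : HeightOneSpectrum (𝓞 K') → ℕ) (m : HeightOneSpectrum (𝓞 K) → ℕ) (a : ℂ)
      (c₂ : EigData K' → ℂ) (φ₀ : G K' → ℂ) (f₀ : G K → ℂ),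
      IsPreB57 LB ℓ Φ B g 𝔫 μc T₀ n n₀ m a c₂ φ₀ f₀ →
    ∀ (aT : (InfinitePlace K → ℝ) → G K) (D : Set (InfinitePlace K → ℝ))
      (aT' : (InfinitePlace K' → ℝ) → G K') (D' : Set (InfinitePlace K' → ℝ)),
      H193.IsRelTorus 𝔫 B.R.r B.R'.r aT D aT' D' →
      IsPairBDn57 B 𝔫 (H193.nat193 aT D f₀)

/-- **LEAF PB.3 = NAT-SHAPE ([L]; Fubini + `H193.nat_eq_push193`).**  The torus means of the
un-averaged pair are an average of pure tensors with the local condition `LB`, constant `a`.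
TO BE PROVED for `LB = H893.LocB893b` (shape of record, v2) and `LB = H893.LocB893` (v1). -/
def NatShapeC57 (LB : ShapeB797 K K') : Prop :=
  ∀ (ℓ : ℕ) (Φ : HeckeEigensystem K' ℂ) (B : L2Base K K'), IsCycExt K K' ℓ → TotCplx K →
    IsL2Base ℓ Φ B →
    ∀ (g : G K') (𝔫 : Ideal (𝓞 K)), IsLevel797 B 𝔫 →
    ∀ (μc : @Measure (GL (Fin 2) ℂ) (borel _)), @Measure.IsHaarMeasure _ _ _ (borel _) μc →
    ∀ (T₀ : Finset (HeightOneSpectrum (𝓞 K)))
      (n n₀ : HeightOneSpectrum (𝓞 K') → ℕ) (m : HeightOneSpectrum (𝓞 K) → ℕ),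
      IsExp797 B 𝔫 T₀ n n₀ m →
    ∀ (a : ℂ) (c₂ : EigData K' → ℂ) (φ₀ : G K' → ℂ) (f₀ : G K → ℂ),
      IsPreB57 LB ℓ Φ B g 𝔫 μc T₀ n n₀ m a c₂ φ₀ f₀ →
    ∀ (aT : (InfinitePlace K → ℝ) → G K) (D : Set (InfinitePlace K → ℝ))
      (aT' : (InfinitePlace K' → ℝ) → G K') (D' : Set (InfinitePlace K' → ℝ)),
      H193.IsRelTorus 𝔫 B.R.r B.R'.r aT D aT' D' →
      IsAvgPure (upI (K' := K') 𝔫) 𝔫 T₀ (LB B g 𝔫 μc T₀ n n₀ m) a
        (H193.nat193 aT' D' φ₀) (H193.nat193 aT D f₀)

end Nodes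

/-! ## Appendix: the equation lemmas of the definitions of this file are realised HERE -/

theorem eqns_realised_pairBSpec57 : True := by
  have _h0_0 := @PreBC57.eq_1
  have _h0_1 := @PreBC57.eq_def
  have _h0_2 := @PreBC57.eq_unfold
  have _h1_0 := @NatUpC57.eq_1
  have _h1_1 := @NatUpC57.eq_def
  have _h1_2 := @NatUpC57.eq_unfold
  have _h2_0 := @NatDnC57.eq_1
  have _h2_1 := @NatDnC57.eq_def
  have _h2_2 := @NatDnC57.eq_unfold
  have _h3_0 := @NatShapeC57.eq_1
  have _h3_1 := @NatShapeC57.eq_def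
  have _h3_2 := @NatShapeC57.eq_unfold
  trivial

end Fermat.Agent.LT.T7.PB57

end

end
-- ===== PACK-END LT/T7/H57/PairBSpec.lean

-- ===== PACK-BEGIN LT/T7/H57/PairBTop.lean
section



/-!
# Row LT, tower T7, node T7.L2.1.H2a.B `Q797.PairBC797` (registry row 2729, owner helper57):
# THE SECOND PAIR OF THE CONSTRUCTION (cubic step) -- FIRST CUT, proved top

OFF-MAIN.  Complete proofs, nothing assumed.  ADDITIVE.

    pairBC_of57 : H193.RelTorusC K K' → PreBC57 P K K' LB → NatUpC57 K K' LB → NatDnC57 K K' LB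
                    → NatShapeC57 K K' LB → Q797.PairBC797 P K K' LB        (for EVERY shape `LB`)
-/

set_option autoImplicit false

open AutomorphicForm IsDedekindDomain NumberField MeasureTheory
open scoped ComplexConjugate

noncomputable section

namespace Fermat.Agent.LT.T7.PB57

open Fermat.Agent.LT.H556 Fermat.Agent.LT.H556.A0 Fermat.Agent.LT.T7
open Fermat.Agent.LT.T7.H893 Fermat.Agent.LT.T7.H305 Fermat.Agent.LT.T7.Q797

attribute [local instance] Fermat.Agent.LT.T5.instMeasurableSpaceG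

section Top

variable {P : EKCond}
variable {K K' : Type} [Field K] [NumberField K] [Field K'] [NumberField K'] [Algebra K K']

/-- The second pair from its two halves and the shape. -/
theorem isPairB_of_halves57 {LB : ShapeB797 K K'} {ℓ : ℕ} {Φ : HeckeEigensystem K' ℂ}
    {B : L2Base K K'} {g : G K'} {𝔫 : Ideal (𝓞 K)} {μc : @Measure (GL (Fin 2) ℂ) (borel _)}
    {T₀ : Finset (HeightOneSpectrum (𝓞 K))} {n n₀ : HeightOneSpectrum (𝓞 K') → ℕ}
    {m : HeightOneSpectrum (𝓞 K) → ℕ} {a : ℂ} {c₂ : EigData K' → ℂ} {φ₂ : G K' → ℂ}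
    {f₂ : G K → ℂ} (hu : IsPairBUp57 ℓ Φ B 𝔫 c₂ φ₂) (hd : IsPairBDn57 B 𝔫 f₂)
    (hs : IsAvgPure (upI (K' := K') 𝔫) 𝔫 T₀ (LB B g 𝔫 μc T₀ n n₀ m) a φ₂ f₂) :
    IsPairB797 LB ℓ Φ B g 𝔫 μc T₀ n n₀ m a c₂ φ₂ f₂ where
  up2_test := hu.up2_test
  up2_ek := hu.up2_ek
  up2_inv := hu.up2_inv
  up2_op := hu.up2_op
  up2_kill := hu.up2_kill
  up2_ne := hu.up2_ne
  dn2_test := hd.dn2_test
  dn2_ek := hd.dn2_ek
  dn2_inv := hd.dn2_inv
  dn2_wfn := hd.dn2_wfn
  dn2_class := hd.dn2_class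
  dn2_comm := hd.dn2_comm
  dn2_kill := hd.dn2_kill
  up2_supp := hu.up2_supp
  dn2_supp := hd.dn2_supp
  shape := hs

/-- **THE TOP OF THE FIRST CUT OF THE SECOND PAIR**, for every local shape `LB`: the second pair
is the pair of the torus means of the un-averaged pair for compatible torus data. -/
theorem pairBC_of57 {LB : ShapeB797 K K'} (hRel : H193.RelTorusC K K')
    (hPre : PreBC57 P K K' LB) (hUp : NatUpC57 K K' LB) (hDn : NatDnC57 K K' LB)
    (hSh : NatShapeC57 K K' LB) : PairBC797 P K K' LB := by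
  intro ℓ hcyc hℓ hcplx Φ hΦ hconst hPΦ B hB hRam g hg
  obtain ⟨𝔫, μc, hlev, hμc, hpre⟩ := hPre ℓ hcyc hℓ hcplx Φ hΦ hconst hPΦ B hB hRam g hg
  obtain ⟨aT, D, aT', D', hrel⟩ :=
    hRel ℓ hcyc hcplx 𝔫 hlev.level_ne B.R.r B.R'.r hB.frame.ray hB.frame'.ray
  refine ⟨𝔫, μc, hlev, hμc, fun T₀ n n₀ m hexp a ha => ?_⟩
  obtain ⟨c₂, φ₀, f₀, h0⟩ := hpre T₀ n n₀ m hexp a ha
  exact ⟨c₂, H193.nat193 aT' D' φ₀, H193.nat193 aT D f₀,
    isPairB_of_halves57
      (hUp ℓ Φ B hcyc hB g 𝔫 hlev μc T₀ n n₀ m a c₂ φ₀ f₀ h0 aT D aT' D' hrel)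
      (hDn ℓ Φ B hcyc hB g 𝔫 hlev μc T₀ n n₀ m a c₂ φ₀ f₀ h0 aT D aT' D' hrel)
      (hSh ℓ Φ B hcyc hcplx hB g 𝔫 hlev μc hμc T₀ n n₀ m hexp a c₂ φ₀ f₀ h0 aT D aT' D'
        hrel)⟩

/-- **THE SECOND PAIR FOR THE SHAPE OF RECORD** (`H893.LocB893b`, v2 of helper893). -/
theorem pairBC_record57 (hRel : H193.RelTorusC K K') (hPre : PreBC57 P K K' LocB893b)
    (hUp : NatUpC57 K K' LocB893b) (hDn : NatDnC57 K K' LocB893b)
    (hSh : NatShapeC57 K K' LocB893b) : PairBC797 P K K' LocB893b :=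
  pairBC_of57 hRel hPre hUp hDn hSh

end Top

end Fermat.Agent.LT.T7.PB57

end

end
-- ===== PACK-END LT/T7/H57/PairBTop.lean

-- ===== PACK-BEGIN LT/T7/P51/ProdMtSpec.lean
section



/-!
# Row LT, tower T7, node T7.L2.1.H2b `ProdMtCb` (helper51, SPARE CUT): Spec

OFF-MAIN.  Definitions and frozen Props only (the proved tops are in `ProdMtTop.lean`).  No
hole, nothing assumed.  ADDITIVE: all names are new and end in `51`.  Vocabulary:
`T7/H893/SupplyConstrSpec2.lean` (helper893, fifth cut v2, form of record), byte-identical copy.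

    prodMtCb_of51 : GlobProdC51 K K' → LocProdC51 K K' → UnramC51 K K' → LevelAtC51 K K'
        → LevelUniqC51 → ∀ κ, (∀ D μc T₀ n m, κ D μc T₀ n m ≠ 0) → H893.ProdMtCb K K' κ
    locProdC_of51 : RegFinC51 → RegArchC51 → InertSphC51 → SplitOrbC51 → SplitSphC51
        → ArchProdC51 → LocProdC51 K K'

## The cut

The members of the families are `E.up = Φ₁ X ⋆ lsum Hg (regL (o 0) z' H' k j φ₂)` and
`E.down = F₁ X ⋆ regL u z H k j f₂`; the four base functions are averages of pure tensors with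
the local shapes `LocA893`, `LocB893b` (hypothesis `IsDecomp893b`).

* **`LocProd51`** = THE LOCAL SHAPE OF THE PRODUCTS: the components of a pure tensor of the
  product family in terms of components of the two pairs:
  - bad places (`v ∈ T₀`, `v ≠ u`): upstairs the double coset functions of `g`, downstairs the
    partner `f₂ v` (the first pair has unit components there);
  - the orbit: upstairs `regLoc51 (o 0) z' H' k j 1_I` at `o 0` and `1_I` at `o i`,
    `0 < i < ℓ`; downstairs `t · regLoc51 u z H k j 1_I` (`t ≠ 0` a normalising constant);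
  - outside the level: the convolution products (`vol GL₂(𝒪) = 1`) of the spherical components
    (unit components where a pair has no component);
  - at infinity: the convolution products for `μc`.
* **`GlobProdC51`** (NODE, global: Haar splitting, Fubini, cosets): there is a constant `c ≠ 0`
  (the quotient of the normalising constants of the two Haar measures) such that the members are
  averages of pure tensors of shape `LocProd51 … t` with the constant `a c / t` downstairs.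
* **`LocProdC51`** (NODE, local): there is `t ≠ 0` (`= [I : U(m_u)]^(ℓ-1)`) such that the shape
  `LocProd51 … t` implies the local hypotheses `LocHyp893` of the matching theorem.  It is cut
  place by place and clause by clause (second top).
* `UnramC51`, `LevelAtC51`, `LevelUniqC51`: bookkeeping on levels.

FALSITY CHECKS (helper51).  (a) Constants: upstairs the relation has no constant, so the
normalising constant of `conv` upstairs goes into the measure of the parameter space; downstairs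
the constant is `a · c_G / c'_G`, divided by `t` when the component at `u` is multiplied by `t`.
All constants depend on `(B, 𝔫, μc)` only: the levels are `0` outside `T₀`, so the local Haar
measures with `vol U(n_w) = 1` do not depend on `T`.  (b) At the places of the level the first
pair has unit components and the components of the second pair are bi-invariant under the
(smaller) groups of the level `𝔫`: the product has the components of the operated second pair.
(c) The sum over `Hg` of the translates of the unit components at the bad places is the product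
of the double coset functions (`g` is trivial outside the bad places; the other components are
invariant).  (d) `regLoc51` is defined with the coset systems of the pre-data; it does not depend
on them (sums over `I t I / I` of translates of left `I`-invariant functions), so upstairs and
downstairs agree under the identifications at the split place `u`.  (e) The inert clause at `u`
is void (`ℓ ≥ 3` places over `u`).
-/

set_option autoImplicit false

open AutomorphicForm IsDedekindDomain NumberField MeasureTheory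
open scoped ComplexConjugate

noncomputable section

namespace Fermat.Agent.LT.T7.P51

open Fermat.Agent.LT.H556 Fermat.Agent.LT.H556.A0 Fermat.Agent.LT.T7
open Fermat.Agent.LT.T7.H305 Fermat.Agent.LT.T7.H893

attribute [local instance] Fermat.Agent.LT.T5.instMeasurableSpaceG

/-! ## 1. The local operators -/

section LocalOps

variable {K : Type} [Field K] [NumberField K]

/-- The local form of `H893.iwL`: the normalised sum of the left translates by the components
at `w` of the elements of `H`. -/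
def iwLoc51 (w : HeightOneSpectrum (𝓞 K)) (H : Finset (G K))
    (φ : GL (Fin 2) (w.adicCompletion K) → ℂ) : GL (Fin 2) (w.adicCompletion K) → ℂ :=
  fun y => ((Real.sqrt (Ideal.absNorm w.asIdeal : ℝ) : ℝ) : ℂ)⁻¹
    * ∑ h ∈ H, φ ((finGL305 w h)⁻¹ * y)

/-- The local form of `H893.regL`: `regLoc51 w z H k j φ = ltr (z_w ^ k) ((iwLoc51 w H)^[j] φ)`. -/
def regLoc51 (w : HeightOneSpectrum (𝓞 K)) (z : G K) (H : Finset (G K)) (k : ℤ) (j : ℕ)
    (φ : GL (Fin 2) (w.adicCompletion K) → ℂ) : GL (Fin 2) (w.adicCompletion K) → ℂ :=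
  fun y => ((iwLoc51 w H)^[j] φ) ((finGL305 w z ^ k)⁻¹ * y)

end LocalOps

/-! ## 2. The clauses of `LocHyp893` at one place -/

section Clauses

variable {K K' : Type} [Field K] [NumberField K] [Field K'] [NumberField K'] [Algebra K K']

/-- The body of the clause `inert` of `H893.LocHyp893` at the place `v` (verbatim). -/
def InertAt51 (D : CompData K K')
    (n : HeightOneSpectrum (𝓞 K') → ℕ) (m : HeightOneSpectrum (𝓞 K) → ℕ)
    (φ₀ : ∀ w : HeightOneSpectrum (𝓞 K'), GL (Fin 2) (w.adicCompletion K') → ℂ)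
    (f₀ : ∀ v : HeightOneSpectrum (𝓞 K), GL (Fin 2) (v.adicCompletion K) → ℂ)
    (v : HeightOneSpectrum (𝓞 K)) : Prop :=
  ∀ w : HeightOneSpectrum (𝓞 K'), PlaceOver K K' v w →
    (∀ w' : HeightOneSpectrum (𝓞 K'), PlaceOver K K' v w' → w' = w) →
    ∀ (e : ℕ) (i : v.adicCompletion K →+* w.adicCompletion K')
      (sw : w.adicCompletion K' ≃+* w.adicCompletion K'),
      (∀ x : K, i (algebraMap K (v.adicCompletion K) x)
        = algebraMap K' (w.adicCompletion K') (algebraMap K K' x)) →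
      (∀ y : K', sw (algebraMap K' (w.adicCompletion K') y)
        = algebraMap K' (w.adicCompletion K') (D.s.σ y)) →
      T6.IsLocalExt (v.adicCompletion K) (w.adicCompletion K') D.l e i sw →
      (∀ (δ : GL (Fin 2) (w.adicCompletion K')) (γ : GL (Fin 2) (v.adicCompletion K))
          (c c' : ℂ), T6.IsReg γ →
          IsConj (T6.twNorm sw D.l δ) (Matrix.GeneralLinearGroup.map i γ) →
          T6.IsTwOrbSum sw (n w) (φ₀ w) δ c → T6.IsOrbSum (m v) (f₀ v) γ c' → c = c') ∧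
        ∀ (γ : GL (Fin 2) (v.adicCompletion K)) (c' : ℂ), T6.IsReg γ →
          ¬ T6.IsNormFrom D.l i sw γ → T6.IsOrbSum (m v) (f₀ v) γ c' → c' = 0

/-- The body of the clause `split` of `H893.LocHyp893` at the place `v` (verbatim). -/
def SplitAt51 (D : CompData K K')
    (n : HeightOneSpectrum (𝓞 K') → ℕ) (m : HeightOneSpectrum (𝓞 K) → ℕ)
    (φ₀ : ∀ w : HeightOneSpectrum (𝓞 K'), GL (Fin 2) (w.adicCompletion K') → ℂ)
    (f₀ : ∀ v : HeightOneSpectrum (𝓞 K), GL (Fin 2) (v.adicCompletion K) → ℂ)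
    (v : HeightOneSpectrum (𝓞 K)) : Prop :=
  (∃ w₁ w₂ : HeightOneSpectrum (𝓞 K'),
      PlaceOver K K' v w₁ ∧ PlaceOver K K' v w₂ ∧ w₁ ≠ w₂) →
    ∃ (w : ℕ → HeightOneSpectrum (𝓞 K'))
      (i : ∀ j : ℕ, v.adicCompletion K ≃+* (w j).adicCompletion K'),
      (∀ j : ℕ, PlaceOver K K' v (w j)) ∧ (∀ j : ℕ, T5.PlaceRel D.s (w (j + 1)) (w j)) ∧
      (∀ j : ℕ, 0 < j → j < D.l → w j ≠ w 0) ∧
      (∀ (j : ℕ) (x : K), i j (algebraMap K (v.adicCompletion K) x)
        = algebraMap K' ((w j).adicCompletion K') (algebraMap K K' x)) ∧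
      (∀ (j : ℕ) (x : v.adicCompletion K), Valued.v (i j x) = Valued.v x) ∧
      (∀ j : ℕ, n (w j) = m v) ∧
        T6.IsConvProd (T6.InU (m v)) D.l
          (fun j g => φ₀ (w j)
            (Matrix.GeneralLinearGroup.map ((i j : v.adicCompletion K ≃+* _) :
              v.adicCompletion K →+* (w j).adicCompletion K') g))
          (f₀ v)

/-- The clauses `inv_up`, `inv_down` of `H893.LocHyp893` at the place `v`. -/
def RegAt51 (n : HeightOneSpectrum (𝓞 K') → ℕ) (m : HeightOneSpectrum (𝓞 K) → ℕ)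
    (φ₀ : ∀ w : HeightOneSpectrum (𝓞 K'), GL (Fin 2) (w.adicCompletion K') → ℂ)
    (f₀ : ∀ v : HeightOneSpectrum (𝓞 K), GL (Fin 2) (v.adicCompletion K) → ℂ)
    (v : HeightOneSpectrum (𝓞 K)) : Prop :=
  (∀ w : HeightOneSpectrum (𝓞 K'), PlaceOver K K' v w →
      T6.IsBiInv (T6.InU (n w)) (φ₀ w) ∧ T6.HasFinSupp (T6.InU (n w)) (φ₀ w)) ∧
    T6.IsBiInv (T6.InU (m v)) (f₀ v) ∧ T6.HasFinSupp (T6.InU (m v)) (f₀ v)

/-- The clauses `arch_up`, `arch_down` of `H893.LocHyp893`. -/
def RegArch51 (Φ : InfinitePlace K' → GL (Fin 2) ℂ → ℂ)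
    (F : InfinitePlace K → GL (Fin 2) ℂ → ℂ) : Prop :=
  (∀ w : InfinitePlace K', Continuous (Φ w) ∧ HasCompactSupport (Φ w) ∧
      ∀ g : GL (Fin 2) ℂ, Φ w (conjGL305 g) = Φ w g) ∧
    ∀ v : InfinitePlace K, Continuous (F v) ∧ HasCompactSupport (F v) ∧
      ∀ g : GL (Fin 2) ℂ, F v (conjGL305 g) = F v g

/-- The clause `arch` of `H893.LocHyp893`. -/
def ArchAt51 (D : CompData K K') (μc : @Measure (GL (Fin 2) ℂ) (borel _))
    (Φ : InfinitePlace K' → GL (Fin 2) ℂ → ℂ)
    (F : InfinitePlace K → GL (Fin 2) ℂ → ℂ) : Prop :=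
  ∀ (v : InfinitePlace K) (w : ℕ → InfinitePlace K'),
    (∀ j : ℕ, (w j).comap (algebraMap K K') = v) →
    (∀ j j' : ℕ, j < D.l → j' < D.l → w j = w j' → j = j') →
    F v = convL305 μc (fun j => Φ (w j)) (D.l - 1)

end Clauses

/-! ## 3. The context and the local shape of the products -/

section Shape

variable {K K' : Type} [Field K] [NumberField K] [Field K'] [NumberField K'] [Algebra K K']

/-- **THE CONTEXT** of the node `H893.ProdMtCb`: the hypotheses on `(ℓ, Φ, B, g, 𝔫, μc)` and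
the local data `(T₀, n, n₀, m)` of the level. -/
structure IsCtx51 (ℓ : ℕ) (Φ : HeckeEigensystem K' ℂ) (B : L2Base K K') (g : G K')
    (𝔫 : Ideal (𝓞 K)) (μc : @Measure (GL (Fin 2) ℂ) (borel _))
    (T₀ : Finset (HeightOneSpectrum (𝓞 K)))
    (n n₀ : HeightOneSpectrum (𝓞 K') → ℕ) (m : HeightOneSpectrum (𝓞 K) → ℕ) : Prop where
  cyc : IsCycExt K K' ℓ
  ne2 : ℓ ≠ 2
  tc : TotCplx K
  base : IsL2Base ℓ Φ B
  ram : B.RamIn
  bad : B.IsBad g
  haar : @Measure.IsHaarMeasure _ _ _ (borel _) μc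
  mem_T₀ : ∀ v : HeightOneSpectrum (𝓞 K), v ∈ T₀ ↔ v.asIdeal ∣ 𝔫
  lev_m : IsLevelOf893 𝔫 m
  lev_n : IsLevelOf893 (upI (K' := K') 𝔫) n
  lev_n₀ : IsLevelOf893 B.𝔑₀ n₀

/-- **THE LEVEL AND THE COSET SYSTEMS** (the fields of `H893.IsL2PreOp` which are used by the
local calculus). -/
structure IsSys51 (B : L2Base K K') (𝔫 : Ideal (𝓞 K))
    (H' : Finset (G K')) (z' : G K') (H : Finset (G K)) (z : G K) : Prop where
  level_ne : 𝔫 ≠ ⊥
  level_g : upI (K' := K') 𝔫 ≤ B.𝔑₀
  mem_S'_g : ∀ w : HeightOneSpectrum (𝓞 K'), w ∈ B.S' ↔ w.asIdeal ∣ upI (K' := K') 𝔫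
  u_level : B.u.asIdeal ∣ 𝔫
  sys' : IsIwCosetSystem (B.o 0) H'
  unif' : IsScalarUniformizerAt (B.o 0) z'
  sys : IsIwCosetSystem B.u H
  unif : IsScalarUniformizerAt B.u z

open Classical in
/-- **THE LOCAL SHAPE OF THE PRODUCTS.**  `(φ₀, Φ, f₀, F)` are the components of the product of
a pure tensor of shape `LocA893` (first pair) with the operated pure tensor of shape `LocB893b`
(second pair); `t` is the normalising constant of the component downstairs at `u`. -/
def LocProd51 (B : L2Base K K') (g : G K') (𝔫 : Ideal (𝓞 K))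
    (μc : @Measure (GL (Fin 2) ℂ) (borel _)) (T₀ : Finset (HeightOneSpectrum (𝓞 K)))
    (n n₀ : HeightOneSpectrum (𝓞 K') → ℕ) (m : HeightOneSpectrum (𝓞 K) → ℕ)
    (H' : Finset (G K')) (z' : G K') (H : Finset (G K)) (z : G K) (t : ℂ) (k : ℤ) (j : ℕ) :
    LocCond K K' :=
  fun T φ₀ Φ f₀ F =>
    ∃ (T₁ T₂ : Finset (HeightOneSpectrum (𝓞 K)))
      (φ₁ : ∀ w : HeightOneSpectrum (𝓞 K'), GL (Fin 2) (w.adicCompletion K') → ℂ)
      (Φ₁ : InfinitePlace K' → GL (Fin 2) ℂ → ℂ)
      (f₁ : ∀ v : HeightOneSpectrum (𝓞 K), GL (Fin 2) (v.adicCompletion K) → ℂ)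
      (F₁ : InfinitePlace K → GL (Fin 2) ℂ → ℂ)
      (φ₂ : ∀ w : HeightOneSpectrum (𝓞 K'), GL (Fin 2) (w.adicCompletion K') → ℂ)
      (Φ₂ : InfinitePlace K' → GL (Fin 2) ℂ → ℂ)
      (f₂ : ∀ v : HeightOneSpectrum (𝓞 K), GL (Fin 2) (v.adicCompletion K) → ℂ)
      (F₂ : InfinitePlace K → GL (Fin 2) ℂ → ℂ),
      T = T₁ ∪ T₂ ∧ T₀ ⊆ T₁ ∧ T₀ ⊆ T₂ ∧
      LocA893 B 𝔫 μc T₀ n m T₁ φ₁ Φ₁ f₁ F₁ ∧
      LocB893b B g 𝔫 μc T₀ n n₀ m T₂ φ₂ Φ₂ f₂ F₂ ∧
      -- the bad places
      (∀ v ∈ T₀, v ≠ B.u → f₀ v = f₂ v ∧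
        ∀ w : HeightOneSpectrum (𝓞 K'), PlaceOver K K' v w →
          φ₀ w = dblFn893 (n₀ w) (finGL305 w g)) ∧
      -- the orbit
      (f₀ B.u = fun x => t * regLoc51 B.u z H k j iwFn893 x) ∧
      φ₀ (B.o 0) = regLoc51 (B.o 0) z' H' k j iwFn893 ∧
      (∀ i : ℕ, 0 < i → i < B.l → φ₀ (B.o i) = iwFn893) ∧
      -- outside the level
      (∀ v ∈ T, v ∉ T₀ →
        T6.IsConv (T6.InU 0) (if v ∈ T₁ then f₁ v else unitFn893 0)
          (if v ∈ T₂ then f₂ v else unitFn893 0) (f₀ v) ∧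
        ∀ w : HeightOneSpectrum (𝓞 K'), PlaceOver K K' v w →
          T6.IsConv (T6.InU 0) (if v ∈ T₁ then φ₁ w else unitFn893 0)
            (if v ∈ T₂ then φ₂ w else unitFn893 0) (φ₀ w)) ∧
      -- at infinity
      (∀ w : InfinitePlace K', Φ w = @T6.convInt _ _ (borel _) μc (Φ₁ w) (Φ₂ w)) ∧
      ∀ v : InfinitePlace K, F v = @T6.convInt _ _ (borel _) μc (F₁ v) (F₂ v)

end Shape

/-! ## 4. The nodes and the leaves -/

section Nodes

variable (K K' : Type) [Field K] [NumberField K] [Field K'] [NumberField K'] [Algebra K K']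

/-- **NODE P.G = GLOB-PROD (global: Haar splitting, Fubini, coset systems).**  In the context
there is a constant `c ≠ 0` such that for all `t, a ≠ 0` and all pre-data of level `𝔫` with the
operator properties whose base functions are averages of pure tensors of the shapes `LocA893`
(constant `1`) and `LocB893b` (constant `a`), the members `E.up B X k j`, `E.down B X k j` are
averages of pure tensors of the shape `LocProd51 … t k j` with the constant `a c / t`.
Proof.  `conv` of two averages is the average over the product of the parameter spaces of the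
`conv`s (Fubini; joint continuity, one compact support); `lsum Hg`, `regL` commute with the
averages; `lsum Hg (regL …)` of a pure tensor with unit components at the bad places and Iwahori
components along the orbit is the pure tensor with the double coset functions of `g` and
`regLoc51` at `o 0` (the elements of the coset systems are trivial at the other places, resp.
in the groups under which the other components are invariant); `conv` of two pure tensors is a
constant times the pure tensor of the local convolutions (`H305.HaarSplitC305`, closed; kit of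
helper947 `T7/H947/{ProdFormula,PureGlue}.lean`); the constant upstairs is put into the measure
of the parameter space; unit times a bi-invariant function is the function; every member is a
test function (`conv` of test functions, left translates). -/
def GlobProdC51 : Prop :=
  ∀ (ℓ : ℕ) (Φ : HeckeEigensystem K' ℂ) (B : L2Base K K') (g : G K') (𝔫 : Ideal (𝓞 K))
    (μc : @Measure (GL (Fin 2) ℂ) (borel _)) (T₀ : Finset (HeightOneSpectrum (𝓞 K)))
    (n n₀ : HeightOneSpectrum (𝓞 K') → ℕ) (m : HeightOneSpectrum (𝓞 K) → ℕ),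
    IsCtx51 ℓ Φ B g 𝔫 μc T₀ n n₀ m →
    ∃ c : ℂ, c ≠ 0 ∧ ∀ t a : ℂ, t ≠ 0 → a ≠ 0 →
      ∀ E : L2Pre K K', E.𝔫 = 𝔫 → IsL2PreOp ℓ Φ B g E →
        (∀ X : List (Gen K'), (∀ x ∈ X, x.Out B.S') →
          IsAvgPure (upI (K' := K') 𝔫) 𝔫 T₀ (LocA893 B 𝔫 μc T₀ n m) 1 (E.Φ₁ X) (E.F₁ X)) →
        IsAvgPure (upI (K' := K') 𝔫) 𝔫 T₀ (LocB893b B g 𝔫 μc T₀ n n₀ m) a E.φ₂ E.f₂ →
        ∀ (X : List (Gen K')) (k : ℤ) (j : ℕ), (∀ x ∈ X, x.Out B.S') →
          IsAvgPure (upI (K' := K') 𝔫) 𝔫 T₀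
            (LocProd51 B g 𝔫 μc T₀ n n₀ m E.H' E.z' E.H E.z t k j) (a * c / t)
            (E.up B X k j) (E.down B X k j)

/-- **NODE P.L = LOC-PROD (local).**  In the context there is `t ≠ 0` such that the shape
`LocProd51 … t k j` implies the local hypotheses `H893.LocHyp893` of the matching theorem. -/
def LocProdC51 : Prop :=
  ∀ (ℓ : ℕ) (Φ : HeckeEigensystem K' ℂ) (B : L2Base K K') (g : G K') (𝔫 : Ideal (𝓞 K))
    (μc : @Measure (GL (Fin 2) ℂ) (borel _)) (T₀ : Finset (HeightOneSpectrum (𝓞 K)))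
    (n n₀ : HeightOneSpectrum (𝓞 K') → ℕ) (m : HeightOneSpectrum (𝓞 K) → ℕ),
    IsCtx51 ℓ Φ B g 𝔫 μc T₀ n n₀ m →
    ∃ t : ℂ, t ≠ 0 ∧
      ∀ (H' : Finset (G K')) (z' : G K') (H : Finset (G K)) (z : G K),
        IsSys51 B 𝔫 H' z' H z →
        ∀ (k : ℤ) (j : ℕ) (T : Finset (HeightOneSpectrum (𝓞 K)))
          (φ₀ : ∀ w : HeightOneSpectrum (𝓞 K'), GL (Fin 2) (w.adicCompletion K') → ℂ)
          (Φ' : InfinitePlace K' → GL (Fin 2) ℂ → ℂ)
          (f₀ : ∀ v : HeightOneSpectrum (𝓞 K), GL (Fin 2) (v.adicCompletion K) → ℂ)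
          (F : InfinitePlace K → GL (Fin 2) ℂ → ℂ),
          LocProd51 B g 𝔫 μc T₀ n n₀ m H' z' H z t k j T φ₀ Φ' f₀ F →
          LocHyp893 (B.comp 𝔫) μc T n m φ₀ Φ' f₀ F

/-- **LEAF P.1 = UNRAM.**  The places outside the level are unramified in `K'` (`RamIn`,
`mem_S'_g`: a place of `K'` which divides `𝔫 𝒪_{K'}` lies over a place which divides `𝔫`). -/
def UnramC51 : Prop :=
  ∀ (B : L2Base K K') (𝔫 : Ideal (𝓞 K)) (T₀ : Finset (HeightOneSpectrum (𝓞 K))),
    B.RamIn → (∀ w : HeightOneSpectrum (𝓞 K'), w ∈ B.S' ↔ w.asIdeal ∣ upI (K' := K') 𝔫) →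
    (∀ v : HeightOneSpectrum (𝓞 K), v ∈ T₀ ↔ v.asIdeal ∣ 𝔫) → UnramOut305 (K' := K') T₀

/-- **LEAF P.2 = LEVEL-AT.**  The exponents of the levels `𝔫`, `𝔫 𝒪_{K'}` vanish outside the
places dividing `𝔫`. -/
def LevelAtC51 : Prop :=
  ∀ (𝔫 : Ideal (𝓞 K)) (T₀ : Finset (HeightOneSpectrum (𝓞 K)))
    (n : HeightOneSpectrum (𝓞 K') → ℕ) (m : HeightOneSpectrum (𝓞 K) → ℕ),
    (∀ v : HeightOneSpectrum (𝓞 K), v ∈ T₀ ↔ v.asIdeal ∣ 𝔫) →
    IsLevelOf893 𝔫 m → IsLevelOf893 (upI (K' := K') 𝔫) n → IsLevelAt305 T₀ n m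

/-- **LEAF P.3 = LEVEL-UNIQ** (one field).  The exponents of a level are unique. -/
def LevelUniqC51 : Prop :=
  ∀ (F : Type) [Field F] [NumberField F] (𝔫 : Ideal (𝓞 F))
    (m m' : HeightOneSpectrum (𝓞 F) → ℕ),
    IsLevelOf893 𝔫 m → IsLevelOf893 𝔫 m' → m = m'

/-! ### The leaves of `LocProdC51` -/

/-- The common hypotheses of the local leaves. -/
def IsLoc51 (ℓ : ℕ) (Φ : HeckeEigensystem K' ℂ) (B : L2Base K K') (g : G K')
    (𝔫 : Ideal (𝓞 K)) (μc : @Measure (GL (Fin 2) ℂ) (borel _))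
    (T₀ : Finset (HeightOneSpectrum (𝓞 K)))
    (n n₀ : HeightOneSpectrum (𝓞 K') → ℕ) (m : HeightOneSpectrum (𝓞 K) → ℕ)
    (H' : Finset (G K')) (z' : G K') (H : Finset (G K)) (z : G K) (t : ℂ) (k : ℤ) (j : ℕ)
    (T : Finset (HeightOneSpectrum (𝓞 K)))
    (φ₀ : ∀ w : HeightOneSpectrum (𝓞 K'), GL (Fin 2) (w.adicCompletion K') → ℂ)
    (Φ' : InfinitePlace K' → GL (Fin 2) ℂ → ℂ)
    (f₀ : ∀ v : HeightOneSpectrum (𝓞 K), GL (Fin 2) (v.adicCompletion K) → ℂ)
    (F : InfinitePlace K → GL (Fin 2) ℂ → ℂ) : Prop :=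
  IsCtx51 ℓ Φ B g 𝔫 μc T₀ n n₀ m ∧ IsSys51 B 𝔫 H' z' H z ∧ t ≠ 0 ∧
    LocProd51 B g 𝔫 μc T₀ n n₀ m H' z' H z t k j T φ₀ Φ' f₀ F

/-- **LEAF P.L1 = REG-ORB.**  Bi-invariance and finite support of the components at the place
`u` and along the orbit (`regLoc51` of the Iwahori function: sums over `I t I / I` of left
translates; `U(n_w) ⊆ I` because `u ∣ 𝔫`). -/
def RegOrbC51 : Prop :=
  ∀ ℓ Φ B g 𝔫 μc T₀ n n₀ m H' z' H z t k j T φ₀ Φ' f₀ F,
    IsLoc51 K K' ℓ Φ B g 𝔫 μc T₀ n n₀ m H' z' H z t k j T φ₀ Φ' f₀ F →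
    RegAt51 n m φ₀ f₀ B.u

/-- **LEAF P.L2 = REG-SPH.**  Bi-invariance under `GL₂(𝒪)` and finite support of the
convolution products of spherical functions, at the places of `T` outside the level. -/
def RegSphC51 : Prop :=
  ∀ ℓ Φ B g 𝔫 μc T₀ n n₀ m H' z' H z t k j T φ₀ Φ' f₀ F,
    IsLoc51 K K' ℓ Φ B g 𝔫 μc T₀ n n₀ m H' z' H z t k j T φ₀ Φ' f₀ F →
    ∀ v ∈ T, v ∉ T₀ → RegAt51 n m φ₀ f₀ v

/-- **LEAF P.L3 = REG-ARCH.**  The convolution products at infinity are continuous, of compact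
support, invariant under the complex conjugation (the Haar measure of `GL₂(ℂ)` is invariant
under the conjugation). -/
def RegArchC51 : Prop :=
  ∀ ℓ Φ B g 𝔫 μc T₀ n n₀ m H' z' H z t k j T φ₀ Φ' f₀ F,
    IsLoc51 K K' ℓ Φ B g 𝔫 μc T₀ n n₀ m H' z' H z t k j T φ₀ Φ' f₀ F →
    RegArch51 Φ' F

/-- **LEAF P.L4 = INERT-SPH (fundamental lemma).**  At an inert place of `T` outside the level
the products are spherical with Satake transforms related by the base change
(multiplicativity of the Satake transform, `T6.IsBC` of the factors), hence matched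
(`T6.FundLemmaC`, closed; the place is unramified: `RamIn`). -/
def InertSphC51 : Prop :=
  ∀ ℓ Φ B g 𝔫 μc T₀ n n₀ m H' z' H z t k j T φ₀ Φ' f₀ F,
    IsLoc51 K K' ℓ Φ B g 𝔫 μc T₀ n n₀ m H' z' H z t k j T φ₀ Φ' f₀ F →
    ∀ v ∈ T, v ∉ T₀ → InertAt51 (B.comp 𝔫) n m φ₀ f₀ v

/-- **LEAF P.L5 = SPLIT-ORB (Iwahori–Hecke algebra at `u`).**  There is `t ≠ 0`
(`= [I : U(m_u)]^(ℓ-1)`, depending on the context only) such that for the shape with this `t`
the clause `split` holds at `u`: the enumeration `w j = o (j (ℓ-1))`, the identifications of the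
completions at the split place `u`, and `t · regLoc51 u z H k j 1_I` is the convolution product
(`vol U(m_u) = 1`) of `regLoc51 (o 0) z' H' k j 1_I` and `ℓ - 1` copies of `1_I`. -/
def SplitOrbC51 : Prop :=
  ∀ (ℓ : ℕ) (Φ : HeckeEigensystem K' ℂ) (B : L2Base K K') (g : G K') (𝔫 : Ideal (𝓞 K))
    (μc : @Measure (GL (Fin 2) ℂ) (borel _)) (T₀ : Finset (HeightOneSpectrum (𝓞 K)))
    (n n₀ : HeightOneSpectrum (𝓞 K') → ℕ) (m : HeightOneSpectrum (𝓞 K) → ℕ),
    IsCtx51 ℓ Φ B g 𝔫 μc T₀ n n₀ m →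
    ∃ t : ℂ, t ≠ 0 ∧
      ∀ H' z' H z k j T φ₀ Φ' f₀ F,
        IsLoc51 K K' ℓ Φ B g 𝔫 μc T₀ n n₀ m H' z' H z t k j T φ₀ Φ' f₀ F →
        SplitAt51 (B.comp 𝔫) n m φ₀ f₀ B.u

/-- **LEAF P.L6 = SPLIT-SPH.**  At a split place of `T` outside the level: an enumeration of
the places over it, identifications of the completions, and the component downstairs is the
convolution product of the components upstairs (the Satake transform is multiplicative and
injective; clause `split` of `SphOut893` for the factors). -/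
def SplitSphC51 : Prop :=
  ∀ ℓ Φ B g 𝔫 μc T₀ n n₀ m H' z' H z t k j T φ₀ Φ' f₀ F,
    IsLoc51 K K' ℓ Φ B g 𝔫 μc T₀ n n₀ m H' z' H z t k j T φ₀ Φ' f₀ F →
    ∀ v ∈ T, v ∉ T₀ → SplitAt51 (B.comp 𝔫) n m φ₀ f₀ v

/-- **LEAF P.L7 = ARCH-PROD (Gelfand pair).**  At infinity: the convolution algebra of the
continuous bi-`U(2)`-invariant functions of compact support on `GL₂(ℂ)` is commutative and
associative, so the product of the convolution products is the convolution product of the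
products. -/
def ArchProdC51 : Prop :=
  ∀ ℓ Φ B g 𝔫 μc T₀ n n₀ m H' z' H z t k j T φ₀ Φ' f₀ F,
    IsLoc51 K K' ℓ Φ B g 𝔫 μc T₀ n n₀ m H' z' H z t k j T φ₀ Φ' f₀ F →
    ArchAt51 (B.comp 𝔫) μc Φ' F

end Nodes

end Fermat.Agent.LT.T7.P51

end

end
-- ===== PACK-END LT/T7/P51/ProdMtSpec.lean

-- ===== PACK-BEGIN LT/T7/H644/ProdBook.lean
section



/-!
# Row LT, tower T7, node `ProdMtCb` (spare cut of helper51): the three BOOKKEEPING leaves

OFF-MAIN.  Spec: `T7/P51/ProdMtSpec.lean` (helper51@818b57489, sha256 4b4a6c6c).  Imports ONLY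
Mathlib and the Spec.

    unramC644     (K K') : P51.UnramC51 K K'         VERBATIM, UNCONDITIONAL
    levelAtC644   (K K') : P51.LevelAtC51 K K'       VERBATIM, UNCONDITIONAL
    levelUniqC644        : P51.LevelUniqC51          VERBATIM, UNCONDITIONAL
-/

set_option autoImplicit false
set_option linter.unusedSectionVars false
set_option linter.deprecated false

open AutomorphicForm IsDedekindDomain NumberField WithZero

noncomputable section

namespace Fermat.Agent.LT.T7.H644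

open Fermat.Agent.LT.H556 Fermat.Agent.LT.H556.A0 Fermat.Agent.LT.T7
open Fermat.Agent.LT.T7.H305 Fermat.Agent.LT.T7.H893

section OneField

variable {F : Type} [Field F] [NumberField F]

/-- The valuation in the completion of the image of an integer. -/
theorem valued_int_book644 (v : HeightOneSpectrum (𝓞 F)) (a : 𝓞 F) :
    Valued.v (algebraMap F (v.adicCompletion F) (algebraMap (𝓞 F) F a)) = v.intValuation a := by
  have h : Valued.v (algebraMap F (v.adicCompletion F) (algebraMap (𝓞 F) F a))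
      = v.valuation F (algebraMap (𝓞 F) F a) :=
    HeightOneSpectrum.valuedAdicCompletion_eq_valuation' v _
  rw [h, HeightOneSpectrum.valuation_of_algebraMap]

/-- The exponent of a level vanishes at a place which does not contain the level. -/
theorem level_zero_book644 {𝔫 : Ideal (𝓞 F)} {m : HeightOneSpectrum (𝓞 F) → ℕ}
    (hm : IsLevelOf893 𝔫 m) (v : HeightOneSpectrum (𝓞 F)) (a : 𝓞 F) (ha : a ∈ 𝔫)
    (hav : a ∉ v.asIdeal) : m v = 0 := by
  have h1 : algebraMap F (v.adicCompletion F) (algebraMap (𝓞 F) F a) ∈ idealClosure 𝔫 v :=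
    subset_closure ⟨a, ha, rfl⟩
  have h2 := (hm v _).1 h1
  rw [valued_int_book644] at h2
  have h3 : v.intValuation a = 1 := by
    by_contra hne
    exact hav ((HeightOneSpectrum.intValuation_lt_one_iff_mem v a).1
      (lt_of_le_of_ne (HeightOneSpectrum.intValuation_le_one v a) hne))
  rw [h3, ← exp_zero, exp_le_exp] at h2
  omega

/-- An element of the level outside the place. -/
theorem exists_not_mem_book644 {𝔫 : Ideal (𝓞 F)} {v : HeightOneSpectrum (𝓞 F)}
    (h : ¬ v.asIdeal ∣ 𝔫) : ∃ a : 𝓞 F, a ∈ 𝔫 ∧ a ∉ v.asIdeal := by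
  by_contra hcon
  push Not at hcon
  exact h (Ideal.dvd_iff_le.2 fun a ha => hcon a ha)

end OneField

variable (K K' : Type) [Field K] [NumberField K] [Field K'] [NumberField K'] [Algebra K K']

/-- **LEAF P.3 = LEVEL-UNIQ** (`P51.LevelUniqC51`, VERBATIM). -/
theorem levelUniqC644 : P51.LevelUniqC51 := by
  intro F _ _ 𝔫 m m' hm hm'
  funext v
  obtain ⟨π, hπ⟩ := v.valuation_exists_uniformizer F
  have key : ∀ (a b : HeightOneSpectrum (𝓞 F) → ℕ), IsLevelOf893 𝔫 a → IsLevelOf893 𝔫 b →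
      b v ≤ a v := by
    intro a b ha hb
    set x : v.adicCompletion F := algebraMap F (v.adicCompletion F) (π ^ (a v)) with hx
    have hval : Valued.v x = exp (-(a v : ℤ)) := by
      have h : Valued.v (algebraMap F (v.adicCompletion F) (π ^ (a v)))
          = v.valuation F (π ^ (a v)) :=
        HeightOneSpectrum.valuedAdicCompletion_eq_valuation' v _
      rw [hx, h, map_pow, hπ, ← exp_nsmul]
      congr 1
      simp
    have h1 : x ∈ idealClosure 𝔫 v := (ha v x).2 (le_of_eq hval)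
    have h2 := (hb v x).1 h1
    rw [hval, exp_le_exp] at h2
    omega
  exact le_antisymm (key m' m hm' hm) (key m m' hm hm')

/-- **LEAF P.2 = LEVEL-AT** (`P51.LevelAtC51 K K'`, VERBATIM). -/
theorem levelAtC644 : P51.LevelAtC51 K K' := by
  intro 𝔫 T₀ n m hT₀ hm hn
  refine ⟨fun v hv => ?_, fun v w hv hvw => ?_⟩
  · obtain ⟨a, ha, hav⟩ := exists_not_mem_book644 (fun h => hv ((hT₀ v).2 h))
    exact level_zero_book644 hm v a ha hav
  · obtain ⟨a, ha, hav⟩ := exists_not_mem_book644 (fun h => hv ((hT₀ v).2 h))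
    refine level_zero_book644 hn w (algebraMap (𝓞 K) (𝓞 K') a) (Ideal.mem_map_of_mem _ ha) ?_
    intro hmem
    exact hav ((hvw a (algebraMap (𝓞 K) (𝓞 K') a) rfl).2 hmem)

/-- **LEAF P.1 = UNRAM** (`P51.UnramC51 K K'`, VERBATIM). -/
theorem unramC644 : P51.UnramC51 K K' := by
  intro B 𝔫 T₀ hram hS' hT₀ v hv w hvw
  refine hram v w hvw (fun hw => hv ((hT₀ v).2 ?_))
  have h1 : upI (K' := K') 𝔫 ≤ w.asIdeal := Ideal.dvd_iff_le.1 ((hS' w).1 hw)
  rw [Ideal.dvd_iff_le]
  intro a ha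
  have h2 : algebraMap (𝓞 K) (𝓞 K') a ∈ w.asIdeal := h1 (Ideal.mem_map_of_mem _ ha)
  exact (hvw a (algebraMap (𝓞 K) (𝓞 K') a) rfl).2 h2

end Fermat.Agent.LT.T7.H644

end

end
-- ===== PACK-END LT/T7/H644/ProdBook.lean

-- ===== PACK-BEGIN LT/T7/H736/Port/BlocksAsm.lean
section



/-!
# Row LT, tower T7, leaf T7.L2.2.B7 `BlocksAsmC561` IN CORE FORM (port by helper736)

OFF-MAIN.  PROVED: `blocksAsmC157 : CU736.BlocksAsmC561 K'` (core form, over `K'` alone; the
forms of record `UB675.BlocksAsmUC675` / `H865.BlocksAsmUC865` follow by `GL736.blocksAsm_cu_r`,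
`blocksAsm_r_d` of `T7/H736/Core/Glue.lean`).  No hole, nothing assumed.  ADDITIVE.

MECHANICAL PORT of the proof of helper157 (`T7/H157/BlkClass.lean` aa4f8b87, section `Class`, and
`T7/H157/BlocksAsm.lean` db7709fd) onto `H29.UpData K'` / `H29.IsUpData`: the same text after the
substitution of the header of `T7/H736/Core/Blocks.lean`.  His lemmas over ONE field
(`BlkLin.lean`, `BlkEig.lean`, first half of `BlkClass.lean`) are used as they are.
-/

set_option autoImplicit false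
set_option linter.unusedSectionVars false
set_option linter.unusedVariables false

open AutomorphicForm IsDedekindDomain NumberField MeasureTheory
open scoped ComplexConjugate Matrix

noncomputable section

namespace Fermat.Agent.LT.T7.PU736

open Fermat.Agent.LT.H556 Fermat.Agent.LT.H556.A0 Fermat.Agent.LT.T7
open Fermat.Agent.LT.T7.H157 Fermat.Agent.LT.T7.CU736

attribute [local instance] Fermat.Agent.LT.T5.instMeasurableSpaceG

section Class

variable {K' : Type} [Field K'] [NumberField K']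

/-- The context of one class. -/
structure Ctx157 (ℓ : ℕ) (Φ : HeckeEigensystem K' ℂ) (U : H29.UpData K') (g : G K')
    (Hs : ℕ → Finset (G K')) (ω' : ℕ → G K') (Hg : Finset (G K')) (C : EigData K') (n : ℕ)
    (v : Fin n → G K' → ℂ) : Prop where
  data : H29.IsUpData ℓ Φ U
  bad : U.IsBad g
  ops : IsWOps561 U ℓ g Hs ω' Hg
  basis : IsClassBasis561 U ℓ C n v

variable {ℓ : ℕ} {Φ : HeckeEigensystem K' ℂ} {U : H29.UpData K'} {g : G K'}
  {Hs : ℕ → Finset (G K')} {ω' : ℕ → G K'} {Hg : Finset (G K')} {C : EigData K'} {n : ℕ}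
  {v : Fin n → G K' → ℂ}

theorem finite_of_data157 (hU : H29.IsUpData ℓ Φ U) (hg : U.IsBad g) :
    U.R'.μ U.R'.F < ⊤ :=
  hU.frame'.frame.finite

namespace Ctx157

variable (h : _root_.Fermat.Agent.LT.T7.PU736.Ctx157 ℓ Φ U g Hs ω' Hg C n v)
include h

theorem on : IsON157 U.R'.μ U.R'.F v :=
  ⟨_root_.Fermat.Agent.LT.T7.PU736.finite_of_data157 h.data h.bad, fun a => nice_of_cusp157 (h.basis.eig a).inv.cusp,
    h.basis.orth⟩

theorem wfn (a : Fin n) : IsWFn U.𝔑₀ U.R'.r ℓ U.o (v a) := (h.basis.eig a).inv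

/-- The matrix of an operator which maps the class into a class agreeing with it. -/
theorem rep_of_eig (T : (G K' → ℂ) → (G K' → ℂ)) (C' : EigData K')
    (hT : ∀ a, IsEigFn U.𝔑₀ U.R'.r ℓ U.o (T (v a)) C') (hC : C'.AgreeOut U.S' C) :
    Rep157 v T (mat157 U.R'.μ U.R'.F v T) :=
  rep_of_span157 h.on T fun a => h.basis.span _ C' (hT a) hC

theorem repS (j : ℕ) :
    Rep157 v (cosetOp (Hs j)) (mat157 U.R'.μ U.R'.F v (cosetOp (Hs j))) :=
  h.rep_of_eig _ C (fun a => h.ops.S_eig j _ _ (h.basis.eig a)) (agreeOut_refl157 _ _)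

theorem repρ (j : ℕ) :
    Rep157 v (H561.trOp561 (ω' j)) (mat157 U.R'.μ U.R'.F v (H561.trOp561 (ω' j))) :=
  h.rep_of_eig _ C (fun a => h.ops.ρ_eig j _ _ (h.basis.eig a)) (agreeOut_refl157 _ _)

theorem repB : Rep157 v (cosetOp Hg) (mat157 U.R'.μ U.R'.F v (cosetOp Hg)) :=
  h.rep_of_eig _ C (fun a => h.ops.B_eig _ _ (h.basis.eig a)) (agreeOut_refl157 _ _)

theorem repA (σC : EigData K' → EigData K')
    (hσe : ∀ (ψ : G K' → ℂ) (C : EigData K'), IsEigFn U.𝔑₀ U.R'.r ℓ U.o ψ C →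
      IsEigFn U.𝔑₀ U.R'.r ℓ U.o (T5.Rsig U.s ψ) (σC C))
    (hst : (σC C).AgreeOut U.S' C) :
    Rep157 v (T5.Rsig U.s) (mat157 U.R'.μ U.R'.F v (T5.Rsig U.s)) :=
  h.rep_of_eig _ (σC C) (fun a => hσe _ _ (h.basis.eig a)) hst

theorem ρ_unit (j : ℕ) :
    (mat157 U.R'.μ U.R'.F v (H561.trOp561 (ω' j)))ᴴ * mat157 U.R'.μ U.R'.F v (H561.trOp561 (ω' j))
      = 1 := by
  ext b a
  have e := h.ops.ρ_iso j (v a) (v b) (h.wfn a) (h.wfn b)
  rw [h.repρ j a, h.repρ j b, h.on.inner_lin_lin, h.basis.orth] at e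
  rw [Matrix.mul_apply, Matrix.one_apply]
  have e2 : ∀ c, (mat157 U.R'.μ U.R'.F v (H561.trOp561 (ω' j)))ᴴ b c
        * mat157 U.R'.μ U.R'.F v (H561.trOp561 (ω' j)) c a
      = mat157 U.R'.μ U.R'.F v (H561.trOp561 (ω' j)) c a
        * conj (mat157 U.R'.μ U.R'.F v (H561.trOp561 (ω' j)) c b) := by
    intro c
    rw [Matrix.conjTranspose_apply, mul_comm]
    rfl
  simp only [e2]
  rw [e]
  by_cases hab : a = b
  · subst hab
    simp
  · rw [if_neg hab, if_neg (fun hba => hab hba.symm)]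

theorem ρ_det (j : ℕ) : IsUnit (mat157 U.R'.μ U.R'.F v (H561.trOp561 (ω' j))).det :=
  Matrix.isUnit_det_of_left_inverse (h.ρ_unit j)

theorem S_herm (j : ℕ) :
    (mat157 U.R'.μ U.R'.F v (cosetOp (Hs j)))ᴴ = mat157 U.R'.μ U.R'.F v (cosetOp (Hs j)) := by
  ext b a
  rw [Matrix.conjTranspose_apply, mat_apply157, mat_apply157]
  have e := h.ops.S_adj j (v a) (v b) (h.wfn a) (h.wfn b)
  rw [e]
  exact innerD_conj157 _ _ _ _

/-- The Iwahori operator of the translated system. -/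
theorem repIw :
    Rep157 v (iwOp (U.o 0) ((Hs 0).map (mulRightEmbedding (ω' 0))))
      ((((Real.sqrt ((Ideal.absNorm (U.o 0).asIdeal : ℕ) : ℝ) : ℝ) : ℂ)⁻¹)
        • (mat157 U.R'.μ U.R'.F v (cosetOp (Hs 0))
            * mat157 U.R'.μ U.R'.F v (H561.trOp561 (ω' 0)))) :=
  rep_congr157
    (rep_smul157 (rep_comp157 (isLin_coset157 (Hs 0)) (h.repS 0) (h.repρ 0)) _)
    (fun a => iwOp_map157 (U.o 0) (Hs 0) (ω' 0) (v a))

theorem repZ :
    Rep157 v (H561.trOp561 (ω' 0 * ω' 0))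
      (mat157 U.R'.μ U.R'.F v (H561.trOp561 (ω' 0))
        * mat157 U.R'.μ U.R'.F v (H561.trOp561 (ω' 0))) :=
  rep_congr157 (rep_comp157 (isLin_tr157 (ω' 0)) (h.repρ 0) (h.repρ 0))
    (fun a => trOp_mul157 (ω' 0) (ω' 0) (v a))

theorem repT (k : ℤ) (m : ℕ) :
    Rep157 v
      (fun ψ => cosetOp Hg (shiftOp (ω' 0 * ω' 0) k
        ((iwOp (U.o 0) ((Hs 0).map (mulRightEmbedding (ω' 0))))^[m] ψ)))
      (mat157 U.R'.μ U.R'.F v (cosetOp Hg)
        * (mat157 U.R'.μ U.R'.F v (H561.trOp561 (ω' 0))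
            * mat157 U.R'.μ U.R'.F v (H561.trOp561 (ω' 0))) ^ k
        * ((((Real.sqrt ((Ideal.absNorm (U.o 0).asIdeal : ℕ) : ℝ) : ℝ) : ℂ)⁻¹)
            • (mat157 U.R'.μ U.R'.F v (cosetOp (Hs 0))
                * mat157 U.R'.μ U.R'.F v (H561.trOp561 (ω' 0)))) ^ m) := by
  have hU : IsUnit (mat157 U.R'.μ U.R'.F v (H561.trOp561 (ω' 0))
      * mat157 U.R'.μ U.R'.F v (H561.trOp561 (ω' 0))).det := by
    rw [Matrix.det_mul]
    exact (h.ρ_det 0).mul (h.ρ_det 0)
  have r1 := rep_iterate157 (isLin_iw157 (U.o 0) ((Hs 0).map (mulRightEmbedding (ω' 0))))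
    h.repIw m
  have r2 := rep_shift157 h.repZ hU k
  have r3 := rep_comp157 (isLin_coset157 Hg) h.repB
    (rep_comp157 (isLin_shift157 (ω' 0 * ω' 0) k) r2 r1)
  rw [← Matrix.mul_assoc] at r3
  exact r3

end Ctx157

theorem isLin_T157 (Hs : ℕ → Finset (G K')) (ω' : ℕ → G K') (Hg : Finset (G K'))
    (w : HeightOneSpectrum (𝓞 K')) (k : ℤ) (m : ℕ) :
    IsLin157 (fun ψ => cosetOp Hg (shiftOp (ω' 0 * ω' 0) k
        ((iwOp w ((Hs 0).map (mulRightEmbedding (ω' 0))))^[m] ψ))) :=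
  isLin_comp157 (isLin_coset157 Hg)
    (isLin_comp157 (isLin_shift157 _ k) (isLin_iterate157 (isLin_iw157 _ _) m))

/-- The operators of OP-up preserve the eigenfunctions. -/
theorem isEigFn_T157 (hOps : IsWOps561 U ℓ g Hs ω' Hg) {ψ : G K' → ℂ} {C' : EigData K'}
    (hψ : IsEigFn U.𝔑₀ U.R'.r ℓ U.o ψ C') (k : ℤ) (m : ℕ) :
    IsEigFn U.𝔑₀ U.R'.r ℓ U.o
      (cosetOp Hg (shiftOp (ω' 0 * ω' 0) k
        ((iwOp (U.o 0) ((Hs 0).map (mulRightEmbedding (ω' 0))))^[m] ψ))) C' := by
  have h1 : ∀ m : ℕ, IsEigFn U.𝔑₀ U.R'.r ℓ U.o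
      ((iwOp (U.o 0) ((Hs 0).map (mulRightEmbedding (ω' 0))))^[m] ψ) C' := by
    intro m
    induction m with
    | zero => exact hψ
    | succ m ih =>
      rw [Function.iterate_succ_apply', iwOp_map157]
      exact isEigFn_smul157 (hOps.S_eig 0 _ _ (hOps.ρ_eig 0 _ _ ih)) _
  exact hOps.B_eig _ _ (isEigFn_shift157 (h1 m) hOps.unif k)

/-- The hypothesis of `OffWC561`. -/
theorem isWFn_Rconv157 (hU : H29.IsUpData ℓ Φ U) (hg : U.IsBad g)
    (hOps : IsWOps561 U ℓ g Hs ω' Hg) (X : List (Gen K')) (hX : ∀ x ∈ X, x.Out U.S')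
    (k : ℤ) (m : ℕ) (ψ : G K' → ℂ) (C' : EigData K')
    (hψ : IsEigFn U.𝔑₀ U.R'.r ℓ U.o ψ C') :
    IsWFn U.𝔑₀ U.R'.r ℓ U.o (T5.Rconv U.R'.μ (U.φ' g X k m) ψ) := by
  have e : T5.Rconv U.R'.μ (U.φ' g X k m) ψ
      = fun x => (wordEv X C' * U.c g C') * cosetOp Hg (shiftOp (ω' 0 * ω' 0) k
        ((iwOp (U.o 0) ((Hs 0).map (mulRightEmbedding (ω' 0))))^[m] ψ)) x :=
    funext fun x => hU.op_up g X k m hg hX ψ C' hψ Hg _ _ hOps.dbl hOps.iwsys hOps.unif x
  rw [e]
  exact isWFn_smul157 (_root_.Fermat.Agent.LT.T7.PU736.isEigFn_T157 hOps hψ k m).inv _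

end Class

variable {K' : Type} [Field K'] [NumberField K']

variable {ℓ : ℕ} {Φ : HeckeEigensystem K' ℂ} {U : H29.UpData K'} {g : G K'}
  {Hs : ℕ → Finset (G K')} {ω' : ℕ → G K'} {Hg : Finset (G K')} {C : EigData K'} {n : ℕ}
  {v : Fin n → G K' → ℂ}

/-- **The Iwahori--Hecke structure of a stable class.** -/
theorem iwBlock157 (h : _root_.Fermat.Agent.LT.T7.PU736.Ctx157 ℓ Φ U g Hs ω' Hg C n v) (σC : EigData K' → EigData K')
    (hσe : ∀ (ψ : G K' → ℂ) (C : EigData K'), IsEigFn U.𝔑₀ U.R'.r ℓ U.o ψ C →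
      IsEigFn U.𝔑₀ U.R'.r ℓ U.o (T5.Rsig U.s ψ) (σC C))
    (hst : (σC C).AgreeOut U.S' C) :
    H561.IsIwBlock561 ℓ ((Ideal.absNorm (U.o 0).asIdeal : ℕ) : ℝ)
      (mat157 U.R'.μ U.R'.F v (T5.Rsig U.s))
      (U.c g C • mat157 U.R'.μ U.R'.F v (cosetOp Hg))
      (fun j => mat157 U.R'.μ U.R'.F v (cosetOp (Hs j)))
      (fun j => mat157 U.R'.μ U.R'.F v (H561.trOp561 (ω' j))) := by
  have hA := h.repA σC hσe hst
  have hv := h.on
  have lS := fun j => isLin_coset157 (K := K') (Hs j)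
  have lρ := fun j => isLin_tr157 (K := K') (ω' j)
  have lA := isLin_Rsig157 U.s
  have lB := isLin_coset157 Hg
  have hBS : ∀ j, mat157 U.R'.μ U.R'.F v (cosetOp Hg)
        * mat157 U.R'.μ U.R'.F v (cosetOp (Hs j))
      = mat157 U.R'.μ U.R'.F v (cosetOp (Hs j)) * mat157 U.R'.μ U.R'.F v (cosetOp Hg) :=
    fun j => rep_unique157 hv (rep_comp157 lB h.repB (h.repS j))
      (rep_comp157 (lS j) (h.repS j) h.repB) fun a x => h.ops.B_S j (v a) (h.wfn a) x
  have hBρ : ∀ j, mat157 U.R'.μ U.R'.F v (cosetOp Hg)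
        * mat157 U.R'.μ U.R'.F v (H561.trOp561 (ω' j))
      = mat157 U.R'.μ U.R'.F v (H561.trOp561 (ω' j)) * mat157 U.R'.μ U.R'.F v (cosetOp Hg) :=
    fun j => rep_unique157 hv (rep_comp157 lB h.repB (h.repρ j))
      (rep_comp157 (lρ j) (h.repρ j) h.repB) fun a x => h.ops.B_ρ j (v a) (h.wfn a) x
  refine
    { S_herm := fun j => h.S_herm j
      S_quad := fun j => ?_
      ρ_unit := fun j => h.ρ_unit j
      ρ_central := fun j => ?_
      A_S := fun j => ?_
      A_ρ := fun j => ?_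
      per_S := fun j => ?_
      per_ρ := fun j => ?_
      comm_SS := fun j j' hj hj' hne => ?_
      comm_Sρ := fun j j' hj hj' hne => ?_
      comm_ρρ := fun j j' hj hj' hne => ?_
      B_S := fun j => ?_
      B_ρ := fun j => ?_ }
  · -- S_quad
    refine rep_unique157 hv (rep_comp157 (lS j) (h.repS j) (h.repS j))
      (rep_add157 (rep_smul157 (h.repS j) _) (rep_smul157 rep_id157 _)) fun a x => ?_
    have e := h.ops.S_quad j (v a) (h.wfn a) x
    rw [e]
    simp only [Complex.ofReal_natCast]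
  · -- ρ_central
    exact rep_unique157 hv
      (rep_comp157 (isLin_comp157 (lρ j) (lρ j))
        (rep_comp157 (lρ j) (h.repρ j) (h.repρ j)) (h.repS j))
      (rep_comp157 (lS j) (h.repS j) (rep_comp157 (lρ j) (h.repρ j) (h.repρ j)))
      fun a x => h.ops.ρ_central j (v a) (h.wfn a) x
  · -- A_S
    exact rep_unique157 hv (rep_comp157 lA hA (h.repS j))
      (rep_comp157 (lS (j + 1)) (h.repS (j + 1)) hA)
      fun a x => h.ops.σ_S j (v a) (h.wfn a) x
  · -- A_ρ
    exact rep_unique157 hv (rep_comp157 lA hA (h.repρ j))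
      (rep_comp157 (lρ (j + 1)) (h.repρ (j + 1)) hA)
      fun a x => h.ops.σ_ρ j (v a) (h.wfn a) x
  · -- per_S
    exact rep_unique157 hv (h.repS (j + ℓ)) (h.repS j)
      fun a x => h.ops.per_S j (v a) (h.wfn a) x
  · -- per_ρ
    exact rep_unique157 hv (h.repρ (j + ℓ)) (h.repρ j)
      fun a x => h.ops.per_ρ j (v a) (h.wfn a) x
  · -- comm_SS
    exact rep_unique157 hv (rep_comp157 (lS j) (h.repS j) (h.repS j'))
      (rep_comp157 (lS j') (h.repS j') (h.repS j))
      fun a x => h.ops.comm_SS j j' hj hj' hne (v a) (h.wfn a) x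
  · -- comm_Sρ
    exact rep_unique157 hv (rep_comp157 (lS j) (h.repS j) (h.repρ j'))
      (rep_comp157 (lρ j') (h.repρ j') (h.repS j))
      fun a x => h.ops.comm_Sρ j j' hj hj' hne (v a) (h.wfn a) x
  · -- comm_ρρ
    exact rep_unique157 hv (rep_comp157 (lρ j) (h.repρ j) (h.repρ j'))
      (rep_comp157 (lρ j') (h.repρ j') (h.repρ j))
      fun a x => h.ops.comm_ρρ j j' hj hj' hne (v a) (h.wfn a) x
  · -- B_S
    show (U.c g C • mat157 U.R'.μ U.R'.F v (cosetOp Hg))
        * mat157 U.R'.μ U.R'.F v (cosetOp (Hs j))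
      = mat157 U.R'.μ U.R'.F v (cosetOp (Hs j))
        * (U.c g C • mat157 U.R'.μ U.R'.F v (cosetOp Hg))
    rw [Matrix.smul_mul, Matrix.mul_smul, hBS j]
  · -- B_ρ
    show (U.c g C • mat157 U.R'.μ U.R'.F v (cosetOp Hg))
        * mat157 U.R'.μ U.R'.F v (H561.trOp561 (ω' j))
      = mat157 U.R'.μ U.R'.F v (H561.trOp561 (ω' j))
        * (U.c g C • mat157 U.R'.μ U.R'.F v (cosetOp Hg))
    rw [Matrix.smul_mul, Matrix.mul_smul, hBρ j]

/-- **The matrix coefficients inside a stable class.** -/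
theorem coeff157 (h : _root_.Fermat.Agent.LT.T7.PU736.Ctx157 ℓ Φ U g Hs ω' Hg C n v) (σC : EigData K' → EigData K')
    (hσe : ∀ (ψ : G K' → ℂ) (C : EigData K'), IsEigFn U.𝔑₀ U.R'.r ℓ U.o ψ C →
      IsEigFn U.𝔑₀ U.R'.r ℓ U.o (T5.Rsig U.s ψ) (σC C))
    (hst : (σC C).AgreeOut U.S' C) (X : List (Gen K')) (hX : ∀ x ∈ X, x.Out U.S')
    (k : ℤ) (m : ℕ) (a b : Fin n) :
    T5.innerD U.R'.μ U.R'.F
        (T5.Rconv U.R'.μ (U.φ' g X k m) (T5.Rsig U.s (v a))) (v b)
      = wordEv X C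
        * ((U.c g C • mat157 U.R'.μ U.R'.F v (cosetOp Hg))
            * (mat157 U.R'.μ U.R'.F v (H561.trOp561 (ω' 0))
                * mat157 U.R'.μ U.R'.F v (H561.trOp561 (ω' 0))) ^ k
            * (((Real.sqrt ((Ideal.absNorm (U.o 0).asIdeal : ℕ) : ℝ) : ℝ) : ℂ)⁻¹
                • (mat157 U.R'.μ U.R'.F v (cosetOp (Hs 0))
                    * mat157 U.R'.μ U.R'.F v (H561.trOp561 (ω' 0)))) ^ m
            * mat157 U.R'.μ U.R'.F v (T5.Rsig U.s)) b a := by
  have hψ : IsEigFn U.𝔑₀ U.R'.r ℓ U.o (T5.Rsig U.s (v a)) C :=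
    isEigFn_of_agree157 h.data.mem_S' (hσe _ _ (h.basis.eig a)) hst
  have e : T5.Rconv U.R'.μ (U.φ' g X k m) (T5.Rsig U.s (v a))
      = fun x => (wordEv X C * U.c g C) * cosetOp Hg (shiftOp (ω' 0 * ω' 0) k
        ((iwOp (U.o 0) ((Hs 0).map (mulRightEmbedding (ω' 0))))^[m]
          (T5.Rsig U.s (v a)))) x :=
    funext fun x => h.data.op_up g X k m h.bad hX _ C hψ Hg _ _ h.ops.dbl h.ops.iwsys
      h.ops.unif x
  have R := rep_comp157 (_root_.Fermat.Agent.LT.T7.PU736.isLin_T157 Hs ω' Hg (U.o 0) k m) (h.repT k m)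
    (h.repA σC hσe hst) a
  beta_reduce at R
  rw [e, R, h.on.coeff_smul]
  rw [Matrix.smul_mul, Matrix.smul_mul, Matrix.smul_mul, Matrix.smul_apply, smul_eq_mul]
  ring

/-- **The diagonal coefficients in a class which is not stable vanish.** -/
theorem off_class157 (hU : H29.IsUpData ℓ Φ U) (hg : U.IsBad g)
    (hOps : IsWOps561 U ℓ g Hs ω' Hg) {ι : Type} {n : ι → ℕ} {C : ι → EigData K'}
    {v : (i : ι) → Fin (n i) → G K' → ℂ} (hWS : IsWSpec561 U ℓ ι n C v)
    (σC : EigData K' → EigData K')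
    (hσe : ∀ (ψ : G K' → ℂ) (C : EigData K'), IsEigFn U.𝔑₀ U.R'.r ℓ U.o ψ C →
      IsEigFn U.𝔑₀ U.R'.r ℓ U.o (T5.Rsig U.s ψ) (σC C))
    (i : ι) (hns : ¬ (σC (C i)).AgreeOut U.S' (C i)) (X : List (Gen K'))
    (hX : ∀ x ∈ X, x.Out U.S') (k : ℤ) (m : ℕ) (a : Fin (n i)) :
    T5.diagCoeff U.s U.R'.μ U.R'.F (U.φ' g X k m) (v i a) = 0 := by
  unfold T5.diagCoeff
  have hψσ : IsEigFn U.𝔑₀ U.R'.r ℓ U.o (T5.Rsig U.s (v i a)) (σC (C i)) :=
    hσe _ _ ((hWS.basis i).eig a)
  by_cases hz : ∃ x, T5.Rsig U.s (v i a) x ≠ 0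
  · obtain ⟨i', hi'⟩ := hWS.cover _ _ hψσ hz
    have hne : i' ≠ i := by
      rintro rfl
      exact hns hi'
    have h' : _root_.Fermat.Agent.LT.T7.PU736.Ctx157 ℓ Φ U g Hs ω' Hg (C i') (n i') (v i') := ⟨hU, hg, hOps, hWS.basis i'⟩
    have hψ : IsEigFn U.𝔑₀ U.R'.r ℓ U.o (T5.Rsig U.s (v i a)) (C i') :=
      isEigFn_of_agree157 hU.mem_S' hψσ hi'
    obtain ⟨c₀, hc₀⟩ := (hWS.basis i').span _ (C i') hψ (agreeOut_refl157 _ _)
    have e0 : T5.Rsig U.s (v i a) = lin157 (v i') c₀ := funext hc₀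
    have e : T5.Rconv U.R'.μ (U.φ' g X k m) (T5.Rsig U.s (v i a))
        = fun x => (wordEv X (C i') * U.c g (C i')) * cosetOp Hg (shiftOp (ω' 0 * ω' 0) k
          ((iwOp (U.o 0) ((Hs 0).map (mulRightEmbedding (ω' 0))))^[m]
            (T5.Rsig U.s (v i a)))) x :=
      funext fun x => hU.op_up g X k m hg hX _ (C i') hψ Hg _ _ hOps.dbl hOps.iwsys
        hOps.unif x
    rw [e, e0, rep_apply157 (_root_.Fermat.Agent.LT.T7.PU736.isLin_T157 Hs ω' Hg (U.o 0) k m) (h'.repT k m)]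
    exact innerD_smul_lin_orth157 (_root_.Fermat.Agent.LT.T7.PU736.finite_of_data157 hU hg) h'.on.nice
      (nice_of_cusp157 ((hWS.basis i).eig a).inv.cusp)
      (fun b => hWS.orth i' i b a hne) _ _
  · have hz' : ∀ x, T5.Rsig U.s (v i a) x = 0 := fun x =>
      Classical.byContradiction fun hx => hz ⟨x, hx⟩
    exact innerD_zero_left157 _ _ (fun x => Rconv_zero157 _ _ hz' x) _

variable (K')

/-- **LEAF T7.L2.2.B7 = BLOCKS-ASSEMBLY.** -/
theorem blocksAsmC157 : BlocksAsmC561 K' := by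
  intro hW hC hS hO hP hF ℓ hℓ hcplx Φ hΦ U hU hσ g hg
  obtain ⟨ι, n, C, v, hWS⟩ := hW ℓ hℓ hcplx Φ hΦ U hU
  obtain ⟨e₀, idx, hONB, hinj, hev, hperp⟩ :=
    hC ℓ hℓ hcplx Φ hΦ U hU g hg ι n C v hWS
  obtain ⟨σC, hσa, hσe, hσΦ⟩ := hS ℓ hℓ hcplx Φ hΦ U hU hσ
  obtain ⟨Hs, ω', Hg, hOps⟩ := hO ℓ hℓ hcplx Φ hΦ U hU hσ g hg
  obtain ⟨ψΦ, hψΦ, hne⟩ := hP ℓ hℓ hcplx Φ hΦ U hU
  have hctx : ∀ i, _root_.Fermat.Agent.LT.T7.PU736.Ctx157 ℓ Φ U g Hs ω' Hg (C i) (n i) (v i) :=
    fun i => ⟨hU, hg, hOps, hWS.basis i⟩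
  have hfun : ∀ i, (fun a => e₀ (idx i a)) = v i := fun i => funext fun a => hev i a
  refine ⟨e₀,
    { ι := {i : ι // (σC (C i)).AgreeOut U.S' (C i)}
      n := fun i => n i.1
      idx := fun i => idx i.1
      C := fun i => C i.1
      A := fun i => mat157 U.R'.μ U.R'.F (v i.1) (T5.Rsig U.s)
      B := fun i => U.c g (C i.1) • mat157 U.R'.μ U.R'.F (v i.1) (cosetOp Hg)
      S := fun i j => mat157 U.R'.μ U.R'.F (v i.1) (cosetOp (Hs j))
      ρ := fun i j => mat157 U.R'.μ U.R'.F (v i.1) (H561.trOp561 (ω' j)) }, ?_⟩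
  refine
    { onb := hONB
      inj := ?_
      unitary := fun i => hWS.unitary i.1
      distinct := fun i i' hii => Subtype.ext (hWS.distinct i.1 i'.1 hii)
      basis := ?_
      phi := ?_
      iw := fun i => _root_.Fermat.Agent.LT.T7.PU736.iwBlock157 (hctx i.1) σC hσe i.2
      coeff := ?_
      off := ?_ }
  · -- inj
    rintro ⟨i, hi⟩ a ⟨i', hi'⟩ a' hidx
    have e := hinj i a i' a' hidx
    obtain ⟨rfl, e2⟩ := Sigma.mk.inj_iff.1 e
    obtain rfl := eq_of_heq e2
    rfl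
  · -- basis
    intro i
    show IsClassBasis561 U ℓ (C i.1) (n i.1) (fun a => e₀ (idx i.1 a))
    rw [hfun i.1]
    exact hWS.basis i.1
  · -- phi
    obtain ⟨i₀, hi₀⟩ := hWS.cover ψΦ (eigOf Φ) hψΦ hne
    have hst : (σC (C i₀)).AgreeOut U.S' (C i₀) :=
      agreeOut_trans157 (hσa _ _ (agreeOut_symm157 hi₀)) (agreeOut_trans157 hσΦ hi₀)
    exact ⟨⟨i₀, hst⟩, agreeOut_symm157 hi₀⟩
  · -- coeff
    intro X hX k m i a b
    show T5.innerD U.R'.μ U.R'.F
        (T5.Rconv U.R'.μ (U.φ' g X k m) (T5.Rsig U.s (e₀ (idx i.1 a))))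
        (e₀ (idx i.1 b)) = _
    rw [hev i.1 a, hev i.1 b]
    exact _root_.Fermat.Agent.LT.T7.PU736.coeff157 (hctx i.1) σC hσe i.2 X hX k m a b
  · -- off
    intro X hX k m j hj
    by_cases hr : ∃ (i : ι) (a : Fin (n i)), idx i a = j
    · obtain ⟨i, a, rfl⟩ := hr
      have hns : ¬ (σC (C i)).AgreeOut U.S' (C i) := fun hs => hj ⟨i, hs⟩ a rfl
      rw [hev i a]
      exact _root_.Fermat.Agent.LT.T7.PU736.off_class157 hU hg hOps hWS σC hσe i hns X hX k m a
    · exact hF ℓ hℓ hcplx Φ hΦ U hU g hg ι n C v hWS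
        (fun X hX k m ψ C' hψ => _root_.Fermat.Agent.LT.T7.PU736.isWFn_Rconv157 hU hg hOps X hX k m ψ C' hψ)
        (e₀ j) (hONB.cusp j) (hperp j fun i a hia => hr ⟨i, a, hia⟩) X hX k m

end Fermat.Agent.LT.T7.PU736

end

end
-- ===== PACK-END LT/T7/H736/Port/BlocksAsm.lean

-- ===== PACK-BEGIN LT/T7/H75/NatShapeAd.lean
section




/-!
# Row LT, tower T7, leaf T7.L2.1.H2a.B.3 `PB57.NatShapeC57` (helper75, registry row 2794):
# adelic tools

OFF-MAIN.  No hole, nothing assumed.  ADDITIVE (namespace `Fermat.Agent.LT.T7.H75.NS`).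

* `pure_trl75`: the right translate of a pure tensor by an element `z` which is trivial at the
  finite places is the pure tensor with the archimedean components translated by the components
  of `z`;
* `isTestFn_trl75`: the right translate of a test function by a central element is a test
  function;
* `infGL_torus75`: the components of the positive scalars `a t` of torus data are the scalar
  matrices `exp (t w)`.
-/

set_option autoImplicit false
set_option linter.style.haveILetI false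

open AutomorphicForm IsDedekindDomain NumberField MeasureTheory
open scoped ComplexConjugate

noncomputable section

namespace Fermat.Agent.LT.T7.H75.NS

open Fermat.Agent.LT Fermat.Agent.LT.H556 Fermat.Agent.LT.H556.A0 Fermat.Agent.LT.T7
open Fermat.Agent.LT.T7.H305

attribute [local instance] Fermat.Agent.LT.T5.instMeasurableSpaceG

variable {K : Type} [Field K] [NumberField K]

/-! ## 1. Translates of pure tensors -/

theorem coe_finGL75 (v : HeightOneSpectrum (𝓞 K)) (g : G K) :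
    ((finGL305 v g : GL (Fin 2) (v.adicCompletion K)) :
      Matrix (Fin 2) (Fin 2) (v.adicCompletion K)) = finComp v g := rfl

theorem coe_infGL75 (w : InfinitePlace K) (g : G K) :
    ((infGL305 w g : GL (Fin 2) ℂ) : Matrix (Fin 2) (Fin 2) ℂ) = infComp w g := rfl

theorem finGL_eq_one75 {v : HeightOneSpectrum (𝓞 K)} {z : G K} (hz : TrivAtFin v z) :
    finGL305 v z = 1 := by
  refine Units.ext ?_
  rw [coe_finGL75]
  exact hz

theorem finGL_mul_inv75 {z : G K} (hz : ∀ v : HeightOneSpectrum (𝓞 K), TrivAtFin v z)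
    (v : HeightOneSpectrum (𝓞 K)) (h : G K) : finGL305 v (h * z⁻¹) = finGL305 v h := by
  rw [map_mul, map_inv, finGL_eq_one75 (hz v), inv_one, mul_one]

theorem isIntegralAt_iff75 (v : HeightOneSpectrum (𝓞 K)) (g : G K) :
    IsIntegralAt v g ↔ ∀ i j, ((finGL305 v g : GL (Fin 2) (v.adicCompletion K)) :
      Matrix (Fin 2) (Fin 2) (v.adicCompletion K)) i j ∈ v.adicCompletionIntegers K := Iff.rfl

theorem outT_mul_inv75 {z : G K} (hz : ∀ v : HeightOneSpectrum (𝓞 K), TrivAtFin v z)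
    (T : Finset (HeightOneSpectrum (𝓞 K))) (h : G K) : OutT305 T (h * z⁻¹) ↔ OutT305 T h := by
  have e1 : ∀ v : HeightOneSpectrum (𝓞 K), finGL305 v (h * z⁻¹) = finGL305 v h :=
    fun v => finGL_mul_inv75 hz v h
  have e2 : ∀ v : HeightOneSpectrum (𝓞 K), finGL305 v (h * z⁻¹)⁻¹ = finGL305 v h⁻¹ := by
    intro v
    rw [map_inv, e1 v, map_inv]
  unfold OutT305
  refine forall_congr' fun v => imp_congr_right fun _ => ?_
  rw [isIntegralAt_iff75, isIntegralAt_iff75, isIntegralAt_iff75, isIntegralAt_iff75, e1 v, e2 v]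

/-- **The translate of a pure tensor.** -/
theorem pure_trl75 {z : G K} (hz : ∀ v : HeightOneSpectrum (𝓞 K), TrivAtFin v z)
    (T : Finset (HeightOneSpectrum (𝓞 K)))
    (f₀ : ∀ v : HeightOneSpectrum (𝓞 K), GL (Fin 2) (v.adicCompletion K) → ℂ)
    (F : InfinitePlace K → GL (Fin 2) ℂ → ℂ) (h : G K) :
    pure305 T f₀ F (h * z⁻¹)
      = pure305 T f₀ (fun w => trC (infGL305 w z) (F w)) h := by
  classical
  unfold pure305
  by_cases hO : OutT305 T h
  · rw [if_pos hO, if_pos ((outT_mul_inv75 hz T h).2 hO)]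
    congr 1
    · exact Finset.prod_congr rfl fun v _ => by rw [finGL_mul_inv75 hz v h]
    · refine Finset.prod_congr rfl fun w _ => ?_
      show F w (infGL305 w (h * z⁻¹)) = trC (infGL305 w z) (F w) (infGL305 w h)
      rw [trC_apply, map_mul, map_inv]
  · rw [if_neg hO, if_neg fun h' => hO ((outT_mul_inv75 hz T h).1 h')]

/-! ## 2. Translates of test functions -/

theorem inv_central75 {z : G K} (hc : ∀ g : G K, z * g = g * z) (g : G K) :
    z⁻¹ * g = g * z⁻¹ := by
  have := hc (z⁻¹ * g * z⁻¹)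
  calc z⁻¹ * g = z⁻¹ * g * z⁻¹ * z := by group
    _ = z * (z⁻¹ * g * z⁻¹) := this.symm
    _ = g * z⁻¹ := by group

/-- **The right translate of a test function by a central element is a test function.** -/
theorem isTestFn_trl75 {𝔑 : Ideal (𝓞 K)} {τ : G K → ℂ} {φ : G K → ℂ}
    (hφ : T5.IsTestFn 𝔑 τ φ) {z : G K} (hc : ∀ g : G K, z * g = g * z) :
    T5.IsTestFn 𝔑 τ (fun g => φ (g * z⁻¹)) := by
  have hc' := inv_central75 hc
  have key : ∀ g x : G K, g * x * z⁻¹ = g * z⁻¹ * x := by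
    intro g x
    rw [mul_assoc, ← hc' x, ← mul_assoc]
  refine ⟨hφ.ktype, hφ.cont.comp (continuous_id.mul continuous_const),
    hφ.supp.comp_homeomorph (Homeomorph.mulRight z⁻¹), ?_, ?_⟩
  · intro n h hfin hsm g
    have e : (fun t => φ (g * h t * z⁻¹)) = fun t => φ (g * z⁻¹ * h t) := by
      funext t
      rw [key]
    rw [e]
    exact hφ.smooth n h hfin hsm (g * z⁻¹)
  · refine ⟨fun u hu g => ?_, fun u hu g => ?_, fun w k hk g => ?_, fun w k hk g => ?_⟩
    · show φ (g * u * z⁻¹) = φ (g * z⁻¹)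
      rw [key]
      exact hφ.inv.level_right u hu _
    · show φ (u * g * z⁻¹) = φ (g * z⁻¹)
      rw [mul_assoc]
      exact hφ.inv.level_left u hu _
    · show φ (g * k * z⁻¹) = (τ k)⁻¹ * φ (g * z⁻¹)
      rw [key]
      exact hφ.inv.arch_right w k hk _
    · show φ (k * g * z⁻¹) = (τ k)⁻¹ * φ (g * z⁻¹)
      rw [mul_assoc]
      exact hφ.inv.arch_left w k hk _

/-! ## 3. Torus data -/

theorem infGL_torus75 {𝔑 : Ideal (𝓞 K)} {r : G K} {a : (InfinitePlace K → ℝ) → G K}
    {D : Set (InfinitePlace K → ℝ)} (hD : H193.IsTorusData 𝔑 r a D)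
    (t : InfinitePlace K → ℝ) (w : InfinitePlace K) : infGL305 w (a t) = scal75 (t w) := by
  refine Units.ext ?_
  rw [coe_infGL75, coe_scal75]
  exact hD.inf t w

end Fermat.Agent.LT.T7.H75.NS

end

end
-- ===== PACK-END LT/T7/H75/NatShapeAd.lean

-- ===== PACK-BEGIN LT/T7/H893/SupplyProdTop.lean
section




/-!
# Row LT, tower T7, node T7.L2.1.H2b `ProdMtCb` (sub-architect helper893): SIXTH CUT -- Top

OFF-MAIN.  No `sorry`, nothing assumed.  ADDITIVE.

    prodMtCb_of893 : LevelUniqC893 K → LevelUniqC893 K' → LevelAtC893 K K'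
        → ProdShapeC893 K K' → SphHypC893 K K'
        → ∀ κ nowhere zero, ProdMtCb K K' κ                                   (VERBATIM)
-/

set_option autoImplicit false

open AutomorphicForm IsDedekindDomain NumberField MeasureTheory
open scoped ComplexConjugate

noncomputable section

namespace Fermat.Agent.LT.T7.H893

open Fermat.Agent.LT.H556 Fermat.Agent.LT.H556.A0 Fermat.Agent.LT.T7
open Fermat.Agent.LT.T7.H305

attribute [local instance] Fermat.Agent.LT.T5.instMeasurableSpaceG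

section Top

variable {K K' : Type} [Field K] [NumberField K] [Field K'] [NumberField K'] [Algebra K K']

/-- `IsAvgPure` is monotone in the local condition (on the sets `T ⊇ T₀`). -/
theorem isAvgPure_mono893 {𝔑 : Ideal (𝓞 K')} {𝔫 : Ideal (𝓞 K)}
    {T₀ : Finset (HeightOneSpectrum (𝓞 K))} {L L' : LocCond K K'} {c : ℂ}
    {φ' : G K' → ℂ} {f : G K → ℂ}
    (hLL : ∀ (T : Finset (HeightOneSpectrum (𝓞 K)))
      (φ₀ : ∀ w : HeightOneSpectrum (𝓞 K'), GL (Fin 2) (w.adicCompletion K') → ℂ)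
      (Φ : InfinitePlace K' → GL (Fin 2) ℂ → ℂ)
      (f₀ : ∀ v : HeightOneSpectrum (𝓞 K), GL (Fin 2) (v.adicCompletion K) → ℂ)
      (F : InfinitePlace K → GL (Fin 2) ℂ → ℂ), T₀ ⊆ T → L T φ₀ Φ f₀ F → L' T φ₀ Φ f₀ F)
    (h : IsAvgPure 𝔑 𝔫 T₀ L c φ' f) : IsAvgPure 𝔑 𝔫 T₀ L' c φ' f := by
  obtain ⟨Ω, iT, iC, i2, iS, iM, iB, ν, iF, T, T', φ₀, Φc, f₀, Fc, hL, ht', ht, hc', hc, hs',
    hs, hφ', hf⟩ := h
  exact ⟨Ω, iT, iC, i2, iS, iM, iB, ν, iF, T, T', φ₀, Φc, f₀, Fc,
    fun a => ⟨(hL a).1, (hL a).2.1, hLL _ _ _ _ _ (hL a).1 (hL a).2.2⟩,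
    ht', ht, hc', hc, hs', hs, hφ', hf⟩

/-- A place over a place which does not divide `𝔫` does not divide `𝔫 𝒪_{K'}`. -/
theorem dvd_of_placeOver893 {v : HeightOneSpectrum (𝓞 K)} {w : HeightOneSpectrum (𝓞 K')}
    (hvw : PlaceOver K K' v w) {𝔫 : Ideal (𝓞 K)} (h : w.asIdeal ∣ upI (K' := K') 𝔫) :
    v.asIdeal ∣ 𝔫 := by
  rw [Ideal.dvd_iff_le] at h ⊢
  intro x hx
  have hy : algebraMap (𝓞 K) (𝓞 K') x ∈ w.asIdeal := h (Ideal.mem_map_of_mem _ hx)
  exact (hvw x (algebraMap (𝓞 K) (𝓞 K') x) rfl).2 hy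

/-- `UnramOut305 T₀` from `RamIn`, for the places `T₀` of a level whose places upstairs are
those of `S'`. -/
theorem unramOut305_of_ramIn893 {B : L2Base K K'} (hRam : B.RamIn) {𝔫 : Ideal (𝓞 K)}
    {T₀ : Finset (HeightOneSpectrum (𝓞 K))}
    (hT₀ : ∀ v : HeightOneSpectrum (𝓞 K), v ∈ T₀ ↔ v.asIdeal ∣ 𝔫)
    (hS' : ∀ w : HeightOneSpectrum (𝓞 K'), w ∈ B.S' ↔ w.asIdeal ∣ upI (K' := K') 𝔫) :
    UnramOut305 (K' := K') T₀ := by
  intro v hv w hvw
  refine hRam v w hvw (fun hw => hv ?_)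
  rw [hT₀]
  exact dvd_of_placeOver893 hvw ((hS' w).1 hw)

/-- **THE TOP OF THE SIXTH CUT.** -/
theorem prodMtCb_of893 (hU : LevelUniqC893 K) (hU' : LevelUniqC893 K')
    (hAt : LevelAtC893 K K') (hShape : ProdShapeC893 K K') (hSph : SphHypC893 K K')
    (κ : KapFn K K') (hκ : ∀ D μc T₀ n m, κ D μc T₀ n m ≠ 0) : ProdMtCb K K' κ := by
  classical
  intro ℓ hcyc hℓ hcplx Φ B hB hRam g hg 𝔫 μc hμc
  by_cases hex : ∃ (T₀ : Finset (HeightOneSpectrum (𝓞 K)))
      (n n₀ : HeightOneSpectrum (𝓞 K') → ℕ) (m : HeightOneSpectrum (𝓞 K) → ℕ),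
      (∀ v : HeightOneSpectrum (𝓞 K), v ∈ T₀ ↔ v.asIdeal ∣ 𝔫) ∧
      IsLevelOf893 𝔫 m ∧ IsLevelOf893 (upI (K' := K') 𝔫) n ∧ IsLevelOf893 B.𝔑₀ n₀
  · obtain ⟨T₀, n, n₀, m, hT₀, hm, hn, hn₀⟩ := hex
    obtain ⟨c₀, hc₀, hS⟩ := hShape ℓ hcyc hℓ hcplx Φ B hB hRam g hg 𝔫 μc hμc T₀ n n₀ m
      hT₀ hm hn hn₀
    have ha : κ (B.comp 𝔫) μc T₀ n m / c₀ ≠ 0 := div_ne_zero (hκ _ _ _ _ _) hc₀
    refine ⟨κ (B.comp 𝔫) μc T₀ n m / c₀, ha, ?_⟩
    intro E hE hOp hDec X k mm hX
    obtain ⟨T₀', n', n₀', m', hT₀', hm', hn', hn₀', hA, hB2⟩ := hDec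
    rw [hE] at hT₀' hm' hn' hA hB2
    obtain rfl : T₀ = T₀' := Finset.ext (fun v => by rw [hT₀', hT₀])
    obtain rfl : m = m' := hU 𝔫 m m' hm hm'
    obtain rfl : n = n' := hU' (upI (K' := K') 𝔫) n n' hn hn'
    obtain rfl : n₀ = n₀' := hU' B.𝔑₀ n₀ n₀' hn₀ hn₀'
    have h1 := hS _ ha E hE hOp hA hB2 X k mm hX
    rw [div_mul_cancel₀ _ hc₀] at h1
    have h𝔫 : 𝔫 ≠ ⊥ := by rw [← hE]; exact hOp.level_ne
    have hD : IsCompData (B.comp 𝔫) := isCompData_comp893 hB h𝔫
    have hdeg : (B.comp 𝔫).l = ℓ := hB.deg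
    have hcyc' : IsCycExt K K' (B.comp 𝔫).l := by rw [hdeg]; exact hcyc
    have hℓ' : (B.comp 𝔫).l ≠ 2 := by rw [hdeg]; exact hℓ
    have hS' : ∀ w : HeightOneSpectrum (𝓞 K'), w ∈ B.S' ↔ w.asIdeal ∣ upI (K' := K') 𝔫 := by
      intro w
      have h := hOp.mem_S'_g w
      rwa [hE] at h
    have hUn : UnramOut305 (K' := K') T₀ := unramOut305_of_ramIn893 hRam hT₀ hS'
    have hLv : IsLevelAt305 T₀ n m := hAt 𝔫 T₀ n m hT₀ hm hn
    refine ⟨μc, T₀, n, m, hμc, hUn, hLv, isAvgPure_mono893 ?_ h1⟩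
    intro T φ₀ Φc f₀ Fc hT hL
    exact hSph (B.comp 𝔫) hD hcyc' hℓ' hcplx μc hμc T₀ hUn n m hLv T hT φ₀ Φc f₀ Fc hL.1 hL.2
  · refine ⟨1, one_ne_zero, ?_⟩
    intro E hE hOp hDec
    exfalso
    obtain ⟨T₀', n', n₀', m', hT₀', hm', hn', hn₀', -, -⟩ := hDec
    rw [hE] at hT₀' hm' hn'
    exact hex ⟨T₀', n', n₀', m', hT₀', hm', hn', hn₀'⟩

end Top

end Fermat.Agent.LT.T7.H893

end

end
-- ===== PACK-END LT/T7/H893/SupplyProdTop.lean

-- ===== PACK-BEGIN LT/T7/H893/SupplySphSpec.lean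
section



/-!
# Row LT, tower T7, node T7.L2.1.H2b.3 `SphHypC893` (sub-architect helper893): CUT -- Spec

OFF-MAIN.  Definitions and frozen Props only (the proved top is `SupplySphTop.lean`).  No
`sorry`, nothing assumed.  ADDITIVE (new names only, suffix `893`).

    sphHypC_of893 : T6.T6Out → SphInvC893 K → SphInvC893 K' → SphInertC893 K K'
        → SphSplitC893 K K' → SphHypC893 K K'                                  (VERBATIM)

The node `SphHypC893` (local hypotheses on `T₀` + spherical shape on `T ∖ T₀` ⟹ local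
hypotheses on `T`) is cut along the clauses of `LocHyp893` at ONE place `v ∉ T₀`:

* **`SphInvC893 F`** (LEAF [S–M], local): a spherical function (`IsSphFn893`) is
  bi-`GL₂(𝒪_v)`-invariant and supported on finitely many cosets `x GL₂(𝒪_v)`.
* **`SphInertC893 K K'`** (LEAF [M], T6): the clause `inert` at a place `v ∉ T₀` with ONE place
  `w` over it, for spherical components with `T6.IsBC`: `e = 1` (`UnramOut305`), the
  fundamental lemma `T6.FundLemmaC` (in `T6Out`), the instances `T6.InstLocalC`.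
* **`SphSplitC893 K K'`** (LEAF [L], T6 + Satake): the clause `split` at a place `v ∉ T₀` with
  at least two places over it, for spherical components whose Satake transforms multiply:
  an enumeration in the order of the orbit with identifications `K_v ≃ K'_{w j}`
  (`T6.InstSplitC`; `v` splits completely, the decomposition groups are trivial), and
  `f₀ v = φ₀ (w 0) * ⋯ * φ₀ (w (l-1))` (the convolution product of spherical functions is
  spherical, its Satake transform is the product; the Satake transform is injective).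

FALSITY CHECKS (helper893).  (a) `SphInvC893`: `T6.cartan` is bi-`GL₂(𝒪)`-invariant; the set
`{cartan = λ}` is ONE double coset, a finite union of cosets (`T6.IsCosetSys`; the residue
field is finite); `A` has finite support.  (b) `SphInertC893`: `IsLocalExt.val_i` and an
element `x ∈ v`, `x ∉ w²` give `e = 1`; `N w = (N v)^l` (the place is inert); the functions are
`fun g => A (cartan g)` (`IsSphFn893`), the form of `T6.FLMatch`.  (c) `SphSplitC893`: the
identifications preserve the valuations, so `cartan (map (i j) g) = cartan g` and the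
components `φ₀ (w j) ∘ map (i j)` are spherical on `GL₂(K_v)` with the values `A (w j)`; `N (w
j) = N v`; the product in `SphOut893` is over `Finset.range l` for EVERY enumeration by
distinct places, in particular for the one in the order of the orbit (`w j ≠ w j'` for
`j < j' < l`: the orbit has `l` elements).
-/

set_option autoImplicit false

open AutomorphicForm IsDedekindDomain NumberField MeasureTheory
open scoped ComplexConjugate

noncomputable section

namespace Fermat.Agent.LT.T7.H893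

open Fermat.Agent.LT.H556 Fermat.Agent.LT.H556.A0 Fermat.Agent.LT.T7
open Fermat.Agent.LT.T7.H305

attribute [local instance] Fermat.Agent.LT.T5.instMeasurableSpaceG

section Leaves

/-- **LEAF T7.L2.1.H2b.3a = SPH-INV [S–M] (local).**  A spherical function on `GL₂(F_v)` is
bi-invariant under `GL₂(𝒪_v) = U(0)` and supported on finitely many cosets. -/
def SphInvC893 (F : Type) [Field F] [NumberField F] : Prop :=
  ∀ (v : HeightOneSpectrum (𝓞 F)) (φ : GL (Fin 2) (v.adicCompletion F) → ℂ)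
    (A : (ℤ × ℤ) →₀ ℂ), IsSphFn893 φ A →
    T6.IsBiInv (T6.InU 0) φ ∧ T6.HasFinSupp (T6.InU 0) φ

variable (K K' : Type) [Field K] [NumberField K] [Field K'] [NumberField K'] [Algebra K K']

/-- **LEAF T7.L2.1.H2b.3b = SPH-INERT [M] (T6: the fundamental lemma).**  The clause `inert`
of `LocHyp893` at a place `v ∉ T₀` (unramified) with ONE place `w` over it, levels `0`,
spherical components related by the base change `T6.IsBC`. -/
def SphInertC893 : Prop :=
  T6.T6Out →
  ∀ D : CompData K K', IsCompData D → IsCycExt K K' D.l → D.l ≠ 2 → TotCplx K →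
    ∀ (T₀ : Finset (HeightOneSpectrum (𝓞 K))), UnramOut305 (K' := K') T₀ →
    ∀ v : HeightOneSpectrum (𝓞 K), v ∉ T₀ →
    ∀ w : HeightOneSpectrum (𝓞 K'), PlaceOver K K' v w →
      (∀ w' : HeightOneSpectrum (𝓞 K'), PlaceOver K K' v w' → w' = w) →
    ∀ (nw mv : ℕ), nw = 0 → mv = 0 →
    ∀ (φ : GL (Fin 2) (w.adicCompletion K') → ℂ) (f : GL (Fin 2) (v.adicCompletion K) → ℂ)
      (A Av : (ℤ × ℤ) →₀ ℂ), IsSphFn893 φ A → IsSphFn893 f Av →
      T6.IsBC D.l (Ideal.absNorm v.asIdeal) A Av →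
    ∀ (e : ℕ) (i : v.adicCompletion K →+* w.adicCompletion K')
      (sw : w.adicCompletion K' ≃+* w.adicCompletion K'),
      (∀ x : K, i (algebraMap K (v.adicCompletion K) x)
        = algebraMap K' (w.adicCompletion K') (algebraMap K K' x)) →
      (∀ y : K', sw (algebraMap K' (w.adicCompletion K') y)
        = algebraMap K' (w.adicCompletion K') (D.s.σ y)) →
      T6.IsLocalExt (v.adicCompletion K) (w.adicCompletion K') D.l e i sw →
      (∀ (δ : GL (Fin 2) (w.adicCompletion K')) (γ : GL (Fin 2) (v.adicCompletion K))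
          (c c' : ℂ), T6.IsReg γ →
          IsConj (T6.twNorm sw D.l δ) (Matrix.GeneralLinearGroup.map i γ) →
          T6.IsTwOrbSum sw nw φ δ c → T6.IsOrbSum mv f γ c' → c = c') ∧
        ∀ (γ : GL (Fin 2) (v.adicCompletion K)) (c' : ℂ), T6.IsReg γ →
          ¬ T6.IsNormFrom D.l i sw γ → T6.IsOrbSum mv f γ c' → c' = 0

/-- **LEAF T7.L2.1.H2b.3c = SPH-SPLIT [L] (T6 + Satake).**  The clause `split` of `LocHyp893`
at a place `v ∉ T₀` (unramified) with at least two places over it, levels `0`, spherical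
components whose Satake transforms multiply (the split clause of `SphOut893`). -/
def SphSplitC893 : Prop :=
  T6.T6Out →
  ∀ D : CompData K K', IsCompData D → IsCycExt K K' D.l → D.l ≠ 2 → TotCplx K →
    ∀ (T₀ : Finset (HeightOneSpectrum (𝓞 K))), UnramOut305 (K' := K') T₀ →
    ∀ v : HeightOneSpectrum (𝓞 K), v ∉ T₀ →
      (∃ w₁ w₂ : HeightOneSpectrum (𝓞 K'),
        PlaceOver K K' v w₁ ∧ PlaceOver K K' v w₂ ∧ w₁ ≠ w₂) →
    ∀ (n : HeightOneSpectrum (𝓞 K') → ℕ) (m : HeightOneSpectrum (𝓞 K) → ℕ),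
      (∀ w : HeightOneSpectrum (𝓞 K'), PlaceOver K K' v w → n w = 0) → m v = 0 →
    ∀ (φ₀ : ∀ w : HeightOneSpectrum (𝓞 K'), GL (Fin 2) (w.adicCompletion K') → ℂ)
      (f : GL (Fin 2) (v.adicCompletion K) → ℂ)
      (A : HeightOneSpectrum (𝓞 K') → (ℤ × ℤ) →₀ ℂ) (Av : (ℤ × ℤ) →₀ ℂ),
      IsSphFn893 f Av →
      (∀ w : HeightOneSpectrum (𝓞 K'), PlaceOver K K' v w → IsSphFn893 (φ₀ w) (A w)) →
      (∀ w : ℕ → HeightOneSpectrum (𝓞 K'), (∀ j : ℕ, PlaceOver K K' v (w j)) →
        (∀ j j' : ℕ, j < D.l → j' < D.l → w j = w j' → j = j') →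
        ∀ x y : ℂ, x ≠ 0 → y ≠ 0 →
          satT893 (Ideal.absNorm v.asIdeal) Av x y
            = ∏ j ∈ Finset.range D.l, satT893 (Ideal.absNorm v.asIdeal) (A (w j)) x y) →
      ∃ (w : ℕ → HeightOneSpectrum (𝓞 K'))
        (i : ∀ j : ℕ, v.adicCompletion K ≃+* (w j).adicCompletion K'),
        (∀ j : ℕ, PlaceOver K K' v (w j)) ∧ (∀ j : ℕ, T5.PlaceRel D.s (w (j + 1)) (w j)) ∧
        (∀ j : ℕ, 0 < j → j < D.l → w j ≠ w 0) ∧
        (∀ (j : ℕ) (x : K), i j (algebraMap K (v.adicCompletion K) x)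
          = algebraMap K' ((w j).adicCompletion K') (algebraMap K K' x)) ∧
        (∀ (j : ℕ) (x : v.adicCompletion K), Valued.v (i j x) = Valued.v x) ∧
        (∀ j : ℕ, n (w j) = m v) ∧
          T6.IsConvProd (T6.InU (m v)) D.l
            (fun j g => φ₀ (w j)
              (Matrix.GeneralLinearGroup.map ((i j : v.adicCompletion K ≃+* _) :
                v.adicCompletion K →+* (w j).adicCompletion K') g))
            f

end Leaves

end Fermat.Agent.LT.T7.H893

end

end
-- ===== PACK-END LT/T7/H893/SupplySphSpec.lean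

-- ===== PACK-BEGIN LT/T7/P51/GlobProdSpec.lean
section



/-!
# Row LT, tower T7, node T7.L2.1.H2b.G `GlobProdC51` (helper51): FIRST SUB-CUT -- Spec + top

OFF-MAIN.  Definitions, frozen Props, PROVED top.  No hole, nothing assumed.  ADDITIVE.

    globProdC_of51 : OpAvgC51 K K' → ConvAvgC51 K K' → GlobProdC51 K K'

* **`LocOp51`** = the local shape of the OPERATED second pair
  `(lsum Hg (regL (o 0) z' H' k j φ₂), regL u z H k j f₂)`: the shape `LocB893b` with the unit
  components at the bad places replaced by the double coset functions of `g` and the Iwahori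
  components at `o 0`, `u` replaced by `regLoc51`.
* **`OpAvgC51`** (NODE, adelic coset bookkeeping): the operated second pair is an average of
  pure tensors of shape `LocOp51`, with the same constant.
* **`ConvAvgC51`** (NODE, Haar splitting + Fubini): the convolution of an average of shape
  `LocA893` (constant `1`) with an average of shape `LocOp51` (constant `a`) is an average of
  shape `LocProd51 … t` with the constant `a c / t`; `c ≠ 0` depends on the context only.
-/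

set_option autoImplicit false

open AutomorphicForm IsDedekindDomain NumberField MeasureTheory
open scoped ComplexConjugate

noncomputable section

namespace Fermat.Agent.LT.T7.P51

open Fermat.Agent.LT.H556 Fermat.Agent.LT.H556.A0 Fermat.Agent.LT.T7
open Fermat.Agent.LT.T7.H305 Fermat.Agent.LT.T7.H893

attribute [local instance] Fermat.Agent.LT.T5.instMeasurableSpaceG

section Shape

variable {K K' : Type} [Field K] [NumberField K] [Field K'] [NumberField K'] [Algebra K K']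

/-- **THE LOCAL SHAPE OF THE OPERATED SECOND PAIR.**  `(φ₂, f₂)` are the components of a pure
tensor of shape `LocB893b`; the components at infinity are unchanged. -/
def LocOp51 (B : L2Base K K') (g : G K') (𝔫 : Ideal (𝓞 K))
    (μc : @Measure (GL (Fin 2) ℂ) (borel _)) (T₀ : Finset (HeightOneSpectrum (𝓞 K)))
    (n n₀ : HeightOneSpectrum (𝓞 K') → ℕ) (m : HeightOneSpectrum (𝓞 K) → ℕ)
    (H' : Finset (G K')) (z' : G K') (H : Finset (G K)) (z : G K) (k : ℤ) (j : ℕ) :
    LocCond K K' :=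
  fun T φ₀ Φ f₀ F =>
    ∃ (φ₂ : ∀ w : HeightOneSpectrum (𝓞 K'), GL (Fin 2) (w.adicCompletion K') → ℂ)
      (f₂ : ∀ v : HeightOneSpectrum (𝓞 K), GL (Fin 2) (v.adicCompletion K) → ℂ),
      LocB893b B g 𝔫 μc T₀ n n₀ m T φ₂ Φ f₂ F ∧
      (∀ v ∈ T₀, v ≠ B.u → f₀ v = f₂ v ∧
        ∀ w : HeightOneSpectrum (𝓞 K'), PlaceOver K K' v w →
          φ₀ w = dblFn893 (n₀ w) (finGL305 w g)) ∧
      f₀ B.u = regLoc51 B.u z H k j iwFn893 ∧
      φ₀ (B.o 0) = regLoc51 (B.o 0) z' H' k j iwFn893 ∧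
      (∀ i : ℕ, 0 < i → i < B.l → φ₀ (B.o i) = iwFn893) ∧
      ∀ v ∈ T, v ∉ T₀ → f₀ v = f₂ v ∧
        ∀ w : HeightOneSpectrum (𝓞 K'), PlaceOver K K' v w → φ₀ w = φ₂ w

end Shape

section Nodes

variable (K K' : Type) [Field K] [NumberField K] [Field K'] [NumberField K'] [Algebra K K']

/-- **NODE P.G1 = OP-AVG (adelic coset bookkeeping).**  In the context, for pre-data of level
`𝔫` with the operator properties whose second pair is an average of pure tensors of shape
`LocB893b` with the constant `a`: the operated second pair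
`(lsum Hg (regL (o 0) z' H' k j φ₂), regL u z H k j f₂)` is an average of pure tensors of shape
`LocOp51` with the constant `a` (same parameter space, same measure).
Proof.  `lsum`, `regL` are finite sums of left translates, so they commute with the average.
The elements of `H'` (resp. `H`) and `z'` (resp. `z`) are supported at `o 0` (resp. `u`): the
translate of a pure tensor is the pure tensor with the translated component, and
`finGL305 w` is a homomorphism.  The elements of `Hg` are in `U(𝔑₀) g U(𝔑₀)`, `g` is trivial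
outside the bad places: their components are in `GL₂(𝒪_w)` outside `S'` (the components of the
pure tensor there are spherical or unit), in `U(𝔑₀)_w ⊆ I_w` along the orbit, trivial at
infinity, and in `U(n₀ w) g_w U(n₀ w)` at the bad places; the sum over `Hg` of the products
over the bad places of the translated unit functions is the product of the double coset
functions (`IsDblCosetSystem`: exactly one `h ∈ Hg` with `h⁻¹ y ∈ U(𝔑₀)` for `y` in the
double coset).  Every member is a test function of level `𝔫 𝒪_{K'}` (resp. `𝔫`): bi-invariance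
of the new components under `U(n w) ⊆ U(n₀ w)`, `U(n w) ⊆ I_w`. -/
def OpAvgC51 : Prop :=
  ∀ (ℓ : ℕ) (Φ : HeckeEigensystem K' ℂ) (B : L2Base K K') (g : G K') (𝔫 : Ideal (𝓞 K))
    (μc : @Measure (GL (Fin 2) ℂ) (borel _)) (T₀ : Finset (HeightOneSpectrum (𝓞 K)))
    (n n₀ : HeightOneSpectrum (𝓞 K') → ℕ) (m : HeightOneSpectrum (𝓞 K) → ℕ),
    IsCtx51 ℓ Φ B g 𝔫 μc T₀ n n₀ m →
    ∀ a : ℂ, a ≠ 0 → ∀ E : L2Pre K K', E.𝔫 = 𝔫 → IsL2PreOp ℓ Φ B g E →
      IsAvgPure (upI (K' := K') 𝔫) 𝔫 T₀ (LocB893b B g 𝔫 μc T₀ n n₀ m) a E.φ₂ E.f₂ →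
      ∀ (k : ℤ) (j : ℕ),
        IsAvgPure (upI (K' := K') 𝔫) 𝔫 T₀
          (LocOp51 B g 𝔫 μc T₀ n n₀ m E.H' E.z' E.H E.z k j) a
          (lsum E.Hg (regL (B.o 0) E.z' E.H' k j E.φ₂)) (regL B.u E.z E.H k j E.f₂)

/-- **NODE P.G2 = CONV-AVG (Haar splitting + Fubini).**  In the context there is a constant
`c ≠ 0` such that the convolution (for the Haar measures of the frames) of an average of pure
tensors of shape `LocA893` with the constant `1` and an average of pure tensors of shape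
`LocOp51` with the constant `a` is an average of pure tensors of shape `LocProd51 … t` with the
constant `a c / t`.
Proof.  Parameter space = the product of the two parameter spaces, measure = `c'` times the
product measure, `c'` the normalising constant upstairs.  Fubini (joint continuity, one compact
support).  `conv` of two pure tensors = constant times the pure tensor for the union of the two
sets of places with the local convolutions as components (`H305.HaarSplitC305`, closed; local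
Haar measures with `vol U(n_w) = 1`, so the constant does not depend on the sets; kit of
helper947).  At the places of the level the first pair has unit components:
`1_{U(n_w)} * X = X` for `X` left invariant under `U(n_w)`.  The component downstairs at `u` is
multiplied by `t`, the constant divided by `t`.  `c = c_G / c'_G`.  The members are test
functions (`conv` of test functions). -/
def ConvAvgC51 : Prop :=
  ∀ (ℓ : ℕ) (Φ : HeckeEigensystem K' ℂ) (B : L2Base K K') (g : G K') (𝔫 : Ideal (𝓞 K))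
    (μc : @Measure (GL (Fin 2) ℂ) (borel _)) (T₀ : Finset (HeightOneSpectrum (𝓞 K)))
    (n n₀ : HeightOneSpectrum (𝓞 K') → ℕ) (m : HeightOneSpectrum (𝓞 K) → ℕ),
    IsCtx51 ℓ Φ B g 𝔫 μc T₀ n n₀ m →
    ∃ c : ℂ, c ≠ 0 ∧ ∀ t a : ℂ, t ≠ 0 → a ≠ 0 →
      ∀ (H' : Finset (G K')) (z' : G K') (H : Finset (G K)) (z : G K),
        IsSys51 B 𝔫 H' z' H z →
        ∀ (k : ℤ) (j : ℕ) (φ₁' φ₂' : G K' → ℂ) (f₁ f₂ : G K → ℂ),
          IsAvgPure (upI (K' := K') 𝔫) 𝔫 T₀ (LocA893 B 𝔫 μc T₀ n m) 1 φ₁' f₁ →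
          IsAvgPure (upI (K' := K') 𝔫) 𝔫 T₀
            (LocOp51 B g 𝔫 μc T₀ n n₀ m H' z' H z k j) a φ₂' f₂ →
          IsAvgPure (upI (K' := K') 𝔫) 𝔫 T₀
            (LocProd51 B g 𝔫 μc T₀ n n₀ m H' z' H z t k j) (a * c / t)
            (T5.conv B.R'.μ φ₁' φ₂') (T5.conv B.R.μ f₁ f₂)

variable {K K'}

/-- **THE GLOBAL NODE from its two nodes.** -/
theorem globProdC_of51 (h1 : OpAvgC51 K K') (h2 : ConvAvgC51 K K') : GlobProdC51 K K' := by
  intro ℓ Φ B g 𝔫 μc T₀ n n₀ m hctx
  obtain ⟨c, hc, h⟩ := h2 ℓ Φ B g 𝔫 μc T₀ n n₀ m hctx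
  refine ⟨c, hc, ?_⟩
  intro t a ht ha E hE hOp hA1 hA2 X k j hX
  have hsys : IsSys51 B 𝔫 E.H' E.z' E.H E.z :=
    { level_ne := hE ▸ hOp.level_ne
      level_g := hE ▸ hOp.level_g
      mem_S'_g := hE ▸ hOp.mem_S'_g
      u_level := hE ▸ hOp.u_level
      sys' := hOp.sys'
      unif' := hOp.unif'
      sys := hOp.sys
      unif := hOp.unif }
  exact h t a ht ha E.H' E.z' E.H E.z hsys k j _ _ _ _ (hA1 X hX)
    (h1 ℓ Φ B g 𝔫 μc T₀ n n₀ m hctx a ha E hE hOp hA2 k j)

end Nodes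

end Fermat.Agent.LT.T7.P51

end

end
-- ===== PACK-END LT/T7/P51/GlobProdSpec.lean

-- ===== PACK-BEGIN LT/T7/P51/ProdMtTop.lean
section



/-!
# Row LT, tower T7, node T7.L2.1.H2b `ProdMtCb` (helper51, SPARE CUT): the PROVED tops

OFF-MAIN.  No hole, nothing assumed.  ADDITIVE.

    locProdC_of51 : RegOrbC51 → RegSphC51 → RegArchC51 → InertSphC51 → SplitOrbC51
        → SplitSphC51 → ArchProdC51 → LocProdC51 K K'
    prodMtCb_of51 : GlobProdC51 K K' → LocProdC51 K K' → UnramC51 K K' → LevelAtC51 K K'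
        → LevelUniqC51 → ∀ κ, (∀ D μc T₀ n m, κ D μc T₀ n m ≠ 0) → H893.ProdMtCb K K' κ
-/

set_option autoImplicit false

open AutomorphicForm IsDedekindDomain NumberField MeasureTheory
open scoped ComplexConjugate

noncomputable section

namespace Fermat.Agent.LT.T7.P51

open Fermat.Agent.LT.H556 Fermat.Agent.LT.H556.A0 Fermat.Agent.LT.T7
open Fermat.Agent.LT.T7.H305 Fermat.Agent.LT.T7.H893

attribute [local instance] Fermat.Agent.LT.T5.instMeasurableSpaceG

section Tops

variable {K K' : Type} [Field K] [NumberField K] [Field K'] [NumberField K'] [Algebra K K']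

/-- `IsAvgPure` is monotone in the local condition. -/
theorem isAvgPure_mono51 {𝔑 : Ideal (𝓞 K')} {𝔫 : Ideal (𝓞 K)}
    {T₀ : Finset (HeightOneSpectrum (𝓞 K))} {L L' : LocCond K K'} {c : ℂ}
    {φ' : G K' → ℂ} {f : G K → ℂ}
    (hL : ∀ T φ₀ Φ f₀ F, L T φ₀ Φ f₀ F → L' T φ₀ Φ f₀ F)
    (h : IsAvgPure 𝔑 𝔫 T₀ L c φ' f) : IsAvgPure 𝔑 𝔫 T₀ L' c φ' f := by
  obtain ⟨Ω, i1, i2, i3, i4, i5, i6, ν, i7, T, T', φ₀, Φ, f₀, F, h1, h2⟩ := h
  exact ⟨Ω, i1, i2, i3, i4, i5, i6, ν, i7, T, T', φ₀, Φ, f₀, F,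
    fun a => ⟨(h1 a).1, (h1 a).2.1, hL _ _ _ _ _ (h1 a).2.2⟩, h2⟩

/-- **THE LOCAL NODE from its leaves.** -/
theorem locProdC_of51 (h1 : RegOrbC51 K K') (h2 : RegSphC51 K K') (h3 : RegArchC51 K K')
    (h4 : InertSphC51 K K') (h5 : SplitOrbC51 K K') (h6 : SplitSphC51 K K')
    (h7 : ArchProdC51 K K') : LocProdC51 K K' := by
  classical
  intro ℓ Φ B g 𝔫 μc T₀ n n₀ m hctx
  obtain ⟨t, ht, hsplit⟩ := h5 ℓ Φ B g 𝔫 μc T₀ n n₀ m hctx
  refine ⟨t, ht, ?_⟩
  intro H' z' H z hsys k j T φ₀ Φ' f₀ F hLP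
  have hloc : IsLoc51 K K' ℓ Φ B g 𝔫 μc T₀ n n₀ m H' z' H z t k j T φ₀ Φ' f₀ F :=
    ⟨hctx, hsys, ht, hLP⟩
  obtain ⟨T₁, T₂, φ₁, Φ₁, f₁, F₁, φ₂, Φ₂, f₂, F₂, hT, hT₁, hT₂, hA, hB, hbad, hfu, hφ0, hφi,
    hsph, hΦ, hF⟩ := hLP
  have hBh := hB.1
  -- the three kinds of places
  have hcase : ∀ v ∈ T, v = B.u ∨ (v ∈ T₀.erase B.u ∧ v ∈ T₀ ∧ v ≠ B.u) ∨ v ∉ T₀ := by
    intro v _
    by_cases hvu : v = B.u
    · exact Or.inl hvu
    · by_cases hv0 : v ∈ T₀
      · exact Or.inr (Or.inl ⟨Finset.mem_erase.2 ⟨hvu, hv0⟩, hv0, hvu⟩)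
      · exact Or.inr (Or.inr hv0)
  have hreg : ∀ v ∈ T, RegAt51 n m φ₀ f₀ v := by
    intro v hv
    rcases hcase v hv with hvu | ⟨hve, hv0, hvu⟩ | hv0
    · subst hvu
      exact h1 _ _ _ _ _ _ _ _ _ _ _ _ _ _ _ _ _ _ _ _ _ _ hloc
    · refine ⟨fun w hw => ?_, ?_⟩
      · rw [(hbad v hv0 hvu).2 w hw]
        exact hBh.inv_up v hve w hw
      · rw [(hbad v hv0 hvu).1]
        exact hBh.inv_down v hve
    · exact h2 _ _ _ _ _ _ _ _ _ _ _ _ _ _ _ _ _ _ _ _ _ _ hloc v hv hv0
  have harch := h3 _ _ _ _ _ _ _ _ _ _ _ _ _ _ _ _ _ _ _ _ _ _ hloc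
  have hinert : ∀ v ∈ T, InertAt51 (B.comp 𝔫) n m φ₀ f₀ v := by
    intro v hv
    rcases hcase v hv with hvu | ⟨hve, hv0, hvu⟩ | hv0
    · subst hvu
      intro w _ huniq
      exfalso
      have e0 := huniq (B.o 0) (hctx.base.orbit_over 0)
      have e1 := huniq (B.o 1) (hctx.base.orbit_over 1)
      exact hctx.base.orbit_ne 1 Nat.zero_lt_one hctx.cyc.prime.one_lt (e1.trans e0.symm)
    · intro w hw huniq e i sw hi hs hext
      have := hBh.inert v hve w hw huniq e i sw hi hs hext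
      rw [(hbad v hv0 hvu).2 w hw, (hbad v hv0 hvu).1]
      exact this
    · exact h4 _ _ _ _ _ _ _ _ _ _ _ _ _ _ _ _ _ _ _ _ _ _ hloc v hv hv0
  have hsplitAll : ∀ v ∈ T, SplitAt51 (B.comp 𝔫) n m φ₀ f₀ v := by
    intro v hv
    rcases hcase v hv with hvu | ⟨hve, hv0, hvu⟩ | hv0
    · subst hvu
      exact hsplit H' z' H z k j T φ₀ Φ' f₀ F hloc
    · intro hex
      obtain ⟨w, i, a1, a2, a3, a4, a5, a6, a7⟩ := hBh.split v hve hex
      refine ⟨w, i, a1, a2, a3, a4, a5, a6, ?_⟩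
      have e : (fun (j : ℕ) (x : GL (Fin 2) (v.adicCompletion K)) => φ₀ (w j)
            (Matrix.GeneralLinearGroup.map ((i j : v.adicCompletion K ≃+* _) :
              v.adicCompletion K →+* (w j).adicCompletion K') x))
          = fun (j : ℕ) (x : GL (Fin 2) (v.adicCompletion K)) =>
            (fun w : HeightOneSpectrum (𝓞 K') => dblFn893 (n₀ w) (finGL305 w g)) (w j)
              (Matrix.GeneralLinearGroup.map ((i j : v.adicCompletion K ≃+* _) :
                v.adicCompletion K →+* (w j).adicCompletion K') x) := by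
        funext j x
        rw [(hbad v hv0 hvu).2 (w j) (a1 j)]
      rw [e, (hbad v hv0 hvu).1]
      exact a7
    · exact h6 _ _ _ _ _ _ _ _ _ _ _ _ _ _ _ _ _ _ _ _ _ _ hloc v hv hv0
  exact
    { inv_up := fun v hv w hw => (hreg v hv).1 w hw
      inv_down := fun v hv => (hreg v hv).2
      arch_up := harch.1
      arch_down := harch.2
      inert := fun v hv => hinert v hv
      split := fun v hv => hsplitAll v hv
      arch := h7 _ _ _ _ _ _ _ _ _ _ _ _ _ _ _ _ _ _ _ _ _ _ hloc }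

/-- **THE NODE `H893.ProdMtCb` from the cut.** -/
theorem prodMtCb_of51 (hG : GlobProdC51 K K') (hL : LocProdC51 K K') (hU : UnramC51 K K')
    (hA : LevelAtC51 K K') (hQ : LevelUniqC51)
    (κ : KapFn K K') (hκ : ∀ D μc T₀ n m, κ D μc T₀ n m ≠ 0) : ProdMtCb K K' κ := by
  intro ℓ hcyc hl2 htc Φ B hB hRam g hg 𝔫 μc hμc
  by_cases hex : ∃ (T₀ : Finset (HeightOneSpectrum (𝓞 K)))
      (n n₀ : HeightOneSpectrum (𝓞 K') → ℕ) (m : HeightOneSpectrum (𝓞 K) → ℕ),
      (∀ v : HeightOneSpectrum (𝓞 K), v ∈ T₀ ↔ v.asIdeal ∣ 𝔫) ∧ IsLevelOf893 𝔫 m ∧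
        IsLevelOf893 (upI (K' := K') 𝔫) n ∧ IsLevelOf893 B.𝔑₀ n₀
  · obtain ⟨T₀, n, n₀, m, hT₀, hm, hn, hn₀⟩ := hex
    have hctx : IsCtx51 ℓ Φ B g 𝔫 μc T₀ n n₀ m :=
      { cyc := hcyc, ne2 := hl2, tc := htc, base := hB, ram := hRam, bad := hg, haar := hμc
        mem_T₀ := hT₀, lev_m := hm, lev_n := hn, lev_n₀ := hn₀ }
    obtain ⟨t, ht, hLt⟩ := hL ℓ Φ B g 𝔫 μc T₀ n n₀ m hctx
    obtain ⟨c, hc, hGc⟩ := hG ℓ Φ B g 𝔫 μc T₀ n n₀ m hctx
    have hk := hκ (B.comp 𝔫) μc T₀ n m
    have ha : κ (B.comp 𝔫) μc T₀ n m * t / c ≠ 0 := div_ne_zero (mul_ne_zero hk ht) hc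
    refine ⟨κ (B.comp 𝔫) μc T₀ n m * t / c, ha, ?_⟩
    intro E hE hOp hDec X k j hX
    obtain ⟨T₀', n', n₀', m', hT₀', hm', hn', hn₀', hA1, hA2⟩ := hDec
    rw [hE] at hT₀' hm' hn' hA1 hA2
    have eT : T₀' = T₀ := Finset.ext fun v => (hT₀' v).trans (hT₀ v).symm
    have em : m' = m := hQ K 𝔫 m' m hm' hm
    have en : n' = n := hQ K' (upI (K' := K') 𝔫) n' n hn' hn
    have en₀ : n₀' = n₀ := hQ K' B.𝔑₀ n₀' n₀ hn₀' hn₀
    subst eT em en en₀
    have hsys : IsSys51 B 𝔫 E.H' E.z' E.H E.z :=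
      { level_ne := hE ▸ hOp.level_ne
        level_g := hE ▸ hOp.level_g
        mem_S'_g := hE ▸ hOp.mem_S'_g
        u_level := hE ▸ hOp.u_level
        sys' := hOp.sys'
        unif' := hOp.unif'
        sys := hOp.sys
        unif := hOp.unif }
    have hprod := hGc t (κ (B.comp 𝔫) μc T₀' n' m' * t / c) ht ha E hE hOp hA1 hA2 X k j hX
    have hconst : κ (B.comp 𝔫) μc T₀' n' m' * t / c * c / t = κ (B.comp 𝔫) μc T₀' n' m' := by
      field_simp
    rw [hconst] at hprod
    refine ⟨μc, T₀', n', m', hμc, hU B 𝔫 T₀' hRam hsys.mem_S'_g hT₀, hA 𝔫 T₀' n' m' hT₀ hm hn,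
      ?_⟩
    exact isAvgPure_mono51
      (fun T φ₀ Φ' f₀ F h => hLt E.H' E.z' E.H E.z hsys k j T φ₀ Φ' f₀ F h) hprod
  · refine ⟨1, one_ne_zero, ?_⟩
    intro E hE _ hDec
    exfalso
    obtain ⟨T₀, n, n₀, m, hT₀, hm, hn, hn₀, _, _⟩ := hDec
    rw [hE] at hT₀ hm hn
    exact hex ⟨T₀, n, n₀, m, hT₀, hm, hn, hn₀⟩

end Tops

end Fermat.Agent.LT.T7.P51

end

end
-- ===== PACK-END LT/T7/P51/ProdMtTop.lean

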