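import Mathlib
import Fermat.Agent.Pack.LT2.E20L3
import Fermat.Agent.Pack.LT3.E29L2
import Fermat.Agent.Pack.LT3.E28L2
import Fermat.Agent.Pack.LT3.E29L0
import Fermat.Agent.Pack.LT3.E26L3
import Fermat.Agent.Pack.LT3.E26L1
import Fermat.Agent.Pack.LT3.E25L3
import Fermat.Agent.Pack.LT3.E28L3
import Fermat.Agent.Pack.LT3.E24L0
import Fermat.Agent.Pack.LT3.E27L1
import Fermat.Agent.Pack.LT3.E27L0
import Fermat.Agent.Pack.LT3.E27L3
import Fermat.Agent.Pack.LT3.E27L2
import Fermat.Agent.Pack.LT3.E7L3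
import Fermat.Agent.Pack.LT3.E29L3
import Fermat.Agent.Pack.LT3.E29L1
import Fermat.Agent.Pack.LT3.E23L2
import Fermat.Agent.Pack.LT3.E26L0

set_option linter.all false

-- ===== PACK-BEGIN LT/CFT/H681/SharpEmb.lean
section


/-!
# LT / tower CFT, sub-tower EX, leaf `E1.R` (helper681): the sum formula with SHARP local conditions

`embSharp681` : the bad set `B` of rational primes is GIVEN (the character is unramified outside
`B`), and at the places above `B` the hypothesis is the vanishing of the local Brauer class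
(`locBr_gcc_eq_zero_of_lt_eps681` : `a` close to `1`; `locBr_gcc_eq_zero_of_char_triv681` : the
character is locally trivial).
-/

set_option autoImplicit false

noncomputable section

namespace Fermat.Agent.LT.CFT.H681

open Fermat.Agent.S55.G.Rec groupCohomology

local notation "Qb" => AlgebraicClosure ℚ
local notation "GQ" => (AlgebraicClosure ℚ ≃ₐ[ℚ] AlgebraicClosure ℚ)

/-- The local cup class vanishes at a place where the character is trivial on the decomposition
group. -/
theorem locBr_gcc_eq_zero_of_char_triv681 (n : ℕ) (hn : n ≠ 0) (q : ℕ) [Fact q.Prime] (g : GQ)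
    (U : Subgroup GQ) (χ : ↥U →* Multiplicative (ZMod n)) (a : Qbˣ)
    (hχ : IsLevelConstant₁ U.subtype χ) (ha : GFixed U a)
    (htriv : ∀ τ : ↥(locSub q g U), χ (locHom q g U τ) = 1) :
    locBr q g U (gcc U n χ a) = 0 := by
  obtain ⟨⟨-, h2⟩, h3⟩ := H496.cupLoc q g U n χ a hn hχ ha
  have h1 : χ.comp (locHom q g U) = 1 := by
    ext τ
    exact congrArg _ (htriv τ)
  rw [h3, h1]
  exact lcc_one_char681 _ n hn _ h2

/-- **The sum formula with sharp local conditions.** -/
theorem embSharp681 (I : LocalInvSystem) {U : Subgroup GQ} (hU : IsOpenQ U) (n : ℕ)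
    [NeZero n] (χ : ↥U →* Multiplicative (ZMod n)) (hχ : IsLevelConstant₁ U.subtype χ)
    (B : Finset ℕ)
    (hB : ∀ (q : ℕ) [Fact q.Prime], q ∉ B → ∀ (g : GQ) (τ : ↥(locSub q g U)),
      IsInertial q (τ : PadicAlgCl q ≃ₐ[ℚ_[q]] PadicAlgCl q) → χ (locHom q g U τ) = 1)
    (a : Qbˣ) (ha : GFixed U a) (R : Nat.Primes → Finset GQ)
    (hbad : ∀ q : Nat.Primes, (q : ℕ) ∈ B → ∀ r ∈ R q,
      haveI : Fact (q : ℕ).Prime := ⟨q.2⟩
      locBr (q : ℕ) r U (gcc U n χ a) = 0)
    (hsum : I.sumInv U R (gcc U n χ a) = 0)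
    (t : Nat.Primes → GQ → ZMod n)
    (ht : ∀ q : Nat.Primes, (q : ℕ) ∉ B → ∀ r ∈ R q,
      haveI : Fact (q : ℕ).Prime := ⟨q.2⟩
      IsLocalTerm681 U χ (q : ℕ) r a (t q r)) :
    (Function.support fun q : Nat.Primes =>
        ∑ r ∈ R q, if (q : ℕ) ∈ B then 0 else t q r).Finite ∧
      ∑ᶠ q : Nat.Primes, ∑ r ∈ R q, (if (q : ℕ) ∈ B then 0 else t q r) = 0 := by
  have hterm : ∀ (q : Nat.Primes), ∀ r ∈ R q,
      I.invAt q r U (gcc U n χ a) = zmodToCircle681 n (if (q : ℕ) ∈ B then 0 else t q r) := by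
    intro q r hr
    haveI : Fact (q : ℕ).Prime := ⟨q.2⟩
    by_cases hq : (q : ℕ) ∈ B
    · rw [if_pos hq, map_zero]
      apply I.invAt_eq_zero
      exact hbad q hq r hr
    · rw [if_neg hq]
      exact inv_eq_of_isLocalTerm681 I hU n χ hχ (q : ℕ) r (hB q hq r) a ha (t q r) (ht q hq r hr)
  have hfun : (fun q : Nat.Primes => ∑ r ∈ R q, I.invAt q r U (gcc U n χ a)) =
      fun q : Nat.Primes =>
        zmodToCircle681 n (∑ r ∈ R q, if (q : ℕ) ∈ B then 0 else t q r) := by
    funext q
    rw [map_sum]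
    exact Finset.sum_congr rfl fun r hr => hterm q r hr
  have hfin : (Function.support fun q : Nat.Primes =>
      ∑ r ∈ R q, if (q : ℕ) ∈ B then 0 else t q r).Finite := by
    refine (I.support_finite H181.supportFinite U hU R (gcc U n χ a)).subset ?_
    intro q hq
    rw [Function.mem_support] at hq ⊢
    rw [congrFun hfun q]
    intro h0
    exact hq (zmodToCircle681_injective n (h0.trans (map_zero _).symm))
  refine ⟨hfin, ?_⟩
  apply zmodToCircle681_injective n
  rw [map_zero, AddMonoidHom.map_finsum _ hfin]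
  have : (fun q : Nat.Primes =>
      zmodToCircle681 n (∑ r ∈ R q, if (q : ℕ) ∈ B then 0 else t q r)) =
      fun q : Nat.Primes => ∑ r ∈ R q, I.invAt q r U (gcc U n χ a) := hfun.symm
  rw [this]
  exact hsum

end Fermat.Agent.LT.CFT.H681

end
end
-- ===== PACK-END LT/CFT/H681/SharpEmb.lean

-- ===== PACK-BEGIN LT/T7/H193/NatStep.lean
section





/-!
# Row LT, tower T7, node T7.L2.1.H2a `BaseCb`, node PAIR-B (row 2729): THE NATURAL-AVERAGE STEP
(helper193)

OFF-MAIN.  Complete proofs, nothing assumed (hypotheses: the outputs `T1.T1Out K`, `T1.T1Out K'`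
of the closed tower T1).  ADDITIVE (new names only, suffix `193`).

    pairBCb_of_pairB0C193 : T1.T1Out K → T1.T1Out K' →
        PairB0C193 P K K' LocB893b → Q797.PairBC797 P K K' LocB893b

`PairB0C193 P K K' LB` = the node `Q797.PairBC797 P K K' LB` of helper797 WITHOUT THE KILLING
FIELDS (`up2_kill`, `dn2_kill`): a level `𝔫`, a Haar measure `μc` and, for every constant
`a ≠ 0`, a scalar `c₂` and a KILL-FREE pair `(φ₀, f₀)` (`IsPairB0_193`).  So the owner of the node
PAIR-B has to construct an Eisenstein-killing pair with the local shape, the operator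
properties and the supports -- NO torus, NO natural average, NO killing.

The step: `φ₂ = nat193 a' D' φ₀`, `f₂ = nat193 a D f₀` for the COMPATIBLE torus data of
`relTorus_closed193` (`N(D') = D`, `N_*` normalised Lebesgue = normalised Lebesgue).
* the operator properties and the killing: `isPairB_of_pairB0_193` (`NatStepOps.lean`,
  `killing_of_torus193`);
* the shape: `isAvgPure_nat193` (`NatStepShape.lean`; parameter space `closure D' × Ω`, the
  member at `(s, ω)` is the pure tensor with the components at infinity shifted by the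
  components of `a'(s)⁻¹` resp. `a(N s)⁻¹`);
* the local conditions are stable under the shifts: `locB893b_shift193` (`NatStepArch.lean`;
  the iterated convolution of shifted functions is the shift of the iterated convolution by the
  product, and the sum of `s` over an enumeration of the fibre of `v` is `(N s)_v`: `FibCardC`).
-/

set_option autoImplicit false
set_option linter.unusedSectionVars false

open AutomorphicForm IsDedekindDomain NumberField MeasureTheory
open scoped ComplexConjugate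

noncomputable section

namespace Fermat.Agent.LT.T7.H193

open Fermat.Agent.LT.H556 Fermat.Agent.LT.H556.A0 Fermat.Agent.LT Fermat.Agent.LT.T7
open Fermat.Agent.LT.T7.H893 Fermat.Agent.LT.T7.H305

attribute [local instance] Fermat.Agent.LT.T5.instMeasurableSpaceG

section Nodes

variable (P : EKCond)
variable (K K' : Type) [Field K] [NumberField K] [Field K'] [NumberField K'] [Algebra K K']

/-- **NODE PAIR-B0 = the KILL-FREE second pair** (T3 + T6; no torus, no natural average):
the node `Q797.PairBC797` without the killing fields. -/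
def PairB0C193 (LB : Q797.ShapeB797 K K') : Prop :=
  ∀ ℓ : ℕ, IsCycExt K K' ℓ → ℓ ≠ 2 → TotCplx K →
    ∀ Φ : HeckeEigensystem K' ℂ, A0.IsCuspAdelicSph0 K' Φ → ConstOnFibres K Φ → P K' Φ →
      ∀ B : L2Base K K', IsL2Base ℓ Φ B → B.RamIn → ∀ g : G K', B.IsBad g →
        ∃ (𝔫 : Ideal (𝓞 K)) (μc : @Measure (GL (Fin 2) ℂ) (borel _)),
          Q797.IsLevel797 B 𝔫 ∧ @Measure.IsHaarMeasure _ _ _ (borel _) μc ∧
          ∀ (T₀ : Finset (HeightOneSpectrum (𝓞 K)))
            (n n₀ : HeightOneSpectrum (𝓞 K') → ℕ) (m : HeightOneSpectrum (𝓞 K) → ℕ),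
            Q797.IsExp797 B 𝔫 T₀ n n₀ m →
            ∀ a : ℂ, a ≠ 0 →
              ∃ (c₂ : EigData K' → ℂ) (φ₀ : G K' → ℂ) (f₀ : G K → ℂ),
                IsPairB0_193 LB ℓ Φ B g 𝔫 μc T₀ n n₀ m a c₂ φ₀ f₀

/-- The local shape `LB` is stable under the shifts of the components at infinity by the
components of `a'(t')⁻¹` upstairs and of `a(N t')⁻¹` downstairs. -/
def IsShiftStable193 (LB : Q797.ShapeB797 K K') : Prop :=
  ∀ ℓ : ℕ, IsCycExt K K' ℓ → TotCplx K →
    ∀ (Φ : HeckeEigensystem K' ℂ) (B : L2Base K K'), IsL2Base ℓ Φ B →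
    ∀ (g : G K') (𝔫 : Ideal (𝓞 K)) (μc : @Measure (GL (Fin 2) ℂ) (borel _)),
      @Measure.IsHaarMeasure _ _ _ (borel _) μc →
    ∀ (T₀ : Finset (HeightOneSpectrum (𝓞 K)))
      (n n₀ : HeightOneSpectrum (𝓞 K') → ℕ) (m : HeightOneSpectrum (𝓞 K) → ℕ)
      (T : Finset (HeightOneSpectrum (𝓞 K)))
      (φ₀ : ∀ w : HeightOneSpectrum (𝓞 K'), GL (Fin 2) (w.adicCompletion K') → ℂ)
      (Φ' : InfinitePlace K' → GL (Fin 2) ℂ → ℂ)
      (f₀ : ∀ v : HeightOneSpectrum (𝓞 K), GL (Fin 2) (v.adicCompletion K) → ℂ)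
      (F : InfinitePlace K → GL (Fin 2) ℂ → ℂ),
      LB B g 𝔫 μc T₀ n n₀ m T φ₀ Φ' f₀ F →
      ∀ t' : InfinitePlace K' → ℝ,
        LB B g 𝔫 μc T₀ n n₀ m T φ₀ (shUp193 t' Φ') f₀ (shDn193 (fibSum193 (K := K) t') F)

end Nodes

section Top

variable {P : EKCond}
variable {K K' : Type} [Field K] [NumberField K] [Field K'] [NumberField K'] [Algebra K K']

/-- **THE NATURAL-AVERAGE STEP** for a general local shape. -/
theorem pairBC_of_pairB0C193 (hT1 : T1.T1Out K) (hT1' : T1.T1Out K')
    (hRT : RelTorusC K K') {LB : Q797.ShapeB797 K K'} (hLB : IsShiftStable193 K K' LB)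
    (h0 : PairB0C193 P K K' LB) : Q797.PairBC797 P K K' LB := by
  intro ℓ hcyc hℓ htot Φ hΦ hconst hP B hB hram g hg
  obtain ⟨𝔫, μc, hlev, hμ, H⟩ := h0 ℓ hcyc hℓ htot Φ hΦ hconst hP B hB hram g hg
  obtain ⟨aa, D, aa', D', hrel⟩ :=
    hRT ℓ hcyc htot 𝔫 hlev.level_ne B.R.r B.R'.r hB.frame.ray hB.frame'.ray
  refine ⟨𝔫, μc, hlev, hμ, fun T₀ n n₀ m hexp a ha => ?_⟩
  obtain ⟨c₂, φ₀, f₀, hp⟩ := H T₀ n n₀ m hexp a ha
  refine ⟨c₂, nat193 aa' D' φ₀, nat193 aa D f₀,
    isPairB_of_pairB0_193 hT1 hT1' hB hlev hrel.down hrel.up hp ?_⟩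
  exact isAvgPure_nat193 hrel
    (fun T φ₀' Φ' f₀' F hL t' =>
      hLB ℓ hcyc htot Φ B hB g 𝔫 μc hμ T₀ n n₀ m T φ₀' Φ' f₀' F hL t')
    hp.dn_test.cont hp.shape

/-- The local shape of record v2 is stable under the shifts. -/
theorem isShiftStable_locB893b193 : IsShiftStable193 K K' (LocB893b (K := K) (K' := K')) := by
  intro ℓ hcyc htot Φ B hB g 𝔫 μc hμ T₀ n n₀ m T φ₀ Φ' f₀ F h t'
  have hl : 0 < B.l := by
    rw [hB.deg]
    exact hcyc.prime.pos
  have hcard : ∀ v : InfinitePlace K,
      Nat.card {w : InfinitePlace K' // w.comap (algebraMap K K') = v} = B.l := by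
    intro v
    rw [hB.deg]
    exact H560.fibCardC560 K K' ℓ hcyc htot v
  exact locB893b_shift193 hl hcard hμ h t'

/-- The local shape of record v1 is stable under the shifts. -/
theorem isShiftStable_locB893_193 : IsShiftStable193 K K' (LocB893 (K := K) (K' := K')) := by
  intro ℓ hcyc htot Φ B hB g 𝔫 μc hμ T₀ n n₀ m T φ₀ Φ' f₀ F h t'
  have hl : 0 < B.l := by
    rw [hB.deg]
    exact hcyc.prime.pos
  have hcard : ∀ v : InfinitePlace K,
      Nat.card {w : InfinitePlace K' // w.comap (algebraMap K K') = v} = B.l := by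
    intro v
    rw [hB.deg]
    exact H560.fibCardC560 K K' ℓ hcyc htot v
  exact locB893_shift193 hl hcard hμ h t'

/-- **THE NATURAL-AVERAGE STEP for the form of record v2** (`H893.LocB893b`): the node PAIR-B of
helper797 from the KILL-FREE pair. -/
theorem pairBCb_of_pairB0C193 (hT1 : T1.T1Out K) (hT1' : T1.T1Out K')
    (h0 : PairB0C193 P K K' LocB893b) : Q797.PairBC797 P K K' LocB893b :=
  pairBC_of_pairB0C193 hT1 hT1' (relTorus_closed193 K K') isShiftStable_locB893b193 h0

/-- The same for the shape v1 (`H893.LocB893`). -/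
theorem pairBC1_of_pairB0C193 (hT1 : T1.T1Out K) (hT1' : T1.T1Out K')
    (h0 : PairB0C193 P K K' LocB893) : Q797.PairBC797 P K K' LocB893 :=
  pairBC_of_pairB0C193 hT1 hT1' (relTorus_closed193 K K') isShiftStable_locB893_193 h0

/-- **`H893.BaseCb` from the first pair and the KILL-FREE second pair** (top of helper797). -/
theorem baseCb_of_pairB0C193 (hT1 : T1.T1Out K) (hT1' : T1.T1Out K')
    (hE : Q797.ExpC797 K K') (hCo : Q797.CosetC797 K K')
    (hA : Q797.PairAC797 P K K' LocA893) (h0 : PairB0C193 P K K' LocB893b) :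
    BaseCb P K K' :=
  Q797.baseCb_of797 hE hCo hA (pairBCb_of_pairB0C193 hT1 hT1' h0)

end Top

/-! ## Appendix: the equation lemmas of the definitions of this station are realised HERE -/

theorem eqns_realised_natStep193 : True := by
  have _h0 := @PairB0C193.eq_1
  have _h1 := @PairB0C193.eq_def
  have _h2 := @PairB0C193.eq_unfold
  have _h3 := @IsShiftStable193.eq_1
  have _h4 := @IsShiftStable193.eq_def
  have _h5 := @IsShiftStable193.eq_unfold
  trivial

end Fermat.Agent.LT.T7.H193

end

end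
-- ===== PACK-END LT/T7/H193/NatStep.lean

-- ===== PACK-BEGIN LT/T7/H305/Match893Closed.lean
section








/-!
# Row LT, tower T7, station C2 (helper305): INTEGRATION v3 -- `H893.GlobMatchC893`

OFF-MAIN.  Complete proofs, nothing assumed.  ADDITIVE.

    globMatchC893_of_open305 : OpenMatch305b K K' → H893.GlobMatchC893 K K'

CLOSED (vendored byte-identical, ONE closure): the 14 leaves of integration v1
(`MatchClosed.lean`), `IotaC305` helper816 (`iotaC_closed816`), `H340.LocEqInertC340` helper555,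
`FactDownC305` helper558 (`factDownC558`, with its 13 leaves).

OPEN (the structure `OpenMatch305b`): `T6.T6Out` (tower T6, supplied by the master),
`TorSplitC305 K`, `UnitMatchC305b`, `UpDatC305b`, `H340.CutOnUpC340`, `FactIntUpC305b`,
`LocEqSplitC305b`, `H340.LocEqArchC340`.
-/

set_option autoImplicit false

open AutomorphicForm IsDedekindDomain NumberField MeasureTheory
open scoped ComplexConjugate

noncomputable section

namespace Fermat.Agent.LT.T7.H305

open Fermat.Agent.LT.H556 Fermat.Agent.LT.H556.A0 Fermat.Agent.LT.T7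

attribute [local instance] Fermat.Agent.LT.T5.instMeasurableSpaceG

variable (K K' : Type) [Field K] [NumberField K] [Field K'] [NumberField K'] [Algebra K K']

/-- **THE OPEN WALL of the station C2 for `LocHyp893`** (integration v2). -/
structure OpenMatch305b : Prop where
  t6 : T6.T6Out
  torSplit : TorSplitC305 K
  unit : UnitMatchC305b K K'
  upDat : UpDatC305b K K'
  cutOnUp : H340.CutOnUpC340 K K'
  factIntUp : FactIntUpC305b K K'
  locEqSplit : LocEqSplitC305b K K'
  locEqArch : H340.LocEqArchC340 K K'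

variable {K K'}

/-- The factorisation upstairs from the open wall. -/
theorem factUpC305b_of_open305 (h : OpenMatch305b K K') : FactUpC305b K K' :=
  factUpC_of305b (upFactC305b_of_parts h.upDat h.cutOnUp h.factIntUp)
    (H555.locEqInertC555 K K') h.locEqSplit h.locEqArch

/-- The core node from the open wall. -/
theorem cutIntC305b_of_open305 (h : OpenMatch305b K K') : CutIntC305b K K' :=
  cutIntC_of305b h.t6 (H532.goodSetC532 K K') h.unit (H82.pureExtC82 K) (H82.pureExtC82 K')
    LocMeas729.locMeasC729 H543C.locCutC543 H709.archMeasC709 h.torSplit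
    (H558.factDownC558 K) (factUpC305b_of_open305 h) H385.locVanC385 (H857.nonNormLocC857 K K')

/-- **THE MATCHING THEOREM `H893.GlobMatchC893` from the open wall.** -/
theorem globMatchC893_of_open305 (h : OpenMatch305b K K') : H893.GlobMatchC893 K K' :=
  globMatch_of305b (H816.iotaC_closed816 K K') (H627.unfoldC627 K) (H627.unfoldC627 K')
    (H233.torCommC233 K) (H233.torCommC233 K') (H655.twistRepC655 K') (H277.ellRegC277 K K')
    (H149.torHaarC149 K) (H787.torMeasC787 K K') H119.torCompC119 (cutIntC305b_of_open305 h)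

end Fermat.Agent.LT.T7.H305

end

end
-- ===== PACK-END LT/T7/H305/Match893Closed.lean

-- ===== PACK-BEGIN LT/T7/H305/Match893Closed4.lean
section






/-!
# Row LT, tower T7, station C2 (helper305): INTEGRATION v4 -- `H893.GlobMatchC893`

OFF-MAIN.  Complete proofs, nothing assumed.  ADDITIVE (integration v3 `Match893Closed.lean`
is not changed).

    globMatchC893_of_open305c : OpenMatch305c K K' → H893.GlobMatchC893 K K'

NEWLY CLOSED (vendored byte-identical, ONE closure): `TorSplitC305` helper589 (`torSplitC589`),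
`H340.LocEqArchC340` helper582 (`locEqArchC582`), `UnitMatchC305b` helper816
(`unitMatchC305b_816`).

OPEN (the structure `OpenMatch305c`): `T6.T6Out` (tower T6, supplied by the master),
`UpFactC305b` (two cuts: `upFactC305b_of_parts` of this station, `upFactC305b_of314` of
helper314) and `LocEqSplitC305b`.
-/

set_option autoImplicit false

open AutomorphicForm IsDedekindDomain NumberField MeasureTheory
open scoped ComplexConjugate

noncomputable section

namespace Fermat.Agent.LT.T7.H305

open Fermat.Agent.LT.H556 Fermat.Agent.LT.H556.A0 Fermat.Agent.LT.T7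

attribute [local instance] Fermat.Agent.LT.T5.instMeasurableSpaceG

variable (K K' : Type) [Field K] [NumberField K] [Field K'] [NumberField K'] [Algebra K K']

/-- **THE OPEN WALL of the station C2 for `LocHyp893`** (integration v4). -/
structure OpenMatch305c : Prop where
  t6 : T6.T6Out
  upFact : UpFactC305b K K'
  locEqSplit : LocEqSplitC305b K K'

variable {K K'}

/-- The factorisation upstairs from the open wall (v4). -/
theorem factUpC305b_of_open305c (h : OpenMatch305c K K') : FactUpC305b K K' :=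
  factUpC_of305b h.upFact (H555.locEqInertC555 K K') h.locEqSplit (H582.locEqArchC582 K K')

/-- The core node from the open wall (v4). -/
theorem cutIntC305b_of_open305c (h : OpenMatch305c K K') : CutIntC305b K K' :=
  cutIntC_of305b h.t6 (H532.goodSetC532 K K') (H816U.unitMatchC305b_816 K K')
    (H82.pureExtC82 K) (H82.pureExtC82 K')
    LocMeas729.locMeasC729 H543C.locCutC543 H709.archMeasC709
    (Fermat.Agent.LT.H589.torSplitC589 K)
    (H558.factDownC558 K) (factUpC305b_of_open305c h) H385.locVanC385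
    (H857.nonNormLocC857 K K')

/-- **THE MATCHING THEOREM `H893.GlobMatchC893` from the open wall (v4).** -/
theorem globMatchC893_of_open305c (h : OpenMatch305c K K') : H893.GlobMatchC893 K K' :=
  globMatch_of305b (H816.iotaC_closed816 K K') (H627.unfoldC627 K) (H627.unfoldC627 K')
    (H233.torCommC233 K) (H233.torCommC233 K') (H655.twistRepC655 K') (H277.ellRegC277 K K')
    (H149.torHaarC149 K) (H787.torMeasC787 K K') H119.torCompC119 (cutIntC305b_of_open305c h)

/-- The same with the cut of this station for `UpFactC305b` (route A). -/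
theorem globMatchC893_of_partsA305 (hT6 : T6.T6Out) (hUpDat : UpDatC305b K K')
    (hCut : H340.CutOnUpC340 K K') (hFI : FactIntUpC305b K K')
    (hSplit : LocEqSplitC305b K K') : H893.GlobMatchC893 K K' :=
  globMatchC893_of_open305c ⟨hT6, upFactC305b_of_parts hUpDat hCut hFI, hSplit⟩

end Fermat.Agent.LT.T7.H305

end

end
-- ===== PACK-END LT/T7/H305/Match893Closed4.lean

-- ===== PACK-BEGIN LT/T7/H314/UpFactBCore.lean
section





/-!
# Row LT, tower T7, node C2.7.13.1b `UpFactC305b` (helper314, registry rows 2740 / 2809):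
# PART B IN CORE FORM FROM THE LEAVES, and the forms of record of helper305

OFF-MAIN.  No hole, nothing assumed.  ADDITIVE (new names only, suffix `314`).

    factIntUpCore_of_leaves314 : GrpSplitC340 K K' → PtFactUpC340 K K' → RayFinUpC340 K K' →
        ArchIntblUpC340 K K' → ArchIntblC558 → CompContC558 K' → BiInvContC558 K' →
        HaarSigmaC558 K → HaarSigmaC558 K' → IsoContC340 → SecCountC340 K →
        FactIntUpCoreC314 K K'
    upDatC305b_of314     : H340.UpDatC340 K K' → SplitEnumC314 K K' → H305.UpDatC305b K K'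
    factIntUpC305b_of314 : SplitEnumC314 K K' → FactIntUpCoreC314 K K'
                             → H305.FactIntUpC305b K K'
    upFactC305b_of_leaves314 : (the parts / leaves of helper340) → SplitEnumC314 K K'
                             → H305.UpFactC305b K K'

`factIntUpCore_of_leaves314` is THE PROOF OF helper340 (`H340.factIntUpC_of340`,
`T7/H340/UpFactTopB.lean` sha256 36e5eeb8, helper340@c7a784fad) with the three facts `hinv`,
`harch`, `hlevS` as hypotheses: that proof uses the local hypotheses only through `inv_up`,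
`arch_up` and `split` (for the levels along the enumerations of the data).  All lemmas of
helper340 are cited, none is copied.

`UpDatC305b`, `FactIntUpC305b` are the parts of record of helper305 (`T7/H305/UpFact893Spec.lean`,
helper305@4d68ca01b) of the Prop of record `UpFactC305b`.  `FactIntUpC305b` is stated for ALL
data `U`: the levels along the enumeration of `U` follow from the ONE enumeration of
`LocHyp893.split`, which exhausts the places over `v` (`SplitEnumC314`, field `exh`).
-/

set_option autoImplicit false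
set_option linter.style.haveILetI false

open AutomorphicForm IsDedekindDomain NumberField MeasureTheory
open scoped ComplexConjugate

noncomputable section

namespace Fermat.Agent.LT.T7.H314

open Fermat.Agent.LT.H556 Fermat.Agent.LT.H556.A0 Fermat.Agent.LT.T7 Fermat.Agent.LT.T7.H305
open Fermat.Agent.LT.T7.H340 Fermat.Agent.LT.T7.H558

attribute [local instance] Fermat.Agent.LT.T5.instMeasurableSpaceG

variable {K K' : Type} [Field K] [NumberField K] [Field K'] [NumberField K'] [Algebra K K']

/-! ## 1. Part B in core form from the leaves of helper340 -/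

/-- **TOP B IN CORE FORM**: the integral part from the leaves of the second cut of helper340
(the proof of `H340.factIntUpC_of340`, with `hinv`, `harch`, `hlevS` as hypotheses). -/
theorem factIntUpCore_of_leaves314 (hG : GrpSplitC340 K K') (hP : PtFactUpC340 K K')
    (hR : RayFinUpC340 K K') (hI : ArchIntblUpC340 K K') (hAI : ArchIntblC558)
    (hCC' : CompContC558 K') (hBI' : BiInvContC558 K') (hSig : HaarSigmaC558 K)
    (hSig' : HaarSigmaC558 K') (hIso : IsoContC340) (hSC : SecCountC340 K) :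
    FactIntUpCoreC314 K K' := by
  intro hT6 D hD hcyc hl2 hcplx ι hι μc hμc T₀ hT₀ n m hlev
  obtain ⟨c, hc, hsplit⟩ := hG hT6 D hD hcyc hl2 hcplx ι hι μc hμc T₀ hT₀ n m hlev
  refine ⟨c, hc, ?_⟩
  intro S S' hTS hSS' φ₀ Φ hinv harch δ γ hγ hN hgood hint L cT hL hcT U hU hlevS
  letI mw : ∀ w : HeightOneSpectrum (𝓞 K'),
      MeasurableSpace (GL (Fin 2) (w.adicCompletion K')) := fun _ => borel _
  letI mv : ∀ v : HeightOneSpectrum (𝓞 K), MeasurableSpace (GL (Fin 2) (v.adicCompletion K)) :=
    fun _ => borel _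
  letI mc : MeasurableSpace (GL (Fin 2) ℂ) := borel _
  haveI bw : ∀ w : HeightOneSpectrum (𝓞 K'), BorelSpace (GL (Fin 2) (w.adicCompletion K')) :=
    fun _ => ⟨rfl⟩
  haveI bv : ∀ v : HeightOneSpectrum (𝓞 K), BorelSpace (GL (Fin 2) (v.adicCompletion K)) :=
    fun _ => ⟨rfl⟩
  haveI bc : BorelSpace (GL (Fin 2) ℂ) := ⟨rfl⟩
  haveI bG : BorelSpace (G K') := ⟨rfl⟩
  haveI scv : ∀ v : HeightOneSpectrum (𝓞 K),
      SecondCountableTopology (GL (Fin 2) (v.adicCompletion K)) := hSC.1
  haveI scc : SecondCountableTopology (GL (Fin 2) ℂ) := hSC.2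
  haveI sw : ∀ v : U.Sin, SigmaFinite (U.dI v).μ' :=
    fun v => hSig'.1 (U.dI v).w (U.dI v).μ' (hU.inert v).haar.1
  haveI sv : ∀ v : HeightOneSpectrum (𝓞 K), SigmaFinite (L.μv v) :=
    fun v => hSig.1 v (L.μv v) (hL.haar v).1
  haveI sc : SigmaFinite μc := hSig.2.1 μc hμc
  have hl : 0 < D.l := hU.pos
  have hmap : Measure.map (upCoord340 U D.l) (D.R'.μ.restrict {y | OutT305 S' y})
      = ENNReal.ofReal c •
        ((Measure.pi fun v : U.Sin => (U.dI v).μ').prod
          ((Measure.pi fun v : U.Ssp => Measure.pi fun _ : Fin D.l => L.μv v.1).prod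
            (Measure.pi fun _ : InfinitePlace K => Measure.pi fun _ : Fin D.l => μc))) :=
    hsplit S S' hTS hSS' δ γ L hL U hU hlevS
  obtain ⟨J, hJ⟩ := hR D hD ι Φ (fun w => ⟨(harch w).1, (harch w).2.1⟩) δ U.dA
    hU.arch
  obtain ⟨w₀⟩ : Nonempty (InfinitePlace K) := inferInstance
  -- continuity of the local maps
  have hOut : MeasurableSet {y : G K' | OutT305 S' y} :=
    (isClosed_outT340 hCC'.1 S').measurableSet
  have hφw : ∀ v : U.Sin, Continuous (φ₀ (U.dI v).w) := fun v =>
    hBI' (U.dI v).w (n (U.dI v).w) (φ₀ (U.dI v).w)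
      (hinv v.1 ((hU.union v.1).2 (Or.inl v.2)) (U.dI v).w (hU.inert v).ovr).1
  have hsw : ∀ v : U.Sin, Continuous (((U.dI v).sw : _ ≃+* _) :
      (U.dI v).w.adicCompletion K' →+* (U.dI v).w.adicCompletion K') := fun v =>
    (hIso _ _ 1 _ one_pos fun x => by rw [pow_one]; exact (hU.inert v).ext.val_s x).1
  have hφS : ∀ (v : U.Ssp) (j : ℕ), Continuous (phiS340 φ₀ (U.dS v) j) := by
    intro v j
    have h1 : Continuous (φ₀ ((U.dS v).w j)) :=
      hBI' ((U.dS v).w j) (n ((U.dS v).w j)) (φ₀ ((U.dS v).w j))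
        (hinv v.1 ((hU.union v.1).2 (Or.inr v.2)) ((U.dS v).w j)
          ((hU.split v).ovr j)).1
    have h2 : Continuous ((((U.dS v).i j : _ ≃+* _) :
        (v.1).adicCompletion K →+* ((U.dS v).w j).adicCompletion K')) :=
      (hIso _ _ 1 _ one_pos fun x => by rw [pow_one]; exact (hU.split v).val_i j x).1
    exact h1.comp (continuous_GLmap340 _ h2)
  have hiS : ∀ (v : U.Ssp) (j : ℕ), Continuous (((((U.dS v).i j).symm : _ ≃+* _) :
      ((U.dS v).w j).adicCompletion K' →+* (v.1).adicCompletion K)) := by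
    intro v j
    refine (hIso _ _ 1 _ one_pos fun x => ?_).1
    rw [pow_one]
    have := (hU.split v).val_i j (((U.dS v).i j).symm x)
    rw [RingEquiv.apply_symm_apply] at this
    exact this.symm
  have hdA : ∀ (v : InfinitePlace K) (a : ℕ), Continuous ((U.dA v).d a) := by
    intro v a
    rcases (hU.arch v).typ a with h | h
    · rw [h]; exact continuous_id
    · rw [h]; exact Complex.continuous_conj
  -- measurability
  have hcomp : Measurable (upCoord340 U D.l) := by
    refine Measurable.prodMk (measurable_pi_lambda _ fun v => (hCC'.1 _).measurable)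
      (Measurable.prodMk (measurable_pi_lambda _ fun v => measurable_pi_lambda _ fun a => ?_)
        (measurable_pi_lambda _ fun v => measurable_pi_lambda _ fun a => ?_))
    · exact ((continuous_GLmap340 _ (hiS v a.1)).comp (hCC'.1 _)).measurable
    · exact ((continuous_GLmap340 _ (hdA v a.1)).comp (hCC'.2 _)).measurable
  have hfI : ∀ v : U.Sin, Measurable
      (twFn340 (U.dI v).sw (U.dI v).β' (φ₀ (U.dI v).w) (locG305 (U.dI v).w δ)) := fun v =>
    (continuous_twFn340 _ (hsw v) (hU.inert v).cut.1 (hφw v) _).measurable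
  have hfS : ∀ v : U.Ssp, Measurable
      (splitFn340 D.l hl (L.βv v.1) (phiS340 φ₀ (U.dS v)) (delS340 δ (U.dS v))) := fun v =>
    (continuous_splitFn340 D.l hl (hL.cut v.1).1 (fun j _ => hφS v j) _).measurable
  have hfA : ∀ (j : ℤ) (v : InfinitePlace K), Measurable
      (splitFn340 D.l hl (L.βc v) (fun a => Φ ((U.dA v).w a))
        (delA340 D.R'.r δ (U.dA v) j)) := fun j v =>
    (continuous_splitFn340 D.l hl (hL.cutc v).1 (fun a _ => (harch _).1) _).measurable
  have hΨ : Measurable (upFactFn340 D.l hl D.R'.r L cT φ₀ Φ U J) := by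
    delta upFactFn340
    beta_reduce
    refine measurable_const.mul (Measurable.mul ?_ (Measurable.mul ?_ ?_))
    · exact Finset.measurable_prod _ fun v _ =>
        (hfI v).comp ((measurable_pi_apply v).comp measurable_fst)
    · exact Finset.measurable_prod _ fun v _ =>
        (hfS v).comp ((measurable_pi_apply v).comp (measurable_fst.comp measurable_snd))
    · exact Finset.measurable_sum _ fun j _ => Finset.measurable_prod _ fun v _ =>
        (hfA j v).comp ((measurable_pi_apply v).comp (measurable_snd.comp measurable_snd))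
  -- the integral over `GL₂(𝔸_{K'})` as an integral over the product of the local groups
  have h1 : cutInt305 D.R'.r D.s (pure305 S' φ₀ Φ) δ D.R'.μ (upCut340 S' cT L U)
      = ∫ x, upFactFn340 D.l hl D.R'.r L cT φ₀ Φ U J x
          ∂(Measure.map (upCoord340 U D.l) (D.R'.μ.restrict {y | OutT305 S' y})) := by
    rw [integral_map hcomp.aemeasurable hΨ.aestronglyMeasurable]
    unfold cutInt305
    rw [← setIntegral_eq_integral_of_forall_compl_eq_zero (s := {y | OutT305 S' y})]
    · exact setIntegral_congr_fun hOut fun y hy =>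
        integrand_eq340 hP D hD hcyc hl2 hcplx ι hι n S S' hSS' φ₀ Φ
          (fun w => (harch w).2.2) δ γ hint L cT U hU J hJ y hy
    · intro y hy
      have hy' : ¬ OutT305 S' y := hy
      have h0 : upCut340 S' cT L U y = 0 := by
        unfold upCut340
        rw [if_neg hy']
      rw [h0]
      simp
  -- integrability at the infinite places
  have hintbl : ∀ (j : ℤ) (v : InfinitePlace K),
      Integrable (splitFn340 D.l hl (L.βc v) (fun a => Φ ((U.dA v).w a))
        (delA340 D.R'.r δ (U.dA v) j)) (Measure.pi fun _ : Fin D.l => μc) := fun j v =>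
    hI hAI D hD hcyc hl2 hcplx ι hι μc hμc Φ
      (fun w => ⟨(harch w).1, (harch w).2.1⟩) δ γ hγ hN m L hL v (U.dA v)
      (hU.arch v) hl j
  -- Fubini
  have h2 : ∫ x, upFactFn340 D.l hl D.R'.r L cT φ₀ Φ U J x
        ∂((Measure.pi fun v : U.Sin => (U.dI v).μ').prod
          ((Measure.pi fun v : U.Ssp => Measure.pi fun _ : Fin D.l => L.μv v.1).prod
            (Measure.pi fun _ : InfinitePlace K => Measure.pi fun _ : Fin D.l => μc)))
      = ((cT⁻¹ : ℝ) : ℂ) *
        ((∏ v : U.Sin, ∫ a, twFn340 (U.dI v).sw (U.dI v).β' (φ₀ (U.dI v).w)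
              (locG305 (U.dI v).w δ) a ∂((U.dI v).μ')) *
          ((∏ v : U.Ssp, ∫ a, splitFn340 D.l hl (L.βv v.1) (phiS340 φ₀ (U.dS v))
                (delS340 δ (U.dS v)) a ∂(Measure.pi fun _ : Fin D.l => L.μv v.1)) *
            ∑ j ∈ J, ∏ v : InfinitePlace K,
              ∫ b, splitFn340 D.l hl (L.βc v) (fun a => Φ ((U.dA v).w a))
                (delA340 D.R'.r δ (U.dA v) j) b ∂(Measure.pi fun _ : Fin D.l => μc))) := by
    delta upFactFn340
    rw [integral_const_mul]
    rw [integral_prod_mul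
      (fun a : ∀ v : U.Sin, GL (Fin 2) ((U.dI v).w.adicCompletion K') =>
        ∏ v : U.Sin, twFn340 (U.dI v).sw (U.dI v).β' (φ₀ (U.dI v).w)
          (locG305 (U.dI v).w δ) (a v))
      (fun z : (∀ v : U.Ssp, Fin D.l →
            GL (Fin 2) ((v : HeightOneSpectrum (𝓞 K)).adicCompletion K)) ×
          (InfinitePlace K → Fin D.l → GL (Fin 2) ℂ) =>
        (∏ v : U.Ssp, splitFn340 D.l hl (L.βv v.1) (phiS340 φ₀ (U.dS v))
            (delS340 δ (U.dS v)) (z.1 v)) *
          ∑ j ∈ J, ∏ v : InfinitePlace K,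
            splitFn340 D.l hl (L.βc v) (fun a => Φ ((U.dA v).w a))
              (delA340 D.R'.r δ (U.dA v) j) (z.2 v))]
    rw [integral_prod_mul
      (fun a : ∀ v : U.Ssp, Fin D.l →
          GL (Fin 2) ((v : HeightOneSpectrum (𝓞 K)).adicCompletion K) =>
        ∏ v : U.Ssp, splitFn340 D.l hl (L.βv v.1) (phiS340 φ₀ (U.dS v))
          (delS340 δ (U.dS v)) (a v))
      (fun b : InfinitePlace K → Fin D.l → GL (Fin 2) ℂ =>
        ∑ j ∈ J, ∏ v : InfinitePlace K,
          splitFn340 D.l hl (L.βc v) (fun a => Φ ((U.dA v).w a))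
            (delA340 D.R'.r δ (U.dA v) j) (b v))]
    rw [integral_fintype_prod_eq_prod
      (fun v : U.Sin => twFn340 (U.dI v).sw (U.dI v).β' (φ₀ (U.dI v).w)
        (locG305 (U.dI v).w δ))]
    rw [integral_fintype_prod_eq_prod
      (fun v : U.Ssp => splitFn340 D.l hl (L.βv v.1) (phiS340 φ₀ (U.dS v))
        (delS340 δ (U.dS v)))]
    rw [integral_finsetSum J fun j _ => Integrable.fintype_prod (hintbl j)]
    congr 3
    refine Finset.sum_congr rfl fun j _ => ?_
    exact integral_fintype_prod_eq_prod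
      (fun v : InfinitePlace K => splitFn340 D.l hl (L.βc v) (fun a => Φ ((U.dA v).w a))
        (delA340 D.R'.r δ (U.dA v) j))
  -- the factorised value is a finite sum
  have h3 : (∑' j : ℤ, (∏ v ∈ S, upJ340 D.l hU.pos φ₀ L U v)
        * ∏ w : InfinitePlace K, upJc340 D.l hU.pos D.R'.r Φ L μc U w j)
      = ∑ j ∈ J, (∏ v ∈ S, upJ340 D.l hU.pos φ₀ L U v)
        * ∏ w : InfinitePlace K, upJc340 D.l hU.pos D.R'.r Φ L μc U w j := by
    refine tsum_eq_sum fun j hj => ?_
    have h0 : upJc340 D.l hU.pos D.R'.r Φ L μc U w₀ j = 0 := by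
      show (∫ y : Fin D.l → GL (Fin 2) ℂ,
        splitFn340 D.l hU.pos (L.βc w₀) (fun a => Φ ((U.dA w₀).w a))
          (delA340 D.R'.r δ (U.dA w₀) j) y ∂(Measure.pi fun _ : Fin D.l => μc)) = 0
      have hz : splitFn340 D.l hU.pos (L.βc w₀) (fun a => Φ ((U.dA w₀).w a))
          (delA340 D.R'.r δ (U.dA w₀) j) = fun _ => 0 := by
        funext y
        show cycProd340 D.l (fun a => Φ ((U.dA w₀).w a)) (delA340 D.R'.r δ (U.dA w₀) j) y
          * ((L.βc w₀ (y ⟨0, hU.pos⟩) : ℝ) : ℂ) = 0
        rw [hJ j hj w₀ y, zero_mul]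
      rw [hz]
      exact integral_zero _ _
    rw [Finset.prod_eq_zero (Finset.mem_univ w₀) h0, mul_zero]
  rw [h1, hmap, integral_smul_measure, ENNReal.toReal_ofReal hc.le, h2, h3,
    prod_upJ340 D.l hU.pos φ₀ L S U hU.union hU.disj, ← Finset.mul_sum, Complex.real_smul]
  have e1 : ∀ v : U.Sin, locTwInt340 (U.dI v).sw (U.dI v).μ' (U.dI v).β' (φ₀ (U.dI v).w)
      (locG305 (U.dI v).w δ)
      = ∫ a, twFn340 (U.dI v).sw (U.dI v).β' (φ₀ (U.dI v).w) (locG305 (U.dI v).w δ) a
          ∂((U.dI v).μ') := fun v => rfl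
  have e2 : ∀ v : U.Ssp, splitInt340 D.l hU.pos (L.μv v.1) (L.βv v.1) (phiS340 φ₀ (U.dS v))
      (delS340 δ (U.dS v))
      = ∫ a, splitFn340 D.l hl (L.βv v.1) (phiS340 φ₀ (U.dS v)) (delS340 δ (U.dS v)) a
          ∂(Measure.pi fun _ : Fin D.l => L.μv v.1) := fun v => rfl
  have e3 : ∀ (v : InfinitePlace K) (j : ℤ), upJc340 D.l hU.pos D.R'.r Φ L μc U v j
      = ∫ b, splitFn340 D.l hl (L.βc v) (fun a => Φ ((U.dA v).w a))
          (delA340 D.R'.r δ (U.dA v) j) b ∂(Measure.pi fun _ : Fin D.l => μc) :=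
    fun v j => rfl
  simp only [e1, e2, e3]
  push_cast
  ring


/-! ## 2. The parts of record of helper305 -/

/-- **`H305.UpDatC305b`** from `H340.UpDatC340` and the leaf `SplitEnumC314`. -/
theorem upDatC305b_of314 (hDat : UpDatC340 K K') (hE : SplitEnumC314 K K') :
    UpDatC305b K K' := by
  intro hT6 D hD hcyc hl hcplx ι hι μc T₀ hT₀ n m hlev S S' hTS hSS' φ₀ Φ f₀ F hloc δ γ hγ hN
    L hL
  exact exists_upDat893_314 hDat hE hT6 D hD hcyc hl hcplx ι hι μc T₀ hT₀ n m hlev S S' hTS hSS'
    φ₀ Φ f₀ F hloc δ γ hγ hN L hL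

/-- **`H305.FactIntUpC305b`** from the core form and the leaf `SplitEnumC314` (the enumeration
of `LocHyp893.split` exhausts the places over `v`). -/
theorem factIntUpC305b_of314 (hE : SplitEnumC314 K K') (hB : FactIntUpCoreC314 K K') :
    FactIntUpC305b K K' := by
  intro hT6 D hD hcyc hl hcplx ι hι μc hμc T₀ hT₀ n m hlev
  obtain ⟨cG', hcG', hfact⟩ := hB hT6 D hD hcyc hl hcplx ι hι μc hμc T₀ hT₀ n m hlev
  refine ⟨cG', hcG', ?_⟩
  intro S S' hTS hSS' φ₀ Φ f₀ F hloc δ γ hγ hN hgood hint L cT hL hcT U hU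
  refine hfact S S' hTS hSS' φ₀ Φ hloc.inv_up hloc.arch_up δ γ hγ hN hgood hint L cT hL hcT U hU
    ?_
  intro v a
  have hv : v.1 ∈ S := (hU.union v.1).2 (Or.inr v.2)
  have hd := hU.split v
  have hl1 : 1 < D.l := hcyc.prime.one_lt
  obtain ⟨w, i, h1, h2, h3, h4, h5, h6, -⟩ :=
    hloc.split v.1 hv ⟨(U.dS v).w 1, (U.dS v).w 0, hd.ovr 1, hd.ovr 0,
      hd.ne 1 Nat.one_pos hl1⟩
  have hs : IsSplitDat340 D ι (⟨w, i⟩ : SplitDat340 K' v.1) :=
    hE hT6 D hD hcyc hl hcplx ι hι v.1 ⟨w, i⟩ h1 h2 h3 h4 h5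
  obtain ⟨b, -, hb⟩ := hs.exh ((U.dS v).w a) (hd.ovr a)
  rw [hb]
  exact h6 b

/-- **THE PROP OF RECORD `H305.UpFactC305b` FROM THE LEAVES**: the parts `UpDatC340`,
`CutOnUpC340` of helper340, the leaves of part B of helper340, and `SplitEnumC314`. -/
theorem upFactC305b_of_leaves314 (hDat : UpDatC340 K K') (hA : CutOnUpC340 K K')
    (hG : GrpSplitC340 K K') (hP : PtFactUpC340 K K')
    (hR : RayFinUpC340 K K') (hI : ArchIntblUpC340 K K') (hAI : ArchIntblC558)
    (hCC' : CompContC558 K') (hBI' : BiInvContC558 K') (hSig : HaarSigmaC558 K)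
    (hSig' : HaarSigmaC558 K') (hIso : IsoContC340) (hSC : SecCountC340 K)
    (hE : SplitEnumC314 K K') : UpFactC305b K K' :=
  upFactC305b_of314 hDat hE hA
    (factIntUpCore_of_leaves314 hG hP hR hI hAI hCC' hBI' hSig hSig' hIso hSC)

/-- The same through the parts of record of helper305 (`upFactC305b_of_parts`). -/
example (hDat : UpDatC340 K K') (hA : CutOnUpC340 K K')
    (hB : FactIntUpCoreC314 K K') (hE : SplitEnumC314 K K') : UpFactC305b K K' :=
  upFactC305b_of_parts (upDatC305b_of314 hDat hE) hA (factIntUpC305b_of314 hE hB)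

end Fermat.Agent.LT.T7.H314

end

end
-- ===== PACK-END LT/T7/H314/UpFactBCore.lean

-- ===== PACK-BEGIN LT/T7/H553/SplitEnum.lean
section



/-!
# Row LT, tower T7, node C2.7.13.1b `UpFactC305b`, leaf UF.b1 `SplitEnumC314` (helper553)

OFF-MAIN, never land.  Registry row 2808.  On `LT/T7/H314/UpFactBSpec.lean` (helper314@a958dda79,
sha256 744d56d4, byte-identical copy with its import closure).  No hole, nothing assumed.

    splitEnumC_of553 : H305.SigmaLocC305 K' → H314.SplitEnumC314 K K'      (conclusion VERBATIM)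

`SigmaLocC305 K'` is a CLOSED asset leaf of helper305's first cut.

## Proof

`g ∈ Gal(K'/K)` = the element defined by `σ = D.s.σ` (`σ` fixes `K`: `IsCompData.base`,
`IsCyclicOfDegree.fixed`); `map (mapRingEquiv σ) I = g • I` (pointwise action; these small facts
are those of helper388 `Enum.lean`, restated here under own names).
* `w_a = g^{-a} • w_0` (`rel`, induction).
* `inj`: `w_a = w_b`, `a ≤ b` gives `w_{b-a} = w_0`, so `b - a = 0` (`ne`).
* `exh`: the Galois group acts transitively on the primes over `v`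
  (`Ideal.exists_smul_eq_of_isGaloisGroup`), it has prime order `l` and `g ≠ 1`
  (`IsCyclicOfDegree.faithful`), so every element is `g^{-a}`, `a < l` (`g^l = 1`).
* `iot`: `IsAdeleBase305.fin` gives `i'` with `(ι x)_{w_a} = i'(x_v)`; `i'` and `i_a` are
  continuous (they scale the valuation) and agree on the dense subfield `K`.
* `sig`: `w_a = σ(w_{a+1 mod l})` (`g^l = 1`), `SigmaLocC305` gives the continuous isomorphism
  `s_w : K'_{w_{a+1}} ≃ K'_{w_a}` with `(σ_𝔸 x)_{w_a} = s_w(x_{w_{a+1}})`; `s_w ∘ i_{a+1}` and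
  `i_a` are continuous and agree on `K`.
-/

set_option autoImplicit false
set_option linter.unusedSectionVars false
set_option linter.unusedVariables false
set_option linter.style.haveILetI false

open AutomorphicForm IsDedekindDomain NumberField MeasureTheory
open scoped Pointwise

noncomputable section

namespace Fermat.Agent.LT.T7.H553

open Fermat.Agent.LT.H556 Fermat.Agent.LT.H556.A0 Fermat.Agent.LT.T7 Fermat.Agent.LT.T7.H305
open Fermat.Agent.LT.T7.H340
open Fermat.Agent.LT

/-! ## 1. The Galois action on the places -/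

section Gal

variable {K K' : Type} [Field K] [NumberField K] [Field K'] [NumberField K'] [Algebra K K']

theorem coe_smulSE553 (g : Gal(K'/K)) (x : 𝓞 K') : ((g • x : 𝓞 K') : K') = g (x : K') := rfl

/-- `map e I = g • I` when the ring automorphism `e` of `𝓞 K'` is the action of `g`. -/
theorem map_eq_smulSE553 (e : 𝓞 K' ≃+* 𝓞 K') (g : Gal(K'/K)) (he : ∀ x : 𝓞 K', e x = g • x)
    (I : Ideal (𝓞 K')) : Ideal.map e I = g • I := by
  ext y
  rw [Ideal.mem_pointwise_smul_iff_inv_smul_mem]
  constructor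
  · intro hy
    obtain ⟨x, hx, rfl⟩ := (Ideal.mem_map_of_equiv e y).1 hy
    rw [he, inv_smul_smul]
    exact hx
  · intro hy
    refine (Ideal.mem_map_of_equiv e y).2 ⟨g⁻¹ • y, hy, ?_⟩
    rw [he, smul_inv_smul]

/-- Places over `v` as primes over `v`. -/
theorem liesOver_of_placeOverSE553 {v : HeightOneSpectrum (𝓞 K)}
    {w : HeightOneSpectrum (𝓞 K')} (h : PlaceOver K K' v w) :
    w.asIdeal.LiesOver v.asIdeal := by
  rw [Ideal.liesOver_iff]
  ext x
  exact h x (algebraMap (𝓞 K) (𝓞 K') x) rfl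

theorem mapRingEquiv_eq_smulSE553 (σ : K' ≃+* K') (g : Gal(K'/K)) (hg : ∀ x : K', g x = σ x)
    (x : 𝓞 K') : RingOfIntegers.mapRingEquiv σ x = g • x := by
  apply RingOfIntegers.ext
  rw [coe_smulSE553, hg]
  rfl

/-- `w_a = g^{-a} • w_0`. -/
theorem enum_eq_smul553 (s : T5.AdelicAut K') (g : Gal(K'/K)) (hg : ∀ x : K', g x = s.σ x)
    (w : ℕ → HeightOneSpectrum (𝓞 K'))
    (hrel : ∀ j : ℕ, T5.PlaceRel s (w (j + 1)) (w j)) (a : ℕ) :
    (w a).asIdeal = (g ^ a)⁻¹ • (w 0).asIdeal := by
  induction a with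
  | zero => rw [pow_zero, inv_one, one_smul]
  | succ a ih =>
    have h : (w a).asIdeal
        = Ideal.map (RingOfIntegers.mapRingEquiv s.σ) (w (a + 1)).asIdeal := hrel a
    rw [map_eq_smulSE553 _ g (mapRingEquiv_eq_smulSE553 s.σ g hg)] at h
    have h2 : (w (a + 1)).asIdeal = g⁻¹ • (w a).asIdeal := by
      rw [h, inv_smul_smul]
    rw [h2, ih, smul_smul, pow_succ, mul_inv_rev]

/-- The places are distinct. -/
theorem enum_inj553 (s : T5.AdelicAut K') (g : Gal(K'/K)) (hg : ∀ x : K', g x = s.σ x)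
    (l : ℕ) (w : ℕ → HeightOneSpectrum (𝓞 K'))
    (hrel : ∀ j : ℕ, T5.PlaceRel s (w (j + 1)) (w j))
    (hne : ∀ j : ℕ, 0 < j → j < l → w j ≠ w 0)
    (a b : ℕ) (hab : a ≤ b) (hb : b < l) (h : w a = w b) : a = b := by
  by_contra hcon
  have hlt : a < b := lt_of_le_of_ne hab hcon
  have hc0 : 0 < b - a := Nat.sub_pos_of_lt hlt
  have hcl : b - a < l := lt_of_le_of_lt (Nat.sub_le b a) hb
  apply hne (b - a) hc0 hcl
  apply HeightOneSpectrum.ext
  have ha := enum_eq_smul553 s g hg w hrel a
  have hb' := enum_eq_smul553 s g hg w hrel b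
  have hc := enum_eq_smul553 s g hg w hrel (b - a)
  have h0 := enum_eq_smul553 s g hg w hrel 0
  rw [h] at ha
  rw [hc]
  have e1 : (g ^ a)⁻¹ • (w 0).asIdeal = (g ^ b)⁻¹ • (w 0).asIdeal := by rw [← ha, ← hb']
  have e2 : g ^ b = g ^ (b - a) * g ^ a := by rw [← pow_add, Nat.sub_add_cancel hab]
  have e3 : (g ^ (b - a))⁻¹ • (w 0).asIdeal = g ^ a • ((g ^ b)⁻¹ • (w 0).asIdeal) := by
    rw [smul_smul, e2, mul_inv_rev, ← mul_assoc, mul_inv_cancel, one_mul]
  rw [e3, ← e1, smul_inv_smul]

/-- The places exhaust the fibre. -/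
theorem enum_exh553 (s : T5.AdelicAut K') (g : Gal(K'/K)) (hg : ∀ x : K', g x = s.σ x)
    (l : ℕ) (hl : l.Prime) (hG : IsGalois K K') (hdeg : Module.finrank K K' = l)
    (hg1 : g ≠ 1) (v : HeightOneSpectrum (𝓞 K)) (w : ℕ → HeightOneSpectrum (𝓞 K'))
    (hovr : PlaceOver K K' v (w 0))
    (hrel : ∀ j : ℕ, T5.PlaceRel s (w (j + 1)) (w j))
    (w' : HeightOneSpectrum (𝓞 K')) (hw' : PlaceOver K K' v w') :
    ∃ a : ℕ, a < l ∧ w' = w a := by
  haveI := hG
  haveI : v.asIdeal.IsPrime := v.isPrime
  haveI : v.asIdeal.IsMaximal := v.isMaximal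
  haveI : (w 0).asIdeal.IsPrime := (w 0).isPrime
  haveI : w'.asIdeal.IsPrime := w'.isPrime
  haveI : (w 0).asIdeal.LiesOver v.asIdeal := liesOver_of_placeOverSE553 hovr
  haveI : w'.asIdeal.LiesOver v.asIdeal := liesOver_of_placeOverSE553 hw'
  have hcard : Nat.card Gal(K'/K) = l := by
    rw [IsGalois.card_aut_eq_finrank, hdeg]
  haveI : Fact l.Prime := ⟨hl⟩
  obtain ⟨τ, hτ⟩ := Ideal.exists_smul_eq_of_isGaloisGroup v.asIdeal (w 0).asIdeal w'.asIdeal
    Gal(K'/K)
  obtain ⟨n, hn⟩ : τ⁻¹ ∈ Submonoid.powers g := mem_powers_of_prime_card hcard hg1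
  have hn' : g ^ n = τ⁻¹ := hn
  have hpl : g ^ l = 1 := by
    rw [← hcard]
    exact pow_card_eq_one'
  have hmod : g ^ (n % l) = g ^ n := by
    conv_rhs => rw [← Nat.div_add_mod n l, pow_add, pow_mul, hpl, one_pow, one_mul]
  refine ⟨n % l, Nat.mod_lt _ hl.pos, ?_⟩
  apply HeightOneSpectrum.ext
  rw [enum_eq_smul553 s g hg w hrel (n % l), hmod, hn', inv_inv, hτ]

/-- The relation closes up: `w_a = σ(w_{(a+1) mod l})`. -/
theorem enum_rel_mod553 (s : T5.AdelicAut K') (g : Gal(K'/K)) (hg : ∀ x : K', g x = s.σ x)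
    (l : ℕ) (hpl : g ^ l = 1) (w : ℕ → HeightOneSpectrum (𝓞 K'))
    (hrel : ∀ j : ℕ, T5.PlaceRel s (w (j + 1)) (w j)) (a : ℕ) :
    T5.PlaceRel s (w ((a + 1) % l)) (w a) := by
  show (w a).asIdeal = Ideal.map (RingOfIntegers.mapRingEquiv s.σ) (w ((a + 1) % l)).asIdeal
  rw [map_eq_smulSE553 _ g (mapRingEquiv_eq_smulSE553 s.σ g hg),
    enum_eq_smul553 s g hg w hrel a, enum_eq_smul553 s g hg w hrel ((a + 1) % l), smul_smul]
  have hmod : g ^ ((a + 1) % l) = g ^ (a + 1) := by
    conv_rhs => rw [← Nat.div_add_mod (a + 1) l, pow_add, pow_mul, hpl, one_pow, one_mul]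
  rw [hmod, pow_succ, mul_inv_rev, ← mul_assoc, mul_inv_cancel, one_mul]

end Gal

/-! ## 2. Continuity and density -/

section Cont

variable {K K' : Type} [Field K] [NumberField K] [Field K'] [NumberField K']

theorem exists_smallSE553 (v : HeightOneSpectrum (𝓞 K)) :
    ∃ p : v.adicCompletion K, p ≠ 0 ∧ ‖p‖ < 1 := by
  obtain ⟨π, hπ, hπ0⟩ : ∃ π : 𝓞 K, π ∈ v.asIdeal ∧ π ≠ 0 :=
    Submodule.exists_mem_ne_zero_of_ne_bot v.ne_bot
  refine ⟨algebraMap K (v.adicCompletion K) (algebraMap (𝓞 K) K π), ?_,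
    (NumberField.FinitePlace.norm_lt_one_iff_mem K v π).2 hπ⟩
  rw [Ne, map_eq_zero, map_eq_zero_iff _ (FaithfulSMul.algebraMap_injective (𝓞 K) K)]
  exact hπ0

/-- A ring homomorphism of completions which scales the valuation is continuous. -/
theorem continuous_of_valSE553 {v : HeightOneSpectrum (𝓞 K)} {w : HeightOneSpectrum (𝓞 K')}
    (f : v.adicCompletion K →+* w.adicCompletion K') (e : ℕ) (he : 0 < e)
    (hv : ∀ x : v.adicCompletion K, Valued.v (f x) = Valued.v x ^ e) : Continuous f := by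
  have h0 : ContinuousAt f 0 := by
    rw [ContinuousAt, map_zero, NormedAddGroup.tendsto_nhds_zero]
    intro ε hε
    obtain ⟨p, hp0, hp1⟩ := exists_smallSE553 v
    have hvp : Valued.v p < 1 := Valued.toNormedField.norm_lt_one_iff.1 hp1
    have hfp1 : ‖f p‖ < 1 := by
      apply Valued.toNormedField.norm_lt_one_iff.2
      rw [hv]
      exact pow_lt_one₀ zero_le hvp he.ne'
    obtain ⟨n, hn⟩ := exists_pow_lt_of_lt_one hε hfp1
    have hx0 : 0 < ‖p ^ n‖ := norm_pos_iff.2 (pow_ne_zero n hp0)
    filter_upwards [Metric.ball_mem_nhds (0 : v.adicCompletion K) hx0] with x hx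
    rw [mem_ball_zero_iff] at hx
    have h1 : Valued.v x < Valued.v (p ^ n) := Valued.toNormedField.norm_lt_iff.1 hx
    have h2 : Valued.v (f x) < Valued.v (f (p ^ n)) := by
      rw [hv, hv]
      exact pow_lt_pow_left₀ h1 zero_le he.ne'
    have h3 : ‖f x‖ < ‖f (p ^ n)‖ := Valued.toNormedField.norm_lt_iff.2 h2
    rw [map_pow, norm_pow] at h3
    exact h3.trans hn
  exact continuous_of_continuousAt_zero f h0

/-- Two continuous maps on `K_v` which agree on `K` are equal. -/
theorem eq_of_eq_on_ratSE553 {F : Type*} [TopologicalSpace F] [T2Space F]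
    (v : HeightOneSpectrum (𝓞 K)) (f₁ f₂ : v.adicCompletion K → F)
    (h₁ : Continuous f₁) (h₂ : Continuous f₂)
    (hK : ∀ y : K, f₁ (algebraMap K (v.adicCompletion K) y)
      = f₂ (algebraMap K (v.adicCompletion K) y)) (z : v.adicCompletion K) : f₁ z = f₂ z :=
  congrFun ((v.denseRange_algebraMap K).equalizer h₁ h₂ (funext hK)) z

end Cont

/-! ## 3. The leaf -/

section Main

variable (K K' : Type) [Field K] [NumberField K] [Field K'] [NumberField K'] [Algebra K K']

/-- **LEAF UF.b1 `SplitEnumC314`** (conclusion VERBATIM), from the closed asset leaf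
`H305.SigmaLocC305 K'`. -/
theorem splitEnumC_of553 (hσ : H305.SigmaLocC305 K') : H314.SplitEnumC314 K K' := by
  intro hT6 D hD hcyc hl2 htc ι hι v d hovr hrel hne hrat hval
  -- the Galois element
  have hfix : ∀ y : K, D.s.σ (algebraMap K K' y) = algebraMap K K' y := fun y =>
    (hD.cyc.fixed _).1 ((hD.base _).2 ⟨y, rfl⟩)
  obtain ⟨g, hg⟩ : ∃ g : Gal(K'/K), ∀ x : K', g x = D.s.σ x :=
    ⟨AlgEquiv.ofRingEquiv (f := D.s.σ) hfix, fun _ => rfl⟩
  haveI := hcyc.galois
  have hcard : Nat.card Gal(K'/K) = D.l := by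
    rw [IsGalois.card_aut_eq_finrank, hcyc.degree]
  have hpl : g ^ D.l = 1 := by
    rw [← hcard]
    exact pow_card_eq_one'
  have hg1 : g ≠ 1 := by
    intro h1
    obtain ⟨x, hx⟩ := hD.cyc.faithful 1 Nat.one_pos hcyc.prime.one_lt
    apply hx
    rw [pow_one, ← hg x, h1]
    rfl
  -- continuity of the identifications
  have hic : ∀ j : ℕ, Continuous (d.i j) := fun j =>
    continuous_of_valSE553 (K := K) (K' := K') (v := v) (w := d.w j)
      (RingEquiv.toRingHom (d.i j)) 1 Nat.one_pos
      (fun x => (hval j x).trans (pow_one _).symm)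
  refine ⟨hcyc.prime.pos, hovr, hrel, hne, hrat, hval, ?_, ?_, ?_, ?_⟩
  · -- inj
    intro a b ha hb hab
    rcases le_total a b with h | h
    · exact enum_inj553 D.s g hg D.l d.w hrel hne a b h hb hab
    · exact (enum_inj553 D.s g hg D.l d.w hrel hne b a h ha hab.symm).symm
  · -- exh
    intro w' hw'
    exact enum_exh553 D.s g hg D.l hcyc.prime hcyc.galois hcyc.degree hg1 v d.w (hovr 0) hrel
      w' hw'
  · -- sig
    intro a x
    have hr : T5.PlaceRel D.s (d.w (cycSucc340 a).1) (d.w a.1) :=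
      enum_rel_mod553 D.s g hg D.l hpl d.w hrel a.1
    obtain ⟨sw, hsw_rat, hsw_val, hsw_fin⟩ := (hσ D.s).1 _ _ hr
    rw [hsw_fin x]
    have hswc : Continuous sw :=
      continuous_of_valSE553 (K := K') (K' := K') (v := d.w (cycSucc340 a).1) (w := d.w a.1)
        (RingEquiv.toRingHom sw) 1 Nat.one_pos
        (fun y => (hsw_val y).trans (pow_one _).symm)
    have key : ∀ z : v.adicCompletion K, sw (d.i (cycSucc340 a).1 z) = d.i a.1 z := by
      intro z
      refine eq_of_eq_on_ratSE553 v (fun z => sw (d.i (cycSucc340 a).1 z)) (fun z => d.i a.1 z)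
        (hswc.comp (hic _)) (hic _) ?_ z
      intro y
      show sw (d.i (cycSucc340 a).1 (algebraMap K (v.adicCompletion K) y))
        = d.i a.1 (algebraMap K (v.adicCompletion K) y)
      rw [hrat, hrat, hsw_rat, hfix]
    have e1 : T5.finHom (d.w (cycSucc340 a).1) x
        = d.i (cycSucc340 a).1 ((d.i (cycSucc340 a).1).symm
            (T5.finHom (d.w (cycSucc340 a).1) x)) := by
      rw [RingEquiv.apply_symm_apply]
    conv_lhs => rw [e1, key, RingEquiv.symm_apply_apply]
  · -- iot
    intro a x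
    obtain ⟨e, i', he, hrat', hval', hfin⟩ := hι.fin v (d.w a) (hovr a)
    rw [hfin x]
    refine eq_of_eq_on_ratSE553 v (fun z => i' z) (fun z => d.i a z)
      (continuous_of_valSE553 i' e he hval') (hic a) ?_ _
    intro y
    show i' (algebraMap K (v.adicCompletion K) y) = d.i a (algebraMap K (v.adicCompletion K) y)
    rw [hrat', hrat]

end Main

end Fermat.Agent.LT.T7.H553

end

end
-- ===== PACK-END LT/T7/H553/SplitEnum.lean

-- ===== PACK-BEGIN LT/T7/H305/Match893Closed5.lean
section













/-!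
# Row LT, tower T7, station C2 (helper305): INTEGRATION v5 -- `H893.GlobMatchC893`

OFF-MAIN.  Complete proofs, nothing assumed.  ADDITIVE (integrations v3, v4 are not changed).

    globMatchC893_of_open305d : OpenMatch305d K K' → H893.GlobMatchC893 K K'

NEWLY CLOSED (vendored byte-identical, ONE closure): the cut of `UpFactC305b` by helper314
(`upFactC305b_of_leaves314`), `cutOnUpC_of322` helper322, `CutOnOutUpC340` helper269,
`SuppOutUpC340` helper560, `IsoContC340` helper102, `GrpSplitC340` helper117,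
`PtFactUpC340` helper852, `RayFinUpC340` helper71, `SplitEnumC314` helper553, the assets of
the station downstairs (helper558 and his leaves), second countability helper159.

OPEN (the structure `OpenMatch305d`): `T6.T6Out` (tower T6, supplied by the master),
`H340.UpDatC340`, `H340.SuppUpC340`, `H340.ArchIntblUpC340`, `LocEqSplitC305b`.
-/

set_option autoImplicit false

open AutomorphicForm IsDedekindDomain NumberField MeasureTheory
open scoped ComplexConjugate

noncomputable section

namespace Fermat.Agent.LT.T7.H305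

open Fermat.Agent.LT.H556 Fermat.Agent.LT.H556.A0 Fermat.Agent.LT.T7

attribute [local instance] Fermat.Agent.LT.T5.instMeasurableSpaceG

variable (K K' : Type) [Field K] [NumberField K] [Field K'] [NumberField K'] [Algebra K K']

/-- **THE OPEN WALL of the station C2 for `LocHyp893`** (integration v5). -/
structure OpenMatch305d : Prop where
  t6 : T6.T6Out
  upDat : H340.UpDatC340 K K'
  suppUp : H340.SuppUpC340 K K'
  archIntblUp : H340.ArchIntblUpC340 K K'
  locEqSplit : LocEqSplitC305b K K'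

/-- The asset: the local groups downstairs are second countable (helper159). -/
theorem secCountC340_closed305 : H340.SecCountC340 K :=
  ⟨fun v => H159.secondCountable_GLv159 K v, H159.secondCountable_GLC159⟩

variable {K K'}

/-- The cut-off part upstairs from `SuppUpC340`. -/
theorem cutOnUpC340_of_suppUp305 (h : H340.SuppUpC340 K K') : H340.CutOnUpC340 K K' :=
  H322.cutOnUpC_of322 (H560.suppOutUpC560 K') h (H269.cutOnOutUpC269 K K')
    (H233.torCommC233 K') (H277.ellRegC277 K K') (OutOpen729.outOpenC729 K')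
    (H409.compContC409 K) (H409.compContC409 K') (H505.haarSigmaC505 K) H102.isoContC102

/-- `UpFactC305b` from the open wall (v5). -/
theorem upFactC305b_of_open305d (h : OpenMatch305d K K') : UpFactC305b K K' :=
  H314.upFactC305b_of_leaves314 h.upDat (cutOnUpC340_of_suppUp305 h.suppUp)
    (H117.grpSplitC117 K K') (H852.ptFactUpC852 K K') (H71.rayFinUpC71 K K') h.archIntblUp
    H194.archIntblC194 (H409.compContC409 K') (H16.biInvContC558_16 K')
    (H505.haarSigmaC505 K) (H505.haarSigmaC505 K') H102.isoContC102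
    (secCountC340_closed305 K) (H553.splitEnumC_of553 K K' (H558.sigmaLocC558 (K := K')))

/-- **THE MATCHING THEOREM `H893.GlobMatchC893` from the open wall (v5).** -/
theorem globMatchC893_of_open305d (h : OpenMatch305d K K') : H893.GlobMatchC893 K K' :=
  globMatchC893_of_open305c ⟨h.t6, upFactC305b_of_open305d h, h.locEqSplit⟩

end Fermat.Agent.LT.T7.H305

end

end
-- ===== PACK-END LT/T7/H305/Match893Closed5.lean

-- ===== PACK-BEGIN LT/T7/H208/LocEqSplit.lean
section





/-!
# Row LT, tower T7, station C2, leaf C2.7.13.3b `LocEqSplitC305b` (helper208, registry row 2741)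

OFF-MAIN.  Proves `Fermat.Agent.LT.T7.H305.LocEqSplitC305b K K'` VERBATIM (spec:
`T7/H305/Match893Spec.lean`, helper305).

The value `J` of `IsSplitVal305b` is the split integral for an enumeration `w 0, …, w (l-1)` of
the places over `v` and identifications `i j : K_v ≃ K'_{w j}` for which the levels agree and
`f₀ v = φ_0 * ⋯ * φ_{l-1}`, `φ_j = φ₀ (w j) ∘ i_j`.  The functions `φ_j` are bi-`U(m v)`-invariant
of finite support (`LocHyp893.inv_up`, transported by the valuation preserving isomorphism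
`i j`); `δ_0 ⋯ δ_{l-1} = γ_v` (`prod_eq_gamma208`); `γ_v` is regular (`γ` is elliptic); `K_v` is a
local field (`T6.InstLocalC`); the local core `locEqSplit_core208` (`SplitCore.lean`).
-/

set_option autoImplicit false

open IsDedekindDomain NumberField MeasureTheory

noncomputable section

namespace Fermat.Agent.LT.T7.H208

open Fermat.Agent.LT.H556 Fermat.Agent.LT.H556.A0 Fermat.Agent.LT Fermat.Agent.LT.T7
  Fermat.Agent.LT.T7.H305 Fermat.Agent.LT.T7.H159

/-! ## 1. Transport by a valuation preserving isomorphism -/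

section Transport

variable {k k' : Type} [Field k] [Field k'] [Valued k T6.Γ₀] [Valued k' T6.Γ₀]

/-- A valuation preserving homomorphism maps `U(n)` to `U(n)`. -/
theorem inU_map208 (i : k →+* k') (hi : ∀ x : k, Valued.v (i x) = Valued.v x) (n : ℕ)
    (g : GL (Fin 2) k) (hg : T6.InU n g) : T6.InU n (Matrix.GeneralLinearGroup.map i g) := by
  have h1 : ∀ a b : Fin 2, (1 : Matrix (Fin 2) (Fin 2) k') a b
      = i ((1 : Matrix (Fin 2) (Fin 2) k) a b) := by
    intro a b
    by_cases hab : a = b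
    · subst hab
      rw [Matrix.one_apply_eq, Matrix.one_apply_eq, map_one]
    · rw [Matrix.one_apply_ne hab, Matrix.one_apply_ne hab, map_zero]
  intro a b
  refine ⟨?_, ?_⟩
  · show Valued.v (i ((g : Matrix (Fin 2) (Fin 2) k) a b) - (1 : Matrix (Fin 2) (Fin 2) k') a b)
      ≤ _
    rw [h1, ← map_sub, hi]
    exact (hg a b).1
  · have hinv : (Matrix.GeneralLinearGroup.map i g)⁻¹ = Matrix.GeneralLinearGroup.map i g⁻¹ :=
      (map_inv (Matrix.GeneralLinearGroup.map i) g).symm
    rw [hinv]
    show Valued.v (i (((g⁻¹ : GL (Fin 2) k) : Matrix (Fin 2) (Fin 2) k) a b)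
      - (1 : Matrix (Fin 2) (Fin 2) k') a b) ≤ _
    rw [h1, ← map_sub, hi]
    exact (hg a b).2

/-- `i⁻¹ (i g) = g` on `GL₂`. -/
theorem map_symm_map208 (i : k ≃+* k') (g : GL (Fin 2) k) :
    Matrix.GeneralLinearGroup.map ((i.symm : k' ≃+* k) : k' →+* k)
        (Matrix.GeneralLinearGroup.map ((i : k ≃+* k') : k →+* k') g) = g := by
  apply Matrix.GeneralLinearGroup.ext
  intro a b
  show i.symm (i ((g : Matrix (Fin 2) (Fin 2) k) a b)) = _
  rw [RingEquiv.symm_apply_apply]

/-- Bi-invariance is transported. -/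
theorem biInv_comp208 (i : k ≃+* k') (hi : ∀ x : k, Valued.v (i x) = Valued.v x) (n : ℕ)
    (φ : GL (Fin 2) k' → ℂ) (hφ : T6.IsBiInv (T6.InU n) φ) :
    T6.IsBiInv (T6.InU n)
      (fun g => φ (Matrix.GeneralLinearGroup.map ((i : k ≃+* k') : k →+* k') g)) := by
  intro u u' g hu hu'
  show φ (Matrix.GeneralLinearGroup.map _ (u * g * u')) = φ (Matrix.GeneralLinearGroup.map _ g)
  rw [map_mul, map_mul]
  exact hφ _ _ _ (inU_map208 _ hi n u hu) (inU_map208 _ hi n u' hu')

/-- Finite support is transported. -/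
theorem finSupp_comp208 (i : k ≃+* k') (hi : ∀ x : k, Valued.v (i x) = Valued.v x) (n : ℕ)
    (φ : GL (Fin 2) k' → ℂ) (hφ : T6.HasFinSupp (T6.InU n) φ) :
    T6.HasFinSupp (T6.InU n)
      (fun g => φ (Matrix.GeneralLinearGroup.map ((i : k ≃+* k') : k →+* k') g)) := by
  classical
  obtain ⟨F, hF⟩ := hφ
  refine ⟨F.image (Matrix.GeneralLinearGroup.map ((i.symm : k' ≃+* k) : k' →+* k)),
    fun g hg => ?_⟩
  obtain ⟨x, hx, u, hu, he⟩ := hF _ hg
  refine ⟨Matrix.GeneralLinearGroup.map ((i.symm : k' ≃+* k) : k' →+* k) x,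
    Finset.mem_image_of_mem _ hx,
    Matrix.GeneralLinearGroup.map ((i.symm : k' ≃+* k) : k' →+* k) u,
    inU_map208 _ (val_symm208 i hi) n u hu, ?_⟩
  rw [← map_mul, ← he, map_symm_map208]

end Transport

/-! ## 2. The component of an elliptic element is regular -/

section Reg

variable {R S : Type} [CommRing R] [CommRing S]

/-- The discriminant commutes with ring homomorphisms. -/
theorem disc_map208 (f : R →+* S) (γ : GL (Fin 2) R) :
    T6.disc (Matrix.GeneralLinearGroup.map f γ) = f (T6.disc γ) := by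
  show (Matrix.GeneralLinearGroup.map f γ : Matrix (Fin 2) (Fin 2) S).trace ^ 2
      - 4 * (Matrix.GeneralLinearGroup.map f γ : Matrix (Fin 2) (Fin 2) S).det
    = f ((γ : Matrix (Fin 2) (Fin 2) R).trace ^ 2 - 4 * (γ : Matrix (Fin 2) (Fin 2) R).det)
  rw [Matrix.trace_fin_two, Matrix.det_fin_two, Matrix.trace_fin_two, Matrix.det_fin_two]
  have e : ∀ a b : Fin 2, (Matrix.GeneralLinearGroup.map f γ : Matrix (Fin 2) (Fin 2) S) a b
      = f ((γ : Matrix (Fin 2) (Fin 2) R) a b) := fun _ _ => rfl
  rw [e, e, e, e]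
  simp only [map_sub, map_mul, map_pow, map_add, map_ofNat]

/-- Regularity is preserved by ring homomorphisms. -/
theorem isReg_map208 (f : R →+* S) (γ : GL (Fin 2) R) (hγ : T6.IsReg γ) :
    T6.IsReg (Matrix.GeneralLinearGroup.map f γ) := by
  show IsUnit (T6.disc (Matrix.GeneralLinearGroup.map f γ))
  rw [disc_map208]
  exact IsUnit.map f hγ

end Reg

/-! ## 3. The leaf -/

section Leaf

variable (K K' : Type) [Field K] [NumberField K] [Field K'] [NumberField K'] [Algebra K K']

/-- **T7.L2.1.C2.7.13.3b `LocEqSplitC305b`** (VERBATIM). -/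
theorem locEqSplitC305b_208 : LocEqSplitC305b K K' := by
  intro hT6 D hD _ _ _ μc S n m φ₀ Φ f₀ F hloc δ γ hell hN L hL v hv J hJ
  obtain ⟨_, _, _, _, _, hLocal, _, _, hEx, _⟩ := hT6
  obtain ⟨hl, w, i, hover, hrel, _, hi, hval, hlev, hconv, rfl⟩ := hJ
  have hk : T6.IsLocalField (v.adicCompletion K) (Ideal.absNorm v.asIdeal) := hLocal K v
  have hup : ∀ j : ℕ, T6.IsBiInv (T6.InU (m v)) (φ₀ (w j)) ∧
      T6.HasFinSupp (T6.InU (m v)) (φ₀ (w j)) := by
    intro j
    have h := hloc.inv_up v hv (w j) (hover j)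
    rw [hlev j] at h
    exact h
  exact locEqSplit_core208 hEx hk (m v) D.l hl (L.μv v) (hL.haar v) (locG305 v γ)
    (isReg_map208 _ γ hell.1) (L.μt v) (hL.tor v) (L.βv v) (hL.cut v) _
    (fun j => biInv_comp208 (i j) (hval j) (m v) (φ₀ (w j)) (hup j).1)
    (fun j => finSupp_comp208 (i j) (hval j) (m v) (φ₀ (w j)) (hup j).2)
    (f₀ v) hconv _ (prod_eq_gamma208 D hD v w i hrel hi hval δ γ hN)

end Leaf

end Fermat.Agent.LT.T7.H208

end

end
-- ===== PACK-END LT/T7/H208/LocEqSplit.lean

-- ===== PACK-BEGIN LT/T7/H305/Match893Closed6.lean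
section







/-!
# Row LT, tower T7, station C2 (helper305): INTEGRATION v6 -- `H893.GlobMatchC893` CLOSED

OFF-MAIN.  Complete proofs, nothing assumed.  ADDITIVE (integrations v3, v4, v5 are not
changed).

    globMatchC893_closed305 : T6.T6Out → H893.GlobMatchC893 K K'

THE WHOLE STATION IS CLOSED: the only hypothesis left is `T6.T6Out` (the output of the tower
T6, supplied by the master).  NEWLY CLOSED (vendored byte-identical, ONE closure):
`H340.UpDatC340` helper341 (`upDatC_closed341`; leaves helper267, helper999, helper887),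
`H340.SuppUpC340` helper379 (`suppUpC379`), `H340.ArchIntblUpC340` helper176
(`archIntblUpC176`), `LocEqSplitC305b` helper208 (`locEqSplitC305b_208`).
-/

set_option autoImplicit false

open AutomorphicForm IsDedekindDomain NumberField MeasureTheory
open scoped ComplexConjugate

noncomputable section

namespace Fermat.Agent.LT.T7.H305

open Fermat.Agent.LT.H556 Fermat.Agent.LT.H556.A0 Fermat.Agent.LT.T7

attribute [local instance] Fermat.Agent.LT.T5.instMeasurableSpaceG

variable (K K' : Type) [Field K] [NumberField K] [Field K'] [NumberField K'] [Algebra K K']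

/-- The open wall of integration v5 from `T6.T6Out`. -/
theorem openMatch305d_closed305 (hT6 : T6.T6Out) : OpenMatch305d K K' :=
  ⟨hT6, UD341.upDatC_closed341 K K', H379.suppUpC379 K K', H176.archIntblUpC176 K K',
    H208.locEqSplitC305b_208 K K'⟩

/-- `UpFactC305b`, CLOSED. -/
theorem upFactC305b_closed305 (hT6 : T6.T6Out) : UpFactC305b K K' :=
  upFactC305b_of_open305d (openMatch305d_closed305 K K' hT6)

/-- `FactUpC305b`, CLOSED. -/
theorem factUpC305b_closed305 (hT6 : T6.T6Out) : FactUpC305b K K' :=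
  factUpC305b_of_open305c ⟨hT6, upFactC305b_closed305 K K' hT6, H208.locEqSplitC305b_208 K K'⟩

/-- `CutIntC305b`, CLOSED. -/
theorem cutIntC305b_closed305 (hT6 : T6.T6Out) : CutIntC305b K K' :=
  cutIntC305b_of_open305c ⟨hT6, upFactC305b_closed305 K K' hT6, H208.locEqSplitC305b_208 K K'⟩

/-- **THE MATCHING THEOREM `H893.GlobMatchC893`, CLOSED** (from the output of the tower T6
only). -/
theorem globMatchC893_closed305 (hT6 : T6.T6Out) : H893.GlobMatchC893 K K' :=
  globMatchC893_of_open305d (openMatch305d_closed305 K K' hT6)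

end Fermat.Agent.LT.T7.H305

end

end
-- ===== PACK-END LT/T7/H305/Match893Closed6.lean

-- ===== PACK-BEGIN LT/T7/H75/NatShapeAvg.lean
section





/-!
# Row LT, tower T7, leaf T7.L2.1.H2a.B.3 `PB57.NatShapeC57` (helper75, registry row 2794):
# the torus means of an average of pure tensors

OFF-MAIN.  No hole, nothing assumed.  ADDITIVE (namespace `Fermat.Agent.LT.T7.H75.NS`).

`isAvgPure_nat75`: if the local condition `L` is stable under the translations of the
archimedean components by the scalars `exp (y w)` upstairs and `exp ((N y) v)` downstairs, the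
torus means (compatible torus data) of an average of pure tensors with the local condition `L`
are an average of pure tensors with the local condition `L`.  Parameter space
`Ω × closure D'` with the product of `ν` and the normalised Lebesgue measure of `D'`.
-/

set_option autoImplicit false
set_option linter.style.haveILetI false
set_option linter.unusedSectionVars false

open AutomorphicForm IsDedekindDomain NumberField MeasureTheory
open scoped ComplexConjugate

noncomputable section

namespace Fermat.Agent.LT.T7.H75.NS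

open Fermat.Agent.LT Fermat.Agent.LT.H556 Fermat.Agent.LT.H556.A0 Fermat.Agent.LT.T7
open Fermat.Agent.LT.T7.H893 Fermat.Agent.LT.T7.H305

attribute [local instance] Fermat.Agent.LT.T5.instMeasurableSpaceG

/-! ## 1. The normalised Lebesgue measure of `D` on the compact space `closure D` -/

section Par

variable {ι : Type} [Fintype ι]

/-- The normalised Lebesgue measure of `D`, on `closure D`. -/
def parMeas75 (D : Set (ι → ℝ)) : Measure (closure D) :=
  ENNReal.ofReal ((volume D).toReal)⁻¹ •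
    Measure.comap (Subtype.val : closure D → ι → ℝ) (volume.restrict D)

theorem compactSpace_closure75 {D : Set (ι → ℝ)} (hD : Bornology.IsBounded D) :
    CompactSpace (closure D) :=
  isCompact_iff_compactSpace.mp (Metric.isCompact_of_isClosed_isBounded isClosed_closure hD.closure)

theorem isFiniteMeasure_parMeas75 {D : Set (ι → ℝ)} (hD : Bornology.IsBounded D) :
    IsFiniteMeasure (parMeas75 D) := by
  have h1 : IsFiniteMeasure (Measure.comap (Subtype.val : closure D → ι → ℝ)
      (volume.restrict D)) := by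
    refine ⟨?_⟩
    rw [(MeasurableEmbedding.subtype_coe isClosed_closure.measurableSet).comap_apply]
    refine lt_of_le_of_lt (measure_mono (Set.subset_univ _)) ?_
    rw [Measure.restrict_apply_univ]
    exact (hD.measure_lt_top : (volume : Measure (ι → ℝ)) D < ⊤)
  unfold parMeas75
  exact Measure.smul_finite _ ENNReal.ofReal_ne_top

/-- The integral for the normalised Lebesgue measure. -/
theorem integral_parMeas75 (D : Set (ι → ℝ)) (g : (ι → ℝ) → ℂ) :
    ∫ y : closure D, g (y : ι → ℝ) ∂(parMeas75 D)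
      = (((volume D).toReal : ℝ) : ℂ)⁻¹ * ∫ t in D, g t := by
  unfold parMeas75
  rw [integral_smul_measure, integral_subtype_comap isClosed_closure.measurableSet g,
    Measure.restrict_restrict isClosed_closure.measurableSet,
    Set.inter_eq_self_of_subset_right subset_closure,
    ENNReal.toReal_ofReal (inv_nonneg.2 ENNReal.toReal_nonneg), Complex.real_smul,
    Complex.ofReal_inv]

end Par

/-! ## 2. The torus means of an average of pure tensors -/

section Avg

variable {K K' : Type} [Field K] [NumberField K] [Field K'] [NumberField K'] [Algebra K K']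

theorem continuous_fibSum75 :
    Continuous (fun y : InfinitePlace K' → ℝ => H193.fibSum193 (K := K) y) := by
  classical
  refine continuous_pi fun v => ?_
  show Continuous fun y : InfinitePlace K' → ℝ =>
    ∑ w : InfinitePlace K', if w.comap (algebraMap K K') = v then y w else 0
  refine continuous_finsetSum _ fun w _ => ?_
  by_cases h : w.comap (algebraMap K K') = v
  · simp only [h, if_true]
    exact continuous_apply w
  · simp only [h, if_false]
    exact continuous_const

/-- The translate of a pure tensor by the positive scalars of torus data. -/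
theorem pure_torus75 {𝔑 : Ideal (𝓞 K)} {r : G K} {a : (InfinitePlace K → ℝ) → G K}
    {D : Set (InfinitePlace K → ℝ)} (hD : H193.IsTorusData 𝔑 r a D)
    (t : InfinitePlace K → ℝ) (T : Finset (HeightOneSpectrum (𝓞 K)))
    (f₀ : ∀ v : HeightOneSpectrum (𝓞 K), GL (Fin 2) (v.adicCompletion K) → ℂ)
    (F : InfinitePlace K → GL (Fin 2) ℂ → ℂ) (h : G K) :
    pure305 T f₀ (fun w => trC (scal75 (t w)) (F w)) h = pure305 T f₀ F (h * (a t)⁻¹) := by
  rw [pure_trl75 (hD.fin t) T f₀ F h]
  congr 1
  funext w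
  rw [infGL_torus75 hD t w]

/-- The integral of a continuous function on `Ω × closure D'`. -/
theorem integral_prod_par75 {Ω : Type} [TopologicalSpace Ω] [CompactSpace Ω]
    [SecondCountableTopology Ω] [MeasurableSpace Ω] [BorelSpace Ω] (ν : Measure Ω)
    [IsFiniteMeasure ν] {ι : Type} [Fintype ι] {D : Set (ι → ℝ)} (hD : Bornology.IsBounded D)
    (g : Ω × (ι → ℝ) → ℂ) (hg : Continuous g) :
    haveI := isFiniteMeasure_parMeas75 hD
    ∫ p : Ω × closure D, g (p.1, (p.2 : ι → ℝ)) ∂(ν.prod (parMeas75 D))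
      = (((volume D).toReal : ℝ) : ℂ)⁻¹ * ∫ t in D, ∫ ω, g (ω, t) ∂ν := by
  haveI := isFiniteMeasure_parMeas75 hD
  haveI := compactSpace_closure75 hD
  have hc : Continuous fun p : Ω × closure D => g (p.1, (p.2 : ι → ℝ)) :=
    hg.comp (continuous_fst.prodMk (continuous_subtype_val.comp continuous_snd))
  have hint : Integrable (fun p : Ω × closure D => g (p.1, (p.2 : ι → ℝ)))
      (ν.prod (parMeas75 D)) :=
    hc.integrable_of_hasCompactSupport (HasCompactSupport.of_compactSpace _)
  rw [integral_prod_symm _ hint]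
  exact integral_parMeas75 D fun t => ∫ ω, g (ω, t) ∂ν

/-- **THE TORUS MEANS OF AN AVERAGE OF PURE TENSORS.** -/
theorem isAvgPure_nat75 {𝔫 : Ideal (𝓞 K)} {r : G K} {r' : G K'}
    {aT : (InfinitePlace K → ℝ) → G K} {D : Set (InfinitePlace K → ℝ)}
    {aT' : (InfinitePlace K' → ℝ) → G K'} {D' : Set (InfinitePlace K' → ℝ)}
    (hrel : H193.IsRelTorus 𝔫 r r' aT D aT' D')
    {T₀ : Finset (HeightOneSpectrum (𝓞 K))} {L : LocCond K K'}
    (hL : ∀ (T : Finset (HeightOneSpectrum (𝓞 K)))
        (φ₀ : ∀ w : HeightOneSpectrum (𝓞 K'), GL (Fin 2) (w.adicCompletion K') → ℂ)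
        (Φ : InfinitePlace K' → GL (Fin 2) ℂ → ℂ)
        (f₀ : ∀ v : HeightOneSpectrum (𝓞 K), GL (Fin 2) (v.adicCompletion K) → ℂ)
        (F : InfinitePlace K → GL (Fin 2) ℂ → ℂ) (y : InfinitePlace K' → ℝ),
        L T φ₀ Φ f₀ F →
        L T φ₀ (fun w => trC (scal75 (y w)) (Φ w)) f₀
          (fun v => trC (scal75 (H193.fibSum193 (K := K) y v)) (F v)))
    {a : ℂ} {φ : G K' → ℂ} {f : G K → ℂ} (hf : Continuous f)
    (h : IsAvgPure (upI (K' := K') 𝔫) 𝔫 T₀ L a φ f) :
    IsAvgPure (upI (K' := K') 𝔫) 𝔫 T₀ L a (H193.nat193 aT' D' φ) (H193.nat193 aT D f) := by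
  obtain ⟨Ω, iT, iC, iT2, iSC, iM, iB, ν, iF, T, T', φ₀, Φ, f₀, F, h1, h2, h3, h4, h5,
    ⟨C₁, hC₁, hs₁⟩, ⟨C₂, hC₂, hs₂⟩, h8, h9⟩ := h
  have hup : H193.IsTorusData (upI (K' := K') 𝔫) r' aT' D' := hrel.up
  have hdn : H193.IsTorusData 𝔫 r aT D := hrel.down
  haveI := isFiniteMeasure_parMeas75 hup.bdd
  haveI := compactSpace_closure75 hup.bdd
  -- the pointwise identities
  have eup : ∀ (ω : Ω) (y : InfinitePlace K' → ℝ) (x : G K'),
      pure305 (T' ω) (φ₀ ω) (fun w => trC (scal75 (y w)) (Φ ω w)) x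
        = pure305 (T' ω) (φ₀ ω) (Φ ω) (x * (aT' y)⁻¹) :=
    fun ω y x => pure_torus75 hup y (T' ω) (φ₀ ω) (Φ ω) x
  have edn : ∀ (ω : Ω) (y : InfinitePlace K' → ℝ) (x : G K),
      pure305 (T ω) (f₀ ω)
          (fun v => trC (scal75 (H193.fibSum193 (K := K) y v)) (F ω v)) x
        = pure305 (T ω) (f₀ ω) (F ω) (x * (aT (H193.fibSum193 (K := K) y))⁻¹) :=
    fun ω y x => pure_torus75 hdn (H193.fibSum193 (K := K) y) (T ω) (f₀ ω) (F ω) x
  refine ⟨Ω × closure D', inferInstance, inferInstance, inferInstance, inferInstance,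
    inferInstance, inferInstance, ν.prod (parMeas75 D'), inferInstance,
    fun p => T p.1, fun p => T' p.1, fun p => φ₀ p.1,
    fun p w => trC (scal75 ((p.2 : InfinitePlace K' → ℝ) w)) (Φ p.1 w),
    fun p => f₀ p.1,
    fun p v => trC (scal75 (H193.fibSum193 (K := K) (p.2 : InfinitePlace K' → ℝ) v)) (F p.1 v),
    ?_, ?_, ?_, ?_, ?_, ?_, ?_, ?_, ?_⟩
  · -- the local condition
    intro p
    exact ⟨(h1 p.1).1, (h1 p.1).2.1, hL _ _ _ _ _ _ (h1 p.1).2.2⟩
  · -- test functions upstairs
    intro p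
    have e : pure305 (T' p.1) (φ₀ p.1)
        (fun w => trC (scal75 ((p.2 : InfinitePlace K' → ℝ) w)) (Φ p.1 w))
        = fun x => pure305 (T' p.1) (φ₀ p.1) (Φ p.1) (x * (aT' (p.2 : InfinitePlace K' → ℝ))⁻¹) :=
      funext fun x => eup p.1 _ x
    rw [e]
    exact isTestFn_trl75 (h2 p.1) (hup.central _)
  · -- test functions downstairs
    intro p
    have e : (fun x => a * pure305 (T p.1) (f₀ p.1)
        (fun v => trC (scal75 (H193.fibSum193 (K := K) (p.2 : InfinitePlace K' → ℝ) v))
          (F p.1 v)) x)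
        = fun x => (fun x' => a * pure305 (T p.1) (f₀ p.1) (F p.1) x')
            (x * (aT (H193.fibSum193 (K := K) (p.2 : InfinitePlace K' → ℝ)))⁻¹) :=
      funext fun x => by rw [edn p.1 _ x]
    rw [e]
    exact isTestFn_trl75 (h3 p.1) (hdn.central _)
  · -- joint continuity upstairs
    have e : (fun q : (Ω × closure D') × G K' => pure305 (T' q.1.1) (φ₀ q.1.1)
        (fun w => trC (scal75 ((q.1.2 : InfinitePlace K' → ℝ) w)) (Φ q.1.1 w)) q.2)
        = (fun q : Ω × G K' => pure305 (T' q.1) (φ₀ q.1) (Φ q.1) q.2) ∘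
          fun q : (Ω × closure D') × G K' =>
            (q.1.1, q.2 * (aT' (q.1.2 : InfinitePlace K' → ℝ))⁻¹) :=
      funext fun q => eup q.1.1 _ q.2
    rw [e]
    refine h4.comp ((continuous_fst.comp continuous_fst).prodMk (continuous_snd.mul ?_))
    exact (hup.cont.comp (continuous_subtype_val.comp (continuous_snd.comp continuous_fst))).inv
  · -- joint continuity downstairs
    have e : (fun q : (Ω × closure D') × G K => a * pure305 (T q.1.1) (f₀ q.1.1)
        (fun v => trC (scal75 (H193.fibSum193 (K := K) (q.1.2 : InfinitePlace K' → ℝ) v))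
          (F q.1.1 v)) q.2)
        = (fun q : Ω × G K => a * pure305 (T q.1) (f₀ q.1) (F q.1) q.2) ∘
          fun q : (Ω × closure D') × G K =>
            (q.1.1, q.2 * (aT (H193.fibSum193 (K := K) (q.1.2 : InfinitePlace K' → ℝ)))⁻¹) :=
      funext fun q => by
        show a * _ = a * _
        rw [edn q.1.1 _ q.2]
    rw [e]
    refine h5.comp ((continuous_fst.comp continuous_fst).prodMk (continuous_snd.mul ?_))
    exact (hdn.cont.comp (continuous_fibSum75.comp
      (continuous_subtype_val.comp (continuous_snd.comp continuous_fst)))).inv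
  · -- the support upstairs
    refine ⟨(fun q : G K' × closure D' => q.1 * aT' (q.2 : InfinitePlace K' → ℝ)) ''
      (C₁ ×ˢ Set.univ), ?_, ?_⟩
    · refine (hC₁.prod isCompact_univ).image ?_
      exact continuous_fst.mul (hup.cont.comp (continuous_subtype_val.comp continuous_snd))
    · intro p x hx
      rw [eup p.1 _ x] at hx
      refine ⟨(x * (aT' (p.2 : InfinitePlace K' → ℝ))⁻¹, p.2), ⟨hs₁ p.1 _ hx, Set.mem_univ _⟩, ?_⟩
      show x * (aT' (p.2 : InfinitePlace K' → ℝ))⁻¹ * aT' (p.2 : InfinitePlace K' → ℝ) = x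
      rw [inv_mul_cancel_right]
  · -- the support downstairs
    refine ⟨(fun q : G K × closure D' =>
      q.1 * aT (H193.fibSum193 (K := K) (q.2 : InfinitePlace K' → ℝ))) '' (C₂ ×ˢ Set.univ), ?_, ?_⟩
    · refine (hC₂.prod isCompact_univ).image ?_
      exact continuous_fst.mul (hdn.cont.comp (continuous_fibSum75.comp
        (continuous_subtype_val.comp continuous_snd)))
    · intro p x hx
      rw [edn p.1 _ x] at hx
      refine ⟨(x * (aT (H193.fibSum193 (K := K) (p.2 : InfinitePlace K' → ℝ)))⁻¹, p.2),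
        ⟨hs₂ p.1 _ hx, Set.mem_univ _⟩, ?_⟩
      show x * (aT (H193.fibSum193 (K := K) (p.2 : InfinitePlace K' → ℝ)))⁻¹ *
        aT (H193.fibSum193 (K := K) (p.2 : InfinitePlace K' → ℝ)) = x
      rw [inv_mul_cancel_right]
  · -- the integral upstairs
    intro x
    have hg : Continuous fun q : Ω × (InfinitePlace K' → ℝ) =>
        pure305 (T' q.1) (φ₀ q.1) (Φ q.1) (x * (aT' q.2)⁻¹) :=
      h4.comp (continuous_fst.prodMk
        (continuous_const.mul (hup.cont.comp continuous_snd).inv))
    have e := integral_prod_par75 ν hup.bdd _ hg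
    have e' : (fun p : Ω × closure D' => pure305 (T' p.1) (φ₀ p.1)
        (fun w => trC (scal75 ((p.2 : InfinitePlace K' → ℝ) w)) (Φ p.1 w)) x)
        = fun p : Ω × closure D' =>
          pure305 (T' p.1) (φ₀ p.1) (Φ p.1) (x * (aT' (p.2 : InfinitePlace K' → ℝ))⁻¹) :=
      funext fun p => eup p.1 _ x
    rw [e', e]
    show (((volume D').toReal : ℝ) : ℂ)⁻¹ * ∫ t in D', φ (x * (aT' t)⁻¹) = _
    congr 1
    refine integral_congr_ae (Filter.Eventually.of_forall fun t => ?_)
    exact h8 _
  · -- the integral downstairs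
    intro x
    have hg : Continuous fun q : Ω × (InfinitePlace K' → ℝ) =>
        a * pure305 (T q.1) (f₀ q.1) (F q.1) (x * (aT (H193.fibSum193 (K := K) q.2))⁻¹) :=
      h5.comp (continuous_fst.prodMk
        (continuous_const.mul (hdn.cont.comp (continuous_fibSum75.comp continuous_snd)).inv))
    have e := integral_prod_par75 ν hup.bdd _ hg
    have e' : (fun p : Ω × closure D' => a * pure305 (T p.1) (f₀ p.1)
        (fun v => trC (scal75 (H193.fibSum193 (K := K) (p.2 : InfinitePlace K' → ℝ) v))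
          (F p.1 v)) x)
        = fun p : Ω × closure D' =>
          a * pure305 (T p.1) (f₀ p.1) (F p.1)
            (x * (aT (H193.fibSum193 (K := K) (p.2 : InfinitePlace K' → ℝ)))⁻¹) :=
      funext fun p => by rw [edn p.1 _ x]
    rw [e', e, H193.nat_eq_push193 hrel hf x]
    congr 1
    refine integral_congr_ae (Filter.Eventually.of_forall fun t => ?_)
    exact h9 _

end Avg

end Fermat.Agent.LT.T7.H75.NS

end

end
-- ===== PACK-END LT/T7/H75/NatShapeAvg.lean

-- ===== PACK-BEGIN LT/T7/H75/NatShape.lean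
section





/-!
# Row LT, tower T7, leaf T7.L2.1.H2a.B.3 `PB57.NatShapeC57` (helper75, registry row 2794)

OFF-MAIN.  No hole, nothing assumed.  ADDITIVE (namespace `Fermat.Agent.LT.T7.H75.NS`).

    natShapeC75  (K K') : PB57.NatShapeC57 K K' H893.LocB893b      (shape of record, v2)
    natShapeC75a (K K') : PB57.NatShapeC57 K K' H893.LocB893       (v1)

VERBATIM vs `LT/T7/H57/PairBSpec.lean` (helper57@6af65419a, sha256 40309edd), UNCONDITIONAL.

Proof.  `isAvgPure_nat75` (`NatShapeAvg.lean`): parameter space `Ω × closure D'` with the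
product of `ν` and the normalised Lebesgue measure of `D'`; the member at `(ω, y)` is the pure
tensor of `ω` with the archimedean components translated by `exp (y w)` upstairs and by
`exp ((N y) v)` downstairs (`pure_trl75`: the right translate of a pure tensor by `a' y`, resp.
`a (N y)`); Fubini (continuous functions on a compact space), `H193.nat_eq_push193` downstairs.
The local condition is stable under these translations: the finite clauses do not change; the
scalars are real (complex conjugation) and central (bi-invariance); the convolution of the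
translates by the scalars `exp (y (w j))` is the translate of the convolution by the product
`exp (∑_j y (w j)) = exp ((N y) v)` (`convL_scal75`; the fibre over `v` has `ℓ` elements:
`H193.FibCardC`, closed by helper952 `fibCardC952`, byte-identical copy).
-/

set_option autoImplicit false
set_option linter.style.haveILetI false
set_option linter.unusedSectionVars false

open AutomorphicForm IsDedekindDomain NumberField MeasureTheory
open scoped ComplexConjugate

noncomputable section

namespace Fermat.Agent.LT.T7.H75.NS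

open Fermat.Agent.LT Fermat.Agent.LT.H556 Fermat.Agent.LT.H556.A0 Fermat.Agent.LT.T7
open Fermat.Agent.LT.T7.H893 Fermat.Agent.LT.T7.H305 Fermat.Agent.LT.T7.Q797

attribute [local instance] Fermat.Agent.LT.T5.instMeasurableSpaceG

variable {K K' : Type} [Field K] [NumberField K] [Field K'] [NumberField K'] [Algebra K K']

/-- The sum over the fibre is the sum over an enumeration of the fibre. -/
theorem fibSum_eq75 {ℓ : ℕ} (hcyc : IsCycExt K K' ℓ) (htc : TotCplx K)
    (y : InfinitePlace K' → ℝ) (v : InfinitePlace K) (w : ℕ → InfinitePlace K')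
    (hw : ∀ j : ℕ, (w j).comap (algebraMap K K') = v)
    (hinj : ∀ j j' : ℕ, j < ℓ → j' < ℓ → w j = w j' → j = j') :
    H193.fibSum193 (K := K) y v = ∑ j ∈ Finset.range ℓ, y (w j) := by
  classical
  have hcard := H952.fibCardC952 K K' ℓ hcyc htc v
  have hinjOn : Set.InjOn w (Finset.range ℓ : Set ℕ) := fun j hj j' hj' h =>
    hinj j j' (Finset.mem_range.1 hj) (Finset.mem_range.1 hj') h
  show ∑ w' : InfinitePlace K', (if w'.comap (algebraMap K K') = v then y w' else 0) = _
  rw [← Finset.sum_filter]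
  have himg : (Finset.range ℓ).image w
      = Finset.univ.filter fun w' : InfinitePlace K' => w'.comap (algebraMap K K') = v := by
    refine Finset.eq_of_subset_of_card_le ?_ ?_
    · intro w' hw'
      obtain ⟨j, -, rfl⟩ := Finset.mem_image.1 hw'
      exact Finset.mem_filter.2 ⟨Finset.mem_univ _, hw j⟩
    · rw [Finset.card_image_of_injOn hinjOn, Finset.card_range, ← hcard,
        Nat.card_eq_fintype_card, Fintype.card_subtype]
  rw [← himg, Finset.sum_image hinjOn]

section Stab

variable {ℓ : ℕ} (hcyc : IsCycExt K K' ℓ) (htc : TotCplx K) {D : CompData K K'}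
  (hDl : D.l = ℓ) {μc : @Measure (GL (Fin 2) ℂ) (borel _)}
  (hμ : @Measure.IsHaarMeasure _ _ _ (borel _) μc)

include hcyc htc hDl hμ

/-- The clause `arch` for the translates. -/
theorem arch_trl75 {Φ : InfinitePlace K' → GL (Fin 2) ℂ → ℂ}
    {F : InfinitePlace K → GL (Fin 2) ℂ → ℂ} (y : InfinitePlace K' → ℝ)
    (h : ∀ (v : InfinitePlace K) (w : ℕ → InfinitePlace K'),
      (∀ j : ℕ, (w j).comap (algebraMap K K') = v) →
      (∀ j j' : ℕ, j < D.l → j' < D.l → w j = w j' → j = j') →
      F v = convL305 μc (fun j => Φ (w j)) (D.l - 1))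
    (v : InfinitePlace K) (w : ℕ → InfinitePlace K')
    (hw : ∀ j : ℕ, (w j).comap (algebraMap K K') = v)
    (hinj : ∀ j j' : ℕ, j < D.l → j' < D.l → w j = w j' → j = j') :
    (fun v => trC (scal75 (H193.fibSum193 (K := K) y v)) (F v)) v
      = convL305 μc (fun j => (fun w => trC (scal75 (y w)) (Φ w)) (w j)) (D.l - 1) := by
  subst hDl
  have hl : D.l - 1 + 1 = D.l := Nat.sub_add_cancel hcyc.prime.pos
  show trC (scal75 (H193.fibSum193 (K := K) y v)) (F v)
    = convL305 μc (fun j => trC (scal75 (y (w j))) (Φ (w j))) (D.l - 1)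
  rw [convL_scal75 μc hμ (fun j => y (w j)) (fun j => Φ (w j)) (D.l - 1), hl,
    ← h v w hw hinj, fibSum_eq75 hcyc htc y v w hw hinj]

/-- `LocHyp893` is stable under the translations. -/
theorem locHyp893_trl75 {T : Finset (HeightOneSpectrum (𝓞 K))}
    {n : HeightOneSpectrum (𝓞 K') → ℕ} {m : HeightOneSpectrum (𝓞 K) → ℕ}
    {φ₀ : ∀ w : HeightOneSpectrum (𝓞 K'), GL (Fin 2) (w.adicCompletion K') → ℂ}
    {Φ : InfinitePlace K' → GL (Fin 2) ℂ → ℂ}
    {f₀ : ∀ v : HeightOneSpectrum (𝓞 K), GL (Fin 2) (v.adicCompletion K) → ℂ}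
    {F : InfinitePlace K → GL (Fin 2) ℂ → ℂ} (y : InfinitePlace K' → ℝ)
    (h : LocHyp893 D μc T n m φ₀ Φ f₀ F) :
    LocHyp893 D μc T n m φ₀ (fun w => trC (scal75 (y w)) (Φ w)) f₀
      (fun v => trC (scal75 (H193.fibSum193 (K := K) y v)) (F v)) where
  inv_up := h.inv_up
  inv_down := h.inv_down
  arch_up := fun w => arch_trC75 _ (h.arch_up w)
  arch_down := fun v => arch_trC75 _ (h.arch_down v)
  inert := h.inert
  split := h.split
  arch := arch_trl75 hcyc htc hDl hμ y h.arch

/-- `LocHyp305` is stable under the translations. -/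
theorem locHyp305_trl75 {T : Finset (HeightOneSpectrum (𝓞 K))}
    {n : HeightOneSpectrum (𝓞 K') → ℕ} {m : HeightOneSpectrum (𝓞 K) → ℕ}
    {φ₀ : ∀ w : HeightOneSpectrum (𝓞 K'), GL (Fin 2) (w.adicCompletion K') → ℂ}
    {Φ : InfinitePlace K' → GL (Fin 2) ℂ → ℂ}
    {f₀ : ∀ v : HeightOneSpectrum (𝓞 K), GL (Fin 2) (v.adicCompletion K) → ℂ}
    {F : InfinitePlace K → GL (Fin 2) ℂ → ℂ} (y : InfinitePlace K' → ℝ)
    (h : LocHyp305 D μc T n m φ₀ Φ f₀ F) :
    LocHyp305 D μc T n m φ₀ (fun w => trC (scal75 (y w)) (Φ w)) f₀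
      (fun v => trC (scal75 (H193.fibSum193 (K := K) y v)) (F v)) where
  inv_up := h.inv_up
  inv_down := h.inv_down
  arch_up := fun w => arch_trC75 _ (h.arch_up w)
  arch_down := fun v => arch_trC75 _ (h.arch_down v)
  inert := h.inert
  split := h.split
  arch := arch_trl75 hcyc htc hDl hμ y h.arch

/-- `ArchOk893` is stable under the translations. -/
theorem archOk_trl75 {n : HeightOneSpectrum (𝓞 K') → ℕ} {m : HeightOneSpectrum (𝓞 K) → ℕ}
    {φ₀ : ∀ w : HeightOneSpectrum (𝓞 K'), GL (Fin 2) (w.adicCompletion K') → ℂ}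
    {Φ : InfinitePlace K' → GL (Fin 2) ℂ → ℂ}
    {f₀ : ∀ v : HeightOneSpectrum (𝓞 K), GL (Fin 2) (v.adicCompletion K) → ℂ}
    {F : InfinitePlace K → GL (Fin 2) ℂ → ℂ} (y : InfinitePlace K' → ℝ)
    (h : ArchOk893 D μc n m φ₀ Φ f₀ F) :
    ArchOk893 D μc n m φ₀ (fun w => trC (scal75 (y w)) (Φ w)) f₀
      (fun v => trC (scal75 (H193.fibSum193 (K := K) y v)) (F v)) := by
  obtain ⟨h1, h2, h3⟩ := h
  refine ⟨locHyp305_trl75 hcyc htc hDl hμ y h1, fun w k₁ k₂ g hk₁ hk₂ => ?_,
    fun v k₁ k₂ g hk₁ hk₂ => ?_⟩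
  · exact biInv_trC75 (y w)
      (P := fun k : GL (Fin 2) ℂ =>
        (k : Matrix (Fin 2) (Fin 2) ℂ) * (k : Matrix (Fin 2) (Fin 2) ℂ).conjTranspose = 1)
      (fun k₁ k₂ g hk₁ hk₂ => h2 w k₁ k₂ g hk₁ hk₂) k₁ k₂ g hk₁ hk₂
  · exact biInv_trC75 (H193.fibSum193 (K := K) y v)
      (P := fun k : GL (Fin 2) ℂ =>
        (k : Matrix (Fin 2) (Fin 2) ℂ) * (k : Matrix (Fin 2) (Fin 2) ℂ).conjTranspose = 1)
      (fun k₁ k₂ g hk₁ hk₂ => h3 v k₁ k₂ g hk₁ hk₂) k₁ k₂ g hk₁ hk₂

end Stab

/-- **LEAF PB.3 `PB57.NatShapeC57` for the shape of record `H893.LocB893b` (v2).** -/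
theorem natShapeC75 (K K' : Type) [Field K] [NumberField K] [Field K'] [NumberField K']
    [Algebra K K'] : PB57.NatShapeC57 K K' H893.LocB893b := by
  intro ℓ Φ B hcyc htc hbase g 𝔫 _ μc hμ T₀ n n₀ m _ a c₂ φ₀ f₀ hpre aT D aT' D' hrel
  refine isAvgPure_nat75 hrel ?_ hpre.dn_test.cont hpre.shape
  rintro T φ₀ Φ f₀ F y ⟨hA, hB, hC, hD, hE, hF⟩
  exact ⟨locHyp893_trl75 hcyc htc hbase.deg hμ y hA, hB, hC, hD, hE,
    archOk_trl75 hcyc htc hbase.deg hμ y hF⟩

/-- **LEAF PB.3 `PB57.NatShapeC57` for the shape `H893.LocB893` (v1).** -/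
theorem natShapeC75a (K K' : Type) [Field K] [NumberField K] [Field K'] [NumberField K']
    [Algebra K K'] : PB57.NatShapeC57 K K' H893.LocB893 := by
  intro ℓ Φ B hcyc htc hbase g 𝔫 _ μc hμ T₀ n n₀ m _ a c₂ φ₀ f₀ hpre aT D aT' D' hrel
  refine isAvgPure_nat75 hrel ?_ hpre.dn_test.cont hpre.shape
  rintro T φ₀ Φ f₀ F y ⟨hA, hB, hC, hD, hE, hF⟩
  exact ⟨locHyp305_trl75 hcyc htc hbase.deg hμ y hA, hB, hC, hD, hE,
    archOk_trl75 hcyc htc hbase.deg hμ y hF⟩

end Fermat.Agent.LT.T7.H75.NS

end

end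
-- ===== PACK-END LT/T7/H75/NatShape.lean

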