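import Mathlib
import Fermat.Agent.Pack.LT2.E20L0
import Fermat.Agent.Pack.LT3.E5L0
import Fermat.Agent.Pack.S44C.G0E6L2
import Fermat.Agent.Pack.S44C.G0E26L3
import Fermat.Agent.Pack.S43GC.G0E7L0
import Fermat.Agent.Pack.LT3.E27L3
import Fermat.Agent.Pack.LT3.E29L2
import Fermat.Agent.Pack.LT3.E22L3
import Fermat.Agent.Pack.LT3.E22L2
import Fermat.Agent.Pack.LT3.E22L1
import Fermat.Agent.Pack.LT3.E22L0
import Fermat.Agent.Pack.LT3.E23L3
import Fermat.Agent.Pack.LT3.E23L2
import Fermat.Agent.Pack.LT3.E27L2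
import Fermat.Agent.Pack.LT3.E23L0
import Fermat.Agent.Pack.LT3.E25L1
import Fermat.Agent.Pack.LT3.E25L3
import Fermat.Agent.Pack.LT3.E27L1
import Fermat.Agent.Pack.LT3.E29L0
import Fermat.Agent.Pack.LT3.E29L3
import Fermat.Agent.Pack.LT3.E29L1
import Fermat.Agent.Pack.LT3.E24L3

set_option linter.all false

-- ===== PACK-BEGIN LT/CFT/H589/Idele.lean
section



/-!
# Row LT, tower CFT, leaf IDELE (helper589), part 4: `HeckeOfRayC` from the existence of
Frobenius elements

`heckeOfRayC_of_frobExists589 : FrobExists589 → CFT.HeckeOfRayC`, where `FrobExists589` is the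
existence of a Frobenius element of `G_K` at every finite place of every number field `K`
(proved in `FrobK.lean`).
-/

set_option autoImplicit false
set_option linter.unusedSectionVars false

open IsDedekindDomain NumberField
open Fermat.Agent.LT.CFT

noncomputable section

namespace Fermat.Agent.LT.H589

/-- Existence of Frobenius elements of `G_K` at every finite place of `K`. -/
def FrobExists589 : Prop :=
  ∀ (K : Type) [Field K] [NumberField K] (j : K →+* AlgebraicClosure ℚ)
    (v : HeightOneSpectrum (𝓞 K)),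
    ∃ σ : (AlgebraicClosure ℚ ≃ₐ[ℚ] AlgebraicClosure ℚ), IsFrobAt j v σ

variable {K : Type} [Field K] [NumberField K]

theorem ordAt_eq_ord589 (v : HeightOneSpectrum (𝓞 K)) (a : 𝓞 K) : ordAt v a = ord589 v a := rfl

/-- There is a prime of `𝓞 K`. -/
theorem exists_prime589 (K : Type) [Field K] [NumberField K] :
    Nonempty (HeightOneSpectrum (𝓞 K)) := by
  obtain ⟨p, hp0, hp⟩ := Ring.not_isField_iff_exists_prime.mp (RingOfIntegers.not_isField K)
  exact ⟨⟨p, hp, hp0⟩⟩

/-- A nonzero non-unit in a nonzero ideal. -/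
theorem exists_generator589 (𝔣 : Ideal (𝓞 K)) (h𝔣 : 𝔣 ≠ ⊥) :
    ∃ f : 𝓞 K, f ∈ 𝔣 ∧ f ≠ 0 ∧ ∃ v₀ : HeightOneSpectrum (𝓞 K), v₀.intValuation f < 1 := by
  obtain ⟨g, hg, hg0⟩ := Submodule.exists_mem_ne_zero_of_ne_bot h𝔣
  obtain ⟨v₀⟩ := exists_prime589 K
  obtain ⟨π, hπ, hπ0⟩ := Submodule.exists_mem_ne_zero_of_ne_bot v₀.ne_bot
  refine ⟨g * π, 𝔣.mul_mem_right π hg, mul_ne_zero hg0 hπ0, v₀, ?_⟩
  rw [HeightOneSpectrum.intValuation_lt_one_iff_mem]
  exact v₀.asIdeal.mul_mem_left g hπ

theorem ord589_eq_zero_of_intValuation {v : HeightOneSpectrum (𝓞 K)} {a : 𝓞 K} (ha : a ≠ 0)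
    (h : v.intValuation a = 1) : ord589 v a = 0 := by
  rw [intValuation_eq_exp_ord589 v ha, WithZero.exp_eq_one] at h
  omega

theorem ord589_eq_one_of_intValuation {v : HeightOneSpectrum (𝓞 K)} {a : 𝓞 K} (ha : a ≠ 0)
    (h : v.intValuation a = WithZero.exp (-1 : ℤ)) : ord589 v a = 1 := by
  rw [intValuation_eq_exp_ord589 v ha, WithZero.exp_inj] at h
  omega

/-- If `a ≡ 1 mod f` then `a` is a unit at the primes dividing `f`. -/
theorem intValuation_eq_one_of_sub_one_mem589 {f a : 𝓞 K} (ha : a - 1 ∈ Ideal.span {f})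
    {v : HeightOneSpectrum (𝓞 K)} (hv : v.intValuation f < 1) : v.intValuation a = 1 := by
  have h1 : v.intValuation (a - 1) < 1 :=
    lt_of_le_of_lt (intValuation_le_of_mem_span589 _ _ ha v) hv
  have h2 : v.intValuation (a - 1) < v.intValuation (1 : 𝓞 K) := by
    rw [map_one]; exact h1
  have h3 := Valuation.map_add_eq_of_lt_left v.intValuation h2
  rw [add_comm, sub_add_cancel, map_one] at h3
  exact h3

theorem finite_ord589_ne_zero {a : 𝓞 K} (ha : a ≠ 0) :
    {v : HeightOneSpectrum (𝓞 K) | ord589 v a ≠ 0}.Finite := by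
  refine (finite_divisors589 a ha).subset ?_
  intro v hv
  show v.intValuation a < 1
  by_contra h
  have h1 : v.intValuation a = 1 := le_antisymm (v.intValuation_le_one a) (not_lt.mp h)
  exact hv (ord589_eq_zero_of_intValuation ha h1)

/-- An integer `a ≡ 1 mod f` of exponent `1` at a prime `v ∤ f`. -/
theorem exists_test_element589 (f : 𝓞 K) (hf : f ≠ 0) (v : HeightOneSpectrum (𝓞 K))
    (hv : ¬ v.intValuation f < 1) :
    ∃ a : 𝓞 K, a ≠ 0 ∧ a - 1 ∈ Ideal.span {f} ∧ ord589 v a = 1 := by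
  classical
  let S : Finset (HeightOneSpectrum (𝓞 K)) := (finite_divisors589 f hf).toFinset
  have hSmem : ∀ w : HeightOneSpectrum (𝓞 K), w ∈ S ↔ w.intValuation f < 1 := by
    intro w
    simp only [S, Set.Finite.mem_toFinset, Set.mem_ofPred_eq]
  have hvS : v ∉ S := fun h => hv ((hSmem v).mp h)
  obtain ⟨π, hπ⟩ := v.intValuation_exists_uniformizer
  let e : HeightOneSpectrum (𝓞 K) → ℕ := fun w =>
    if w = v then 2 else (WithZero.log (w.intValuation f)).natAbs
  obtain ⟨a, ha⟩ := IsDedekindDomain.exists_forall_sub_mem_ideal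
    (s := insert v S) (fun w : HeightOneSpectrum (𝓞 K) => w.asIdeal) e
    (fun w _ => w.prime) (fun w _ w' _ hww h => hww (HeightOneSpectrum.ext h))
    (fun i => if i.1 = v then π else 1)
  have hfv0 : ∀ w : HeightOneSpectrum (𝓞 K), w.intValuation f ≠ 0 :=
    fun w => w.intValuation_ne_zero _ hf
  have h1 : ∀ w : HeightOneSpectrum (𝓞 K), w.intValuation (a - 1) ≤ w.intValuation f := by
    intro w
    by_cases hw : w ∈ S
    · have hwv : w ≠ v := fun h => hvS (h ▸ hw)
      have h2 := ha w (Finset.mem_insert_of_mem hw)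
      simp only [hwv, if_false, e] at h2
      exact ((w.intValuation_le_pow_iff_mem _ _).mpr h2).trans (exp_neg_natAbs_le589 (hfv0 w))
    · have h3 : w.intValuation f = 1 :=
        le_antisymm (w.intValuation_le_one f) (not_lt.mp (fun h => hw ((hSmem w).mpr h)))
      rw [h3]
      exact w.intValuation_le_one _
  have h2 : v.intValuation (a - π) ≤ WithZero.exp (-((2 : ℕ) : ℤ)) := by
    have h3 := ha v (Finset.mem_insert_self v S)
    simp only [if_true, e] at h3
    exact (v.intValuation_le_pow_iff_mem _ _).mpr h3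
  have h3 : v.intValuation (a - π) < v.intValuation π := by
    rw [hπ]
    refine lt_of_le_of_lt h2 ?_
    rw [WithZero.exp_lt_exp]
    norm_num
  have h4 : v.intValuation a = WithZero.exp (-1 : ℤ) := by
    have h5 := Valuation.map_add_eq_of_lt_left v.intValuation h3
    rw [add_comm, sub_add_cancel] at h5
    rw [h5, hπ]
  have ha0 : a ≠ 0 := by
    intro h
    rw [h, map_zero] at h4
    exact WithZero.exp_ne_zero h4.symm
  exact ⟨a, ha0, mem_span_of_intValuation_le589 _ f hf h1, ord589_eq_one_of_intValuation ha0 h4⟩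

/-- `χ(Frob_v)` does not depend on the choice of the Frobenius element, for `v ∤ f`. -/
theorem chi_frob_eq589 (j : K →+* AlgebraicClosure ℚ) (χ : ↥(galOf j) →* ℂˣ)
    (𝔣 : Ideal (𝓞 K)) (hR : RayTrivial j χ 𝔣) (f : 𝓞 K) (hf𝔣 : f ∈ 𝔣) (hf : f ≠ 0)
    (frob : HeightOneSpectrum (𝓞 K) → ↥(galOf j))
    (hfrob : ∀ v : HeightOneSpectrum (𝓞 K), IsFrobAt j v (frob v : AlgebraicClosure ℚ ≃ₐ[ℚ] AlgebraicClosure ℚ))
    (v : HeightOneSpectrum (𝓞 K)) (hv : ¬ v.intValuation f < 1)
    (σ : ↥(galOf j)) (hσ : IsFrobAt j v (σ : AlgebraicClosure ℚ ≃ₐ[ℚ] AlgebraicClosure ℚ)) :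
    χ σ = χ (frob v) := by
  classical
  obtain ⟨a, ha0, ha1, hav⟩ := exists_test_element589 f hf v hv
  have ha𝔣 : a - 1 ∈ 𝔣 := by
    have : Ideal.span {f} ≤ 𝔣 := (Ideal.span_singleton_le_iff_mem 𝔣).mpr hf𝔣
    exact this ha1
  let frob₂ : HeightOneSpectrum (𝓞 K) → ↥(galOf j) := Function.update frob v σ
  have hfrob₂ : ∀ w : HeightOneSpectrum (𝓞 K), ¬ 𝔣 ≤ w.asIdeal →
      IsFrobAt j w (frob₂ w : AlgebraicClosure ℚ ≃ₐ[ℚ] AlgebraicClosure ℚ) := by
    intro w _
    by_cases hw : w = v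
    · subst hw
      simp only [frob₂, Function.update_self]
      exact hσ
    · simp only [frob₂, Function.update_of_ne hw]
      exact hfrob w
  have e1 := hR frob (fun w _ => hfrob w) a ha0 ha𝔣
  have e2 := hR frob₂ hfrob₂ a ha0 ha𝔣
  have hfin1 : Function.HasFiniteMulSupport fun w : HeightOneSpectrum (𝓞 K) => χ (frob w) ^ ordAt w a := by
    refine (finite_ord589_ne_zero ha0).subset ?_
    intro w hw h0
    apply hw
    show χ (frob w) ^ ordAt w a = 1
    rw [ordAt_eq_ord589, h0, pow_zero]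
  have hfin2 : Function.HasFiniteMulSupport fun w : HeightOneSpectrum (𝓞 K) => χ (frob₂ w) ^ ordAt w a := by
    refine (finite_ord589_ne_zero ha0).subset ?_
    intro w hw h0
    apply hw
    show χ (frob₂ w) ^ ordAt w a = 1
    rw [ordAt_eq_ord589, h0, pow_zero]
  rw [← mul_finprod_cond_ne v hfin1] at e1
  rw [← mul_finprod_cond_ne v hfin2] at e2
  have e3 : (∏ᶠ (w : HeightOneSpectrum (𝓞 K)) (_ : w ≠ v), χ (frob₂ w) ^ ordAt w a) =
      ∏ᶠ (w : HeightOneSpectrum (𝓞 K)) (_ : w ≠ v), χ (frob w) ^ ordAt w a := by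
    refine finprod_congr (fun w => finprod_congr_Prop rfl (fun hw => ?_))
    simp only [frob₂, Function.update_of_ne hw]
  rw [e3, ← e1] at e2
  have e4 := mul_right_cancel e2
  simp only [frob₂, Function.update_self, ordAt_eq_ord589, hav, pow_one] at e4
  exact e4

/-- **Leaf IDELE, modulo the existence of Frobenius elements.** -/
theorem heckeOfRayC_of_frobExists589 (hF : FrobExists589) : HeckeOfRayC := by
  intro hA K _ _ j hTC χ hχ
  obtain ⟨𝔣, h𝔣, hR⟩ := hA K j hTC χ hχ
  obtain ⟨f, hf𝔣, hf, hS⟩ := exists_generator589 𝔣 h𝔣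
  have hfr : ∀ v : HeightOneSpectrum (𝓞 K), ∃ σ : ↥(galOf j),
      IsFrobAt j v (σ : AlgebraicClosure ℚ ≃ₐ[ℚ] AlgebraicClosure ℚ) := by
    intro v
    obtain ⟨σ, hσ⟩ := hF K j v
    exact ⟨⟨σ, hσ.1⟩, hσ⟩
  choose frob hfrob using hfr
  classical
  let c : HeightOneSpectrum (𝓞 K) → ℂˣ := fun v =>
    if v.intValuation f < 1 then 1 else χ (frob v)
  have hspan : Ideal.span {f} ≤ 𝔣 := (Ideal.span_singleton_le_iff_mem 𝔣).mpr hf𝔣
  have hray : RayHyp589 f c := by
    intro a ha0 ha1
    have h1 := hR frob (fun w _ => hfrob w) a ha0 (hspan ha1)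
    rw [← h1]
    refine finprod_congr (fun v => ?_)
    by_cases hv : v.intValuation f < 1
    · have h2 : ord589 v a = 0 :=
        ord589_eq_zero_of_intValuation ha0 (intValuation_eq_one_of_sub_one_mem589 ha1 hv)
      rw [ordAt_eq_ord589, h2, pow_zero, pow_zero]
    · simp only [c, hv, if_false]
      rfl
  obtain ⟨θ, hθc, hθp, hθn⟩ := exists_heckeChar589 f hf hS c hray
  refine ⟨θ, hθc, hθp, (finite_divisors589 f hf).toFinset, ?_⟩
  intro v hv z hz
  have hv' : ¬ v.intValuation f < 1 := by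
    intro h
    apply hv
    simp only [Set.Finite.mem_toFinset, Set.mem_ofPred_eq]
    exact h
  have hone : ∀ w : HeightOneSpectrum (𝓞 K), w ≠ v → finComp589 w z = 1 :=
    fun w hw => hz.2 w hw
  have hnear : NearOne589 f z := by
    intro w hw
    have hwv : w ≠ v := fun h => hv' (h ▸ hw)
    rw [hone w hwv, sub_self, map_zero]
    exact zero_le
  have hsingle : ∀ w : HeightOneSpectrum (𝓞 K), w ≠ v → idExp589 w z = 0 := by
    intro w hwv
    apply idExp589_eq_zero_of_finVal
    unfold finVal589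
    rw [hone w hwv, map_one]
  have hθz : θ z = c v ^ idExp589 v z := by
    rw [hθn z hnear, idChar589_eq_of_single c z v hsingle]
  have hcv : c v = χ (frob v) := by
    simp only [c, hv', if_false]
  refine ⟨fun h1 => ?_, fun h1 σ hσ => ?_⟩
  · rw [hθz, idExp589_eq_zero_of_finVal h1, zpow_zero]
  · have h2 : idExp589 v z = 1 := by
      apply idExp589_eq_of_finVal
      exact h1
    rw [hθz, h2, zpow_one, hcv]
    exact (chi_frob_eq589 j χ 𝔣 hR f hf𝔣 hf frob hfrob v hv' σ hσ).symm

end Fermat.Agent.LT.H589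

end

end
-- ===== PACK-END LT/CFT/H589/Idele.lean

-- ===== PACK-BEGIN LT/CFT/H589/FrobK.lean
section



/-!
# Row LT, tower CFT, leaf IDELE (helper589), part 5: existence of Frobenius elements over `K`

`frobExists589 : FrobExists589`: for every number field `K`, embedding `j : K → ℚ̄` and finite
place `v` of `K` there is `σ ∈ G_K = galOf j` which is a Frobenius element at `v`
(`CFT.IsFrobAt j v σ`).  Proof: Mathlib `Ideal.Quotient.stabilizerHom_surjective_of_profinite`
for the profinite group `G_K` acting on the ring `ℤ̄` of all algebraic integers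
(`Algebra.IsInvariant (𝓞 K) ℤ̄ G_K` by infinite Galois theory), as main `S54/FrobExists.lean`
does for `K = ℚ`.
-/

set_option autoImplicit false
set_option linter.unusedSectionVars false
set_option linter.style.haveILetI false
open IsDedekindDomain NumberField
open Fermat.Agent.LT.CFT
open scoped Pointwise

noncomputable section

namespace Fermat.Agent.LT.H589

local notation "Qb" => AlgebraicClosure ℚ
local notation "GQ" => (AlgebraicClosure ℚ ≃ₐ[ℚ] AlgebraicClosure ℚ)
local notation "Zb" => integralClosure ℤ (AlgebraicClosure ℚ)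

variable {K : Type} [Field K] [NumberField K] (j : K →+* Qb)

/-- The image of `K` in `ℚ̄`. -/
def imField589 : IntermediateField ℚ Qb := (j.toRatAlgHom).fieldRange

theorem mem_imField589 (y : Qb) : y ∈ imField589 j ↔ ∃ x : K, j x = y := by
  unfold imField589
  rw [AlgHom.mem_fieldRange]
  rfl

instance finiteDimensional_imField589 : FiniteDimensional ℚ (imField589 j) := by
  unfold imField589
  exact Module.Finite.equiv (AlgEquiv.ofInjectiveField j.toRatAlgHom).toLinearEquiv

theorem galOf_eq_fixingSubgroup589 : galOf j = (imField589 j).fixingSubgroup := by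
  ext σ
  rw [IntermediateField.mem_fixingSubgroup_iff]
  constructor
  · intro h y hy
    obtain ⟨x, rfl⟩ := (mem_imField589 j y).mp hy
    exact h x
  · intro h x
    exact h (j x) ((mem_imField589 j _).mpr ⟨x, rfl⟩)

theorem isClosed_galOf589 : IsClosed ((galOf j : Subgroup GQ) : Set GQ) := by
  rw [galOf_eq_fixingSubgroup589]
  exact IntermediateField.fixingSubgroup_isClosed _

instance compactSpace_galOf589 : CompactSpace ↥(galOf j) :=
  isCompact_iff_compactSpace.mp (isClosed_galOf589 j).isCompact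

/-- The ring homomorphism `𝓞 K → ℤ̄` induced by `j`. -/
def intHom589 : 𝓞 K →+* Zb :=
  (j.comp (algebraMap (𝓞 K) K)).codRestrict (integralClosure ℤ Qb)
    (fun x => map_isIntegral_int j (RingOfIntegers.isIntegral_coe x))

theorem intHom589_coe (x : 𝓞 K) : ((intHom589 j x : Zb) : Qb) = j (algebraMap (𝓞 K) K x) := rfl

/-- The `𝓞 K`-algebra structure of `ℤ̄` induced by `j`. -/
@[reducible] def intAlgebra589 : Algebra (𝓞 K) Zb := (intHom589 j).toAlgebra

theorem smul_intHom589 (g : ↥(galOf j)) (a : 𝓞 K) : g • intHom589 j a = intHom589 j a := by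
  apply Subtype.ext
  show (g : GQ) (j (algebraMap (𝓞 K) K a)) = j _
  exact g.2 _

theorem smulCommClass589 :
    letI := intAlgebra589 j
    SMulCommClass ↥(galOf j) (𝓞 K) Zb := by
  letI := intAlgebra589 j
  refine ⟨fun g a b => ?_⟩
  rw [Algebra.smul_def, Algebra.smul_def, smul_mul']
  congr 1
  exact smul_intHom589 j g a

theorem isInvariant589 :
    letI := intAlgebra589 j
    Algebra.IsInvariant (𝓞 K) Zb ↥(galOf j) := by
  letI := intAlgebra589 j
  haveI := Fermat.Agent.S54.isGalois_algebraicClosure_rat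
  refine ⟨fun b hb => ?_⟩
  have hfix : (b : Qb) ∈ IntermediateField.fixedField (imField589 j).fixingSubgroup := by
    rintro ⟨g, hg⟩
    have hg' : g ∈ galOf j := by rw [galOf_eq_fixingSubgroup589]; exact hg
    exact congrArg Subtype.val (hb ⟨g, hg'⟩)
  rw [InfiniteGalois.fixedField_fixingSubgroup, mem_imField589] at hfix
  obtain ⟨x, hx⟩ := hfix
  have hint : IsIntegral ℤ x := by
    have hb' : IsIntegral ℤ (b : Qb) := b.2
    rw [← hx] at hb'
    exact (isIntegral_algHom_iff j.toIntAlgHom j.injective).mp hb'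
  refine ⟨⟨x, hint⟩, Subtype.ext ?_⟩
  exact hx

theorem continuousSMul589 :
    letI : TopologicalSpace Zb := ⊥
    ContinuousSMul ↥(galOf j) Zb := by
  letI : TopologicalSpace Zb := ⊥
  haveI := Fermat.Agent.S54.continuousSMul_integralClosure
  refine ⟨?_⟩
  have h1 : Continuous fun p : ↥(galOf j) × Zb => ((p.1 : GQ), p.2) :=
    (continuous_subtype_val.comp continuous_fst).prodMk continuous_snd
  exact (continuous_smul (M := GQ) (X := Zb)).comp h1

/-- Existence of Frobenius lifts on the ring of all algebraic integers, over `𝓞 K`: for every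
prime `Q` of `ℤ̄` over the prime `v` of `𝓞 K` there is `σ ∈ G_K` stabilising `Q` and inducing
`x ↦ x ^ N(v)` on `ℤ̄ / Q`. -/
theorem exists_frob_int589 (v : HeightOneSpectrum (𝓞 K)) (Q : Ideal Zb) [Q.IsPrime]
    (hQ : ∀ x : 𝓞 K, intHom589 j x ∈ Q ↔ x ∈ v.asIdeal) :
    ∃ σ : ↥(galOf j), σ • Q = Q ∧
      ∀ x : Zb, σ • x - x ^ Nat.card (𝓞 K ⧸ v.asIdeal) ∈ Q := by
  classical
  letI := intAlgebra589 j
  haveI := smulCommClass589 j
  haveI := isInvariant589 j
  letI : TopologicalSpace Zb := ⊥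
  haveI : DiscreteTopology Zb := ⟨rfl⟩
  haveI := continuousSMul589 j
  haveI hPmax : v.asIdeal.IsMaximal := v.isMaximal
  letI : Field (𝓞 K ⧸ v.asIdeal) := Ideal.Quotient.field v.asIdeal
  letI : Fintype (𝓞 K ⧸ v.asIdeal) := Fintype.ofFinite _
  haveI hlies : Q.LiesOver v.asIdeal := by
    refine ⟨Ideal.ext fun x => ?_⟩
    rw [Ideal.under_def, Ideal.mem_comap]
    exact (hQ x).symm
  haveI : IsDomain (Zb ⧸ Q) := Ideal.Quotient.isDomain Q
  -- the characteristic
  let p := ringChar (𝓞 K ⧸ v.asIdeal)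
  haveI hcharP : CharP (𝓞 K ⧸ v.asIdeal) p := ringChar.charP _
  have hp : p.Prime := CharP.char_is_prime (𝓞 K ⧸ v.asIdeal) p
  haveI : Fact p.Prime := ⟨hp⟩
  obtain ⟨n, -, hn⟩ := FiniteField.card (𝓞 K ⧸ v.asIdeal) p
  have hq : Nat.card (𝓞 K ⧸ v.asIdeal) = p ^ (n : ℕ) := by
    rw [Nat.card_eq_fintype_card, hn]
  have hinjalg : Function.Injective (algebraMap (𝓞 K ⧸ v.asIdeal) (Zb ⧸ Q)) :=
    (algebraMap (𝓞 K ⧸ v.asIdeal) (Zb ⧸ Q)).injective
  haveI hchar : CharP (Zb ⧸ Q) p := charP_of_injective_algebraMap hinjalg p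
  -- the Frobenius as an algebra automorphism
  let f : (Zb ⧸ Q) →ₐ[𝓞 K ⧸ v.asIdeal] (Zb ⧸ Q) :=
    { toRingHom := iterateFrobenius (Zb ⧸ Q) p n
      commutes' := by
        intro y
        show iterateFrobenius (Zb ⧸ Q) p n (algebraMap _ _ y) = algebraMap _ _ y
        rw [iterateFrobenius_def, ← map_pow, ← hn, FiniteField.pow_card] }
  have hinj : Function.Injective f := iterateFrobenius_inj (Zb ⧸ Q) p n
  have hqpos : 0 < p ^ (n : ℕ) := pow_pos hp.pos _
  have hsurj : Function.Surjective f := by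
    intro y
    obtain ⟨b, rfl⟩ := Ideal.Quotient.mk_surjective y
    obtain ⟨c, hc⟩ := IsAlgClosed.exists_pow_nat_eq (b : Qb) hqpos
    have hcint : IsIntegral ℤ c := by
      have hb : IsIntegral ℤ (c ^ (p ^ (n : ℕ))) := hc ▸ b.2
      exact IsIntegral.of_pow hqpos hb
    refine ⟨Ideal.Quotient.mk Q ⟨c, hcint⟩, ?_⟩
    show iterateFrobenius (Zb ⧸ Q) p n (Ideal.Quotient.mk Q ⟨c, hcint⟩) = _
    rw [iterateFrobenius_def, ← map_pow]
    congr 1
    exact Subtype.ext hc
  let e : (Zb ⧸ Q) ≃ₐ[𝓞 K ⧸ v.asIdeal] (Zb ⧸ Q) := AlgEquiv.ofBijective f ⟨hinj, hsurj⟩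
  obtain ⟨σ, hσ⟩ := Ideal.Quotient.stabilizerHom_surjective_of_profinite
    (G := ↥(galOf j)) v.asIdeal Q e
  refine ⟨σ.1, σ.2, fun x => ?_⟩
  have h2 := congrArg (fun t => t (Ideal.Quotient.mk Q x)) hσ
  simp only [Ideal.Quotient.stabilizerHom_apply] at h2
  have h3 : e (Ideal.Quotient.mk Q x) = Ideal.Quotient.mk Q (x ^ Nat.card (𝓞 K ⧸ v.asIdeal)) := by
    show iterateFrobenius (Zb ⧸ Q) p n (Ideal.Quotient.mk Q x) = _
    rw [iterateFrobenius_def, map_pow, hq]
  rw [h3] at h2
  rw [← Ideal.Quotient.eq]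
  exact h2

/-- There is a valuation subring of `ℚ̄` over every finite place of `K`. -/
theorem exists_valuationSubring_under589 (v : HeightOneSpectrum (𝓞 K)) :
    ∃ A : ValuationSubring Qb, UnderPlace j v A := by
  let φ : 𝓞 K →+* Qb := j.comp (algebraMap (𝓞 K) K)
  have hφinj : Function.Injective φ :=
    j.injective.comp (FaithfulSMul.algebraMap_injective (𝓞 K) K)
  let A₀ : Subring Qb := φ.range
  let φ₀ : 𝓞 K →+* A₀ := φ.rangeRestrict
  have hφ₀surj : Function.Surjective φ₀ := φ.rangeRestrict_surjective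
  let I : Ideal A₀ := Ideal.map φ₀ v.asIdeal
  have hI : I ≠ ⊤ := by
    intro h
    have h1 : (1 : A₀) ∈ I := by rw [h]; trivial
    obtain ⟨x, hx, hx1⟩ := (Ideal.mem_map_iff_of_surjective φ₀ hφ₀surj).mp h1
    have h2 : φ x = φ 1 := by
      have := congrArg Subtype.val hx1
      rw [map_one]
      exact this
    have h3 : x = 1 := hφinj h2
    rw [h3] at hx
    exact v.isPrime.ne_top ((Ideal.eq_top_iff_one _).mpr hx)
  obtain ⟨A, hA₀, hAI⟩ := Ideal.image_subset_nonunits_valuationSubring I hI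
  refine ⟨A, fun x => ⟨fun hx => ?_, fun hx => ?_⟩⟩
  · apply hAI
    exact ⟨φ₀ x, Ideal.mem_map_of_mem φ₀ hx, rfl⟩
  · by_contra hxv
    obtain ⟨y, m, hm, hym⟩ := v.isMaximal.exists_inv hxv
    have h1 : A.valuation (φ x) < 1 := (ValuationSubring.mem_nonunits_iff _).mp hx
    have h2 : A.valuation (φ m) < 1 :=
      (ValuationSubring.mem_nonunits_iff _).mp (hAI ⟨φ₀ m, Ideal.mem_map_of_mem φ₀ hm, rfl⟩)
    have h3 : A.valuation (φ y) ≤ 1 := (A.valuation_le_one_iff _).mpr (hA₀ ⟨y, rfl⟩)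
    have h4 : φ y * φ x + φ m = 1 := by
      rw [← map_mul, ← map_add, hym, map_one]
    have h5 : A.valuation (φ y * φ x + φ m) < 1 := by
      refine lt_of_le_of_lt (Valuation.map_add _ _ _) (max_lt ?_ h2)
      rw [map_mul]
      calc A.valuation (φ y) * A.valuation (φ x) ≤ 1 * A.valuation (φ x) :=
            mul_le_mul_left (a := A.valuation (φ x)) h3
        _ = A.valuation (φ x) := one_mul _
        _ < 1 := h1
    rw [h4, map_one] at h5
    exact lt_irrefl _ h5

/-- **Existence of Frobenius elements** of `G_K` at every finite place of `K`. -/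
theorem frobExists589 : FrobExists589 := by
  intro K _ _ j v
  classical
  haveI : Algebra.IsAlgebraic ℚ Qb := AlgebraicClosure.isAlgebraic ℚ
  obtain ⟨A, hA⟩ := exists_valuationSubring_under589 j v
  haveI := Fermat.Agent.S54.primeBelow_isPrime A
  have hQ : ∀ x : 𝓞 K, intHom589 j x ∈ Fermat.Agent.S54.primeBelow A ↔ x ∈ v.asIdeal := by
    intro x
    rw [Fermat.Agent.S54.mem_primeBelow, intHom589_coe]
    exact (hA x).symm
  obtain ⟨σ, hσQ', hσF⟩ := exists_frob_int589 j v (Fermat.Agent.S54.primeBelow A) hQ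
  -- the rational prime below
  haveI hPmax : v.asIdeal.IsMaximal := v.isMaximal
  letI : Field (𝓞 K ⧸ v.asIdeal) := Ideal.Quotient.field v.asIdeal
  let ℓ := ringChar (𝓞 K ⧸ v.asIdeal)
  haveI hcharP : CharP (𝓞 K ⧸ v.asIdeal) ℓ := ringChar.charP _
  have hℓ : ℓ.Prime := CharP.char_is_prime (𝓞 K ⧸ v.asIdeal) ℓ
  have hAℓ : A.LiesOverPrime ℓ := by
    have h1 : ((ℓ : ℕ) : 𝓞 K) ∈ v.asIdeal := by
      rw [← Ideal.Quotient.eq_zero_iff_mem, map_natCast]
      exact CharP.cast_eq_zero _ ℓ
    have h2 := (hA _).mp h1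
    rw [map_natCast, map_natCast] at h2
    exact h2
  set q := Nat.card (𝓞 K ⧸ v.asIdeal) with hq
  have hσQ : ∀ x, (σ : GQ) • x ∈ Fermat.Agent.S54.primeBelow A ↔
      x ∈ Fermat.Agent.S54.primeBelow A := by
    intro x
    have h1 : (σ : GQ) • Fermat.Agent.S54.primeBelow A = Fermat.Agent.S54.primeBelow A := hσQ'
    conv_lhs => rw [← h1]
    exact Ideal.smul_mem_pointwise_smul_iff
  have key : ∀ τ : GQ,
      (∀ x, τ • x ∈ Fermat.Agent.S54.primeBelow A ↔ x ∈ Fermat.Agent.S54.primeBelow A) →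
      ∀ x ∈ A, τ x ∈ A := by
    intro τ hτ x hx
    obtain ⟨b, s, hb, hs, hsA, hxs⟩ :=
      (Fermat.Agent.S54.mem_valuationSubring_iff A ℓ hℓ hAℓ x).mp hx
    refine (Fermat.Agent.S54.mem_valuationSubring_iff A ℓ hℓ hAℓ (τ x)).mpr
      ⟨τ b, τ s, hb.map τ, hs.map τ, ?_, ?_⟩
    · exact (hτ ⟨s, hs⟩).not.mpr hsA
    · rw [← map_mul, hxs]
  have hσA : (σ : GQ) ∈ A.decompositionSubgroup ℚ := by
    rw [MulAction.mem_stabilizer_iff]
    ext x
    rw [ValuationSubring.mem_smul_pointwise_iff_exists]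
    constructor
    · rintro ⟨s, hs, rfl⟩
      exact key σ hσQ s hs
    · intro hx
      refine ⟨(σ : GQ)⁻¹ • x, key (σ : GQ)⁻¹ ?_ x hx, by simp⟩
      intro y
      rw [← hσQ ((σ : GQ)⁻¹ • y)]
      simp
  refine ⟨(σ : GQ), σ.2, A, hA, hσA, ?_⟩
  intro x
  obtain ⟨a, rfl⟩ := IsLocalRing.residue_surjective x
  obtain ⟨b, s, hb, hs, hsA, hxs⟩ :=
    (Fermat.Agent.S54.mem_valuationSubring_iff A ℓ hℓ hAℓ a).mp a.2
  have hbA : b ∈ A := Fermat.Agent.S54.isIntegral_mem_valuationSubring A hb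
  have hsA' : s ∈ A := Fermat.Agent.S54.isIntegral_mem_valuationSubring A hs
  have hint : ∀ (y : Qb) (hy : IsIntegral ℤ y),
      (⟨σ, hσA⟩ : A.decompositionSubgroup ℚ) •
        IsLocalRing.residue A ⟨y, Fermat.Agent.S54.isIntegral_mem_valuationSubring A hy⟩ =
      (IsLocalRing.residue A ⟨y, Fermat.Agent.S54.isIntegral_mem_valuationSubring A hy⟩) ^ q := by
    intro y hy
    rw [← IsLocalRing.ResidueField.residue_smul, ← map_pow, ← sub_eq_zero, ← map_sub,
      IsLocalRing.residue_eq_zero_iff, ← ValuationSubring.coe_mem_nonunits_iff]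
    exact hσF ⟨y, hy⟩
  have h1 : IsLocalRing.residue A a * IsLocalRing.residue A ⟨s, hsA'⟩ =
      IsLocalRing.residue A ⟨b, hbA⟩ := by
    rw [← map_mul]
    congr 1
    exact Subtype.ext hxs
  have h2 : IsLocalRing.residue A ⟨s, hsA'⟩ ≠ 0 := by
    rw [Ne, IsLocalRing.residue_eq_zero_iff, ← ValuationSubring.coe_mem_nonunits_iff]
    exact hsA
  have h3 := congrArg (fun z => (⟨σ, hσA⟩ : A.decompositionSubgroup ℚ) • z) h1
  simp only [smul_mul'] at h3
  rw [hint s hs, hint b hb, ← h1, mul_pow] at h3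
  exact mul_right_cancel₀ (pow_ne_zero _ h2) h3

end Fermat.Agent.LT.H589
end

end
-- ===== PACK-END LT/CFT/H589/FrobK.lean

-- ===== PACK-BEGIN LT/CFT/H589/ChebK.lean
section




/-!
# Row LT, tower CFT, sub-tower EX, leaf CFT.17 `ChebKC` (helper589)

OFF-MAIN.  `chebKC589 : CFT.ChebKC`: CHEBOTAREV for `G_K = galOf j`, with primes of DEGREE ONE.

For a number field `K` with an embedding `j : K → ℚ̄`, a finite extension `M ⊆ ℚ̄` of `ℚ`,
`σ ∈ G_K` and a finite set `S` of places of `K` there are a place `w ∉ S` of PRIME absolute norm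
and a Frobenius element `φ` of `G_K` at `w` (`CFT.IsFrobAt j w φ`) with `φ = σ` on `M`.

Proof.  Main `Lib.Cheb.chebotarev` (qualitative Chebotarev over `ℚ`, Prelude level) for the finite
extension `E = M ⊔ j(K)`, `σ`, and the set of the residue characteristics of `S`: a prime `ℓ`, a
valuation subring `A` of `ℚ̄` over `ℓ` and a Frobenius `τ` at `A` with `τ = σ` on `E`.  Then `τ`
fixes `j(K)`, the place `w = 𝔪_A ∩ 𝓞 K` contains `ℓ`, and every `x ∈ 𝓞 K` satisfies
`x ^ ℓ ≡ x mod w` (`τ` fixes `j x` and acts by `y ↦ y ^ ℓ` on the residue field of `A`), so the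
residue field of `w` has at most `ℓ` elements: `N w = ℓ`.
-/

set_option autoImplicit false
set_option linter.unusedSectionVars false
set_option linter.style.haveILetI false
open IsDedekindDomain NumberField
open Fermat.Agent.LT.CFT

noncomputable section

namespace Fermat.Agent.LT.H589

local notation "Qb" => AlgebraicClosure ℚ
local notation "GQ" => (AlgebraicClosure ℚ ≃ₐ[ℚ] AlgebraicClosure ℚ)
local notation "Zb" => integralClosure ℤ (AlgebraicClosure ℚ)

variable {K : Type} [Field K] [NumberField K] (j : K →+* Qb)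

/-- The prime of `𝓞 K` under the valuation subring `A` of `ℚ̄`. -/
def underIdeal589 (A : ValuationSubring Qb) : Ideal (𝓞 K) :=
  Ideal.comap (intHom589 j) (Fermat.Agent.S54.primeBelow A)

theorem mem_underIdeal589 (A : ValuationSubring Qb) (x : 𝓞 K) :
    x ∈ underIdeal589 j A ↔ j (algebraMap (𝓞 K) K x) ∈ A.nonunits := Iff.rfl

theorem underIdeal589_isPrime (A : ValuationSubring Qb) : (underIdeal589 j A).IsPrime := by
  haveI := Fermat.Agent.S54.primeBelow_isPrime A
  exact Ideal.comap_isPrime _ _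

theorem natCast_mem_underIdeal589 (A : ValuationSubring Qb) (ℓ : ℕ) (hA : A.LiesOverPrime ℓ) :
    ((ℓ : ℕ) : 𝓞 K) ∈ underIdeal589 j A := by
  rw [mem_underIdeal589, map_natCast, map_natCast]
  exact hA

theorem underIdeal589_ne_bot (A : ValuationSubring Qb) (ℓ : ℕ) (hℓ : ℓ.Prime)
    (hA : A.LiesOverPrime ℓ) : underIdeal589 j A ≠ ⊥ := by
  intro h
  have h1 := natCast_mem_underIdeal589 j A ℓ hA
  rw [h, Ideal.mem_bot] at h1
  have h2 : (ℓ : ℕ) = 0 := by exact_mod_cast h1
  exact hℓ.ne_zero h2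

/-- The place of `K` under a valuation subring of `ℚ̄` over a prime number. -/
def underPlace589 (A : ValuationSubring Qb) (ℓ : ℕ) (hℓ : ℓ.Prime) (hA : A.LiesOverPrime ℓ) :
    HeightOneSpectrum (𝓞 K) :=
  ⟨underIdeal589 j A, underIdeal589_isPrime j A, underIdeal589_ne_bot j A ℓ hℓ hA⟩

theorem underPlace589_under (A : ValuationSubring Qb) (ℓ : ℕ) (hℓ : ℓ.Prime)
    (hA : A.LiesOverPrime ℓ) : UnderPlace j (underPlace589 j A ℓ hℓ hA) A :=
  fun x => mem_underIdeal589 j A x

/-- A Frobenius element at `A` (for the prime number `ℓ`) which fixes `j(K)` forces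
`x ^ ℓ ≡ x` modulo the place of `K` under `A`. -/
theorem pow_sub_mem_underIdeal589 (A : ValuationSubring Qb) (ℓ : ℕ) (τ : GQ)
    (hτK : τ ∈ galOf j) (hτ : A.IsFrobeniusAt τ ℓ) (x : 𝓞 K) :
    x ^ ℓ - x ∈ underIdeal589 j A := by
  obtain ⟨hdec, hfr⟩ := hτ
  have hxA : j (algebraMap (𝓞 K) K x) ∈ A :=
    Fermat.Agent.S54.isIntegral_mem_valuationSubring A
      (map_isIntegral_int j (RingOfIntegers.isIntegral_coe x))
  set a : A := ⟨j (algebraMap (𝓞 K) K x), hxA⟩ with ha
  have h1 := hfr (IsLocalRing.residue A a)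
  have h2 : (⟨τ, hdec⟩ : A.decompositionSubgroup ℚ) • a = a := by
    apply Subtype.ext
    show τ (j (algebraMap (𝓞 K) K x)) = j (algebraMap (𝓞 K) K x)
    exact hτK _
  rw [← IsLocalRing.ResidueField.residue_smul, h2, ← map_pow] at h1
  have h3 : IsLocalRing.residue A (a ^ ℓ - a) = 0 := by
    rw [map_sub, ← h1, sub_self]
  rw [IsLocalRing.residue_eq_zero_iff, ← ValuationSubring.coe_mem_nonunits_iff] at h3
  rw [mem_underIdeal589, map_sub, map_sub, map_pow, map_pow]
  exact h3

/-- A finite field of characteristic `ℓ` in which `y ^ ℓ = y` for all `y` has `ℓ` elements. -/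
theorem card_eq_of_pow_eq589 (F : Type) [Field F] [Finite F] (ℓ : ℕ) (hℓ : ℓ.Prime)
    (h0 : ((ℓ : ℕ) : F) = 0) (hpow : ∀ y : F, y ^ ℓ = y) : Nat.card F = ℓ := by
  classical
  letI : Fintype F := Fintype.ofFinite F
  haveI : Fact ℓ.Prime := ⟨hℓ⟩
  haveI : CharP F ℓ := by
    have hchar := CharP.char_is_prime F (ringChar F)
    have hdvd : ringChar F ∣ ℓ := ringChar.dvd h0
    have heq : ringChar F = ℓ := (Nat.prime_dvd_prime_iff_eq hchar hℓ).mp hdvd
    rw [← heq]
    exact ringChar.charP F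
  obtain ⟨n, -, hn⟩ := FiniteField.card F ℓ
  have hle : Fintype.card F ≤ ℓ := by
    have hne : (Polynomial.X ^ ℓ - Polynomial.X : Polynomial F) ≠ 0 :=
      FiniteField.X_pow_card_sub_X_ne_zero F hℓ.one_lt
    have hsub : (Finset.univ : Finset F).val ⊆
        (Polynomial.X ^ ℓ - Polynomial.X : Polynomial F).roots := by
      intro y _
      rw [Polynomial.mem_roots hne, Polynomial.IsRoot, Polynomial.eval_sub,
        Polynomial.eval_pow, Polynomial.eval_X, hpow y, sub_self]
    have h1 := Polynomial.card_le_degree_of_subset_roots hsub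
    rw [FiniteField.X_pow_card_sub_X_natDegree_eq F hℓ.one_lt] at h1
    exact h1
  have hge : ℓ ≤ Fintype.card F := by
    rw [hn]
    calc ℓ = ℓ ^ 1 := (pow_one ℓ).symm
      _ ≤ ℓ ^ (n : ℕ) := Nat.pow_le_pow_right hℓ.pos n.pos
  rw [Nat.card_eq_fintype_card]
  exact le_antisymm hle hge

/-- The place of `K` under `A` has `ℓ` elements in its residue field, when a Frobenius element
at `A` fixes `j(K)`. -/
theorem card_quot_underPlace589 (A : ValuationSubring Qb) (ℓ : ℕ) (hℓ : ℓ.Prime)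
    (hA : A.LiesOverPrime ℓ) (τ : GQ) (hτK : τ ∈ galOf j) (hτ : A.IsFrobeniusAt τ ℓ) :
    Nat.card (𝓞 K ⧸ (underPlace589 j A ℓ hℓ hA).asIdeal) = ℓ := by
  set w := underPlace589 j A ℓ hℓ hA with hw
  haveI hmax : w.asIdeal.IsMaximal := w.isMaximal
  letI : Field (𝓞 K ⧸ w.asIdeal) := Ideal.Quotient.field w.asIdeal
  haveI : Finite (𝓞 K ⧸ w.asIdeal) := Ideal.finiteQuotientOfFreeOfNeBot w.asIdeal w.ne_bot
  refine card_eq_of_pow_eq589 (𝓞 K ⧸ w.asIdeal) ℓ hℓ ?_ ?_
  · have h1 : ((ℓ : ℕ) : 𝓞 K) ∈ w.asIdeal := natCast_mem_underIdeal589 j A ℓ hA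
    rw [← map_natCast (Ideal.Quotient.mk w.asIdeal)]
    exact Ideal.Quotient.eq_zero_iff_mem.mpr h1
  · intro y
    obtain ⟨x, rfl⟩ := Ideal.Quotient.mk_surjective y
    rw [← map_pow, Ideal.Quotient.eq]
    exact pow_sub_mem_underIdeal589 j A ℓ τ hτK hτ x

/-- **Leaf CFT.17 `ChebKC`**: Chebotarev for `G_K`, primes of degree one. -/
theorem chebKC589 : ChebKC := by
  classical
  intro K _ _ j M hM σ hσ S
  haveI : FiniteDimensional ℚ M := hM
  have hE : FiniteDimensional ℚ (M ⊔ imField589 j : IntermediateField ℚ Qb) :=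
    IntermediateField.finiteDimensional_sup M (imField589 j)
  obtain ⟨ℓ, A, τ, hℓ, hℓS, hA, hτ, -, hτσ⟩ :=
    Fermat.Agent.Lib.Cheb.chebotarev (M ⊔ imField589 j) hE σ
      (S.biUnion fun v => (Ideal.absNorm v.asIdeal).primeFactors)
  have hτK : τ ∈ galOf j := by
    intro x
    have hx : j x ∈ (M ⊔ imField589 j : IntermediateField ℚ Qb) :=
      (le_sup_right : imField589 j ≤ M ⊔ imField589 j) ((mem_imField589 j _).mpr ⟨x, rfl⟩)
    rw [hτσ _ hx]
    exact hσ x
  set w := underPlace589 j A ℓ hℓ hA with hw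
  have hcard : Nat.card (𝓞 K ⧸ w.asIdeal) = ℓ := card_quot_underPlace589 j A ℓ hℓ hA τ hτK hτ
  have hnorm : Ideal.absNorm w.asIdeal = ℓ := by
    rw [Ideal.absNorm_apply, Submodule.cardQuot_apply]
    exact hcard
  refine ⟨w, τ, ?_, ?_, ⟨hτK, A, underPlace589_under j A ℓ hℓ hA, ?_⟩, ?_⟩
  · intro hwS
    apply hℓS
    rw [Finset.mem_biUnion]
    refine ⟨w, hwS, ?_⟩
    rw [hnorm, Nat.mem_primeFactors]
    exact ⟨hℓ, dvd_rfl, hℓ.ne_zero⟩
  · rw [hnorm]
    exact hℓ
  · rw [hcard]
    exact hτ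
  · intro x hx
    exact hτσ x ((le_sup_left : M ≤ M ⊔ imField589 j) hx)

end Fermat.Agent.LT.H589

end

end
-- ===== PACK-END LT/CFT/H589/ChebK.lean

-- ===== PACK-BEGIN LT/CFT/H309/ChebK.lean
section





/-!
# Row LT, tower CFT, leaf CFT.17 `ChebKC` (helper309)

OFF-MAIN.  `chebKC309 : Fermat.Agent.LT.CFT.ChebKC`, VERBATIM the Prop of `CFT/SpecX.lean`
(helper53@6e61a1864, sha256 `4700ce4c…`), unconditional.

Route: main `Lib.Cheb.chebotarev` (qualitative Chebotarev over `ℚ̄`, any finite `E ⊆ ℚ̄`) for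
`E = M ⊔ j(K)`: a prime `ℓ` outside the norms of `S`, a valuation subring `A` of `ℚ̄` over `ℓ`, a
Prelude Frobenius element `τ` at `A` with `τ = σ` on `E`.  So `τ` fixes `j(K)`; `w = A ∩ 𝓞 K` is a
nonzero prime; `x ^ ℓ ≡ τ x = x mod w` on `𝓞 K`, so the finite field `𝓞 K / w` of characteristic
`ℓ` has at most `ℓ` elements: `N w = ℓ`.
-/

set_option autoImplicit false

open IsDedekindDomain NumberField

noncomputable section

namespace Fermat.Agent.LT.CFT.H309

open Fermat.Agent.LT.CFT

local notation "Qb" => AlgebraicClosure ℚ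
local notation "GQ" => (AlgebraicClosure ℚ ≃ₐ[ℚ] AlgebraicClosure ℚ)

/-- The image of an algebraic integer of `K` in `ℚ̄` is integral. -/
theorem isIntegral_emb309 {K : Type} [Field K] [NumberField K] (j : K →+* Qb) (x : 𝓞 K) :
    IsIntegral ℤ (j (algebraMap (𝓞 K) K x)) :=
  map_isIntegral_int j (NumberField.RingOfIntegers.isIntegral_coe x)

/-- The image of an algebraic integer of `K` lies in every valuation subring of `ℚ̄`. -/
theorem emb_mem309 {K : Type} [Field K] [NumberField K] (j : K →+* Qb)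
    (A : ValuationSubring Qb) (x : 𝓞 K) : j (algebraMap (𝓞 K) K x) ∈ A :=
  Fermat.Agent.S54.isIntegral_mem_valuationSubring A (isIntegral_emb309 j x)

/-- The ring homomorphism `𝓞 K → A`. -/
def toVal309 {K : Type} [Field K] [NumberField K] (j : K →+* Qb) (A : ValuationSubring Qb) :
    𝓞 K →+* A :=
  (j.comp (algebraMap (𝓞 K) K)).codRestrict A (fun x => emb_mem309 j A x)

theorem coe_toVal309 {K : Type} [Field K] [NumberField K] (j : K →+* Qb)
    (A : ValuationSubring Qb) (x : 𝓞 K) :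
    ((toVal309 j A x : A) : Qb) = j (algebraMap (𝓞 K) K x) := rfl

/-- The prime of `𝓞 K` under `A`. -/
def under309 {K : Type} [Field K] [NumberField K] (j : K →+* Qb) (A : ValuationSubring Qb) :
    Ideal (𝓞 K) :=
  Ideal.comap (toVal309 j A) (IsLocalRing.maximalIdeal A)

theorem mem_under309 {K : Type} [Field K] [NumberField K] (j : K →+* Qb)
    (A : ValuationSubring Qb) (x : 𝓞 K) :
    x ∈ under309 j A ↔ j (algebraMap (𝓞 K) K x) ∈ A.nonunits := by
  rw [under309, Ideal.mem_comap, ← ValuationSubring.coe_mem_nonunits_iff, coe_toVal309]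

instance under_isPrime309 {K : Type} [Field K] [NumberField K] (j : K →+* Qb)
    (A : ValuationSubring Qb) : (under309 j A).IsPrime :=
  Ideal.comap_isPrime _ _

theorem natCast_mem_under309 {K : Type} [Field K] [NumberField K] (j : K →+* Qb)
    (A : ValuationSubring Qb) (ℓ : ℕ) (hA : A.LiesOverPrime ℓ) : (ℓ : 𝓞 K) ∈ under309 j A := by
  rw [mem_under309, map_natCast, map_natCast]
  exact hA

theorem under_ne_bot309 {K : Type} [Field K] [NumberField K] (j : K →+* Qb)
    (A : ValuationSubring Qb) (ℓ : ℕ) (hℓ : ℓ.Prime) (hA : A.LiesOverPrime ℓ) :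
    under309 j A ≠ ⊥ := by
  intro h
  have h1 := natCast_mem_under309 j A ℓ hA
  rw [h, Ideal.mem_bot] at h1
  have h2 : (ℓ : 𝓞 K) ≠ 0 := Nat.cast_ne_zero.mpr hℓ.ne_zero
  exact h2 h1

/-- If a Frobenius element at `A` over `ℓ` fixes `j(K)`, then `x ^ ℓ ≡ x` modulo the prime of
`𝓞 K` under `A`. -/
theorem pow_sub_mem_under309 {K : Type} [Field K] [NumberField K] (j : K →+* Qb)
    (A : ValuationSubring Qb) (ℓ : ℕ) (τ : GQ) (hτ : A.IsFrobeniusAt τ ℓ)
    (hfix : ∀ x : K, τ (j x) = j x) (x : 𝓞 K) : x ^ ℓ - x ∈ under309 j A := by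
  have h1 := Fermat.Agent.Lib.Cheb.H643.IsFrobeniusAt_sub_pow_mem hτ (emb_mem309 j A x)
  rw [hfix] at h1
  rw [mem_under309, map_sub, map_sub, map_pow, map_pow]
  rw [ValuationSubring.mem_nonunits_iff] at h1 ⊢
  rw [Valuation.map_sub_swap]
  exact h1

/-- A finite field of characteristic `ℓ` all of whose elements satisfy `y ^ ℓ = y` has `ℓ`
elements. -/
theorem card_eq_of_pow_eq309 (F : Type*) [Field F] [Finite F] (ℓ : ℕ) (hℓ : ℓ.Prime)
    (h0 : (ℓ : F) = 0) (hpow : ∀ y : F, y ^ ℓ = y) : Nat.card F = ℓ := by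
  classical
  have : Fintype F := Fintype.ofFinite F
  have hp : (Polynomial.X ^ ℓ - Polynomial.X : Polynomial F) ≠ 0 :=
    FiniteField.X_pow_card_sub_X_ne_zero F hℓ.one_lt
  have hdeg : (Polynomial.X ^ ℓ - Polynomial.X : Polynomial F).natDegree = ℓ :=
    FiniteField.X_pow_card_sub_X_natDegree_eq F hℓ.one_lt
  have hroots : ∀ y : F, y ∈ (Polynomial.X ^ ℓ - Polynomial.X : Polynomial F).roots := by
    intro y
    rw [Polynomial.mem_roots hp, Polynomial.IsRoot.def, Polynomial.eval_sub,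
      Polynomial.eval_pow, Polynomial.eval_X, hpow y, sub_self]
  have hle : Nat.card F ≤ ℓ := by
    rw [Nat.card_eq_fintype_card]
    calc Fintype.card F = (Finset.univ : Finset F).card := rfl
      _ ≤ (Polynomial.X ^ ℓ - Polynomial.X : Polynomial F).roots.toFinset.card :=
          Finset.card_le_card (fun y _ => Multiset.mem_toFinset.mpr (hroots y))
      _ ≤ Multiset.card (Polynomial.X ^ ℓ - Polynomial.X : Polynomial F).roots :=
          Multiset.toFinset_card_le _
      _ ≤ (Polynomial.X ^ ℓ - Polynomial.X : Polynomial F).natDegree :=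
          Polynomial.card_roots' _
      _ = ℓ := hdeg
  have hord : addOrderOf (1 : F) = ℓ := by
    have : Fact ℓ.Prime := ⟨hℓ⟩
    apply addOrderOf_eq_prime
    · rw [nsmul_eq_mul, mul_one]; exact h0
    · exact one_ne_zero
  have hdvd : ℓ ∣ Nat.card F := by
    rw [← hord]
    exact addOrderOf_dvd_natCard 1
  exact le_antisymm hle (Nat.le_of_dvd Nat.card_pos hdvd)

/-- **Leaf CFT.17 `ChebKC`**, verbatim. -/
theorem chebKC309 : ChebKC := by
  classical
  intro K _ _ j M hM σ hσ S
  have : FiniteDimensional ℚ M := hM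
  -- the field `j(K)`
  let jA : K →ₐ[ℚ] Qb := j.toRatAlgHom
  have hjA : ∀ x : K, jA x = j x := fun _ => rfl
  have : FiniteDimensional ℚ jA.fieldRange :=
    LinearEquiv.finiteDimensional (AlgEquiv.ofInjectiveField jA).toLinearEquiv
  have hE : FiniteDimensional ℚ (M ⊔ jA.fieldRange : IntermediateField ℚ Qb) :=
    IntermediateField.finiteDimensional_sup M jA.fieldRange
  obtain ⟨ℓ, A, τ, hℓ, hℓS, hA, hτ, -, hτσ⟩ :=
    Fermat.Agent.Lib.Cheb.chebotarev (M ⊔ jA.fieldRange) hE σ
      (S.image (fun v : HeightOneSpectrum (𝓞 K) => Ideal.absNorm v.asIdeal))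
  have hfix : ∀ x : K, τ (j x) = j x := by
    intro x
    have hx : j x ∈ (M ⊔ jA.fieldRange : IntermediateField ℚ Qb) :=
      (le_sup_right : jA.fieldRange ≤ M ⊔ jA.fieldRange) ⟨x, hjA x⟩
    rw [hτσ (j x) hx]
    exact hσ x
  have hne := under_ne_bot309 j A ℓ hℓ hA
  let w : HeightOneSpectrum (𝓞 K) := ⟨under309 j A, under_isPrime309 j A, hne⟩
  have hmax : (under309 j A).IsMaximal := w.isMaximal
  let : Field (𝓞 K ⧸ under309 j A) := Ideal.Quotient.field (under309 j A)
  have : Finite (𝓞 K ⧸ under309 j A) := Ideal.finiteQuotientOfFreeOfNeBot _ hne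
  have hcard : Nat.card (𝓞 K ⧸ under309 j A) = ℓ := by
    apply card_eq_of_pow_eq309 _ ℓ hℓ
    · have h1 := natCast_mem_under309 j A ℓ hA
      rw [← Ideal.Quotient.eq_zero_iff_mem] at h1
      rw [← h1, map_natCast]
    · intro y
      obtain ⟨x, rfl⟩ := Ideal.Quotient.mk_surjective y
      have h1 := pow_sub_mem_under309 j A ℓ τ hτ hfix x
      rw [← Ideal.Quotient.eq_zero_iff_mem, map_sub, map_pow, sub_eq_zero] at h1
      exact h1
  have hnorm : Ideal.absNorm w.asIdeal = ℓ := by
    rw [Ideal.absNorm_apply, Submodule.cardQuot_apply]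
    exact hcard
  refine ⟨w, τ, ?_, ?_, ⟨hfix, A, ?_, ?_⟩, ?_⟩
  · intro hw
    apply hℓS
    rw [Finset.mem_image]
    exact ⟨w, hw, hnorm⟩
  · rw [hnorm]; exact hℓ
  · intro x
    exact mem_under309 j A x
  · have : Nat.card (𝓞 K ⧸ w.asIdeal) = ℓ := hcard
    rw [this]
    exact hτ
  · intro x hx
    exact hτσ x ((le_sup_left : M ≤ M ⊔ jA.fieldRange) hx)

end Fermat.Agent.LT.CFT.H309

end

end
-- ===== PACK-END LT/CFT/H309/ChebK.lean

-- ===== PACK-BEGIN LT/CFT/TopX.lean
section



/-!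
# Row LT, tower CFT (architect helper53), OFF-MAIN: sub-tower EX, the RUNNING TOP

`oddRayCheb_open : ExistOddC → OddRayChebC` — the ONLY open leaf is CFT.16 `ExistOddC`
(existence at `2`, sub-architect helper681).  CFT.17 `ChebKC` is closed (helper309; second and
third proofs: helper589, helper618).  Consumer: `T7.SeedEKC`, `T7.MidEKC` through
`LT/T7/H96/EKCheb.lean` (helper96).
-/

set_option autoImplicit false

namespace Fermat.Agent.LT.CFT

/-- **Sub-tower EX, running top.**  Open: `ExistOddC` only. -/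
theorem oddRayCheb_open (hex : ExistOddC) : OddRayChebC :=
  oddRayCheb_of_leaves hex H309.chebKC309

end Fermat.Agent.LT.CFT

end
-- ===== PACK-END LT/CFT/TopX.lean

-- ===== PACK-BEGIN LT/T7/H298/MatchQClosed.lean
section























/-!
# Row LT, tower T7, node T7.L2Q.1.H1 (registry rows 2464 / 2605, owner helper298):
# THE MATCHING THEOREM OVER `ℚ` -- INTEGRATION v2 (for the nodes of v2)

OFF-MAIN.  Complete proofs, nothing assumed.  ADDITIVE.

CLOSED leaves (vendored byte-identical, ONE closure with the two cuts):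

* cubic leaves reused verbatim: `UnfoldC305` helper627, `TorCommC305` helper233, `TwistRepC305`
  helper655, `EllRegC305` helper277, `TorHaarC305` helper149, `GoodSetC305` helper532,
  `PureExtC305` helper82, `LocMeasC305` helper729, `LocCutC305` helper543, `LocVanC305`
  helper385 (the closure of `T7/H305/MatchClosed.lean`, helper305@320b34edb);
* first cut over `ℚ`: `IotaQC298` helper139, `UnfoldGC298` helper115, `TorMeasQC298` helper776,
  `TorCompQC298` helper379;
* second cut over `ℚ`: `ArchMeasRC298` helper729, `ArchVanQC298` helper409, `NonNormLocQC298`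
  helper984, `TorSplitQC298` helper925, `UnitMatchQC298b` helper767.

OPEN: `T6.T6Out` (closed by the tower T6, supplied by the master) and the TWO NODES
`FactDownQC298` (helper751, cut, all leaves closed) and `FactUpQC298b` (helper514 / helper1,
cut).

    cutIntQC_of_open298   : HasSqrtNegThree F → OpenMatchQ298 F → CutIntQC298b F
    globMatchQC_of_open298 : HasSqrtNegThree F → OpenMatchQ298 F → GlobMatchQC298b F
    globMatchQC_of_nodes298 : HasSqrtNegThree F → T6.T6Out → FactDownQC298 → FactUpQC298b F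
                                → GlobMatchQC298b F
-/

set_option autoImplicit false

open AutomorphicForm IsDedekindDomain NumberField MeasureTheory
open scoped ComplexConjugate

noncomputable section

namespace Fermat.Agent.LT.T7.MQ298

open Fermat.Agent.LT.H556 Fermat.Agent.LT.H556.A0 Fermat.Agent.LT.T7 Fermat.Agent.LT.T7.H305

attribute [local instance] Fermat.Agent.LT.T5.instMeasurableSpaceG

variable (F : Type) [Field F] [NumberField F]

/-- **THE OPEN WALL of the matching theorem over `ℚ`** (integration v1). -/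
structure OpenMatchQ298 : Prop where
  t6 : T6.T6Out
  unit : UnitMatchQC298b F
  nonNorm : NonNormLocQC298 F
  torSplit : TorSplitQC298
  factDown : FactDownQC298
  factUp : FactUpQC298b F

variable {F}

/-- The core node over `ℚ` from the open wall. -/
theorem cutIntQC_of_open298 (h3 : HasSqrtNegThree F) (h : OpenMatchQ298 F) : CutIntQC298b F :=
  cutIntQC_of298b h3 h.t6 (H532.goodSetC532 ℚ F) h.unit (H82.pureExtC82 ℚ) (H82.pureExtC82 F)
    LocMeas729.locMeasC729 H543C.locCutC543 ArchMeasR729.archMeasRC729 h.torSplit h.factDown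
    h.factUp H385.locVanC385 H409.archVanQC409 h.nonNorm

/-- **GLOBAL MATCHING FROM LOCAL MATCHING over `ℚ`, from the open wall.** -/
theorem globMatchQC_of_open298 (h3 : HasSqrtNegThree F) (h : OpenMatchQ298 F) :
    GlobMatchQC298b F :=
  globMatchQ_of298b (H139.iotaQC139 F) (H115.unfoldGC115 ℚ) (H627.unfoldC627 F)
    (H233.torCommC233 ℚ) (H233.torCommC233 F) (H655.twistRepC655 F) (H277.ellRegC277 ℚ F)
    (H149.torHaarC149 ℚ) (H776Q.torMeasQC776 F) (H379.torCompQC379 F)
    (cutIntQC_of_open298 h3 h)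

/-- **GLOBAL MATCHING FROM LOCAL MATCHING over `ℚ`, from the TWO NODES** (integration v2). -/
theorem globMatchQC_of_nodes298 (h3 : HasSqrtNegThree F) (hT6 : T6.T6Out)
    (hdown : FactDownQC298) (hup : FactUpQC298b F) : GlobMatchQC298b F :=
  globMatchQC_of_open298 h3
    ⟨hT6, H767.unitMatchQC767b F, H984.nonNormLocQC984 F, H925.TorSplit.torSplitQC925, hdown,
      hup⟩

end Fermat.Agent.LT.T7.MQ298

end

end
-- ===== PACK-END LT/T7/H298/MatchQClosed.lean

-- ===== PACK-BEGIN LT/T7/H298/MatchQWall.lean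
section




/-!
# Row LT, tower T7, node T7.L2Q.1.H1 (registry rows 2464 / 2605, owner helper298):
# THE MATCHING THEOREM OVER `ℚ` -- INTEGRATION v3: ONE OPEN NODE

OFF-MAIN.  Complete proofs, nothing assumed.  ADDITIVE.

`FactDownQC298` is CLOSED (`factDownQC_closed298`, cut and tops of helper751, fourteen leaves).
OPEN: `T6.T6Out` (closed by the tower T6, supplied by the master) and the ONE NODE
`FactUpQC298b F` (helper514, cut; node `UpFactQC514` helper1).

    globMatchQC_of_factUp298 : HasSqrtNegThree F → T6.T6Out → FactUpQC298b F → GlobMatchQC298b F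
    exists_const_of_factUp298 : … → ∃ κ ≠ 0, IsMatchConstQ298b F (B.comp 𝔫) μr μc T₀ n m κ
-/

set_option autoImplicit false

open AutomorphicForm IsDedekindDomain NumberField MeasureTheory
open scoped ComplexConjugate

noncomputable section

namespace Fermat.Agent.LT.T7.MQ298

open Fermat.Agent.LT.H556 Fermat.Agent.LT.H556.A0 Fermat.Agent.LT.T7 Fermat.Agent.LT.T7.H305
  Fermat.Agent.LT.T7.L2Q Fermat.Agent.LT.T7.H893 Fermat.Agent.LT.T7.H962

attribute [local instance] Fermat.Agent.LT.T5.instMeasurableSpaceG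

variable {F : Type} [Field F] [NumberField F]

/-- **THE MATCHING THEOREM OVER `ℚ` (v2 form) FROM THE ONE OPEN NODE.** -/
theorem globMatchQC_of_factUp298 (h3 : HasSqrtNegThree F) (hT6 : T6.T6Out)
    (hup : FactUpQC298b F) : GlobMatchQC298b F :=
  globMatchQC_of_nodes298 h3 hT6 factDownQC_closed298 hup

/-- The matching constant of a good common part, from the one open node. -/
theorem exists_const_of_factUp298 (h3 : HasSqrtNegThree F) (hT6 : T6.T6Out)
    (hup : FactUpQC298b F) (hF : IsImagQuad F)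
    {Φ : HeckeEigensystem F ℂ} {B : L2QBase962 F} (hB : IsL2QBase962 Φ B)
    {𝔫 : Ideal (𝓞 ℚ)} (h𝔫 : 𝔫 ≠ ⊥)
    (μr : @Measure (GL (Fin 2) ℝ) (borel _)) (hμr : @Measure.IsHaarMeasure _ _ _ (borel _) μr)
    (μc : @Measure (GL (Fin 2) ℂ) (borel _)) (hμc : @Measure.IsHaarMeasure _ _ _ (borel _) μc)
    (T₀ : Finset (HeightOneSpectrum (𝓞 ℚ))) (hram : UnramOut305 (K' := F) T₀)
    (n : HeightOneSpectrum (𝓞 F) → ℕ) (m : HeightOneSpectrum (𝓞 ℚ) → ℕ)
    (hlev : IsLevelAt305 T₀ n m) :
    ∃ κ : ℂ, κ ≠ 0 ∧ IsMatchConstQ298b F (B.comp 𝔫) μr μc T₀ n m κ :=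
  exists_const298b (globMatchQC_of_factUp298 h3 hT6 hup) hF hB h𝔫 μr hμr μc hμc T₀ hram n m hlev

end Fermat.Agent.LT.T7.MQ298

end

end
-- ===== PACK-END LT/T7/H298/MatchQWall.lean

-- ===== PACK-BEGIN LT/T7/H662/LocEqSplitQ.lean
section




/-!
# Row LT, tower T7, step `F / ℚ`, leaf Q2.7.13.3c `LocEqSplitQL514` (helper662, spare of
# registry row 2710)

OFF-MAIN.  Complete proofs, nothing assumed.

    locEqSplitQL514_662 : T7.FUQ514.LocEqSplitQL514 F     (VERBATIM, `H514/FactUpQCore.lean`,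
                                                           helper514)

from the core with explicit local data `locEqSplit_gen662` (`LocEqSplitGen.lean`), `K = ℚ`.
-/

set_option autoImplicit false
set_option linter.unusedVariables false

open AutomorphicForm IsDedekindDomain NumberField MeasureTheory

noncomputable section

namespace Fermat.Agent.LT.T7.H662

open Fermat.Agent.LT Fermat.Agent.LT.T7

/-- **LEAF Q2.7.13.3c = LOC-EQ-SPLIT over `ℚ`, LOCAL FORM**, VERBATIM (helper514). -/
theorem locEqSplitQL514_662 (F : Type) [Field F] [NumberField F] :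
    FUQ514.LocEqSplitQL514 F := by
  intro hT6 _ D hD _ _ n m φ₀ f₀ δ γ hEll hN L hL v _ hup J hJ
  obtain ⟨hl, w, i, hover, hrel, hne, hi, hv, hlev, hconv, rfl⟩ := hJ
  exact locEqSplit_gen662 hT6 D hD n m φ₀ f₀ δ γ hEll hN v (L.μv v) (L.μt v) (L.βv v)
    (hL.haar v) (hL.tor v) (hL.cut v) hl w i hrel hi hv
    (fun j => hup (w j) (hover j)) hlev hconv

end Fermat.Agent.LT.T7.H662

end

end
-- ===== PACK-END LT/T7/H662/LocEqSplitQ.lean

-- ===== PACK-BEGIN LT/T7/H514/FactUpQClosed2.lean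
section




/-!
# Row LT, tower T7, node Q2.7.13 v2 `MQ298.FactUpQC298b` (registry row 2676, helper514):
# INTEGRATION 2 of the closed leaves (all the LOCAL leaves are closed)

OFF-MAIN.  No hole, nothing assumed.  ADDITIVE (new names only, suffix `514`).

CLOSED leaves: `LocEqInertQL514` (helper757, `H757.locEqInertQL757`), `LocEqSplitQL514`
(helper662, `H662.locEqSplitQL514_662`), `LocEqArchQL514` (`locEqArchQL514`, proof of
helper659).  OPEN: the three parts of the cut of helper1 of the node upstairs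
(`H1U.UpDatExistsQC`, `H1U.CutOnUpQC`, `H1U.FactIntUpQC`, registry rows 2785 - 2787).

    factUpQC298b_of_up514 : H1U.UpDatExistsQC F → H1U.CutOnUpQC F → H1U.FactIntUpQC F →
        MQ298.FactUpQC298b F                                                      (VERBATIM)
    factUpQC298b_of_upW514 : H1U.UpFactQWC F → MQ298.FactUpQC298b F
    factUpQC298b_of_upCore514 : UpFactQCore514 F → MQ298.FactUpQC298b F
-/

set_option autoImplicit false

open AutomorphicForm IsDedekindDomain NumberField MeasureTheory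
open scoped ComplexConjugate

noncomputable section

namespace Fermat.Agent.LT.T7.FUQ514

open Fermat.Agent.LT.H556 Fermat.Agent.LT.H556.A0 Fermat.Agent.LT.T7 Fermat.Agent.LT.T7.H305
open Fermat.Agent.LT.T7.MQ298 Fermat.Agent.LT.T7.H340

attribute [local instance] Fermat.Agent.LT.T5.instMeasurableSpaceG

variable {F : Type} [Field F] [NumberField F]

/-- **THE NODE OF helper298, v2, FROM THE NODE UPSTAIRS IN CORE FORM** (the three local leaves
are closed). -/
theorem factUpQC298b_of_upCore514 (hU : UpFactQCore514 F) : FactUpQC298b F :=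
  factUpQC298b_of_leaves514 hU (H757.locEqInertQL757 F) (H662.locEqSplitQL514_662 F)
    (locEqArchQL514 F)

/-- **THE NODE OF helper298, v2, FROM THE `W`-FORM OF helper1.** -/
theorem factUpQC298b_of_upW514 (hW : H1U.UpFactQWC F) : FactUpQC298b F :=
  factUpQC298b_of_upCore514 (upFactQCore_ofW514 hW)

/-- **THE NODE OF helper298, v2, FROM THE THREE PARTS OF THE CUT OF helper1.** -/
theorem factUpQC298b_of_up514 (hE : H1U.UpDatExistsQC F) (hA : H1U.CutOnUpQC F)
    (hB : H1U.FactIntUpQC F) : FactUpQC298b F :=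
  factUpQC298b_of_open514 hE hA hB (H662.locEqSplitQL514_662 F)

/-- VERBATIM check. -/
example : Fermat.Agent.LT.T7.H1U.UpDatExistsQC F → Fermat.Agent.LT.T7.H1U.CutOnUpQC F →
    Fermat.Agent.LT.T7.H1U.FactIntUpQC F →
    Fermat.Agent.LT.T7.MQ298.FactUpQC298b F := factUpQC298b_of_up514

end Fermat.Agent.LT.T7.FUQ514

end

end
-- ===== PACK-END LT/T7/H514/FactUpQClosed2.lean

-- ===== PACK-BEGIN LT/T7/H298/MatchQWall2.lean
section









/-!
# Row LT, tower T7, node T7.L2Q.1.H1 (registry rows 2464 / 2605, owner helper298):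
# THE MATCHING THEOREM OVER `ℚ` -- INTEGRATION v4: the wall of the node upstairs

OFF-MAIN.  Complete proofs, nothing assumed.  ADDITIVE.

Plugged (byte-identical, ONE closure): `FUQ514.factUpQC298b_of_up514` (helper514@b4e9e24d5: the
node `FactUpQC298b` from the three parts of the cut of helper1, all local leaves closed),
`H1U.factIntUpQC_of_H1U` (helper1@50eb7ee1f: Part B from its five leaves), `haarSplitC159`
(helper159), `outOpenC729`, `compContC409`, `haarSigmaC505`; `upDatExistsQC864` (helper864), `overSetQC42`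
(helper42), `ptFactUpQC355` (helper355).

    globMatchQC_of_up298 : HasSqrtNegThree F → T6.T6Out → H1U.UpDatExistsQC F →
        H1U.CutOnUpQC F → H1U.FactIntUpQC F → GlobMatchQC298b F
    globMatchQC_of_upLeaves298 : HasSqrtNegThree F → T6.T6Out → H1U.UpDatExistsQC F →
        H1U.CutOnUpQC F → H1U.OverSetQC F → H1U.PtFactUpQC F → H1U.RayFinUpQC F →
        H1U.ArchIntblUpQC F → H1U.FinPartUpQC F → GlobMatchQC298b F
    globMatchQC_of_four298 : HasSqrtNegThree F → T6.T6Out → H1U.CutOnUpQC F →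
        H1U.RayFinUpQC F → H1U.ArchIntblUpQC F → H1U.FinPartUpQC F → GlobMatchQC298b F
-/

set_option autoImplicit false

open AutomorphicForm IsDedekindDomain NumberField MeasureTheory
open scoped ComplexConjugate

noncomputable section

namespace Fermat.Agent.LT.T7.MQ298

open Fermat.Agent.LT.H556 Fermat.Agent.LT.H556.A0 Fermat.Agent.LT.T7 Fermat.Agent.LT.T7.H305

attribute [local instance] Fermat.Agent.LT.T5.instMeasurableSpaceG

variable {F : Type} [Field F] [NumberField F]

/-- The matching theorem over `ℚ` from the three parts of the cut of the node upstairs. -/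
theorem globMatchQC_of_up298 (h3 : HasSqrtNegThree F) (hT6 : T6.T6Out)
    (hE : H1U.UpDatExistsQC F) (hA : H1U.CutOnUpQC F) (hB : H1U.FactIntUpQC F) :
    GlobMatchQC298b F :=
  globMatchQC_of_factUp298 h3 hT6 (FUQ514.factUpQC298b_of_up514 hE hA hB)

/-- The matching theorem over `ℚ` from the open leaves of the node upstairs. -/
theorem globMatchQC_of_upLeaves298 (h3 : HasSqrtNegThree F) (hT6 : T6.T6Out)
    (hE : H1U.UpDatExistsQC F) (hA : H1U.CutOnUpQC F) (hOS : H1U.OverSetQC F)
    (hPF : H1U.PtFactUpQC F) (hRF : H1U.RayFinUpQC F) (hAI : H1U.ArchIntblUpQC F)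
    (hFP : H1U.FinPartUpQC F) : GlobMatchQC298b F :=
  globMatchQC_of_up298 h3 hT6 hE hA
    (H1U.factIntUpQC_of_H1U (H159.haarSplitC159 F) (OutOpen729.outOpenC729 F)
      (H409.compContC409 (K := F)) (H505.haarSigmaC505 (K := F)) hOS hPF hRF hAI hFP)

/-- **THE MATCHING THEOREM OVER `ℚ` FROM THE FOUR OPEN ITEMS** (18:30Z): Part A upstairs
(`CutOnUpQC`, helper913) and the three open leaves of Part B (`RayFinUpQC`, `ArchIntblUpQC`,
`FinPartUpQC`). -/
theorem globMatchQC_of_four298 (h3 : HasSqrtNegThree F) (hT6 : T6.T6Out)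
    (hA : H1U.CutOnUpQC F) (hRF : H1U.RayFinUpQC F) (hAI : H1U.ArchIntblUpQC F)
    (hFP : H1U.FinPartUpQC F) : GlobMatchQC298b F :=
  globMatchQC_of_upLeaves298 h3 hT6 (H864.upDatExistsQC864 F) hA (H42.overSetQC42 F)
    (H355.ptFactUpQC355 (F := F)) hRF hAI hFP

end Fermat.Agent.LT.T7.MQ298

end

end
-- ===== PACK-END LT/T7/H298/MatchQWall2.lean

-- ===== PACK-BEGIN LT/T7/H298/MatchQWall3.lean
section









/-!
# Row LT, tower T7, node T7.L2Q.1.H1 (registry rows 2464 / 2605, owner helper298):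
# THE MATCHING THEOREM OVER `ℚ` -- INTEGRATION v5: TWO OPEN ITEMS

OFF-MAIN.  Complete proofs, nothing assumed.  ADDITIVE.

Plugged (byte-identical, ONE closure): `rayFinUpQC750`, `archIntblUpQC750` (helper750),
`H913.cutOnUpQC_of913` (helper913: Part A upstairs from its cut) with `suppOutUpC560`
(helper560), `suppUpQC941` (helper941), `torCommC233`, `ellRegC277`, `outOpenC729`,
`compContC409`, `isoContC340_16` (helper16).

OPEN: `T6.T6Out` (master) and the TWO items `H913.CutOnOutUpQC913 F` (mirror of the closed cubic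
leaf `H340.CutOnOutUpC340`) and `H1U.FinPartUpQC F` (the finite places upstairs).

    globMatchQC_of_two298 : HasSqrtNegThree F → T6.T6Out → H913.CutOnOutUpQC913 F →
        H1U.FinPartUpQC F → GlobMatchQC298b F
-/

set_option autoImplicit false

open AutomorphicForm IsDedekindDomain NumberField MeasureTheory
open scoped ComplexConjugate

noncomputable section

namespace Fermat.Agent.LT.T7.MQ298

open Fermat.Agent.LT.H556 Fermat.Agent.LT.H556.A0 Fermat.Agent.LT.T7 Fermat.Agent.LT.T7.H305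

attribute [local instance] Fermat.Agent.LT.T5.instMeasurableSpaceG

variable {F : Type} [Field F] [NumberField F]

/-- Part A upstairs over `ℚ` from its one open node. -/
theorem cutOnUpQC_of_out298 (hCut : H913.CutOnOutUpQC913 F) : H1U.CutOnUpQC F :=
  H913.cutOnUpQC_of913 (H560.suppOutUpC560 F) (H941.suppUpQC941 F) hCut (H233.torCommC233 F)
    (H277.ellRegC277 ℚ F) (OutOpen729.outOpenC729 F) (H409.compContC409 (K := F))
    H16.isoContC340_16

/-- **THE MATCHING THEOREM OVER `ℚ` FROM THE TWO OPEN ITEMS** (18:40Z). -/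
theorem globMatchQC_of_two298 (h3 : HasSqrtNegThree F) (hT6 : T6.T6Out)
    (hCut : H913.CutOnOutUpQC913 F) (hFP : H1U.FinPartUpQC F) : GlobMatchQC298b F :=
  globMatchQC_of_four298 h3 hT6 (cutOnUpQC_of_out298 hCut) (H750.rayFinUpQC750 F)
    (H750.archIntblUpQC750 F) hFP

end Fermat.Agent.LT.T7.MQ298

end

end
-- ===== PACK-END LT/T7/H298/MatchQWall3.lean

-- ===== PACK-BEGIN LT/T7/H298/MatchQWall4.lean
section




/-!
# Row LT, tower T7, node T7.L2Q.1.H1 (registry rows 2464 / 2605, owner helper298):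
# THE MATCHING THEOREM OVER `ℚ` -- INTEGRATION v6: ONE OPEN ITEM

OFF-MAIN.  Complete proofs, nothing assumed.  ADDITIVE.

Plugged (byte-identical, ONE closure): `H913.cutOnUpQC913` (helper913@ecadb40ea: Part A
upstairs CLOSED).

OPEN: `T6.T6Out` (master) and the ONE item `H1U.FinPartUpQC F` (the finite places upstairs,
registry row 2861).

    globMatchQC_of_finPart298 : HasSqrtNegThree F → T6.T6Out → H1U.FinPartUpQC F →
        GlobMatchQC298b F
-/

set_option autoImplicit false

open AutomorphicForm IsDedekindDomain NumberField MeasureTheory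
open scoped ComplexConjugate

noncomputable section

namespace Fermat.Agent.LT.T7.MQ298

open Fermat.Agent.LT.H556 Fermat.Agent.LT.H556.A0 Fermat.Agent.LT.T7 Fermat.Agent.LT.T7.H305

attribute [local instance] Fermat.Agent.LT.T5.instMeasurableSpaceG

variable {F : Type} [Field F] [NumberField F]

/-- **THE MATCHING THEOREM OVER `ℚ` FROM THE ONE OPEN ITEM** (18:50Z). -/
theorem globMatchQC_of_finPart298 (h3 : HasSqrtNegThree F) (hT6 : T6.T6Out)
    (hFP : H1U.FinPartUpQC F) : GlobMatchQC298b F :=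
  globMatchQC_of_four298 h3 hT6 (H913.cutOnUpQC913 F) (H750.rayFinUpQC750 F)
    (H750.archIntblUpQC750 F) hFP

end Fermat.Agent.LT.T7.MQ298

end

end
-- ===== PACK-END LT/T7/H298/MatchQWall4.lean

-- ===== PACK-BEGIN LT/T7/H893/SupplySphTop.lean
section



/-!
# Row LT, tower T7, node T7.L2.1.H2b.3 `SphHypC893` (sub-architect helper893): CUT -- Top

OFF-MAIN.  No `sorry`, nothing assumed.  ADDITIVE.

    sphHypC_of893 : T6.T6Out → SphInvC893 K → SphInvC893 K' → SphInertC893 K K'
        → SphSplitC893 K K' → SphHypC893 K K'                                  (VERBATIM)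
-/

set_option autoImplicit false

open AutomorphicForm IsDedekindDomain NumberField MeasureTheory
open scoped ComplexConjugate

noncomputable section

namespace Fermat.Agent.LT.T7.H893

open Fermat.Agent.LT.H556 Fermat.Agent.LT.H556.A0 Fermat.Agent.LT.T7
open Fermat.Agent.LT.T7.H305

attribute [local instance] Fermat.Agent.LT.T5.instMeasurableSpaceG

section Top

variable {K K' : Type} [Field K] [NumberField K] [Field K'] [NumberField K'] [Algebra K K']

/-- **THE TOP OF THE CUT OF `SphHypC893`.** -/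
theorem sphHypC_of893 (ht6 : T6.T6Out) (hInv : SphInvC893 K) (hInv' : SphInvC893 K')
    (hInert : SphInertC893 K K') (hSplit : SphSplitC893 K K') : SphHypC893 K K' := by
  intro D hD hcyc hl hcplx μc _ T₀ hT₀ n m hnm T _ φ₀ Φ f₀ F h hS
  refine
    { inv_up := ?_
      inv_down := ?_
      arch_up := h.arch_up
      arch_down := h.arch_down
      inert := ?_
      split := ?_
      arch := h.arch }
  · intro v hv w hvw
    by_cases hv0 : v ∈ T₀
    · exact h.inv_up v hv0 w hvw
    · obtain ⟨A, Av, -, hφ, -, -⟩ := hS v hv hv0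
      rw [hnm.2 v w hv0 hvw]
      exact hInv' w (φ₀ w) (A w) (hφ w hvw)
  · intro v hv
    by_cases hv0 : v ∈ T₀
    · exact h.inv_down v hv0
    · obtain ⟨A, Av, hf, -, -, -⟩ := hS v hv hv0
      rw [hnm.1 v hv0]
      exact hInv v (f₀ v) Av hf
  · intro v hv w hvw huniq e i sw hi hsw hext
    by_cases hv0 : v ∈ T₀
    · exact h.inert v hv0 w hvw huniq e i sw hi hsw hext
    · obtain ⟨A, Av, hf, hφ, hBC, -⟩ := hS v hv hv0
      exact hInert ht6 D hD hcyc hl hcplx T₀ hT₀ v hv0 w hvw huniq (n w) (m v)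
        (hnm.2 v w hv0 hvw) (hnm.1 v hv0) (φ₀ w) (f₀ v) (A w) Av (hφ w hvw) hf
        (hBC w hvw huniq) e i sw hi hsw hext
  · intro v hv hsp
    by_cases hv0 : v ∈ T₀
    · exact h.split v hv0 hsp
    · obtain ⟨A, Av, hf, hφ, -, hprod⟩ := hS v hv hv0
      exact hSplit ht6 D hD hcyc hl hcplx T₀ hT₀ v hv0 hsp n m
        (fun w hvw => hnm.2 v w hv0 hvw) (hnm.1 v hv0) φ₀ (f₀ v) A Av hf hφ hprod

end Top

end Fermat.Agent.LT.T7.H893

end

end
-- ===== PACK-END LT/T7/H893/SupplySphTop.lean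

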