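import Mathlib
import Fermat.Agent.Pack.LT3.E18L2
import Fermat.Agent.Pack.LT2.E20L1
import Fermat.Agent.Pack.LT3.E20L1
import Fermat.Agent.Pack.LT3.E19L2
import Fermat.Agent.Pack.LT3.E20L2
import Fermat.Agent.Pack.LT3.E21L3
import Fermat.Agent.Pack.LT3.E6L3
import Fermat.Agent.Pack.LT3.E6L2
import Fermat.Agent.Pack.LT3.E18L0
import Fermat.Agent.Pack.LT3.E18L3
import Fermat.Agent.Pack.LT3.E13L3
import Fermat.Agent.Pack.LT3.E7L2
import Fermat.Agent.Pack.LT3.E26L3
import Fermat.Agent.Pack.LT3.E26L0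
import Fermat.Agent.Pack.LT3.E28L2
import Fermat.Agent.Pack.LT3.E29L1
import Fermat.Agent.Pack.LT3.E29L2
import Fermat.Agent.Pack.LT3.E28L3
import Fermat.Agent.Pack.LT3.E20L3
import Fermat.Agent.Pack.LT3.E22L3
import Fermat.Agent.Pack.LT3.E27L1
import Fermat.Agent.Pack.LT3.E29L3

set_option linter.all false

-- ===== PACK-BEGIN LT/T6/H675/QuatCoreFinal.lean
section



/-!
# Row LT, tower T6, leaf T6.18i.5 `QuatCoreRamC385` (owner helper675): CLOSED, UNCONDITIONAL

`quatCoreRamC385_675 : H385.QuatCoreRamC385`, VERBATIM, all residue characteristics, from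
* `QuatCoreHilbert.lean` (`quatCoreRam_of_normIdx675`, Hilbert symbol argument), and
* the norm index asset of helper526 (`LT/T6/H526/NormIdx.lean` sha256 3a81601e +
  `LocFld.lean` 5f9afb43, origin/helper526@c7e23f21a, byte-identical copies), which rests on the
  local class field theory ON MAIN (`Fermat.Agent.S55.L.Closed.normIndexCyclic`).

Hence also `qcWildC675_675 : QcWildC675` (row T6.18i.5c).  OFF-MAIN.
-/

set_option autoImplicit false

open scoped Matrix

noncomputable section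

namespace Fermat.Agent.LT.T6.H675

open Fermat.Agent.LT.T6 Fermat.Agent.LT.T6.H783 Fermat.Agent.LT.T6.H385

theorem isVal675_iff526 {k : Type} [Field k] (D a : k) :
    IsVal675 D a ↔ ∃ x y : k, x ^ 2 + 0 * x * y + (-D) * y ^ 2 = a := by
  constructor
  · rintro ⟨x, y, h⟩
    exact ⟨x, y, by rw [h]; ring⟩
  · rintro ⟨x, y, h⟩
    exact ⟨x, y, by rw [← h]; ring⟩

/-- **The norm index theorem in the form used here** (from helper526 / local CFT of main). -/
theorem normIdxC675_of526 : NormIdxC675 := by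
  intro k _ _ q hk D hD
  have hirr : ∀ x : k, x ^ 2 - 0 * x + (-D) ≠ 0 := fun x h =>
    hD ⟨x, by linear_combination -h⟩
  constructor
  · obtain ⟨a, ha0, hna⟩ := Fermat.Agent.LT.T6.H526.h526_norm_exists_non q hk 0 (-D) hirr
    refine ⟨a, ha0, fun h => ?_⟩
    obtain ⟨x, y, hxy⟩ := (isVal675_iff526 D a).mp h
    exact hna x y hxy
  · intro a b ha hb
    rw [isVal675_iff526, isVal675_iff526, isVal675_iff526]
    exact Fermat.Agent.LT.T6.H526.h526_norm_mul_iff q hk 0 (-D) hirr a b ha hb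

/-- **T6.18i.5 `QuatCoreRamC385`, UNCONDITIONAL.** -/
theorem quatCoreRamC385_675 : QuatCoreRamC385 :=
  quatCoreRam_of_normIdx675 normIdxC675_of526

/-- **T6.18i.5c `QcWildC675`, UNCONDITIONAL.** -/
theorem qcWildC675_675 : QcWildC675 :=
  qcWild_of_normIdx675 normIdxC675_of526

end Fermat.Agent.LT.T6.H675

end

end
-- ===== PACK-END LT/T6/H675/QuatCoreFinal.lean

-- ===== PACK-BEGIN LT/T6/H783/BadClosed.lean
section













/-!
# Row LT, tower T6, leaf T6.18 `BadMatchC`: CLOSED modulo the count of T6.14 (helper783)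

State 15:00Z.  Every leaf of T6.18 is closed; the quaternion case `CenQuatC783` (station
helper385) uses the orbital integrals of the spherical Euler-Poincare function, hence the
EXTERNAL leaf `H847.EllOrbC` of T6.14, which is proved from `H847.EllCountC` (row 1058, the only
open leaf of T6.14).  Therefore

* `cenQuat_of_ellOrb783 : H847.EllOrbC → CenQuatC783`,
* `cenQuat_of_ellCount783 : H847.EllCountC → CenQuatC783`,
* `badMatch_of_ellOrb783 : H847.EllOrbC → BadMatchC`,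
* `badMatch_of_ellCount783 : H847.EllCountC → BadMatchC`.

T6.18 adds NO open leaf to the tower.  All files of the authors are byte-identical copies:
quaternion case helper385 (tops), 392, 122, 497, 844, 388, 382, 886, 355, 665, 621, 558 (+ its
sub-leaves), 675 (+ 793, 983, 526: norm index from the local class field theory of main S55);
external 687, 277, 826, 847, 129, 288, 888, 159, 313.
-/

set_option autoImplicit false

noncomputable section

namespace Fermat.Agent.LT.T6.H783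

open Fermat.Agent.LT.T6

/-- **T6.18i `CenQuatC783`** from the external leaf `EllOrbC` of T6.14. -/
theorem cenQuat_of_ellOrb783 (hO : H847.EllOrbC) : CenQuatC783 :=
  H385.cenQuat_closed2_385 H687.cartanInvC_h687 H277.orbEllUnrC277 H826.ellReduceC826 hO
    H288.diagReduceC_closed H288.orbSumDiagC_closed
    (H159.normCrit_of_quad H313.quadUnitNormC313)
    H675.quatCoreRamC385_675 H558.quatSettingC558

/-- **T6.18i `CenQuatC783`** from the open leaf `EllCountC` of T6.14 (row 1058). -/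
theorem cenQuat_of_ellCount783 (hn : H847.EllCountC) : CenQuatC783 :=
  cenQuat_of_ellOrb783
    (H847.ellOrb_of H687.cartanInvC_h687 Fermat.Agent.LT.H129.ellParamC129 hn)

/-- **T6.18 `BadMatchC`** from the external leaf `EllOrbC` of T6.14. -/
theorem badMatch_of_ellOrb783 (hO : H847.EllOrbC) : BadMatchC :=
  badMatch_of_cenQuat783 (cenQuat_of_ellOrb783 hO)

/-- **T6.18 `BadMatchC`** from the open leaf `EllCountC` of T6.14 (row 1058). -/
theorem badMatch_of_ellCount783 (hn : H847.EllCountC) : BadMatchC :=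
  badMatch_of_cenQuat783 (cenQuat_of_ellCount783 hn)

end Fermat.Agent.LT.T6.H783

end

end
-- ===== PACK-END LT/T6/H783/BadClosed.lean

-- ===== PACK-BEGIN LT/T7/H49/CoreOps.lean
section





/-!
# Row LT, tower T7, node T7.L2.2.B4: FIVE LEAVES IN CORE FORM (helper49, OFF-MAIN)

    opsRelCU49 (K') : CU736.OpsRelC561 K'        VERBATIM, UNCONDITIONAL
    opsPerCU49 (K') : CU736.OpsPerC561 K'        VERBATIM, UNCONDITIONAL
    opsSigCU49 (K') : CU736.OpsSigC561 K'        VERBATIM, UNCONDITIONAL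
    opsEigCU49 (K') : CU736.OpsEigC561 K'        VERBATIM, UNCONDITIONAL
    badOpCU49  (K') : CU736.BadOpC561 K'         VERBATIM, UNCONDITIONAL

The cut in core form is `T7/H736/Core/Ops.lean` (helper736, bce2a43a): the leaves of helper561
retyped over `K'` alone on `H29.UpData K'` / `H29.IsUpData` (they serve the cubic step and the
quadratic step).  The proofs are the proofs of `opsRelC49`, `opsPerC49`, `opsSigC49`,
`opsEigC49`, `badOpC49` read on `H29.UpData`: all the local and adelic lemmas of `IwQuadLocal`,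
`IwRel`, `OpsRel`, `OpsPer`, `OpsSig`, `OpsEig`, `BadOp`, `DblSys` are used as they are; only
the lemmas on the orbit are restated for `UpData` (`cyc` is a field of `IsUpData`).
-/

set_option autoImplicit false
set_option linter.unusedSectionVars false
set_option linter.unusedSimpArgs false
set_option linter.unusedVariables false

open Matrix
open AutomorphicForm IsDedekindDomain NumberField IsDedekindDomain.HeightOneSpectrum
open Fermat.Agent.LT.H556 Fermat.Agent.LT.H556.A0 Fermat.Agent.LT.H129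
open Fermat.Agent.LT.T7 Fermat.Agent.LT.T7.H83
open Fermat.Agent.LT.H415 Fermat.Agent.LT.T5.H415

noncomputable section

namespace Fermat.Agent.LT.T7.H49

section OrbitU

variable {K' : Type} [Field K'] [NumberField K']

theorem isBad_oneU49 (U : H29.UpData K') : U.IsBad 1 := by
  refine ⟨fun w => ?_, fun v _ => ?_⟩
  · rw [trivAtInf_iff129, map_one]
  · rw [trivAtFin_iff129, map_one]

theorem cycU49 {ℓ : ℕ} {Φ : HeckeEigensystem K' ℂ} {U : H29.UpData K'}
    (hs : CU736.IsSetup561 ℓ Φ U) : T5.IsCyclicOfDegree U.s ℓ U.k := by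
  have h := hs.data.cyc
  have e := hs.data.deg
  rw [← e]
  exact h

theorem orbit_addU49 {ℓ : ℕ} {Φ : HeckeEigensystem K' ℂ} {U : H29.UpData K'}
    (hs : CU736.IsSetup561 ℓ Φ U) (j : ℕ) : U.o (j + ℓ) = U.o j := by
  have h := T5.H415.orbit_period415 U.s ℓ U.k (cycU49 hs) (fun i => U.o (j + i))
    (fun i => by
      have := hs.data.orbit_rel (j + i)
      rwa [add_assoc] at this)
  simpa using h

theorem orbit_modU49 {ℓ : ℕ} {Φ : HeckeEigensystem K' ℂ} {U : H29.UpData K'}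
    (hs : CU736.IsSetup561 ℓ Φ U) (j : ℕ) : U.o j = U.o (j % ℓ) := by
  induction j using Nat.strong_induction_on with
  | _ j ih =>
    rcases Nat.lt_or_ge j ℓ with h | h
    · rw [Nat.mod_eq_of_lt h]
    · have e : j = (j - ℓ) + ℓ := (Nat.sub_add_cancel h).symm
      have hpos : 0 < ℓ := (cycU49 hs).pos
      have hlt : j - ℓ < j := Nat.sub_lt (lt_of_lt_of_le hpos h) hpos
      rw [Nat.mod_eq_sub_mod h, ← ih (j - ℓ) hlt]
      conv_lhs => rw [e]
      exact orbit_addU49 hs (j - ℓ)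

theorem absNorm_orbitU49 {ℓ : ℕ} {Φ : HeckeEigensystem K' ℂ} {U : H29.UpData K'}
    (hs : CU736.IsSetup561 ℓ Φ U) (j : ℕ) :
    Ideal.absNorm (U.o j).asIdeal = Ideal.absNorm (U.o 0).asIdeal := by
  induction j with
  | zero => rfl
  | succ n ih => rw [absNorm_placeRel49 (hs.data.orbit_rel n), ih]

/-- An invariant cusp function is Iwahori invariant at every place of the orbit. -/
theorem isIwInvAt_orbitU49 {ℓ : ℕ} {Φ : HeckeEigensystem K' ℂ} {U : H29.UpData K'}
    (hs : CU736.IsSetup561 ℓ Φ U) {ψ : G K' → ℂ} (hψ : IsWFn U.𝔑₀ U.R'.r ℓ U.o ψ)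
    (j : ℕ) : IsIwInvAt (U.o j) ψ := by
  rw [orbit_modU49 hs j]
  exact isIwInvAt_of_isIwInv83 hψ.iw (Nat.mod_lt j (cycU49 hs).pos)

/-- The explicit system at `o j` is a system in the sense of `IwRel.lean`. -/
theorem isSSys_ofU49 {U : H29.UpData K'} {Hs : ℕ → Finset (G K')} {ω : ℕ → G K'}
    (hsys : CU736.IsIwSys561 U Hs ω) (j : ℕ) : IsSSys49 (U.o j) (Hs j) :=
  ⟨hsys.Hs_card j, hsys.Hs_local j, hsys.Hs_comp j, hsys.Hs_inj j⟩

/-- `ω_j² ` commutes with the members of the system at `o j`. -/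
theorem om_sq_commU49 {U : H29.UpData K'} {Hs : ℕ → Finset (G K')} {ω : ℕ → G K'}
    (hsys : CU736.IsIwSys561 U Hs ω) (j : ℕ) {h : G K'} (hh : h ∈ Hs j) :
    ω j * ω j * h = h * (ω j * ω j) := by
  obtain ⟨c, hcv, hcc⟩ := hsys.ω_comp j
  have hc0 : c ≠ 0 := unif_ne_zero129 (U.o j) hcv
  obtain ⟨a, ha, hac⟩ := hsys.Hs_comp j h hh
  have e1 := eq_locFin_om49 (hsys.ω_local j) hc0 hcc
  have e2 := eq_locFin_sL49 (hsys.Hs_local j h hh) hac
  rw [e1, e2, ← map_mul, ← map_mul, ← map_mul, om_sq49, scL_comm49]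

/-- The hypothesis of `cosetOp_inv49` / `trOp_inv49` for an element of the level group. -/
theorem hyp_levelU49 {ℓ : ℕ} {Φ : HeckeEigensystem K' ℂ} {U : H29.UpData K'}
    (hs : CU736.IsSetup561 ℓ Φ U) {ψ : G K' → ℂ} (hψ : IsWFn U.𝔑₀ U.R'.r ℓ U.o ψ)
    (j : ℕ) {u : G K'} (hu : InLevelGroup U.𝔑₀ u) :
    ∀ i : G K', IsLocalAtFin (U.o j) i → T5.InIwahori (U.o j) i →
      ∀ x : G K', ψ (x * (awayPart49 (U.o j) u * i)) = ψ x := by
  intro i hil hiI x
  rw [← mul_assoc, isIwInvAt_orbitU49 hs hψ j i hil hiI,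
    hψ.cusp.aut.level_inv _ (inLevelGroup_awayPart49 hu)]

/-- The hypothesis of `cosetOp_inv49` / `trOp_inv49` for an element of the Iwahori subgroups
along the orbit. -/
theorem hyp_iwU49 {ℓ : ℕ} {Φ : HeckeEigensystem K' ℂ} {U : H29.UpData K'}
    (hs : CU736.IsSetup561 ℓ Φ U) {ψ : G K' → ℂ} (hψ : IsWFn U.𝔑₀ U.R'.r ℓ U.o ψ)
    (j : ℕ) {u : G K'} (hI : ∀ w : InfinitePlace K', TrivAtInf w u)
    (hF : ∀ v : HeightOneSpectrum (𝓞 K'), (∀ k < ℓ, v ≠ U.o k) → TrivAtFin v u)
    (hIw : ∀ k < ℓ, T5.InIwahori (U.o k) u) :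
    ∀ i : G K', IsLocalAtFin (U.o j) i → T5.InIwahori (U.o j) i →
      ∀ x : G K', ψ (x * (awayPart49 (U.o j) u * i)) = ψ x := by
  intro i hil hiI x
  have hil' := (isLocalAtFin_iff129 (U.o j) i).1 hil
  have hmod : U.o j = U.o (j % ℓ) := orbit_modU49 hs j
  have hlt : j % ℓ < ℓ := Nat.mod_lt j (cycU49 hs).pos
  apply hψ.iw (awayPart49 (U.o j) u * i)
  · intro w'
    rw [trivAtInf_iff129, map_mul, infCompHom_awayPart49, hil'.1 w', mul_one]
    exact (trivAtInf_iff129 w' u).1 (hI w')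
  · intro v hv
    have hne : v ≠ U.o j := by
      rw [hmod]
      exact hv _ hlt
    rw [trivAtFin_iff129, map_mul, finCompHom_awayPart_of_ne49 _ u hne, hil'.2 v hne, mul_one]
    exact (trivAtFin_iff129 v u).1 (hF v hv)
  · intro k hk
    by_cases e : U.o k = U.o j
    · rw [e, inIwahori_iff83, map_mul, finCompHom_awayPart_self49, one_mul]
      exact (inIwahori_iff83 _ i).1 hiI
    · rw [inIwahori_iff83, map_mul, finCompHom_awayPart_of_ne49 _ u e, hil'.2 _ e, mul_one]
      exact (inIwahori_iff83 _ u).1 (hIw k hk)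

theorem dvd_levelU49 {ℓ : ℕ} {Φ : HeckeEigensystem K' ℂ} {U : H29.UpData K'}
    (hs : CU736.IsSetup561 ℓ Φ U) (j : ℕ) : (U.o j).asIdeal ∣ U.𝔑₀ :=
  (hs.data.mem_S' (U.o j)).1 (hs.data.orbit_level j)

/-- The base level is not zero. -/
theorem levelBase_ne_botU49 {ℓ : ℕ} {Φ : HeckeEigensystem K' ℂ} {U : H29.UpData K'}
    (hs : CU736.IsSetup561 ℓ Φ U) : U.𝔑₀ ≠ ⊥ := by
  intro h0
  have h1 : U.𝔑 1 ≠ ⊥ := hs.data.level_ne 1 (isBad_oneU49 U)
  have h2 : U.𝔑 1 ≤ U.𝔑₀ := hs.data.level_g 1 (isBad_oneU49 U)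
  rw [h0, le_bot_iff] at h2
  exact h1 h2

/-- A bad element is trivial along the whole orbit. -/
theorem trivAtFin_badU49 {ℓ : ℕ} {Φ : HeckeEigensystem K' ℂ} {U : H29.UpData K'}
    (hs : CU736.IsSetup561 ℓ Φ U) {g : G K'} (hg : U.IsBad g) (j : ℕ) :
    TrivAtFin (U.o j) g := by
  apply hg.2 (U.o j)
  right
  refine ⟨j % ℓ, ?_, orbit_modU49 hs j⟩
  rw [hs.data.deg]
  exact Nat.mod_lt j (cycU49 hs).pos

end OrbitU

/-- **LEAF T7.L2.2.B4.3 = OPS-REL, CORE FORM, VERBATIM.** -/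
theorem opsRelCU49 (K' : Type) [Field K'] [NumberField K'] : CU736.OpsRelC561 K' := by
  intro ℓ Φ U hs Hs ω hsys j ψ hψ x
  constructor
  · rw [← absNorm_orbitU49 hs j]
    exact sRel49 (isSSys_ofU49 hsys j) (isIwInvAt_orbitU49 hs hψ j) x
  · unfold H561.trOp561 cosetOp
    apply Finset.sum_congr rfl
    intro h hh
    congr 1
    have e := om_sq_commU49 hsys j hh
    calc x * ω j * ω j * h = x * (ω j * ω j * h) := by group
      _ = x * (h * (ω j * ω j)) := by rw [e]
      _ = x * h * ω j * ω j := by group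

/-- **LEAF T7.L2.2.B4.5 = OPS-PER, CORE FORM, VERBATIM.** -/
theorem opsPerCU49 (K' : Type) [Field K'] [NumberField K'] : CU736.OpsPerC561 K' := by
  intro ℓ Φ U hs Hs ω hsys j ψ hψ x
  have hper : U.o (j + ℓ) = U.o j := orbit_addU49 hs j
  have hinv := isIwInvAt_orbitU49 hs hψ j
  constructor
  · have h1 : IsSSys49 (U.o j) (Hs (j + ℓ)) := hper ▸ isSSys_ofU49 hsys (j + ℓ)
    exact cosetOp_indepS49 h1 (isSSys_ofU49 hsys j) hinv x
  · have hl : IsLocalAtFin (U.o j) (ω (j + ℓ)) := hper ▸ hsys.ω_local (j + ℓ)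
    have hcp : ∃ c : (U.o j).adicCompletion K', Valued.v c = WithZero.exp (-1 : ℤ) ∧
        finComp (U.o j) (ω (j + ℓ)) = !![0, 1; c, 0] := hper ▸ hsys.ω_comp (j + ℓ)
    obtain ⟨c', hc', hcc'⟩ := hcp
    obtain ⟨c, hc, hcc⟩ := hsys.ω_comp j
    unfold H561.trOp561
    exact trOp_indep49 hl (hsys.ω_local j) hc' hc hcc' hcc hinv x

/-- **LEAF T7.L2.2.B4.7 = OPS-SIGMA, CORE FORM, VERBATIM** (the hypothesis `BaseStable561` is
not used). -/
theorem opsSigCU49 (K' : Type) [Field K'] [NumberField K'] : CU736.OpsSigC561 K' := by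
  classical
  intro ℓ Φ U hs _ Hs ω hsys j ψ hψ x
  have hrel : T5.PlaceRel U.s (U.o j) (U.o (j + 1)) := hs.data.orbit_rel j
  have hinv : IsIwInvAt (U.o j) ψ := isIwInvAt_orbitU49 hs hψ j
  have hinv' : IsIwInvAt (U.o (j + 1)) (T5.Rsig U.s ψ) := isIwInvAt_Rsig49 hrel hinv
  constructor
  · rw [← cosetOp_indepS49 (isSSys_onG49 hrel (isSSys_ofU49 hsys j))
      (isSSys_ofU49 hsys (j + 1)) hinv' x]
    unfold cosetOp T5.Rsig
    rw [Finset.sum_image (fun a _ b _ e => onG_injective49 U.s e)]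
    apply Finset.sum_congr rfl
    intro g _
    rw [map_mul, onGinv_onG49]
  · obtain ⟨c, hc, hcc⟩ := hsys.ω_comp j
    obtain ⟨c', hc', hcc'⟩ := hsys.ω_comp (j + 1)
    have e1 : T5.Rsig U.s (H561.trOp561 (ω j) ψ) x
        = T5.Rsig U.s ψ (x * U.s.onG (ω j)) := by
      unfold T5.Rsig H561.trOp561
      rw [map_mul, onGinv_onG49]
    rw [e1]
    unfold H561.trOp561
    refine trOp_indep49 (c := finComp (U.o (j + 1)) (U.s.onG (ω j)) 1 0)
      (isLocalAtFin_onG49 hrel (hsys.ω_local j)) (hsys.ω_local (j + 1)) ?_ hc'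
      (finComp_onG_om49 hrel (ω j) hcc) hcc' hinv' x
    rw [valued_onG415 U.s _ _ hrel (ω j) 1 0, hcc]
    exact hc

/-- **LEAF T7.L2.2.B4.2 = OPS-EIG, CORE FORM, VERBATIM.** -/
theorem opsEigCU49 (K' : Type) [Field K'] [NumberField K'] : CU736.OpsEigC561 K' := by
  intro ℓ Φ U hs Hs ω hsys j ψ C hψ
  have hr : T5.IsRayGen U.R'.r := hs.data.frame'.ray
  have hw := dvd_levelU49 hs j
  have hmod : U.o j = U.o (j % ℓ) := orbit_modU49 hs j
  have hlt : j % ℓ < ℓ := Nat.mod_lt j (cycU49 hs).pos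
  have hH := isSSys_ofU49 hsys j
  obtain ⟨c, hc, hcc⟩ := hsys.ω_comp j
  constructor
  · have e : cosetOp (Hs j) ψ = H281.translOp281 (Hs j) 1 ψ := by
      funext x
      unfold cosetOp H281.translOp281
      rw [one_mul]
    rw [e]
    refine H281.translEigC281 K' U.𝔑₀ U.R'.r ℓ U.o hr (Hs j) 1
      (fun t ht => isGoodTransl_of_local49 hw (hsys.Hs_local j t ht)) ψ C hψ ?_ ?_
    · intro u hu x
      rw [← e]
      exact cosetOp_inv49 hH (inIwahori_of_inLevelGroup49 hw hu)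
        (hyp_levelU49 hs hψ.inv j hu) x
    · intro u hI hF hIw x
      rw [← e]
      refine cosetOp_inv49 hH ?_ (hyp_iwU49 hs hψ.inv j hI hF hIw) x
      rw [hmod]
      exact hIw _ hlt
  · have e : H561.trOp561 (ω j) ψ = H281.translOp281 {ω j} 1 ψ := by
      funext x
      unfold H561.trOp561 H281.translOp281
      rw [Finset.sum_singleton, one_mul]
    rw [e]
    refine H281.translEigC281 K' U.𝔑₀ U.R'.r ℓ U.o hr {ω j} 1
      (fun t ht => by
        rw [Finset.mem_singleton.1 ht]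
        exact isGoodTransl_of_local49 hw (hsys.ω_local j)) ψ C hψ ?_ ?_
    · intro u hu x
      rw [← e]
      exact trOp_inv49 (hsys.ω_local j) hc hcc (inIwahori_of_inLevelGroup49 hw hu)
        (hyp_levelU49 hs hψ.inv j hu) x
    · intro u hI hF hIw x
      rw [← e]
      refine trOp_inv49 (hsys.ω_local j) hc hcc ?_ (hyp_iwU49 hs hψ.inv j hI hF hIw) x
      rw [hmod]
      exact hIw _ hlt

/-- **LEAF T7.L2.2.B4.9 = BAD-OP, CORE FORM, VERBATIM.** -/
theorem badOpCU49 (K' : Type) [Field K'] [NumberField K'] : CU736.BadOpC561 K' := by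
  intro ℓ Φ U hs g hg
  obtain ⟨Hg, hHg⟩ := dblSysExists49 K' U.𝔑₀ (levelBase_ne_botU49 hs) g hg.1
  have hr : T5.IsRayGen U.R'.r := hs.data.frame'.ray
  have ho : ∀ j < ℓ, (U.o j).asIdeal ∣ U.𝔑₀ := fun j _ => dvd_levelU49 hs j
  have hg2 : ∀ v : HeightOneSpectrum (𝓞 K'),
      (¬ v.asIdeal ∣ U.𝔑₀ ∨ ∃ j < ℓ, v = U.o j) → TrivAtFin v g := by
    intro v hv
    apply hg.2 v
    rcases hv with hv | ⟨j, hj, rfl⟩
    · left
      intro hmem
      exact hv ((hs.data.mem_S' v).1 hmem)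
    · right
      refine ⟨j, ?_, rfl⟩
      rw [hs.data.deg]
      exact hj
  have hD := H439.dblInvC439 K' U.𝔑₀ ℓ U.o ho g hg.1 hg2 Hg hHg
  refine ⟨Hg, hHg, ?_, ?_⟩
  · -- the classes
    intro ψ C hψ
    have e : cosetOp Hg ψ = H281.translOp281 Hg 1 ψ := by
      funext x
      unfold cosetOp H281.translOp281
      rw [one_mul]
    have hinv := hD.2 ψ hψ.inv.cusp.aut.level_inv hψ.inv.iw
    rw [e]
    refine H281.translEigC281 K' U.𝔑₀ U.R'.r ℓ U.o hr Hg 1 hD.1 ψ C hψ ?_ ?_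
    · rw [← e]
      exact hinv.1
    · rw [← e]
      exact hinv.2
  · -- the commutation
    intro Hs ω hsys j ψ hψ x
    have hw := dvd_levelU49 hs j
    have hgw : TrivAtFin (U.o j) g := trivAtFin_badU49 hs hg j
    have hH := isSSys_ofU49 hsys j
    obtain ⟨c, hc, hcc⟩ := hsys.ω_comp j
    have hψU : ∀ u : G K', InLevelGroup U.𝔑₀ u → ∀ y : G K', ψ (y * u) = ψ y :=
      hψ.cusp.aut.level_inv
    have hSU : ∀ u : G K', InLevelGroup U.𝔑₀ u →
        ∀ y : G K', cosetOp (Hs j) ψ (y * u) = cosetOp (Hs j) ψ y :=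
      fun u hu y => cosetOp_inv49 hH (inIwahori_of_inLevelGroup49 hw hu)
        (hyp_levelU49 hs hψ j hu) y
    have hρU : ∀ u : G K', InLevelGroup U.𝔑₀ u →
        ∀ y : G K', H561.trOp561 (ω j) ψ (y * u) = H561.trOp561 (ω j) ψ y :=
      fun u hu y => trOp_inv49 (hsys.ω_local j) hc hcc (inIwahori_of_inLevelGroup49 hw hu)
        (hyp_levelU49 hs hψ j hu) y
    constructor
    · have e1 : ∀ h ∈ Hg, cosetOp (Hs j) ψ (x * h)
          = ∑ s ∈ Hs j, ψ (x * s * h) := by
        intro h hh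
        rw [dbl_away49 hgw hHg hSU hh x]
        unfold cosetOp
        refine Finset.sum_congr rfl fun s hs' => ?_
        have hcomm : s * awayPart49 (U.o j) h = awayPart49 (U.o j) h * s :=
          mul_comm_of_local83 (U.o j) (hsys.Hs_local j s hs') (trivAtFin_awayPart49 _ h)
        rw [dbl_away49 hgw hHg hψU hh (x * s), mul_assoc, ← hcomm, ← mul_assoc]
      show ∑ h ∈ Hg, cosetOp (Hs j) ψ (x * h) = ∑ s ∈ Hs j, cosetOp Hg ψ (x * s)
      rw [Finset.sum_congr rfl e1, Finset.sum_comm]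
      rfl
    · show ∑ h ∈ Hg, H561.trOp561 (ω j) ψ (x * h) = ∑ h ∈ Hg, ψ (x * ω j * h)
      refine Finset.sum_congr rfl fun h hh => ?_
      have hcomm : ω j * awayPart49 (U.o j) h = awayPart49 (U.o j) h * ω j :=
        mul_comm_of_local83 (U.o j) (hsys.ω_local j) (trivAtFin_awayPart49 _ h)
      rw [dbl_away49 hgw hHg hρU hh x, dbl_away49 hgw hHg hψU hh (x * ω j)]
      show ψ (x * awayPart49 (U.o j) h * ω j) = ψ (x * ω j * awayPart49 (U.o j) h)
      rw [mul_assoc, ← hcomm, ← mul_assoc]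

example (K' : Type) [Field K'] [NumberField K'] : CU736.OpsRelC561 K' := opsRelCU49 K'
example (K' : Type) [Field K'] [NumberField K'] : CU736.OpsPerC561 K' := opsPerCU49 K'
example (K' : Type) [Field K'] [NumberField K'] : CU736.OpsSigC561 K' := opsSigCU49 K'
example (K' : Type) [Field K'] [NumberField K'] : CU736.OpsEigC561 K' := opsEigCU49 K'
example (K' : Type) [Field K'] [NumberField K'] : CU736.BadOpC561 K' := badOpCU49 K'

end Fermat.Agent.LT.T7.H49

end

end
-- ===== PACK-END LT/T7/H49/CoreOps.lean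

-- ===== PACK-BEGIN LT/T7/H732/SupplyQRamGeo.lean
section




/-!
# Row LT, tower T7, node T7.L2Q.1.F0 OF RECORD `L2Q.H60.PreQRC60` (quadratic step):
# THIRD + FOURTH CUT ON THE CUT OF RECORD v2 of helper60 (helper732, registry row 2322)

OFF-MAIN.  Two frozen nodes, PROVED tops.  No hole, nothing assumed.  ADDITIVE (new names only,
all suffixed `732`).  Vocabulary: `T7/H60/SupplyQRam.lean` (helper60@e0f6fdef3, sha256 1b96e813:
`IsRamQ60 B : 3 ∈ B.S`, nodes of record `SetupQRC60`, `FamQRC60`, `PreQRC60`),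
`T7/H732/SupplyQ{Pre,Geo}{Spec,Top}.lean` (third and fourth cut), byte-identical copies.

The nodes of the third and fourth cut quantify over the common parts of helper60 WITH THE
RAMIFIED PRIME (`3 ∈ S`; referee helper739, note 17973: for `3 ∉ S` the members downstairs would
be spherical at `3`, and the construction is false in general):

    preQRC_of_geo732   : PreGeoQRC732 P F → H893.RegSuppC F → H893.RegSupp0C ℚ
                           → L2Q.H60.PreQRC60 P F                                (VERBATIM)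
    preGeoQRC_of732    : GlobQC732 F Mt → ConstrQRC732 P F Mt → EkProdUpOpQC732 F
                           → EkProdDownOpQC732 F → RegSuppC F → RegSupp0C ℚ → PreGeoQRC732 P F
    supplyQSC29_of_constr732 : SetupQRC60 F → ProjC F → (∀ n, ProjQC962 n) → GlobQC732 F Mt
                           → ConstrQRC732 P F Mt → RegSuppC F → RegSupp0C ℚ
                           → (2 leaves in operator form + 6 leaves of the second cut)
                           → H29.SupplyQSC P F                (FORM OF RECORD, VERBATIM)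
    traceWordsQRegP_of_constr732 : … → T7.TraceWordsQRegP P F     (the quadratic step, VERBATIM)

* **`GlobQC732 F Mt`** (NODE, `SupplyQGeoSpec.lean`): UNCHANGED (the matching theorem holds for
  every common part; the local matching at the ramified place is part of `Mt`).
* **`ConstrQRC732 P F Mt`** (NODE OF RECORD = the construction): `ConstrQ60C732` for the common
  parts with `3 ∈ S`.  `ConstrQ60C732` (all common parts) is NOT used.
* **`PreGeoQRC732 P F`** (intermediate node of record): `PreGeoQ60C732` for the common parts with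
  `3 ∈ S`.
-/

set_option autoImplicit false

open AutomorphicForm IsDedekindDomain NumberField MeasureTheory
open scoped ComplexConjugate

noncomputable section

namespace Fermat.Agent.LT.T7.H732

open Fermat.Agent.LT.H556 Fermat.Agent.LT.H556.A0 Fermat.Agent.LT.T7 Fermat.Agent.LT.T7.L2Q
  Fermat.Agent.LT.T7.H893 Fermat.Agent.LT.T7.H962

attribute [local instance] Fermat.Agent.LT.T5.instMeasurableSpaceG

/-! ## 1. The nodes of record -/

section Nodes

variable (P : EKCond)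
variable (F : Type) [Field F] [NumberField F]

/-- **NODE T7.L2Q.1.G0 OF RECORD = PRE-GEO over `ℚ`** (construction + matching), for the common
parts of helper60 with `3 ∈ S`. -/
def PreGeoQRC732 : Prop :=
  HasSqrtNegThree F → IsImagQuad F →
    ∀ Φ : HeckeEigensystem F ℂ, A0.IsCuspAdelicSph0 F Φ → ConstOnFibresQ Φ → P F Φ →
      ∀ B : L2Q.H60.L2QBase F, L2Q.H60.IsL2QBase Φ B → L2Q.H60.IsRamQ60 B →
      ∀ g : G F, B.IsBad g →
        ∃ E : L2QPre732 F, IsL2QPreOp732 Φ (toBase962_732 B) g E ∧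
          IsL2QPreSupp732 (toBase962_732 B) E ∧
          ∃ m₂ : List (Gen F) → ℕ,
            ∀ (X : List (Gen F)) (k : ℤ) (m : ℕ), (∀ x ∈ X, x.Out B.S') → m₂ X ≤ m →
              IsGlobMatch ((toBase962_732 B).comp E.𝔫) (E.up (toBase962_732 B) X k m)
                (E.dsum (toBase962_732 B) X k m)

variable (Mt : MtRelQ732 F)

/-- **NODE T7.L2Q.1.H2 OF RECORD = CONSTR over `ℚ`** (the construction), for the common parts of
helper60 with `3 ∈ S`: pre-data with the operator properties and the supports whose families are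
LOCALLY matched. -/
def ConstrQRC732 : Prop :=
  HasSqrtNegThree F → IsImagQuad F →
    ∀ Φ : HeckeEigensystem F ℂ, A0.IsCuspAdelicSph0 F Φ → ConstOnFibresQ Φ → P F Φ →
      ∀ B : L2Q.H60.L2QBase F, L2Q.H60.IsL2QBase Φ B → L2Q.H60.IsRamQ60 B →
      ∀ g : G F, B.IsBad g →
        ∃ E : L2QPre732 F, IsL2QPreOp732 Φ (toBase962_732 B) g E ∧
          IsL2QPreSupp732 (toBase962_732 B) E ∧
          ∀ (X : List (Gen F)) (k : ℤ) (m : ℕ), (∀ x ∈ X, x.Out B.S') →
            Mt (toBase962_732 B) E.𝔫 (E.up (toBase962_732 B) X k m)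
              (fun n => E.down (toBase962_732 B) n X k m)

end Nodes

/-! ## 2. The tops -/

section Top

variable {P : EKCond}
variable {F : Type} [Field F] [NumberField F]
variable {Mt : MtRelQ732 F}

theorem preGeoQRC_of_preGeoQ60C732 (h : PreGeoQ60C732 P F) : PreGeoQRC732 P F :=
  fun h3 hquad Φ hΦ hconst hP B hB _ g hg => h h3 hquad Φ hΦ hconst hP B hB g hg

theorem constrQRC_of_constrQ60C732 (h : ConstrQ60C732 P F Mt) : ConstrQRC732 P F Mt :=
  fun h3 hquad Φ hΦ hconst hP B hB _ g hg => h h3 hquad Φ hΦ hconst hP B hB g hg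

/-- **THE TOP OF THE THIRD CUT, of record**: the node `PreQRC60` of helper60 (VERBATIM) from the
construction with matching and the two support leaves of helper893. -/
theorem preQRC_of_geo732 (h0 : PreGeoQRC732 P F) (hR : RegSuppC F) (hR0 : RegSupp0C ℚ) :
    L2Q.H60.PreQRC60 P F := by
  intro h3 hquad Φ hΦ hconst hPΦ B hB hram g hg
  obtain ⟨E, hOp, hSupp, m₂, hM⟩ := h0 h3 hquad Φ hΦ hconst hPΦ B hB hram g hg
  have hB' := isL2QBase962_of60_732 hB
  obtain ⟨mu, hmu⟩ := exists_depth_upQ732 hB' hg hOp hSupp hR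
  obtain ⟨md, hmd⟩ := exists_depth_downQ732 hOp hSupp hR0
  exact ⟨_, isL2QPre_of_geo732 hOp hM hmu hmd⟩

/-- **THE TOP OF THE FOURTH CUT, of record**: the construction with LOCALLY matched families and
the matching theorem give the construction with MATCHED families. -/
theorem preGeoQRC_of732 (hG : GlobQC732 F Mt) (hC : ConstrQRC732 P F Mt)
    (h1 : EkProdUpOpQC732 F) (h2 : EkProdDownOpQC732 F)
    (hR : RegSuppC F) (hR0 : RegSupp0C ℚ) : PreGeoQRC732 P F := by
  intro h3 hquad Φ hΦ hconst hPΦ B hB hram g hg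
  obtain ⟨E, hOp, hSupp, hMt⟩ := hC h3 hquad Φ hΦ hconst hPΦ B hB hram g hg
  have hB' := isL2QBase962_of60_732 hB
  obtain ⟨mu, hmu⟩ := exists_depth_upQ732 hB' hg hOp hSupp hR
  obtain ⟨md, hmd⟩ := exists_depth_downQ732 hOp hSupp hR0
  refine ⟨E, hOp, hSupp, fun X => max (mu X) (md X), fun X k m hX hm => ?_⟩
  exact hG h3 hquad Φ (toBase962_732 B) hB' E.𝔫 hOp.level_ne _ _ (hMt X k m hX)
    (h1 Φ _ hB' g hg E hOp X k m hX).1 (hmu X k m hX (le_trans (le_max_left _ _) hm))
    (fun n => (h2 Φ _ hB' g hg E hOp n X k m hX).1)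
    (fun n => hmd n X k m hX (le_trans (le_max_right _ _) hm))

/-- The node `PreQRC60` of record from the leaves and nodes of the third and fourth cut. -/
theorem preQRC_of_constr732 (hG : GlobQC732 F Mt) (hC : ConstrQRC732 P F Mt)
    (h1 : EkProdUpOpQC732 F) (h2 : EkProdDownOpQC732 F)
    (hR : RegSuppC F) (hR0 : RegSupp0C ℚ) : L2Q.H60.PreQRC60 P F :=
  preQRC_of_geo732 (preGeoQRC_of732 hG hC h1 h2 hR hR0) hR hR0

/-- **THE SUPPLY OVER `ℚ` IN THE FORM OF RECORD** (`H29.SupplyQSC P F`, VERBATIM) from the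
leaves and nodes of the four cuts. -/
theorem supplyQSC29_of_constr732 (hS : L2Q.H60.SetupQRC60 F) (hP' : H893.ProjC F)
    (hPQ : ∀ n : QWt, H962.ProjQC962 n)
    (hG : GlobQC732 F Mt) (hC : ConstrQRC732 P F Mt)
    (hR : RegSuppC F) (hR0 : RegSupp0C ℚ)
    (h1 : EkProdUpOpQC732 F) (h2 : EkProdDownOpQC732 F) (h3 : OpUpQC732 F)
    (h4 : KillUpQC732 F) (h5 : OpDownQC732 F) (h6 : ClassDownQC732 F)
    (h7 : CommDownQC732 F) (h8 : KillDownQC732 F) : H29.SupplyQSC P F :=
  L2Q.H60.supplyQSC29_of_leaves60 hS hP' hPQ (preQRC_of_constr732 hG hC h1 h2 hR hR0)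
    (ekProdUpQC_of_op732 h1) (ekProdDownQC_of_op732 h2) h3 h4 h5 h6 h7 h8

/-- **THE QUADRATIC STEP** (target `T7.TraceWordsQRegP P F`, VERBATIM) from the leaves and nodes
of the four cuts of the supply, the two core nodes upstairs, the node downstairs and the spectral
identity. -/
theorem traceWordsQRegP_of_constr732 (hS : L2Q.H60.SetupQRC60 F) (hP' : H893.ProjC F)
    (hPQ : ∀ n : QWt, H962.ProjQC962 n)
    (hG : GlobQC732 F Mt) (hC : ConstrQRC732 P F Mt)
    (hR : RegSuppC F) (hR0 : RegSupp0C ℚ)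
    (h1 : EkProdUpOpQC732 F) (h2 : EkProdDownOpQC732 F) (h3 : OpUpQC732 F)
    (h4 : KillUpQC732 F) (h5 : OpDownQC732 F) (h6 : ClassDownQC732 F)
    (h7 : CommDownQC732 F) (h8 : KillDownQC732 F)
    (hE : H29.ExpUpCoreC F) (hN : H29.NonVanCoreC F)
    (hD : L2Q.SpecDownQC F) (hI : L2Q.SpecIdQC F) : TraceWordsQRegP P F :=
  L2Q.H60.traceWordsQRegP_of_leaves60 hS hP' hPQ (preQRC_of_constr732 hG hC h1 h2 hR hR0)
    (ekProdUpQC_of_op732 h1) (ekProdDownQC_of_op732 h2) h3 h4 h5 h6 h7 h8 hE hN hD hI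

end Top

/-! ## Appendix: the equation lemmas of the definitions of this file are realised HERE -/

theorem eqns_realised_supplyQRamGeo732 : True := by
  have _h0_0 := @PreGeoQRC732.eq_1
  have _h0_1 := @PreGeoQRC732.eq_def
  have _h0_2 := @PreGeoQRC732.eq_unfold
  have _h1_0 := @ConstrQRC732.eq_1
  have _h1_1 := @ConstrQRC732.eq_def
  have _h1_2 := @ConstrQRC732.eq_unfold
  trivial

end Fermat.Agent.LT.T7.H732

end

end
-- ===== PACK-END LT/T7/H732/SupplyQRamGeo.lean

-- ===== PACK-BEGIN LT/T7/H732/SupplyQRamClosed.lean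
section





/-!
# Row LT, tower T7, node T7.L2Q.1.F0 OF RECORD `L2Q.H60.PreQRC60` (quadratic step): the tops of
# the THIRD + FOURTH CUT with the SUPPORT LEAVES DISCHARGED (helper732, registry row 2322)

OFF-MAIN.  PROVED tops only.  No hole, nothing assumed.  ADDITIVE (new names only, suffix `732`).

Referee helper739 (note 18159) / helper771: the support leaf `H893.RegSuppC` is FALSE AS TYPED
(`H771.regSuppC_false771`: the orbit may repeat).  The tops of `SupplyQPreTop.lean`,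
`SupplyQGeoTop.lean`, `SupplyQRamGeo.lean` which take `H893.RegSuppC F` are true but useless;
they are REPLACED by the tops of this file, which use the corrected and PROVED leaf
`H771.regSuppNeC771` (= `RegSuppC` + `orbit_ne`; `IsL2QBase962.orbit_ne` supplies it) and the
PROVED leaf `H771.regSupp0C771` (helper771@1ff4d7a9b, byte-identical copies):

    preQRC_of_geo_closed732    : PreGeoQRC732 P F → L2Q.H60.PreQRC60 P F           (VERBATIM)
    preGeoQRC_of_closed732     : GlobQC732 F Mt → ConstrQRC732 P F Mt → EkProdUpOpQC732 F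
                                   → EkProdDownOpQC732 F → PreGeoQRC732 P F
    preQRC_of_constr_closed732 : (the same four) → L2Q.H60.PreQRC60 P F            (VERBATIM)
    supplyQSC29_of_constr_closed732 : SetupQRC60 F → ProjC F → (∀ n, ProjQC962 n)
                                   → GlobQC732 F Mt → ConstrQRC732 P F Mt
                                   → (2 leaves in operator form + 6 leaves of the second cut)
                                   → H29.SupplyQSC P F                 (FORM OF RECORD, VERBATIM)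
    traceWordsQRegP_of_constr_closed732 : … → T7.TraceWordsQRegP P F   (the quadratic step)

The nodes (`GlobQC732`, `ConstrQRC732`) and the leaves are UNCHANGED.
-/

set_option autoImplicit false

open AutomorphicForm IsDedekindDomain NumberField MeasureTheory
open scoped ComplexConjugate

noncomputable section

namespace Fermat.Agent.LT.T7.H732

open Fermat.Agent.LT.H556 Fermat.Agent.LT.H556.A0 Fermat.Agent.LT.T7 Fermat.Agent.LT.T7.L2Q
  Fermat.Agent.LT.T7.H893 Fermat.Agent.LT.T7.H962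

attribute [local instance] Fermat.Agent.LT.T5.instMeasurableSpaceG

section Top

variable {P : EKCond}
variable {F : Type} [Field F] [NumberField F]
variable {Mt : MtRelQ732 F}

/-- **Regularity upstairs from the supports**, quadratic step, UNCONDITIONAL (the corrected
support leaf of helper771 is proved): one depth for every word. -/
theorem exists_depth_upQ_closed732 {Φ : HeckeEigensystem F ℂ} {B : L2QBase962 F}
    (hB : IsL2QBase962 Φ B) {g : G F} (hg : B.IsBad g) {E : L2QPre732 F}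
    (hOp : IsL2QPreOp732 Φ B g E) (hSupp : IsL2QPreSupp732 B E) :
    ∃ mu : List (Gen F) → ℕ, ∀ (X : List (Gen F)) (k : ℤ) (m : ℕ),
      (∀ x ∈ X, x.Out B.S') → mu X ≤ m → T5.IsTwRegular B.s 2 B.k (E.up B X k m) := by
  obtain ⟨C₂, hC₂, hφ₂⟩ := hSupp.up2_supp
  obtain ⟨C₂', hC₂', hreg⟩ := H771.regSuppNeC771 F B.𝔑₀ 2 B.o (by norm_num)
    (fun j => (hB.mem_S' _).1 (hB.orbit_level j)) hB.orbit_ne g hg.1
    (fun j hj => hg.2 (B.o j) (Or.inr ⟨j, hj, rfl⟩)) E.Hg E.H' E.z' hOp.sysg hOp.sys' hOp.unif'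
    E.φ₂ C₂ hC₂ hφ₂
  have hex : ∀ X : List (Gen F), ∃ mu : ℕ, (∀ x ∈ X, x.Out B.S') →
      ∀ (k : ℤ) (m : ℕ), mu ≤ m → T5.IsTwRegular B.s 2 B.k (E.up B X k m) := by
    intro X
    by_cases hX : ∀ x ∈ X, x.Out B.S'
    · obtain ⟨C₁, hC₁, hΦ₁⟩ := hSupp.up1_supp X hX
      obtain ⟨m₀, hm₀⟩ := T5.H32.exists_depth_conv32 hB.cyc B.o hB.orbit_rel hB.orbit_ne
        hC₁ hC₂' B.R'.μ
      exact ⟨m₀, fun _ k m hm => (hm₀ m hm (E.Φ₁ X) _ hΦ₁ (hreg k m)).1⟩
    · exact ⟨0, fun h => absurd h hX⟩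
  choose mu hmu using hex
  exact ⟨mu, fun X k m hX hm => hmu X hX k m hm⟩

/-- **Regularity downstairs from the supports**, quadratic step, UNCONDITIONAL. -/
theorem exists_depth_downQ_closed732 {Φ : HeckeEigensystem F ℂ} {B : L2QBase962 F}
    {g : G F} {E : L2QPre732 F}
    (hOp : IsL2QPreOp732 Φ B g E) (hSupp : IsL2QPreSupp732 B E) :
    ∃ md : List (Gen F) → ℕ, ∀ (n : QWt) (X : List (Gen F)) (k : ℤ) (m : ℕ),
      (∀ x ∈ X, x.Out B.S') → md X ≤ m →
        T5.IsTwRegular (T5.AdelicAut.id ℚ) 1 ⊤ (E.down B n X k m) :=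
  exists_depth_downQ732 hOp hSupp (H771.regSupp0C771 ℚ)

/-- **THE TOP OF THE THIRD CUT, of record, support leaves closed**: the node `PreQRC60` of
helper60 (VERBATIM) from the construction with matching ALONE. -/
theorem preQRC_of_geo_closed732 (h0 : PreGeoQRC732 P F) : L2Q.H60.PreQRC60 P F := by
  intro h3 hquad Φ hΦ hconst hPΦ B hB hram g hg
  obtain ⟨E, hOp, hSupp, m₂, hM⟩ := h0 h3 hquad Φ hΦ hconst hPΦ B hB hram g hg
  have hB' := isL2QBase962_of60_732 hB
  obtain ⟨mu, hmu⟩ := exists_depth_upQ_closed732 hB' hg hOp hSupp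
  obtain ⟨md, hmd⟩ := exists_depth_downQ_closed732 hOp hSupp
  exact ⟨_, isL2QPre_of_geo732 hOp hM hmu hmd⟩

/-- **THE TOP OF THE FOURTH CUT, of record, support leaves closed.** -/
theorem preGeoQRC_of_closed732 (hG : GlobQC732 F Mt) (hC : ConstrQRC732 P F Mt)
    (h1 : EkProdUpOpQC732 F) (h2 : EkProdDownOpQC732 F) : PreGeoQRC732 P F := by
  intro h3 hquad Φ hΦ hconst hPΦ B hB hram g hg
  obtain ⟨E, hOp, hSupp, hMt⟩ := hC h3 hquad Φ hΦ hconst hPΦ B hB hram g hg
  have hB' := isL2QBase962_of60_732 hB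
  obtain ⟨mu, hmu⟩ := exists_depth_upQ_closed732 hB' hg hOp hSupp
  obtain ⟨md, hmd⟩ := exists_depth_downQ_closed732 hOp hSupp
  refine ⟨E, hOp, hSupp, fun X => max (mu X) (md X), fun X k m hX hm => ?_⟩
  exact hG h3 hquad Φ (toBase962_732 B) hB' E.𝔫 hOp.level_ne _ _ (hMt X k m hX)
    (h1 Φ _ hB' g hg E hOp X k m hX).1 (hmu X k m hX (le_trans (le_max_left _ _) hm))
    (fun n => (h2 Φ _ hB' g hg E hOp n X k m hX).1)
    (fun n => hmd n X k m hX (le_trans (le_max_right _ _) hm))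

/-- The node `PreQRC60` of record from the two nodes and the two leaves in operator form. -/
theorem preQRC_of_constr_closed732 (hG : GlobQC732 F Mt) (hC : ConstrQRC732 P F Mt)
    (h1 : EkProdUpOpQC732 F) (h2 : EkProdDownOpQC732 F) : L2Q.H60.PreQRC60 P F :=
  preQRC_of_geo_closed732 (preGeoQRC_of_closed732 hG hC h1 h2)

/-- **THE SUPPLY OVER `ℚ` IN THE FORM OF RECORD** (`H29.SupplyQSC P F`, VERBATIM), support
leaves closed. -/
theorem supplyQSC29_of_constr_closed732 (hS : L2Q.H60.SetupQRC60 F) (hP' : H893.ProjC F)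
    (hPQ : ∀ n : QWt, H962.ProjQC962 n)
    (hG : GlobQC732 F Mt) (hC : ConstrQRC732 P F Mt)
    (h1 : EkProdUpOpQC732 F) (h2 : EkProdDownOpQC732 F) (h3 : OpUpQC732 F)
    (h4 : KillUpQC732 F) (h5 : OpDownQC732 F) (h6 : ClassDownQC732 F)
    (h7 : CommDownQC732 F) (h8 : KillDownQC732 F) : H29.SupplyQSC P F :=
  L2Q.H60.supplyQSC29_of_leaves60 hS hP' hPQ (preQRC_of_constr_closed732 hG hC h1 h2)
    (ekProdUpQC_of_op732 h1) (ekProdDownQC_of_op732 h2) h3 h4 h5 h6 h7 h8

/-- **THE QUADRATIC STEP** (target `T7.TraceWordsQRegP P F`, VERBATIM), support leaves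
closed. -/
theorem traceWordsQRegP_of_constr_closed732 (hS : L2Q.H60.SetupQRC60 F) (hP' : H893.ProjC F)
    (hPQ : ∀ n : QWt, H962.ProjQC962 n)
    (hG : GlobQC732 F Mt) (hC : ConstrQRC732 P F Mt)
    (h1 : EkProdUpOpQC732 F) (h2 : EkProdDownOpQC732 F) (h3 : OpUpQC732 F)
    (h4 : KillUpQC732 F) (h5 : OpDownQC732 F) (h6 : ClassDownQC732 F)
    (h7 : CommDownQC732 F) (h8 : KillDownQC732 F)
    (hE : H29.ExpUpCoreC F) (hN : H29.NonVanCoreC F)
    (hD : L2Q.SpecDownQC F) (hI : L2Q.SpecIdQC F) : TraceWordsQRegP P F :=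
  L2Q.H60.traceWordsQRegP_of_leaves60 hS hP' hPQ (preQRC_of_constr_closed732 hG hC h1 h2)
    (ekProdUpQC_of_op732 h1) (ekProdDownQC_of_op732 h2) h3 h4 h5 h6 h7 h8 hE hN hD hI

end Top

end Fermat.Agent.LT.T7.H732

end

end
-- ===== PACK-END LT/T7/H732/SupplyQRamClosed.lean

-- ===== PACK-BEGIN LT/T7/H801/SupplyQConstrSpec.lean
section






/-!
# Row LT, tower T7, node T7.L2Q.1.H2 `H732.ConstrQRC732` (quadratic step `F = ℚ(√-3)` over `ℚ`):
# FIFTH CUT over `ℚ` -- Spec (helper801, registry row 2609; live 2nd owner of row 2465)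

OFF-MAIN.  Definitions and frozen Props only (the proved tops are `SupplyQConstrTop.lean`).  No
hole, nothing assumed.  ADDITIVE (new names only, all suffixed `801`, namespace
`Fermat.Agent.LT.T7.CQ801`).  MIRROR of the fifth cut of the cubic step,
`T7/H893/SupplyConstrSpec.lean` (helper893, sha256 feb0f69771ab), on the first cut of the
matching theorem over `ℚ`, `T7/H298/MatchQSpec.lean` (helper298, sha256 53f6570a: `pureQ298`,
`LocHypQ298`, `IsMatchConstQ298`, `GlobMatchQC298`), and on the nodes of record of helper732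
(`T7/H732/SupplyQRamGeo.lean` 406b11bf: `ConstrQRC732`, `GlobQC732`).  The local vocabulary of
helper893 (`unitFn893`, `iwFn893`, `dblFn893`, `IsSphFn893`, `SphOut893`, `IsLevelOf893`) is
USED AS IT IS (`K = ℚ`, `K' = F`, `ℓ = 2`).

    globMatchQb_of801  : (the closed leaves of the first cut of helper298) → CutIntQCb801 F
                           → GlobMatchQCb801 F
    exists_goodKapQ801 : GlobMatchQCb801 F → ∃ κ, (κ nowhere zero) ∧ GoodKapQ801 κ
    globQC_of801       : GoodKapQ801 κ → AvgMatchQC801 F → H732.GlobQC732 F (MtQ801 κ)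
    constrQRC_of801    : BaseQC801 P F → ProdMtQC801 F κ → H732.ConstrQRC732 P F (MtQ801 κ)
    nodesQ_of_fifth801 : GlobMatchQCb801 F → AvgMatchQC801 F → BaseQC801 P F
                           → (∀ κ nowhere zero, ProdMtQC801 F κ)
                           → ∃ Mt, H732.GlobQC732 F Mt ∧ H732.ConstrQRC732 P F Mt

## 0. THE SPLIT CLAUSE: ONE enumeration (mirror of the v2 of helper893, audit of helper248)

`MQ298.LocHypQ298.split` (as `H305.LocHyp305.split`) asks `f₀ v = φ₀ (w 0) * φ₀ (w 1)` for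
EVERY enumeration of the two places over a split `v`, i.e. for BOTH orders of the product.  At
a BAD split place the components upstairs of the members are the double coset functions
`1_{U₀ g_w U₀}` of the bad element `g`, `g` is arbitrary at the two places, and the Hecke
algebra of level `U(ϖ^m)`, `m ≥ 1`, is not commutative (`1_{aU} * 1_{bU} = 1_{abU}` for
`a, b ∈ GL₂(ℤ_p)`): NO `f₀ v` satisfies the clause, so `H732.ConstrQRC732 P F Mt` is FALSE for
every relation `Mt` of locally matched (averages of) pure tensors in the sense of `LocHypQ298`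
as soon as `S ∖ {u}` contains a prime which splits in `F` (audit of helper248, pass 6, for the
cubic step; fix of helper893: `H893.LocHyp893`, `SupplyConstrSpec2.lean`).  So:

* `LocHypQb801` = `LocHypQ298` with the split clause for SOME enumeration (`T6.SplitMatchC`
  needs no more); all other clauses VERBATIM.
* `CutIntQCb801`, `IsMatchConstQb801`, `GlobMatchQCb801` = the nodes `CutIntQC298`,
  `IsMatchConstQ298`, `GlobMatchQC298` of helper298 for `LocHypQb801`; the top of the first cut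
  is proved again VERBATIM (`globMatchQb_of801`: the proof of helper298 does not look at the
  local hypotheses).  The second cut of helper298 (`MatchQCut.lean`) has to take the enumeration
  from the hypothesis instead of constructing one.

## 1. Why a new relation of record

The relation `MQ298.MtQ298` (helper298) consists of PURE TENSORS.  The families of the supply
are NOT pure tensors (header of helper893's fifth cut): the Eisenstein-killing functions of
the stations T3.18M / T3.18R are finite sums of pure tensors, the `♮`-projector is an average.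
So the relation of record of the construction is the closure under AVERAGES over a compact
parameter space with a finite measure: `MtQ801 κ` (finite sums = finite discrete space).  The
three functions `φ'`, `f w0`, `f w1` are averaged over THE SAME parameter space, with THE SAME
finite components downstairs for the two weights (only the components at the real place
differ: `F0` of weight `0`, `F1` of weight `-1`).

* **`AvgMatchQC801 F`** (LEAF, analysis; mirror of `H893.AvgMatchC893`): `T7.IsGlobMatch` (the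
  member upstairs against the SUM of the two members downstairs) is closed under averages.

## 2. The cut of the construction

* **`BaseQC801 P F`** (NODE; T3.18M over `F` + T3.18R over `ℚ` + T6 + `♮`): a level `𝔫`, Haar
  measures `μr` of `GL₂(ℝ)`, `μc` of `GL₂(ℂ)`, and for EVERY pair of constants `c ≠ 0`, `a ≠ 0`
  pre-data `E` of level `𝔫` with the operator properties (`H732.IsL2QPreOp732`), the supports
  (`H732.IsL2QPreSupp732`) and the LOCAL SHAPE `IsDecompQ801 μr μc c a B g E`.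
* **`ProdMtQC801 F κ`** (NODE; the calculus of pure tensors): for the level and the Haar
  measures there are constants `c ≠ 0`, `a ≠ 0` such that for all pre-data of this level with
  the local shape for `(c, a)` the members `(up, down w0, down w1)` are in the relation
  `MtQ801 κ`.

## 3. THE ARCHIMEDEAN CLAUSE (the only point where the mirror is NOT mechanical)

Cubic step: the infinite places split, the clause at infinity of `H305.LocHyp305` is "`F v` is
the convolution product of the `Φ w`", and products of matched pairs are matched because the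
bi-`U(2)`-invariant functions commute.  Quadratic step: the real place does not split,
`T6.IsArchMatch` is a GEOMETRIC relation (orbital integrals), and it is NOT formally
multiplicative.  It is multiplicative through the ABEL TRANSFORMS (`N`-integrals), which is
also the form in which the stations T3.18M / T3.18R build the components
(`AS.HasAbelN`, `R.HasAbelNR`; wiring `T3.H830.archWire830` of helper830: there is `c₀ > 0`,
depending on the Haar measures only, such that
`HasAbelN Φ β' ∧ HasAbelNR F0 (c₀ β'(·/2)) ∧ HasAbelNR F1 (c₀ β'(·/2)) ⇒ IsArchMatch μr μc Φ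
(F0 + F1)`).  So the local shape at infinity is the ABEL RELATION WITH A CONSTANT `c`
(`ArchOkQ801 c`), NOT `IsArchMatch`:

    HasAbelN (Φ w) β',  HasAbelNR F0 (halfQ801 c β'),  HasAbelNR F1 (halfQ801 c β'),  β' a
    symmetric bump;   halfQ801 c β' (x₁, x₂) = c β'(x₁/2, x₂/2)  (the same term as `half830`).

The `N`-integral of a convolution product is a constant (depending on the Haar measure) times
the convolution product of the `N`-integrals, and
`(halfQ c β₁) ⋆ (halfQ c β₂) = 4 c² halfQ 1 (β₁ ⋆ β₂)`; the mixed products `F0 ⋆ G1`, `F1 ⋆ G0`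
vanish (different weights).  So the product of a pair with constant `c` and a pair with
constant `c` is a pair with constant `4 c² K_r / K_c`, and the calculus node chooses `c` and the
constant `a` of `f₂` such that the product has the constant `c₀` of `archWire830`.  The base
node gives the pre-data FOR EVERY `(c, a)` (`R.AbelRealC`: every symmetric bump is an
`N`-integral in the weights `0, ±1`; `half_symBump830`).

FALSITY CHECKS (helper801).  (a) `IsArchMatch` is NOT part of the shape: for `c ≠ c₀` a pair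
with the Abel relation `c` is not matched, and the shape with `IsArchMatch` would be empty for
the constants which the calculus needs.  (b) The finite clauses of the partner at the bad
places are those of `LocHypQb801` for the set `T₀ ∖ {u}`; they are stated as
"`LocHypQb801` holds with SOME archimedean components" (`Φd = F0d = F1d = 0` is admissible: the
zero functions are test functions and are matched), so no clause is restated.  (c) The
ramified prime `3` is in `S` (`L2Q.H60.IsRamQ60`), so `UnramOut305 T₀` can be proved in the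
calculus node.  (d) The weights: `QWt.w0 ↦` trivial type / weight `0`, `QWt.w1 ↦ wtOne` /
weight `-1` in the convention of `T6.wtChar` (`L2Q.QWt.wt`), as in `LocHypQ298`.  (e) The
constants `c`, `a` are complex and non-zero; `c = c₀ > 0` is admissible.
-/

set_option autoImplicit false

open AutomorphicForm IsDedekindDomain NumberField MeasureTheory
open scoped ComplexConjugate

noncomputable section

namespace Fermat.Agent.LT.T7.CQ801

open Fermat.Agent.LT.H556 Fermat.Agent.LT.H556.A0 Fermat.Agent.LT.T7 Fermat.Agent.LT.T7.H305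
  Fermat.Agent.LT.T7.L2Q Fermat.Agent.LT.T7.H893 Fermat.Agent.LT.T7.H962
  Fermat.Agent.LT.T7.H732 Fermat.Agent.LT.T7.MQ298

attribute [local instance] Fermat.Agent.LT.T5.instMeasurableSpaceG

/-! ## 0. The local hypotheses with the split clause for ONE enumeration; the matching nodes -/

section Hyp

variable {F : Type} [Field F] [NumberField F]

/-- **THE LOCAL HYPOTHESES over `ℚ`, v2.**  The clauses `inv_up`, `inv_down`, `arch_up`,
`arch_down0`, `arch_down1`, `inert`, `arch` are those of `MQ298.LocHypQ298` (verbatim).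
`split`: at a place `v ∈ T` with at least two places over it there is ONE enumeration
`w 0, w 1` of the places over `v` with `w j = σ(w (j+1))` and identifications
`i j : ℚ_v ≃ F_{w j}` such that the levels agree and `f₀ v = φ₀ (w 0) * φ₀ (w 1)` (hypothesis of
`T6.SplitMatchC`). -/
structure LocHypQb801 (D : CompData ℚ F) (μr : @Measure (GL (Fin 2) ℝ) (borel _))
    (μc : @Measure (GL (Fin 2) ℂ) (borel _))
    (T : Finset (HeightOneSpectrum (𝓞 ℚ)))
    (n : HeightOneSpectrum (𝓞 F) → ℕ) (m : HeightOneSpectrum (𝓞 ℚ) → ℕ)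
    (φ₀ : ∀ w : HeightOneSpectrum (𝓞 F), GL (Fin 2) (w.adicCompletion F) → ℂ)
    (Φ : InfinitePlace F → GL (Fin 2) ℂ → ℂ)
    (f₀ : ∀ v : HeightOneSpectrum (𝓞 ℚ), GL (Fin 2) (v.adicCompletion ℚ) → ℂ)
    (F0 F1 : GL (Fin 2) ℝ → ℂ) : Prop where
  inv_up : ∀ v ∈ T, ∀ w : HeightOneSpectrum (𝓞 F), PlaceOver ℚ F v w →
    T6.IsBiInv (T6.InU (n w)) (φ₀ w) ∧ T6.HasFinSupp (T6.InU (n w)) (φ₀ w)
  inv_down : ∀ v ∈ T, T6.IsBiInv (T6.InU (m v)) (f₀ v) ∧ T6.HasFinSupp (T6.InU (m v)) (f₀ v)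
  arch_up : ∀ w : InfinitePlace F, T6.IsArchTestC (Φ w)
  arch_down0 : T6.IsArchTestR 0 F0
  arch_down1 : T6.IsArchTestR (-1) F1
  inert : ∀ v ∈ T, ∀ w : HeightOneSpectrum (𝓞 F), PlaceOver ℚ F v w →
    (∀ w' : HeightOneSpectrum (𝓞 F), PlaceOver ℚ F v w' → w' = w) →
    ∀ (e : ℕ) (i : v.adicCompletion ℚ →+* w.adicCompletion F)
      (sw : w.adicCompletion F ≃+* w.adicCompletion F),
      (∀ x : ℚ, i (algebraMap ℚ (v.adicCompletion ℚ) x)
        = algebraMap F (w.adicCompletion F) (algebraMap ℚ F x)) →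
      (∀ y : F, sw (algebraMap F (w.adicCompletion F) y)
        = algebraMap F (w.adicCompletion F) (D.s.σ y)) →
      T6.IsLocalExt (v.adicCompletion ℚ) (w.adicCompletion F) D.l e i sw →
      (∀ (δ : GL (Fin 2) (w.adicCompletion F)) (γ : GL (Fin 2) (v.adicCompletion ℚ))
          (c c' : ℂ), T6.IsReg γ →
          IsConj (T6.twNorm sw D.l δ) (Matrix.GeneralLinearGroup.map i γ) →
          T6.IsTwOrbSum sw (n w) (φ₀ w) δ c → T6.IsOrbSum (m v) (f₀ v) γ c' → c = c') ∧
        ∀ (γ : GL (Fin 2) (v.adicCompletion ℚ)) (c' : ℂ), T6.IsReg γ →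
          ¬ T6.IsNormFrom D.l i sw γ → T6.IsOrbSum (m v) (f₀ v) γ c' → c' = 0
  split : ∀ v ∈ T, (∃ w₁ w₂ : HeightOneSpectrum (𝓞 F),
      PlaceOver ℚ F v w₁ ∧ PlaceOver ℚ F v w₂ ∧ w₁ ≠ w₂) →
    ∃ (w : ℕ → HeightOneSpectrum (𝓞 F))
      (i : ∀ j : ℕ, v.adicCompletion ℚ ≃+* (w j).adicCompletion F),
      (∀ j : ℕ, PlaceOver ℚ F v (w j)) ∧ (∀ j : ℕ, T5.PlaceRel D.s (w (j + 1)) (w j)) ∧
      (∀ j : ℕ, 0 < j → j < D.l → w j ≠ w 0) ∧
      (∀ (j : ℕ) (x : ℚ), i j (algebraMap ℚ (v.adicCompletion ℚ) x)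
        = algebraMap F ((w j).adicCompletion F) (algebraMap ℚ F x)) ∧
      (∀ (j : ℕ) (x : v.adicCompletion ℚ), Valued.v (i j x) = Valued.v x) ∧
      (∀ j : ℕ, n (w j) = m v) ∧
        T6.IsConvProd (T6.InU (m v)) D.l
          (fun j g => φ₀ (w j)
            (Matrix.GeneralLinearGroup.map ((i j : v.adicCompletion ℚ ≃+* _) :
              v.adicCompletion ℚ →+* (w j).adicCompletion F) g))
          (f₀ v)
  arch : ∀ w : InfinitePlace F, T6.IsArchMatch μr μc (Φ w) (fun g => F0 g + F1 g)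

variable (F)

/-- **NODE Q2.7, v2 = CUT-INT over `ℚ`**: `MQ298.CutIntQC298` (helper298) with `LocHypQb801` in
place of `LocHypQ298`; everything else VERBATIM. -/
def CutIntQCb801 : Prop :=
  IsImagQuad F →
    ∀ D : CompData ℚ F, IsCompData D → IsCycExt ℚ F D.l → D.l = 2 →
    ∀ ι : Adl ℚ →+* Adl F, IsAdeleBase305 D.s D.l ι →
    ∀ μr : @Measure (GL (Fin 2) ℝ) (borel _), @Measure.IsHaarMeasure _ _ _ (borel _) μr →
    ∀ μc : @Measure (GL (Fin 2) ℂ) (borel _), @Measure.IsHaarMeasure _ _ _ (borel _) μc →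
    ∀ (T₀ : Finset (HeightOneSpectrum (𝓞 ℚ))), UnramOut305 (K' := F) T₀ →
    ∀ (n : HeightOneSpectrum (𝓞 F) → ℕ) (m : HeightOneSpectrum (𝓞 ℚ) → ℕ),
      IsLevelAt305 T₀ n m →
    ∃ κ : ℂ, κ ≠ 0 ∧
      ∀ (T : Finset (HeightOneSpectrum (𝓞 ℚ))) (T' : Finset (HeightOneSpectrum (𝓞 F))),
        T₀ ⊆ T → IsOver305 T T' →
      ∀ (φ₀ : ∀ w : HeightOneSpectrum (𝓞 F), GL (Fin 2) (w.adicCompletion F) → ℂ)
        (Φ : InfinitePlace F → GL (Fin 2) ℂ → ℂ)
        (f₀ : ∀ v : HeightOneSpectrum (𝓞 ℚ), GL (Fin 2) (v.adicCompletion ℚ) → ℂ)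
        (F0 F1 : GL (Fin 2) ℝ → ℂ),
        LocHypQb801 D μr μc T n m φ₀ Φ f₀ F0 F1 →
        (∀ (δ : GL (Fin 2) F) (γ : GL (Fin 2) ℚ), T6.IsEll γ →
          D.s.normUpTo D.l δ = Matrix.GeneralLinearGroup.map (algebraMap ℚ F) γ →
          ∀ (μT : @Measure (tA305 (T5.AdelicAut.id ℚ) γ) (borel _))
            (μT' : @Measure (tA305 D.s δ) (borel _)),
            @Measure.IsHaarMeasure _ _ _ (borel _) μT →
            @Measure.IsHaarMeasure _ _ _ (borel _) μT' →
            IsTorLinked305 ι D.s δ γ μT μT' →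
            ∃ β' : G F → ℝ, ∃ β : G ℚ → ℝ,
              IsCutOn305 D.s δ μT' β'
                {x | T5.twTerm D.R'.r D.s (pure305 T' φ₀ Φ) δ x ≠ 0} ∧
              IsCutOn305 (T5.AdelicAut.id ℚ) γ μT β
                {x | T5.twTerm D.R.r (T5.AdelicAut.id ℚ)
                  (pureQ298 T f₀ (fun g => F0 g + F1 g)) γ x ≠ 0} ∧
              cutInt305 D.R'.r D.s (pure305 T' φ₀ Φ) δ D.R'.μ β'
                = κ * cutInt305 D.R.r (T5.AdelicAut.id ℚ)
                    (pureQ298 T f₀ (fun g => F0 g + F1 g)) γ D.R.μ β) ∧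
        ∀ γ : GL (Fin 2) ℚ, T6.IsEll γ → (¬ ∃ δ : GL (Fin 2) F, IsNormOf D δ γ) →
          ∀ μT : @Measure (tA305 (T5.AdelicAut.id ℚ) γ) (borel _),
            @Measure.IsHaarMeasure _ _ _ (borel _) μT →
            ∃ β : G ℚ → ℝ,
              IsCutOn305 (T5.AdelicAut.id ℚ) γ μT β
                {x | T5.twTerm D.R.r (T5.AdelicAut.id ℚ)
                  (pureQ298 T f₀ (fun g => F0 g + F1 g)) γ x ≠ 0} ∧
              cutInt305 D.R.r (T5.AdelicAut.id ℚ)
                (pureQ298 T f₀ (fun g => F0 g + F1 g)) γ D.R.μ β = 0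

/-- **`κ` IS A MATCHING CONSTANT, v2**: `MQ298.IsMatchConstQ298` with `LocHypQb801` in place of
`LocHypQ298`. -/
def IsMatchConstQb801 (D : CompData ℚ F) (μr : @Measure (GL (Fin 2) ℝ) (borel _))
    (μc : @Measure (GL (Fin 2) ℂ) (borel _)) (T₀ : Finset (HeightOneSpectrum (𝓞 ℚ)))
    (n : HeightOneSpectrum (𝓞 F) → ℕ) (m : HeightOneSpectrum (𝓞 ℚ) → ℕ) (κ : ℂ) : Prop :=
  ∀ (T : Finset (HeightOneSpectrum (𝓞 ℚ))) (T' : Finset (HeightOneSpectrum (𝓞 F))),
    T₀ ⊆ T → IsOver305 T T' →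
  ∀ (φ₀ : ∀ w : HeightOneSpectrum (𝓞 F), GL (Fin 2) (w.adicCompletion F) → ℂ)
    (Φ : InfinitePlace F → GL (Fin 2) ℂ → ℂ)
    (f₀ : ∀ v : HeightOneSpectrum (𝓞 ℚ), GL (Fin 2) (v.adicCompletion ℚ) → ℂ)
    (F0 F1 : GL (Fin 2) ℝ → ℂ),
    LocHypQb801 D μr μc T n m φ₀ Φ f₀ F0 F1 →
    ∀ (φ' : G F → ℂ) (f0 f1 : G ℚ → ℂ),
      (∀ h : G F, φ' h = pure305 T' φ₀ Φ h) →
      (∀ h : G ℚ, f0 h = κ * pureQ298 T f₀ F0 h) →
      (∀ h : G ℚ, f1 h = κ * pureQ298 T f₀ F1 h) →
      T5.IsTestFn D.𝔑 T5.trivType φ' →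
      Continuous f0 → HasCompactSupport f0 → Continuous f1 → HasCompactSupport f1 →
      IsGlobMatch D φ' (fun x => f0 x + f1 x)

/-- **THE NODE Q2, v2 = GLOBAL MATCHING FROM LOCAL MATCHING over `ℚ`**
(`MQ298.GlobMatchQC298` for `LocHypQb801`: ONE enumeration at the split places). -/
def GlobMatchQCb801 : Prop :=
  IsImagQuad F →
    ∀ D : CompData ℚ F, IsCompData D → IsCycExt ℚ F D.l → D.l = 2 →
    ∀ μr : @Measure (GL (Fin 2) ℝ) (borel _), @Measure.IsHaarMeasure _ _ _ (borel _) μr →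
    ∀ μc : @Measure (GL (Fin 2) ℂ) (borel _), @Measure.IsHaarMeasure _ _ _ (borel _) μc →
    ∀ (T₀ : Finset (HeightOneSpectrum (𝓞 ℚ))), UnramOut305 (K' := F) T₀ →
    ∀ (n : HeightOneSpectrum (𝓞 F) → ℕ) (m : HeightOneSpectrum (𝓞 ℚ) → ℕ),
      IsLevelAt305 T₀ n m →
    ∃ κ : ℂ, κ ≠ 0 ∧ IsMatchConstQb801 F D μr μc T₀ n m κ

end Hyp

/-! ## 1. Averages of pure tensors over `ℚ`, the relation of record -/

section Avg

variable (F : Type) [Field F] [NumberField F]

/-- The type of the local conditions on the components of a triple of pure tensors. -/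
abbrev LocCondQ801 : Type :=
  Finset (HeightOneSpectrum (𝓞 ℚ)) →
    (∀ w : HeightOneSpectrum (𝓞 F), GL (Fin 2) (w.adicCompletion F) → ℂ) →
    (InfinitePlace F → GL (Fin 2) ℂ → ℂ) →
    (∀ v : HeightOneSpectrum (𝓞 ℚ), GL (Fin 2) (v.adicCompletion ℚ) → ℂ) →
    (GL (Fin 2) ℝ → ℂ) → (GL (Fin 2) ℝ → ℂ) → Prop

/-- The type of the constants of the matching theorem over `ℚ`. -/
abbrev KapFnQ801 : Type :=
  CompData ℚ F → @Measure (GL (Fin 2) ℝ) (borel _) → @Measure (GL (Fin 2) ℂ) (borel _) →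
    Finset (HeightOneSpectrum (𝓞 ℚ)) →
    (HeightOneSpectrum (𝓞 F) → ℕ) → (HeightOneSpectrum (𝓞 ℚ) → ℕ) → ℂ

variable {F}

/-- **AVERAGE OF PURE TENSORS over `ℚ`.**  `φ'` (over `F`) and `f0`, `f1` (over `ℚ`, types `w0`,
`w1`) are the integrals over a compact (Hausdorff, second countable) parameter space `Ω` with a
finite measure `ν` of pure tensors `pure305 (T' a) …`, resp. `c · pureQ298 (T a) (f₀ a) (F0 a)`,
`c · pureQ298 (T a) (f₀ a) (F1 a)` (THE SAME finite components for the two weights), whose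
components satisfy the local condition `L` for every parameter; every member is a test function
of the level (and of its type), the members are jointly continuous and supported in one compact
set. -/
def IsAvgPureQ801 (𝔑 : Ideal (𝓞 F)) (𝔫 : Ideal (𝓞 ℚ)) (T₀ : Finset (HeightOneSpectrum (𝓞 ℚ)))
    (L : LocCondQ801 F) (c : ℂ) (φ' : G F → ℂ) (f0 f1 : G ℚ → ℂ) : Prop :=
  ∃ (Ω : Type) (_ : TopologicalSpace Ω) (_ : CompactSpace Ω) (_ : T2Space Ω)
    (_ : SecondCountableTopology Ω) (_ : MeasurableSpace Ω)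
    (_ : BorelSpace Ω) (ν : Measure Ω) (_ : IsFiniteMeasure ν)
    (T : Ω → Finset (HeightOneSpectrum (𝓞 ℚ))) (T' : Ω → Finset (HeightOneSpectrum (𝓞 F)))
    (φ₀ : Ω → ∀ w : HeightOneSpectrum (𝓞 F), GL (Fin 2) (w.adicCompletion F) → ℂ)
    (Φ : Ω → InfinitePlace F → GL (Fin 2) ℂ → ℂ)
    (f₀ : Ω → ∀ v : HeightOneSpectrum (𝓞 ℚ), GL (Fin 2) (v.adicCompletion ℚ) → ℂ)
    (F0 F1 : Ω → GL (Fin 2) ℝ → ℂ),
    (∀ a : Ω, T₀ ⊆ T a ∧ IsOver305 (T a) (T' a) ∧
      L (T a) (φ₀ a) (Φ a) (f₀ a) (F0 a) (F1 a)) ∧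
    (∀ a : Ω, T5.IsTestFn 𝔑 T5.trivType (pure305 (T' a) (φ₀ a) (Φ a))) ∧
    (∀ a : Ω, T5.IsTestFn 𝔫 QWt.w0.type (fun h => c * pureQ298 (T a) (f₀ a) (F0 a) h)) ∧
    (∀ a : Ω, T5.IsTestFn 𝔫 QWt.w1.type (fun h => c * pureQ298 (T a) (f₀ a) (F1 a) h)) ∧
    Continuous (fun p : Ω × G F => pure305 (T' p.1) (φ₀ p.1) (Φ p.1) p.2) ∧
    Continuous (fun p : Ω × G ℚ => c * pureQ298 (T p.1) (f₀ p.1) (F0 p.1) p.2) ∧
    Continuous (fun p : Ω × G ℚ => c * pureQ298 (T p.1) (f₀ p.1) (F1 p.1) p.2) ∧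
    (∃ C : Set (G F), IsCompact C ∧
      ∀ (a : Ω) (h : G F), pure305 (T' a) (φ₀ a) (Φ a) h ≠ 0 → h ∈ C) ∧
    (∃ C : Set (G ℚ), IsCompact C ∧
      ∀ (a : Ω) (h : G ℚ), pureQ298 (T a) (f₀ a) (F0 a) h ≠ 0 → h ∈ C) ∧
    (∃ C : Set (G ℚ), IsCompact C ∧
      ∀ (a : Ω) (h : G ℚ), pureQ298 (T a) (f₀ a) (F1 a) h ≠ 0 → h ∈ C) ∧
    (∀ h : G F, φ' h = ∫ a, pure305 (T' a) (φ₀ a) (Φ a) h ∂ν) ∧
    (∀ h : G ℚ, f0 h = ∫ a, c * pureQ298 (T a) (f₀ a) (F0 a) h ∂ν) ∧
    ∀ h : G ℚ, f1 h = ∫ a, c * pureQ298 (T a) (f₀ a) (F1 a) h ∂ν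

/-- **THE RELATION OF RECORD of the quadratic step**: averages of locally matched pure tensors
(local matching in the form of T6 / T6inf: `LocHypQb801`), with the constant `κ` of the
matching theorem downstairs. -/
def MtQ801 (κ : KapFnQ801 F) : H732.MtRelQ732 F := fun B 𝔫 φ' f =>
  ∃ (μr : @Measure (GL (Fin 2) ℝ) (borel _)) (μc : @Measure (GL (Fin 2) ℂ) (borel _))
    (T₀ : Finset (HeightOneSpectrum (𝓞 ℚ)))
    (n : HeightOneSpectrum (𝓞 F) → ℕ) (m : HeightOneSpectrum (𝓞 ℚ) → ℕ),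
    @Measure.IsHaarMeasure _ _ _ (borel _) μr ∧ @Measure.IsHaarMeasure _ _ _ (borel _) μc ∧
      UnramOut305 (K' := F) T₀ ∧ IsLevelAt305 T₀ n m ∧
      IsAvgPureQ801 (upI (K' := F) 𝔫) 𝔫 T₀
        (fun T φ₀ Φ f₀ F0 F1 => LocHypQb801 (B.comp 𝔫) μr μc T n m φ₀ Φ f₀ F0 F1)
        (κ (B.comp 𝔫) μr μc T₀ n m) φ' (f QWt.w0) (f QWt.w1)

/-- `κ` is a family of constants of the matching theorem over `ℚ` (`GlobMatchQCb801` with the
constant chosen). -/
def GoodKapQ801 (κ : KapFnQ801 F) : Prop :=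
  IsImagQuad F →
    ∀ D : CompData ℚ F, IsCompData D → IsCycExt ℚ F D.l → D.l = 2 →
    ∀ μr : @Measure (GL (Fin 2) ℝ) (borel _), @Measure.IsHaarMeasure _ _ _ (borel _) μr →
    ∀ μc : @Measure (GL (Fin 2) ℂ) (borel _), @Measure.IsHaarMeasure _ _ _ (borel _) μc →
    ∀ (T₀ : Finset (HeightOneSpectrum (𝓞 ℚ))), UnramOut305 (K' := F) T₀ →
    ∀ (n : HeightOneSpectrum (𝓞 F) → ℕ) (m : HeightOneSpectrum (𝓞 ℚ) → ℕ),
      IsLevelAt305 T₀ n m →
      IsMatchConstQb801 F D μr μc T₀ n m (κ D μr μc T₀ n m)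

variable (F)

/-- **LEAF T7.L2Q.1.H1b = AVG-MATCH over `ℚ` (analysis; closure of the matching under
averages).**  Let `(φs a, fs0 a, fs1 a)`, `a ∈ Ω` (compact, Hausdorff, second countable, finite
measure `ν`), be test functions (trivial type upstairs, types `w0`, `w1` downstairs), jointly
continuous in `(a, h)` and supported in one compact set, such that `φs a` is MATCHED with
`fs0 a + fs1 a` for every `a`.  Then the average of the `φs a` is matched with the sum of the
averages of the `fs0 a` and of the `fs1 a`.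
Proof: as `H893.AvgMatchC893` (`twTerm` of the average is the average of the `twTerm`s, Fubini
on `F_δ × Ω`, domination by `M · twTerm(1_C)`; the orbital integral of `1_C` at an elliptic
regular element converges); downstairs additivity of the integral for the two summands.  The
proof does not use the `K_∞`-types. -/
def AvgMatchQC801 : Prop :=
  IsImagQuad F →
    ∀ D : CompData ℚ F, IsCompData D → IsCycExt ℚ F D.l → D.l = 2 →
    ∀ (Ω : Type) (_ : TopologicalSpace Ω) (_ : CompactSpace Ω) (_ : T2Space Ω)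
      (_ : SecondCountableTopology Ω) (_ : MeasurableSpace Ω)
      (_ : BorelSpace Ω) (ν : Measure Ω) (_ : IsFiniteMeasure ν)
      (φs : Ω → G F → ℂ) (fs0 fs1 : Ω → G ℚ → ℂ),
      (∀ a : Ω, T5.IsTestFn D.𝔑 T5.trivType (φs a)) →
      (∀ a : Ω, T5.IsTestFn D.𝔫 QWt.w0.type (fs0 a)) →
      (∀ a : Ω, T5.IsTestFn D.𝔫 QWt.w1.type (fs1 a)) →
      Continuous (fun p : Ω × G F => φs p.1 p.2) →
      Continuous (fun p : Ω × G ℚ => fs0 p.1 p.2) →
      Continuous (fun p : Ω × G ℚ => fs1 p.1 p.2) →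
      (∃ C : Set (G F), IsCompact C ∧ ∀ (a : Ω) (h : G F), φs a h ≠ 0 → h ∈ C) →
      (∃ C : Set (G ℚ), IsCompact C ∧ ∀ (a : Ω) (h : G ℚ), fs0 a h ≠ 0 → h ∈ C) →
      (∃ C : Set (G ℚ), IsCompact C ∧ ∀ (a : Ω) (h : G ℚ), fs1 a h ≠ 0 → h ∈ C) →
      (∀ a : Ω, IsGlobMatch D (φs a) (fun x => fs0 a x + fs1 a x)) →
      IsGlobMatch D (fun h => ∫ a, φs a h ∂ν)
        (fun x => (∫ a, fs0 a x ∂ν) + ∫ a, fs1 a x ∂ν)

end Avg

/-! ## 2. The local shape of the pre-data -/

section Shape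

variable {F : Type} [Field F] [NumberField F]

/-- `(x₁, x₂) ↦ c β'(x₁/2, x₂/2)` (the same term as `T3.H830.half830` of helper830). -/
def halfQ801 (c : ℂ) (β' : ℝ × ℝ → ℂ) : ℝ × ℝ → ℂ := fun p => c * β' ((2 : ℝ)⁻¹ • p)

/-- **The components AT INFINITY, quadratic step**: test functions (bi-`U(2)`-invariant
upstairs, of weight `0` and `-1` downstairs) in the ABEL RELATION with the constant `c`: the
`N`-integral of `Φ w` is a symmetric bump `β'` and the `N`-integrals of `F0`, `F1` are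
`c β'(·/2)`.  See the header, section 3. -/
def ArchOkQ801 (c : ℂ) (Φ : InfinitePlace F → GL (Fin 2) ℂ → ℂ)
    (F0 F1 : GL (Fin 2) ℝ → ℂ) : Prop :=
  (∀ w : InfinitePlace F, T6.IsArchTestC (Φ w)) ∧ T6.IsArchTestR 0 F0 ∧
    T6.IsArchTestR (-1) F1 ∧
    ∀ w : InfinitePlace F, ∃ β' : ℝ × ℝ → ℂ, T3.AS.IsSymBump β' ∧ T3.AS.HasAbelN (Φ w) β' ∧
      T3.R.HasAbelNR F0 (halfQ801 c β') ∧ T3.R.HasAbelNR F1 (halfQ801 c β')

/-- **THE LOCAL SHAPE OF THE FIRST TRIPLE** `(Φ₁ X, F₁ w0 X, F₁ w1 X)`: UNIT components at the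
places of the level, spherical matched components outside (Satake form, `ℓ = 2`), components
in the Abel relation `c` at infinity. -/
def LocAQ801 (c : ℂ) (T₀ : Finset (HeightOneSpectrum (𝓞 ℚ)))
    (n : HeightOneSpectrum (𝓞 F) → ℕ) (m : HeightOneSpectrum (𝓞 ℚ) → ℕ) : LocCondQ801 F :=
  fun T φ₀ Φ f₀ F0 F1 =>
    (∀ v ∈ T₀, f₀ v = unitFn893 (m v)) ∧
    (∀ v ∈ T₀, ∀ w : HeightOneSpectrum (𝓞 F), PlaceOver ℚ F v w → φ₀ w = unitFn893 (n w)) ∧
    SphOut893 (K := ℚ) (K' := F) 2 T₀ T φ₀ f₀ ∧ ArchOkQ801 c Φ F0 F1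

open Classical in
/-- **THE LOCAL SHAPE OF THE SECOND TRIPLE** `(φ₂, f₂ w0, f₂ w1)` for the bad element `g`.
* bad places `v ∈ T₀`, `v ≠ u`: upstairs the unit `1_{U₀}` of the BASE level (`n₀`);
  downstairs a PARTNER of the double coset function `1_{U₀ g_w U₀}`: the FINITE clauses of
  `LocHypQb801` for the set `T₀ ∖ {u}` and the double coset functions upstairs (stated as:
  `LocHypQb801` holds with some archimedean components; at a bad split place the convolution
  product in ONE order);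
* the place `u` and the places over it: the indicator functions of the Iwahori subgroups;
* outside the level and at infinity: as for the first triple. -/
def LocBQ801 (B : L2QBase962 F) (g : G F) (𝔫 : Ideal (𝓞 ℚ))
    (μr : @Measure (GL (Fin 2) ℝ) (borel _)) (μc : @Measure (GL (Fin 2) ℂ) (borel _))
    (c : ℂ) (T₀ : Finset (HeightOneSpectrum (𝓞 ℚ)))
    (n n₀ : HeightOneSpectrum (𝓞 F) → ℕ) (m : HeightOneSpectrum (𝓞 ℚ) → ℕ) : LocCondQ801 F :=
  fun T φ₀ Φ f₀ F0 F1 =>
    (∃ (Φd : InfinitePlace F → GL (Fin 2) ℂ → ℂ) (F0d F1d : GL (Fin 2) ℝ → ℂ),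
      LocHypQb801 (B.comp 𝔫) μr μc (T₀.erase B.u) n m
        (fun w => dblFn893 (n₀ w) (finGL305 w g)) Φd f₀ F0d F1d) ∧
    (∀ v ∈ T₀, v ≠ B.u → ∀ w : HeightOneSpectrum (𝓞 F), PlaceOver ℚ F v w →
      φ₀ w = unitFn893 (n₀ w)) ∧
    f₀ B.u = iwFn893 ∧
    (∀ w : HeightOneSpectrum (𝓞 F), PlaceOver ℚ F B.u w → φ₀ w = iwFn893) ∧
    SphOut893 (K := ℚ) (K' := F) 2 T₀ T φ₀ f₀ ∧ ArchOkQ801 c Φ F0 F1

/-- **THE LOCAL SHAPE OF THE PRE-DATA over `ℚ`** (for the Haar measures `μr`, `μc`, the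
constant `c` of the Abel relation and the constant `a` of `f₂ w0`, `f₂ w1`). -/
def IsDecompQ801 (μr : @Measure (GL (Fin 2) ℝ) (borel _))
    (μc : @Measure (GL (Fin 2) ℂ) (borel _)) (c a : ℂ) (B : L2QBase962 F) (g : G F)
    (E : L2QPre732 F) : Prop :=
  ∃ (T₀ : Finset (HeightOneSpectrum (𝓞 ℚ)))
    (n n₀ : HeightOneSpectrum (𝓞 F) → ℕ) (m : HeightOneSpectrum (𝓞 ℚ) → ℕ),
    (∀ v : HeightOneSpectrum (𝓞 ℚ), v ∈ T₀ ↔ v.asIdeal ∣ E.𝔫) ∧
    IsLevelOf893 E.𝔫 m ∧ IsLevelOf893 (upI (K' := F) E.𝔫) n ∧ IsLevelOf893 B.𝔑₀ n₀ ∧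
    (∀ X : List (Gen F), (∀ x ∈ X, x.Out B.S') →
      IsAvgPureQ801 (upI (K' := F) E.𝔫) E.𝔫 T₀ (LocAQ801 c T₀ n m) 1
        (E.Φ₁ X) (E.F₁ QWt.w0 X) (E.F₁ QWt.w1 X)) ∧
    IsAvgPureQ801 (upI (K' := F) E.𝔫) E.𝔫 T₀ (LocBQ801 B g E.𝔫 μr μc c T₀ n n₀ m) a
      E.φ₂ (E.f₂ QWt.w0) (E.f₂ QWt.w1)

end Shape

/-! ## 3. The nodes of the fifth cut over `ℚ` -/

section Nodes

variable (P : EKCond)
variable (F : Type) [Field F] [NumberField F]

/-- **NODE T7.L2Q.1.H2a = BASE over `ℚ` (T3.18M + T3.18R + T6 + `♮`; existence).**  For a common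
part of helper60 with the ramified prime (`3 ∈ S`) and one bad element `g`: a level `𝔫`, Haar
measures `μr` of `GL₂(ℝ)` and `μc` of `GL₂(ℂ)` such that for EVERY pair of constants `c ≠ 0`,
`a ≠ 0` there are pre-data of level `𝔫` with the operator properties, the supports and the
local shape.
Construction: as `H893.BaseC` (see there), with `ℓ = 2`; downstairs the Eisenstein-killing
functions of the types `w0`, `w1` of station T3.18R (`R.ekOpExistR_c`, helper14: pure tensors
`R.pureFnR` with archimedean components of weight `0`, `-1` and prescribed `N`-integral,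
`R.AbelRealC`), with THE SAME finite components for the two types; the `N`-integrals downstairs
are `halfQ801 c β'` for the `N`-integral `β'` upstairs (`half_symBump830`). -/
def BaseQC801 : Prop :=
  HasSqrtNegThree F → IsImagQuad F →
    ∀ Φ : HeckeEigensystem F ℂ, A0.IsCuspAdelicSph0 F Φ → ConstOnFibresQ Φ → P F Φ →
      ∀ B : L2Q.H60.L2QBase F, L2Q.H60.IsL2QBase Φ B → L2Q.H60.IsRamQ60 B →
      ∀ g : G F, B.IsBad g →
        ∃ (𝔫 : Ideal (𝓞 ℚ)) (μr : @Measure (GL (Fin 2) ℝ) (borel _))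
          (μc : @Measure (GL (Fin 2) ℂ) (borel _)),
          @Measure.IsHaarMeasure _ _ _ (borel _) μr ∧
          @Measure.IsHaarMeasure _ _ _ (borel _) μc ∧
          ∀ c a : ℂ, c ≠ 0 → a ≠ 0 → ∃ E : L2QPre732 F, E.𝔫 = 𝔫 ∧
            IsL2QPreOp732 Φ (toBase962_732 B) g E ∧ IsL2QPreSupp732 (toBase962_732 B) E ∧
            IsDecompQ801 μr μc c a (toBase962_732 B) g E

/-- **NODE T7.L2Q.1.H2b = PROD-MT over `ℚ` (the calculus of pure tensors).**  For a common part
with the ramified prime, a bad element, a level and Haar measures of `GL₂(ℝ)`, `GL₂(ℂ)` there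
are constants `c ≠ 0`, `a ≠ 0` such that for all pre-data of this level with the operator
properties and the local shape for `(c, a)` the members of the families are in the relation
`MtQ801 κ`.
Proof: as `H893.ProdMtC` at the finite places (`ℓ = 2`; the ramified place is a place with ONE
place over it); at infinity the Abel relation is multiplicative up to a constant (header,
section 3), the mixed products of different weights vanish, and
`T3.H830.archWire830` gives `T6.IsArchMatch` for the products when `c`, `a` are chosen well. -/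
def ProdMtQC801 (κ : KapFnQ801 F) : Prop :=
  HasSqrtNegThree F → IsImagQuad F →
    ∀ (Φ : HeckeEigensystem F ℂ) (B : L2Q.H60.L2QBase F), L2Q.H60.IsL2QBase Φ B →
    L2Q.H60.IsRamQ60 B → ∀ g : G F, B.IsBad g →
    ∀ (𝔫 : Ideal (𝓞 ℚ)) (μr : @Measure (GL (Fin 2) ℝ) (borel _))
      (μc : @Measure (GL (Fin 2) ℂ) (borel _)),
      @Measure.IsHaarMeasure _ _ _ (borel _) μr → @Measure.IsHaarMeasure _ _ _ (borel _) μc →
      ∃ c a : ℂ, c ≠ 0 ∧ a ≠ 0 ∧
        ∀ E : L2QPre732 F, E.𝔫 = 𝔫 → IsL2QPreOp732 Φ (toBase962_732 B) g E →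
          IsDecompQ801 μr μc c a (toBase962_732 B) g E →
          ∀ (X : List (Gen F)) (k : ℤ) (m : ℕ), (∀ x ∈ X, x.Out B.S') →
            MtQ801 κ (toBase962_732 B) 𝔫 (E.up (toBase962_732 B) X k m)
              (fun n => E.down (toBase962_732 B) n X k m)

end Nodes

/-! ## Appendix: the equation lemmas of the definitions of this file are realised HERE -/

theorem eqns_realised_supplyQConstr801 : True := by
  have _h0 := @IsAvgPureQ801.eq_1
  have _h1 := @MtQ801.eq_1
  have _h2 := @GoodKapQ801.eq_1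
  have _h3 := @AvgMatchQC801.eq_1
  have _h4 := @halfQ801.eq_1
  have _h5 := @ArchOkQ801.eq_1
  have _h6 := @LocAQ801.eq_1
  have _h7 := @LocBQ801.eq_1
  have _h8 := @IsDecompQ801.eq_1
  have _h9 := @BaseQC801.eq_1
  have _h10 := @ProdMtQC801.eq_1
  have _h11 := @CutIntQCb801.eq_1
  have _h12 := @IsMatchConstQb801.eq_1
  have _h13 := @GlobMatchQCb801.eq_1
  have _g0 := @IsAvgPureQ801.eq_def
  have _g1 := @MtQ801.eq_def
  have _g2 := @GoodKapQ801.eq_def
  have _g3 := @AvgMatchQC801.eq_def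
  have _g4 := @halfQ801.eq_def
  have _g5 := @ArchOkQ801.eq_def
  have _g6 := @LocAQ801.eq_def
  have _g7 := @LocBQ801.eq_def
  have _g8 := @IsDecompQ801.eq_def
  have _g9 := @BaseQC801.eq_def
  have _g10 := @ProdMtQC801.eq_def
  have _g11 := @CutIntQCb801.eq_def
  have _g12 := @IsMatchConstQb801.eq_def
  have _g13 := @GlobMatchQCb801.eq_def
  trivial

end Fermat.Agent.LT.T7.CQ801

end

end
-- ===== PACK-END LT/T7/H801/SupplyQConstrSpec.lean

-- ===== PACK-BEGIN LT/T7/H801/SupplyQConstrTop.lean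
section




/-!
# Row LT, tower T7, node T7.L2Q.1.H2 `H732.ConstrQRC732` (quadratic step): FIFTH CUT over `ℚ`
# -- proved tops (helper801, registry row 2609)

OFF-MAIN.  No hole, nothing assumed.  ADDITIVE.  Mirror of `T7/H893/SupplyConstrTop.lean`.

    globMatchQb_of801  : IotaQC298 F → UnfoldGC298 ℚ → UnfoldC305 F → TorCommC305 ℚ →
                           TorCommC305 F → TwistRepC305 F → EllRegC305 ℚ F → TorHaarC305 ℚ →
                           TorMeasQC298 F → TorCompQC298 F → CutIntQCb801 F → GlobMatchQCb801 F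
    exists_goodKapQ801 : GlobMatchQCb801 F → ∃ κ, (κ nowhere zero) ∧ GoodKapQ801 κ
    globQC_of801       : GoodKapQ801 κ → AvgMatchQC801 F → H732.GlobQC732 F (MtQ801 κ)
    constrQRC_of801    : BaseQC801 P F → ProdMtQC801 F κ → H732.ConstrQRC732 P F (MtQ801 κ)
    nodesQ_of_fifth801 : GlobMatchQCb801 F → AvgMatchQC801 F → BaseQC801 P F
                           → (∀ κ nowhere zero, ProdMtQC801 F κ)
                           → ∃ Mt, H732.GlobQC732 F Mt ∧ H732.ConstrQRC732 P F Mt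
    preGeoQRC_of_fifth801 : (the same leaves) → EkProdUpOpQC732 F → EkProdDownOpQC732 F
                           → RegSuppC F → RegSupp0C ℚ → H732.PreGeoQRC732 P F
-/

set_option autoImplicit false

open AutomorphicForm IsDedekindDomain NumberField MeasureTheory
open scoped ComplexConjugate

noncomputable section

namespace Fermat.Agent.LT.T7.CQ801

open Fermat.Agent.LT.H556 Fermat.Agent.LT.H556.A0 Fermat.Agent.LT.T7 Fermat.Agent.LT.T7.H305
  Fermat.Agent.LT.T7.L2Q Fermat.Agent.LT.T7.H893 Fermat.Agent.LT.T7.H962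
  Fermat.Agent.LT.T7.H732 Fermat.Agent.LT.T7.MQ298

attribute [local instance] Fermat.Agent.LT.T5.instMeasurableSpaceG

section Top

variable {P : EKCond}
variable {F : Type} [Field F] [NumberField F]

/-- **THE TOP OF THE FIRST CUT over `ℚ`, v2**: global matching from local matching with the
split clause for ONE enumeration.  The proof is the proof of `MQ298.globMatchQ_of298`
(helper298), verbatim: it does not look at the local hypotheses. -/
theorem globMatchQb_of801 (hι : IotaQC298 F) (hU : UnfoldGC298 ℚ) (hU' : UnfoldC305 F)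
    (hTc : TorCommC305 ℚ) (hTc' : TorCommC305 F)
    (hRep : TwistRepC305 F) (hEll : EllRegC305 ℚ F) (hHaar : TorHaarC305 ℚ)
    (hMeas : TorMeasQC298 F) (hComp : TorCompQC298 F) (hCut : CutIntQCb801 F) :
    GlobMatchQCb801 F := by
  intro hF D hD hcyc hl μr hμr μc hμc T₀ hram n m hlev
  obtain ⟨ι, hιD⟩ := hι hF D hD hcyc hl
  obtain ⟨κ₀, hκ₀, hC⟩ := hCut hF D hD hcyc hl ι hιD μr hμr μc hμc T₀ hram n m hlev
  have hl0 : ((D.l : ℕ) : ℂ) ≠ 0 := by
    exact_mod_cast hcyc.prime.ne_zero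
  refine ⟨κ₀ / (D.l : ℂ), div_ne_zero hκ₀ hl0, ?_⟩
  intro T T' hTT hT' φ₀ Φ f₀ F0 F1 hloc φ' f0 f1 hφ' hf0 hf1 htφ' hc0 hs0 hc1 hs1
  obtain ⟨hnorm, hnon⟩ := hC T T' hTT hT' φ₀ Φ f₀ F0 F1 hloc
  have eφ' : φ' = pure305 T' φ₀ Φ := funext hφ'
  have ef : (fun x => f0 x + f1 x)
      = fun h => κ₀ / (D.l : ℂ) * pureQ298 T f₀ (fun g => F0 g + F1 g) h :=
    sum_eq_pureQ298 T f₀ F0 F1 _ f0 f1 hf0 hf1
  have hκ : κ₀ / (D.l : ℂ) ≠ 0 := div_ne_zero hκ₀ hl0
  have hcont : Continuous (fun x => f0 x + f1 x) := hc0.add hc1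
  have hsupp : HasCompactSupport (fun x => f0 x + f1 x) := hs0.add hs1
  constructor
  · intro δ γ hγ hN Fδ Fγ hFδ hFγ
    obtain ⟨δ₁, Fδ₁, hN₁, hFδ₁, hint⟩ :=
      hRep D.R' hD.frame' D.s D.l D.k D.𝔑 hD.cyc hD.aut δ
        (Matrix.GeneralLinearGroup.map (algebraMap ℚ F) γ) hN Fδ hFδ
    rw [← hint φ']
    obtain ⟨μT, μT', hμT, hμT', hlink⟩ := hMeas hF D hD hcyc hl ι hιD δ₁ γ hγ hN₁
    obtain ⟨β', β, hβ', hβ, hCI⟩ := hnorm δ₁ γ hγ hN₁ μT μT' hμT hμT' hlink
    have hreg := hEll D hD γ hγ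
    have e1 := hU' D.R' hD.frame' D.s D.l D.k D.𝔑 hD.cyc hD.aut δ₁
      (by rw [hN₁]; exact hreg.1) φ' htφ' Fδ₁ hFδ₁
      (hTc' D.R' hD.frame' D.s D.l D.k D.𝔑 hD.cyc hD.aut δ₁ (by rw [hN₁]; exact hreg.1))
      μT' hμT' β' (by rw [eφ']; exact hβ')
    have e2 := hU D.R hD.frame (T5.AdelicAut.id ℚ) 1 ⊤ D.𝔫 T5.isCyclicOfDegree_id
      (T5.autPreserves_id D.𝔫 D.R.μ D.R.r) γ hreg.2 (fun x => f0 x + f1 x) hcont hsupp Fγ hFγ
      (hTc D.R hD.frame (T5.AdelicAut.id ℚ) 1 ⊤ D.𝔫 T5.isCyclicOfDegree_id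
        (T5.autPreserves_id D.𝔫 D.R.μ D.R.r) γ hreg.2)
      μT hμT β
      (by rw [ef, supp_const_mul305 _ _ hκ]; exact hβ)
    have e3 := hComp hF D hD hcyc hl ι hιD δ₁ γ hγ hN₁ Fδ₁ Fγ hFδ₁ hFγ μT μT' hμT hμT' hlink
    rw [e1, e2, e3, eφ', hCI, ef, cutInt_const_mul305, ENNReal.toReal_mul]
    simp only [ENNReal.toReal_natCast]
    push_cast
    field_simp
  · intro γ hγ hno Fγ hFγ
    obtain ⟨μT, hμT⟩ := hHaar (T5.AdelicAut.id ℚ) γ
    obtain ⟨β, hβ, hCI⟩ := hnon γ hγ hno μT hμT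
    have hreg := hEll D hD γ hγ
    have e2 := hU D.R hD.frame (T5.AdelicAut.id ℚ) 1 ⊤ D.𝔫 T5.isCyclicOfDegree_id
      (T5.autPreserves_id D.𝔫 D.R.μ D.R.r) γ hreg.2 (fun x => f0 x + f1 x) hcont hsupp Fγ hFγ
      (hTc D.R hD.frame (T5.AdelicAut.id ℚ) 1 ⊤ D.𝔫 T5.isCyclicOfDegree_id
        (T5.autPreserves_id D.𝔫 D.R.μ D.R.r) γ hreg.2)
      μT hμT β
      (by rw [ef, supp_const_mul305 _ _ hκ]; exact hβ)
    rw [e2, ef, cutInt_const_mul305, hCI]
    simp

/-- The hypotheses on the arguments of the constant of the matching theorem over `ℚ`. -/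
def KapHypQ801 (D : CompData ℚ F) (μr : @Measure (GL (Fin 2) ℝ) (borel _))
    (μc : @Measure (GL (Fin 2) ℂ) (borel _)) (T₀ : Finset (HeightOneSpectrum (𝓞 ℚ)))
    (n : HeightOneSpectrum (𝓞 F) → ℕ) (m : HeightOneSpectrum (𝓞 ℚ) → ℕ) : Prop :=
  IsImagQuad F ∧ IsCompData D ∧ IsCycExt ℚ F D.l ∧ D.l = 2 ∧
    @Measure.IsHaarMeasure _ _ _ (borel _) μr ∧ @Measure.IsHaarMeasure _ _ _ (borel _) μc ∧
    UnramOut305 (K' := F) T₀ ∧ IsLevelAt305 T₀ n m

/-- **The constants of the matching theorem over `ℚ`, chosen**: nowhere zero and good. -/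
theorem exists_goodKapQ801 (hG : GlobMatchQCb801 F) :
    ∃ κ : KapFnQ801 F, (∀ D μr μc T₀ n m, κ D μr μc T₀ n m ≠ 0) ∧ GoodKapQ801 κ := by
  classical
  have hex : ∀ (D : CompData ℚ F) (μr : @Measure (GL (Fin 2) ℝ) (borel _))
      (μc : @Measure (GL (Fin 2) ℂ) (borel _)) (T₀ : Finset (HeightOneSpectrum (𝓞 ℚ)))
      (n : HeightOneSpectrum (𝓞 F) → ℕ) (m : HeightOneSpectrum (𝓞 ℚ) → ℕ),
      ∃ κ : ℂ, κ ≠ 0 ∧ (KapHypQ801 D μr μc T₀ n m → IsMatchConstQb801 F D μr μc T₀ n m κ) := by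
    intro D μr μc T₀ n m
    by_cases h : KapHypQ801 D μr μc T₀ n m
    · obtain ⟨κ, hκ, hM⟩ := hG h.1 D h.2.1 h.2.2.1 h.2.2.2.1 μr h.2.2.2.2.1 μc h.2.2.2.2.2.1
        T₀ h.2.2.2.2.2.2.1 n m h.2.2.2.2.2.2.2
      exact ⟨κ, hκ, fun _ => hM⟩
    · exact ⟨1, one_ne_zero, fun h' => absurd h' h⟩
  choose κ hκ hM using hex
  refine ⟨κ, hκ, ?_⟩
  intro hquad D hD hcyc hl μr hμr μc hμc T₀ hT₀ n m hnm
  exact hM D μr μc T₀ n m ⟨hquad, hD, hcyc, hl, hμr, hμc, hT₀, hnm⟩

/-- **THE MATCHING THEOREM over `ℚ` for the relation of record**, from the constants of the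
matching theorem for pure tensors and the closure under averages. -/
theorem globQC_of801 {κ : KapFnQ801 F} (hκ : GoodKapQ801 κ) (hA : AvgMatchQC801 F) :
    H732.GlobQC732 F (MtQ801 κ) := by
  intro _ hquad Φ B hB 𝔫 h𝔫 φ' f hMt _ _ _ _
  have hD : IsCompData (B.comp 𝔫) := isCompData_comp298 hB h𝔫
  have hcyc : IsCycExt ℚ F (B.comp 𝔫).l := isCycExt_of_imagQuad298 hquad
  have hl : (B.comp 𝔫).l = 2 := rfl
  obtain ⟨μr, μc, T₀, n, m, hμr, hμc, hT₀, hnm, Ω, iT, iC, i2, iS, iM, iB, ν, iF, T, T', φ₀,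
    Φc, f₀, F0, F1, hL, ht', ht0, ht1, hc', hc0, hc1, hs', hs0, hs1, hφ', hf0, hf1⟩ := hMt
  have hmatch : ∀ a : Ω, IsGlobMatch (B.comp 𝔫) (pure305 (T' a) (φ₀ a) (Φc a))
      (fun x => κ (B.comp 𝔫) μr μc T₀ n m * pureQ298 (T a) (f₀ a) (F0 a) x
        + κ (B.comp 𝔫) μr μc T₀ n m * pureQ298 (T a) (f₀ a) (F1 a) x) := fun a =>
    hκ hquad (B.comp 𝔫) hD hcyc hl μr hμr μc hμc T₀ hT₀ n m hnm (T a) (T' a) (hL a).1
      (hL a).2.1 (φ₀ a) (Φc a) (f₀ a) (F0 a) (F1 a) (hL a).2.2 _ _ _ (fun _ => rfl)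
      (fun _ => rfl) (fun _ => rfl) (ht' a) (ht0 a).cont (ht0 a).supp (ht1 a).cont
      (ht1 a).supp
  have hs0' : ∃ C : Set (G ℚ), IsCompact C ∧ ∀ (a : Ω) (h : G ℚ),
      κ (B.comp 𝔫) μr μc T₀ n m * pureQ298 (T a) (f₀ a) (F0 a) h ≠ 0 → h ∈ C := by
    obtain ⟨C, hC, hCs⟩ := hs0
    exact ⟨C, hC, fun a h hne => hCs a h (right_ne_zero_of_mul hne)⟩
  have hs1' : ∃ C : Set (G ℚ), IsCompact C ∧ ∀ (a : Ω) (h : G ℚ),
      κ (B.comp 𝔫) μr μc T₀ n m * pureQ298 (T a) (f₀ a) (F1 a) h ≠ 0 → h ∈ C := by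
    obtain ⟨C, hC, hCs⟩ := hs1
    exact ⟨C, hC, fun a h hne => hCs a h (right_ne_zero_of_mul hne)⟩
  have key := hA hquad (B.comp 𝔫) hD hcyc hl Ω iT iC i2 iS iM iB ν iF
    (fun a => pure305 (T' a) (φ₀ a) (Φc a))
    (fun a h => κ (B.comp 𝔫) μr μc T₀ n m * pureQ298 (T a) (f₀ a) (F0 a) h)
    (fun a h => κ (B.comp 𝔫) μr μc T₀ n m * pureQ298 (T a) (f₀ a) (F1 a) h)
    ht' ht0 ht1 hc' hc0 hc1 hs' hs0' hs1' hmatch
  have e1 : φ' = fun h => ∫ a, pure305 (T' a) (φ₀ a) (Φc a) h ∂ν := funext hφ'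
  have e2 : (fun x => f QWt.w0 x + f QWt.w1 x)
      = fun x => (∫ a, κ (B.comp 𝔫) μr μc T₀ n m * pureQ298 (T a) (f₀ a) (F0 a) x ∂ν)
        + ∫ a, κ (B.comp 𝔫) μr μc T₀ n m * pureQ298 (T a) (f₀ a) (F1 a) x ∂ν := by
    funext x
    rw [hf0 x, hf1 x]
  rw [e1, e2]
  exact key

/-- **THE TOP OF THE FIFTH CUT over `ℚ`**: the construction with families in the relation of
record from the base node and the calculus of pure tensors. -/
theorem constrQRC_of801 {κ : KapFnQ801 F} (hBase : BaseQC801 P F) (hProd : ProdMtQC801 F κ) :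
    H732.ConstrQRC732 P F (MtQ801 κ) := by
  intro h3 hquad Φ hΦ hconst hPΦ B hB hRam g hg
  obtain ⟨𝔫, μr, μc, hμr, hμc, hE⟩ := hBase h3 hquad Φ hΦ hconst hPΦ B hB hRam g hg
  obtain ⟨c, a, hc, ha, hM⟩ := hProd h3 hquad Φ B hB hRam g hg 𝔫 μr μc hμr hμc
  obtain ⟨E, h𝔫, hOp, hSupp, hDec⟩ := hE c a hc ha
  refine ⟨E, hOp, hSupp, fun X k m hX => ?_⟩
  have := hM E h𝔫 hOp hDec X k m hX
  rw [h𝔫]
  exact this

/-- **THE TWO NODES OF RECORD of the fourth cut over `ℚ`** (rows 2464, 2465), for ONE relation,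
from the leaves and nodes of the fifth cut. -/
theorem nodesQ_of_fifth801 (hG : GlobMatchQCb801 F) (hA : AvgMatchQC801 F)
    (hBase : BaseQC801 P F)
    (hProd : ∀ κ : KapFnQ801 F, (∀ D μr μc T₀ n m, κ D μr μc T₀ n m ≠ 0) → ProdMtQC801 F κ) :
    ∃ Mt : H732.MtRelQ732 F, H732.GlobQC732 F Mt ∧ H732.ConstrQRC732 P F Mt := by
  obtain ⟨κ, hκ0, hκ⟩ := exists_goodKapQ801 hG
  exact ⟨MtQ801 κ, globQC_of801 hκ hA, constrQRC_of801 hBase (hProd κ hκ0)⟩

/-- **THE NODE `PreGeoQRC732`** (construction + matching, of record) from the leaves and nodes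
of the fifth cut and the leaves of the third and fourth cut. -/
theorem preGeoQRC_of_fifth801 (hG : GlobMatchQCb801 F) (hA : AvgMatchQC801 F)
    (hBase : BaseQC801 P F)
    (hProd : ∀ κ : KapFnQ801 F, (∀ D μr μc T₀ n m, κ D μr μc T₀ n m ≠ 0) → ProdMtQC801 F κ)
    (h1 : EkProdUpOpQC732 F) (h2 : EkProdDownOpQC732 F)
    (hR : RegSuppC F) (hR0 : RegSupp0C ℚ) : H732.PreGeoQRC732 P F := by
  obtain ⟨Mt, hGl, hC⟩ := nodesQ_of_fifth801 hG hA hBase hProd
  exact preGeoQRC_of732 hGl hC h1 h2 hR hR0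

end Top

end Fermat.Agent.LT.T7.CQ801

end

end
-- ===== PACK-END LT/T7/H801/SupplyQConstrTop.lean

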